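import Mathlib
import Fermat.Prelude.Def_GroupCohomology_ContinuousUnramified
import Fermat.Agent.S05.h26_Inertia
import Fermat.Agent.S13.h24_Unram

/-!
# S55, block UNRAM: fields that are `IsUnramifiedOutside S` in the frozen sense

Pure valuation-subring arguments on `AlgebraicClosure ℚ`:

* `h85_inertia_fix_root` : separable reduction ⟹ inertia fixes the root;
* `h85_unram_rootOfUnity` : `ℚ(ζ)` is unramified outside `S` when `ζ ^ m = 1`, primes of `m` in `S`;
* `h85_unram_kummer` : Kummer extensions `E(α)`, `α ^ m ∈ E`, `m ∣ v(α ^ m)` outside `S`;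
* `h85_unram_map`, `h85_unram_normalClosure` : conjugates and normal closures;
* `h85_exists_level` : the base level `ℚ(M, μ_p)` from the frozen hypotheses of S55.
-/

set_option autoImplicit false

namespace Fermat.Agent.S55

open scoped Pointwise
open Fermat.Agent.S05 Fermat.Agent.S13

/-! ### Valuation-subring helpers -/

section Val

variable {L : Type*} [Field L]

theorem h85_val_eq_one_iff (A : ValuationSubring L) (x : L) :
    A.valuation x = 1 ↔ x ∈ A ∧ x ∉ A.nonunits := by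
  rw [ValuationSubring.mem_nonunits_iff, ← A.valuation_le_one_iff]
  constructor
  · intro h
    exact ⟨h.le, by rw [h]; exact lt_irrefl _⟩
  · rintro ⟨h1, h2⟩
    exact le_antisymm h1 (not_lt.mp h2)

theorem h85_val_pow_eq_one (A : ValuationSubring L) (x : L) {m : ℕ} (hm : m ≠ 0)
    (h : A.valuation x ^ m = 1) : A.valuation x = 1 := by
  rcases lt_trichotomy (A.valuation x) 1 with h1 | h1 | h1
  · exact absurd h (ne_of_lt (pow_lt_one₀ zero_le h1 hm))
  · exact h1
  · exact absurd h (ne_of_gt (one_lt_pow₀ h1 hm))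

end Val

/-! ### (U1) separable reduction ⟹ inertia fixes the root -/

section U1

variable {K L : Type*} [Field K] [Field L] [Algebra K L]

/-- **(U1)** Let `σ` be in the inertia group of `A`, `f ∈ A[X]` with `σ`-fixed coefficients and
`x ∈ A` a root of `f` such that `f'(x)` is a unit of `A`. Then `σ x = x`. -/
theorem h85_inertia_fix_root (A : ValuationSubring L) {σ : L ≃ₐ[K] L}
    (hσ : σ ∈ A.inertiaSubgroupIn K) (f : Polynomial A)
    (hf : ∀ i, σ (f.coeff i : L) = (f.coeff i : L))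
    (x : A) (hx : f.eval x = 0) (hd : ((f.derivative.eval x : A) : L) ∉ A.nonunits) :
    σ (x : L) = x := by
  have hy : σ (x : L) ∈ A := h26_mem_of_mem_inertia A hσ x.2
  set y : A := ⟨σ (x : L), hy⟩ with hydef
  -- `f y = 0`
  have h1 : (f.eval₂ A.subtype (σ (x : L))) = σ (f.eval₂ A.subtype (x : L)) := by
    rw [Polynomial.eval₂_eq_sum_range, Polynomial.eval₂_eq_sum_range, map_sum]
    refine Finset.sum_congr rfl fun i _ => ?_
    rw [map_mul, map_pow]
    congr 1
    exact (hf i).symm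
  have h2 : f.eval₂ A.subtype (x : L) = 0 := by
    have := Polynomial.eval₂_at_apply (p := f) A.subtype x
    rw [ValuationSubring.subtype_apply] at this
    rw [this, hx]
    rfl
  have h3 : f.eval y = 0 := by
    have := Polynomial.eval₂_at_apply (p := f) A.subtype y
    rw [ValuationSubring.subtype_apply] at this
    have h4 : ((f.eval y : A) : L) = 0 := by
      rw [← ValuationSubring.subtype_apply, ← this, hydef]
      show f.eval₂ A.subtype (σ (x : L)) = 0
      rw [h1, h2, map_zero]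
    exact_mod_cast h4
  -- Taylor expansion
  obtain ⟨a, ha⟩ := Polynomial.binomExpansion f x (y - x)
  rw [add_sub_cancel, h3, hx, zero_add] at ha
  by_contra hne
  have hne' : y - x ≠ 0 := by
    intro h0
    apply hne
    have h' : (y : L) = (x : L) := congrArg Subtype.val (sub_eq_zero.mp h0)
    exact h'
  have h5 : f.derivative.eval x = -(a * (y - x)) := by
    have h6 : (y - x) * (f.derivative.eval x + a * (y - x)) = 0 := by
      rw [ha]; ring
    rcases mul_eq_zero.mp h6 with h7 | h7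
    · exact absurd h7 hne'
    · exact eq_neg_of_add_eq_zero_left h7
  apply hd
  rw [h5]
  have h8 : ((y - x : A) : L) ∈ A.nonunits := by
    have := h26_sub_mem_nonunits_of_mem_inertia A hσ x.2
    simpa [hydef] using this
  have h9 : ((-(a * (y - x)) : A) : L) = -((a : L) * ((y - x : A) : L)) := by
    push_cast; ring
  rw [h9]
  exact h24_neg_mem_nonunits A (h24_mul_mem_nonunits A a.2 h8)

end U1

/-! ### The field fixed by one automorphism -/

section Fix

variable {K L : Type*} [Field K] [Field L] [Algebra K L]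

/-- The subfield of elements fixed by `σ`. -/
noncomputable def h85_fix (σ : L ≃ₐ[K] L) : IntermediateField K L :=
  IntermediateField.fixedField (Subgroup.zpowers σ)

theorem h85_mem_fix (σ : L ≃ₐ[K] L) (x : L) : x ∈ h85_fix σ ↔ σ x = x := by
  rw [h85_fix, IntermediateField.mem_fixedField_iff]
  constructor
  · intro h
    exact h σ (Subgroup.mem_zpowers σ)
  · intro h τ hτ
    have hle : Subgroup.zpowers σ ≤ MulAction.stabilizer (L ≃ₐ[K] L) x :=
      (Subgroup.zpowers_le).mpr (by rw [MulAction.mem_stabilizer_iff]; exact h)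
    have := hle hτ
    rw [MulAction.mem_stabilizer_iff] at this
    exact this

theorem h85_mem_fixingSubgroup_iff (F : IntermediateField K L) (σ : L ≃ₐ[K] L) :
    σ ∈ F.fixingSubgroup ↔ F ≤ h85_fix σ := by
  rw [IntermediateField.mem_fixingSubgroup_iff]
  constructor
  · intro h x hx
    exact (h85_mem_fix σ x).mpr (h x hx)
  · intro h x hx
    exact (h85_mem_fix σ x).mp (h hx)

end Fix

/-! ### Roots of unity and Kummer generators are fixed by inertia -/

section Gen

variable {K L : Type*} [Field K] [Field L] [Algebra K L]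

/-- Inertia above `q` fixes every root `β` of `X ^ m - u`, for `q ∤ m` and `u` a `σ`-fixed unit
of `A`. -/
theorem h85_inertia_fix_pow_root (A : ValuationSubring L) {q : ℕ} (hq : q.Prime)
    (hA : A.LiesOverPrime q) {σ : L ≃ₐ[K] L} (hσ : σ ∈ A.inertiaSubgroupIn K)
    {m : ℕ} (hm : ¬ q ∣ m) (β : L) (hu : A.valuation (β ^ m) = 1) (hfix : σ (β ^ m) = β ^ m) :
    σ β = β := by
  have hm0 : m ≠ 0 := by
    rintro rfl
    exact hm (dvd_zero q)
  have hvβ : A.valuation β = 1 := by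
    rw [map_pow] at hu
    exact h85_val_pow_eq_one A β hm0 hu
  have hβA : β ∈ A := ((h85_val_eq_one_iff A β).mp hvβ).1
  have huA : β ^ m ∈ A := A.pow_mem hβA m
  have hvm : A.valuation (m : L) = 1 := by
    rw [h85_val_eq_one_iff]
    exact ⟨h26_natCast_mem A m, fun h => hm ((h26_natCast_mem_nonunits_iff A hq hA m).mp h)⟩
  set f : Polynomial A := Polynomial.X ^ m - Polynomial.C ⟨β ^ m, huA⟩ with hfdef
  have hcoeff : ∀ i, σ (f.coeff i : L) = (f.coeff i : L) := by
    intro i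
    rw [hfdef, Polynomial.coeff_sub, Polynomial.coeff_X_pow, Polynomial.coeff_C]
    split_ifs <;> simp [hfix]
  have hroot : f.eval (⟨β, hβA⟩ : A) = 0 := by
    rw [hfdef, Polynomial.eval_sub, Polynomial.eval_pow, Polynomial.eval_X, Polynomial.eval_C]
    apply Subtype.ext
    simp
  have hder : ((f.derivative.eval (⟨β, hβA⟩ : A) : A) : L) = (m : L) * β ^ (m - 1) := by
    rw [hfdef, Polynomial.derivative_sub, Polynomial.derivative_X_pow, Polynomial.derivative_C,
      sub_zero, Polynomial.eval_mul, Polynomial.eval_pow, Polynomial.eval_X,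
      Polynomial.eval_C]
    simp
  have hd : ((f.derivative.eval (⟨β, hβA⟩ : A) : A) : L) ∉ A.nonunits := by
    rw [hder]
    have : A.valuation ((m : L) * β ^ (m - 1)) = 1 := by
      rw [map_mul, map_pow, hvm, hvβ, one_pow, one_mul]
    exact ((h85_val_eq_one_iff A _).mp this).2
  exact h85_inertia_fix_root A hσ f hcoeff ⟨β, hβA⟩ hroot hd

/-- Inertia above `q` fixes every `m`-th root of unity, `q ∤ m`. -/
theorem h85_inertia_fix_rootOfUnity (A : ValuationSubring L) {q : ℕ} (hq : q.Prime)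
    (hA : A.LiesOverPrime q) {σ : L ≃ₐ[K] L} (hσ : σ ∈ A.inertiaSubgroupIn K)
    {m : ℕ} (hm : ¬ q ∣ m) (ζ : L) (hζ : ζ ^ m = 1) : σ ζ = ζ := by
  refine h85_inertia_fix_pow_root A hq hA hσ hm ζ ?_ ?_
  · rw [hζ, map_one]
  · rw [hζ, map_one]

/-- Inertia above `q` fixes a Kummer generator `α` (`α ^ m = a` fixed by `σ`, `q ∤ m`) as soon
as the valuation of `a` is the `m`-th power of the valuation of a `σ`-fixed element `b`. -/
theorem h85_inertia_fix_kummer (A : ValuationSubring L) {q : ℕ} (hq : q.Prime)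
    (hA : A.LiesOverPrime q) {σ : L ≃ₐ[K] L} (hσ : σ ∈ A.inertiaSubgroupIn K)
    {m : ℕ} (hm : ¬ q ∣ m) (α b : L) (hfix : σ (α ^ m) = α ^ m) (hb : σ b = b)
    (hval : A.valuation (α ^ m) = A.valuation b ^ m) : σ α = α := by
  have hm0 : m ≠ 0 := by
    rintro rfl
    exact hm (dvd_zero q)
  by_cases hα : α = 0
  · rw [hα, map_zero]
  have hb0 : b ≠ 0 := by
    rintro rfl
    rw [map_zero, zero_pow hm0] at hval
    exact hα (pow_eq_zero_iff hm0 |>.mp ((map_eq_zero _).mp hval))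
  have h1 : σ (α / b) = α / b := by
    refine h85_inertia_fix_pow_root A hq hA hσ hm (α / b) ?_ ?_
    · rw [div_pow, map_div₀, hval, map_pow]
      exact div_self (pow_ne_zero _ ((map_ne_zero _).mpr hb0))
    · rw [div_pow, map_div₀, hfix, map_pow, hb]
  have h2 : α = (α / b) * b := by field_simp
  rw [h2, map_mul, h1, hb]

end Gen

/-! ### `IsUnramifiedOutside S` for concrete fields -/

section QbarSec

local notation "Qbar" => AlgebraicClosure ℚ

local instance h85_isAlgebraicQbar : Algebra.IsAlgebraic ℚ (AlgebraicClosure ℚ) :=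
  AlgebraicClosure.isAlgebraic ℚ
local instance h85_isAlgClosureQbar : IsAlgClosure ℚ (AlgebraicClosure ℚ) :=
  ⟨inferInstance, inferInstance⟩
local instance h85_normalQbar : Normal ℚ (AlgebraicClosure ℚ) :=
  IsAlgClosure.normal ℚ (AlgebraicClosure ℚ)

/-- Criterion in terms of the fixed fields of inertia elements. -/
theorem h85_isUnramifiedOutside_iff (F : IntermediateField ℚ Qbar) (S : Finset Nat.Primes) :
    F.IsUnramifiedOutside S ↔ FiniteDimensional ℚ F ∧
      ∀ q : Nat.Primes, q ∉ S → ∀ A : ValuationSubring Qbar, A.LiesOverPrime (q : ℕ) →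
        ∀ σ ∈ A.inertiaSubgroupIn ℚ, F ≤ h85_fix σ := by
  constructor
  · rintro ⟨h1, h2⟩
    exact ⟨h1, fun q hq A hA σ hσ => (h85_mem_fixingSubgroup_iff F σ).mp (h2 q hq A hA hσ)⟩
  · rintro ⟨h1, h2⟩
    exact ⟨h1, fun q hq A hA σ hσ => (h85_mem_fixingSubgroup_iff F σ).mpr (h2 q hq A hA σ hσ)⟩

/-- **(U2)** `ℚ(ζ)` is unramified outside `S` when `ζ ^ m = 1` and all primes of `m ≠ 0` are in
`S`. -/
theorem h85_unram_rootOfUnity (S : Finset Nat.Primes) {m : ℕ}
    (hm : ∀ q : Nat.Primes, (q : ℕ) ∣ m → q ∈ S) (ζ : Qbar) (hζ : ζ ^ m = 1) :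
    (IntermediateField.adjoin ℚ {ζ}).IsUnramifiedOutside S := by
  rw [h85_isUnramifiedOutside_iff]
  refine ⟨IntermediateField.adjoin.finiteDimensional
    (Algebra.IsIntegral.isIntegral ζ), fun q hq A hA σ hσ => ?_⟩
  rw [IntermediateField.adjoin_le_iff]
  rintro x hx
  rw [Set.mem_singleton_iff] at hx
  subst hx
  rw [SetLike.mem_coe, h85_mem_fix]
  exact h85_inertia_fix_rootOfUnity A q.2 hA hσ (fun h => hq (hm q h)) x hζ

/-- **(U3)** Kummer extensions: if `E` is unramified outside `S`, `α ^ m ∈ E` with all primes of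
`m` in `S`, and at every valuation subring `A` above a prime outside `S` the valuation of `α ^ m`
is an `m`-th power of the valuation of an element of `E`, then `E(α)` is unramified outside
`S`. -/
theorem h85_unram_kummer (S : Finset Nat.Primes) (E : IntermediateField ℚ Qbar)
    (hE : E.IsUnramifiedOutside S) {m : ℕ}
    (hm : ∀ q : Nat.Primes, (q : ℕ) ∣ m → q ∈ S) (α : Qbar) (hα : α ^ m ∈ E)
    (hval : ∀ q : Nat.Primes, q ∉ S → ∀ A : ValuationSubring Qbar, A.LiesOverPrime (q : ℕ) →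
      ∃ b ∈ E, A.valuation (α ^ m) = A.valuation b ^ m) :
    (E ⊔ IntermediateField.adjoin ℚ {α}).IsUnramifiedOutside S := by
  have hE' := (h85_isUnramifiedOutside_iff E S).mp hE
  rw [h85_isUnramifiedOutside_iff]
  have := hE'.1
  have : FiniteDimensional ℚ (IntermediateField.adjoin ℚ {α}) :=
    IntermediateField.adjoin.finiteDimensional (Algebra.IsIntegral.isIntegral α)
  refine ⟨IntermediateField.finiteDimensional_sup _ _, fun q hq A hA σ hσ => ?_⟩
  have hEσ := hE'.2 q hq A hA σ hσ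
  refine sup_le hEσ ?_
  rw [IntermediateField.adjoin_le_iff]
  rintro x hx
  rw [Set.mem_singleton_iff] at hx
  subst hx
  rw [SetLike.mem_coe, h85_mem_fix]
  obtain ⟨b, hbE, hb⟩ := hval q hq A hA
  exact h85_inertia_fix_kummer A q.2 hA hσ (fun h => hq (hm q h)) x b
    ((h85_mem_fix σ _).mp (hEσ hα)) ((h85_mem_fix σ _).mp (hEσ hbE)) hb

/-- Special case of (U3): `α ^ m` is a unit outside `S` (p-divisibility of `S`-units). -/
theorem h85_unram_kummer_unit (S : Finset Nat.Primes) (E : IntermediateField ℚ Qbar)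
    (hE : E.IsUnramifiedOutside S) {m : ℕ}
    (hm : ∀ q : Nat.Primes, (q : ℕ) ∣ m → q ∈ S) (α : Qbar) (hα : α ^ m ∈ E)
    (hval : ∀ q : Nat.Primes, q ∉ S → ∀ A : ValuationSubring Qbar, A.LiesOverPrime (q : ℕ) →
      A.valuation (α ^ m) = 1) :
    (E ⊔ IntermediateField.adjoin ℚ {α}).IsUnramifiedOutside S :=
  h85_unram_kummer S E hE hm α hα fun q hq A hA =>
    ⟨1, E.one_mem, by rw [hval q hq A hA, map_one, one_pow]⟩

/-! ### (U4) conjugates and normal closures -/

theorem h85_mem_nonunits_smul (A : ValuationSubring Qbar)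
    (τ : Qbar ≃ₐ[ℚ] Qbar) (x : Qbar) :
    τ x ∈ (τ • A).nonunits ↔ x ∈ A.nonunits := by
  rw [ValuationSubring.mem_nonunits_iff_or, ValuationSubring.mem_nonunits_iff_or]
  have h1 : τ x = 0 ↔ x = 0 := EmbeddingLike.map_eq_zero_iff
  have h2 : (τ x)⁻¹ ∈ τ • A ↔ x⁻¹ ∈ A := by
    rw [← map_inv₀]
    exact ValuationSubring.smul_mem_pointwise_smul_iff (g := τ) (S := A) (x := x⁻¹)
  rw [h1, h2]

theorem h85_smul_liesOverPrime (A : ValuationSubring Qbar)
    (τ : Qbar ≃ₐ[ℚ] Qbar) (q : ℕ) (hA : A.LiesOverPrime q) : (τ • A).LiesOverPrime q := by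
  have := (h85_mem_nonunits_smul A τ (q : Qbar)).mpr hA
  rwa [map_natCast] at this

/-- Conjugation of inertia groups. -/
theorem h85_conj_mem_inertia (A : ValuationSubring Qbar)
    (τ σ : Qbar ≃ₐ[ℚ] Qbar) (hσ : σ ∈ A.inertiaSubgroupIn ℚ) :
    τ * σ * τ⁻¹ ∈ (τ • A).inertiaSubgroupIn ℚ := by
  apply h24_mem_inertiaSubgroupIn_Qbar
  intro b hb
  have hb' : τ⁻¹ b ∈ A := h24_integral_mem A (map_isIntegral_int τ⁻¹ hb)
  have h1 := h26_sub_mem_nonunits_of_mem_inertia A hσ hb'
  have h2 : (τ * σ * τ⁻¹) b - b = τ (σ (τ⁻¹ b) - τ⁻¹ b) := by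
    rw [map_sub, AlgEquiv.mul_apply, AlgEquiv.mul_apply]
    congr 1
    rw [AlgEquiv.aut_inv, AlgEquiv.apply_symm_apply]
  rw [h2]
  exact (h85_mem_nonunits_smul A τ _).mpr h1

/-- **(U4a)** Conjugates of a field unramified outside `S` are unramified outside `S`. -/
theorem h85_unram_map (S : Finset Nat.Primes) (F : IntermediateField ℚ Qbar)
    (hF : F.IsUnramifiedOutside S) (τ : Qbar ≃ₐ[ℚ] Qbar) :
    (F.map (τ : Qbar →ₐ[ℚ] Qbar)).IsUnramifiedOutside S := by
  rw [h85_isUnramifiedOutside_iff]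
  have := hF.1
  refine ⟨(IntermediateField.equivMap F (τ : Qbar →ₐ[ℚ] Qbar)).toLinearEquiv.finiteDimensional,
    fun q hq A hA σ hσ => ?_⟩
  rintro _ ⟨y, hy, rfl⟩
  rw [h85_mem_fix]
  have h1 : τ⁻¹ * σ * τ⁻¹⁻¹ ∈ (τ⁻¹ • A).inertiaSubgroupIn ℚ :=
    h85_conj_mem_inertia A τ⁻¹ σ hσ
  have h2 : (τ⁻¹ • A).LiesOverPrime (q : ℕ) := h85_smul_liesOverPrime A τ⁻¹ q hA
  have h3 := hF.2 q hq (τ⁻¹ • A) h2 h1
  rw [IntermediateField.mem_fixingSubgroup_iff] at h3
  have h4 := h3 y hy
  rw [inv_inv, AlgEquiv.mul_apply, AlgEquiv.mul_apply, AlgEquiv.aut_inv] at h4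
  have h5 := congrArg τ h4
  rw [AlgEquiv.apply_symm_apply] at h5
  exact h5

/-- **(U4b)** The normal closure of a field unramified outside `S` is unramified outside `S`. -/
theorem h85_unram_normalClosure (S : Finset Nat.Primes) (F : IntermediateField ℚ Qbar)
    (hF : F.IsUnramifiedOutside S) :
    (IntermediateField.normalClosure ℚ F Qbar).IsUnramifiedOutside S := by
  rw [h85_isUnramifiedOutside_iff]
  have := hF.1
  refine ⟨inferInstance, fun q hq A hA σ hσ => ?_⟩
  have hdef : IntermediateField.normalClosure ℚ F Qbar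
      = ⨆ f : Qbar ≃ₐ[ℚ] Qbar, F.map (f : Qbar →ₐ[ℚ] Qbar) :=
    IntermediateField.normalClosure_def'' (F := ℚ) (L := Qbar) F
  rw [hdef]
  refine iSup_le fun τ => ?_
  exact ((h85_isUnramifiedOutside_iff _ S).mp (h85_unram_map S F hF τ)).2 q hq A hA σ hσ

/-! ### (U5) the base level `ℚ(M, μ_p)` -/

/-- The prime `p` is the only prime dividing `p ^ n`. -/
theorem h85_primes_of_pow {p : ℕ} [Fact p.Prime] (S : Finset Nat.Primes)
    (hpS : ExtCitation.pPrime p ∈ S) (n : ℕ) :
    ∀ q : Nat.Primes, (q : ℕ) ∣ p ^ n → q ∈ S := by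
  intro q hq
  have h1 : (q : ℕ) ∣ p := q.2.dvd_of_dvd_pow hq
  have h2 : (q : ℕ) = p := (Nat.prime_dvd_prime_iff_eq q.2 Fact.out).mp h1
  have h3 : q = ExtCitation.pPrime p := Subtype.ext h2
  rw [h3]
  exact hpS

/-- `ℚ(ζ)` is unramified outside `S ∋ p` for every `p`-power root of unity `ζ`. -/
theorem h85_unram_pPowRoot {p : ℕ} [Fact p.Prime] (S : Finset Nat.Primes)
    (hpS : ExtCitation.pPrime p ∈ S) (n : ℕ) (ζ : Qbar) (hζ : ζ ^ p ^ n = 1) :
    (IntermediateField.adjoin ℚ {ζ}).IsUnramifiedOutside S :=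
  h85_unram_rootOfUnity S (h85_primes_of_pow S hpS n) ζ hζ

/-- **(U5)** The base level: from the frozen hypotheses of S55 there is a finite Galois
extension `F / ℚ` inside `Qbar`, unramified outside `S`, containing a primitive `p`-th root of
unity, whose absolute Galois group acts trivially on `M`. -/
theorem h85_exists_level {p : ℕ} [Fact p.Prime] (S : Finset Nat.Primes)
    (hpS : ExtCitation.pPrime p ∈ S)
    (M : Rep (ZMod p) (Qbar ≃ₐ[ℚ] Qbar)) [FiniteDimensional (ZMod p) M]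
    (hsm : ∀ m : M, ∃ F : IntermediateField ℚ Qbar, FiniteDimensional ℚ F ∧
      ∀ s ∈ F.fixingSubgroup, M.ρ s m = m)
    (hMur : ∀ q : Nat.Primes, q ∉ S → ∀ A : ValuationSubring Qbar,
      A.LiesOverPrime (q : ℕ) → ∀ g ∈ A.inertiaSubgroupIn ℚ, M.ρ g = 1) :
    ∃ F : IntermediateField ℚ Qbar, F.IsUnramifiedOutside S ∧ IsGalois ℚ F ∧
      (∀ s ∈ F.fixingSubgroup, M.ρ s = 1) ∧ ∃ ζ ∈ F, IsPrimitiveRoot ζ p := by
  classical
  have hMfin : Finite M := Module.finite_of_finite (ZMod p)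
  choose Fm hFm1 hFm2 using hsm
  have hFmfin : ∀ m, FiniteDimensional ℚ (Fm m) := hFm1
  set F₀ : IntermediateField ℚ Qbar := ⨆ m, Fm m with hF₀
  have hF₀fin : FiniteDimensional ℚ F₀ := IntermediateField.finiteDimensional_iSup_of_finite
  set H : Subgroup (Qbar ≃ₐ[ℚ] Qbar) := MonoidHom.ker M.ρ with hH
  have hF₀H : F₀.fixingSubgroup ≤ H := by
    intro s hs
    rw [hH, MonoidHom.mem_ker]
    ext m
    have hle : Fm m ≤ F₀ := le_iSup (fun m => Fm m) m
    have := hFm2 m s (IntermediateField.fixingSubgroup_antitone hle hs)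
    simpa using this
  have hHopen : IsOpen (H : Set (Qbar ≃ₐ[ℚ] Qbar)) :=
    Subgroup.isOpen_mono hF₀H (IntermediateField.fixingSubgroup_isOpen F₀)
  have hHclosed : IsClosed (H : Set (Qbar ≃ₐ[ℚ] Qbar)) := Subgroup.isClosed_of_isOpen H hHopen
  set K : IntermediateField ℚ Qbar := IntermediateField.fixedField H with hK
  have hKfix : K.fixingSubgroup = H :=
    InfiniteGalois.fixingSubgroup_fixedField (⟨H, hHclosed⟩ : ClosedSubgroup (Qbar ≃ₐ[ℚ] Qbar))
  have hKle : K ≤ F₀ := by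
    have h1 : IntermediateField.fixedField H ≤ IntermediateField.fixedField F₀.fixingSubgroup :=
      IntermediateField.fixedField_antitone hF₀H
    rwa [InfiniteGalois.fixedField_fixingSubgroup] at h1
  have hKfin : FiniteDimensional ℚ K :=
    FiniteDimensional.of_injective (IntermediateField.inclusion hKle).toLinearMap
      (IntermediateField.inclusion_injective hKle)
  have hKunr : K.IsUnramifiedOutside S := by
    refine ⟨hKfin, fun q hq A hA g hg => ?_⟩
    rw [hKfix, hH, MonoidHom.mem_ker]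
    exact hMur q hq A hA g hg
  have : NeZero p := ⟨(Fact.out : p.Prime).ne_zero⟩
  obtain ⟨ζ, hζ⟩ := HasEnoughRootsOfUnity.exists_primitiveRoot Qbar p
  have hζunr : (IntermediateField.adjoin ℚ {ζ}).IsUnramifiedOutside S :=
    h85_unram_pPowRoot S hpS 1 ζ (by rw [pow_one]; exact hζ.pow_eq_one)
  have hK₁unr := hKunr.sup hζunr
  set K₁ : IntermediateField ℚ Qbar := K ⊔ IntermediateField.adjoin ℚ {ζ} with hK₁
  have hFunr := h85_unram_normalClosure S K₁ hK₁unr
  refine ⟨IntermediateField.normalClosure ℚ K₁ Qbar, hFunr, ?_, ?_, ζ, ?_, hζ⟩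
  · have : FiniteDimensional ℚ (IntermediateField.normalClosure ℚ K₁ Qbar) := hFunr.1
    have hN : Normal ℚ (IntermediateField.normalClosure ℚ K₁ Qbar) :=
      normalClosure.normal ℚ K₁ Qbar
    exact ⟨⟩
  · intro s hs
    have hle : K ≤ IntermediateField.normalClosure ℚ K₁ Qbar :=
      le_trans le_sup_left (IntermediateField.le_normalClosure K₁)
    have := IntermediateField.fixingSubgroup_antitone hle hs
    rw [hKfix, hH, MonoidHom.mem_ker] at this
    exact this
  · have hle : IntermediateField.adjoin ℚ {ζ} ≤ IntermediateField.normalClosure ℚ K₁ Qbar :=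
      le_trans le_sup_right (IntermediateField.le_normalClosure K₁)
    exact hle (IntermediateField.mem_adjoin_simple_self ℚ ζ)

/-! ### The cyclotomic character and the dual twist -/

open ExtCitation in
/-- An automorphism fixing a primitive `p`-th root of unity has trivial mod-`p` cyclotomic
character. -/
theorem h85_cycloChar_eq_one {p : ℕ} [Fact p.Prime] (s : Qbar ≃ₐ[ℚ] Qbar)
    (ζ : Qbar) (hζ : IsPrimitiveRoot ζ p) (hs : s ζ = ζ) : cycloChar p s = 1 := by
  have hp : p.Prime := Fact.out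
  have : NeZero p := ⟨hp.ne_zero⟩
  have hu : IsUnit ζ := IsUnit.of_pow_eq_one hζ.pow_eq_one hp.ne_zero
  obtain ⟨t, ht⟩ := hu
  have htm : t ∈ rootsOfUnity p Qbar := by
    rw [mem_rootsOfUnity]
    exact Units.ext (by rw [Units.val_pow_eq_pow_val, ht]; simpa using hζ.pow_eq_one)
  have h := modularCyclotomicCharacter.spec Qbar (card_rootsOfUnity_eq_self p)
    (s : Qbar ≃+* Qbar) htm
  have h1 : s ζ = ζ ^ cycloExp p s := by
    rw [← ht]
    exact h
  rw [hs] at h1
  have hlt : cycloExp p s < p := by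
    rw [← val_cycloChar]
    exact ZMod.val_lt _
  have h2 : cycloExp p s = 1 := by
    have h3 : ζ ^ cycloExp p s = ζ ^ 1 := by rw [← h1, pow_one]
    exact hζ.pow_inj hlt hp.one_lt h3
  apply Units.ext
  apply ZMod.val_injective p
  rw [val_cycloChar, h2, Units.val_one]
  have : Fact (1 < p) := ⟨hp.one_lt⟩
  exact ZMod.val_one p |>.symm

open ExtCitation in
/-- If `s` and acts trivially on `M` and fixes a primitive `p`-th root of unity, it acts
trivially on the dual twist `M^*(1)`. -/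
theorem h85_dualTwist_ρ_eq_one {p : ℕ} [Fact p.Prime]
    (M : Rep (ZMod p) (Qbar ≃ₐ[ℚ] Qbar)) (s : Qbar ≃ₐ[ℚ] Qbar)
    (hM : M.ρ s = 1) (hc : cycloChar p s = 1) :
    (M.dualTwist (cycloChar p)).ρ s = 1 := by
  have hinv : M.ρ s⁻¹ = 1 := by
    have h := map_mul M.ρ s⁻¹ s
    rw [inv_mul_cancel, map_one, hM, mul_one] at h
    exact h.symm
  ext f
  rw [Rep.dualTwist_ρ_apply, hc, hinv]
  simp

open ExtCitation in
/-- **(U5b)** The base level works for `M` and for its dual twist simultaneously. -/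
theorem h85_exists_level' {p : ℕ} [Fact p.Prime] (S : Finset Nat.Primes)
    (hpS : ExtCitation.pPrime p ∈ S)
    (M : Rep (ZMod p) (Qbar ≃ₐ[ℚ] Qbar)) [FiniteDimensional (ZMod p) M]
    (hsm : ∀ m : M, ∃ F : IntermediateField ℚ Qbar, FiniteDimensional ℚ F ∧
      ∀ s ∈ F.fixingSubgroup, M.ρ s m = m)
    (hMur : ∀ q : Nat.Primes, q ∉ S → ∀ A : ValuationSubring Qbar,
      A.LiesOverPrime (q : ℕ) → ∀ g ∈ A.inertiaSubgroupIn ℚ, M.ρ g = 1) :
    ∃ F : IntermediateField ℚ Qbar, F.IsUnramifiedOutside S ∧ IsGalois ℚ F ∧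
      (∀ s ∈ F.fixingSubgroup, M.ρ s = 1) ∧
      (∀ s ∈ F.fixingSubgroup, (M.dualTwist (cycloChar p)).ρ s = 1) ∧
      (∀ s ∈ F.fixingSubgroup, cycloChar p s = 1) ∧
      ∃ ζ ∈ F, IsPrimitiveRoot ζ p := by
  obtain ⟨F, hF1, hF2, hF3, ζ, hζF, hζ⟩ := h85_exists_level S hpS M hsm hMur
  have hc : ∀ s ∈ F.fixingSubgroup, cycloChar p s = 1 := fun s hs =>
    h85_cycloChar_eq_one s ζ hζ ((IntermediateField.mem_fixingSubgroup_iff F s).mp hs ζ hζF)
  exact ⟨F, hF1, hF2, hF3, fun s hs => h85_dualTwist_ρ_eq_one M s (hF3 s hs) (hc s hs), hc,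
    ζ, hζF, hζ⟩

open ExtCitation in
/-- The frozen smoothness hypothesis passes to the dual twist. -/
theorem h85_dualTwist_hsm {p : ℕ} [Fact p.Prime] (S : Finset Nat.Primes)
    (hpS : ExtCitation.pPrime p ∈ S)
    (M : Rep (ZMod p) (Qbar ≃ₐ[ℚ] Qbar)) [FiniteDimensional (ZMod p) M]
    (hsm : ∀ m : M, ∃ F : IntermediateField ℚ Qbar, FiniteDimensional ℚ F ∧
      ∀ s ∈ F.fixingSubgroup, M.ρ s m = m)
    (hMur : ∀ q : Nat.Primes, q ∉ S → ∀ A : ValuationSubring Qbar,
      A.LiesOverPrime (q : ℕ) → ∀ g ∈ A.inertiaSubgroupIn ℚ, M.ρ g = 1) :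
    ∀ m : (M.dualTwist (cycloChar p)), ∃ F : IntermediateField ℚ Qbar,
      FiniteDimensional ℚ F ∧ ∀ s ∈ F.fixingSubgroup, (M.dualTwist (cycloChar p)).ρ s m = m := by
  obtain ⟨F, hF1, -, -, hF4, -⟩ := h85_exists_level' S hpS M hsm hMur
  intro m
  refine ⟨F, hF1.1, fun s hs => ?_⟩
  rw [hF4 s hs]
  rfl

open ExtCitation in
/-- The frozen unramifiedness hypothesis passes to the dual twist (`p ∈ S`). -/
theorem h85_dualTwist_hMur {p : ℕ} [Fact p.Prime] (S : Finset Nat.Primes)
    (hpS : ExtCitation.pPrime p ∈ S)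
    (M : Rep (ZMod p) (Qbar ≃ₐ[ℚ] Qbar))
    (hMur : ∀ q : Nat.Primes, q ∉ S → ∀ A : ValuationSubring Qbar,
      A.LiesOverPrime (q : ℕ) → ∀ g ∈ A.inertiaSubgroupIn ℚ, M.ρ g = 1) :
    ∀ q : Nat.Primes, q ∉ S → ∀ A : ValuationSubring Qbar,
      A.LiesOverPrime (q : ℕ) → ∀ g ∈ A.inertiaSubgroupIn ℚ,
        (M.dualTwist (cycloChar p)).ρ g = 1 := by
  intro q hq A hA g hg
  have hp : p.Prime := Fact.out
  have : NeZero p := ⟨hp.ne_zero⟩
  obtain ⟨ζ, hζ⟩ := HasEnoughRootsOfUnity.exists_primitiveRoot Qbar p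
  have hqp : ¬ (q : ℕ) ∣ p := by
    intro h
    have h2 : (q : ℕ) = p := (Nat.prime_dvd_prime_iff_eq q.2 hp).mp h
    exact hq ((Subtype.ext h2 : q = ExtCitation.pPrime p) ▸ hpS)
  have hfix : g ζ = ζ := h85_inertia_fix_rootOfUnity A q.2 hA hg hqp ζ hζ.pow_eq_one
  exact h85_dualTwist_ρ_eq_one M g (hMur q hq A hA g hg) (h85_cycloChar_eq_one g ζ hζ hfix)

end QbarSec

end Fermat.Agent.S55
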