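import Mathlib

/-!
# S55, block FIN-H1 (1): the Selmer group `K(S, n)` of a number field is finite

`IsDedekindDomain.selmerGroup` is Mathlib's `K⟮S, n⟯ = {x (Kˣ)ⁿ : n ∣ ord_v x for all v ∉ S}`.
Mathlib lists its finiteness as a TODO.  We prove it for a Dedekind domain with finite class group
and finite `Rˣ / (Rˣ)ⁿ`, and in particular for rings of integers of number fields.
-/

set_option autoImplicit false

open IsDedekindDomain
open scoped nonZeroDivisors

namespace Fermat.Agent.S55

section General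

variable {R : Type*} [CommRing R] [IsDedekindDomain R] {K : Type*} [Field K]
  [Algebra R K] [IsFractionRing R K]

/-- The valuation of a nonzero element of the fraction field in terms of the multiplicity of `v`
in the principal fractional ideal it generates. -/
theorem h46_valuationOfNeZero_eq_count (v : HeightOneSpectrum R) (x : Kˣ) :
    v.valuationOfNeZero x =
      Multiplicative.ofAdd (-(FractionalIdeal.count K v (FractionalIdeal.spanSingleton R⁰ (x : K)))) := by
  classical
  have hx0 : (x : K) ≠ 0 := x.ne_zero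
  set s := IsLocalization.sec R⁰ (x : K) with hs
  have hspec : (x : K) * algebraMap R K (s.2 : R) = algebraMap R K s.1 :=
    IsLocalization.sec_spec R⁰ (x : K)
  have hd0 : algebraMap R K (s.2 : R) ≠ 0 :=
    IsFractionRing.to_map_ne_zero_of_mem_nonZeroDivisors s.2.2
  have hI : FractionalIdeal.spanSingleton R⁰ (x : K) ≠ 0 :=
    FractionalIdeal.spanSingleton_ne_zero_iff.mpr hx0
  have h_aJ : FractionalIdeal.spanSingleton R⁰ (x : K) =
      FractionalIdeal.spanSingleton R⁰ ((algebraMap R K) (s.2 : R))⁻¹ *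
        ((Ideal.span {s.1} : Ideal R) : FractionalIdeal R⁰ K) := by
    rw [FractionalIdeal.coeIdeal_span_singleton, FractionalIdeal.spanSingleton_mul_spanSingleton,
      ← hspec]
    congr 1
    field_simp
  have hcount := FractionalIdeal.count_well_defined K v hI h_aJ
  rw [hcount]
  show v.valuationOfNeZeroToFun x = _
  unfold HeightOneSpectrum.valuationOfNeZeroToFun
  simp only
  congr 1
  ring

/-- Membership in the Selmer group in terms of multiplicities. -/
theorem h46_valuationOfNeZeroMod_eq_one_iff (v : HeightOneSpectrum R) (n : ℕ) (x : Kˣ) :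
    v.valuationOfNeZeroMod n (QuotientGroup.mk x : Kˣ ⧸ (powMonoidHom n : Kˣ →* Kˣ).range) = 1 ↔
      (n : ℤ) ∣ FractionalIdeal.count K v (FractionalIdeal.spanSingleton R⁰ (x : K)) := by
  have h1 : v.valuationOfNeZeroMod n
      (QuotientGroup.mk x : Kˣ ⧸ (powMonoidHom n : Kˣ →* Kˣ).range) =
      (Int.quotientZMultiplesNatEquivZMod n).toMultiplicative
        (Multiplicative.ofAdd (QuotientAddGroup.mk
          (Multiplicative.toAdd (v.valuationOfNeZero x)))) := rfl
  rw [h1, map_eq_one_iff _ (MulEquiv.injective _), ofAdd_eq_one, QuotientAddGroup.eq_zero_iff,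
    h46_valuationOfNeZero_eq_count, toAdd_ofAdd, Int.mem_zmultiples_iff, dvd_neg]

/-- A nonzero fractional ideal all of whose multiplicities are divisible by `n` is an `n`-th
power. -/
theorem h46_exists_pow_eq_of_dvd_count (n : ℕ) (hn : 0 < n) (I : FractionalIdeal R⁰ K)
    (hI : I ≠ 0) (h : ∀ v : HeightOneSpectrum R, (n : ℤ) ∣ FractionalIdeal.count K v I) :
    ∃ J : FractionalIdeal R⁰ K, J ≠ 0 ∧ J ^ n = I := by
  classical
  set e : HeightOneSpectrum R → ℤ := fun v => FractionalIdeal.count K v I / n with he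
  have hfin : ∀ᶠ v : HeightOneSpectrum R in Filter.cofinite, FractionalIdeal.count K v I = 0 :=
    FractionalIdeal.finite_factors I
  have hsupp : Function.HasFiniteMulSupport
      (fun v : HeightOneSpectrum R => (v.asIdeal : FractionalIdeal R⁰ K) ^ e v) := by
    refine Set.Finite.subset (Filter.eventually_cofinite.mp hfin) ?_
    intro v hv
    simp only [Function.mem_mulSupport, ne_eq] at hv
    simp only [Set.mem_ofPred_eq]
    intro h0
    apply hv
    simp [he, h0]
  have hpow : (∏ᶠ v : HeightOneSpectrum R, (v.asIdeal : FractionalIdeal R⁰ K) ^ e v) ^ n = I := by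
    rw [finprod_pow hsupp]
    conv_rhs => rw [← FractionalIdeal.finprod_heightOneSpectrum_factorization' K hI]
    refine finprod_congr fun v => ?_
    rw [← zpow_natCast, ← zpow_mul, he]
    congr 1
    exact Int.ediv_mul_cancel (h v)
  refine ⟨_, ?_, hpow⟩
  intro h0
  rw [h0, zero_pow hn.ne'] at hpow
  exact hI hpow.symm

/-- Two elements of `Kˣ` generating `n`-th powers of fractional ideals in the same ideal class
differ by a unit of `R` times an `n`-th power. -/
theorem h46_eq_unit_mul_pow (n : ℕ) (x x' : Kˣ) (J J' : (FractionalIdeal R⁰ K)ˣ)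
    (hJ : (J : FractionalIdeal R⁰ K) ^ n = FractionalIdeal.spanSingleton R⁰ (x : K))
    (hJ' : (J' : FractionalIdeal R⁰ K) ^ n = FractionalIdeal.spanSingleton R⁰ (x' : K))
    (hcl : ClassGroup.mk K J = ClassGroup.mk K J') :
    ∃ (u : Rˣ) (w : Kˣ), x = Units.map (algebraMap R K : R →* K) u * w ^ n * x' := by
  have h1 : ClassGroup.mk K (J * J'⁻¹) = 1 := by
    rw [map_mul, map_inv, hcl, mul_inv_cancel]
  rw [ClassGroup.mk_eq_one_iff, FractionalIdeal.isPrincipal_iff] at h1
  obtain ⟨w, hw⟩ := h1
  have hw0 : w ≠ 0 := by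
    intro h0
    rw [h0, FractionalIdeal.spanSingleton_zero] at hw
    exact (J * J'⁻¹).ne_zero hw
  have hJJ : (J : FractionalIdeal R⁰ K) = FractionalIdeal.spanSingleton R⁰ w * (J' : FractionalIdeal R⁰ K) := by
    rw [← hw, Units.val_mul, mul_assoc, ← Units.val_mul, inv_mul_cancel, Units.val_one, mul_one]
  have h2 : FractionalIdeal.spanSingleton R⁰ (x : K) =
      FractionalIdeal.spanSingleton R⁰ (w ^ n * (x' : K)) := by
    rw [← hJ, hJJ, mul_pow, hJ', FractionalIdeal.spanSingleton_pow,
      FractionalIdeal.spanSingleton_mul_spanSingleton]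
  obtain ⟨z, hz⟩ := FractionalIdeal.spanSingleton_eq_spanSingleton.mp h2
  refine ⟨z⁻¹, Units.mk0 w hw0, ?_⟩
  apply Units.ext
  simp only [Units.val_mul, Units.coe_map, MonoidHom.coe_coe, Units.val_pow_eq_pow_val,
    Units.val_mk0]
  rw [mul_assoc, ← hz, Units.smul_def, Algebra.smul_def, ← mul_assoc, ← map_mul]
  simp

/-- The Selmer group `K(∅, n)` is finite when the class group and `Rˣ / (Rˣ)ⁿ` are finite. -/
theorem h46_selmerGroup_empty_finite (n : ℕ) [Fact (0 < n)] [Finite (ClassGroup R)]
    [Finite (Rˣ ⧸ (powMonoidHom n : Rˣ →* Rˣ).range)] :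
    Finite (selmerGroup (R := R) (K := K) (S := (∅ : Set (HeightOneSpectrum R))) (n := n)) := by
  classical
  have hn : 0 < n := Fact.out
  set Q := selmerGroup (R := R) (K := K) (S := (∅ : Set (HeightOneSpectrum R))) (n := n) with hQ
  set fU : Rˣ →* Q := selmerGroup.fromUnit with hfU
  have hUfin : Finite fU.range := by
    have e := QuotientGroup.quotientKerEquivRange fU
    have hker : fU.ker = (powMonoidHom n : Rˣ →* Rˣ).range := selmerGroup.fromUnit_ker
    have : Finite (Rˣ ⧸ fU.ker) := by rw [hker]; infer_instance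
    exact Finite.of_equiv _ e.toEquiv
  have hrep : ∀ q : Q, ∃ (x : Kˣ) (J : (FractionalIdeal R⁰ K)ˣ),
      (QuotientGroup.mk x : Kˣ ⧸ (powMonoidHom n : Kˣ →* Kˣ).range) = q.1 ∧
      (J : FractionalIdeal R⁰ K) ^ n = FractionalIdeal.spanSingleton R⁰ (x : K) := by
    intro q
    obtain ⟨x, hx⟩ := QuotientGroup.mk_surjective q.1
    have hI : FractionalIdeal.spanSingleton R⁰ (x : K) ≠ 0 :=
      FractionalIdeal.spanSingleton_ne_zero_iff.mpr x.ne_zero
    obtain ⟨J, hJ0, hJ⟩ := h46_exists_pow_eq_of_dvd_count n hn _ hI (fun v => by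
      rw [← h46_valuationOfNeZeroMod_eq_one_iff, hx]
      exact q.2 v (Set.notMem_empty v))
    exact ⟨x, Units.mk0 J hJ0, hx, hJ⟩
  choose xr Jr hxr hJr using hrep
  let f : Q → ClassGroup R := fun q => ClassGroup.mk K (Jr q)
  have hkey : ∀ q q' : Q, f q = f q' → q * q'⁻¹ ∈ fU.range := by
    intro q q' hff
    obtain ⟨u, w, huw⟩ := h46_eq_unit_mul_pow n (xr q) (xr q') (Jr q) (Jr q') (hJr q) (hJr q') hff
    refine ⟨u, ?_⟩
    apply Subtype.ext
    rw [Subgroup.coe_mul, Subgroup.coe_inv, ← hxr q, ← hxr q', huw]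
    show (QuotientGroup.mk (Units.map (algebraMap R K).toMonoidHom u) :
      Kˣ ⧸ (powMonoidHom n : Kˣ →* Kˣ).range) = _
    rw [QuotientGroup.mk_mul, QuotientGroup.mk_mul, mul_inv_cancel_right]
    have hw : (QuotientGroup.mk (w ^ n) : Kˣ ⧸ (powMonoidHom n : Kˣ →* Kˣ).range) = 1 :=
      (QuotientGroup.eq_one_iff _).mpr ⟨w, rfl⟩
    rw [hw]
    exact (mul_one (QuotientGroup.mk (Units.map (algebraMap R K).toMonoidHom u) :
      Kˣ ⧸ (powMonoidHom n : Kˣ →* Kˣ).range)).symm
  let r : ClassGroup R → Q := fun c => if h : ∃ q, f q = c then h.choose else 1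
  have hr : ∀ q : Q, f (r (f q)) = f q := by
    intro q
    have h : ∃ q', f q' = f q := ⟨q, rfl⟩
    simp only [r, dif_pos h]
    exact h.choose_spec
  let Φ : Q → ClassGroup R × fU.range := fun q => (f q, ⟨q * (r (f q))⁻¹, hkey q _ (hr q).symm⟩)
  have hΦ : Function.Injective Φ := by
    intro q q' h
    have h1 : f q = f q' := congrArg Prod.fst h
    have h2 : q * (r (f q))⁻¹ = q' * (r (f q'))⁻¹ := congrArg (fun z => (z.2 : Q)) h
    rw [h1] at h2
    exact mul_right_cancel h2
  exact Finite.of_injective Φ hΦ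

/-- **Finiteness of the Selmer group** `K(S, n)` for a finite set `S` of primes of a Dedekind
domain with finite class group and finite `Rˣ / (Rˣ)ⁿ`. -/
theorem h46_selmerGroup_finite_of (S : Set (HeightOneSpectrum R)) (hS : S.Finite) (n : ℕ)
    [Fact (0 < n)] [Finite (ClassGroup R)] [Finite (Rˣ ⧸ (powMonoidHom n : Rˣ →* Rˣ).range)] :
    Finite (selmerGroup (R := R) (K := K) (S := S) (n := n)) := by
  classical
  have hn : 0 < n := Fact.out
  have : NeZero n := ⟨hn.ne'⟩
  have : Finite S := hS.to_subtype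
  have h0 := h46_selmerGroup_empty_finite (R := R) (K := K) n
  rw [MonoidHom.finite_iff_finite_ker_range
    (selmerGroup.valuation (R := R) (K := K) (S := S) (n := n))]
  refine ⟨?_, inferInstance⟩
  rw [selmerGroup.valuation_ker_eq]
  let ι : (selmerGroup (R := R) (K := K) (S := (∅ : Set (HeightOneSpectrum R))) (n := n)).subgroupOf
      (selmerGroup (R := R) (K := K) (S := S) (n := n)) →
      selmerGroup (R := R) (K := K) (S := (∅ : Set (HeightOneSpectrum R))) (n := n) :=
    fun x => ⟨x.1.1, Subgroup.mem_subgroupOf.mp x.2⟩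
  have hι : Function.Injective ι := by
    intro x y h
    apply Subtype.ext
    apply Subtype.ext
    exact congrArg (fun z => z.1) h
  exact Finite.of_injective ι hι

end General

section NumberField

open NumberField

variable (K : Type*) [Field K] [NumberField K]

/-- `(𝓞 K)ˣ / ((𝓞 K)ˣ)ⁿ` is finite. -/
theorem h46_finite_units_mod_pow (n : ℕ) [Fact (0 < n)] :
    Finite ((𝓞 K)ˣ ⧸ (powMonoidHom n : (𝓞 K)ˣ →* (𝓞 K)ˣ).range) := by
  have hn : 0 < n := Fact.out
  have : Group.FG (𝓞 K)ˣ := Group.fg_iff_monoid_fg.mpr inferInstance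
  refine CommGroup.finite_of_fg_isMulTorsion _ ?_
  intro g
  rw [isOfFinOrder_iff_pow_eq_one]
  refine ⟨n, hn, ?_⟩
  obtain ⟨u, rfl⟩ := QuotientGroup.mk_surjective g
  rw [← QuotientGroup.mk_pow]
  exact (QuotientGroup.eq_one_iff _).mpr ⟨u, rfl⟩

/-- **The Selmer group `K(S, n)` of a number field is finite** (`S` a finite set of primes,
`n > 0`). -/
theorem h46_selmerGroup_finite (S : Set (HeightOneSpectrum (𝓞 K))) (hS : S.Finite) (n : ℕ)
    [Fact (0 < n)] :
    Finite (selmerGroup (R := 𝓞 K) (K := K) (S := S) (n := n)) := by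
  have := h46_finite_units_mod_pow K n
  exact h46_selmerGroup_finite_of S hS n

end NumberField

end Fermat.Agent.S55
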