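import Mathlib
import Fermat.Prelude.Def_GroupCohomology_ContinuousUnramified
import Fermat.Agent.S13.h24_Unram
import Fermat.Agent.S14.GalVal
import Fermat.Agent.S55.h46_SelmerFinite

/-!
# S55, FIN-H1 (2): prelude-unramified implies classically unramified (Kummer form)

A *level* is an intermediate field `L` of `ℚ̄/ℚ` with `L.IsUnramifiedOutside S` (the prelude's
notion: for every valuation subring `A` of `ℚ̄` over a prime `ℓ ∉ S`, the inertia group of `A`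
fixes `L`).

* `h46_inertia_eq_bot` : the inertia group in `Gal(L/ℚ)` of the centre of such an `A` on `𝓞 L`
  is trivial (lifting of inertia, S13).
* `h46_valuation_prime` : hence `ℓ` is a uniformizer at the centre of `A` on `𝓞 L` (`e = 1`).
* `h46_kummer_val` : if `x ∈ K₀ˣ` is a `p`-th power in a level `N`, then `p ∣ ord_v(x)` for
  every prime `v` of `K₀` not over `S`.
* `h46_kummer_mem_selmer` : the class of such an `x` lies in Mathlib's Selmer group
  `K₀(S_{K₀}, p)` (which is finite: `h46_selmerGroup_finite`).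
-/

set_option autoImplicit false

open NumberField IsDedekindDomain

namespace Fermat.Agent.S55

local notation "Qbar" => AlgebraicClosure ℚ

section Centre

variable (L : IntermediateField ℚ Qbar) [NumberField L] (A : ValuationSubring Qbar)
  (P : HeightOneSpectrum (𝓞 L))

omit [NumberField L] in
theorem h46_int_mem (z : 𝓞 L) : (((z : L) : Qbar)) ∈ A :=
  Fermat.Agent.S13.h24_integral_mem A
    ((RingOfIntegers.isIntegral_coe z).map (algebraMap L Qbar).toIntAlgHom)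

omit [NumberField L] in
/-- The centre on `𝓞 L` of a valuation subring of `ℚ̄` over a prime number. -/
theorem h46_exists_centre (ℓ : ℕ) (hℓ : ℓ ≠ 0) (hA : A.LiesOverPrime ℓ) :
    ∃ P : HeightOneSpectrum (𝓞 L), ∀ z : 𝓞 L, (((z : L) : Qbar)) ∈ A.nonunits ↔ z ∈ P.asIdeal := by
  let f : 𝓞 L →+* A :=
    ((algebraMap L Qbar).comp (algebraMap (𝓞 L) L)).codRestrict A (fun z => h46_int_mem L A z)
  have hf : ∀ z : 𝓞 L, ((f z : A) : Qbar) = (((z : L) : Qbar)) := fun z => rfl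
  have hmem : ∀ z : 𝓞 L, (((z : L) : Qbar)) ∈ A.nonunits ↔
      z ∈ Ideal.comap f (IsLocalRing.maximalIdeal A) := by
    intro z
    rw [Ideal.mem_comap, ← ValuationSubring.coe_mem_nonunits_iff, hf]
  have hℓmem : ((ℓ : 𝓞 L)) ∈ Ideal.comap f (IsLocalRing.maximalIdeal A) := by
    refine (hmem _).mp ?_
    have h1 : ((((ℓ : ℕ) : 𝓞 L) : L) : Qbar) = ((ℓ : ℕ) : Qbar) := by simp
    rw [h1]
    exact hA
  have hne : Ideal.comap f (IsLocalRing.maximalIdeal A) ≠ ⊥ := by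
    intro h0
    rw [h0, Ideal.mem_bot] at hℓmem
    exact hℓ (by exact_mod_cast hℓmem)
  exact ⟨⟨Ideal.comap f (IsLocalRing.maximalIdeal A), Ideal.comap_isPrime _ _, hne⟩, hmem⟩

variable {L A P}

/-- An element of `L` which is integral at `P` lies in the valuation subring `A` centred at `P`. -/
theorem h46_mem_of_valuation_le_one
    (hP : ∀ z : 𝓞 L, (((z : L) : Qbar)) ∈ A.nonunits ↔ z ∈ P.asIdeal) (u : L)
    (hu : P.valuation L u ≤ 1) : ((u : L) : Qbar) ∈ A := by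
  obtain ⟨n, d, h⟩ := P.exists_primeCompl_mul_eq_of_integer u hu
  have hd : (d : 𝓞 L) ∉ P.asIdeal := d.2
  have hdA : ¬ ((((d : 𝓞 L) : L) : Qbar) ∈ A.nonunits) := fun hc => hd ((hP d).mp hc)
  have hdinv := Fermat.Agent.S13.h24_inv_mem A hdA
  have hd0 : (((d : 𝓞 L) : L) : Qbar) ≠ 0 := by
    intro h0
    exact hdA (h0 ▸ Fermat.Agent.S13.h24_zero_mem_nonunits A)
  have h' : ((u : L) : Qbar) * (((d : 𝓞 L) : L) : Qbar) = (((n : 𝓞 L) : L) : Qbar) := by
    have := congrArg (fun t : L => ((t : L) : Qbar)) h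
    simpa using this
  have h'' : ((u : L) : Qbar) = (((n : 𝓞 L) : L) : Qbar) * ((((d : 𝓞 L) : L) : Qbar))⁻¹ := by
    rw [← h', mul_assoc, mul_inv_cancel₀ hd0, mul_one]
  rw [h'']
  exact A.mul_mem _ _ (h46_int_mem L A n) hdinv

/-- A `P`-adic unit of `L` is a unit of the valuation subring `A` centred at `P`. -/
theorem h46_valuation_eq_one
    (hP : ∀ z : 𝓞 L, (((z : L) : Qbar)) ∈ A.nonunits ↔ z ∈ P.asIdeal) (u : L)
    (hu : P.valuation L u = 1) : A.valuation ((u : L) : Qbar) = 1 := by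
  have hu0 : u ≠ 0 := by
    rintro rfl
    rw [map_zero] at hu
    exact zero_ne_one hu
  have h1 : A.valuation ((u : L) : Qbar) ≤ 1 :=
    (A.valuation_le_one_iff _).mpr (h46_mem_of_valuation_le_one hP u hu.le)
  have h2 : A.valuation (((u⁻¹ : L) : L) : Qbar) ≤ 1 :=
    (A.valuation_le_one_iff _).mpr (h46_mem_of_valuation_le_one hP u⁻¹ (by
      rw [map_inv₀, hu, inv_one]))
  have h3 : (A.valuation ((u : L) : Qbar))⁻¹ ≤ 1 := by
    rw [← map_inv₀]
    have : (((u⁻¹ : L) : L) : Qbar) = (((u : L) : Qbar))⁻¹ := IntermediateField.coe_inv L u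
    rw [← this]
    exact h2
  have hpos : 0 < A.valuation ((u : L) : Qbar) := by
    rw [Valuation.pos_iff]
    exact fun h0 => hu0 (Subtype.ext (by simpa using h0))
  exact le_antisymm h1 ((inv_le_one₀ hpos).mp h3)

/-- If `ℓ` is a uniformizer at `P`, the valuation of `A` on `L` is determined by the `P`-adic
valuation. -/
theorem h46_valuation_eq_zpow
    (hP : ∀ z : 𝓞 L, (((z : L) : Qbar)) ∈ A.nonunits ↔ z ∈ P.asIdeal) (ℓ : ℕ)
    (hℓ : P.valuation L ((ℓ : ℕ) : L) = WithZero.exp (-1 : ℤ)) (u : L) (hu : u ≠ 0) :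
    ∃ k : ℤ, P.valuation L u = WithZero.exp (-k) ∧
      A.valuation ((u : L) : Qbar) = A.valuation ((ℓ : ℕ) : Qbar) ^ k := by
  have hℓ0 : ((ℓ : ℕ) : L) ≠ 0 := by
    intro h0
    rw [h0, map_zero] at hℓ
    exact WithZero.exp_ne_zero.symm hℓ
  have hv0 : P.valuation L u ≠ 0 := (Valuation.ne_zero_iff _).mpr hu
  refine ⟨-(P.valuation L u).log, by rw [neg_neg, WithZero.exp_log hv0], ?_⟩
  set k : ℤ := -(P.valuation L u).log with hk
  have hvk : P.valuation L u = WithZero.exp (-k) := by rw [hk, neg_neg, WithZero.exp_log hv0]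
  have h1 : P.valuation L (u * ((ℓ : ℕ) : L) ^ (-k)) = 1 := by
    rw [map_mul, map_zpow₀, hℓ, hvk, ← WithZero.exp_zsmul, ← WithZero.exp_add]
    simp
  have h2 := h46_valuation_eq_one hP _ h1
  have h3 : (((u * ((ℓ : ℕ) : L) ^ (-k) : L) : L) : Qbar) =
      ((u : L) : Qbar) * ((ℓ : ℕ) : Qbar) ^ (-k) := by
    have h4 : (((((ℓ : ℕ) : L) ^ (-k) : L) : L) : Qbar) = ((ℓ : ℕ) : Qbar) ^ (-k) := by
      have h5 := map_zpow₀ (algebraMap L Qbar) ((ℓ : ℕ) : L) (-k)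
      rw [map_natCast] at h5
      exact h5
    rw [IntermediateField.coe_mul, h4]
  rw [h3, map_mul, map_zpow₀] at h2
  have ht0 : A.valuation ((ℓ : ℕ) : Qbar) ≠ 0 := by
    rw [Valuation.ne_zero_iff]
    intro h0
    apply hℓ0
    exact_mod_cast h0
  rw [zpow_neg] at h2
  exact eq_of_mul_inv_eq_one h2   -- a * b⁻¹ = 1 → a = b

end Centre

section Inertia

variable (S : Finset Nat.Primes) (L : IntermediateField ℚ Qbar) [NumberField L]

omit [NumberField L] in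
/-- For a Galois level `L` (unramified outside `S` in the prelude's sense) and a valuation
subring `A` of `ℚ̄` over a prime `ℓ ∉ S`, the inertia group in `Gal(L/ℚ)` of the centre of `A`
on `𝓞 L` is trivial. -/
theorem h46_inertia_eq_bot (hL : L.IsUnramifiedOutside S) (A : ValuationSubring Qbar)
    (ℓ : Nat.Primes) (hℓ : ℓ ∉ S) (hA : A.LiesOverPrime (ℓ : ℕ)) (P : Ideal (𝓞 L))
    (hP : ∀ z : 𝓞 L, (((z : L) : Qbar)) ∈ A.nonunits ↔ z ∈ P) :
    Ideal.inertia Gal(L/ℚ) P = ⊥ := by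
  have hgal : IsGalois ℚ Qbar := Fermat.Agent.S13.h24_isGalois_Qbar
  rw [Subgroup.eq_bot_iff_forall]
  intro τ hτ
  let σ : Qbar ≃ₐ[ℚ] Qbar := τ.liftNormal Qbar
  have hσ : ∀ x : L, σ (x : Qbar) = ((τ x : L) : Qbar) := fun x => τ.liftNormal_commutes Qbar x
  obtain ⟨σ', hσ', h⟩ := Fermat.Agent.S13.h24_exists_inertia_lift_Qbar L A σ (by
    intro x hx hxi
    have hxi' : IsIntegral ℤ (⟨x, hx⟩ : L) :=
      (isIntegral_algHom_iff (algebraMap L Qbar).toIntAlgHom (algebraMap L Qbar).injective).mp hxi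
    let z : 𝓞 L := ⟨⟨x, hx⟩, hxi'⟩
    have h1 : τ • z - z ∈ P := hτ z
    have h2 := (hP _).mpr h1
    have h3 : ((((τ • z - z : 𝓞 L) : L)) : Qbar) = σ x - x := by
      have : σ x = ((τ ⟨x, hx⟩ : L) : Qbar) := hσ ⟨x, hx⟩
      rw [this]
      rfl
    rw [← h3]
    exact h2)
  have hfix : σ' ∈ L.fixingSubgroup := hL.2 ℓ hℓ A hA hσ'
  rw [IntermediateField.mem_fixingSubgroup_iff] at hfix
  ext x
  have := h x x.2
  rw [hfix x x.2, hσ x] at this
  simpa using this.symm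

/-- For a Galois level `L` and a valuation subring `A` of `ℚ̄` over a prime `ℓ ∉ S`, the prime
`ℓ` is a uniformizer at the centre `P` of `A` on `𝓞 L`. -/
theorem h46_valuation_prime [IsGalois ℚ L] (hL : L.IsUnramifiedOutside S) (A : ValuationSubring Qbar)
    (ℓ : Nat.Primes) (hℓ : ℓ ∉ S) (hA : A.LiesOverPrime (ℓ : ℕ)) (P : HeightOneSpectrum (𝓞 L))
    (hP : ∀ z : 𝓞 L, (((z : L) : Qbar)) ∈ A.nonunits ↔ z ∈ P.asIdeal) :
    P.valuation L (((ℓ : ℕ) : L)) = WithZero.exp (-1 : ℤ) := by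
  have hbot := h46_inertia_eq_bot S L hL A ℓ hℓ hA P.asIdeal hP
  have hℓ0 : ((ℓ : ℕ) : ℤ) ≠ 0 := by exact_mod_cast ℓ.2.ne_zero
  have hℓP : (((ℓ : ℕ) : 𝓞 L)) ∈ P.asIdeal := by
    refine (hP _).mp ?_
    have h1 : ((((ℓ : ℕ) : 𝓞 L) : L) : Qbar) = ((ℓ : ℕ) : Qbar) := by simp
    rw [h1]
    exact hA
  have hPprime : P.asIdeal.IsPrime := P.isPrime
  have hcard := Ideal.card_inertia_eq_ramificationIdxIn (G := Gal(L/ℚ)) (P.asIdeal.under ℤ)
    P.asIdeal
  have hidx := Ideal.ramificationIdxIn_eq_ramificationIdx (P.asIdeal.under ℤ) P.asIdeal Gal(L/ℚ)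
  rw [hbot, Subgroup.card_bot, hidx] at hcard
  -- the prime of `ℤ`
  have hmem : ((ℓ : ℕ) : ℤ) ∈ P.asIdeal.under ℤ := by
    rw [Ideal.under_def, Ideal.mem_comap]
    simpa using hℓP
  have hne : P.asIdeal.under ℤ ≠ ⊥ := fun h0 => hℓ0 (by rw [h0] at hmem; simpa using hmem)
  have hspan : P.asIdeal.under ℤ = Ideal.span {((ℓ : ℕ) : ℤ)} := by
    have hirr : Irreducible ((ℓ : ℕ) : ℤ) := (Nat.prime_iff_prime_int.mp ℓ.2).irreducible
    have hmax : (Ideal.span {((ℓ : ℕ) : ℤ)}).IsMaximal :=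
      PrincipalIdealRing.isMaximal_of_irreducible hirr
    exact (hmax.eq_of_le (Ideal.IsPrime.ne_top inferInstance)
      ((Ideal.span_singleton_le_iff_mem _).mpr hmem)).symm
  let v : HeightOneSpectrum ℤ := ⟨P.asIdeal.under ℤ, inferInstance, hne⟩
  have hv1 : v.intValuation ((ℓ : ℕ) : ℤ) = WithZero.exp (-1 : ℤ) :=
    v.intValuation_singleton hℓ0 hspan
  have hlo : P.asIdeal.LiesOver v.asIdeal := ⟨rfl⟩
  have h1 := HeightOneSpectrum.intValuation_liesOver v P ((ℓ : ℕ) : ℤ)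
  have h2 : v.asIdeal.ramificationIdx' P.asIdeal = P.asIdeal.ramificationIdx ℤ :=
    Ideal.ramificationIdx'_eq_ramificationIdx v.asIdeal P.asIdeal hne
  rw [h2, ← hcard, pow_one, hv1] at h1
  have h3 : (((ℓ : ℕ) : L)) = algebraMap (𝓞 L) L (algebraMap ℤ (𝓞 L) ((ℓ : ℕ) : ℤ)) := by simp
  rw [h3, HeightOneSpectrum.valuation_of_algebraMap, ← h1]

end Inertia

section Main

variable (S : Finset Nat.Primes) (K₀ N : IntermediateField ℚ Qbar)
  [NumberField K₀] [NumberField N]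

section

variable [IsGalois ℚ K₀] [IsGalois ℚ N]

/-- **Prelude-unramified implies classically unramified, Kummer form.**
Let `K₀`, `N` be levels (unramified outside `S`), `x ∈ K₀ˣ` a `p`-th power in `N`. Then the
valuation of `x` at every prime `v` of `K₀` not over `S` is divisible by `p`. -/
theorem h46_kummer_val (hK₀ : K₀.IsUnramifiedOutside S) (hN : N.IsUnramifiedOutside S)
    (p : ℕ) (hp : 0 < p) (x : K₀) (hx : x ≠ 0) (y : Qbar) (hyN : y ∈ N)
    (hy : y ^ p = (x : Qbar)) (v : HeightOneSpectrum (𝓞 K₀))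
    (hv : ∀ q : Nat.Primes, ((q : ℕ) : 𝓞 K₀) ∈ v.asIdeal → q ∉ S) :
    ∃ j : ℤ, v.valuation K₀ x = WithZero.exp (-((p : ℤ) * j)) := by
  have hvp : v.asIdeal.IsPrime := v.isPrime
  obtain ⟨A, ℓ, hℓ, hAℓ, hℓv, hA⟩ := Fermat.Agent.S14.gal_exists_valuationSubring K₀
    (algebraMap K₀ Qbar) v.asIdeal v.ne_bot
  have hPK : ∀ z : 𝓞 K₀, (((z : K₀) : Qbar)) ∈ A.nonunits ↔ z ∈ v.asIdeal := fun z => (hA z).2
  have hℓS : (⟨ℓ, hℓ⟩ : Nat.Primes) ∉ S := hv ⟨ℓ, hℓ⟩ hℓv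
  obtain ⟨P, hPN⟩ := h46_exists_centre N A ℓ hℓ.ne_zero hAℓ
  have hu1 := h46_valuation_prime S K₀ hK₀ A ⟨ℓ, hℓ⟩ hℓS hAℓ v hPK
  have hu2 := h46_valuation_prime S N hN A ⟨ℓ, hℓ⟩ hℓS hAℓ P hPN
  obtain ⟨k, hk, hk'⟩ := h46_valuation_eq_zpow hPK ℓ hu1 x hx
  have hy0 : (⟨y, hyN⟩ : N) ≠ 0 := by
    intro h0
    have : y = 0 := congrArg Subtype.val h0
    rw [this, zero_pow hp.ne'] at hy
    exact hx (Subtype.ext (by simpa using hy.symm))
  obtain ⟨j, hj, hj'⟩ := h46_valuation_eq_zpow hPN ℓ hu2 ⟨y, hyN⟩ hy0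
  have ht1 : A.valuation ((ℓ : ℕ) : Qbar) < 1 := (A.mem_nonunits_iff).mp hAℓ
  have ht0 : 0 < A.valuation ((ℓ : ℕ) : Qbar) := by
    rw [Valuation.pos_iff]
    exact_mod_cast hℓ.ne_zero
  have hkj : k = (p : ℤ) * j := by
    have h1 : A.valuation ((x : K₀) : Qbar) = A.valuation ((ℓ : ℕ) : Qbar) ^ ((p : ℤ) * j) := by
      rw [← hy, map_pow]
      have : A.valuation y = A.valuation ((ℓ : ℕ) : Qbar) ^ j := hj'
      rw [this, ← zpow_natCast, ← zpow_mul, mul_comm]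
    rw [hk'] at h1
    exact (zpow_right_inj₀ ht0 ht1.ne).mp h1
  exact ⟨j, by rw [hk, hkj]⟩

end

/-- The primes of `𝓞 K₀` over the primes of `S`. -/
def h46_primesOver : Set (HeightOneSpectrum (𝓞 K₀)) :=
  {v | ∃ q ∈ S, ((q : ℕ) : 𝓞 K₀) ∈ v.asIdeal}

theorem h46_primesOver_finite : (h46_primesOver S K₀).Finite := by
  classical
  have h : h46_primesOver S K₀ ⊆
      ⋃ q ∈ S, {v : HeightOneSpectrum (𝓞 K₀) | v.asIdeal ∣ Ideal.span {((q : ℕ) : 𝓞 K₀)}} := by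
    rintro v ⟨q, hq, hv⟩
    simp only [Set.mem_iUnion, Set.mem_ofPred_eq]
    exact ⟨q, hq, Ideal.dvd_iff_le.mpr ((Ideal.span_singleton_le_iff_mem _).mpr hv)⟩
  refine Set.Finite.subset (Set.Finite.biUnion S.finite_toSet fun q _ => ?_) h
  refine Ideal.finite_factors ?_
  rw [Ne, Ideal.zero_eq_bot, Ideal.span_singleton_eq_bot]
  exact_mod_cast q.2.ne_zero

/-- The class of `x` lies in Mathlib's Selmer group `K₀(S_{K₀}, p)`. -/
theorem h46_kummer_mem_selmer [IsGalois ℚ K₀] [IsGalois ℚ N] (hK₀ : K₀.IsUnramifiedOutside S) (hN : N.IsUnramifiedOutside S)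
    (p : ℕ) (hp : 0 < p) (x : K₀ˣ) (y : Qbar) (hyN : y ∈ N)
    (hy : y ^ p = (((x : K₀ˣ) : K₀) : Qbar)) :
    (QuotientGroup.mk x : K₀ˣ ⧸ (powMonoidHom p : K₀ˣ →* K₀ˣ).range) ∈
      selmerGroup (R := 𝓞 K₀) (K := K₀) (S := h46_primesOver S K₀) (n := p) := by
  intro v hv
  rw [h46_valuationOfNeZeroMod_eq_one_iff]
  obtain ⟨j, hj⟩ := h46_kummer_val S K₀ N hK₀ hN p hp (x : K₀) x.ne_zero y hyN hy v
    (fun q hq hqS => hv ⟨q, hqS, hq⟩)
  have h1 := HeightOneSpectrum.valuationOfNeZero_eq v x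
  rw [h46_valuationOfNeZero_eq_count, hj] at h1
  have h2 : -(FractionalIdeal.count K₀ v (FractionalIdeal.spanSingleton (nonZeroDivisors (𝓞 K₀))
      ((x : K₀ˣ) : K₀))) = -((p : ℤ) * j) := WithZero.exp_inj.mp h1
  exact ⟨j, neg_injective h2⟩

end Main

end Fermat.Agent.S55
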