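import Mathlib
import Fermat.Prelude.Def_GroupCohomology_ContinuousUnramified
import Fermat.Agent.S13.h24_Unram
import Fermat.Agent.S05.h26_Inertia

/-!
S55, Kummer-type inputs in the language of the prelude (`IntermediateField.IsUnramifiedOutside`):
adjoining an `n`-th root of an element which is a unit outside `S` (all primes of `n` in `S`)
to a field unramified outside `S` gives a field unramified outside `S`.
-/

set_option autoImplicit false

namespace Fermat.Agent.S55

open Fermat.Agent.S13 Fermat.Agent.S05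

section Val

variable {L : Type*} [Field L]

/-- a root of unity congruent to `1` modulo the maximal ideal is `1` if its order is a unit. -/
theorem h56_root_of_unity_eq_one (A : ValuationSubring L) (n : ℕ) (hn : (n : L) ∉ A.nonunits)
    (ζ : L) (hζ : ζ ^ n = 1) (h1 : ζ - 1 ∈ A.nonunits) : ζ = 1 := by
  have hζA : ζ ∈ A := by
    have : ζ = (ζ - 1) + 1 := by ring
    rw [this]
    exact A.add_mem _ _ (h24_nonunits_subset A h1) A.one_mem
  have hgeom := geom_sum_mul ζ n
  rw [hζ, sub_self, mul_eq_zero] at hgeom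
  rcases hgeom with h | h
  · exfalso
    apply hn
    have h2 : (∑ i ∈ Finset.range n, (ζ ^ i - 1)) ∈ A.nonunits := by
      have key : ∀ (s : Finset ℕ), (∑ i ∈ s, (ζ ^ i - 1)) ∈ A.nonunits := by
        intro s
        induction s using Finset.induction_on with
        | empty => simp [h24_zero_mem_nonunits A]
        | insert a s ha ih =>
          rw [Finset.sum_insert ha]
          refine h24_add_mem_nonunits A ?_ ih
          obtain ⟨c, hc⟩ : ζ - 1 ∣ ζ ^ a - 1 := by
            simpa using sub_dvd_pow_sub_pow ζ 1 a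
          have hcA : c ∈ A := by
            have hc' : c = ∑ i ∈ Finset.range a, ζ ^ i := by
              have h3 := geom_sum_mul ζ a
              by_cases h0 : ζ - 1 = 0
              · exfalso
                exact hn (by
                  have : ζ = 1 := by linear_combination h0
                  rw [this] at h
                  simp at h
                  rw [h]
                  exact h24_zero_mem_nonunits A)
              · apply mul_left_cancel₀ h0
                rw [← hc, ← h3, mul_comm]
            rw [hc']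
            exact A.sum_mem fun i _ => A.pow_mem hζA i
          rw [hc, mul_comm]
          exact h24_mul_mem_nonunits A hcA h1
      exact key _
    rw [Finset.sum_sub_distrib, h, zero_sub, Finset.sum_const, Finset.card_range, nsmul_eq_mul,
      mul_one] at h2
    have := h24_neg_mem_nonunits A h2
    rwa [neg_neg] at this
  · linear_combination h

theorem h56_natCast_not_mem_nonunits (A : ValuationSubring L) (q n : ℕ)
    (hq : (q : L) ∈ A.nonunits) (hcop : Nat.Coprime n q) : (n : L) ∉ A.nonunits := by
  intro hnn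
  have hco : IsCoprime (n : ℤ) (q : ℤ) := Nat.isCoprime_iff_coprime.mpr hcop
  obtain ⟨a, b, hab⟩ := hco
  have h1 : ((a : L) * (n : L) + (b : L) * (q : L)) ∈ A.nonunits :=
    h24_add_mem_nonunits A (h24_mul_mem_nonunits A (intCast_mem A a) hnn)
      (h24_mul_mem_nonunits A (intCast_mem A b) hq)
  have h2 : ((a : L) * (n : L) + (b : L) * (q : L)) = 1 := by
    have := congrArg (fun z : ℤ => (z : L)) hab
    push_cast at this
    exact this
  rw [h2] at h1
  exact h24_one_not_mem_nonunits A h1

/-- an element of the inertia group fixing `y ^ n` fixes `y`, if `y ^ n` and `n` are units. -/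
theorem h56_inertia_fixes_root {K : Type*} [Field K] [Algebra K L] (A : ValuationSubring L)
    (n : ℕ) (hn0 : n ≠ 0) (hn : (n : L) ∉ A.nonunits) (σ : L ≃ₐ[K] L)
    (hσ : σ ∈ A.inertiaSubgroupIn K) (y : L) (hy : σ (y ^ n) = y ^ n) (hyA : y ^ n ∈ A)
    (hyu : y ^ n ∉ A.nonunits) : σ y = y := by
  have hyA' : y ∈ A := by
    rw [← A.valuation_le_one_iff] at hyA ⊢
    rw [map_pow] at hyA
    by_contra hlt
    push Not at hlt
    exact absurd hyA (not_le.mpr (one_lt_pow₀ hlt hn0))
  have hyu' : y ∉ A.nonunits := by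
    intro hc
    apply hyu
    obtain ⟨m, rfl⟩ := Nat.exists_eq_succ_of_ne_zero hn0
    rw [pow_succ]
    exact h24_mul_mem_nonunits A (A.pow_mem hyA' m) hc
  have hy0 : y ≠ 0 := by
    rintro rfl
    exact hyu' (h24_zero_mem_nonunits A)
  have h1 : σ y - y ∈ A.nonunits := h26_sub_mem_nonunits_of_mem_inertia A hσ hyA'
  have h2 : σ y * y⁻¹ - 1 ∈ A.nonunits := by
    have : σ y * y⁻¹ - 1 = y⁻¹ * (σ y - y) := by
      field_simp
    rw [this]
    exact h24_mul_mem_nonunits A (h24_inv_mem A hyu') h1
  have h3 : (σ y * y⁻¹) ^ n = 1 := by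
    rw [mul_pow, ← map_pow, hy, inv_pow, mul_inv_cancel₀ (pow_ne_zero n hy0)]
  have h4 := h56_root_of_unity_eq_one A n hn _ h3 h2
  field_simp at h4
  exact h4

end Val

open IntermediateField in
/-- **Kummer extensions are unramified outside `S`.** -/
theorem h56_isUnramifiedOutside_adjoin_root (S : Finset Nat.Primes) (n : ℕ) (hn0 : n ≠ 0)
    (hn : ∀ q : Nat.Primes, (q : ℕ) ∣ n → q ∈ S)
    (F : IntermediateField ℚ (AlgebraicClosure ℚ)) (hF : F.IsUnramifiedOutside S)
    (y : AlgebraicClosure ℚ) (hy : y ^ n ∈ F)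
    (hunit : ∀ q : Nat.Primes, q ∉ S → ∀ A : ValuationSubring (AlgebraicClosure ℚ),
      A.LiesOverPrime (q : ℕ) → y ^ n ∈ A ∧ y ^ n ∉ A.nonunits) :
    (F ⊔ IntermediateField.adjoin ℚ {y}).IsUnramifiedOutside S := by
  have := hF.1
  have hyint : IsIntegral ℚ y := ((AlgebraicClosure.isAlgebraic ℚ).isAlgebraic y).isIntegral
  have : FiniteDimensional ℚ (IntermediateField.adjoin ℚ {y}) :=
    IntermediateField.adjoin.finiteDimensional hyint
  refine ⟨IntermediateField.finiteDimensional_sup F _, fun q hq A hA σ hσ => ?_⟩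
  rw [IntermediateField.fixingSubgroup_sup]
  have hσF : σ ∈ F.fixingSubgroup := hF.2 q hq A hA hσ
  refine ⟨hσF, ?_⟩
  have hcop : Nat.Coprime n (q : ℕ) := by
    rw [Nat.coprime_comm, Nat.Prime.coprime_iff_not_dvd q.2]
    intro hdvd
    exact hq (hn q hdvd)
  have hnA : ((n : ℕ) : AlgebraicClosure ℚ) ∉ A.nonunits :=
    h56_natCast_not_mem_nonunits A q n hA hcop
  have hfix : σ (y ^ n) = y ^ n := by
    rw [IntermediateField.mem_fixingSubgroup_iff] at hσF
    exact hσF _ hy
  obtain ⟨h1, h2⟩ := hunit q hq A hA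
  have hσy : σ y = y := h56_inertia_fixes_root A n hn0 hnA σ hσ y hfix h1 h2
  change σ ∈ (IntermediateField.adjoin ℚ {y}).fixingSubgroup
  rw [IntermediateField.mem_fixingSubgroup_iff]
  intro x hx
  induction hx using IntermediateField.adjoin_induction with
  | mem x hx =>
    rw [Set.mem_singleton_iff] at hx
    rw [hx, hσy]
  | algebraMap x => exact σ.commutes x
  | add x z _ _ hx hz => rw [map_add, hx, hz]
  | inv x _ hx => rw [map_inv₀, hx]
  | mul x z _ _ hx hz => rw [map_mul, hx, hz]

/-- adjoining a root of unity whose order has all prime factors in `S`. -/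
theorem h56_isUnramifiedOutside_adjoin_root_of_unity (S : Finset Nat.Primes) (n : ℕ)
    (hn0 : n ≠ 0) (hn : ∀ q : Nat.Primes, (q : ℕ) ∣ n → q ∈ S)
    (F : IntermediateField ℚ (AlgebraicClosure ℚ)) (hF : F.IsUnramifiedOutside S)
    (ζ : AlgebraicClosure ℚ) (hζ : ζ ^ n = 1) :
    (F ⊔ IntermediateField.adjoin ℚ {ζ}).IsUnramifiedOutside S :=
  h56_isUnramifiedOutside_adjoin_root S n hn0 hn F hF ζ (by rw [hζ]; exact F.one_mem)
    (fun q _ A _ => by
      rw [hζ]
      exact ⟨A.one_mem, h24_one_not_mem_nonunits A⟩)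

end Fermat.Agent.S55
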