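import Mathlib
import Fermat.Prelude.Def_GroupCohomology_ContinuousUnramified
import Fermat.Agent.S13.h24_Unram
import Fermat.Agent.S13.h6_Mink
import Fermat.Agent.S05.h26_Inertia
import Fermat.Agent.S55.h56_KummerUnram

/-!
S55, levels in the language of the prelude: conjugation of inertia groups, the normal closure of a
field unramified outside `S` is unramified outside `S`, and the level of a smooth module which is
unramified outside `S`.
-/

set_option autoImplicit false

namespace Fermat.Agent.S55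

open Fermat.Agent.S13 Fermat.Agent.S05
open scoped Pointwise

section Conj

variable {K L : Type*} [Field K] [Field L] [Algebra K L]

theorem h56_smul_mem_nonunits (A : ValuationSubring L) (g : L ≃ₐ[K] L) {y : L}
    (hy : y ∈ A.nonunits) : g y ∈ (g • A).nonunits := by
  rw [ValuationSubring.mem_nonunits_iff_or] at hy ⊢
  rcases hy with rfl | hy
  · left; simp
  · right
    intro h
    apply hy
    have h' : g • y⁻¹ ∈ g • A := by
      have : g • y⁻¹ = (g y)⁻¹ := by
        show g y⁻¹ = (g y)⁻¹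
        rw [map_inv₀]
      rw [this]; exact h
    exact ValuationSubring.smul_mem_pointwise_smul_iff.mp h'

theorem h56_liesOverPrime_smul (A : ValuationSubring L) (g : L ≃ₐ[K] L) (q : ℕ)
    (hA : A.LiesOverPrime q) : (g • A).LiesOverPrime q := by
  have := h56_smul_mem_nonunits A g hA
  rwa [map_natCast] at this

/-- conjugation of inertia groups -/
theorem h56_conj_mem_inertia (A : ValuationSubring L) (g τ : L ≃ₐ[K] L)
    (hτ : τ ∈ A.inertiaSubgroupIn K) : g * τ * g⁻¹ ∈ (g • A).inertiaSubgroupIn K := by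
  apply h6_mem_inertia_of
  · rw [smul_smul, inv_mul_cancel_right, mul_smul, h26_smul_eq_of_mem_inertia A hτ]
  · intro x hx
    obtain ⟨a, ha, rfl⟩ := (ValuationSubring.mem_smul_pointwise_iff_exists g x A).1 hx
    have h1 : τ a - a ∈ A.nonunits := h26_sub_mem_nonunits_of_mem_inertia A hτ ha
    have h2 := h56_smul_mem_nonunits A g h1
    have e : (g * τ * g⁻¹) (g • a) - g • a = g (τ a - a) := by
      show g (τ (g⁻¹ (g a))) - g a = g (τ a - a)
      rw [map_sub]
      congr 2
      exact congrArg τ (g.symm_apply_apply a)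
    rw [e]
    exact h2

end Conj

section Levels

open IntermediateField

/-- the normal closure of a field unramified outside `S` is unramified outside `S`. -/
theorem h56_isUnramifiedOutside_normalClosure (S : Finset Nat.Primes)
    (F : IntermediateField ℚ (AlgebraicClosure ℚ)) (hF : F.IsUnramifiedOutside S) :
    (IntermediateField.normalClosure ℚ F (AlgebraicClosure ℚ)).IsUnramifiedOutside S := by
  have := hF.1
  have hgal : IsGalois ℚ (AlgebraicClosure ℚ) := h24_isGalois_Qbar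
  have hnor : Normal ℚ (AlgebraicClosure ℚ) := hgal.to_normal
  refine ⟨inferInstance, fun q hq A hA σ hσ => ?_⟩
  have key : IntermediateField.normalClosure ℚ F (AlgebraicClosure ℚ)
      ≤ IntermediateField.fixedField (Subgroup.zpowers σ) := by
    have e : IntermediateField.normalClosure ℚ F (AlgebraicClosure ℚ) =
        ⨆ f : AlgebraicClosure ℚ ≃ₐ[ℚ] AlgebraicClosure ℚ,
          F.map (f : AlgebraicClosure ℚ →ₐ[ℚ] AlgebraicClosure ℚ) :=
      IntermediateField.normalClosure_def'' F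
    rw [e]
    refine iSup_le fun f => ?_
    rw [IntermediateField.le_iff_le, Subgroup.zpowers_le]
    rw [IntermediateField.mem_fixingSubgroup_iff]
    rintro _ ⟨x, hx, rfl⟩
    have h1 : f⁻¹ * σ * f⁻¹⁻¹ ∈ (f⁻¹ • A).inertiaSubgroupIn ℚ := h56_conj_mem_inertia A f⁻¹ σ hσ
    have h2 := hF.2 q hq (f⁻¹ • A) (h56_liesOverPrime_smul A f⁻¹ q hA) h1
    rw [IntermediateField.mem_fixingSubgroup_iff] at h2
    have h3 := h2 x hx
    have h4 : f ((f⁻¹ * σ * f⁻¹⁻¹) x) = f x := congrArg f h3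
    rw [inv_inv] at h4
    have h5 : f ((f⁻¹ * σ * f) x) = σ (f x) := by
      show f (f⁻¹ (σ (f x))) = σ (f x)
      exact f.apply_symm_apply _
    rw [h5] at h4
    exact h4
  exact (IntermediateField.le_iff_le _ _).1 key (Subgroup.mem_zpowers σ)

/-- every field unramified outside `S` lies in a finite Galois one. -/
theorem h56_exists_galois_level (S : Finset Nat.Primes)
    (F : IntermediateField ℚ (AlgebraicClosure ℚ)) (hF : F.IsUnramifiedOutside S) :
    ∃ F' : IntermediateField ℚ (AlgebraicClosure ℚ), F ≤ F' ∧ F'.IsUnramifiedOutside S ∧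
      IsGalois ℚ F' := by
  have hgal : IsGalois ℚ (AlgebraicClosure ℚ) := h24_isGalois_Qbar
  have hnor : Normal ℚ (AlgebraicClosure ℚ) := hgal.to_normal
  refine ⟨IntermediateField.normalClosure ℚ F (AlgebraicClosure ℚ),
    IntermediateField.le_normalClosure F, h56_isUnramifiedOutside_normalClosure S F hF, ?_⟩
  have : Normal ℚ (IntermediateField.normalClosure ℚ F (AlgebraicClosure ℚ)) :=
    normalClosure.normal ℚ F (AlgebraicClosure ℚ)
  exact ⟨⟩

end Levels

section ModuleLevel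

open IntermediateField ExtCitation

variable (S : Finset Nat.Primes)

/-- a finitely generated smooth module is fixed by an open subgroup. -/
theorem h56_exists_fin_level {k : Type} [CommRing k]
    (M : Rep k (AlgebraicClosure ℚ ≃ₐ[ℚ] AlgebraicClosure ℚ)) [Module.Finite k M]
    (hsm : ∀ m : M, ∃ F : IntermediateField ℚ (AlgebraicClosure ℚ), FiniteDimensional ℚ F ∧
      ∀ s ∈ F.fixingSubgroup, M.ρ s m = m) :
    ∃ F : IntermediateField ℚ (AlgebraicClosure ℚ), FiniteDimensional ℚ F ∧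
      ∀ s ∈ F.fixingSubgroup, M.ρ s = 1 := by
  classical
  obtain ⟨T, hT⟩ := (Module.Finite.fg_top : (⊤ : Submodule k M).FG)
  choose Fm hFm1 hFm2 using hsm
  have : ∀ m, FiniteDimensional ℚ (Fm m) := hFm1
  refine ⟨⨆ m ∈ T, Fm m, IntermediateField.finiteDimensional_iSup_of_finset, fun s hs => ?_⟩
  refine LinearMap.ext_on hT fun m hm => ?_
  have hle : Fm m ≤ ⨆ m ∈ T, Fm m := le_iSup₂_of_le m hm le_rfl
  have := hFm2 m s (IntermediateField.fixingSubgroup_antitone hle hs)
  simpa using this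

/-- **the level of `M`**: the fixed field of the kernel of a finitely generated smooth module
which is unramified outside `S` is a finite Galois extension of `ℚ` unramified outside `S`. -/
theorem h56_exists_level {k : Type} [CommRing k]
    (M : Rep k (AlgebraicClosure ℚ ≃ₐ[ℚ] AlgebraicClosure ℚ)) [Module.Finite k M]
    (hsm : ∀ m : M, ∃ F : IntermediateField ℚ (AlgebraicClosure ℚ), FiniteDimensional ℚ F ∧
      ∀ s ∈ F.fixingSubgroup, M.ρ s m = m)
    (hMur : ∀ q : Nat.Primes, q ∉ S → ∀ A : ValuationSubring (AlgebraicClosure ℚ),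
      A.LiesOverPrime (q : ℕ) → ∀ g ∈ A.inertiaSubgroupIn ℚ, M.ρ g = 1) :
    ∃ F : IntermediateField ℚ (AlgebraicClosure ℚ), F.IsUnramifiedOutside S ∧ IsGalois ℚ F ∧
      ∀ s, s ∈ F.fixingSubgroup ↔ M.ρ s = 1 := by
  have hgal : IsGalois ℚ (AlgebraicClosure ℚ) := h24_isGalois_Qbar
  obtain ⟨F₀, hF₀, hF₀'⟩ := h56_exists_fin_level M hsm
  set H : Subgroup (AlgebraicClosure ℚ ≃ₐ[ℚ] AlgebraicClosure ℚ) := MonoidHom.ker M.ρ with hH
  have hle : F₀.fixingSubgroup ≤ H := fun s hs => MonoidHom.mem_ker.2 (hF₀' s hs)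
  have hopen : IsOpen (H : Set (AlgebraicClosure ℚ ≃ₐ[ℚ] AlgebraicClosure ℚ)) :=
    Subgroup.isOpen_mono hle F₀.fixingSubgroup_isOpen
  have hclosed : IsClosed (H : Set (AlgebraicClosure ℚ ≃ₐ[ℚ] AlgebraicClosure ℚ)) :=
    Subgroup.isClosed_of_isOpen H hopen
  have hfix : (IntermediateField.fixedField H).fixingSubgroup = H :=
    InfiniteGalois.fixingSubgroup_fixedField ⟨H, hclosed⟩
  have hFle : IntermediateField.fixedField H ≤ F₀ := by
    have h1 := IntermediateField.fixedField_antitone hle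
    rwa [InfiniteGalois.fixedField_fixingSubgroup] at h1
  have hfin : FiniteDimensional ℚ (IntermediateField.fixedField H) :=
    FiniteDimensional.of_injective (IntermediateField.inclusion hFle).toLinearMap
      (IntermediateField.inclusion_injective hFle)
  refine ⟨IntermediateField.fixedField H, ⟨hfin, fun q hq A hA σ hσ => ?_⟩, ?_, fun s => ?_⟩
  · rw [hfix]
    exact MonoidHom.mem_ker.2 (hMur q hq A hA σ hσ)
  · refine (InfiniteGalois.normal_iff_isGalois _).1 ?_
    rw [hfix]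
    exact MonoidHom.normal_ker _
  · rw [hfix]
    exact MonoidHom.mem_ker

variable {p : ℕ} [Fact p.Prime]

/-- an automorphism fixing a primitive `p`-th root of unity has trivial cyclotomic character. -/
theorem h56_cycloChar_eq_one_of_fix {ζ : AlgebraicClosure ℚ} (hζ : IsPrimitiveRoot ζ p)
    (s : AlgebraicClosure ℚ ≃ₐ[ℚ] AlgebraicClosure ℚ) (hs : s ζ = ζ) : cycloChar p s = 1 := by
  have : NeZero p := ⟨(Fact.out : p.Prime).ne_zero⟩
  have : Fact (1 < p) := ⟨(Fact.out : p.Prime).one_lt⟩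
  have h1 : ((1 : ZMod p)) = ((cycloChar p s : (ZMod p)ˣ) : ZMod p) := by
    refine modularCyclotomicCharacter.unique (AlgebraicClosure ℚ) (card_rootsOfUnity_eq_self p)
      (s : AlgebraicClosure ℚ ≃+* AlgebraicClosure ℚ) fun t ht => ?_
    rw [ZMod.val_one, pow_one]
    have ht' : (t : AlgebraicClosure ℚ) ^ p = 1 := by
      have := (mem_rootsOfUnity p t).1 ht
      rw [← Units.val_pow_eq_pow_val, this, Units.val_one]
    obtain ⟨i, -, hi⟩ := hζ.eq_pow_of_pow_eq_one ht'
    rw [← hi]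
    show s (ζ ^ i) = ζ ^ i
    rw [map_pow, hs]
  exact Units.ext h1.symm

/-- inertia at a prime outside `S ∋ p` has trivial mod `p` cyclotomic character. -/
theorem h56_cycloChar_eq_one_of_mem_inertia (hpS : pPrime p ∈ S) (q : Nat.Primes) (hq : q ∉ S)
    (A : ValuationSubring (AlgebraicClosure ℚ)) (hA : A.LiesOverPrime (q : ℕ))
    (g : AlgebraicClosure ℚ ≃ₐ[ℚ] AlgebraicClosure ℚ) (hg : g ∈ A.inertiaSubgroupIn ℚ) :
    cycloChar p g = 1 := by
  have : NeZero p := ⟨(Fact.out : p.Prime).ne_zero⟩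
  obtain ⟨ζ, hζ⟩ := HasEnoughRootsOfUnity.exists_primitiveRoot (AlgebraicClosure ℚ) p
  have hp : ∀ q : Nat.Primes, (q : ℕ) ∣ p → q ∈ S := by
    intro q' hq'
    have : (q' : ℕ) = p := (Nat.prime_dvd_prime_iff_eq q'.2 Fact.out).1 hq'
    have e : q' = pPrime p := Subtype.ext this
    rw [e]; exact hpS
  have h1 := h56_isUnramifiedOutside_adjoin_root_of_unity S p (NeZero.ne p) hp ⊥
    (IntermediateField.isUnramifiedOutside_bot S) ζ hζ.pow_eq_one
  have h2 := h1.2 q hq A hA hg
  rw [IntermediateField.mem_fixingSubgroup_iff] at h2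
  refine h56_cycloChar_eq_one_of_fix hζ g (h2 ζ ?_)
  exact (le_sup_right : IntermediateField.adjoin ℚ {ζ} ≤ _)
    (IntermediateField.mem_adjoin_simple_self ℚ ζ)

/-- the twisted dual is trivial where `M` and the cyclotomic character are. -/
theorem h56_dualTwist_ρ_eq_one (M : Rep (ZMod p) (AlgebraicClosure ℚ ≃ₐ[ℚ] AlgebraicClosure ℚ))
    (s : AlgebraicClosure ℚ ≃ₐ[ℚ] AlgebraicClosure ℚ) (h1 : M.ρ s = 1) (h2 : cycloChar p s = 1) :
    (M.dualTwist (cycloChar p)).ρ s = 1 := by
  have h3 : M.ρ s⁻¹ = 1 := by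
    have h4 : M.ρ s * M.ρ s⁻¹ = 1 := by rw [← map_mul, mul_inv_cancel, map_one]
    rwa [h1, one_mul] at h4
  refine LinearMap.ext fun f => ?_
  rw [Rep.dualTwist_ρ_apply, h2, h3]
  simp [Module.End.one_eq_id]

/-- any two levels lie in a common Galois level. -/
theorem h56_exists_galois_level_ge (F F₀ : IntermediateField ℚ (AlgebraicClosure ℚ))
    (hF : F.IsUnramifiedOutside S) (hF₀ : F₀.IsUnramifiedOutside S) :
    ∃ F' : IntermediateField ℚ (AlgebraicClosure ℚ), F ≤ F' ∧ F₀ ≤ F' ∧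
      F'.IsUnramifiedOutside S ∧ IsGalois ℚ F' := by
  obtain ⟨F', h1, h2, h3⟩ := h56_exists_galois_level S (F ⊔ F₀) (hF.sup hF₀)
  exact ⟨F', le_sup_left.trans h1, le_sup_right.trans h1, h2, h3⟩

/-- the hypothesis `hsm` of the frozen S55 passes to the twisted dual. -/
theorem h56_dualTwist_smooth (M : Rep (ZMod p) (AlgebraicClosure ℚ ≃ₐ[ℚ] AlgebraicClosure ℚ))
    [FiniteDimensional (ZMod p) M]
    (hsm : ∀ m : M, ∃ F : IntermediateField ℚ (AlgebraicClosure ℚ), FiniteDimensional ℚ F ∧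
      ∀ s ∈ F.fixingSubgroup, M.ρ s m = m) :
    ∀ m : M.dualTwist (cycloChar p), ∃ F : IntermediateField ℚ (AlgebraicClosure ℚ),
      FiniteDimensional ℚ F ∧ ∀ s ∈ F.fixingSubgroup, (M.dualTwist (cycloChar p)).ρ s m = m := by
  have : NeZero p := ⟨(Fact.out : p.Prime).ne_zero⟩
  obtain ⟨F₀, hF₀, hF₀'⟩ := h56_exists_fin_level M hsm
  obtain ⟨ζ, hζ⟩ := HasEnoughRootsOfUnity.exists_primitiveRoot (AlgebraicClosure ℚ) p
  have hint : IsIntegral ℚ ζ := (AlgebraicClosure.isAlgebraic ℚ).isIntegral.isIntegral ζ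
  have hfin : FiniteDimensional ℚ (IntermediateField.adjoin ℚ {ζ}) :=
    IntermediateField.adjoin.finiteDimensional hint
  intro m
  refine ⟨F₀ ⊔ IntermediateField.adjoin ℚ {ζ}, IntermediateField.finiteDimensional_sup _ _,
    fun s hs => ?_⟩
  rw [IntermediateField.fixingSubgroup_sup] at hs
  have h1 : M.ρ s = 1 := hF₀' s hs.1
  have h2 : cycloChar p s = 1 := by
    refine h56_cycloChar_eq_one_of_fix hζ s ?_
    exact (IntermediateField.mem_fixingSubgroup_iff _ _).1 hs.2 ζ
      (IntermediateField.mem_adjoin_simple_self ℚ ζ)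
  rw [h56_dualTwist_ρ_eq_one M s h1 h2]
  rfl

/-- the hypothesis `hMur` of the frozen S55 passes to the twisted dual. -/
theorem h56_dualTwist_unram (hpS : pPrime p ∈ S)
    (M : Rep (ZMod p) (AlgebraicClosure ℚ ≃ₐ[ℚ] AlgebraicClosure ℚ))
    (hMur : ∀ q : Nat.Primes, q ∉ S → ∀ A : ValuationSubring (AlgebraicClosure ℚ),
      A.LiesOverPrime (q : ℕ) → ∀ g ∈ A.inertiaSubgroupIn ℚ, M.ρ g = 1) :
    ∀ q : Nat.Primes, q ∉ S → ∀ A : ValuationSubring (AlgebraicClosure ℚ),
      A.LiesOverPrime (q : ℕ) → ∀ g ∈ A.inertiaSubgroupIn ℚ,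
        (M.dualTwist (cycloChar p)).ρ g = 1 :=
  fun q hq A hA g hg => h56_dualTwist_ρ_eq_one M g (hMur q hq A hA g hg)
    (h56_cycloChar_eq_one_of_mem_inertia S hpS q hq A hA g hg)

/-- **the base level** `K₀ = ℚ(M, μ_p)` (enlarged to a Galois level): a finite Galois extension
of `ℚ`, unramified outside `S`, containing `μ_p`, whose fixing subgroup acts trivially on `M`,
on `μ_p` and on the twisted dual of `M`. -/
theorem h56_exists_base_level (hpS : pPrime p ∈ S)
    (M : Rep (ZMod p) (AlgebraicClosure ℚ ≃ₐ[ℚ] AlgebraicClosure ℚ))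
    [FiniteDimensional (ZMod p) M]
    (hsm : ∀ m : M, ∃ F : IntermediateField ℚ (AlgebraicClosure ℚ), FiniteDimensional ℚ F ∧
      ∀ s ∈ F.fixingSubgroup, M.ρ s m = m)
    (hMur : ∀ q : Nat.Primes, q ∉ S → ∀ A : ValuationSubring (AlgebraicClosure ℚ),
      A.LiesOverPrime (q : ℕ) → ∀ g ∈ A.inertiaSubgroupIn ℚ, M.ρ g = 1) :
    ∃ F : IntermediateField ℚ (AlgebraicClosure ℚ), F.IsUnramifiedOutside S ∧ IsGalois ℚ F ∧
      (∀ s ∈ F.fixingSubgroup, M.ρ s = 1) ∧ (∃ ζ ∈ F, IsPrimitiveRoot ζ p) ∧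
      (∀ s ∈ F.fixingSubgroup, cycloChar p s = 1) ∧
      (∀ s ∈ F.fixingSubgroup, (M.dualTwist (cycloChar p)).ρ s = 1) := by
  have : NeZero p := ⟨(Fact.out : p.Prime).ne_zero⟩
  obtain ⟨F₁, hF₁, -, hF₁'⟩ := h56_exists_level S M hsm hMur
  obtain ⟨ζ, hζ⟩ := HasEnoughRootsOfUnity.exists_primitiveRoot (AlgebraicClosure ℚ) p
  have hp : ∀ q : Nat.Primes, (q : ℕ) ∣ p → q ∈ S := by
    intro q' hq'
    have : (q' : ℕ) = p := (Nat.prime_dvd_prime_iff_eq q'.2 Fact.out).1 hq'
    have e : q' = pPrime p := Subtype.ext this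
    rw [e]; exact hpS
  have h2 := h56_isUnramifiedOutside_adjoin_root_of_unity S p (NeZero.ne p) hp F₁ hF₁ ζ
    hζ.pow_eq_one
  obtain ⟨F, hle, hF, hgal⟩ := h56_exists_galois_level S _ h2
  have hζF : ζ ∈ F := hle ((le_sup_right : IntermediateField.adjoin ℚ {ζ} ≤ _)
    (IntermediateField.mem_adjoin_simple_self ℚ ζ))
  have hM : ∀ s ∈ F.fixingSubgroup, M.ρ s = 1 := fun s hs =>
    (hF₁' s).1 (IntermediateField.fixingSubgroup_antitone (le_sup_left.trans hle) hs)
  have hχ : ∀ s ∈ F.fixingSubgroup, cycloChar p s = 1 := fun s hs =>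
    h56_cycloChar_eq_one_of_fix hζ s ((IntermediateField.mem_fixingSubgroup_iff _ _).1 hs ζ hζF)
  exact ⟨F, hF, hgal, hM, ⟨ζ, hζF, hζ⟩, hχ,
    fun s hs => h56_dualTwist_ρ_eq_one M s (hM s hs) (hχ s hs)⟩

end ModuleLevel

end Fermat.Agent.S55
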