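import Mathlib
import Fermat.Prelude.Def_GroupCohomology_ContinuousUnramified
import Fermat.Agent.S55.h46_UnramVal
import Fermat.Agent.S55.h56_Levels

/-!
# S55, FIN-H1 (3): finiteness of `H¹(G_S, M)` and of `Ш¹_S(M)`

For a finite-dimensional smooth `𝔽_p`-representation `M` of `Gal(ℚ̄/ℚ)` unramified outside `S`
(`p ∈ S`; the hypotheses `hpS`, `hsm`, `hMur` of the frozen S55):

* `h46_resolvent` : Lagrange resolvents (Hilbert 90) inside `ℚ̄`.
* `h46_exists_kummer_level` : for a Galois level `K₀`, ONE finite extension `K ⊇ K₀` unramified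
  outside `S` contains every `y` of every Galois level with `y ^ p ∈ K₀`
  (finiteness of the Selmer group `K₀(S, p)`).
* `h46_exists_uniform_level` : ONE level `K` such that every `S`-level 1-cocycle of `M` is
  constant modulo `Gal(ℚ̄/K)`.
* `h46_finite_continuousH1S` : `continuousH1S S M` is finite.
* `h46_finite_sha₁`, `h46_finite_sha₁_dualTwist` : `sha₁ S M` and `sha₁ S (M.dualTwist (cycloChar p))`
  are finite-dimensional.
-/

set_option autoImplicit false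

open NumberField IsDedekindDomain groupCohomology ExtCitation

namespace Fermat.Agent.S55

local notation "Qbar" => AlgebraicClosure ℚ

/-- **Lagrange resolvent / Hilbert 90 in `ℚ̄`.** Let `K₀ ≤ N` be intermediate fields of `ℚ̄/ℚ`
with `N` finite and normal over `ℚ`, and let `ψ` be a function on the absolute Galois group
which, on `Gal(ℚ̄/K₀)`, is multiplicative with nonzero values in `K₀` and invariant under
`Gal(ℚ̄/N)`. Then there is `y ∈ N`, `y ≠ 0`, with `s y = ψ s * y` for all `s ∈ Gal(ℚ̄/K₀)`. -/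
theorem h46_resolvent (K₀ N : IntermediateField ℚ Qbar) [FiniteDimensional ℚ N] [hnor : Normal ℚ N]
    (hle : K₀ ≤ N) (ψ : (Qbar ≃ₐ[ℚ] Qbar) → Qbar)
    (h0 : ∀ s ∈ K₀.fixingSubgroup, ψ s ≠ 0)
    (hK : ∀ s ∈ K₀.fixingSubgroup, ψ s ∈ K₀)
    (hmul : ∀ s ∈ K₀.fixingSubgroup, ∀ t ∈ K₀.fixingSubgroup, ψ (s * t) = ψ s * ψ t)
    (hN : ∀ s ∈ K₀.fixingSubgroup, ∀ t ∈ N.fixingSubgroup, ψ (s * t) = ψ s) :
    ∃ y ∈ N, y ≠ 0 ∧ ∀ s ∈ K₀.fixingSubgroup, s y = ψ s * y := by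
  classical
  let r : (Qbar ≃ₐ[ℚ] Qbar) → (N →ₐ[ℚ] Qbar) := fun s => (s : Qbar →ₐ[ℚ] Qbar).comp N.val
  have hr : ∀ (s : Qbar ≃ₐ[ℚ] Qbar) (x : N), r s x = s x := fun s x => rfl
  let R : Finset (N →ₐ[ℚ] Qbar) :=
    Finset.univ.filter (fun ρ => ∃ s ∈ K₀.fixingSubgroup, r s = ρ)
  have hR : ∀ ρ, ρ ∈ R ↔ ∃ s ∈ K₀.fixingSubgroup, r s = ρ := by
    intro ρ
    simp [R]
  let sec : (N →ₐ[ℚ] Qbar) → (Qbar ≃ₐ[ℚ] Qbar) := fun ρ =>
    if h : ∃ s ∈ K₀.fixingSubgroup, r s = ρ then h.choose else 1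
  have hsec : ∀ ρ ∈ R, sec ρ ∈ K₀.fixingSubgroup ∧ r (sec ρ) = ρ := by
    intro ρ hρ
    have h := (hR ρ).mp hρ
    simp only [sec, dif_pos h]
    exact h.choose_spec
  let a : (N →ₐ[ℚ] Qbar) → Qbar := fun ρ => (ψ (sec ρ))⁻¹
  let c : (Qbar ≃ₐ[ℚ] Qbar) → (N →ₐ[ℚ] Qbar) → (N →ₐ[ℚ] Qbar) :=
    fun s ρ => (s : Qbar →ₐ[ℚ] Qbar).comp ρ
  have hc : ∀ (s : Qbar ≃ₐ[ℚ] Qbar) (ρ : N →ₐ[ℚ] Qbar) (x : N), c s ρ x = s (ρ x) :=
    fun s ρ x => rfl
  have key : ∀ s ∈ K₀.fixingSubgroup, ∀ ρ ∈ R, c s ρ ∈ R ∧ a (c s ρ) = (ψ s)⁻¹ * a ρ := by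
    intro s hs ρ hρ
    obtain ⟨h1, h2⟩ := hsec ρ hρ
    have hρx : ∀ x : N, ρ x = sec ρ (x : Qbar) := fun x => by rw [← hr (sec ρ) x, h2]
    have hmem : c s ρ ∈ R := by
      rw [hR]
      refine ⟨s * sec ρ, mul_mem hs h1, ?_⟩
      ext x
      rw [hr, hc, hρx]
      rfl
    refine ⟨hmem, ?_⟩
    obtain ⟨h3, h4⟩ := hsec _ hmem
    have ht : (s * sec ρ)⁻¹ * sec (c s ρ) ∈ N.fixingSubgroup := by
      rw [IntermediateField.mem_fixingSubgroup_iff]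
      intro x hx
      have e1 : sec (c s ρ) x = (s * sec ρ) x := by
        have h5 := DFunLike.congr_fun h4 ⟨x, hx⟩
        rw [hr, hc, hρx] at h5
        exact h5
      rw [AlgEquiv.mul_apply, e1]
      exact (s * sec ρ).symm_apply_apply x
    have e2 : ψ (sec (c s ρ)) = ψ s * ψ (sec ρ) := by
      have : sec (c s ρ) = (s * sec ρ) * ((s * sec ρ)⁻¹ * sec (c s ρ)) := by group
      rw [this, hN _ (mul_mem hs h1) _ ht, hmul s hs _ h1]
    show (ψ (sec (c s ρ)))⁻¹ = (ψ s)⁻¹ * (ψ (sec ρ))⁻¹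
    rw [e2, mul_inv]
  have hli := linearIndependent_toLinearMap ℚ N Qbar
  have hone : r 1 ∈ R := (hR _).mpr ⟨1, one_mem _, rfl⟩
  have ha0 : ∀ ρ ∈ R, a ρ ≠ 0 := fun ρ hρ => inv_ne_zero (h0 _ (hsec ρ hρ).1)
  have hΛ : ∑ ρ ∈ R, a ρ • (ρ.toLinearMap : N →ₗ[ℚ] Qbar) ≠ 0 := by
    intro h
    exact ha0 _ hone (linearIndependent_iff'.mp hli R a h _ hone)
  obtain ⟨θ, hθ⟩ : ∃ θ : N, (∑ ρ ∈ R, a ρ • (ρ.toLinearMap : N →ₗ[ℚ] Qbar)) θ ≠ 0 := by
    by_contra hcon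
    push Not at hcon
    exact hΛ (LinearMap.ext hcon)
  have hy : (∑ ρ ∈ R, a ρ • (ρ.toLinearMap : N →ₗ[ℚ] Qbar)) θ = ∑ ρ ∈ R, a ρ * ρ θ := by
    simp [LinearMap.sum_apply]
  rw [hy] at hθ
  refine ⟨∑ ρ ∈ R, a ρ * ρ θ, ?_, hθ, ?_⟩
  · refine sum_mem fun ρ hρ => mul_mem ?_ ?_
    · exact hle (inv_mem (hK _ (hsec ρ hρ).1))
    · have h5 : ρ.fieldRange = N := @AlgHom.fieldRange_of_normal ℚ Qbar _ _ _ N hnor ρ
      have h6 : ρ θ ∈ ρ.fieldRange := ⟨θ, rfl⟩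
      rw [h5] at h6
      exact h6
  · intro s hs
    rw [map_sum, Finset.mul_sum]
    have hterm : ∀ ρ ∈ R, s (a ρ * ρ θ) = ψ s * (a (c s ρ) * c s ρ θ) := by
      intro ρ hρ
      obtain ⟨h1, h2⟩ := key s hs ρ hρ
      have hfix : s (a ρ) = a ρ :=
        (IntermediateField.mem_fixingSubgroup_iff _ _).mp hs _ (inv_mem (hK _ (hsec ρ hρ).1))
      rw [map_mul, hfix, h2, hc, ← mul_assoc, ← mul_assoc, mul_inv_cancel₀ (h0 s hs), one_mul]
    rw [Finset.sum_congr rfl hterm]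
    refine Finset.sum_nbij' (c s) (c s⁻¹) (fun ρ hρ => (key s hs ρ hρ).1)
      (fun ρ hρ => (key s⁻¹ (inv_mem hs) ρ hρ).1) ?_ ?_ (fun ρ _ => rfl)
    · intro ρ _
      ext x
      rw [hc, hc]
      exact s.symm_apply_apply (ρ x)
    · intro ρ _
      ext x
      rw [hc, hc]
      exact s.apply_symm_apply (ρ x)

/-- **The Kummer level.** For a Galois level `K₀` there is one finite extension `K ⊇ K₀`,
unramified outside `S`, containing every `y` in a Galois level with `y ^ p ∈ K₀`. -/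
theorem h46_exists_kummer_level (p : ℕ) (hp : 0 < p) (S : Finset Nat.Primes)
    (K₀ : IntermediateField ℚ Qbar) (hK₀ : K₀.IsUnramifiedOutside S) [IsGalois ℚ K₀] :
    ∃ K : IntermediateField ℚ Qbar, K₀ ≤ K ∧ K.IsUnramifiedOutside S ∧
      ∀ N : IntermediateField ℚ Qbar, N.IsUnramifiedOutside S → IsGalois ℚ N →
        ∀ y ∈ N, y ≠ 0 → y ^ p ∈ K₀ → y ∈ K := by
  classical
  have hfdK₀ : FiniteDimensional ℚ K₀ := hK₀.1
  have hnfK₀ : NumberField K₀ := { }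
  have hfact : Fact (0 < p) := ⟨hp⟩
  have hfin : Finite (selmerGroup (R := 𝓞 K₀) (K := K₀) (S := h46_primesOver S K₀) (n := p)) :=
    h46_selmerGroup_finite K₀ _ (h46_primesOver_finite S K₀) p
  -- representatives of the Selmer classes
  let T : Set K₀ˣ := Set.range
    (fun c : selmerGroup (R := 𝓞 K₀) (K := K₀) (S := h46_primesOver S K₀) (n := p) =>
      Quotient.out (c : K₀ˣ ⧸ (powMonoidHom p : K₀ˣ →* K₀ˣ).range))
  have hT : T.Finite := Set.finite_range _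
  -- the set of all `p`-th roots of the representatives
  let Rt : Set Qbar := {α | ∃ t ∈ T, α ^ p = (((t : K₀ˣ) : K₀) : Qbar)}
  have hRt : Rt.Finite := by
    have hsub : Rt ⊆ ⋃ t ∈ T, ((Polynomial.nthRoots p (((t : K₀ˣ) : K₀) : Qbar)).toFinset : Set Qbar) := by
      rintro α ⟨t, ht, hα⟩
      simp only [Set.mem_iUnion, Finset.mem_coe, Multiset.mem_toFinset]
      exact ⟨t, ht, (Polynomial.mem_nthRoots hp).mpr hα⟩
    exact Set.Finite.subset (Set.Finite.biUnion hT fun t _ => Finset.finite_toSet _) hsub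
  have hRtfin : Finite Rt := hRt.to_subtype
  have hfdadj : FiniteDimensional ℚ (IntermediateField.adjoin ℚ Rt) :=
    IntermediateField.finiteDimensional_adjoin
      (fun x _ => (AlgebraicClosure.isAlgebraic ℚ).isIntegral.isIntegral x)
  let KT : IntermediateField ℚ Qbar := K₀ ⊔ IntermediateField.adjoin ℚ Rt
  have hfdKT : FiniteDimensional ℚ KT := IntermediateField.finiteDimensional_sup _ _
  -- the maximal level inside `KT`
  let K : IntermediateField ℚ Qbar :=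
    ⨆ L : {L : IntermediateField ℚ Qbar // L ≤ KT ∧ L.IsUnramifiedOutside S},
      (L : IntermediateField ℚ Qbar)
  have hKle : K ≤ KT := iSup_le fun L => L.2.1
  have hleK : ∀ L : IntermediateField ℚ Qbar, L ≤ KT → L.IsUnramifiedOutside S → L ≤ K :=
    fun L h1 h2 => le_iSup (fun L : {L : IntermediateField ℚ Qbar //
      L ≤ KT ∧ L.IsUnramifiedOutside S} => (L : IntermediateField ℚ Qbar)) ⟨L, h1, h2⟩
  have hK : K.IsUnramifiedOutside S := by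
    refine ⟨FiniteDimensional.of_injective (IntermediateField.inclusion hKle).toLinearMap
      (IntermediateField.inclusion_injective hKle), fun q hq A hA => ?_⟩
    rw [← IntermediateField.le_iff_le]
    refine iSup_le fun L => ?_
    rw [IntermediateField.le_iff_le]
    exact L.2.2.2 q hq A hA
  refine ⟨K, hleK K₀ le_sup_left hK₀, hK, ?_⟩
  intro N hN hNgal y hyN hy0 hyp
  have hfdN : FiniteDimensional ℚ N := hN.1
  have hnfN : NumberField N := { }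
  let x : K₀ˣ := Units.mk0 ⟨y ^ p, hyp⟩ (fun h0 => pow_ne_zero p hy0 (congrArg Subtype.val h0))
  have hx : y ^ p = (((x : K₀ˣ) : K₀) : Qbar) := rfl
  have hsel := h46_kummer_mem_selmer S K₀ N hK₀ hN p hp x y hyN hx
  let t : K₀ˣ := Quotient.out (QuotientGroup.mk x : K₀ˣ ⧸ (powMonoidHom p : K₀ˣ →* K₀ˣ).range)
  have htT : t ∈ T := ⟨⟨_, hsel⟩, rfl⟩
  have htx : (QuotientGroup.mk t : K₀ˣ ⧸ (powMonoidHom p : K₀ˣ →* K₀ˣ).range) =
      QuotientGroup.mk x := Quotient.out_eq _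
  rw [QuotientGroup.eq] at htx
  obtain ⟨z, hz⟩ := htx
  -- `z ^ p = t⁻¹ * x`
  have hz' : (((z : K₀ˣ) : K₀) : Qbar) ^ p * (((t : K₀ˣ) : K₀) : Qbar) = y ^ p := by
    have h1 : z ^ p * t = x := by
      have : z ^ p = t⁻¹ * x := hz
      rw [this, mul_comm t⁻¹ x, inv_mul_cancel_right]
    rw [hx, ← h1]
    simp
  have hz0 : (((z : K₀ˣ) : K₀) : Qbar) ≠ 0 := by
    intro h0
    simp at h0
  have hroot : y / (((z : K₀ˣ) : K₀) : Qbar) ∈ Rt := by
    refine ⟨t, htT, ?_⟩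
    rw [div_pow, ← hz', mul_comm, mul_div_assoc, div_self (pow_ne_zero p hz0), mul_one]
  have hyKT : y ∈ KT := by
    have h1 : y / (((z : K₀ˣ) : K₀) : Qbar) ∈ KT :=
      (le_sup_right : IntermediateField.adjoin ℚ Rt ≤ KT) (IntermediateField.subset_adjoin ℚ Rt hroot)
    have h2 : (((z : K₀ˣ) : K₀) : Qbar) ∈ KT := (le_sup_left : K₀ ≤ KT) (z : K₀).2
    have h3 : y = y / (((z : K₀ˣ) : K₀) : Qbar) * (((z : K₀ˣ) : K₀) : Qbar) := by
      rw [div_mul_cancel₀ _ hz0]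
    rw [h3]
    exact mul_mem h1 h2
  have hle1 : IntermediateField.adjoin ℚ {y} ≤ KT := by
    rw [IntermediateField.adjoin_le_iff]
    rintro _ rfl
    exact hyKT
  have hle2 : IntermediateField.adjoin ℚ {y} ≤ N := by
    rw [IntermediateField.adjoin_le_iff]
    rintro _ rfl
    exact hyN
  exact hleK _ hle1 (hN.of_le hle2) (IntermediateField.mem_adjoin_simple_self ℚ y)

section FinH1

variable {p : ℕ} [Fact p.Prime] (S : Finset Nat.Primes)

theorem h46_pow_val_add {R : Type*} [Monoid R] {ζ : R} (hζ : ζ ^ p = 1) (a b : ZMod p) :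
    ζ ^ (a + b).val = ζ ^ a.val * ζ ^ b.val := by
  have : NeZero p := ⟨(Fact.out : p.Prime).ne_zero⟩
  rw [ZMod.val_add, ← pow_eq_pow_mod _ hζ, pow_add]

/-- **One level for all `S`-level 1-cocycles.** -/
theorem h46_exists_uniform_level (hpS : pPrime p ∈ S)
    (M : Rep (ZMod p) (Qbar ≃ₐ[ℚ] Qbar)) [FiniteDimensional (ZMod p) M]
    (hsm : ∀ m : M, ∃ F : IntermediateField ℚ Qbar, FiniteDimensional ℚ F ∧
      ∀ s ∈ F.fixingSubgroup, M.ρ s m = m)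
    (hMur : ∀ q : Nat.Primes, q ∉ S → ∀ A : ValuationSubring Qbar,
      A.LiesOverPrime (q : ℕ) → ∀ g ∈ A.inertiaSubgroupIn ℚ, M.ρ g = 1) :
    ∃ K : IntermediateField ℚ Qbar, K.IsUnramifiedOutside S ∧
      ∀ c : cocycles₁ M, IsLevelConstantS₁ S c →
        ∀ g s, s ∈ K.fixingSubgroup → (c : (Qbar ≃ₐ[ℚ] Qbar) → M) (g * s) = c g := by
  have hp : p.Prime := Fact.out
  have hgalQ : IsGalois ℚ Qbar := Fermat.Agent.S13.h24_isGalois_Qbar
  obtain ⟨K₀, hK₀, hK₀gal, hρ, ⟨ζ, hζK₀, hζ⟩, -, -⟩ := h56_exists_base_level S hpS M hsm hMur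
  obtain ⟨K, hK₀K, hK, hKprop⟩ := h46_exists_kummer_level p hp.pos S K₀ hK₀
  refine ⟨K, hK, fun c hc g s hs => ?_⟩
  obtain ⟨F₁, hF₁, hconst⟩ := hc
  obtain ⟨N, hF₁N, hK₀N, hN, hNgal⟩ := h56_exists_galois_level_ge S F₁ K₀ hF₁ hK₀
  have hcoc : ∀ g h : Qbar ≃ₐ[ℚ] Qbar, (c : (Qbar ≃ₐ[ℚ] Qbar) → M) (g * h) = M.ρ g (c h) + c g :=
    (mem_cocycles₁_iff (c : (Qbar ≃ₐ[ℚ] Qbar) → M)).mp c.2
  suffices h : (c : (Qbar ≃ₐ[ℚ] Qbar) → M) s = 0 by rw [hcoc g s, h, map_zero, zero_add]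
  by_contra hne
  obtain ⟨φ, hφ⟩ : ∃ φ : Module.Dual (ZMod p) M, φ ((c : (Qbar ≃ₐ[ℚ] Qbar) → M) s) ≠ 0 := by
    by_contra hcon
    push Not at hcon
    exact hne ((Module.forall_dual_apply_eq_zero_iff (ZMod p) _).mp hcon)
  have hζp : ζ ^ p = 1 := hζ.pow_eq_one
  have hζ0 : ζ ≠ 0 := hζ.ne_zero hp.ne_zero
  let ψ : (Qbar ≃ₐ[ℚ] Qbar) → Qbar := fun g => ζ ^ (φ ((c : (Qbar ≃ₐ[ℚ] Qbar) → M) g)).val
  have hsK₀ : s ∈ K₀.fixingSubgroup := IntermediateField.fixingSubgroup_antitone hK₀K hs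
  have hfdN : FiniteDimensional ℚ N := hN.1
  have hnorN : Normal ℚ N := hNgal.to_normal
  obtain ⟨y, hyN, hy0, hy⟩ := h46_resolvent K₀ N hK₀N ψ
    (fun t _ => pow_ne_zero _ hζ0) (fun t _ => pow_mem hζK₀ _)
    (fun s₁ hs₁ t₁ _ => by
      show ζ ^ (φ ((c : (Qbar ≃ₐ[ℚ] Qbar) → M) (s₁ * t₁))).val = _
      rw [hcoc s₁ t₁, hρ s₁ hs₁, map_add, h46_pow_val_add hζp, mul_comm]
      rfl)
    (fun s₁ _ t₁ ht₁ => by
      show ζ ^ (φ ((c : (Qbar ≃ₐ[ℚ] Qbar) → M) (s₁ * t₁))).val = _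
      rw [hconst s₁ t₁ (IntermediateField.fixingSubgroup_antitone hF₁N ht₁)])
  have hyp : y ^ p ∈ K₀ := by
    rw [← InfiniteGalois.fixedField_fixingSubgroup K₀, IntermediateField.mem_fixedField_iff]
    intro t ht
    rw [map_pow, hy t ht, mul_pow]
    have e : (ζ ^ (φ ((c : (Qbar ≃ₐ[ℚ] Qbar) → M) t)).val) ^ p = 1 := by
      rw [← pow_mul, mul_comm, pow_mul, hζp, one_pow]
    show (ζ ^ (φ ((c : (Qbar ≃ₐ[ℚ] Qbar) → M) t)).val) ^ p * y ^ p = y ^ p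
    rw [e, one_mul]
  have hyK : y ∈ K := hKprop N hN hNgal y hyN hy0 hyp
  have hsy : s y = y := (IntermediateField.mem_fixingSubgroup_iff K s).mp hs y hyK
  have hψs : ψ s = 1 := by
    have h1 : ψ s * y = 1 * y := by rw [← hy s hsK₀, hsy, one_mul]
    exact mul_right_cancel₀ hy0 h1
  have hdvd : p ∣ (φ ((c : (Qbar ≃ₐ[ℚ] Qbar) → M) s)).val := (hζ.pow_eq_one_iff_dvd _).mp hψs
  have : NeZero p := ⟨hp.ne_zero⟩
  have hval : (φ ((c : (Qbar ≃ₐ[ℚ] Qbar) → M) s)).val = 0 :=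
    Nat.eq_zero_of_dvd_of_lt hdvd (ZMod.val_lt _)
  exact hφ ((ZMod.val_eq_zero _).mp hval)

/-- The `S`-level 1-cocycles of `M` form a finite set. -/
theorem h46_finite_levelCocyclesS₁ (hpS : pPrime p ∈ S)
    (M : Rep (ZMod p) (Qbar ≃ₐ[ℚ] Qbar)) [FiniteDimensional (ZMod p) M]
    (hsm : ∀ m : M, ∃ F : IntermediateField ℚ Qbar, FiniteDimensional ℚ F ∧
      ∀ s ∈ F.fixingSubgroup, M.ρ s m = m)
    (hMur : ∀ q : Nat.Primes, q ∉ S → ∀ A : ValuationSubring Qbar,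
      A.LiesOverPrime (q : ℕ) → ∀ g ∈ A.inertiaSubgroupIn ℚ, M.ρ g = 1) :
    Finite (levelCocyclesS₁ S M) := by
  have hp : p.Prime := Fact.out
  have : NeZero p := ⟨hp.ne_zero⟩
  have hgalQ : IsGalois ℚ Qbar := Fermat.Agent.S13.h24_isGalois_Qbar
  obtain ⟨K, hK, hconst⟩ := h46_exists_uniform_level S hpS M hsm hMur
  have hfdK : FiniteDimensional ℚ K := hK.1
  have hfinQ : Finite ((Qbar ≃ₐ[ℚ] Qbar) ⧸ K.fixingSubgroup) :=
    Subgroup.quotient_finite_of_isOpen _ K.fixingSubgroup_isOpen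
  have hfinM : Finite M := Module.finite_of_finite (ZMod p)
  let f : levelCocyclesS₁ S M → ((Qbar ≃ₐ[ℚ] Qbar) ⧸ K.fixingSubgroup → M) :=
    fun c q => ((c : cocycles₁ M) : (Qbar ≃ₐ[ℚ] Qbar) → M) (Quotient.out q)
  have hf : Function.Injective f := by
    intro c c' h
    apply Subtype.ext
    apply Subtype.ext
    funext g
    obtain ⟨u, hu⟩ := QuotientGroup.mk_out_eq_mul K.fixingSubgroup g
    have h1 := hconst (c : cocycles₁ M) c.2 g u u.2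
    have h2 := hconst (c' : cocycles₁ M) c'.2 g u u.2
    have h3 := congrFun h (QuotientGroup.mk g)
    show ((c : cocycles₁ M) : (Qbar ≃ₐ[ℚ] Qbar) → M) g = ((c' : cocycles₁ M) : (Qbar ≃ₐ[ℚ] Qbar) → M) g
    rw [← h1, ← h2, ← hu]
    exact h3
  exact Finite.of_injective f hf

/-- **Finiteness of `H¹(G_S, M)`** (the prelude's `continuousH1S`). -/
theorem h46_finite_continuousH1S (hpS : pPrime p ∈ S)
    (M : Rep (ZMod p) (Qbar ≃ₐ[ℚ] Qbar)) [FiniteDimensional (ZMod p) M]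
    (hsm : ∀ m : M, ∃ F : IntermediateField ℚ Qbar, FiniteDimensional ℚ F ∧
      ∀ s ∈ F.fixingSubgroup, M.ρ s m = m)
    (hMur : ∀ q : Nat.Primes, q ∉ S → ∀ A : ValuationSubring Qbar,
      A.LiesOverPrime (q : ℕ) → ∀ g ∈ A.inertiaSubgroupIn ℚ, M.ρ g = 1) :
    Module.Finite (ZMod p) (continuousH1S S M) := by
  have := h46_finite_levelCocyclesS₁ S hpS M hsm hMur
  have : Module.Finite (ZMod p) (levelCocyclesS₁ S M) := Module.Finite.of_finite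
  exact Module.Finite.map _ _

/-- **Finiteness of `Ш¹_S(M)`.** -/
theorem h46_finite_sha₁ (hpS : pPrime p ∈ S)
    (M : Rep (ZMod p) (Qbar ≃ₐ[ℚ] Qbar)) [FiniteDimensional (ZMod p) M]
    (hsm : ∀ m : M, ∃ F : IntermediateField ℚ Qbar, FiniteDimensional ℚ F ∧
      ∀ s ∈ F.fixingSubgroup, M.ρ s m = m)
    (hMur : ∀ q : Nat.Primes, q ∉ S → ∀ A : ValuationSubring Qbar,
      A.LiesOverPrime (q : ℕ) → ∀ g ∈ A.inertiaSubgroupIn ℚ, M.ρ g = 1) :
    FiniteDimensional (ZMod p) (sha₁ S M) := by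
  have := h46_finite_continuousH1S S hpS M hsm hMur
  have hle : sha₁ S M ≤ continuousH1S S M := inf_le_left
  exact Module.Finite.of_injective (Submodule.inclusion hle) (Submodule.inclusion_injective hle)

/-- **Finiteness of `Ш¹_S(M')`** for the twisted dual, under the hypotheses of the frozen S55:
the hypothesis `h1` of `h97_S55_of_finrank`. -/
theorem h46_finite_sha₁_dualTwist (hpS : pPrime p ∈ S)
    (M : Rep (ZMod p) (Qbar ≃ₐ[ℚ] Qbar)) [FiniteDimensional (ZMod p) M]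
    (hsm : ∀ m : M, ∃ F : IntermediateField ℚ Qbar, FiniteDimensional ℚ F ∧
      ∀ s ∈ F.fixingSubgroup, M.ρ s m = m)
    (hMur : ∀ q : Nat.Primes, q ∉ S → ∀ A : ValuationSubring Qbar,
      A.LiesOverPrime (q : ℕ) → ∀ g ∈ A.inertiaSubgroupIn ℚ, M.ρ g = 1) :
    FiniteDimensional (ZMod p) (sha₁ S (M.dualTwist (cycloChar p))) := by
  have : FiniteDimensional (ZMod p) (M.dualTwist (cycloChar p)) :=
    inferInstanceAs (FiniteDimensional (ZMod p) (Module.Dual (ZMod p) M))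
  exact h46_finite_sha₁ S hpS (M.dualTwist (cycloChar p)) (h56_dualTwist_smooth M hsm)
    (h56_dualTwist_unram S hpS M hMur)

end FinH1

end Fermat.Agent.S55
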