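import Fermat.Agent.S55.h63_LocOrd

/-!
# S55 / LOC-BASE (helper63): the valuation ring of a finite extension of `ℚ_[q]`
as a Mathlib `ValuationSubring`, and its description by `h63_ord`.
-/

namespace Fermat.Agent.S55

open Polynomial IntermediateField

variable (q : ℕ) [Fact q.Prime]

section base

set_option linter.unusedSectionVars false

variable (K : Type*) [Field K] [Algebra ℚ_[q] K] [FiniteDimensional ℚ_[q] K]

/-- size of the residue field, `Q_K = q ^ f(K/ℚ_q)`. -/
noncomputable def h63_resCard : ℕ := q ^ h63_resDeg q K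

variable {K} in
/-- `‖x‖_sp ^ [K:ℚ_q] = |N x|_q`. -/
theorem h63_spectralNorm_pow (x : K) :
    spectralNorm ℚ_[q] K x ^ Module.finrank ℚ_[q] K = ‖Algebra.norm ℚ_[q] x‖ := by
  have hx : IsIntegral ℚ_[q] x := Algebra.IsIntegral.isIntegral x
  have h1 := Algebra.norm_eq_norm_adjoin ℚ_[q] x
  have h2 := spectralNorm.spectralNorm_eq_norm_coeff_zero_rpow (K := ℚ_[q]) (L := K) x
  have h3 : Algebra.norm ℚ_[q] (AdjoinSimple.gen ℚ_[q] x)
      = (-1) ^ (minpoly ℚ_[q] x).natDegree * (minpoly ℚ_[q] x).coeff 0 := by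
    have := Algebra.PowerBasis.norm_gen_eq_coeff_zero_minpoly (adjoin.powerBasis hx)
    simpa [adjoin.powerBasis_gen, minpoly_gen, adjoin.powerBasis_dim] using this
  have h4 : (minpoly ℚ_[q] x).natDegree * Module.finrank ℚ_[q]⟮x⟯ K
      = Module.finrank ℚ_[q] K := by
    rw [← adjoin.finrank hx, Module.finrank_mul_finrank]
  have hd : 0 < (minpoly ℚ_[q] x).natDegree := minpoly.natDegree_pos hx
  rw [h1, h3, ← h4, pow_mul, h2]
  rw [norm_pow, norm_mul, norm_pow, norm_neg, norm_one, one_pow, one_mul]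
  congr 1
  rw [← Real.rpow_natCast, ← Real.rpow_mul (norm_nonneg _)]
  rw [one_div, inv_mul_cancel₀ (by exact_mod_cast hd.ne'), Real.rpow_one]

variable {K} in
/-- `‖x‖_sp ^ [K:ℚ_q] = q ^ (-(f · ord x))`. -/
theorem h63_spectralNorm_pow_unit (x : Kˣ) :
    spectralNorm ℚ_[q] K (x : K) ^ Module.finrank ℚ_[q] K
      = (q : ℝ) ^ (-((h63_resDeg q K : ℤ) * h63_ord q K x)) := by
  rw [h63_spectralNorm_pow, Padic.norm_eq_zpow_neg_valuation (h63_norm_unit_ne_zero q x),
    ← h63_rawOrd_eq]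
  rfl

variable {K} in
theorem h63_spectralNorm_le_one_iff (x : Kˣ) :
    spectralNorm ℚ_[q] K (x : K) ≤ 1 ↔ 0 ≤ h63_ord q K x := by
  have hn : Module.finrank ℚ_[q] K ≠ 0 := Module.finrank_pos.ne'
  have hq1 : (1 : ℝ) < q := by exact_mod_cast (Fact.out : q.Prime).one_lt
  have hf : (0 : ℤ) < h63_resDeg q K := by exact_mod_cast h63_resDeg_pos q K
  rw [← pow_le_one_iff_of_nonneg (spectralNorm_nonneg _) hn, h63_spectralNorm_pow_unit,
    zpow_le_one_iff_right₀ hq1]
  constructor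
  · intro h
    by_contra hneg
    push Not at hneg
    nlinarith
  · intro h
    nlinarith

variable {K} in
theorem h63_spectralNorm_lt_one_iff (x : Kˣ) :
    spectralNorm ℚ_[q] K (x : K) < 1 ↔ 0 < h63_ord q K x := by
  have hn : Module.finrank ℚ_[q] K ≠ 0 := Module.finrank_pos.ne'
  have hq1 : (1 : ℝ) < q := by exact_mod_cast (Fact.out : q.Prime).one_lt
  have hf : (0 : ℤ) < h63_resDeg q K := by exact_mod_cast h63_resDeg_pos q K
  rw [← pow_lt_one_iff_of_nonneg (spectralNorm_nonneg _) hn, h63_spectralNorm_pow_unit,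
    zpow_lt_one_iff_right₀ hq1]
  constructor
  · intro h
    by_contra hneg
    push Not at hneg
    nlinarith
  · intro h
    nlinarith

variable {K} in
theorem h63_spectralNorm_mul (a b : K) :
    spectralNorm ℚ_[q] K (a * b) = spectralNorm ℚ_[q] K a * spectralNorm ℚ_[q] K b :=
  spectralAlgNorm_mul (K := ℚ_[q]) (L := K) a b

/-- The valuation ring `O_K = {x | ‖x‖ ≤ 1}` of a finite extension `K` of `ℚ_q`. -/
noncomputable def h63_O : ValuationSubring K where
  carrier := {x | spectralNorm ℚ_[q] K x ≤ 1}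
  mul_mem' := by
    intro a b ha hb
    change spectralNorm ℚ_[q] K a ≤ 1 at ha
    change spectralNorm ℚ_[q] K b ≤ 1 at hb
    change spectralNorm ℚ_[q] K (a * b) ≤ 1
    rw [h63_spectralNorm_mul]
    exact mul_le_one₀ ha (spectralNorm_nonneg _) hb
  one_mem' := by simp [spectralNorm_one]
  add_mem' := by
    intro a b ha hb
    change spectralNorm ℚ_[q] K a ≤ 1 at ha
    change spectralNorm ℚ_[q] K b ≤ 1 at hb
    change spectralNorm ℚ_[q] K (a + b) ≤ 1
    exact (isNonarchimedean_spectralNorm a b).trans (max_le ha hb)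
  zero_mem' := by simp [spectralNorm_zero]
  neg_mem' := by
    intro a ha
    change spectralNorm ℚ_[q] K a ≤ 1 at ha
    change spectralNorm ℚ_[q] K (-a) ≤ 1
    rw [spectralNorm_neg (Algebra.IsAlgebraic.isAlgebraic a)]
    exact ha
  mem_or_inv_mem' := by
    intro a
    by_cases ha : a = 0
    · left; simp [ha, spectralNorm_zero]
    · have h : spectralNorm ℚ_[q] K a * spectralNorm ℚ_[q] K a⁻¹ = 1 := by
        rw [← h63_spectralNorm_mul, mul_inv_cancel₀ ha, spectralNorm_one]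
      by_cases h1 : spectralNorm ℚ_[q] K a ≤ 1
      · left; exact h1
      · right
        push Not at h1
        change spectralNorm ℚ_[q] K a⁻¹ ≤ 1
        by_contra h2
        push Not at h2
        have := mul_lt_mul'' h1 h2 zero_le_one zero_le_one
        rw [h] at this
        simp at this

variable {K} in
theorem h63_mem_O_iff_spectralNorm (x : K) :
    x ∈ h63_O q K ↔ spectralNorm ℚ_[q] K x ≤ 1 := Iff.rfl

variable {K} in
/-- `x ∈ O_K ↔ ord x ≥ 0`. -/
theorem h63_mem_O_iff (x : Kˣ) : (x : K) ∈ h63_O q K ↔ 0 ≤ h63_ord q K x :=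
  h63_spectralNorm_le_one_iff q x

variable {K} in
/-- `x ∈ 𝔪_K ↔ ord x > 0`. -/
theorem h63_mem_nonunits_iff (x : Kˣ) :
    (x : K) ∈ (h63_O q K).nonunits ↔ 0 < h63_ord q K x := by
  rw [ValuationSubring.mem_nonunits_iff_exists_mem_maximalIdeal]
  constructor
  · rintro ⟨hx, hmax⟩
    by_contra hneg
    push Not at hneg
    have h0 : h63_ord q K x = 0 := le_antisymm hneg ((h63_mem_O_iff q x).1 hx)
    have hinv : ((x⁻¹ : Kˣ) : K) ∈ h63_O q K := by
      rw [h63_mem_O_iff, h63_ord_inv, h0]; simp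
    have hunit : IsUnit (⟨(x : K), hx⟩ : h63_O q K) := by
      refine ⟨⟨⟨(x : K), hx⟩, ⟨((x⁻¹ : Kˣ) : K), hinv⟩, ?_, ?_⟩, rfl⟩
      · ext; simp
      · ext; simp
    exact (IsLocalRing.mem_maximalIdeal _).1 hmax hunit
  · intro hpos
    have hx : (x : K) ∈ h63_O q K := (h63_mem_O_iff q x).2 hpos.le
    refine ⟨hx, ?_⟩
    rw [IsLocalRing.mem_maximalIdeal]
    intro hunit
    obtain ⟨u, hu⟩ := hunit
    have hinv : ((x⁻¹ : Kˣ) : K) ∈ h63_O q K := by
      have h1 : ((u⁻¹ : (h63_O q K)ˣ) : K) * (x : K) = 1 := by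
        have := congrArg (Subtype.val) (Units.inv_mul u)
        rw [hu] at this
        simpa using this
      have h2 : ((x⁻¹ : Kˣ) : K) = ((u⁻¹ : (h63_O q K)ˣ) : K) := by
        rw [Units.val_inv_eq_inv_val]
        exact (eq_inv_of_mul_eq_one_left h1).symm
      rw [h2]
      exact Subtype.mem _
    rw [h63_mem_O_iff, h63_ord_inv] at hinv
    omega

variable {K} in
/-- ultrametric inequality for `ord`. -/
theorem h63_ord_add_ge (x y z : Kˣ) (h : (x : K) + y = z) :
    min (h63_ord q K x) (h63_ord q K y) ≤ h63_ord q K z := by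
  wlog hxy : h63_ord q K x ≤ h63_ord q K y generalizing x y
  · have := this y x (by rw [add_comm]; exact h) (le_of_not_ge hxy)
    rwa [min_comm]
  rw [min_eq_left hxy]
  have h1 : ((y * x⁻¹ : Kˣ) : K) ∈ h63_O q K := by
    rw [h63_mem_O_iff, h63_ord_mul, h63_ord_inv]; omega
  have h2 : ((z * x⁻¹ : Kˣ) : K) ∈ h63_O q K := by
    have : ((z * x⁻¹ : Kˣ) : K) = 1 + ((y * x⁻¹ : Kˣ) : K) := by
      simp only [Units.val_mul, ← h, add_mul]
      rw [Units.mul_inv]
    rw [this]
    exact (h63_O q K).add_mem _ _ (h63_O q K).one_mem h1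
  rw [h63_mem_O_iff, h63_ord_mul, h63_ord_inv] at h2
  omega

/-- `ord x ≥ n` for an arbitrary element (true for `x = 0`). -/
def h63_ordGE (n : ℤ) (x : K) : Prop :=
  ∀ u : Kˣ, (u : K) = x → n ≤ h63_ord q K u

variable {K} in
theorem h63_ordGE_zero (n : ℤ) : h63_ordGE q K n 0 := by
  intro u hu
  exact absurd hu u.ne_zero

variable {K} in
theorem h63_ordGE_unit (n : ℤ) (x : Kˣ) : h63_ordGE q K n (x : K) ↔ n ≤ h63_ord q K x := by
  constructor
  · intro h; exact h x rfl
  · intro h u hu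
    have : u = x := Units.ext hu
    rw [this]; exact h

variable {K} in
theorem h63_ordGE_add {n : ℤ} {x y : K} (hx : h63_ordGE q K n x) (hy : h63_ordGE q K n y) :
    h63_ordGE q K n (x + y) := by
  by_cases hx0 : x = 0
  · simpa [hx0] using hy
  by_cases hy0 : y = 0
  · simpa [hy0] using hx
  intro u hu
  have := h63_ord_add_ge q (Units.mk0 x hx0) (Units.mk0 y hy0) u (by simp [hu])
  have h1 := hx (Units.mk0 x hx0) rfl
  have h2 := hy (Units.mk0 y hy0) rfl
  exact (le_min h1 h2).trans this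

variable {K} in
theorem h63_ordGE_neg {n : ℤ} {x : K} (hx : h63_ordGE q K n x) : h63_ordGE q K n (-x) := by
  intro u hu
  have h1 := hx (-u) (by simp [hu])
  have h2 : h63_ord q K (-u) = h63_ord q K u := by
    have hm : (-1 : Kˣ) * (-1 : Kˣ) = 1 := by simp
    have h3 := h63_ord_mul q (-1 : Kˣ) (-1 : Kˣ)
    rw [hm, h63_ord_one] at h3
    have h4 : h63_ord q K (-1 : Kˣ) = 0 := by omega
    have h5 : (-u : Kˣ) = (-1 : Kˣ) * u := by simp
    rw [h5, h63_ord_mul, h4, zero_add]
  omega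

variable {K} in
theorem h63_ordGE_mul {m n : ℤ} {x y : K} (hx : h63_ordGE q K m x) (hy : h63_ordGE q K n y) :
    h63_ordGE q K (m + n) (x * y) := by
  intro u hu
  have hx0 : x ≠ 0 := by
    rintro rfl
    rw [zero_mul] at hu
    exact u.ne_zero hu
  have hy0 : y ≠ 0 := by
    rintro rfl
    rw [mul_zero] at hu
    exact u.ne_zero hu
  have h1 := hx (Units.mk0 x hx0) rfl
  have h2 := hy (Units.mk0 y hy0) rfl
  have h3 : u = Units.mk0 x hx0 * Units.mk0 y hy0 := Units.ext (by simp [hu])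
  rw [h3, h63_ord_mul]
  omega

variable {K} in
/-- `x ∈ O_K ↔ ord x ≥ 0` for arbitrary elements. -/
theorem h63_mem_O_iff_ordGE (x : K) : x ∈ h63_O q K ↔ h63_ordGE q K 0 x := by
  by_cases hx0 : x = 0
  · subst hx0
    simp [h63_ordGE_zero, (h63_O q K).zero_mem]
  · have := h63_mem_O_iff q (Units.mk0 x hx0)
    rw [Units.val_mk0] at this
    have h2 := h63_ordGE_unit q 0 (Units.mk0 x hx0)
    rw [Units.val_mk0] at h2
    rw [this, h2]

variable {K} in
/-- `x ∈ 𝔪_K ↔ ord x ≥ 1` for arbitrary elements. -/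
theorem h63_mem_nonunits_iff_ordGE (x : K) (hx0 : x ≠ 0) :
    x ∈ (h63_O q K).nonunits ↔ h63_ordGE q K 1 x := by
  have := h63_mem_nonunits_iff q (Units.mk0 x hx0)
  rw [Units.val_mk0] at this
  have h2 := h63_ordGE_unit q 1 (Units.mk0 x hx0)
  rw [Units.val_mk0] at h2
  rw [this, h2]
  omega

end base

section equiv

variable {K K' : Type*} [Field K] [Field K'] [Algebra ℚ_[q] K] [Algebra ℚ_[q] K']
  [FiniteDimensional ℚ_[q] K] [FiniteDimensional ℚ_[q] K']

/-- `ℚ_q`-isomorphisms preserve the valuation rings. -/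
theorem h63_mem_O_algEquiv (e : K ≃ₐ[ℚ_[q]] K') (x : K) :
    e x ∈ h63_O q K' ↔ x ∈ h63_O q K := by
  by_cases hx0 : x = 0
  · subst hx0
    simp [(h63_O q K).zero_mem, (h63_O q K').zero_mem]
  · have h1 := h63_mem_O_iff q (Units.map (e : K →* K') (Units.mk0 x hx0))
    have h2 := h63_mem_O_iff q (Units.mk0 x hx0)
    rw [h63_ord_algEquiv] at h1
    simp only [Units.coe_map, Units.val_mk0, MonoidHom.coe_coe] at h1 h2
    rw [h1, h2]

end equiv

end Fermat.Agent.S55
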