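import Mathlib
import Fermat.Agent.S55.h63_LocBase

/-!
# S55 / LOC-UNR-1 (helper6): Teichmüller representatives

`K` a finite extension of `ℚ_[q]`, `O = h63_O q K`, `Q = h63_resCard q K`.

* `h6_root_sub_one` : a root of unity `ζ ≠ 1` of order prime to `q` has `ζ - 1` a unit.
* `h6_teich_of` : every unit of `O` is congruent to a `(Q-1)`-th root of unity
  (from LOC-RES and LOC-HENSEL, taken as hypotheses).
* `h6_exists_primitiveRoot_of` : `K` contains a primitive `(Q-1)`-th root of unity.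
-/

set_option autoImplicit false

namespace Fermat.Agent.S55

open Polynomial

variable (q : ℕ) [Fact q.Prime]

section

variable (K : Type*) [Field K] [Algebra ℚ_[q] K] [FiniteDimensional ℚ_[q] K]

variable {K} in
/-- `x ∈ 𝔪_K ↔ ‖x‖ < 1`. -/
theorem h6_mem_nonunits_iff_spectralNorm (x : K) :
    x ∈ (h63_O q K).nonunits ↔ spectralNorm ℚ_[q] K x < 1 := by
  by_cases hx0 : x = 0
  · subst hx0
    rw [spectralNorm_zero, ValuationSubring.mem_nonunits_iff_exists_mem_maximalIdeal]
    exact ⟨fun _ => zero_lt_one, fun _ => ⟨zero_mem _, Ideal.zero_mem _⟩⟩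
  · have h1 := h63_mem_nonunits_iff q (Units.mk0 x hx0)
    have h2 := h63_spectralNorm_lt_one_iff q (Units.mk0 x hx0)
    rw [Units.val_mk0] at h1 h2
    rw [h1, h2]

variable {K} in
theorem h6_nonunits_sub_O : ∀ x ∈ (h63_O q K).nonunits, x ∈ h63_O q K := by
  intro x hx
  rw [h6_mem_nonunits_iff_spectralNorm] at hx
  exact hx.le

variable {K} in
/-- The maximal ideal of `O_K` in terms of `nonunits`. -/
theorem h6_mem_maximalIdeal_iff (x : h63_O q K) :
    x ∈ IsLocalRing.maximalIdeal (h63_O q K) ↔ (x : K) ∈ (h63_O q K).nonunits := by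
  rw [ValuationSubring.mem_nonunits_iff_exists_mem_maximalIdeal]
  constructor
  · intro h
    exact ⟨x.2, h⟩
  · rintro ⟨_, h⟩
    exact h

variable {K} in
theorem h6_residue_eq_zero_iff (x : h63_O q K) :
    IsLocalRing.residue (h63_O q K) x = 0 ↔ (x : K) ∈ (h63_O q K).nonunits := by
  rw [IsLocalRing.residue_eq_zero_iff, h6_mem_maximalIdeal_iff]

variable {K} in
/-- natural numbers prime to `q` are units of `O_K`. -/
theorem h6_natCast_isUnit (m : ℕ) (hm : m.Coprime q) : IsUnit ((m : ℕ) : h63_O q K) := by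
  have hnorm : ‖((m : ℕ) : ℚ_[q])‖ = 1 := by
    rw [Padic.norm_natCast_eq_one_iff]
    exact hm.symm
  have hm0 : ((m : ℕ) : K) ≠ 0 := by
    intro h0
    have h1 : spectralNorm ℚ_[q] K (algebraMap ℚ_[q] K (m : ℚ_[q])) = ‖((m : ℕ) : ℚ_[q])‖ :=
      spectralNorm_extends _
    rw [map_natCast, h0, spectralNorm_zero, hnorm] at h1
    exact zero_ne_one h1
  have hinv : ((m : ℕ) : K)⁻¹ ∈ h63_O q K := by
    rw [h63_mem_O_iff_spectralNorm]
    have h1 : spectralNorm ℚ_[q] K (algebraMap ℚ_[q] K ((m : ℚ_[q])⁻¹)) = ‖((m : ℚ_[q]))⁻¹‖ :=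
      spectralNorm_extends _
    rw [map_inv₀, map_natCast, norm_inv, hnorm, inv_one] at h1
    exact h1.le
  refine ⟨⟨(m : h63_O q K), ⟨((m : ℕ) : K)⁻¹, hinv⟩, ?_, ?_⟩, rfl⟩
  · ext
    simp [hm0]
  · ext
    simp [hm0]

variable {K} in
/-- roots of unity lie in `O_K`. -/
theorem h6_root_mem_O (m : ℕ) (hm0 : m ≠ 0) (ζ : K) (hζ : ζ ^ m = 1) : ζ ∈ h63_O q K := by
  rw [h63_mem_O_iff_spectralNorm]
  have h1 : spectralNorm ℚ_[q] K ζ ^ m = 1 := by
    have h2 : ∀ n : ℕ, spectralNorm ℚ_[q] K (ζ ^ n) = spectralNorm ℚ_[q] K ζ ^ n := by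
      intro n
      induction n with
      | zero => simp [spectralNorm_one]
      | succ n ih => rw [pow_succ, h63_spectralNorm_mul, ih, pow_succ]
    rw [← h2, hζ, spectralNorm_one]
  exact ((pow_eq_one_iff_of_nonneg (spectralNorm_nonneg _) hm0).mp h1).le

/-- **LOC-UNR-1 (a)**: a nontrivial root of unity of order prime to `q` is not congruent to `1`. -/
theorem h6_root_sub_one (m : ℕ) (hm : m.Coprime q) (ζ : K) (hζ : ζ ^ m = 1) (h1 : ζ ≠ 1) :
    ζ - 1 ∉ (h63_O q K).nonunits := by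
  intro hmem
  have hm0 : m ≠ 0 := by
    rintro rfl
    rw [Nat.coprime_zero_left] at hm
    exact (Fact.out : q.Prime).one_lt.ne' hm
  have hζO : ζ ∈ h63_O q K := h6_root_mem_O q m hm0 ζ hζ
  set ζ' : h63_O q K := ⟨ζ, hζO⟩ with hζ'
  have hres : IsLocalRing.residue (h63_O q K) ζ' = 1 := by
    have h0 : IsLocalRing.residue (h63_O q K) (ζ' - 1) = 0 := by
      rw [h6_residue_eq_zero_iff]
      exact hmem
    rw [map_sub, map_one, sub_eq_zero] at h0
    exact h0
  have hζ'pow : ζ' ^ m = 1 := by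
    ext
    simp [hζ', hζ]
  have hζ'ne : ζ' - 1 ≠ 0 := by
    intro h0
    apply h1
    have := congrArg Subtype.val h0
    simpa [hζ', sub_eq_zero] using this
  have hsum : ∑ k ∈ Finset.range m, ζ' ^ k = 0 := by
    have h2 := mul_geom_sum ζ' m
    rw [hζ'pow, sub_self] at h2
    exact (mul_eq_zero.mp h2).resolve_left hζ'ne
  have hmres : IsLocalRing.residue (h63_O q K) ((m : ℕ) : h63_O q K) = 0 := by
    have h3 := congrArg (IsLocalRing.residue (h63_O q K)) hsum
    rw [map_sum, map_zero] at h3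
    simp only [map_pow, hres, one_pow, Finset.sum_const, Finset.card_range, nsmul_eq_mul,
      mul_one] at h3
    rw [map_natCast]
    exact h3
  rw [IsLocalRing.residue_eq_zero_iff] at hmres
  exact (IsLocalRing.mem_maximalIdeal _).mp hmres (h6_natCast_isUnit q m hm)

variable {K} in
theorem h6_spectralNorm_pow (x : K) (n : ℕ) :
    spectralNorm ℚ_[q] K (x ^ n) = spectralNorm ℚ_[q] K x ^ n := by
  induction n with
  | zero => simp [spectralNorm_one]
  | succ n ih => rw [pow_succ, h63_spectralNorm_mul, ih, pow_succ]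

omit [FiniteDimensional ℚ_[q] K] in
variable {K} in
theorem h6_spectralNorm_natCast (m : ℕ) (hm : m.Coprime q) :
    spectralNorm ℚ_[q] K ((m : ℕ) : K) = 1 := by
  have h1 : spectralNorm ℚ_[q] K (algebraMap ℚ_[q] K (m : ℚ_[q])) = ‖((m : ℕ) : ℚ_[q])‖ :=
    spectralNorm_extends _
  rw [map_natCast] at h1
  rw [h1, Padic.norm_natCast_eq_one_iff]
  exact hm.symm

variable {K} in
theorem h6_neg_mem_nonunits (x : K) (hx : x ∈ (h63_O q K).nonunits) :
    -x ∈ (h63_O q K).nonunits := by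
  rw [h6_mem_nonunits_iff_spectralNorm] at hx ⊢
  rw [spectralNorm_neg (Algebra.IsAlgebraic.isAlgebraic x)]
  exact hx

theorem h6_two_le_resCard : 2 ≤ h63_resCard q K := by
  have hq : q.Prime := Fact.out
  have hf := h63_resDeg_pos q K
  unfold h63_resCard
  calc 2 ≤ q := hq.two_le
    _ = q ^ 1 := (pow_one q).symm
    _ ≤ q ^ h63_resDeg q K := Nat.pow_le_pow_right hq.pos hf

theorem h6_resCard_pred_coprime : (h63_resCard q K - 1).Coprime q := by
  have hq : q.Prime := Fact.out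
  have hf := h63_resDeg_pos q K
  unfold h63_resCard
  rw [Nat.coprime_comm, Nat.Prime.coprime_iff_not_dvd hq]
  intro hdvd
  have h1 : q ∣ q ^ h63_resDeg q K := dvd_pow_self q hf.ne'
  have h2 : 1 ≤ q ^ h63_resDeg q K := Nat.one_le_pow _ _ hq.pos
  have h3 : q ∣ q ^ h63_resDeg q K - (q ^ h63_resDeg q K - 1) := Nat.dvd_sub h1 hdvd
  have h4 : q ^ h63_resDeg q K - (q ^ h63_resDeg q K - 1) = 1 := by omega
  rw [h4] at h3
  exact hq.one_lt.ne' (Nat.dvd_one.mp h3)

/-- **LOC-UNR-1 (b)**, conditional on LOC-RES (corollary) and LOC-HENSEL: every unit of `O_K`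
is congruent mod `𝔪_K` to a `(Q-1)`-th root of unity. -/
theorem h6_teich_of
    (hres : ∀ x ∈ h63_O q K, x ∉ (h63_O q K).nonunits →
      x ^ (h63_resCard q K - 1) - 1 ∈ (h63_O q K).nonunits)
    (hhensel : ∀ F : Polynomial K, (∀ n, F.coeff n ∈ h63_O q K) → ∀ a : K, a ∈ h63_O q K →
      F.eval a ∈ (h63_O q K).nonunits → F.derivative.eval a ∉ (h63_O q K).nonunits →
      ∃ b : K, F.eval b = 0 ∧ b - a ∈ (h63_O q K).nonunits)
    (x : K) (hx : x ∈ h63_O q K) (hx' : x ∉ (h63_O q K).nonunits) :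
    ∃ ζ : K, ζ ^ (h63_resCard q K - 1) = 1 ∧ x - ζ ∈ (h63_O q K).nonunits := by
  have hQ := h6_two_le_resCard q K
  have hcop := h6_resCard_pred_coprime q K
  have hres' := hres x hx hx'
  generalize h63_resCard q K - 1 = N at hcop hres' ⊢
  have hxnorm : spectralNorm ℚ_[q] K x = 1 := by
    rw [h6_mem_nonunits_iff_spectralNorm] at hx'
    rw [h63_mem_O_iff_spectralNorm] at hx
    exact le_antisymm hx (not_lt.mp hx')
  have hcoeff : ∀ n, ((X : Polynomial K) ^ N - 1).coeff n ∈ h63_O q K := by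
    intro n
    rw [coeff_sub, coeff_X_pow, coeff_one]
    refine sub_mem ?_ ?_
    · split_ifs
      · exact one_mem _
      · exact zero_mem _
    · split_ifs
      · exact one_mem _
      · exact zero_mem _
  have heval : ((X : Polynomial K) ^ N - 1).eval x ∈ (h63_O q K).nonunits := by
    simpa using hres'
  have hder : (derivative ((X : Polynomial K) ^ N - 1)).eval x ∉ (h63_O q K).nonunits := by
    rw [h6_mem_nonunits_iff_spectralNorm]
    simp only [derivative_sub, derivative_X_pow, derivative_one, sub_zero, eval_mul, eval_pow,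
      eval_X, map_natCast, eval_natCast]
    rw [h63_spectralNorm_mul, h6_spectralNorm_pow, hxnorm, one_pow, mul_one,
      h6_spectralNorm_natCast q N hcop]
    exact lt_irrefl 1
  obtain ⟨b, hb0, hb1⟩ := hhensel (X ^ N - 1) hcoeff x hx heval hder
  refine ⟨b, ?_, ?_⟩
  · simpa [sub_eq_zero] using hb0
  · have h2 : x - b = -(b - x) := by ring
    rw [h2]
    exact h6_neg_mem_nonunits q _ hb1

/-- **LOC-UNR-1 (c)**, conditional on LOC-RES (cardinality) and (b): `K` contains a primitive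
`(Q-1)`-th root of unity. -/
theorem h6_exists_primitiveRoot_of
    (hcard : Nat.card (IsLocalRing.ResidueField (h63_O q K)) = h63_resCard q K)
    (hteich : ∀ x ∈ h63_O q K, x ∉ (h63_O q K).nonunits →
      ∃ ζ : K, ζ ^ (h63_resCard q K - 1) = 1 ∧ x - ζ ∈ (h63_O q K).nonunits) :
    ∃ ζ : K, IsPrimitiveRoot ζ (h63_resCard q K - 1) := by
  have hQ := h6_two_le_resCard q K
  have hk : Finite (IsLocalRing.ResidueField (h63_O q K)) :=
    Nat.finite_of_card_ne_zero (by rw [hcard]; omega)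
  have hcardu : Nat.card (IsLocalRing.ResidueField (h63_O q K))ˣ = h63_resCard q K - 1 := by
    rw [Nat.card_units, hcard]
  generalize h63_resCard q K - 1 = N at hcardu hteich ⊢
  have hN : NeZero N := ⟨by
    rintro rfl
    have := Nat.card_pos (α := (IsLocalRing.ResidueField (h63_O q K))ˣ)
    omega⟩
  rw [← card_rootsOfUnity_eq_iff_exists_isPrimitiveRoot]
  apply le_antisymm (card_rootsOfUnity K N)
  have key : ∀ u : (IsLocalRing.ResidueField (h63_O q K))ˣ, ∃ ζ : rootsOfUnity N K,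
      ∃ h : ((ζ : Kˣ) : K) ∈ h63_O q K,
        IsLocalRing.residue (h63_O q K) ⟨((ζ : Kˣ) : K), h⟩ = (u : _) := by
    intro u
    obtain ⟨x, hx⟩ := IsLocalRing.residue_surjective (R := h63_O q K) (u : _)
    have hxnon : (x : K) ∉ (h63_O q K).nonunits := by
      rw [← h6_residue_eq_zero_iff, hx]
      exact u.ne_zero
    obtain ⟨ζ, hζ, hxζ⟩ := hteich x x.2 hxnon
    have hζO : ζ ∈ h63_O q K := h6_root_mem_O q N hN.out ζ hζ
    refine ⟨rootsOfUnity.mkOfPowEq ζ hζ, ?_, ?_⟩
    · rw [rootsOfUnity.coe_mkOfPowEq]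
      exact hζO
    · rw [← hx]
      have h0 : IsLocalRing.residue (h63_O q K) (x - ⟨ζ, hζO⟩) = 0 := by
        rw [h6_residue_eq_zero_iff]
        exact hxζ
      rw [map_sub, sub_eq_zero] at h0
      rw [h0]
      congr 1
  choose f hf1 hf2 using key
  refine hcardu.symm.le.trans (Nat.card_le_card_of_injective f ?_)
  intro u v huv
  ext
  rw [← hf2 u, ← hf2 v]
  congr 1
  ext
  change ((f u : Kˣ) : K) = ((f v : Kˣ) : K)
  rw [huv]

end

end Fermat.Agent.S55
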