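import Mathlib
import Fermat.Agent.S55.h6_LocTeich

/-!
# S55 / LOC (helper6): Hensel's lemma for simple roots, by the contraction principle

* `h6_hensel_normed` : complete ultrametric normed field, polynomial with integral coefficients.
* `h6_hensel` : the same in `h63_O q K` for a finite extension `K` of `ℚ_[q]`.
-/

set_option autoImplicit false

namespace Fermat.Agent.S55

/-- Hensel's lemma (simple roots) in a complete ultrametric normed field. -/
theorem h6_hensel_normed {L : Type*} [NormedField L] [CompleteSpace L]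
    (hna : ∀ x y : L, ‖x + y‖ ≤ max ‖x‖ ‖y‖)
    (F : Polynomial L) (hF : ∀ n, ‖F.coeff n‖ ≤ 1) (a : L) (ha : ‖a‖ ≤ 1)
    (h0 : ‖F.eval a‖ < 1) (h1 : ¬ ‖F.derivative.eval a‖ < 1) :
    ∃ b : L, F.eval b = 0 ∧ ‖b - a‖ < 1 := by
  classical
  -- the unit ball as a subring
  let T : Subring L :=
    { carrier := {x | ‖x‖ ≤ 1}
      mul_mem' := fun {x y} hx hy => by
        change ‖x * y‖ ≤ 1
        rw [norm_mul]
        exact mul_le_one₀ hx (norm_nonneg _) hy
      one_mem' := by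
        change ‖(1 : L)‖ ≤ 1
        rw [norm_one]
      add_mem' := fun {x y} hx hy => (hna x y).trans (max_le hx hy)
      zero_mem' := by
        change ‖(0 : L)‖ ≤ 1
        rw [norm_zero]
        exact zero_le_one
      neg_mem' := fun {x} hx => by
        change ‖-x‖ ≤ 1
        rw [norm_neg]
        exact hx }
  have hp : (↑F.coeffs : Set L) ⊆ T := by
    intro c hc
    obtain ⟨n, -, rfl⟩ := Polynomial.mem_coeffs_iff.mp hc
    exact hF n
  have hPF : (F.toSubring T hp).map T.subtype = F := Polynomial.map_toSubring F T hp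
  have hev : ∀ z : T, F.eval (z : L) = (((F.toSubring T hp).eval z : T) : L) := by
    intro z
    conv_lhs => rw [← hPF]
    rw [Polynomial.eval_map]
    exact Polynomial.eval₂_hom T.subtype z
  have hdev : ∀ z : T,
      F.derivative.eval (z : L) = (((F.toSubring T hp).derivative.eval z : T) : L) := by
    intro z
    conv_lhs => rw [← hPF]
    rw [Polynomial.derivative_map, Polynomial.eval_map]
    exact Polynomial.eval₂_hom T.subtype z
  -- Taylor expansion with integral remainder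
  have key1 : ∀ z w : L, ‖z‖ ≤ 1 → ‖w‖ ≤ 1 → ∃ k : L, ‖k‖ ≤ 1 ∧
      F.eval z = F.eval w + F.derivative.eval w * (z - w) + k * (z - w) ^ 2 := by
    intro z w hz hw
    obtain ⟨k, hk⟩ := (F.toSubring T hp).binomExpansion (⟨w, hw⟩ : T) (⟨z, hz⟩ - ⟨w, hw⟩)
    refine ⟨k, k.2, ?_⟩
    have h2 : (⟨w, hw⟩ : T) + (⟨z, hz⟩ - ⟨w, hw⟩) = ⟨z, hz⟩ := by ring
    rw [h2] at hk
    have h3 := congrArg (Subtype.val) hk
    have h4 := hev ⟨z, hz⟩
    have h5 := hev ⟨w, hw⟩
    have h6 := hdev ⟨w, hw⟩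
    simp only [Subring.coe_add, Subring.coe_mul, Subring.coe_pow, AddSubgroupClass.coe_sub] at h3 h4 h5 h6
    rw [h4, h5, h6, h3]
  have key2 : ∀ z w : L, ‖z‖ ≤ 1 → ‖w‖ ≤ 1 → ∃ k : L, ‖k‖ ≤ 1 ∧
      F.derivative.eval z - F.derivative.eval w = k * (z - w) := by
    intro z w hz hw
    obtain ⟨k, hk⟩ := (F.toSubring T hp).derivative.evalSubFactor (⟨z, hz⟩ : T) (⟨w, hw⟩ : T)
    refine ⟨k, k.2, ?_⟩
    have h3 := congrArg (Subtype.val) hk
    have h4 := hdev ⟨z, hz⟩
    have h5 := hdev ⟨w, hw⟩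
    simp only [Subring.coe_mul, AddSubgroupClass.coe_sub] at h3 h4 h5
    rw [h4, h5, h3]
  have hint : ∀ z : L, ‖z‖ ≤ 1 → ‖F.derivative.eval z‖ ≤ 1 := by
    intro z hz
    have h4 := hdev ⟨z, hz⟩
    simp only at h4
    rw [h4]
    exact ((F.toSubring T hp).derivative.eval ⟨z, hz⟩).2
  have hd1 : ‖F.derivative.eval a‖ = 1 := le_antisymm (hint a ha) (not_lt.mp h1)
  have hd0 : F.derivative.eval a ≠ 0 := by
    intro h
    rw [h, norm_zero] at hd1
    exact zero_ne_one hd1
  obtain ⟨c, hc⟩ : ∃ c : L, c = (F.derivative.eval a)⁻¹ := ⟨_, rfl⟩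
  have hcn : ‖c‖ = 1 := by rw [hc, norm_inv, hd1, inv_one]
  have hcd : c * F.derivative.eval a = 1 := by rw [hc]; exact inv_mul_cancel₀ hd0
  have hc0 : c ≠ 0 := by
    intro h
    rw [h, norm_zero] at hcn
    exact zero_ne_one hcn
  obtain ⟨r, hr⟩ : ∃ r : ℝ, r = ‖F.eval a‖ := ⟨_, rfl⟩
  have hr0 : 0 ≤ r := hr ▸ norm_nonneg _
  have hr1 : r < 1 := hr ▸ h0
  have hball : ∀ z : L, ‖z - a‖ ≤ r → ‖z‖ ≤ 1 := by
    intro z hz
    have h2 : z = (z - a) + a := by ring
    rw [h2]
    exact (hna _ _).trans (max_le (hz.trans hr1.le) ha)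
  have hmaps : ∀ z : L, ‖z - a‖ ≤ r → ‖(z - c * F.eval z) - a‖ ≤ r := by
    intro z hz
    obtain ⟨k, hk1, hk⟩ := key1 z a (hball z hz) ha
    have h2 : (z - c * F.eval z) - a = -(c * F.eval a) + -(c * k * (z - a) ^ 2) := by
      rw [hk]
      linear_combination (-(z - a)) * hcd
    rw [h2]
    refine (hna _ _).trans (max_le ?_ ?_)
    · rw [norm_neg, norm_mul, hcn, one_mul, hr]
    · rw [norm_neg, norm_mul, norm_mul, hcn, one_mul, norm_pow]
      have h3 : ‖z - a‖ ^ 2 ≤ r * 1 := by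
        rw [pow_two]
        exact mul_le_mul hz (hz.trans hr1.le) (norm_nonneg _) hr0
      calc ‖k‖ * ‖z - a‖ ^ 2 ≤ 1 * (r * 1) :=
            mul_le_mul hk1 h3 (pow_nonneg (norm_nonneg _) _) zero_le_one
        _ = r := by ring
  have hcontract : ∀ z w : L, ‖z - a‖ ≤ r → ‖w - a‖ ≤ r →
      ‖(z - c * F.eval z) - (w - c * F.eval w)‖ ≤ r * ‖z - w‖ := by
    intro z w hz hw
    obtain ⟨k, hk1, hk⟩ := key1 z w (hball z hz) (hball w hw)
    obtain ⟨k', hk'1, hk'⟩ := key2 w a (hball w hw) ha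
    have h2 : (z - c * F.eval z) - (w - c * F.eval w)
        = -(c * (z - w) * (k' * (w - a) + k * (z - w))) := by
      rw [hk]
      linear_combination (-(c * (z - w))) * hk' + (-(z - w)) * hcd
    have hzw : ‖z - w‖ ≤ r := by
      have h3 : z - w = (z - a) + -(w - a) := by ring
      rw [h3]
      refine (hna _ _).trans (max_le hz ?_)
      rw [norm_neg]
      exact hw
    have h4 : ‖k' * (w - a) + k * (z - w)‖ ≤ r := by
      refine (hna _ _).trans (max_le ?_ ?_)
      · rw [norm_mul]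
        calc ‖k'‖ * ‖w - a‖ ≤ 1 * r := mul_le_mul hk'1 hw (norm_nonneg _) zero_le_one
          _ = r := one_mul r
      · rw [norm_mul]
        calc ‖k‖ * ‖z - w‖ ≤ 1 * r := mul_le_mul hk1 hzw (norm_nonneg _) zero_le_one
          _ = r := one_mul r
    rw [h2, norm_neg, norm_mul, norm_mul, hcn, one_mul, mul_comm]
    exact mul_le_mul_of_nonneg_right h4 (norm_nonneg _)
  -- the contraction principle on the closed ball
  have hsc : IsComplete (Metric.closedBall a r) := Metric.isClosed_closedBall.isComplete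
  have hsf : Set.MapsTo (fun z : L => z - c * F.eval z) (Metric.closedBall a r)
      (Metric.closedBall a r) := by
    intro z hz
    rw [Metric.mem_closedBall, dist_eq_norm] at hz ⊢
    exact hmaps z hz
  have hcontr : ContractingWith (⟨r, hr0⟩ : NNReal)
      (hsf.restrict (fun z : L => z - c * F.eval z) _ _) := by
    refine ⟨?_, LipschitzWith.of_dist_le_mul ?_⟩
    · rw [← NNReal.coe_lt_coe]
      exact hr1
    · rintro ⟨z, hz⟩ ⟨w, hw⟩
      rw [Metric.mem_closedBall, dist_eq_norm] at hz hw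
      rw [Subtype.dist_eq, Subtype.dist_eq, dist_eq_norm, dist_eq_norm]
      exact hcontract z w hz hw
  obtain ⟨b, hbS, hbfix, -⟩ := hcontr.exists_fixedPoint' hsc hsf
    (Metric.mem_closedBall_self hr0) (edist_ne_top _ _)
  refine ⟨b, ?_, ?_⟩
  · have h2 : b - c * F.eval b = b := hbfix
    have h3 : c * F.eval b = 0 := by linear_combination -h2
    exact (mul_eq_zero.mp h3).resolve_left hc0
  · rw [Metric.mem_closedBall, dist_eq_norm] at hbS
    exact lt_of_le_of_lt hbS hr1

variable (q : ℕ) [Fact q.Prime]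

/-- **LOC-HENSEL** (row statement): Hensel's lemma for simple roots in `h63_O q K`. -/
theorem h6_hensel (K : Type*) [Field K] [Algebra ℚ_[q] K] [FiniteDimensional ℚ_[q] K]
    (F : Polynomial K) (hF : ∀ n, F.coeff n ∈ h63_O q K) (a : K) (ha : a ∈ h63_O q K)
    (h0 : F.eval a ∈ (h63_O q K).nonunits) (h1 : F.derivative.eval a ∉ (h63_O q K).nonunits) :
    ∃ b : K, F.eval b = 0 ∧ b - a ∈ (h63_O q K).nonunits := by
  let _ : NormedField K := spectralNorm.normedField ℚ_[q] K
  have : CompleteSpace K := spectralNorm.completeSpace ℚ_[q] K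
  have hna : ∀ x y : K, ‖x + y‖ ≤ max ‖x‖ ‖y‖ := isNonarchimedean_spectralNorm
  have hmemM : ∀ x : K, x ∈ (h63_O q K).nonunits ↔ ‖x‖ < 1 :=
    fun x => h6_mem_nonunits_iff_spectralNorm q x
  rw [hmemM] at h0 h1
  obtain ⟨b, hb0, hb1⟩ := h6_hensel_normed hna F (fun n => hF n) a ha h0 h1
  exact ⟨b, hb0, (hmemM _).mpr hb1⟩

end Fermat.Agent.S55
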