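import Mathlib

/-!
# S55, bridge layer: invariants of a normal subgroup as a module over the quotient group

For a group `G` acting on an additive commutative group `A` (`DistribMulAction`) and a subgroup
`U`, `h56_Inv U A` is the additive subgroup of `U`-invariants.  If `U` is normal, `G` and `G ⧸ U`
act on it.  For normal `U' ≤ U` we provide the projection `h56_quotMap : G ⧸ U' →* G ⧸ U` and
the inclusion `h56_invIncl : h56_Inv U A →+ h56_Inv U' A`, with the compatibilities that the
abstract duality theorems of the `H` layer consume, and the norm `h56_invNorm`.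
-/

set_option autoImplicit false
set_option linter.unusedSectionVars false
set_option linter.unusedVariables false

namespace Fermat.Agent.S55

section Inv

variable {G : Type*} [Group G] (U : Subgroup G) (A : Type*) [AddCommGroup A] [DistribMulAction G A]

/-- The additive subgroup of `U`-invariants of a `G`-module. -/
def h56_Inv : AddSubgroup A where
  carrier := {a | ∀ s ∈ U, s • a = a}
  zero_mem' := fun s _ => smul_zero s
  add_mem' := fun {a b} ha hb s hs => by rw [smul_add, ha s hs, hb s hs]
  neg_mem' := fun {a} ha s hs => by rw [smul_neg, ha s hs]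

variable {U A}

theorem h56_mem_Inv {a : A} : a ∈ h56_Inv U A ↔ ∀ s ∈ U, s • a = a := Iff.rfl

theorem h56_Inv_smul_eq (a : h56_Inv U A) {s : G} (hs : s ∈ U) : s • (a : A) = a := a.2 s hs

theorem h56_smul_mem_Inv [hU : U.Normal] (g : G) {a : A} (ha : a ∈ h56_Inv U A) :
    g • a ∈ h56_Inv U A := by
  intro s hs
  have h1 : g⁻¹ * s * g ∈ U := by
    have := hU.conj_mem s hs g⁻¹
    simpa using this
  have h2 : s * g = g * (g⁻¹ * s * g) := by group
  rw [← mul_smul, h2, mul_smul, ha _ h1]

theorem h56_Inv_mono {U' : Subgroup G} (h : U' ≤ U) : h56_Inv U A ≤ h56_Inv U' A :=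
  fun _ ha s hs => ha s (h hs)

/-- `G` acts on the invariants of a normal subgroup. -/
instance h56_Inv.instGAction [U.Normal] : DistribMulAction G (h56_Inv U A) where
  smul g a := ⟨g • (a : A), h56_smul_mem_Inv g a.2⟩
  one_smul a := Subtype.ext (one_smul G (a : A))
  mul_smul g h a := Subtype.ext (mul_smul g h (a : A))
  smul_zero g := Subtype.ext (smul_zero g)
  smul_add g a b := Subtype.ext (smul_add g (a : A) (b : A))

@[simp] theorem h56_Inv.coe_smul [U.Normal] (g : G) (a : h56_Inv U A) :
    ((g • a : h56_Inv U A) : A) = g • (a : A) := rfl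

theorem h56_Inv.smul_eq_of_mem [U.Normal] (a : h56_Inv U A) {s : G} (hs : s ∈ U) : s • a = a :=
  Subtype.ext (a.2 s hs)

/-- `G ⧸ U` acts on the invariants of the normal subgroup `U`. -/
instance h56_Inv.instQuotAction [U.Normal] : DistribMulAction (G ⧸ U) (h56_Inv U A) where
  smul q a := Quotient.liftOn' q (fun g => g • a) (by
    intro g h hgh
    have h1 : g⁻¹ * h ∈ U := QuotientGroup.leftRel_apply.mp hgh
    have h2 : h = g * (g⁻¹ * h) := by group
    show g • a = h • a
    rw [h2, mul_smul, h56_Inv.smul_eq_of_mem a h1])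
  one_smul a := one_smul G a
  mul_smul q q' a := by
    induction q using QuotientGroup.induction_on with
    | H g =>
      induction q' using QuotientGroup.induction_on with
      | H h => exact mul_smul g h a
  smul_zero q := by
    induction q using QuotientGroup.induction_on with
    | H g => exact smul_zero g
  smul_add q a b := by
    induction q using QuotientGroup.induction_on with
    | H g => exact smul_add g a b

@[simp] theorem h56_Inv.mk_smul [U.Normal] (g : G) (a : h56_Inv U A) :
    ((g : G ⧸ U) • a : h56_Inv U A) = g • a := rfl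

theorem h56_Inv.coe_mk_smul [U.Normal] (g : G) (a : h56_Inv U A) :
    (((g : G ⧸ U) • a : h56_Inv U A) : A) = g • (a : A) := rfl

end Inv

section Map

variable {G : Type*} [Group G] {U : Subgroup G} {A B : Type*} [AddCommGroup A]
  [DistribMulAction G A] [AddCommGroup B] [DistribMulAction G B]

/-- An equivariant map restricts to the invariants. -/
def h56_Inv.map (f : A →+ B) (hf : ∀ (g : G) (a : A), f (g • a) = g • f a) :
    h56_Inv U A →+ h56_Inv U B where
  toFun a := ⟨f (a : A), fun s hs => by rw [← hf, a.2 s hs]⟩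
  map_zero' := Subtype.ext (map_zero f)
  map_add' a b := Subtype.ext (map_add f (a : A) (b : A))

@[simp] theorem h56_Inv.coe_map (f : A →+ B) (hf : ∀ (g : G) (a : A), f (g • a) = g • f a)
    (a : h56_Inv U A) : ((h56_Inv.map f hf a : h56_Inv U B) : B) = f a := rfl

theorem h56_Inv.map_smul [U.Normal] (f : A →+ B) (hf : ∀ (g : G) (a : A), f (g • a) = g • f a)
    (q : G ⧸ U) (a : h56_Inv U A) :
    h56_Inv.map f hf (q • a) = q • h56_Inv.map f hf a := by
  induction q using QuotientGroup.induction_on with
  | H g => exact Subtype.ext (hf g (a : A))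

end Map

section Tower

variable {G : Type*} [Group G] {U' U : Subgroup G} [U'.Normal] [U.Normal]
  {A : Type*} [AddCommGroup A] [DistribMulAction G A]

/-- The projection `G ⧸ U' → G ⧸ U` for `U' ≤ U`. -/
def h56_quotMap (h : U' ≤ U) : G ⧸ U' →* G ⧸ U :=
  QuotientGroup.map U' U (MonoidHom.id G) (by simpa using h)

@[simp] theorem h56_quotMap_mk (h : U' ≤ U) (g : G) :
    h56_quotMap h (g : G ⧸ U') = (g : G ⧸ U) := rfl

theorem h56_quotMap_surjective (h : U' ≤ U) : Function.Surjective (h56_quotMap h) := by
  intro q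
  induction q using QuotientGroup.induction_on with
  | H g => exact ⟨(g : G ⧸ U'), rfl⟩

theorem h56_mk_mem_ker_quotMap (h : U' ≤ U) (g : G) :
    (g : G ⧸ U') ∈ (h56_quotMap h).ker ↔ g ∈ U := by
  rw [MonoidHom.mem_ker, h56_quotMap_mk, QuotientGroup.eq_one_iff]

theorem h56_mem_ker_quotMap (h : U' ≤ U) (q : G ⧸ U') :
    q ∈ (h56_quotMap h).ker ↔ ∃ s ∈ U, (s : G ⧸ U') = q := by
  induction q using QuotientGroup.induction_on with
  | H g =>
    rw [h56_mk_mem_ker_quotMap]
    constructor
    · intro hg; exact ⟨g, hg, rfl⟩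
    · rintro ⟨s, hs, hsg⟩
      have h1 : s⁻¹ * g ∈ U' := QuotientGroup.eq.mp hsg
      have h2 : g = s * (s⁻¹ * g) := by group
      rw [h2]
      exact U.mul_mem hs (h h1)

/-- The inclusion of the `U`-invariants into the `U'`-invariants for `U' ≤ U`. -/
def h56_invIncl (h : U' ≤ U) : h56_Inv U A →+ h56_Inv U' A :=
  AddSubgroup.inclusion (h56_Inv_mono h)

omit [U'.Normal] [U.Normal] in
@[simp] theorem h56_coe_invIncl (h : U' ≤ U) (a : h56_Inv U A) :
    ((h56_invIncl h a : h56_Inv U' A) : A) = a := rfl

omit [U'.Normal] [U.Normal] in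
theorem h56_invIncl_injective (h : U' ≤ U) :
    Function.Injective (h56_invIncl (A := A) h) :=
  fun a b hab => Subtype.ext (by simpa using congrArg (Subtype.val) hab)

/-- equivariance of the inclusion (hypothesis `hιeq` of `adt_D1`). -/
theorem h56_invIncl_smul (h : U' ≤ U) (q : G ⧸ U') (a : h56_Inv U A) :
    h56_invIncl h (h56_quotMap h q • a) = q • h56_invIncl h a := by
  induction q using QuotientGroup.induction_on with
  | H g => rfl

/-- the range of the inclusion is the set of `ker`-invariants (hypothesis `hιfix` of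
`adt_D1`). -/
theorem h56_mem_range_invIncl (h : U' ≤ U) (c : h56_Inv U' A)
    (hc : ∀ s ∈ (h56_quotMap h).ker, s • c = c) : c ∈ (h56_invIncl (A := A) h).range := by
  refine ⟨⟨(c : A), fun s hs => ?_⟩, Subtype.ext rfl⟩
  have h1 := hc (s : G ⧸ U') ((h56_mk_mem_ker_quotMap h s).2 hs)
  exact congrArg Subtype.val h1

theorem h56_invIncl_ker_smul (h : U' ≤ U) (a : h56_Inv U A) {s : G ⧸ U'}
    (hs : s ∈ (h56_quotMap h).ker) : s • h56_invIncl h a = h56_invIncl h a := by
  obtain ⟨t, ht, rfl⟩ := (h56_mem_ker_quotMap h s).1 hs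
  exact Subtype.ext (a.2 t ht)

/-- the sum over the kernel of `G ⧸ U' → G ⧸ U` of the translates of a `U'`-invariant element
is `U`-invariant: the norm from level `U'` to level `U`. -/
theorem h56_finsum_ker_mem_range (h : U' ≤ U) (c : h56_Inv U' A) :
    (∑ᶠ s : (h56_quotMap h).ker, (s : G ⧸ U') • c) ∈ (h56_invIncl (A := A) h).range := by
  apply h56_mem_range_invIncl
  intro t ht
  have h1 : t • (∑ᶠ s : (h56_quotMap h).ker, (s : G ⧸ U') • c) =
      ∑ᶠ s : (h56_quotMap h).ker, t • ((s : G ⧸ U') • c) :=
    AddMonoidHom.map_finsum_of_injective (DistribSMul.toAddMonoidHom (h56_Inv U' A) t)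
      (MulAction.injective t) _
  rw [h1]
  let e : (h56_quotMap (U' := U') (U := U) h).ker ≃ (h56_quotMap (U' := U') (U := U) h).ker :=
    Equiv.mulLeft (⟨t, ht⟩ : (h56_quotMap (U' := U') (U := U) h).ker)
  have h2 : ∑ᶠ s : (h56_quotMap h).ker, (s : G ⧸ U') • c =
      ∑ᶠ s : (h56_quotMap h).ker, ((e s : (h56_quotMap h).ker) : G ⧸ U') • c :=
    (finsum_comp_equiv e (f := fun s : (h56_quotMap h).ker => (s : G ⧸ U') • c)).symm
  rw [h2]
  refine finsum_congr fun s => ?_
  show t • ((s : G ⧸ U') • c) = ((e s : (h56_quotMap h).ker) : G ⧸ U') • c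
  rw [← mul_smul]
  rfl

theorem h56_coe_finsum_ker [Finite (G ⧸ U')] (h : U' ≤ U) (c : h56_Inv U' A) :
    ((∑ᶠ s : (h56_quotMap h).ker, (s : G ⧸ U') • c : h56_Inv U' A) : A) =
      ∑ᶠ s : (h56_quotMap h).ker, (((s : G ⧸ U') • c : h56_Inv U' A) : A) :=
  AddMonoidHom.map_finsum (h56_Inv U' A).subtype (Set.toFinite _)

end Tower

section RepAction

/-- The unbundled action attached to a representation: `g • m = M.ρ g m`.  Use it with
`letI := h56_repAction M`. -/
@[reducible] def h56_repAction {k G : Type*} [CommRing k] [Group G] (M : Rep k G) :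
    DistribMulAction G M where
  smul g m := M.ρ g m
  one_smul m := by show M.ρ 1 m = m; rw [map_one]; rfl
  mul_smul g h m := by show M.ρ (g * h) m = M.ρ g (M.ρ h m); rw [map_mul]; rfl
  smul_zero g := map_zero (M.ρ g)
  smul_add g a b := map_add (M.ρ g) a b

theorem h56_repAction_smul {k G : Type*} [CommRing k] [Group G] (M : Rep k G) (g : G) (m : M) :
    letI := h56_repAction M
    g • m = M.ρ g m := rfl

end RepAction

end Fermat.Agent.S55
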