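import Mathlib
import Fermat.Agent.S55.h56_Inv

/-!
# S55, bridge layer: from a level-wise system of modules to one ambient smooth `G`-module

`Λ` is a directed preorder of "levels"; for every level `L` a `G`-module `C L` and for `L ≤ L'`
an additive map `ι L L' _ : C L →+ C L'`, functorial in the level (`h56_IsLevelSys C ι`) and
`G`-equivariant (`h56_IsEquivSys G C ι`).  The colimit `h56_Colim C ι` is an additive group with
a `G`-action, and `h56_Colim.of C ι L : C L →+ h56_Colim C ι` are equivariant, compatible with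
`ι` and jointly surjective; they are injective when all the `ι` are.

Descent (`h56_Colim.mem_Inv_iff`, `h56_Colim.equivInv`): if `U : Λ → Subgroup G`, `U L` acts
trivially on `C L`, and every `U L`-fixed element of `C L'` (`L ≤ L'`) lies in the range of `ι`,
then `C L ≃+ h56_Inv (U L) (h56_Colim C ι)`: the level `L` object is recovered as the
`U L`-invariants of the ambient module.
-/

set_option autoImplicit false
set_option linter.style.haveILetI false
set_option linter.unusedSectionVars false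

namespace Fermat.Agent.S55

universe u v w

noncomputable section

section Colim

variable {Λ : Type u} [Preorder Λ]

/-- A system of level modules: the transition maps are functorial. -/
class h56_IsLevelSys (C : Λ → Type w) [∀ L, AddCommGroup (C L)]
    (ι : ∀ L L' : Λ, L ≤ L' → C L →+ C L') : Prop where
  ι_refl : ∀ (L : Λ) (c : C L), ι L L le_rfl c = c
  ι_trans : ∀ (L L' L'' : Λ) (h : L ≤ L') (h' : L' ≤ L'') (c : C L),
    ι L' L'' h' (ι L L' h c) = ι L L'' (h.trans h') c

/-- A system of level `G`-modules: the transition maps are `G`-equivariant. -/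
class h56_IsEquivSys (G : Type v) [Group G] (C : Λ → Type w) [∀ L, AddCommGroup (C L)]
    [∀ L, DistribMulAction G (C L)] (ι : ∀ L L' : Λ, L ≤ L' → C L →+ C L') : Prop where
  ι_smul : ∀ (L L' : Λ) (h : L ≤ L') (g : G) (c : C L), ι L L' h (g • c) = g • ι L L' h c

variable (C : Λ → Type w) [∀ L, AddCommGroup (C L)] (ι : ∀ L L' : Λ, L ≤ L' → C L →+ C L')

/-- The colimit of a system of level modules. -/
def h56_Colim : Type (max u w) :=
  @AddCommGroup.DirectLimit Λ _ C (fun _ => inferInstance) (Classical.decEq Λ) ι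

instance h56_Colim.instAddCommGroup : AddCommGroup (h56_Colim C ι) :=
  @AddCommGroup.DirectLimit.addCommGroup Λ _ (Classical.decEq Λ) C _ ι

/-- The canonical map from level `L` to the colimit. -/
def h56_Colim.of (L : Λ) : C L →+ h56_Colim C ι :=
  @AddCommGroup.DirectLimit.of Λ _ C _ ι (Classical.decEq Λ) L

theorem h56_Colim.of_ι (L L' : Λ) (h : L ≤ L') (c : C L) :
    h56_Colim.of C ι L' (ι L L' h c) = h56_Colim.of C ι L c := by
  letI := Classical.decEq Λ
  exact AddCommGroup.DirectLimit.of_f h c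

/-- Additive maps out of the colimit. -/
def h56_Colim.lift {P : Type*} [AddCommGroup P] (φ : ∀ L, C L →+ P)
    (hφ : ∀ (L L' : Λ) (h : L ≤ L') (c : C L), φ L' (ι L L' h c) = φ L c) :
    h56_Colim C ι →+ P :=
  @AddCommGroup.DirectLimit.lift Λ _ C _ ι (Classical.decEq Λ) P _ φ hφ

theorem h56_Colim.lift_of {P : Type*} [AddCommGroup P] (φ : ∀ L, C L →+ P)
    (hφ : ∀ (L L' : Λ) (h : L ≤ L') (c : C L), φ L' (ι L L' h c) = φ L c) (L : Λ) (c : C L) :
    h56_Colim.lift C ι φ hφ (h56_Colim.of C ι L c) = φ L c := by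
  letI := Classical.decEq Λ
  exact AddCommGroup.DirectLimit.lift_of P φ hφ L c

section Directed

variable [Nonempty Λ] [IsDirected Λ (· ≤ ·)]

theorem h56_Colim.exists_of (x : h56_Colim C ι) :
    ∃ (L : Λ) (c : C L), h56_Colim.of C ι L c = x := by
  letI := Classical.decEq Λ
  exact AddCommGroup.DirectLimit.induction_on (C := fun x => ∃ (L : Λ) (c : C L),
    AddCommGroup.DirectLimit.of C ι L c = x) x (fun L c => ⟨L, c, rfl⟩)

theorem h56_Colim.exists_of_ge (L₀ : Λ) (x : h56_Colim C ι) :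
    ∃ (L : Λ) (_ : L₀ ≤ L) (c : C L), h56_Colim.of C ι L c = x := by
  obtain ⟨L, c, rfl⟩ := h56_Colim.exists_of C ι x
  obtain ⟨L', h0, h1⟩ := exists_ge_ge L₀ L
  exact ⟨L', h0, ι L L' h1 c, h56_Colim.of_ι C ι L L' h1 c⟩

/-- Joint surjectivity, with a common level for two elements. -/
theorem h56_Colim.exists_of₂ (L₀ : Λ) (x y : h56_Colim C ι) :
    ∃ (L : Λ) (_ : L₀ ≤ L) (c d : C L), h56_Colim.of C ι L c = x ∧ h56_Colim.of C ι L d = y := by
  obtain ⟨L, h0, c, rfl⟩ := h56_Colim.exists_of_ge C ι L₀ x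
  obtain ⟨L', d, rfl⟩ := h56_Colim.exists_of C ι y
  obtain ⟨L'', h1, h2⟩ := exists_ge_ge L L'
  exact ⟨L'', h0.trans h1, ι L L'' h1 c, ι L' L'' h2 d, h56_Colim.of_ι C ι L L'' h1 c,
    h56_Colim.of_ι C ι L' L'' h2 d⟩

variable [hsys : h56_IsLevelSys C ι]

theorem h56_Colim.of_eq_zero_iff (L : Λ) (c : C L) :
    h56_Colim.of C ι L c = 0 ↔ ∃ (L' : Λ) (h : L ≤ L'), ι L L' h c = 0 := by
  letI := Classical.decEq Λ
  haveI : DirectedSystem C fun i j h => ⇑(ι i j h) :=
    ⟨fun i x => hsys.ι_refl i x, fun k j i hij hjk x => hsys.ι_trans i j k hij hjk x⟩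
  constructor
  · intro h
    exact AddCommGroup.DirectLimit.of.zero_exact L c h
  · rintro ⟨L', h, h0⟩
    rw [← h56_Colim.of_ι C ι L L' h c, h0, map_zero]

theorem h56_Colim.of_injective (hinj : ∀ (L L' : Λ) (h : L ≤ L'), Function.Injective (ι L L' h))
    (L : Λ) : Function.Injective (h56_Colim.of C ι L) := by
  rw [injective_iff_map_eq_zero]
  intro c hc
  obtain ⟨L', h, h0⟩ := (h56_Colim.of_eq_zero_iff C ι L c).1 hc
  exact hinj L L' h (by rw [h0, map_zero])

end Directed

section Action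

variable {G : Type v} [Group G] [∀ L, DistribMulAction G (C L)] [hequiv : h56_IsEquivSys G C ι]

/-- The action of `g : G` on the colimit, as an additive map. -/
def h56_Colim.smulHom (g : G) : h56_Colim C ι →+ h56_Colim C ι :=
  h56_Colim.lift C ι (fun L => (h56_Colim.of C ι L).comp (DistribSMul.toAddMonoidHom (C L) g))
    (fun L L' h c => by
      simp only [AddMonoidHom.coe_comp, Function.comp_apply, DistribSMul.toAddMonoidHom_apply]
      rw [← hequiv.ι_smul, h56_Colim.of_ι])

theorem h56_Colim.smulHom_of (g : G) (L : Λ) (c : C L) :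
    h56_Colim.smulHom C ι g (h56_Colim.of C ι L c) = h56_Colim.of C ι L (g • c) := by
  rw [h56_Colim.smulHom, h56_Colim.lift_of]
  rfl

variable [Nonempty Λ] [IsDirected Λ (· ≤ ·)]

instance h56_Colim.instAction : DistribMulAction G (h56_Colim C ι) where
  smul g x := h56_Colim.smulHom C ι g x
  one_smul x := by
    obtain ⟨L, c, rfl⟩ := h56_Colim.exists_of C ι x
    show h56_Colim.smulHom C ι 1 _ = _
    rw [h56_Colim.smulHom_of, one_smul]
  mul_smul g h x := by
    obtain ⟨L, c, rfl⟩ := h56_Colim.exists_of C ι x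
    show h56_Colim.smulHom C ι (g * h) _ = h56_Colim.smulHom C ι g (h56_Colim.smulHom C ι h _)
    rw [h56_Colim.smulHom_of, h56_Colim.smulHom_of, h56_Colim.smulHom_of, mul_smul]
  smul_zero g := map_zero _
  smul_add g x y := map_add _ x y

theorem h56_Colim.of_smul (g : G) (L : Λ) (c : C L) :
    h56_Colim.of C ι L (g • c) = g • h56_Colim.of C ι L c :=
  (h56_Colim.smulHom_of C ι g L c).symm

end Action

section Descent

variable {G : Type v} [Group G] [∀ L, DistribMulAction G (C L)] [hsys : h56_IsLevelSys C ι]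
  [hequiv : h56_IsEquivSys G C ι] [Nonempty Λ] [IsDirected Λ (· ≤ ·)] (U : Λ → Subgroup G)

theorem h56_Colim.of_mem_Inv (hfix : ∀ (L : Λ), ∀ s ∈ U L, ∀ c : C L, s • c = c) (L : Λ)
    (c : C L) : h56_Colim.of C ι L c ∈ h56_Inv (U L) (h56_Colim C ι) := by
  intro s hs
  rw [← h56_Colim.of_smul, hfix L s hs]

/-- Every element of the colimit is fixed by some `U L`, `L ≥ L₀`: the colimit is smooth. -/
theorem h56_Colim.exists_mem_Inv (hfix : ∀ (L : Λ), ∀ s ∈ U L, ∀ c : C L, s • c = c) (L₀ : Λ)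
    (x : h56_Colim C ι) : ∃ (L : Λ) (_ : L₀ ≤ L), x ∈ h56_Inv (U L) (h56_Colim C ι) := by
  obtain ⟨L, h, c, rfl⟩ := h56_Colim.exists_of_ge C ι L₀ x
  exact ⟨L, h, h56_Colim.of_mem_Inv C ι U hfix L c⟩

/-- **Descent**: the `U L`-invariants of the colimit are the image of level `L`. -/
theorem h56_Colim.mem_Inv_iff
    (hinj : ∀ (L L' : Λ) (h : L ≤ L'), Function.Injective (ι L L' h))
    (hfix : ∀ (L : Λ), ∀ s ∈ U L, ∀ c : C L, s • c = c)
    (hdesc : ∀ (L L' : Λ) (h : L ≤ L') (c' : C L'), (∀ s ∈ U L, s • c' = c') →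
      c' ∈ (ι L L' h).range)
    (L : Λ) (x : h56_Colim C ι) :
    x ∈ h56_Inv (U L) (h56_Colim C ι) ↔ x ∈ (h56_Colim.of C ι L).range := by
  constructor
  · intro hx
    obtain ⟨L', h, c', rfl⟩ := h56_Colim.exists_of_ge C ι L x
    have hc' : ∀ s ∈ U L, s • c' = c' := by
      intro s hs
      apply h56_Colim.of_injective C ι hinj L'
      rw [h56_Colim.of_smul]
      exact hx s hs
    obtain ⟨c, rfl⟩ := hdesc L L' h c' hc'
    exact ⟨c, (h56_Colim.of_ι C ι L L' h c).symm⟩
  · rintro ⟨c, rfl⟩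
    exact h56_Colim.of_mem_Inv C ι U hfix L c

/-- The level `L` object as the `U L`-invariants of the colimit. -/
def h56_Colim.equivInv
    (hinj : ∀ (L L' : Λ) (h : L ≤ L'), Function.Injective (ι L L' h))
    (hfix : ∀ (L : Λ), ∀ s ∈ U L, ∀ c : C L, s • c = c)
    (hdesc : ∀ (L L' : Λ) (h : L ≤ L') (c' : C L'), (∀ s ∈ U L, s • c' = c') →
      c' ∈ (ι L L' h).range)
    (L : Λ) : C L ≃+ h56_Inv (U L) (h56_Colim C ι) :=
  AddEquiv.ofBijective
    (AddMonoidHom.codRestrict (h56_Colim.of C ι L) (h56_Inv (U L) (h56_Colim C ι))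
      (h56_Colim.of_mem_Inv C ι U hfix L))
    ⟨fun c d hcd => h56_Colim.of_injective C ι hinj L (congrArg Subtype.val hcd),
      fun x => by
        obtain ⟨c, hc⟩ := (h56_Colim.mem_Inv_iff C ι U hinj hfix hdesc L x.1).1 x.2
        exact ⟨c, Subtype.ext hc⟩⟩

variable (hinj : ∀ (L L' : Λ) (h : L ≤ L'), Function.Injective (ι L L' h))
  (hfix : ∀ (L : Λ), ∀ s ∈ U L, ∀ c : C L, s • c = c)
  (hdesc : ∀ (L L' : Λ) (h : L ≤ L') (c' : C L'), (∀ s ∈ U L, s • c' = c') →
      c' ∈ (ι L L' h).range)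

@[simp] theorem h56_Colim.coe_equivInv (L : Λ) (c : C L) :
    ((h56_Colim.equivInv C ι U hinj hfix hdesc L c : h56_Inv (U L) (h56_Colim C ι)) :
      h56_Colim C ι) = h56_Colim.of C ι L c := rfl

theorem h56_Colim.equivInv_smul (L : Λ) [(U L).Normal] (g : G) (c : C L) :
    h56_Colim.equivInv C ι U hinj hfix hdesc L (g • c) =
      g • h56_Colim.equivInv C ι U hinj hfix hdesc L c :=
  Subtype.ext (h56_Colim.of_smul C ι g L c)

theorem h56_Colim.equivInv_mk_smul (L : Λ) [(U L).Normal] (g : G) (c : C L) :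
    h56_Colim.equivInv C ι U hinj hfix hdesc L (g • c) =
      (g : G ⧸ U L) • h56_Colim.equivInv C ι U hinj hfix hdesc L c :=
  Subtype.ext (h56_Colim.of_smul C ι g L c)

theorem h56_Colim.equivInv_symm_mk_smul (L : Λ) [(U L).Normal] (g : G)
    (x : h56_Inv (U L) (h56_Colim C ι)) :
    (h56_Colim.equivInv C ι U hinj hfix hdesc L).symm ((g : G ⧸ U L) • x) =
      g • (h56_Colim.equivInv C ι U hinj hfix hdesc L).symm x := by
  apply (h56_Colim.equivInv C ι U hinj hfix hdesc L).injective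
  rw [AddEquiv.apply_symm_apply, h56_Colim.equivInv_mk_smul, AddEquiv.apply_symm_apply]

/-- The transition maps correspond to the inclusions of invariants. -/
theorem h56_Colim.invIncl_equivInv (L L' : Λ) (h : L ≤ L') [(U L).Normal] [(U L').Normal]
    (hU : U L' ≤ U L) (c : C L) :
    h56_invIncl hU (h56_Colim.equivInv C ι U hinj hfix hdesc L c) =
      h56_Colim.equivInv C ι U hinj hfix hdesc L' (ι L L' h c) :=
  Subtype.ext (h56_Colim.of_ι C ι L L' h c).symm

theorem h56_Colim.equivInv_symm_invIncl (L L' : Λ) (h : L ≤ L') [(U L).Normal] [(U L').Normal]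
    (hU : U L' ≤ U L) (x : h56_Inv (U L) (h56_Colim C ι)) :
    (h56_Colim.equivInv C ι U hinj hfix hdesc L').symm (h56_invIncl hU x) =
      ι L L' h ((h56_Colim.equivInv C ι U hinj hfix hdesc L).symm x) := by
  apply (h56_Colim.equivInv C ι U hinj hfix hdesc L').injective
  rw [AddEquiv.apply_symm_apply, ← h56_Colim.invIncl_equivInv C ι U hinj hfix hdesc L L' h hU,
    AddEquiv.apply_symm_apply]

end Descent

section Functorial

variable {D : Λ → Type w} [∀ L, AddCommGroup (D L)] {κ : ∀ L L' : Λ, L ≤ L' → D L →+ D L'}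

/-- A morphism of level systems induces an additive map of colimits. -/
def h56_Colim.map (j : ∀ L, C L →+ D L)
    (hj : ∀ (L L' : Λ) (h : L ≤ L') (c : C L), j L' (ι L L' h c) = κ L L' h (j L c)) :
    h56_Colim C ι →+ h56_Colim D κ :=
  h56_Colim.lift C ι (fun L => (h56_Colim.of D κ L).comp (j L))
    (fun L L' h c => by
      simp only [AddMonoidHom.coe_comp, Function.comp_apply]
      rw [hj, h56_Colim.of_ι])

theorem h56_Colim.map_of (j : ∀ L, C L →+ D L)
    (hj : ∀ (L L' : Λ) (h : L ≤ L') (c : C L), j L' (ι L L' h c) = κ L L' h (j L c)) (L : Λ)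
    (c : C L) : h56_Colim.map C ι j hj (h56_Colim.of C ι L c) = h56_Colim.of D κ L (j L c) := by
  rw [h56_Colim.map, h56_Colim.lift_of]
  rfl

/-- The induced map is equivariant when the level maps are. -/
theorem h56_Colim.map_smul {G : Type v} [Group G] [∀ L, DistribMulAction G (C L)]
    [∀ L, DistribMulAction G (D L)] [h56_IsEquivSys G C ι] [h56_IsEquivSys G D κ]
    [Nonempty Λ] [IsDirected Λ (· ≤ ·)] (j : ∀ L, C L →+ D L)
    (hj : ∀ (L L' : Λ) (h : L ≤ L') (c : C L), j L' (ι L L' h c) = κ L L' h (j L c))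
    (hjG : ∀ (L : Λ) (g : G) (c : C L), j L (g • c) = g • j L c) (g : G) (x : h56_Colim C ι) :
    h56_Colim.map C ι j hj (g • x) = g • h56_Colim.map C ι j hj x := by
  obtain ⟨L, c, rfl⟩ := h56_Colim.exists_of C ι x
  rw [← h56_Colim.of_smul, h56_Colim.map_of, h56_Colim.map_of, hjG, h56_Colim.of_smul]

end Functorial

end Colim

end

end Fermat.Agent.S55
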