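import Mathlib

/-!
# S55, abstract layer: definitions

Low-degree cocycle predicates "through a group homomorphism", `p`-class modules.
Everything is stated for a finite group acting on an additive commutative group
(`DistribMulAction`), with Mathlib's unbundled predicates `groupCohomology.IsCocycle₂` etc.
-/

set_option autoImplicit false

open groupCohomology

namespace Fermat.Agent.S55

section Via

variable {G' G M : Type*} [Group G'] [Group G] [AddCommGroup M] [DistribMulAction G M]

/-- 1-cocycles of `G'` with values in the `G`-module `M`, where `G'` acts through `π`. -/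
def IsCocycle₁Via (π : G' →* G) (y : G' → M) : Prop :=
  ∀ g h : G', y (g * h) = π g • y h + y g

/-- 1-coboundaries of `G'` with values in the `G`-module `M`, where `G'` acts through `π`. -/
def IsCoboundary₁Via (π : G' →* G) (y : G' → M) : Prop :=
  ∃ x : M, ∀ g : G', π g • x - x = y g

/-- 2-cocycles of `G'` with values in the `G`-module `M`, where `G'` acts through `π`. -/
def IsCocycle₂Via (π : G' →* G) (y : G' × G' → M) : Prop :=
  ∀ g h j : G', y (g * h, j) + y (g, h) = π g • y (h, j) + y (g, h * j)

/-- 2-coboundaries of `G'` with values in the `G`-module `M`, where `G'` acts through `π`. -/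
def IsCoboundary₂Via (π : G' →* G) (y : G' × G' → M) : Prop :=
  ∃ x : G' → M, ∀ g h : G', π g • x h - x (g * h) + x g = y (g, h)

end Via

/-- A `p`-class module for the finite group `G`: a `p`-local `G`-module `C` such that for every
subgroup `H`, `H¹(H, C) = 0` and `H²(H, C)` is cyclic of order the `p`-part of `|H|`, generated by
the restriction of one class `u` of `G`. -/
structure IsPClassModule (p : ℕ) (G : Type*) [Group G] (C : Type*) [AddCommGroup C]
    [DistribMulAction G C] : Prop where
  ploc : ∀ m : ℕ, m.Coprime p → Function.Bijective (fun c : C => m • c)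
  h1 : ∀ (H : Subgroup G) (f : H → C), IsCocycle₁Via H.subtype f → IsCoboundary₁Via H.subtype f
  fund : ∃ u : G × G → C, IsCocycle₂ u ∧ ∀ H : Subgroup G,
      (∀ f : H × H → C, IsCocycle₂Via H.subtype f →
        ∃ k : ℕ, IsCoboundary₂Via H.subtype
          (f - k • fun x : H × H => u ((x.1 : G), (x.2 : G)))) ∧
      (∀ k : ℕ, IsCoboundary₂Via H.subtype (k • fun x : H × H => u ((x.1 : G), (x.2 : G))) →
        p ^ ((Nat.card H).factorization p) ∣ k)

end Fermat.Agent.S55
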