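/-
S55 layer H (helper40, H sub-lead): shared definitions of the abstract layer.

* `h40_Lam p` = `Z_(p)`, `h40_IsPLocal`, `h40_IsLattice`;
* degree-3 cocycles / coboundaries (unbundled, same style as Mathlib's `IsCocycle₂`);
* `h40_Coind G A` = functions `G → A` with `(σ • φ) x = φ (x * σ)` (type synonym);
* `h40_Hom A B` = additive maps with the conjugation action `(g • φ) a = g • φ (g⁻¹ • a)`;
* `h40_IsCoind`, `h40_IsWP` (trace-one endomorphism), norms, short exact sequences,
  connecting relations.
-/
import Mathlib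
import Fermat.Agent.S55.h72_AbsDefs

set_option autoImplicit false

namespace Fermat.Agent.S55

open groupCohomology

/-! ### `Z_(p)`, `p`-local modules, lattices -/

instance h40_span_isPrime (p : ℕ) [Fact p.Prime] : (Ideal.span {(p : ℤ)}).IsPrime :=
  (Ideal.span_singleton_prime (by exact_mod_cast (Fact.out : p.Prime).ne_zero)).2
    (Nat.prime_iff_prime_int.1 Fact.out)

/-- `Z_(p)`, the localisation of `ℤ` at the prime `p`. -/
abbrev h40_Lam (p : ℕ) [Fact p.Prime] : Type := Localization.AtPrime (Ideal.span {(p : ℤ)})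

/-- A `p`-local additive group: every natural number prime to `p` acts bijectively
(the field `ploc` of `IsPClassModule`). -/
def h40_IsPLocal (p : ℕ) (C : Type*) [AddCommGroup C] : Prop :=
  ∀ m : ℕ, m.Coprime p → Function.Bijective (fun c : C => m • c)

/-- A lattice: an additive group isomorphic to `Z_(p)^d` (the group action is arbitrary). -/
def h40_IsLattice (p : ℕ) [Fact p.Prime] (N : Type*) [AddCommGroup N] : Prop :=
  ∃ d : ℕ, Nonempty (N ≃+ (Fin d → h40_Lam p))

section Degree3

variable {G A : Type*} [Mul G] [AddCommGroup A] [SMul G A]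

/-- The 3-cocycle condition for `F : G × G × G → A`. -/
def h40_IsCocycle₃ (F : G × G × G → A) : Prop :=
  ∀ g h j k : G, F (g * h, j, k) + F (g, h, j * k) = g • F (h, j, k) + F (g, h * j, k) + F (g, h, j)

/-- The 3-coboundary condition for `F : G × G × G → A` (Mathlib's `d₂₃` convention). -/
def h40_IsCoboundary₃ (F : G × G × G → A) : Prop :=
  ∃ f : G × G → A, ∀ g h j : G, g • f (h, j) - f (g * h, j) + f (g, h * j) - f (g, h) = F (g, h, j)

end Degree3

/-! ### Coinduced modules -/

/-- Functions `G → A` with the right translation action `(σ • φ) x = φ (x * σ)`. -/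
def h40_Coind (G A : Type*) : Type _ := G → A

namespace h40_Coind

variable {G A : Type*}

instance [AddCommGroup A] : AddCommGroup (h40_Coind G A) := inferInstanceAs (AddCommGroup (G → A))

/-- The underlying function. -/
def toFun (φ : h40_Coind G A) : G → A := φ

/-- Constructor. -/
def mk (φ : G → A) : h40_Coind G A := φ

instance : CoeFun (h40_Coind G A) (fun _ => G → A) := ⟨toFun⟩

@[ext] lemma ext {φ ψ : h40_Coind G A} (h : ∀ x, φ x = ψ x) : φ = ψ := funext h

@[simp] lemma mk_apply (φ : G → A) (x : G) : (mk φ : h40_Coind G A) x = φ x := rfl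

@[simp] lemma add_apply [AddCommGroup A] (φ ψ : h40_Coind G A) (x : G) : (φ + ψ) x = φ x + ψ x := rfl

@[simp] lemma zero_apply [AddCommGroup A] (x : G) : (0 : h40_Coind G A) x = 0 := rfl

@[simp] lemma neg_apply [AddCommGroup A] (φ : h40_Coind G A) (x : G) : (-φ) x = -φ x := rfl

@[simp] lemma sub_apply [AddCommGroup A] (φ ψ : h40_Coind G A) (x : G) : (φ - ψ) x = φ x - ψ x := rfl

instance [Monoid G] [AddCommGroup A] : DistribMulAction G (h40_Coind G A) where
  smul σ φ := fun x => φ (x * σ)
  one_smul φ := funext fun x => by show φ (x * 1) = φ x; rw [mul_one]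
  mul_smul σ τ φ := funext fun x => by show φ (x * (σ * τ)) = φ (x * σ * τ); rw [mul_assoc]
  smul_zero σ := rfl
  smul_add σ φ ψ := rfl

@[simp] lemma smul_apply [Monoid G] [AddCommGroup A] (σ : G) (φ : h40_Coind G A) (x : G) :
    (σ • φ) x = φ (x * σ) := rfl

end h40_Coind

/-- The function supported at `1` with value `v` (classical decidability). -/
noncomputable def h40_delta (G : Type*) {V : Type*} [One G] [Zero V] (v : V) : h40_Coind G V :=
  open Classical in h40_Coind.mk (fun x => if x = 1 then v else 0)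

lemma h40_delta_apply_one (G : Type*) {V : Type*} [One G] [Zero V] (v : V) :
    h40_delta G v 1 = v := by
  classical
  show (if (1 : G) = 1 then v else 0) = v
  rw [if_pos rfl]

lemma h40_delta_apply_of_ne (G : Type*) {V : Type*} [One G] [Zero V] (v : V) {x : G}
    (hx : x ≠ 1) : h40_delta G v x = 0 := by
  classical
  show (if x = 1 then v else 0) = 0
  rw [if_neg hx]

/-- The augmentation `(G → V) → V`, `φ ↦ Σ_x φ x` (finsum). -/
noncomputable def h40_aug (G V : Type*) [AddCommGroup V] [Finite G] : h40_Coind G V →+ V where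
  toFun φ := ∑ᶠ x : G, φ x
  map_zero' := by simp
  map_add' φ ψ := by
    show ∑ᶠ x : G, (φ x + ψ x) = _
    exact finsum_add_distrib (Set.toFinite _) (Set.toFinite _)

lemma h40_aug_apply (G V : Type*) [AddCommGroup V] [Finite G] (φ : h40_Coind G V) :
    h40_aug G V φ = ∑ᶠ x : G, φ x := rfl

/-- `B` is coinduced (from the trivial subgroup): `B ≅ (G → V)` with `G` acting by right
translation on the argument. -/
def h40_IsCoind.{u, v} (G : Type v) (B : Type u) [Group G] [AddCommGroup B]
    [DistribMulAction G B] : Prop :=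
  ∃ (V : Type u) (_ : AddCommGroup V) (e : B ≃+ (G → V)), ∀ (g : G) (b : B) (x : G),
    e (g • b) x = e b (x * g)

/-- `B` has a trace-one endomorphism (is "weakly projective"): a retract of a coinduced
module, without building the retract. -/
def h40_IsWP (G B : Type*) [Group G] [AddCommGroup B] [DistribMulAction G B] : Prop :=
  ∃ π : B →+ B, ∀ b : B, ∑ᶠ g : G, g • π (g⁻¹ • b) = b

/-! ### Hom with the conjugation action -/

/-- Additive maps `A →+ B` with the conjugation action `(g • φ) a = g • φ (g⁻¹ • a)`. -/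
def h40_Hom (A B : Type*) [AddCommGroup A] [AddCommGroup B] : Type _ := A →+ B

namespace h40_Hom

variable {G A B : Type*} [AddCommGroup A] [AddCommGroup B]

instance : AddCommGroup (h40_Hom A B) := inferInstanceAs (AddCommGroup (A →+ B))

/-- The underlying additive map. -/
def toHom (φ : h40_Hom A B) : A →+ B := φ

/-- Constructor. -/
def mk (φ : A →+ B) : h40_Hom A B := φ

instance : CoeFun (h40_Hom A B) (fun _ => A → B) := ⟨fun φ => ⇑(toHom φ)⟩

@[ext] lemma ext {φ ψ : h40_Hom A B} (h : ∀ a, φ a = ψ a) : φ = ψ :=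
  AddMonoidHom.ext h

@[simp] lemma mk_apply (φ : A →+ B) (a : A) : (mk φ : h40_Hom A B) a = φ a := rfl

@[simp] lemma toHom_apply (φ : h40_Hom A B) (a : A) : toHom φ a = φ a := rfl

@[simp] lemma add_apply (φ ψ : h40_Hom A B) (a : A) : (φ + ψ) a = φ a + ψ a := rfl

@[simp] lemma zero_apply (a : A) : (0 : h40_Hom A B) a = 0 := rfl

@[simp] lemma neg_apply (φ : h40_Hom A B) (a : A) : (-φ) a = -φ a := rfl

@[simp] lemma sub_apply (φ ψ : h40_Hom A B) (a : A) : (φ - ψ) a = φ a - ψ a := rfl

lemma map_add' (φ : h40_Hom A B) (a a' : A) : φ (a + a') = φ a + φ a' := (toHom φ).map_add a a'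

lemma map_zero' (φ : h40_Hom A B) : φ 0 = 0 := (toHom φ).map_zero

instance [Group G] [DistribMulAction G A] [DistribMulAction G B] :
    DistribMulAction G (h40_Hom A B) where
  smul g φ := mk
    { toFun := fun a => g • φ (g⁻¹ • a)
      map_zero' := by rw [smul_zero, map_zero', smul_zero]
      map_add' := fun a a' => by rw [smul_add, map_add', smul_add] }
  one_smul φ := ext fun a => by
    show (1 : G) • φ ((1 : G)⁻¹ • a) = φ a
    rw [inv_one, one_smul, one_smul]
  mul_smul g h φ := ext fun a => by
    show (g * h) • φ ((g * h)⁻¹ • a) = g • (h • φ (h⁻¹ • (g⁻¹ • a)))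
    rw [mul_inv_rev, mul_smul, mul_smul]
  smul_zero g := ext fun a => by
    show g • (0 : h40_Hom A B) (g⁻¹ • a) = 0
    rw [zero_apply, smul_zero]
  smul_add g φ ψ := ext fun a => by
    show g • (φ + ψ) (g⁻¹ • a) = g • φ (g⁻¹ • a) + g • ψ (g⁻¹ • a)
    rw [add_apply, smul_add]

@[simp] lemma smul_apply [Group G] [DistribMulAction G A] [DistribMulAction G B] (g : G)
    (φ : h40_Hom A B) (a : A) : (g • φ) a = g • φ (g⁻¹ • a) := rfl

end h40_Hom

/-! ### Norms, exact sequences, connecting relations -/

section Exact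

variable (G : Type*) {A B C : Type*} [Group G] [AddCommGroup A] [AddCommGroup B] [AddCommGroup C]
  [DistribMulAction G A] [DistribMulAction G B] [DistribMulAction G C]

/-- The norm `N_G a = Σ_g g • a` (a finsum: `0` if `G` is infinite). -/
noncomputable def h40_norm (a : A) : A := ∑ᶠ g : G, g • a

/-- A short exact sequence `0 → A → B → C → 0` of `G`-modules. -/
structure h40_ShortExact (i : A →+ B) (q : B →+ C) : Prop where
  inj : Function.Injective i
  surj : Function.Surjective q
  exact : ∀ b : B, q b = 0 ↔ b ∈ i.range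
  i_smul : ∀ (g : G) (a : A), i (g • a) = g • i a
  q_smul : ∀ (g : G) (b : B), q (g • b) = g • q b

variable {G}

/-- Connecting relation in degree `0 → 1`: `z = δ c`. -/
def h40_Conn₀ (i : A →+ B) (q : B →+ C) (c : C) (z : G → A) : Prop :=
  ∃ b : B, q b = c ∧ ∀ g : G, i (z g) = g • b - b

/-- Connecting relation in degree `1 → 2`: `y = δ z`. -/
def h40_Conn₁ (i : A →+ B) (q : B →+ C) (z : G → C) (y : G × G → A) : Prop :=
  ∃ b : G → B, (∀ g, q (b g) = z g) ∧ ∀ g h : G, i (y (g, h)) = g • b h - b (g * h) + b g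

/-- Connecting relation in degree `2 → 3`: `F = δ y`. -/
def h40_Conn₂ (i : A →+ B) (q : B →+ C) (y : G × G → C) (F : G × G × G → A) : Prop :=
  ∃ b : G × G → B, (∀ x, q (b x) = y x) ∧
    ∀ g h j : G, i (F (g, h, j)) = g • b (h, j) - b (g * h, j) + b (g, h * j) - b (g, h)

end Exact

end Fermat.Agent.S55
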