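/-
S55 layer H (helper40): unbundled inflation–restriction in degrees 1 and 2.

Convention: `G` a group acting on an additive group `A` (`DistribMulAction G A`);
cocycles / coboundaries are Mathlib's unbundled predicates
`groupCohomology.IsCocycle₁`, `IsCocycle₂`, `IsCoboundary₁`, `IsCoboundary₂`.
Inflation is taken along an abstract surjection `π : G →* Q` together with an
injective equivariant map `ι : B →+ A` of a `Q`-module `B` onto the `π.ker`-invariants of `A`.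
-/
import Mathlib
import Fermat.Agent.S55.h72_AbsDefs

set_option autoImplicit false

namespace Fermat.Agent.S55

open groupCohomology

section Basic

variable {G A : Type*} [Group G] [AddCommGroup A] [DistribMulAction G A]

/-- The coboundary of a 1-cochain, as a function on `G × G`. -/
def h40_d₁ (c : G → A) : G × G → A := fun x => x.1 • c x.2 - c (x.1 * x.2) + c x.1

lemma h40_d₁_apply (c : G → A) (g h : G) : h40_d₁ c (g, h) = g • c h - c (g * h) + c g := rfl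

/-- The coboundary of a 0-cochain, as a function on `G`. -/
def h40_d₀ (a : A) : G → A := fun g => g • a - a

lemma h40_d₀_apply (a : A) (g : G) : h40_d₀ a g = g • a - a := rfl

lemma h40_isCocycle₂_d₁ (c : G → A) : IsCocycle₂ (h40_d₁ c) := by
  intro g h j
  simp only [h40_d₁_apply, smul_add, smul_sub, mul_smul, mul_assoc]
  abel

lemma h40_isCocycle₁_d₀ (a : A) : IsCocycle₁ (h40_d₀ (G := G) a) := by
  intro g h
  simp only [h40_d₀_apply, smul_sub, mul_smul]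
  abel

lemma h40_d₁_d₀ (a : A) : h40_d₁ (h40_d₀ (G := G) a) = 0 := by
  funext ⟨g, h⟩
  simp only [h40_d₁_apply, h40_d₀_apply, smul_sub, mul_smul, Pi.zero_apply]
  abel

lemma h40_isCoboundary₂_iff (f : G × G → A) : IsCoboundary₂ f ↔ ∃ c : G → A, f = h40_d₁ c := by
  constructor
  · rintro ⟨c, hc⟩; exact ⟨c, funext fun ⟨g, h⟩ => (hc g h).symm⟩
  · rintro ⟨c, rfl⟩; exact ⟨c, fun g h => rfl⟩

lemma h40_isCoboundary₁_iff (f : G → A) : IsCoboundary₁ f ↔ ∃ a : A, f = h40_d₀ a := by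
  constructor
  · rintro ⟨a, ha⟩; exact ⟨a, funext fun g => (ha g).symm⟩
  · rintro ⟨a, rfl⟩; exact ⟨a, fun g => rfl⟩

lemma h40_d₁_add (c c' : G → A) : h40_d₁ (c + c') = h40_d₁ c + h40_d₁ c' := by
  funext ⟨g, h⟩
  simp only [h40_d₁_apply, Pi.add_apply, smul_add]
  abel

lemma h40_d₁_sub (c c' : G → A) : h40_d₁ (c - c') = h40_d₁ c - h40_d₁ c' := by
  funext ⟨g, h⟩
  simp only [h40_d₁_apply, Pi.sub_apply, smul_sub]
  abel

lemma h40_d₁_neg (c : G → A) : h40_d₁ (-c) = -h40_d₁ c := by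
  funext ⟨g, h⟩
  simp only [h40_d₁_apply, Pi.neg_apply, smul_neg]
  abel

lemma h40_d₁_zero : h40_d₁ (0 : G → A) = 0 := by
  funext ⟨g, h⟩
  simp [h40_d₁_apply]

lemma h40_isCocycle₂_add {f f' : G × G → A} (hf : IsCocycle₂ f) (hf' : IsCocycle₂ f') :
    IsCocycle₂ (f + f') := by
  intro g h j
  have h1 := hf g h j
  have h2 := hf' g h j
  simp only [Pi.add_apply, smul_add]
  rw [add_add_add_comm, h1, h2, add_add_add_comm]

lemma h40_isCocycle₂_neg {f : G × G → A} (hf : IsCocycle₂ f) : IsCocycle₂ (-f) := by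
  intro g h j
  have h1 := hf g h j
  simp only [Pi.neg_apply, smul_neg]
  rw [← neg_add, h1, neg_add]

lemma h40_isCocycle₂_sub {f f' : G × G → A} (hf : IsCocycle₂ f) (hf' : IsCocycle₂ f') :
    IsCocycle₂ (f - f') := by
  rw [sub_eq_add_neg]
  exact h40_isCocycle₂_add hf (h40_isCocycle₂_neg hf')

lemma h40_isCocycle₂_zero : IsCocycle₂ (0 : G × G → A) := by
  intro g h j
  simp

lemma h40_isCocycle₂_of_isCoboundary₂ {f : G × G → A} (hf : IsCoboundary₂ f) : IsCocycle₂ f := by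
  obtain ⟨c, rfl⟩ := (h40_isCoboundary₂_iff f).1 hf
  exact h40_isCocycle₂_d₁ c

lemma h40_isCoboundary₂_add {f f' : G × G → A} (hf : IsCoboundary₂ f) (hf' : IsCoboundary₂ f') :
    IsCoboundary₂ (f + f') := by
  obtain ⟨c, rfl⟩ := (h40_isCoboundary₂_iff f).1 hf
  obtain ⟨c', rfl⟩ := (h40_isCoboundary₂_iff f').1 hf'
  exact (h40_isCoboundary₂_iff _).2 ⟨c + c', (h40_d₁_add c c').symm⟩

lemma h40_isCoboundary₂_neg {f : G × G → A} (hf : IsCoboundary₂ f) : IsCoboundary₂ (-f) := by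
  obtain ⟨c, rfl⟩ := (h40_isCoboundary₂_iff f).1 hf
  exact (h40_isCoboundary₂_iff _).2 ⟨-c, (h40_d₁_neg c).symm⟩

lemma h40_isCoboundary₂_sub {f f' : G × G → A} (hf : IsCoboundary₂ f) (hf' : IsCoboundary₂ f') :
    IsCoboundary₂ (f - f') := by
  rw [sub_eq_add_neg]
  exact h40_isCoboundary₂_add hf (h40_isCoboundary₂_neg hf')

lemma h40_isCoboundary₂_zero : IsCoboundary₂ (0 : G × G → A) :=
  (h40_isCoboundary₂_iff _).2 ⟨0, h40_d₁_zero.symm⟩

lemma h40_isCocycle₁_add {f f' : G → A} (hf : IsCocycle₁ f) (hf' : IsCocycle₁ f') :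
    IsCocycle₁ (f + f') := by
  intro g h
  simp only [Pi.add_apply, smul_add, hf g h, hf' g h]
  abel

lemma h40_isCocycle₁_neg {f : G → A} (hf : IsCocycle₁ f) : IsCocycle₁ (-f) := by
  intro g h
  simp only [Pi.neg_apply, smul_neg, hf g h]
  abel

lemma h40_isCocycle₁_sub {f f' : G → A} (hf : IsCocycle₁ f) (hf' : IsCocycle₁ f') :
    IsCocycle₁ (f - f') := by
  rw [sub_eq_add_neg]
  exact h40_isCocycle₁_add hf (h40_isCocycle₁_neg hf')

lemma h40_isCocycle₁_of_isCoboundary₁ {f : G → A} (hf : IsCoboundary₁ f) : IsCocycle₁ f := by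
  obtain ⟨a, rfl⟩ := (h40_isCoboundary₁_iff f).1 hf
  exact h40_isCocycle₁_d₀ a

end Basic

section Steps

variable {G A : Type*} [Group G] [AddCommGroup A] [DistribMulAction G A]

/-- Step 0: a cochain whose restriction to `N × N` is a coboundary can be corrected by a
coboundary of `G` so as to vanish on `N × N`. -/
lemma h40_step0 (N : Subgroup G) (f : G × G → A)
    (hres : IsCoboundary₂ (fun x : N × N => f ((x.1 : G), (x.2 : G)))) :
    ∃ c : G → A, ∀ n ∈ N, ∀ n' ∈ N, (f - h40_d₁ c) (n, n') = 0 := by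
  classical
  obtain ⟨u, hu⟩ := hres
  refine ⟨fun g => if h : g ∈ N then u ⟨g, h⟩ else 0, fun n hn n' hn' => ?_⟩
  have := hu ⟨n, hn⟩ ⟨n', hn'⟩
  simp only [Pi.sub_apply, h40_d₁_apply, dif_pos hn, dif_pos hn', dif_pos (N.mul_mem hn hn')]
  rw [sub_eq_zero]
  exact this.symm

/-- Step 1: a 2-cocycle vanishing on `N × N` can be corrected so as to vanish on `N × G`. -/
lemma h40_step1 (N : Subgroup G) (s : G → G) (hs : ∀ g, g * (s g)⁻¹ ∈ N)
    (hs' : ∀ g, ∀ n ∈ N, s (n * g) = s g)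
    (f : G × G → A) (hf : IsCocycle₂ f)
    (h0 : ∀ n ∈ N, ∀ n' ∈ N, f (n, n') = 0) :
    ∃ w : G → A, ∀ n ∈ N, ∀ g, (f + h40_d₁ w) (n, g) = 0 := by
  have hs1 : s 1 ∈ N := by
    have := N.inv_mem (hs 1)
    simpa using this
  refine ⟨fun g => f (g * (s g)⁻¹, s g), fun n hn g => ?_⟩
  have key := hf n (g * (s g)⁻¹) (s g)
  rw [h0 n hn _ (hs g), add_zero, inv_mul_cancel_right] at key
  have hsn : s n = s 1 := by
    have := hs' 1 n hn
    rwa [mul_one] at this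
  have hw1 : f (n * (s n)⁻¹, s n) = 0 := h0 _ (hs n) _ (by rw [hsn]; exact hs1)
  simp only [Pi.add_apply, h40_d₁_apply, hs' g n hn, mul_assoc, key, hw1]
  abel

/-- Step 2a: for a 2-cocycle vanishing on `N × G`, if `H¹(N, A) = 0`, the functions
`n ↦ f (g, n)` are given by a coherent family `α`. -/
lemma h40_step2a (N : Subgroup G) [hN : N.Normal] (s : G → G) (hs : ∀ g, g * (s g)⁻¹ ∈ N)
    (hs' : ∀ g, ∀ n ∈ N, s (n * g) = s g)
    (hH1 : ∀ u : G → A, (∀ n ∈ N, ∀ n' ∈ N, u (n * n') = n • u n' + u n) →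
      ∃ a : A, ∀ n ∈ N, n • a - a = u n)
    (f : G × G → A) (hf : IsCocycle₂ f) (h0 : ∀ n ∈ N, ∀ g, f (n, g) = 0) :
    ∃ α : G → A, (∀ g, ∀ m ∈ N, α (m * g) = m • α g) ∧
      (∀ g, ∀ n ∈ N, f (g, n) = (g * n * g⁻¹) • α g - α g) := by
  have hb : ∀ n ∈ N, ∀ g x, f (n * g, x) = n • f (g, x) := by
    intro n hn g x
    have := hf n g x
    rw [h0 n hn, h0 n hn, add_zero, add_zero] at this
    exact this
  have ha : ∀ g, ∀ n ∈ N, ∀ n', f (g, n * n') = f (g * n, n') + f (g, n) := by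
    intro g n hn n'
    have := hf g n n'
    rw [h0 n hn, smul_zero, zero_add] at this
    exact this.symm
  have hκ : ∀ g, ∃ a : A, ∀ n ∈ N, n • a - a = f (g, g⁻¹ * n * g) := by
    intro g
    apply hH1 (fun n => f (g, g⁻¹ * n * g))
    intro n hn n' hn'
    have h1 : g⁻¹ * (n * n') * g = (g⁻¹ * n * g) * (g⁻¹ * n' * g) := by group
    have hmem : g⁻¹ * n * g ∈ N := by
      have := hN.conj_mem n hn g⁻¹
      simpa using this
    have h2 : g * (g⁻¹ * n * g) = n * g := by group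
    show f (g, g⁻¹ * (n * n') * g) = n • f (g, g⁻¹ * n' * g) + f (g, g⁻¹ * n * g)
    rw [h1, ha g _ hmem, h2, hb n hn]
  choose a ha' using hκ
  refine ⟨fun g => (g * (s g)⁻¹) • a (s g), ?_, ?_⟩
  · intro g m hm
    simp only [hs' g m hm, mul_assoc, mul_smul]
  · intro g n hn
    have hνN : g * (s g)⁻¹ ∈ N := hs g
    have hconj : g * n * g⁻¹ ∈ N := hN.conj_mem n hn g
    have hm : (g * (s g)⁻¹)⁻¹ * (g * n * g⁻¹) * (g * (s g)⁻¹) ∈ N := by
      have := hN.conj_mem _ hconj (g * (s g)⁻¹)⁻¹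
      simpa using this
    have h3 := ha' (s g) _ hm
    have h4 : (s g)⁻¹ * ((g * (s g)⁻¹)⁻¹ * (g * n * g⁻¹) * (g * (s g)⁻¹)) * s g = n := by group
    rw [h4] at h3
    have h5 : f (g, n) = (g * (s g)⁻¹) • f (s g, n) := by
      have := hb _ hνN (s g) n
      rwa [inv_mul_cancel_right] at this
    rw [h5, ← h3, smul_sub, ← mul_smul, ← mul_smul]
    congr 2
    group

/-- Step 2b: correct a cochain vanishing on `N × G` so as to vanish on `N × G` and `G × N`. -/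
lemma h40_step2b (N : Subgroup G) [hN : N.Normal] (f : G × G → A)
    (h0 : ∀ n ∈ N, ∀ g, f (n, g) = 0)
    (α : G → A) (hα : ∀ g, ∀ m ∈ N, α (m * g) = m • α g)
    (hα' : ∀ g, ∀ n ∈ N, f (g, n) = (g * n * g⁻¹) • α g - α g) :
    ∃ c : G → A, (∀ n ∈ N, ∀ g, (f - h40_d₁ c) (n, g) = 0) ∧
      (∀ g, ∀ n ∈ N, (f - h40_d₁ c) (g, n) = 0) := by
  have hα1 : ∀ n ∈ N, n • α 1 = α 1 := by
    intro n hn
    have h1 := hα' 1 n hn
    rw [h0 1 N.one_mem] at h1
    simp only [one_mul, inv_one, mul_one] at h1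
    exact (sub_eq_zero.1 h1.symm)
  have hαn : ∀ n ∈ N, α n = α 1 := by
    intro n hn
    have := hα 1 n hn
    rw [mul_one] at this
    rw [this, hα1 n hn]
  refine ⟨fun g => α 1 - α g, ?_, ?_⟩
  · intro n hn g
    simp only [Pi.sub_apply, h40_d₁_apply, h0 n hn g, hα g n hn, hαn n hn, smul_sub, hα1 n hn]
    abel
  · intro g n hn
    have hconj : g * n * g⁻¹ ∈ N := hN.conj_mem n hn g
    have h1 : α (g * n) = (g * n * g⁻¹) • α g := by
      have := hα g _ hconj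
      rwa [inv_mul_cancel_right] at this
    simp only [Pi.sub_apply, h40_d₁_apply, hα' g n hn, hαn n hn, h1, sub_self, smul_zero]
    abel

/-- Step 3: a 2-cocycle vanishing on `N × G` and on `G × N` is constant on cosets of `N`
and has values in the `N`-invariants. -/
lemma h40_step3 (N : Subgroup G) [hN : N.Normal] (f : G × G → A) (hf : IsCocycle₂ f)
    (h0 : ∀ n ∈ N, ∀ g, f (n, g) = 0) (h0' : ∀ g, ∀ n ∈ N, f (g, n) = 0) :
    (∀ g h, ∀ n ∈ N, f (g * n, h) = f (g, h)) ∧ (∀ g h, ∀ n ∈ N, f (g, h * n) = f (g, h)) ∧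
    (∀ g h, ∀ n ∈ N, n • f (g, h) = f (g, h)) := by
  have hB : ∀ g h, ∀ n ∈ N, f (g, h * n) = f (g, h) := by
    intro g h n hn
    have := hf g h n
    rw [h0' _ n hn, h0' _ n hn, smul_zero, zero_add, zero_add] at this
    exact this.symm
  have hA : ∀ g h, ∀ n ∈ N, f (g * n, h) = f (g, h) := by
    intro g h n hn
    have := hf g n h
    rw [h0' _ n hn, h0 n hn, smul_zero, zero_add, add_zero] at this
    have hconj : h⁻¹ * n * h ∈ N := by
      have := hN.conj_mem n hn h⁻¹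
      simpa using this
    have h2 : n * h = h * (h⁻¹ * n * h) := by group
    rw [this, h2, hB g h _ hconj]
  refine ⟨hA, hB, ?_⟩
  intro g h n hn
  have := hf n g h
  rw [h0 n hn, h0 n hn, add_zero, add_zero] at this
  have hconj : g⁻¹ * n * g ∈ N := by
    have := hN.conj_mem n hn g⁻¹
    simpa using this
  have h2 : n * g = g * (g⁻¹ * n * g) := by group
  rw [← this, h2, hA g h _ hconj]

end Steps

section Inflation

set_option linter.unusedSectionVars false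

variable {G Q A B : Type*} [Group G] [Group Q] [AddCommGroup A] [AddCommGroup B]
  [DistribMulAction G A] [DistribMulAction Q B]

/-- Inflation of a 1-cochain along `π : G →* Q`, `ι : B →+ A`. -/
def h40_inf₁ (π : G →* Q) (ι : B →+ A) (u : Q → B) : G → A := fun g => ι (u (π g))

/-- Inflation of a 2-cochain along `π : G →* Q`, `ι : B →+ A`. -/
def h40_inf₂ (π : G →* Q) (ι : B →+ A) (f : Q × Q → B) : G × G → A :=
  fun x => ι (f (π x.1, π x.2))

lemma h40_inf₁_apply (π : G →* Q) (ι : B →+ A) (u : Q → B) (g : G) :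
    h40_inf₁ π ι u g = ι (u (π g)) := rfl

lemma h40_inf₂_apply (π : G →* Q) (ι : B →+ A) (f : Q × Q → B) (g h : G) :
    h40_inf₂ π ι f (g, h) = ι (f (π g, π h)) := rfl

variable (π : G →* Q) (ι : B →+ A)

lemma h40_inf₁_isCocycle₁ (hcomp : ∀ g b, ι (π g • b) = g • ι b) {u : Q → B}
    (hu : IsCocycle₁ u) : IsCocycle₁ (h40_inf₁ π ι u) := by
  intro g h
  simp only [h40_inf₁_apply, map_mul, hu (π g) (π h), map_add, hcomp]

lemma h40_inf₂_isCocycle₂ (hcomp : ∀ g b, ι (π g • b) = g • ι b) {f : Q × Q → B}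
    (hf : IsCocycle₂ f) : IsCocycle₂ (h40_inf₂ π ι f) := by
  intro g h j
  have := congrArg ι (hf (π g) (π h) (π j))
  simp only [map_add, hcomp] at this
  simpa only [h40_inf₂_apply, map_mul] using this

lemma h40_inf₂_d₁ (hcomp : ∀ g b, ι (π g • b) = g • ι b) (c : Q → B) :
    h40_inf₂ π ι (h40_d₁ c) = h40_d₁ (h40_inf₁ π ι c) := by
  funext ⟨g, h⟩
  simp only [h40_inf₂_apply, h40_d₁_apply, h40_inf₁_apply, map_add, map_sub, hcomp, map_mul]

lemma h40_inf₁_d₀ (hcomp : ∀ g b, ι (π g • b) = g • ι b) (b : B) :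
    h40_inf₁ π ι (h40_d₀ b) = h40_d₀ (ι b) := by
  funext g
  simp only [h40_inf₁_apply, h40_d₀_apply, map_sub, hcomp]

lemma h40_inf₂_isCoboundary₂ (hcomp : ∀ g b, ι (π g • b) = g • ι b) {f : Q × Q → B}
    (hf : IsCoboundary₂ f) : IsCoboundary₂ (h40_inf₂ π ι f) := by
  obtain ⟨c, rfl⟩ := (h40_isCoboundary₂_iff f).1 hf
  exact (h40_isCoboundary₂_iff _).2 ⟨_, h40_inf₂_d₁ π ι hcomp c⟩

lemma h40_inf₁_isCoboundary₁ (hcomp : ∀ g b, ι (π g • b) = g • ι b) {u : Q → B}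
    (hu : IsCoboundary₁ u) : IsCoboundary₁ (h40_inf₁ π ι u) := by
  obtain ⟨b, rfl⟩ := (h40_isCoboundary₁_iff u).1 hu
  exact (h40_isCoboundary₁_iff _).2 ⟨_, h40_inf₁_d₀ π ι hcomp b⟩

lemma h40_inf₂_add (f f' : Q × Q → B) :
    h40_inf₂ π ι (f + f') = h40_inf₂ π ι f + h40_inf₂ π ι f' := by
  funext ⟨g, h⟩
  simp only [h40_inf₂_apply, Pi.add_apply, map_add]

lemma h40_inf₂_sub (f f' : Q × Q → B) :
    h40_inf₂ π ι (f - f') = h40_inf₂ π ι f - h40_inf₂ π ι f' := by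
  funext ⟨g, h⟩
  simp only [h40_inf₂_apply, Pi.sub_apply, map_sub]

lemma h40_inf₁_add (u u' : Q → B) :
    h40_inf₁ π ι (u + u') = h40_inf₁ π ι u + h40_inf₁ π ι u' := by
  funext g
  simp only [h40_inf₁_apply, Pi.add_apply, map_add]

lemma h40_inf₁_sub (u u' : Q → B) :
    h40_inf₁ π ι (u - u') = h40_inf₁ π ι u - h40_inf₁ π ι u' := by
  funext g
  simp only [h40_inf₁_apply, Pi.sub_apply, map_sub]

/-- Descent of a function on `G` that is right-invariant under `π.ker` and has values in the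
`π.ker`-invariants. -/
lemma h40_descend₁ (hπ : Function.Surjective π)
    (hinv : ∀ a : A, (∀ n ∈ π.ker, n • a = a) → ∃ b, ι b = a)
    (F : G → A) (h1 : ∀ g, ∀ n ∈ π.ker, F (g * n) = F g)
    (h3 : ∀ g, ∀ n ∈ π.ker, n • F g = F g) :
    ∃ F' : Q → B, ∀ g, ι (F' (π g)) = F g := by
  have hex : ∀ q : Q, ∃ b, ι b = F (Function.surjInv hπ q) := fun q => hinv _ (h3 _)
  choose F' hF' using hex
  refine ⟨F', fun g => ?_⟩
  rw [hF']
  have hmem : g⁻¹ * Function.surjInv hπ (π g) ∈ π.ker := by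
    rw [MonoidHom.mem_ker, map_mul, Function.surjInv_eq hπ, map_inv, inv_mul_cancel]
  have := h1 g _ hmem
  rwa [mul_inv_cancel_left] at this

/-- Descent of a function on `G × G`. -/
lemma h40_descend₂ (hπ : Function.Surjective π)
    (hinv : ∀ a : A, (∀ n ∈ π.ker, n • a = a) → ∃ b, ι b = a)
    (F : G × G → A) (h1 : ∀ g h, ∀ n ∈ π.ker, F (g * n, h) = F (g, h))
    (h2 : ∀ g h, ∀ n ∈ π.ker, F (g, h * n) = F (g, h))
    (h3 : ∀ g h, ∀ n ∈ π.ker, n • F (g, h) = F (g, h)) :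
    ∃ F' : Q × Q → B, ∀ g h, ι (F' (π g, π h)) = F (g, h) := by
  have hex : ∀ q : Q × Q, ∃ b, ι b = F (Function.surjInv hπ q.1, Function.surjInv hπ q.2) :=
    fun q => hinv _ (h3 _ _)
  choose F' hF' using hex
  refine ⟨F', fun g h => ?_⟩
  rw [hF']
  have hmem : ∀ x : G, x⁻¹ * Function.surjInv hπ (π x) ∈ π.ker := by
    intro x
    rw [MonoidHom.mem_ker, map_mul, Function.surjInv_eq hπ, map_inv, inv_mul_cancel]
  have e1 := h1 g (Function.surjInv hπ (π h)) _ (hmem g)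
  have e2 := h2 g h _ (hmem h)
  rw [mul_inv_cancel_left] at e1 e2
  exact e1.trans e2

/-- `H¹(π.ker, A) = 0` in the form used below. -/
lemma h40_H1_ker_of (hH1 : ∀ u : π.ker → A, IsCocycle₁ u → IsCoboundary₁ u) :
    ∀ u : G → A, (∀ n ∈ π.ker, ∀ n' ∈ π.ker, u (n * n') = n • u n' + u n) →
      ∃ a : A, ∀ n ∈ π.ker, n • a - a = u n := by
  intro u hu
  obtain ⟨a, ha⟩ := hH1 (fun n => u n) (fun n n' => hu n n.2 n' n'.2)
  exact ⟨a, fun n hn => ha ⟨n, hn⟩⟩

/-- **(IR1a)** Inflation is injective on `H¹`. -/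
theorem h40_inf₁_injective (hπ : Function.Surjective π) (hι : Function.Injective ι)
    (hcomp : ∀ g b, ι (π g • b) = g • ι b)
    (hinv : ∀ a : A, (∀ n ∈ π.ker, n • a = a) → ∃ b, ι b = a)
    (u : Q → B) (hu : IsCocycle₁ u) (h : IsCoboundary₁ (h40_inf₁ π ι u)) : IsCoboundary₁ u := by
  obtain ⟨a, ha⟩ := h
  have hainv : ∀ n ∈ π.ker, n • a = a := by
    intro n hn
    have := ha n
    rw [h40_inf₁_apply, MonoidHom.mem_ker.1 hn, map_one_of_isCocycle₁ hu, map_zero] at this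
    exact sub_eq_zero.1 this
  obtain ⟨b, rfl⟩ := hinv a hainv
  refine ⟨b, fun q => ?_⟩
  obtain ⟨g, rfl⟩ := hπ q
  apply hι
  rw [map_sub, hcomp, ha g, h40_inf₁_apply]

/-- **(IR1b)** A 1-cocycle of `G` whose restriction to `π.ker` is a coboundary is cohomologous
to an inflated cocycle. -/
theorem h40_infRes₁_exact (hπ : Function.Surjective π) (hι : Function.Injective ι)
    (hcomp : ∀ g b, ι (π g • b) = g • ι b)
    (hinv : ∀ a : A, (∀ n ∈ π.ker, n • a = a) → ∃ b, ι b = a)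
    (f : G → A) (hf : IsCocycle₁ f) (hres : IsCoboundary₁ (fun n : π.ker => f n)) :
    ∃ u : Q → B, IsCocycle₁ u ∧ IsCoboundary₁ (f - h40_inf₁ π ι u) := by
  obtain ⟨a, ha⟩ := hres
  have ha' : ∀ n ∈ π.ker, n • a - a = f n := fun n hn => ha ⟨n, hn⟩
  set f' : G → A := f - h40_d₀ a with hf'
  have hf'c : IsCocycle₁ f' := h40_isCocycle₁_sub hf (h40_isCocycle₁_d₀ a)
  have hf'0 : ∀ n ∈ π.ker, f' n = 0 := by
    intro n hn
    simp only [hf', Pi.sub_apply, h40_d₀_apply, ha' n hn, sub_self]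
  have h1 : ∀ g, ∀ n ∈ π.ker, f' (g * n) = f' g := by
    intro g n hn
    rw [hf'c g n, hf'0 n hn, smul_zero, zero_add]
  have h3 : ∀ g, ∀ n ∈ π.ker, n • f' g = f' g := by
    intro g n hn
    have e := hf'c n g
    rw [hf'0 n hn, add_zero] at e
    have hconj : g⁻¹ * n * g ∈ π.ker := by
      have := (MonoidHom.normal_ker π).conj_mem n hn g⁻¹
      simpa using this
    have h2 : n * g = g * (g⁻¹ * n * g) := by group
    rw [← e, h2, h1 g _ hconj]
  obtain ⟨u, hu⟩ := h40_descend₁ π ι hπ hinv f' h1 h3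
  refine ⟨u, ?_, ?_⟩
  · intro x y
    obtain ⟨g, rfl⟩ := hπ x
    obtain ⟨h, rfl⟩ := hπ y
    apply hι
    rw [← map_mul, hu, map_add, hcomp, hu, hu, hf'c g h]
  · refine (h40_isCoboundary₁_iff _).2 ⟨a, ?_⟩
    funext g
    simp only [Pi.sub_apply, h40_inf₁_apply, hu g, hf', sub_sub_cancel]

/-- **(IR2a)** If `H¹(π.ker, A) = 0`, inflation is injective on `H²`. -/
theorem h40_inf₂_injective (hπ : Function.Surjective π) (hι : Function.Injective ι)
    (hcomp : ∀ g b, ι (π g • b) = g • ι b)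
    (hinv : ∀ a : A, (∀ n ∈ π.ker, n • a = a) → ∃ b, ι b = a)
    (hH1 : ∀ u : π.ker → A, IsCocycle₁ u → IsCoboundary₁ u)
    (f : Q × Q → B) (hf : IsCocycle₂ f) (h : IsCoboundary₂ (h40_inf₂ π ι f)) :
    IsCoboundary₂ f := by
  obtain ⟨c, hc⟩ := h
  simp only [h40_inf₂_apply] at hc
  obtain ⟨a₀, ha₀⟩ : ∃ a₀ : B, a₀ = f (1, 1) := ⟨_, rfl⟩
  have hιa₀ : ∀ g : G, g • ι a₀ = ι (π g • a₀) := fun g => (hcomp g a₀).symm
  have hιa₀n : ∀ n ∈ π.ker, n • ι a₀ = ι a₀ := by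
    intro n hn
    rw [hιa₀, MonoidHom.mem_ker.1 hn, one_smul]
  -- `c - ι a₀` is a cocycle on the kernel
  obtain ⟨a, ha⟩ := h40_H1_ker_of π hH1 (fun g => c g - ι a₀) (by
    intro n hn n' hn'
    have e := hc n n'
    rw [MonoidHom.mem_ker.1 hn, MonoidHom.mem_ker.1 hn', ← ha₀] at e
    have e' : c (n * n') = n • c n' + c n - ι a₀ := by
      rw [← e]; abel
    show c (n * n') - ι a₀ = n • (c n' - ι a₀) + (c n - ι a₀)
    rw [e', smul_sub, hιa₀n n hn]
    abel)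
  set c' : G → A := c - h40_d₀ a with hc'
  have hc'n : ∀ n ∈ π.ker, c' n = ι a₀ := by
    intro n hn
    simp only [hc', Pi.sub_apply, h40_d₀_apply, ha n hn, sub_sub_cancel]
  have hdc' : ∀ g h : G, g • c' h - c' (g * h) + c' g = ι (f (π g, π h)) := by
    intro g h
    have e1 : h40_d₁ c' (g, h) = h40_d₁ c (g, h) := by
      rw [hc', h40_d₁_sub, h40_d₁_d₀, sub_zero]
    rw [← hc g h]
    exact e1
  have h1 : ∀ g, ∀ n ∈ π.ker, c' (g * n) = c' g := by
    intro g n hn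
    have e := hdc' g n
    rw [MonoidHom.mem_ker.1 hn, map_one_snd_of_isCocycle₂ hf, ← ha₀, hcomp, hc'n n hn] at e
    calc c' (g * n) = g • ι a₀ - (g • ι a₀ - c' (g * n) + c' g) + c' g := by abel
      _ = c' g := by rw [e]; abel
  have h3 : ∀ g, ∀ n ∈ π.ker, n • c' g = c' g := by
    intro g n hn
    have e := hdc' n g
    rw [MonoidHom.mem_ker.1 hn, map_one_fst_of_isCocycle₂ hf, ← ha₀, hc'n n hn] at e
    have hconj : g⁻¹ * n * g ∈ π.ker := by
      have := (MonoidHom.normal_ker π).conj_mem n hn g⁻¹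
      simpa using this
    have h2 : n * g = g * (g⁻¹ * n * g) := by group
    rw [h2, h1 g _ hconj] at e
    calc n • c' g = (n • c' g - c' g + ι a₀) - ι a₀ + c' g := by abel
      _ = c' g := by rw [e]; abel
  obtain ⟨cb, hcb⟩ := h40_descend₁ π ι hπ hinv c' h1 h3
  refine ⟨cb, fun x y => ?_⟩
  obtain ⟨g, rfl⟩ := hπ x
  obtain ⟨h, rfl⟩ := hπ y
  apply hι
  rw [map_add, map_sub, hcomp, ← map_mul, hcb, hcb, hcb, hdc']

/-- **(IR2b)** If `H¹(π.ker, A) = 0`, a 2-cocycle of `G` whose restriction to `π.ker` is a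
coboundary is cohomologous to an inflated 2-cocycle. -/
theorem h40_infRes₂_exact (hπ : Function.Surjective π) (hι : Function.Injective ι)
    (hcomp : ∀ g b, ι (π g • b) = g • ι b)
    (hinv : ∀ a : A, (∀ n ∈ π.ker, n • a = a) → ∃ b, ι b = a)
    (hH1 : ∀ u : π.ker → A, IsCocycle₁ u → IsCoboundary₁ u)
    (f : G × G → A) (hf : IsCocycle₂ f)
    (hres : IsCoboundary₂ (fun x : π.ker × π.ker => f ((x.1 : G), (x.2 : G)))) :
    ∃ f' : Q × Q → B, IsCocycle₂ f' ∧ IsCoboundary₂ (f - h40_inf₂ π ι f') := by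
  have hH1' := h40_H1_ker_of π hH1
  -- a set-theoretic section
  set s : G → G := fun g => Function.surjInv hπ (π g) with hs_def
  have hs : ∀ g, g * (s g)⁻¹ ∈ π.ker := by
    intro g
    rw [MonoidHom.mem_ker, map_mul, map_inv, hs_def]
    simp only [Function.surjInv_eq hπ, mul_inv_cancel]
  have hs' : ∀ g, ∀ n ∈ π.ker, s (n * g) = s g := by
    intro g n hn
    simp only [hs_def, map_mul, MonoidHom.mem_ker.1 hn, one_mul]
  obtain ⟨c₀, hc₀⟩ := h40_step0 π.ker f hres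
  have hf₁ : IsCocycle₂ (f - h40_d₁ c₀) := h40_isCocycle₂_sub hf (h40_isCocycle₂_d₁ c₀)
  obtain ⟨w, hw⟩ := h40_step1 π.ker s hs hs' _ hf₁ hc₀
  have hf₂ : IsCocycle₂ (f - h40_d₁ c₀ + h40_d₁ w) := h40_isCocycle₂_add hf₁ (h40_isCocycle₂_d₁ w)
  obtain ⟨α, hα, hα'⟩ := h40_step2a π.ker s hs hs' hH1' _ hf₂ hw
  obtain ⟨c₂, hc₂, hc₂'⟩ := h40_step2b π.ker _ hw α hα hα'
  have hf₃ : IsCocycle₂ (f - h40_d₁ c₀ + h40_d₁ w - h40_d₁ c₂) :=
    h40_isCocycle₂_sub hf₂ (h40_isCocycle₂_d₁ c₂)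
  obtain ⟨k1, k2, k3⟩ := h40_step3 π.ker _ hf₃ hc₂ hc₂'
  obtain ⟨f', hf'⟩ := h40_descend₂ π ι hπ hinv _ k1 k2 k3
  refine ⟨f', ?_, ?_⟩
  · intro x y z
    obtain ⟨g, rfl⟩ := hπ x
    obtain ⟨h, rfl⟩ := hπ y
    obtain ⟨j, rfl⟩ := hπ z
    apply hι
    rw [map_add, map_add, hcomp, ← map_mul, ← map_mul, hf', hf', hf', hf']
    exact hf₃ g h j
  · refine (h40_isCoboundary₂_iff _).2 ⟨c₀ - w + c₂, ?_⟩
    funext ⟨g, h⟩
    rw [h40_d₁_add, h40_d₁_sub]
    simp only [Pi.sub_apply, Pi.add_apply, h40_inf₂_apply, hf']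
    abel

end Inflation

section ViaForms

variable {G Q A B : Type*} [Group G] [Group Q] [AddCommGroup A] [AddCommGroup B]
  [DistribMulAction G A] [DistribMulAction Q B]

/-- For a subgroup, the `Via H.subtype` predicates are the plain ones for the subgroup action. -/
lemma h40_isCocycle₁Via_subtype_iff (H : Subgroup G) (f : H → A) :
    IsCocycle₁Via H.subtype f ↔ IsCocycle₁ f := Iff.rfl

lemma h40_isCoboundary₁Via_subtype_iff (H : Subgroup G) (f : H → A) :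
    IsCoboundary₁Via H.subtype f ↔ IsCoboundary₁ f := Iff.rfl

lemma h40_isCocycle₂Via_subtype_iff (H : Subgroup G) (f : H × H → A) :
    IsCocycle₂Via H.subtype f ↔ IsCocycle₂ f := Iff.rfl

lemma h40_isCoboundary₂Via_subtype_iff (H : Subgroup G) (f : H × H → A) :
    IsCoboundary₂Via H.subtype f ↔ IsCoboundary₂ f := Iff.rfl

lemma h40_isCocycle₁Via_id_iff (f : G → A) :
    IsCocycle₁Via (MonoidHom.id G) f ↔ IsCocycle₁ f := Iff.rfl

lemma h40_isCoboundary₁Via_id_iff (f : G → A) :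
    IsCoboundary₁Via (MonoidHom.id G) f ↔ IsCoboundary₁ f := Iff.rfl

lemma h40_isCocycle₂Via_id_iff (f : G × G → A) :
    IsCocycle₂Via (MonoidHom.id G) f ↔ IsCocycle₂ f := Iff.rfl

lemma h40_isCoboundary₂Via_id_iff (f : G × G → A) :
    IsCoboundary₂Via (MonoidHom.id G) f ↔ IsCoboundary₂ f := Iff.rfl

variable (π : G →* Q) (ι : B →+ A)

/-- **(E8a)** inflation is injective on `H¹`, `Via`-free statement in the interface of `adt_D1`. -/
theorem h40_E8a (hπ : Function.Surjective π) (hι : Function.Injective ι)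
    (hιeq : ∀ (g : G) (b : B), ι (π g • b) = g • ι b)
    (hιfix : ∀ a : A, (∀ s ∈ π.ker, s • a = a) → a ∈ ι.range)
    (u : Q → B) (hu : IsCocycle₁ u) (h : IsCoboundary₁ (fun g : G => ι (u (π g)))) :
    IsCoboundary₁ u :=
  h40_inf₁_injective π ι hπ hι hιeq (fun a ha => hιfix a ha) u hu h

/-- **(E8b)** if `H¹(ker π, A) = 0`, inflation is injective on `H²`. -/
theorem h40_E8b (hπ : Function.Surjective π) (hι : Function.Injective ι)
    (hιeq : ∀ (g : G) (b : B), ι (π g • b) = g • ι b)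
    (hιfix : ∀ a : A, (∀ s ∈ π.ker, s • a = a) → a ∈ ι.range)
    (hH1 : ∀ u : π.ker → A, IsCocycle₁Via π.ker.subtype u → IsCoboundary₁Via π.ker.subtype u)
    (z : Q × Q → B) (hz : IsCocycle₂ z)
    (h : IsCoboundary₂ (fun x : G × G => ι (z (π x.1, π x.2)))) : IsCoboundary₂ z :=
  h40_inf₂_injective π ι hπ hι hιeq (fun a ha => hιfix a ha) hH1 z hz h

/-- **(INF-RES, degree 2)** if `H¹(ker π, A) = 0`, a 2-cocycle of `G` whose restriction to
`ker π` is a coboundary is cohomologous to an inflated 2-cocycle. -/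
theorem h40_E8b_infRes (hπ : Function.Surjective π) (hι : Function.Injective ι)
    (hιeq : ∀ (g : G) (b : B), ι (π g • b) = g • ι b)
    (hιfix : ∀ a : A, (∀ s ∈ π.ker, s • a = a) → a ∈ ι.range)
    (hH1 : ∀ u : π.ker → A, IsCocycle₁Via π.ker.subtype u → IsCoboundary₁Via π.ker.subtype u)
    (f : G × G → A) (hf : IsCocycle₂ f)
    (hres : IsCoboundary₂Via π.ker.subtype
      (fun x : π.ker × π.ker => f ((x.1 : G), (x.2 : G)))) :
    ∃ z : Q × Q → B, IsCocycle₂ z ∧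
      IsCoboundary₂ (f - fun x : G × G => ι (z (π x.1, π x.2))) :=
  h40_infRes₂_exact π ι hπ hι hιeq (fun a ha => hιfix a ha) hH1 f hf hres

/-- **(INF-RES, degree 1)** a 1-cocycle of `G` whose restriction to `ker π` is a coboundary is
cohomologous to an inflated 1-cocycle. -/
theorem h40_E8a_infRes (hπ : Function.Surjective π) (hι : Function.Injective ι)
    (hιeq : ∀ (g : G) (b : B), ι (π g • b) = g • ι b)
    (hιfix : ∀ a : A, (∀ s ∈ π.ker, s • a = a) → a ∈ ι.range)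
    (f : G → A) (hf : IsCocycle₁ f)
    (hres : IsCoboundary₁Via π.ker.subtype (fun n : π.ker => f n)) :
    ∃ u : Q → B, IsCocycle₁ u ∧ IsCoboundary₁ (f - fun g : G => ι (u (π g))) :=
  h40_infRes₁_exact π ι hπ hι hιeq (fun a ha => hιfix a ha) f hf hres

end ViaForms

end Fermat.Agent.S55
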