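import Mathlib
import Fermat.Agent.S55.h72_AbsDefs
import Fermat.Agent.S55.h40_HDefs
import Fermat.Agent.S55.h40_InfRes

/-!
# S55, layer H, row H-E8c (helper81): `p`-class modules descend to quotients

If `π : G' ↠ G` is a surjection of finite groups, `C'` is a `p`-class module for `G'` and
`C = C'^{ker π}` (in the `(π, ι)` interface of `adt_D1`), then `C` is a `p`-class module for `G`.
-/

set_option autoImplicit false

namespace Fermat.Agent.S55

open groupCohomology

section Kill

variable {G A : Type*} [Group G] [AddCommGroup A] [DistribMulAction G A]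

/-- A natural multiple of a 2-cocycle is a 2-cocycle. -/
lemma h81_isCocycle₂_nsmul (k : ℕ) {f : G × G → A} (hf : IsCocycle₂ f) :
    IsCocycle₂ (k • f) := by
  intro g h j
  simp only [Pi.smul_apply]
  rw [← smul_add, hf g h j, smul_add, smul_comm g k]

/-- A natural multiple of a 2-coboundary is a 2-coboundary. -/
lemma h81_isCoboundary₂_nsmul (k : ℕ) {f : G × G → A} (hf : IsCoboundary₂ f) :
    IsCoboundary₂ (k • f) := by
  obtain ⟨c, hc⟩ := hf
  refine ⟨fun g => k • c g, fun g h => ?_⟩
  simp only [Pi.smul_apply]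
  rw [← hc g h, smul_add, smul_sub, smul_comm g k]

/-- For a finite group, `|G| • f` is a coboundary for every 2-cocycle `f`. -/
lemma h81_card_smul_isCoboundary₂ [Finite G] (f : G × G → A) (hf : IsCocycle₂ f) :
    IsCoboundary₂ (Nat.card G • f) := by
  classical
  have := Fintype.ofFinite G
  refine ⟨fun g => ∑ j : G, f (g, j), fun g h => ?_⟩
  have h1 : ∑ j : G, f (g, h * j) = ∑ j : G, f (g, j) :=
    Fintype.sum_bijective (h * ·) (Group.mulLeft_bijective h) _ _ (fun _ => rfl)
  have h2 : ∑ j : G, (f (g * h, j) + f (g, h)) = ∑ j : G, (g • f (h, j) + f (g, h * j)) :=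
    Finset.sum_congr rfl fun j _ => hf g h j
  rw [Finset.sum_add_distrib, Finset.sum_add_distrib, Finset.sum_const, Finset.card_univ, h1,
    ← Finset.smul_sum] at h2
  simp only [Pi.smul_apply, Nat.card_eq_fintype_card]
  rw [sub_add_eq_add_sub, ← h2, add_sub_cancel_left]

/-- If `m` acts bijectively and `m • f` is a 2-coboundary, then `f` is a 2-coboundary. -/
lemma h81_isCoboundary₂_of_nsmul {m : ℕ} (hm : Function.Bijective (fun a : A => m • a))
    {f : G × G → A} (h : IsCoboundary₂ (m • f)) : IsCoboundary₂ f := by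
  obtain ⟨c, hc⟩ := h
  choose c' hc' using fun g => hm.2 (c g)
  refine ⟨c', fun g h => ?_⟩
  apply hm.1
  show m • (g • c' h - c' (g * h) + c' g) = m • f (g, h)
  have := hc g h
  simp only [Pi.smul_apply] at this
  have e1 : ∀ x, m • c' x = c x := hc'
  rw [smul_add, smul_sub, smul_comm m g, e1, e1, e1, this]

end Kill

section Transport

variable {p : ℕ} {G' : Type*} [Group G'] {C' : Type*} [AddCommGroup C'] [DistribMulAction G' C']

/-- `H¹ = 0` for every group mapping injectively to `G'`. -/
lemma h81_h1_via (hC' : IsPClassModule p G' C') {Γ : Type*} [Group Γ] (φ : Γ →* G')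
    (hφ : Function.Injective φ) (u : Γ → C') (hu : IsCocycle₁Via φ u) : IsCoboundary₁Via φ u := by
  let e : Γ ≃* φ.range := MonoidHom.ofInjective hφ
  have he : ∀ x : φ.range, φ (e.symm x) = x := fun x => by
    have h1 : e (e.symm x) = x := e.apply_symm_apply x
    have h2 : ((e (e.symm x) : φ.range) : G') = φ (e.symm x) := rfl
    rw [← h2, h1]
  obtain ⟨x, hx⟩ := hC'.h1 φ.range (fun g => u (e.symm g)) (by
    intro g h
    show u (e.symm (g * h)) = (g : G') • u (e.symm h) + u (e.symm g)
    rw [map_mul, hu, he])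
  refine ⟨x, fun γ => ?_⟩
  have h3 : φ γ • x - x = u (e.symm (e γ)) := hx (e γ)
  have h4 : e.symm (e γ) = γ := e.symm_apply_apply γ
  rwa [h4] at h3

end Transport

section Card

variable {G' G : Type*} [Group G'] [Group G]

/-- The preimage of a subgroup under a surjection has `|H| * |ker π|` elements. -/
lemma h81_card_comap (π : G' →* G) (hπ : Function.Surjective π) (H : Subgroup G) :
    Nat.card (H.comap π) = Nat.card H * Nat.card π.ker := by
  have hs := π.subgroupComap_surjective_of_surjective H hπ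
  rw [Subgroup.card_eq_card_quotient_mul_card_subgroup (π.subgroupComap H).ker]
  congr 1
  · exact Nat.card_congr (QuotientGroup.quotientKerEquivOfSurjective _ hs).toEquiv
  · refine Nat.card_congr ⟨fun x => ⟨x.1.1, ?_⟩, fun n => ⟨⟨n.1, ?_⟩, ?_⟩, ?_, ?_⟩
    · have h1 := x.2
      rw [MonoidHom.mem_ker] at h1 ⊢
      exact congrArg Subtype.val h1
    · show π n.1 ∈ H
      rw [MonoidHom.mem_ker.1 n.2]
      exact H.one_mem
    · rw [MonoidHom.mem_ker]
      apply Subtype.ext
      exact MonoidHom.mem_ker.1 n.2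
    · intro x
      rfl
    · intro n
      rfl

end Card

section Main

variable {p : ℕ} [Fact p.Prime] {G' G : Type*} [Group G'] [Group G] [Finite G']
  (π : G' →* G) (hπ : Function.Surjective π) {C' C : Type*} [AddCommGroup C']
  [DistribMulAction G' C'] [AddCommGroup C] [DistribMulAction G C] (ι : C →+ C')
  (hι : Function.Injective ι) (hιeq : ∀ (g : G') (c : C), ι (π g • c) = g • ι c)
  (hιfix : ∀ c' : C', (∀ s ∈ π.ker, s • c' = c') → c' ∈ ι.range)

omit [Fact (Nat.Prime p)] [Finite G'] in
include hι hιeq hιfix in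
/-- The invariants of a `p`-local module are `p`-local. -/
lemma h81_ploc (hC' : IsPClassModule p G' C') (m : ℕ) (hm : m.Coprime p) :
    Function.Bijective (fun c : C => m • c) := by
  obtain ⟨hinj, hsurj⟩ := hC'.ploc m hm
  constructor
  · intro c d hcd
    apply hι
    apply hinj
    show m • ι c = m • ι d
    rw [← map_nsmul, ← map_nsmul]
    exact congrArg ι hcd
  · intro c
    obtain ⟨c'', hc''⟩ := hsurj (ι c)
    have hc''' : m • c'' = ι c := hc''
    have hfix : ∀ s ∈ π.ker, s • c'' = c'' := by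
      intro s hs
      apply hinj
      show m • (s • c'') = m • c''
      rw [smul_comm m s, hc''', ← hιeq, MonoidHom.mem_ker.1 hs, one_smul]
    obtain ⟨d, hd⟩ := hιfix c'' hfix
    refine ⟨d, hι ?_⟩
    show ι (m • d) = ι c
    rw [map_nsmul, hd, hc''']

omit [Finite G'] in
include hιeq in
/-- Equivariance of `ι` for the restricted pair `(π⁻¹(H), H)`. -/
lemma h81_rel_eq (H : Subgroup G) (g : H.comap π) (c : C) :
    ι ((π.subgroupComap H) g • c) = g • ι c := hιeq (g : G') c

omit [Finite G'] [DistribMulAction G C] in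
include hιfix in
/-- `ι` is onto the invariants for the restricted pair `(π⁻¹(H), H)`. -/
lemma h81_rel_fix (H : Subgroup G) (a : C')
    (ha : ∀ s ∈ (π.subgroupComap H).ker, s • a = a) : a ∈ ι.range := by
  apply hιfix
  intro s hs
  have hsH : s ∈ H.comap π := by
    show π s ∈ H
    rw [MonoidHom.mem_ker.1 hs]
    exact H.one_mem
  exact ha ⟨s, hsH⟩ (by rw [MonoidHom.mem_ker]; exact Subtype.ext (MonoidHom.mem_ker.1 hs))

omit [Fact (Nat.Prime p)] [Finite G'] in
/-- `H¹` of the kernel of the restricted projection vanishes. -/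
lemma h81_rel_h1 (hC' : IsPClassModule p G' C') (H : Subgroup G)
    (u : (π.subgroupComap H).ker → C')
    (hu : IsCocycle₁Via (π.subgroupComap H).ker.subtype u) :
    IsCoboundary₁Via (π.subgroupComap H).ker.subtype u :=
  h81_h1_via hC' ((H.comap π).subtype.comp (π.subgroupComap H).ker.subtype)
    ((Subgroup.subtype_injective _).comp (Subgroup.subtype_injective _)) u hu

omit [Fact (Nat.Prime p)] [Finite G'] in
include hπ hι hιeq hιfix in
/-- `H¹(H, C) = 0` for every subgroup `H` of the quotient. -/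
lemma h81_h1 (hC' : IsPClassModule p G' C') (H : Subgroup G) (f : H → C)
    (hf : IsCocycle₁Via H.subtype f) : IsCoboundary₁Via H.subtype f := by
  have hs := π.subgroupComap_surjective_of_surjective H hπ
  refine h40_E8a (π.subgroupComap H) ι hs hι (h81_rel_eq π ι hιeq H) (h81_rel_fix π ι hιfix H)
    f hf ?_
  apply hC'.h1 (H.comap π)
  intro g h
  show ι (f (π.subgroupComap H (g * h)))
    = (g : G') • ι (f (π.subgroupComap H h)) + ι (f (π.subgroupComap H g))
  rw [map_mul, hf, map_add]
  congr 1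
  exact hιeq (g : G') _

include hπ hι hιeq hιfix in
/-- The fundamental class descends. -/
lemma h81_fund (hC' : IsPClassModule p G' C') :
    ∃ u : G × G → C, IsCocycle₂ u ∧ ∀ H : Subgroup G,
      (∀ f : H × H → C, IsCocycle₂Via H.subtype f →
        ∃ k : ℕ, IsCoboundary₂Via H.subtype
          (f - k • fun x : H × H => u ((x.1 : G), (x.2 : G)))) ∧
      (∀ k : ℕ, IsCoboundary₂Via H.subtype (k • fun x : H × H => u ((x.1 : G), (x.2 : G))) →
        p ^ ((Nat.card H).factorization p) ∣ k) := by
  classical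
  have hp : p.Prime := Fact.out
  have : Finite G := Finite.of_surjective π hπ
  obtain ⟨u', hu', hfund'⟩ := hC'.fund
  have hk₀pos : 0 < p ^ ((Nat.card π.ker).factorization p) := pow_pos hp.pos _
  -- Step 1: `k₀ • u'` restricted to the kernel is a coboundary
  have hresK : IsCoboundary₂ (p ^ ((Nat.card π.ker).factorization p) •
      fun x : π.ker × π.ker => u' ((x.1 : G'), (x.2 : G'))) := by
    have hr : IsCocycle₂ (fun x : π.ker × π.ker => u' ((x.1 : G'), (x.2 : G'))) :=
      fun g h j => hu' g h j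
    have h1 := h81_card_smul_isCoboundary₂ _ hr
    have hcard : Nat.card π.ker = (Nat.card π.ker / p ^ ((Nat.card π.ker).factorization p)) *
        p ^ ((Nat.card π.ker).factorization p) :=
      (Nat.div_mul_cancel (Nat.ordProj_dvd _ _)).symm
    have hcop : (Nat.card π.ker / p ^ ((Nat.card π.ker).factorization p)).Coprime p :=
      (Nat.coprime_ordCompl hp (Nat.card_pos.ne')).symm
    rw [hcard, mul_smul] at h1
    exact h81_isCoboundary₂_of_nsmul (hC'.ploc _ hcop) h1
  -- Step 2: inflation-restriction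
  obtain ⟨ub, hub, c₂, hc₂⟩ := h40_E8b_infRes π ι hπ hι hιeq hιfix (hC'.h1 π.ker)
    (p ^ ((Nat.card π.ker).factorization p) • u') (h81_isCocycle₂_nsmul _ hu') hresK
  have hc₂' : ∀ g h : G', g • c₂ h - c₂ (g * h) + c₂ g
      = p ^ ((Nat.card π.ker).factorization p) • u' (g, h) - ι (ub (π g, π h)) := hc₂
  refine ⟨ub, hub, fun H => ?_⟩
  have hs := π.subgroupComap_surjective_of_surjective H hπ
  have hKH' : ∀ s ∈ π.ker, s ∈ H.comap π := fun s hs' => by
    show π s ∈ H
    rw [MonoidHom.mem_ker.1 hs']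
    exact H.one_mem
  have hπK : ∀ (s : G') (hs' : s ∈ π.ker), π.subgroupComap H ⟨s, hKH' s hs'⟩ = 1 :=
    fun s hs' => Subtype.ext (MonoidHom.mem_ker.1 hs')
  constructor
  · intro f hf
    have hf' : IsCocycle₂ f := hf
    have hF : IsCocycle₂Via (H.comap π).subtype
        (fun x : (H.comap π) × (H.comap π) =>
          ι (f (π.subgroupComap H x.1, π.subgroupComap H x.2))) :=
      h40_inf₂_isCocycle₂ (π.subgroupComap H) ι (h81_rel_eq π ι hιeq H) hf'
    obtain ⟨j, c₁, hc₁⟩ := (hfund' (H.comap π)).1 _ hF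
    have hc₁' : ∀ g h : H.comap π, (g : G') • c₁ h - c₁ (g * h) + c₁ g
        = ι (f (π.subgroupComap H g, π.subgroupComap H h)) - j • u' ((g : G'), (h : G')) := hc₁
    -- restriction to the kernel
    have hjK : IsCoboundary₂Via π.ker.subtype
        (j • fun x : π.ker × π.ker => u' ((x.1 : G'), (x.2 : G'))) := by
      have hafix : ∀ s ∈ π.ker, s • ι (f (1, 1)) = ι (f (1, 1)) := by
        intro s hs'
        rw [← hιeq, MonoidHom.mem_ker.1 hs', one_smul]
      refine ⟨fun n => ι (f (1, 1)) - c₁ ⟨n, hKH' n n.2⟩, fun g h => ?_⟩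
      have e := hc₁' ⟨g, hKH' g g.2⟩ ⟨h, hKH' h h.2⟩
      rw [hπK g g.2, hπK h h.2] at e
      show (g : G') • (ι (f (1, 1)) - c₁ ⟨h, hKH' h h.2⟩)
          - (ι (f (1, 1)) - c₁ (⟨g, hKH' g g.2⟩ * ⟨h, hKH' h h.2⟩))
          + (ι (f (1, 1)) - c₁ ⟨g, hKH' g g.2⟩) = j • u' ((g : G'), (h : G'))
      have e' : j • u' ((g : G'), (h : G')) = ι (f (1, 1)) -
          ((g : G') • c₁ ⟨h, hKH' h h.2⟩ - c₁ (⟨g, hKH' g g.2⟩ * ⟨h, hKH' h h.2⟩)
            + c₁ ⟨g, hKH' g g.2⟩) := by
        rw [e]
        abel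
      rw [e', smul_sub, hafix g g.2]
      abel
    obtain ⟨j', rfl⟩ : p ^ ((Nat.card π.ker).factorization p) ∣ j := (hfund' π.ker).2 j hjK
    refine ⟨j', ?_⟩
    have hz : IsCocycle₂ (f - j' • fun x : H × H => ub ((x.1 : G), (x.2 : G))) :=
      h40_isCocycle₂_sub hf' (h81_isCocycle₂_nsmul j' (fun g h j => hub g h j))
    refine h40_E8b (π.subgroupComap H) ι hs hι (h81_rel_eq π ι hιeq H) (h81_rel_fix π ι hιfix H)
      (h81_rel_h1 π hC' H) _ hz ?_
    refine ⟨fun g => c₁ g + j' • c₂ (g : G'), fun g h => ?_⟩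
    show (g : G') • (c₁ h + j' • c₂ (h : G')) - (c₁ (g * h) + j' • c₂ ((g : G') * (h : G')))
        + (c₁ g + j' • c₂ (g : G'))
      = ι (f (π.subgroupComap H g, π.subgroupComap H h) - j' • ub (π (g : G'), π (h : G')))
    have e1 := hc₁' g h
    have e2 := hc₂' (g : G') (h : G')
    have key : (g : G') • (c₁ h + j' • c₂ (h : G')) - (c₁ (g * h) + j' • c₂ ((g : G') * (h : G')))
        + (c₁ g + j' • c₂ (g : G'))
        = ((g : G') • c₁ h - c₁ (g * h) + c₁ g)
          + j' • ((g : G') • c₂ (h : G') - c₂ ((g : G') * (h : G')) + c₂ (g : G')) := by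
      simp only [smul_add, smul_sub, smul_comm (g : G') j']
      abel
    rw [key, e1, e2, map_sub, map_nsmul, smul_sub, mul_comm, mul_smul]
    abel
  · intro k hk
    obtain ⟨c₃, hc₃⟩ := hk
    have hc₃' : ∀ g h : H, (g : G) • c₃ h - c₃ (g * h) + c₃ g = k • ub ((g : G), (h : G)) := hc₃
    have hkk₀ : IsCoboundary₂Via (H.comap π).subtype
        ((k * p ^ ((Nat.card π.ker).factorization p)) •
          fun x : (H.comap π) × (H.comap π) => u' ((x.1 : G'), (x.2 : G'))) := by
      refine ⟨fun g => ι (c₃ (π.subgroupComap H g)) + k • c₂ (g : G'), fun g h => ?_⟩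
      show (g : G') • (ι (c₃ (π.subgroupComap H h)) + k • c₂ (h : G'))
          - (ι (c₃ (π.subgroupComap H (g * h))) + k • c₂ ((g : G') * (h : G')))
          + (ι (c₃ (π.subgroupComap H g)) + k • c₂ (g : G'))
        = (k * p ^ ((Nat.card π.ker).factorization p)) • u' ((g : G'), (h : G'))
      have e1 := congrArg ι (hc₃' (π.subgroupComap H g) (π.subgroupComap H h))
      rw [map_add, map_sub, map_nsmul] at e1
      have e1' : ι (((π.subgroupComap H g : H) : G) • c₃ (π.subgroupComap H h))
          = (g : G') • ι (c₃ (π.subgroupComap H h)) := hιeq (g : G') _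
      rw [e1'] at e1
      change _ = k • ι (ub (π (g : G'), π (h : G'))) at e1
      have e2 := hc₂' (g : G') (h : G')
      have key : (g : G') • (ι (c₃ (π.subgroupComap H h)) + k • c₂ (h : G'))
          - (ι (c₃ (π.subgroupComap H (g * h))) + k • c₂ ((g : G') * (h : G')))
          + (ι (c₃ (π.subgroupComap H g)) + k • c₂ (g : G'))
          = ((g : G') • ι (c₃ (π.subgroupComap H h))
              - ι (c₃ (π.subgroupComap H g * π.subgroupComap H h))
              + ι (c₃ (π.subgroupComap H g)))
            + k • ((g : G') • c₂ (h : G') - c₂ ((g : G') * (h : G')) + c₂ (g : G')) := by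
        rw [map_mul]
        simp only [smul_add, smul_sub, smul_comm (g : G') k]
        abel
      rw [key, e1, e2, smul_sub, mul_smul]
      abel
    have hdvd := (hfund' (H.comap π)).2 _ hkk₀
    rw [h81_card_comap π hπ H, Nat.factorization_mul Nat.card_pos.ne' Nat.card_pos.ne',
      Finsupp.add_apply, pow_add] at hdvd
    exact Nat.dvd_of_mul_dvd_mul_right hk₀pos hdvd

end Main

/-- **(E8c)** `p`-class modules descend to quotients: if `C'` is a `p`-class module for `G'`
and `C = C'^{ker π}` for a surjection `π : G' ↠ G`, then `C` is a `p`-class module for `G`. -/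
theorem h81_E8c {p : ℕ} [Fact p.Prime] {G' G : Type*} [Group G'] [Group G] [Finite G']
    (π : G' →* G) (hπ : Function.Surjective π) {C' C : Type*} [AddCommGroup C']
    [DistribMulAction G' C'] [AddCommGroup C] [DistribMulAction G C] (ι : C →+ C')
    (hι : Function.Injective ι) (hιeq : ∀ (g : G') (c : C), ι (π g • c) = g • ι c)
    (hιfix : ∀ c' : C', (∀ s ∈ π.ker, s • c' = c') → c' ∈ ι.range)
    (hC' : IsPClassModule p G' C') : IsPClassModule p G C :=
  ⟨h81_ploc π ι hι hιeq hιfix hC', h81_h1 π hπ ι hι hιeq hιfix hC',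
    h81_fund π hπ ι hι hιeq hιfix hC'⟩

end Fermat.Agent.S55

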