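import Fermat.Agent.S55.h56_Colim
import Fermat.Agent.S55.h81_E8c

/-!
# S55, bridge layer: transport of level-wise facts to the ambient colimit

`Γ` is the "Galois group of the level" (`π : G →* Γ` surjective with kernel `U`), acting on the
level module `B`, and `e : B ≃+ h56_Inv U A` identifies `B` with the `U`-invariants of the
ambient `G`-module `A` (for the colimit: `e = h56_Colim.equivInv`).

* `h56_quotEquiv` : `G ⧸ U ≃* Γ`;
* `h56_isPClassModule_transport` : `IsPClassModule p Γ B → IsPClassModule p (G ⧸ U) (h56_Inv U A)`;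
* `h56_finsum_ker_transport` : the norm `∑ s ∈ ker (G ⧸ U' → G ⧸ U), s • e b` is `e` of the norm
  `∑ t ∈ K, t • b` over the corresponding subgroup `K` of `Γ'`.
-/

set_option autoImplicit false
set_option linter.unusedSectionVars false

namespace Fermat.Agent.S55

noncomputable section

section QuotEquiv

variable {G Γ : Type*} [Group G] [Group Γ] (U : Subgroup G) [U.Normal] (π : G →* Γ)

/-- `G ⧸ U ≃* Γ` for a surjection `π : G → Γ` with kernel `U`. -/
def h56_quotEquiv (hπ : Function.Surjective π) (hker : π.ker = U) : G ⧸ U ≃* Γ :=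
  MulEquiv.ofBijective (QuotientGroup.lift U π (fun g hg => by rw [← hker] at hg; exact hg))
    ⟨by
      rw [injective_iff_map_eq_one]
      intro q
      induction q using QuotientGroup.induction_on with
      | H g =>
        intro hg
        rw [QuotientGroup.eq_one_iff, ← hker]
        exact hg,
    fun γ => by
      obtain ⟨g, rfl⟩ := hπ γ
      exact ⟨(g : G ⧸ U), rfl⟩⟩

@[simp] theorem h56_quotEquiv_mk (hπ : Function.Surjective π) (hker : π.ker = U) (g : G) :
    h56_quotEquiv U π hπ hker (g : G ⧸ U) = π g := rfl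

@[simp] theorem h56_quotEquiv_symm_apply (hπ : Function.Surjective π) (hker : π.ker = U) (g : G) :
    (h56_quotEquiv U π hπ hker).symm (π g) = (g : G ⧸ U) := by
  rw [MulEquiv.symm_apply_eq]
  rfl

end QuotEquiv

section Transport

variable {G Γ : Type*} [Group G] [Group Γ] {U : Subgroup G} [U.Normal] (π : G →* Γ)
  (hπ : Function.Surjective π) (hker : π.ker = U)
  {A : Type*} [AddCommGroup A] [DistribMulAction G A]
  {B : Type*} [AddCommGroup B] [DistribMulAction Γ B]
  (e : B ≃+ h56_Inv U A) (he : ∀ (g : G) (b : B), e (π g • b) = (g : G ⧸ U) • e b)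

include hπ hker he

theorem h56_transport_symm_smul (q : G ⧸ U) (x : h56_Inv U A) :
    e.symm (q • x) = h56_quotEquiv U π hπ hker q • e.symm x := by
  induction q using QuotientGroup.induction_on with
  | H g =>
    apply e.injective
    rw [AddEquiv.apply_symm_apply, h56_quotEquiv_mk, he, AddEquiv.apply_symm_apply]

/-- **Transport of (CF)**: a `p`-class module structure on the level module gives one on the
invariants of the ambient module. -/
theorem h56_isPClassModule_transport {p : ℕ} [Fact p.Prime] [Finite Γ]
    (hCF : IsPClassModule p Γ B) : IsPClassModule p (G ⧸ U) (h56_Inv U A) := by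
  refine h81_E8c ((h56_quotEquiv U π hπ hker).symm.toMonoidHom)
    (h56_quotEquiv U π hπ hker).symm.surjective e.symm.toAddMonoidHom e.symm.injective ?_ ?_ hCF
  · intro γ x
    obtain ⟨g, rfl⟩ := hπ γ
    show e.symm ((h56_quotEquiv U π hπ hker).symm (π g) • x) = π g • e.symm x
    rw [h56_quotEquiv_symm_apply, h56_transport_symm_smul π hπ hker e he, h56_quotEquiv_mk]
  · intro b _
    exact ⟨e b, e.symm_apply_apply b⟩

end Transport

section Norm

variable {G Γ' : Type*} [Group G] [Group Γ'] {U' U : Subgroup G} [U'.Normal] [U.Normal]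
  (π' : G →* Γ') (hπ' : Function.Surjective π') (hker' : π'.ker = U') (hU : U' ≤ U)
  {A : Type*} [AddCommGroup A] [DistribMulAction G A]
  {B' : Type*} [AddCommGroup B'] [DistribMulAction Γ' B']
  (e' : B' ≃+ h56_Inv U' A) (he' : ∀ (g : G) (b : B'), e' (π' g • b) = (g : G ⧸ U') • e' b)
  (K : Subgroup Γ') (hK : ∀ g : G, π' g ∈ K ↔ g ∈ U)

include hπ' hker' he' hK

/-- **Transport of norms**: the norm from level `U'` to level `U` on the invariants of the
ambient module is the norm over the subgroup `K` of `Γ'` corresponding to `U`. -/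
theorem h56_finsum_ker_transport (b : B') :
    ∑ᶠ s : (h56_quotMap hU).ker, (s : G ⧸ U') • e' b = e' (∑ᶠ t : K, (t : Γ') • b) := by
  have hmem : ∀ s : G ⧸ U', s ∈ (h56_quotMap hU).ker ↔ h56_quotEquiv U' π' hπ' hker' s ∈ K := by
    intro s
    induction s using QuotientGroup.induction_on with
    | H g => rw [h56_mk_mem_ker_quotMap, h56_quotEquiv_mk, hK]
  let φ : (h56_quotMap (U' := U') (U := U) hU).ker ≃ K :=
    Equiv.subtypeEquiv (h56_quotEquiv U' π' hπ' hker').toEquiv hmem
  have h1 : e' (∑ᶠ t : K, (t : Γ') • b) = ∑ᶠ t : K, e' ((t : Γ') • b) :=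
    AddMonoidHom.map_finsum_of_injective e'.toAddMonoidHom e'.injective _
  rw [h1, ← finsum_comp_equiv φ]
  refine finsum_congr fun s => ?_
  obtain ⟨s, hs⟩ := s
  induction s using QuotientGroup.induction_on with
  | H g =>
    show (g : G ⧸ U') • e' b = e' (π' g • b)
    rw [he']

end Norm

end

end Fermat.Agent.S55
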