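import Mathlib
import Fermat.Agent.S55.h56_Inv
import Fermat.Agent.S55.h72_AbsDefs

/-!
# S55, bridge layer: level-constant cochains of `G` versus cochains of `G ⧸ U`

`U` is a normal subgroup of `G`, `A` a `G`-module.  A cochain of `G` is *of level `U`* if it is
invariant under right translation of its arguments by `U`.  We show that the cocycles of level
`U` (degrees `1` and `2`) are exactly the inflations of cocycles of `G ⧸ U` with values in the
`U`-invariants `h56_Inv U A`, and that coboundaries correspond.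
-/

set_option autoImplicit false
set_option linter.unusedSectionVars false
set_option linter.unusedVariables false

open groupCohomology

namespace Fermat.Agent.S55

section Level

variable {G : Type*} [Group G]

/-- A `1`-cochain of level `U`: invariant under right translation by `U`. -/
def h56_IsLevel₁ (U : Subgroup G) {X : Type*} (x : G → X) : Prop :=
  ∀ g s, s ∈ U → x (g * s) = x g

/-- A `2`-cochain of level `U`: invariant under right translation of both arguments by `U`. -/
def h56_IsLevel₂ (U : Subgroup G) {X : Type*} (y : G × G → X) : Prop :=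
  ∀ g g' s s', s ∈ U → s' ∈ U → y (g * s, g' * s') = y (g, g')

theorem h56_IsLevel₁.mono {U U' : Subgroup G} (h : U' ≤ U) {X : Type*} {x : G → X}
    (hx : h56_IsLevel₁ U x) : h56_IsLevel₁ U' x := fun g s hs => hx g s (h hs)

theorem h56_IsLevel₂.mono {U U' : Subgroup G} (h : U' ≤ U) {X : Type*} {y : G × G → X}
    (hy : h56_IsLevel₂ U y) : h56_IsLevel₂ U' y := fun g g' s s' hs hs' => hy g g' s s' (h hs) (h hs')

theorem h56_IsLevel₁.left {U : Subgroup G} [hU : U.Normal] {X : Type*} {x : G → X}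
    (hx : h56_IsLevel₁ U x) (g s : G) (hs : s ∈ U) : x (s * g) = x g := by
  have h1 : g⁻¹ * s * g ∈ U := by
    have := hU.conj_mem s hs g⁻¹
    simpa using this
  have h2 : s * g = g * (g⁻¹ * s * g) := by group
  rw [h2, hx g _ h1]

theorem h56_IsLevel₁.eq_of_mk_eq {U : Subgroup G} {X : Type*} {x : G → X}
    (hx : h56_IsLevel₁ U x) {g h : G} (hgh : (g : G ⧸ U) = h) : x g = x h := by
  have h1 : g⁻¹ * h ∈ U := QuotientGroup.eq.mp hgh
  have h2 : h = g * (g⁻¹ * h) := by group
  rw [h2, hx g _ h1]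

theorem h56_IsLevel₂.eq_of_mk_eq {U : Subgroup G} {X : Type*} {y : G × G → X}
    (hy : h56_IsLevel₂ U y) {g h g' h' : G} (hgh : (g : G ⧸ U) = h) (hgh' : (g' : G ⧸ U) = h') :
    y (g, g') = y (h, h') := by
  have h1 : g⁻¹ * h ∈ U := QuotientGroup.eq.mp hgh
  have h2 : h = g * (g⁻¹ * h) := by group
  have h1' : g'⁻¹ * h' ∈ U := QuotientGroup.eq.mp hgh'
  have h2' : h' = g' * (g'⁻¹ * h') := by group
  rw [h2, h2', hy g g' _ _ h1 h1']

/-- every cochain of level `U` factors through `G ⧸ U`. -/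
theorem h56_IsLevel₁.exists_factor {U : Subgroup G} {X : Type*} {x : G → X}
    (hx : h56_IsLevel₁ U x) : ∃ xbar : G ⧸ U → X, ∀ g : G, xbar g = x g :=
  ⟨fun q => Quotient.liftOn' q x (fun g h hgh =>
    hx.eq_of_mk_eq (QuotientGroup.eq.mpr (QuotientGroup.leftRel_apply.mp hgh))), fun _ => rfl⟩

theorem h56_IsLevel₂.exists_factor {U : Subgroup G} {X : Type*} {y : G × G → X}
    (hy : h56_IsLevel₂ U y) : ∃ ybar : (G ⧸ U) × (G ⧸ U) → X, ∀ g h : G, ybar (g, h) = y (g, h) :=
  ⟨fun q => Quotient.liftOn₂' q.1 q.2 (fun g h => y (g, h)) (fun g h g' h' hgg' hhh' =>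
    hy.eq_of_mk_eq (QuotientGroup.eq.mpr (QuotientGroup.leftRel_apply.mp hgg'))
      (QuotientGroup.eq.mpr (QuotientGroup.leftRel_apply.mp hhh'))), fun _ _ => rfl⟩

end Level

section Infl

variable {G : Type*} [Group G] {U : Subgroup G} [U.Normal] {A : Type*} [AddCommGroup A]
  [DistribMulAction G A]

/-- Inflation of a `1`-cochain of `G ⧸ U` with values in the `U`-invariants. -/
def h56_infl₁ (xbar : G ⧸ U → h56_Inv U A) : G → A := fun g => (xbar g : A)

/-- Inflation of a `2`-cochain of `G ⧸ U` with values in the `U`-invariants. -/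
def h56_infl₂ (ybar : (G ⧸ U) × (G ⧸ U) → h56_Inv U A) : G × G → A :=
  fun x => (ybar (x.1, x.2) : A)

@[simp] theorem h56_infl₁_apply (xbar : G ⧸ U → h56_Inv U A) (g : G) :
    h56_infl₁ xbar g = (xbar g : A) := rfl

@[simp] theorem h56_infl₂_apply (ybar : (G ⧸ U) × (G ⧸ U) → h56_Inv U A) (g h : G) :
    h56_infl₂ ybar (g, h) = (ybar (g, h) : A) := rfl

theorem h56_infl₁_isLevel (xbar : G ⧸ U → h56_Inv U A) : h56_IsLevel₁ U (h56_infl₁ xbar) := by
  intro g s hs
  have : ((g * s : G) : G ⧸ U) = g := by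
    rw [QuotientGroup.mk_mul, (QuotientGroup.eq_one_iff s).2 hs, mul_one]
  simp only [h56_infl₁_apply, this]

theorem h56_infl₂_isLevel (ybar : (G ⧸ U) × (G ⧸ U) → h56_Inv U A) :
    h56_IsLevel₂ U (h56_infl₂ ybar) := by
  intro g g' s s' hs hs'
  have h1 : ((g * s : G) : G ⧸ U) = g := by
    rw [QuotientGroup.mk_mul, (QuotientGroup.eq_one_iff s).2 hs, mul_one]
  have h2 : ((g' * s' : G) : G ⧸ U) = g' := by
    rw [QuotientGroup.mk_mul, (QuotientGroup.eq_one_iff s').2 hs', mul_one]
  simp only [h56_infl₂_apply, h1, h2]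

theorem h56_infl₁_injective : Function.Injective (h56_infl₁ (U := U) (A := A)) := by
  intro x x' h
  funext q
  induction q using QuotientGroup.induction_on with
  | H g => exact Subtype.ext (congrFun h g)

theorem h56_infl₂_injective : Function.Injective (h56_infl₂ (U := U) (A := A)) := by
  intro y y' h
  funext ⟨q, q'⟩
  induction q using QuotientGroup.induction_on with
  | H g =>
    induction q' using QuotientGroup.induction_on with
    | H g' => exact Subtype.ext (congrFun h (g, g'))

/-- a cochain of level `U` with values in the `U`-invariants is an inflation. -/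
theorem h56_exists_infl₁_eq (x : G → A) (hl : h56_IsLevel₁ U x) (hv : ∀ g, x g ∈ h56_Inv U A) :
    ∃ xbar : G ⧸ U → h56_Inv U A, h56_infl₁ xbar = x := by
  obtain ⟨xbar, hxbar⟩ := h56_IsLevel₁.exists_factor
    (x := fun g => (⟨x g, hv g⟩ : h56_Inv U A)) (fun g s hs => Subtype.ext (hl g s hs))
  exact ⟨xbar, funext fun g => congrArg Subtype.val (hxbar g)⟩

theorem h56_exists_infl₂_eq (y : G × G → A) (hl : h56_IsLevel₂ U y)
    (hv : ∀ g h, y (g, h) ∈ h56_Inv U A) :
    ∃ ybar : (G ⧸ U) × (G ⧸ U) → h56_Inv U A, h56_infl₂ ybar = y := by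
  obtain ⟨ybar, hybar⟩ := h56_IsLevel₂.exists_factor
    (y := fun x : G × G => (⟨y (x.1, x.2), hv x.1 x.2⟩ : h56_Inv U A))
    (fun g g' s s' hs hs' => Subtype.ext (hl g g' s s' hs hs'))
  exact ⟨ybar, funext fun ⟨g, h⟩ => congrArg Subtype.val (hybar g h)⟩

/-- inflation preserves and reflects the `1`-cocycle condition. -/
theorem h56_isCocycle₁_infl₁ (xbar : G ⧸ U → h56_Inv U A) :
    IsCocycle₁ (h56_infl₁ xbar) ↔ IsCocycle₁ xbar := by
  constructor
  · intro h q q'
    induction q using QuotientGroup.induction_on with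
    | H g =>
      induction q' using QuotientGroup.induction_on with
      | H g' => exact Subtype.ext (h g g')
  · intro h g g'
    exact congrArg Subtype.val (h (g : G ⧸ U) (g' : G ⧸ U))

/-- inflation preserves and reflects the `2`-cocycle condition. -/
theorem h56_isCocycle₂_infl₂ (ybar : (G ⧸ U) × (G ⧸ U) → h56_Inv U A) :
    IsCocycle₂ (h56_infl₂ ybar) ↔ IsCocycle₂ ybar := by
  constructor
  · intro h q q' q''
    induction q using QuotientGroup.induction_on with
    | H g =>
      induction q' using QuotientGroup.induction_on with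
      | H g' =>
        induction q'' using QuotientGroup.induction_on with
        | H g'' => exact Subtype.ext (h g g' g'')
  · intro h g g' g''
    exact congrArg Subtype.val (h (g : G ⧸ U) (g' : G ⧸ U) (g'' : G ⧸ U))

/-- a `1`-cocycle of level `U` takes values in the `U`-invariants. -/
theorem h56_isCocycle₁_mem_Inv {x : G → A} (hx : IsCocycle₁ x) (hl : h56_IsLevel₁ U x) (g : G) :
    x g ∈ h56_Inv U A := by
  intro s hs
  have h1 : x (1 : G) = 0 := by
    have := hx 1 1
    simpa using this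
  have h2 : x s = 0 := by
    have := hl 1 s hs
    rwa [one_mul, h1] at this
  have h3 : x (s * g) = x g := hl.left g s hs
  have h4 := hx s g
  rw [h3, h2, add_zero] at h4
  exact h4.symm

/-- a `2`-cocycle of level `U` takes values in the `U`-invariants. -/
theorem h56_isCocycle₂_mem_Inv {y : G × G → A} (hy : IsCocycle₂ y) (hl : h56_IsLevel₂ U y)
    (g h : G) : y (g, h) ∈ h56_Inv U A := by
  intro s hs
  have hU : U.Normal := inferInstance
  -- left invariance in the first variable
  have h1 : g⁻¹ * s * g ∈ U := by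
    have := hU.conj_mem s hs g⁻¹
    simpa using this
  have h2 : s * g = g * (g⁻¹ * s * g) := by group
  have h3 : y (s * g, h) = y (g, h) := by
    rw [h2]
    have := hl g h _ 1 h1 U.one_mem
    rwa [mul_one] at this
  have h4 : ∀ j, y (s, j) = y (1, j) := by
    intro j
    have := hl 1 j s 1 hs U.one_mem
    rwa [one_mul, mul_one] at this
  -- `y (1, j)` does not depend on `j`
  have h5 : ∀ j, y (1, j) = y (1, 1) := by
    intro j
    have := hy 1 1 j
    simp only [one_mul, one_smul] at this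
    -- y (1, j) + y (1, 1) = y (1, j) + y (1, j)
    have h6 : y (1, 1) = y (1, j) := add_left_cancel this
    exact h6.symm
  have h7 := hy s g h
  rw [h3, h4, h4, h5 g, h5 (g * h)] at h7
  exact (add_right_cancel h7).symm

/-- **deflation in degree `1`**: a `1`-cocycle of `G` of level `U` is the inflation of a
`1`-cocycle of `G ⧸ U` with values in the `U`-invariants. -/
theorem h56_exists_defl₁ (x : G → A) (hx : IsCocycle₁ x) (hl : h56_IsLevel₁ U x) :
    ∃ xbar : G ⧸ U → h56_Inv U A, IsCocycle₁ xbar ∧ h56_infl₁ xbar = x := by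
  obtain ⟨xbar, rfl⟩ := h56_exists_infl₁_eq x hl (h56_isCocycle₁_mem_Inv hx hl)
  exact ⟨xbar, (h56_isCocycle₁_infl₁ xbar).1 hx, rfl⟩

/-- **deflation in degree `2`**: a `2`-cocycle of `G` of level `U` is the inflation of a
`2`-cocycle of `G ⧸ U` with values in the `U`-invariants. -/
theorem h56_exists_defl₂ (y : G × G → A) (hy : IsCocycle₂ y) (hl : h56_IsLevel₂ U y) :
    ∃ ybar : (G ⧸ U) × (G ⧸ U) → h56_Inv U A, IsCocycle₂ ybar ∧ h56_infl₂ ybar = y := by
  obtain ⟨ybar, rfl⟩ := h56_exists_infl₂_eq y hl (h56_isCocycle₂_mem_Inv hy hl)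
  exact ⟨ybar, (h56_isCocycle₂_infl₂ ybar).1 hy, rfl⟩

/-- a `1`-cochain of level `U` whose coboundary is a `2`-cochain of level `U` takes values in
the `U`-invariants. -/
theorem h56_mem_Inv_of_d_eq {y : G × G → A} (hy : h56_IsLevel₂ U y) {x : G → A}
    (hl : h56_IsLevel₁ U x)
    (hd : ∀ g h : G, g • x h - x (g * h) + x g = y (g, h)) (g : G) :
    x g ∈ h56_Inv U A := by
  intro s hs
  have h1 : x (s * g) = x g := hl.left g s hs
  have h2 : x s = x 1 := by
    have := hl 1 s hs
    rwa [one_mul] at this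
  have h3 : y (s, g) = y (1, g) := by
    have := hy 1 g s 1 hs U.one_mem
    rwa [one_mul, mul_one] at this
  have h4 := hd s g
  have h5 := hd 1 g
  rw [h3, ← h5, h1, h2, one_smul, one_mul] at h4
  have h6 : s • x g - x g = x g - x g := add_right_cancel h4
  rw [sub_self, sub_eq_zero] at h6
  exact h6

/-- a `1`-cochain of level `U` whose coboundary is an inflated `2`-cochain takes values in the
`U`-invariants. -/
theorem h56_mem_Inv_of_d_eq_infl₂ (ybar : (G ⧸ U) × (G ⧸ U) → h56_Inv U A) (x : G → A)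
    (hl : h56_IsLevel₁ U x)
    (hd : ∀ g h : G, g • x h - x (g * h) + x g = h56_infl₂ ybar (g, h)) (g : G) :
    x g ∈ h56_Inv U A := by
  intro s hs
  have h1 : x (s * g) = x g := hl.left g s hs
  have h2 : x s = x 1 := by
    have := hl 1 s hs
    rwa [one_mul] at this
  have h3 : h56_infl₂ ybar (s, g) = h56_infl₂ ybar (1, g) := by
    have := h56_infl₂_isLevel ybar 1 g s 1 hs U.one_mem
    rwa [one_mul, mul_one] at this
  have h4 := hd s g
  have h5 := hd 1 g
  rw [h3, ← h5, h1, h2, one_smul, one_mul] at h4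
  -- s • x g - x g + x 1 = x g - x g + x 1
  have h6 : s • x g - x g = x g - x g := add_right_cancel h4
  rw [sub_self, sub_eq_zero] at h6
  exact h6

/-- **coboundaries in degree `2`**: a `2`-cochain of `G ⧸ U` is a coboundary iff its inflation
is the coboundary of a `1`-cochain of level `U`. -/
theorem h56_isCoboundary₂_iff (ybar : (G ⧸ U) × (G ⧸ U) → h56_Inv U A) :
    IsCoboundary₂ ybar ↔ ∃ x : G → A, h56_IsLevel₁ U x ∧
      ∀ g h : G, g • x h - x (g * h) + x g = h56_infl₂ ybar (g, h) := by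
  constructor
  · rintro ⟨xbar, hxbar⟩
    refine ⟨h56_infl₁ xbar, h56_infl₁_isLevel xbar, fun g h => ?_⟩
    exact congrArg Subtype.val (hxbar (g : G ⧸ U) (h : G ⧸ U))
  · rintro ⟨x, hl, hd⟩
    obtain ⟨xbar, rfl⟩ := h56_exists_infl₁_eq x hl (h56_mem_Inv_of_d_eq_infl₂ ybar x hl hd)
    refine ⟨xbar, fun q q' => ?_⟩
    induction q using QuotientGroup.induction_on with
    | H g =>
      induction q' using QuotientGroup.induction_on with
      | H g' => exact Subtype.ext (hd g g')

/-- **coboundaries in degree `1`** (inflation is injective on `H¹`): a `1`-cochain of `G ⧸ U`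
is a coboundary iff its inflation is a coboundary. -/
theorem h56_isCoboundary₁_iff (xbar : G ⧸ U → h56_Inv U A) :
    IsCoboundary₁ xbar ↔ IsCoboundary₁ (h56_infl₁ xbar) := by
  constructor
  · rintro ⟨a, ha⟩
    exact ⟨(a : A), fun g => congrArg Subtype.val (ha (g : G ⧸ U))⟩
  · rintro ⟨a, ha⟩
    have haU : a ∈ h56_Inv U A := by
      intro s hs
      have h1 := ha s
      have h2 := ha 1
      have h3 : h56_infl₁ xbar s = h56_infl₁ xbar 1 := by
        have := h56_infl₁_isLevel xbar 1 s hs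
        rwa [one_mul] at this
      rw [h3, ← h2, one_smul, sub_self, sub_eq_zero] at h1
      exact h1
    refine ⟨⟨a, haU⟩, fun q => ?_⟩
    induction q using QuotientGroup.induction_on with
    | H g => exact Subtype.ext (ha g)

end Infl

section Tower

variable {G : Type*} [Group G] {U' U : Subgroup G} [U'.Normal] [U.Normal]
  {A : Type*} [AddCommGroup A] [DistribMulAction G A]

/-- transitivity of inflation, degree `1`. -/
theorem h56_infl₁_tower (h : U' ≤ U) (xbar : G ⧸ U → h56_Inv U A) :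
    h56_infl₁ (fun q : G ⧸ U' => h56_invIncl h (xbar (h56_quotMap h q))) = h56_infl₁ xbar := rfl

/-- transitivity of inflation, degree `2`. -/
theorem h56_infl₂_tower (h : U' ≤ U) (ybar : (G ⧸ U) × (G ⧸ U) → h56_Inv U A) :
    h56_infl₂ (fun x : (G ⧸ U') × (G ⧸ U') =>
      h56_invIncl h (ybar (h56_quotMap h x.1, h56_quotMap h x.2))) = h56_infl₂ ybar := rfl

/-- **coboundaries at a deeper level** (the shape of the hypothesis `hperp` of `adt_D1`): the
inflation of `ybar` to `G ⧸ U'` is a coboundary iff the inflation of `ybar` to `G` is the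
coboundary of a cochain of level `U'`. -/
theorem h56_isCoboundary₂_tower_iff (h : U' ≤ U) (ybar : (G ⧸ U) × (G ⧸ U) → h56_Inv U A) :
    IsCoboundary₂ (fun x : (G ⧸ U') × (G ⧸ U') =>
        h56_invIncl h (ybar (h56_quotMap h x.1, h56_quotMap h x.2))) ↔
      ∃ x : G → A, h56_IsLevel₁ U' x ∧
        ∀ g g' : G, g • x g' - x (g * g') + x g = h56_infl₂ ybar (g, g') := by
  rw [h56_isCoboundary₂_iff, h56_infl₂_tower]

/-- **coboundaries at a deeper level, trivial action** (the shape of the conclusion of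
`adt_D1`): if `U` acts trivially on `A`, then `ybar ∘ π` is a coboundary "via `π`" iff the
inflation of `ybar` to `G` is the coboundary of a cochain of level `U'`. -/
theorem h56_isCoboundary₂Via_iff (h : U' ≤ U) (hA : ∀ a : A, a ∈ h56_Inv U A)
    (ybar : (G ⧸ U) × (G ⧸ U) → h56_Inv U A) :
    IsCoboundary₂Via (h56_quotMap h) (fun x : (G ⧸ U') × (G ⧸ U') =>
        ybar (h56_quotMap h x.1, h56_quotMap h x.2)) ↔
      ∃ x : G → A, h56_IsLevel₁ U' x ∧
        ∀ g g' : G, g • x g' - x (g * g') + x g = h56_infl₂ ybar (g, g') := by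
  constructor
  · rintro ⟨xbar, hxbar⟩
    refine ⟨fun g => (xbar (g : G ⧸ U') : A), fun g s hs => ?_, fun g g' => ?_⟩
    · have : ((g * s : G) : G ⧸ U') = g := by
        rw [QuotientGroup.mk_mul, (QuotientGroup.eq_one_iff s).2 hs, mul_one]
      simp only [this]
    · exact congrArg Subtype.val (hxbar (g : G ⧸ U') (g' : G ⧸ U'))
  · rintro ⟨x, hl, hd⟩
    obtain ⟨xbar, hxbar⟩ := h56_IsLevel₁.exists_factor
      (x := fun g => (⟨x g, hA (x g)⟩ : h56_Inv U A)) (fun g s hs => Subtype.ext (hl g s hs))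
    refine ⟨xbar, fun q q' => ?_⟩
    induction q using QuotientGroup.induction_on with
    | H g =>
      induction q' using QuotientGroup.induction_on with
      | H g' =>
        apply Subtype.ext
        have := hd g g'
        rw [← QuotientGroup.mk_mul, hxbar, hxbar, hxbar]
        exact this

end Tower

/-! ### The general `(π, ι)` form

`π : G →* Q` is a surjective homomorphism, `B` a `Q`-module, `A` a `G`-module and `ι : B →+ A`
an injective equivariant map whose range is the set of `ker π`-invariants (the hypotheses of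
`adt_D1`).  Cochains of `Q` in `B` are inflated to `G` by `y ↦ ι ∘ y ∘ π`.  Instances:
`Q = G ⧸ U`, `B = h56_Inv U A` (above) and `Q = Gal(L/ℚ)`, `π = AlgEquiv.restrictNormalHom L`. -/

section Via

variable {G Q : Type*} [Group G] [Group Q] {A B : Type*} [AddCommGroup A] [DistribMulAction G A]
  [AddCommGroup B] [DistribMulAction Q B]

theorem h56_IsLevel₁.eq_of_map_eq {X : Type*} (π : G →* Q) {x : G → X}
    (hx : h56_IsLevel₁ π.ker x) {g h : G} (hgh : π g = π h) : x g = x h := by
  have h1 : g⁻¹ * h ∈ π.ker := by rw [MonoidHom.mem_ker, map_mul, map_inv, hgh, inv_mul_cancel]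
  have h2 : h = g * (g⁻¹ * h) := by group
  rw [h2, hx g _ h1]

theorem h56_IsLevel₂.eq_of_map_eq {X : Type*} (π : G →* Q) {y : G × G → X}
    (hy : h56_IsLevel₂ π.ker y) {g h g' h' : G} (hgh : π g = π h) (hgh' : π g' = π h') :
    y (g, g') = y (h, h') := by
  have h1 : g⁻¹ * h ∈ π.ker := by rw [MonoidHom.mem_ker, map_mul, map_inv, hgh, inv_mul_cancel]
  have h2 : h = g * (g⁻¹ * h) := by group
  have h1' : g'⁻¹ * h' ∈ π.ker := by
    rw [MonoidHom.mem_ker, map_mul, map_inv, hgh', inv_mul_cancel]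
  have h2' : h' = g' * (g'⁻¹ * h') := by group
  rw [h2, h2', hy g g' _ _ h1 h1']

theorem h56_via_isLevel₁ {X : Type*} (π : G →* Q) (xbar : Q → X) :
    h56_IsLevel₁ π.ker (fun g => xbar (π g)) := by
  intro g s hs
  show xbar (π (g * s)) = xbar (π g)
  rw [map_mul, MonoidHom.mem_ker.1 hs, mul_one]

theorem h56_via_isLevel₂ {X : Type*} (π : G →* Q) (ybar : Q × Q → X) :
    h56_IsLevel₂ π.ker (fun x : G × G => ybar (π x.1, π x.2)) := by
  intro g g' s s' hs hs'
  show ybar (π (g * s), π (g' * s')) = ybar (π g, π g')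
  rw [map_mul, map_mul, MonoidHom.mem_ker.1 hs, MonoidHom.mem_ker.1 hs', mul_one, mul_one]

/-- a cochain of level `ker π` factors through `π`. -/
theorem h56_via_exists_factor₁ {X : Type*} (π : G →* Q) (hπ : Function.Surjective π)
    {x : G → X} (hx : h56_IsLevel₁ π.ker x) : ∃ xbar : Q → X, ∀ g, xbar (π g) = x g :=
  ⟨fun a => x (Function.surjInv hπ a),
    fun g => hx.eq_of_map_eq π (Function.surjInv_eq hπ (π g))⟩

theorem h56_via_exists_factor₂ {X : Type*} (π : G →* Q) (hπ : Function.Surjective π)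
    {y : G × G → X} (hy : h56_IsLevel₂ π.ker y) :
    ∃ ybar : Q × Q → X, ∀ g h, ybar (π g, π h) = y (g, h) :=
  ⟨fun a => y (Function.surjInv hπ a.1, Function.surjInv hπ a.2),
    fun g h => hy.eq_of_map_eq π (Function.surjInv_eq hπ (π g)) (Function.surjInv_eq hπ (π h))⟩

variable (π : G →* Q) (hπ : Function.Surjective π) (ι : B →+ A) (hι : Function.Injective ι)
  (hιeq : ∀ (g : G) (b : B), ι (π g • b) = g • ι b)
  (hιfix : ∀ a : A, (∀ s ∈ π.ker, s • a = a) → a ∈ ι.range)

include hπ hι hιeq in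
/-- inflation along `(π, ι)` preserves and reflects the `1`-cocycle condition. -/
theorem h56_via_isCocycle₁_iff (xbar : Q → B) :
    IsCocycle₁ (fun g : G => ι (xbar (π g))) ↔ IsCocycle₁ xbar := by
  constructor
  · intro h a b
    obtain ⟨g, rfl⟩ := hπ a
    obtain ⟨g', rfl⟩ := hπ b
    apply hι
    have := h g g'
    simp only [map_mul] at this
    rw [map_add, hιeq]
    exact this
  · intro h g g'
    show ι (xbar (π (g * g'))) = g • ι (xbar (π g')) + ι (xbar (π g))
    rw [map_mul, h (π g) (π g'), map_add, hιeq]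

include hπ hι hιeq in
/-- inflation along `(π, ι)` preserves and reflects the `2`-cocycle condition. -/
theorem h56_via_isCocycle₂_iff (ybar : Q × Q → B) :
    IsCocycle₂ (fun x : G × G => ι (ybar (π x.1, π x.2))) ↔ IsCocycle₂ ybar := by
  constructor
  · intro h a b c
    obtain ⟨g, rfl⟩ := hπ a
    obtain ⟨g', rfl⟩ := hπ b
    obtain ⟨g'', rfl⟩ := hπ c
    apply hι
    have := h g g' g''
    simp only [map_mul] at this
    rw [map_add, map_add, hιeq]
    exact this
  · intro h g g' g''
    show ι (ybar (π (g * g'), π g'')) + ι (ybar (π g, π g')) =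
      g • ι (ybar (π g', π g'')) + ι (ybar (π g, π (g' * g'')))
    rw [map_mul, map_mul, ← map_add, h (π g) (π g') (π g''), map_add, hιeq]

include hπ hι hιeq hιfix in
/-- **deflation along `(π, ι)`, degree `1`**. -/
theorem h56_via_exists_defl₁ (x : G → A) (hx : IsCocycle₁ x) (hl : h56_IsLevel₁ π.ker x) :
    ∃ xbar : Q → B, IsCocycle₁ xbar ∧ ∀ g, ι (xbar (π g)) = x g := by
  have hv : ∀ g, x g ∈ ι.range := fun g => hιfix _ (h56_isCocycle₁_mem_Inv hx hl g)
  choose x' hx' using hv
  obtain ⟨xbar, hxbar⟩ := h56_via_exists_factor₁ (x := x') π hπ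
    (fun g s hs => hι (by rw [hx', hx', hl g s hs]))
  have h1 : ∀ g, ι (xbar (π g)) = x g := fun g => by rw [hxbar, hx']
  refine ⟨xbar, ?_, h1⟩
  rw [← h56_via_isCocycle₁_iff π hπ ι hι hιeq]
  have : (fun g : G => ι (xbar (π g))) = x := funext h1
  rw [this]; exact hx

include hπ hι hιeq hιfix in
/-- **deflation along `(π, ι)`, degree `2`**: a `2`-cocycle of `G` in `A` of level `ker π` is
`ι ∘ ybar ∘ (π × π)` for a `2`-cocycle `ybar` of `Q` in `B`. -/
theorem h56_via_exists_defl₂ (y : G × G → A) (hy : IsCocycle₂ y) (hl : h56_IsLevel₂ π.ker y) :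
    ∃ ybar : Q × Q → B, IsCocycle₂ ybar ∧ ∀ g h, ι (ybar (π g, π h)) = y (g, h) := by
  have hv : ∀ x : G × G, y x ∈ ι.range :=
    fun x => hιfix _ (h56_isCocycle₂_mem_Inv hy hl x.1 x.2)
  choose y' hy' using hv
  obtain ⟨ybar, hybar⟩ := h56_via_exists_factor₂ (y := y') π hπ
    (fun g g' s s' hs hs' => hι (by rw [hy', hy', hl g g' s s' hs hs']))
  have h1 : ∀ g h, ι (ybar (π g, π h)) = y (g, h) := fun g h => by rw [hybar, hy']
  refine ⟨ybar, ?_, h1⟩
  rw [← h56_via_isCocycle₂_iff π hπ ι hι hιeq]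
  have : (fun x : G × G => ι (ybar (π x.1, π x.2))) = y := funext fun x => h1 x.1 x.2
  rw [this]; exact hy

include hπ hι hιeq hιfix in
/-- **coboundaries along `(π, ι)`, degree `2`**: `ybar` is a coboundary iff its inflation is the
coboundary of a `1`-cochain of level `ker π`. -/
theorem h56_via_isCoboundary₂_iff (ybar : Q × Q → B) :
    IsCoboundary₂ ybar ↔ ∃ x : G → A, h56_IsLevel₁ π.ker x ∧
      ∀ g h : G, g • x h - x (g * h) + x g = ι (ybar (π g, π h)) := by
  constructor
  · rintro ⟨xbar, hxbar⟩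
    refine ⟨fun g => ι (xbar (π g)), h56_via_isLevel₁ π (fun a => ι (xbar a)), fun g h => ?_⟩
    show g • ι (xbar (π h)) - ι (xbar (π (g * h))) + ι (xbar (π g)) = _
    rw [← hxbar (π g) (π h), map_add, map_sub, hιeq, map_mul]
  · rintro ⟨x, hl, hd⟩
    have hv : ∀ g, x g ∈ ι.range := fun g => hιfix _
      (h56_mem_Inv_of_d_eq (U := π.ker) (h56_via_isLevel₂ π (fun a => ι (ybar a))) hl hd g)
    choose x' hx' using hv
    obtain ⟨xbar, hxbar⟩ := h56_via_exists_factor₁ (x := x') π hπ
      (fun g s hs => hι (by rw [hx', hx', hl g s hs]))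
    refine ⟨xbar, fun a b => ?_⟩
    obtain ⟨g, rfl⟩ := hπ a
    obtain ⟨h, rfl⟩ := hπ b
    apply hι
    rw [map_add, map_sub, hιeq, ← map_mul, hxbar, hxbar, hxbar, hx', hx', hx']
    exact hd g h

include hπ hι hιeq hιfix in
/-- **coboundaries along `(π, ι)`, degree `1`** (inflation is injective on `H¹`). -/
theorem h56_via_isCoboundary₁_iff (xbar : Q → B) :
    IsCoboundary₁ xbar ↔ IsCoboundary₁ (fun g : G => ι (xbar (π g))) := by
  constructor
  · rintro ⟨b, hb⟩
    refine ⟨ι b, fun g => ?_⟩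
    show g • ι b - ι b = ι (xbar (π g))
    rw [← hb (π g), map_sub, hιeq]
  · rintro ⟨a, ha⟩
    have haU : a ∈ ι.range := by
      apply hιfix
      intro s hs
      have h1 : s • a - a = ι (xbar (π s)) := ha s
      have h2 : (1 : G) • a - a = ι (xbar (π 1)) := ha 1
      rw [MonoidHom.mem_ker.1 hs, ← map_one π, ← h2, one_smul, sub_self, sub_eq_zero] at h1
      exact h1
    obtain ⟨b, rfl⟩ := haU
    refine ⟨b, fun q => ?_⟩
    obtain ⟨g, rfl⟩ := hπ q
    apply hι
    have h1 : g • ι b - ι b = ι (xbar (π g)) := ha g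
    rw [map_sub, hιeq]
    exact h1

include hπ hι hιeq in
/-- **coboundaries along `(π, ι)` when `ι` is onto** (i.e. `ker π` acts trivially on `A`),
with an intermediate quotient `π' : G → Q'`, `ρ : Q' → Q`: the shape of the conclusion of
`adt_D1`. -/
theorem h56_via_isCoboundary₂Via_iff (hιsurj : Function.Surjective ι)
    {Q' : Type*} [Group Q'] (π' : G →* Q') (hπ' : Function.Surjective π') (ρ : Q' →* Q)
    (hρ : ∀ g, ρ (π' g) = π g) (ybar : Q × Q → B) :
    IsCoboundary₂Via ρ (fun x : Q' × Q' => ybar (ρ x.1, ρ x.2)) ↔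
      ∃ x : G → A, h56_IsLevel₁ π'.ker x ∧
        ∀ g h : G, g • x h - x (g * h) + x g = ι (ybar (π g, π h)) := by
  constructor
  · rintro ⟨xbar, hxbar⟩
    refine ⟨fun g => ι (xbar (π' g)), h56_via_isLevel₁ π' (fun a => ι (xbar a)), fun g h => ?_⟩
    show g • ι (xbar (π' h)) - ι (xbar (π' (g * h))) + ι (xbar (π' g)) = _
    have h1 : ρ (π' g) • xbar (π' h) - xbar (π' g * π' h) + xbar (π' g) =
        ybar (ρ (π' g), ρ (π' h)) := hxbar (π' g) (π' h)
    rw [hρ, hρ] at h1
    rw [← h1, map_add, map_sub, hιeq, map_mul]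
  · rintro ⟨x, hl, hd⟩
    have hv : ∀ g, ∃ b, ι b = x g := fun g => hιsurj (x g)
    choose x' hx' using hv
    obtain ⟨xbar, hxbar⟩ := h56_via_exists_factor₁ (x := x') π' hπ'
      (fun g s hs => hι (by rw [hx', hx', hl g s hs]))
    refine ⟨xbar, fun a b => ?_⟩
    obtain ⟨g, rfl⟩ := hπ' a
    obtain ⟨h, rfl⟩ := hπ' b
    apply hι
    show ι (ρ (π' g) • xbar (π' h) - xbar (π' g * π' h) + xbar (π' g)) =
      ι (ybar (ρ (π' g), ρ (π' h)))
    rw [map_add, map_sub, hρ, hρ, hιeq, ← map_mul, hxbar, hxbar, hxbar, hx', hx', hx']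
    exact hd g h

end Via

end Fermat.Agent.S55
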