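import Fermat.Agent.S55.h97_Sha
import Fermat.Agent.S55.h56_FinLevel

/-!
# S55, bridge layer: the directed type of Galois `S`-levels

`h56_Level S` is the type of finite Galois extensions `L` of `ℚ` inside `ℚbar` which are
unramified outside `S` (prelude sense).  `L.U = L.fixingSubgroup` is a normal subgroup of finite
index of `G_ℚ`; the levels form a directed preorder; the prelude's `S`-level-constancy is
invariance under `L.U` for some level `L` (above any prescribed level).
-/

set_option autoImplicit false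
set_option linter.unusedSectionVars false
set_option linter.unusedVariables false

open groupCohomology Fermat.Agent.S13

namespace Fermat.Agent.S55

local notation "Qb" => AlgebraicClosure ℚ
local notation "GQ" => (AlgebraicClosure ℚ ≃ₐ[ℚ] AlgebraicClosure ℚ)

/-- The type of Galois `S`-levels: finite Galois extensions of `ℚ` inside `ℚbar` unramified
outside `S`. -/
def h56_Level (S : Finset Nat.Primes) : Type :=
  {L : IntermediateField ℚ Qb // L.IsUnramifiedOutside S ∧ IsGalois ℚ L}

namespace h56_Level

variable {S : Finset Nat.Primes}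

/-- The field of a level. -/
def field (L : h56_Level S) : IntermediateField ℚ Qb := L.1

/-- The open normal subgroup of `G_ℚ` attached to a level. -/
noncomputable def U (L : h56_Level S) : Subgroup GQ := L.1.fixingSubgroup

/-- Constructor. -/
def mk' (L : IntermediateField ℚ Qb) (h1 : L.IsUnramifiedOutside S) (h2 : IsGalois ℚ L) :
    h56_Level S := ⟨L, h1, h2⟩

theorem unram (L : h56_Level S) : L.field.IsUnramifiedOutside S := L.2.1

theorem isGalois (L : h56_Level S) : IsGalois ℚ L.field := L.2.2

theorem mem_U (L : h56_Level S) (s : GQ) : s ∈ L.U ↔ s ∈ L.field.fixingSubgroup := Iff.rfl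

instance instNormalU (L : h56_Level S) : (L.U).Normal := by
  have hgal : IsGalois ℚ Qb := h24_isGalois_Qbar
  exact (InfiniteGalois.normal_iff_isGalois L.1).2 L.2.2

instance instFiniteQuot (L : h56_Level S) : Finite (GQ ⧸ L.U) := by
  have hgal : IsGalois ℚ Qb := h24_isGalois_Qbar
  have := L.2.1.1
  exact Subgroup.quotient_finite_of_isOpen L.1.fixingSubgroup L.1.fixingSubgroup_isOpen

noncomputable instance instPreorder : Preorder (h56_Level S) := Preorder.lift (fun L => L.1)

theorem le_def {L L' : h56_Level S} : L ≤ L' ↔ L.field ≤ L'.field := Iff.rfl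

theorem U_anti {L L' : h56_Level S} (h : L ≤ L') : L'.U ≤ L.U :=
  IntermediateField.fixingSubgroup_antitone h

theorem isGalois_bot : IsGalois ℚ (⊥ : IntermediateField ℚ Qb) := by
  have hgal : IsGalois ℚ Qb := h24_isGalois_Qbar
  refine (InfiniteGalois.normal_iff_isGalois ⊥).1 ?_
  rw [IntermediateField.fixingSubgroup_bot]
  infer_instance

instance instNonempty : Nonempty (h56_Level S) :=
  ⟨⟨⊥, IntermediateField.isUnramifiedOutside_bot S, isGalois_bot⟩⟩

instance instIsDirected : IsDirected (h56_Level S) (· ≤ ·) :=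
  ⟨fun L L' => by
    obtain ⟨F, h1, h2, h3, h4⟩ := h56_exists_galois_level_ge S L.1 L'.1 L.2.1 L'.2.1
    exact ⟨⟨F, h3, h4⟩, h1, h2⟩⟩

/-- every field unramified outside `S` lies in a level above a given level. -/
theorem exists_ge (L₀ : h56_Level S) (F : IntermediateField ℚ Qb)
    (hF : F.IsUnramifiedOutside S) : ∃ L : h56_Level S, L₀ ≤ L ∧ F ≤ L.field := by
  obtain ⟨F', h1, h2, h3, h4⟩ := h56_exists_galois_level_ge S F L₀.1 hF L₀.2.1
  exact ⟨⟨F', h3, h4⟩, h2, h1⟩

end h56_Level

section LevelConstant

variable {S : Finset Nat.Primes}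

/-- the prelude's `S`-level-constancy in degree `1` is invariance under `L.U` for a level `L`
above a prescribed one. -/
theorem h56_isLevelConstantS₁_iff (L₀ : h56_Level S) {X : Type*} (x : GQ → X) :
    IsLevelConstantS₁ S x ↔ ∃ L : h56_Level S, L₀ ≤ L ∧ h56_IsLevel₁ L.U x := by
  constructor
  · rintro ⟨F, hF, h⟩
    obtain ⟨L, h1, h2⟩ := L₀.exists_ge F hF
    exact ⟨L, h1, fun g s hs => h g s (IntermediateField.fixingSubgroup_antitone h2 hs)⟩
  · rintro ⟨L, -, h⟩
    exact ⟨L.1, L.2.1, h⟩

/-- the prelude's `S`-level-constancy in degree `2` is invariance under `L.U` for a level `L`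
above a prescribed one. -/
theorem h56_isLevelConstantS₂_iff (L₀ : h56_Level S) {X : Type*} (y : GQ × GQ → X) :
    IsLevelConstantS₂ S y ↔ ∃ L : h56_Level S, L₀ ≤ L ∧ h56_IsLevel₂ L.U y := by
  constructor
  · rintro ⟨F, hF, h⟩
    obtain ⟨L, h1, h2⟩ := L₀.exists_ge F hF
    exact ⟨L, h1, fun g g' s s' hs hs' => h g g' s s'
      (IntermediateField.fixingSubgroup_antitone h2 hs)
      (IntermediateField.fixingSubgroup_antitone h2 hs')⟩
  · rintro ⟨L, -, h⟩
    exact ⟨L.1, L.2.1, h⟩

/-- a finite family of `S`-level-constant cochains has a common level. -/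
theorem h56_exists_common_level₁ (L₀ : h56_Level S) {ι : Type*} [Finite ι] {X : ι → Type*}
    (x : ∀ i, GQ → X i) (hx : ∀ i, IsLevelConstantS₁ S (x i)) :
    ∃ L : h56_Level S, L₀ ≤ L ∧ ∀ i, h56_IsLevel₁ L.U (x i) := by
  classical
  have := Fintype.ofFinite ι
  choose Li hLi1 hLi2 using fun i => (h56_isLevelConstantS₁_iff L₀ (x i)).1 (hx i)
  obtain ⟨L, hL⟩ := Finset.exists_le (Finset.univ.image Li ∪ {L₀})
  refine ⟨L, hL L₀ (by simp), fun i => ?_⟩
  have h1 : Li i ≤ L := hL (Li i) (by simp)
  exact (hLi2 i).mono (h56_Level.U_anti h1)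

end LevelConstant

end Fermat.Agent.S55
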