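import Fermat.Agent.S55.h72_AsmDefs
import Fermat.Agent.S55.h56_GalLevels
import Fermat.Agent.S55.h56_Colim
import Fermat.Agent.S55.h56_ColimCF

/-!
# S55, Tier 3 (GLOB-AMB), formal half: the LEVEL-WISE interface

`h12_LevFacts` is the complete list of what the arithmetic layers (GLOB + LOC) owe, stated
level by level, with no ambient (colimit) object in sight:

* index: `L : h56_Level S` (finite Galois `S`-levels inside `ℚbar`, directed by inclusion);
* `Γ L` : a group with `π L : G_ℚ →* Γ L` onto, kernel `L.U`  (model: `Gal(L/ℚ)`, restriction);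
* `K L L' : Subgroup (Γ L')` : the subgroup cut out by `L.U`  (model: `Gal(L'/L)`);
* `C L` : a `Γ L`-module with extension maps `ι L L' _ : C L →+ C L'`
  (model: `h2_PL p (Additive (h25_C ↥L S))`);
* `J q L` (`q ∈ S`) : `Γ L`-modules with extension maps `ιJ q L L' _` and `k q L : J q L →+ C L`
  (model: `Additive (h25_Jq ↥L q)`, unlocalised, or its `p`-localisation);
* `XX q` : a module for the local Galois group at `q`, `e q L : J q L →+ XX q`
  (model: `Additive (PadicAlgCl q)ˣ`, evaluation at the restriction of `padicEmbedding q`);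
* `zz q : XX q` (model: the image of one global primitive `p`-th root of unity).

`h12_exists_ambient_of_levels` (file `h12_AmbOfLevels.lean`) turns `h12_LevFacts` into
`h72_PTAmbient` for the colimits `CC = colim C`, `JJ q = colim (J q)`.
-/

set_option autoImplicit false

open CategoryTheory Module groupCohomology ExtCitation

namespace Fermat.Agent.S55

local notation "GQ" => (AlgebraicClosure ℚ ≃ₐ[ℚ] AlgebraicClosure ℚ)

/-- THE LEVEL-WISE INTERFACE: everything the arithmetic owes for `h72_PTAmbient`. -/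
structure h12_LevFacts (p : ℕ) [Fact p.Prime] (S : Finset Nat.Primes)
    (Γ : h56_Level S → Type) [∀ L, Group (Γ L)] (π : ∀ L, GQ →* Γ L)
    (K : h56_Level S → ∀ L' : h56_Level S, Subgroup (Γ L'))
    (C : h56_Level S → Type) [∀ L, AddCommGroup (C L)] [∀ L, DistribMulAction (Γ L) (C L)]
    (ι : ∀ L L' : h56_Level S, L ≤ L' → C L →+ C L')
    (J : ↥S → h56_Level S → Type) [∀ q L, AddCommGroup (J q L)]
    [∀ q L, DistribMulAction (Γ L) (J q L)]
    (ιJ : ∀ (q : ↥S) (L L' : h56_Level S), L ≤ L' → J q L →+ J q L')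
    (k : ∀ (q : ↥S) (L : h56_Level S), J q L →+ C L)
    (XX : ↥S → Type) [∀ q, AddCommGroup (XX q)]
    [∀ q : ↥S, DistribMulAction (primeLocalGaloisGroup q.1) (XX q)]
    (e : ∀ (q : ↥S) (L : h56_Level S), J q L →+ XX q) (zz : ∀ q, XX q) : Prop where
  -- the groups of the levels
  π_surj : ∀ L, Function.Surjective (π L)
  π_ker : ∀ L, (π L).ker = L.U
  /-- `K L L'` is the image of `L.U` in `Γ L'` (model: `Gal(L'/L)`). -/
  K_mem : ∀ (L L' : h56_Level S), L ≤ L' → ∀ g : GQ, π L' g ∈ K L L' ↔ g ∈ L.U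
  -- the class modules `C L` form an equivariant level system with descent
  ι_refl : ∀ (L : h56_Level S) (c : C L), ι L L le_rfl c = c
  ι_trans : ∀ (L L' L'' : h56_Level S) (h : L ≤ L') (h' : L' ≤ L'') (c : C L),
    ι L' L'' h' (ι L L' h c) = ι L L'' (h.trans h') c
  ι_smul : ∀ (L L' : h56_Level S) (h : L ≤ L') (g : GQ) (c : C L),
    ι L L' h (π L g • c) = π L' g • ι L L' h c
  ι_inj : ∀ (L L' : h56_Level S) (h : L ≤ L'), Function.Injective (ι L L' h)
  /-- [GLOB-DESC] -/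
  ι_desc : ∀ (L L' : h56_Level S) (h : L ≤ L') (c' : C L'),
    (∀ t ∈ K L L', t • c' = c') → c' ∈ (ι L L' h).range
  -- the semi-local modules `J q L`: the same
  ιJ_refl : ∀ (q : ↥S) (L : h56_Level S) (y : J q L), ιJ q L L le_rfl y = y
  ιJ_trans : ∀ (q : ↥S) (L L' L'' : h56_Level S) (h : L ≤ L') (h' : L' ≤ L'') (y : J q L),
    ιJ q L' L'' h' (ιJ q L L' h y) = ιJ q L L'' (h.trans h') y
  ιJ_smul : ∀ (q : ↥S) (L L' : h56_Level S) (h : L ≤ L') (g : GQ) (y : J q L),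
    ιJ q L L' h (π L g • y) = π L' g • ιJ q L L' h y
  ιJ_inj : ∀ (q : ↥S) (L L' : h56_Level S) (h : L ≤ L'), Function.Injective (ιJ q L L' h)
  ιJ_desc : ∀ (q : ↥S) (L L' : h56_Level S) (h : L ≤ L') (y' : J q L'),
    (∀ t ∈ K L L', t • y' = y') → y' ∈ (ιJ q L L' h).range
  -- `k q : J q → C` is an equivariant morphism of level systems
  k_ι : ∀ (q : ↥S) (L L' : h56_Level S) (h : L ≤ L') (y : J q L),
    k q L' (ιJ q L L' h y) = ι L L' h (k q L y)
  k_smul : ∀ (q : ↥S) (L : h56_Level S) (γ : Γ L) (y : J q L), k q L (γ • y) = γ • k q L y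
  -- evaluation `e q L : J q L → XX q`: compatible, locally equivariant, coinduced
  e_ι : ∀ (q : ↥S) (L L' : h56_Level S) (h : L ≤ L') (y : J q L),
    e q L' (ιJ q L L' h y) = e q L y
  e_smul : ∀ (q : ↥S) (L : h56_Level S) (τ : primeLocalGaloisGroup q.1) (y : J q L),
    e q L (π L (primeLocalToGlobal q.1 τ) • y) = τ • e q L y
  /-- `J q L` = the equivariant functions `G_ℚ → XX q` which are right `L.U`-invariant. -/
  e_bij : ∀ (q : ↥S) (L : h56_Level S) (φ : GQ → XX q),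
    (∀ (τ : primeLocalGaloisGroup q.1) (g : GQ), φ (primeLocalToGlobal q.1 τ * g) = τ • φ g) →
    (∀ g s, s ∈ L.U → φ (g * s) = φ g) →
    ∃! y : J q L, ∀ g : GQ, e q L (π L g • y) = φ g
  -- the arithmetic, level by level
  /-- [GLOB-CF] -/
  cf : ∀ L : h56_Level S, IsPClassModule p (Γ L) (C L)
  /-- [GLOB-EX] -/
  ex : ∀ L : h56_Level S, ∃ (L' : h56_Level S) (h : L ≤ L'), ∀ c' : C L', ∃ c : C L,
    ∑ᶠ t : K L L', (t : Γ L') • c' = ι L L' h (p • c)
  /-- finiteness of the `p`-torsion of `C L`. -/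
  fin : ∀ L : h56_Level S, Finite {c : C L // p • c = 0}
  /-- [GLOB-KUMSEQ (i), ⊇] -/
  kum_diag : ∀ (L : h56_Level S) (y : ∀ q, J q L),
    (∀ (q : ↥S) (g : GQ), e q L (π L g • y q) = (cycloChar p g : ZMod p).val • zz q) →
    ∑ q : ↥S, k q L (y q) = 0
  /-- [GLOB-KUMSEQ (i), ⊆] -/
  kum_ker : ∀ (L : h56_Level S) (y : ∀ q, J q L), (∀ q, p • y q = 0) →
    ∑ q : ↥S, k q L (y q) = 0 →
    ∃ n : ℕ, ∀ (q : ↥S) (g : GQ),
      e q L (π L g • y q) = (n * (cycloChar p g : ZMod p).val) • zz q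
  /-- [GLOB-KUMSEQ (iii)] capitulation at a higher level. -/
  kum_cap : ∀ (L : h56_Level S) (c : C L), p • c = 0 →
    ∃ (L' : h56_Level S) (h : L ≤ L') (y : ∀ q, J q L'),
      (∀ q, p • y q = 0) ∧ ∑ q : ↥S, k q L' (y q) = ι L L' h c
  /-- [GLOB-UNORM] -/
  unorm : ∀ L : h56_Level S, ∃ (L' : h56_Level S) (h : L ≤ L'), ∀ c' : C L', p • c' = 0 →
    ∃ y : ∀ q, J q L, (∀ q, p • y q = 0) ∧
      ∑ᶠ t : K L L', (t : Γ L') • c' = ι L L' h (∑ q : ↥S, k q L (y q))
  /-- [GLOB-BETA] -/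
  beta : ∀ (q : ↥S) (L : h56_Level S) (z : Γ L × Γ L → J q L), IsCocycle₂ z →
    IsCoboundary₂ (fun x => k q L (z x)) → ∃ m : ℕ, m.Coprime p ∧ IsCoboundary₂ (m • z)
  -- the local fields, verbatim from `h72_PTAmbient`
  xx_tors : ∀ (q : ↥S) (x : XX q), p • x = 0 → ∃ n : ℕ, x = n • zz q
  zz_tors : ∀ q : ↥S, p • zz q = 0
  zz_ne : ∀ q : ↥S, zz q ≠ 0
  zz_smul : ∀ (q : ↥S) (τ : primeLocalGaloisGroup q.1),
    τ • zz q = (cycloChar p (primeLocalToGlobal q.1 τ) : ZMod p).val • zz q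
  loc_dual : ∀ q : ↥S, h72_LocDual p q.1 (XX q)
  loc_inf : ∀ q : ↥S, h72_LocInf q.1 (XX q)

end Fermat.Agent.S55
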