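import Mathlib
import Fermat.Prelude.Def_GroupCohomology_ContinuousUnramified
import Fermat.Agent.S55.h56_Levels

/-!
# S55, GLOB layer: the ambient smooth `G`-modules (README design of helper72)

`G = Gal(Qbar/ℚ)`.  Everything lives in ONE ambient type; the level-`L` object is the
`U_L`-invariants (`U_L = L.fixingSubgroup`).

* `h25_Smooth f` : `f (g * s) = f g` for `s` in the fixing subgroup of some finite `F`.
* `h25_JJ q` : `r_q`-equivariant smooth functions `G → (PadicAlgCl q)ˣ`  (`= (Qbar ⊗ ℚ_q)ˣ`),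
  with `(σ • φ) g = φ (g * σ)`.
* `h25_DD q` : left-`r_q(G_q)`-invariant smooth functions `G → ℤ` (divisors above `q`).
* `h25_II S` : `(∏_{q ∈ S} JJ_q) × (∏_{q ∉ S} DD_q)` (additive), `h25_IIΩ S` : elements fixed by
  `U_L` for a level `L`, with finite support in the ideal part.
* `h25_prin S x` : the principal element of `x : Qbarˣ`; `h25_PP S` : the subgroup generated by
  the principal elements of the `x` lying in a level.
* `h25_CC p S` : `(II_S^Ω ⧸ Ωˣ) ⊗ ℤ_(p)` with its `G`-action.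
-/

set_option autoImplicit false

open scoped Pointwise

namespace Fermat.Agent.S55

noncomputable section

/-- `Fact` instance for the prime-indexed local components (scoped to this namespace). -/
scoped instance h25_fact (q : Nat.Primes) : Fact (q : ℕ).Prime := ⟨q.2⟩

local notation "Qb" => AlgebraicClosure ℚ
local notation "GQ" => (AlgebraicClosure ℚ ≃ₐ[ℚ] AlgebraicClosure ℚ)

local instance h25_isAlgebraicQbar : Algebra.IsAlgebraic ℚ (AlgebraicClosure ℚ) :=
  AlgebraicClosure.isAlgebraic ℚ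
local instance h25_isAlgClosureQbar : IsAlgClosure ℚ (AlgebraicClosure ℚ) :=
  ⟨inferInstance, inferInstance⟩
local instance h25_normalQbar : Normal ℚ (AlgebraicClosure ℚ) :=
  IsAlgClosure.normal ℚ (AlgebraicClosure ℚ)

/-- Smooth functions on `G`: right-invariant under the fixing subgroup of a finite extension. -/
def h25_Smooth {X : Type*} (f : GQ → X) : Prop :=
  ∃ F : IntermediateField ℚ Qb, FiniteDimensional ℚ F ∧
    ∀ g s : GQ, s ∈ F.fixingSubgroup → f (g * s) = f g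

theorem h25_Smooth.const {X : Type*} (x : X) : h25_Smooth (fun _ : GQ => x) :=
  ⟨⊥, inferInstance, fun _ _ _ => rfl⟩

theorem h25_Smooth.map₂ {X Y Z : Type*} {f : GQ → X} {f' : GQ → Y} (hf : h25_Smooth f)
    (hf' : h25_Smooth f') (m : X → Y → Z) : h25_Smooth (fun g => m (f g) (f' g)) := by
  obtain ⟨F, hF, h⟩ := hf
  obtain ⟨F', hF', h'⟩ := hf'
  refine ⟨F ⊔ F', IntermediateField.finiteDimensional_sup F F', fun g s hs => ?_⟩
  rw [IntermediateField.fixingSubgroup_sup] at hs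
  show m (f (g * s)) (f' (g * s)) = m (f g) (f' g)
  rw [h g s hs.1, h' g s hs.2]

theorem h25_Smooth.comp {X Y : Type*} {f : GQ → X} (hf : h25_Smooth f) (m : X → Y) :
    h25_Smooth (fun g => m (f g)) := by
  obtain ⟨F, hF, h⟩ := hf
  exact ⟨F, hF, fun g s hs => congrArg m (h g s hs)⟩

/-- Right translation preserves smoothness. -/
theorem h25_Smooth.rtrans {X : Type*} {f : GQ → X} (hf : h25_Smooth f) (σ : GQ) :
    h25_Smooth (fun g => f (g * σ)) := by
  obtain ⟨F, hF, h⟩ := hf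
  refine ⟨F.map (σ : GQ).toAlgHom, inferInstance, fun g s hs => ?_⟩
  have hs' : σ⁻¹ * s * σ ∈ F.fixingSubgroup := by
    rw [IntermediateField.mem_fixingSubgroup_iff] at hs ⊢
    intro x hx
    have h1 : s (σ x) = σ x := hs _ ⟨x, hx, rfl⟩
    show σ⁻¹ (s (σ x)) = x
    rw [h1]
    exact σ.symm_apply_apply x
  have h2 := h (g * σ) (σ⁻¹ * s * σ) hs'
  have h3 : g * σ * (σ⁻¹ * s * σ) = g * s * σ := by group
  rw [h3] at h2
  exact h2

/-! ### The local components `JJ q` and `DD q` -/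

section Local

variable (q : ℕ) [Fact q.Prime]

/-- `JJ_q`: the `r_q`-equivariant smooth functions `G → (PadicAlgCl q)ˣ`
(`= (Qbar ⊗ ℚ_q)ˣ`; the `U_F`-invariants are `(F ⊗ ℚ_q)ˣ`). -/
def h25_JJ : Subgroup (GQ → (PadicAlgCl q)ˣ) where
  carrier := {φ | (∀ (τ : PadicAlgCl q ≃ₐ[ℚ_[q]] PadicAlgCl q) (g : GQ),
      (φ (localGaloisToGlobal q τ * g) : PadicAlgCl q) = τ (φ g)) ∧ h25_Smooth φ}
  mul_mem' := by
    rintro a b ⟨ha, ha'⟩ ⟨hb, hb'⟩
    refine ⟨fun τ g => ?_, ha'.map₂ hb' (· * ·)⟩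
    simp [ha τ g, hb τ g]
  one_mem' := ⟨fun τ g => by simp, h25_Smooth.const 1⟩
  inv_mem' := by
    rintro a ⟨ha, ha'⟩
    refine ⟨fun τ g => ?_, ha'.comp (·⁻¹)⟩
    simp [ha τ g]

theorem h25_JJ_equivariant (φ : h25_JJ q) (τ : PadicAlgCl q ≃ₐ[ℚ_[q]] PadicAlgCl q) (g : GQ) :
    ((φ : GQ → (PadicAlgCl q)ˣ) (localGaloisToGlobal q τ * g) : PadicAlgCl q) =
      τ ((φ : GQ → (PadicAlgCl q)ˣ) g) := φ.2.1 τ g

theorem h25_JJ_smooth (φ : h25_JJ q) : h25_Smooth (φ : GQ → (PadicAlgCl q)ˣ) := φ.2.2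

/-- `G` acts on `JJ_q` by right translation: `(σ • φ) g = φ (g * σ)`. -/
instance h25_JJ_action : MulDistribMulAction GQ (h25_JJ q) where
  smul σ φ := ⟨fun g => (φ : GQ → (PadicAlgCl q)ˣ) (g * σ),
    fun τ g => by
      have h := φ.2.1 τ (g * σ)
      rw [← mul_assoc] at h
      exact h, φ.2.2.rtrans σ⟩
  one_smul φ := by ext g; show ((φ : GQ → (PadicAlgCl q)ˣ) (g * 1) : PadicAlgCl q) = _; rw [mul_one]
  mul_smul σ σ' φ := by
    ext g
    show ((φ : GQ → (PadicAlgCl q)ˣ) (g * (σ * σ')) : PadicAlgCl q) =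
      (φ : GQ → (PadicAlgCl q)ˣ) (g * σ * σ')
    rw [mul_assoc]
  smul_mul σ φ ψ := rfl
  smul_one σ := rfl

@[simp] theorem h25_JJ_smul_apply (σ : GQ) (φ : h25_JJ q) (g : GQ) :
    ((σ • φ : h25_JJ q) : GQ → (PadicAlgCl q)ˣ) g = (φ : GQ → (PadicAlgCl q)ˣ) (g * σ) := rfl

/-- The additive version of the `G`-action on `JJ_q`. -/
instance h25_JJ_addAction : DistribMulAction GQ (Additive (h25_JJ q)) where
  smul σ φ := Additive.ofMul (σ • φ.toMul)
  one_smul φ := congrArg Additive.ofMul (one_smul GQ φ.toMul)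
  mul_smul σ σ' φ := congrArg Additive.ofMul (mul_smul σ σ' φ.toMul)
  smul_zero σ := congrArg Additive.ofMul (smul_one σ)
  smul_add σ φ ψ := congrArg Additive.ofMul (smul_mul' σ φ.toMul ψ.toMul)

theorem h25_smul_ofMul (σ : GQ) (φ : h25_JJ q) :
    σ • Additive.ofMul φ = Additive.ofMul (σ • φ) := rfl

/-- `DD_q`: the left-`r_q(G_q)`-invariant smooth functions `G → ℤ`
(the `U_F`-invariants are the divisors of `F` supported above `q`). -/
def h25_DD : AddSubgroup (GQ → ℤ) where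
  carrier := {d | (∀ (τ : PadicAlgCl q ≃ₐ[ℚ_[q]] PadicAlgCl q) (g : GQ),
      d (localGaloisToGlobal q τ * g) = d g) ∧ h25_Smooth d}
  add_mem' := by
    rintro a b ⟨ha, ha'⟩ ⟨hb, hb'⟩
    refine ⟨fun τ g => ?_, ha'.map₂ hb' (· + ·)⟩
    simp [ha τ g, hb τ g]
  zero_mem' := ⟨fun τ g => rfl, h25_Smooth.const 0⟩
  neg_mem' := by
    rintro a ⟨ha, ha'⟩
    refine ⟨fun τ g => ?_, ha'.comp (fun x => -x)⟩
    simp [ha τ g]

theorem h25_DD_invariant (d : h25_DD q) (τ : PadicAlgCl q ≃ₐ[ℚ_[q]] PadicAlgCl q) (g : GQ) :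
    (d : GQ → ℤ) (localGaloisToGlobal q τ * g) = (d : GQ → ℤ) g := d.2.1 τ g

theorem h25_DD_smooth (d : h25_DD q) : h25_Smooth (d : GQ → ℤ) := d.2.2

/-- `G` acts on `DD_q` by right translation. -/
instance h25_DD_action : DistribMulAction GQ (h25_DD q) where
  smul σ d := ⟨fun g => (d : GQ → ℤ) (g * σ),
    fun τ g => by
      have h := d.2.1 τ (g * σ)
      rw [← mul_assoc] at h
      exact h, d.2.2.rtrans σ⟩
  one_smul d := by ext g; show (d : GQ → ℤ) (g * 1) = _; rw [mul_one]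
  mul_smul σ σ' d := by
    ext g
    show (d : GQ → ℤ) (g * (σ * σ')) = (d : GQ → ℤ) (g * σ * σ')
    rw [mul_assoc]
  smul_add σ d e := rfl
  smul_zero σ := rfl

@[simp] theorem h25_DD_smul_apply (σ : GQ) (d : h25_DD q) (g : GQ) :
    ((σ • d : h25_DD q) : GQ → ℤ) g = (d : GQ → ℤ) (g * σ) := rfl

/-- The normalised additive valuation on `(PadicAlgCl q)ˣ` with values in `ℤ`
(`= -log_q ‖y‖` rounded; exact on the value group `q^ℤ`). -/
def h25_ordq (y : (PadicAlgCl q)ˣ) : ℤ := -Int.log q ‖(y : PadicAlgCl q)‖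

/-- The local component of `x : Qbarˣ`: `g ↦ i_q (g x)`. -/
def h25_loc (x : Qbˣ) : h25_JJ q :=
  ⟨fun g => Units.map ((padicEmbedding q : Qb →ₐ[ℚ] PadicAlgCl q) : Qb →* PadicAlgCl q)
      (Units.map ((g : Qb ≃ₐ[ℚ] Qb) : Qb →* Qb) x),
    fun τ g => padicEmbedding_localGaloisToGlobal q τ (g (x : Qb)),
    ⟨IntermediateField.adjoin ℚ {(x : Qb)},
      IntermediateField.adjoin.finiteDimensional (Algebra.IsIntegral.isIntegral (x : Qb)),
      fun g s hs => by
        have hx : s (x : Qb) = x := by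
          rw [IntermediateField.mem_fixingSubgroup_iff] at hs
          exact hs _ (IntermediateField.mem_adjoin_simple_self ℚ _)
        ext
        show padicEmbedding q (g (s (x : Qb))) = padicEmbedding q (g (x : Qb))
        rw [hx]⟩⟩

@[simp] theorem h25_loc_apply (x : Qbˣ) (g : GQ) :
    (((h25_loc q x : h25_JJ q) : GQ → (PadicAlgCl q)ˣ) g : PadicAlgCl q) =
      padicEmbedding q (g (x : Qb)) := rfl

theorem h25_loc_mul (x y : Qbˣ) : h25_loc q (x * y) = h25_loc q x * h25_loc q y := by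
  ext g; simp

theorem h25_smul_loc (σ : GQ) (x : Qbˣ) :
    σ • h25_loc q x = h25_loc q (Units.map ((σ : Qb ≃ₐ[ℚ] Qb) : Qb →* Qb) x) := by
  ext g; rfl

/-- The divisor component of an element of `JJ_q`: `g ↦ ord_q (φ g)`
(a homomorphism on the elements with values in the value group `q^ℤ`). -/
def h25_ordJ (φ : h25_JJ q) : h25_DD q :=
  ⟨fun g => h25_ordq q ((φ : GQ → (PadicAlgCl q)ˣ) g),
    fun τ g => by
      show h25_ordq q _ = h25_ordq q _
      unfold h25_ordq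
      rw [φ.2.1 τ g]
      have h := nnnorm_padicAlgCl_algEquiv q τ (((φ : GQ → (PadicAlgCl q)ˣ) g : (PadicAlgCl q)ˣ) :
        PadicAlgCl q)
      rw [← coe_nnnorm, h, coe_nnnorm],
    φ.2.2.comp (h25_ordq q)⟩

@[simp] theorem h25_ordJ_apply (φ : h25_JJ q) (g : GQ) :
    ((h25_ordJ q φ : h25_DD q) : GQ → ℤ) g = h25_ordq q ((φ : GQ → (PadicAlgCl q)ˣ) g) := rfl

theorem h25_smul_ordJ (σ : GQ) (φ : h25_JJ q) : σ • h25_ordJ q φ = h25_ordJ q (σ • φ) := by
  ext g; rfl

end Local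

/-! ### The global modules -/

section Global

variable (S : Finset Nat.Primes)

/-- LEVEL: a finite Galois extension of `ℚ` inside `Qbar`, unramified outside `S`
(prelude sense). -/
def h25_IsLevel (L : IntermediateField ℚ Qb) : Prop :=
  L.IsUnramifiedOutside S ∧ IsGalois ℚ L

/-- `II_S = (∏_{q ∈ S} JJ_q) × (∏_{q ∉ S} DD_q)` (additive). -/
def h25_II : Type :=
  (∀ q : S, Additive (h25_JJ ((q : Nat.Primes) : ℕ))) ×
    (∀ q : {q : Nat.Primes // q ∉ S}, h25_DD ((q : Nat.Primes) : ℕ))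

instance h25_II_addCommGroup : AddCommGroup (h25_II S) :=
  inferInstanceAs (AddCommGroup ((∀ q : S, Additive (h25_JJ ((q : Nat.Primes) : ℕ))) ×
    (∀ q : {q : Nat.Primes // q ∉ S}, h25_DD ((q : Nat.Primes) : ℕ))))

instance h25_II_action : DistribMulAction GQ (h25_II S) where
  smul σ x := (fun q => σ • x.1 q, fun q => σ • x.2 q)
  one_smul x := Prod.ext (funext fun q => one_smul GQ (x.1 q)) (funext fun q => one_smul GQ (x.2 q))
  mul_smul σ σ' x := Prod.ext (funext fun q => mul_smul σ σ' (x.1 q))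
    (funext fun q => mul_smul σ σ' (x.2 q))
  smul_zero σ := Prod.ext (funext fun _ => smul_zero σ) (funext fun _ => smul_zero σ)
  smul_add σ x y := Prod.ext (funext fun q => smul_add σ (x.1 q) (y.1 q))
    (funext fun q => smul_add σ (x.2 q) (y.2 q))

theorem h25_II_smul_fst (σ : GQ) (x : h25_II S) (q : S) : (σ • x).1 q = σ • x.1 q := rfl

theorem h25_II_smul_snd (σ : GQ) (x : h25_II S) (q : {q : Nat.Primes // q ∉ S}) :
    (σ • x).2 q = σ • x.2 q := rfl

/-- The principal element of `x : Qbarˣ` (a homomorphism on the elements of levels). -/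
def h25_prin (x : Qbˣ) : h25_II S :=
  (fun q => Additive.ofMul (h25_loc ((q : Nat.Primes) : ℕ) x),
    fun q => h25_ordJ ((q : Nat.Primes) : ℕ) (h25_loc ((q : Nat.Primes) : ℕ) x))

theorem h25_smul_prin (σ : GQ) (x : Qbˣ) :
    σ • h25_prin S x = h25_prin S (Units.map ((σ : Qb ≃ₐ[ℚ] Qb) : Qb →* Qb) x) := by
  refine Prod.ext ?_ ?_
  · funext q
    show Additive.ofMul (σ • h25_loc ((q : Nat.Primes) : ℕ) x) = _
    rw [h25_smul_loc]; rfl
  · funext q
    show σ • h25_ordJ ((q : Nat.Primes) : ℕ) (h25_loc ((q : Nat.Primes) : ℕ) x) = _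
    rw [h25_smul_ordJ, h25_smul_loc]; rfl

/-- Any two levels lie in a common level. -/
theorem h25_IsLevel.exists_ge {L L' : IntermediateField ℚ Qb} (hL : h25_IsLevel S L)
    (hL' : h25_IsLevel S L') : ∃ L'' : IntermediateField ℚ Qb, L ≤ L'' ∧ L' ≤ L'' ∧
      h25_IsLevel S L'' := by
  obtain ⟨F, h1, h2, h3, h4⟩ := h56_exists_galois_level_ge S L L' hL.1 hL'.1
  exact ⟨F, h1, h2, h3, h4⟩

theorem h25_exists_isLevel : ∃ L : IntermediateField ℚ Qb, h25_IsLevel S L := by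
  obtain ⟨F, -, h2, h3⟩ := h56_exists_galois_level S ⊥ (IntermediateField.isUnramifiedOutside_bot S)
  exact ⟨F, h2, h3⟩

/-- `II_S^Ω`: the elements fixed by `U_L` for some level `L`, with finite support in the
ideal part. -/
def h25_IIΩ : AddSubgroup (h25_II S) where
  carrier := {x | (∃ L : IntermediateField ℚ Qb, h25_IsLevel S L ∧
      ∀ s : GQ, s ∈ L.fixingSubgroup → s • x = x) ∧
    {q : {q : Nat.Primes // q ∉ S} | x.2 q ≠ 0}.Finite}
  add_mem' := by
    rintro x y ⟨⟨L, hL, hx⟩, hxf⟩ ⟨⟨L', hL', hy⟩, hyf⟩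
    obtain ⟨L'', h1, h2, h3⟩ := hL.exists_ge S hL'
    refine ⟨⟨L'', h3, fun s hs => ?_⟩, ?_⟩
    · rw [smul_add, hx s (IntermediateField.fixingSubgroup_antitone h1 hs),
        hy s (IntermediateField.fixingSubgroup_antitone h2 hs)]
    · refine (hxf.union hyf).subset fun q hq => ?_
      by_contra hcon
      rw [Set.mem_union, not_or] at hcon
      have h1 : x.2 q = 0 := not_not.mp hcon.1
      have h2 : y.2 q = 0 := not_not.mp hcon.2
      exact hq (show x.2 q + y.2 q = 0 by rw [h1, h2, add_zero])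
  zero_mem' := by
    obtain ⟨L, hL⟩ := h25_exists_isLevel S
    refine ⟨⟨L, hL, fun s _ => smul_zero s⟩, ?_⟩
    refine Set.finite_empty.subset fun q hq => ?_
    exact hq rfl
  neg_mem' := by
    rintro x ⟨⟨L, hL, hx⟩, hxf⟩
    refine ⟨⟨L, hL, fun s hs => by rw [smul_neg, hx s hs]⟩, ?_⟩
    refine hxf.subset fun q hq hcon => hq ?_
    show -x.2 q = 0
    rw [hcon, neg_zero]

/-- The fixing subgroup of a level is stable under conjugation. -/
theorem h25_IsLevel.conj_mem {L : IntermediateField ℚ Qb} (hL : h25_IsLevel S L) (σ s : GQ)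
    (hs : s ∈ L.fixingSubgroup) : σ⁻¹ * s * σ ∈ L.fixingSubgroup := by
  have hn : Normal ℚ L := hL.2.to_normal
  have hle := IntermediateField.normal_iff_forall_map_le'.mp hn σ
  rw [IntermediateField.mem_fixingSubgroup_iff] at hs ⊢
  intro x hx
  have h1 : s (σ x) = σ x := hs _ (hle ⟨x, hx, rfl⟩)
  show σ⁻¹ (s (σ x)) = x
  rw [h1]
  exact σ.symm_apply_apply x

theorem h25_IsLevel.map_mem {L : IntermediateField ℚ Qb} (hL : h25_IsLevel S L) (σ : GQ)
    {x : Qb} (hx : x ∈ L) : σ x ∈ L := by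
  have hn : Normal ℚ L := hL.2.to_normal
  exact IntermediateField.normal_iff_forall_map_le'.mp hn σ ⟨x, hx, rfl⟩

theorem h25_IIΩ_smul_mem (σ : GQ) {x : h25_II S} (hx : x ∈ h25_IIΩ S) : σ • x ∈ h25_IIΩ S := by
  obtain ⟨⟨L, hL, hfix⟩, hfin⟩ := hx
  refine ⟨⟨L, hL, fun s hs => ?_⟩, ?_⟩
  · have h1 := hfix _ (hL.conj_mem S σ s hs)
    have h2 : s • σ • x = σ • ((σ⁻¹ * s * σ) • x) := by
      rw [← mul_smul, ← mul_smul]
      congr 1
      group
    rw [h2, h1]
  · refine hfin.subset fun q hq hcon => hq ?_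
    show σ • x.2 q = 0
    rw [hcon, smul_zero]

/-- `G` acts on `II_S^Ω`. -/
instance h25_IIΩ_action : DistribMulAction GQ (h25_IIΩ S) where
  smul σ x := ⟨σ • (x : h25_II S), h25_IIΩ_smul_mem S σ x.2⟩
  one_smul x := Subtype.ext (one_smul GQ (x : h25_II S))
  mul_smul σ σ' x := Subtype.ext (mul_smul σ σ' (x : h25_II S))
  smul_zero σ := Subtype.ext (smul_zero σ)
  smul_add σ x y := Subtype.ext (smul_add σ (x : h25_II S) (y : h25_II S))

@[simp] theorem h25_IIΩ_coe_smul (σ : GQ) (x : h25_IIΩ S) :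
    ((σ • x : h25_IIΩ S) : h25_II S) = σ • (x : h25_II S) := rfl

/-- `Ωˣ` as a set: the units of `Qbar` lying in some level. -/
def h25_Ω : Set Qbˣ := {x | ∃ L : IntermediateField ℚ Qb, h25_IsLevel S L ∧ (x : Qb) ∈ L}

/-- The subgroup of `II_S` generated by the principal elements of `Ωˣ`
(equal to their set: `h25_prin` is additive on `Ωˣ`, row GLOB-PRIN). -/
def h25_PP : AddSubgroup (h25_II S) := AddSubgroup.closure (h25_prin S '' h25_Ω S)

theorem h25_PP_smul_mem (σ : GQ) {x : h25_II S} (hx : x ∈ h25_PP S) : σ • x ∈ h25_PP S := by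
  induction hx using AddSubgroup.closure_induction with
  | mem y hy =>
    obtain ⟨x, ⟨L, hL, hxL⟩, rfl⟩ := hy
    rw [h25_smul_prin]
    exact AddSubgroup.subset_closure ⟨_, ⟨L, hL, hL.map_mem S σ hxL⟩, rfl⟩
  | zero => rw [smul_zero]; exact zero_mem _
  | add y z _ _ hy hz => rw [smul_add]; exact add_mem hy hz
  | neg y _ hy => rw [smul_neg]; exact neg_mem hy

/-- The principal elements inside `II_S^Ω`. -/
def h25_PPΩ : AddSubgroup (h25_IIΩ S) := (h25_PP S).addSubgroupOf (h25_IIΩ S)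

/-- `II_S^Ω ⧸ Ωˣ` (before localisation at `p`). -/
def h25_CC0 : Type := h25_IIΩ S ⧸ h25_PPΩ S

instance h25_CC0_addCommGroup : AddCommGroup (h25_CC0 S) :=
  inferInstanceAs (AddCommGroup (h25_IIΩ S ⧸ h25_PPΩ S))

/-- The projection `II_S^Ω → II_S^Ω ⧸ Ωˣ`. -/
def h25_mk0 : h25_IIΩ S →+ h25_CC0 S := QuotientAddGroup.mk' (h25_PPΩ S)

theorem h25_mk0_surjective : Function.Surjective (h25_mk0 S) :=
  QuotientAddGroup.mk'_surjective _

theorem h25_mk0_eq_zero_iff (x : h25_IIΩ S) : h25_mk0 S x = 0 ↔ (x : h25_II S) ∈ h25_PP S :=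
  QuotientAddGroup.eq_zero_iff x

/-- The action of `σ` on `II_S^Ω ⧸ Ωˣ`. -/
def h25_CC0_smulHom (σ : GQ) : h25_CC0 S →+ h25_CC0 S :=
  QuotientAddGroup.map (h25_PPΩ S) (h25_PPΩ S) (DistribSMul.toAddMonoidHom (h25_IIΩ S) σ)
    (fun _ hx => h25_PP_smul_mem S σ hx)

theorem h25_CC0_smulHom_mk0 (σ : GQ) (x : h25_IIΩ S) :
    h25_CC0_smulHom S σ (h25_mk0 S x) = h25_mk0 S (σ • x) := rfl

/-- `G` acts on `II_S^Ω ⧸ Ωˣ`. -/
instance h25_CC0_action : DistribMulAction GQ (h25_CC0 S) where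
  smul σ c := h25_CC0_smulHom S σ c
  one_smul c := by
    obtain ⟨x, rfl⟩ := h25_mk0_surjective S c
    show h25_CC0_smulHom S 1 (h25_mk0 S x) = _
    rw [h25_CC0_smulHom_mk0, one_smul]
  mul_smul σ σ' c := by
    obtain ⟨x, rfl⟩ := h25_mk0_surjective S c
    show h25_CC0_smulHom S (σ * σ') (h25_mk0 S x) =
      h25_CC0_smulHom S σ (h25_CC0_smulHom S σ' (h25_mk0 S x))
    rw [h25_CC0_smulHom_mk0, h25_CC0_smulHom_mk0, h25_CC0_smulHom_mk0, mul_smul]
  smul_zero σ := map_zero (h25_CC0_smulHom S σ)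
  smul_add σ c d := map_add (h25_CC0_smulHom S σ) c d

theorem h25_smul_mk0 (σ : GQ) (x : h25_IIΩ S) : σ • h25_mk0 S x = h25_mk0 S (σ • x) := rfl

/-! ### Localisation at `p` -/

variable (p : ℕ)

/-- The integers prime to `p`. -/
def h25_pc : Submonoid ℤ where
  carrier := {m | IsCoprime m (p : ℤ)}
  mul_mem' := fun ha hb => IsCoprime.mul_left ha hb
  one_mem' := isCoprime_one_left

theorem h25_mem_pc (m : ℤ) : m ∈ h25_pc p ↔ IsCoprime m (p : ℤ) := Iff.rfl

/-- `CC_S = (II_S^Ω ⧸ Ωˣ) ⊗ ℤ_(p)` (additive, `p`-local, with `G`-action). -/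
def h25_CC : Type := LocalizedModule (h25_pc p) (h25_CC0 S)

instance h25_CC_addCommGroup : AddCommGroup (h25_CC S p) :=
  inferInstanceAs (AddCommGroup (LocalizedModule (h25_pc p) (h25_CC0 S)))

/-- The localisation map `II_S^Ω ⧸ Ωˣ → CC_S`. -/
def h25_toCC : h25_CC0 S →+ h25_CC S p :=
  (LocalizedModule.mkLinearMap (h25_pc p) (h25_CC0 S)).toAddMonoidHom

/-- Fractions `c / m` in `CC_S` (`m` prime to `p`). -/
def h25_frac (c : h25_CC0 S) (m : h25_pc p) : h25_CC S p := LocalizedModule.mk c m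

theorem h25_frac_surjective (x : h25_CC S p) :
    ∃ (c : h25_CC0 S) (m : h25_pc p), x = h25_frac S p c m := by
  induction x using LocalizedModule.induction_on with
  | _ c m => exact ⟨c, m, rfl⟩

theorem h25_toCC_apply (c : h25_CC0 S) : h25_toCC S p c = h25_frac S p c 1 := rfl

theorem h25_frac_eq_iff (c c' : h25_CC0 S) (m m' : h25_pc p) :
    h25_frac S p c m = h25_frac S p c' m' ↔ ∃ u : h25_pc p, u • m' • c = u • m • c' :=
  LocalizedModule.mk_eq

theorem h25_frac_add (c c' : h25_CC0 S) (m m' : h25_pc p) :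
    h25_frac S p c m + h25_frac S p c' m' = h25_frac S p (m' • c + m • c') (m * m') :=
  LocalizedModule.mk_add_mk

theorem h25_CC0_smul_pc (σ : GQ) (u : h25_pc p) (c : h25_CC0 S) : σ • (u • c) = u • (σ • c) := by
  show h25_CC0_smulHom S σ ((u : ℤ) • c) = (u : ℤ) • h25_CC0_smulHom S σ c
  exact map_zsmul _ _ _

/-- The action of `σ` on `CC_S`, as a function. -/
def h25_CC_smulFun (σ : GQ) (x : h25_CC S p) : h25_CC S p :=
  LocalizedModule.liftOn x (fun cm => h25_frac S p (σ • cm.1) cm.2) (by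
    rintro ⟨c, m⟩ ⟨c', m'⟩ ⟨u, hu⟩
    refine (h25_frac_eq_iff S p _ _ _ _).mpr ⟨u, ?_⟩
    have h := congrArg (fun y => σ • y) hu
    simp only [h25_CC0_smul_pc] at h
    exact h)

theorem h25_CC_smulFun_frac (σ : GQ) (c : h25_CC0 S) (m : h25_pc p) :
    h25_CC_smulFun S p σ (h25_frac S p c m) = h25_frac S p (σ • c) m :=
  LocalizedModule.liftOn_mk _ _ _

/-- The action of `σ` on `CC_S`. -/
def h25_CC_smulHom (σ : GQ) : h25_CC S p →+ h25_CC S p where
  toFun := h25_CC_smulFun S p σ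
  map_zero' := by
    have h0 : (0 : h25_CC S p) = h25_frac S p 0 1 := (LocalizedModule.zero_mk 1).symm
    rw [h0, h25_CC_smulFun_frac, smul_zero]
  map_add' x y := by
    obtain ⟨c, m, rfl⟩ := h25_frac_surjective S p x
    obtain ⟨c', m', rfl⟩ := h25_frac_surjective S p y
    rw [h25_frac_add, h25_CC_smulFun_frac, h25_CC_smulFun_frac, h25_CC_smulFun_frac, h25_frac_add,
      smul_add, h25_CC0_smul_pc, h25_CC0_smul_pc]

theorem h25_CC_smulHom_frac (σ : GQ) (c : h25_CC0 S) (m : h25_pc p) :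
    h25_CC_smulHom S p σ (h25_frac S p c m) = h25_frac S p (σ • c) m :=
  h25_CC_smulFun_frac S p σ c m

/-- `G` acts on `CC_S`. -/
instance h25_CC_action : DistribMulAction GQ (h25_CC S p) where
  smul σ c := h25_CC_smulHom S p σ c
  one_smul x := by
    obtain ⟨c, m, rfl⟩ := h25_frac_surjective S p x
    show h25_CC_smulHom S p 1 (h25_frac S p c m) = _
    rw [h25_CC_smulHom_frac, one_smul]
  mul_smul σ σ' x := by
    obtain ⟨c, m, rfl⟩ := h25_frac_surjective S p x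
    show h25_CC_smulHom S p (σ * σ') (h25_frac S p c m) =
      h25_CC_smulHom S p σ (h25_CC_smulHom S p σ' (h25_frac S p c m))
    rw [h25_CC_smulHom_frac, h25_CC_smulHom_frac, h25_CC_smulHom_frac, mul_smul]
  smul_zero σ := map_zero (h25_CC_smulHom S p σ)
  smul_add σ c d := map_add (h25_CC_smulHom S p σ) c d

theorem h25_smul_frac (σ : GQ) (c : h25_CC0 S) (m : h25_pc p) :
    σ • h25_frac S p c m = h25_frac S p (σ • c) m := h25_CC_smulHom_frac S p σ c m

theorem h25_smul_toCC (σ : GQ) (c : h25_CC0 S) : σ • h25_toCC S p c = h25_toCC S p (σ • c) :=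
  h25_smul_frac S p σ c 1

end Global

end

end Fermat.Agent.S55
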