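import Mathlib
import Fermat.Agent.S55.h25_GlobAmbient

/-!
# S55, GLOB layer: the arithmetic carrier (number fields as types)

For a number field `K` (a type) and a finite set `S` of rational primes:

* `h25_Jq K q` : the `Gal(PadicAlgCl q/ℚ_q)`-equivariant functions on the embeddings
  `K →+* PadicAlgCl q` (a model of `(K ⊗ ℚ_q)ˣ`);  `h25_J K S = ∏_{q ∈ S} h25_Jq K q`;
* `h25_Div K S` : divisors of `K` prime to `S`;  `h25_X K S = J × Div`;
* `h25_diag : Kˣ →* h25_X K S`;  `h25_C K S = X ⧸ diag.range` (the `S`-class module `C_K`);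
* `h25_Cmap S f : h25_C K S →* h25_C K' S` for a field embedding `f : K →+* K'`
  (automorphisms give the Galois action); `h25_Dm`, `h25_Nm` : the operators `σ - 1` and
  `1 + σ + ... + σ^(n-1)` on `C_L`.

All number-theoretic rows of GLOB (inequalities, class field axiom, descent) are stated for this
carrier; the row GLOB-DICT identifies `(II_S^{U_F}) ⧸ Fˣ` of the ambient model with `h25_C F S`.
-/

set_option autoImplicit false

open IsDedekindDomain NumberField
open scoped nonZeroDivisors

namespace Fermat.Agent.S55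

noncomputable section

section Defs

variable (K : Type*) [Field K] [NumberField K]

/-- `Γ_q`-equivariant functions on the embeddings `K → PadicAlgCl q`:
a model of `(K ⊗ ℚ_q)ˣ = ∏_{w | q} K_wˣ` (route #941, D-6). -/
def h25_Jq (q : ℕ) [Fact q.Prime] : Subgroup ((K →+* PadicAlgCl q) → (PadicAlgCl q)ˣ) where
  carrier := {φ | ∀ (τ : PadicAlgCl q ≃ₐ[ℚ_[q]] PadicAlgCl q) (j : K →+* PadicAlgCl q),
      (φ ((τ : PadicAlgCl q →+* PadicAlgCl q).comp j) : PadicAlgCl q) = τ (φ j)}
  mul_mem' := by
    intro a b ha hb τ j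
    simp [ha τ j, hb τ j]
  one_mem' := by intro τ j; simp
  inv_mem' := by
    intro a ha τ j
    simp [ha τ j]

variable (S : Finset Nat.Primes)

/-- The `S`-part: `∏_{q ∈ S} (K ⊗ ℚ_q)ˣ`. -/
abbrev h25_J : Type _ := ∀ q : S, h25_Jq K ((q : Nat.Primes) : ℕ)

/-- A prime of `K` lies above `S`. -/
def h25_above (v : HeightOneSpectrum (𝓞 K)) : Prop :=
  ∃ q ∈ S, (((q : Nat.Primes) : ℕ) : 𝓞 K) ∈ v.asIdeal

/-- The primes of `K` not above `S`. -/
abbrev h25_Pl : Type _ := {v : HeightOneSpectrum (𝓞 K) // ¬ h25_above K S v}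

/-- Divisors prime to `S` (additive). -/
abbrev h25_Div : Type _ := h25_Pl K S →₀ ℤ

/-- The prime-to-`S` divisor of a fractional ideal (junk `0` for the zero ideal). -/
def h25_divIdeal (I : FractionalIdeal (𝓞 K)⁰ K) : h25_Div K S :=
  Finsupp.ofSupportFinite (fun v => FractionalIdeal.count K v.1 I)
    ((FractionalIdeal.finite_factors I).preimage Subtype.val_injective.injOn |>.subset
      (fun _ hv => hv))

@[simp] theorem h25_divIdeal_apply (I : FractionalIdeal (𝓞 K)⁰ K) (v : h25_Pl K S) :
    h25_divIdeal K S I v = FractionalIdeal.count K v.1 I := rfl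

theorem h25_divIdeal_one : h25_divIdeal K S 1 = 0 := by
  ext v; simp [FractionalIdeal.count_one]

theorem h25_divIdeal_mul {I I' : FractionalIdeal (𝓞 K)⁰ K} (hI : I ≠ 0) (hI' : I' ≠ 0) :
    h25_divIdeal K S (I * I') = h25_divIdeal K S I + h25_divIdeal K S I' := by
  ext v; simp [FractionalIdeal.count_mul K v.1 hI hI']

/-- The prime-to-`S` divisor of a nonzero element. -/
def h25_div (x : Kˣ) : h25_Div K S :=
  h25_divIdeal K S (FractionalIdeal.spanSingleton (𝓞 K)⁰ (x : K))

theorem h25_div_one : h25_div K S 1 = 0 := by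
  simp [h25_div, h25_divIdeal_one]

theorem h25_div_mul (x y : Kˣ) : h25_div K S (x * y) = h25_div K S x + h25_div K S y := by
  unfold h25_div
  rw [Units.val_mul, ← FractionalIdeal.spanSingleton_mul_spanSingleton, h25_divIdeal_mul]
  · exact FractionalIdeal.spanSingleton_ne_zero_iff.mpr x.ne_zero
  · exact FractionalIdeal.spanSingleton_ne_zero_iff.mpr y.ne_zero

/-- `J × Div`: the group whose quotient by principal elements is the `S`-class module. -/
abbrev h25_X : Type _ := h25_J K S × Multiplicative (h25_Div K S)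

/-- The diagonal embedding `Kˣ → X`. -/
def h25_diag : Kˣ →* h25_X K S where
  toFun x := (fun q => ⟨fun j => Units.map (j : K →* PadicAlgCl ((q : Nat.Primes) : ℕ)) x,
      fun τ j => rfl⟩, Multiplicative.ofAdd (h25_div K S x))
  map_one' := by
    refine Prod.ext ?_ ?_
    · funext q; ext j; simp
    · show Multiplicative.ofAdd (h25_div K S 1) = 1
      rw [h25_div_one]; rfl
  map_mul' x y := by
    refine Prod.ext ?_ ?_
    · funext q; ext j; simp
    · show Multiplicative.ofAdd (h25_div K S (x * y)) =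
        Multiplicative.ofAdd (h25_div K S x) * Multiplicative.ofAdd (h25_div K S y)
      rw [h25_div_mul]; rfl

/-- The `S`-class module `C_K = (J_K × I_K) / Kˣ` of route #941 (D-2), multiplicative. -/
def h25_C : Type _ := h25_X K S ⧸ (h25_diag K S).range

instance h25_C_commGroup : CommGroup (h25_C K S) :=
  inferInstanceAs (CommGroup (h25_X K S ⧸ (h25_diag K S).range))

/-- The projection `X_K → C_K`. -/
def h25_mk : h25_X K S →* h25_C K S := QuotientGroup.mk' (h25_diag K S).range

theorem h25_mk_surjective : Function.Surjective (h25_mk K S) :=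
  QuotientGroup.mk'_surjective _

theorem h25_mk_eq_one_iff (x : h25_X K S) :
    h25_mk K S x = 1 ↔ x ∈ (h25_diag K S).range :=
  QuotientGroup.eq_one_iff x

theorem h25_mk_diag (x : Kˣ) : h25_mk K S (h25_diag K S x) = 1 :=
  (h25_mk_eq_one_iff K S _).mpr ⟨x, rfl⟩

end Defs

section Functoriality

variable {K : Type*} [Field K] [NumberField K] {K' : Type*} [Field K'] [NumberField K']
variable (S : Finset Nat.Primes)

/-- Pull-back of the local components along a field embedding `f : K → K'`:
`φ ↦ (j' ↦ φ (j' ∘ f))`. -/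
def h25_Jmap (f : K →+* K') : h25_J K S →* h25_J K' S where
  toFun φ q := ⟨fun j' => (φ q).1 (j'.comp f), fun τ j' => by
    have h := (φ q).2 τ (j'.comp f)
    simpa [RingHom.comp_assoc] using h⟩
  map_one' := rfl
  map_mul' _ _ := rfl

/-- Extension of prime-to-`S` divisors along `f : K → K'` (`v ↦ div (v 𝓞_{K'})`). -/
def h25_Dmap (f : K →+* K') : h25_Div K S →+ h25_Div K' S :=
  Finsupp.liftAddHom (fun v : h25_Pl K S =>
    zmultiplesHom (h25_Div K' S)
      (h25_divIdeal K' S
        ((Ideal.map (RingOfIntegers.mapRingHom f) v.1.asIdeal : Ideal (𝓞 K')) :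
          FractionalIdeal (𝓞 K')⁰ K')))

/-- The induced map `X_K → X_{K'}`. -/
def h25_Xmap (f : K →+* K') : h25_X K S →* h25_X K' S :=
  (h25_Jmap S f).prodMap (AddMonoidHom.toMultiplicative (h25_Dmap S f))

open Classical in
/-- The induced map on class modules `C_K → C_{K'}`.  (Defined by cases so that the definition
carries no proof obligation; the row GLOB-FUNC proves the naturality of the diagonal, i.e. that
the first case always applies: `h25_Cmap_mk`.) -/
def h25_Cmap (f : K →+* K') : h25_C K S →* h25_C K' S :=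
  if h : (h25_diag K S).range ≤ ((h25_diag K' S).range).comap (h25_Xmap S f) then
    QuotientGroup.map (h25_diag K S).range (h25_diag K' S).range (h25_Xmap S f) h
  else 1

theorem h25_Cmap_mk_of (f : K →+* K')
    (h : ∀ x : Kˣ, h25_Xmap S f (h25_diag K S x) = h25_diag K' S (Units.map (f : K →* K') x))
    (x : h25_X K S) : h25_Cmap S f (h25_mk K S x) = h25_mk K' S (h25_Xmap S f x) := by
  have h' : (h25_diag K S).range ≤ ((h25_diag K' S).range).comap (h25_Xmap S f) := by
    rintro _ ⟨x, rfl⟩
    exact ⟨Units.map (f : K →* K') x, (h x).symm⟩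
  unfold h25_Cmap
  rw [dif_pos h']
  rfl

end Functoriality

section Galois

variable (K : Type*) [Field K] [NumberField K] (L : Type*) [Field L] [NumberField L] [Algebra K L]
variable (S : Finset Nat.Primes)

/-- `L/K` is unramified at all primes of `L` not above `S`. -/
def h25_UnramOutside : Prop :=
  ∀ w : h25_Pl L S, w.1.asIdeal.ramificationIdx (𝓞 K) = 1

variable {K L}

/-- `c ↦ σ c / c` on `C_L`. -/
def h25_Dm (σ : L ≃ₐ[K] L) : h25_C L S →* h25_C L S where
  toFun c := h25_Cmap S (σ : L →+* L) c / c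
  map_one' := by simp
  map_mul' a b := by
    rw [map_mul]
    exact mul_div_mul_comm _ _ _ _

/-- `c ↦ ∏_{i < n} σ^i c` on `C_L`. -/
def h25_Nm (σ : L ≃ₐ[K] L) (n : ℕ) : h25_C L S →* h25_C L S where
  toFun c := ∏ i ∈ Finset.range n, h25_Cmap S ((σ ^ i : L ≃ₐ[K] L) : L →+* L) c
  map_one' := by simp
  map_mul' a b := by simp [Finset.prod_mul_distrib]

end Galois

end

end Fermat.Agent.S55
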