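import Mathlib
import Fermat.Agent.S55.h72_AbsDefs

/-!
# S55 shared: the additive form of a multiplicative Galois module

* `h2_additiveDistribMulAction`: the ONE shared instance `DistribMulAction G (Additive M)` for a
  `MulDistribMulAction G M` (e.g. `G = Gal(L/K)` acting on `M = Lˣ`), so that the H layer
  (additive modules, `groupCohomology.IsCocycle₂`, `IsCocycle₂Via`, `IsPClassModule`) applies to
  `Additive Lˣ`.
* dictionary between Mathlib's multiplicative cocycle predicates and the additive ones;
* Hilbert 90 in the additive `Via` language for every subgroup of `Gal(L/K)`.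
-/

set_option autoImplicit false

open groupCohomology

namespace Fermat.Agent.S55

section Action

variable {G M : Type*} [Monoid G] [Monoid M] [MulDistribMulAction G M]

/-- The additive form of a `MulDistribMulAction`: `g • ofMul m = ofMul (g • m)`. -/
instance h2_additiveDistribMulAction : DistribMulAction G (Additive M) where
  smul g a := Additive.ofMul (g • Additive.toMul a)
  one_smul a := by
    change Additive.ofMul ((1 : G) • Additive.toMul a) = a
    rw [one_smul]; rfl
  mul_smul g h a := by
    change Additive.ofMul ((g * h) • Additive.toMul a) =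
      Additive.ofMul (g • Additive.toMul (Additive.ofMul (h • Additive.toMul a)))
    rw [mul_smul]; rfl
  smul_zero g := by
    change Additive.ofMul (g • (1 : M)) = 0
    rw [smul_one]; rfl
  smul_add g a b := by
    change Additive.ofMul (g • (Additive.toMul a * Additive.toMul b)) =
      Additive.ofMul (g • Additive.toMul a) + Additive.ofMul (g • Additive.toMul b)
    rw [smul_mul']; rfl

@[simp] theorem h2_toMul_smul (g : G) (a : Additive M) :
    Additive.toMul (g • a) = g • Additive.toMul a := rfl

@[simp] theorem h2_ofMul_smul (g : G) (m : M) :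
    g • Additive.ofMul m = Additive.ofMul (g • m) := rfl

end Action

section Dict

variable {G M : Type*} [Group G] [CommGroup M] [MulDistribMulAction G M]

theorem h2_isCocycle₁_ofMul_iff (f : G → M) :
    IsCocycle₁ (fun g => Additive.ofMul (f g)) ↔ IsMulCocycle₁ f := Iff.rfl

theorem h2_isCoboundary₁_ofMul_iff (f : G → M) :
    IsCoboundary₁ (fun g => Additive.ofMul (f g)) ↔ IsMulCoboundary₁ f := by
  constructor
  · rintro ⟨x, hx⟩
    exact ⟨Additive.toMul x, fun g => hx g⟩
  · rintro ⟨x, hx⟩
    exact ⟨Additive.ofMul x, fun g => hx g⟩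

theorem h2_isCocycle₂_ofMul_iff (f : G × G → M) :
    IsCocycle₂ (fun x => Additive.ofMul (f x)) ↔ IsMulCocycle₂ f := Iff.rfl

theorem h2_isCoboundary₂_ofMul_iff (f : G × G → M) :
    IsCoboundary₂ (fun x => Additive.ofMul (f x)) ↔ IsMulCoboundary₂ f := by
  constructor
  · rintro ⟨x, hx⟩
    exact ⟨fun g => Additive.toMul (x g), fun g h => hx g h⟩
  · rintro ⟨x, hx⟩
    exact ⟨fun g => Additive.ofMul (x g), fun g h => hx g h⟩

end Dict

section Hilbert90

variable {K L : Type*} [Field K] [Field L] [Algebra K L] [FiniteDimensional K L]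

/-- Hilbert 90, additive form: `H¹(Gal(L/K), Lˣ) = 0`. -/
theorem h2_hilbert90 (f : (L ≃ₐ[K] L) → Additive Lˣ) (hf : IsCocycle₁ f) : IsCoboundary₁ f := by
  have h := isMulCoboundary₁_of_isMulCocycle₁_of_aut_to_units (K := K) (L := L)
    (fun g => Additive.toMul (f g)) hf
  exact (h2_isCoboundary₁_ofMul_iff (fun g => Additive.toMul (f g))).2 h

/-- Hilbert 90 for every subgroup `H ≤ Gal(L/K)`, in the `Via` language of the H layer:
this is the field `h1` of `IsPClassModule` for the (unlocalised) module `Additive Lˣ`. -/
theorem h2_hilbert90_via (H : Subgroup (L ≃ₐ[K] L)) (f : H → Additive Lˣ)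
    (hf : IsCocycle₁Via H.subtype f) : IsCoboundary₁Via H.subtype f := by
  classical
  -- `H = Gal(L / L^H)`
  have hHF : (IntermediateField.fixedField H).fixingSubgroup = H :=
    IntermediateField.fixingSubgroup_fixedField H
  let e : (IntermediateField.fixedField H).fixingSubgroup ≃*
      (L ≃ₐ[IntermediateField.fixedField H] L) :=
    IntermediateField.fixingSubgroupEquiv (IntermediateField.fixedField H)
  have hmem : ∀ τ : L ≃ₐ[IntermediateField.fixedField H] L,
      ((e.symm τ : (IntermediateField.fixedField H).fixingSubgroup) : L ≃ₐ[K] L) ∈ H := by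
    intro τ
    exact hHF.le (e.symm τ).2
  -- transport the cocycle to `Gal(L/F)`
  let f' : (L ≃ₐ[IntermediateField.fixedField H] L) → Additive Lˣ :=
    fun τ => f ⟨_, hmem τ⟩
  have hsmul : ∀ (τ : L ≃ₐ[IntermediateField.fixedField H] L) (a : Additive Lˣ),
      τ • a = ((e.symm τ : (IntermediateField.fixedField H).fixingSubgroup) : L ≃ₐ[K] L) • a := by
    intro τ a
    apply Additive.toMul.injective
    apply Units.ext
    rfl
  have hf' : IsCocycle₁ f' := by
    intro τ τ'
    have h := hf ⟨_, hmem τ⟩ ⟨_, hmem τ'⟩
    have hmul : (⟨_, hmem τ⟩ : H) * ⟨_, hmem τ'⟩ = ⟨_, hmem (τ * τ')⟩ := by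
      apply Subtype.ext
      simp [map_mul]
    rw [hmul] at h
    simp only [f']
    rw [h, hsmul]
    rfl
  obtain ⟨x, hx⟩ := h2_hilbert90 f' hf'
  refine ⟨x, fun g => ?_⟩
  have hg : (g : L ≃ₐ[K] L) ∈ (IntermediateField.fixedField H).fixingSubgroup :=
    hHF.ge g.2
  have h := hx (e ⟨g, hg⟩)
  simp only [f'] at h
  rw [hsmul] at h
  simp only [MulEquiv.symm_apply_apply] at h
  exact h

end Hilbert90

end Fermat.Agent.S55
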