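import Mathlib
import Fermat.Agent.S55.h40_HDefs

/-!
# S55 shared (H-LOC carrier): `C ↦ C ⊗ ℤ_(p)` for abelian groups with a group action

`h2_PL p C` is the localisation of the abelian group `C` at the integers prime to `p`
(carrier: Mathlib's `LocalizedModule`; consumers should only use the API below).

* `h2_PL.j : C →+ h2_PL p C`, `h2_PL.map`, `h2_PL.lift` (into `p`-local groups);
* the induced `DistribMulAction`;
* `exists_smul_eq_j`, `j_eq_zero_iff`, `isPLocal`;
* consequences: invariants, `p`-torsion, the hypotheses `hιfix` / `hnorm` of `adt_D1` survive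
  localisation.
-/

set_option autoImplicit false

namespace Fermat.Agent.S55

/-- The integers prime to `p`. -/
abbrev h2_primeTo (p : ℕ) [Fact p.Prime] : Submonoid ℤ := (Ideal.span {(p : ℤ)}).primeCompl

theorem h2_mem_primeTo {p : ℕ} [Fact p.Prime] (m : ℤ) : m ∈ h2_primeTo p ↔ ¬ (p : ℤ) ∣ m := by
  rw [Ideal.mem_primeCompl_iff, Ideal.mem_span_singleton]

theorem h2_natCast_mem_primeTo {p : ℕ} [Fact p.Prime] (m : ℕ) :
    (m : ℤ) ∈ h2_primeTo p ↔ m.Coprime p := by
  rw [h2_mem_primeTo, Int.natCast_dvd_natCast, Nat.coprime_comm,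
    (Fact.out : p.Prime).coprime_iff_not_dvd]

theorem h2_natAbs_coprime {p : ℕ} [Fact p.Prime] (s : h2_primeTo p) :
    (s : ℤ).natAbs.Coprime p := by
  rw [← h2_natCast_mem_primeTo, h2_mem_primeTo, Int.natCast_dvd_natCast]
  have h := (h2_mem_primeTo (p := p) (s : ℤ)).1 s.2
  rwa [Int.natCast_dvd] at h

/-- `C ⊗ ℤ_(p)`: the localisation of the abelian group `C` at the integers prime to `p`. -/
def h2_PL (p : ℕ) [Fact p.Prime] (C : Type*) [AddCommGroup C] : Type _ :=
  LocalizedModule (h2_primeTo p) C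

namespace h2_PL

attribute [local instance 2000] OreLocalization.instModuleOfIsScalarTower

variable {p : ℕ} [Fact p.Prime] {C D E : Type*} [AddCommGroup C] [AddCommGroup D] [AddCommGroup E]

noncomputable instance : AddCommGroup (h2_PL p C) :=
  inferInstanceAs (AddCommGroup (LocalizedModule (h2_primeTo p) C))

/-- The canonical map `C → C ⊗ ℤ_(p)`. -/
noncomputable def j : C →+ h2_PL p C :=
  (LocalizedModule.mkLinearMap (h2_primeTo p) C).toAddMonoidHom

/-- Functoriality. -/
noncomputable def map (φ : C →+ D) : h2_PL p C →+ h2_PL p D :=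
  (IsLocalizedModule.map (h2_primeTo p) (LocalizedModule.mkLinearMap (h2_primeTo p) C)
    (LocalizedModule.mkLinearMap (h2_primeTo p) D) φ.toIntLinearMap).toAddMonoidHom

@[simp] theorem map_j (φ : C →+ D) (c : C) : map φ (j (p := p) c) = j (φ c) :=
  IsLocalizedModule.map_apply (h2_primeTo p) (LocalizedModule.mkLinearMap (h2_primeTo p) C)
    (LocalizedModule.mkLinearMap (h2_primeTo p) D) φ.toIntLinearMap c

theorem map_id : map (p := p) (AddMonoidHom.id C) = AddMonoidHom.id _ := by
  ext x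
  have h := IsLocalizedModule.map_id (h2_primeTo p) (LocalizedModule.mkLinearMap (h2_primeTo p) C)
  exact congrArg (fun f => f x) h

theorem map_comp (ψ : D →+ E) (φ : C →+ D) :
    map (p := p) (ψ.comp φ) = (map ψ).comp (map φ) := by
  ext x
  have h := IsLocalizedModule.map_comp' (h2_primeTo p)
    (LocalizedModule.mkLinearMap (h2_primeTo p) C) (LocalizedModule.mkLinearMap (h2_primeTo p) D)
    (LocalizedModule.mkLinearMap (h2_primeTo p) E) φ.toIntLinearMap ψ.toIntLinearMap
  exact congrArg (fun f => f x) h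

theorem map_injective (φ : C →+ D) (h : Function.Injective φ) :
    Function.Injective (map (p := p) φ) :=
  IsLocalizedModule.map_injective (h2_primeTo p) (LocalizedModule.mkLinearMap (h2_primeTo p) C)
    (LocalizedModule.mkLinearMap (h2_primeTo p) D) φ.toIntLinearMap h

section raw

variable (p C)

/-- raw form of `exists_smul_eq_j` -/
private theorem raw_exists (x : LocalizedModule (h2_primeTo p) C) :
    ∃ m : ℕ, m.Coprime p ∧ ∃ c : C, m • x = LocalizedModule.mkLinearMap (h2_primeTo p) C c := by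
  obtain ⟨⟨c, s⟩, hs⟩ := IsLocalizedModule.surj (h2_primeTo p)
    (LocalizedModule.mkLinearMap (h2_primeTo p) C) x
  have h := Int.cast_smul_eq_zsmul ℤ (s : ℤ) x
  rw [Int.cast_id] at h
  have hs' : (s : ℤ) • x = LocalizedModule.mkLinearMap (h2_primeTo p) C c := h.symm.trans hs
  refine ⟨(s : ℤ).natAbs, h2_natAbs_coprime s, ?_⟩
  rcases Int.natAbs_eq (s : ℤ) with h1 | h1
  · refine ⟨c, ?_⟩
    rw [← natCast_zsmul, ← h1]
    exact hs'
  · refine ⟨-c, ?_⟩
    rw [h1, neg_zsmul, natCast_zsmul] at hs'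
    rw [map_neg, ← hs', neg_neg]

/-- raw form of `j_eq_zero_iff` -/
private theorem raw_eq_zero_iff (c : C) :
    LocalizedModule.mkLinearMap (h2_primeTo p) C c = 0 ↔ ∃ m : ℕ, m.Coprime p ∧ m • c = 0 := by
  rw [IsLocalizedModule.eq_zero_iff (h2_primeTo p)]
  constructor
  · rintro ⟨s, hs⟩
    refine ⟨(s : ℤ).natAbs, h2_natAbs_coprime s, ?_⟩
    have hs' : (s : ℤ) • c = 0 := hs
    rcases Int.natAbs_eq (s : ℤ) with h1 | h1
    · rw [h1, natCast_zsmul] at hs'
      exact hs'
    · rw [h1, neg_smul, neg_eq_zero, natCast_zsmul] at hs'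
      exact hs'
  · rintro ⟨m, hm, hmc⟩
    refine ⟨⟨(m : ℤ), (h2_natCast_mem_primeTo m).2 hm⟩, ?_⟩
    change (m : ℤ) • c = 0
    rw [natCast_zsmul]
    exact hmc

/-- raw form of `isPLocal` -/
private theorem raw_bijective (m : ℕ) (hm : m.Coprime p) :
    Function.Bijective (fun x : LocalizedModule (h2_primeTo p) C => m • x) := by
  have hu := IsLocalizedModule.map_units (LocalizedModule.mkLinearMap (h2_primeTo p) C)
    (⟨(m : ℤ), (h2_natCast_mem_primeTo m).2 hm⟩ : h2_primeTo p)
  have hb := (Module.End.isUnit_iff _).1 hu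
  have heq : (fun x : LocalizedModule (h2_primeTo p) C => m • x) =
      ⇑((algebraMap ℤ (Module.End ℤ (LocalizedModule (h2_primeTo p) C))) (m : ℤ)) := by
    funext x
    rw [Module.algebraMap_end_apply, Nat.cast_smul_eq_nsmul ℤ]
  rw [heq]
  exact hb

end raw

/-- Every element is `m⁻¹ • j c` with `m` prime to `p`. -/
theorem exists_smul_eq_j (x : h2_PL p C) : ∃ m : ℕ, m.Coprime p ∧ ∃ c : C, m • x = j c :=
  raw_exists p C x

theorem j_eq_zero_iff (c : C) : j (p := p) c = 0 ↔ ∃ m : ℕ, m.Coprime p ∧ m • c = 0 :=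
  raw_eq_zero_iff p C c

/-- `C ⊗ ℤ_(p)` is `p`-local. -/
theorem isPLocal : h40_IsPLocal p (h2_PL p C) := fun m hm => raw_bijective p C m hm

theorem smul_injective (m : ℕ) (hm : m.Coprime p) :
    Function.Injective (fun x : h2_PL p C => m • x) := (isPLocal m hm).1

theorem smul_surjective (m : ℕ) (hm : m.Coprime p) :
    Function.Surjective (fun x : h2_PL p C => m • x) := (isPLocal m hm).2

/-- Additive maps out of `C ⊗ ℤ_(p)` into a group on which the integers prime to `p` act
injectively are determined by their values on `j`. -/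
theorem hom_ext_of_injective {f g : h2_PL p C →+ E}
    (hE : ∀ m : ℕ, m.Coprime p → Function.Injective (fun e : E => m • e))
    (h : ∀ c : C, f (j c) = g (j c)) : f = g := by
  ext x
  obtain ⟨m, hm, c, hc⟩ := exists_smul_eq_j x
  apply hE m hm
  change m • f x = m • g x
  rw [← map_nsmul, ← map_nsmul, hc, h]

/-! ### The group action -/

section Action

variable {G G' : Type*} [Monoid G] [Monoid G'] [DistribMulAction G C] [DistribMulAction G' D]

noncomputable instance : DistribMulAction G (h2_PL p C) where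
  smul g x := map (DistribSMul.toAddMonoidHom C g) x
  one_smul x := by
    change map (DistribSMul.toAddMonoidHom C (1 : G)) x = x
    have h : DistribSMul.toAddMonoidHom C (1 : G) = AddMonoidHom.id C := by
      ext c; simp
    rw [h, map_id]; rfl
  mul_smul g h x := by
    change map (DistribSMul.toAddMonoidHom C (g * h)) x =
      map (DistribSMul.toAddMonoidHom C g) (map (DistribSMul.toAddMonoidHom C h) x)
    have h' : DistribSMul.toAddMonoidHom C (g * h) =
        (DistribSMul.toAddMonoidHom C g).comp (DistribSMul.toAddMonoidHom C h) := by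
      ext c; simp [mul_smul]
    rw [h', map_comp]; rfl
  smul_zero g := map_zero _
  smul_add g x y := map_add _ x y

theorem smul_def (g : G) (x : h2_PL p C) :
    g • x = map (DistribSMul.toAddMonoidHom C g) x := rfl

@[simp] theorem j_smul (g : G) (c : C) : j (p := p) (g • c) = g • j c :=
  (map_j (DistribSMul.toAddMonoidHom C g) c).symm

/-- The `(π, ι)`-equivariance of `adt_D1` survives localisation. -/
theorem map_smul_of (π : G' →* G) (φ : C →+ D) (hφ : ∀ (g : G') (c : C), φ (π g • c) = g • φ c)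
    (g : G') (x : h2_PL p C) : map φ (π g • x) = g • map φ x := by
  rw [smul_def, smul_def, ← AddMonoidHom.comp_apply, ← map_comp,
    ← AddMonoidHom.comp_apply (map _) (map φ), ← map_comp]
  congr 2
  ext c
  exact hφ g c

end Action

section Lift

/-- Universal property: additive maps into a `p`-local group extend to `C ⊗ ℤ_(p)`. -/
theorem exists_lift (hE : h40_IsPLocal p E) (ψ : C →+ E) :
    ∃ Ψ : h2_PL p C →+ E, ∀ c : C, Ψ (j c) = ψ c := by
  classical
  -- define `Ψ x := (m •)⁻¹ (ψ c)` for `m • x = j c`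
  have key : ∀ x : h2_PL p C, ∃ e : E, ∀ (m : ℕ) (c : C), m.Coprime p → m • x = j c →
      m • e = ψ c := by
    intro x
    obtain ⟨m₀, hm₀, c₀, hc₀⟩ := exists_smul_eq_j x
    obtain ⟨e, he⟩ := (hE m₀ hm₀).2 (ψ c₀)
    refine ⟨e, fun m c hm hc => ?_⟩
    -- `j (m₀ • c - m • c₀) = 0`
    have h0 : j (p := p) (m₀ • c - m • c₀) = 0 := by
      rw [map_sub, map_nsmul, map_nsmul, ← hc, ← hc₀, ← mul_nsmul, ← mul_nsmul, mul_comm,
        sub_self]
    obtain ⟨n, hn, hn0⟩ := (j_eq_zero_iff _).1 h0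
    apply (hE (n * m₀) (Nat.Coprime.mul_left hn hm₀)).1
    change (n * m₀) • (m • e) = (n * m₀) • ψ c
    have he' : m₀ • e = ψ c₀ := he
    have h1 : (n * m₀) • (m • e) = n • (m • ψ c₀) := by
      rw [← he', smul_smul, smul_smul, smul_smul]
      congr 1; ring
    have h3 : n • (m₀ • c) = n • (m • c₀) := by
      rw [smul_sub] at hn0
      exact sub_eq_zero.1 hn0
    have h2 : (n * m₀) • ψ c = n • (m • ψ c₀) := by
      calc (n * m₀) • ψ c = ψ (n • (m₀ • c)) := by rw [mul_smul, map_nsmul, map_nsmul]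
        _ = ψ (n • (m • c₀)) := by rw [h3]
        _ = n • (m • ψ c₀) := by rw [map_nsmul, map_nsmul]
    rw [h1, h2]
  choose Ψ hΨ using key
  refine ⟨AddMonoidHom.mk' Ψ ?_, fun c => ?_⟩
  · intro x y
    obtain ⟨m, hm, c, hc⟩ := exists_smul_eq_j x
    obtain ⟨n, hn, d, hd⟩ := exists_smul_eq_j y
    have hx := hΨ x (m * n) (n • c) (Nat.Coprime.mul_left hm hn) (by
      rw [map_nsmul, ← hc, ← mul_nsmul])
    have hy := hΨ y (m * n) (m • d) (Nat.Coprime.mul_left hm hn) (by
      rw [map_nsmul, ← hd, ← mul_nsmul, mul_comm])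
    have hxy := hΨ (x + y) (m * n) (n • c + m • d) (Nat.Coprime.mul_left hm hn) (by
      rw [map_add, map_nsmul, map_nsmul, ← hc, ← hd, nsmul_add, ← mul_nsmul, ← mul_nsmul,
        mul_comm n m])
    apply (hE (m * n) (Nat.Coprime.mul_left hm hn)).1
    change (m * n) • Ψ (x + y) = (m * n) • (Ψ x + Ψ y)
    rw [smul_add, hx, hy, hxy, map_add]
  · have h := hΨ (j c) 1 c (Nat.coprime_one_left p) (one_nsmul _)
    rw [one_smul] at h
    exact h

end Lift

/-! ### Consequences: invariants, `p`-torsion, norms -/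

section Consequences

variable {G G' : Type*} [Group G] [Group G'] [DistribMulAction G C] [DistribMulAction G' D]

/-- Invariants commute with localisation (finite group): an element of `C ⊗ ℤ_(p)` fixed by a
finite subgroup `H` is `m⁻¹ • j c` with `c` fixed by `H`. -/
theorem exists_smul_eq_j_of_fixed (H : Subgroup G) [Finite H] (x : h2_PL p C)
    (hx : ∀ h ∈ H, h • x = x) :
    ∃ m : ℕ, m.Coprime p ∧ ∃ c : C, (∀ h ∈ H, h • c = c) ∧ m • x = j c := by
  classical
  have : Fintype H := Fintype.ofFinite H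
  obtain ⟨m₀, hm₀, c₀, hc₀⟩ := exists_smul_eq_j x
  have h0 : ∀ h : H, j (p := p) ((h : G) • c₀ - c₀) = 0 := by
    intro h
    rw [map_sub, j_smul, ← hc₀, smul_def, map_nsmul, ← smul_def, hx h h.2, sub_self]
  choose m hm hm0 using fun h : H => (j_eq_zero_iff _).1 (h0 h)
  refine ⟨(∏ h : H, m h) * m₀, Nat.Coprime.mul_left (Nat.Coprime.prod_left fun h _ => hm h) hm₀,
    (∏ h : H, m h) • c₀, fun h hh => ?_, ?_⟩
  · have hd : m ⟨h, hh⟩ ∣ ∏ h : H, m h := Finset.dvd_prod_of_mem m (Finset.mem_univ _)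
    obtain ⟨t, ht⟩ := hd
    have h1 : (∏ h : H, m h) • (h • c₀ - c₀) = 0 := by
      rw [ht, mul_comm, mul_smul]
      have h2 := hm0 ⟨h, hh⟩
      rw [h2, smul_zero]
    rw [smul_sub] at h1
    have h2 : h • ((∏ h : H, m h) • c₀) = (∏ h : H, m h) • (h • c₀) :=
      map_nsmul (DistribSMul.toAddMonoidHom C h) _ _
    rw [h2]
    exact sub_eq_zero.1 h1
  · rw [mul_nsmul', hc₀, map_nsmul]

/-- `p`-torsion is unchanged by localisation (surjectivity). -/
theorem exists_j_eq_of_torsion (x : h2_PL p C) (hx : p • x = 0) :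
    ∃ c : C, p • c = 0 ∧ j c = x := by
  have hp : p.Prime := Fact.out
  obtain ⟨m, hm, c₀, hc₀⟩ := exists_smul_eq_j x
  have h0 : j (p := p) (p • c₀) = 0 := by
    rw [map_nsmul, ← hc₀, ← mul_nsmul, mul_comm, mul_nsmul, hx, nsmul_zero]
  obtain ⟨m', hm', hm0⟩ := (j_eq_zero_iff _).1 h0
  have hn : (m' * m).Coprime p := Nat.Coprime.mul_left hm' hm
  obtain ⟨a, -, ha⟩ := Nat.exists_mul_mod_eq_one_of_coprime hn hp.one_lt
  have hdiv := Nat.div_add_mod (m' * m * a) p
  rw [ha] at hdiv
  refine ⟨a • (m' • c₀), ?_, ?_⟩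
  · have e : p • (a • (m' • c₀)) = a • (m' • (p • c₀)) := by
      simp only [smul_smul]
      congr 1; ring
    rw [e, hm0, smul_zero]
  · have e1 : j (p := p) (a • (m' • c₀)) = (m' * m * a) • x := by
      rw [map_nsmul, map_nsmul, ← hc₀, ← mul_nsmul, ← mul_nsmul]
      congr 1; ring
    rw [e1, ← hdiv, add_nsmul, one_nsmul, mul_nsmul, hx, nsmul_zero, zero_add]

/-- `p`-torsion is unchanged by localisation (injectivity). -/
theorem eq_zero_of_torsion_of_j_eq_zero (c : C) (hc : p • c = 0) (h : j (p := p) c = 0) :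
    c = 0 := by
  have hp : p.Prime := Fact.out
  obtain ⟨m, hm, hm0⟩ := (j_eq_zero_iff _).1 h
  obtain ⟨a, -, ha⟩ := Nat.exists_mul_mod_eq_one_of_coprime hm hp.one_lt
  have hdiv := Nat.div_add_mod (m * a) p
  rw [ha] at hdiv
  have h1 : (m * a) • c = 0 := by rw [mul_comm, mul_smul, hm0, smul_zero]
  rw [← hdiv, add_nsmul, one_nsmul, mul_nsmul, hc, nsmul_zero, zero_add] at h1
  exact h1

omit [DistribMulAction G C] in
/-- The hypothesis `hιfix` of `adt_D1` survives localisation: if the range of `ι` contains the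
`ker π`-invariants, so does the range of `map ι`. -/
theorem mem_range_map_of_fixed (π : G' →* G) [Finite π.ker] (ι : C →+ D)
    (hιfix : ∀ d : D, (∀ s ∈ π.ker, s • d = d) → d ∈ ι.range)
    (x : h2_PL p D) (hx : ∀ s ∈ π.ker, s • x = x) : x ∈ (map (p := p) ι).range := by
  obtain ⟨m, hm, d, hd, hmx⟩ := exists_smul_eq_j_of_fixed π.ker x hx
  obtain ⟨c, rfl⟩ := hιfix d hd
  obtain ⟨z, hz⟩ := smul_surjective (C := C) m hm (j c)
  refine ⟨z, ?_⟩
  apply smul_injective m hm
  change m • map ι z = m • x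
  rw [← map_nsmul, show m • z = j c from hz, map_j, hmx]

omit [DistribMulAction G C] in
/-- The hypothesis `hnorm` of `adt_D1` survives localisation. -/
theorem exists_norm_eq_map (π : G' →* G) [Finite π.ker] (ι : C →+ D) (n : ℕ)
    (hN : ∀ d : D, ∃ c : C, ∑ᶠ s : π.ker, (s : G') • d = ι (n • c))
    (x : h2_PL p D) : ∃ z : h2_PL p C, ∑ᶠ s : π.ker, (s : G') • x = map ι (n • z) := by
  classical
  have : Fintype π.ker := Fintype.ofFinite _
  obtain ⟨m, hm, d, hd⟩ := exists_smul_eq_j x
  obtain ⟨c, hc⟩ := hN d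
  obtain ⟨z, hz⟩ := smul_surjective (C := C) m hm (j c)
  have hz' : m • z = j c := hz
  refine ⟨z, ?_⟩
  apply smul_injective m hm
  change m • ∑ᶠ s : π.ker, (s : G') • x = m • map ι (n • z)
  rw [finsum_eq_sum_of_fintype] at hc ⊢
  have h1 : m • ∑ s : π.ker, (s : G') • x = ∑ s : π.ker, j (p := p) ((s : G') • d) := by
    rw [← Finset.sum_nsmul]
    refine Finset.sum_congr rfl fun s _ => ?_
    rw [j_smul, ← hd, smul_def, smul_def, map_nsmul]
  rw [h1, ← map_sum, hc, ← map_j, map_nsmul, ← hz', ← map_nsmul, ← mul_nsmul, ← mul_nsmul,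
    mul_comm]

end Consequences

end h2_PL

end Fermat.Agent.S55
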