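import Mathlib
import Fermat.Agent.S55.h25_GlobDefs

/-!
# S55, GLOB: the Galois action on the semi-local module `h25_Jq L q`

`Gal(L/K)` acts on `J_q(L) = h25_Jq L q` by `(σ • φ) j = φ (j ∘ σ)`; this is the `q`-component
of the action on `h25_X L S` (helper28's `h28_XAct`, i.e. `h25_Xmap S σ`).
-/

set_option autoImplicit false

namespace Fermat.Agent.S55

noncomputable section

section Act

variable {K : Type*} [Field K] {L : Type*} [Field L] [Algebra K L] (q : ℕ) [Fact q.Prime]

/-- `Gal(L/K)` acts on `J_q(L)` by `(σ • φ) j = φ (j ∘ σ)`. -/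
instance h4_JqAct : MulDistribMulAction (L ≃ₐ[K] L) (h25_Jq L q) where
  smul σ φ := ⟨fun j => φ.1 (j.comp (σ : L →+* L)), fun τ j => by
    have h := φ.2 τ (j.comp (σ : L →+* L))
    rw [← RingHom.comp_assoc] at h
    exact h⟩
  one_smul φ := Subtype.ext (funext fun j => rfl)
  mul_smul σ τ φ := Subtype.ext (funext fun j => rfl)
  smul_mul σ φ ψ := rfl
  smul_one σ := rfl

theorem h4_JqAct_apply (σ : L ≃ₐ[K] L) (φ : h25_Jq L q) (j : L →+* PadicAlgCl q) :
    (σ • φ).1 j = φ.1 (j.comp (σ : L →+* L)) := rfl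

end Act

end

end Fermat.Agent.S55
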