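import Fermat.Agent.S55.h72_AsmDefs
import Fermat.Agent.S55.h2_AddUnits

/-!
# S55 / LOC-AMB (helper63): the local module `XX q` of the ambient interface `h72_PTAmbient`

* `h63_zeta p` : a chosen primitive `p`-th root of unity of `ℚbar` (the ONE global root used
  for the diagonal of the Kummer sequence);
* `h63_XX q = Additive (PadicAlgCl q)ˣ` with the action of `primeLocalGaloisGroup q`;
* `h63_zz p q` : the image of `h63_zeta p` under `padicEmbedding q`;
* the four elementary fields `xx_tors`, `zz_tors`, `zz_ne`, `zz_smul` of `h72_PTAmbient`.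
-/

set_option autoImplicit false

open ExtCitation

namespace Fermat.Agent.S55

local notation "Qb" => AlgebraicClosure ℚ
local notation "GQ" => (AlgebraicClosure ℚ ≃ₐ[ℚ] AlgebraicClosure ℚ)

section zeta

variable (p : ℕ) [Fact p.Prime]

theorem h63_exists_zeta : ∃ ζ : Qb, IsPrimitiveRoot ζ p := by
  have : NeZero p := ⟨(Fact.out : p.Prime).ne_zero⟩
  exact HasEnoughRootsOfUnity.exists_primitiveRoot Qb p

/-- a chosen primitive `p`-th root of unity of `ℚbar`. -/
noncomputable def h63_zeta : Qb := (h63_exists_zeta p).choose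

theorem h63_zeta_spec : IsPrimitiveRoot (h63_zeta p) p := (h63_exists_zeta p).choose_spec

/-- the Galois group acts on `h63_zeta p` through the mod `p` cyclotomic character. -/
theorem h63_zeta_map (g : GQ) :
    g (h63_zeta p) = h63_zeta p ^ (cycloChar p g : ZMod p).val := by
  have : NeZero p := ⟨(Fact.out : p.Prime).ne_zero⟩
  have hζ := h63_zeta_spec p
  have hu : IsUnit (h63_zeta p) := hζ.isUnit (Fact.out : p.Prime).ne_zero
  obtain ⟨u, hu⟩ := hu
  have hmem : u ∈ rootsOfUnity p Qb := by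
    rw [mem_rootsOfUnity]
    apply Units.ext
    rw [Units.val_pow_eq_pow_val, hu, hζ.pow_eq_one, Units.val_one]
  have h := modularCyclotomicCharacter.spec Qb (card_rootsOfUnity_eq_self p)
    (g : Qb ≃+* Qb) hmem
  rw [hu] at h
  exact h

end zeta

/-- the local module at `q`: the multiplicative group of `PadicAlgCl q`, written additively. -/
def h63_XX (q : Nat.Primes) : Type :=
  letI : Fact (q : ℕ).Prime := ⟨q.2⟩
  Additive (PadicAlgCl (q : ℕ))ˣ

noncomputable instance h63_XX.instAddCommGroup (q : Nat.Primes) : AddCommGroup (h63_XX q) :=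
  letI : Fact (q : ℕ).Prime := ⟨q.2⟩
  inferInstanceAs (AddCommGroup (Additive (PadicAlgCl (q : ℕ))ˣ))

noncomputable instance h63_XX.instDistribMulAction (q : Nat.Primes) :
    DistribMulAction (primeLocalGaloisGroup q) (h63_XX q) :=
  letI : Fact (q : ℕ).Prime := ⟨q.2⟩
  inferInstanceAs (DistribMulAction (PadicAlgCl (q : ℕ) ≃ₐ[ℚ_[(q : ℕ)]] PadicAlgCl (q : ℕ))
    (Additive (PadicAlgCl (q : ℕ))ˣ))

theorem h63_fact (q : Nat.Primes) : Fact (q : ℕ).Prime := ⟨q.2⟩

attribute [local instance] h63_fact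

/-- a unit of `PadicAlgCl q` as an element of `h63_XX q`. -/
def h63_XX.ofUnit {q : Nat.Primes} (u : (PadicAlgCl (q : ℕ))ˣ) : h63_XX q := Additive.ofMul u

/-- an element of `h63_XX q` as a unit of `PadicAlgCl q`. -/
def h63_XX.toUnit {q : Nat.Primes} (x : h63_XX q) : (PadicAlgCl (q : ℕ))ˣ := Additive.toMul x

@[simp] theorem h63_XX.ofUnit_toUnit {q : Nat.Primes} (x : h63_XX q) :
    h63_XX.ofUnit (h63_XX.toUnit x) = x := rfl

@[simp] theorem h63_XX.toUnit_ofUnit {q : Nat.Primes} (u : (PadicAlgCl (q : ℕ))ˣ) :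
    h63_XX.toUnit (h63_XX.ofUnit u) = u := rfl

theorem h63_XX.toUnit_injective {q : Nat.Primes} :
    Function.Injective (h63_XX.toUnit (q := q)) := fun _ _ h => h

theorem h63_XX.toUnit_add {q : Nat.Primes} (x y : h63_XX q) :
    h63_XX.toUnit (x + y) = h63_XX.toUnit x * h63_XX.toUnit y := rfl

theorem h63_XX.toUnit_zero {q : Nat.Primes} : h63_XX.toUnit (0 : h63_XX q) = 1 := rfl

theorem h63_XX.toUnit_neg {q : Nat.Primes} (x : h63_XX q) :
    h63_XX.toUnit (-x) = (h63_XX.toUnit x)⁻¹ := rfl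

theorem h63_XX.toUnit_sub {q : Nat.Primes} (x y : h63_XX q) :
    h63_XX.toUnit (x - y) = h63_XX.toUnit x / h63_XX.toUnit y := rfl

theorem h63_XX.toUnit_nsmul {q : Nat.Primes} (n : ℕ) (x : h63_XX q) :
    h63_XX.toUnit (n • x) = h63_XX.toUnit x ^ n := rfl

/-- the local Galois group acts on `h63_XX q` through its action on `PadicAlgCl q`. -/
theorem h63_XX.toUnit_smul {q : Nat.Primes} (τ : primeLocalGaloisGroup q) (x : h63_XX q) :
    ((h63_XX.toUnit (τ • x) : (PadicAlgCl (q : ℕ))ˣ) : PadicAlgCl (q : ℕ)) =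
      (show PadicAlgCl (q : ℕ) ≃ₐ[ℚ_[(q : ℕ)]] PadicAlgCl (q : ℕ) from τ)
        ((h63_XX.toUnit x : (PadicAlgCl (q : ℕ))ˣ) : PadicAlgCl (q : ℕ)) := rfl

section zz

variable (p : ℕ) [Fact p.Prime] (q : Nat.Primes)

theorem h63_padicEmbedding_zeta_isPrimitiveRoot :
    IsPrimitiveRoot (padicEmbedding (q : ℕ) (h63_zeta p)) p :=
  (h63_zeta_spec p).map_of_injective (padicEmbedding (q : ℕ)).injective

/-- the image of `h63_zeta p` in `PadicAlgCl q`, as a unit. -/
noncomputable def h63_zetaUnit : (PadicAlgCl (q : ℕ))ˣ :=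
  Units.mk0 (padicEmbedding (q : ℕ) (h63_zeta p))
    ((h63_padicEmbedding_zeta_isPrimitiveRoot p q).ne_zero (Fact.out : p.Prime).ne_zero)

theorem h63_zetaUnit_coe :
    ((h63_zetaUnit p q : (PadicAlgCl (q : ℕ))ˣ) : PadicAlgCl (q : ℕ))
      = padicEmbedding (q : ℕ) (h63_zeta p) := rfl

theorem h63_zetaUnit_isPrimitiveRoot : IsPrimitiveRoot (h63_zetaUnit p q) p := by
  have h := h63_padicEmbedding_zeta_isPrimitiveRoot p q
  rw [← h63_zetaUnit_coe] at h
  exact IsPrimitiveRoot.of_map_of_injective (f := Units.coeHom (PadicAlgCl (q : ℕ)))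
    (hf := Units.val_injective) h

/-- `zz q`: the local image of the chosen global primitive `p`-th root of unity. -/
noncomputable def h63_zz : h63_XX q := h63_XX.ofUnit (h63_zetaUnit p q)

theorem h63_toUnit_zz : h63_XX.toUnit (h63_zz p q) = h63_zetaUnit p q := rfl

/-- field `zz_tors`. -/
theorem h63_zz_tors : p • h63_zz p q = 0 := by
  apply h63_XX.toUnit_injective
  rw [h63_XX.toUnit_nsmul, h63_toUnit_zz, h63_XX.toUnit_zero]
  exact (h63_zetaUnit_isPrimitiveRoot p q).pow_eq_one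

/-- field `zz_ne`. -/
theorem h63_zz_ne : h63_zz p q ≠ 0 := by
  intro h
  have h1 : h63_XX.toUnit (h63_zz p q) = 1 := by rw [h, h63_XX.toUnit_zero]
  rw [h63_toUnit_zz] at h1
  exact (h63_zetaUnit_isPrimitiveRoot p q).ne_one (Fact.out : p.Prime).one_lt h1

/-- field `xx_tors`: the `p`-torsion of `h63_XX q` is generated by `h63_zz p q`. -/
theorem h63_xx_tors (x : h63_XX q) (hx : p • x = 0) : ∃ k : ℕ, x = k • h63_zz p q := by
  have : NeZero p := ⟨(Fact.out : p.Prime).ne_zero⟩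
  have h1 : h63_XX.toUnit x ^ p = 1 := by
    rw [← h63_XX.toUnit_nsmul, hx, h63_XX.toUnit_zero]
  have h2 : ((h63_XX.toUnit x : (PadicAlgCl (q : ℕ))ˣ) : PadicAlgCl (q : ℕ)) ^ p = 1 := by
    rw [← Units.val_pow_eq_pow_val, h1, Units.val_one]
  obtain ⟨i, -, hi⟩ := (h63_padicEmbedding_zeta_isPrimitiveRoot p q).eq_pow_of_pow_eq_one h2
  refine ⟨i, ?_⟩
  apply h63_XX.toUnit_injective
  rw [h63_XX.toUnit_nsmul, h63_toUnit_zz]
  apply Units.ext
  rw [Units.val_pow_eq_pow_val, h63_zetaUnit_coe, hi]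

/-- field `zz_smul`: the local group acts on `zz q` through the cyclotomic character. -/
theorem h63_zz_smul (τ : primeLocalGaloisGroup q) :
    τ • h63_zz p q = (cycloChar p (primeLocalToGlobal q τ) : ZMod p).val • h63_zz p q := by
  apply h63_XX.toUnit_injective
  apply Units.ext
  rw [h63_XX.toUnit_smul, h63_XX.toUnit_nsmul, h63_toUnit_zz, Units.val_pow_eq_pow_val,
    h63_zetaUnit_coe]
  have h := padicEmbedding_localGaloisToGlobal (q : ℕ)
    (show PadicAlgCl (q : ℕ) ≃ₐ[ℚ_[(q : ℕ)]] PadicAlgCl (q : ℕ) from τ) (h63_zeta p)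
  rw [← h]
  have h2 := h63_zeta_map p (primeLocalToGlobal q τ)
  rw [← map_pow, ← h2]
  rfl

end zz

end Fermat.Agent.S55
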