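import Fermat.Agent.S55.h66_GlobFunc

/-!
# S55 / GLOB-FUNC, part 2 (helper66): functoriality of `h25_Xmap` and `h25_Cmap`

* `h66_Xmap_comp`, `h66_Xmap_id`, `h66_Cmap_comp`, `h66_Cmap_id`;
* the Galois action: `h66_Cmap_algEquiv_mul`, `h66_Cmap_algEquiv_one`,
  `h66_Cmap_algEquiv_algebraMap` (elements coming from the base field are fixed).
-/

set_option autoImplicit false

open IsDedekindDomain NumberField
open scoped nonZeroDivisors

namespace Fermat.Agent.S55

section

variable {K : Type*} [Field K] [NumberField K] {K' : Type*} [Field K'] [NumberField K']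
  {K'' : Type*} [Field K''] [NumberField K'']
variable (S : Finset Nat.Primes)

set_option linter.unusedSectionVars false

/-- the prime-to-`S` divisor of a prime not above `S` is the basis vector. -/
theorem h66_divIdeal_prime (v : h25_Pl K S) :
    h25_divIdeal K S (v.1.asIdeal : FractionalIdeal (𝓞 K)⁰ K) = Finsupp.single v 1 := by
  classical
  ext u
  rw [h25_divIdeal_apply, Finsupp.single_apply, FractionalIdeal.count_maximal K u.1 v.1]
  by_cases h : v.1 = u.1
  · rw [if_pos h, if_pos (Subtype.ext h)]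
  · rw [if_neg h, if_neg (fun h' => h (congrArg Subtype.val h'))]

theorem h66_Dmap_single (f : K →+* K') (v : h25_Pl K S) (n : ℤ) :
    h25_Dmap S f (Finsupp.single v n) = n • h25_divIdeal K' S
        ((Ideal.map (RingOfIntegers.mapRingHom f) v.1.asIdeal : Ideal (𝓞 K')) :
          FractionalIdeal (𝓞 K')⁰ K') := by
  rw [h66_Dmap_apply, Finsupp.sum_single_index (by simp)]

theorem h66_mapRingHom_comp (g : K' →+* K'') (f : K →+* K') :
    RingOfIntegers.mapRingHom (g.comp f)
      = (RingOfIntegers.mapRingHom g).comp (RingOfIntegers.mapRingHom f) :=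
  RingHom.ext fun _ => RingOfIntegers.ext rfl

theorem h66_mapRingHom_id :
    RingOfIntegers.mapRingHom (RingHom.id K) = RingHom.id (𝓞 K) :=
  RingHom.ext fun _ => RingOfIntegers.ext rfl

theorem h66_Dmap_comp (g : K' →+* K'') (f : K →+* K') :
    h25_Dmap S (g.comp f) = (h25_Dmap S g).comp (h25_Dmap S f) := by
  apply Finsupp.addHom_ext
  intro v n
  rw [AddMonoidHom.comp_apply, h66_Dmap_single, h66_Dmap_single, map_zsmul]
  congr 1
  ext w
  have hne : Ideal.map (RingOfIntegers.mapRingHom f) v.1.asIdeal ≠ ⊥ := by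
    rw [Ne, Ideal.map_eq_bot_iff_of_injective (h66_mapRingHom_injective f)]
    exact v.1.ne_bot
  rw [h25_divIdeal_apply, ← h66_count_map S g w _ hne, Ideal.map_map, h66_mapRingHom_comp]

theorem h66_Dmap_id : h25_Dmap S (RingHom.id K) = AddMonoidHom.id (h25_Div K S) := by
  apply Finsupp.addHom_ext
  intro v n
  rw [h66_Dmap_single, h66_mapRingHom_id, Ideal.map_id, h66_divIdeal_prime, AddMonoidHom.id_apply,
    Finsupp.smul_single, smul_eq_mul, mul_one]

theorem h66_Jmap_comp (g : K' →+* K'') (f : K →+* K') :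
    h25_Jmap S (g.comp f) = (h25_Jmap S g).comp (h25_Jmap S f) := rfl

theorem h66_Jmap_id : h25_Jmap S (RingHom.id K) = MonoidHom.id (h25_J K S) := rfl

/-- functoriality of `h25_Xmap`. -/
theorem h66_Xmap_comp (g : K' →+* K'') (f : K →+* K') :
    h25_Xmap S (g.comp f) = (h25_Xmap S g).comp (h25_Xmap S f) := by
  unfold h25_Xmap
  rw [h66_Jmap_comp, h66_Dmap_comp]
  rfl

theorem h66_Xmap_id : h25_Xmap S (RingHom.id K) = MonoidHom.id (h25_X K S) := by
  unfold h25_Xmap
  rw [h66_Jmap_id, h66_Dmap_id]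
  rfl

/-- functoriality of `h25_Cmap`. -/
theorem h66_Cmap_comp (g : K' →+* K'') (f : K →+* K') :
    h25_Cmap S (g.comp f) = (h25_Cmap S g).comp (h25_Cmap S f) := by
  ext c
  obtain ⟨x, rfl⟩ := h25_mk_surjective K S c
  rw [MonoidHom.comp_apply, h66_Cmap_mk, h66_Cmap_mk, h66_Cmap_mk, h66_Xmap_comp]
  rfl

theorem h66_Cmap_id : h25_Cmap S (RingHom.id K) = MonoidHom.id (h25_C K S) := by
  ext c
  obtain ⟨x, rfl⟩ := h25_mk_surjective K S c
  rw [h66_Cmap_mk, h66_Xmap_id]
  rfl

end

section Galois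

variable {K : Type*} [Field K] [NumberField K] {L : Type*} [Field L] [NumberField L] [Algebra K L]
variable (S : Finset Nat.Primes)

omit [NumberField K] in
/-- the Galois action on `C_L` is multiplicative. -/
theorem h66_Cmap_algEquiv_mul (σ τ : L ≃ₐ[K] L) (c : h25_C L S) :
    h25_Cmap S ((σ * τ : L ≃ₐ[K] L) : L →+* L) c
      = h25_Cmap S (σ : L →+* L) (h25_Cmap S (τ : L →+* L) c) := by
  have h : ((σ * τ : L ≃ₐ[K] L) : L →+* L) = (σ : L →+* L).comp (τ : L →+* L) := rfl
  rw [h, h66_Cmap_comp]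
  rfl

omit [NumberField K] in
theorem h66_Cmap_algEquiv_one (c : h25_C L S) :
    h25_Cmap S ((1 : L ≃ₐ[K] L) : L →+* L) c = c := by
  have h : ((1 : L ≃ₐ[K] L) : L →+* L) = RingHom.id L := rfl
  rw [h, h66_Cmap_id]
  rfl

/-- classes coming from the base field are Galois invariant. -/
theorem h66_Cmap_algEquiv_algebraMap (σ : L ≃ₐ[K] L) (c : h25_C K S) :
    h25_Cmap S (σ : L →+* L) (h25_Cmap S (algebraMap K L) c) = h25_Cmap S (algebraMap K L) c := by
  have h : (σ : L →+* L).comp (algebraMap K L) = algebraMap K L :=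
    RingHom.ext fun x => σ.commutes x
  rw [← MonoidHom.comp_apply, ← h66_Cmap_comp, h]

end Galois

end Fermat.Agent.S55
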