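import Mathlib
import Fermat.Agent.S55.h25_GlobDefs
import Fermat.Agent.S55.h66_GlobFunc2
import Fermat.Agent.S55.h2_AddUnits

/-!
# S55 GLOB, row GLOB-CACT: the Galois action on the class module as an instance

For number fields `K ⊆ L` (types) the group `Gal(L/K) = L ≃ₐ[K] L` acts on the `S`-class module
`h25_C L S` through `h25_Cmap`:

* `h90_CAct : MulDistribMulAction (L ≃ₐ[K] L) (h25_C L S)`, with `σ • c = h25_Cmap S σ c`
  **by definition** (`h90_smul_eq_Cmap` is `rfl`);
* hence `Additive (h25_C L S)` is a `DistribMulAction` (`h2_additiveDistribMulAction`) and so is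
  its `p`-localisation `h2_PL p (Additive (h25_C L S))` (`h2_PLoc`);
* dictionary: `h90_smul_mk`, `h90_Dm_eq`, `h90_Nm_eq`, `h90_restrictScalars_smul`,
  additive forms `h90_ofMul_smul`, `h90_toMul_smul`.
-/

set_option autoImplicit false

open IsDedekindDomain NumberField

namespace Fermat.Agent.S55

noncomputable section

section Act

variable {K : Type*} [Field K] {L : Type*} [Field L] [NumberField L] [Algebra K L]
variable (S : Finset Nat.Primes)

/-- **GLOB-CACT**: the Galois action on the class module, `σ • c := h25_Cmap S σ c`. -/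
instance h90_CAct : MulDistribMulAction (L ≃ₐ[K] L) (h25_C L S) where
  smul σ c := h25_Cmap S (σ : L →+* L) c
  one_smul c := h66_Cmap_algEquiv_one S c
  mul_smul σ τ c := h66_Cmap_algEquiv_mul S σ τ c
  smul_mul σ a b := map_mul (h25_Cmap S (σ : L →+* L)) a b
  smul_one σ := map_one (h25_Cmap S (σ : L →+* L))

variable {S}

theorem h90_smul_eq_Cmap (σ : L ≃ₐ[K] L) (c : h25_C L S) :
    σ • c = h25_Cmap S (σ : L →+* L) c := rfl

theorem h90_smul_mk (σ : L ≃ₐ[K] L) (x : h25_X L S) :
    σ • h25_mk L S x = h25_mk L S (h25_Xmap S (σ : L →+* L) x) :=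
  h66_Cmap_mk S (σ : L →+* L) x

theorem h90_ofMul_smul (σ : L ≃ₐ[K] L) (c : h25_C L S) :
    σ • Additive.ofMul c = Additive.ofMul (h25_Cmap S (σ : L →+* L) c) := rfl

theorem h90_toMul_smul (σ : L ≃ₐ[K] L) (c : Additive (h25_C L S)) :
    Additive.toMul (σ • c) = h25_Cmap S (σ : L →+* L) (Additive.toMul c) := rfl

theorem h90_Dm_eq (σ : L ≃ₐ[K] L) (c : h25_C L S) : h25_Dm S σ c = σ • c / c := rfl

theorem h90_Nm_eq (σ : L ≃ₐ[K] L) (n : ℕ) (c : h25_C L S) :
    h25_Nm S σ n c = ∏ i ∈ Finset.range n, σ ^ i • c := rfl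

/-- fixed points, in the two languages. -/
theorem h90_smul_eq_iff (σ : L ≃ₐ[K] L) (c : h25_C L S) :
    σ • c = c ↔ h25_Cmap S (σ : L →+* L) c = c := Iff.rfl

theorem h90_add_smul_eq_iff (σ : L ≃ₐ[K] L) (c : Additive (h25_C L S)) :
    σ • c = c ↔ h25_Cmap S (σ : L →+* L) (Additive.toMul c) = Additive.toMul c := Iff.rfl

end Act

section Tower

variable {K : Type*} [Field K] {F : Type*} [Field F] {L : Type*} [Field L] [NumberField L]
  [Algebra K F] [Algebra F L] [Algebra K L] [IsScalarTower K F L]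
variable {S : Finset Nat.Primes}

/-- An automorphism over the intermediate field acts as its restriction of scalars. -/
theorem h90_restrictScalars_smul (τ : L ≃ₐ[F] L) (c : h25_C L S) :
    (τ.restrictScalars K) • c = τ • c := rfl

end Tower

end

end Fermat.Agent.S55
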