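import Mathlib

/-!
# S55 / GLOB-EX, abstract part: the index count behind "existence mod `p`"

Pure group theory (Mathlib only).  `J`, `I`, `K` commutative groups, `d₁ : K →* J`,
`d₂ : K →* I`, `X = J × I`, `D = range (d₁, d₂)`, `C = X ⧸ D`.  In the application
`K = Lˣ`, `J = J_{L,S}`, `I` = divisors prime to `S`, `E = ker d₂` the `S`-units,
`I ⧸ d₂ K` the `S`-class group, `V = {a : d₂ a ∈ I^p}`, `V_split = {a ∈ V : d₁ a ∈ J^p}`.

* `h33_count_main` : `[X : D X^p] * [V : V_split] = [I : I^p d₂K] * [J : J^p]`;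
* `h33_count_delta` : `[V : K^p] = [E : E^p] * [I : I^p d₂K]`;
* `h33_count_C` : `[X : D X^p] * [E : E^p] = [V_split : K^p] * [J : J^p]`;
* `h33_index_pow_quotient` : `[G ⧸ N : (G ⧸ N)^p] = [G : N G^p]`;
* `h33_ex_abstract` : if `[J : J^p] = [E : E^p]^2`, `N₂ ⊇ C^p · J` has index `[V_split : K^p]`
  and `N₁ ⊇ C^p` has index `[V : K^p]`, then `N₁ = C^p`.
-/

set_option autoImplicit false

namespace Fermat.Agent.S55

open Subgroup

section count

variable {J I K : Type*} [CommGroup J] [CommGroup I] [CommGroup K]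

/-- The diagonal map `K →* J × I`. -/
def h33_diag (d₁ : K →* J) (d₂ : K →* I) : K →* J × I := d₁.prod d₂

/-- `V = {a : d₂ a ∈ I^p}`. -/
def h33_V (d₂ : K →* I) (p : ℕ) : Subgroup K := (powMonoidHom p : I →* I).range.comap d₂

/-- `V_split = {a ∈ V : d₁ a ∈ J^p}`. -/
def h33_Vsplit (d₁ : K →* J) (d₂ : K →* I) (p : ℕ) : Subgroup K :=
  h33_V d₂ p ⊓ (powMonoidHom p : J →* J).range.comap d₁

theorem h33_mem_V (d₂ : K →* I) (p : ℕ) (a : K) : a ∈ h33_V d₂ p ↔ ∃ i : I, i ^ p = d₂ a := by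
  simp [h33_V, MonoidHom.mem_range]

theorem h33_mem_Vsplit (d₁ : K →* J) (d₂ : K →* I) (p : ℕ) (a : K) :
    a ∈ h33_Vsplit d₁ d₂ p ↔ (∃ i : I, i ^ p = d₂ a) ∧ ∃ j : J, j ^ p = d₁ a := by
  simp [h33_Vsplit, h33_V, MonoidHom.mem_range]

theorem h33_pow_le_Vsplit (d₁ : K →* J) (d₂ : K →* I) (p : ℕ) :
    (powMonoidHom p : K →* K).range ≤ h33_Vsplit d₁ d₂ p := by
  rintro _ ⟨b, rfl⟩
  rw [h33_mem_Vsplit]
  exact ⟨⟨d₂ b, by simp⟩, ⟨d₁ b, by simp⟩⟩

theorem h33_Vsplit_le_V (d₁ : K →* J) (d₂ : K →* I) (p : ℕ) :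
    h33_Vsplit d₁ d₂ p ≤ h33_V d₂ p := inf_le_left

/-- The subgroup `M = {(j, i) : i ∈ I^p · d₂ K}` of `J × I`. -/
theorem h33_count_step1 (d₁ : K →* J) (d₂ : K →* I) (p : ℕ) :
    (h33_diag d₁ d₂).range ⊔ (powMonoidHom p : J × I →* J × I).range ⊔ (MonoidHom.inl J I).range
      = ((powMonoidHom p : I →* I).range ⊔ d₂.range).comap (MonoidHom.snd J I) := by
  apply le_antisymm
  · refine sup_le (sup_le ?_ ?_) ?_
    · rintro _ ⟨a, rfl⟩
      rw [mem_comap]
      exact mem_sup_right ⟨a, rfl⟩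
    · rintro _ ⟨x, rfl⟩
      rw [mem_comap]
      exact mem_sup_left ⟨x.2, rfl⟩
    · rintro _ ⟨j, rfl⟩
      rw [mem_comap]
      simp
  · rintro ⟨j, i⟩ hx
    rw [mem_comap, MonoidHom.coe_snd, mem_sup] at hx
    obtain ⟨_, ⟨i₁, rfl⟩, _, ⟨a, rfl⟩, h⟩ := hx
    have h' : i₁ ^ p * d₂ a = i := h
    have : ((j, i) : J × I) = (h33_diag d₁ d₂ a * ((1 : J), i₁) ^ p) * (j * (d₁ a)⁻¹, 1) := by
      ext
      · simp [h33_diag]
      · simp [h33_diag, ← h', mul_comm]
    rw [this]
    refine mul_mem_sup (mul_mem_sup ⟨a, rfl⟩ ⟨_, rfl⟩) ⟨_, rfl⟩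

theorem h33_count_step2 (d₁ : K →* J) (d₂ : K →* I) (p : ℕ) :
    ((h33_diag d₁ d₂).range ⊔ (powMonoidHom p : J × I →* J × I).range).comap (MonoidHom.inl J I)
      = (powMonoidHom p : J →* J).range ⊔ (h33_V d₂ p).map d₁ := by
  ext j
  rw [mem_comap, mem_sup, mem_sup]
  constructor
  · rintro ⟨_, ⟨a, rfl⟩, _, ⟨x, rfl⟩, h⟩
    have h1 : d₁ a * x.1 ^ p = j := by simpa [h33_diag] using congrArg Prod.fst h
    have h2 : d₂ a * x.2 ^ p = 1 := by simpa [h33_diag] using congrArg Prod.snd h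
    refine ⟨x.1 ^ p, ⟨x.1, rfl⟩, d₁ a, ⟨a, ?_, rfl⟩, by rw [mul_comm]; exact h1⟩
    rw [SetLike.mem_coe, h33_mem_V]
    refine ⟨x.2⁻¹, ?_⟩
    rw [inv_pow, eq_comm]
    exact eq_inv_of_mul_eq_one_left h2
  · rintro ⟨_, ⟨j₁, rfl⟩, _, ⟨a, ha, rfl⟩, h⟩
    rw [SetLike.mem_coe, h33_mem_V] at ha
    obtain ⟨i, hi⟩ := ha
    refine ⟨h33_diag d₁ d₂ a, ⟨a, rfl⟩, (j₁, i⁻¹) ^ p, ⟨_, rfl⟩, ?_⟩
    ext
    · simp [h33_diag, ← h, mul_comm]
    · simp [h33_diag, ← hi]

/-- **Index count, first half**: `[X : D X^p] * [V : V_split] = [I : I^p d₂(K)] * [J : J^p]`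
for `X = J × I`, `D` the image of the diagonal `K → J × I`. -/
theorem h33_count_main (d₁ : K →* J) (d₂ : K →* I) (p : ℕ) :
    ((h33_diag d₁ d₂).range ⊔ (powMonoidHom p : J × I →* J × I).range).index *
        (h33_Vsplit d₁ d₂ p).relIndex (h33_V d₂ p)
      = ((powMonoidHom p : I →* I).range ⊔ d₂.range).index *
        (powMonoidHom p : J →* J).range.index := by
  set DP := (h33_diag d₁ d₂).range ⊔ (powMonoidHom p : J × I →* J × I).range with hDP
  set M := DP ⊔ (MonoidHom.inl J I).range with hM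
  set W := (powMonoidHom p : J →* J).range ⊔ (h33_V d₂ p).map d₁ with hW
  have hMidx : M.index = ((powMonoidHom p : I →* I).range ⊔ d₂.range).index := by
    rw [hM, hDP, h33_count_step1]
    exact index_comap_of_surjective _ (fun i => ⟨(1, i), rfl⟩)
  have h2 : DP.relIndex M * M.index = DP.index := relIndex_mul_index le_sup_left
  have h3 : DP.relIndex M = W.index := by
    rw [hW, ← h33_count_step2, ← hDP, hM, relIndex_sup_left, ← relIndex_top_right,
      relIndex_comap, ← MonoidHom.range_eq_map]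
  have h4 : (powMonoidHom p : J →* J).range.relIndex W * W.index
      = (powMonoidHom p : J →* J).range.index := relIndex_mul_index le_sup_left
  have h5 : (powMonoidHom p : J →* J).range.relIndex W
      = (h33_Vsplit d₁ d₂ p).relIndex (h33_V d₂ p) := by
    rw [hW, relIndex_sup_left, ← relIndex_comap, h33_Vsplit, inf_relIndex_left]
  rw [← h2, h3, ← hMidx, ← h4, h5]
  ring

/-- `[G ⧸ N : (G ⧸ N)^p] = [G : N G^p]`. -/
theorem h33_index_pow_quotient {G : Type*} [CommGroup G] (N : Subgroup G) (p : ℕ) :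
    (powMonoidHom p : G ⧸ N →* G ⧸ N).range.index
      = (N ⊔ (powMonoidHom p : G →* G).range).index := by
  have h : (powMonoidHom p : G ⧸ N →* G ⧸ N).range.comap (QuotientGroup.mk' N)
      = N ⊔ (powMonoidHom p : G →* G).range := by
    ext x
    rw [mem_comap, mem_sup]
    constructor
    · rintro ⟨y, hy⟩
      obtain ⟨y, rfl⟩ := QuotientGroup.mk_surjective y
      have h1 : ((y ^ p : G) : G ⧸ N) = (x : G ⧸ N) := hy
      rw [QuotientGroup.eq] at h1
      refine ⟨(y ^ p)⁻¹ * x, h1, y ^ p, ⟨y, rfl⟩, ?_⟩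
      rw [mul_comm, mul_inv_cancel_left]
    · rintro ⟨n, hn, _, ⟨y, rfl⟩, rfl⟩
      refine ⟨(y : G ⧸ N), ?_⟩
      show ((y : G ⧸ N)) ^ p = ((n * y ^ p : G) : G ⧸ N)
      rw [QuotientGroup.mk_mul, (QuotientGroup.eq_one_iff n).2 hn, one_mul, QuotientGroup.mk_pow]
  rw [← h]
  exact (index_comap_of_surjective _ (QuotientGroup.mk'_surjective N)).symm

/-- For `I` without `p`-torsion and `D ≤ I` of finite index: `[{i : i^p ∈ D} : D] = [I : I^p D]`. -/
theorem h33_torsion_index (p : ℕ) (hI : ∀ i : I, i ^ p = 1 → i = 1) (D : Subgroup I)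
    (hD : D.index ≠ 0) :
    D.relIndex (D.comap (powMonoidHom p : I →* I))
      = ((powMonoidHom p : I →* I).range ⊔ D).index := by
  set φ : I →* I := powMonoidHom p with hφ
  have hinj : Function.Injective φ := by
    rw [injective_iff_map_eq_one]
    exact hI
  set T := D.comap φ with hT
  have hDT : D ≤ T := by
    intro x hx
    rw [hT, mem_comap]
    exact pow_mem hx p
  have h1 : D.relIndex T * T.index = D.index := relIndex_mul_index hDT
  have h2 : D.relIndex (φ.range ⊔ D) * (φ.range ⊔ D).index = D.index :=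
    relIndex_mul_index le_sup_right
  have h3 : D.relIndex (φ.range ⊔ D) = T.index := by
    have e1 : D.relIndex (φ.range ⊔ D) = D.relIndex φ.range := relIndex_sup_right _ _
    have e2 : D.relIndex φ.range = (φ.range ⊓ D).relIndex φ.range := (inf_relIndex_left (H := φ.range) (K := D)).symm
    have e3 : φ.range ⊓ D = T.map φ := (map_comap_eq φ D).symm
    have e4 : φ.range = (⊤ : Subgroup I).map φ := MonoidHom.range_eq_map φ
    rw [e1, e2, e3]
    conv_lhs => rw [e4]
    rw [relIndex_map_map_of_injective _ _ hinj, relIndex_top_right]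
  have hT0 : T.index ≠ 0 := by
    intro h0
    rw [h0, mul_zero] at h1
    exact hD h1.symm
  rw [h3, ← h1] at h2
  have h4 : T.index * (φ.range ⊔ D).index = T.index * D.relIndex T := by
    rw [h2, mul_comm]
  exact (Nat.eq_of_mul_eq_mul_left (Nat.pos_of_ne_zero hT0) h4).symm

/-- **Kummer-group count**: `[V : K^p] = [E : E^p] * [I : I^p d₂(K)]` where `E = ker d₂`,
`V = {a : d₂ a ∈ I^p}`, for `I` without `p`-torsion and `d₂ K` of finite index in `I`. -/
theorem h33_count_delta (d₂ : K →* I) (p : ℕ) (hI : ∀ i : I, i ^ p = 1 → i = 1)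
    (hD : d₂.range.index ≠ 0) :
    (powMonoidHom p : K →* K).range.relIndex (h33_V d₂ p)
      = (powMonoidHom p : ↥d₂.ker →* ↥d₂.ker).range.index *
        ((powMonoidHom p : I →* I).range ⊔ d₂.range).index := by
  set P := (powMonoidHom p : K →* K).range with hP
  set E := d₂.ker with hE
  have hPV : P ≤ h33_V d₂ p := by
    rintro _ ⟨b, rfl⟩
    rw [h33_mem_V]
    exact ⟨d₂ b, by simp⟩
  have hEV : E ≤ h33_V d₂ p := by
    intro a ha
    rw [h33_mem_V]
    exact ⟨1, by rw [one_pow]; exact ((MonoidHom.mem_ker).1 ha).symm⟩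
  have h1 : P.relIndex (E ⊔ P) * (E ⊔ P).relIndex (h33_V d₂ p) = P.relIndex (h33_V d₂ p) :=
    relIndex_mul_relIndex _ _ _ le_sup_right (sup_le hEV hPV)
  have h2 : P.relIndex (E ⊔ P) = (powMonoidHom p : ↥E →* ↥E).range.index := by
    rw [relIndex_sup_right, relIndex]
    congr 1
    ext x
    rw [mem_subgroupOf]
    constructor
    · rintro ⟨b, hb⟩
      have hbE : b ∈ E := by
        rw [hE, MonoidHom.mem_ker]
        apply hI
        rw [← map_pow]
        have : b ^ p = (x : K) := hb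
        rw [this]
        exact (MonoidHom.mem_ker).1 x.2
      exact ⟨⟨b, hbE⟩, Subtype.ext hb⟩
    · rintro ⟨b, rfl⟩
      exact ⟨(b : K), rfl⟩
  have h3 : (E ⊔ P).relIndex (h33_V d₂ p)
      = ((powMonoidHom p : I →* I).range ⊔ d₂.range).index := by
    rw [← h33_torsion_index p hI d₂.range hD]
    have hEP : E ⊔ P = (P.map d₂).comap d₂ := by
      rw [comap_map_eq, sup_comm]
    have hmap : P.map d₂ = (d₂.range).map (powMonoidHom p : I →* I) := by
      ext x
      constructor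
      · rintro ⟨_, ⟨b, rfl⟩, rfl⟩
        exact ⟨d₂ b, ⟨b, rfl⟩, by simp⟩
      · rintro ⟨_, ⟨b, rfl⟩, rfl⟩
        exact ⟨b ^ p, ⟨b, rfl⟩, by simp⟩
    have hinj : Function.Injective (powMonoidHom p : I →* I) := by
      rw [injective_iff_map_eq_one]
      exact hI
    rw [hEP, h33_V, relIndex_comap, map_comap_eq, hmap, inf_comm, ← map_comap_eq,
      relIndex_map_map_of_injective _ _ hinj]
  rw [← h1, h2, h3]

/-- **Index count** for `C = (J × I) ⧸ D`: `[C : C^p] * [E : E^p] = [V_split : K^p] * [J : J^p]`,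
for `I` without `p`-torsion, `d₂ K` of finite index in `I` and `[E : E^p]` finite. -/
theorem h33_count_C (d₁ : K →* J) (d₂ : K →* I) (p : ℕ) (hI : ∀ i : I, i ^ p = 1 → i = 1)
    (hD : d₂.range.index ≠ 0)
    (hE : (powMonoidHom p : ↥d₂.ker →* ↥d₂.ker).range.index ≠ 0) :
    ((h33_diag d₁ d₂).range ⊔ (powMonoidHom p : J × I →* J × I).range).index *
        (powMonoidHom p : ↥d₂.ker →* ↥d₂.ker).range.index
      = (powMonoidHom p : K →* K).range.relIndex (h33_Vsplit d₁ d₂ p) *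
        (powMonoidHom p : J →* J).range.index := by
  have h1 := h33_count_main d₁ d₂ p
  have h2 := h33_count_delta d₂ p hI hD
  have h3 : (powMonoidHom p : K →* K).range.relIndex (h33_Vsplit d₁ d₂ p) *
      (h33_Vsplit d₁ d₂ p).relIndex (h33_V d₂ p)
      = (powMonoidHom p : K →* K).range.relIndex (h33_V d₂ p) :=
    relIndex_mul_relIndex _ _ _ (h33_pow_le_Vsplit d₁ d₂ p) (h33_Vsplit_le_V d₁ d₂ p)
  have hcl : ((powMonoidHom p : I →* I).range ⊔ d₂.range).index ≠ 0 := by
    intro h0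
    have := Subgroup.index_dvd_of_le
      (le_sup_right : d₂.range ≤ (powMonoidHom p : I →* I).range ⊔ d₂.range)
    rw [h0] at this
    exact hD (Nat.eq_zero_of_zero_dvd this)
  have hV0 : (h33_Vsplit d₁ d₂ p).relIndex (h33_V d₂ p) ≠ 0 := by
    intro h0
    rw [h0, mul_zero, h2] at h3
    exact mul_ne_zero hE hcl h3.symm
  generalize ((h33_diag d₁ d₂).range ⊔ (powMonoidHom p : J × I →* J × I).range).index = a at *
  generalize (powMonoidHom p : ↥d₂.ker →* ↥d₂.ker).range.index = e at *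
  generalize (h33_Vsplit d₁ d₂ p).relIndex (h33_V d₂ p) = v at *
  generalize ((powMonoidHom p : I →* I).range ⊔ d₂.range).index = cl at *
  generalize (powMonoidHom p : J →* J).range.index = jp at *
  generalize (powMonoidHom p : K →* K).range.relIndex (h33_Vsplit d₁ d₂ p) = s at *
  generalize (powMonoidHom p : K →* K).range.relIndex (h33_V d₂ p) = dV at *
  have key : a * e * v = s * jp * v := by
    calc a * e * v = (a * v) * e := by ring
      _ = cl * jp * e := by rw [h1]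
      _ = (e * cl) * jp := by ring
      _ = dV * jp := by rw [h2]
      _ = (s * v) * jp := by rw [h3]
      _ = s * jp * v := by ring
  exact Nat.eq_of_mul_eq_mul_right (Nat.pos_of_ne_zero hV0) key

/-- A subgroup `V ≥ P` with `[V : P]` finite is generated over `P` by a finite set. -/
theorem h33_exists_finite_gen {G : Type*} [CommGroup G] (P V : Subgroup G) (hPV : P ≤ V)
    (h : P.relIndex V ≠ 0) : ∃ A : Set G, A.Finite ∧ A ⊆ V ∧ Subgroup.closure A ⊔ P = V := by
  have : (P.subgroupOf V).FiniteIndex := ⟨h⟩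
  have : Finite (↥V ⧸ P.subgroupOf V) := Subgroup.finite_quotient_of_finiteIndex
  -- representatives
  let r : ↥V ⧸ P.subgroupOf V → G := fun q => ((Quotient.out q : ↥V) : G)
  refine ⟨Set.range r, Set.finite_range r, ?_, ?_⟩
  · rintro _ ⟨q, rfl⟩
    exact (Quotient.out q : ↥V).2
  · apply le_antisymm
    · refine sup_le ?_ hPV
      rw [Subgroup.closure_le]
      rintro _ ⟨q, rfl⟩
      exact (Quotient.out q : ↥V).2
    · intro x hx
      set q : ↥V ⧸ P.subgroupOf V := QuotientGroup.mk ⟨x, hx⟩ with hq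
      have h1 : (QuotientGroup.mk (Quotient.out q) : ↥V ⧸ P.subgroupOf V) = QuotientGroup.mk ⟨x, hx⟩ :=
        Quotient.out_eq q
      rw [QuotientGroup.eq] at h1
      have h2 : ((Quotient.out q : ↥V) : G)⁻¹ * x ∈ P := by
        have := h1
        rw [Subgroup.mem_subgroupOf] at this
        simpa using this
      have h3 : x = r q * (((Quotient.out q : ↥V) : G)⁻¹ * x) := by
        show x = ((Quotient.out q : ↥V) : G) * _
        rw [mul_inv_cancel_left]
      rw [h3]
      exact Subgroup.mul_mem_sup (Subgroup.subset_closure ⟨q, rfl⟩) h2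

/-- Two subgroups `H ≤ N` with `[G : H] ≤ [G : N]` finite are equal. -/
theorem h33_eq_of_le_of_index_le {G : Type*} [Group G] {H N : Subgroup G} (hHN : H ≤ N)
    (hH : H.index ≠ 0) (hle : H.index ≤ N.index) : N = H := by
  have h1 : H.relIndex N * N.index = H.index := relIndex_mul_index hHN
  have hN : N.index ≠ 0 := by
    intro h0
    rw [h0, mul_zero] at h1
    exact hH h1.symm
  have hr : H.relIndex N ≠ 0 := by
    intro h0
    rw [h0, zero_mul] at h1
    exact hH h1.symm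
  have h2 : H.relIndex N = 1 := by
    rcases Nat.lt_or_ge (H.relIndex N) 2 with h | h
    · omega
    · exfalso
      have : 2 * N.index ≤ H.index := by
        rw [← h1]
        exact Nat.mul_le_mul_right _ h
      omega
  exact le_antisymm (relIndex_eq_one.1 h2) hHN

/-- **Existence mod `p`, abstract form.**  `C = (J × I) ⧸ D`.  If `[J : J^p] = [E : E^p]^2`,
`N₂ ⊇ C^p · J` has index `[V_split : K^p]` and `N₁ ⊇ C^p` has index `[V : K^p]`, then
`N₁ = C^p`. -/
theorem h33_ex_abstract (d₁ : K →* J) (d₂ : K →* I) (p : ℕ) (hI : ∀ i : I, i ^ p = 1 → i = 1)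
    (hD : d₂.range.index ≠ 0)
    (hE : (powMonoidHom p : ↥d₂.ker →* ↥d₂.ker).range.index ≠ 0)
    (hJ : (powMonoidHom p : J →* J).range.index
      = (powMonoidHom p : ↥d₂.ker →* ↥d₂.ker).range.index ^ 2)
    (N₁ N₂ : Subgroup ((J × I) ⧸ (h33_diag d₁ d₂).range))
    (h₁ : (powMonoidHom p : (J × I) ⧸ (h33_diag d₁ d₂).range →* _).range ≤ N₁)
    (h₁i : N₁.index = (powMonoidHom p : K →* K).range.relIndex (h33_V d₂ p))
    (h₂ : (powMonoidHom p : (J × I) ⧸ (h33_diag d₁ d₂).range →* _).range ≤ N₂)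
    (h₂J : ∀ j : J, (((j, 1) : J × I) : (J × I) ⧸ (h33_diag d₁ d₂).range) ∈ N₂)
    (h₂i : N₂.index = (powMonoidHom p : K →* K).range.relIndex (h33_Vsplit d₁ d₂ p)) :
    N₁ = (powMonoidHom p : (J × I) ⧸ (h33_diag d₁ d₂).range →* _).range := by
  have hC := h33_count_C d₁ d₂ p hI hD hE
  have hdelta := h33_count_delta d₂ p hI hD
  have hcl : ((powMonoidHom p : I →* I).range ⊔ d₂.range).index ≠ 0 := by
    intro h0
    have := Subgroup.index_dvd_of_le
      (le_sup_right : d₂.range ≤ (powMonoidHom p : I →* I).range ⊔ d₂.range)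
    rw [h0] at this
    exact hD (Nat.eq_zero_of_zero_dvd this)
  -- `[V_split : K^p] ∣ [I : I^p d₂ K]`
  have hs : (powMonoidHom p : K →* K).range.relIndex (h33_Vsplit d₁ d₂ p) ∣
      ((powMonoidHom p : I →* I).range ⊔ d₂.range).index := by
    rw [← h₂i, ← index_comap_of_surjective N₂ (QuotientGroup.mk'_surjective _),
      ← index_comap_of_surjective _ (fun i => ⟨(1, i), rfl⟩ :
        Function.Surjective (MonoidHom.snd J I)), ← h33_count_step1 d₁ d₂ p]
    apply Subgroup.index_dvd_of_le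
    refine sup_le (sup_le ?_ ?_) ?_
    · rintro _ ⟨a, rfl⟩
      rw [mem_comap]
      have : (QuotientGroup.mk' (h33_diag d₁ d₂).range) (h33_diag d₁ d₂ a) = 1 :=
        (QuotientGroup.eq_one_iff _).2 ⟨a, rfl⟩
      rw [this]
      exact one_mem _
    · rintro _ ⟨x, rfl⟩
      rw [mem_comap]
      exact h₂ ⟨QuotientGroup.mk' _ x, by simp⟩
    · rintro _ ⟨j, rfl⟩
      rw [mem_comap]
      exact h₂J j
  have hs0 : (powMonoidHom p : K →* K).range.relIndex (h33_Vsplit d₁ d₂ p) ≠ 0 := by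
    intro h0
    rw [h0] at hs
    exact hcl (Nat.eq_zero_of_zero_dvd hs)
  have hsle := Nat.le_of_dvd (Nat.pos_of_ne_zero hcl) hs
  have hidx := h33_index_pow_quotient (h33_diag d₁ d₂).range p
  rw [hJ] at hC
  apply h33_eq_of_le_of_index_le h₁
  · rw [hidx]
    intro h0
    rw [h0, zero_mul] at hC
    have := hC.symm
    simp only [mul_eq_zero, pow_eq_zero_iff (two_ne_zero), hs0, hE, or_self] at this
  · rw [hidx, h₁i, hdelta]
    generalize ((h33_diag d₁ d₂).range ⊔ (powMonoidHom p : J × I →* J × I).range).index = a at *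
    generalize (powMonoidHom p : ↥d₂.ker →* ↥d₂.ker).range.index = e at *
    generalize ((powMonoidHom p : I →* I).range ⊔ d₂.range).index = cl at *
    generalize (powMonoidHom p : K →* K).range.relIndex (h33_Vsplit d₁ d₂ p) = s at *
    have h1 : a * e = (s * e) * e := by rw [hC]; ring
    have h2 : a = s * e := Nat.eq_of_mul_eq_mul_right (Nat.pos_of_ne_zero hE) h1
    rw [h2, mul_comm]
    exact Nat.mul_le_mul_left e hsle

end count

end Fermat.Agent.S55
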