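import Fermat.Agent.S55.h25_GlobDefs
import Fermat.Agent.S55.h33_ExCount

/-!
# S55 / GLOB (Kummer half): definitions on the arithmetic carrier `h25_C`

* `h33_dJ K S`, `h33_dI K S` : the two components of `h25_diag K S : Kˣ →* J × Div`
  (`h33_diag_eq : h33_diag (h33_dJ K S) (h33_dI K S) = h25_diag K S`), so that the abstract
  counts of `h33_ExCount` apply to `h25_C K S`.
* levels `L ≤ L'` (`IntermediateField ℚ Qbar`): `h33_relGal L L'` (= `Gal(L'/L)` inside
  `Gal(L'/ℚ)`), `h33_relNorm S L L'` (norm operator on `C_{L'}`), `h33_ext S h : C_L →* C_{L'}`,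
  `h33_normGroup S h` (`= {c ∈ C_L | ext c ∈ N C_{L'}}`).
-/

set_option autoImplicit false

namespace Fermat.Agent.S55

local notation "Qb" => AlgebraicClosure ℚ

noncomputable section

section Diag

variable (K : Type*) [Field K] [NumberField K] (S : Finset Nat.Primes)

/-- The `J`-component of the diagonal `Kˣ → J × Div`. -/
def h33_dJ : Kˣ →* h25_J K S := (MonoidHom.fst _ _).comp (h25_diag K S)

/-- The divisor component of the diagonal `Kˣ → J × Div`. -/
def h33_dI : Kˣ →* Multiplicative (h25_Div K S) := (MonoidHom.snd _ _).comp (h25_diag K S)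

theorem h33_diag_eq : h33_diag (h33_dJ K S) (h33_dI K S) = h25_diag K S := by
  ext x <;> rfl

theorem h33_dJ_apply (x : Kˣ) (q : S) (j : K →+* PadicAlgCl ((q : Nat.Primes) : ℕ)) :
    (((h33_dJ K S x q).1 j : (PadicAlgCl ((q : Nat.Primes) : ℕ))ˣ) : PadicAlgCl ((q : Nat.Primes) : ℕ))
      = j (x : K) := rfl

theorem h33_dI_apply (x : Kˣ) : h33_dI K S x = Multiplicative.ofAdd (h25_div K S x) := rfl

end Diag

section Levels

variable (S : Finset Nat.Primes)

/-- `Gal(L'/L)` as the subgroup of `Gal(L'/ℚ)` fixing `L` pointwise. -/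
def h33_relGal (L L' : IntermediateField ℚ Qb) : Subgroup (↥L' ≃ₐ[ℚ] ↥L') where
  carrier := {s | ∀ x : ↥L', (x : Qb) ∈ L → s x = x}
  mul_mem' := by
    intro a b ha hb x hx
    rw [AlgEquiv.mul_apply, hb x hx, ha x hx]
  one_mem' := fun x _ => rfl
  inv_mem' := by
    intro a ha x hx
    have := ha x hx
    conv_lhs => rw [← this]
    exact AlgEquiv.symm_apply_apply a x

theorem h33_mem_relGal {L L' : IntermediateField ℚ Qb} (s : ↥L' ≃ₐ[ℚ] ↥L') :
    s ∈ h33_relGal L L' ↔ ∀ x : ↥L', (x : Qb) ∈ L → s x = x := Iff.rfl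

/-- The norm operator `c' ↦ ∏_{s ∈ Gal(L'/L)} s c'` on `C_{L'}`. -/
def h33_relNorm (L L' : IntermediateField ℚ Qb) [NumberField ↥L'] :
    h25_C ↥L' S →* h25_C ↥L' S :=
  haveI : Fintype (h33_relGal L L') := Fintype.ofFinite _
  ∏ s : h33_relGal L L', h25_Cmap S (((s : ↥L' ≃ₐ[ℚ] ↥L')) : ↥L' →+* ↥L')

theorem h33_relNorm_apply (L L' : IntermediateField ℚ Qb) [NumberField ↥L'] (c' : h25_C ↥L' S) :
    h33_relNorm S L L' c' =
      ∏ᶠ s : h33_relGal L L', h25_Cmap S (((s : ↥L' ≃ₐ[ℚ] ↥L')) : ↥L' →+* ↥L') c' := by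
  have : Fintype (h33_relGal L L') := Fintype.ofFinite _
  rw [finprod_eq_prod_of_fintype]
  unfold h33_relNorm
  rw [MonoidHom.finsetProd_apply]
  congr 1
  exact congrArg (fun i => @Finset.univ _ i) (Subsingleton.elim _ _)

/-- The extension map `C_L → C_{L'}`. -/
def h33_ext {L L' : IntermediateField ℚ Qb} [NumberField ↥L] [NumberField ↥L'] (h : L ≤ L') :
    h25_C ↥L S →* h25_C ↥L' S :=
  h25_Cmap S ((IntermediateField.inclusion h : ↥L →ₐ[ℚ] ↥L') : ↥L →+* ↥L')

/-- The norm group `{c ∈ C_L : ext c ∈ N_{L'/L} C_{L'}}`. -/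
def h33_normGroup {L L' : IntermediateField ℚ Qb} [NumberField ↥L] [NumberField ↥L']
    (h : L ≤ L') : Subgroup (h25_C ↥L S) :=
  (h33_relNorm S L L').range.comap (h33_ext S h)

end Levels

section Interface

/-- (F) naturality of the diagonal under field embeddings (GLOB-FUNC). -/
def h33_HypFunc (S : Finset Nat.Primes) : Prop :=
  ∀ (K K' : Type) [Field K] [NumberField K] [Field K'] [NumberField K'] (f : K →+* K') (x : Kˣ),
    h25_Xmap S f (h25_diag K S x) = h25_diag K' S (Units.map (f : K →* K') x)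

/-- (N) abelian norm index theorem for exponent-`p` steps between levels, arithmetic
(unlocalised) form: norms are invariant classes, the norm group has index `#Gal(L'/L)` and
contains the `p`-th powers (GLOB-NORMIDX). -/
def h33_HypNorm (S : Finset Nat.Primes) (p : ℕ) : Prop :=
  ∀ (L L' : IntermediateField ℚ Qb) [NumberField ↥L] [NumberField ↥L'] (h : L ≤ L'),
    h25_IsLevel S L → h25_IsLevel S L' →
    (∀ s t : h33_relGal L L', s * t = t * s) → (∀ s : h33_relGal L L', s ^ p = 1) →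
    (h33_relNorm S L L').range ≤ (h33_ext S h).range ∧
    (h33_normGroup S h).index = Nat.card (h33_relGal L L') ∧
    ∀ c : h25_C ↥L S, c ^ p ∈ h33_normGroup S h

/-- (NUM) the numerical inputs of the count at a level containing `μ_p`: finiteness of the
`S`-class group, `[E_S : E_S^p]` finite, `[J : J^p] = [E_S : E_S^p]^2` (GLOB-EX-NUM). -/
def h33_HypNum (S : Finset Nat.Primes) (p : ℕ) : Prop :=
  ∀ (L : IntermediateField ℚ Qb) [NumberField ↥L], h25_IsLevel S L →
    (∃ ζ : ↥L, IsPrimitiveRoot ζ p) →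
    (h33_dI ↥L S).range.index ≠ 0 ∧
    (powMonoidHom p : ↥(h33_dI ↥L S).ker →* ↥(h33_dI ↥L S).ker).range.index ≠ 0 ∧
    (powMonoidHom p : h25_J ↥L S →* h25_J ↥L S).range.index
      = (powMonoidHom p : ↥(h33_dI ↥L S).ker →* ↥(h33_dI ↥L S).ker).range.index ^ 2

/-- (VAL) elements whose prime-to-`S` divisor is a `p`-th power have `p`-divisible valuation at
every valuation subring of `Qbar` above a prime outside `S` (GLOB-DICT-VAL). -/
def h33_HypVal (S : Finset Nat.Primes) (p : ℕ) : Prop :=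
  ∀ (L : IntermediateField ℚ Qb) [NumberField ↥L], h25_IsLevel S L →
    ∀ a ∈ h33_V (h33_dI ↥L S) p, ∀ q : Nat.Primes, q ∉ S → ∀ A : ValuationSubring Qb,
      A.LiesOverPrime (q : ℕ) →
        ∃ b ∈ L, A.valuation ((((a : (↥L)ˣ) : ↥L) : Qb)) = A.valuation b ^ p

/-- **GLOB-EX** (existence mod `p`), arithmetic level form: the statement. -/
def h33_GlobEx (S : Finset Nat.Primes) (p : ℕ) : Prop :=
  ∀ (L : IntermediateField ℚ Qb) [NumberField ↥L], h25_IsLevel S L →
    (∃ ζ : ↥L, IsPrimitiveRoot ζ p) →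
    ∃ (L' : IntermediateField ℚ Qb) (_ : NumberField ↥L') (h : L ≤ L'), h25_IsLevel S L' ∧
      ∀ c' : h25_C ↥L' S, ∃ c : h25_C ↥L S, h33_relNorm S L L' c' = h33_ext S h (c ^ p)

end Interface

end

end Fermat.Agent.S55
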