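import Mathlib
import Fermat.Prelude.Def_GaloisRep_CompletionBridge
import Fermat.Agent.S55.h25_GlobDefs

/-!
# S55, GLOB-AMB, field EV: `J_q(F)` is coinduced

For an intermediate field `F` of `ℚbar/ℚ` and a prime `q`:

* `h94_emb q F g : ↥F →+* PadicAlgCl q`, `x ↦ ι_q (g x)`, the embedding attached to `g ∈ G_ℚ`;
* `h94_emb_surjective` : every embedding is of this form;
* `h94_emb_eq_iff` : `h94_emb q F g = h94_emb q F g'` iff `g⁻¹ * g'` fixes `F`;
* `h94_emb_local` : `h94_emb q F (r_q τ * g) = τ ∘ h94_emb q F g`;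
* `h94_emb_mul_of_restrict` : `h94_emb q F (g * s) = h94_emb q F g ∘ σ` when `s` restricts to `σ`
  on `F`;
* `h94_coind` : the `G_q`-equivariant functions `φ : G_ℚ → (PadicAlgCl q)ˣ` which are right
  invariant under `Gal(ℚbar/F)` are exactly the `g ↦ y (h94_emb q F g)`, `y : h25_Jq ↥F q`
  (existence and uniqueness).
-/

set_option autoImplicit false

namespace Fermat.Agent.S55

local notation "Qb" => AlgebraicClosure ℚ
local notation "GQ" => (AlgebraicClosure ℚ ≃ₐ[ℚ] AlgebraicClosure ℚ)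

local instance h94_isAlgebraicQbar : Algebra.IsAlgebraic ℚ (AlgebraicClosure ℚ) :=
  AlgebraicClosure.isAlgebraic ℚ
local instance h94_isAlgClosureQbar : IsAlgClosure ℚ (AlgebraicClosure ℚ) :=
  ⟨inferInstance, inferInstance⟩
local instance h94_normalQbar : Normal ℚ (AlgebraicClosure ℚ) :=
  IsAlgClosure.normal ℚ (AlgebraicClosure ℚ)

section Emb

variable (q : ℕ) [Fact q.Prime] (F : IntermediateField ℚ Qb)

/-- The embedding `x ↦ ι_q (g x)` of `F` into `PadicAlgCl q` attached to `g ∈ G_ℚ`. -/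
noncomputable def h94_emb (g : GQ) : ↥F →+* PadicAlgCl q :=
  ((padicEmbedding q : Qb →ₐ[ℚ] PadicAlgCl q) : Qb →+* PadicAlgCl q).comp
    (((g : Qb ≃ₐ[ℚ] Qb) : Qb →+* Qb).comp (algebraMap ↥F Qb))

theorem h94_emb_apply (g : GQ) (x : ↥F) : h94_emb q F g x = padicEmbedding q (g (x : Qb)) := rfl

/-- Every embedding of `F` into `PadicAlgCl q` is `x ↦ ι_q (g x)` for some `g ∈ G_ℚ`. -/
theorem h94_emb_surjective (j : ↥F →+* PadicAlgCl q) : ∃ g : GQ, h94_emb q F g = j := by
  let _ : Algebra ↥F (PadicAlgCl q) := j.toAlgebra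
  let J : Qb →ₐ[↥F] PadicAlgCl q := IsAlgClosed.lift
  have hJ : ∀ x : ↥F, J (x : Qb) = j x := fun x => J.commutes x
  let _ : Algebra Qb (PadicAlgCl q) := (padicEmbedding q).toRingHom.toAlgebra
  have : IsScalarTower ℚ Qb (PadicAlgCl q) :=
    IsScalarTower.of_algebraMap_eq' (Subsingleton.elim _ _)
  let J' : Qb →ₐ[ℚ] PadicAlgCl q := (J : Qb →+* PadicAlgCl q).toRatAlgHom
  refine ⟨J'.restrictNormal' Qb, ?_⟩
  ext x
  have h1 := AlgHom.restrictNormal_commutes J' Qb (x : Qb)
  rw [h94_emb_apply]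
  exact h1.trans (hJ x)

variable {q F} in
/-- Two elements of `G_ℚ` give the same embedding of `F` iff they agree on `F`. -/
theorem h94_emb_eq_iff (g g' : GQ) :
    h94_emb q F g = h94_emb q F g' ↔ g⁻¹ * g' ∈ F.fixingSubgroup := by
  rw [IntermediateField.mem_fixingSubgroup_iff]
  constructor
  · intro h x hx
    have h1 := congrArg (fun f : ↥F →+* PadicAlgCl q => f ⟨x, hx⟩) h
    simp only [h94_emb_apply] at h1
    have h2 : g x = g' x := (padicEmbedding q).injective h1
    show g⁻¹ (g' x) = x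
    rw [← h2]
    exact g.symm_apply_apply x
  · intro h
    ext x
    have h1 : g⁻¹ (g' (x : Qb)) = x := h x x.2
    rw [h94_emb_apply, h94_emb_apply]
    congr 1
    have h2 := congrArg g h1
    rw [show g (g⁻¹ (g' (x : Qb))) = g' x from g.apply_symm_apply _] at h2
    exact h2.symm

variable {q F} in
theorem h94_emb_mul_fix (g : GQ) {s : GQ} (hs : s ∈ F.fixingSubgroup) :
    h94_emb q F (g * s) = h94_emb q F g := by
  refine ((h94_emb_eq_iff g (g * s)).2 ?_).symm
  rw [inv_mul_cancel_left]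
  exact hs

/-- The local Galois group acts on the embeddings through `localGaloisToGlobal`. -/
theorem h94_emb_local (τ : PadicAlgCl q ≃ₐ[ℚ_[q]] PadicAlgCl q) (g : GQ) :
    h94_emb q F (localGaloisToGlobal q τ * g) =
      (τ : PadicAlgCl q →+* PadicAlgCl q).comp (h94_emb q F g) := by
  ext x
  exact padicEmbedding_localGaloisToGlobal q τ (g (x : Qb))

/-- Right translation by an element of `G_ℚ` which restricts to the ring endomorphism `σ` of
`F`. -/
theorem h94_emb_mul_of_restrict (g s : GQ) (σ : ↥F →+* ↥F)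
    (h : ∀ x : ↥F, s (x : Qb) = ((σ x : ↥F) : Qb)) :
    h94_emb q F (g * s) = (h94_emb q F g).comp σ := by
  ext x
  show padicEmbedding q (g (s (x : Qb))) = padicEmbedding q (g ((σ x : ↥F) : Qb))
  rw [h x]

end Emb

section Coind

variable (q : ℕ) [Fact q.Prime] (F : IntermediateField ℚ Qb)

/-- The function on `G_ℚ` attached to an element of `J_q(F)`. -/
theorem h94_Jq_local (y : h25_Jq ↥F q) (τ : PadicAlgCl q ≃ₐ[ℚ_[q]] PadicAlgCl q) (g : GQ) :
    ((y : (↥F →+* PadicAlgCl q) → (PadicAlgCl q)ˣ) (h94_emb q F (localGaloisToGlobal q τ * g)) :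
      PadicAlgCl q) = τ ((y : (↥F →+* PadicAlgCl q) → (PadicAlgCl q)ˣ) (h94_emb q F g)) := by
  rw [h94_emb_local]
  exact y.2 τ (h94_emb q F g)

/-- **`J_q(F)` is coinduced** (unlocalised form of the field `ev_bij`): a function
`φ : G_ℚ → (PadicAlgCl q)ˣ` which is equivariant for the local Galois group and right invariant
under `Gal(ℚbar/F)` is `g ↦ y (ι_q ∘ g|_F)` for a unique `y ∈ J_q(F)`. -/
theorem h94_coind (φ : GQ → (PadicAlgCl q)ˣ)
    (h1 : ∀ (τ : PadicAlgCl q ≃ₐ[ℚ_[q]] PadicAlgCl q) (g : GQ),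
      (φ (localGaloisToGlobal q τ * g) : PadicAlgCl q) = τ (φ g))
    (h2 : ∀ g s : GQ, s ∈ F.fixingSubgroup → φ (g * s) = φ g) :
    ∃! y : h25_Jq ↥F q, ∀ g : GQ,
      (y : (↥F →+* PadicAlgCl q) → (PadicAlgCl q)ˣ) (h94_emb q F g) = φ g := by
  choose γ hγ using h94_emb_surjective q F
  have hwd : ∀ g : GQ, φ (γ (h94_emb q F g)) = φ g := by
    intro g
    have h := (h94_emb_eq_iff (γ (h94_emb q F g)) g).1 (hγ _)
    have h3 := h2 (γ (h94_emb q F g)) _ h
    rw [mul_inv_cancel_left] at h3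
    exact h3.symm
  refine ⟨⟨fun j => φ (γ j), ?_⟩, fun g => hwd g, ?_⟩
  · intro τ j
    have e1 : (τ : PadicAlgCl q →+* PadicAlgCl q).comp j =
        h94_emb q F (localGaloisToGlobal q τ * γ j) := by
      rw [h94_emb_local, hγ]
    show (φ (γ ((τ : PadicAlgCl q →+* PadicAlgCl q).comp j)) : PadicAlgCl q) = τ (φ (γ j))
    rw [e1, hwd, h1]
  · intro y hy
    apply Subtype.ext
    funext j
    have h := hy (γ j)
    rw [hγ] at h
    exact h

end Coind

end Fermat.Agent.S55
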