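import Fermat.Agent.S55.h97_Sha

/-!
# S55, bridge layer: finite levels `Gal(L/ℚ)`

`continuousH2S S M = colim_L H²(Gal(L/ℚ), M)` over the Galois levels `L` unramified outside
`S`, as an API with a universal property; the same in degree 1 for `sha₁`.

* `h97_π L : Gal(ℚbar/ℚ) →* Gal(L/ℚ)`, `h97_res (h : L ≤ L') : Gal(L'/ℚ) →* Gal(L/ℚ)`.
* `h97_levelRep L M hLM : Rep k Gal(L/ℚ)` : the module `M` (same carrier) as a representation
  of the finite group `Gal(L/ℚ)`, when `L.fixingSubgroup` acts trivially.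
* `h97_infl₁`, `h97_infl₂`, `h97_tr₁`, `h97_tr₂` : inflation of cochains to `Gal(ℚbar/ℚ)` and
  to a bigger level.
* `h97_classH2`, `h97_classH2_tr`, `h97_classH2_eq_zero_iff`, `h97_exists_classH2`,
  `h97_classH2_mem_sha₂_iff`, `h97_H2S_lift` (universal property).
* `h97_classH1`, `h97_classH1_eq_zero_iff`, `h97_classH1_mem_sha₁_iff`,
  `h97_sha₁_exists_classH1`.
-/

set_option autoImplicit false

open CategoryTheory Module groupCohomology ExtCitation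

namespace Fermat.Agent.S55

local notation "Qb" => AlgebraicClosure ℚ
local notation "GQ" => (AlgebraicClosure ℚ ≃ₐ[ℚ] AlgebraicClosure ℚ)

noncomputable section

section Gal

variable (L : IntermediateField ℚ Qb) [Normal ℚ L]

/-- Restriction `Gal(ℚbar/ℚ) → Gal(L/ℚ)`. -/
def h97_π : GQ →* (L ≃ₐ[ℚ] L) := AlgEquiv.restrictNormalHom L

theorem h97_π_apply (σ : GQ) (x : L) : ((h97_π L σ x : L) : Qb) = σ (x : Qb) :=
  AlgEquiv.restrictNormal_commutes σ L x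

theorem h97_π_surjective : Function.Surjective (h97_π L) := by
  have : Normal ℚ Qb := Fermat.Agent.S13.h24_isGalois_Qbar.to_normal
  exact AlgEquiv.restrictNormalHom_surjective Qb

theorem h97_π_ker : (h97_π L).ker = L.fixingSubgroup := by
  ext s
  rw [MonoidHom.mem_ker, IntermediateField.mem_fixingSubgroup_iff]
  constructor
  · intro h x hx
    have := h97_π_apply L s ⟨x, hx⟩
    rw [h] at this
    exact this.symm
  · intro h
    ext x
    rw [h97_π_apply]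
    exact h x x.2

theorem h97_π_eq_one_iff (s : GQ) : h97_π L s = 1 ↔ s ∈ L.fixingSubgroup := by
  rw [← h97_π_ker L, MonoidHom.mem_ker]

theorem h97_π_mul_of_mem (g s : GQ) (hs : s ∈ L.fixingSubgroup) :
    h97_π L (g * s) = h97_π L g := by
  rw [map_mul, (h97_π_eq_one_iff L s).2 hs, mul_one]

theorem h97_π_eq_iff (g g' : GQ) :
    h97_π L g = h97_π L g' ↔ ∃ s ∈ L.fixingSubgroup, g' = g * s := by
  constructor
  · intro h
    refine ⟨g⁻¹ * g', ?_, by group⟩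
    rw [← h97_π_eq_one_iff, map_mul, map_inv, h, inv_mul_cancel]
  · rintro ⟨s, hs, rfl⟩
    exact (h97_π_mul_of_mem L g s hs).symm

/-- A set-theoretic section of `h97_π L`. -/
def h97_sec (a : L ≃ₐ[ℚ] L) : GQ := Function.surjInv (h97_π_surjective L) a

theorem h97_π_sec (a : L ≃ₐ[ℚ] L) : h97_π L (h97_sec L a) = a :=
  Function.surjInv_eq (h97_π_surjective L) a

end Gal

section Res

variable {L L' L'' : IntermediateField ℚ Qb} [Normal ℚ L] [Normal ℚ L'] [Normal ℚ L'']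

/-- Restriction `Gal(L'/ℚ) → Gal(L/ℚ)` for `L ≤ L'`. -/
def h97_res (h : L ≤ L') : (L' ≃ₐ[ℚ] L') →* (L ≃ₐ[ℚ] L) :=
  (h97_π L').liftOfRightInverse (h97_sec L') (h97_π_sec L') ⟨h97_π L, by
    rw [h97_π_ker, h97_π_ker]; exact IntermediateField.fixingSubgroup_antitone h⟩

theorem h97_res_π (h : L ≤ L') (σ : GQ) : h97_res h (h97_π L' σ) = h97_π L σ :=
  MonoidHom.liftOfRightInverse_comp_apply _ _ _ _ σ

theorem h97_res_surjective (h : L ≤ L') : Function.Surjective (h97_res h) := by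
  intro a
  obtain ⟨σ, rfl⟩ := h97_π_surjective L a
  exact ⟨h97_π L' σ, h97_res_π h σ⟩

theorem h97_res_apply (h : L ≤ L') (τ : L' ≃ₐ[ℚ] L') (x : L) :
    ((h97_res h τ x : L) : Qb) = ((τ (IntermediateField.inclusion h x) : L') : Qb) := by
  obtain ⟨σ, rfl⟩ := h97_π_surjective L' τ
  rw [h97_res_π, h97_π_apply, h97_π_apply]
  rfl

theorem h97_res_refl (τ : L ≃ₐ[ℚ] L) : h97_res (le_refl L) τ = τ := by
  obtain ⟨σ, rfl⟩ := h97_π_surjective L τ
  rw [h97_res_π]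

theorem h97_res_res (h : L ≤ L') (h' : L' ≤ L'') (τ : L'' ≃ₐ[ℚ] L'') :
    h97_res h (h97_res h' τ) = h97_res (h.trans h') τ := by
  obtain ⟨σ, rfl⟩ := h97_π_surjective L'' τ
  rw [h97_res_π, h97_res_π, h97_res_π]

theorem h97_res_eq_one_iff (h : L ≤ L') (τ : L' ≃ₐ[ℚ] L') :
    h97_res h τ = 1 ↔ ∀ x : L, τ (IntermediateField.inclusion h x) =
      IntermediateField.inclusion h x := by
  constructor
  · intro h1 x
    apply Subtype.ext
    rw [← h97_res_apply h τ x, h1]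
    rfl
  · intro h1
    ext x
    rw [h97_res_apply h τ x, h1]
    rfl

end Res

section LevelRep

variable (L : IntermediateField ℚ Qb) [Normal ℚ L]
variable {k : Type} [CommRing k] (M : Rep k GQ)

theorem h97_ρ_eq_of_π_eq (hLM : ∀ s ∈ L.fixingSubgroup, M.ρ s = 1) {g g' : GQ}
    (h : h97_π L g = h97_π L g') : M.ρ g = M.ρ g' := by
  obtain ⟨s, hs, rfl⟩ := (h97_π_eq_iff L g g').1 h
  rw [map_mul, hLM s hs, mul_one]

/-- Triviality of the action passes to bigger levels. -/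
theorem h97_triv_mono {L L' : IntermediateField ℚ Qb} (h : L ≤ L')
    (hLM : ∀ s ∈ L.fixingSubgroup, M.ρ s = 1) : ∀ s ∈ L'.fixingSubgroup, M.ρ s = 1 :=
  fun s hs => hLM s (IntermediateField.fixingSubgroup_antitone h hs)

/-- The representation of `Gal(L/ℚ)` on `M` when `L.fixingSubgroup` acts trivially. -/
def h97_galRho (hLM : ∀ s ∈ L.fixingSubgroup, M.ρ s = 1) :
    Representation k (L ≃ₐ[ℚ] L) M where
  toFun a := M.ρ (h97_sec L a)
  map_one' := by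
    rw [← map_one M.ρ]
    exact h97_ρ_eq_of_π_eq L M hLM (by rw [h97_π_sec, map_one])
  map_mul' a b := by
    rw [← map_mul M.ρ]
    exact h97_ρ_eq_of_π_eq L M hLM (by rw [h97_π_sec, map_mul, h97_π_sec, h97_π_sec])

theorem h97_galRho_π (hLM : ∀ s ∈ L.fixingSubgroup, M.ρ s = 1) (σ : GQ) :
    h97_galRho L M hLM (h97_π L σ) = M.ρ σ :=
  h97_ρ_eq_of_π_eq L M hLM (h97_π_sec L _)

/-- `M` (same carrier) as a representation of the finite group `Gal(L/ℚ)`. -/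
abbrev h97_levelRep (hLM : ∀ s ∈ L.fixingSubgroup, M.ρ s = 1) : Rep k (L ≃ₐ[ℚ] L) :=
  Rep.of (h97_galRho L M hLM)

theorem h97_levelRep_ρ_π (hLM : ∀ s ∈ L.fixingSubgroup, M.ρ s = 1) (σ : GQ) (m : M) :
    (h97_levelRep L M hLM).ρ (h97_π L σ) m = M.ρ σ m := by
  have := h97_galRho_π L M hLM σ
  exact congrFun (congrArg DFunLike.coe this) m

theorem h97_levelRep_ρ_res {L L' : IntermediateField ℚ Qb} [Normal ℚ L] [Normal ℚ L']
    (h : L ≤ L') (hLM : ∀ s ∈ L.fixingSubgroup, M.ρ s = 1) (τ : L' ≃ₐ[ℚ] L') (m : M) :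
    (h97_levelRep L M hLM).ρ (h97_res h τ) m =
      (h97_levelRep L' M (h97_triv_mono M h hLM)).ρ τ m := by
  obtain ⟨σ, rfl⟩ := h97_π_surjective L' τ
  rw [h97_res_π, h97_levelRep_ρ_π, h97_levelRep_ρ_π]

end LevelRep

section Infl

variable (L : IntermediateField ℚ Qb) [Normal ℚ L]

/-- Inflation of a 1-cochain of `Gal(L/ℚ)` to `Gal(ℚbar/ℚ)`. -/
def h97_infl₁ {X : Type*} (x : (L ≃ₐ[ℚ] L) → X) : GQ → X := fun g => x (h97_π L g)

/-- Inflation of a 2-cochain of `Gal(L/ℚ)` to `Gal(ℚbar/ℚ)`. -/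
def h97_infl₂ {X : Type*} (c : (L ≃ₐ[ℚ] L) × (L ≃ₐ[ℚ] L) → X) : GQ × GQ → X :=
  fun g => c (h97_π L g.1, h97_π L g.2)

@[simp] theorem h97_infl₁_apply {X : Type*} (x : (L ≃ₐ[ℚ] L) → X) (g : GQ) :
    h97_infl₁ L x g = x (h97_π L g) := rfl

@[simp] theorem h97_infl₂_apply {X : Type*} (c : (L ≃ₐ[ℚ] L) × (L ≃ₐ[ℚ] L) → X) (g h : GQ) :
    h97_infl₂ L c (g, h) = c (h97_π L g, h97_π L h) := rfl

theorem h97_infl₁_inv {X : Type*} (x : (L ≃ₐ[ℚ] L) → X) : h97_Inv₁ L (h97_infl₁ L x) :=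
  fun g s hs => by simp only [h97_infl₁, h97_π_mul_of_mem L g s hs]

theorem h97_infl₂_inv {X : Type*} (c : (L ≃ₐ[ℚ] L) × (L ≃ₐ[ℚ] L) → X) :
    h97_Inv₂ L (h97_infl₂ L c) :=
  fun g g' s s' hs hs' => by
    simp only [h97_infl₂, h97_π_mul_of_mem L g s hs, h97_π_mul_of_mem L g' s' hs']

theorem h97_infl₁_injective {X : Type*} :
    Function.Injective (h97_infl₁ L : ((L ≃ₐ[ℚ] L) → X) → GQ → X) := by
  intro x y h
  funext a
  obtain ⟨σ, rfl⟩ := h97_π_surjective L a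
  exact congrFun h σ

theorem h97_infl₂_injective {X : Type*} :
    Function.Injective
      (h97_infl₂ L : ((L ≃ₐ[ℚ] L) × (L ≃ₐ[ℚ] L) → X) → GQ × GQ → X) := by
  intro x y h
  funext ⟨a, b⟩
  obtain ⟨σ, rfl⟩ := h97_π_surjective L a
  obtain ⟨τ, rfl⟩ := h97_π_surjective L b
  exact congrFun h (σ, τ)

theorem h97_exists_infl₁ {X : Type*} (x : GQ → X) (hx : h97_Inv₁ L x) :
    ∃ y : (L ≃ₐ[ℚ] L) → X, h97_infl₁ L y = x := by
  refine ⟨fun a => x (h97_sec L a), ?_⟩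
  funext g
  obtain ⟨s, hs, h⟩ := (h97_π_eq_iff L g (h97_sec L (h97_π L g))).1 (h97_π_sec L _).symm
  change x (h97_sec L (h97_π L g)) = x g
  rw [h, hx g s hs]

theorem h97_exists_infl₂ {X : Type*} (c : GQ × GQ → X) (hc : h97_Inv₂ L c) :
    ∃ d : (L ≃ₐ[ℚ] L) × (L ≃ₐ[ℚ] L) → X, h97_infl₂ L d = c := by
  refine ⟨fun a => c (h97_sec L a.1, h97_sec L a.2), ?_⟩
  funext ⟨g, g'⟩
  obtain ⟨s, hs, h⟩ := (h97_π_eq_iff L g (h97_sec L (h97_π L g))).1 (h97_π_sec L _).symm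
  obtain ⟨s', hs', h'⟩ := (h97_π_eq_iff L g' (h97_sec L (h97_π L g'))).1 (h97_π_sec L _).symm
  change c (h97_sec L (h97_π L g), h97_sec L (h97_π L g')) = c (g, g')
  rw [h, h', hc g g' s s' hs hs']

end Infl

section Tr

variable {L L' : IntermediateField ℚ Qb} [Normal ℚ L] [Normal ℚ L']

/-- Inflation of a 1-cochain of `Gal(L/ℚ)` to `Gal(L'/ℚ)`, `L ≤ L'`. -/
def h97_tr₁ (h : L ≤ L') {X : Type*} (x : (L ≃ₐ[ℚ] L) → X) : (L' ≃ₐ[ℚ] L') → X :=
  fun a => x (h97_res h a)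

/-- Inflation of a 2-cochain of `Gal(L/ℚ)` to `Gal(L'/ℚ)`, `L ≤ L'`. -/
def h97_tr₂ (h : L ≤ L') {X : Type*} (c : (L ≃ₐ[ℚ] L) × (L ≃ₐ[ℚ] L) → X) :
    (L' ≃ₐ[ℚ] L') × (L' ≃ₐ[ℚ] L') → X :=
  fun a => c (h97_res h a.1, h97_res h a.2)

@[simp] theorem h97_tr₁_apply (h : L ≤ L') {X : Type*} (x : (L ≃ₐ[ℚ] L) → X)
    (a : L' ≃ₐ[ℚ] L') : h97_tr₁ h x a = x (h97_res h a) := rfl

@[simp] theorem h97_tr₂_apply (h : L ≤ L') {X : Type*}
    (c : (L ≃ₐ[ℚ] L) × (L ≃ₐ[ℚ] L) → X) (a b : L' ≃ₐ[ℚ] L') :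
    h97_tr₂ h c (a, b) = c (h97_res h a, h97_res h b) := rfl

theorem h97_infl₁_tr₁ (h : L ≤ L') {X : Type*} (x : (L ≃ₐ[ℚ] L) → X) :
    h97_infl₁ L' (h97_tr₁ h x) = h97_infl₁ L x := by
  funext g
  simp only [h97_infl₁, h97_tr₁, h97_res_π]

theorem h97_infl₂_tr₂ (h : L ≤ L') {X : Type*} (c : (L ≃ₐ[ℚ] L) × (L ≃ₐ[ℚ] L) → X) :
    h97_infl₂ L' (h97_tr₂ h c) = h97_infl₂ L c := by
  funext g
  simp only [h97_infl₂, h97_tr₂, h97_res_π]

end Tr

section Cocycles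

variable (L : IntermediateField ℚ Qb) [Normal ℚ L]
variable {k : Type} [CommRing k] (M : Rep k GQ) (hLM : ∀ s ∈ L.fixingSubgroup, M.ρ s = 1)

theorem h97_d₀₁_infl (m : M) :
    (d₀₁ M).hom m = h97_infl₁ L ((d₀₁ (h97_levelRep L M hLM)).hom m) := by
  funext g
  rw [h97_infl₁_apply, d₀₁_hom_apply, d₀₁_hom_apply, h97_levelRep_ρ_π]

theorem h97_d₁₂_infl₁ (x : (L ≃ₐ[ℚ] L) → M) :
    (d₁₂ M).hom (h97_infl₁ L x) = h97_infl₂ L ((d₁₂ (h97_levelRep L M hLM)).hom x) := by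
  funext ⟨g, h⟩
  rw [h97_infl₂_apply, d₁₂_hom_apply, d₁₂_hom_apply, h97_levelRep_ρ_π]
  simp only [h97_infl₁_apply, map_mul]

theorem h97_infl₁_mem_cocycles₁_iff (x : (L ≃ₐ[ℚ] L) → M) :
    h97_infl₁ L x ∈ cocycles₁ M ↔ x ∈ cocycles₁ (h97_levelRep L M hLM) := by
  rw [mem_cocycles₁_iff, mem_cocycles₁_iff]
  constructor
  · intro h a b
    obtain ⟨σ, rfl⟩ := h97_π_surjective L a
    obtain ⟨τ, rfl⟩ := h97_π_surjective L b
    have := h σ τ
    simp only [h97_infl₁_apply, map_mul] at this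
    rw [this, h97_levelRep_ρ_π]
  · intro h σ τ
    simp only [h97_infl₁_apply, map_mul]
    rw [h, h97_levelRep_ρ_π]

theorem h97_infl₂_mem_cocycles₂_iff (c : (L ≃ₐ[ℚ] L) × (L ≃ₐ[ℚ] L) → M) :
    h97_infl₂ L c ∈ cocycles₂ M ↔ c ∈ cocycles₂ (h97_levelRep L M hLM) := by
  rw [mem_cocycles₂_iff, mem_cocycles₂_iff]
  constructor
  · intro h a b e
    obtain ⟨σ, rfl⟩ := h97_π_surjective L a
    obtain ⟨τ, rfl⟩ := h97_π_surjective L b
    obtain ⟨υ, rfl⟩ := h97_π_surjective L e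
    have := h σ τ υ
    simp only [h97_infl₂_apply, map_mul] at this
    rw [this, h97_levelRep_ρ_π]
  · intro h σ τ υ
    simp only [h97_infl₂_apply, map_mul]
    rw [h, h97_levelRep_ρ_π]

end Cocycles

section ClassH2

variable (S : Finset Nat.Primes)
variable {k : Type} [CommRing k] (M : Rep k GQ)

/-- Inflation of 2-cocycles of `Gal(L/ℚ)` to level cocycles of `Gal(ℚbar/ℚ)`. -/
def h97_inflCoc₂ (L : IntermediateField ℚ Qb) [Normal ℚ L] (hL : L.IsUnramifiedOutside S)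
    (hLM : ∀ s ∈ L.fixingSubgroup, M.ρ s = 1) :
    cocycles₂ (h97_levelRep L M hLM) →ₗ[k] ↥(levelCocyclesS₂ S M) where
  toFun c := ⟨h97_infl₂ L c.1, (h97_infl₂_mem_cocycles₂_iff L M hLM c.1).2 c.2, L, hL,
    h97_infl₂_inv L c.1⟩
  map_add' _ _ := rfl
  map_smul' _ _ := rfl

@[simp] theorem h97_inflCoc₂_coe (L : IntermediateField ℚ Qb) [Normal ℚ L]
    (hL : L.IsUnramifiedOutside S) (hLM : ∀ s ∈ L.fixingSubgroup, M.ρ s = 1)
    (c : cocycles₂ (h97_levelRep L M hLM)) :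
    ((h97_inflCoc₂ S M L hL hLM c : ↥(levelCocyclesS₂ S M)) : GQ × GQ → M) =
      h97_infl₂ L c.1 := rfl

/-- The class in `continuousH2S` of a 2-cocycle of `Gal(L/ℚ)`. -/
def h97_classH2 (L : IntermediateField ℚ Qb) [Normal ℚ L] (hL : L.IsUnramifiedOutside S)
    (hLM : ∀ s ∈ L.fixingSubgroup, M.ρ s = 1) :
    cocycles₂ (h97_levelRep L M hLM) →ₗ[k] continuousH2S S M :=
  continuousH2Sπ S M ∘ₗ h97_inflCoc₂ S M L hL hLM

theorem h97_classH2_apply (L : IntermediateField ℚ Qb) [Normal ℚ L]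
    (hL : L.IsUnramifiedOutside S) (hLM : ∀ s ∈ L.fixingSubgroup, M.ρ s = 1)
    (c : cocycles₂ (h97_levelRep L M hLM)) :
    h97_classH2 S M L hL hLM c = continuousH2Sπ S M (h97_inflCoc₂ S M L hL hLM c) := rfl

/-- Inflation of 2-cocycles from `Gal(L/ℚ)` to `Gal(L'/ℚ)`. -/
def h97_trCoc₂ {L L' : IntermediateField ℚ Qb} [Normal ℚ L] [Normal ℚ L'] (h : L ≤ L')
    (hLM : ∀ s ∈ L.fixingSubgroup, M.ρ s = 1) :
    cocycles₂ (h97_levelRep L M hLM) →ₗ[k]
      cocycles₂ (h97_levelRep L' M (h97_triv_mono M h hLM)) where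
  toFun c := ⟨h97_tr₂ h c.1, by
    rw [← h97_infl₂_mem_cocycles₂_iff, h97_infl₂_tr₂, h97_infl₂_mem_cocycles₂_iff]
    exact c.2⟩
  map_add' _ _ := rfl
  map_smul' _ _ := rfl

@[simp] theorem h97_trCoc₂_coe {L L' : IntermediateField ℚ Qb} [Normal ℚ L] [Normal ℚ L']
    (h : L ≤ L') (hLM : ∀ s ∈ L.fixingSubgroup, M.ρ s = 1)
    (c : cocycles₂ (h97_levelRep L M hLM)) :
    ((h97_trCoc₂ M h hLM c :
      cocycles₂ (h97_levelRep L' M (h97_triv_mono M h hLM))) :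
        (L' ≃ₐ[ℚ] L') × (L' ≃ₐ[ℚ] L') → M) = h97_tr₂ h c.1 := rfl

/-- The class map is compatible with inflation between levels. -/
theorem h97_classH2_tr {L L' : IntermediateField ℚ Qb} [Normal ℚ L] [Normal ℚ L']
    (h : L ≤ L') (hL : L.IsUnramifiedOutside S) (hL' : L'.IsUnramifiedOutside S)
    (hLM : ∀ s ∈ L.fixingSubgroup, M.ρ s = 1) (c : cocycles₂ (h97_levelRep L M hLM)) :
    h97_classH2 S M L' hL' (h97_triv_mono M h hLM) (h97_trCoc₂ M h hLM c) =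
      h97_classH2 S M L hL hLM c := by
  rw [h97_classH2_apply, h97_classH2_apply]
  congr 1
  apply Subtype.ext
  exact h97_infl₂_tr₂ h c.1

/-- A class at level `L` vanishes iff the cocycle becomes a coboundary at some bigger level. -/
theorem h97_classH2_eq_zero_iff (L : IntermediateField ℚ Qb) [Normal ℚ L]
    (hL : L.IsUnramifiedOutside S) (hLM : ∀ s ∈ L.fixingSubgroup, M.ρ s = 1)
    (c : cocycles₂ (h97_levelRep L M hLM)) :
    h97_classH2 S M L hL hLM c = 0 ↔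
      ∃ (L' : IntermediateField ℚ Qb) (_ : Normal ℚ L') (h : L ≤ L'),
        L'.IsUnramifiedOutside S ∧
        h97_tr₂ h c.1 ∈ coboundaries₂ (h97_levelRep L' M (h97_triv_mono M h hLM)) := by
  constructor
  · intro h0
    rw [h97_classH2_apply] at h0
    obtain ⟨F, hle, hF, hgal, x, hx, hxc⟩ := (h97_H2Sπ_eq_zero_iff S M L hL _).1 h0
    have : Normal ℚ F := hgal.to_normal
    obtain ⟨y, rfl⟩ := h97_exists_infl₁ F x hx
    refine ⟨F, inferInstance, hle, hF, y, ?_⟩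
    apply h97_infl₂_injective F
    rw [← h97_d₁₂_infl₁ F M (h97_triv_mono M hle hLM) y, h97_infl₂_tr₂]
    funext ⟨g, h⟩
    rw [d₁₂_hom_apply]
    exact hxc g h
  · rintro ⟨L', _, h, hL', y, hy⟩
    rw [← h97_classH2_tr S M h hL hL' hLM c, h97_classH2_apply, continuousH2Sπ_eq_zero_iff,
      mem_levelCoboundariesS₂_iff]
    refine ⟨h97_infl₁ L' y, ⟨L', hL', h97_infl₁_inv L' y⟩, ?_⟩
    rw [h97_d₁₂_infl₁ L' M (h97_triv_mono M h hLM) y, hy]
    rfl

/-- Every class of `continuousH2S` comes from a 2-cocycle of `Gal(L/ℚ)` for some Galois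
level `L ≥ F₀` unramified outside `S`. -/
theorem h97_exists_classH2 (F₀ : IntermediateField ℚ Qb) (hF₀ : F₀.IsUnramifiedOutside S)
    (hF₀M : ∀ s ∈ F₀.fixingSubgroup, M.ρ s = 1) (y : continuousH2S S M) :
    ∃ (L : IntermediateField ℚ Qb) (_ : Normal ℚ L) (hle : F₀ ≤ L)
      (hL : L.IsUnramifiedOutside S),
      ∃ c : cocycles₂ (h97_levelRep L M (h97_triv_mono M hle hF₀M)),
        h97_classH2 S M L hL (h97_triv_mono M hle hF₀M) c = y := by
  obtain ⟨F, hle, hF, hgal, c, hc, rfl⟩ := h97_H2S_exists_rep S M F₀ hF₀ y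
  have : Normal ℚ F := hgal.to_normal
  obtain ⟨d, hd⟩ := h97_exists_infl₂ F (c : GQ × GQ → M) hc
  have hd2 : d ∈ cocycles₂ (h97_levelRep F M (h97_triv_mono M hle hF₀M)) := by
    rw [← h97_infl₂_mem_cocycles₂_iff, hd]
    exact c.2.1
  refine ⟨F, inferInstance, hle, hF, ⟨d, hd2⟩, ?_⟩
  rw [h97_classH2_apply]
  congr 1
  exact Subtype.ext hd

end ClassH2

section Lift

variable (S : Finset Nat.Primes)
variable {k : Type} [CommRing k] (M : Rep k GQ)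

/-- **Universal property of `continuousH2S`.**  A family of linear maps on the 2-cocycles of
the finite levels `Gal(L/ℚ)` (`L ≥ F₀` normal, unramified outside `S`) which kills coboundaries
and is compatible with inflation induces a linear map on `continuousH2S S M`. -/
theorem h97_H2S_lift (F₀ : IntermediateField ℚ Qb) (hF₀ : F₀.IsUnramifiedOutside S)
    (hF₀M : ∀ s ∈ F₀.fixingSubgroup, M.ρ s = 1)
    {X : Type*} [AddCommGroup X] [Module k X]
    (φ : ∀ (L : IntermediateField ℚ Qb) [Normal ℚ L] (hle : F₀ ≤ L)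
      (_ : L.IsUnramifiedOutside S),
      cocycles₂ (h97_levelRep L M (h97_triv_mono M hle hF₀M)) →ₗ[k] X)
    (hcob : ∀ (L : IntermediateField ℚ Qb) [Normal ℚ L] (hle : F₀ ≤ L)
      (hL : L.IsUnramifiedOutside S)
      (c : cocycles₂ (h97_levelRep L M (h97_triv_mono M hle hF₀M))),
      c.1 ∈ coboundaries₂ (h97_levelRep L M (h97_triv_mono M hle hF₀M)) → φ L hle hL c = 0)
    (htr : ∀ (L L' : IntermediateField ℚ Qb) [Normal ℚ L] [Normal ℚ L'] (hle : F₀ ≤ L)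
      (hL : L.IsUnramifiedOutside S) (hL' : L'.IsUnramifiedOutside S) (h : L ≤ L')
      (c : cocycles₂ (h97_levelRep L M (h97_triv_mono M hle hF₀M))),
      φ L' (hle.trans h) hL' (h97_trCoc₂ M h (h97_triv_mono M hle hF₀M) c) = φ L hle hL c) :
    ∃ Φ : continuousH2S S M →ₗ[k] X,
      ∀ (L : IntermediateField ℚ Qb) [Normal ℚ L] (hle : F₀ ≤ L) (hL : L.IsUnramifiedOutside S)
        (c : cocycles₂ (h97_levelRep L M (h97_triv_mono M hle hF₀M))),
        Φ (h97_classH2 S M L hL (h97_triv_mono M hle hF₀M) c) = φ L hle hL c := by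
  classical
  -- the graph of the map on level cocycles
  let R : (GQ × GQ → M) → X → Prop := fun c v =>
    ∃ (L : IntermediateField ℚ Qb) (_ : Normal ℚ L) (hle : F₀ ≤ L)
      (hL : L.IsUnramifiedOutside S)
      (d : cocycles₂ (h97_levelRep L M (h97_triv_mono M hle hF₀M))),
      h97_infl₂ L d.1 = c ∧ φ L hle hL d = v
  -- moving a witness to a bigger level
  have hmove : ∀ (L L' : IntermediateField ℚ Qb) [Normal ℚ L] [Normal ℚ L'] (hle : F₀ ≤ L)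
      (hL : L.IsUnramifiedOutside S) (hL' : L'.IsUnramifiedOutside S) (h : L ≤ L')
      (d : cocycles₂ (h97_levelRep L M (h97_triv_mono M hle hF₀M))),
      h97_infl₂ L' (h97_trCoc₂ M h (h97_triv_mono M hle hF₀M) d).1 = h97_infl₂ L d.1 ∧
        φ L' (hle.trans h) hL' (h97_trCoc₂ M h (h97_triv_mono M hle hF₀M) d) = φ L hle hL d :=
    fun L L' _ _ hle hL hL' h d => ⟨h97_infl₂_tr₂ h d.1, htr L L' hle hL hL' h d⟩
  -- two witnesses at the same level
  have hsame : ∀ (L : IntermediateField ℚ Qb) [Normal ℚ L] (hle : F₀ ≤ L)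
      (hL : L.IsUnramifiedOutside S)
      (d d' : cocycles₂ (h97_levelRep L M (h97_triv_mono M hle hF₀M))),
      h97_infl₂ L d.1 = h97_infl₂ L d'.1 → φ L hle hL d = φ L hle hL d' := by
    intro L _ hle hL d d' h
    have : d = d' := Subtype.ext (h97_infl₂_injective L h)
    rw [this]
  -- existence
  have hex : ∀ c : ↥(levelCocyclesS₂ S M), ∃ v, R (c : GQ × GQ → M) v := by
    intro c
    obtain ⟨F, hle, hF, hgal, hc⟩ := (h97_isLevelConstantS₂_iff S F₀ hF₀ _).1 c.2.2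
    have : Normal ℚ F := hgal.to_normal
    obtain ⟨d, hd⟩ := h97_exists_infl₂ F (c : GQ × GQ → M) hc
    have hd2 : d ∈ cocycles₂ (h97_levelRep F M (h97_triv_mono M hle hF₀M)) := by
      rw [← h97_infl₂_mem_cocycles₂_iff, hd]
      exact c.2.1
    exact ⟨_, F, inferInstance, hle, hF, ⟨d, hd2⟩, hd, rfl⟩
  -- common level for two witnesses
  have hcommon : ∀ (c c' : GQ × GQ → M) (v v' : X), R c v → R c' v' →
      ∃ (L : IntermediateField ℚ Qb) (_ : Normal ℚ L) (hle : F₀ ≤ L)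
        (hL : L.IsUnramifiedOutside S)
        (d d' : cocycles₂ (h97_levelRep L M (h97_triv_mono M hle hF₀M))),
        (h97_infl₂ L d.1 = c ∧ φ L hle hL d = v) ∧
        (h97_infl₂ L d'.1 = c' ∧ φ L hle hL d' = v') := by
    rintro c c' v v' ⟨L, _, hle, hL, d, rfl, rfl⟩ ⟨L', _, hle', hL', d', rfl, rfl⟩
    obtain ⟨F, h1, h2, hF, hgal⟩ := h56_exists_galois_level_ge S L L' hL hL'
    have : Normal ℚ F := hgal.to_normal
    exact ⟨F, inferInstance, hle.trans h1, hF,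
      h97_trCoc₂ M h1 (h97_triv_mono M hle hF₀M) d,
      h97_trCoc₂ M h2 (h97_triv_mono M hle' hF₀M) d',
      hmove L F hle hL hF h1 d, hmove L' F hle' hL' hF h2 d'⟩
  -- uniqueness
  have huniq : ∀ (c : GQ × GQ → M) (v v' : X), R c v → R c v' → v = v' := by
    intro c v v' hv hv'
    obtain ⟨L, _, hle, hL, d, d', ⟨h1, rfl⟩, ⟨h2, rfl⟩⟩ := hcommon c c v v' hv hv'
    exact hsame L hle hL d d' (h1.trans h2.symm)
  have hadd : ∀ (c c' : GQ × GQ → M) (v v' : X), R c v → R c' v' → R (c + c') (v + v') := by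
    intro c c' v v' hv hv'
    obtain ⟨L, _, hle, hL, d, d', ⟨h1, rfl⟩, ⟨h2, rfl⟩⟩ := hcommon c c' v v' hv hv'
    refine ⟨L, inferInstance, hle, hL, d + d', ?_, map_add _ _ _⟩
    rw [← h1, ← h2]
    rfl
  have hsmul : ∀ (a : k) (c : GQ × GQ → M) (v : X), R c v → R (a • c) (a • v) := by
    rintro a c v ⟨L, _, hle, hL, d, rfl, rfl⟩
    exact ⟨L, inferInstance, hle, hL, a • d, rfl, map_smul _ _ _⟩
  choose Ψ hΨ using hex
  let Ψl : ↥(levelCocyclesS₂ S M) →ₗ[k] X :=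
    { toFun := Ψ
      map_add' := fun c c' =>
        huniq _ _ _ (hΨ (c + c')) (hadd _ _ _ _ (hΨ c) (hΨ c'))
      map_smul' := fun a c => huniq _ _ _ (hΨ (a • c)) (hsmul a _ _ (hΨ c)) }
  have hker : (levelCoboundariesS₂ S M).comap (levelCocyclesS₂ S M).subtype ≤
      LinearMap.ker Ψl := by
    intro c hc
    rw [Submodule.mem_comap, Submodule.subtype_apply, mem_levelCoboundariesS₂_iff] at hc
    obtain ⟨x, hx, hxc⟩ := hc
    obtain ⟨F, hle, hF, hgal, hx'⟩ := (h97_isLevelConstantS₁_iff S F₀ hF₀ _).1 hx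
    have : Normal ℚ F := hgal.to_normal
    obtain ⟨y, rfl⟩ := h97_exists_infl₁ F x hx'
    rw [LinearMap.mem_ker]
    have hmem : (d₁₂ (h97_levelRep F M (h97_triv_mono M hle hF₀M))).hom y ∈
        cocycles₂ (h97_levelRep F M (h97_triv_mono M hle hF₀M)) :=
      coboundaries₂_le_cocycles₂ _ ⟨y, rfl⟩
    have hR : R (c : GQ × GQ → M) 0 := by
      refine ⟨F, inferInstance, hle, hF, ⟨_, hmem⟩, ?_, hcob F hle hF ⟨_, hmem⟩ ⟨y, rfl⟩⟩
      rw [← hxc, h97_d₁₂_infl₁ F M (h97_triv_mono M hle hF₀M) y]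
    exact huniq _ _ _ (hΨ c) hR
  refine ⟨Submodule.liftQ _ Ψl hker, fun L _ hle hL c => ?_⟩
  rw [h97_classH2_apply]
  change Ψ (h97_inflCoc₂ S M L hL (h97_triv_mono M hle hF₀M) c) = φ L hle hL c
  exact huniq _ _ _ (hΨ _) ⟨L, inferInstance, hle, hL, c, rfl, rfl⟩

end Lift

section ShaLevel

variable {p : ℕ} [Fact p.Prime] (S : Finset Nat.Primes)

/-- Membership in `sha₂` of a class at level `L` (for `p` odd). -/
theorem h97_classH2_mem_sha₂_iff (hp2 : p ≠ 2) (M : Rep (ZMod p) GQ)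
    (L : IntermediateField ℚ Qb) [Normal ℚ L] (hL : L.IsUnramifiedOutside S)
    (hLM : ∀ s ∈ L.fixingSubgroup, M.ρ s = 1) (c : cocycles₂ (h97_levelRep L M hLM)) :
    h97_classH2 S M L hL hLM c ∈ sha₂ S M ↔
      ∀ q : ↥S, ∃ x : primeLocalGaloisGroup q.1 → M,
        IsLevelConstant₁ (primeLocalToGlobal q.1) x ∧
        ∀ τ τ', M.ρ (primeLocalToGlobal q.1 τ) (x τ') - x (τ * τ') + x τ =
          c.1 (h97_π L (primeLocalToGlobal q.1 τ), h97_π L (primeLocalToGlobal q.1 τ')) := by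
  rw [h97_classH2_apply, h97_H2Sπ_mem_sha₂_iff S hp2]
  rfl

variable (A : Rep (ZMod p) GQ)

/-- Inflation of 1-cocycles of `Gal(L/ℚ)` to 1-cocycles of `Gal(ℚbar/ℚ)`. -/
def h97_inflCoc₁ (L : IntermediateField ℚ Qb) [Normal ℚ L]
    (hLA : ∀ s ∈ L.fixingSubgroup, A.ρ s = 1) :
    cocycles₁ (h97_levelRep L A hLA) →ₗ[ZMod p] cocycles₁ A where
  toFun c := ⟨h97_infl₁ L c.1, (h97_infl₁_mem_cocycles₁_iff L A hLA c.1).2 c.2⟩
  map_add' _ _ := rfl
  map_smul' _ _ := rfl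

@[simp] theorem h97_inflCoc₁_coe (L : IntermediateField ℚ Qb) [Normal ℚ L]
    (hLA : ∀ s ∈ L.fixingSubgroup, A.ρ s = 1) (c : cocycles₁ (h97_levelRep L A hLA)) :
    ((h97_inflCoc₁ A L hLA c : cocycles₁ A) : GQ → A) = h97_infl₁ L c.1 := rfl

/-- The class in `H¹(Gal(ℚbar/ℚ), A)` of a 1-cocycle of `Gal(L/ℚ)`. -/
def h97_classH1 (L : IntermediateField ℚ Qb) [Normal ℚ L]
    (hLA : ∀ s ∈ L.fixingSubgroup, A.ρ s = 1) :
    cocycles₁ (h97_levelRep L A hLA) →ₗ[ZMod p] H1 A :=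
  (H1π A).hom ∘ₗ h97_inflCoc₁ A L hLA

theorem h97_classH1_apply (L : IntermediateField ℚ Qb) [Normal ℚ L]
    (hLA : ∀ s ∈ L.fixingSubgroup, A.ρ s = 1) (c : cocycles₁ (h97_levelRep L A hLA)) :
    h97_classH1 A L hLA c = (H1π A).hom (h97_inflCoc₁ A L hLA c) := rfl

/-- Inflation is injective on `H¹`: a class at level `L` vanishes iff the cocycle of
`Gal(L/ℚ)` is a coboundary. -/
theorem h97_classH1_eq_zero_iff (L : IntermediateField ℚ Qb) [Normal ℚ L]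
    (hLA : ∀ s ∈ L.fixingSubgroup, A.ρ s = 1) (c : cocycles₁ (h97_levelRep L A hLA)) :
    h97_classH1 A L hLA c = 0 ↔ ∃ b : A, ∀ a : L ≃ₐ[ℚ] L,
      c.1 a = (h97_levelRep L A hLA).ρ a b - b := by
  rw [h97_classH1_apply, h97_H1π_eq_zero_iff]
  constructor
  · rintro ⟨b, hb⟩
    refine ⟨b, fun a => ?_⟩
    obtain ⟨σ, rfl⟩ := h97_π_surjective L a
    rw [h97_levelRep_ρ_π]
    exact hb σ
  · rintro ⟨b, hb⟩
    refine ⟨b, fun g => ?_⟩
    rw [h97_inflCoc₁_coe, h97_infl₁_apply, hb, h97_levelRep_ρ_π]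

/-- Membership in `sha₁` of a class at level `L` (for `p` odd). -/
theorem h97_classH1_mem_sha₁_iff (hp2 : p ≠ 2) (L : IntermediateField ℚ Qb) [Normal ℚ L]
    (hL : L.IsUnramifiedOutside S) (hLA : ∀ s ∈ L.fixingSubgroup, A.ρ s = 1)
    (c : cocycles₁ (h97_levelRep L A hLA)) :
    h97_classH1 A L hLA c ∈ sha₁ S A ↔
      ∀ q : ↥S, ∃ b : A, ∀ τ : primeLocalGaloisGroup q.1,
        c.1 (h97_π L (primeLocalToGlobal q.1 τ)) = A.ρ (primeLocalToGlobal q.1 τ) b - b := by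
  have hlev : IsLevelConstantS₁ S ((h97_inflCoc₁ A L hLA c : cocycles₁ A) : GQ → A) :=
    ⟨L, hL, h97_infl₁_inv L c.1⟩
  rw [h97_classH1_apply, h97_H1π_mem_sha₁_iff S A hp2 _ hlev]
  rfl

/-- Every element of `sha₁` is the class of a 1-cocycle of `Gal(L/ℚ)` for some Galois level
`L ≥ F₀` unramified outside `S`. -/
theorem h97_sha₁_exists_classH1 (hp2 : p ≠ 2) (F₀ : IntermediateField ℚ Qb)
    (hF₀ : F₀.IsUnramifiedOutside S) (hF₀A : ∀ s ∈ F₀.fixingSubgroup, A.ρ s = 1)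
    (x : H1 A) (hx : x ∈ sha₁ S A) :
    ∃ (L : IntermediateField ℚ Qb) (_ : Normal ℚ L) (hle : F₀ ≤ L)
      (_ : L.IsUnramifiedOutside S),
      ∃ c : cocycles₁ (h97_levelRep L A (h97_triv_mono A hle hF₀A)),
        h97_classH1 A L (h97_triv_mono A hle hF₀A) c = x := by
  obtain ⟨F, hle, hF, hgal, c, hc, -, rfl⟩ := h97_sha₁_exists_rep S A hp2 F₀ hF₀ x hx
  have : Normal ℚ F := hgal.to_normal
  obtain ⟨d, hd⟩ := h97_exists_infl₁ F (c : GQ → A) hc
  have hd2 : d ∈ cocycles₁ (h97_levelRep F A (h97_triv_mono A hle hF₀A)) := by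
    rw [← h97_infl₁_mem_cocycles₁_iff, hd]
    exact c.2
  refine ⟨F, inferInstance, hle, hF, ⟨d, hd2⟩, ?_⟩
  rw [h97_classH1_apply]
  congr 1
  exact Subtype.ext hd

end ShaLevel

end

end Fermat.Agent.S55
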