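import Mathlib
import Fermat.Agent.S55.h94_EmbCoind
import Fermat.Agent.S55.h97_GalLevel

/-!
# S55, GLOB-AMB, fields `e_ι`, `e_smul`, `e_bij` of `h12_LevFacts`: instance-free cores

`F` a normal intermediate field of `ℚbar/ℚ`, `Γ = Gal(F/ℚ)`, `π = h97_π F`, base embedding
`j₀ = h94_emb q F 1` (the restriction of `padicEmbedding q` to `F`).  For `y ∈ J_q(F)`
(`h25_Jq ↥F q`) the model of `e (π g • y)` is `y (j₀ ∘ π g)`.

* `h94_emb_π` : `h94_emb q F g = j₀ ∘ π g`;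
* `h94_emb_inclusion` : `j₀' ∘ inclusion = j₀` for `F ≤ F'`  (core of `e_ι`);
* `h94_ev_local` : `y (j₀ ∘ π (r_q τ)) = τ (y j₀)`  (core of `e_smul`);
* `h94_coind_π` : the functions `φ : G_ℚ → (PadicAlgCl q)ˣ` which are equivariant for the local
  Galois group and right invariant under `Gal(ℚbar/F)` are exactly `g ↦ y (j₀ ∘ π g)` for a
  unique `y ∈ J_q(F)`  (core of `e_bij`).
-/

set_option autoImplicit false

namespace Fermat.Agent.S55

local notation "Qb" => AlgebraicClosure ℚ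
local notation "GQ" => (AlgebraicClosure ℚ ≃ₐ[ℚ] AlgebraicClosure ℚ)

section

variable (q : ℕ) [Fact q.Prime] (F : IntermediateField ℚ Qb) [Normal ℚ F]

/-- The embedding attached to `g` is the base embedding composed with the restriction of `g`. -/
theorem h94_emb_π (g : GQ) :
    h94_emb q F g = (h94_emb q F 1).comp ((h97_π F g : ↥F ≃ₐ[ℚ] ↥F) : ↥F →+* ↥F) := by
  have h := h94_emb_mul_of_restrict q F 1 g ((h97_π F g : ↥F ≃ₐ[ℚ] ↥F) : ↥F →+* ↥F)
    (fun x => (h97_π_apply F g x).symm)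
  rwa [one_mul] at h

/-- Every embedding of `F` is the base embedding composed with an element of `Gal(F/ℚ)`. -/
theorem h94_emb_exists_gal (j : ↥F →+* PadicAlgCl q) :
    ∃ σ : ↥F ≃ₐ[ℚ] ↥F, j = (h94_emb q F 1).comp (σ : ↥F →+* ↥F) := by
  obtain ⟨g, rfl⟩ := h94_emb_surjective q F j
  exact ⟨h97_π F g, h94_emb_π q F g⟩

/-- Core of `e_smul`. -/
theorem h94_ev_local (y : h25_Jq ↥F q) (τ : PadicAlgCl q ≃ₐ[ℚ_[q]] PadicAlgCl q) :
    ((y : (↥F →+* PadicAlgCl q) → (PadicAlgCl q)ˣ)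
      ((h94_emb q F 1).comp
        ((h97_π F (localGaloisToGlobal q τ) : ↥F ≃ₐ[ℚ] ↥F) : ↥F →+* ↥F)) : PadicAlgCl q) =
      τ ((y : (↥F →+* PadicAlgCl q) → (PadicAlgCl q)ˣ) (h94_emb q F 1)) := by
  rw [← h94_emb_π]
  have h := h94_Jq_local q F y τ 1
  rwa [mul_one] at h

/-- Core of `e_bij`: `J_q(F)` is coinduced, in terms of `Gal(F/ℚ)`. -/
theorem h94_coind_π (φ : GQ → (PadicAlgCl q)ˣ)
    (h1 : ∀ (τ : PadicAlgCl q ≃ₐ[ℚ_[q]] PadicAlgCl q) (g : GQ),
      (φ (localGaloisToGlobal q τ * g) : PadicAlgCl q) = τ (φ g))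
    (h2 : ∀ g s : GQ, s ∈ F.fixingSubgroup → φ (g * s) = φ g) :
    ∃! y : h25_Jq ↥F q, ∀ g : GQ,
      (y : (↥F →+* PadicAlgCl q) → (PadicAlgCl q)ˣ)
        ((h94_emb q F 1).comp ((h97_π F g : ↥F ≃ₐ[ℚ] ↥F) : ↥F →+* ↥F)) = φ g := by
  obtain ⟨y, hy, huniq⟩ := h94_coind q F φ h1 h2
  refine ⟨y, fun g => ?_, fun y' hy' => huniq y' fun g => ?_⟩
  · rw [← h94_emb_π]
    exact hy g
  · rw [h94_emb_π]
    exact hy' g

end

section Incl

variable (q : ℕ) [Fact q.Prime] {F F' : IntermediateField ℚ Qb}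

/-- Core of `e_ι`: the base embeddings are compatible with inclusions of levels. -/
theorem h94_emb_inclusion (h : F ≤ F') (g : GQ) :
    (h94_emb q F' g).comp ((IntermediateField.inclusion h : ↥F →ₐ[ℚ] ↥F') : ↥F →+* ↥F') =
      h94_emb q F g := by
  ext x
  rfl

end Incl

end Fermat.Agent.S55
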