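import Mathlib
import Fermat.Agent.S55.h94_EmbCoindGal
import Fermat.Agent.S55.h33_GlobKumDefs
import Fermat.Agent.S55.h63_LocAmb

/-!
# S55, GLOB-AMB: the `J`/`e`/`π` block of the concrete instance of `h12_LevFacts`

Levels are normal intermediate fields `F ≤ F'` of `ℚbar/ℚ`; `Γ = Gal(F/ℚ)`, `π = h97_π F`,
`K = h33_relGal F F'`.  The semi-local module is `J_q(F) = h25_Jq ↥F q` (multiplicative,
unlocalised).  Everything is stated WITHOUT any action instance, through the monoid homs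

* `h94_JqMap q f : h25_Jq K q →* h25_Jq K' q` : pull-back `y ↦ (j' ↦ y (j' ∘ f))` along a ring
  hom `f : K →+* K'` (the `q`-component of `h25_Jmap S f`: `h94_Jmap_apply`);
* `h94_JqGal q F σ = h94_JqMap q σ` : the Galois action `(σ • y) j = y (j ∘ σ)`;
* `h94_JqExt q h = h94_JqMap q (inclusion h)` : the level map `ιJ`;
* `h94_JqEv q F : h25_Jq ↥F q →* (PadicAlgCl q)ˣ` : evaluation at the restriction of
  `padicEmbedding q` to `F` (the map `e`).

Fields of `h12_LevFacts`: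
`π_surj`, `π_ker` = `h97_π_surjective`, `h97_π_ker`; `K_mem` = `h94_π_mem_relGal`;
`ιJ_refl/_trans/_smul/_inj/_desc` = `h94_JqExt_refl/_trans/_gal/_injective/_desc`;
`e_ι`, `e_smul`, `e_bij` = `h94_JqEv_ext`, `h94_JqEv_local`, `h94_JqEv_bij`, and in the language
of helper63's `h63_XX`: `h94_e`, `h94_e_ext`, `h94_e_smul`, `h94_e_bij`.
-/

set_option autoImplicit false

open ExtCitation

namespace Fermat.Agent.S55

local notation "Qb" => AlgebraicClosure ℚ
local notation "GQ" => (AlgebraicClosure ℚ ≃ₐ[ℚ] AlgebraicClosure ℚ)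

section JqMap

variable (q : ℕ) [Fact q.Prime] {K K' K'' : Type*} [Field K] [Field K'] [Field K'']

/-- Pull-back on `J_q` along a ring homomorphism: `y ↦ (j' ↦ y (j' ∘ f))`. -/
noncomputable def h94_JqMap (f : K →+* K') : h25_Jq K q →* h25_Jq K' q where
  toFun y := ⟨fun j' => y.1 (j'.comp f), fun τ j' => by
    have h := y.2 τ (j'.comp f)
    simpa [RingHom.comp_assoc] using h⟩
  map_one' := rfl
  map_mul' _ _ := rfl

theorem h94_JqMap_apply (f : K →+* K') (y : h25_Jq K q) (j' : K' →+* PadicAlgCl q) :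
    (h94_JqMap q f y).1 j' = y.1 (j'.comp f) := rfl

theorem h94_JqMap_id (y : h25_Jq K q) : h94_JqMap q (RingHom.id K) y = y := rfl

theorem h94_JqMap_comp (f : K →+* K') (f' : K' →+* K'') (y : h25_Jq K q) :
    h94_JqMap q (f'.comp f) y = h94_JqMap q f' (h94_JqMap q f y) := rfl

end JqMap

/-- `h94_JqMap` is the `q`-component of `h25_Jmap`. -/
theorem h94_Jmap_apply {K K' : Type*} [Field K] [NumberField K] [Field K'] [NumberField K']
    (S : Finset Nat.Primes) (f : K →+* K') (φ : h25_J K S) (q : S) :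
    h25_Jmap S f φ q = h94_JqMap ((q : Nat.Primes) : ℕ) f (φ q) := rfl

section Levels

variable (q : ℕ) [Fact q.Prime]

/-- The Galois action on `J_q(F)`: `(σ • y) j = y (j ∘ σ)`. -/
noncomputable def h94_JqGal (F : IntermediateField ℚ Qb) (σ : ↥F ≃ₐ[ℚ] ↥F) : h25_Jq ↥F q →* h25_Jq ↥F q :=
  h94_JqMap q ((σ : ↥F ≃ₐ[ℚ] ↥F) : ↥F →+* ↥F)

theorem h94_JqGal_apply (F : IntermediateField ℚ Qb) (σ : ↥F ≃ₐ[ℚ] ↥F) (y : h25_Jq ↥F q)
    (j : ↥F →+* PadicAlgCl q) :
    (h94_JqGal q F σ y).1 j = y.1 (j.comp ((σ : ↥F ≃ₐ[ℚ] ↥F) : ↥F →+* ↥F)) := rfl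

theorem h94_JqGal_one (F : IntermediateField ℚ Qb) (y : h25_Jq ↥F q) :
    h94_JqGal q F 1 y = y := rfl

theorem h94_JqGal_mul (F : IntermediateField ℚ Qb) (σ σ' : ↥F ≃ₐ[ℚ] ↥F) (y : h25_Jq ↥F q) :
    h94_JqGal q F (σ * σ') y = h94_JqGal q F σ (h94_JqGal q F σ' y) := rfl

/-- The level map `J_q(F) → J_q(F')` for `F ≤ F'`. -/
noncomputable def h94_JqExt {F F' : IntermediateField ℚ Qb} (h : F ≤ F') : h25_Jq ↥F q →* h25_Jq ↥F' q :=
  h94_JqMap q ((IntermediateField.inclusion h : ↥F →ₐ[ℚ] ↥F') : ↥F →+* ↥F')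

theorem h94_JqExt_apply {F F' : IntermediateField ℚ Qb} (h : F ≤ F') (y : h25_Jq ↥F q)
    (j' : ↥F' →+* PadicAlgCl q) :
    (h94_JqExt q h y).1 j' =
      y.1 (j'.comp ((IntermediateField.inclusion h : ↥F →ₐ[ℚ] ↥F') : ↥F →+* ↥F')) := rfl

/-- Evaluation at the base embedding (the restriction of `padicEmbedding q` to `F`). -/
noncomputable def h94_JqEv (F : IntermediateField ℚ Qb) : h25_Jq ↥F q →* (PadicAlgCl q)ˣ where
  toFun y := y.1 (h94_emb q F 1)
  map_one' := rfl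
  map_mul' _ _ := rfl

theorem h94_JqEv_apply (F : IntermediateField ℚ Qb) (y : h25_Jq ↥F q) :
    h94_JqEv q F y = y.1 (h94_emb q F 1) := rfl

/-- field `ιJ_refl`. -/
theorem h94_JqExt_refl (F : IntermediateField ℚ Qb) (y : h25_Jq ↥F q) :
    h94_JqExt q (le_refl F) y = y := by
  apply Subtype.ext
  funext j
  rw [h94_JqExt_apply]
  congr 1

/-- field `ιJ_trans`. -/
theorem h94_JqExt_trans {F F' F'' : IntermediateField ℚ Qb} (h : F ≤ F') (h' : F' ≤ F'')
    (y : h25_Jq ↥F q) : h94_JqExt q h' (h94_JqExt q h y) = h94_JqExt q (h.trans h') y := by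
  apply Subtype.ext
  funext j
  rw [h94_JqExt_apply, h94_JqExt_apply, h94_JqExt_apply]
  congr 1

/-- field `e_ι`. -/
theorem h94_JqEv_ext {F F' : IntermediateField ℚ Qb} (h : F ≤ F') (y : h25_Jq ↥F q) :
    h94_JqEv q F' (h94_JqExt q h y) = h94_JqEv q F y := by
  rw [h94_JqEv_apply, h94_JqExt_apply, h94_emb_inclusion, h94_JqEv_apply]

/-- the value of `σ • y` at the base embedding, for `σ = π g`. -/
theorem h94_JqEv_gal (F : IntermediateField ℚ Qb) [Normal ℚ F] (g : GQ) (y : h25_Jq ↥F q) :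
    h94_JqEv q F (h94_JqGal q F (h97_π F g) y) = y.1 (h94_emb q F g) := by
  rw [h94_JqEv_apply, h94_JqGal_apply, ← h94_emb_π]

/-- field `ιJ_smul`. -/
theorem h94_JqExt_gal {F F' : IntermediateField ℚ Qb} [Normal ℚ F] [Normal ℚ F'] (h : F ≤ F')
    (g : GQ) (y : h25_Jq ↥F q) :
    h94_JqExt q h (h94_JqGal q F (h97_π F g) y) =
      h94_JqGal q F' (h97_π F' g) (h94_JqExt q h y) := by
  have hc : ((IntermediateField.inclusion h : ↥F →ₐ[ℚ] ↥F') : ↥F →+* ↥F').comp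
      ((h97_π F g : ↥F ≃ₐ[ℚ] ↥F) : ↥F →+* ↥F) =
      ((h97_π F' g : ↥F' ≃ₐ[ℚ] ↥F') : ↥F' →+* ↥F').comp
        ((IntermediateField.inclusion h : ↥F →ₐ[ℚ] ↥F') : ↥F →+* ↥F') := by
    refine RingHom.ext fun x => Subtype.ext ?_
    show ((h97_π F g x : ↥F) : Qb) = ((h97_π F' g (IntermediateField.inclusion h x) : ↥F') : Qb)
    rw [h97_π_apply, h97_π_apply]
    rfl
  apply Subtype.ext
  funext j
  rw [h94_JqExt_apply, h94_JqGal_apply, h94_JqGal_apply, h94_JqExt_apply, RingHom.comp_assoc,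
    RingHom.comp_assoc, hc]

/-- field `ιJ_inj`. -/
theorem h94_JqExt_injective {F F' : IntermediateField ℚ Qb} (h : F ≤ F') :
    Function.Injective (h94_JqExt q h) := by
  intro y y' hyy
  apply Subtype.ext
  funext j
  obtain ⟨g, rfl⟩ := h94_emb_surjective q F j
  have h1 := congrArg (fun z : h25_Jq ↥F' q => z.1 (h94_emb q F' g)) hyy
  simp only [h94_JqExt_apply, h94_emb_inclusion] at h1
  exact h1

/-- field `K_mem`: `π_{F'} g ∈ Gal(F'/F)` iff `g` fixes `F`. -/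
theorem h94_π_mem_relGal {F F' : IntermediateField ℚ Qb} [Normal ℚ F'] (h : F ≤ F') (g : GQ) :
    h97_π F' g ∈ h33_relGal F F' ↔ g ∈ F.fixingSubgroup := by
  rw [h33_mem_relGal, IntermediateField.mem_fixingSubgroup_iff]
  constructor
  · intro hg x hx
    have h1 := congrArg Subtype.val (hg ⟨x, h hx⟩ hx)
    rw [h97_π_apply] at h1
    exact h1
  · intro hg x hx
    apply Subtype.ext
    rw [h97_π_apply]
    exact hg x hx

/-- field `ιJ_desc`: the `Gal(F'/F)`-invariants of `J_q(F')` come from `J_q(F)`. -/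
theorem h94_JqExt_desc {F F' : IntermediateField ℚ Qb} [Normal ℚ F'] (h : F ≤ F')
    (y' : h25_Jq ↥F' q) (hy' : ∀ t ∈ h33_relGal F F', h94_JqGal q F' t y' = y') :
    y' ∈ (h94_JqExt q h).range := by
  -- independence of the lift of an embedding of `F`
  have hind : ∀ g g' : GQ, h94_emb q F g = h94_emb q F g' →
      y'.1 (h94_emb q F' g) = y'.1 (h94_emb q F' g') := by
    intro g g' hgg
    have hs : g⁻¹ * g' ∈ F.fixingSubgroup := (h94_emb_eq_iff g g').1 hgg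
    have hmem : h97_π F' (g⁻¹ * g') ∈ h33_relGal F F' := (h94_π_mem_relGal h _).2 hs
    have h1 := congrArg (fun z : h25_Jq ↥F' q => z.1 (h94_emb q F' g)) (hy' _ hmem)
    simp only [h94_JqGal_apply] at h1
    have h2 := h94_emb_mul_of_restrict q F' g (g⁻¹ * g')
      ((h97_π F' (g⁻¹ * g') : ↥F' ≃ₐ[ℚ] ↥F') : ↥F' →+* ↥F')
      (fun x => (h97_π_apply F' (g⁻¹ * g') x).symm)
    rw [mul_inv_cancel_left] at h2
    rw [h2]
    exact h1.symm
  choose γ hγ using h94_emb_surjective q F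
  refine ⟨⟨fun j => y'.1 (h94_emb q F' (γ j)), ?_⟩, ?_⟩
  · intro τ j
    have e1 : h94_emb q F (γ ((τ : PadicAlgCl q →+* PadicAlgCl q).comp j)) =
        h94_emb q F (localGaloisToGlobal q τ * γ j) := by
      rw [hγ, h94_emb_local, hγ]
    show (y'.1 (h94_emb q F' (γ ((τ : PadicAlgCl q →+* PadicAlgCl q).comp j))) :
      PadicAlgCl q) = τ (y'.1 (h94_emb q F' (γ j)))
    rw [hind _ _ e1, h94_emb_local]
    exact y'.2 τ _
  · apply Subtype.ext
    funext j'
    obtain ⟨g, rfl⟩ := h94_emb_surjective q F' j'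
    show y'.1 (h94_emb q F' (γ ((h94_emb q F' g).comp
      ((IntermediateField.inclusion h : ↥F →ₐ[ℚ] ↥F') : ↥F →+* ↥F')))) = y'.1 (h94_emb q F' g)
    apply hind
    rw [hγ, h94_emb_inclusion]

/-- field `e_smul` (units form). -/
theorem h94_JqEv_local (F : IntermediateField ℚ Qb) [Normal ℚ F]
    (τ : PadicAlgCl q ≃ₐ[ℚ_[q]] PadicAlgCl q) (y : h25_Jq ↥F q) :
    (h94_JqEv q F (h94_JqGal q F (h97_π F (localGaloisToGlobal q τ)) y) : PadicAlgCl q) =
      τ (h94_JqEv q F y) :=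
  h94_ev_local q F y τ

/-- field `e_bij` (units form): `J_q(F)` is coinduced. -/
theorem h94_JqEv_bij (F : IntermediateField ℚ Qb) [Normal ℚ F] (φ : GQ → (PadicAlgCl q)ˣ)
    (h1 : ∀ (τ : PadicAlgCl q ≃ₐ[ℚ_[q]] PadicAlgCl q) (g : GQ),
      (φ (localGaloisToGlobal q τ * g) : PadicAlgCl q) = τ (φ g))
    (h2 : ∀ g s : GQ, s ∈ F.fixingSubgroup → φ (g * s) = φ g) :
    ∃! y : h25_Jq ↥F q, ∀ g : GQ, h94_JqEv q F (h94_JqGal q F (h97_π F g) y) = φ g :=
  h94_coind_π q F φ h1 h2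

end Levels

/-! ### The same in the language of `h63_XX` -/

section XX

variable (q : Nat.Primes)

/-- The map `e q L : J q L →+ XX q` of `h12_LevFacts` for `J q L = Additive (h25_Jq ↥F q)`,
`XX q = h63_XX q`. -/
noncomputable def h94_e (F : IntermediateField ℚ Qb) :
    Additive (h25_Jq ↥F (q : ℕ)) →+ h63_XX q where
  toFun y := h63_XX.ofUnit (h94_JqEv (q : ℕ) F (Additive.toMul y))
  map_zero' := rfl
  map_add' _ _ := rfl

theorem h94_toUnit_e (F : IntermediateField ℚ Qb) (y : Additive (h25_Jq ↥F (q : ℕ))) :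
    h63_XX.toUnit (h94_e q F y) = h94_JqEv (q : ℕ) F (Additive.toMul y) := rfl

/-- field `e_ι`. -/
theorem h94_e_ext {F F' : IntermediateField ℚ Qb} (h : F ≤ F') (y : h25_Jq ↥F (q : ℕ)) :
    h94_e q F' (Additive.ofMul (h94_JqExt (q : ℕ) h y)) = h94_e q F (Additive.ofMul y) :=
  congrArg h63_XX.ofUnit (h94_JqEv_ext (q : ℕ) h y)

/-- field `e_smul`. -/
theorem h94_e_smul (F : IntermediateField ℚ Qb) [Normal ℚ F] (τ : primeLocalGaloisGroup q)
    (y : h25_Jq ↥F (q : ℕ)) :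
    h94_e q F (Additive.ofMul (h94_JqGal (q : ℕ) F (h97_π F (primeLocalToGlobal q τ)) y)) =
      τ • h94_e q F (Additive.ofMul y) := by
  apply h63_XX.toUnit_injective
  apply Units.ext
  rw [h63_XX.toUnit_smul]
  exact h94_JqEv_local (q : ℕ) F
    (show PadicAlgCl (q : ℕ) ≃ₐ[ℚ_[(q : ℕ)]] PadicAlgCl (q : ℕ) from τ) y

/-- field `e_bij`. -/
theorem h94_e_bij (F : IntermediateField ℚ Qb) [Normal ℚ F] (φ : GQ → h63_XX q)
    (h1 : ∀ (τ : primeLocalGaloisGroup q) (g : GQ), φ (primeLocalToGlobal q τ * g) = τ • φ g)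
    (h2 : ∀ g s : GQ, s ∈ F.fixingSubgroup → φ (g * s) = φ g) :
    ∃! y : Additive (h25_Jq ↥F (q : ℕ)), ∀ g : GQ,
      h94_e q F (Additive.ofMul (h94_JqGal (q : ℕ) F (h97_π F g) (Additive.toMul y))) = φ g := by
  obtain ⟨y, hy, huniq⟩ := h94_JqEv_bij (q : ℕ) F (fun g => h63_XX.toUnit (φ g))
    (fun τ g => by
      have h := congrArg (fun x : h63_XX q => ((h63_XX.toUnit x : (PadicAlgCl (q : ℕ))ˣ) :
        PadicAlgCl (q : ℕ))) (h1 τ g)
      exact h)
    (fun g s hs => congrArg h63_XX.toUnit (h2 g s hs))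
  refine ⟨Additive.ofMul y, fun g => ?_, fun y' hy' => ?_⟩
  · exact congrArg h63_XX.ofUnit (hy g)
  · exact congrArg Additive.ofMul
      (huniq (Additive.toMul y') fun g => congrArg h63_XX.toUnit (hy' g))

end XX

end Fermat.Agent.S55
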