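/-
S55, Tier 3 (GLOB-AMB), row AMB-MODEL (helper40): THE concrete level system on helper25's
arithmetic carrier, i.e. the data `(Γ, π, K, C, ι, J, ιJ, k, XX, e, zz)` at which helper12's
level-wise interface `h12_LevFacts` is instantiated.  Definitions, instances and `rfl`-lemmas
only; no arithmetic.

For a level `L : h56_Level S` (a finite Galois extension `L.field` of `ℚ` inside `ℚbar`,
unramified outside `S`):
* `h40_Γ S L = Gal(L.field/ℚ)`, `h40_π S L = h97_π L.field : G_ℚ →* h40_Γ S L` the restriction,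
  `h40_K S L L' = h33_relGal L.field L'.field = Gal(L'.field/L.field)` inside `h40_Γ S L'`;
* `h40_C p S L = h2_PL p (Additive (h25_C ↥L.field S))` (the `p`-localised `S`-class module,
  with the action coming from helper90's `h90_CAct`),
  `h40_ι p S L L' h = h2_PL.map (h33_ext S _).toAdditive` the localised extension map;
* `h40_J S q L = Additive (h25_Jq ↥L.field q)` (the semi-local module at `q ∈ S`, unlocalised,
  with the action coming from helper4's `h4_JqAct`),
  `h40_ιJ S q L L' h = (h94_JqExt q _).toAdditive` the pull-back along the inclusion,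
  `h40_k S p q L : h40_J S q L →+ h40_C p S L` the class of the idele concentrated at `q`;
* `h40_e S q L = h94_e q L.field : h40_J S q L →+ h63_XX q` : evaluation at the base embedding
  `h94_emb q L.field 1` (the restriction of `padicEmbedding q`).

The instance of the interface is
`h12_LevFacts p S (h40_Γ S) (h40_π S) (h40_K S) (h40_C p S) (h40_ι p S) (h40_J S) (h40_ιJ S)
   (h40_k S p) (fun q => h63_XX q.1) (h40_e S) (fun q => h63_zz p q.1)`.
-/
import Mathlib
import Fermat.Agent.S55.h25_GlobDefs
import Fermat.Agent.S55.h33_GlobKumDefs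
import Fermat.Agent.S55.h56_GalLevels
import Fermat.Agent.S55.h97_GalLevel
import Fermat.Agent.S55.h2_PLoc
import Fermat.Agent.S55.h2_AddUnits
import Fermat.Agent.S55.h63_LocAmb
import Fermat.Agent.S55.h4_JqAct
import Fermat.Agent.S55.h90_GlobCAct
import Fermat.Agent.S55.h94_LevJ

set_option autoImplicit false

open groupCohomology

namespace Fermat.Agent.S55

local notation "Qb" => AlgebraicClosure ℚ
local notation "GQ" => (AlgebraicClosure ℚ ≃ₐ[ℚ] AlgebraicClosure ℚ)

noncomputable section

/-! ### The fields of the levels -/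

section Fields

variable {S : Finset Nat.Primes}

instance h40_level_finiteDimensional (L : h56_Level S) : FiniteDimensional ℚ ↥L.field :=
  L.2.1.1

instance h40_level_numberField (L : h56_Level S) : NumberField ↥L.field where
  to_charZero := inferInstance
  to_finiteDimensional := L.2.1.1

instance h40_level_isGalois (L : h56_Level S) : IsGalois ℚ ↥L.field := L.2.2

instance h40_level_normal (L : h56_Level S) : Normal ℚ ↥L.field := L.2.2.to_normal

end Fields

/-! ### Groups -/

section Groups

variable (S : Finset Nat.Primes)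

/-- `Γ L = Gal(L/ℚ)`. -/
abbrev h40_Γ (L : h56_Level S) : Type := ↥L.field ≃ₐ[ℚ] ↥L.field

/-- `π L : G_ℚ → Gal(L/ℚ)`, the restriction. -/
def h40_π (L : h56_Level S) : GQ →* h40_Γ S L := h97_π L.field

theorem h40_π_eq (L : h56_Level S) : h40_π S L = h97_π L.field := rfl

theorem h40_π_apply (L : h56_Level S) (g : GQ) (x : ↥L.field) :
    ((h40_π S L g x : ↥L.field) : Qb) = g (x : Qb) := h97_π_apply L.field g x

/-- `K L L' = Gal(L'/L)` inside `Gal(L'/ℚ)`. -/
def h40_K (L L' : h56_Level S) : Subgroup (h40_Γ S L') := h33_relGal L.field L'.field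

theorem h40_K_eq (L L' : h56_Level S) : h40_K S L L' = h33_relGal L.field L'.field := rfl

theorem h40_mem_K (L L' : h56_Level S) (s : h40_Γ S L') :
    s ∈ h40_K S L L' ↔ ∀ x : ↥L'.field, (x : Qb) ∈ L.field → s x = x := Iff.rfl

end Groups

/-! ### The class modules -/

section ClassModules

variable (p : ℕ) [Fact p.Prime] (S : Finset Nat.Primes)

/-- `C L = C_L ⊗ ℤ_(p)`, the `p`-localised `S`-class module of the level `L`. -/
abbrev h40_C (L : h56_Level S) : Type := h2_PL p (Additive (h25_C ↥L.field S))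

/-- The action of `Gal(L/ℚ)` on the unlocalised class module (helper90's `h90_CAct`). -/
theorem h40_Cadd_smul (L : h56_Level S) (γ : h40_Γ S L) (c : Additive (h25_C ↥L.field S)) :
    γ • c = Additive.ofMul
      (h25_Cmap S ((γ : ↥L.field ≃ₐ[ℚ] ↥L.field) : ↥L.field →+* ↥L.field) (Additive.toMul c)) :=
  rfl

/-- The action of `Gal(L/ℚ)` on `C L`, on generators. -/
theorem h40_C_smul_j (L : h56_Level S) (γ : h40_Γ S L) (c : Additive (h25_C ↥L.field S)) :
    γ • (h2_PL.j c : h40_C p S L) = h2_PL.j (γ • c) :=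
  (h2_PL.j_smul γ c).symm

/-- The extension map `C L → C L'`. -/
def h40_ι (L L' : h56_Level S) (h : L ≤ L') : h40_C p S L →+ h40_C p S L' :=
  h2_PL.map (MonoidHom.toAdditive (h33_ext S (h56_Level.le_def.1 h)))

theorem h40_ι_eq (L L' : h56_Level S) (h : L ≤ L') :
    h40_ι p S L L' h = h2_PL.map (MonoidHom.toAdditive (h33_ext S (h56_Level.le_def.1 h))) :=
  rfl

theorem h40_ι_j (L L' : h56_Level S) (h : L ≤ L') (c : Additive (h25_C ↥L.field S)) :
    h40_ι p S L L' h (h2_PL.j c) =
      h2_PL.j (Additive.ofMul (h33_ext S (h56_Level.le_def.1 h) (Additive.toMul c))) :=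
  h2_PL.map_j _ _

end ClassModules

/-! ### The semi-local modules -/

section SemiLocal

variable (S : Finset Nat.Primes)

/-- `J q L = J_q(L)`, the semi-local module at `q ∈ S` of the level `L` (additive, unlocalised). -/
abbrev h40_J (q : ↥S) (L : h56_Level S) : Type :=
  Additive (h25_Jq ↥L.field ((q : Nat.Primes) : ℕ))

/-- The action of `Gal(L/ℚ)` on `J q L` is helper94's `h94_JqGal` (= helper4's `h4_JqAct`). -/
theorem h40_J_smul (q : ↥S) (L : h56_Level S) (γ : h40_Γ S L) (y : h40_J S q L) :
    γ • y = Additive.ofMul (h94_JqGal ((q : Nat.Primes) : ℕ) L.field γ (Additive.toMul y)) := rfl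

/-- The action of `Gal(L/ℚ)` on `J q L`: `(γ • φ) j = φ (j ∘ γ)`. -/
theorem h40_J_smul_apply (q : ↥S) (L : h56_Level S) (γ : h40_Γ S L) (y : h40_J S q L)
    (j : ↥L.field →+* PadicAlgCl ((q : Nat.Primes) : ℕ)) :
    (Additive.toMul (γ • y)).1 j =
      (Additive.toMul y).1 (j.comp ((γ : ↥L.field ≃ₐ[ℚ] ↥L.field) : ↥L.field →+* ↥L.field)) := rfl

/-- The extension map `J q L → J q L'` (pull-back along the inclusion; helper94's `h94_JqExt`). -/
def h40_ιJ (q : ↥S) (L L' : h56_Level S) (h : L ≤ L') : h40_J S q L →+ h40_J S q L' :=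
  MonoidHom.toAdditive (h94_JqExt ((q : Nat.Primes) : ℕ) (h56_Level.le_def.1 h))

theorem h40_ιJ_eq (q : ↥S) (L L' : h56_Level S) (h : L ≤ L') (y : h40_J S q L) :
    h40_ιJ S q L L' h y =
      Additive.ofMul (h94_JqExt ((q : Nat.Primes) : ℕ) (h56_Level.le_def.1 h) (Additive.toMul y)) :=
  rfl

theorem h40_ιJ_apply (q : ↥S) (L L' : h56_Level S) (h : L ≤ L') (y : h40_J S q L)
    (j' : ↥L'.field →+* PadicAlgCl ((q : Nat.Primes) : ℕ)) :
    (Additive.toMul (h40_ιJ S q L L' h y)).1 j' =
      (Additive.toMul y).1 (j'.comp ((IntermediateField.inclusion (h56_Level.le_def.1 h) :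
        ↥L.field →ₐ[ℚ] ↥L'.field) : ↥L.field →+* ↥L'.field)) := rfl

/-- The `q`-component `J_q(K) → X_K = J × Div`. -/
def h40_single (K : Type*) [Field K] [NumberField K] (q : ↥S) :
    h25_Jq K ((q : Nat.Primes) : ℕ) →* h25_X K S :=
  open Classical in
  (MonoidHom.inl (h25_J K S) (Multiplicative (h25_Div K S))).comp
    (MonoidHom.mulSingle (fun q : ↥S => h25_Jq K ((q : Nat.Primes) : ℕ)) q)

theorem h40_single_apply (K : Type*) [Field K] [NumberField K] (q : ↥S)
    (φ : h25_Jq K ((q : Nat.Primes) : ℕ)) :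
    h40_single S K q φ = (open Classical in (Pi.mulSingle q φ, 1)) := rfl

variable (p : ℕ) [Fact p.Prime]

/-- `k q L : J q L → C L`, the class of the idele concentrated at `q`. -/
def h40_k (q : ↥S) (L : h56_Level S) : h40_J S q L →+ h40_C p S L :=
  (h2_PL.j).comp (MonoidHom.toAdditive ((h25_mk ↥L.field S).comp (h40_single S ↥L.field q)))

theorem h40_k_apply (q : ↥S) (L : h56_Level S) (y : h40_J S q L) :
    h40_k S p q L y =
      h2_PL.j (Additive.ofMul (h25_mk ↥L.field S (h40_single S ↥L.field q (Additive.toMul y)))) :=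
  rfl

end SemiLocal

/-! ### Evaluation at the distinguished embedding -/

section Eval

variable (S : Finset Nat.Primes)

/-- `e q L : J q L → XX q`, evaluation at the base embedding (helper94's `h94_e`). -/
def h40_e (q : ↥S) (L : h56_Level S) : h40_J S q L →+ h63_XX q.1 := h94_e q.1 L.field

theorem h40_e_eq (q : ↥S) (L : h56_Level S) : h40_e S q L = h94_e q.1 L.field := rfl

theorem h40_toUnit_e (q : ↥S) (L : h56_Level S) (y : h40_J S q L) :
    h63_XX.toUnit (h40_e S q L y) =
      (Additive.toMul y).1 (h94_emb ((q : Nat.Primes) : ℕ) L.field 1) := rfl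

end Eval

end

end Fermat.Agent.S55
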