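import Fermat.Agent.S55.h33_AmbKumCore
import Fermat.Agent.S55.h40_AmbModel
import Fermat.Agent.S55.h12_AmbDefs

/-!
# S55 / GLOB-AMB: the KUM fields `fin`, `kum_diag`, `kum_ker`, `kum_cap` of `h12_LevFacts`
for the model `h40_AmbModel`

* `h33_lf_fin p S hp2 hpS`      : field `fin`;
* `h33_lf_kum_diag p S`         : field `kum_diag`;
* `h33_lf_kum_ker p S hpS`      : field `kum_ker`;
* `h33_lf_kum_cap p S hp2 hpS`  : field `kum_cap`;

each stated in exactly the field shape over the model constants (`h40_C`, `h40_J`, `h40_k`,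
`h40_e`, `h40_π`, `h40_ι`, `h63_XX`, `h63_zz`).  Helpers: `h33_sum_k`, `h33_e_π_smul`.
-/

set_option autoImplicit false

open ExtCitation

namespace Fermat.Agent.S55

local notation "Qb" => AlgebraicClosure ℚ
local notation "GQ" => (AlgebraicClosure ℚ ≃ₐ[ℚ] AlgebraicClosure ℚ)

section

variable (p : ℕ) [Fact p.Prime] (S : Finset Nat.Primes)

/-- The sum of the `k q L (y q)` is the class of the idele `(y q)_q`. -/
theorem h33_sum_k (L : h56_Level S) (y : ∀ q, h40_J S q L) :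
    ∑ q : ↥S, h40_k S p q L (y q)
      = h2_PL.j (Additive.ofMul (h25_mk ↥L.field S ((fun q => Additive.toMul (y q)), 1))) :=
  @h33_sum_single ↥L.field _ _ S p _ _ (fun q => Additive.toMul (y q))

/-- The value of `e q L (π L g • y)`. -/
theorem h33_e_π_smul (q : ↥S) (L : h56_Level S) (g : GQ) (y : h40_J S q L) :
    h40_e S q L (h40_π S L g • y)
      = h63_XX.ofUnit ((Additive.toMul y).1 (h94_emb ((q : Nat.Primes) : ℕ) L.field g)) :=
  congrArg h63_XX.ofUnit (h94_JqEv_gal ((q : Nat.Primes) : ℕ) L.field g (Additive.toMul y))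

/-- **field `fin`** of `h12_LevFacts` for the model. -/
theorem h33_lf_fin (hp2 : p ≠ 2) (hpS : pPrime p ∈ S) :
    ∀ L : h56_Level S, Finite {c : h40_C p S L // p • c = 0} :=
  fun L => h33_core_fin S p hp2 hpS L.field L.2

/-- **field `kum_diag`** of `h12_LevFacts` for the model. -/
theorem h33_lf_kum_diag :
    ∀ (L : h56_Level S) (y : ∀ q, h40_J S q L),
      (∀ (q : ↥S) (g : GQ), h40_e S q L (h40_π S L g • y q)
        = (cycloChar p g : ZMod p).val • h63_zz p q.1) →
      ∑ q : ↥S, h40_k S p q L (y q) = 0 := by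
  intro L y hy
  rw [h33_sum_k]
  have h1 : h25_mk ↥L.field S ((fun q => Additive.toMul (y q)), 1) = 1 := by
    refine h33_core_diag_XX S p L.field _ (fun q g => ?_)
    rw [← hy q g, h33_e_π_smul]
  rw [h1]
  exact map_zero _

/-- **field `kum_ker`** of `h12_LevFacts` for the model. -/
theorem h33_lf_kum_ker (hpS : pPrime p ∈ S) :
    ∀ (L : h56_Level S) (y : ∀ q, h40_J S q L), (∀ q, p • y q = 0) →
      ∑ q : ↥S, h40_k S p q L (y q) = 0 →
      ∃ n : ℕ, ∀ (q : ↥S) (g : GQ),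
        h40_e S q L (h40_π S L g • y q) = (n * (cycloChar p g : ZMod p).val) • h63_zz p q.1 := by
  intro L y hy hsum
  have hS : S.Nonempty := ⟨_, hpS⟩
  rw [h33_sum_k] at hsum
  obtain ⟨m, hm, hm0⟩ := (h2_PL.j_eq_zero_iff _).1 hsum
  have h1 : h25_mk ↥L.field S ((fun q => Additive.toMul (y q)), 1) ^ m = 1 := hm0
  have hφ : (fun q => Additive.toMul (y q) : h25_J ↥L.field S) ^ p = 1 := by
    funext q
    exact hy q
  obtain ⟨n, hn⟩ := h33_core_ker_XX S p hS L.field _ hφ m hm h1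
  refine ⟨n, fun q g => ?_⟩
  rw [h33_e_π_smul]
  exact hn q g

/-- **field `kum_cap`** of `h12_LevFacts` for the model. -/
theorem h33_lf_kum_cap (hp2 : p ≠ 2) (hpS : pPrime p ∈ S) :
    ∀ (L : h56_Level S) (c : h40_C p S L), p • c = 0 →
      ∃ (L' : h56_Level S) (h : L ≤ L') (y : ∀ q, h40_J S q L'),
        (∀ q, p • y q = 0) ∧ ∑ q : ↥S, h40_k S p q L' (y q) = h40_ι p S L L' h c := by
  intro L c hc
  obtain ⟨L', nf', h, hL', φ, hφ, hφc⟩ := h33_core_cap S p hp2 hpS L.field L.2 c hc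
  refine ⟨⟨L', hL'.1, hL'.2⟩, h, fun q => Additive.ofMul (φ q), fun q => ?_, ?_⟩
  · exact congrFun hφ q
  · exact (h33_sum_k p S ⟨L', hL'.1, hL'.2⟩ (fun q => Additive.ofMul (φ q))).trans hφc.symm

end

end Fermat.Agent.S55
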