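import Fermat.Agent.S55.h92_SUnits

/-!
# S55, GLOB descent, divisor part

`L/K` a Galois extension of number fields.  The map `w ↦ w.under (𝓞 K)` from primes of `L` to
primes of `K` is surjective (`h10_under_surjective`), constant on Galois orbits
(`h10_under_galPrime`) and its fibres are exactly the orbits (`h10_exists_galPrime_of_under_eq`).
Hence a Galois-invariant function on the primes of `L` (a divisor) is the pull-back of a unique
function on the primes of `K` (`h10_desc_div`), with finite support if the original has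
(`h10_desc_div_finsupp`).  The valuation of an element of `K` at `w` is the `e(w)`-th power of its
valuation at the prime below (`h10_valuation_algebraMap`), so pull-back of divisors is compatible
with principal divisors at unramified primes (`h10_valuation_algebraMap_of_unram`).
-/

set_option autoImplicit false
set_option linter.unusedSectionVars false

open NumberField IsDedekindDomain
open scoped Pointwise

namespace Fermat.Agent.S55

section DescDiv

variable {K L : Type*} [Field K] [NumberField K] [Field L] [NumberField L] [Algebra K L]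

theorem h10_under_asIdeal (w : HeightOneSpectrum (𝓞 L)) :
    (w.under (𝓞 K)).asIdeal = w.asIdeal.under (𝓞 K) := rfl

theorem h10_mem_under (w : HeightOneSpectrum (𝓞 L)) (x : 𝓞 K) :
    x ∈ (w.under (𝓞 K)).asIdeal ↔ algebraMap (𝓞 K) (𝓞 L) x ∈ w.asIdeal := Iff.rfl

/-- A rational integer lies in the prime below `w` iff it lies in `w`. -/
theorem h10_natCast_mem_under (w : HeightOneSpectrum (𝓞 L)) (n : ℕ) :
    (n : 𝓞 K) ∈ (w.under (𝓞 K)).asIdeal ↔ (n : 𝓞 L) ∈ w.asIdeal := by
  rw [h10_mem_under, map_natCast]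

/-- The prime below `σ w` is the prime below `w`. -/
theorem h10_under_galPrime (σ : L ≃ₐ[K] L) (w : HeightOneSpectrum (𝓞 L)) :
    (h92_galPrime σ w).under (𝓞 K) = w.under (𝓞 K) := by
  apply HeightOneSpectrum.ext
  ext x
  rw [h10_mem_under, h10_mem_under, h92_galPrime_asIdeal, Ideal.mem_pointwise_smul_iff_inv_smul_mem]
  have : σ⁻¹ • algebraMap (𝓞 K) (𝓞 L) x = algebraMap (𝓞 K) (𝓞 L) x := by
    apply Subtype.ext
    change σ⁻¹ (algebraMap K L (x : K)) = algebraMap K L (x : K)
    exact σ⁻¹.commutes (x : K)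
  rw [this]

/-- Every prime of `K` lies under a prime of `L`. -/
theorem h10_under_surjective (v : HeightOneSpectrum (𝓞 K)) :
    ∃ w : HeightOneSpectrum (𝓞 L), w.under (𝓞 K) = v := by
  obtain ⟨P, hPmax, hPover⟩ :=
    Ideal.exists_maximal_ideal_liesOver_of_isIntegral (S := 𝓞 L) v.asIdeal
  have hP0 : P ≠ ⊥ := Ideal.ne_bot_of_liesOver_of_ne_bot v.ne_bot P
  refine ⟨⟨P, hPmax.isPrime, hP0⟩, ?_⟩
  apply HeightOneSpectrum.ext
  rw [h10_under_asIdeal]
  exact (Ideal.over_def P v.asIdeal).symm

/-- Primes of `L` over the same prime of `K` are conjugate under `Gal(L/K)`. -/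
theorem h10_exists_galPrime_of_under_eq [IsGalois K L] (w w' : HeightOneSpectrum (𝓞 L))
    (h : w.under (𝓞 K) = w'.under (𝓞 K)) : ∃ σ : L ≃ₐ[K] L, w' = h92_galPrime σ w := by
  have hw : w.asIdeal.LiesOver (w.under (𝓞 K)).asIdeal := ⟨rfl⟩
  have hw' : w'.asIdeal.LiesOver (w.under (𝓞 K)).asIdeal := ⟨by rw [h]; rfl⟩
  have := w.isPrime
  have := w'.isPrime
  have := (w.under (𝓞 K)).isMaximal
  obtain ⟨σ, hσ⟩ := Ideal.exists_smul_eq_of_isGaloisGroup (w.under (𝓞 K)).asIdeal
    w.asIdeal w'.asIdeal (L ≃ₐ[K] L)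
  refine ⟨σ, ?_⟩
  apply HeightOneSpectrum.ext
  rw [h92_galPrime_asIdeal, hσ]

/-- **Descent of divisors**: a Galois-invariant function on the primes of `L` is the pull-back of
a unique function on the primes of `K`. -/
theorem h10_desc_div [IsGalois K L] {A : Type*} (d : HeightOneSpectrum (𝓞 L) → A)
    (hd : ∀ (σ : L ≃ₐ[K] L) (w : HeightOneSpectrum (𝓞 L)), d (h92_galPrime σ w) = d w) :
    ∃! d₀ : HeightOneSpectrum (𝓞 K) → A, ∀ w : HeightOneSpectrum (𝓞 L), d w = d₀ (w.under (𝓞 K)) := by
  have hsurj := h10_under_surjective (K := K) (L := L)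
  choose up hup using hsurj
  refine ⟨fun v => d (up v), ?_, ?_⟩
  · intro w
    obtain ⟨σ, hσ⟩ := h10_exists_galPrime_of_under_eq (up (w.under (𝓞 K))) w (hup _)
    have h1 := hd σ (up (w.under (𝓞 K)))
    rw [← hσ] at h1
    exact h1
  · intro d₀ hd₀
    funext v
    rw [hd₀ (up v), hup]

/-- Descent of divisors with finite support. -/
theorem h10_desc_div_finsupp [IsGalois K L] (d : HeightOneSpectrum (𝓞 L) →₀ ℤ)
    (hd : ∀ (σ : L ≃ₐ[K] L) (w : HeightOneSpectrum (𝓞 L)), d (h92_galPrime σ w) = d w) :
    ∃ d₀ : HeightOneSpectrum (𝓞 K) →₀ ℤ,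
      ∀ w : HeightOneSpectrum (𝓞 L), d w = d₀ (w.under (𝓞 K)) := by
  classical
  obtain ⟨f, hf, -⟩ := h10_desc_div (fun w => d w) hd
  have hfin : (Function.support f).Finite := by
    apply Set.Finite.subset (d.support.image (fun w => w.under (𝓞 K))).finite_toSet
    intro v hv
    obtain ⟨w, rfl⟩ := h10_under_surjective (L := L) v
    rw [Function.mem_support, ← hf w] at hv
    rw [Finset.mem_coe, Finset.mem_image]
    exact ⟨w, Finsupp.mem_support_iff.mpr hv, rfl⟩
  refine ⟨Finsupp.ofSupportFinite f hfin, fun w => ?_⟩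
  rw [Finsupp.ofSupportFinite_coe]
  exact hf w

/-- The valuation of an element of `K` at a prime `w` of `L`. -/
theorem h10_valuation_algebraMap (w : HeightOneSpectrum (𝓞 L)) (x : K) :
    w.valuation L (algebraMap K L x)
      = (w.under (𝓞 K)).valuation K x
        ^ (w.under (𝓞 K)).asIdeal.ramificationIdx' w.asIdeal := by
  have hw : w.asIdeal.LiesOver (w.under (𝓞 K)).asIdeal := ⟨rfl⟩
  exact (HeightOneSpectrum.valuation_liesOver L (w.under (𝓞 K)) w x).symm

/-- At an unramified prime the valuation of an element of `K` does not change. -/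
theorem h10_valuation_algebraMap_of_unram (w : HeightOneSpectrum (𝓞 L))
    (he : (w.under (𝓞 K)).asIdeal.ramificationIdx' w.asIdeal = 1) (x : K) :
    w.valuation L (algebraMap K L x) = (w.under (𝓞 K)).valuation K x := by
  rw [h10_valuation_algebraMap, he, pow_one]

/-- The valuation of a unit of `K` at a prime `w` of `L`, in `valuationOfNeZero` form. -/
theorem h10_valuationOfNeZero_map (w : HeightOneSpectrum (𝓞 L)) (x : Kˣ) :
    w.valuationOfNeZero (Units.map (algebraMap K L : K →* L) x)
      = (w.under (𝓞 K)).valuationOfNeZero x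
        ^ (w.under (𝓞 K)).asIdeal.ramificationIdx' w.asIdeal := by
  rw [← WithZero.coe_inj, WithZero.coe_pow, HeightOneSpectrum.valuationOfNeZero_eq,
    HeightOneSpectrum.valuationOfNeZero_eq]
  exact h10_valuation_algebraMap w (x : K)

/-- At an unramified prime the valuation of a unit of `K` does not change. -/
theorem h10_valuationOfNeZero_map_of_unram (w : HeightOneSpectrum (𝓞 L))
    (he : (w.under (𝓞 K)).asIdeal.ramificationIdx' w.asIdeal = 1) (x : Kˣ) :
    w.valuationOfNeZero (Units.map (algebraMap K L : K →* L) x)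
      = (w.under (𝓞 K)).valuationOfNeZero x := by
  rw [h10_valuationOfNeZero_map, he, pow_one]

end DescDiv

end Fermat.Agent.S55
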