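import Fermat.Agent.S55.h28_SemilocAbs

/-!
# S55, GLOB descent, embeddings part

`L/K` a normal algebraic extension, `Ω` an algebraically closed field.  Restriction of embeddings
`(L →+* Ω) → (K →+* Ω)` is surjective (`h10_embRes_surjective`) and its fibres are the orbits of
`Gal(L/K)` acting by precomposition (`h10_embRes_eq_iff`).  Hence a function on the embeddings of
`L` is invariant under `Gal(L/K)` iff it is the pull-back of a (unique) function on the embeddings
of `K` (`h10_desc_fun`, `h10_pull`), and equivariance under any group acting compatibly on both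
sets of embeddings is inherited (`h10_desc_eqv`): `J_q(L)^{Gal(L/K)} = J_q(K)`.
-/

set_option autoImplicit false

namespace Fermat.Agent.S55

section EmbRes

variable {K L : Type*} [Field K] [Field L] [Algebra K L] {Ω : Type*} [Field Ω]

/-- Every embedding of `K` into an algebraically closed field extends to `L`. -/
theorem h10_embRes_surjective [IsAlgClosed Ω] [Algebra.IsAlgebraic K L] (j₀ : K →+* Ω) :
    ∃ j : L →+* Ω, j.comp (algebraMap K L) = j₀ := by
  let _ : Algebra K Ω := j₀.toAlgebra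
  let f : L →ₐ[K] Ω := IsAlgClosed.lift
  refine ⟨f.toRingHom, ?_⟩
  ext x
  exact f.commutes x

/-- Two embeddings of `L` have the same restriction to `K` iff they differ by an element of
`Gal(L/K)`. -/
theorem h10_embRes_eq_iff [Normal K L] (j j' : L →+* Ω) :
    j.comp (algebraMap K L) = j'.comp (algebraMap K L) ↔
      ∃ g : L ≃ₐ[K] L, j' = j.comp (g : L →+* L) := by
  constructor
  · intro h
    let _ : Algebra L Ω := j.toAlgebra
    let _ : Algebra K Ω := (j.comp (algebraMap K L)).toAlgebra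
    have : IsScalarTower K L Ω := IsScalarTower.of_algebraMap_eq (fun x => rfl)
    let f' : L →ₐ[K] Ω :=
      { j' with
        commutes' := fun x => by
          change j' (algebraMap K L x) = j (algebraMap K L x)
          exact (congrArg (fun f : K →+* Ω => f x) h).symm }
    refine ⟨f'.restrictNormal' L, ?_⟩
    ext x
    have h1 := AlgHom.restrictNormal_commutes f' L x
    change j ((f'.restrictNormal L) x) = j' x at h1
    change j' x = j ((f'.restrictNormal' L) x)
    rw [← h1]
    rfl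
  · rintro ⟨g, rfl⟩
    ext x
    simp

/-- **Descent of functions on embeddings**: a `Gal(L/K)`-invariant function on the embeddings of
`L` is the pull-back of a unique function on the embeddings of `K`. -/
theorem h10_desc_fun [IsAlgClosed Ω] [Normal K L] {A : Type*} (ψ : (L →+* Ω) → A)
    (hψ : ∀ (g : L ≃ₐ[K] L) (j : L →+* Ω), ψ (j.comp (g : L →+* L)) = ψ j) :
    ∃! φ : (K →+* Ω) → A, ∀ j : L →+* Ω, ψ j = φ (j.comp (algebraMap K L)) := by
  have hsurj := h10_embRes_surjective (K := K) (L := L) (Ω := Ω)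
  choose ext hext using hsurj
  refine ⟨fun j₀ => ψ (ext j₀), ?_, ?_⟩
  · intro j
    obtain ⟨g, hg⟩ := (h10_embRes_eq_iff (ext (j.comp (algebraMap K L))) j).mp (hext _)
    have h1 := hψ g (ext (j.comp (algebraMap K L)))
    rw [← hg] at h1
    exact h1
  · intro φ hφ
    funext j₀
    rw [hφ (ext j₀), hext]

variable (K L Ω) in
/-- Pull-back of functions on embeddings of `K` to functions on embeddings of `L`. -/
def h10_pull (A : Type*) [CommGroup A] : ((K →+* Ω) → A) →* ((L →+* Ω) → A) where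
  toFun φ j := φ (j.comp (algebraMap K L))
  map_one' := rfl
  map_mul' _ _ := rfl

theorem h10_pull_apply {A : Type*} [CommGroup A] (φ : (K →+* Ω) → A) (j : L →+* Ω) :
    h10_pull K L Ω A φ j = φ (j.comp (algebraMap K L)) := rfl

theorem h10_pull_injective [IsAlgClosed Ω] [Algebra.IsAlgebraic K L] {A : Type*} [CommGroup A] :
    Function.Injective (h10_pull K L Ω A) := by
  intro φ φ' h
  funext j₀
  obtain ⟨j, rfl⟩ := h10_embRes_surjective (L := L) j₀
  exact congrFun h j

theorem h10_pull_invariant {A : Type*} [CommGroup A] (φ : (K →+* Ω) → A) (g : L ≃ₐ[K] L)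
    (j : L →+* Ω) : h10_pull K L Ω A φ (j.comp (g : L →+* L)) = h10_pull K L Ω A φ j := by
  rw [h10_pull_apply, h10_pull_apply]
  congr 1
  ext x
  simp

/-- The image of the pull-back is exactly the set of `Gal(L/K)`-invariant functions. -/
theorem h10_mem_range_pull_iff [IsAlgClosed Ω] [Normal K L] {A : Type*} [CommGroup A]
    (ψ : (L →+* Ω) → A) :
    ψ ∈ (h10_pull K L Ω A).range ↔
      ∀ (g : L ≃ₐ[K] L) (j : L →+* Ω), ψ (j.comp (g : L →+* L)) = ψ j := by
  constructor
  · rintro ⟨φ, rfl⟩ g j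
    exact h10_pull_invariant φ g j
  · intro h
    obtain ⟨φ, hφ, -⟩ := h10_desc_fun ψ h
    exact ⟨φ, funext fun j => (hφ j).symm⟩

section Eqv

variable {Γ : Type*} [Group Γ] [MulAction Γ (L →+* Ω)] [MulAction Γ (K →+* Ω)]
  {A : Type*} [CommGroup A] [MulDistribMulAction Γ A]

/-- Pull-backs of equivariant functions are equivariant. -/
theorem h10_pull_mem_eqv
    (hres : ∀ (γ : Γ) (j : L →+* Ω),
      (γ • j).comp (algebraMap K L) = γ • (j.comp (algebraMap K L)))
    (φ : (K →+* Ω) → A) (hφ : φ ∈ h28_eqv Γ (K →+* Ω) A) :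
    h10_pull K L Ω A φ ∈ h28_eqv Γ (L →+* Ω) A := by
  rw [h28_mem_eqv] at hφ ⊢
  intro γ j
  rw [h10_pull_apply, h10_pull_apply, hres, hφ]

/-- **`J(L)^{Gal(L/K)} = J(K)`**: an equivariant function on the embeddings of `L` which is
invariant under `Gal(L/K)` is the pull-back of an equivariant function on the embeddings of
`K`. -/
theorem h10_desc_eqv [IsAlgClosed Ω] [Normal K L]
    (hres : ∀ (γ : Γ) (j : L →+* Ω),
      (γ • j).comp (algebraMap K L) = γ • (j.comp (algebraMap K L)))
    (ψ : (L →+* Ω) → A) (hψ : ψ ∈ h28_eqv Γ (L →+* Ω) A)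
    (hG : ∀ (g : L ≃ₐ[K] L) (j : L →+* Ω), ψ (j.comp (g : L →+* L)) = ψ j) :
    ∃ φ ∈ h28_eqv Γ (K →+* Ω) A, h10_pull K L Ω A φ = ψ := by
  obtain ⟨φ, hφ, -⟩ := h10_desc_fun ψ hG
  refine ⟨φ, ?_, funext fun j => (hφ j).symm⟩
  rw [h28_mem_eqv] at hψ ⊢
  intro γ j₀
  obtain ⟨j, rfl⟩ := h10_embRes_surjective (L := L) j₀
  rw [← hres, ← hφ, ← hφ, hψ]

/-- The `Gal(L/K)`-invariant equivariant functions on the embeddings of `L` are exactly the
pull-backs of the equivariant functions on the embeddings of `K` (subgroup form). -/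
theorem h10_map_pull_eqv [IsAlgClosed Ω] [Normal K L]
    (hres : ∀ (γ : Γ) (j : L →+* Ω),
      (γ • j).comp (algebraMap K L) = γ • (j.comp (algebraMap K L)))
    (ψ : (L →+* Ω) → A) :
    ψ ∈ (h28_eqv Γ (K →+* Ω) A).map (h10_pull K L Ω A) ↔
      ψ ∈ h28_eqv Γ (L →+* Ω) A ∧
        ∀ (g : L ≃ₐ[K] L) (j : L →+* Ω), ψ (j.comp (g : L →+* L)) = ψ j := by
  constructor
  · rintro ⟨φ, hφ, rfl⟩
    exact ⟨h10_pull_mem_eqv hres φ hφ, fun g j => h10_pull_invariant φ g j⟩
  · rintro ⟨h1, h2⟩
    obtain ⟨φ, hφ, rfl⟩ := h10_desc_eqv hres ψ h1 h2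
    exact ⟨φ, hφ, rfl⟩

end Eqv

end EmbRes

end Fermat.Agent.S55
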