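import Mathlib
import Fermat.Agent.S55.h25_GlobDefs
import Fermat.Agent.S55.h66_GlobFunc2
import Fermat.Agent.S55.h10_DescEmb
import Fermat.Agent.S55.h10_DescDiv

/-!
# S55, GLOB layer, row GLOB-DESC, X-level (helper81): Galois descent in the `h25` carrier

For number fields `K ⊆ L`:

* `h81_Xmap_injective` : `X_K → X_L` is injective;
* `h81_Xdesc_range` : for `L/K` Galois, unramified outside `S`, `X_L^{Gal(L/K)} = X_K`.

Tools: `h81_under f w` (the prime under `w` along `f : K →+* K'`), the formula
`h81_Dmap_apply : h25_Dmap S f d w = d (under w) * count_w (under w · 𝓞_{K'})`, extension of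
embeddings into an algebraically closed field and its uniqueness up to `Gal(L/K)`
(`h10_DescEmb`), transitivity of `Gal(L/K)` on the primes above a prime (`h10_DescDiv`).
-/

set_option autoImplicit false

open IsDedekindDomain NumberField
open scoped nonZeroDivisors

namespace Fermat.Agent.S55

noncomputable section

/-! ### Primes under primes -/

section Under

variable {K : Type*} [Field K] [NumberField K] {K' : Type*} [Field K'] [NumberField K']

theorem h81_mapRingHom_injective (f : K →+* K') :
    Function.Injective (RingOfIntegers.mapRingHom f) := by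
  intro x y h
  apply Subtype.ext
  apply f.injective
  exact congrArg Subtype.val h

/-- The prime of `K` under a prime of `K'`, along a field embedding `f : K →+* K'`. -/
def h81_under (f : K →+* K') (w : HeightOneSpectrum (𝓞 K')) : HeightOneSpectrum (𝓞 K) where
  asIdeal := w.asIdeal.comap (RingOfIntegers.mapRingHom f)
  isPrime := Ideal.comap_isPrime _ _
  ne_bot := by
    intro h
    have h1 : ((Ideal.absNorm w.asIdeal : ℕ) : 𝓞 K) ∈
        w.asIdeal.comap (RingOfIntegers.mapRingHom f) := by
      rw [Ideal.mem_comap, map_natCast]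
      exact Ideal.absNorm_mem w.asIdeal
    rw [h, Ideal.mem_bot] at h1
    have h2 : Ideal.absNorm w.asIdeal = 0 := by exact_mod_cast h1
    exact w.ne_bot (Ideal.absNorm_eq_zero_iff.1 h2)

theorem h81_mem_under (f : K →+* K') (w : HeightOneSpectrum (𝓞 K')) (x : 𝓞 K) :
    x ∈ (h81_under f w).asIdeal ↔ RingOfIntegers.mapRingHom f x ∈ w.asIdeal := Iff.rfl

variable (S : Finset Nat.Primes)

theorem h81_above_under (f : K →+* K') (w : HeightOneSpectrum (𝓞 K')) :
    h25_above K S (h81_under f w) ↔ h25_above K' S w := by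
  unfold h25_above
  simp only [h81_mem_under, map_natCast]

/-- The prime under a prime not above `S`. -/
def h81_underPl (f : K →+* K') (w : h25_Pl K' S) : h25_Pl K S :=
  ⟨h81_under f w.1, fun h => w.2 ((h81_above_under S f w.1).1 h)⟩

theorem h81_map_ne_bot (f : K →+* K') (v : HeightOneSpectrum (𝓞 K)) :
    Ideal.map (RingOfIntegers.mapRingHom f) v.asIdeal ≠ ⊥ := by
  rw [Ne, Ideal.map_eq_bot_iff_of_injective (h81_mapRingHom_injective f)]
  exact v.ne_bot

/-- A prime `w` does not divide `v 𝓞_{K'}` unless `v` is the prime under `w`. -/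
theorem h81_count_map_eq_zero (f : K →+* K') (v : HeightOneSpectrum (𝓞 K))
    (w : HeightOneSpectrum (𝓞 K')) (h : v ≠ h81_under f w) :
    FractionalIdeal.count K' w
      ((Ideal.map (RingOfIntegers.mapRingHom f) v.asIdeal : Ideal (𝓞 K')) :
        FractionalIdeal (𝓞 K')⁰ K') = 0 := by
  have hne := h81_map_ne_bot f v
  rw [FractionalIdeal.count_coe K' w hne]
  by_contra hc
  have hc' : (Associates.mk w.asIdeal).count
      (Associates.mk (Ideal.map (RingOfIntegers.mapRingHom f) v.asIdeal)).factors ≠ 0 := by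
    exact_mod_cast hc
  rw [Associates.count_ne_zero_iff_dvd hne w.irreducible, Ideal.dvd_iff_le] at hc'
  have h1 : v.asIdeal ≤ (h81_under f w).asIdeal := Ideal.map_le_iff_le_comap.1 hc'
  have h2 : v.asIdeal = (h81_under f w).asIdeal :=
    v.isMaximal.eq_of_le (h81_under f w).isPrime.ne_top h1
  exact h (HeightOneSpectrum.ext h2)

/-- **The extension of divisors, coefficientwise**: the coefficient of `Dmap f d` at `w` is the
coefficient of `d` at the prime under `w` times the multiplicity of `w` in that prime. -/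
theorem h81_Dmap_apply (f : K →+* K') (d : h25_Div K S) (w : h25_Pl K' S) :
    h25_Dmap S f d w = d (h81_underPl S f w) *
      FractionalIdeal.count K' w.1
        ((Ideal.map (RingOfIntegers.mapRingHom f) (h81_under f w.1).asIdeal : Ideal (𝓞 K')) :
          FractionalIdeal (𝓞 K')⁰ K') := by
  unfold h25_Dmap
  rw [Finsupp.liftAddHom_apply, Finsupp.sum_apply, Finsupp.sum_eq_single (h81_underPl S f w)]
  · simp [h81_underPl]
  · intro v _ hv
    simp only [zmultiplesHom_apply, Finsupp.smul_apply, h25_divIdeal_apply, smul_eq_mul]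
    rw [h81_count_map_eq_zero f v.1 w.1 (fun h => hv (Subtype.ext h)), mul_zero]
  · intro _
    simp

/-- `w` divides the extension of the prime under it. -/
theorem h81_count_map_under_ne_zero (f : K →+* K') (w : HeightOneSpectrum (𝓞 K')) :
    FractionalIdeal.count K' w
      ((Ideal.map (RingOfIntegers.mapRingHom f) (h81_under f w).asIdeal : Ideal (𝓞 K')) :
        FractionalIdeal (𝓞 K')⁰ K') ≠ 0 := by
  have hne := h81_map_ne_bot f (h81_under f w)
  rw [FractionalIdeal.count_coe K' w hne]
  have hc : (Associates.mk w.asIdeal).count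
      (Associates.mk (Ideal.map (RingOfIntegers.mapRingHom f) (h81_under f w).asIdeal)).factors
        ≠ 0 := by
    rw [Associates.count_ne_zero_iff_dvd hne w.irreducible, Ideal.dvd_iff_le]
    exact Ideal.map_comap_le
  exact_mod_cast hc

end Under

/-! ### Descent for `X = J × Div` -/

section Desc

variable (K : Type*) [Field K] [NumberField K] (L : Type*) [Field L] [NumberField L] [Algebra K L]
variable (S : Finset Nat.Primes)

/-- `h81_under` along the structure map is Mathlib's prime below. -/
theorem h81_under_algebraMap (w : HeightOneSpectrum (𝓞 L)) :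
    h81_under (algebraMap K L) w = w.under (𝓞 K) := by
  apply HeightOneSpectrum.ext
  ext x
  exact Iff.rfl

/-- Every prime of `K` not above `S` lies under a prime of `L` not above `S`. -/
theorem h81_exists_underPl (v : h25_Pl K S) :
    ∃ w : h25_Pl L S, h81_underPl S (algebraMap K L) w = v := by
  obtain ⟨w, hw⟩ := h10_under_surjective (L := L) v.1
  have hw' : h81_under (algebraMap K L) w = v.1 := by rw [h81_under_algebraMap, hw]
  refine ⟨⟨w, fun h => v.2 ?_⟩, Subtype.ext hw'⟩
  rw [← hw']
  exact (h81_above_under S _ w).2 h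

/-- The local components: `J_K → J_L` is injective. -/
theorem h81_Jmap_injective : Function.Injective (h25_Jmap S (algebraMap K L)) := by
  intro φ φ' h
  funext q
  apply Subtype.ext
  funext j₀
  obtain ⟨j, rfl⟩ := h10_embRes_surjective (L := L) j₀
  exact congrArg (fun ψ : h25_J L S => (ψ q).1 j) h

/-- The divisors: `Div_K → Div_L` is injective. -/
theorem h81_Dmap_injective : Function.Injective (h25_Dmap S (algebraMap K L)) := by
  rw [injective_iff_map_eq_zero]
  intro d hd
  ext v
  obtain ⟨w, rfl⟩ := h81_exists_underPl K L S v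
  have h1 := h81_Dmap_apply S (algebraMap K L) d w
  rw [hd, Finsupp.zero_apply] at h1
  have h2 := h81_count_map_under_ne_zero (algebraMap K L) w.1
  rcases mul_eq_zero.1 h1.symm with h | h
  · simpa using h
  · exact absurd h h2

/-- **`X_K → X_L` is injective.** -/
theorem h81_Xmap_injective : Function.Injective (h25_Xmap S (algebraMap K L)) := by
  intro x y h
  have h1 : h25_Jmap S (algebraMap K L) x.1 = h25_Jmap S (algebraMap K L) y.1 :=
    congrArg Prod.fst h
  have h2 : h25_Dmap S (algebraMap K L) (Multiplicative.toAdd x.2)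
      = h25_Dmap S (algebraMap K L) (Multiplicative.toAdd y.2) :=
    congrArg (fun z : h25_X L S => Multiplicative.toAdd z.2) h
  exact Prod.ext (h81_Jmap_injective K L S h1) (h81_Dmap_injective K L S h2)

/-- Descent of the local components: `J_L^{Gal(L/K)} = J_K`. -/
theorem h81_Jdesc [IsGalois K L] (ψ : h25_J L S)
    (hψ : ∀ σ : L ≃ₐ[K] L, h25_Jmap S (σ : L →+* L) ψ = ψ) :
    ∃ φ : h25_J K S, h25_Jmap S (algebraMap K L) φ = ψ := by
  have key : ∀ q : S, ∃ φq : h25_Jq K ((q : Nat.Primes) : ℕ),
      ∀ j : L →+* PadicAlgCl ((q : Nat.Primes) : ℕ),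
        (ψ q).1 j = φq.1 (j.comp (algebraMap K L)) := by
    intro q
    have hinv : ∀ (g : L ≃ₐ[K] L) (j : L →+* PadicAlgCl ((q : Nat.Primes) : ℕ)),
        (ψ q).1 (j.comp (g : L →+* L)) = (ψ q).1 j := by
      intro g j
      exact congrArg (fun ψ' : h25_J L S => (ψ' q).1 j) (hψ g)
    obtain ⟨φ, hφ, -⟩ := h10_desc_fun (K := K) (ψ q).1 hinv
    refine ⟨⟨φ, ?_⟩, hφ⟩
    intro τ j₀
    obtain ⟨j, rfl⟩ := h10_embRes_surjective (L := L) j₀
    have h1 := (ψ q).2 τ j
    rw [hφ, hφ] at h1
    exact h1
  choose φ hφ using key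
  refine ⟨φ, ?_⟩
  funext q
  apply Subtype.ext
  funext j
  exact (hφ q j).symm

/-- The multiplicity of `w` in the prime below it is the ramification index. -/
theorem h81_count_algebraMap (w : HeightOneSpectrum (𝓞 L)) :
    FractionalIdeal.count L w
      ((Ideal.map (RingOfIntegers.mapRingHom (algebraMap K L))
        (h81_under (algebraMap K L) w).asIdeal : Ideal (𝓞 L)) :
        FractionalIdeal (𝓞 L)⁰ L) = (w.asIdeal.ramificationIdx (𝓞 K) : ℤ) := by
  classical
  have hne := h81_map_ne_bot (algebraMap K L) (h81_under (algebraMap K L) w)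
  rw [FractionalIdeal.count_coe L w hne]
  congr 1
  rw [Ideal.count_associates_factors_eq hne w.isPrime w.ne_bot]
  haveI : w.asIdeal.LiesOver (h81_under (algebraMap K L) w).asIdeal := ⟨rfl⟩
  exact (Ideal.IsDedekindDomain.ramificationIdx_eq_normalizedFactors_count
    (h81_under (algebraMap K L) w).asIdeal w.asIdeal hne).symm

/-- For an automorphism, `w` is the extension of the prime under it. -/
theorem h81_count_algEquiv (σ : L ≃ₐ[K] L) (w : HeightOneSpectrum (𝓞 L)) :
    FractionalIdeal.count L w
      ((Ideal.map (RingOfIntegers.mapRingHom (σ : L →+* L))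
        (h81_under (σ : L →+* L) w).asIdeal : Ideal (𝓞 L)) :
        FractionalIdeal (𝓞 L)⁰ L) = 1 := by
  have hsurj : Function.Surjective (RingOfIntegers.mapRingHom (σ : L →+* L)) := by
    intro y
    refine ⟨RingOfIntegers.mapRingHom ((σ.symm : L ≃ₐ[K] L) : L →+* L) y, ?_⟩
    apply Subtype.ext
    exact σ.apply_symm_apply (y : L)
  have h1 : Ideal.map (RingOfIntegers.mapRingHom (σ : L →+* L))
      (h81_under (σ : L →+* L) w).asIdeal = w.asIdeal :=
    Ideal.map_comap_of_surjective _ hsurj _
  rw [h1]
  exact FractionalIdeal.count_self L w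

/-- The Galois action on divisors, coefficientwise. -/
theorem h81_Dmap_algEquiv_apply (σ : L ≃ₐ[K] L) (d : h25_Div L S) (w : h25_Pl L S) :
    h25_Dmap S (σ : L →+* L) d w = d (h81_underPl S (σ : L →+* L) w) := by
  rw [h81_Dmap_apply, h81_count_algEquiv, mul_one]

/-- The Galois action on primes of `h92_SUnits` in terms of `h81_under`. -/
theorem h81_galPrime_eq (σ : L ≃ₐ[K] L) (w : HeightOneSpectrum (𝓞 L)) :
    h92_galPrime σ w = h81_under ((σ⁻¹ : L ≃ₐ[K] L) : L →+* L) w := by
  apply HeightOneSpectrum.ext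
  ext x
  rw [h92_galPrime_asIdeal, Ideal.mem_pointwise_smul_iff_inv_smul_mem, h81_mem_under]
  exact Iff.rfl

/-- Descent of divisors: `Div_L^{Gal(L/K)} = Div_K` when `L/K` is unramified outside `S`. -/
theorem h81_Ddesc [IsGalois K L] (hur : h25_UnramOutside K L S) (d' : h25_Div L S)
    (hd : ∀ σ : L ≃ₐ[K] L, h25_Dmap S (σ : L →+* L) d' = d') :
    ∃ d : h25_Div K S, h25_Dmap S (algebraMap K L) d = d' := by
  classical
  have hinv : ∀ (σ : L ≃ₐ[K] L) (w : h25_Pl L S),
      d' (h81_underPl S (σ : L →+* L) w) = d' w := by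
    intro σ w
    have h1 := h81_Dmap_algEquiv_apply K L S σ d' w
    rw [hd σ] at h1
    exact h1.symm
  have hconj : ∀ w w' : h25_Pl L S,
      h81_underPl S (algebraMap K L) w = h81_underPl S (algebraMap K L) w' → d' w = d' w' := by
    intro w w' h
    have h1 : w.1.under (𝓞 K) = w'.1.under (𝓞 K) := by
      rw [← h81_under_algebraMap, ← h81_under_algebraMap]
      exact congrArg Subtype.val h
    obtain ⟨σ, hσ⟩ := h10_exists_galPrime_of_under_eq w.1 w'.1 h1
    rw [h81_galPrime_eq] at hσ
    have h2 : w' = h81_underPl S ((σ⁻¹ : L ≃ₐ[K] L) : L →+* L) w := Subtype.ext hσ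
    rw [h2, hinv]
  choose up hup using h81_exists_underPl K L S
  let d : h25_Div K S :=
    Finsupp.onFinset (d'.support.image (h81_underPl S (algebraMap K L))) (fun v => d' (up v))
      (by
        intro v hv
        rw [Finset.mem_image]
        exact ⟨up v, Finsupp.mem_support_iff.2 hv, hup v⟩)
  refine ⟨d, ?_⟩
  ext w
  rw [h81_Dmap_apply, h81_count_algebraMap, hur w, Nat.cast_one, mul_one]
  show d' (up (h81_underPl S (algebraMap K L) w)) = d' w
  exact hconj _ _ (hup _)

/-- **`X_L^{Gal(L/K)} = X_K`** for `L/K` Galois, unramified outside `S`. -/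
theorem h81_Xdesc_range [IsGalois K L] (hur : h25_UnramOutside K L S) (x : h25_X L S) :
    (∀ σ : L ≃ₐ[K] L, h25_Xmap S (σ : L →+* L) x = x) ↔
      x ∈ (h25_Xmap S (algebraMap K L)).range := by
  constructor
  · intro h
    obtain ⟨φ, hφ⟩ := h81_Jdesc K L S x.1 (fun σ => congrArg Prod.fst (h σ))
    obtain ⟨d, hd⟩ := h81_Ddesc K L S hur (Multiplicative.toAdd x.2)
      (fun σ => congrArg (fun z : h25_X L S => Multiplicative.toAdd z.2) (h σ))
    exact ⟨(φ, Multiplicative.ofAdd d), Prod.ext hφ (congrArg Multiplicative.ofAdd hd)⟩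
  · rintro ⟨y, rfl⟩ σ
    have h : (σ : L →+* L).comp (algebraMap K L) = algebraMap K L :=
      RingHom.ext fun x => σ.commutes x
    rw [← MonoidHom.comp_apply, ← h66_Xmap_comp, h]

end Desc

end

end Fermat.Agent.S55
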