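import Mathlib
import Fermat.Agent.S55.h25_GlobDefs
import Fermat.Agent.S55.h81_GlobDescX

/-!
# S55, GLOB layer, row GLOB-CF-UNR (helper81): unramifiedness outside `S` in towers and in
cyclotomic extensions

`h25_UnramOutside K L S` says that every prime of `L` not above `S` has ramification index `1`
over `K`.

* `h81_unram_top`, `h81_unram_bot`, `h81_unram_trans` : behaviour in a tower `K ⊆ F ⊆ L`
  (the ramification index is multiplicative);
* `h81_unram_cyclotomic` : `L(ζ_n)/L` is unramified outside `S` as soon as all prime divisors of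
  `n` lie in `S` (the different contains `g'(ζ)`, which divides `n ζ^(n-1)`);
* `h81_unram_cyclotomic_rat`, `h81_unram_cyclotomicField` : the consequences over `ℚ` used by the
  class formation of the cyclotomic tower.
-/

set_option autoImplicit false

open IsDedekindDomain NumberField
open scoped nonZeroDivisors

namespace Fermat.Agent.S55

section Tower

variable (K : Type*) [Field K] [NumberField K] (F : Type*) [Field F] [NumberField F]
  (L : Type*) [Field L] [NumberField L] [Algebra K F] [Algebra F L] [Algebra K L]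
  [IsScalarTower K F L]
variable (S : Finset Nat.Primes)

/-- Unramified outside `S` passes to the top of a tower. -/
theorem h81_unram_top (h : h25_UnramOutside K L S) : h25_UnramOutside F L S := by
  intro w
  have h1 := h w
  haveI : w.1.asIdeal.LiesOver (w.1.asIdeal.under (𝓞 F)) := ⟨rfl⟩
  have h2 : w.1.asIdeal.ramificationIdx (𝓞 F) ∣ w.1.asIdeal.ramificationIdx (𝓞 K) :=
    Ideal.ramificationIdx_above_dvd (R := 𝓞 K) (w.1.asIdeal.under (𝓞 F)) w.1.asIdeal
  rw [h1] at h2
  exact Nat.dvd_one.1 h2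

/-- Unramified outside `S` passes to the bottom of a tower. -/
theorem h81_unram_bot (h : h25_UnramOutside K L S) : h25_UnramOutside K F S := by
  intro u
  obtain ⟨w, hw⟩ := h81_exists_underPl F L S u
  have h1 := h w
  haveI : w.1.asIdeal.LiesOver u.1.asIdeal :=
    ⟨congrArg (fun v : h25_Pl F S => v.1.asIdeal) hw.symm⟩
  have h2 : u.1.asIdeal.ramificationIdx (𝓞 K) ∣ w.1.asIdeal.ramificationIdx (𝓞 K) :=
    Ideal.ramificationIdx_below_dvd (R := 𝓞 K) u.1.asIdeal w.1.asIdeal
  rw [h1] at h2
  exact Nat.dvd_one.1 h2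

/-- Unramified outside `S` is transitive. -/
theorem h81_unram_trans (h₁ : h25_UnramOutside K F S) (h₂ : h25_UnramOutside F L S) :
    h25_UnramOutside K L S := by
  intro w
  haveI : w.1.asIdeal.LiesOver (h81_underPl S (algebraMap F L) w).1.asIdeal := ⟨rfl⟩
  have h3 := Ideal.ramificationIdx_tower (R := 𝓞 K)
    (h81_underPl S (algebraMap F L) w).1.asIdeal w.1.asIdeal
  rw [h3, h₁ (h81_underPl S (algebraMap F L) w), h₂ w]

end Tower

/-- Row GLOB-UNR-TOWER in the skeleton's shape (`sk_unram_tower`). -/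
theorem h81_unram_tower (K F L : Type*) [Field K] [NumberField K] [Field F] [NumberField F]
    [Field L] [NumberField L] [Algebra K F] [Algebra F L] [Algebra K L] [IsScalarTower K F L]
    (S : Finset Nat.Primes) (hur : h25_UnramOutside K L S) :
    h25_UnramOutside F L S ∧ h25_UnramOutside K F S :=
  ⟨h81_unram_top K F L S hur, h81_unram_bot K F L S hur⟩

section Cyclotomic

/-- A prime ideal containing a nonzero natural number contains one of its prime divisors. -/
theorem h81_prime_natCast_mem {R : Type*} [CommRing R] (P : Ideal R) [P.IsPrime] (n : ℕ)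
    (hn : n ≠ 0) (h : (n : R) ∈ P) : ∃ q : Nat.Primes, (q : ℕ) ∣ n ∧ ((q : ℕ) : R) ∈ P := by
  have key : ∀ m : ℕ, (m : R) ∈ P → m = 0 ∨ ∃ q : Nat.Primes, (q : ℕ) ∣ m ∧ ((q : ℕ) : R) ∈ P := by
    intro m
    induction m using Nat.recOnMul with
    | zero => intro _; exact Or.inl rfl
    | one =>
      intro h1
      exfalso
      rw [Nat.cast_one] at h1
      exact (Ideal.IsPrime.ne_top ‹P.IsPrime›) ((Ideal.eq_top_iff_one P).2 h1)
    | prime p hp =>
      intro h1
      exact Or.inr ⟨⟨p, hp⟩, dvd_rfl, h1⟩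
    | mul a b iha ihb =>
      intro h1
      rw [Nat.cast_mul] at h1
      rcases (Ideal.IsPrime.mem_or_mem ‹P.IsPrime›) h1 with h2 | h2
      · rcases iha h2 with h3 | ⟨q, hq, hq'⟩
        · left; rw [h3, zero_mul]
        · exact Or.inr ⟨q, hq.trans (dvd_mul_right a b), hq'⟩
      · rcases ihb h2 with h3 | ⟨q, hq, hq'⟩
        · left; rw [h3, mul_zero]
        · exact Or.inr ⟨q, hq.trans (dvd_mul_left b a), hq'⟩
  rcases key n h with h0 | h1
  · exact absurd h0 hn
  · exact h1

variable (L : Type*) [Field L] [NumberField L] (M : Type*) [Field M] [NumberField M] [Algebra L M]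
variable (S : Finset Nat.Primes)

open Polynomial in
/-- **Cyclotomic extensions are unramified outside the primes dividing the conductor.** -/
theorem h81_unram_cyclotomic (n : ℕ) [NeZero n] [IsCyclotomicExtension {n} L M]
    (hn : ∀ q : Nat.Primes, (q : ℕ) ∣ n → q ∈ S) : h25_UnramOutside L M S := by
  intro w
  obtain ⟨ζ, hζ⟩ := IsCyclotomicExtension.exists_isPrimitiveRoot L M (S := {n})
    (Set.mem_singleton n) (NeZero.ne n)
  have hint : IsIntegral ℤ ζ := hζ.isIntegral (NeZero.pos n)
  let z : 𝓞 M := ⟨ζ, hint⟩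
  have hz : z ^ n = 1 := by
    apply RingOfIntegers.ext
    show ζ ^ n = 1
    exact hζ.pow_eq_one
  have htop : Algebra.adjoin L {algebraMap (𝓞 M) M z} = ⊤ :=
    IsCyclotomicExtension.adjoin_primitive_root_eq_top hζ
  have hmem := aeval_derivative_mem_differentIdeal (𝓞 L) L M z htop
  have hzint : IsIntegral (𝓞 L) z := Algebra.IsIntegral.isIntegral z
  have hdvd : minpoly (𝓞 L) z ∣ (X ^ n - 1 : (𝓞 L)[X]) :=
    minpoly.isIntegrallyClosed_dvd hzint (by simp [hz])
  obtain ⟨h, hh⟩ := hdvd
  have hder : (n : 𝓞 M) * z ^ (n - 1)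
      = aeval z (derivative (minpoly (𝓞 L) z)) * aeval z h := by
    have h1 := congrArg (fun P : (𝓞 L)[X] => aeval z (derivative P)) hh
    simp only [derivative_sub, derivative_X_pow, derivative_one, sub_zero, derivative_mul,
      map_add, map_mul, minpoly.aeval, zero_mul, add_zero, map_pow, aeval_X,
      map_natCast] at h1
    exact h1
  have hnw : (n : 𝓞 M) ∉ w.1.asIdeal := by
    intro hc
    haveI := w.1.isPrime
    obtain ⟨q, hq, hq'⟩ := h81_prime_natCast_mem w.1.asIdeal n (NeZero.ne n) hc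
    exact w.2 ⟨q, hn q hq, hq'⟩
  have hgw : aeval z (derivative (minpoly (𝓞 L) z)) ∉ w.1.asIdeal := by
    intro hc
    have h1 : (n : 𝓞 M) * z ^ (n - 1) ∈ w.1.asIdeal := by
      rw [hder]
      exact Ideal.mul_mem_right _ _ hc
    have h2 : (n : 𝓞 M) * z ^ (n - 1) * z ∈ w.1.asIdeal := Ideal.mul_mem_right _ _ h1
    rw [mul_assoc, pow_sub_one_mul (NeZero.ne n), hz, mul_one] at h2
    exact hnw h2
  have hndvd : ¬ w.1.asIdeal ∣ differentIdeal (𝓞 L) (𝓞 M) := by
    rw [Ideal.dvd_iff_le]
    intro hle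
    exact hgw (hle hmem)
  letI : Algebra (FractionRing (𝓞 L)) (FractionRing (𝓞 M)) := FractionRing.liftAlgebra _ _
  haveI : Algebra.IsSeparable (FractionRing (𝓞 L)) (FractionRing (𝓞 M)) := inferInstance
  haveI := w.1.isPrime
  haveI : Algebra.IsUnramifiedAt (𝓞 L) w.1.asIdeal := not_dvd_differentIdeal_iff.1 hndvd
  exact Ideal.ramificationIdx_eq_one_of_isUnramifiedAt

/-- If `L/ℚ` is unramified outside `S` and all primes dividing `n` are in `S`, then `L(ζ_n)/ℚ` is
unramified outside `S`. -/
theorem h81_unram_cyclotomic_rat (n : ℕ) [NeZero n] [IsCyclotomicExtension {n} L M]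
    (hn : ∀ q : Nat.Primes, (q : ℕ) ∣ n → q ∈ S) (h : h25_UnramOutside ℚ L S) :
    h25_UnramOutside ℚ M S :=
  h81_unram_trans ℚ L M S h (h81_unram_cyclotomic L M S n hn)

/-- The `p`-power cyclotomic tower over a field unramified outside `S ∋ p`. -/
theorem h81_unram_cyclotomicField (p : Nat.Primes) (hp : p ∈ S) (m : ℕ)
    (h : h25_UnramOutside ℚ L S) :
    h25_UnramOutside ℚ (CyclotomicField ((p : ℕ) ^ m) L) S := by
  haveI : NeZero ((p : ℕ) ^ m) := ⟨pow_ne_zero m p.2.ne_zero⟩
  refine h81_unram_cyclotomic_rat L (CyclotomicField ((p : ℕ) ^ m) L) S ((p : ℕ) ^ m) ?_ h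
  intro q hq
  have h1 : (q : ℕ) = p := (Nat.prime_dvd_prime_iff_eq q.2 p.2).1 (q.2.dvd_of_dvd_pow hq)
  have h2 : q = p := Subtype.ext h1
  rw [h2]
  exact hp

end Cyclotomic

end Fermat.Agent.S55
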