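import Mathlib
import Fermat.Agent.S55.h25_GlobDefs
import Fermat.Agent.S55.h46_UnramVal
import Fermat.Agent.S55.h81_GlobUnr

/-!
# S55 / GLOB-UNR-DICT: prelude-unramified levels are classically unramified

A level is a finite Galois extension `L` of `ℚ` inside `Qbar` which is unramified outside `S` in
the *prelude* sense (`L.IsUnramifiedOutside S`: the inertia group of every valuation subring of
`Qbar` above a prime `ℓ ∉ S` fixes `L`).  The arithmetic statements on the carrier `h25_C`
(descent, class field axiom, class formation) use the *classical* notion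
`h25_UnramOutside K L S` (`e(w | v) = 1` for every prime `w` of `L` not above `S`).

* `h37_ramificationIdx_int_eq_one` : the ramification index over `ℤ` of a prime of a level not
  above `S` is `1`;
* `h37_unramOutside_of_level` : `h25_IsLevel S L → h25_UnramOutside ℚ ↥L S`;
* `h37_unramOutside_of_level_tower` : `h25_UnramOutside F ↥L S` for every number field `F` with
  `ℚ → F → ↥L` a scalar tower (in particular `F = ↥L₀` for a subfield `L₀ ≤ L`).
-/

set_option autoImplicit false

open NumberField IsDedekindDomain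
open scoped nonZeroDivisors

namespace Fermat.Agent.S55

local notation "Qb" => AlgebraicClosure ℚ

/-- The ramification index over `ℤ` of a prime of a level not above `S` is `1`. -/
theorem h37_ramificationIdx_int_eq_one (S : Finset Nat.Primes) (L : IntermediateField ℚ Qb)
    [NumberField ↥L] (hL : h25_IsLevel S L) (w : h25_Pl ↥L S) :
    w.1.asIdeal.ramificationIdx ℤ = 1 := by
  have hgal : IsGalois ℚ ↥L := hL.2
  have hwp : w.1.asIdeal.IsPrime := w.1.isPrime
  obtain ⟨A, ℓ, hℓ, hAℓ, hℓv, hA⟩ := Fermat.Agent.S14.gal_exists_valuationSubring ↥L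
    (algebraMap ↥L Qb) w.1.asIdeal w.1.ne_bot
  have hPK : ∀ z : 𝓞 ↥L, (((z : ↥L) : Qb)) ∈ A.nonunits ↔ z ∈ w.1.asIdeal := fun z => (hA z).2
  have hℓS : (⟨ℓ, hℓ⟩ : Nat.Primes) ∉ S := fun h => w.2 ⟨⟨ℓ, hℓ⟩, h, hℓv⟩
  have hbot := h46_inertia_eq_bot S L hL.1 A ⟨ℓ, hℓ⟩ hℓS hAℓ w.1.asIdeal hPK
  have hcard := Ideal.card_inertia_eq_ramificationIdxIn (G := Gal(↥L/ℚ))
    (w.1.asIdeal.under ℤ) w.1.asIdeal
  have hidx := Ideal.ramificationIdxIn_eq_ramificationIdx (w.1.asIdeal.under ℤ) w.1.asIdeal
    Gal(↥L/ℚ)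
  rw [hbot, Subgroup.card_bot, hidx] at hcard
  exact hcard.symm

/-- **GLOB-UNR-DICT.** A level (prelude-unramified outside `S`, Galois over `ℚ`) is classically
unramified outside `S` over `ℚ`. -/
theorem h37_unramOutside_of_level (S : Finset Nat.Primes) (L : IntermediateField ℚ Qb)
    [NumberField ↥L] (hL : h25_IsLevel S L) : h25_UnramOutside ℚ ↥L S := by
  intro w
  have h1 := h37_ramificationIdx_int_eq_one S L hL w
  have : w.1.asIdeal.LiesOver (w.1.asIdeal.under (𝓞 ℚ)) := ⟨rfl⟩
  have h2 : w.1.asIdeal.ramificationIdx (𝓞 ℚ) ∣ w.1.asIdeal.ramificationIdx ℤ :=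
    Ideal.ramificationIdx_above_dvd (R := ℤ) (w.1.asIdeal.under (𝓞 ℚ)) w.1.asIdeal
  rw [h1] at h2
  exact Nat.dvd_one.1 h2

/-- **GLOB-UNR-DICT, tower form.** A level is classically unramified outside `S` over every
intermediate number field (any algebra structure `F → ↥L` in a scalar tower over `ℚ`). -/
theorem h37_unramOutside_of_level_tower (S : Finset Nat.Primes) (L : IntermediateField ℚ Qb)
    [NumberField ↥L] (hL : h25_IsLevel S L) (F : Type*) [Field F] [NumberField F]
    [Algebra F ↥L] [IsScalarTower ℚ F ↥L] : h25_UnramOutside F ↥L S :=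
  h81_unram_top ℚ F ↥L S (h37_unramOutside_of_level S L hL)

end Fermat.Agent.S55
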