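import Mathlib

/-!
# H-CYC : low-degree cohomology of a cyclic group, in unbundled cocycle form

`G = ⟨s⟩` a finite cyclic group acting on an abelian group `A`; cocycles and coboundaries are
Mathlib's unbundled predicates `groupCohomology.IsCocycle₁`, `IsCocycle₂`, `IsCoboundary₁`,
`IsCoboundary₂`. With `N a = ∑_{i<n} s^i a` (`h12_cycNorm`) and
`inv f = ∑_{i<n} f (s^i, s)` (`h12_cycInv`):

* a 1-cocycle `f` has `N (f s) = 0`, is a coboundary iff `f s ∈ (s - 1) A`, and every element of
  norm zero is `f s` for a 1-cocycle `f`  (`H^1 = ker N / (s - 1) A`);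
* a 2-cocycle `f` has `inv f` fixed by `s`, is a coboundary iff `inv f ∈ N A`, and every fixed
  element is `inv f` for a 2-cocycle `f`  (`H^2 = A^G / N A`).
-/

namespace Fermat.Agent.S55

open groupCohomology Finset

variable {G : Type*} [Group G] {A : Type*} [AddCommGroup A] [DistribMulAction G A]

/-- The norm along the powers of `s`: `a + s a + ... + s^(n-1) a`, `n = orderOf s`. -/
noncomputable def h12_cycNorm (s : G) (a : A) : A := ∑ i ∈ range (orderOf s), s ^ i • a

/-- The invariant of a 2-cochain on a cyclic group `⟨s⟩`: `∑_{i<n} f (s^i, s)`. -/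
noncomputable def h12_cycInv (s : G) (f : G × G → A) : A :=
  ∑ i ∈ range (orderOf s), f (s ^ i, s)

theorem h12_cycInv_add (s : G) (f f' : G × G → A) :
    h12_cycInv s (f + f') = h12_cycInv s f + h12_cycInv s f' := by
  simp only [h12_cycInv, Pi.add_apply, Finset.sum_add_distrib]

theorem h12_cycInv_neg (s : G) (f : G × G → A) : h12_cycInv s (-f) = -h12_cycInv s f := by
  simp only [h12_cycInv, Pi.neg_apply, Finset.sum_neg_distrib]

theorem h12_cycInv_sub (s : G) (f f' : G × G → A) :
    h12_cycInv s (f - f') = h12_cycInv s f - h12_cycInv s f' := by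
  simp only [h12_cycInv, Pi.sub_apply, Finset.sum_sub_distrib]

theorem h12_cycNorm_add (s : G) (a a' : A) :
    h12_cycNorm s (a + a') = h12_cycNorm s a + h12_cycNorm s a' := by
  simp only [h12_cycNorm, smul_add, Finset.sum_add_distrib]

/-! ### Sums over a period -/

/-- Shifting a sum over a full period of the powers of `s`. -/
theorem h12_sum_shift {B : Type*} [AddCommGroup B] (s : G) (φ : G → B) :
    ∑ i ∈ range (orderOf s), φ (s ^ (i + 1)) = ∑ i ∈ range (orderOf s), φ (s ^ i) := by
  have h1 := Finset.sum_range_succ' (fun i => φ (s ^ i)) (orderOf s)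
  have h2 := Finset.sum_range_succ (fun i => φ (s ^ i)) (orderOf s)
  rw [h1] at h2
  simp only [pow_zero, pow_orderOf_eq_one] at h2
  exact add_right_cancel h2

/-- Partial sums of a function along the powers of `s`. -/
def h12_psum (s : G) (ψ : G → A) (i : ℕ) : A := ∑ j ∈ range i, ψ (s ^ j)

theorem h12_psum_zero (s : G) (ψ : G → A) : h12_psum s ψ 0 = 0 := by
  simp [h12_psum]

theorem h12_psum_succ (s : G) (ψ : G → A) (i : ℕ) :
    h12_psum s ψ (i + 1) = h12_psum s ψ i + ψ (s ^ i) := by
  simp [h12_psum, Finset.sum_range_succ]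

theorem h12_psum_period (s : G) (ψ : G → A) (h0 : h12_psum s ψ (orderOf s) = 0) (i : ℕ) :
    h12_psum s ψ (orderOf s + i) = h12_psum s ψ i := by
  unfold h12_psum at h0 ⊢
  rw [Finset.sum_range_add, h0, zero_add]
  exact Finset.sum_congr rfl fun j _ => by rw [pow_add, pow_orderOf_eq_one, one_mul]

theorem h12_psum_mod (s : G) (ψ : G → A) (h0 : h12_psum s ψ (orderOf s) = 0) (i : ℕ) :
    h12_psum s ψ i = h12_psum s ψ (i % orderOf s) := by
  have key : ∀ q r : ℕ, h12_psum s ψ (orderOf s * q + r) = h12_psum s ψ r := by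
    intro q
    induction q with
    | zero => intro r; simp
    | succ q ih =>
      intro r
      rw [Nat.mul_succ, Nat.add_assoc, ih, h12_psum_period s ψ h0]
  conv_lhs => rw [← Nat.div_add_mod i (orderOf s)]
  exact key _ _

theorem h12_psum_congr (s : G) (ψ : G → A) (h0 : h12_psum s ψ (orderOf s) = 0) {i k : ℕ}
    (h : s ^ i = s ^ k) : h12_psum s ψ i = h12_psum s ψ k := by
  rw [h12_psum_mod s ψ h0 i, h12_psum_mod s ψ h0 k]
  have := pow_eq_pow_iff_modEq.mp h
  rw [show i % orderOf s = k % orderOf s from this]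

/-! ### A discrete logarithm -/

/-- A natural number `i` with `s ^ i = g` (if there is one). -/
noncomputable def h12_clog (s g : G) : ℕ := Classical.epsilon fun i : ℕ => s ^ i = g

theorem h12_clog_spec (s : G) (hs : ∀ g : G, g ∈ Subgroup.zpowers s) (hfin : IsOfFinOrder s)
    (g : G) : s ^ h12_clog s g = g := by
  have h : ∃ i : ℕ, s ^ i = g :=
    (Submonoid.mem_powers_iff g s).mp ((hfin.mem_powers_iff_mem_zpowers).mpr (hs g))
  exact Classical.epsilon_spec h

theorem h12_exists_pow (s : G) (hs : ∀ g : G, g ∈ Subgroup.zpowers s) (hfin : IsOfFinOrder s)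
    (g : G) : ∃ i : ℕ, s ^ i = g :=
  ⟨_, h12_clog_spec s hs hfin g⟩

/-! ### Degree one -/

/-- The values of a 1-cocycle on the powers of `s`. -/
theorem h12_cocycle₁_pow (s : G) {f : G → A} (hf : IsCocycle₁ f) (i : ℕ) :
    f (s ^ i) = h12_psum s (fun g => g • f s) i := by
  induction i with
  | zero => rw [pow_zero, map_one_of_isCocycle₁ hf, h12_psum_zero]
  | succ i ih => rw [pow_succ, hf, ih, h12_psum_succ, add_comm]

theorem h12_cycNorm_eq_psum (s : G) (a : A) :
    h12_cycNorm s a = h12_psum s (fun g => g • a) (orderOf s) := rfl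

/-- (CYC-1a) The value at the generator of a 1-cocycle has norm zero. -/
theorem h12_cycNorm_cocycle₁ (s : G) (hfin : IsOfFinOrder s) {f : G → A} (hf : IsCocycle₁ f) :
    h12_cycNorm s (f s) = 0 := by
  have _ := hfin
  rw [h12_cycNorm_eq_psum, ← h12_cocycle₁_pow s hf, pow_orderOf_eq_one, map_one_of_isCocycle₁ hf]

theorem h12_psum_smul_sub (s : G) (b : A) (i : ℕ) :
    h12_psum s (fun g => g • (s • b - b)) i = s ^ i • b - b := by
  induction i with
  | zero => simp [h12_psum_zero]
  | succ i ih =>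
    rw [h12_psum_succ, ih, smul_sub, ← mul_smul, ← pow_succ]
    abel

/-- (CYC-1b) A 1-cocycle on `⟨s⟩` is a coboundary iff its value at `s` is in `(s - 1) A`. -/
theorem h12_cyc_isCoboundary₁_iff (s : G) (hs : ∀ g : G, g ∈ Subgroup.zpowers s)
    (hfin : IsOfFinOrder s) {f : G → A} (hf : IsCocycle₁ f) :
    IsCoboundary₁ f ↔ ∃ b : A, s • b - b = f s := by
  constructor
  · rintro ⟨x, hx⟩
    exact ⟨x, hx s⟩
  · rintro ⟨b, hb⟩
    refine ⟨b, fun g => ?_⟩
    obtain ⟨i, rfl⟩ := h12_exists_pow s hs hfin g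
    rw [h12_cocycle₁_pow s hf, ← hb, h12_psum_smul_sub]

/-- (CYC-1c) Every element of norm zero is the value at `s` of a 1-cocycle. -/
theorem h12_cyc_exists_cocycle₁ (s : G) (hs : ∀ g : G, g ∈ Subgroup.zpowers s)
    (hfin : IsOfFinOrder s) (a : A) (ha : h12_cycNorm s a = 0) :
    ∃ f : G → A, IsCocycle₁ f ∧ f s = a := by
  set ψ : G → A := fun g => g • a with hψ
  have h0 : h12_psum s ψ (orderOf s) = 0 := ha
  have hval : ∀ i : ℕ, h12_psum s ψ (h12_clog s (s ^ i)) = h12_psum s ψ i := fun i =>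
    h12_psum_congr s ψ h0 (h12_clog_spec s hs hfin (s ^ i))
  have hadd : ∀ i k : ℕ, h12_psum s ψ (i + k) = s ^ i • h12_psum s ψ k + h12_psum s ψ i := by
    intro i k
    unfold h12_psum
    rw [Finset.sum_range_add, Finset.smul_sum, add_comm]
    congr 1
    exact Finset.sum_congr rfl fun j _ => by rw [hψ]; simp only [pow_add, mul_smul]
  refine ⟨fun g => h12_psum s ψ (h12_clog s g), ?_, ?_⟩
  · intro g h
    obtain ⟨i, rfl⟩ := h12_exists_pow s hs hfin g
    obtain ⟨k, rfl⟩ := h12_exists_pow s hs hfin h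
    show h12_psum s ψ (h12_clog s (s ^ i * s ^ k)) =
      s ^ i • h12_psum s ψ (h12_clog s (s ^ k)) + h12_psum s ψ (h12_clog s (s ^ i))
    rw [← pow_add, hval, hval, hval, hadd]
  · show h12_psum s ψ (h12_clog s s) = a
    have := hval 1
    rw [pow_one] at this
    rw [this]
    simp [h12_psum, hψ]

/-- (CYC-1) `H^1(⟨s⟩, A) = 0` iff `ker N = (s - 1) A`. -/
theorem h12_cyc_H1_trivial_iff (s : G) (hs : ∀ g : G, g ∈ Subgroup.zpowers s)
    (hfin : IsOfFinOrder s) :
    (∀ f : G → A, IsCocycle₁ f → IsCoboundary₁ f) ↔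
      ∀ a : A, h12_cycNorm s a = 0 → ∃ b : A, s • b - b = a := by
  constructor
  · intro h a ha
    obtain ⟨f, hf, rfl⟩ := h12_cyc_exists_cocycle₁ s hs hfin a ha
    exact (h12_cyc_isCoboundary₁_iff s hs hfin hf).mp (h f hf)
  · intro h f hf
    exact (h12_cyc_isCoboundary₁_iff s hs hfin hf).mpr
      (h (f s) (h12_cycNorm_cocycle₁ s hfin hf))

/-! ### Degree two -/

/-- (CYC-2a) The invariant of a 2-cocycle is fixed by `s`. -/
theorem h12_cycInv_smul (s : G) (hfin : IsOfFinOrder s) {f : G × G → A} (hf : IsCocycle₂ f) :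
    s • h12_cycInv s f = h12_cycInv s f := by
  have _ := hfin
  have h1 : ∀ i : ℕ, f (s ^ (i + 1), s) + f (s, s ^ i) = s • f (s ^ i, s) + f (s, s ^ (i + 1)) := by
    intro i
    have := hf s (s ^ i) s
    rwa [← pow_succ', ← pow_succ] at this
  have h2 : ∑ i ∈ range (orderOf s), (f (s ^ (i + 1), s) + f (s, s ^ i)) =
      ∑ i ∈ range (orderOf s), (s • f (s ^ i, s) + f (s, s ^ (i + 1))) :=
    Finset.sum_congr rfl fun i _ => h1 i
  rw [Finset.sum_add_distrib, Finset.sum_add_distrib,
    h12_sum_shift s (fun g => f (g, s)), h12_sum_shift s (fun g => f (s, g)),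
    ← Finset.smul_sum] at h2
  exact (add_right_cancel h2).symm

/-- The invariant of a coboundary is a norm. -/
theorem h12_cycInv_coboundary (s : G) (x : G → A) (f : G × G → A)
    (hx : ∀ g h : G, g • x h - x (g * h) + x g = f (g, h)) :
    h12_cycInv s f = h12_cycNorm s (x s) := by
  unfold h12_cycInv h12_cycNorm
  have h1 : ∀ i : ℕ, f (s ^ i, s) = s ^ i • x s - x (s ^ (i + 1)) + x (s ^ i) := by
    intro i
    rw [← hx, pow_succ]
  rw [Finset.sum_congr rfl fun i _ => h1 i, Finset.sum_add_distrib, Finset.sum_sub_distrib,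
    h12_sum_shift s x]
  abel

/-- (CYC-2b) A 2-cocycle on `⟨s⟩` is a coboundary iff its invariant is a norm. -/
theorem h12_cyc_isCoboundary₂_iff (s : G) (hs : ∀ g : G, g ∈ Subgroup.zpowers s)
    (hfin : IsOfFinOrder s) {f : G × G → A} (hf : IsCocycle₂ f) :
    IsCoboundary₂ f ↔ ∃ b : A, h12_cycNorm s b = h12_cycInv s f := by
  constructor
  · rintro ⟨x, hx⟩
    exact ⟨x s, (h12_cycInv_coboundary s x f hx).symm⟩
  · rintro ⟨b, hb⟩
    set ψ : G → A := fun g => g • b - f (g, s) with hψ
    have h0 : h12_psum s ψ (orderOf s) = 0 := by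
      have : h12_psum s ψ (orderOf s) = h12_cycNorm s b - h12_cycInv s f := by
        simp only [h12_psum, hψ, h12_cycNorm, h12_cycInv, Finset.sum_sub_distrib]
      rw [this, hb, sub_self]
    obtain ⟨x, hx⟩ : ∃ x : G → A, x = fun g => f (1, 1) + h12_psum s ψ (h12_clog s g) :=
      ⟨_, rfl⟩
    have hxpow : ∀ i : ℕ, x (s ^ i) = f (1, 1) + h12_psum s ψ i := fun i => by
      rw [hx]
      show f (1, 1) + h12_psum s ψ (h12_clog s (s ^ i)) = _
      rw [h12_psum_congr s ψ h0 (h12_clog_spec s hs hfin (s ^ i))]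
    have hx1 : x 1 = f (1, 1) := by
      have := hxpow 0
      rwa [pow_zero, h12_psum_zero, add_zero] at this
    have hxs : x s = b := by
      have := hxpow 1
      rw [pow_one, h12_psum_succ, h12_psum_zero, zero_add, pow_zero, hψ] at this
      rw [this]
      show f (1, 1) + ((1 : G) • b - f (1, s)) = b
      rw [map_one_fst_of_isCocycle₂ hf s, one_smul]
      abel
    -- the case `h = s`
    have hS : ∀ g : G, f (g, s) = g • x s - x (g * s) + x g := by
      intro g
      obtain ⟨i, rfl⟩ := h12_exists_pow s hs hfin g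
      rw [← pow_succ, hxpow, hxpow, h12_psum_succ, hxs, hψ]
      show f (s ^ i, s) = s ^ i • b - (f (1, 1) + (h12_psum s (fun g => g • b - f (g, s)) i +
        (s ^ i • b - f (s ^ i, s)))) + (f (1, 1) + h12_psum s (fun g => g • b - f (g, s)) i)
      generalize s ^ i • b = u
      generalize h12_psum s (fun g => g • b - f (g, s)) i = v
      abel
    -- induction on the second variable
    have hK : ∀ (k : ℕ) (g : G), f (g, s ^ k) = g • x (s ^ k) - x (g * s ^ k) + x g := by
      intro k
      induction k with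
      | zero =>
        intro g
        rw [pow_zero, map_one_snd_of_isCocycle₂ hf g, mul_one, hx1]
        abel
      | succ k ih =>
        intro g
        have h1 := hf g (s ^ k) s
        have h2 := hS (g * s ^ k)
        have h3 := ih g
        have h4 := hS (s ^ k)
        rw [← pow_succ] at h1 h4
        rw [mul_assoc, ← pow_succ] at h2
        have h5 : f (g, s ^ (k + 1)) = f (g * s ^ k, s) + f (g, s ^ k) - g • f (s ^ k, s) := by
          rw [h1]; abel
        have h6 : g • f (s ^ k, s) = (g * s ^ k) • x s - g • x (s ^ (k + 1)) + g • x (s ^ k) := by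
          rw [h4, smul_add, smul_sub, mul_smul]
        rw [h5, h2, h3, h6]
        generalize (g * s ^ k) • x s = u1
        generalize x (g * s ^ (k + 1)) = u2
        generalize x (g * s ^ k) = u3
        generalize g • x (s ^ k) = u4
        generalize g • x (s ^ (k + 1)) = u5
        abel
    refine ⟨x, fun g h => ?_⟩
    obtain ⟨k, rfl⟩ := h12_exists_pow s hs hfin h
    exact (hK k g).symm

/-- (CYC-2c) Every fixed element is the invariant of a 2-cocycle. -/
theorem h12_cyc_exists_cocycle₂ (s : G) (hs : ∀ g : G, g ∈ Subgroup.zpowers s)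
    (hfin : IsOfFinOrder s) (a : A) (ha : s • a = a) :
    ∃ f : G × G → A, IsCocycle₂ f ∧ h12_cycInv s f = a := by
  classical
  have hn0 : ((orderOf s : ℕ) : ℤ) ≠ 0 := by exact_mod_cast hfin.orderOf_pos.ne'
  -- all of `G` fixes `a`
  have hfix : ∀ g : G, g • a = a := by
    intro g
    obtain ⟨i, rfl⟩ := h12_exists_pow s hs hfin g
    induction i with
    | zero => simp
    | succ i ih => rw [pow_succ, mul_smul, ha, ih]
  -- a section of `ℤ → G` with value `1` at `s`
  set ℓ : G → ℤ := fun g => if g = s then 1 else (h12_clog s g : ℤ) with hℓ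
  have hℓs : ℓ s = 1 := by simp [hℓ]
  have hℓpow : ∀ g : G, s ^ ℓ g = g := by
    intro g
    by_cases hg : g = s
    · rw [hℓ]; simp [hg]
    · have : ℓ g = (h12_clog s g : ℤ) := by rw [hℓ]; simp [hg]
      rw [this, zpow_natCast, h12_clog_spec s hs hfin g]
  -- the carry
  have hdvd : ∀ g h : G, ((orderOf s : ℕ) : ℤ) ∣ ℓ g + ℓ h - ℓ (g * h) := by
    intro g h
    rw [orderOf_dvd_iff_zpow_eq_one, zpow_sub, zpow_add, hℓpow, hℓpow, hℓpow, mul_inv_cancel]
  set c : G × G → ℤ := fun gh => (ℓ gh.1 + ℓ gh.2 - ℓ (gh.1 * gh.2)) / ((orderOf s : ℕ) : ℤ)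
    with hc
  have hcmul : ∀ g h : G, ((orderOf s : ℕ) : ℤ) * c (g, h) = ℓ g + ℓ h - ℓ (g * h) := fun g h =>
    Int.mul_ediv_cancel' (hdvd g h)
  have hccoc : ∀ g h j : G, c (g * h, j) + c (g, h) = c (h, j) + c (g, h * j) := by
    intro g h j
    apply mul_left_cancel₀ hn0
    rw [mul_add, mul_add, hcmul, hcmul, hcmul, hcmul, mul_assoc]
    ring
  have hcsum : ∑ i ∈ range (orderOf s), c (s ^ i, s) = 1 := by
    apply mul_left_cancel₀ hn0
    rw [Finset.mul_sum, Finset.sum_congr rfl fun i _ => hcmul (s ^ i) s]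
    simp only [← pow_succ]
    rw [Finset.sum_sub_distrib, Finset.sum_add_distrib, h12_sum_shift s ℓ, hℓs]
    simp
  refine ⟨fun gh => c gh • a, ?_, ?_⟩
  · intro g h j
    show c (g * h, j) • a + c (g, h) • a = g • (c (h, j) • a) + c (g, h * j) • a
    rw [smul_comm g (c (h, j)) a, hfix, ← add_smul, ← add_smul, hccoc]
  · show ∑ i ∈ range (orderOf s), c (s ^ i, s) • a = a
    rw [← Finset.sum_smul, hcsum, one_smul]

end Fermat.Agent.S55
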