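/-
S55 layer H (helper12), row H-CUP: character cup products `c ∪ δχ`, relative norms, and the
norm criterion.

* `h12_carry m a b` : the carry of `a + b` in `ZMod m`;
* `h12_chiCocycle χ c` : the 2-cocycle `(g, h) ↦ carry(χ g, χ h) • c` for a character
  `χ : G →* Multiplicative (ZMod m)` and a fixed element `c` (the cup product `c ∪ δχ`);
  additivity in `c` (equalities) and in `χ` (up to coboundaries), change of modulus;
* `h12_relNorm H c`, `h12_IsRelNorm H c` (`c ∈ N_{G/H}(C^H)`), the subgroups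
  `h12_normSubgroup`, `h12_relNormSubgroup`, `h12_cycNormHom`, `h12_cycFix`;
* the norm criterion: `c ∪ δχ` is a coboundary iff `c ∈ N_{G/ker χ}(C^{ker χ})`
  (one direction needs `H¹(ker χ, C) = 0`).
-/
import Mathlib
import Fermat.Agent.S55.h72_AbsDefs
import Fermat.Agent.S55.h40_HDefs
import Fermat.Agent.S55.h40_InfRes
import Fermat.Agent.S55.h12_Cyclic
import Fermat.Agent.S55.h56_Inv

set_option autoImplicit false
set_option linter.unusedSectionVars false
set_option linter.style.haveILetI false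

open groupCohomology

namespace Fermat.Agent.S55

/-- The carry of `a + b` in `ZMod m`: `a.val + b.val = (a + b).val + m * carry`. -/
def h12_carry (m : ℕ) (a b : ZMod m) : ℕ := (a.val + b.val) / m

section Defs

variable {G : Type*} [Group G] {C : Type*} [AddCommGroup C] [DistribMulAction G C]

/-- The 2-cocycle `c ∪ δχ`: `(g, h) ↦ carry(χ g, χ h) • c` (a cocycle when `c` is fixed). -/
def h12_chiCocycle {m : ℕ} (χ : G →* Multiplicative (ZMod m)) (c : C) : G × G → C :=
  fun x => h12_carry m (Multiplicative.toAdd (χ x.1)) (Multiplicative.toAdd (χ x.2)) • c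

end Defs

section Carry

theorem h12_carry_spec (m : ℕ) [NeZero m] (a b : ZMod m) :
    a.val + b.val = (a + b).val + m * h12_carry m a b := by
  rw [ZMod.val_add, h12_carry, Nat.mod_add_div]

theorem h12_carry_le_one (m : ℕ) [NeZero m] (a b : ZMod m) : h12_carry m a b ≤ 1 := by
  have ha := ZMod.val_lt a
  have hb := ZMod.val_lt b
  exact Nat.lt_succ_iff.mp (Nat.div_lt_of_lt_mul (by omega))

theorem h12_carry_comm (m : ℕ) (a b : ZMod m) : h12_carry m a b = h12_carry m b a := by
  rw [h12_carry, h12_carry, add_comm]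

theorem h12_carry_zero_left (m : ℕ) [NeZero m] (a : ZMod m) : h12_carry m 0 a = 0 := by
  rw [h12_carry, ZMod.val_zero, zero_add]
  exact Nat.div_eq_of_lt (ZMod.val_lt a)

theorem h12_carry_zero_right (m : ℕ) [NeZero m] (a : ZMod m) : h12_carry m a 0 = 0 := by
  rw [h12_carry_comm, h12_carry_zero_left]

theorem h12_carry_assoc (m : ℕ) [NeZero m] (a b c : ZMod m) :
    h12_carry m (a + b) c + h12_carry m a b = h12_carry m b c + h12_carry m a (b + c) := by
  have h1 := h12_carry_spec m (a + b) c
  have h2 := h12_carry_spec m a b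
  have h3 := h12_carry_spec m b c
  have h4 := h12_carry_spec m a (b + c)
  rw [← add_assoc] at h4
  have hm : 0 < m := Nat.pos_of_ne_zero (NeZero.ne m)
  have key : m * (h12_carry m (a + b) c + h12_carry m a b) =
      m * (h12_carry m b c + h12_carry m a (b + c)) := by
    rw [mul_add, mul_add]; omega
  exact Nat.eq_of_mul_eq_mul_left hm key

/-- the four-term identity behind additivity in the character. -/
theorem h12_carry_four (m : ℕ) [NeZero m] (a a' b b' : ZMod m) :
    h12_carry m (a + a') (b + b') + h12_carry m a a' + h12_carry m b b' =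
      h12_carry m (a + b) (a' + b') + h12_carry m a b + h12_carry m a' b' := by
  have h1 := h12_carry_spec m a a'
  have h2 := h12_carry_spec m b b'
  have h3 := h12_carry_spec m (a + a') (b + b')
  have h4 := h12_carry_spec m a b
  have h5 := h12_carry_spec m a' b'
  have h6 := h12_carry_spec m (a + b) (a' + b')
  rw [add_add_add_comm a a' b b'] at h3
  have hm : 0 < m := Nat.pos_of_ne_zero (NeZero.ne m)
  have key : m * (h12_carry m (a + a') (b + b') + h12_carry m a a' + h12_carry m b b') =
      m * (h12_carry m (a + b) (a' + b') + h12_carry m a b + h12_carry m a' b') := by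
    rw [mul_add, mul_add, mul_add, mul_add]; omega
  exact Nat.eq_of_mul_eq_mul_left hm key

theorem h12_carry_scale (m d : ℕ) [NeZero m] [NeZero d] (a b : ZMod m) (a' b' : ZMod (m * d))
    (ha : a'.val = d * a.val) (hb : b'.val = d * b.val) :
    h12_carry (m * d) a' b' = h12_carry m a b := by
  rw [h12_carry, h12_carry, ha, hb, ← mul_add, mul_comm m d]
  exact Nat.mul_div_mul_left _ _ (Nat.pos_of_ne_zero (NeZero.ne d))

end Carry

section Cup

variable {G : Type*} [Group G] {C : Type*} [AddCommGroup C] [DistribMulAction G C]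

variable {m : ℕ} [NeZero m]

omit [NeZero m] in
theorem h12_chiCocycle_apply (χ : G →* Multiplicative (ZMod m)) (c : C) (g h : G) :
    h12_chiCocycle χ c (g, h) =
      h12_carry m (Multiplicative.toAdd (χ g)) (Multiplicative.toAdd (χ h)) • c := rfl

theorem h12_chiCocycle_isCocycle₂ (χ : G →* Multiplicative (ZMod m)) (c : C)
    (hc : ∀ g : G, g • c = c) : IsCocycle₂ (h12_chiCocycle χ c) := by
  intro g h j
  simp only [h12_chiCocycle_apply, map_mul, toAdd_mul]
  rw [smul_comm g, hc g, ← add_nsmul, ← add_nsmul, h12_carry_assoc]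

omit [NeZero m] in
theorem h12_chiCocycle_add (χ : G →* Multiplicative (ZMod m)) (c c' : C) :
    h12_chiCocycle χ (c + c') = h12_chiCocycle χ c + h12_chiCocycle χ c' := by
  funext x
  simp only [h12_chiCocycle, Pi.add_apply, smul_add]

omit [NeZero m] in
theorem h12_chiCocycle_neg (χ : G →* Multiplicative (ZMod m)) (c : C) :
    h12_chiCocycle χ (-c) = -h12_chiCocycle χ c := by
  funext x
  simp only [h12_chiCocycle, Pi.neg_apply, smul_neg]

omit [NeZero m] in
theorem h12_chiCocycle_sub (χ : G →* Multiplicative (ZMod m)) (c c' : C) :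
    h12_chiCocycle χ (c - c') = h12_chiCocycle χ c - h12_chiCocycle χ c' := by
  funext x
  simp only [h12_chiCocycle, Pi.sub_apply, smul_sub]

omit [NeZero m] in
theorem h12_chiCocycle_nsmul (χ : G →* Multiplicative (ZMod m)) (n : ℕ) (c : C) :
    h12_chiCocycle χ (n • c) = n • h12_chiCocycle χ c := by
  funext x
  simp only [h12_chiCocycle, Pi.smul_apply]
  rw [smul_comm]

omit [NeZero m] in
theorem h12_chiCocycle_zsmul (χ : G →* Multiplicative (ZMod m)) (n : ℤ) (c : C) :
    h12_chiCocycle χ (n • c) = n • h12_chiCocycle χ c := by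
  funext x
  simp only [h12_chiCocycle, Pi.smul_apply]
  rw [smul_comm]

omit [NeZero m] in
theorem h12_chiCocycle_zero (χ : G →* Multiplicative (ZMod m)) :
    h12_chiCocycle χ (0 : C) = 0 := by
  funext x
  simp only [h12_chiCocycle, smul_zero, Pi.zero_apply]

theorem h12_chiCocycle_one (c : C) :
    h12_chiCocycle (1 : G →* Multiplicative (ZMod m)) c = 0 := by
  funext x
  simp only [h12_chiCocycle, MonoidHom.one_apply, toAdd_one, h12_carry_zero_left, zero_smul,
    Pi.zero_apply]

/-- additivity in the character, up to a coboundary. -/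
theorem h12_chiCocycle_mul (χ χ' : G →* Multiplicative (ZMod m)) (c : C)
    (hc : ∀ g : G, g • c = c) :
    IsCoboundary₂ (h12_chiCocycle (χ * χ') c - (h12_chiCocycle χ c + h12_chiCocycle χ' c)) := by
  refine ⟨fun g => -(h12_carry m (Multiplicative.toAdd (χ g)) (Multiplicative.toAdd (χ' g)) • c),
    fun g h => ?_⟩
  simp only [Pi.sub_apply, Pi.add_apply, h12_chiCocycle_apply, MonoidHom.mul_apply, map_mul,
    toAdd_mul, smul_neg]
  rw [smul_comm g, hc g]
  have key := h12_carry_four m (Multiplicative.toAdd (χ g)) (Multiplicative.toAdd (χ' g))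
    (Multiplicative.toAdd (χ h)) (Multiplicative.toAdd (χ' h))
  have key2 := congrArg (fun n : ℕ => n • c) key
  simp only [add_nsmul] at key2
  have key3 := eq_sub_of_add_eq (eq_sub_of_add_eq key2)
  rw [key3]
  abel

theorem h12_chiCocycle_pow (χ : G →* Multiplicative (ZMod m)) (n : ℕ) (c : C)
    (hc : ∀ g : G, g • c = c) :
    IsCoboundary₂ (h12_chiCocycle (χ ^ n) c - n • h12_chiCocycle χ c) := by
  induction n with
  | zero =>
    rw [pow_zero, h12_chiCocycle_one, zero_smul, sub_zero]
    exact h40_isCoboundary₂_zero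
  | succ n ih =>
    have h1 := h12_chiCocycle_mul (χ ^ n) χ c hc
    have h2 := h40_isCoboundary₂_add h1 ih
    have e : h12_chiCocycle (χ ^ (n + 1)) c - (n + 1) • h12_chiCocycle χ c =
        h12_chiCocycle (χ ^ n * χ) c - (h12_chiCocycle (χ ^ n) c + h12_chiCocycle χ c) +
          (h12_chiCocycle (χ ^ n) c - n • h12_chiCocycle χ c) := by
      rw [pow_succ, succ_nsmul]; abel
    rw [e]
    exact h2

theorem h12_chiCocycle_inv (χ : G →* Multiplicative (ZMod m)) (c : C)
    (hc : ∀ g : G, g • c = c) :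
    IsCoboundary₂ (h12_chiCocycle χ⁻¹ c + h12_chiCocycle χ c) := by
  have h1 := h40_isCoboundary₂_neg (h12_chiCocycle_mul χ⁻¹ χ c hc)
  rw [inv_mul_cancel, h12_chiCocycle_one, zero_sub, neg_neg] at h1
  exact h1

/-- change of modulus `m ∣ M = m * d` along `a ↦ d * a`. -/
theorem h12_chiCocycle_scale {d M : ℕ} [NeZero M] (hM : m * d = M)
    (χ : G →* Multiplicative (ZMod m)) (χ' : G →* Multiplicative (ZMod M))
    (h : ∀ g : G, (Multiplicative.toAdd (χ' g)).val = d * (Multiplicative.toAdd (χ g)).val)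
    (c : C) : h12_chiCocycle χ' c = h12_chiCocycle χ c := by
  subst hM
  have hd : NeZero d := ⟨fun h0 => NeZero.ne (m * d) (by rw [h0, mul_zero])⟩
  funext x
  simp only [h12_chiCocycle]
  rw [h12_carry_scale m d _ _ _ _ (h x.1) (h x.2)]

theorem h12_exists_scale {d M : ℕ} [NeZero M] (hM : m * d = M)
    (χ : G →* Multiplicative (ZMod m)) : ∃ χ' : G →* Multiplicative (ZMod M), χ'.ker = χ.ker ∧
      ∀ g : G, (Multiplicative.toAdd (χ' g)).val = d * (Multiplicative.toAdd (χ g)).val := by
  subst hM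
  have hd : d ≠ 0 := fun h0 => NeZero.ne (m * d) (by rw [h0, mul_zero])
  -- the additive map `a ↦ d * a`
  let f : ℤ →+ ZMod (m * d) := (AddMonoidHom.mulLeft ((d : ℕ) : ZMod (m * d))).comp
    (Int.castAddHom (ZMod (m * d)))
  have hf : f (m : ℤ) = 0 := by
    show ((d : ℕ) : ZMod (m * d)) * ((m : ℤ) : ZMod (m * d)) = 0
    rw [Int.cast_natCast, ← Nat.cast_mul, mul_comm d m, ZMod.natCast_self]
  let φ : ZMod m →+ ZMod (m * d) := ZMod.lift m ⟨f, hf⟩
  have hφ : ∀ a : ZMod m, (φ a).val = d * a.val := by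
    intro a
    have h1 : φ a = ((d * a.val : ℕ) : ZMod (m * d)) := by
      have h2 : a = ((a.val : ℤ) : ZMod m) := by
        rw [Int.cast_natCast, ZMod.natCast_zmod_val]
      conv_lhs => rw [h2]
      rw [ZMod.lift_coe]
      show ((d : ℕ) : ZMod (m * d)) * (((a.val : ℕ) : ℤ) : ZMod (m * d)) = _
      rw [Int.cast_natCast, Nat.cast_mul]
    rw [h1, ZMod.val_natCast]
    apply Nat.mod_eq_of_lt
    rw [mul_comm m d]
    exact Nat.mul_lt_mul_of_pos_left (ZMod.val_lt a) (Nat.pos_of_ne_zero hd)
  refine ⟨(AddMonoidHom.toMultiplicative φ).comp χ, ?_, fun g => hφ _⟩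
  ext g
  simp only [MonoidHom.mem_ker, MonoidHom.comp_apply]
  constructor
  · intro hg
    have h1 : φ (Multiplicative.toAdd (χ g)) = 0 := by
      have := congrArg Multiplicative.toAdd hg
      simpa using this
    have h2 := hφ (Multiplicative.toAdd (χ g))
    rw [h1, ZMod.val_zero] at h2
    have h3 : (Multiplicative.toAdd (χ g)).val = 0 := by
      rcases Nat.eq_zero_or_pos (Multiplicative.toAdd (χ g)).val with h | h
      · exact h
      · exact absurd h2.symm (Nat.mul_pos (Nat.pos_of_ne_zero hd) h).ne'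
    have h4 : Multiplicative.toAdd (χ g) = 0 := (ZMod.val_eq_zero _).1 h3
    exact Multiplicative.toAdd.injective h4
  · intro hg
    rw [hg]
    simp

end Cup

section RelNorm

variable {G : Type*} [Group G] {C : Type*} [AddCommGroup C] [DistribMulAction G C]

/-- The relative norm `N_{G/H} c = Σ_{q ∈ G/H} q.out • c` (meaningful for `c` fixed by `H`). -/
noncomputable def h12_relNorm (H : Subgroup G) (c : C) : C :=
  ∑ᶠ q : G ⧸ H, (Quotient.out q : G) • c

/-- `c ∈ N_{G/H}(C^H)`. -/
def h12_IsRelNorm (H : Subgroup G) (c : C) : Prop :=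
  ∃ c' : C, (∀ h ∈ H, h • c' = c') ∧ c = h12_relNorm H c'

/-- for `c` fixed by `H`, `q.out • c = g • c` when `q = ↑g`. -/
theorem h12_out_smul (H : Subgroup G) (c : C) (hc : ∀ h ∈ H, h • c = c) (g : G) :
    (Quotient.out (g : G ⧸ H) : G) • c = g • c := by
  obtain ⟨h, hh⟩ := QuotientGroup.mk_out_eq_mul H g
  rw [hh, mul_smul, hc h h.2]

theorem h12_relNorm_add (H : Subgroup G) [Finite (G ⧸ H)] (c c' : C) :
    h12_relNorm H (c + c') = h12_relNorm H c + h12_relNorm H c' := by
  unfold h12_relNorm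
  simp only [smul_add]
  exact finsum_add_distrib (Set.toFinite _) (Set.toFinite _)

theorem h12_relNorm_zero (H : Subgroup G) : h12_relNorm H (0 : C) = 0 := by
  unfold h12_relNorm
  simp only [smul_zero, finsum_zero]

theorem h12_relNorm_neg (H : Subgroup G) (c : C) :
    h12_relNorm H (-c) = -h12_relNorm H c := by
  unfold h12_relNorm
  simp only [smul_neg]
  exact finsum_neg_distrib _

variable (G C) in
/-- `N_G C` as a subgroup, for finite `G`. -/
def h12_normSubgroup [Finite G] : AddSubgroup C where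
  carrier := {c | ∃ c' : C, c = ∑ᶠ g : G, g • c'}
  add_mem' := by
    rintro _ _ ⟨a, rfl⟩ ⟨b, rfl⟩
    refine ⟨a + b, ?_⟩
    simp only [smul_add]
    exact (finsum_add_distrib (Set.toFinite _) (Set.toFinite _)).symm
  zero_mem' := ⟨0, by simp only [smul_zero, finsum_zero]⟩
  neg_mem' := by
    rintro _ ⟨a, rfl⟩
    refine ⟨-a, ?_⟩
    simp only [smul_neg]
    exact (finsum_neg_distrib _).symm

variable (C) in
/-- `N_{G/H}(C^H)` as a subgroup, for `H` of finite index. -/
def h12_relNormSubgroup (H : Subgroup G) [H.FiniteIndex] : AddSubgroup C where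
  carrier := {c | h12_IsRelNorm H c}
  add_mem' := by
    rintro _ _ ⟨a, ha, rfl⟩ ⟨b, hb, rfl⟩
    exact ⟨a + b, fun h hh => by rw [smul_add, ha h hh, hb h hh], (h12_relNorm_add H a b).symm⟩
  zero_mem' := ⟨0, fun h _ => smul_zero h, (h12_relNorm_zero H).symm⟩
  neg_mem' := by
    rintro _ ⟨a, ha, rfl⟩
    exact ⟨-a, fun h hh => by rw [smul_neg, ha h hh], (h12_relNorm_neg H a).symm⟩

/-- `c ↦ Σ_{i < orderOf s} s^i • c` as an additive map. -/
noncomputable def h12_cycNormHom (s : G) : C →+ C where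
  toFun := h12_cycNorm s
  map_zero' := by simp only [h12_cycNorm, smul_zero, Finset.sum_const_zero]
  map_add' := h12_cycNorm_add s

variable (C) in
/-- The fixed points of one element. -/
def h12_cycFix (s : G) : AddSubgroup C where
  carrier := {c | s • c = c}
  add_mem' := by
    intro a b ha hb
    show s • (a + b) = a + b
    rw [smul_add, ha, hb]
  zero_mem' := smul_zero s
  neg_mem' := by
    intro a ha
    show s • (-a) = -a
    rw [smul_neg, ha]

theorem h12_mem_normSubgroup [Finite G] (c : C) :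
    c ∈ h12_normSubgroup G C ↔ ∃ c' : C, c = ∑ᶠ g : G, g • c' := Iff.rfl

theorem h12_mem_relNormSubgroup (H : Subgroup G) [H.FiniteIndex] (c : C) :
    c ∈ h12_relNormSubgroup C H ↔ h12_IsRelNorm H c := Iff.rfl

theorem h12_mem_cycFix (s : G) (c : C) : c ∈ h12_cycFix C s ↔ s • c = c := Iff.rfl

theorem h12_cycNormHom_apply (s : G) (c : C) : h12_cycNormHom s c = h12_cycNorm s c := rfl

theorem h12_relNorm_fixed [Finite G] (H : Subgroup G) (c : C) (hc : ∀ h ∈ H, h • c = c) (g : G) :
    g • h12_relNorm H c = h12_relNorm H c := by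
  classical
  haveI : Fintype (G ⧸ H) := Fintype.ofFinite _
  unfold h12_relNorm
  rw [finsum_eq_sum_of_fintype, Finset.smul_sum]
  have h1 : ∀ q : G ⧸ H, g • (Quotient.out q : G) • c = (Quotient.out (g • q) : G) • c := by
    intro q
    have e : g • q = ((g * Quotient.out q : G) : G ⧸ H) := by
      conv_lhs => rw [← QuotientGroup.out_eq' q]
      rfl
    rw [e, h12_out_smul H c hc, mul_smul]
  rw [Finset.sum_congr rfl fun q _ => h1 q]
  exact Equiv.sum_comp (MulAction.toPerm g) fun q : G ⧸ H => (Quotient.out q : G) • c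

theorem h12_isRelNorm_fixed [Finite G] (H : Subgroup G) (c : C) (h : h12_IsRelNorm H c) (g : G) :
    g • c = c := by
  obtain ⟨c', hc', rfl⟩ := h
  exact h12_relNorm_fixed H c' hc' g

theorem h12_isRelNorm_bot [Finite G] (c : C) :
    h12_IsRelNorm (⊥ : Subgroup G) c ↔ ∃ c' : C, c = ∑ᶠ g : G, g • c' := by
  have key : ∀ c' : C, h12_relNorm (⊥ : Subgroup G) c' = ∑ᶠ g : G, g • c' := by
    intro c'
    unfold h12_relNorm
    have hfix : ∀ h ∈ (⊥ : Subgroup G), h • c' = c' := by
      intro h hh
      rw [Subgroup.mem_bot.1 hh, one_smul]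
    have hbij : Function.Bijective (fun g : G => (g : G ⧸ (⊥ : Subgroup G))) :=
      (QuotientGroup.quotientBot (G := G)).symm.bijective
    rw [← finsum_eq_of_bijective (fun g : G => (g : G ⧸ (⊥ : Subgroup G))) hbij
      (f := fun g : G => g • c')]
    intro g
    exact (h12_out_smul ⊥ c' hfix g).symm
  constructor
  · rintro ⟨c', -, rfl⟩
    exact ⟨c', key c'⟩
  · rintro ⟨c', rfl⟩
    refine ⟨c', ?_, (key c').symm⟩
    intro h hh
    rw [Subgroup.mem_bot.1 hh, one_smul]

theorem h12_isRelNorm_top (c : C) :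
    h12_IsRelNorm (⊤ : Subgroup G) c ↔ ∀ g : G, g • c = c := by
  haveI : Subsingleton (G ⧸ (⊤ : Subgroup G)) := QuotientGroup.subsingleton_quotient_top
  haveI : Unique (G ⧸ (⊤ : Subgroup G)) := Unique.mk' _
  have key : ∀ c' : C, (∀ h ∈ (⊤ : Subgroup G), h • c' = c') →
      h12_relNorm (⊤ : Subgroup G) c' = c' := by
    intro c' hc'
    unfold h12_relNorm
    rw [finsum_unique]
    exact hc' _ (Subgroup.mem_top _)
  constructor
  · rintro ⟨c', hc', rfl⟩ g
    rw [key c' hc']
    exact hc' g (Subgroup.mem_top g)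
  · intro hc
    exact ⟨c, fun h _ => hc h, (key c fun h _ => hc h).symm⟩

/-- a fixed element times the index is a relative norm. -/
theorem h12_isRelNorm_index_smul [Finite G] (H : Subgroup G) (c : C)
    (hc : ∀ g : G, g • c = c) : h12_IsRelNorm H (H.index • c) := by
  classical
  haveI : Fintype (G ⧸ H) := Fintype.ofFinite _
  refine ⟨c, fun h _ => hc h, ?_⟩
  unfold h12_relNorm
  rw [finsum_eq_sum_of_fintype]
  simp only [hc]
  rw [Finset.sum_const, Finset.card_univ, Subgroup.index, Nat.card_eq_fintype_card]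

/-- transitivity of norms: `N_{G/H}(C^H) ⊆ N_{G/K}(C^K)` for `H ≤ K`. -/
theorem h12_isRelNorm_mono [Finite G] {H K : Subgroup G} (hHK : H ≤ K) (c : C)
    (h : h12_IsRelNorm H c) : h12_IsRelNorm K c := by
  classical
  obtain ⟨c', hc', rfl⟩ := h
  haveI : Fintype (G ⧸ H) := Fintype.ofFinite _
  haveI : Fintype (G ⧸ K) := Fintype.ofFinite _
  haveI : Fintype (K ⧸ H.subgroupOf K) := Fintype.ofFinite _
  -- the inner norm, computed in the group `K`
  have hc'K : ∀ h ∈ H.subgroupOf K, h • c' = c' := fun h hh => hc' (h : G) hh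
  set c'' : C := h12_relNorm (H.subgroupOf K) c' with hc''
  have hfix : ∀ k ∈ K, k • c'' = c'' := by
    intro k hk
    exact h12_relNorm_fixed (G := K) (H.subgroupOf K) c' hc'K ⟨k, hk⟩
  refine ⟨c'', hfix, ?_⟩
  unfold h12_relNorm
  rw [finsum_eq_sum_of_fintype, finsum_eq_sum_of_fintype]
  have e := Subgroup.quotientEquivProdOfLE hHK
  rw [← Equiv.sum_comp (Subgroup.quotientEquivProdOfLE hHK).symm
    (fun q : G ⧸ H => (Quotient.out q : G) • c'), Fintype.sum_prod_type]
  refine Finset.sum_congr rfl fun Q _ => ?_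
  rw [hc'', h12_relNorm, finsum_eq_sum_of_fintype, Finset.smul_sum]
  refine Finset.sum_congr rfl fun r _ => ?_
  have e1 : (Subgroup.quotientEquivProdOfLE hHK).symm (Q, r) =
      ((Quotient.out Q * ((Quotient.out r : K) : G) : G) : G ⧸ H) := by
    conv_lhs => rw [← QuotientGroup.out_eq' r]
    rfl
  rw [e1, h12_out_smul H c' hc', mul_smul]
  rfl

/-- dictionary with the quotient group `G ⧸ K` acting on `h56_Inv K C`. -/
theorem h12_isRelNorm_iff_quot [Finite G] (K : Subgroup G) [K.Normal] (c : C) :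
    h12_IsRelNorm K c ↔
      ∃ b : h56_Inv K C, c = ((∑ᶠ q : G ⧸ K, q • b : h56_Inv K C) : C) := by
  have key : ∀ b : h56_Inv K C,
      ((∑ᶠ q : G ⧸ K, q • b : h56_Inv K C) : C) = h12_relNorm K (b : C) := by
    intro b
    have h1 := AddMonoidHom.map_finsum (h56_Inv K C).subtype
      (f := fun q : G ⧸ K => q • b) (Set.toFinite _)
    rw [AddSubgroup.coe_subtype] at h1
    rw [h1]
    unfold h12_relNorm
    refine finsum_congr fun q => ?_
    conv_lhs => rw [← QuotientGroup.out_eq' q]
    exact h56_Inv.coe_mk_smul _ b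
  constructor
  · rintro ⟨c', hc', rfl⟩
    exact ⟨⟨c', hc'⟩, (key ⟨c', hc'⟩).symm⟩
  · rintro ⟨b, rfl⟩
    exact ⟨b, b.2, key b⟩

/-- on a cyclic group the cyclic norm is the norm. -/
theorem h12_cycNorm_eq_finsum [Finite G] (s : G) (hs : ∀ g : G, g ∈ Subgroup.zpowers s) (c : C) :
    h12_cycNorm s c = ∑ᶠ g : G, g • c := by
  classical
  haveI : Fintype G := Fintype.ofFinite _
  rw [finsum_eq_sum_of_fintype, h12_cycNorm, ← IsCyclic.image_range_orderOf hs,
    Finset.sum_image]
  intro i hi j hj hij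
  exact pow_injOn_Iio_orderOf (Finset.mem_range.1 hi) (Finset.mem_range.1 hj) hij

end RelNorm

section Criterion

variable {m : ℕ} [NeZero m]

/-- the number of carries along the multiples of `t`. -/
theorem h12_sum_carry (t : ZMod m) (e : ℕ) (he : e • t = 0) :
    m * ∑ i ∈ Finset.range e, h12_carry m (i • t) t = e * t.val := by
  have h1 : ∀ i : ℕ, (i • t).val + t.val = ((i + 1) • t).val + m * h12_carry m (i • t) t := by
    intro i
    rw [succ_nsmul]
    exact h12_carry_spec m (i • t) t
  have h2 : ∑ i ∈ Finset.range e, ((i • t).val + t.val) =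
      ∑ i ∈ Finset.range e, (((i + 1) • t).val + m * h12_carry m (i • t) t) :=
    Finset.sum_congr rfl fun i _ => h1 i
  rw [Finset.sum_add_distrib, Finset.sum_add_distrib, Finset.sum_const, Finset.card_range,
    ← Finset.mul_sum] at h2
  have h3 : ∑ i ∈ Finset.range e, ((i + 1) • t).val = ∑ i ∈ Finset.range e, (i • t).val := by
    have a := Finset.sum_range_succ' (fun i => (i • t).val) e
    have b := Finset.sum_range_succ (fun i => (i • t).val) e
    rw [a] at b
    simp only [zero_smul, ZMod.val_zero, he, add_zero] at b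
    exact b
  rw [h3] at h2
  simp only [smul_eq_mul] at h2
  omega

/-- On a finite group with an injective character (hence cyclic): `c ∪ δχ` is a coboundary iff
`c` is a norm. -/
theorem h12_chi_cyc_iff {Q B : Type*} [Group Q] [Finite Q] [AddCommGroup B]
    [DistribMulAction Q B] (χ : Q →* Multiplicative (ZMod m)) (hχ : Function.Injective χ)
    (c : B) (hc : ∀ q : Q, q • c = c) :
    IsCoboundary₂ (h12_chiCocycle χ c) ↔ ∃ b : B, c = ∑ᶠ q : Q, q • b := by
  haveI : IsCyclic Q := isCyclic_of_injective χ hχ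
  obtain ⟨s, hs⟩ := IsCyclic.exists_generator (α := Q)
  have hfin : IsOfFinOrder s := isOfFinOrder_of_finite s
  rw [h12_cyc_isCoboundary₂_iff s hs hfin (h12_chiCocycle_isCocycle₂ χ c hc)]
  set t : ZMod m := Multiplicative.toAdd (χ s) with ht
  set e : ℕ := orderOf s with he_def
  have he_pos : 0 < e := hfin.orderOf_pos
  set u : ℕ := ∑ i ∈ Finset.range e, h12_carry m (i • t) t with hu_def
  have hinv : h12_cycInv s (h12_chiCocycle χ c) = u • c := by
    unfold h12_cycInv
    rw [hu_def, Finset.sum_smul]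
    refine Finset.sum_congr rfl fun i _ => ?_
    rw [h12_chiCocycle_apply, map_pow, toAdd_pow]
  have he : e • t = 0 := by
    rw [ht, ← toAdd_pow, ← map_pow, he_def, pow_orderOf_eq_one, map_one, toAdd_one]
  have hu : m * u = e * t.val := h12_sum_carry t e he
  have hcop : Nat.Coprime u e := by
    set d := Nat.gcd u e with hd
    have hd_pos : 0 < d := Nat.gcd_pos_of_pos_right u he_pos
    obtain ⟨u', hu'⟩ := Nat.gcd_dvd_left u e
    obtain ⟨e', he'⟩ := Nat.gcd_dvd_right u e
    rw [← hd] at hu' he'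
    have h1 : m * u' = e' * t.val := by
      have : d * (m * u') = d * (e' * t.val) := by
        calc d * (m * u') = m * (d * u') := by ring
          _ = m * u := by rw [← hu']
          _ = e * t.val := hu
          _ = d * (e' * t.val) := by rw [he']; ring
      exact Nat.eq_of_mul_eq_mul_left hd_pos this
    have h2 : e' • t = 0 := by
      rw [nsmul_eq_mul]
      have : ((e' * t.val : ℕ) : ZMod m) = 0 := by
        rw [← h1, Nat.cast_mul, ZMod.natCast_self, zero_mul]
      rw [Nat.cast_mul, ZMod.natCast_zmod_val] at this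
      exact this
    have h3 : s ^ e' = 1 := by
      apply hχ
      rw [map_pow, map_one]
      apply Multiplicative.toAdd.injective
      rw [toAdd_pow, toAdd_one]
      exact h2
    have h4 : e ∣ e' := orderOf_dvd_of_pow_eq_one h3
    have he'_pos : 0 < e' := by
      rcases Nat.eq_zero_or_pos e' with h | h
      · rw [h, mul_zero] at he'; omega
      · exact h
    have h5 : e ≤ e' := Nat.le_of_dvd he'_pos h4
    have h6 : d = 1 := by
      rcases Nat.lt_or_ge d 2 with h | h
      · omega
      · exfalso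
        have : 2 * e' ≤ d * e' := Nat.mul_le_mul_right e' h
        omega
    exact h6
  have hnorm : ∀ b : B, ∑ᶠ q : Q, q • b = h12_cycNorm s b := fun b =>
    (h12_cycNorm_eq_finsum s hs b).symm
  have hfixnorm : h12_cycNorm s c = e • c := by
    unfold h12_cycNorm
    rw [Finset.sum_congr rfl fun i _ => hc (s ^ i), Finset.sum_const, Finset.card_range]
  constructor
  · rintro ⟨b, hb⟩
    rw [hinv] at hb
    obtain ⟨x, y, hxy⟩ := Nat.isCoprime_iff_coprime.2 hcop
    refine ⟨x • b + y • c, ?_⟩
    rw [hnorm, ← h12_cycNormHom_apply, map_add, map_zsmul, map_zsmul, h12_cycNormHom_apply,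
      h12_cycNormHom_apply, hb, hfixnorm]
    have : c = (x * (u : ℤ) + y * (e : ℤ)) • c := by rw [hxy, one_smul]
    conv_lhs => rw [this]
    rw [add_smul, mul_smul, mul_smul, natCast_zsmul, natCast_zsmul]
  · rintro ⟨b, hb⟩
    refine ⟨u • b, ?_⟩
    rw [hinv, ← h12_cycNormHom_apply, map_nsmul, h12_cycNormHom_apply, ← hnorm, ← hb]

variable {G : Type*} [Group G] {C : Type*} [AddCommGroup C] [DistribMulAction G C]

/-- the quotient picture of `c ∪ δχ`. -/
theorem h12_chi_quot_iff [Finite G] (χ : G →* Multiplicative (ZMod m)) (c : C)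
    (hc : ∀ g : G, g • c = c) :
    IsCoboundary₂ (h12_chiCocycle (QuotientGroup.kerLift χ)
        (⟨c, fun k _ => hc k⟩ : h56_Inv χ.ker C)) ↔ h12_IsRelNorm χ.ker c := by
  have hfix : ∀ q : G ⧸ χ.ker, q • (⟨c, fun k _ => hc k⟩ : h56_Inv χ.ker C) = ⟨c, fun k _ => hc k⟩ := by
    intro q
    induction q using QuotientGroup.induction_on with
    | H g => exact Subtype.ext (hc g)
  rw [h12_chi_cyc_iff (QuotientGroup.kerLift χ) (QuotientGroup.kerLift_injective χ) _ hfix,
    h12_isRelNorm_iff_quot]
  constructor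
  · rintro ⟨b, hb⟩
    exact ⟨b, congrArg Subtype.val hb⟩
  · rintro ⟨b, hb⟩
    exact ⟨b, Subtype.ext hb⟩

theorem h12_chi_inf [Finite G] (χ : G →* Multiplicative (ZMod m)) (c : C)
    (hc : ∀ g : G, g • c = c) :
    h40_inf₂ (QuotientGroup.mk' χ.ker) (h56_Inv χ.ker C).subtype
      (h12_chiCocycle (QuotientGroup.kerLift χ) (⟨c, fun k _ => hc k⟩ : h56_Inv χ.ker C)) =
      h12_chiCocycle χ c := by
  funext x
  rfl

/-- norms give coboundaries: if `c ∈ N_{G/ker χ}(C^{ker χ})` then `c ∪ δχ` is a coboundary. -/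
theorem h12_chi_coboundary_of_relNorm [Finite G] (χ : G →* Multiplicative (ZMod m)) (c : C)
    (h : h12_IsRelNorm χ.ker c) : IsCoboundary₂ (h12_chiCocycle χ c) := by
  have hc : ∀ g : G, g • c = c := h12_isRelNorm_fixed χ.ker c h
  rw [← h12_chi_inf χ c hc]
  exact h40_inf₂_isCoboundary₂ _ _ (fun g b => h56_Inv.coe_mk_smul g b)
    ((h12_chi_quot_iff χ c hc).2 h)

/-- conversely, when `H¹(ker χ, C) = 0`. -/
theorem h12_chi_relNorm_of_coboundary [Finite G] (χ : G →* Multiplicative (ZMod m))
    (hH1 : ∀ u : χ.ker → C, IsCocycle₁ u → IsCoboundary₁ u) (c : C) (hc : ∀ g : G, g • c = c)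
    (h : IsCoboundary₂ (h12_chiCocycle χ c)) : h12_IsRelNorm χ.ker c := by
  rw [← h12_chi_inf χ c hc] at h
  have hker : (QuotientGroup.mk' χ.ker).ker = χ.ker := QuotientGroup.ker_mk' χ.ker
  have hH1' : ∀ u : (QuotientGroup.mk' χ.ker).ker → C, IsCocycle₁ u → IsCoboundary₁ u := by
    rw [hker]
    exact hH1
  have hfix : ∀ q : G ⧸ χ.ker, q • (⟨c, fun k _ => hc k⟩ : h56_Inv χ.ker C) = ⟨c, fun k _ => hc k⟩ := by
    intro q
    induction q using QuotientGroup.induction_on with
    | H g => exact Subtype.ext (hc g)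
  refine (h12_chi_quot_iff χ c hc).1
    (h40_inf₂_injective (QuotientGroup.mk' χ.ker) (h56_Inv χ.ker C).subtype
      (QuotientGroup.mk'_surjective χ.ker) (AddSubgroup.subtype_injective _)
      (fun g b => h56_Inv.coe_mk_smul g b) ?_ hH1' _
      (h12_chiCocycle_isCocycle₂ _ _ hfix) h)
  intro a ha
  refine ⟨⟨a, fun k hk => ha k ?_⟩, rfl⟩
  rw [hker]
  exact hk

end Criterion

end Fermat.Agent.S55
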