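/-
S55 layer H (helper34): two counting leaves of row 247 H-NORMIDX (Mathlib only).

* `h34_card_addHom_le` (D): a finite abelian group `X` has at most `|X|` homomorphisms into
  `ZMod M`;
* `h34_card_char_ge` (CHAR): a finite abelian group `G` has at least `|G|_p` characters with
  values in `ZMod (|G|_p)`.
-/
import Mathlib

set_option autoImplicit false

namespace Fermat.Agent.S55

/-- (D) `|Hom(X, ℤ/M)| ≤ |X|` for a finite abelian group `X`. -/
theorem h34_card_addHom_le (X : Type*) [AddCommGroup X] [Finite X] (M : ℕ) [NeZero M] :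
    Nat.card (X →+ ZMod M) ≤ Nat.card X := by
  classical
  have := Fintype.ofFinite X
  have h1 : Nat.card (AddChar X ℂ) = Nat.card X := by
    rw [Nat.card_eq_fintype_card, Nat.card_eq_fintype_card]
    exact AddChar.card_eq
  rw [← h1]
  refine Nat.card_le_card_of_injective
    (fun f : X →+ ZMod M => (ZMod.stdAddChar (N := M)).compAddMonoidHom f) ?_
  intro f f' h
  ext x
  have h2 := DFunLike.congr_fun h x
  simp only [AddChar.compAddMonoidHom_apply] at h2
  exact ZMod.injective_stdAddChar h2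

/-- the multiplicative group `ℤ/M` has enough `M`-th roots of unity. -/
theorem h34_hasEnoughRootsOfUnity (M : ℕ) [NeZero M] :
    HasEnoughRootsOfUnity (Multiplicative (ZMod M)) M where
  prim := by
    refine ⟨Multiplicative.ofAdd (1 : ZMod M), ?_⟩
    rw [IsPrimitiveRoot.iff_orderOf, orderOf_ofAdd_eq_addOrderOf, ZMod.addOrderOf_one]
  cyc := by
    have h : IsCyclic (Multiplicative (ZMod M))ˣ :=
      isCyclic_of_surjective (toUnits (G := Multiplicative (ZMod M)))
        (toUnits (G := Multiplicative (ZMod M))).surjective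
    infer_instance

/-- (CHAR) a finite abelian group has at least `|G|_p` characters with values in
`ℤ/|G|_p`. -/
theorem h34_card_char_ge (p : ℕ) [Fact p.Prime] (G : Type*) [CommGroup G] [Finite G] :
    p ^ (Nat.card G).factorization p ≤
      Nat.card (G →* Multiplicative (ZMod (p ^ (Nat.card G).factorization p))) := by
  have hp : p.Prime := Fact.out
  set N := (Nat.card G).factorization p with hN
  have hcard0 : Nat.card G ≠ 0 := Nat.card_pos.ne'
  -- `H := G^(p^N)`
  let H : Subgroup G := (powMonoidHom (p ^ N) : G →* G).range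
  have hexp : Monoid.exponent (G ⧸ H) ∣ p ^ N := by
    apply Monoid.exponent_dvd_of_forall_pow_eq_one
    intro q
    obtain ⟨g, rfl⟩ := QuotientGroup.mk_surjective q
    rw [← QuotientGroup.mk_pow, QuotientGroup.eq_one_iff]
    exact ⟨g, rfl⟩
  have : NeZero (p ^ N) := ⟨pow_ne_zero _ hp.ne_zero⟩
  have h0 : HasEnoughRootsOfUnity (Multiplicative (ZMod (p ^ N))) (p ^ N) :=
    h34_hasEnoughRootsOfUnity (p ^ N)
  have h0' : HasEnoughRootsOfUnity (Multiplicative (ZMod (p ^ N))) (Monoid.exponent (G ⧸ H)) :=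
    HasEnoughRootsOfUnity.of_dvd _ hexp
  have hcard : Nat.card ((G ⧸ H) →* (Multiplicative (ZMod (p ^ N)))ˣ) = Nat.card (G ⧸ H) :=
    CommGroup.card_monoidHom_of_hasEnoughRootsOfUnity _ _
  -- `p ∤ |H|`
  have h2 : ¬ p ∣ Nat.card H := by
    intro hdiv
    obtain ⟨h, hh⟩ := exists_prime_orderOf_dvd_card' p hdiv
    obtain ⟨h, g, rfl⟩ := h
    have h3 : (⟨powMonoidHom (p ^ N) g, g, rfl⟩ : H) ^ (Nat.card G / p ^ N) = 1 := by
      apply Subtype.ext
      show (g ^ p ^ N) ^ (Nat.card G / p ^ N) = 1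
      rw [← pow_mul, Nat.mul_div_cancel' (Nat.ordProj_dvd _ _)]
      exact pow_card_eq_one'
    have h4 := orderOf_dvd_of_pow_eq_one h3
    rw [hh] at h4
    exact Nat.not_dvd_ordCompl hp hcard0 h4
  have hdvd : p ^ N ∣ Nat.card (G ⧸ H) := by
    have h1 : Nat.card G = Nat.card (G ⧸ H) * Nat.card H :=
      Subgroup.card_eq_card_quotient_mul_card_subgroup H
    have h3 : p ^ N ∣ Nat.card (G ⧸ H) * Nat.card H := h1 ▸ Nat.ordProj_dvd _ _
    exact (Nat.Coprime.pow_left N ((Nat.Prime.coprime_iff_not_dvd hp).2 h2)).dvd_of_dvd_mul_right h3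
  have hle : p ^ N ≤ Nat.card (G ⧸ H) := Nat.le_of_dvd Nat.card_pos hdvd
  have hfin : Finite (G →* Multiplicative (ZMod (p ^ N))) := DFunLike.finite _
  calc p ^ N ≤ Nat.card (G ⧸ H) := hle
    _ = Nat.card ((G ⧸ H) →* (Multiplicative (ZMod (p ^ N)))ˣ) := hcard.symm
    _ ≤ Nat.card (G →* Multiplicative (ZMod (p ^ N))) := by
      refine Nat.card_le_card_of_injective
        (fun χ : (G ⧸ H) →* (Multiplicative (ZMod (p ^ N)))ˣ =>
          ((Units.coeHom _).comp χ).comp (QuotientGroup.mk' H)) ?_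
      intro χ χ' h
      refine MonoidHom.ext fun q => ?_
      obtain ⟨g, rfl⟩ := QuotientGroup.mk_surjective q
      have h5 := DFunLike.congr_fun h g
      exact Units.ext h5

end Fermat.Agent.S55
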