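/-
S55 layer H, row H-KILL (helper83): `|G|` kills `H^1`, `H^2`, `H^3` (unbundled cocycles),
and the `p`-local corollaries used in (CT).
-/
import Mathlib
import Fermat.Agent.S55.h72_AbsDefs
import Fermat.Agent.S55.h40_HDefs

set_option autoImplicit false

namespace Fermat.Agent.S55

open groupCohomology

section KILL

variable {G A : Type*} [Group G] [Finite G] [AddCommGroup A] [DistribMulAction G A]

/-- `|G| • f` is a coboundary for every 1-cocycle `f`. -/
theorem h83_kill₁ (f : G → A) (hf : IsCocycle₁ f) : IsCoboundary₁ (Nat.card G • f) := by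
  classical
  let _ : Fintype G := Fintype.ofFinite G
  refine ⟨-∑ x : G, f x, fun g => ?_⟩
  have h1 : ∑ x : G, f (g * x) = ∑ x : G, f x :=
    Fintype.sum_equiv (Equiv.mulLeft g) _ _ (fun x => rfl)
  have h2 : ∑ x : G, f (g * x) = g • ∑ x : G, f x + Nat.card G • f g := by
    rw [Finset.smul_sum, Nat.card_eq_fintype_card, ← Finset.card_univ, ← Finset.sum_const,
      ← Finset.sum_add_distrib]
    exact Finset.sum_congr rfl (fun x _ => hf g x)
  rw [h1] at h2
  show g • (-∑ x : G, f x) - (-∑ x : G, f x) = Nat.card G • f g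
  rw [smul_neg]
  have h3 : Nat.card G • f g = ∑ x : G, f x - g • ∑ x : G, f x := by
    rw [eq_sub_iff_add_eq, add_comm]; exact h2.symm
  rw [h3]
  abel

/-- `|G| • f` is a coboundary for every 2-cocycle `f`. -/
theorem h83_kill₂ (f : G × G → A) (hf : IsCocycle₂ f) : IsCoboundary₂ (Nat.card G • f) := by
  classical
  let _ : Fintype G := Fintype.ofFinite G
  refine ⟨fun g => ∑ x : G, f (g, x), fun g h => ?_⟩
  have h1 : ∑ x : G, f (g, h * x) = ∑ x : G, f (g, x) :=
    Fintype.sum_equiv (Equiv.mulLeft h) _ _ (fun x => rfl)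
  have h2 : ∑ x : G, f (g * h, x) + Nat.card G • f (g, h)
      = g • ∑ x : G, f (h, x) + ∑ x : G, f (g, h * x) := by
    rw [Finset.smul_sum, Nat.card_eq_fintype_card, ← Finset.card_univ, ← Finset.sum_const,
      ← Finset.sum_add_distrib, ← Finset.sum_add_distrib]
    exact Finset.sum_congr rfl (fun x _ => hf g h x)
  rw [h1] at h2
  show g • ∑ x : G, f (h, x) - ∑ x : G, f (g * h, x) + ∑ x : G, f (g, x) = Nat.card G • f (g, h)
  have h3 : Nat.card G • f (g, h)
      = g • ∑ x : G, f (h, x) + ∑ x : G, f (g, x) - ∑ x : G, f (g * h, x) := by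
    rw [eq_sub_iff_add_eq, add_comm]; exact h2
  rw [h3]
  abel

/-- `|G| • F` is a coboundary for every 3-cocycle `F`. -/
theorem h83_kill₃ (f : G × G × G → A) (hf : h40_IsCocycle₃ f) :
    h40_IsCoboundary₃ (Nat.card G • f) := by
  classical
  let _ : Fintype G := Fintype.ofFinite G
  refine ⟨fun y => -∑ x : G, f (y.1, y.2, x), fun g h j => ?_⟩
  have h1 : ∑ x : G, f (g, h, j * x) = ∑ x : G, f (g, h, x) :=
    Fintype.sum_equiv (Equiv.mulLeft j) _ _ (fun x => rfl)
  have h2 : ∑ x : G, f (g * h, j, x) + ∑ x : G, f (g, h, j * x)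
      = g • ∑ x : G, f (h, j, x) + ∑ x : G, f (g, h * j, x) + Nat.card G • f (g, h, j) := by
    rw [Finset.smul_sum, Nat.card_eq_fintype_card, ← Finset.card_univ, ← Finset.sum_const,
      ← Finset.sum_add_distrib, ← Finset.sum_add_distrib, ← Finset.sum_add_distrib]
    exact Finset.sum_congr rfl (fun x _ => hf g h j x)
  rw [h1] at h2
  show g • (-∑ x : G, f (h, j, x)) - (-∑ x : G, f (g * h, j, x)) + (-∑ x : G, f (g, h * j, x))
      - (-∑ x : G, f (g, h, x)) = Nat.card G • f (g, h, j)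
  rw [smul_neg]
  have h3 : Nat.card G • f (g, h, j) = ∑ x : G, f (g * h, j, x) + ∑ x : G, f (g, h, x)
      - (g • ∑ x : G, f (h, j, x) + ∑ x : G, f (g, h * j, x)) := by
    rw [h2]; abel
  rw [h3]
  abel

/-! ### Closure of cocycles / coboundaries under `ℕ`-multiples -/

omit [Finite G] in
lemma h83_isCocycle₂_nsmul (n : ℕ) {f : G × G → A} (hf : IsCocycle₂ f) : IsCocycle₂ (n • f) := by
  intro g h j
  show n • f (g * h, j) + n • f (g, h) = g • (n • f (h, j)) + n • f (g, h * j)
  rw [← smul_add, hf g h j, smul_add, smul_comm g n]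

omit [Finite G] in
lemma h83_isCocycle₃_nsmul (n : ℕ) {f : G × G × G → A} (hf : h40_IsCocycle₃ f) :
    h40_IsCocycle₃ (n • f) := by
  intro g h j k
  show n • f (g * h, j, k) + n • f (g, h, j * k)
    = g • (n • f (h, j, k)) + n • f (g, h * j, k) + n • f (g, h, j)
  rw [← smul_add, hf g h j k, smul_add, smul_add, smul_comm g n]

omit [Finite G] in
/-- Dividing a 2-cocycle by a number acting bijectively. -/
lemma h83_exists_div₂ (m : ℕ) (hm : Function.Bijective (fun a : A => m • a))
    (f : G × G → A) (hf : IsCocycle₂ f) : ∃ f' : G × G → A, IsCocycle₂ f' ∧ m • f' = f := by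
  choose f' hf' using fun x => hm.2 (f x)
  have hf'' : ∀ x, m • f' x = f x := hf'
  refine ⟨f', fun g h j => ?_, funext hf''⟩
  apply hm.1
  show m • (f' (g * h, j) + f' (g, h)) = m • (g • f' (h, j) + f' (g, h * j))
  rw [smul_add, smul_add, smul_comm m g, hf'', hf'', hf'', hf'']
  exact hf g h j

omit [Finite G] in
/-- Dividing a 3-cocycle by a number acting bijectively. -/
lemma h83_exists_div₃ (m : ℕ) (hm : Function.Bijective (fun a : A => m • a))
    (f : G × G × G → A) (hf : h40_IsCocycle₃ f) :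
    ∃ f' : G × G × G → A, h40_IsCocycle₃ f' ∧ m • f' = f := by
  choose f' hf' using fun x => hm.2 (f x)
  have hf'' : ∀ x, m • f' x = f x := hf'
  refine ⟨f', fun g h j k => ?_, funext hf''⟩
  apply hm.1
  show m • (f' (g * h, j, k) + f' (g, h, j * k))
    = m • (g • f' (h, j, k) + f' (g, h * j, k) + f' (g, h, j))
  rw [smul_add, smul_add, smul_add, smul_comm m g, hf'', hf'', hf'', hf'', hf'']
  exact hf g h j k

/-- Consequence used in (CT): `p`-local + `p` injective on classes ⟹ zero. -/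
theorem h83_kill₂_plocal {p : ℕ} [Fact p.Prime] (hA : h40_IsPLocal p A)
    (hinj : ∀ f : G × G → A, IsCocycle₂ f → IsCoboundary₂ (p • f) → IsCoboundary₂ f)
    (f : G × G → A) (hf : IsCocycle₂ f) : IsCoboundary₂ f := by
  have hp : p.Prime := Fact.out
  have hcard : Nat.card G ≠ 0 := Nat.card_pos.ne'
  obtain ⟨k, m, hm, hkm⟩ := Nat.exists_eq_pow_mul_and_not_dvd hcard p hp.ne_one
  have hcop : m.Coprime p := ((Nat.Prime.coprime_iff_not_dvd hp).2 hm).symm
  obtain ⟨f', hf'c, hf'⟩ := h83_exists_div₂ m (hA m hcop) f hf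
  have h1 : IsCoboundary₂ (p ^ k • f) := by
    have h2 := h83_kill₂ f' hf'c
    rwa [hkm, mul_smul, hf'] at h2
  clear hkm hf' hf'c
  induction k with
  | zero => simpa using h1
  | succ k ih =>
    apply ih
    apply hinj _ (h83_isCocycle₂_nsmul _ hf)
    rwa [← mul_smul, ← pow_succ']

/-- Consequence used in (CT), degree 3. -/
theorem h83_kill₃_plocal {p : ℕ} [Fact p.Prime] (hA : h40_IsPLocal p A)
    (hinj : ∀ f : G × G × G → A, h40_IsCocycle₃ f → h40_IsCoboundary₃ (p • f) →
      h40_IsCoboundary₃ f)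
    (f : G × G × G → A) (hf : h40_IsCocycle₃ f) : h40_IsCoboundary₃ f := by
  have hp : p.Prime := Fact.out
  have hcard : Nat.card G ≠ 0 := Nat.card_pos.ne'
  obtain ⟨k, m, hm, hkm⟩ := Nat.exists_eq_pow_mul_and_not_dvd hcard p hp.ne_one
  have hcop : m.Coprime p := ((Nat.Prime.coprime_iff_not_dvd hp).2 hm).symm
  obtain ⟨f', hf'c, hf'⟩ := h83_exists_div₃ m (hA m hcop) f hf
  have h1 : h40_IsCoboundary₃ (p ^ k • f) := by
    have h2 := h83_kill₃ f' hf'c
    rwa [hkm, mul_smul, hf'] at h2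
  clear hkm hf' hf'c
  induction k with
  | zero => simpa using h1
  | succ k ih =>
    apply ih
    apply hinj _ (h83_isCocycle₃_nsmul _ hf)
    rwa [← mul_smul, ← pow_succ']

end KILL

end Fermat.Agent.S55
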