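/-
S55 layer H (helper34), row 246 H-CYCIDX: norm index of cyclic subgroups and cyclic quotients of
a `p`-class module.

* `h34_cyc_index`: for `s : G`, `[C^s : N_s C] = p ^ v_p (orderOf s)`;
* `h34_chi_index`: for a character `χ`, `[C^G : N_{G/ker χ} C^{ker χ}] = p ^ v_p |χ(G)|`;
* `h34_chi_exists_nonnorm`: if `p ∣ |χ(G)|` some fixed element is not a relative norm.
-/
import Mathlib
import Fermat.Agent.S55.h72_AbsDefs
import Fermat.Agent.S55.h40_HDefs
import Fermat.Agent.S55.h40_InfRes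
import Fermat.Agent.S55.h12_Cyclic
import Fermat.Agent.S55.h12_Cup
import Fermat.Agent.S55.h56_Inv
import Fermat.Agent.S55.h83_Kill
import Fermat.Agent.S55.h81_E8c

set_option autoImplicit false

open groupCohomology

namespace Fermat.Agent.S55

section Aux

variable {G : Type*} [Group G] {C : Type*} [AddCommGroup C] [DistribMulAction G C]

omit [DistribMulAction G C] in
/-- the invariant of a multiple. -/
theorem h34_cycInv_nsmul (s : G) (k : ℕ) (f : G × G → C) :
    h12_cycInv s (k • f) = k • h12_cycInv s f := by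
  simp only [h12_cycInv, Pi.smul_apply, Finset.smul_sum]

/-- the cyclic norm computed in the subgroup `zpowers s`. -/
theorem h34_cycNorm_zpowers (s : G) (c : C) :
    h12_cycNorm (⟨s, Subgroup.mem_zpowers s⟩ : Subgroup.zpowers s) c = h12_cycNorm s c := by
  unfold h12_cycNorm
  have h1 : orderOf (⟨s, Subgroup.mem_zpowers s⟩ : Subgroup.zpowers s) = orderOf s :=
    (Subgroup.orderOf_coe (⟨s, Subgroup.mem_zpowers s⟩ : Subgroup.zpowers s)).symm
  rw [h1]
  rfl

theorem h34_zpowers_gen (s : G) (g : Subgroup.zpowers s) :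
    g ∈ Subgroup.zpowers (⟨s, Subgroup.mem_zpowers s⟩ : Subgroup.zpowers s) := by
  obtain ⟨g, hg⟩ := g
  obtain ⟨k, rfl⟩ := Subgroup.mem_zpowers_iff.1 hg
  exact Subgroup.mem_zpowers_iff.2 ⟨k, Subtype.ext (by simp)⟩

end Aux

variable {p : ℕ} [Fact p.Prime] {G : Type*} [Group G] [Finite G] {C : Type*} [AddCommGroup C]
  [DistribMulAction G C]

theorem h34_cyc_index (hC : IsPClassModule p G C) (s : G) :
    (h12_cycNormHom (C := C) s).range.relIndex (h12_cycFix C s) =
      p ^ (orderOf s).factorization p := by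
  have hp : p.Prime := Fact.out
  obtain ⟨u, hu, hH⟩ := hC.fund
  obtain ⟨hA, hB⟩ := hH (Subgroup.zpowers s)
  set K : Subgroup G := Subgroup.zpowers s with hK
  set s' : K := ⟨s, Subgroup.mem_zpowers s⟩ with hs'def
  have hs' : ∀ g : K, g ∈ Subgroup.zpowers s' := h34_zpowers_gen s
  have hfin' : IsOfFinOrder s' := isOfFinOrder_of_finite s'
  have hcard : Nat.card K = orderOf s := Nat.card_zpowers s
  have hnorm : ∀ c : C, h12_cycNorm s' c = h12_cycNorm s c := h34_cycNorm_zpowers s
  set uK : K × K → C := fun x => u ((x.1 : G), (x.2 : G)) with huKdef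
  have huK : IsCocycle₂ uK := fun g h j => hu g h j
  set v : ℕ := (Nat.card K).factorization p with hv
  set a₀ : C := h12_cycInv s' uK with ha₀def
  have ha₀ : s • a₀ = a₀ := h12_cycInv_smul s' hfin' huK
  -- the criterion
  have hcrit : ∀ {f : K × K → C}, IsCocycle₂ f →
      (IsCoboundary₂ f ↔ h12_cycInv s' f ∈ (h12_cycNormHom (C := C) s).range) := by
    intro f hf
    rw [h12_cyc_isCoboundary₂_iff s' hs' hfin' hf]
    constructor
    · rintro ⟨b, hb⟩
      exact ⟨b, by rw [h12_cycNormHom_apply, ← hnorm, hb]⟩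
    · rintro ⟨b, hb⟩
      exact ⟨b, by rw [hnorm, ← h12_cycNormHom_apply, hb]⟩
  -- (c)
  have hc : IsCoboundary₂ (p ^ v • uK) := by
    have h1 := h83_kill₂ uK huK
    have h2 : Nat.card K = (Nat.card K / p ^ v) * p ^ v :=
      (Nat.div_mul_cancel (Nat.ordProj_dvd (Nat.card K) p)).symm
    have h3 : (Nat.card K / p ^ v).Coprime p :=
      (Nat.coprime_ordCompl hp Nat.card_pos.ne').symm
    rw [h2, mul_smul] at h1
    exact h81_isCoboundary₂_of_nsmul (hC.ploc _ h3) h1
  have hc' : p ^ v • a₀ ∈ (h12_cycNormHom (C := C) s).range := by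
    have := (hcrit (h81_isCocycle₂_nsmul (p ^ v) huK)).1 hc
    rwa [h34_cycInv_nsmul] at this
  -- (b)
  have hb' : ∀ k : ℕ, k • a₀ ∈ (h12_cycNormHom (C := C) s).range → p ^ v ∣ k := by
    intro k hk
    apply hB k
    show IsCoboundary₂ (k • uK)
    rw [hcrit (h81_isCocycle₂_nsmul k huK), h34_cycInv_nsmul]
    exact hk
  -- (a)
  have ha' : ∀ b : C, s • b = b → ∃ k : ℕ, b - k • a₀ ∈ (h12_cycNormHom (C := C) s).range := by
    intro b hb
    obtain ⟨f, hf, hfb⟩ := h12_cyc_exists_cocycle₂ s' hs' hfin' b hb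
    obtain ⟨k, hk⟩ := hA f hf
    refine ⟨k, ?_⟩
    have hk' : IsCoboundary₂ (f - k • uK) := hk
    rw [hcrit (h40_isCocycle₂_sub hf (h81_isCocycle₂_nsmul k huK)), h12_cycInv_sub,
      h34_cycInv_nsmul, hfb] at hk'
    exact hk'
  -- the map `ℤ → B ⧸ A'`
  set B : AddSubgroup C := h12_cycFix C s with hBdef
  set A' : AddSubgroup B := (h12_cycNormHom (C := C) s).range.addSubgroupOf B with hA'def
  have ha₀B : a₀ ∈ B := ha₀
  let φ : ℤ →+ B ⧸ A' := (QuotientAddGroup.mk' A').comp (zmultiplesHom B ⟨a₀, ha₀B⟩)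
  have hφ : ∀ k : ℤ, φ k = QuotientAddGroup.mk' A' (k • (⟨a₀, ha₀B⟩ : B)) := fun k => rfl
  have hφsurj : Function.Surjective φ := by
    intro q
    obtain ⟨b, rfl⟩ := QuotientAddGroup.mk'_surjective A' q
    obtain ⟨k, hk⟩ := ha' (b : C) b.2
    refine ⟨(k : ℤ), ?_⟩
    rw [hφ]
    refine (QuotientAddGroup.eq_iff_sub_mem).2 ?_
    rw [hA'def, AddSubgroup.mem_addSubgroupOf]
    have h1 : (((k : ℤ) • (⟨a₀, ha₀B⟩ : B) - b : B) : C) = -((b : C) - k • a₀) := by
      simp
    rw [h1]
    exact neg_mem hk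
  have hφker : φ.ker = AddSubgroup.zmultiples ((p ^ v : ℕ) : ℤ) := by
    ext k
    rw [AddMonoidHom.mem_ker, hφ, Int.mem_zmultiples_iff]
    show QuotientAddGroup.mk' A' (k • (⟨a₀, ha₀B⟩ : B)) = 0 ↔ _
    rw [QuotientAddGroup.mk'_apply, QuotientAddGroup.eq_zero_iff, hA'def,
      AddSubgroup.mem_addSubgroupOf]
    have h1 : ((k • (⟨a₀, ha₀B⟩ : B) : B) : C) = k • a₀ := by simp
    rw [h1]
    constructor
    · intro hk
      have h2 : k.natAbs • a₀ ∈ (h12_cycNormHom (C := C) s).range := by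
        rcases Int.natAbs_eq k with h | h
        · have : k.natAbs • a₀ = k • a₀ := by
            conv_rhs => rw [h]
            rw [natCast_zsmul]
          rw [this]; exact hk
        · have : k.natAbs • a₀ = -(k • a₀) := by
            conv_rhs => rw [h]
            rw [neg_smul, natCast_zsmul, neg_neg]
          rw [this]; exact neg_mem hk
      exact Int.natCast_dvd.2 (hb' _ h2)
    · rintro ⟨j, rfl⟩
      rw [mul_comm, mul_smul, natCast_zsmul]
      exact AddSubgroup.zsmul_mem _ hc' j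
  have h1 : φ.ker.index = Nat.card φ.range := AddSubgroup.index_ker φ
  have h2 : Nat.card φ.range = Nat.card (B ⧸ A') := by
    rw [AddMonoidHom.range_eq_top.2 hφsurj]
    exact Nat.card_congr (Equiv.Set.univ _)
  have h3 : φ.ker.index = p ^ v := by
    rw [hφker, Int.index_zmultiples, Int.natAbs_natCast]
  have h4 : (h12_cycNormHom (C := C) s).range.relIndex (h12_cycFix C s) = Nat.card (B ⧸ A') := rfl
  rw [h4, ← h2, ← h1, h3, hv, hcard]

theorem h34_chi_index (hC : IsPClassModule p G C) {m : ℕ} [NeZero m]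
    (χ : G →* Multiplicative (ZMod m)) :
    (h12_relNormSubgroup C χ.ker).relIndex (FixedPoints.addSubgroup G C) =
      p ^ (Nat.card χ.range).factorization p := by
  -- the quotient is cyclic
  have : IsCyclic (G ⧸ χ.ker) :=
    isCyclic_of_injective (QuotientGroup.kerLift χ) (QuotientGroup.kerLift_injective χ)
  obtain ⟨t, ht⟩ := IsCyclic.exists_generator (α := G ⧸ χ.ker)
  have hord : orderOf t = Nat.card χ.range := by
    rw [orderOf_eq_card_of_forall_mem_zpowers ht]
    exact Nat.card_congr (QuotientGroup.quotientKerEquivRange χ).toEquiv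
  -- descent to the quotient
  have hB : IsPClassModule p (G ⧸ χ.ker) (h56_Inv χ.ker C) :=
    h81_E8c (QuotientGroup.mk' χ.ker) (QuotientGroup.mk'_surjective χ.ker)
      (h56_Inv χ.ker C).subtype (AddSubgroup.subtype_injective _) (fun g c => rfl)
      (fun c' hc' => ⟨⟨c', fun s hs => hc' s (by rw [QuotientGroup.ker_mk']; exact hs)⟩, rfl⟩) hC
  have hidx := h34_cyc_index hB t
  rw [hord] at hidx
  rw [← hidx, ← AddSubgroup.relIndex_map_map_of_injective _ _
    (AddSubgroup.subtype_injective (h56_Inv χ.ker C))]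
  congr 1
  · -- relative norms
    ext x
    rw [h12_mem_relNormSubgroup, h12_isRelNorm_iff_quot χ.ker x, AddSubgroup.mem_map]
    constructor
    · rintro ⟨b, hb⟩
      refine ⟨h12_cycNormHom t b, ⟨b, rfl⟩, ?_⟩
      rw [hb, h12_cycNormHom_apply, h12_cycNorm_eq_finsum t ht b]
      rfl
    · rintro ⟨y, ⟨b, rfl⟩, rfl⟩
      refine ⟨b, ?_⟩
      rw [h12_cycNormHom_apply, h12_cycNorm_eq_finsum t ht b]
      rfl
  · -- fixed points
    ext x
    rw [AddSubgroup.mem_map]
    constructor
    · intro hx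
      have hxK : x ∈ h56_Inv χ.ker C := fun s _ => hx s
      refine ⟨⟨x, hxK⟩, ?_, rfl⟩
      rw [h12_mem_cycFix]
      obtain ⟨g, rfl⟩ := QuotientGroup.mk_surjective t
      exact Subtype.ext (hx g)
    · rintro ⟨b, hb, rfl⟩
      intro g
      have hq : ∀ q : G ⧸ χ.ker, q • b = b := by
        intro q
        obtain ⟨k, rfl⟩ := Subgroup.mem_zpowers_iff.1 (ht q)
        exact MulAction.mem_stabilizer_iff.1
          ((MulAction.stabilizer (G ⧸ χ.ker) b).zpow_mem (MulAction.mem_stabilizer_iff.2 hb) k)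
      exact congrArg Subtype.val (hq (g : G ⧸ χ.ker))

theorem h34_chi_exists_nonnorm (hC : IsPClassModule p G C) {m : ℕ} [NeZero m]
    (χ : G →* Multiplicative (ZMod m)) (hχ : p ∣ Nat.card χ.range) :
    ∃ c : C, (∀ g : G, g • c = c) ∧ ¬ h12_IsRelNorm χ.ker c := by
  have hp : p.Prime := Fact.out
  by_contra hcon
  push Not at hcon
  have hle : FixedPoints.addSubgroup G C ≤ h12_relNormSubgroup C χ.ker := fun c hc => hcon c hc
  have h1 := AddSubgroup.relIndex_eq_one.2 hle
  rw [h34_chi_index hC χ] at h1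
  have h2 : 0 < (Nat.card χ.range).factorization p :=
    hp.factorization_pos_of_dvd Nat.card_pos.ne' hχ
  have h3 : 1 < p ^ (Nat.card χ.range).factorization p := Nat.one_lt_pow h2.ne' hp.one_lt
  omega

end Fermat.Agent.S55
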