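/-
S55 layer H (helper34): the upper bound of row 247 H-NORMIDX.

For a finite ABELIAN group `G` and a `p`-class module `C`:
`[C^G : N_G C]` is finite and divides `|G|_p` (`h34_normidx_dvd`), by induction on `|G|`
through a subgroup of prime order (`h34_cyc_index` + descent `h81_E8c` to the quotient).
-/
import Mathlib
import Fermat.Agent.S55.h72_AbsDefs
import Fermat.Agent.S55.h40_HDefs
import Fermat.Agent.S55.h40_InfRes
import Fermat.Agent.S55.h12_Cyclic
import Fermat.Agent.S55.h12_Cup
import Fermat.Agent.S55.h56_Inv
import Fermat.Agent.S55.h83_Kill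
import Fermat.Agent.S55.h81_E8c
import Fermat.Agent.S55.h34_CycIdx

set_option autoImplicit false

open groupCohomology

namespace Fermat.Agent.S55

/-- the index of the images divides the index (additive commutative groups). -/
theorem h34_relIndex_map_dvd {A A' : Type*} [AddCommGroup A] [AddCommGroup A'] (f : A →+ A')
    (H K : AddSubgroup A) (hHK : H ≤ K) : (H.map f).relIndex (K.map f) ∣ H.relIndex K := by
  rw [AddSubgroup.relIndex_map_map]
  have h1 : K ⊔ f.ker = K ⊔ (H ⊔ f.ker) := by rw [← sup_assoc, sup_of_le_left hHK]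
  rw [h1, AddSubgroup.relIndex_sup_right]
  exact AddSubgroup.relIndex_dvd_of_le_left K le_sup_left

section Aux

variable {G : Type*} [Group G] {C : Type*} [AddCommGroup C] [DistribMulAction G C]

/-- the cyclic norm is fixed by the generator. -/
theorem h34_cycNorm_smul (s : G) (c : C) : s • h12_cycNorm s c = h12_cycNorm s c := by
  unfold h12_cycNorm
  rw [Finset.smul_sum]
  have h := h12_sum_shift s (fun g => g • c)
  simp only [pow_succ', mul_smul] at h
  exact h

/-- fixed by `s` iff fixed by `zpowers s`. -/
theorem h34_fixed_zpowers_iff (s : G) (c : C) :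
    (∀ h ∈ Subgroup.zpowers s, h • c = c) ↔ s • c = c := by
  constructor
  · intro h
    exact h s (Subgroup.mem_zpowers s)
  · intro hs h hh
    obtain ⟨k, rfl⟩ := Subgroup.mem_zpowers_iff.1 hh
    exact MulAction.mem_stabilizer_iff.1
      ((MulAction.stabilizer G c).zpow_mem (MulAction.mem_stabilizer_iff.2 hs) k)

variable [Finite G]

/-- transitivity of the norm: `N_G c = N_{G/K} (N_K c)`. -/
theorem h34_finsum_eq_relNorm (K : Subgroup G) (c : C) :
    ∑ᶠ g : G, g • c = h12_relNorm K (∑ᶠ k : K, k • c) := by
  classical
  have : Fintype G := Fintype.ofFinite _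
  have : Fintype (G ⧸ K) := Fintype.ofFinite _
  have : Fintype K := Fintype.ofFinite _
  unfold h12_relNorm
  rw [finsum_eq_sum_of_fintype, finsum_eq_sum_of_fintype, finsum_eq_sum_of_fintype]
  have hbij : Function.Bijective
      (fun x : (G ⧸ K) × K => (Quotient.out x.1 : G) * (x.2 : G)) := by
    constructor
    · rintro ⟨q, k⟩ ⟨q', k'⟩ h
      have h' : (Quotient.out q : G) * (k : G) = (Quotient.out q' : G) * (k' : G) := h
      have h1 : q = q' := by
        have h2 : (((Quotient.out q : G) * (k : G) : G) : G ⧸ K) =
            (((Quotient.out q' : G) * (k' : G) : G) : G ⧸ K) := by rw [h']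
        rw [QuotientGroup.mk_mul_of_mem _ k.2, QuotientGroup.mk_mul_of_mem _ k'.2,
          QuotientGroup.out_eq', QuotientGroup.out_eq'] at h2
        exact h2
      subst h1
      have h2 : (k : G) = k' := mul_left_cancel h'
      exact Prod.ext rfl (Subtype.ext h2)
    · intro g
      obtain ⟨h, hh⟩ := QuotientGroup.mk_out_eq_mul K g
      refine ⟨((g : G ⧸ K), h⁻¹), ?_⟩
      show (Quotient.out (g : G ⧸ K) : G) * ((h⁻¹ : K) : G) = g
      rw [hh]
      simp
  rw [← Fintype.sum_bijective _ hbij
    (fun x : (G ⧸ K) × K => ((Quotient.out x.1 : G) * (x.2 : G)) • c) (fun g => g • c)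
    (fun x => rfl), Fintype.sum_prod_type]
  refine Finset.sum_congr rfl fun q _ => ?_
  rw [Finset.smul_sum]
  refine Finset.sum_congr rfl fun k _ => ?_
  rw [mul_smul]
  rfl

/-- `N_G c = N_{G/⟨s⟩} (N_s c)`. -/
theorem h34_finsum_eq_relNorm_cyc (s : G) (c : C) :
    ∑ᶠ g : G, g • c = h12_relNorm (Subgroup.zpowers s) (h12_cycNorm s c) := by
  rw [h34_finsum_eq_relNorm (Subgroup.zpowers s) c, ← h34_cycNorm_zpowers s c,
    h12_cycNorm_eq_finsum _ (h34_zpowers_gen s) c]

end Aux

/-- the upper bound, in a form suitable for induction on the order of the group. -/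
theorem h34_normidx_dvd_aux.{u, v} (p : ℕ) [Fact p.Prime] (n : ℕ) :
    ∀ (G : Type u) [CommGroup G] [Finite G] (C : Type v) [AddCommGroup C] [DistribMulAction G C],
      Nat.card G = n → IsPClassModule p G C →
      (h12_normSubgroup G C).relIndex (FixedPoints.addSubgroup G C) ∣
        p ^ (Nat.card G).factorization p := by
  induction n using Nat.strong_induction_on with
  | _ n ih =>
    intro G _ _ C _ _ hn hC
    have hp : p.Prime := Fact.out
    by_cases h1 : Nat.card G = 1
    · -- trivial group
      have hle : FixedPoints.addSubgroup G C ≤ h12_normSubgroup G C := by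
        intro c _
        have : Subsingleton G := (Nat.card_eq_one_iff_unique.1 h1).1
        have : Unique G := uniqueOfSubsingleton 1
        refine ⟨c, ?_⟩
        rw [finsum_unique, Subsingleton.elim (default : G) 1, one_smul]
      rw [AddSubgroup.relIndex_eq_one.2 hle]
      exact one_dvd _
    · obtain ⟨ℓ, hℓ, hℓdvd⟩ := Nat.exists_prime_and_dvd h1
      have : Fact ℓ.Prime := ⟨hℓ⟩
      obtain ⟨s, hs⟩ := exists_prime_orderOf_dvd_card' ℓ hℓdvd
      have hKcard : Nat.card (Subgroup.zpowers s) = ℓ := by rw [Nat.card_zpowers, hs]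
      have hcardG : Nat.card G = Nat.card (G ⧸ Subgroup.zpowers s) * ℓ := by
        rw [← hKcard]
        exact Subgroup.card_eq_card_quotient_mul_card_subgroup _
      have hQpos : 0 < Nat.card (G ⧸ Subgroup.zpowers s) := Nat.card_pos
      have hQlt : Nat.card (G ⧸ Subgroup.zpowers s) < n := by
        rw [← hn, hcardG]
        exact lt_mul_of_one_lt_right hQpos hℓ.one_lt
      have hB : IsPClassModule p (G ⧸ Subgroup.zpowers s) (h56_Inv (Subgroup.zpowers s) C) :=
        h81_E8c (QuotientGroup.mk' (Subgroup.zpowers s))
          (QuotientGroup.mk'_surjective (Subgroup.zpowers s))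
          (h56_Inv (Subgroup.zpowers s) C).subtype (AddSubgroup.subtype_injective _)
          (fun g c => rfl)
          (fun c' hc' => ⟨⟨c', fun t ht => hc' t (by rw [QuotientGroup.ker_mk']; exact ht)⟩, rfl⟩)
          hC
      have hIH := ih _ hQlt (G ⧸ Subgroup.zpowers s) (h56_Inv (Subgroup.zpowers s) C) rfl hB
      have hcyc := h34_cyc_index hC s
      rw [hs] at hcyc
      -- the relative norm as an additive map
      let ν : C →+ C :=
        { toFun := h12_relNorm (Subgroup.zpowers s)
          map_zero' := h12_relNorm_zero _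
          map_add' := h12_relNorm_add _ }
      have hνapp : ∀ c : C, ν c = h12_relNorm (Subgroup.zpowers s) c := fun c => rfl
      have hR : h12_relNormSubgroup C (Subgroup.zpowers s) = (h12_cycFix C s).map ν := by
        ext x
        rw [h12_mem_relNormSubgroup, AddSubgroup.mem_map]
        constructor
        · rintro ⟨c', hc', rfl⟩
          exact ⟨c', (h34_fixed_zpowers_iff s c').1 hc', rfl⟩
        · rintro ⟨c', hc', rfl⟩
          exact ⟨c', (h34_fixed_zpowers_iff s c').2 hc', rfl⟩
      have hNG : h12_normSubgroup G C = ((h12_cycNormHom (C := C) s).range).map ν := by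
        ext x
        rw [h12_mem_normSubgroup, AddSubgroup.mem_map]
        constructor
        · rintro ⟨c', rfl⟩
          exact ⟨h12_cycNorm s c', ⟨c', rfl⟩, (h34_finsum_eq_relNorm_cyc s c').symm⟩
        · rintro ⟨y, ⟨c', rfl⟩, rfl⟩
          exact ⟨c', (h34_finsum_eq_relNorm_cyc s c').symm⟩
      have hrange : (h12_cycNormHom (C := C) s).range ≤ h12_cycFix C s := by
        rintro _ ⟨c', rfl⟩
        exact h34_cycNorm_smul s c'
      have hNGR : h12_normSubgroup G C ≤ h12_relNormSubgroup C (Subgroup.zpowers s) := by
        rw [hR, hNG]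
        exact AddSubgroup.map_mono hrange
      have hRF : h12_relNormSubgroup C (Subgroup.zpowers s) ≤ FixedPoints.addSubgroup G C :=
        fun c hc g => h12_isRelNorm_fixed _ c hc g
      have e1 : (h12_normSubgroup G C).relIndex (h12_relNormSubgroup C (Subgroup.zpowers s)) ∣
          p ^ ℓ.factorization p := by
        rw [hR, hNG, ← hcyc]
        exact h34_relIndex_map_dvd ν _ _ hrange
      have e2 : (h12_relNormSubgroup C (Subgroup.zpowers s)).relIndex
          (FixedPoints.addSubgroup G C) =
          (h12_normSubgroup (G ⧸ Subgroup.zpowers s) (h56_Inv (Subgroup.zpowers s) C)).relIndex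
            (FixedPoints.addSubgroup (G ⧸ Subgroup.zpowers s)
              (h56_Inv (Subgroup.zpowers s) C)) := by
        rw [← AddSubgroup.relIndex_map_map_of_injective _ _
          (AddSubgroup.subtype_injective (h56_Inv (Subgroup.zpowers s) C))]
        congr 1
        · ext x
          rw [h12_mem_relNormSubgroup, h12_isRelNorm_iff_quot (Subgroup.zpowers s) x,
            AddSubgroup.mem_map]
          constructor
          · rintro ⟨b, hb⟩
            exact ⟨_, ⟨b, rfl⟩, hb.symm⟩
          · rintro ⟨y, ⟨b, rfl⟩, rfl⟩
            exact ⟨b, rfl⟩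
        · ext x
          rw [AddSubgroup.mem_map]
          constructor
          · intro hx
            have hxK : x ∈ h56_Inv (Subgroup.zpowers s) C := fun t _ => hx t
            refine ⟨⟨x, hxK⟩, ?_, rfl⟩
            intro q
            obtain ⟨g, rfl⟩ := QuotientGroup.mk_surjective q
            exact Subtype.ext (hx g)
          · rintro ⟨b, hb, rfl⟩
            intro g
            exact congrArg Subtype.val (hb (g : G ⧸ Subgroup.zpowers s))
      have e3 := AddSubgroup.relIndex_mul_relIndex (h12_normSubgroup G C)
        (h12_relNormSubgroup C (Subgroup.zpowers s)) (FixedPoints.addSubgroup G C) hNGR hRF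
      have e4 : (Nat.card G).factorization p =
          ℓ.factorization p + (Nat.card (G ⧸ Subgroup.zpowers s)).factorization p := by
        rw [hcardG, Nat.factorization_mul hQpos.ne' hℓ.ne_zero, Finsupp.add_apply, add_comm]
      rw [← e3, e2, e4, pow_add]
      exact mul_dvd_mul e1 hIH

variable {p : ℕ} [Fact p.Prime] {G : Type*} [CommGroup G] [Finite G] {C : Type*} [AddCommGroup C]
  [DistribMulAction G C]

/-- **(UB)** `[C^G : N_G C]` divides `|G|_p` for `G` finite abelian. -/
theorem h34_normidx_dvd (hC : IsPClassModule p G C) :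
    (h12_normSubgroup G C).relIndex (FixedPoints.addSubgroup G C) ∣
      p ^ (Nat.card G).factorization p :=
  h34_normidx_dvd_aux p (Nat.card G) G C rfl hC

/-- the norm index is finite. -/
theorem h34_normidx_ne_zero (hC : IsPClassModule p G C) :
    (h12_normSubgroup G C).relIndex (FixedPoints.addSubgroup G C) ≠ 0 := by
  have hp : p.Prime := Fact.out
  intro h0
  have h := h34_normidx_dvd hC
  rw [h0, zero_dvd_iff] at h
  exact pow_ne_zero _ hp.ne_zero h

end Fermat.Agent.S55
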