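/-
S55 layer H (helper40): the invariant map of a `p`-class module.

`h40_class_inv`: for a `p`-class module `C` of a finite group `G` there is a map
`inv : (G × G → C) → ZMod |G|_p`, additive on 2-cocycles, constant on cohomology classes, with
`inv f = 0 ↔ f` is a coboundary (for 2-cocycles `f`), compatible with multiples, and taking the
value `1` on some 2-cocycle.
-/
import Mathlib
import Fermat.Agent.S55.h72_AbsDefs
import Fermat.Agent.S55.h40_HDefs
import Fermat.Agent.S55.h40_ClassTors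

set_option autoImplicit false

namespace Fermat.Agent.S55

open groupCohomology

section

variable {G : Type*} [Group G] {A : Type*} [AddCommGroup A] [DistribMulAction G A]

lemma h40_cocycle₂_add {f f' : G × G → A} (hf : IsCocycle₂ f) (hf' : IsCocycle₂ f') :
    IsCocycle₂ (f + f') := by
  intro g h j
  show f (g * h, j) + f' (g * h, j) + (f (g, h) + f' (g, h))
    = g • (f (h, j) + f' (h, j)) + (f (g, h * j) + f' (g, h * j))
  have h1 := hf g h j
  have h2 := hf' g h j
  rw [smul_add]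
  calc f (g * h, j) + f' (g * h, j) + (f (g, h) + f' (g, h))
      = (f (g * h, j) + f (g, h)) + (f' (g * h, j) + f' (g, h)) := by abel
    _ = (g • f (h, j) + f (g, h * j)) + (g • f' (h, j) + f' (g, h * j)) := by rw [h1, h2]
    _ = g • f (h, j) + g • f' (h, j) + (f (g, h * j) + f' (g, h * j)) := by abel

/-- Integer version of the order statement of a fundamental cocycle. -/
lemma h40_int_dvd_of_cob {u : G × G → A} {P : ℕ}
    (hord : ∀ k : ℕ, IsCoboundary₂ (k • u) → P ∣ k) (m : ℤ) (hm : IsCoboundary₂ (m • u)) :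
    (P : ℤ) ∣ m := by
  rw [Int.natCast_dvd]
  apply hord
  rcases Int.natAbs_eq m with h | h
  · have h1 : m.natAbs • u = m • u := by
      conv_rhs => rw [h]
      rw [natCast_zsmul]
    rw [h1]
    exact hm
  · have h1 : m.natAbs • u = -(m • u) := by
      conv_rhs => rw [h]
      rw [neg_smul, neg_neg, natCast_zsmul]
    rw [h1]
    exact h40_cob₂_neg hm

end

variable {p : ℕ} [Fact p.Prime] {G : Type*} [Group G] [Finite G] {C : Type*} [AddCommGroup C]
  [DistribMulAction G C]

/-- **The invariant map** of a `p`-class module. -/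
theorem h40_class_inv (hC : IsPClassModule p G C) :
    ∃ inv : (G × G → C) → ZMod (p ^ (Nat.card G).factorization p),
      (∀ f f' : G × G → C, IsCocycle₂ f → IsCocycle₂ f' → inv (f + f') = inv f + inv f') ∧
      (∀ f : G × G → C, IsCocycle₂ f → (inv f = 0 ↔ IsCoboundary₂ f)) ∧
      (∀ f f' : G × G → C, IsCocycle₂ f → IsCocycle₂ f' → IsCoboundary₂ (f - f') →
        inv f = inv f') ∧
      (∀ (k : ℕ) (f : G × G → C), IsCocycle₂ f → inv (k • f) = k • inv f) ∧
      (∃ u : G × G → C, IsCocycle₂ u ∧ inv u = 1 ∧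
        ∀ f : G × G → C, IsCocycle₂ f → ∀ k : ℕ, inv f = (k : ZMod _) →
          IsCoboundary₂ (f - k • u)) := by
  classical
  obtain ⟨u, hu, hgen, hord⟩ := h40_class_fund hC
  obtain ⟨P, hP⟩ : ∃ P, P = p ^ (Nat.card G).factorization p := ⟨_, rfl⟩
  rw [← hP] at hord ⊢
  let inv : (G × G → C) → ZMod P := fun f =>
    if hf : IsCocycle₂ f then ((Classical.choose (hgen f hf) : ℕ) : ZMod P) else 0
  -- the defining property
  have spec : ∀ (f : G × G → C), IsCocycle₂ f → ∀ k : ℕ, IsCoboundary₂ (f - k • u) →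
      inv f = (k : ZMod P) := by
    intro f hf k hk
    have h0 : IsCoboundary₂ (f - Classical.choose (hgen f hf) • u) :=
      Classical.choose_spec (hgen f hf)
    have e : inv f = ((Classical.choose (hgen f hf) : ℕ) : ZMod P) := dif_pos hf
    rw [e]
    generalize Classical.choose (hgen f hf) = k₀ at h0
    have h1 : IsCoboundary₂ (((k₀ : ℤ) - (k : ℤ)) • u) := by
      have e1 : ((k₀ : ℤ) - (k : ℤ)) • u = (f - k • u) - (f - k₀ • u) := by
        rw [sub_smul, natCast_zsmul, natCast_zsmul]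
        abel
      rw [e1]
      exact h40_cob₂_sub hk h0
    have h2 : (P : ℤ) ∣ (k₀ : ℤ) - (k : ℤ) :=
      h40_int_dvd_of_cob (fun k hk => (hord k).1 hk) _ h1
    have h3 : (((k₀ : ℤ) - (k : ℤ) : ℤ) : ZMod P) = 0 :=
      (ZMod.intCast_zmod_eq_zero_iff_dvd _ P).2 h2
    push_cast at h3
    exact sub_eq_zero.1 h3
  have hex : ∀ (f : G × G → C), IsCocycle₂ f →
      ∃ k : ℕ, IsCoboundary₂ (f - k • u) ∧ inv f = (k : ZMod P) := fun f hf => by
    obtain ⟨k, hk⟩ := hgen f hf
    exact ⟨k, hk, spec f hf k hk⟩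
  refine ⟨inv, fun f f' hf hf' => ?_, fun f hf => ⟨fun h => ?_, fun h => ?_⟩,
    fun f f' hf hf' h => ?_, fun k f hf => ?_, u, hu, ?_, fun f hf k hk => ?_⟩
  · obtain ⟨k, hk, e⟩ := hex f hf
    obtain ⟨k', hk', e'⟩ := hex f' hf'
    rw [e, e', spec (f + f') (h40_cocycle₂_add hf hf') (k + k') (by
      have e1 : f + f' - (k + k') • u = (f - k • u) + (f' - k' • u) := by
        rw [add_smul]
        abel
      rw [e1]
      exact h40_cob₂_add hk hk')]
    push_cast
    rfl
  · obtain ⟨k, hk, e⟩ := hex f hf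
    rw [e] at h
    have h1 : P ∣ k := (ZMod.natCast_eq_zero_iff k P).1 h
    exact h40_cob₂_of_sub hk ((hord k).2 h1)
  · rw [spec f hf 0 (by rwa [zero_smul, sub_zero])]
    exact Nat.cast_zero
  · obtain ⟨k', hk', e'⟩ := hex f' hf'
    rw [e', spec f hf k' (by
      have e1 : f - k' • u = (f - f') + (f' - k' • u) := by abel
      rw [e1]
      exact h40_cob₂_add h hk')]
  · obtain ⟨k₀, hk₀, e⟩ := hex f hf
    rw [e, spec (k • f) (h40_cocycle₂_nsmul hf k) (k * k₀) (by
      have e1 : k • f - (k * k₀) • u = k • (f - k₀ • u) := by rw [smul_sub, mul_smul]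
      rw [e1]
      exact h40_cob₂_nsmul hk₀ k)]
    push_cast
    rw [nsmul_eq_mul]
  · rw [spec u hu 1 (by rw [one_smul, sub_self]; exact h40_cob₂_zero)]
    exact Nat.cast_one
  · obtain ⟨k₀, hk₀, e⟩ := hex f hf
    rw [e] at hk
    -- `k₀ ≡ k mod P`, so `(k₀ - k) • u` is a coboundary
    have h2 : (P : ℤ) ∣ (k₀ : ℤ) - (k : ℤ) := by
      rw [← ZMod.intCast_zmod_eq_zero_iff_dvd]
      push_cast
      rw [hk, sub_self]
    have h3 : IsCoboundary₂ (((k₀ : ℤ) - (k : ℤ)) • u) := by
      obtain ⟨c, hc⟩ := h2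
      rw [hc, mul_comm, mul_smul, natCast_zsmul]
      exact h40_cob₂_zsmul ((hord P).2 dvd_rfl) c
    have e1 : f - k • u = (f - k₀ • u) + ((k₀ : ℤ) - (k : ℤ)) • u := by
      rw [sub_smul, natCast_zsmul, natCast_zsmul]
      abel
    rw [e1]
    exact h40_cob₂_add hk₀ h3

end Fermat.Agent.S55
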