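/-
S55 layer H, row 247 H-NORMIDX (helper40; upper bound and character counts by helper34):
for a finite ABELIAN group `G` and a `p`-class module `C`:
* `h40_normidx`     : `[C^G : N_G C] = |G|_p`;
* `h40_norm_of_chi` : norm limitation, `N_G C` is the intersection of the norm groups of the
  cyclic quotients;
* `h40_exp_norm`    : `e • C^G ⊆ N_G C` whenever `e` kills `G`.
Proof: the pairing `⟨c, χ⟩ = inv (c ∪ δχ)` between `C^G / N_G C` and the characters
`G → ℤ/|G|_p` is non-degenerate on the right (`h34_chi_exists_nonnorm`), so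
`|G|_p ≤ #characters ≤ #Hom(C^G/N_G C, ℤ/|G|_p) ≤ [C^G : N_G C] ≤ |G|_p`.
-/
import Mathlib
import Fermat.Agent.S55.h72_AbsDefs
import Fermat.Agent.S55.h40_HDefs
import Fermat.Agent.S55.h40_ClassInv
import Fermat.Agent.S55.h12_Cup
import Fermat.Agent.S55.h34_CycIdx
import Fermat.Agent.S55.h34_CharCount
import Fermat.Agent.S55.h34_NormIdxUB

set_option autoImplicit false

namespace Fermat.Agent.S55

open groupCohomology

/-- If a finite abelian group `X` has at least `|X|` homomorphisms to `ℤ/M`, these separate the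
points of `X`. -/
theorem h40_sep_of_card {X : Type*} [AddCommGroup X] [Finite X] (M : ℕ) [NeZero M]
    (h : Nat.card X ≤ Nat.card (X →+ ZMod M)) (x : X) (hx : ∀ φ : X →+ ZMod M, φ x = 0) :
    x = 0 := by
  classical
  let K : AddSubgroup X :=
    { carrier := {y | ∀ φ : X →+ ZMod M, φ y = 0}
      add_mem' := fun {a b} ha hb φ => by rw [map_add, ha φ, hb φ, add_zero]
      zero_mem' := fun φ => map_zero φ
      neg_mem' := fun {a} ha φ => by rw [map_neg, ha φ, neg_zero] }
  have hfin' : Finite (X ⧸ K →+ ZMod M) :=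
    Finite.of_injective (fun φ => (φ : X ⧸ K → ZMod M)) DFunLike.coe_injective
  have h1 : Nat.card (X →+ ZMod M) ≤ Nat.card (X ⧸ K →+ ZMod M) := by
    refine Nat.card_le_card_of_injective
      (fun φ => QuotientAddGroup.lift K φ (fun y hy => hy φ)) ?_
    intro φ φ' hφ
    ext y
    exact DFunLike.congr_fun hφ (QuotientAddGroup.mk y)
  have h2 := h34_card_addHom_le (X ⧸ K) M
  have h3 : Nat.card X = Nat.card (X ⧸ K) * Nat.card K :=
    AddSubgroup.card_eq_card_quotient_mul_card_addSubgroup K
  have h4 : 0 < Nat.card (X ⧸ K) := Nat.card_pos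
  have h5 : Nat.card K ≤ 1 := by
    by_contra hcon
    have hcon' : 2 ≤ Nat.card K := by omega
    have : Nat.card (X ⧸ K) * 2 ≤ Nat.card (X ⧸ K) * Nat.card K := Nat.mul_le_mul_left _ hcon'
    omega
  have h6 : K = ⊥ := (AddSubgroup.card_le_one_iff_eq_bot K).1 h5
  have hxK : x ∈ K := hx
  rw [h6] at hxK
  exact hxK

section

variable {p : ℕ} [Fact p.Prime] {G : Type*} [CommGroup G] [Finite G] {C : Type*} [AddCommGroup C]
  [DistribMulAction G C]

theorem h40_normidx_core (hC : IsPClassModule p G C) :
    (h12_normSubgroup G C).relIndex (FixedPoints.addSubgroup G C) =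
      p ^ (Nat.card G).factorization p ∧
    ∀ c : C, (∀ g : G, g • c = c) →
      (∀ χ : G →* Multiplicative (ZMod (p ^ (Nat.card G).factorization p)),
        IsCoboundary₂ (h12_chiCocycle χ c)) →
      ∃ c' : C, c = ∑ᶠ g : G, g • c' := by
  classical
  have hp : p.Prime := Fact.out
  have : NeZero (p ^ (Nat.card G).factorization p) := ⟨pow_ne_zero _ hp.ne_zero⟩
  have hub := h34_normidx_dvd hC
  have hub0 := h34_normidx_ne_zero hC
  have hchar := h34_card_char_ge p G
  obtain ⟨inv, hadd, hzero, hcls, -, -⟩ := h40_class_inv hC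
  have hfix : ∀ c : FixedPoints.addSubgroup G C, ∀ g : G, g • (c : C) = c := fun c g =>
    (FixedPoints.mem_addSubgroup G C (c : C)).1 c.2 g
  have hcoc : ∀ (χ : G →* Multiplicative (ZMod (p ^ (Nat.card G).factorization p)))
      (c : FixedPoints.addSubgroup G C), IsCocycle₂ (h12_chiCocycle χ (c : C)) := fun χ c =>
    h12_chiCocycle_isCocycle₂ χ (c : C) (hfix c)
  have hcoc0 : IsCocycle₂ (0 : G × G → C) := fun g h j => by simp
  have hinv0 : inv 0 = 0 := (hzero 0 hcoc0).2 h40_cob₂_zero
  -- the pairing, additive in `c`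
  let b : (G →* Multiplicative (ZMod (p ^ (Nat.card G).factorization p))) →
      (FixedPoints.addSubgroup G C →+ ZMod (p ^ (Nat.card G).factorization p)) := fun χ =>
    { toFun := fun c => inv (h12_chiCocycle χ (c : C))
      map_zero' := by
        show inv (h12_chiCocycle χ (0 : C)) = 0
        rw [h12_chiCocycle_zero, hinv0]
      map_add' := fun c c' => by
        show inv (h12_chiCocycle χ ((c : C) + (c' : C))) = _
        rw [h12_chiCocycle_add]
        exact hadd _ _ (hcoc χ c) (hcoc χ c') }
  have hb : ∀ χ c, b χ c = inv (h12_chiCocycle χ (c : C)) := fun χ c => rfl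
  -- norms are in the left kernel
  have hker : ∀ χ, (h12_normSubgroup G C).addSubgroupOf (FixedPoints.addSubgroup G C) ≤
      (b χ).ker := by
    intro χ c hc
    rw [AddMonoidHom.mem_ker, hb]
    have hc' : (c : C) ∈ h12_normSubgroup G C := hc
    have h1 : h12_IsRelNorm (⊥ : Subgroup G) (c : C) := (h12_isRelNorm_bot (c : C)).2 hc'
    have h2 : h12_IsRelNorm χ.ker (c : C) := h12_isRelNorm_mono bot_le (c : C) h1
    exact (hzero _ (hcoc χ c)).2 (h12_chi_coboundary_of_relNorm χ (c : C) h2)
  -- the induced maps on the quotient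
  let β : (G →* Multiplicative (ZMod (p ^ (Nat.card G).factorization p))) →
      ((FixedPoints.addSubgroup G C ⧸
        (h12_normSubgroup G C).addSubgroupOf (FixedPoints.addSubgroup G C)) →+
        ZMod (p ^ (Nat.card G).factorization p)) := fun χ =>
    QuotientAddGroup.lift _ (b χ) (hker χ)
  have hβ : ∀ χ (c : FixedPoints.addSubgroup G C), β χ (QuotientAddGroup.mk c) = b χ c :=
    fun χ c => rfl
  let Ψ : (G →* Multiplicative (ZMod (p ^ (Nat.card G).factorization p))) →*
      Multiplicative ((FixedPoints.addSubgroup G C ⧸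
        (h12_normSubgroup G C).addSubgroupOf (FixedPoints.addSubgroup G C)) →+
        ZMod (p ^ (Nat.card G).factorization p)) :=
    { toFun := fun χ => Multiplicative.ofAdd (β χ)
      map_one' := by
        show Multiplicative.ofAdd (β 1) = Multiplicative.ofAdd 0
        congr 1
        refine AddMonoidHom.ext fun x => ?_
        induction x using QuotientAddGroup.induction_on with
        | H c =>
          rw [hβ, hb, h12_chiCocycle_one, hinv0]
          rfl
      map_mul' := fun χ χ' => by
        show Multiplicative.ofAdd (β (χ * χ')) = Multiplicative.ofAdd (β χ + β χ')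
        congr 1
        refine AddMonoidHom.ext fun x => ?_
        induction x using QuotientAddGroup.induction_on with
        | H c =>
          rw [AddMonoidHom.add_apply, hβ, hβ, hβ, hb, hb, hb,
            hcls _ _ (hcoc _ c) (h40_cocycle₂_add (hcoc χ c) (hcoc χ' c))
              (h12_chiCocycle_mul χ χ' (c : C) (hfix c))]
          exact hadd _ _ (hcoc χ c) (hcoc χ' c) }
  have hΨ : ∀ χ, Ψ χ = Multiplicative.ofAdd (β χ) := fun χ => rfl
  -- right non-degeneracy
  have hinj : Function.Injective Ψ := by
    rw [injective_iff_map_eq_one]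
    intro χ hχ
    have hβ0 : β χ = 0 := by
      rw [hΨ] at hχ
      exact Multiplicative.ofAdd.injective hχ
    have hall : ∀ c : C, (∀ g : G, g • c = c) → h12_IsRelNorm χ.ker c := by
      intro c hc
      have hcF : c ∈ FixedPoints.addSubgroup G C := (FixedPoints.mem_addSubgroup G C c).2 hc
      have h1 : b χ ⟨c, hcF⟩ = 0 := by
        rw [← hβ, hβ0]
        rfl
      rw [hb] at h1
      exact h12_chi_relNorm_of_coboundary χ (fun u hu => hC.h1 χ.ker u hu) c hc
        ((hzero _ (hcoc χ ⟨c, hcF⟩)).1 h1)
    have hnp : ¬ p ∣ Nat.card χ.range := fun hdvd => by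
      obtain ⟨c, hc, hcn⟩ := h34_chi_exists_nonnorm hC χ hdvd
      exact hcn (hall c hc)
    have hdvd : Nat.card χ.range ∣ p ^ (Nat.card G).factorization p := by
      have h1 := Subgroup.card_subgroup_dvd_card χ.range
      rwa [Nat.card_eq_of_bijective _ Multiplicative.toAdd.bijective, Nat.card_zmod] at h1
    obtain ⟨j, -, hj⟩ := (Nat.dvd_prime_pow hp).1 hdvd
    have hj0 : j = 0 := by
      by_contra hj0
      exact hnp (hj ▸ dvd_pow_self p hj0)
    rw [hj0, pow_zero] at hj
    have hbot : χ.range = ⊥ := Subgroup.eq_bot_of_card_eq _ hj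
    exact (MonoidHom.range_eq_bot_iff).1 hbot
  -- counting
  have hXcard : Nat.card (FixedPoints.addSubgroup G C ⧸
      (h12_normSubgroup G C).addSubgroupOf (FixedPoints.addSubgroup G C)) =
      (h12_normSubgroup G C).relIndex (FixedPoints.addSubgroup G C) := rfl
  have hXfin : Finite (FixedPoints.addSubgroup G C ⧸
      (h12_normSubgroup G C).addSubgroupOf (FixedPoints.addSubgroup G C)) :=
    Nat.finite_of_card_ne_zero (by rw [hXcard]; exact hub0)
  have hHfin : Finite ((FixedPoints.addSubgroup G C ⧸
      (h12_normSubgroup G C).addSubgroupOf (FixedPoints.addSubgroup G C)) →+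
      ZMod (p ^ (Nat.card G).factorization p)) :=
    Finite.of_injective (fun φ => (φ : _ → ZMod (p ^ (Nat.card G).factorization p)))
      DFunLike.coe_injective
  have hc1 : Nat.card (G →* Multiplicative (ZMod (p ^ (Nat.card G).factorization p))) ≤
      Nat.card (Multiplicative ((FixedPoints.addSubgroup G C ⧸
        (h12_normSubgroup G C).addSubgroupOf (FixedPoints.addSubgroup G C)) →+
        ZMod (p ^ (Nat.card G).factorization p))) :=
    Nat.card_le_card_of_injective Ψ hinj
  have hc2 : Nat.card (Multiplicative ((FixedPoints.addSubgroup G C ⧸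
        (h12_normSubgroup G C).addSubgroupOf (FixedPoints.addSubgroup G C)) →+
        ZMod (p ^ (Nat.card G).factorization p))) =
      Nat.card ((FixedPoints.addSubgroup G C ⧸
        (h12_normSubgroup G C).addSubgroupOf (FixedPoints.addSubgroup G C)) →+
        ZMod (p ^ (Nat.card G).factorization p)) :=
    Nat.card_eq_of_bijective _ Multiplicative.toAdd.bijective
  have hc3 := h34_card_addHom_le (FixedPoints.addSubgroup G C ⧸
      (h12_normSubgroup G C).addSubgroupOf (FixedPoints.addSubgroup G C))
      (p ^ (Nat.card G).factorization p)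
  have hc4 : (h12_normSubgroup G C).relIndex (FixedPoints.addSubgroup G C) ≤
      p ^ (Nat.card G).factorization p := Nat.le_of_dvd (pow_pos hp.pos _) hub
  have hidx : (h12_normSubgroup G C).relIndex (FixedPoints.addSubgroup G C) =
      p ^ (Nat.card G).factorization p := by
    rw [hXcard] at hc3
    omega
  refine ⟨hidx, fun c hc hcob => ?_⟩
  -- norm limitation
  have hcF : c ∈ FixedPoints.addSubgroup G C := (FixedPoints.mem_addSubgroup G C c).2 hc
  have hsurj : Function.Surjective Ψ := by
    refine (Function.Injective.bijective_of_nat_card_le hinj ?_).2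
    rw [hc2]
    rw [hXcard] at hc3
    omega
  have hx0 : (QuotientAddGroup.mk (⟨c, hcF⟩ : FixedPoints.addSubgroup G C) :
      FixedPoints.addSubgroup G C ⧸
        (h12_normSubgroup G C).addSubgroupOf (FixedPoints.addSubgroup G C)) = 0 := by
    refine h40_sep_of_card (p ^ (Nat.card G).factorization p) ?_ _ fun φ => ?_
    · rw [hXcard] at hc3 ⊢
      omega
    · obtain ⟨χ, hχ⟩ := hsurj (Multiplicative.ofAdd φ)
      have hφ : φ = β χ := by
        rw [hΨ] at hχ
        exact (Multiplicative.ofAdd.injective hχ).symm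
      rw [hφ, hβ, hb]
      exact (hzero _ (hcoc χ ⟨c, hcF⟩)).2 (hcob χ)
  have hmem : (⟨c, hcF⟩ : FixedPoints.addSubgroup G C) ∈
      (h12_normSubgroup G C).addSubgroupOf (FixedPoints.addSubgroup G C) :=
    (QuotientAddGroup.eq_zero_iff _).1 hx0
  exact hmem

/-- **H-NORMIDX, upper bound** (helper34's `h34_normidx_dvd`). -/
theorem h40_normidx_dvd (hC : IsPClassModule p G C) :
    (h12_normSubgroup G C).relIndex (FixedPoints.addSubgroup G C) ∣
      p ^ (Nat.card G).factorization p :=
  h34_normidx_dvd hC

/-- **H-NORMIDX**: `[C^G : N_G C] = |G|_p` for `G` abelian. -/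
theorem h40_normidx (hC : IsPClassModule p G C) :
    (h12_normSubgroup G C).relIndex (FixedPoints.addSubgroup G C) =
      p ^ (Nat.card G).factorization p :=
  (h40_normidx_core hC).1

/-- **Norm limitation**: `N_G C` is the intersection of the norm groups of the cyclic
quotients. -/
theorem h40_norm_of_chi (hC : IsPClassModule p G C) (c : C) (hc : ∀ g : G, g • c = c)
    (h : ∀ (k : ℕ) (χ : G →* Multiplicative (ZMod (p ^ k))), h12_IsRelNorm χ.ker c) :
    ∃ c' : C, c = ∑ᶠ g : G, g • c' := by
  have hp : p.Prime := Fact.out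
  have : NeZero (p ^ (Nat.card G).factorization p) := ⟨pow_ne_zero _ hp.ne_zero⟩
  exact (h40_normidx_core hC).2 c hc fun χ => h12_chi_coboundary_of_relNorm χ c (h _ χ)

/-- `e • C^G ⊆ N_G C` whenever `e` kills `G`. -/
theorem h40_exp_norm (hC : IsPClassModule p G C) (e : ℕ) (he : ∀ g : G, g ^ e = 1) (c : C)
    (hc : ∀ g : G, g • c = c) : ∃ c' : C, e • c = ∑ᶠ g : G, g • c' := by
  have hp : p.Prime := Fact.out
  have : NeZero (p ^ (Nat.card G).factorization p) := ⟨pow_ne_zero _ hp.ne_zero⟩
  refine (h40_normidx_core hC).2 (e • c) (fun g => by rw [smul_comm, hc]) fun χ => ?_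
  rw [h12_chiCocycle_nsmul]
  have h1 := h12_chiCocycle_pow χ e c hc
  have h2 : χ ^ e = 1 := MonoidHom.ext fun g => by
    rw [MonoidHom.pow_apply, ← map_pow, he, map_one, MonoidHom.one_apply]
  rw [h2, h12_chiCocycle_one, zero_sub] at h1
  have h3 := h40_cob₂_neg h1
  rwa [neg_neg] at h3

end

end Fermat.Agent.S55
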