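import Mathlib

/-!
# S55, GLOB descent, abstract core

Let a group `G` act on commutative groups `U` (think `Lˣ`) and `X` (think `J × Div`), and let
`diag : U →* X` be an injective `G`-map.  If `H¹(G, U) = 0` (Hilbert 90, in Mathlib's
`IsMulCocycle₁`/`IsMulCoboundary₁` shape) then every class of `X ⧸ diag U` fixed by `G` has a
`G`-fixed representative (`h10_desc_fixed`), and a fixed element of `X` lying in `diag U` comes
from a fixed element of `U` (`h10_desc_inj`).
-/

set_option autoImplicit false

namespace Fermat.Agent.S55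

section DescAbs

variable {G : Type*} [Group G] {U X : Type*} [CommGroup U] [CommGroup X]
  [MulDistribMulAction G U] [MulDistribMulAction G X]

/-- **Descent of fixed classes**: `(X / U)^G = X^G · U / U` when `H¹(G, U) = 0`. -/
theorem h10_desc_fixed (diag : U →* X) (hinj : Function.Injective diag)
    (hdiag : ∀ (g : G) (u : U), diag (g • u) = g • diag u)
    (h90 : ∀ f : G → U, groupCohomology.IsMulCocycle₁ f → groupCohomology.IsMulCoboundary₁ f)
    (x : X) (hx : ∀ g : G, ∃ u : U, g • x = x * diag u) :
    ∃ y : U, ∀ g : G, g • (x * diag y) = x * diag y := by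
  choose a ha using hx
  have hcoc : groupCohomology.IsMulCocycle₁ a := by
    intro g h
    apply hinj
    have h1 : (g * h) • x = x * diag (a (g * h)) := ha (g * h)
    have h2 : (g * h) • x = x * (diag (g • a h) * diag (a g)) := by
      rw [mul_smul, ha h, smul_mul', ha g, hdiag]
      rw [mul_assoc, mul_comm (diag (a g))]
    rw [map_mul]
    exact mul_left_cancel (h1.symm.trans h2)
  obtain ⟨y, hy⟩ := h90 a hcoc
  refine ⟨y⁻¹, fun g => ?_⟩
  rw [smul_mul', ha g, ← hdiag, mul_assoc, ← map_mul, ← hy g, smul_inv']
  congr 2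
  rw [div_eq_mul_inv, mul_comm (g • y), mul_assoc, mul_inv_cancel, mul_one]

/-- A `G`-fixed element of `X` which is in the image of `diag` comes from a `G`-fixed element. -/
theorem h10_desc_inj (diag : U →* X) (hinj : Function.Injective diag)
    (hdiag : ∀ (g : G) (u : U), diag (g • u) = g • diag u)
    (u : U) (hfix : ∀ g : G, g • diag u = diag u) (g : G) : g • u = u := by
  apply hinj
  rw [hdiag, hfix]

/-- Quotient form: a `G`-fixed class of `X ⧸ diag.range` (for the induced action, described by
`hact`) is the class of a `G`-fixed element of `X`. -/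
theorem h10_desc_fixed_quotient (diag : U →* X) (hinj : Function.Injective diag)
    (hdiag : ∀ (g : G) (u : U), diag (g • u) = g • diag u)
    (h90 : ∀ f : G → U, groupCohomology.IsMulCocycle₁ f → groupCohomology.IsMulCoboundary₁ f)
    (c : X ⧸ diag.range)
    (hc : ∀ (g : G) (x : X), QuotientGroup.mk' diag.range x = c →
      QuotientGroup.mk' diag.range (g • x) = c) :
    ∃ x : X, (∀ g : G, g • x = x) ∧ QuotientGroup.mk' diag.range x = c := by
  obtain ⟨x, rfl⟩ := QuotientGroup.mk'_surjective diag.range c
  have hx : ∀ g : G, ∃ u : U, g • x = x * diag u := by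
    intro g
    have h := hc g x rfl
    rw [QuotientGroup.mk'_apply, QuotientGroup.mk'_apply, QuotientGroup.eq] at h
    obtain ⟨u, hu⟩ := h
    refine ⟨u⁻¹, ?_⟩
    rw [map_inv, hu, mul_inv_rev, inv_inv, mul_inv_cancel_left]
  obtain ⟨y, hy⟩ := h10_desc_fixed diag hinj hdiag h90 x hx
  refine ⟨x * diag y, hy, ?_⟩
  rw [QuotientGroup.mk'_apply, QuotientGroup.mk'_apply, QuotientGroup.eq]
  refine ⟨y⁻¹, ?_⟩
  rw [map_inv, mul_inv_rev, inv_mul_cancel_right]

end DescAbs

end Fermat.Agent.S55
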