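import Fermat.Agent.S55.h81_GlobDescX
import Fermat.Agent.S55.h10_DescAbs

/-!
# S55, GLOB-DESC, class-module level (row 270, C-level half)

For `L/K` Galois and `S` nonempty:

* `h10_desc_injective` : `C_K → C_L` is injective;
* `h10_desc_range` : `C_L^{Gal(L/K)} = C_K` when `L/K` is unramified outside `S`
  (Hilbert 90 + the `X`-level descent `h81_Xdesc_range` of helper81).

These are the statements `sk_desc_injective`, `sk_desc_range` of `h25_GlobSkel`.
-/

set_option autoImplicit false

open IsDedekindDomain NumberField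

namespace Fermat.Agent.S55

noncomputable section

/-- Abstract descent of fixed classes (`h10_desc_fixed`) with the action on `X` given by explicit
endomorphisms instead of an instance. -/
theorem h10_desc_fixed_act {G U X : Type*} [Group G] [CommGroup U] [CommGroup X]
    [MulDistribMulAction G U] (act : G → X →* X)
    (hact : ∀ (g h : G) (x : X), act (g * h) x = act g (act h x))
    (diag : U →* X) (hinj : Function.Injective diag)
    (hdiag : ∀ (g : G) (u : U), diag (g • u) = act g (diag u))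
    (h90 : ∀ f : G → U, groupCohomology.IsMulCocycle₁ f → groupCohomology.IsMulCoboundary₁ f)
    (x : X) (hx : ∀ g : G, ∃ u : U, act g x = x * diag u) :
    ∃ y : U, ∀ g : G, act g (x * diag y) = x * diag y := by
  choose a ha using hx
  have hcoc : groupCohomology.IsMulCocycle₁ a := by
    intro g h
    apply hinj
    have h1 : act (g * h) x = x * diag (a (g * h)) := ha (g * h)
    have h2 : act (g * h) x = x * (diag (g • a h) * diag (a g)) := by
      rw [hact, ha h, map_mul, ha g, hdiag]
      rw [mul_assoc, mul_comm (diag (a g))]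
    rw [map_mul]
    exact mul_left_cancel (h1.symm.trans h2)
  obtain ⟨y, hy⟩ := h90 a hcoc
  refine ⟨y⁻¹, fun g => ?_⟩
  rw [map_mul, ha g, ← hdiag, mul_assoc, ← map_mul, ← hy g, smul_inv']
  congr 2
  rw [div_eq_mul_inv, mul_comm (g • y), mul_assoc, mul_inv_cancel, mul_one]

section DescC

variable (K : Type*) [Field K] [NumberField K] (L : Type*) [Field L] [NumberField L] [Algebra K L]
variable (S : Finset Nat.Primes)

/-- The diagonal `Kˣ → X_K` is injective when `S` is nonempty. -/
theorem h10_diag_injective (hS : S.Nonempty) : Function.Injective (h25_diag K S) := by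
  intro x y h
  obtain ⟨q, hq⟩ := hS
  have h1 : (h25_diag K S x).1 ⟨q, hq⟩ = (h25_diag K S y).1 ⟨q, hq⟩ := by rw [h]
  obtain ⟨j⟩ : Nonempty (K →+* PadicAlgCl ((q : Nat.Primes) : ℕ)) := inferInstance
  have h2 := congrFun (congrArg Subtype.val h1) j
  have h3 : j (x : K) = j (y : K) := congrArg Units.val h2
  exact Units.ext (j.injective h3)

omit [NumberField K] in
/-- The diagonal is equivariant for the Galois action. -/
theorem h10_diag_smul (σ : L ≃ₐ[K] L) (u : Lˣ) :
    h25_diag L S (σ • u) = h25_Xmap S (σ : L →+* L) (h25_diag L S u) := by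
  rw [h66_Xmap_diag]
  congr 1

/-- **GLOB-DESC (injectivity)**: `C_K → C_L` is injective for `L/K` Galois, `S` nonempty. -/
theorem h10_desc_injective [IsGalois K L] (hS : S.Nonempty) :
    Function.Injective (h25_Cmap S (algebraMap K L)) := by
  rw [injective_iff_map_eq_one]
  intro c hc
  obtain ⟨x, rfl⟩ := h25_mk_surjective K S c
  rw [h66_Cmap_mk, h25_mk_eq_one_iff] at hc
  obtain ⟨y, hy⟩ := hc
  have hcomp : ∀ σ : L ≃ₐ[K] L, (σ : L →+* L).comp (algebraMap K L) = algebraMap K L :=
    fun σ => RingHom.ext fun z => σ.commutes z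
  have hfix : ∀ σ : L ≃ₐ[K] L, σ (y : L) = (y : L) := by
    intro σ
    have h1 : h25_diag L S (σ • y) = h25_diag L S y := by
      rw [h10_diag_smul, hy, ← MonoidHom.comp_apply, ← h66_Xmap_comp, hcomp]
    exact congrArg Units.val (h10_diag_injective L S hS h1)
  obtain ⟨y₀, hy₀⟩ := (IsGalois.mem_range_algebraMap_iff_fixed (F := K) (y : L)).mpr hfix
  have hy₀0 : y₀ ≠ 0 := by
    rintro rfl
    rw [map_zero] at hy₀
    exact y.ne_zero hy₀.symm
  have h3 : h25_Xmap S (algebraMap K L) (h25_diag K S (Units.mk0 y₀ hy₀0))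
      = h25_Xmap S (algebraMap K L) x := by
    rw [h66_Xmap_diag, ← hy]
    congr 1
    ext
    exact hy₀
  have h4 := h81_Xmap_injective K L S h3
  rw [h25_mk_eq_one_iff]
  exact ⟨_, h4⟩

/-- **GLOB-DESC (fixed points)**: `C_L^{Gal(L/K)} = C_K` for `L/K` Galois unramified outside
`S` (Hilbert 90). -/
theorem h10_desc_range [IsGalois K L] (hS : S.Nonempty) (hur : h25_UnramOutside K L S)
    (c : h25_C L S) :
    (∀ σ : L ≃ₐ[K] L, h25_Cmap S (σ : L →+* L) c = c) ↔
      c ∈ (h25_Cmap S (algebraMap K L)).range := by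
  constructor
  · intro h
    obtain ⟨x, rfl⟩ := h25_mk_surjective L S c
    have hx : ∀ σ : L ≃ₐ[K] L, ∃ u : Lˣ,
        h25_Xmap S (σ : L →+* L) x = x * h25_diag L S u := by
      intro σ
      have h1 := h σ
      rw [h66_Cmap_mk] at h1
      have h2 : h25_mk L S (x⁻¹ * h25_Xmap S (σ : L →+* L) x) = 1 := by
        rw [map_mul, map_inv, h1, inv_mul_cancel]
      rw [h25_mk_eq_one_iff] at h2
      obtain ⟨u, hu⟩ := h2
      exact ⟨u, by rw [hu, mul_inv_cancel_left]⟩
    have hact : ∀ (σ τ : L ≃ₐ[K] L) (z : h25_X L S),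
        h25_Xmap S ((σ * τ : L ≃ₐ[K] L) : L →+* L) z
          = h25_Xmap S (σ : L →+* L) (h25_Xmap S (τ : L →+* L) z) := by
      intro σ τ z
      have e : ((σ * τ : L ≃ₐ[K] L) : L →+* L) = (σ : L →+* L).comp (τ : L →+* L) := rfl
      rw [e, h66_Xmap_comp]
      rfl
    obtain ⟨y, hy⟩ := h10_desc_fixed_act (G := L ≃ₐ[K] L) (U := Lˣ)
      (fun σ => h25_Xmap S (σ : L →+* L)) hact (h25_diag L S) (h10_diag_injective L S hS)
      (h10_diag_smul K L S)
      (fun f hf => groupCohomology.isMulCoboundary₁_of_isMulCocycle₁_of_aut_to_units f hf)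
      x hx
    obtain ⟨x₀, hx₀⟩ := (h81_Xdesc_range K L S hur (x * h25_diag L S y)).mp hy
    refine ⟨h25_mk K S x₀, ?_⟩
    rw [h66_Cmap_mk, hx₀, map_mul, h25_mk_diag, mul_one]
  · rintro ⟨c₀, rfl⟩ σ
    exact h66_Cmap_algEquiv_algebraMap S σ c₀

end DescC

end

end Fermat.Agent.S55
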