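import Fermat.Agent.S55.h41_NormIdxArith
import Fermat.Agent.S55.h10_GlobDescC
import Fermat.Agent.S55.h81_GlobUnr

/-!
# S55 / GLOB-DESC in level form (helper41)

Galois descent of the class modules between two levels `L ≤ L'` (intermediate fields of
`Qbar/ℚ`), in the language of `h33_GlobKumDefs` (`h33_relGal L L'`, `h33_ext S h`):

* `h41_ext_injective` : `C_L → C_{L'}` is injective;
* `h41_desc_level` : a class of `C_{L'}` fixed by `Gal(L'/L)` is extended from `C_L`
  (`L'/ℚ` Galois, unramified outside `S` in the carrier sense `h25_UnramOutside ℚ ↥L' S`).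
-/

set_option autoImplicit false
set_option linter.style.haveILetI false

namespace Fermat.Agent.S55

local notation "Qb" => AlgebraicClosure ℚ

section DescLevel

variable (S : Finset Nat.Primes)

/-- `C_L → C_{L'}` is injective for levels `L ≤ L'` with `L'/ℚ` Galois. -/
theorem h41_ext_injective (hS : S.Nonempty) {L L' : IntermediateField ℚ Qb} [NumberField ↥L]
    [NumberField ↥L'] (h : L ≤ L') [IsGalois ℚ ↥L'] : Function.Injective (h33_ext S h) := by
  letI : Algebra ↥L ↥L' := (IntermediateField.inclusion h).toRingHom.toAlgebra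
  haveI : IsScalarTower ℚ ↥L ↥L' :=
    IsScalarTower.of_algebraMap_eq (fun x => ((IntermediateField.inclusion h).commutes x).symm)
  haveI : IsGalois ↥L ↥L' := IsGalois.tower_top_of_isGalois ℚ ↥L ↥L'
  exact h10_desc_injective ↥L ↥L' S hS

/-- Galois descent between levels: classes of `C_{L'}` fixed by `Gal(L'/L)` come from `C_L`. -/
theorem h41_desc_level (hS : S.Nonempty) {L L' : IntermediateField ℚ Qb} [NumberField ↥L]
    [NumberField ↥L'] (h : L ≤ L') [IsGalois ℚ ↥L'] (hur : h25_UnramOutside ℚ ↥L' S)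
    (c' : h25_C ↥L' S)
    (hc' : ∀ s ∈ h33_relGal L L', h25_Cmap S ((s : ↥L' ≃ₐ[ℚ] ↥L') : ↥L' →+* ↥L') c' = c') :
    c' ∈ (h33_ext S h).range := by
  letI : Algebra ↥L ↥L' := (IntermediateField.inclusion h).toRingHom.toAlgebra
  haveI : IsScalarTower ℚ ↥L ↥L' :=
    IsScalarTower.of_algebraMap_eq (fun x => ((IntermediateField.inclusion h).commutes x).symm)
  haveI : IsGalois ↥L ↥L' := IsGalois.tower_top_of_isGalois ℚ ↥L ↥L'
  have hur' : h25_UnramOutside ↥L ↥L' S := h81_unram_top ℚ ↥L ↥L' S hur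
  have key : ∀ σ : ↥L' ≃ₐ[↥L] ↥L', h25_Cmap S (σ : ↥L' →+* ↥L') c' = c' := by
    intro σ
    have hmem : (σ.restrictScalars ℚ : ↥L' ≃ₐ[ℚ] ↥L') ∈ h33_relGal L L' := by
      rw [h33_mem_relGal]
      intro x hx
      have h1 := σ.commutes ⟨(x : Qb), hx⟩
      have hx' : algebraMap ↥L ↥L' ⟨(x : Qb), hx⟩ = x := by
        apply Subtype.ext
        rfl
      rw [hx'] at h1
      show σ x = x
      exact h1
    have hcoe : ((σ.restrictScalars ℚ : ↥L' ≃ₐ[ℚ] ↥L') : ↥L' →+* ↥L') = (σ : ↥L' →+* ↥L') :=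
      RingHom.ext (fun x => rfl)
    rw [← hcoe]
    exact hc' _ hmem
  exact (h10_desc_range ↥L ↥L' S hS hur' c').1 key

end DescLevel

end Fermat.Agent.S55
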