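import Fermat.Agent.S55.h41_NormIdxArith
import Fermat.Agent.S55.h41_DescLevel
import Fermat.Agent.S55.h40_NormIdx
import Fermat.Agent.S55.h90_GlobCAct
import Fermat.Agent.S55.h37_UnrDict

/-!
# S55 / GLOB-NORMIDX-ARITH (helper41): `h33_HypNorm S p` from the class module structure at the
levels

`h41_hypNorm_of` (file `h41_NormIdxArith`) with its hypotheses discharged by the landed rows:
H-NORMIDX (`h40_normidx`, `h40_exp_norm`), Galois descent in level form (`h41_desc_level`),
the Galois action on the class modules (GLOB-CACT: `h90_CAct`), the dictionary "levels are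
unramified outside `S` in the carrier sense" (GLOB-UNR-DICT: `h37_unramOutside_of_level`).
The ONLY remaining hypothesis is the class module structure at every level (GLOB-CF):

* `h41_hypNorm` : `hCF` at the levels `L' : IntermediateField ℚ Qbar`;
* `h41_hypNorm'` : `hCF'` for number fields as types (the shape of the GLOB-CF assembly).
-/

set_option autoImplicit false

namespace Fermat.Agent.S55

local notation "Qb" => AlgebraicClosure ℚ

/-- The statements of H-NORMIDX (row 247) in the shape consumed by `h41_hypNorm_of`. -/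
theorem h41_hNI {p : ℕ} [Fact p.Prime] (G : Type) [CommGroup G] [Finite G] (M : Type)
    [AddCommGroup M] [DistribMulAction G M] (hC : IsPClassModule p G M) :
    (h12_normSubgroup G M).relIndex (FixedPoints.addSubgroup G M)
        = p ^ (Nat.card G).factorization p ∧
      ∀ (e : ℕ), (∀ g : G, g ^ e = 1) → ∀ c : M, (∀ g : G, g • c = c) →
        ∃ c' : M, e • c = ∑ᶠ g : G, g • c' :=
  ⟨h40_normidx hC, fun e he c hc => h40_exp_norm hC e he c hc⟩

/-- **GLOB-NORMIDX-ARITH**: `h33_HypNorm S p` from GLOB-CACT (`act`, `hact`), GLOB-UNR-DICT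
(`hUNR`) and GLOB-CF (`hCF`). -/
theorem h41_hypNorm_of_cf (S : Finset Nat.Primes) (hS : S.Nonempty) {p : ℕ} [Fact p.Prime]
    [act : ∀ (L' : IntermediateField ℚ Qb) [NumberField ↥L'],
      MulDistribMulAction (↥L' ≃ₐ[ℚ] ↥L') (h25_C ↥L' S)]
    (hact : ∀ (L' : IntermediateField ℚ Qb) [NumberField ↥L'] (σ : ↥L' ≃ₐ[ℚ] ↥L')
      (c : h25_C ↥L' S), σ • c = h25_Cmap S (σ : ↥L' →+* ↥L') c)
    (hUNR : ∀ (L : IntermediateField ℚ Qb) [NumberField ↥L], h25_IsLevel S L →
      h25_UnramOutside ℚ ↥L S)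
    (hCF : ∀ (L' : IntermediateField ℚ Qb) [NumberField ↥L'], h25_IsLevel S L' →
      IsPClassModule p (↥L' ≃ₐ[ℚ] ↥L') (h2_PL p (Additive (h25_C ↥L' S)))) :
    h33_HypNorm S p := by
  refine h41_hypNorm_of S (fun G _ _ M _ _ hC => h41_hNI G M hC) hact hCF ?_
  intro L L' _ _ h _ hL' c' hc'
  have : IsGalois ℚ ↥L' := hL'.2
  exact h41_desc_level S hS h (hUNR L' hL') c' hc'

/-- **GLOB-NORMIDX-ARITH**: `h33_HypNorm S p` from the class module structure of
`C_{L'} ⊗ ℤ_(p)` for `Gal(L'/ℚ)` at every level `L'` (GLOB-CF), with the Galois action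
`h90_CAct`. -/
theorem h41_hypNorm (S : Finset Nat.Primes) (hS : S.Nonempty) {p : ℕ} [Fact p.Prime]
    (hCF : ∀ (L' : IntermediateField ℚ Qb) [NumberField ↥L'], h25_IsLevel S L' →
      IsPClassModule p (↥L' ≃ₐ[ℚ] ↥L') (h2_PL p (Additive (h25_C ↥L' S)))) :
    h33_HypNorm S p :=
  h41_hypNorm_of_cf S hS (fun _ _ _ _ => rfl)
    (fun L _ hL => h37_unramOutside_of_level S L hL) hCF

/-- **GLOB-NORMIDX-ARITH**, with GLOB-CF in the shape "number fields as types":
every number field `L` Galois over `ℚ` and unramified outside `S` (carrier sense) has the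
`p`-class module `C_L ⊗ ℤ_(p)`. -/
theorem h41_hypNorm' (S : Finset Nat.Primes) (hS : S.Nonempty) {p : ℕ} [Fact p.Prime]
    (hCF' : ∀ (L : Type) [Field L] [NumberField L] [IsGalois ℚ L], h25_UnramOutside ℚ L S →
      IsPClassModule p (L ≃ₐ[ℚ] L) (h2_PL p (Additive (h25_C L S)))) :
    h33_HypNorm S p :=
  h41_hypNorm S hS (fun L' _ hL' => by
    have : IsGalois ℚ ↥L' := hL'.2
    exact hCF' ↥L' (h37_unramOutside_of_level S L' hL'))

end Fermat.Agent.S55
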