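import Fermat.Agent.S55.h18_ValPF
import Fermat.Agent.S55.h40_HDefs

/-!
# `U1 = 1 + p ℤ_p` is `p`-local and torsion-free (target group of GLOB-VAL)

* `h18_U1_exists_root` : prime-to-`p` roots exist in `U1` (Hensel).
* `h18_U1_isPLocal` : `h40_IsPLocal p (Additive (h18_U1 p))`.
* `h18_U1_add_torsionFree` : `N • x = 0 → x = 0` in `Additive (h18_U1 p)` for `N ≠ 0`.
* `h18_U1_smul_iff` : `x ∈ p ^ a • V ↔ x.toMul ∈ U1 ^ (p ^ a)` (bookkeeping).
-/

namespace Fermat.Agent.S55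

variable (p : ℕ) [Fact p.Prime]

/-- Prime-to-`p` roots exist in `U1 = 1 + p ℤ_p` (Hensel's lemma for `X ^ m - u` at `1`). -/
theorem h18_U1_exists_root (m : ℕ) (hm : ¬ p ∣ m) (u : ℤ_[p]ˣ) (hu : u ∈ h18_U1 p) :
    ∃ y ∈ h18_U1 p, y ^ m = u := by
  have hpp : p.Prime := Fact.out
  have hm0 : m ≠ 0 := fun h => hm (h ▸ dvd_zero p)
  have hmnorm : ‖(m : ℤ_[p])‖ = 1 :=
    PadicInt.norm_natCast_eq_one_iff.mpr ((Nat.Prime.coprime_iff_not_dvd hpp).2 hm)
  have hF : Polynomial.aeval (1 : ℤ_[p])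
      (Polynomial.X ^ m - Polynomial.C (u : ℤ_[p]) : Polynomial ℤ_[p]) = 1 - (u : ℤ_[p]) := by
    simp
  have hF' : Polynomial.aeval (1 : ℤ_[p])
      (Polynomial.derivative (Polynomial.X ^ m - Polynomial.C (u : ℤ_[p]) : Polynomial ℤ_[p])) =
      (m : ℤ_[p]) := by
    simp [Polynomial.derivative_X_pow]
  have hu1 : ‖1 - (u : ℤ_[p])‖ < 1 := by
    rw [PadicInt.norm_lt_one_iff_dvd, ← neg_sub, dvd_neg]
    exact (h18_mem_U1_iff p u).mp hu
  have hnorm : ‖Polynomial.aeval (1 : ℤ_[p])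
      (Polynomial.X ^ m - Polynomial.C (u : ℤ_[p]) : Polynomial ℤ_[p])‖ <
      ‖Polynomial.aeval (1 : ℤ_[p]) (Polynomial.derivative
        (Polynomial.X ^ m - Polynomial.C (u : ℤ_[p]) : Polynomial ℤ_[p]))‖ ^ 2 := by
    rw [hF, hF', hmnorm, one_pow]
    exact hu1
  obtain ⟨z, hz, hz1, -, -⟩ := hensels_lemma hnorm
  rw [hF', hmnorm] at hz1
  have hzm : z ^ m = (u : ℤ_[p]) := by
    have h : Polynomial.aeval z
        (Polynomial.X ^ m - Polynomial.C (u : ℤ_[p]) : Polynomial ℤ_[p]) = z ^ m - (u : ℤ_[p]) := by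
      simp
    rw [h] at hz
    exact sub_eq_zero.mp hz
  have hzu : IsUnit z := by
    have h : IsUnit (z ^ m) := by rw [hzm]; exact u.isUnit
    exact (isUnit_pow_iff hm0).mp h
  refine ⟨hzu.unit, ?_, ?_⟩
  · rw [h18_mem_U1_iff, IsUnit.unit_spec, ← PadicInt.norm_lt_one_iff_dvd]
    exact hz1
  · apply Units.ext
    rw [Units.val_pow_eq_pow_val, IsUnit.unit_spec, hzm]

/-- `Additive U1` has no torsion (`p ≠ 2`). -/
theorem h18_U1_add_torsionFree (hp2 : p ≠ 2) (N : ℕ) (hN : N ≠ 0) (x : Additive (h18_U1 p))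
    (hx : N • x = 0) : x = 0 := by
  have h1 : (Additive.toMul x) ^ N = 1 := by
    have := congrArg Additive.toMul hx
    exact this
  have h2 : ((Additive.toMul x : h18_U1 p) : ℤ_[p]ˣ) ^ N = 1 := by
    have := congrArg Subtype.val h1
    exact this
  have h3 := h18_U1_pow_eq_one p hp2 _ (Additive.toMul x).2 N hN h2
  have h4 : Additive.toMul x = 1 := Subtype.ext h3
  exact h4

/-- **`Additive (1 + p ℤ_p)` is `p`-local** (`p ≠ 2`). -/
theorem h18_U1_isPLocal (hp2 : p ≠ 2) : h40_IsPLocal p (Additive (h18_U1 p)) := by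
  have hpp : p.Prime := Fact.out
  intro m hm
  have hm' : ¬ p ∣ m := (Nat.Prime.coprime_iff_not_dvd hpp).1 hm.symm
  have hm0 : m ≠ 0 := fun h => hm' (h ▸ dvd_zero p)
  constructor
  · intro x y hxy
    have hxy' : m • x = m • y := hxy
    have h1 : m • (x - y) = 0 := by rw [nsmul_sub, hxy', sub_self]
    exact sub_eq_zero.mp (h18_U1_add_torsionFree p hp2 m hm0 _ h1)
  · intro x
    obtain ⟨y, hy, hym⟩ := h18_U1_exists_root p m hm' ((Additive.toMul x : h18_U1 p) : ℤ_[p]ˣ)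
      (Additive.toMul x).2
    refine ⟨Additive.ofMul ⟨y, hy⟩, ?_⟩
    show Additive.ofMul ((⟨y, hy⟩ : h18_U1 p) ^ m) = x
    have : (⟨y, hy⟩ : h18_U1 p) ^ m = Additive.toMul x := Subtype.ext hym
    rw [this]
    rfl

/-- Divisibility by `p ^ a` in `Additive U1` is membership in `U1 ^ (p ^ a)`. -/
theorem h18_U1_smul_iff (N : ℕ) (x : Additive (h18_U1 p)) :
    (∃ y : Additive (h18_U1 p), x = N • y) ↔ ∃ y : h18_U1 p, y ^ N = Additive.toMul x := by
  constructor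
  · rintro ⟨y, rfl⟩
    exact ⟨Additive.toMul y, rfl⟩
  · rintro ⟨y, hy⟩
    exact ⟨Additive.ofMul y, congrArg Additive.ofMul hy.symm⟩

end Fermat.Agent.S55
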