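import Mathlib

/-!
# S55: Galois-equivariant `d`-th roots of elements close to `1` in `PadicAlgCl q`

For `d ≥ 1` every `y : PadicAlgCl q` with `‖y - 1‖ < ‖d‖ ^ d` has a unique `d`-th root `z` with
`‖z - 1‖ < ‖d‖`.  Uniqueness makes `y ↦ z` multiplicative and equivariant for all
`ℚ_[q]`-automorphisms of `PadicAlgCl q` (which are isometries).  This is the "openness of local
norm groups" input of the second inequality: a family of units close to `1` is a `d`-th power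
of an equivariant family, hence a norm from every extension of degree `d`.
-/

namespace Fermat.Agent.S55

section Ultra

variable {F : Type*} [NormedField F] [IsUltrametricDist F]

/-- a root of unity `w ≠ 1` of order dividing `d` has `‖d‖ ≤ ‖w - 1‖` -/
theorem h35_norm_natCast_le_root_sub_one (d : ℕ) (w : F) (hw : w ^ d = 1) (hw1 : w ≠ 1) :
    ‖(d : F)‖ ≤ ‖w - 1‖ := by
  rcases Nat.eq_zero_or_pos d with hd | hd
  · subst hd
    simp
  have hwn : ‖w‖ = 1 := by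
    have h1 : ‖w‖ ^ d = 1 := by rw [← norm_pow, hw, norm_one]
    exact (pow_eq_one_iff_of_nonneg (norm_nonneg w) hd.ne').mp h1
  have hgeom : ∑ k ∈ Finset.range d, w ^ k = 0 := by
    have h2 := mul_geom_sum w d
    rw [hw, sub_self] at h2
    exact (mul_eq_zero.mp h2).resolve_left (sub_ne_zero.mpr hw1)
  have hd_eq : (d : F) = ∑ k ∈ Finset.range d, (1 - w ^ k) := by
    rw [Finset.sum_sub_distrib, hgeom, sub_zero, Finset.sum_const, Finset.card_range,
      nsmul_one]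
  rw [hd_eq]
  refine IsUltrametricDist.norm_sum_le_of_forall_le_of_nonneg (norm_nonneg _) (fun k _ => ?_)
  have h3 : 1 - w ^ k = -((w - 1) * ∑ i ∈ Finset.range k, w ^ i) := by
    rw [mul_geom_sum]
    ring
  rw [h3, norm_neg, norm_mul]
  have h4 : ‖∑ i ∈ Finset.range k, w ^ i‖ ≤ 1 := by
    refine IsUltrametricDist.norm_sum_le_of_forall_le_of_nonneg zero_le_one (fun i _ => ?_)
    rw [norm_pow, hwn, one_pow]
  exact mul_le_of_le_one_right (norm_nonneg _) h4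

/-- `‖z - 1‖ < 1 ⟹ ‖z‖ = 1` -/
theorem h35_norm_eq_one_of_sub_one_lt (z : F) (hz : ‖z - 1‖ < 1) : ‖z‖ = 1 := by
  have h1 : ‖z - 1 + 1‖ = max ‖z - 1‖ ‖(1 : F)‖ :=
    IsUltrametricDist.norm_add_eq_max_of_norm_ne_norm (by rw [norm_one]; exact hz.ne)
  rw [sub_add_cancel, norm_one, max_eq_right hz.le] at h1
  exact h1

/-- uniqueness of a `d`-th root close to `1` -/
theorem h35_root_unique (d : ℕ) (z z' : F) (h : z ^ d = z' ^ d)
    (hz : ‖z - 1‖ < ‖(d : F)‖) (hz' : ‖z' - 1‖ < ‖(d : F)‖) : z = z' := by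
  have hd1 : ‖(d : F)‖ ≤ 1 := IsUltrametricDist.norm_natCast_le_one F d
  have hzn : ‖z‖ = 1 := h35_norm_eq_one_of_sub_one_lt z (hz.trans_le hd1)
  have hz0 : z ≠ 0 := by
    rintro rfl
    rw [norm_zero] at hzn
    exact zero_ne_one hzn
  by_contra hne
  have hw1 : z' / z ≠ 1 := by
    intro h1
    rw [div_eq_one_iff_eq hz0] at h1
    exact hne h1.symm
  have hw : (z' / z) ^ d = 1 := by
    rw [div_pow, ← h, div_self (pow_ne_zero d hz0)]
  have h2 := h35_norm_natCast_le_root_sub_one d (z' / z) hw hw1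
  have h3 : z' / z - 1 = (z' - z) / z := by
    field_simp
  rw [h3, norm_div, hzn, div_one] at h2
  have h4 : ‖z' - z‖ ≤ max ‖z' - 1‖ ‖z - 1‖ := by
    have h5 : z' - z = (z' - 1) + -(z - 1) := by ring
    rw [h5]
    refine (IsUltrametricDist.norm_add_le_max _ _).trans ?_
    rw [norm_neg]
  have h6 : max ‖z' - 1‖ ‖z - 1‖ < ‖(d : F)‖ := max_lt hz' hz
  linarith

end Ultra

section Padic

variable (q : ℕ) [Fact q.Prime]

/-- `ℚ_[q]`-automorphisms of `PadicAlgCl q` are isometries -/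
theorem h35_norm_aut (σ : PadicAlgCl q ≃ₐ[ℚ_[q]] PadicAlgCl q) (x : PadicAlgCl q) :
    ‖σ x‖ = ‖x‖ :=
  (spectralNorm_eq_of_equiv σ x).symm

theorem h35_norm_natCast_pos (d : ℕ) (hd : 0 < d) : 0 < ‖(d : PadicAlgCl q)‖ :=
  norm_pos_iff.mpr (Nat.cast_ne_zero.mpr hd.ne')

/-- existence of a `d`-th root close to `1` -/
theorem h35_exists_root_near_one (d : ℕ) (hd : 0 < d) (δ : ℝ) (hδ : 0 < δ) (y : PadicAlgCl q)
    (hy : ‖y - 1‖ < δ ^ d) : ∃ z : PadicAlgCl q, z ^ d = y ∧ ‖z - 1‖ < δ := by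
  obtain ⟨z₀, hz₀⟩ := IsAlgClosed.exists_pow_nat_eq y hd
  have : NeZero d := ⟨hd.ne'⟩
  obtain ⟨ζ, hζ⟩ := HasEnoughRootsOfUnity.exists_primitiveRoot (PadicAlgCl q) d
  have hprod := hζ.pow_sub_pow_eq_prod_sub_mul (1 : PadicAlgCl q) z₀ hd
  rw [one_pow, hz₀] at hprod
  by_contra hcon
  push Not at hcon
  have hall : ∀ η ∈ Polynomial.nthRootsFinset d (1 : PadicAlgCl q), δ ≤ ‖1 - η * z₀‖ := by
    intro η hη
    have hη1 : η ^ d = 1 := (Polynomial.mem_nthRootsFinset hd 1).mp hη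
    have h1 := hcon (η * z₀) (by rw [mul_pow, hη1, one_mul, hz₀])
    rwa [norm_sub_rev] at h1
  have h2 : δ ^ d ≤ ‖1 - y‖ := by
    rw [hprod, norm_prod]
    calc δ ^ d = ∏ _η ∈ Polynomial.nthRootsFinset d (1 : PadicAlgCl q), δ := by
          rw [Finset.prod_const, hζ.card_nthRootsFinset]
      _ ≤ _ := Finset.prod_le_prod (fun _ _ => hδ.le) hall
  rw [norm_sub_rev] at h2
  linarith

/-- the `d`-th root close to `1` (junk value `1` if there is none) -/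
noncomputable def h35_root (d : ℕ) (y : PadicAlgCl q) : PadicAlgCl q :=
  open Classical in
  if h : ∃ z : PadicAlgCl q, z ^ d = y ∧ ‖z - 1‖ < ‖(d : PadicAlgCl q)‖ then h.choose else 1

theorem h35_root_eq (d : ℕ) (y z : PadicAlgCl q) (hz : z ^ d = y)
    (hz1 : ‖z - 1‖ < ‖(d : PadicAlgCl q)‖) : h35_root q d y = z := by
  classical
  have h : ∃ z : PadicAlgCl q, z ^ d = y ∧ ‖z - 1‖ < ‖(d : PadicAlgCl q)‖ := ⟨z, hz, hz1⟩
  rw [h35_root, dif_pos h]
  exact h35_root_unique d _ _ (h.choose_spec.1.trans hz.symm) h.choose_spec.2 hz1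

theorem h35_root_spec (d : ℕ) (hd : 0 < d) (y : PadicAlgCl q)
    (hy : ‖y - 1‖ < ‖(d : PadicAlgCl q)‖ ^ d) :
    h35_root q d y ^ d = y ∧ ‖h35_root q d y - 1‖ < ‖(d : PadicAlgCl q)‖ := by
  obtain ⟨z, hz, hz1⟩ := h35_exists_root_near_one q d hd _ (h35_norm_natCast_pos q d hd) y hy
  rw [h35_root_eq q d y z hz hz1]
  exact ⟨hz, hz1⟩

theorem h35_root_pow (d : ℕ) (hd : 0 < d) (y : PadicAlgCl q)
    (hy : ‖y - 1‖ < ‖(d : PadicAlgCl q)‖ ^ d) : h35_root q d y ^ d = y :=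
  (h35_root_spec q d hd y hy).1

theorem h35_root_near (d : ℕ) (hd : 0 < d) (y : PadicAlgCl q)
    (hy : ‖y - 1‖ < ‖(d : PadicAlgCl q)‖ ^ d) : ‖h35_root q d y - 1‖ < ‖(d : PadicAlgCl q)‖ :=
  (h35_root_spec q d hd y hy).2

theorem h35_root_ne_zero (d : ℕ) (hd : 0 < d) (y : PadicAlgCl q)
    (hy : ‖y - 1‖ < ‖(d : PadicAlgCl q)‖ ^ d) : h35_root q d y ≠ 0 := by
  intro h0
  have h1 := h35_root_near q d hd y hy
  rw [h0, zero_sub, norm_neg, norm_one] at h1
  exact absurd h1 (not_lt.mpr (IsUltrametricDist.norm_natCast_le_one (PadicAlgCl q) d))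

theorem h35_root_one (d : ℕ) (hd : 0 < d) : h35_root q d 1 = 1 :=
  h35_root_eq q d 1 1 (one_pow d) (by rw [sub_self, norm_zero]; exact h35_norm_natCast_pos q d hd)

/-- equivariance -/
theorem h35_root_aut (d : ℕ) (hd : 0 < d) (σ : PadicAlgCl q ≃ₐ[ℚ_[q]] PadicAlgCl q)
    (y : PadicAlgCl q) (hy : ‖y - 1‖ < ‖(d : PadicAlgCl q)‖ ^ d) :
    h35_root q d (σ y) = σ (h35_root q d y) := by
  obtain ⟨h1, h2⟩ := h35_root_spec q d hd y hy
  refine h35_root_eq q d (σ y) _ (by rw [← map_pow, h1]) ?_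
  have h3 : σ (h35_root q d y) - 1 = σ (h35_root q d y - 1) := by rw [map_sub, map_one]
  rw [h3, h35_norm_aut]
  exact h2

/-- multiplicativity -/
theorem h35_root_mul (d : ℕ) (hd : 0 < d) (y y' : PadicAlgCl q)
    (hy : ‖y - 1‖ < ‖(d : PadicAlgCl q)‖ ^ d) (hy' : ‖y' - 1‖ < ‖(d : PadicAlgCl q)‖ ^ d) :
    h35_root q d (y * y') = h35_root q d y * h35_root q d y' := by
  obtain ⟨h1, h2⟩ := h35_root_spec q d hd y hy
  obtain ⟨h1', h2'⟩ := h35_root_spec q d hd y' hy'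
  refine h35_root_eq q d (y * y') _ (by rw [mul_pow, h1, h1']) ?_
  set z := h35_root q d y
  set z' := h35_root q d y'
  have hd1 : ‖(d : PadicAlgCl q)‖ ≤ 1 := IsUltrametricDist.norm_natCast_le_one (PadicAlgCl q) d
  have hzn : ‖z‖ = 1 := h35_norm_eq_one_of_sub_one_lt z (h2.trans_le hd1)
  have h3 : z * z' - 1 = z * (z' - 1) + (z - 1) := by ring
  rw [h3]
  refine lt_of_le_of_lt (IsUltrametricDist.norm_add_le_max _ _) (max_lt ?_ h2)
  rw [norm_mul, hzn, one_mul]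
  exact h2'

/-- the neighbourhood `‖y - 1‖ < ‖d‖ ^ d` is stable under multiplication -/
theorem h35_near_mul (c : ℝ) (hc : c ≤ 1) (y y' : PadicAlgCl q) (hy : ‖y - 1‖ < c)
    (hy' : ‖y' - 1‖ < c) : ‖y * y' - 1‖ < c := by
  have hyn : ‖y‖ = 1 := h35_norm_eq_one_of_sub_one_lt y (hy.trans_le hc)
  have h3 : y * y' - 1 = y * (y' - 1) + (y - 1) := by ring
  rw [h3]
  refine lt_of_le_of_lt (IsUltrametricDist.norm_add_le_max _ _) (max_lt ?_ hy)
  rw [norm_mul, hyn, one_mul]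
  exact hy'

/-- `q`-adically small elements are in the neighbourhood: there is `n` with
`q^(-n) < ‖d‖ ^ d`. -/
theorem h35_exists_pow_lt (d : ℕ) (hd : 0 < d) :
    ∃ n : ℕ, ((q : ℝ)⁻¹) ^ n < ‖(d : PadicAlgCl q)‖ ^ d := by
  have hq : (1 : ℝ) < q := by exact_mod_cast (Fact.out : q.Prime).one_lt
  have hq0 : (0 : ℝ) ≤ (q : ℝ)⁻¹ := by positivity
  have hq1 : (q : ℝ)⁻¹ < 1 := inv_lt_one_of_one_lt₀ hq
  exact exists_pow_lt_of_lt_one (pow_pos (h35_norm_natCast_pos q d hd) d) hq1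

end Padic

end Fermat.Agent.S55
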