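import Mathlib
import Fermat.Agent.S14.Defs
import Fermat.Agent.S14.ZB
import Fermat.Agent.S14.h35_PrimeSums
import Fermat.Agent.S14.h84_Split

/-!
# S55, global analytic input: the universal norm index inequality (ideal form)

For a Galois extension `L / K` of number fields, a modulus `𝔪` of `K` and a surjective
multiplicative map `ψ` from the ideals of `K` prime to `𝔪` onto a finite abelian group `A`,
trivial on the principal ideals `(a)`, `a ≡ 1 mod 𝔪`, and on the primes that split completely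
in `L`, we prove `|A| ≤ [L : K]` (`h35_norm_index_le_of`).  The boundedness on `(1, 2]` of the
`L`-series of the nontrivial characters of the ray class group mod `𝔪` is a hypothesis here
(`hLBD`); it is discharged in `h35_NormIndexFinal.lean`.

With `x_v = N(v)^(-σ)`, `ℓ = log (1/(σ-1))`, `h = |A|`, `n = [L : K]`:
* `h ∑_{ψ(v) = 1} x_v ≤ ℓ + O(1)`   (product of the `L`-series of all characters of `A`);
* `n ∑_{v split} x_v ≥ ℓ - O(1)`    (degree-one primes of `L`).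
-/

set_option linter.unusedSectionVars false

namespace Fermat.Agent.S55

open NumberField IsDedekindDomain Filter Topology
open Fermat.Agent.S14
open scoped nonZeroDivisors

/-! ### Characters of a finite abelian group -/

section Characters

variable {A : Type*} [CommGroup A] [Finite A]

theorem h35_char_norm_one (χ : A →* ℂˣ) (a : A) : ‖((χ a : ℂˣ) : ℂ)‖ = 1 := by
  have h : ((χ a : ℂˣ) : ℂ) ^ Nat.card A = 1 := by
    rw [← Units.val_pow_eq_pow_val, ← map_pow, pow_card_eq_one', map_one, Units.val_one]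
  exact Complex.norm_eq_one_of_pow_eq_one h Nat.card_pos.ne'

theorem h35_card_char [Fintype (A →* ℂˣ)] : Fintype.card (A →* ℂˣ) = Nat.card A := by
  rw [← Nat.card_eq_fintype_card]
  exact CommGroup.card_monoidHom_of_hasEnoughRootsOfUnity A ℂ

theorem h35_sum_char_eq_zero [Fintype (A →* ℂˣ)] {a : A} (ha : a ≠ 1) :
    ∑ χ : A →* ℂˣ, ((χ a : ℂˣ) : ℂ) = 0 := by
  obtain ⟨χ₀, hχ₀⟩ := CommGroup.exists_apply_ne_one_of_hasEnoughRootsOfUnity A ℂ ha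
  have h1 : ∑ χ : A →* ℂˣ, ((χ a : ℂˣ) : ℂ) =
      ((χ₀ a : ℂˣ) : ℂ) * ∑ χ : A →* ℂˣ, ((χ a : ℂˣ) : ℂ) := by
    rw [Finset.mul_sum]
    refine (Fintype.sum_equiv (Equiv.mulLeft χ₀) _ _ (fun χ => ?_)).symm
    simp
  have h2 : ((χ₀ a : ℂˣ) : ℂ) ≠ 1 := fun h => hχ₀ (Units.ext h)
  have h3 : (1 - ((χ₀ a : ℂˣ) : ℂ)) * ∑ χ : A →* ℂˣ, ((χ a : ℂˣ) : ℂ) = 0 := by
    rw [sub_mul, one_mul, ← h1, sub_self]
  exact (mul_eq_zero.mp h3).resolve_left (sub_ne_zero.mpr (Ne.symm h2))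

theorem h35_sum_char_one [Fintype (A →* ℂˣ)] :
    ∑ χ : A →* ℂˣ, ((χ (1 : A) : ℂˣ) : ℂ) = (Nat.card A : ℂ) := by
  simp [h35_card_char]

end Characters

/-- `‖1 - z x‖ ≤ exp (x² - x Re z)` for `‖z‖ ≤ 1`. -/
theorem h35_norm_one_sub_le (z : ℂ) (hz : ‖z‖ ≤ 1) (x : ℝ) :
    ‖1 - z * (x : ℂ)‖ ≤ Real.exp (x ^ 2 - x * z.re) := by
  have h1 : ‖1 - z * (x : ℂ)‖ ^ 2 ≤ Real.exp (x ^ 2 - x * z.re) ^ 2 := by
    have h2 : ‖1 - z * (x : ℂ)‖ ^ 2 = 1 - 2 * x * z.re + x ^ 2 * ‖z‖ ^ 2 := by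
      rw [Complex.sq_norm, Complex.sq_norm, Complex.normSq_apply, Complex.normSq_apply]
      simp
      ring
    have h3 : ‖z‖ ^ 2 ≤ 1 := by nlinarith [norm_nonneg z]
    have h4 : Real.exp (x ^ 2 - x * z.re) ^ 2 = Real.exp (2 * x ^ 2 - 2 * x * z.re) := by
      rw [← Real.exp_nat_mul]
      congr 1
      push_cast
      ring
    rw [h2, h4]
    have h5 := Real.add_one_le_exp (2 * x ^ 2 - 2 * x * z.re)
    nlinarith [sq_nonneg x, mul_nonneg (sq_nonneg x) (sub_nonneg.mpr h3)]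
  exact (pow_le_pow_iff_left₀ (norm_nonneg _) (Real.exp_pos _).le two_ne_zero).mp h1

section Main

variable (K : Type*) [Field K] [NumberField K] (𝔪 : Ideal (𝓞 K))
variable {A : Type*} [CommGroup A] [Finite A] (ψ : (Ideal (𝓞 K))⁰ → A)

/-- the function `χ ∘ ψ` on the ideals coprime to `𝔪`, extended by zero -/
noncomputable def h35_rayFun (χ : A →* ℂˣ) (I : (Ideal (𝓞 K))⁰) : ℂ :=
  open Classical in if IsCoprime (I : Ideal (𝓞 K)) 𝔪 then ((χ (ψ I) : ℂˣ) : ℂ) else 0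

theorem h35_rayFun_pos (χ : A →* ℂˣ) {I : (Ideal (𝓞 K))⁰}
    (hI : IsCoprime (I : Ideal (𝓞 K)) 𝔪) :
    h35_rayFun K 𝔪 ψ χ I = ((χ (ψ I) : ℂˣ) : ℂ) := by
  classical
  rw [h35_rayFun, if_pos hI]

theorem h35_rayFun_neg (χ : A →* ℂˣ) {I : (Ideal (𝓞 K))⁰}
    (hI : ¬ IsCoprime (I : Ideal (𝓞 K)) 𝔪) :
    h35_rayFun K 𝔪 ψ χ I = 0 := by
  classical
  rw [h35_rayFun, if_neg hI]

theorem h35_rayFun_norm_le (χ : A →* ℂˣ) (I : (Ideal (𝓞 K))⁰) :
    ‖h35_rayFun K 𝔪 ψ χ I‖ ≤ 1 := by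
  by_cases hI : IsCoprime (I : Ideal (𝓞 K)) 𝔪
  · rw [h35_rayFun_pos K 𝔪 ψ χ hI, h35_char_norm_one]
  · rw [h35_rayFun_neg K 𝔪 ψ χ hI, norm_zero]
    exact zero_le_one

variable (hmul : ∀ I J : (Ideal (𝓞 K))⁰, IsCoprime (I : Ideal (𝓞 K)) 𝔪 →
  IsCoprime (J : Ideal (𝓞 K)) 𝔪 → ψ (I * J) = ψ I * ψ J)

/-- `χ ∘ ψ` (extended by zero) as a monoid hom on the nonzero ideals -/
noncomputable def h35_rayHom (χ : A →* ℂˣ) : (Ideal (𝓞 K))⁰ →* ℂ where
  toFun := h35_rayFun K 𝔪 ψ χ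
  map_one' := by
    have h1 : IsCoprime ((1 : (Ideal (𝓞 K))⁰) : Ideal (𝓞 K)) 𝔪 := by
      rw [Submonoid.coe_one]
      exact isCoprime_one_left
    have h2 : ψ 1 = 1 := by
      have h3 := hmul 1 1 h1 h1
      rw [mul_one] at h3
      exact (mul_eq_left.mp h3.symm)
    rw [h35_rayFun_pos K 𝔪 ψ χ h1, h2, map_one, Units.val_one]
  map_mul' I J := by
    by_cases hI : IsCoprime (I : Ideal (𝓞 K)) 𝔪
    · by_cases hJ : IsCoprime (J : Ideal (𝓞 K)) 𝔪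
      · have hIJ : IsCoprime ((I * J : (Ideal (𝓞 K))⁰) : Ideal (𝓞 K)) 𝔪 := by
          rw [Submonoid.coe_mul]
          exact hI.mul_left hJ
        rw [h35_rayFun_pos K 𝔪 ψ χ hI, h35_rayFun_pos K 𝔪 ψ χ hJ, h35_rayFun_pos K 𝔪 ψ χ hIJ,
          hmul I J hI hJ, map_mul, Units.val_mul]
      · have hIJ : ¬ IsCoprime ((I * J : (Ideal (𝓞 K))⁰) : Ideal (𝓞 K)) 𝔪 := by
          rw [Submonoid.coe_mul]
          exact fun h => hJ (IsCoprime.of_mul_left_right h)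
        rw [h35_rayFun_neg K 𝔪 ψ χ hJ, h35_rayFun_neg K 𝔪 ψ χ hIJ, mul_zero]
    · have hIJ : ¬ IsCoprime ((I * J : (Ideal (𝓞 K))⁰) : Ideal (𝓞 K)) 𝔪 := by
        rw [Submonoid.coe_mul]
        exact fun h => hI (IsCoprime.of_mul_left_left h)
      rw [h35_rayFun_neg K 𝔪 ψ χ hI, h35_rayFun_neg K 𝔪 ψ χ hIJ, zero_mul]

theorem h35_rayHom_apply (χ : A →* ℂˣ) (I : (Ideal (𝓞 K))⁰) :
    h35_rayHom K 𝔪 ψ hmul χ I = h35_rayFun K 𝔪 ψ χ I := rfl

/-- `Re ∑_χ χ(ψ I) ≥ 0` (orthogonality). -/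
theorem h35_re_sum_rayHom_nonneg [Fintype (A →* ℂˣ)] (I : (Ideal (𝓞 K))⁰) :
    0 ≤ ∑ χ : A →* ℂˣ, (h35_rayHom K 𝔪 ψ hmul χ I).re := by
  rw [← Complex.re_sum]
  simp only [h35_rayHom_apply]
  by_cases hI : IsCoprime (I : Ideal (𝓞 K)) 𝔪
  · simp only [h35_rayFun_pos K 𝔪 ψ _ hI]
    by_cases h1 : ψ I = 1
    · rw [h1, h35_sum_char_one]
      simp
    · rw [h35_sum_char_eq_zero h1]
      simp
  · simp only [h35_rayFun_neg K 𝔪 ψ _ hI]
    simp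

/-- the product over all characters of the Euler factors at `v` is at least `exp (-h x_v²)` -/
theorem h35_prod_factor_ge [Fintype (A →* ℂˣ)] {σ : ℝ} (hσ : 1 ≤ σ)
    (v : HeightOneSpectrum (𝓞 K)) :
    Real.exp (-((Nat.card A : ℝ) * h35_x K σ v ^ 2)) ≤
      ∏ χ : A →* ℂˣ,
        ‖(1 - h35_rayHom K 𝔪 ψ hmul χ (primeIdeal v) * ((h35_x K σ v : ℝ) : ℂ))⁻¹‖ := by
  have hx0 := h35_x_nonneg K σ v
  have hx1 := h35_x_le_half K hσ v
  have hpos : ∀ χ : A →* ℂˣ,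
      0 < ‖1 - h35_rayHom K 𝔪 ψ hmul χ (primeIdeal v) * ((h35_x K σ v : ℝ) : ℂ)‖ := by
    intro χ
    rw [norm_pos_iff]
    intro h0
    have h1 : h35_rayHom K 𝔪 ψ hmul χ (primeIdeal v) * ((h35_x K σ v : ℝ) : ℂ) = 1 :=
      (sub_eq_zero.mp h0).symm
    have h2 := congrArg norm h1
    rw [norm_mul, Complex.norm_real, Real.norm_of_nonneg hx0, norm_one] at h2
    have h3 := h35_rayFun_norm_le K 𝔪 ψ χ (primeIdeal v)
    rw [← h35_rayHom_apply K 𝔪 ψ hmul] at h3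
    nlinarith
  have hle : ∏ χ : A →* ℂˣ,
      ‖1 - h35_rayHom K 𝔪 ψ hmul χ (primeIdeal v) * ((h35_x K σ v : ℝ) : ℂ)‖ ≤
        Real.exp ((Nat.card A : ℝ) * h35_x K σ v ^ 2) := by
    calc ∏ χ : A →* ℂˣ,
          ‖1 - h35_rayHom K 𝔪 ψ hmul χ (primeIdeal v) * ((h35_x K σ v : ℝ) : ℂ)‖
        ≤ ∏ χ : A →* ℂˣ, Real.exp (h35_x K σ v ^ 2 -
            h35_x K σ v * (h35_rayHom K 𝔪 ψ hmul χ (primeIdeal v)).re) := by
          refine Finset.prod_le_prod (fun χ _ => norm_nonneg _) (fun χ _ => ?_)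
          exact h35_norm_one_sub_le _ (h35_rayFun_norm_le K 𝔪 ψ χ (primeIdeal v)) _
      _ = Real.exp (∑ χ : A →* ℂˣ, (h35_x K σ v ^ 2 -
            h35_x K σ v * (h35_rayHom K 𝔪 ψ hmul χ (primeIdeal v)).re)) :=
          (Real.exp_sum _ _).symm
      _ ≤ Real.exp ((Nat.card A : ℝ) * h35_x K σ v ^ 2) := by
          refine Real.exp_le_exp.mpr ?_
          rw [Finset.sum_sub_distrib, Finset.sum_const, Finset.card_univ, h35_card_char,
            nsmul_eq_mul, ← Finset.mul_sum]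
          have := mul_nonneg hx0 (h35_re_sum_rayHom_nonneg K 𝔪 ψ hmul (primeIdeal v))
          linarith
  have hprodpos : 0 < ∏ χ : A →* ℂˣ,
      ‖1 - h35_rayHom K 𝔪 ψ hmul χ (primeIdeal v) * ((h35_x K σ v : ℝ) : ℂ)‖ :=
    Finset.prod_pos fun χ _ => hpos χ
  simp only [norm_inv]
  rw [Finset.prod_inv_distrib, Real.exp_neg]
  exact inv_anti₀ hprodpos hle

/-- at a prime `v ∤ 𝔪` with `ψ(v) = 1` the product of the Euler factors is at least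
`exp (h x_v)` -/
theorem h35_prod_factor_ge_one [Fintype (A →* ℂˣ)] {σ : ℝ} (hσ : 1 ≤ σ)
    (v : HeightOneSpectrum (𝓞 K)) (hv : IsCoprime v.asIdeal 𝔪) (hψ : ψ (primeIdeal v) = 1) :
    Real.exp ((Nat.card A : ℝ) * h35_x K σ v) ≤
      ∏ χ : A →* ℂˣ,
        ‖(1 - h35_rayHom K 𝔪 ψ hmul χ (primeIdeal v) * ((h35_x K σ v : ℝ) : ℂ))⁻¹‖ := by
  have hx0 := h35_x_nonneg K σ v
  have hx1 := h35_x_le_half K hσ v
  have hfac : ∀ χ : A →* ℂˣ,
      ‖(1 - h35_rayHom K 𝔪 ψ hmul χ (primeIdeal v) * ((h35_x K σ v : ℝ) : ℂ))⁻¹‖ =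
        (1 - h35_x K σ v)⁻¹ := by
    intro χ
    have hv' : IsCoprime ((primeIdeal v : (Ideal (𝓞 K))⁰) : Ideal (𝓞 K)) 𝔪 := hv
    rw [h35_rayHom_apply, h35_rayFun_pos K 𝔪 ψ χ hv', hψ, map_one, Units.val_one, one_mul,
      ← Complex.ofReal_one, ← Complex.ofReal_sub, ← Complex.ofReal_inv, Complex.norm_real,
      Real.norm_of_nonneg (inv_nonneg.mpr (by linarith))]
  rw [Finset.prod_congr rfl (fun χ _ => hfac χ), Finset.prod_const, Finset.card_univ,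
    h35_card_char, Real.exp_nat_mul]
  refine pow_le_pow_left₀ (Real.exp_pos _).le ?_ _
  exact h35_exp_le_inv (by linarith)


/-- the trivial bound `‖∑ g(I) N(I)^(-σ)‖ ≤ ζ_K(σ)` -/
theorem h35_norm_idealSum_le_zeta (g : (Ideal (𝓞 K))⁰ → ℂ) (hg : ∀ I, ‖g I‖ ≤ 1) {σ : ℝ}
    (hσ : 1 < σ) : ‖idealSum K g σ‖ ≤ h35_zeta K σ := by
  have hs0 : -σ ≠ 0 := neg_ne_zero.mpr (zero_lt_one.trans hσ).ne'
  have hsum := idealSum_summable K g hg hσ
  have h1 : ‖idealSum K g σ‖ ≤ ∑' I : (Ideal (𝓞 K))⁰,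
      ‖g I * (((Ideal.absNorm (I : Ideal (𝓞 K)) : ℝ) ^ (-σ) : ℝ) : ℂ)‖ :=
    norm_tsum_le_tsum_norm hsum.norm
  have h2 : ∑' I : (Ideal (𝓞 K))⁰,
      ‖g I * (((Ideal.absNorm (I : Ideal (𝓞 K)) : ℝ) ^ (-σ) : ℝ) : ℂ)‖ ≤
      ∑' I : (Ideal (𝓞 K))⁰, (Ideal.absNorm (I : Ideal (𝓞 K)) : ℝ) ^ (-σ) := by
    refine hsum.norm.tsum_le_tsum (fun I => ?_) (summable_absNorm_rpow K hσ)
    rw [norm_mul, Complex.norm_real,
      Real.norm_of_nonneg (Real.rpow_nonneg (Nat.cast_nonneg _) _)]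
    exact mul_le_of_le_one_left (Real.rpow_nonneg (Nat.cast_nonneg _) _) (hg I)
  have h3 : ∑' I : (Ideal (𝓞 K))⁰, (Ideal.absNorm (I : Ideal (𝓞 K)) : ℝ) ^ (-σ) =
      h35_zeta K σ := by
    rw [h35_zeta]
    exact h35_tsum_nonZeroDivisors (fun I : Ideal (𝓞 K) => (Ideal.absNorm I : ℝ) ^ (-σ))
      (by simp [Real.zero_rpow hs0])
  linarith

variable (hprinc : ∀ (a : 𝓞 K) (I : (Ideal (𝓞 K))⁰), (I : Ideal (𝓞 K)) = Ideal.span {a} →
    a - 1 ∈ 𝔪 → ψ I = 1)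
  (hsurj : ∀ x : A, ∃ I : (Ideal (𝓞 K))⁰, IsCoprime (I : Ideal (𝓞 K)) 𝔪 ∧ ψ I = x)
  (hLBD : ∀ g : (Ideal (𝓞 K))⁰ →* ℂ, (∀ I, ‖g I‖ ≤ 1) →
    (∀ I : (Ideal (𝓞 K))⁰, ¬ IsCoprime (I : Ideal (𝓞 K)) 𝔪 → g I = 0) →
    (∀ (a : 𝓞 K) (I : (Ideal (𝓞 K))⁰), (I : Ideal (𝓞 K)) = Ideal.span {a} →
      a - 1 ∈ 𝔪 → g I = 1) →
    (∃ I : (Ideal (𝓞 K))⁰, IsCoprime (I : Ideal (𝓞 K)) 𝔪 ∧ g I ≠ 1) →
    ∃ B : ℝ, ∀ s : ℝ, 1 < s → s ≤ 2 → ‖idealSum K g s‖ ≤ B)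

include hmul hprinc hsurj hLBD in
/-- (N1) `|A| ∑_{v ∈ S} x_v ≤ log (1/(σ-1)) + O(1)` for finite sets `S` of primes `v ∤ 𝔪` with
`ψ(v) = 1`. -/
theorem h35_sum_psi_one_le :
    ∃ B : ℝ, ∀ σ : ℝ, 1 < σ → σ ≤ 2 → ∀ S : Finset (HeightOneSpectrum (𝓞 K)),
      (∀ v ∈ S, IsCoprime v.asIdeal 𝔪 ∧ ψ (primeIdeal v) = 1) →
      (Nat.card A : ℝ) * ∑ v ∈ S, h35_x K σ v ≤ Real.log (1 / (σ - 1)) + B := by
  classical
  have : Fintype (A →* ℂˣ) := Fintype.ofFinite _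
  have hgn : ∀ (χ : A →* ℂˣ) (I : (Ideal (𝓞 K))⁰), ‖h35_rayHom K 𝔪 ψ hmul χ I‖ ≤ 1 :=
    fun χ I => h35_rayFun_norm_le K 𝔪 ψ χ I
  -- bounds for the nontrivial characters
  have hb : ∀ χ : A →* ℂˣ, χ ≠ 1 → ∃ B : ℝ, ∀ s : ℝ, 1 < s → s ≤ 2 →
      ‖idealSum K (h35_rayHom K 𝔪 ψ hmul χ) s‖ ≤ B := by
    intro χ hχ
    refine hLBD (h35_rayHom K 𝔪 ψ hmul χ) (hgn χ) ?_ ?_ ?_
    · intro I hI
      exact h35_rayFun_neg K 𝔪 ψ χ hI
    · intro a I hI ha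
      have hcop : IsCoprime (I : Ideal (𝓞 K)) 𝔪 := by
        rw [hI, Ideal.isCoprime_iff_exists]
        refine ⟨a, Ideal.mem_span_singleton_self a, 1 - a, ?_, by ring⟩
        have := neg_mem ha
        rwa [neg_sub] at this
      rw [h35_rayHom_apply, h35_rayFun_pos K 𝔪 ψ χ hcop, hprinc a I hI ha, map_one,
        Units.val_one]
    · obtain ⟨x, hx⟩ : ∃ x, χ x ≠ 1 := by
        by_contra hcon
        push Not at hcon
        exact hχ (MonoidHom.ext hcon)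
      obtain ⟨I, hI, rfl⟩ := hsurj x
      refine ⟨I, hI, ?_⟩
      rw [h35_rayHom_apply, h35_rayFun_pos K 𝔪 ψ χ hI]
      exact fun h => hx (Units.ext h)
  choose! Bd hBd using hb
  obtain ⟨BZ, hBZ⟩ := h35_exists_log_zeta_bound K
  set C : ℝ := ∏ χ ∈ (Finset.univ : Finset (A →* ℂˣ)).erase 1, max (Bd χ) 1 with hC
  have hC1 : 1 ≤ C := by
    have h1 : ∏ χ ∈ (Finset.univ : Finset (A →* ℂˣ)).erase 1, (1 : ℝ) ≤ C :=
      Finset.prod_le_prod (fun _ _ => zero_le_one) (fun χ _ => le_max_right _ _)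
    simpa using h1
  have hC0 : 0 < C := lt_of_lt_of_le zero_lt_one hC1
  set C₂ : ℝ := ∑' v, h35_x K 2 v with hC₂
  refine ⟨Real.log C + BZ + (Nat.card A : ℝ) * C₂, fun σ h1 h2 S hS => ?_⟩
  have hζ := h35_zeta_pos K h1
  have key : Real.exp ((Nat.card A : ℝ) * (∑ v ∈ S, h35_x K σ v - C₂)) ≤
      C * h35_zeta K σ := by
    have hprod : ∀ χ : A →* ℂˣ, HasProd (fun v : HeightOneSpectrum (𝓞 K) =>
        (1 - h35_rayHom K 𝔪 ψ hmul χ (primeIdeal v) * ((h35_x K σ v : ℝ) : ℂ))⁻¹)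
        (idealSum K (h35_rayHom K 𝔪 ψ hmul χ) σ) :=
      fun χ => idealSum_hasProd K (h35_rayHom K 𝔪 ψ hmul χ) (hgn χ) h1
    have hlim : Tendsto (fun T : Finset (HeightOneSpectrum (𝓞 K)) =>
        ∏ χ : A →* ℂˣ, ‖∏ v ∈ T,
          (1 - h35_rayHom K 𝔪 ψ hmul χ (primeIdeal v) * ((h35_x K σ v : ℝ) : ℂ))⁻¹‖) atTop
        (𝓝 (∏ χ : A →* ℂˣ, ‖idealSum K (h35_rayHom K 𝔪 ψ hmul χ) σ‖)) := by
      refine tendsto_finsetProd _ (fun χ _ => ?_)
      have h3 := hprod χ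
      rw [HasProd, SummationFilter.unconditional] at h3
      exact h3.norm
    have hle : ∏ χ : A →* ℂˣ, ‖idealSum K (h35_rayHom K 𝔪 ψ hmul χ) σ‖ ≤
        C * h35_zeta K σ := by
      rw [← Finset.mul_prod_erase Finset.univ _ (Finset.mem_univ (1 : A →* ℂˣ)), mul_comm]
      refine mul_le_mul ?_ ?_ (norm_nonneg _) hC0.le
      · refine Finset.prod_le_prod (fun χ _ => norm_nonneg _) (fun χ hχ => ?_)
        exact (hBd χ (Finset.ne_of_mem_erase hχ) σ h1 h2).trans (le_max_left _ _)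
      · exact h35_norm_idealSum_le_zeta K _ (hgn 1) h1
    refine le_trans (ge_of_tendsto hlim ?_) hle
    filter_upwards [Filter.eventually_ge_atTop S] with T hT
    have hsub : S ⊆ T := hT
    have e1 : ∏ χ : A →* ℂˣ, ‖∏ v ∈ T,
        (1 - h35_rayHom K 𝔪 ψ hmul χ (primeIdeal v) * ((h35_x K σ v : ℝ) : ℂ))⁻¹‖ =
        ∏ v ∈ T, ∏ χ : A →* ℂˣ,
          ‖(1 - h35_rayHom K 𝔪 ψ hmul χ (primeIdeal v) * ((h35_x K σ v : ℝ) : ℂ))⁻¹‖ := by
      simp_rw [norm_prod]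
      exact Finset.prod_comm
    rw [e1]
    have e2 : ∀ v ∈ T, Real.exp ((Nat.card A : ℝ) *
        ((if v ∈ S then h35_x K σ v else 0) - h35_x K 2 v)) ≤
        ∏ χ : A →* ℂˣ,
          ‖(1 - h35_rayHom K 𝔪 ψ hmul χ (primeIdeal v) * ((h35_x K σ v : ℝ) : ℂ))⁻¹‖ := by
      intro v _
      have hx2 := h35_x_nonneg K 2 v
      have hcard : (0 : ℝ) ≤ (Nat.card A : ℝ) := Nat.cast_nonneg _
      by_cases hvS : v ∈ S
      · rw [if_pos hvS]
        refine le_trans (Real.exp_le_exp.mpr ?_)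
          (h35_prod_factor_ge_one K 𝔪 ψ hmul h1.le v (hS v hvS).1 (hS v hvS).2)
        have := mul_nonneg hcard hx2
        rw [mul_sub]
        linarith
      · rw [if_neg hvS]
        refine le_trans (Real.exp_le_exp.mpr ?_) (h35_prod_factor_ge K 𝔪 ψ hmul h1.le v)
        have := mul_le_mul_of_nonneg_left (h35_x_sq_le K h1.le v) hcard
        rw [zero_sub, mul_neg]
        linarith
    calc Real.exp ((Nat.card A : ℝ) * (∑ v ∈ S, h35_x K σ v - C₂))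
        ≤ Real.exp (∑ v ∈ T, (Nat.card A : ℝ) *
            ((if v ∈ S then h35_x K σ v else 0) - h35_x K 2 v)) := by
          refine Real.exp_le_exp.mpr ?_
          rw [← Finset.mul_sum, Finset.sum_sub_distrib, Finset.sum_ite_mem,
            Finset.inter_eq_right.mpr hsub]
          refine mul_le_mul_of_nonneg_left ?_ (Nat.cast_nonneg _)
          have : ∑ v ∈ T, h35_x K 2 v ≤ C₂ :=
            (h35_summable_x K one_lt_two).sum_le_tsum T (fun v _ => h35_x_nonneg K 2 v)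
          linarith
      _ = ∏ v ∈ T, Real.exp ((Nat.card A : ℝ) *
            ((if v ∈ S then h35_x K σ v else 0) - h35_x K 2 v)) := Real.exp_sum _ _
      _ ≤ _ := Finset.prod_le_prod (fun v _ => (Real.exp_pos _).le) e2
  have h3 := (Real.le_log_iff_exp_le (mul_pos hC0 hζ)).mpr key
  rw [Real.log_mul hC0.ne' hζ.ne', mul_sub] at h3
  have := (abs_le.mp (hBZ σ h1 h2)).2
  linarith

end Main

section Split

variable (K L : Type*) [Field K] [NumberField K] [Field L] [NumberField L] [Algebra K L]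

/-- In a Galois extension, a prime of `L` of absolute degree one which is unramified over `K`
lies over a prime of `K` that splits completely. -/
theorem h35_splits_of_degree_one [IsGalois K L] (w : HeightOneSpectrum (𝓞 L))
    (hw : (Ideal.absNorm w.asIdeal).Prime) (he : w.asIdeal.ramificationIdx (𝓞 K) = 1) :
    h84_SplitsCompletely K L (w.under (𝓞 K)) := by
  classical
  set v := w.under (𝓞 K) with hv
  have hf := (h84_degree_one_under K L w hw).1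
  have := v.isPrime
  have := w.isPrime
  have hLO : w.asIdeal.LiesOver v.asIdeal := ⟨rfl⟩
  intro w' hw'
  have := w'.isPrime
  have hLO' : w'.asIdeal.LiesOver v.asIdeal := ⟨(congrArg HeightOneSpectrum.asIdeal hw').symm⟩
  constructor
  · rw [← Ideal.ramificationIdxIn_eq_ramificationIdx v.asIdeal w'.asIdeal Gal(L/K),
      Ideal.ramificationIdxIn_eq_ramificationIdx v.asIdeal w.asIdeal Gal(L/K)]
    exact he
  · rw [← Ideal.inertiaDegIn_eq_inertiaDeg v.asIdeal w'.asIdeal Gal(L/K),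
      Ideal.inertiaDegIn_eq_inertiaDeg v.asIdeal w.asIdeal Gal(L/K)]
    exact hf

/-- (N2) the completely split primes of a Galois extension have lower Dirichlet density at
least `1/[L:K]`:  `[L:K] ∑_{v ∈ S} x_v ≥ log (1/(σ-1)) - O(1)` for suitable finite sets `S` of
completely split primes avoiding a given finite set. -/
theorem h35_exists_sum_split_ge [IsGalois K L] (Bad : Set (HeightOneSpectrum (𝓞 K)))
    (hBad : Bad.Finite) :
    ∃ B : ℝ, ∀ σ : ℝ, 1 < σ → σ ≤ 2 → ∃ S : Finset (HeightOneSpectrum (𝓞 K)),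
      (∀ v ∈ S, h84_SplitsCompletely K L v ∧ v ∉ Bad) ∧
        Real.log (1 / (σ - 1)) - B ≤ (Module.finrank K L : ℝ) * ∑ v ∈ S, h35_x K σ v := by
  classical
  set BadL : Set (HeightOneSpectrum (𝓞 L)) :=
    {w | w.asIdeal.ramificationIdx (𝓞 K) ≠ 1} ∪ (HeightOneSpectrum.under (𝓞 K) ⁻¹' Bad)
    with hBadL
  have hBadLfin : BadL.Finite := (h84_finite_ramified K L).union (h84_finite_preimage K L hBad)
  obtain ⟨B, hB⟩ := h35_exists_sum_prime_ge L BadL hBadLfin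
  refine ⟨B, fun σ h1 h2 => ?_⟩
  obtain ⟨SL, hSL, hge⟩ := hB σ h1 h2
  refine ⟨SL.image (HeightOneSpectrum.under (𝓞 K)), ?_, ?_⟩
  · intro v hv
    obtain ⟨w, hw, rfl⟩ := Finset.mem_image.mp hv
    obtain ⟨hprime, hnot⟩ := hSL w hw
    have he : w.asIdeal.ramificationIdx (𝓞 K) = 1 := by
      by_contra hne
      exact hnot (Or.inl hne)
    exact ⟨h35_splits_of_degree_one K L w hprime he, fun hbad => hnot (Or.inr hbad)⟩
  · refine hge.trans ?_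
    rw [← Finset.sum_fiberwise_of_maps_to
      (g := HeightOneSpectrum.under (𝓞 K)) (t := SL.image (HeightOneSpectrum.under (𝓞 K)))
      (fun w hw => Finset.mem_image_of_mem _ hw), Finset.mul_sum]
    refine Finset.sum_le_sum (fun v hv => ?_)
    obtain ⟨w₀, hw₀, hw₀v⟩ := Finset.mem_image.mp hv
    obtain ⟨hprime, hnot⟩ := hSL w₀ hw₀
    have he : w₀.asIdeal.ramificationIdx (𝓞 K) = 1 := by
      by_contra hne
      exact hnot (Or.inl hne)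
    have hsp : h84_SplitsCompletely K L v := hw₀v ▸ h35_splits_of_degree_one K L w₀ hprime he
    have hx : ∀ w ∈ SL.filter (fun w => w.under (𝓞 K) = v), h35_x L σ w = h35_x K σ v := by
      intro w hw
      rw [h35_x, h35_x, h84_absNorm_eq_of_splits K L v hsp w (Finset.mem_filter.mp hw).2]
    rw [Finset.sum_congr rfl hx, Finset.sum_const, nsmul_eq_mul]
    refine mul_le_mul_of_nonneg_right ?_ (h35_x_nonneg K σ v)
    have : Fintype {w : HeightOneSpectrum (𝓞 L) // w.under (𝓞 K) = v} := Fintype.ofFinite _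
    have hcard : (SL.filter (fun w => w.under (𝓞 K) = v)).card ≤ Module.finrank K L := by
      rw [← h84_card_fibre_of_splits K L v hsp, Nat.card_eq_fintype_card,
        ← Finset.card_subtype]
      exact Finset.card_le_univ _
    exact_mod_cast hcard

end Split

section Final

variable (K L : Type*) [Field K] [NumberField K] [Field L] [NumberField L] [Algebra K L]

/-- **Universal norm index inequality, ideal form** (with the ray class `L`-series bound as a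
hypothesis). -/
theorem h35_norm_index_le_of [IsGalois K L] (𝔪 : Ideal (𝓞 K)) (h𝔪 : 𝔪 ≠ ⊥)
    {A : Type*} [CommGroup A] [Finite A] (ψ : (Ideal (𝓞 K))⁰ → A)
    (hmul : ∀ I J : (Ideal (𝓞 K))⁰, IsCoprime (I : Ideal (𝓞 K)) 𝔪 →
      IsCoprime (J : Ideal (𝓞 K)) 𝔪 → ψ (I * J) = ψ I * ψ J)
    (hprinc : ∀ (a : 𝓞 K) (I : (Ideal (𝓞 K))⁰), (I : Ideal (𝓞 K)) = Ideal.span {a} →
      a - 1 ∈ 𝔪 → ψ I = 1)
    (hsurj : ∀ x : A, ∃ I : (Ideal (𝓞 K))⁰, IsCoprime (I : Ideal (𝓞 K)) 𝔪 ∧ ψ I = x)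
    (hsplit : ∀ v : HeightOneSpectrum (𝓞 K), IsCoprime v.asIdeal 𝔪 →
      SplitsCompletely (𝓞 K) (𝓞 L) v.asIdeal → ψ (primeIdeal v) = 1)
    (hLBD : ∀ g : (Ideal (𝓞 K))⁰ →* ℂ, (∀ I, ‖g I‖ ≤ 1) →
      (∀ I : (Ideal (𝓞 K))⁰, ¬ IsCoprime (I : Ideal (𝓞 K)) 𝔪 → g I = 0) →
      (∀ (a : 𝓞 K) (I : (Ideal (𝓞 K))⁰), (I : Ideal (𝓞 K)) = Ideal.span {a} →
        a - 1 ∈ 𝔪 → g I = 1) →
      (∃ I : (Ideal (𝓞 K))⁰, IsCoprime (I : Ideal (𝓞 K)) 𝔪 ∧ g I ≠ 1) →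
      ∃ B : ℝ, ∀ s : ℝ, 1 < s → s ≤ 2 → ‖idealSum K g s‖ ≤ B) :
    Nat.card A ≤ Module.finrank K L := by
  classical
  by_contra hcon
  push Not at hcon
  have hBadfin : {v : HeightOneSpectrum (𝓞 K) | ¬ IsCoprime v.asIdeal 𝔪}.Finite := by
    refine (Ideal.finite_factors h𝔪).subset fun v hv => ?_
    rw [Set.mem_ofPred_eq] at hv ⊢
    rw [Ideal.dvd_iff_le]
    by_contra hle
    apply hv
    rw [Ideal.isCoprime_iff_sup_eq]
    by_contra hne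
    have h3 := v.isMaximal.eq_of_le hne le_sup_left
    exact hle (le_sup_right.trans h3.ge)
  obtain ⟨B₁, hB₁⟩ := h35_sum_psi_one_le K 𝔪 ψ hmul hprinc hsurj hLBD
  obtain ⟨B₂, hB₂⟩ := h35_exists_sum_split_ge K L _ hBadfin
  set n : ℝ := (Module.finrank K L : ℝ) with hn
  set h : ℝ := (Nat.card A : ℝ) with hh
  have hnh : n + 1 ≤ h := by
    rw [hn, hh]
    exact_mod_cast hcon
  have hn0 : 0 ≤ n := Nat.cast_nonneg _
  set t : ℝ := |n * B₁ + h * B₂| + 1 with ht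
  have ht0 : 0 < t := by positivity
  set σ : ℝ := 1 + Real.exp (-t) with hσ
  have h1 : 1 < σ := by have := Real.exp_pos (-t); linarith
  have h2 : σ ≤ 2 := by
    have : Real.exp (-t) ≤ 1 := Real.exp_le_one_iff.mpr (by linarith)
    linarith
  have hlog : Real.log (1 / (σ - 1)) = t := by
    rw [hσ, add_sub_cancel_left, one_div, ← Real.exp_neg, neg_neg, Real.log_exp]
  obtain ⟨S, hS, hSge⟩ := hB₂ σ h1 h2
  have hSle := hB₁ σ h1 h2 S (fun v hv =>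
    ⟨not_not.mp (hS v hv).2, hsplit v (not_not.mp (hS v hv).2)
      ((h84_splitsCompletely_iff K L v).mp (hS v hv).1)⟩)
  rw [hlog] at hSge hSle
  have hsum0 : 0 ≤ ∑ v ∈ S, h35_x K σ v := Finset.sum_nonneg fun v _ => h35_x_nonneg K σ v
  have habs : n * B₁ + h * B₂ ≤ |n * B₁ + h * B₂| := le_abs_self _
  -- `h (t - B₂) ≤ h n Σ ≤ n (t + B₁)`
  have e1 : h * (t - B₂) ≤ h * (n * ∑ v ∈ S, h35_x K σ v) :=
    mul_le_mul_of_nonneg_left hSge (by linarith)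
  have e2 : n * (h * ∑ v ∈ S, h35_x K σ v) ≤ n * (t + B₁) :=
    mul_le_mul_of_nonneg_left hSle hn0
  have e3 : (h - n) * t ≤ n * B₁ + h * B₂ := by nlinarith
  have e4 : t ≤ (h - n) * t := by nlinarith
  linarith

end Final

end Fermat.Agent.S55
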