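import Mathlib
import Fermat.Agent.S14.h33_ClassChar

/-!
# S55: finiteness of ray class quotients

Let `R` be a Dedekind domain with finite class group and finite quotient `R ⧸ 𝔪`, and let `ψ` be
a map from the nonzero ideals of `R` to a commutative group `A` which is multiplicative on the
ideals prime to `𝔪`, trivial on the principal ideals `(a)` with `a ≡ 1 mod 𝔪`, and surjective
(on ideals prime to `𝔪`).  Then `A` is finite (`h35_ray_finite`): every quotient of the ray class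
group mod `𝔪` is finite.
-/

namespace Fermat.Agent.S55

open Fermat.Agent.S14
open scoped nonZeroDivisors

section

variable {R : Type*} [CommRing R] [IsDedekindDomain R] (𝔪 : Ideal R)
variable {A : Type*} [CommGroup A] (ψ : (Ideal R)⁰ → A)

/-- the nonzero principal ideal attached to a nonzero element -/
noncomputable def h35_spanNZ (a : R) (ha : a ≠ 0) : (Ideal R)⁰ :=
  ⟨Ideal.span {a}, mem_nonZeroDivisors_of_ne_zero (by simpa using ha)⟩

theorem h35_spanNZ_coe (a : R) (ha : a ≠ 0) :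
    ((h35_spanNZ a ha : (Ideal R)⁰) : Ideal R) = Ideal.span {a} := rfl

theorem h35_spanNZ_mul (a b : R) (ha : a ≠ 0) (hb : b ≠ 0) :
    h35_spanNZ (a * b) (mul_ne_zero ha hb) = h35_spanNZ a ha * h35_spanNZ b hb := by
  apply Subtype.ext
  rw [Submonoid.coe_mul, h35_spanNZ_coe, h35_spanNZ_coe, h35_spanNZ_coe,
    Ideal.span_singleton_mul_span_singleton]

variable (hmul : ∀ I J : (Ideal R)⁰, IsCoprime (I : Ideal R) 𝔪 →
    IsCoprime (J : Ideal R) 𝔪 → ψ (I * J) = ψ I * ψ J)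
  (hprinc : ∀ (a : R) (I : (Ideal R)⁰), (I : Ideal R) = Ideal.span {a} → a - 1 ∈ 𝔪 → ψ I = 1)

include hmul hprinc in
/-- `ψ((α))` only depends on `α mod 𝔪` (for `α` prime to `𝔪`). -/
theorem h35_psi_span_congr (α α' : R) (hα : α ≠ 0) (hα' : α' ≠ 0)
    (hcop : IsCoprime (Ideal.span {α}) 𝔪) (hcop' : IsCoprime (Ideal.span {α'}) 𝔪)
    (h : α - α' ∈ 𝔪) : ψ (h35_spanNZ α hα) = ψ (h35_spanNZ α' hα') := by
  obtain ⟨i, hi, j, hj, hij⟩ := Ideal.isCoprime_iff_exists.mp hcop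
  obtain ⟨β, rfl⟩ := Ideal.mem_span_singleton'.mp hi
  -- `β * α + j = 1`
  by_cases hβ : β = 0
  · -- then `1 ∈ 𝔪`
    have h1 : (1 : R) ∈ 𝔪 := by
      rw [hβ, zero_mul, zero_add] at hij
      rwa [hij] at hj
    have htop : 𝔪 = ⊤ := (Ideal.eq_top_iff_one _).mpr h1
    rw [hprinc α (h35_spanNZ α hα) rfl (by rw [htop]; trivial),
      hprinc α' (h35_spanNZ α' hα') rfl (by rw [htop]; trivial)]
  · have hβcop : IsCoprime (Ideal.span {β}) 𝔪 := by
      rw [Ideal.isCoprime_iff_exists]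
      exact ⟨β * α, Ideal.mem_span_singleton'.mpr ⟨α, by ring⟩, j, hj, hij⟩
    have e1 : ψ (h35_spanNZ α hα) * ψ (h35_spanNZ β hβ) = 1 := by
      rw [← hmul (h35_spanNZ α hα) (h35_spanNZ β hβ) hcop hβcop, ← h35_spanNZ_mul]
      refine hprinc (α * β) _ rfl ?_
      have : α * β - 1 = -j := by rw [← hij]; ring
      rw [this]
      exact neg_mem hj
    have e2 : ψ (h35_spanNZ α' hα') * ψ (h35_spanNZ β hβ) = 1 := by
      rw [← hmul (h35_spanNZ α' hα') (h35_spanNZ β hβ) hcop' hβcop, ← h35_spanNZ_mul]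
      refine hprinc (α' * β) _ rfl ?_
      have : α' * β - 1 = -j - (α - α') * β := by rw [← hij]; ring
      rw [this]
      exact sub_mem (neg_mem hj) (Ideal.mul_mem_right _ _ h)
    exact mul_right_cancel (e1.trans e2.symm)

include hmul hprinc in
/-- **Finiteness of ray class quotients.** -/
theorem h35_ray_finite [Finite (ClassGroup R)] [Finite (R ⧸ 𝔪)] (h𝔪 : 𝔪 ≠ ⊥)
    (hsurj : ∀ x : A, ∃ I : (Ideal R)⁰, IsCoprime (I : Ideal R) 𝔪 ∧ ψ I = x) : Finite A := by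
  classical
  choose rep hrep_cop hrep using h33_exists_coprime_rep 𝔪 h𝔪
  let P : R ⧸ 𝔪 → Prop := fun c =>
    ∃ α : R, α ≠ 0 ∧ IsCoprime (Ideal.span {α}) 𝔪 ∧ Ideal.Quotient.mk 𝔪 α = c
  let Φ : (R ⧸ 𝔪) × ClassGroup R → A := fun x =>
    (if h : P x.1 then ψ (h35_spanNZ h.choose h.choose_spec.1) else 1) * (ψ (rep x.2))⁻¹
  refine Finite.of_surjective Φ (fun x => ?_)
  obtain ⟨I, hI, rfl⟩ := hsurj x
  set C : ClassGroup R := (ClassGroup.mk0 I)⁻¹ with hC
  have hIa : IsCoprime ((I * rep C : (Ideal R)⁰) : Ideal R) 𝔪 := by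
    rw [Submonoid.coe_mul]
    exact hI.mul_left (hrep_cop C)
  have hprincipal : ((I * rep C : (Ideal R)⁰) : Ideal R).IsPrincipal := by
    rw [← ClassGroup.mk0_eq_one_iff (I * rep C).2]
    rw [show (⟨((I * rep C : (Ideal R)⁰) : Ideal R), (I * rep C).2⟩ : (Ideal R)⁰) = I * rep C
      from rfl, map_mul, hrep, hC, mul_inv_cancel]
  obtain ⟨α, hα⟩ := hprincipal.principal
  have hα' : ((I * rep C : (Ideal R)⁰) : Ideal R) = Ideal.span {α} := hα
  have hα0 : α ≠ 0 := by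
    rintro rfl
    have h0 : ((I * rep C : (Ideal R)⁰) : Ideal R) = ⊥ := by
      rw [hα']
      simp
    exact (mem_nonZeroDivisors_iff_ne_zero.mp (I * rep C).2) h0
  have hαcop : IsCoprime (Ideal.span {α}) 𝔪 := hα' ▸ hIa
  have hP : P (Ideal.Quotient.mk 𝔪 α) := ⟨α, hα0, hαcop, rfl⟩
  refine ⟨(Ideal.Quotient.mk 𝔪 α, C), ?_⟩
  have e1 : ψ (h35_spanNZ hP.choose hP.choose_spec.1) = ψ (h35_spanNZ α hα0) := by
    refine h35_psi_span_congr 𝔪 ψ hmul hprinc _ _ _ _ hP.choose_spec.2.1 hαcop ?_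
    rw [← Ideal.Quotient.eq]
    exact hP.choose_spec.2.2
  have e2 : h35_spanNZ α hα0 = I * rep C := Subtype.ext hα'.symm
  show (if h : P (Ideal.Quotient.mk 𝔪 α) then ψ (h35_spanNZ h.choose h.choose_spec.1) else 1) *
    (ψ (rep C))⁻¹ = ψ I
  rw [dif_pos hP, e1, e2, hmul I (rep C) hI (hrep_cop C), mul_inv_cancel_right]

end

/-- the number field case -/
theorem h35_ray_finite_numberField (K : Type*) [Field K] [NumberField K]
    (𝔪 : Ideal (NumberField.RingOfIntegers K)) (h𝔪 : 𝔪 ≠ ⊥) {A : Type*} [CommGroup A]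
    (ψ : (Ideal (NumberField.RingOfIntegers K))⁰ → A)
    (hmul : ∀ I J : (Ideal (NumberField.RingOfIntegers K))⁰,
      IsCoprime (I : Ideal (NumberField.RingOfIntegers K)) 𝔪 →
      IsCoprime (J : Ideal (NumberField.RingOfIntegers K)) 𝔪 → ψ (I * J) = ψ I * ψ J)
    (hprinc : ∀ (a : NumberField.RingOfIntegers K) (I : (Ideal (NumberField.RingOfIntegers K))⁰),
      (I : Ideal (NumberField.RingOfIntegers K)) = Ideal.span {a} → a - 1 ∈ 𝔪 → ψ I = 1)
    (hsurj : ∀ x : A, ∃ I : (Ideal (NumberField.RingOfIntegers K))⁰,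
      IsCoprime (I : Ideal (NumberField.RingOfIntegers K)) 𝔪 ∧ ψ I = x) : Finite A := by
  have : Finite (NumberField.RingOfIntegers K ⧸ 𝔪) := Ideal.finiteQuotientOfFreeOfNeBot 𝔪 h𝔪
  exact h35_ray_finite 𝔪 ψ hmul hprinc h𝔪 hsurj

end Fermat.Agent.S55
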