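import Mathlib
import Fermat.Agent.S14.Defs
import Fermat.Agent.S14.ZB
import Fermat.Agent.S14.h93_LBD
import Fermat.Agent.S14.LBD

/-!
# Ray-class L-series are bounded on `(1, 2]`

`h93_rayLSeries_bounded`: if `g` is a multiplicative function on the nonzero ideals of a number
field, bounded by `1`, vanishing on the ideals not coprime to a modulus `𝔪`, equal to `1` on the
principal ideals `(a)` with `a ≡ 1 mod 𝔪`, and not identically `1` on the ideals coprime to `𝔪`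
(a nontrivial character of the wide ray class group mod `𝔪`), then `∑ g(I) N(I)^(-s)` is bounded
for real `s ∈ (1, 2]`.

The proof reuses the smooth weight `h93_G` of `Fermat/Agent/S14/h93_LBD.lean`: the sum of the
weight over any coset of a nonzero ideal `𝔟` is `N(𝔟)⁻¹` times the sum over all integers, up to a
bounded error.
-/

set_option autoImplicit false
set_option linter.unusedSectionVars false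
set_option linter.unusedVariables false

open NumberField NumberField.InfinitePlace NumberField.mixedEmbedding NumberField.Units Module
open Fermat.Agent.S14

namespace Fermat.Agent.S55

noncomputable section
open scoped Classical nonZeroDivisors

/-! ### A conversion lemma -/

lemma h93r_hasSum_of_tsum_ofReal {ι : Type*} {f : ι → ℝ} (hf : ∀ i, 0 ≤ f i) {c : ℝ}
    (hc : 0 ≤ c) (h : ∑' i, ENNReal.ofReal (f i) = ENNReal.ofReal c) : HasSum f c := by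
  have hne : ∑' i, ENNReal.ofReal (f i) ≠ ⊤ := by rw [h]; exact ENNReal.ofReal_ne_top
  have hs : Summable f := by
    have h1 := ENNReal.summable_toReal hne
    refine h1.congr fun i => ?_
    rw [ENNReal.toReal_ofReal (hf i)]
  have h2 := ENNReal.ofReal_tsum_of_nonneg hf hs
  rw [h, ENNReal.ofReal_eq_ofReal_iff (tsum_nonneg hf) hc] at h2
  rw [← h2]
  exact hs.hasSum

variable (F : Type*) [Field F] [NumberField F]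

/-! ### Sums of the weight over a coset of an ideal -/

/-- The weighted sum over the coset `r + 𝔟`. -/
def h93r_Ar (s : ℝ) (𝔟 : Ideal (𝓞 F)) (r : 𝓞 F) : ENNReal :=
  ∑' α : 𝔟, ENNReal.ofReal (h93_G F s (r + (α : 𝓞 F)))

lemma h93r_coset (𝔟 : Ideal (𝓞 F)) (h𝔟 : 𝔟 ≠ ⊥) (r : 𝓞 F) :
    ∃ D : ℝ, 0 ≤ D ∧ ∀ s : ℝ, 1 ≤ s → s ≤ 2 →
      h93_A F s ⊤ ≤ (Ideal.absNorm 𝔟 : ENNReal) * h93r_Ar F s 𝔟 r + ENNReal.ofReal D ∧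
      (Ideal.absNorm 𝔟 : ENNReal) * h93r_Ar F s 𝔟 r ≤ h93_A F s ⊤ + ENNReal.ofReal D := by
  obtain ⟨D₀, hD₀, hD⟩ := h93_coset_compare F 𝔟 h𝔟
  obtain ⟨K, hK0, hK⟩ := h93_diff_bound F r
  set b : 𝓞 F → ℝ := fun α => (‖mixedEmbedding F (α : F)‖ ^ (finrank ℚ F + 1))⁻¹ with hb
  have hbs : Summable b := h93_summable_lattice F
  have hb0 : ∀ α, 0 ≤ b α := fun α => by rw [hb]; positivity
  set e : 𝓞 F → ℝ := fun α => if α = 0 then 1 else 0 with he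
  have he0 : ∀ α, 0 ≤ e α := fun α => by rw [he]; positivity
  have hes : Summable e := by
    refine summable_of_ne_finset_zero (s := {0}) fun α hα => ?_
    rw [he]
    simp only [Finset.mem_singleton] at hα
    simp [hα]
  have hetsum : ∑' α, e α = 1 := by
    rw [tsum_eq_single 0 (fun α hα => by rw [he]; simp [hα])]
    simp [he]
  set Dc : ℝ := K * ∑' α, b α + 1 with hDc
  have hDc0 : 0 ≤ Dc := by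
    have : 0 ≤ ∑' α, b α := tsum_nonneg hb0
    rw [hDc]; positivity
  have herr : ∑' α : 𝔟, ENNReal.ofReal (K * b (α : 𝓞 F) + e (α : 𝓞 F)) ≤ ENNReal.ofReal Dc := by
    have h1 : Summable fun α : 𝓞 F => K * b α + e α := (hbs.mul_left _).add hes
    have h2 : ∑' α : 𝓞 F, (K * b α + e α) = Dc := by
      rw [(hbs.mul_left _).tsum_add hes, tsum_mul_left, hetsum]
    calc ∑' α : 𝔟, ENNReal.ofReal (K * b (α : 𝓞 F) + e (α : 𝓞 F))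
        ≤ ∑' α : 𝓞 F, ENNReal.ofReal (K * b α + e α) :=
          ENNReal.tsum_comp_le_tsum_of_injective Subtype.val_injective _
      _ = ENNReal.ofReal (∑' α : 𝓞 F, (K * b α + e α)) :=
          (ENNReal.ofReal_tsum_of_nonneg (fun α =>
            add_nonneg (mul_nonneg hK0 (hb0 α)) (he0 α)) h1).symm
      _ = ENNReal.ofReal Dc := by rw [h2]
  set N : ℕ := Ideal.absNorm 𝔟 with hN
  refine ⟨D₀ + N * Dc, by positivity, fun s hs1 hs2 => ?_⟩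
  obtain ⟨h1, h2⟩ := hD s hs1 hs2
  have hA1 : h93r_Ar F s 𝔟 r ≤ h93_A F s 𝔟 + ENNReal.ofReal Dc := by
    refine le_trans (h93_tsum_ofReal_le_add _ (fun α : 𝔟 => h93_G F s (α : 𝓞 F))
      (fun α : 𝔟 => K * b (α : 𝓞 F) + e (α : 𝓞 F)) fun α => ?_) (add_le_add le_rfl herr)
    have := (abs_le.mp (hK s hs1 hs2 (α : 𝓞 F))).2
    linarith
  have hA2 : h93_A F s 𝔟 ≤ h93r_Ar F s 𝔟 r + ENNReal.ofReal Dc := by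
    refine le_trans (h93_tsum_ofReal_le_add _ (fun α : 𝔟 => h93_G F s (r + (α : 𝓞 F)))
      (fun α : 𝔟 => K * b (α : 𝓞 F) + e (α : 𝓞 F)) fun α => ?_) (add_le_add le_rfl herr)
    have := (abs_le.mp (hK s hs1 hs2 (α : 𝓞 F))).1
    linarith
  have hND : ENNReal.ofReal (D₀ + N * Dc) = ENNReal.ofReal D₀ + (N : ENNReal) * ENNReal.ofReal Dc := by
    rw [ENNReal.ofReal_add hD₀ (by positivity), ENNReal.ofReal_mul (Nat.cast_nonneg _),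
      ENNReal.ofReal_natCast]
  rw [hND]
  constructor
  · calc h93_A F s ⊤ ≤ (N : ENNReal) * h93_A F s 𝔟 + ENNReal.ofReal D₀ := h1
      _ ≤ (N : ENNReal) * (h93r_Ar F s 𝔟 r + ENNReal.ofReal Dc) + ENNReal.ofReal D₀ := by gcongr
      _ = (N : ENNReal) * h93r_Ar F s 𝔟 r + (ENNReal.ofReal D₀ + (N : ENNReal) * ENNReal.ofReal Dc) := by
          rw [mul_add]; ring
  · calc (N : ENNReal) * h93r_Ar F s 𝔟 r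
        ≤ (N : ENNReal) * (h93_A F s 𝔟 + ENNReal.ofReal Dc) := by gcongr
      _ = (N : ENNReal) * h93_A F s 𝔟 + (N : ENNReal) * ENNReal.ofReal Dc := mul_add _ _ _
      _ ≤ (h93_A F s ⊤ + ENNReal.ofReal D₀) + (N : ENNReal) * ENNReal.ofReal Dc := by gcongr
      _ = h93_A F s ⊤ + (ENNReal.ofReal D₀ + (N : ENNReal) * ENNReal.ofReal Dc) := by ring

lemma h93r_Ar_le_top (s : ℝ) (𝔟 : Ideal (𝓞 F)) (r : 𝓞 F) : h93r_Ar F s 𝔟 r ≤ h93_A F s ⊤ := by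
  rw [h93_A_top]
  exact ENNReal.tsum_comp_le_tsum_of_injective (f := fun α : 𝔟 => r + (α : 𝓞 F))
    (fun a b h => Subtype.ext (add_left_cancel h)) (fun β => ENNReal.ofReal (h93_G F s β))

/-- The sum of the weight over all integers, `= w * ζ(s, trivial class)`. -/
def h93r_T (s : ℝ) : ℝ := (torsionOrder F : ℝ) * h93_classZeta F 1 s

lemma h93r_T_nonneg (s : ℝ) : 0 ≤ h93r_T F s :=
  mul_nonneg (Nat.cast_nonneg _) (h93_classZeta_nonneg F 1 s)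

lemma h93r_A_top {s : ℝ} (hs : 1 < s) : h93_A F s ⊤ = ENNReal.ofReal (h93r_T F s) :=
  h93_A_top_eq F hs

/-- The real sum of the weight over the coset `r + 𝔟`. -/
def h93r_W (s : ℝ) (𝔟 : Ideal (𝓞 F)) (r : 𝓞 F) : ℝ := (h93r_Ar F s 𝔟 r).toReal

lemma h93r_W_nonneg (s : ℝ) (𝔟 : Ideal (𝓞 F)) (r : 𝓞 F) : 0 ≤ h93r_W F s 𝔟 r :=
  ENNReal.toReal_nonneg

lemma h93r_Ar_eq {s : ℝ} (hs : 1 < s) (𝔟 : Ideal (𝓞 F)) (r : 𝓞 F) :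
    h93r_Ar F s 𝔟 r = ENNReal.ofReal (h93r_W F s 𝔟 r) := by
  have hne : h93r_Ar F s 𝔟 r ≠ ⊤ := by
    refine ne_top_of_le_ne_top ?_ (h93r_Ar_le_top F s 𝔟 r)
    rw [h93r_A_top F hs]; exact ENNReal.ofReal_ne_top
  rw [h93r_W, ENNReal.ofReal_toReal hne]

lemma h93r_hasSum_W {s : ℝ} (hs : 1 < s) (𝔟 : Ideal (𝓞 F)) (r : 𝓞 F) :
    HasSum (fun α : 𝔟 => h93_G F s (r + (α : 𝓞 F))) (h93r_W F s 𝔟 r) :=
  h93r_hasSum_of_tsum_ofReal (fun α => h93_G_nonneg F s _) (h93r_W_nonneg F s 𝔟 r)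
    (h93r_Ar_eq F hs 𝔟 r)

lemma h93r_hasSum_T {s : ℝ} (hs : 1 < s) : HasSum (fun β : 𝓞 F => h93_G F s β) (h93r_T F s) :=
  h93r_hasSum_of_tsum_ofReal (fun β => h93_G_nonneg F s _) (h93r_T_nonneg F s)
    (by rw [← h93_A_top, h93r_A_top F hs])

lemma h93r_coset_real (𝔟 : Ideal (𝓞 F)) (h𝔟 : 𝔟 ≠ ⊥) (r : 𝓞 F) :
    ∃ D : ℝ, 0 ≤ D ∧ ∀ s : ℝ, 1 < s → s ≤ 2 →
      |(Ideal.absNorm 𝔟 : ℝ) * h93r_W F s 𝔟 r - h93r_T F s| ≤ D := by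
  obtain ⟨D, hD0, hD⟩ := h93r_coset F 𝔟 h𝔟 r
  refine ⟨D, hD0, fun s hs1 hs2 => ?_⟩
  obtain ⟨h1, h2⟩ := hD s hs1.le hs2
  have hW := h93r_W_nonneg F s 𝔟 r
  have hT := h93r_T_nonneg F s
  have e : (Ideal.absNorm 𝔟 : ENNReal) * h93r_Ar F s 𝔟 r =
      ENNReal.ofReal ((Ideal.absNorm 𝔟 : ℝ) * h93r_W F s 𝔟 r) := by
    rw [h93r_Ar_eq F hs1, ENNReal.ofReal_mul (Nat.cast_nonneg _), ENNReal.ofReal_natCast]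
  rw [e, h93r_A_top F hs1, ← ENNReal.ofReal_add (by positivity) hD0,
    ENNReal.ofReal_le_ofReal_iff (by positivity)] at h1
  rw [e, h93r_A_top F hs1, ← ENNReal.ofReal_add hT hD0,
    ENNReal.ofReal_le_ofReal_iff (by positivity)] at h2
  rw [abs_le]
  constructor <;> linarith

/-! ### The multiplicative function on integers attached to `g` -/

variable {F}

/-- The principal ideal generated by a nonzero integer, as a nonzero ideal. -/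
def h93r_pr (β : 𝓞 F) (h : β ≠ 0) : (Ideal (𝓞 F))⁰ :=
  ⟨Ideal.span {β}, mem_nonZeroDivisors_of_ne_zero (by
    rw [Ne, Ideal.zero_eq_bot, Ideal.span_singleton_eq_bot]; exact h)⟩

/-- The value of `g` on the principal ideal `(β)` (zero for `β = 0`). -/
def h93r_gam (g : (Ideal (𝓞 F))⁰ →* ℂ) (β : 𝓞 F) : ℂ :=
  if h : β = 0 then 0 else g (h93r_pr β h)

lemma h93r_gam_of_ne (g : (Ideal (𝓞 F))⁰ →* ℂ) {β : 𝓞 F} (h : β ≠ 0) :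
    h93r_gam g β = g (h93r_pr β h) := dif_neg h

lemma h93r_gam_zero (g : (Ideal (𝓞 F))⁰ →* ℂ) : h93r_gam g (0 : 𝓞 F) = 0 := dif_pos rfl

lemma h93r_pr_mul {β δ : 𝓞 F} (hβ : β ≠ 0) (hδ : δ ≠ 0) :
    h93r_pr (β * δ) (mul_ne_zero hβ hδ) = h93r_pr β hβ * h93r_pr δ hδ := by
  apply Subtype.ext
  show Ideal.span {β * δ} = Ideal.span {β} * Ideal.span {δ}
  rw [Ideal.span_singleton_mul_span_singleton]

lemma h93r_gam_mul (g : (Ideal (𝓞 F))⁰ →* ℂ) (β δ : 𝓞 F) :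
    h93r_gam g (β * δ) = h93r_gam g β * h93r_gam g δ := by
  by_cases hβ : β = 0
  · rw [hβ, zero_mul, h93r_gam_zero, zero_mul]
  by_cases hδ : δ = 0
  · rw [hδ, mul_zero, h93r_gam_zero, mul_zero]
  rw [h93r_gam_of_ne g hβ, h93r_gam_of_ne g hδ, h93r_gam_of_ne g (mul_ne_zero hβ hδ),
    h93r_pr_mul hβ hδ, map_mul]

lemma h93r_gam_unit (g : (Ideal (𝓞 F))⁰ →* ℂ) (u : (𝓞 F)ˣ) : h93r_gam g (u : 𝓞 F) = 1 := by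
  rw [h93r_gam_of_ne g u.ne_zero]
  have : h93r_pr (u : 𝓞 F) u.ne_zero = 1 := by
    apply Subtype.ext
    show Ideal.span {(u : 𝓞 F)} = ((1 : (Ideal (𝓞 F))⁰) : Ideal (𝓞 F))
    rw [Submonoid.coe_one, Ideal.one_eq_top, Ideal.span_singleton_eq_top]
    exact u.isUnit
  rw [this, map_one]

lemma h93r_norm_gam_le (g : (Ideal (𝓞 F))⁰ →* ℂ) (hg : ∀ I, ‖g I‖ ≤ 1) (β : 𝓞 F) :
    ‖h93r_gam g β‖ ≤ 1 := by
  by_cases hβ : β = 0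
  · rw [hβ, h93r_gam_zero, norm_zero]; exact zero_le_one
  · rw [h93r_gam_of_ne g hβ]; exact hg _

lemma h93r_exists_inv (𝔪 : Ideal (𝓞 F)) {β : 𝓞 F} (h : IsCoprime (Ideal.span {β}) 𝔪) :
    ∃ c : 𝓞 F, c ≠ 0 ∧ c * β - 1 ∈ 𝔪 := by
  rw [Ideal.isCoprime_iff_sup_eq] at h
  have h1 : (1 : 𝓞 F) ∈ Ideal.span {β} ⊔ 𝔪 := by rw [h]; trivial
  rw [Submodule.mem_sup] at h1
  obtain ⟨y, hy, z, hz, hyz⟩ := h1
  rw [Ideal.mem_span_singleton'] at hy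
  obtain ⟨c, rfl⟩ := hy
  by_cases hc : c = 0
  · refine ⟨1, one_ne_zero, ?_⟩
    have : (1 : 𝓞 F) ∈ 𝔪 := by rw [← hyz, hc, zero_mul, zero_add]; exact hz
    have htop : 𝔪 = ⊤ := (Ideal.eq_top_iff_one _).mpr this
    rw [htop]; trivial
  · refine ⟨c, hc, ?_⟩
    have : c * β - 1 = -z := by rw [← hyz]; ring
    rw [this]; exact 𝔪.neg_mem hz

lemma h93r_coprime_of_inv (𝔪 : Ideal (𝓞 F)) {β c : 𝓞 F} (h : c * β - 1 ∈ 𝔪) :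
    IsCoprime (Ideal.span {β}) 𝔪 := by
  rw [Ideal.isCoprime_iff_sup_eq, Ideal.eq_top_iff_one]
  have : (1 : 𝓞 F) = c * β + -(c * β - 1) := by ring
  rw [this]
  exact Submodule.add_mem_sup (Ideal.mem_span_singleton'.mpr ⟨c, rfl⟩) (𝔪.neg_mem h)

section gam

variable (𝔪 : Ideal (𝓞 F)) (g : (Ideal (𝓞 F))⁰ →* ℂ)
  (hg0 : ∀ I : (Ideal (𝓞 F))⁰, ¬ IsCoprime (I : Ideal (𝓞 F)) 𝔪 → g I = 0)
  (hprinc : ∀ (a : 𝓞 F) (I : (Ideal (𝓞 F))⁰), (I : Ideal (𝓞 F)) = Ideal.span {a} →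
    a - 1 ∈ 𝔪 → g I = 1)

include hprinc in
lemma h93r_gam_eq_one {a : 𝓞 F} (ha : a ≠ 0) (h : a - 1 ∈ 𝔪) : h93r_gam g a = 1 := by
  rw [h93r_gam_of_ne g ha]; exact hprinc a _ rfl h

include hprinc in
lemma h93r_gam_ne_zero {β : 𝓞 F} (hβ : β ≠ 0) (hc : IsCoprime (Ideal.span {β}) 𝔪) :
    h93r_gam g β ≠ 0 := by
  obtain ⟨c, hc0, hcβ⟩ := h93r_exists_inv 𝔪 hc
  have h1 := h93r_gam_eq_one 𝔪 g hprinc (mul_ne_zero hc0 hβ) hcβ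
  rw [h93r_gam_mul] at h1
  intro h0
  rw [h0, mul_zero] at h1
  exact zero_ne_one h1

include hg0 hprinc in
lemma h93r_gam_congr {β β' : 𝓞 F} (hβ : β ≠ 0) (hβ' : β' ≠ 0) (h : β - β' ∈ 𝔪) :
    h93r_gam g β = h93r_gam g β' := by
  by_cases hc : IsCoprime (Ideal.span {β}) 𝔪
  · obtain ⟨c, hc0, hcβ⟩ := h93r_exists_inv 𝔪 hc
    have hcβ' : c * β' - 1 ∈ 𝔪 := by
      have : c * β' - 1 = (c * β - 1) - c * (β - β') := by ring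
      rw [this]; exact 𝔪.sub_mem hcβ (𝔪.mul_mem_left c h)
    have h1 := h93r_gam_eq_one 𝔪 g hprinc (mul_ne_zero hc0 hβ) hcβ
    have h2 := h93r_gam_eq_one 𝔪 g hprinc (mul_ne_zero hc0 hβ') hcβ'
    rw [h93r_gam_mul] at h1 h2
    have h3 : h93r_gam g c ≠ 0 := by
      intro h0; rw [h0, zero_mul] at h1; exact zero_ne_one h1
    exact mul_left_cancel₀ h3 (h1.trans h2.symm)
  · have hc' : ¬ IsCoprime (Ideal.span {β'}) 𝔪 := by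
      intro h'
      apply hc
      obtain ⟨c, hc0, hcβ'⟩ := h93r_exists_inv 𝔪 h'
      refine h93r_coprime_of_inv 𝔪 (c := c) ?_
      have : c * β - 1 = (c * β' - 1) + c * (β - β') := by ring
      rw [this]; exact 𝔪.add_mem hcβ' (𝔪.mul_mem_left c h)
    rw [h93r_gam_of_ne g hβ, h93r_gam_of_ne g hβ', hg0 (h93r_pr β hβ) hc,
      hg0 (h93r_pr β' hβ') hc']

lemma h93r_exists_rep (h𝔪 : 𝔪 ≠ ⊥) (ρ : 𝓞 F ⧸ 𝔪) :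
    ∃ r : 𝓞 F, r ≠ 0 ∧ Ideal.Quotient.mk 𝔪 r = ρ := by
  obtain ⟨r₀, rfl⟩ := Ideal.Quotient.mk_surjective ρ
  by_cases h0 : r₀ = 0
  · obtain ⟨m, hm, hm0⟩ := Submodule.exists_mem_ne_zero_of_ne_bot h𝔪
    refine ⟨m, hm0, ?_⟩
    rw [h0, map_zero, Ideal.Quotient.eq_zero_iff_mem]; exact hm
  · exact ⟨r₀, h0, rfl⟩

/-- A nonzero representative of a residue class modulo `𝔪`. -/
def h93r_rep (h𝔪 : 𝔪 ≠ ⊥) (ρ : 𝓞 F ⧸ 𝔪) : 𝓞 F := (h93r_exists_rep 𝔪 h𝔪 ρ).choose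

lemma h93r_rep_ne_zero (h𝔪 : 𝔪 ≠ ⊥) (ρ : 𝓞 F ⧸ 𝔪) : h93r_rep 𝔪 h𝔪 ρ ≠ 0 :=
  (h93r_exists_rep 𝔪 h𝔪 ρ).choose_spec.1

lemma h93r_mk_rep (h𝔪 : 𝔪 ≠ ⊥) (ρ : 𝓞 F ⧸ 𝔪) :
    Ideal.Quotient.mk 𝔪 (h93r_rep 𝔪 h𝔪 ρ) = ρ :=
  (h93r_exists_rep 𝔪 h𝔪 ρ).choose_spec.2

/-- The function on residue classes induced by `h93r_gam`. -/
def h93r_gamt (h𝔪 : 𝔪 ≠ ⊥) (ρ : 𝓞 F ⧸ 𝔪) : ℂ := h93r_gam g (h93r_rep 𝔪 h𝔪 ρ)

include hg0 hprinc in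
lemma h93r_gam_eq_gamt (h𝔪 : 𝔪 ≠ ⊥) {β : 𝓞 F} (hβ : β ≠ 0) :
    h93r_gam g β = h93r_gamt 𝔪 g h𝔪 (Ideal.Quotient.mk 𝔪 β) := by
  refine h93r_gam_congr 𝔪 g hg0 hprinc hβ (h93r_rep_ne_zero 𝔪 h𝔪 _) ?_
  rw [← Ideal.Quotient.eq, h93r_mk_rep]

lemma h93r_norm_gamt_le (hg : ∀ I, ‖g I‖ ≤ 1) (h𝔪 : 𝔪 ≠ ⊥) (ρ : 𝓞 F ⧸ 𝔪) :
    ‖h93r_gamt 𝔪 g h𝔪 ρ‖ ≤ 1 := h93r_norm_gam_le g hg _

include hg0 hprinc in
lemma h93r_gam_mul_Gam (h𝔪 : 𝔪 ≠ ⊥) [Fintype (𝓞 F ⧸ 𝔪)] {δ : 𝓞 F} (hδ : δ ≠ 0)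
    (hc : IsCoprime (Ideal.span {δ}) 𝔪) :
    h93r_gam g δ * ∑ ρ, h93r_gamt 𝔪 g h𝔪 ρ = ∑ ρ, h93r_gamt 𝔪 g h𝔪 ρ := by
  obtain ⟨c, hc0, hcδ⟩ := h93r_exists_inv 𝔪 hc
  have hunit : Ideal.Quotient.mk 𝔪 c * Ideal.Quotient.mk 𝔪 δ = 1 := by
    rw [← map_mul, ← map_one (Ideal.Quotient.mk 𝔪), Ideal.Quotient.eq]; exact hcδ
  have hbij : Function.Bijective (fun ρ : 𝓞 F ⧸ 𝔪 => Ideal.Quotient.mk 𝔪 δ * ρ) := by
    refine ⟨fun a b h => ?_, fun b => ⟨Ideal.Quotient.mk 𝔪 c * b, ?_⟩⟩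
    · have h' : Ideal.Quotient.mk 𝔪 c * (Ideal.Quotient.mk 𝔪 δ * a) =
          Ideal.Quotient.mk 𝔪 c * (Ideal.Quotient.mk 𝔪 δ * b) := congrArg _ h
      rwa [← mul_assoc, ← mul_assoc, hunit, one_mul, one_mul] at h'
    · show Ideal.Quotient.mk 𝔪 δ * (Ideal.Quotient.mk 𝔪 c * b) = b
      rw [← mul_assoc, mul_comm (Ideal.Quotient.mk 𝔪 δ), hunit, one_mul]
  have hsum : ∑ ρ, h93r_gamt 𝔪 g h𝔪 (Ideal.Quotient.mk 𝔪 δ * ρ) = ∑ ρ, h93r_gamt 𝔪 g h𝔪 ρ :=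
    Fintype.sum_bijective _ hbij _ _ (fun _ => rfl)
  have h1 : ∀ ρ, h93r_gam g δ * h93r_gamt 𝔪 g h𝔪 ρ =
      h93r_gamt 𝔪 g h𝔪 (Ideal.Quotient.mk 𝔪 δ * ρ) := by
    intro ρ
    have h2 := h93r_gam_eq_gamt 𝔪 g hg0 hprinc h𝔪 (mul_ne_zero hδ (h93r_rep_ne_zero 𝔪 h𝔪 ρ))
    rw [map_mul, h93r_mk_rep, h93r_gam_mul] at h2
    exact h2
  calc h93r_gam g δ * ∑ ρ, h93r_gamt 𝔪 g h𝔪 ρ = ∑ ρ, h93r_gam g δ * h93r_gamt 𝔪 g h𝔪 ρ :=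
        Finset.mul_sum _ _ _
    _ = ∑ ρ, h93r_gamt 𝔪 g h𝔪 (Ideal.Quotient.mk 𝔪 δ * ρ) :=
        Finset.sum_congr rfl fun ρ _ => h1 ρ
    _ = _ := hsum

end gam

/-! ### Coprime representatives of ideal classes -/

lemma h93r_exists_coprime (𝔪 : Ideal (𝓞 F)) (h𝔪 : 𝔪 ≠ ⊥) (C : ClassGroup (𝓞 F)) :
    ∃ 𝔞 : (Ideal (𝓞 F))⁰, IsCoprime (𝔞 : Ideal (𝓞 F)) 𝔪 ∧ ClassGroup.mk0 𝔞 = C := by
  by_cases hm : 𝔪 = ⊤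
  · obtain ⟨𝔞, h𝔞⟩ := ClassGroup.mk0_surjective C
    exact ⟨𝔞, by rw [Ideal.isCoprime_iff_sup_eq, hm, sup_top_eq], h𝔞⟩
  obtain ⟨𝔟, h𝔟⟩ := ClassGroup.mk0_surjective C⁻¹
  have h𝔟0 : (𝔟 : Ideal (𝓞 F)) ≠ ⊥ := nonZeroDivisors.coe_ne_zero 𝔟
  have h1 : (𝔟 : Ideal (𝓞 F)) * 𝔪 ≠ 0 := mul_ne_zero h𝔟0 h𝔪
  obtain ⟨β, hβ⟩ := IsDedekindDomain.exists_sup_span_eq (I := (𝔟 : Ideal (𝓞 F)) * 𝔪)
    (J := (𝔟 : Ideal (𝓞 F))) Ideal.mul_le_left h1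
  have h2 : (𝔟 : Ideal (𝓞 F)) ∣ Ideal.span {β} := by
    rw [Ideal.dvd_iff_le, ← hβ]; exact le_sup_right
  obtain ⟨𝔞, h𝔞⟩ := h2
  have h3 : 𝔪 ⊔ 𝔞 = ⊤ := by
    have : (𝔟 : Ideal (𝓞 F)) * (𝔪 ⊔ 𝔞) = (𝔟 : Ideal (𝓞 F)) * ⊤ := by
      rw [Ideal.mul_sup, ← h𝔞, hβ, Ideal.mul_top]
    exact mul_left_cancel₀ h𝔟0 this
  have h𝔞0 : 𝔞 ≠ ⊥ := by
    rintro rfl
    rw [sup_bot_eq] at h3
    exact hm h3
  refine ⟨⟨𝔞, mem_nonZeroDivisors_of_ne_zero h𝔞0⟩, ?_, ?_⟩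
  · rw [Ideal.isCoprime_iff_sup_eq, sup_comm]; exact h3
  · have h4 : ClassGroup.mk0 (𝔟 * ⟨𝔞, mem_nonZeroDivisors_of_ne_zero h𝔞0⟩) = 1 := by
      rw [ClassGroup.mk0_eq_one_iff]
      show ((𝔟 : Ideal (𝓞 F)) * 𝔞).IsPrincipal
      rw [← h𝔞]
      exact ⟨β, rfl⟩
    rw [map_mul, h𝔟] at h4
    exact (inv_mul_eq_one.mp h4).symm

/-! ### The contribution of one ideal class -/

variable (F) in
/-- The part of the `g`-twisted series coming from the ideals of the class `C`. -/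
def h93r_part (g : (Ideal (𝓞 F))⁰ →* ℂ) (C : ClassGroup (𝓞 F)) (s : ℝ) : ℂ :=
  ∑' I : {I : (Ideal (𝓞 F))⁰ // ClassGroup.mk0 I = C},
    g I.1 * (((Ideal.absNorm (I.1 : Ideal (𝓞 F)) : ℝ) ^ (-s) : ℝ) : ℂ)

lemma h93r_norm_part_le (g : (Ideal (𝓞 F))⁰ →* ℂ) (hg : ∀ I, ‖g I‖ ≤ 1) (C : ClassGroup (𝓞 F))
    {s : ℝ} (hs : 1 < s) :
    ‖h93r_part F g C s‖ ≤ ∑' I : (Ideal (𝓞 F))⁰, (Ideal.absNorm (I : Ideal (𝓞 F)) : ℝ) ^ (-s) := by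
  have hle : ∀ I : {I : (Ideal (𝓞 F))⁰ // ClassGroup.mk0 I = C},
      ‖g I.1 * (((Ideal.absNorm (I.1 : Ideal (𝓞 F)) : ℝ) ^ (-s) : ℝ) : ℂ)‖ ≤
        (Ideal.absNorm (I.1 : Ideal (𝓞 F)) : ℝ) ^ (-s) := by
    intro I
    rw [norm_mul, Complex.norm_real, Real.norm_of_nonneg (Real.rpow_nonneg (Nat.cast_nonneg _) _)]
    exact mul_le_of_le_one_left (Real.rpow_nonneg (Nat.cast_nonneg _) _) (hg _)
  have hsum := h93_classZeta_summable F C hs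
  have hsn : Summable fun I : {I : (Ideal (𝓞 F))⁰ // ClassGroup.mk0 I = C} =>
      ‖g I.1 * (((Ideal.absNorm (I.1 : Ideal (𝓞 F)) : ℝ) ^ (-s) : ℝ) : ℂ)‖ :=
    Summable.of_nonneg_of_le (fun _ => norm_nonneg _) hle hsum
  calc ‖h93r_part F g C s‖ ≤ ∑' I : {I : (Ideal (𝓞 F))⁰ // ClassGroup.mk0 I = C},
        ‖g I.1 * (((Ideal.absNorm (I.1 : Ideal (𝓞 F)) : ℝ) ^ (-s) : ℝ) : ℂ)‖ :=
        norm_tsum_le_tsum_norm hsn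
    _ ≤ h93_classZeta F C s := hsn.tsum_le_tsum hle hsum
    _ ≤ _ := h93_classZeta_le F C hs

lemma h93r_summable_G {s : ℝ} (hs : 1 < s) (𝔞 : Ideal (𝓞 F)) :
    Summable fun α : 𝔞 => h93_G F s (α : 𝓞 F) :=
  (h93r_hasSum_T F hs).summable.comp_injective Subtype.val_injective

lemma h93r_summable_gamG (g : (Ideal (𝓞 F))⁰ →* ℂ) (hg : ∀ I, ‖g I‖ ≤ 1) {s : ℝ} (hs : 1 < s)
    (𝔞 : Ideal (𝓞 F)) :
    Summable fun α : 𝔞 => h93r_gam g (α : 𝓞 F) * ((h93_G F s (α : 𝓞 F) : ℝ) : ℂ) := by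
  refine Summable.of_norm_bounded (h93r_summable_G hs 𝔞) fun α => ?_
  rw [norm_mul, Complex.norm_real, Real.norm_of_nonneg (h93_G_nonneg F s _)]
  exact mul_le_of_le_one_left (h93_G_nonneg F s _) (h93r_norm_gam_le g hg _)

lemma h93r_tsum_units (s : ℝ) {β : 𝓞 F} (hβ : β ≠ 0) :
    HasSum (fun u : (𝓞 F)ˣ => h93_G F s ((u : 𝓞 F) * β))
      ((torsionOrder F : ℝ) * (Ideal.absNorm (Ideal.span {β}) : ℝ) ^ (-s)) := by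
  refine h93r_hasSum_of_tsum_ofReal (fun u => h93_G_nonneg F s _)
    (mul_nonneg (Nat.cast_nonneg _) (Real.rpow_nonneg (Nat.cast_nonneg _) _)) ?_
  rw [h93_tsum_units_G F s hβ, ENNReal.ofReal_mul (Nat.cast_nonneg _), ENNReal.ofReal_natCast]

lemma h93r_orbit (g : (Ideal (𝓞 F))⁰ →* ℂ) (hg : ∀ I, ‖g I‖ ≤ 1) (𝔞 : (Ideal (𝓞 F))⁰)
    {s : ℝ} (hs : 1 < s) :
    ∑' α : (𝔞 : Ideal (𝓞 F)), h93r_gam g (α : 𝓞 F) * ((h93_G F s (α : 𝓞 F) : ℝ) : ℂ) =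
      (torsionOrder F : ℂ) * (g 𝔞 * (((Ideal.absNorm (𝔞 : Ideal (𝓞 F)) : ℝ) ^ (-s) : ℝ) : ℂ)) *
        h93r_part F g (ClassGroup.mk0 𝔞)⁻¹ s := by
  have hs0 : 0 < s := by linarith
  set f : ↥(𝔞 : Ideal (𝓞 F)) → ℂ :=
    fun α => h93r_gam g (α : 𝓞 F) * ((h93_G F s (α : 𝓞 F) : ℝ) : ℂ) with hf
  have hfs : Summable f := h93r_summable_gamG g hg hs _
  have h1 : ∑' α : (𝔞 : Ideal (𝓞 F)), f α =
      ∑' α : {α : (𝔞 : Ideal (𝓞 F)) // α ≠ 0}, f (α : (𝔞 : Ideal (𝓞 F))) := by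
    symm
    refine tsum_subtype_eq_of_support_subset (f := f) (s := {α | α ≠ 0}) fun α hα => ?_
    intro h
    apply hα
    rw [h, hf]
    show h93r_gam g ((0 : (𝔞 : Ideal (𝓞 F))) : 𝓞 F) * _ = 0
    rw [ZeroMemClass.coe_zero, h93r_gam_zero, zero_mul]
  have hbij := h93_orbitMap_bijective F 𝔞
  have h2 : ∑' α : {α : (𝔞 : Ideal (𝓞 F)) // α ≠ 0}, f (α : (𝔞 : Ideal (𝓞 F))) =
      ∑' Iu : {I : (Ideal (𝓞 F))⁰ // ClassGroup.mk0 I = (ClassGroup.mk0 𝔞)⁻¹} × (𝓞 F)ˣ,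
        f ((h93_orbitMap F 𝔞 Iu : {α : (𝔞 : Ideal (𝓞 F)) // α ≠ 0}) : (𝔞 : Ideal (𝓞 F))) :=
    ((Equiv.ofBijective _ hbij).tsum_eq
      (fun α : {α : (𝔞 : Ideal (𝓞 F)) // α ≠ 0} => f (α : (𝔞 : Ideal (𝓞 F))))).symm
  have h3 : Summable fun Iu : {I : (Ideal (𝓞 F))⁰ // ClassGroup.mk0 I = (ClassGroup.mk0 𝔞)⁻¹} ×
      (𝓞 F)ˣ => f ((h93_orbitMap F 𝔞 Iu : {α : (𝔞 : Ideal (𝓞 F)) // α ≠ 0}) :
        (𝔞 : Ideal (𝓞 F))) :=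
    hfs.comp_injective (Subtype.val_injective.comp hbij.injective)
  have h4 : ∀ (I : {I : (Ideal (𝓞 F))⁰ // ClassGroup.mk0 I = (ClassGroup.mk0 𝔞)⁻¹}) (u : (𝓞 F)ˣ),
      f ((h93_orbitMap F 𝔞 (I, u) : {α : (𝔞 : Ideal (𝓞 F)) // α ≠ 0}) : (𝔞 : Ideal (𝓞 F))) =
        h93r_gam g (h93_gen F 𝔞 I) * ((h93_G F s ((u : 𝓞 F) * h93_gen F 𝔞 I) : ℝ) : ℂ) := by
    intro I u
    show h93r_gam g ((u : 𝓞 F) * h93_gen F 𝔞 I) * _ = _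
    rw [h93r_gam_mul, h93r_gam_unit, one_mul]
    rfl
  have h5 : ∀ I : {I : (Ideal (𝓞 F))⁰ // ClassGroup.mk0 I = (ClassGroup.mk0 𝔞)⁻¹},
      ∑' u : (𝓞 F)ˣ, f ((h93_orbitMap F 𝔞 (I, u) : {α : (𝔞 : Ideal (𝓞 F)) // α ≠ 0}) :
        (𝔞 : Ideal (𝓞 F))) =
      (torsionOrder F : ℂ) * (g 𝔞 * (((Ideal.absNorm (𝔞 : Ideal (𝓞 F)) : ℝ) ^ (-s) : ℝ) : ℂ)) *
        (g I.1 * (((Ideal.absNorm (I.1 : Ideal (𝓞 F)) : ℝ) ^ (-s) : ℝ) : ℂ)) := by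
    intro I
    simp_rw [h4 I]
    rw [tsum_mul_left, ← Complex.ofReal_tsum, (h93r_tsum_units s (h93_gen_ne_zero F 𝔞 I)).tsum_eq]
    have e1 : h93r_gam g (h93_gen F 𝔞 I) = g 𝔞 * g I.1 := by
      rw [h93r_gam_of_ne g (h93_gen_ne_zero F 𝔞 I), ← map_mul]
      congr 1
      exact Subtype.ext (h93_gen_spec F 𝔞 I).symm
    have e2 : (Ideal.absNorm (Ideal.span {h93_gen F 𝔞 I}) : ℝ) ^ (-s) =
        (Ideal.absNorm (𝔞 : Ideal (𝓞 F)) : ℝ) ^ (-s) *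
          (Ideal.absNorm (I.1 : Ideal (𝓞 F)) : ℝ) ^ (-s) := by
      rw [← h93_gen_spec, map_mul, Nat.cast_mul,
        Real.mul_rpow (Nat.cast_nonneg _) (Nat.cast_nonneg _)]
    rw [e1, e2]
    push_cast
    ring
  rw [h1, h2, h3.tsum_prod]
  simp_rw [h5]
  rw [tsum_mul_left]
  rfl

/-! ### Splitting the sum over an ideal according to residues modulo `𝔪` -/

lemma h93r_exists_rep_in (𝔞 𝔪 : Ideal (𝓞 F)) (h : IsCoprime 𝔞 𝔪) (ρ : 𝓞 F ⧸ 𝔪) :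
    ∃ r : 𝓞 F, r ∈ 𝔞 ∧ Ideal.Quotient.mk 𝔪 r = ρ := by
  obtain ⟨x, rfl⟩ := Ideal.Quotient.mk_surjective ρ
  rw [Ideal.isCoprime_iff_sup_eq] at h
  have hx : x ∈ 𝔞 ⊔ 𝔪 := by rw [h]; trivial
  rw [Submodule.mem_sup] at hx
  obtain ⟨a, ha, m, hm, rfl⟩ := hx
  refine ⟨a, ha, ?_⟩
  rw [map_add, Ideal.Quotient.eq_zero_iff_mem.mpr hm, add_zero]

/-- Decomposition of an ideal `𝔞` according to the residue modulo `𝔪`. -/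
def h93r_fibEquiv (𝔞 𝔪 : Ideal (𝓞 F)) (r : 𝓞 F ⧸ 𝔪 → 𝓞 F) (hr : ∀ ρ, r ρ ∈ 𝔞)
    (hr' : ∀ ρ, Ideal.Quotient.mk 𝔪 (r ρ) = ρ) :
    ((𝓞 F ⧸ 𝔪) × (𝔞 ⊓ 𝔪 : Ideal (𝓞 F))) ≃ 𝔞 where
  toFun := fun ρβ => ⟨r ρβ.1 + (ρβ.2 : 𝓞 F),
    𝔞.add_mem (hr _) (Submodule.mem_inf.mp ρβ.2.2).1⟩
  invFun := fun α => (Ideal.Quotient.mk 𝔪 (α : 𝓞 F),
    ⟨(α : 𝓞 F) - r (Ideal.Quotient.mk 𝔪 (α : 𝓞 F)),
      Submodule.mem_inf.mpr ⟨𝔞.sub_mem α.2 (hr _), by rw [← Ideal.Quotient.eq, hr']⟩⟩)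
  left_inv := by
    rintro ⟨ρ, β⟩
    have h1 : Ideal.Quotient.mk 𝔪 (r ρ + (β : 𝓞 F)) = ρ := by
      rw [map_add, hr', Ideal.Quotient.eq_zero_iff_mem.mpr (Submodule.mem_inf.mp β.2).2, add_zero]
    refine Prod.ext h1 (Subtype.ext ?_)
    show r ρ + (β : 𝓞 F) - r (Ideal.Quotient.mk 𝔪 (r ρ + (β : 𝓞 F))) = β
    rw [h1]; ring
  right_inv := by
    intro α
    apply Subtype.ext
    show r (Ideal.Quotient.mk 𝔪 (α : 𝓞 F)) + ((α : 𝓞 F) - r (Ideal.Quotient.mk 𝔪 (α : 𝓞 F))) = α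
    ring

section fiber

variable (𝔪 : Ideal (𝓞 F)) (g : (Ideal (𝓞 F))⁰ →* ℂ) (hg : ∀ I, ‖g I‖ ≤ 1)
  (hg0 : ∀ I : (Ideal (𝓞 F))⁰, ¬ IsCoprime (I : Ideal (𝓞 F)) 𝔪 → g I = 0)
  (hprinc : ∀ (a : 𝓞 F) (I : (Ideal (𝓞 F))⁰), (I : Ideal (𝓞 F)) = Ideal.span {a} →
    a - 1 ∈ 𝔪 → g I = 1)

include hg hg0 hprinc in
lemma h93r_fiber (h𝔪 : 𝔪 ≠ ⊥) [Fintype (𝓞 F ⧸ 𝔪)] (𝔞 : Ideal (𝓞 F)) (r : 𝓞 F ⧸ 𝔪 → 𝓞 F)
    (hr : ∀ ρ, r ρ ∈ 𝔞) (hr' : ∀ ρ, Ideal.Quotient.mk 𝔪 (r ρ) = ρ) {s : ℝ} (hs : 1 < s) :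
    ∑' α : 𝔞, h93r_gam g (α : 𝓞 F) * ((h93_G F s (α : 𝓞 F) : ℝ) : ℂ) =
      ∑ ρ, h93r_gamt 𝔪 g h𝔪 ρ * ((h93r_W F s (𝔞 ⊓ 𝔪) (r ρ) : ℝ) : ℂ) := by
  have hs0 : 0 < s := by linarith
  have hfs := h93r_summable_gamG g hg hs 𝔞
  have hcomp : Summable fun c : (𝓞 F ⧸ 𝔪) × (𝔞 ⊓ 𝔪 : Ideal (𝓞 F)) =>
      h93r_gam g ((h93r_fibEquiv 𝔞 𝔪 r hr hr' c : 𝔞) : 𝓞 F) *
        ((h93_G F s ((h93r_fibEquiv 𝔞 𝔪 r hr hr' c : 𝔞) : 𝓞 F) : ℝ) : ℂ) :=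
    hfs.comp_injective (h93r_fibEquiv 𝔞 𝔪 r hr hr').injective
  rw [← (h93r_fibEquiv 𝔞 𝔪 r hr hr').tsum_eq, hcomp.tsum_prod, tsum_fintype]
  refine Finset.sum_congr rfl fun ρ _ => ?_
  have h1 : ∀ β : (𝔞 ⊓ 𝔪 : Ideal (𝓞 F)),
      h93r_gam g (r ρ + (β : 𝓞 F)) * ((h93_G F s (r ρ + (β : 𝓞 F)) : ℝ) : ℂ) =
        h93r_gamt 𝔪 g h𝔪 ρ * ((h93_G F s (r ρ + (β : 𝓞 F)) : ℝ) : ℂ) := by
    intro β
    by_cases h0 : r ρ + (β : 𝓞 F) = 0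
    · rw [h0, h93_G_zero F hs0, Complex.ofReal_zero, mul_zero, mul_zero]
    · rw [h93r_gam_eq_gamt 𝔪 g hg0 hprinc h𝔪 h0, map_add, hr',
        Ideal.Quotient.eq_zero_iff_mem.mpr (Submodule.mem_inf.mp β.2).2, add_zero]
  show ∑' β : (𝔞 ⊓ 𝔪 : Ideal (𝓞 F)),
      h93r_gam g (r ρ + (β : 𝓞 F)) * ((h93_G F s (r ρ + (β : 𝓞 F)) : ℝ) : ℂ) = _
  simp_rw [h1]
  rw [tsum_mul_left, ← Complex.ofReal_tsum, (h93r_hasSum_W F hs _ _).tsum_eq]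

end fiber

/-! ### The estimate for one class -/

lemma h93r_alg (G P Γ : ℂ) (a m w t z as : ℝ) (hm : m ≠ 0) (ht : t = a * as) :
    ((m * w : ℝ) : ℂ) * (G * P - Γ * ((z / m : ℝ) : ℂ)) =
      (((a * m : ℝ) : ℂ) * ((w : ℂ) * (G * (as : ℂ)) * P) - Γ * ((w * z : ℝ) : ℂ)) +
        ((m * w * (1 - t) : ℝ) : ℂ) * (G * P) := by
  subst ht
  have hm' : (m : ℂ) ≠ 0 := Complex.ofReal_ne_zero.mpr hm
  push_cast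
  field_simp
  ring

section main

variable (𝔪 : Ideal (𝓞 F)) (g : (Ideal (𝓞 F))⁰ →* ℂ) (hg : ∀ I, ‖g I‖ ≤ 1)
  (hg0 : ∀ I : (Ideal (𝓞 F))⁰, ¬ IsCoprime (I : Ideal (𝓞 F)) 𝔪 → g I = 0)
  (hprinc : ∀ (a : 𝓞 F) (I : (Ideal (𝓞 F))⁰), (I : Ideal (𝓞 F)) = Ideal.span {a} →
    a - 1 ∈ 𝔪 → g I = 1)

include hg hg0 hprinc in
lemma h93r_class_bound (h𝔪 : 𝔪 ≠ ⊥) [Fintype (𝓞 F ⧸ 𝔪)] (𝔞 : (Ideal (𝓞 F))⁰)
    (hco : IsCoprime (𝔞 : Ideal (𝓞 F)) 𝔪) :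
    ∃ B : ℝ, ∀ s : ℝ, 1 < s → s ≤ 2 →
      ‖g 𝔞 * h93r_part F g (ClassGroup.mk0 𝔞)⁻¹ s -
        (∑ ρ, h93r_gamt 𝔪 g h𝔪 ρ) *
          ((h93_classZeta F 1 s / (Ideal.absNorm 𝔪 : ℝ) : ℝ) : ℂ)‖ ≤ B := by
  choose r hr hr' using h93r_exists_rep_in (𝔞 : Ideal (𝓞 F)) 𝔪 hco
  have h𝔞0 : (𝔞 : Ideal (𝓞 F)) ≠ ⊥ := nonZeroDivisors.coe_ne_zero 𝔞
  have h𝔟eq : (𝔞 : Ideal (𝓞 F)) ⊓ 𝔪 = (𝔞 : Ideal (𝓞 F)) * 𝔪 := (Ideal.mul_eq_inf_of_isCoprime hco).symm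
  have h𝔟0 : (𝔞 : Ideal (𝓞 F)) ⊓ 𝔪 ≠ ⊥ := by rw [h𝔟eq]; exact mul_ne_zero h𝔞0 h𝔪
  choose D hD0 hD using fun ρ => h93r_coset_real F ((𝔞 : Ideal (𝓞 F)) ⊓ 𝔪) h𝔟0 (r ρ)
  obtain ⟨M, hM⟩ := h93_zeta_bound F
  have ha1 : (1 : ℝ) ≤ (Ideal.absNorm (𝔞 : Ideal (𝓞 F)) : ℝ) := h93_one_le_absNorm F 𝔞
  have ha0 : (0 : ℝ) < (Ideal.absNorm (𝔞 : Ideal (𝓞 F)) : ℝ) := by linarith
  have hm1 : (1 : ℝ) ≤ (Ideal.absNorm 𝔪 : ℝ) := by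
    exact_mod_cast Nat.one_le_iff_ne_zero.mpr
      (by rw [Ne, Ideal.absNorm_eq_zero_iff]; exact h𝔪)
  have hw1 : (1 : ℝ) ≤ (torsionOrder F : ℝ) := by exact_mod_cast (torsionOrder_pos F)
  have hN𝔟 : (Ideal.absNorm ((𝔞 : Ideal (𝓞 F)) ⊓ 𝔪) : ℝ) =
      (Ideal.absNorm (𝔞 : Ideal (𝓞 F)) : ℝ) * (Ideal.absNorm 𝔪 : ℝ) := by
    rw [h𝔟eq, map_mul, Nat.cast_mul]
  have hlog : 0 ≤ Real.log (Ideal.absNorm (𝔞 : Ideal (𝓞 F)) : ℝ) := Real.log_nonneg ha1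
  have hDsum : 0 ≤ ∑ ρ, D ρ := Finset.sum_nonneg fun ρ _ => hD0 ρ
  refine ⟨∑ ρ, D ρ + Real.log (Ideal.absNorm (𝔞 : Ideal (𝓞 F)) : ℝ) * M, fun s hs1 hs2 => ?_⟩
  have hPZ := h93r_norm_part_le g hg (ClassGroup.mk0 𝔞)⁻¹ hs1
  have hMZ := hM s hs1 hs2
  have hX1 := h93r_orbit g hg 𝔞 hs1
  have hX2 := h93r_fiber 𝔪 g hg hg0 hprinc h𝔪 (𝔞 : Ideal (𝓞 F)) r hr hr' hs1
  rw [hX1, ← Complex.ofReal_natCast] at hX2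
  generalize h93r_part F g (ClassGroup.mk0 𝔞)⁻¹ s = P at hPZ hX2 ⊢
  generalize (∑' I : (Ideal (𝓞 F))⁰, (Ideal.absNorm (I : Ideal (𝓞 F)) : ℝ) ^ (-s)) = Z at hPZ hMZ
  have hT : ∀ ρ, |(Ideal.absNorm (𝔞 : Ideal (𝓞 F)) : ℝ) * (Ideal.absNorm 𝔪 : ℝ) *
      h93r_W F s ((𝔞 : Ideal (𝓞 F)) ⊓ 𝔪) (r ρ) -
        (torsionOrder F : ℝ) * h93_classZeta F 1 s| ≤ D ρ := by
    intro ρ
    have h1 := hD ρ s hs1 hs2
    rw [hN𝔟] at h1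
    exact h1
  generalize h93_classZeta F 1 s = z at hT ⊢
  have hG : ‖g 𝔞‖ ≤ 1 := hg 𝔞
  generalize g 𝔞 = G at hX2 hG ⊢
  generalize (Ideal.absNorm 𝔪 : ℝ) = m at hm1 hT ⊢
  generalize (torsionOrder F : ℝ) = w at hw1 hT hX2 ⊢
  -- the factor `t = a^(1-s)`
  have ht_eq : (Ideal.absNorm (𝔞 : Ideal (𝓞 F)) : ℝ) *
      (Ideal.absNorm (𝔞 : Ideal (𝓞 F)) : ℝ) ^ (-s) =
        Real.exp (-((s - 1) * Real.log (Ideal.absNorm (𝔞 : Ideal (𝓞 F)) : ℝ))) := by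
    rw [Real.rpow_def_of_pos ha0]
    nth_rewrite 1 [← Real.exp_log ha0]
    rw [← Real.exp_add]
    congr 1
    ring
  generalize (Ideal.absNorm (𝔞 : Ideal (𝓞 F)) : ℝ) ^ (-s) = as at hX2 ht_eq
  generalize (Ideal.absNorm (𝔞 : Ideal (𝓞 F)) : ℝ) = a at ha1 ha0 hlog hT hX2 ht_eq ⊢
  set t : ℝ := a * as with ht
  have ht1 : t ≤ 1 := by
    rw [ht_eq, Real.exp_le_one_iff]
    have : 0 ≤ (s - 1) * Real.log a := mul_nonneg (by linarith) hlog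
    linarith
  have ht0 : 0 ≤ t := by rw [ht_eq]; exact (Real.exp_pos _).le
  have ht2 : 1 - t ≤ (s - 1) * Real.log a := by
    have := Real.one_sub_le_exp_neg ((s - 1) * Real.log a)
    rw [← ht_eq] at this
    linarith
  have hm0 : m ≠ 0 := by intro h; rw [h] at hm1; linarith
  set Γ : ℂ := ∑ ρ, h93r_gamt 𝔪 g h𝔪 ρ with hΓ
  have e1 : ((a * m : ℝ) : ℂ) * ((w : ℂ) * (G * (as : ℂ)) * P) - Γ * ((w * z : ℝ) : ℂ)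
      = ∑ ρ, h93r_gamt 𝔪 g h𝔪 ρ *
          ((a * m * h93r_W F s ((𝔞 : Ideal (𝓞 F)) ⊓ 𝔪) (r ρ) - w * z : ℝ) : ℂ) := by
    rw [hX2, hΓ, Finset.mul_sum, Finset.sum_mul, ← Finset.sum_sub_distrib]
    refine Finset.sum_congr rfl fun ρ _ => ?_
    push_cast; ring
  have e2 : ‖∑ ρ, h93r_gamt 𝔪 g h𝔪 ρ *
      ((a * m * h93r_W F s ((𝔞 : Ideal (𝓞 F)) ⊓ 𝔪) (r ρ) - w * z : ℝ) : ℂ)‖ ≤ ∑ ρ, D ρ := by
    refine (norm_sum_le _ _).trans (Finset.sum_le_sum fun ρ _ => ?_)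
    rw [norm_mul, Complex.norm_real, Real.norm_eq_abs]
    calc _ ≤ 1 * |a * m * h93r_W F s ((𝔞 : Ideal (𝓞 F)) ⊓ 𝔪) (r ρ) - w * z| :=
          mul_le_mul_of_nonneg_right (h93r_norm_gamt_le 𝔪 g hg h𝔪 ρ) (abs_nonneg _)
      _ ≤ D ρ := by rw [one_mul]; exact hT ρ
  have e3 := h93r_alg G P Γ a m w t z as hm0 ht
  have hmw : 1 ≤ m * w := by nlinarith
  have hZ0 : 0 ≤ Z := le_trans (norm_nonneg _) hPZ
  have e4 : ‖((m * w * (1 - t) : ℝ) : ℂ) * (G * P)‖ ≤ m * w * (Real.log a * M) := by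
    rw [norm_mul, Complex.norm_real, Real.norm_of_nonneg (by nlinarith), norm_mul]
    have h1 : ‖G‖ * ‖P‖ ≤ Z := by
      calc ‖G‖ * ‖P‖ ≤ 1 * Z := mul_le_mul hG hPZ (norm_nonneg _) zero_le_one
        _ = Z := one_mul Z
    have h2 : (1 - t) * Z ≤ Real.log a * M := by
      calc (1 - t) * Z ≤ ((s - 1) * Real.log a) * Z := mul_le_mul_of_nonneg_right ht2 hZ0
        _ = Real.log a * ((s - 1) * Z) := by ring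
        _ ≤ Real.log a * M := mul_le_mul_of_nonneg_left hMZ hlog
    calc m * w * (1 - t) * (‖G‖ * ‖P‖) ≤ m * w * (1 - t) * Z :=
          mul_le_mul_of_nonneg_left h1 (by nlinarith)
      _ = m * w * ((1 - t) * Z) := by ring
      _ ≤ m * w * (Real.log a * M) := mul_le_mul_of_nonneg_left h2 (by linarith)
  have e5 : (m * w) * ‖G * P - Γ * ((z / m : ℝ) : ℂ)‖ ≤ ∑ ρ, D ρ + m * w * (Real.log a * M) := by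
    have h1 : ‖((m * w : ℝ) : ℂ) * (G * P - Γ * ((z / m : ℝ) : ℂ))‖ =
        (m * w) * ‖G * P - Γ * ((z / m : ℝ) : ℂ)‖ := by
      rw [norm_mul, Complex.norm_real, Real.norm_of_nonneg (by linarith)]
    rw [← h1, e3, e1]
    exact (norm_add_le _ _).trans (add_le_add e2 e4)
  have hY0 : 0 ≤ ‖G * P - Γ * ((z / m : ℝ) : ℂ)‖ := norm_nonneg _
  by_contra hcon
  have hcon := not_le.mp hcon
  have h6 : (m * w) * (∑ ρ, D ρ + Real.log a * M) < (m * w) * ‖G * P - Γ * ((z / m : ℝ) : ℂ)‖ :=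
    mul_lt_mul_of_pos_left hcon (by linarith)
  nlinarith

lemma h93r_pair {I I' : (Ideal (𝓞 F))⁰} (hI : IsCoprime (I : Ideal (𝓞 F)) 𝔪)
    (hI' : IsCoprime (I' : Ideal (𝓞 F)) 𝔪) (h : ClassGroup.mk0 I * ClassGroup.mk0 I' = 1) :
    ∃ β : 𝓞 F, β ≠ 0 ∧ IsCoprime (Ideal.span {β}) 𝔪 ∧ g I * g I' = h93r_gam g β := by
  have h1 : ClassGroup.mk0 (I * I') = 1 := by rw [map_mul, h]
  have h2 := (ClassGroup.mk0_eq_one_iff (I * I').2).mp h1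
  obtain ⟨β, hβ⟩ := h2.principal
  have hβ' : ((I * I' : (Ideal (𝓞 F))⁰) : Ideal (𝓞 F)) = Ideal.span {β} := hβ
  have hβ0 : β ≠ 0 := by
    rintro rfl
    have h3 : ((I * I' : (Ideal (𝓞 F))⁰) : Ideal (𝓞 F)) ≠ ⊥ := nonZeroDivisors.coe_ne_zero _
    apply h3
    rw [hβ', Ideal.span_singleton_eq_bot]
  refine ⟨β, hβ0, ?_, ?_⟩
  · rw [← hβ', Submonoid.coe_mul]
    exact IsCoprime.mul_left hI hI'
  · rw [h93r_gam_of_ne g hβ0, ← map_mul]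
    congr 1
    exact Subtype.ext hβ'

include hg hg0 hprinc in
theorem h93r_main (h𝔪 : 𝔪 ≠ ⊥)
    (hnt : ∃ I : (Ideal (𝓞 F))⁰, IsCoprime (I : Ideal (𝓞 F)) 𝔪 ∧ g I ≠ 1) :
    ∃ B : ℝ, ∀ s : ℝ, 1 < s → s ≤ 2 → ‖idealSum F g s‖ ≤ B := by
  have : Finite (𝓞 F ⧸ 𝔪) := Ideal.finiteQuotientOfFreeOfNeBot 𝔪 h𝔪
  let _ : Fintype (𝓞 F ⧸ 𝔪) := Fintype.ofFinite _
  choose 𝔞 h𝔞co h𝔞cl using fun C : ClassGroup (𝓞 F) => h93r_exists_coprime 𝔪 h𝔪 C⁻¹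
  have hC : ∀ C, (ClassGroup.mk0 (𝔞 C))⁻¹ = C := fun C => by rw [h𝔞cl, inv_inv]
  choose B hB using fun C => h93r_class_bound 𝔪 g hg hg0 hprinc h𝔪 (𝔞 C) (h𝔞co C)
  set Γ : ℂ := ∑ ρ, h93r_gamt 𝔪 g h𝔪 ρ with hΓ
  have hpair : ∀ (C : ClassGroup (𝓞 F)) (I : (Ideal (𝓞 F))⁰), IsCoprime (I : Ideal (𝓞 F)) 𝔪 →
      ClassGroup.mk0 I = C →
      ∃ β : 𝓞 F, β ≠ 0 ∧ IsCoprime (Ideal.span {β}) 𝔪 ∧ g (𝔞 C) * g I = h93r_gam g β := by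
    intro C I hI hIC
    exact h93r_pair 𝔪 g (h𝔞co C) hI (by rw [h𝔞cl, hIC, inv_mul_cancel])
  have hne : ∀ C, g (𝔞 C) ≠ 0 := by
    intro C
    obtain ⟨β, hβ0, hβco, hβ⟩ := hpair C (𝔞 C⁻¹) (h𝔞co C⁻¹) (by rw [h𝔞cl, inv_inv])
    intro h0
    rw [h0, zero_mul] at hβ
    exact h93r_gam_ne_zero 𝔪 g hprinc hβ0 hβco hβ.symm
  have hclaim : Γ * ∑ C, (g (𝔞 C))⁻¹ = 0 := by
    by_cases hΓ0 : Γ = 0
    · rw [hΓ0, zero_mul]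
    have hone : ∀ δ : 𝓞 F, δ ≠ 0 → IsCoprime (Ideal.span {δ}) 𝔪 → h93r_gam g δ = 1 := by
      intro δ hδ hδco
      have h1 := h93r_gam_mul_Gam 𝔪 g hg0 hprinc h𝔪 hδ hδco
      exact mul_right_cancel₀ hΓ0 (by rw [one_mul]; exact h1)
    have hval : ∀ I : (Ideal (𝓞 F))⁰, IsCoprime (I : Ideal (𝓞 F)) 𝔪 →
        g I = (g (𝔞 (ClassGroup.mk0 I)))⁻¹ := by
      intro I hI
      obtain ⟨β, hβ0, hβco, hβ⟩ := hpair _ I hI rfl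
      rw [hone β hβ0 hβco] at hβ
      exact eq_inv_of_mul_eq_one_right hβ
    obtain ⟨J, hJco, hJ1⟩ := hnt
    have hshift : ∀ C, g J * (g (𝔞 C))⁻¹ = (g (𝔞 (ClassGroup.mk0 J * C)))⁻¹ := by
      intro C
      have h1 : (g (𝔞 C))⁻¹ = g (𝔞 C⁻¹) := by
        have := hval (𝔞 C⁻¹) (h𝔞co C⁻¹)
        rw [h𝔞cl, inv_inv] at this
        exact this.symm
      have h2 := hval (J * 𝔞 C⁻¹)
        (by rw [Submonoid.coe_mul]; exact IsCoprime.mul_left hJco (h𝔞co C⁻¹))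
      rw [map_mul, map_mul, h𝔞cl, inv_inv] at h2
      rw [h1]; exact h2
    have hsum : ∑ C, (g (𝔞 (ClassGroup.mk0 J * C)))⁻¹ = ∑ C, (g (𝔞 C))⁻¹ :=
      Equiv.sum_comp (Equiv.mulLeft (ClassGroup.mk0 J)) (fun C => (g (𝔞 C))⁻¹)
    have h3 : g J * ∑ C, (g (𝔞 C))⁻¹ = ∑ C, (g (𝔞 C))⁻¹ := by
      rw [Finset.mul_sum, ← hsum]
      exact Finset.sum_congr rfl fun C _ => hshift C
    have h4 : (g J - 1) * ∑ C, (g (𝔞 C))⁻¹ = 0 := by rw [sub_mul, one_mul, h3, sub_self]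
    rcases mul_eq_zero.mp h4 with h5 | h5
    · exact absurd (sub_eq_zero.mp h5) hJ1
    · rw [h5, mul_zero]
  refine ⟨∑ C, ‖(g (𝔞 C))⁻¹‖ * B C, fun s hs1 hs2 => ?_⟩
  have hsum : Summable fun I : (Ideal (𝓞 F))⁰ => g I *
      (((Ideal.absNorm (I : Ideal (𝓞 F)) : ℝ) ^ (-s) : ℝ) : ℂ) := idealSum_summable F g hg hs1
  have hfib := hsum.hasSum.tsum_fiberwise (fun I : (Ideal (𝓞 F))⁰ => ClassGroup.mk0 I)
  have hfin := hfib.unique (hasSum_fintype _)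
  have hpart : idealSum F g s = ∑ C : ClassGroup (𝓞 F), h93r_part F g C s := by
    unfold idealSum
    rw [hfin]
    rfl
  set z : ℂ := ((h93_classZeta F 1 s / (Ideal.absNorm 𝔪 : ℝ) : ℝ) : ℂ) with hz
  have hmain : idealSum F g s = ∑ C : ClassGroup (𝓞 F),
      (g (𝔞 C))⁻¹ * (g (𝔞 C) * h93r_part F g C s - Γ * z) := by
    have e1 : ∀ C : ClassGroup (𝓞 F), (g (𝔞 C))⁻¹ * (g (𝔞 C) * h93r_part F g C s - Γ * z) =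
        h93r_part F g C s - (g (𝔞 C))⁻¹ * (Γ * z) := by
      intro C
      rw [mul_sub, ← mul_assoc, inv_mul_cancel₀ (hne C), one_mul]
    simp_rw [e1]
    rw [Finset.sum_sub_distrib, ← Finset.sum_mul, ← mul_assoc, mul_comm _ Γ, hclaim, zero_mul,
      sub_zero]
    exact hpart
  rw [hmain]
  refine (norm_sum_le _ _).trans (Finset.sum_le_sum fun C _ => ?_)
  rw [norm_mul]
  refine mul_le_mul_of_nonneg_left ?_ (norm_nonneg _)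
  have := hB C s hs1 hs2
  rw [hC C] at this
  exact this

end main

end

open scoped nonZeroDivisors

/-- **Ray-class L-series are bounded on `(1, 2]`** (friendly form of the hypothesis on principal
ideals). -/
theorem h93_rayLSeries_bounded' (F : Type*) [Field F] [NumberField F] (𝔪 : Ideal (𝓞 F))
    (h𝔪 : 𝔪 ≠ ⊥) (g : (Ideal (𝓞 F))⁰ →* ℂ) (hg : ∀ I, ‖g I‖ ≤ 1)
    (hg0 : ∀ I : (Ideal (𝓞 F))⁰, ¬ IsCoprime (I : Ideal (𝓞 F)) 𝔪 → g I = 0)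
    (hprinc : ∀ (a : 𝓞 F) (I : (Ideal (𝓞 F))⁰), (I : Ideal (𝓞 F)) = Ideal.span {a} →
      a - 1 ∈ 𝔪 → g I = 1)
    (hnt : ∃ I : (Ideal (𝓞 F))⁰, IsCoprime (I : Ideal (𝓞 F)) 𝔪 ∧ g I ≠ 1) :
    ∃ B : ℝ, ∀ s : ℝ, 1 < s → s ≤ 2 → ‖idealSum F g s‖ ≤ B :=
  h93r_main 𝔪 g hg hg0 hprinc h𝔪 hnt

/-- **Ray-class L-series are bounded on `(1, 2]`**: the L-series of a nontrivial character of the
(wide) ray class group modulo `𝔪` is bounded for real `s ∈ (1, 2]`. -/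
theorem h93_rayLSeries_bounded (F : Type*) [Field F] [NumberField F] (𝔪 : Ideal (𝓞 F))
    (h𝔪 : 𝔪 ≠ ⊥) (g : (Ideal (𝓞 F))⁰ →* ℂ) (hg : ∀ I, ‖g I‖ ≤ 1)
    (hg0 : ∀ I : (Ideal (𝓞 F))⁰, ¬ IsCoprime (I : Ideal (𝓞 F)) 𝔪 → g I = 0)
    (hprinc : ∀ (a : 𝓞 F) (ha : a ≠ 0), a - 1 ∈ 𝔪 →
      g ⟨Ideal.span {a}, mem_nonZeroDivisors_of_ne_zero (by simpa using ha)⟩ = 1)
    (hnt : ∃ I : (Ideal (𝓞 F))⁰, IsCoprime (I : Ideal (𝓞 F)) 𝔪 ∧ g I ≠ 1) :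
    ∃ B : ℝ, ∀ s : ℝ, 1 < s → s ≤ 2 → ‖idealSum F g s‖ ≤ B := by
  refine h93_rayLSeries_bounded' F 𝔪 h𝔪 g hg hg0 (fun a I hI ha1 => ?_) hnt
  have ha : a ≠ 0 := by
    rintro rfl
    have h3 : (I : Ideal (𝓞 F)) ≠ ⊥ := nonZeroDivisors.coe_ne_zero _
    apply h3
    rw [hI, Ideal.span_singleton_eq_bot]
  have h1 := hprinc a ha ha1
  have h2 : I = ⟨Ideal.span {a}, mem_nonZeroDivisors_of_ne_zero (by simpa using ha)⟩ :=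
    Subtype.ext hI
  rw [h2]
  exact h1

end Fermat.Agent.S55
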