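import Mathlib
import Fermat.Agent.S55.h35_NormIndex
import Fermat.Agent.S55.h35_RayFinite
import Fermat.Agent.S55.h93_RayLBD

/-!
# S55: the universal norm index inequality (ideal form), hypothesis-free

`h35_norm_index_le` / `h35_norm_index_le'`: for a Galois extension `L / K` of number fields, a
modulus `𝔪 ≠ 0` of `K` and a map `ψ` from the nonzero ideals of `K` to a commutative group `A`
which is multiplicative on ideals prime to `𝔪`, trivial on the principal ideals `(a)` with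
`a ≡ 1 mod 𝔪`, surjective on ideals prime to `𝔪`, and trivial on the primes `v ∤ 𝔪` that split
completely in `L`:  `A` is finite and `|A| ≤ [L : K]`.

(`h35_NormIndex.lean` = the analytic core, `h35_RayFinite.lean` = finiteness,
helper93's `h93_RayLBD.lean` = boundedness of the ray class `L`-series.)
-/

namespace Fermat.Agent.S55

open NumberField IsDedekindDomain
open Fermat.Agent.S14
open scoped nonZeroDivisors

/-- **Universal norm index inequality, ideal form.** -/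
theorem h35_norm_index_le (K L : Type*) [Field K] [NumberField K] [Field L] [NumberField L]
    [Algebra K L] [IsGalois K L] (𝔪 : Ideal (𝓞 K)) (h𝔪 : 𝔪 ≠ ⊥)
    {A : Type*} [CommGroup A] [Finite A] (ψ : (Ideal (𝓞 K))⁰ → A)
    (hmul : ∀ I J : (Ideal (𝓞 K))⁰, IsCoprime (I : Ideal (𝓞 K)) 𝔪 →
      IsCoprime (J : Ideal (𝓞 K)) 𝔪 → ψ (I * J) = ψ I * ψ J)
    (hprinc : ∀ (a : 𝓞 K) (I : (Ideal (𝓞 K))⁰), (I : Ideal (𝓞 K)) = Ideal.span {a} →
      a - 1 ∈ 𝔪 → ψ I = 1)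
    (hsurj : ∀ x : A, ∃ I : (Ideal (𝓞 K))⁰, IsCoprime (I : Ideal (𝓞 K)) 𝔪 ∧ ψ I = x)
    (hsplit : ∀ v : HeightOneSpectrum (𝓞 K), IsCoprime v.asIdeal 𝔪 →
      SplitsCompletely (𝓞 K) (𝓞 L) v.asIdeal → ψ (primeIdeal v) = 1) :
    Nat.card A ≤ Module.finrank K L :=
  h35_norm_index_le_of K L 𝔪 h𝔪 ψ hmul hprinc hsurj hsplit
    (fun g hg hg0 hp hnt => h93_rayLSeries_bounded' K 𝔪 h𝔪 g hg hg0 hp hnt)

/-- **Universal norm index inequality, ideal form**, with the finiteness of `A` as part of the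
conclusion. -/
theorem h35_norm_index_le' (K L : Type*) [Field K] [NumberField K] [Field L] [NumberField L]
    [Algebra K L] [IsGalois K L] (𝔪 : Ideal (𝓞 K)) (h𝔪 : 𝔪 ≠ ⊥)
    {A : Type*} [CommGroup A] (ψ : (Ideal (𝓞 K))⁰ → A)
    (hmul : ∀ I J : (Ideal (𝓞 K))⁰, IsCoprime (I : Ideal (𝓞 K)) 𝔪 →
      IsCoprime (J : Ideal (𝓞 K)) 𝔪 → ψ (I * J) = ψ I * ψ J)
    (hprinc : ∀ (a : 𝓞 K) (I : (Ideal (𝓞 K))⁰), (I : Ideal (𝓞 K)) = Ideal.span {a} →
      a - 1 ∈ 𝔪 → ψ I = 1)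
    (hsurj : ∀ x : A, ∃ I : (Ideal (𝓞 K))⁰, IsCoprime (I : Ideal (𝓞 K)) 𝔪 ∧ ψ I = x)
    (hsplit : ∀ v : HeightOneSpectrum (𝓞 K), IsCoprime v.asIdeal 𝔪 →
      SplitsCompletely (𝓞 K) (𝓞 L) v.asIdeal → ψ (primeIdeal v) = 1) :
    Finite A ∧ Nat.card A ≤ Module.finrank K L := by
  have hfin : Finite A := h35_ray_finite_numberField K 𝔪 h𝔪 ψ hmul hprinc hsurj
  exact ⟨hfin, h35_norm_index_le K L 𝔪 h𝔪 ψ hmul hprinc hsurj hsplit⟩

end Fermat.Agent.S55
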