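import Mathlib

/-!
# S55: weak approximation in the language of embeddings

For a number field `K` and finitely many distinct primes `q i`, let `φ i` be a function on the
embeddings `K →+* PadicAlgCl (q i)` which is equivariant for `Gal(PadicAlgCl (q i) / ℚ_(q i))`
(an element of `K ⊗ ℚ_(q i)`).  Then there is `a : K` with `j a` arbitrarily close to `φ i j`
for all `i` and all embeddings `j` (`h35_weak_approx`), and a unit version
(`h35_weak_approx_units`).

Proof: an equivariant function is `j ↦ ∑ c_l j(b_l)` with `c_l ∈ ℚ_q` (`h35_equivariant_eq_sum`: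
invertibility of the embeddings matrix and Galois descent of the coefficients), and `ℚ` is dense
in the product of the `ℚ_(q i)` (`h35_rat_approx`, Chinese remainder theorem).
-/

namespace Fermat.Agent.S55

section OnePrime

variable (q : ℕ) [Fact q.Prime] (K : Type*) [Field K] [NumberField K]

/-- **Structure of equivariant functions on embeddings**: every function on the embeddings
`K →+* PadicAlgCl q` which is equivariant for `Gal(PadicAlgCl q / ℚ_q)` is of the form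
`j ↦ ∑ c_l j(b_l)` with `c_l ∈ ℚ_q` (`b` a `ℚ`-basis of `K`). -/
theorem h35_equivariant_eq_sum {n : ℕ} (b : Module.Basis (Fin n) ℚ K)
    (ψ : (K →+* PadicAlgCl q) → PadicAlgCl q)
    (hψ : ∀ (σ : PadicAlgCl q ≃ₐ[ℚ_[q]] PadicAlgCl q) (j : K →+* PadicAlgCl q),
      ψ ((σ : PadicAlgCl q →+* PadicAlgCl q).comp j) = σ (ψ j)) :
    ∃ c : Fin n → ℚ_[q], ∀ j : K →+* PadicAlgCl q,
      ψ j = ∑ l, algebraMap ℚ_[q] (PadicAlgCl q) (c l) * j (b l) := by
  classical
  have hcard : Fintype.card (K →ₐ[ℚ] PadicAlgCl q) = Fintype.card (Fin n) := by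
    rw [AlgHom.card ℚ K (PadicAlgCl q), Module.finrank_eq_card_basis b]
  let e : Fin n ≃ (K →ₐ[ℚ] PadicAlgCl q) := (Fintype.equivOfCardEq hcard).symm
  let M : Matrix (Fin n) (Fin n) (PadicAlgCl q) :=
    Algebra.embeddingsMatrixReindex ℚ (PadicAlgCl q) b e
  have hM : ∀ l k, M l k = e k (b l) := by
    intro l k
    simp [M, Algebra.embeddingsMatrixReindex, Algebra.embeddingsMatrix]
  have hdet : M.det ≠ 0 := by
    have h1 := Algebra.discr_eq_det_embeddingsMatrixReindex_pow_two ℚ (PadicAlgCl q) b e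
    have h2 := Algebra.discr_not_zero_of_basis ℚ b
    intro h0
    rw [show (Algebra.embeddingsMatrixReindex ℚ (PadicAlgCl q) b e).det = 0 from h0,
      zero_pow two_ne_zero] at h1
    exact h2 ((map_eq_zero _).mp h1)
  have hunit : IsUnit M.det := isUnit_iff_ne_zero.mpr hdet
  let y : Fin n → PadicAlgCl q := fun k => ψ (e k : K →+* PadicAlgCl q)
  let c : Fin n → PadicAlgCl q := Matrix.vecMul y M⁻¹
  have hc : Matrix.vecMul c M = y := by
    rw [Matrix.vecMul_vecMul, Matrix.nonsing_inv_mul _ hunit, Matrix.vecMul_one]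
  have hall : ∀ j : K →+* PadicAlgCl q, ψ j = ∑ l, c l * j (b l) := by
    intro j
    have hek : e (e.symm j.toRatAlgHom) = j.toRatAlgHom := Equiv.apply_symm_apply _ _
    have h1 := congrFun hc (e.symm j.toRatAlgHom)
    simp only [Matrix.vecMul, dotProduct, hM, y] at h1
    rw [hek, RingHom.toRatAlgHom_toRingHom] at h1
    rw [← h1]
    rfl
  have hsolve : ∀ c' : Fin n → PadicAlgCl q, Matrix.vecMul c' M = y → c' = c := by
    intro c' hc'
    have h1 := congrArg (fun v => Matrix.vecMul v M⁻¹) (hc'.trans hc.symm)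
    simpa [Matrix.vecMul_vecMul, Matrix.mul_nonsing_inv _ hunit] using h1
  have hfix : ∀ (σ : PadicAlgCl q ≃ₐ[ℚ_[q]] PadicAlgCl q) (l : Fin n), σ (c l) = c l := by
    intro σ l
    have h1 : Matrix.vecMul (fun l => σ (c l)) M = y := by
      funext k
      simp only [Matrix.vecMul, dotProduct, hM, y]
      have h2 := hall ((σ.symm : PadicAlgCl q →+* PadicAlgCl q).comp (e k : K →+* PadicAlgCl q))
      have h3 := hψ σ ((σ.symm : PadicAlgCl q →+* PadicAlgCl q).comp (e k : K →+* PadicAlgCl q))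
      have h4 : (σ : PadicAlgCl q →+* PadicAlgCl q).comp
          ((σ.symm : PadicAlgCl q →+* PadicAlgCl q).comp (e k : K →+* PadicAlgCl q)) =
          (e k : K →+* PadicAlgCl q) := by
        ext x
        simp
      rw [h4, h2, map_sum] at h3
      rw [h3]
      refine Finset.sum_congr rfl fun l _ => ?_
      rw [map_mul]
      simp
    exact congrFun (hsolve _ h1) l
  have hmem : ∀ l, c l ∈ Set.range (algebraMap ℚ_[q] (PadicAlgCl q)) := fun l =>
    (InfiniteGalois.mem_range_algebraMap_iff_fixed (c l)).mpr (fun σ => hfix σ l)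
  choose c0 hc0 using hmem
  exact ⟨c0, fun j => by rw [hall j]; simp only [hc0]⟩

end OnePrime


/-- **Simultaneous rational approximation** at finitely many distinct primes. -/
theorem h35_rat_approx {ι : Type*} [Finite ι] (q : ι → ℕ) [∀ i, Fact (q i).Prime]
    (hq : Function.Injective q) (c : ∀ i, ℚ_[q i]) (η : ℝ) (hη : 0 < η) :
    ∃ r : ℚ, ∀ i, ‖(r : ℚ_[q i]) - c i‖ < η := by
  classical
  have := Fintype.ofFinite ι
  have hs : ∀ i, ∃ s : ℚ, ‖c i - (s : ℚ_[q i])‖ < η := fun i => Padic.rat_dense (q i) (c i) hη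
  choose s hs using hs
  set B : ℝ := 1 + ∑ i, ∑ i', ‖((s i' : ℚ) : ℚ_[q i])‖ with hB
  have hB1 : 1 ≤ B := by
    have : 0 ≤ ∑ i, ∑ i', ‖((s i' : ℚ) : ℚ_[q i])‖ :=
      Finset.sum_nonneg fun i _ => Finset.sum_nonneg fun i' _ => norm_nonneg _
    linarith
  have hBle : ∀ i i', ‖((s i' : ℚ) : ℚ_[q i])‖ ≤ B := by
    intro i i'
    have h1 : ‖((s i' : ℚ) : ℚ_[q i])‖ ≤ ∑ i'', ‖((s i'' : ℚ) : ℚ_[q i])‖ :=
      Finset.single_le_sum (f := fun i'' => ‖((s i'' : ℚ) : ℚ_[q i])‖)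
        (fun _ _ => norm_nonneg _) (Finset.mem_univ i')
    have h2 : ∑ i'', ‖((s i'' : ℚ) : ℚ_[q i])‖ ≤ ∑ i₀, ∑ i'', ‖((s i'' : ℚ) : ℚ_[q i₀])‖ :=
      Finset.single_le_sum (f := fun i₀ => ∑ i'', ‖((s i'' : ℚ) : ℚ_[q i₀])‖)
        (fun _ _ => Finset.sum_nonneg fun _ _ => norm_nonneg _) (Finset.mem_univ i)
    linarith
  obtain ⟨N, hN⟩ := exists_pow_lt_of_lt_one (div_pos hη (lt_of_lt_of_le zero_lt_one hB1))
    (by norm_num : (1 / 2 : ℝ) < 1)
  -- CRT
  have hcop : Set.Pairwise ((Finset.univ : Finset ι) : Set ι)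
      (Function.onFun Nat.Coprime fun i => q i ^ N) := by
    intro i _ i' _ hne
    have h1 : q i ≠ q i' := fun h => hne (hq h)
    exact Nat.Coprime.pow _ _
      ((Nat.coprime_primes (Fact.out : (q i).Prime) (Fact.out : (q i').Prime)).mpr h1)
  have hne0 : ∀ i ∈ (Finset.univ : Finset ι), q i ^ N ≠ 0 := fun i _ =>
    pow_ne_zero _ (Fact.out : (q i).Prime).ne_zero
  let k : ι → ℕ := fun i₀ =>
    (Nat.chineseRemainderOfFinset (fun i => if i = i₀ then 1 else 0) (fun i => q i ^ N)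
      Finset.univ hne0 hcop : ℕ)
  have hk : ∀ i₀ i, k i₀ ≡ (if i = i₀ then 1 else 0) [MOD q i ^ N] := fun i₀ i =>
    (Nat.chineseRemainderOfFinset (fun i => if i = i₀ then 1 else 0) (fun i => q i ^ N)
      Finset.univ hne0 hcop).2 i (Finset.mem_univ i)
  have hknorm : ∀ i₀ i, ‖((k i₀ : ℚ) : ℚ_[q i]) - (if i = i₀ then 1 else 0)‖ ≤ (1 / 2 : ℝ) ^ N := by
    intro i₀ i
    have h1 : ((q i ^ N : ℕ) : ℤ) ∣ ((if i = i₀ then 1 else 0 : ℕ) : ℤ) - (k i₀ : ℤ) :=
      (Nat.modEq_iff_dvd).mp (hk i₀ i)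
    have h2 : ‖((((if i = i₀ then 1 else 0 : ℕ) : ℤ) - (k i₀ : ℤ) : ℤ) : ℚ_[q i])‖ ≤
        (q i : ℝ) ^ (-(N : ℤ)) := by
      rw [Padic.norm_int_le_pow_iff_dvd]
      exact_mod_cast h1
    have h3 : ((k i₀ : ℚ) : ℚ_[q i]) - (if i = i₀ then 1 else 0) =
        -((((if i = i₀ then 1 else 0 : ℕ) : ℤ) - (k i₀ : ℤ) : ℤ) : ℚ_[q i]) := by
      split_ifs <;> push_cast <;> ring
    rw [h3, norm_neg]
    refine h2.trans ?_
    rw [zpow_neg, zpow_natCast, one_div, inv_pow]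
    have hq2 : (2 : ℝ) ≤ q i := by exact_mod_cast (Fact.out : (q i).Prime).two_le
    exact inv_anti₀ (by positivity) (pow_le_pow_left₀ (by norm_num) hq2 N)
  refine ⟨∑ i', s i' * (k i' : ℚ), fun i => ?_⟩
  have h1 : ((∑ i', s i' * (k i' : ℚ) : ℚ) : ℚ_[q i]) - c i =
      ∑ i', ((s i' : ℚ) : ℚ_[q i]) * (((k i' : ℚ) : ℚ_[q i]) - (if i = i' then 1 else 0)) +
        (((s i : ℚ) : ℚ_[q i]) - c i) := by
    push_cast
    simp only [mul_sub, Finset.sum_sub_distrib, mul_ite, mul_one, mul_zero,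
      Finset.sum_ite_eq, Finset.mem_univ, if_true]
    ring
  rw [h1]
  refine lt_of_le_of_lt (IsUltrametricDist.norm_add_le_max _ _) (max_lt ?_ ?_)
  · have hb : (1 / 2 : ℝ) ^ N * B < η := by
      rwa [lt_div_iff₀ (lt_of_lt_of_le zero_lt_one hB1)] at hN
    refine lt_of_le_of_lt ?_ hb
    refine IsUltrametricDist.norm_sum_le_of_forall_le_of_nonneg (by positivity) (fun i' _ => ?_)
    rw [norm_mul, mul_comm]
    exact mul_le_mul (hknorm i' i) (hBle i i') (norm_nonneg _) (by positivity)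
  · rw [norm_sub_rev]
    exact hs i


section Weak

variable (K : Type*) [Field K] [NumberField K] {ι : Type*} [Finite ι]
  (q : ι → ℕ) [∀ i, Fact (q i).Prime]

/-- **Weak approximation** for Galois-equivariant families on embeddings. -/
theorem h35_weak_approx (hq : Function.Injective q)
    (φ : ∀ i, (K →+* PadicAlgCl (q i)) → PadicAlgCl (q i))
    (hφ : ∀ i (σ : PadicAlgCl (q i) ≃ₐ[ℚ_[q i]] PadicAlgCl (q i))
      (j : K →+* PadicAlgCl (q i)),
      φ i ((σ : PadicAlgCl (q i) →+* PadicAlgCl (q i)).comp j) = σ (φ i j))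
    (ε : ℝ) (hε : 0 < ε) :
    ∃ a : K, ∀ i (j : K →+* PadicAlgCl (q i)), ‖j a - φ i j‖ < ε := by
  classical
  have := Fintype.ofFinite ι
  let b : Module.Basis (Fin (Module.finrank ℚ K)) ℚ K := Module.finBasis ℚ K
  have hc := fun i => h35_equivariant_eq_sum (q i) K b (φ i) (hφ i)
  choose c hc using hc
  set Bb : ℝ := 1 + ∑ i, ∑ j : K →+* PadicAlgCl (q i), ∑ l, ‖j (b l)‖ with hBb
  have hBb1 : 1 ≤ Bb := by
    have : 0 ≤ ∑ i, ∑ j : K →+* PadicAlgCl (q i), ∑ l, ‖j (b l)‖ :=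
      Finset.sum_nonneg fun i _ => Finset.sum_nonneg fun j _ =>
        Finset.sum_nonneg fun l _ => norm_nonneg _
    linarith
  have hBb0 : 0 < Bb := lt_of_lt_of_le zero_lt_one hBb1
  have hBble : ∀ i (j : K →+* PadicAlgCl (q i)) l, ‖j (b l)‖ ≤ Bb := by
    intro i j l
    have h1 : ‖j (b l)‖ ≤ ∑ l', ‖j (b l')‖ :=
      Finset.single_le_sum (f := fun l' => ‖j (b l')‖) (fun _ _ => norm_nonneg _)
        (Finset.mem_univ l)
    have h2 : ∑ l', ‖j (b l')‖ ≤ ∑ j' : K →+* PadicAlgCl (q i), ∑ l', ‖j' (b l')‖ :=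
      Finset.single_le_sum (f := fun j' : K →+* PadicAlgCl (q i) => ∑ l', ‖j' (b l')‖)
        (fun _ _ => Finset.sum_nonneg fun _ _ => norm_nonneg _) (Finset.mem_univ j)
    have h3 : ∑ j' : K →+* PadicAlgCl (q i), ∑ l', ‖j' (b l')‖ ≤
        ∑ i', ∑ j' : K →+* PadicAlgCl (q i'), ∑ l', ‖j' (b l')‖ :=
      Finset.single_le_sum
        (f := fun i' => ∑ j' : K →+* PadicAlgCl (q i'), ∑ l', ‖j' (b l')‖)
        (fun _ _ => Finset.sum_nonneg fun _ _ => Finset.sum_nonneg fun _ _ => norm_nonneg _)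
        (Finset.mem_univ i)
    linarith
  have hη : 0 < ε / (2 * Bb) := div_pos hε (by positivity)
  have hr := fun l => h35_rat_approx q hq (fun i => c i l) (ε / (2 * Bb)) hη
  choose r hr using hr
  refine ⟨∑ l, r l • b l, fun i j => ?_⟩
  have h1 : j (∑ l, r l • b l) - φ i j =
      ∑ l, algebraMap ℚ_[q i] (PadicAlgCl (q i)) (((r l : ℚ) : ℚ_[q i]) - c i l) * j (b l) := by
    rw [hc i j, map_sum, ← Finset.sum_sub_distrib]
    refine Finset.sum_congr rfl fun l _ => ?_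
    rw [Rat.smul_def, map_mul, map_ratCast, map_sub, map_ratCast, sub_mul]
  rw [h1]
  have h2 : ‖∑ l, algebraMap ℚ_[q i] (PadicAlgCl (q i)) (((r l : ℚ) : ℚ_[q i]) - c i l) *
      j (b l)‖ ≤ ε / 2 := by
    refine IsUltrametricDist.norm_sum_le_of_forall_le_of_nonneg (by positivity) (fun l _ => ?_)
    rw [norm_mul]
    have h3 : ‖algebraMap ℚ_[q i] (PadicAlgCl (q i)) (((r l : ℚ) : ℚ_[q i]) - c i l)‖ ≤
        ε / (2 * Bb) := by
      rw [show ‖algebraMap ℚ_[q i] (PadicAlgCl (q i)) (((r l : ℚ) : ℚ_[q i]) - c i l)‖ =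
        ‖((r l : ℚ) : ℚ_[q i]) - c i l‖ from PadicAlgCl.norm_extends (q i) _]
      exact (hr l i).le
    calc ‖algebraMap ℚ_[q i] (PadicAlgCl (q i)) (((r l : ℚ) : ℚ_[q i]) - c i l)‖ * ‖j (b l)‖
        ≤ ε / (2 * Bb) * Bb := mul_le_mul h3 (hBble i j l) (norm_nonneg _) hη.le
      _ = ε / 2 := by field_simp
  linarith

/-- **Weak approximation**, unit form: `φ i j / j a` is close to `1`. -/
theorem h35_weak_approx_units (hq : Function.Injective q)
    (φ : ∀ i, (K →+* PadicAlgCl (q i)) → PadicAlgCl (q i))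
    (hφ : ∀ i (σ : PadicAlgCl (q i) ≃ₐ[ℚ_[q i]] PadicAlgCl (q i))
      (j : K →+* PadicAlgCl (q i)),
      φ i ((σ : PadicAlgCl (q i) →+* PadicAlgCl (q i)).comp j) = σ (φ i j))
    (hφ0 : ∀ i (j : K →+* PadicAlgCl (q i)), φ i j ≠ 0)
    (ε : ℝ) (hε : 0 < ε) :
    ∃ a : K, a ≠ 0 ∧ ∀ i (j : K →+* PadicAlgCl (q i)), ‖φ i j / j a - 1‖ < ε := by
  classical
  have := Fintype.ofFinite ι
  set m : ℝ := (1 + ∑ i, ∑ j : K →+* PadicAlgCl (q i), ‖φ i j‖⁻¹)⁻¹ with hm
  have hsum0 : 0 ≤ ∑ i, ∑ j : K →+* PadicAlgCl (q i), ‖φ i j‖⁻¹ :=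
    Finset.sum_nonneg fun i _ => Finset.sum_nonneg fun j _ => inv_nonneg.mpr (norm_nonneg _)
  have hm0 : 0 < m := inv_pos.mpr (by linarith)
  have hmle : ∀ i (j : K →+* PadicAlgCl (q i)), m ≤ ‖φ i j‖ := by
    intro i j
    have hpos : 0 < ‖φ i j‖ := norm_pos_iff.mpr (hφ0 i j)
    have h1 : ‖φ i j‖⁻¹ ≤ ∑ j' : K →+* PadicAlgCl (q i), ‖φ i j'‖⁻¹ :=
      Finset.single_le_sum (f := fun j' : K →+* PadicAlgCl (q i) => ‖φ i j'‖⁻¹)
        (fun _ _ => inv_nonneg.mpr (norm_nonneg _)) (Finset.mem_univ j)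
    have h2 : ∑ j' : K →+* PadicAlgCl (q i), ‖φ i j'‖⁻¹ ≤
        ∑ i', ∑ j' : K →+* PadicAlgCl (q i'), ‖φ i' j'‖⁻¹ :=
      Finset.single_le_sum (f := fun i' => ∑ j' : K →+* PadicAlgCl (q i'), ‖φ i' j'‖⁻¹)
        (fun _ _ => Finset.sum_nonneg fun _ _ => inv_nonneg.mpr (norm_nonneg _))
        (Finset.mem_univ i)
    rw [hm, inv_le_comm₀ (by linarith) hpos]
    linarith
  obtain ⟨a, ha⟩ := h35_weak_approx K q hq φ hφ (min ε 1 * m) (by positivity)
  have hkey : ∀ i (j : K →+* PadicAlgCl (q i)), ‖j a‖ = ‖φ i j‖ ∧ ‖φ i j / j a - 1‖ < ε := by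
    intro i j
    have hpos : 0 < ‖φ i j‖ := norm_pos_iff.mpr (hφ0 i j)
    have h1 : ‖j a - φ i j‖ < min ε 1 * ‖φ i j‖ :=
      lt_of_lt_of_le (ha i j) (mul_le_mul_of_nonneg_left (hmle i j) (by positivity))
    have h2 : ‖j a - φ i j‖ < ‖φ i j‖ :=
      lt_of_lt_of_le h1 (mul_le_of_le_one_left hpos.le (min_le_right _ _))
    have h3 : ‖j a‖ = ‖φ i j‖ := by
      have h4 : ‖(j a - φ i j) + φ i j‖ = max ‖j a - φ i j‖ ‖φ i j‖ :=
        IsUltrametricDist.norm_add_eq_max_of_norm_ne_norm h2.ne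
      rw [sub_add_cancel, max_eq_right h2.le] at h4
      exact h4
    have hja : j a ≠ 0 := by
      rw [← norm_pos_iff, h3]
      exact hpos
    refine ⟨h3, ?_⟩
    have h5 : φ i j / j a - 1 = -(j a - φ i j) / j a := by
      field_simp
      ring
    rw [h5, norm_div, norm_neg, h3, div_lt_iff₀ hpos]
    exact lt_of_lt_of_le h1 (mul_le_mul_of_nonneg_right (min_le_left _ _) hpos.le)
  rcases isEmpty_or_nonempty ι with hι | ⟨⟨i₀⟩⟩
  · exact ⟨1, one_ne_zero, fun i => (hι.false i).elim⟩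
  · refine ⟨a, ?_, fun i j => (hkey i j).2⟩
    rintro rfl
    obtain ⟨j⟩ : Nonempty (K →+* PadicAlgCl (q i₀)) := inferInstance
    have h1 := (hkey i₀ j).1
    rw [map_zero, norm_zero] at h1
    exact (norm_pos_iff.mpr (hφ0 i₀ j)).ne h1

end Weak

end Fermat.Agent.S55
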