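import Mathlib
import Fermat.Agent.S14.h33_ClassChar
import Fermat.Agent.S55.h35_NormIndexFinal
import Fermat.Agent.S55.h35_EquivRoot
import Fermat.Agent.S55.h35_WeakApprox

/-!
# S55: the second inequality, model-independent assembly

Let `L / K` be a Galois extension of number fields of degree `d`, `q i` finitely many distinct
primes (the set `S`), `Q` a commutative group with
* a map `πJ` on the families of units `φ i j ∈ (PadicAlgCl (q i))ˣ` indexed by the embeddings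
  `j : K →+* PadicAlgCl (q i)`, multiplicative on Galois-equivariant families and killing the
  `d`-th powers of equivariant families (`ρ ^ d = N_{L/K}(ext ρ)`),
* a monoid hom `πI` on the nonzero ideals of `𝓞 K`, trivial on the primes above `S` and on the
  primes outside `S` which split completely in `L` (norms),
* `πJ (j ↦ j a) * πI (a) = 1` for `0 ≠ a ∈ 𝓞 K` (the diagonal dies),
* `Q` is generated by the images.
Then `Q` is finite of order at most `d` (`h35_second_ineq`).  For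
`Q = (J_K × Div^S_K) / (K^× · N(J_L × Div^S_L))` this is the second inequality
`[C_K : N C_L] ≤ [L : K]`.

Proof: the ray class inequality `h35_norm_index_le'` for the modulus `(∏ q i)^n`, `n ≫ 0`;
units close to `1` are `d`-th powers of equivariant families (`h35_root`), and weak
approximation (`h35_weak_approx_units`).
-/

set_option linter.unusedSectionVars false

namespace Fermat.Agent.S55

open NumberField IsDedekindDomain
open Fermat.Agent.S14
open scoped nonZeroDivisors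

section Integral

variable (q : ℕ) [Fact q.Prime]

/-- elements of `PadicAlgCl q` integral over `ℤ` have norm at most `1` -/
theorem h35_norm_le_one_of_isIntegral (x : PadicAlgCl q) (hx : IsIntegral ℤ x) : ‖x‖ ≤ 1 := by
  have hv := Valuation.integer.integers (PadicAlgCl.valued q).v
  have h1 : IsIntegral (PadicAlgCl.valued q).v.integer x := hx.tower_top
  have h2 := hv.isIntegral_iff_v_le_one.mp h1
  have h3 : ((Valued.v x : NNReal) : ℝ) ≤ 1 := by exact_mod_cast h2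
  rwa [PadicAlgCl.valuation_coe] at h3

theorem h35_norm_embed_le_one (K : Type*) [Field K] [NumberField K] (j : K →+* PadicAlgCl q)
    (b : 𝓞 K) : ‖j (b : K)‖ ≤ 1 := by
  refine h35_norm_le_one_of_isIntegral q _ ?_
  have hb : IsIntegral ℤ (b : K) := b.isIntegral_coe
  exact hb.map (j : K →+* PadicAlgCl q).toIntAlgHom

theorem h35_norm_natCast_le_inv (M : ℕ) (h : q ∣ M) : ‖(M : PadicAlgCl q)‖ ≤ (q : ℝ)⁻¹ := by
  have h1 : ‖(M : PadicAlgCl q)‖ = ‖(M : ℚ_[q])‖ := by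
    rw [← PadicAlgCl.norm_extends q (M : ℚ_[q])]
    congr 1
  rw [h1]
  have h2 := (Padic.norm_int_le_pow_iff_dvd (p := q) (M : ℤ) 1).mpr
    (by rw [pow_one]; exact_mod_cast h)
  simpa using h2

end Integral


section Families

variable (K : Type*) [Field K] [NumberField K] {ι : Type*} (q : ι → ℕ) [∀ i, Fact (q i).Prime]

/-- families of units of the `PadicAlgCl (q i)` indexed by the embeddings of `K` -/
abbrev h35_Fam : Type _ := ∀ i, (K →+* PadicAlgCl (q i)) → (PadicAlgCl (q i))ˣ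

/-- Galois-equivariant families (the elements of `∏_i (K ⊗ ℚ_(q i))ˣ`) -/
def h35_IsEquivFam (φ : h35_Fam K q) : Prop :=
  ∀ i (σ : PadicAlgCl (q i) ≃ₐ[ℚ_[q i]] PadicAlgCl (q i)) (j : K →+* PadicAlgCl (q i)),
    ((φ i ((σ : PadicAlgCl (q i) →+* PadicAlgCl (q i)).comp j) : (PadicAlgCl (q i))ˣ) :
      PadicAlgCl (q i)) = σ ((φ i j : (PadicAlgCl (q i))ˣ) : PadicAlgCl (q i))

/-- the diagonal family `j ↦ j a` of a nonzero element -/
noncomputable def h35_diagFam (a : K) (ha : a ≠ 0) : h35_Fam K q :=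
  fun _ j => Units.mk0 (j a) ((map_ne_zero j).mpr ha)

theorem h35_diagFam_coe (a : K) (ha : a ≠ 0) (i : ι) (j : K →+* PadicAlgCl (q i)) :
    ((h35_diagFam K q a ha i j : (PadicAlgCl (q i))ˣ) : PadicAlgCl (q i)) = j a := rfl

theorem h35_isEquivFam_diag (a : K) (ha : a ≠ 0) : h35_IsEquivFam K q (h35_diagFam K q a ha) := by
  intro i σ j
  rfl

theorem h35_isEquivFam_one : h35_IsEquivFam K q (1 : h35_Fam K q) := by
  intro i σ j
  simp

theorem h35_isEquivFam_mul {φ φ' : h35_Fam K q} (h : h35_IsEquivFam K q φ)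
    (h' : h35_IsEquivFam K q φ') : h35_IsEquivFam K q (φ * φ') := by
  intro i σ j
  simp only [Pi.mul_apply, Units.val_mul, map_mul]
  rw [h i σ j, h' i σ j]

theorem h35_isEquivFam_inv {φ : h35_Fam K q} (h : h35_IsEquivFam K q φ) :
    h35_IsEquivFam K q φ⁻¹ := by
  intro i σ j
  simp only [Pi.inv_apply, Units.val_inv_eq_inv_val, map_inv₀]
  rw [h i σ j]

/-- an equivariant family close to `1` is the `d`-th power of an equivariant family -/
theorem h35_exists_root_fam (d : ℕ) (hd : 0 < d) (φ : h35_Fam K q) (hφ : h35_IsEquivFam K q φ)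
    (hnear : ∀ i (j : K →+* PadicAlgCl (q i)),
      ‖((φ i j : (PadicAlgCl (q i))ˣ) : PadicAlgCl (q i)) - 1‖ < ‖(d : PadicAlgCl (q i))‖ ^ d) :
    ∃ ρ : h35_Fam K q, h35_IsEquivFam K q ρ ∧ ρ ^ d = φ := by
  refine ⟨fun i j => Units.mk0 (h35_root (q i) d (φ i j))
    (h35_root_ne_zero (q i) d hd _ (hnear i j)), ?_, ?_⟩
  · intro i σ j
    simp only [Units.val_mk0]
    rw [hφ i σ j]
    exact h35_root_aut (q i) d hd σ _ (hnear i j)
  · funext i j
    apply Units.ext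
    simp only [Pi.pow_apply, Units.val_pow_eq_pow_val, Units.val_mk0]
    exact h35_root_pow (q i) d hd _ (hnear i j)

end Families

section Main

variable (K L : Type*) [Field K] [NumberField K] [Field L] [NumberField L] [Algebra K L]

/-- **The second inequality, model-independent form.** -/
theorem h35_second_ineq [IsGalois K L] {ι : Type*} [Finite ι] (q : ι → ℕ)
    [∀ i, Fact (q i).Prime] (hq : Function.Injective q) {Q : Type*} [CommGroup Q]
    (πJ : h35_Fam K q → Q) (πI : (Ideal (𝓞 K))⁰ →* Q)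
    (hJmul : ∀ φ φ' : h35_Fam K q, h35_IsEquivFam K q φ → h35_IsEquivFam K q φ' →
      πJ (φ * φ') = πJ φ * πJ φ')
    (hJpow : ∀ ρ : h35_Fam K q, h35_IsEquivFam K q ρ → πJ (ρ ^ Module.finrank K L) = 1)
    (hdiag : ∀ (a : 𝓞 K) (ha : a ≠ 0),
      πJ (h35_diagFam K q (a : K) (by simpa using ha)) * πI (h35_spanNZ a ha) = 1)
    (hS : ∀ v : HeightOneSpectrum (𝓞 K), (∃ i, ((q i : ℕ) : 𝓞 K) ∈ v.asIdeal) →
      πI (primeIdeal v) = 1)
    (hsplit : ∀ v : HeightOneSpectrum (𝓞 K), (∀ i, ((q i : ℕ) : 𝓞 K) ∉ v.asIdeal) →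
      SplitsCompletely (𝓞 K) (𝓞 L) v.asIdeal → πI (primeIdeal v) = 1)
    (hgen : ∀ x : Q, ∃ (φ : h35_Fam K q) (I₁ I₂ : (Ideal (𝓞 K))⁰),
      h35_IsEquivFam K q φ ∧ x * πI I₂ = πJ φ * πI I₁) :
    Finite Q ∧ Nat.card Q ≤ Module.finrank K L := by
  classical
  have := Fintype.ofFinite ι
  set d := Module.finrank K L with hd_def
  have hd : 0 < d := Module.finrank_pos
  -- the exponent of the modulus
  have hn : ∀ i, ∃ n : ℕ, ((q i : ℝ)⁻¹) ^ n < ‖(d : PadicAlgCl (q i))‖ ^ d :=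
    fun i => h35_exists_pow_lt (q i) d hd
  choose n₀ hn₀ using hn
  set n : ℕ := 1 + ∑ i, n₀ i with hn_def
  have hn1 : ∀ i, ((q i : ℝ)⁻¹) ^ n < ‖(d : PadicAlgCl (q i))‖ ^ d := by
    intro i
    have hq1 : (1 : ℝ) ≤ q i := by exact_mod_cast (Fact.out : (q i).Prime).one_le
    have hle : n₀ i ≤ n := by
      have := Finset.single_le_sum (f := n₀) (fun _ _ => Nat.zero_le _) (Finset.mem_univ i)
      omega
    exact lt_of_le_of_lt
      (pow_le_pow_of_le_one (by positivity) (inv_le_one_of_one_le₀ hq1) hle) (hn₀ i)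
  set M : ℕ := ∏ i, q i with hM
  have hM0 : M ≠ 0 := Finset.prod_ne_zero_iff.mpr fun i _ => (Fact.out : (q i).Prime).ne_zero
  set 𝔪 : Ideal (𝓞 K) := Ideal.span {((M ^ n : ℕ) : 𝓞 K)} with h𝔪_def
  have h𝔪 : 𝔪 ≠ ⊥ := by
    rw [h𝔪_def, Ne, Ideal.span_singleton_eq_bot]
    exact_mod_cast pow_ne_zero n hM0
  -- (A) elements `≡ 1 mod 𝔪` are close to `1` at every embedding
  have hnear : ∀ a : 𝓞 K, a - 1 ∈ 𝔪 → ∀ i (j : K →+* PadicAlgCl (q i)),
      ‖j (a : K) - 1‖ < ‖(d : PadicAlgCl (q i))‖ ^ d := by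
    intro a ha i j
    obtain ⟨b, hb⟩ := Ideal.mem_span_singleton'.mp ha
    have h2 : (a : K) - 1 = (b : K) * ((M : ℕ) : K) ^ n := by
      have h3 := congrArg (fun x : 𝓞 K => (x : K)) hb
      simp only [map_mul, map_sub, map_one, Nat.cast_pow] at h3
      exact h3.symm
    have h1 : j (a : K) - 1 = j (b : K) * ((M : PadicAlgCl (q i))) ^ n := by
      rw [← map_one j, ← map_sub, h2, map_mul, map_pow, map_natCast]
    rw [h1, norm_mul, norm_pow]
    have h3 := h35_norm_embed_le_one (q i) K j b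
    have h4 := h35_norm_natCast_le_inv (q i) M (Finset.dvd_prod_of_mem q (Finset.mem_univ i))
    calc ‖j (b : K)‖ * ‖(M : PadicAlgCl (q i))‖ ^ n
        ≤ 1 * ((q i : ℝ)⁻¹) ^ n :=
          mul_le_mul h3 (pow_le_pow_left₀ (norm_nonneg _) h4 n) (by positivity) zero_le_one
      _ < _ := by rw [one_mul]; exact hn1 i
  -- (B) `πJ` kills the equivariant families close to `1`
  have hJnear : ∀ φ : h35_Fam K q, h35_IsEquivFam K q φ →
      (∀ i (j : K →+* PadicAlgCl (q i)),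
        ‖((φ i j : (PadicAlgCl (q i))ˣ) : PadicAlgCl (q i)) - 1‖ <
          ‖(d : PadicAlgCl (q i))‖ ^ d) → πJ φ = 1 := by
    intro φ hφ hφn
    obtain ⟨ρ, hρ, rfl⟩ := h35_exists_root_fam K q d hd φ hφ hφn
    exact hJpow ρ hρ
  -- `πI` is trivial on the principal ideals `(a)`, `a ≡ 1 mod 𝔪`
  have hprinc : ∀ (a : 𝓞 K) (I : (Ideal (𝓞 K))⁰), (I : Ideal (𝓞 K)) = Ideal.span {a} →
      a - 1 ∈ 𝔪 → πI I = 1 := by
    intro a I hI ha
    have ha0 : a ≠ 0 := by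
      rintro rfl
      have h0 : (I : Ideal (𝓞 K)) = ⊥ := by rw [hI]; simp
      exact (mem_nonZeroDivisors_iff_ne_zero.mp I.2) h0
    have h1 := hdiag a ha0
    have h2 : πJ (h35_diagFam K q (a : K) (by simpa using ha0)) = 1 :=
      hJnear _ (h35_isEquivFam_diag K q _ _) (fun i j => hnear a ha i j)
    have h3 : h35_spanNZ a ha0 = I := Subtype.ext hI.symm
    rw [h2, one_mul, h3] at h1
    exact h1
  -- coprimality to `𝔪` for primes
  have hcop_iff : ∀ v : HeightOneSpectrum (𝓞 K),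
      IsCoprime v.asIdeal 𝔪 ↔ ∀ i, ((q i : ℕ) : 𝓞 K) ∉ v.asIdeal := by
    intro v
    constructor
    · intro hc i hi
      have h1 : ((M : ℕ) : 𝓞 K) ∈ v.asIdeal := by
        have hdvd : ((q i : ℕ) : 𝓞 K) ∣ ((M : ℕ) : 𝓞 K) :=
          Nat.cast_dvd_cast (Finset.dvd_prod_of_mem q (Finset.mem_univ i))
        exact Ideal.mem_of_dvd _ hdvd hi
      have hle : 𝔪 ≤ v.asIdeal := by
        rw [h𝔪_def, Ideal.span_singleton_le_iff_mem, Nat.cast_pow]
        exact Ideal.pow_mem_of_mem _ h1 n (by omega)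
      rw [Ideal.isCoprime_iff_sup_eq, sup_eq_left.mpr hle] at hc
      exact v.isPrime.ne_top hc
    · intro h
      rw [Ideal.isCoprime_iff_sup_eq]
      by_contra hne
      have h3 := v.isMaximal.eq_of_le hne le_sup_left
      have hle : 𝔪 ≤ v.asIdeal := le_sup_right.trans h3.ge
      have h1 : ((M ^ n : ℕ) : 𝓞 K) ∈ v.asIdeal := hle (Ideal.mem_span_singleton_self _)
      rw [Nat.cast_pow] at h1
      have h2 := v.isPrime.mem_of_pow_mem n h1
      rw [hM, Nat.cast_prod] at h2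
      obtain ⟨i, -, hi⟩ := (Ideal.IsPrime.prod_mem_iff).mp h2
      exact h i hi
  -- every nonzero ideal has the same image as an ideal coprime to `𝔪`
  have hred : ∀ A : Ideal (𝓞 K), A ≠ 0 → ∃ A' : (Ideal (𝓞 K))⁰,
      IsCoprime (A' : Ideal (𝓞 K)) 𝔪 ∧ ∀ hA : A ∈ (Ideal (𝓞 K))⁰, πI A' = πI ⟨A, hA⟩ := by
    intro A
    refine UniqueFactorizationMonoid.induction_on_prime A ?_ ?_ ?_
    · intro h
      exact absurd rfl h
    · intro x hx _
      have hx1 : x = 1 := by rwa [Ideal.isUnit_iff, ← Ideal.one_eq_top] at hx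
      subst hx1
      refine ⟨1, ?_, fun hA => rfl⟩
      rw [Submonoid.coe_one]
      exact isCoprime_one_left
    · intro a p ha hp ih _
      obtain ⟨a', ha'cop, ha'⟩ := ih ha
      have hp0 : p ≠ ⊥ := hp.ne_zero
      have hpprime : p.IsPrime := Ideal.isPrime_of_prime hp
      have hpmem : p ∈ (Ideal (𝓞 K))⁰ := mem_nonZeroDivisors_of_ne_zero hp0
      have hamem : a ∈ (Ideal (𝓞 K))⁰ := mem_nonZeroDivisors_of_ne_zero ha
      have hmulmem : ∀ hA : p * a ∈ (Ideal (𝓞 K))⁰,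
          (⟨p * a, hA⟩ : (Ideal (𝓞 K))⁰) = ⟨p, hpmem⟩ * ⟨a, hamem⟩ := fun hA => rfl
      by_cases hc : IsCoprime p 𝔪
      · refine ⟨⟨p, hpmem⟩ * a', ?_, fun hA => ?_⟩
        · rw [Submonoid.coe_mul]
          exact hc.mul_left ha'cop
        · rw [hmulmem hA, map_mul, map_mul, ha' hamem]
      · refine ⟨a', ha'cop, fun hA => ?_⟩
        let v : HeightOneSpectrum (𝓞 K) := ⟨p, hpprime, hp0⟩
        have hv : ¬ ∀ i, ((q i : ℕ) : 𝓞 K) ∉ v.asIdeal := fun h => hc ((hcop_iff v).mpr h)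
        push Not at hv
        have h1 : πI (primeIdeal v) = 1 := hS v hv
        have h2 : (⟨p, hpmem⟩ : (Ideal (𝓞 K))⁰) = primeIdeal v := rfl
        rw [hmulmem hA, map_mul, h2, h1, one_mul, ha' hamem]
  -- inverses of classes of ideals coprime to `𝔪`
  have hinv : ∀ B : (Ideal (𝓞 K))⁰, IsCoprime (B : Ideal (𝓞 K)) 𝔪 →
      ∃ B' : (Ideal (𝓞 K))⁰, IsCoprime (B' : Ideal (𝓞 K)) 𝔪 ∧ πI B * πI B' = 1 := by
    intro B hB
    obtain ⟨𝔠, h𝔠cop, h𝔠⟩ := h33_exists_coprime_rep 𝔪 h𝔪 (ClassGroup.mk0 B)⁻¹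
    have hBc : IsCoprime ((B * 𝔠 : (Ideal (𝓞 K))⁰) : Ideal (𝓞 K)) 𝔪 := by
      rw [Submonoid.coe_mul]
      exact hB.mul_left h𝔠cop
    have hprincipal : ((B * 𝔠 : (Ideal (𝓞 K))⁰) : Ideal (𝓞 K)).IsPrincipal := by
      rw [← ClassGroup.mk0_eq_one_iff (B * 𝔠).2]
      rw [show (⟨((B * 𝔠 : (Ideal (𝓞 K))⁰) : Ideal (𝓞 K)), (B * 𝔠).2⟩ : (Ideal (𝓞 K))⁰) =
        B * 𝔠 from rfl, map_mul, h𝔠, mul_inv_cancel]
    obtain ⟨c, hc⟩ := hprincipal.principal
    have hc' : ((B * 𝔠 : (Ideal (𝓞 K))⁰) : Ideal (𝓞 K)) = Ideal.span {c} := hc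
    have hc0 : c ≠ 0 := by
      rintro rfl
      have h0 : ((B * 𝔠 : (Ideal (𝓞 K))⁰) : Ideal (𝓞 K)) = ⊥ := by rw [hc']; simp
      exact (mem_nonZeroDivisors_iff_ne_zero.mp (B * 𝔠).2) h0
    have hccop : IsCoprime (Ideal.span {c}) 𝔪 := hc' ▸ hBc
    obtain ⟨i, hi, j, hj, hij⟩ := Ideal.isCoprime_iff_exists.mp hccop
    obtain ⟨c₁, rfl⟩ := Ideal.mem_span_singleton'.mp hi
    obtain ⟨c₂, hc₂0, hc₂⟩ : ∃ c₂ : 𝓞 K, c₂ ≠ 0 ∧ c * c₂ - 1 ∈ 𝔪 := by
      by_cases h0 : c₁ = 0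
      · refine ⟨1, one_ne_zero, ?_⟩
        have h1 : (1 : 𝓞 K) ∈ 𝔪 := by
          rw [h0, zero_mul, zero_add] at hij
          rwa [hij] at hj
        rw [(Ideal.eq_top_iff_one _).mpr h1]
        trivial
      · refine ⟨c₁, h0, ?_⟩
        have h1 : c * c₁ - 1 = -j := by rw [← hij]; ring
        rw [h1]
        exact neg_mem hj
    have hc₂cop : IsCoprime (Ideal.span {c₂}) 𝔪 := by
      rw [Ideal.isCoprime_iff_exists]
      exact ⟨c * c₂, Ideal.mem_span_singleton'.mpr ⟨c, rfl⟩, -(c * c₂ - 1), neg_mem hc₂, by ring⟩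
    refine ⟨𝔠 * h35_spanNZ c₂ hc₂0, ?_, ?_⟩
    · rw [Submonoid.coe_mul]
      exact h𝔠cop.mul_left hc₂cop
    · have h1 : B * 𝔠 = h35_spanNZ c hc0 := Subtype.ext hc'
      rw [← map_mul, ← mul_assoc, h1, ← h35_spanNZ_mul]
      exact hprinc (c * c₂) _ rfl hc₂
  -- surjectivity of `πI` on the ideals coprime to `𝔪`
  have hsurj : ∀ x : Q, ∃ I : (Ideal (𝓞 K))⁰, IsCoprime (I : Ideal (𝓞 K)) 𝔪 ∧ πI I = x := by
    intro x
    obtain ⟨φ, I₁, I₂, hφ, hx⟩ := hgen x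
    set ε : ℝ := (1 + ∑ i, (‖(d : PadicAlgCl (q i))‖ ^ d)⁻¹)⁻¹ with hε
    have hdpos : ∀ i, 0 < ‖(d : PadicAlgCl (q i))‖ ^ d := fun i =>
      pow_pos (h35_norm_natCast_pos (q i) d hd) d
    have hsum0 : 0 ≤ ∑ i, (‖(d : PadicAlgCl (q i))‖ ^ d)⁻¹ :=
      Finset.sum_nonneg fun i _ => (inv_pos.mpr (hdpos i)).le
    have hεpos : 0 < ε := inv_pos.mpr (by linarith)
    have hεle : ∀ i, ε ≤ ‖(d : PadicAlgCl (q i))‖ ^ d := by
      intro i
      have h1 : (‖(d : PadicAlgCl (q i))‖ ^ d)⁻¹ ≤ ∑ i', (‖(d : PadicAlgCl (q i'))‖ ^ d)⁻¹ :=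
        Finset.single_le_sum (f := fun i' => (‖(d : PadicAlgCl (q i'))‖ ^ d)⁻¹)
          (fun i' _ => (inv_pos.mpr (hdpos i')).le) (Finset.mem_univ i)
      rw [hε, inv_le_comm₀ (by linarith) (hdpos i)]
      linarith
    obtain ⟨a, ha0, ha⟩ := h35_weak_approx_units K q hq
      (fun i j => ((φ i j : (PadicAlgCl (q i))ˣ) : PadicAlgCl (q i)))
      (fun i σ j => hφ i σ j) (fun i j => (φ i j).ne_zero) ε hεpos
    obtain ⟨α, β, hβ, hαβ⟩ := IsFractionRing.div_surjective (A := 𝓞 K) a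
    have hβ0 : β ≠ 0 := nonZeroDivisors.ne_zero hβ
    have hα0 : α ≠ 0 := by
      rintro rfl
      apply ha0
      rw [← hαβ]
      simp
    have hαK : (α : K) ≠ 0 := by simpa using hα0
    have hβK : (β : K) ≠ 0 := by simpa using hβ0
    set φ₁ : h35_Fam K q := φ * (h35_diagFam K q a ha0)⁻¹ with hφ₁
    have hφ₁eq : h35_IsEquivFam K q φ₁ :=
      h35_isEquivFam_mul K q hφ (h35_isEquivFam_inv K q (h35_isEquivFam_diag K q a ha0))
    have hφ₁val : ∀ i (j : K →+* PadicAlgCl (q i)),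
        ((φ₁ i j : (PadicAlgCl (q i))ˣ) : PadicAlgCl (q i)) =
          ((φ i j : (PadicAlgCl (q i))ˣ) : PadicAlgCl (q i)) / j a := by
      intro i j
      simp [hφ₁, h35_diagFam, div_eq_mul_inv]
    have hφ₁1 : πJ φ₁ = 1 := hJnear φ₁ hφ₁eq (fun i j => by
      rw [hφ₁val i j]
      exact lt_of_lt_of_le (ha i j) (hεle i))
    have hfam : φ * h35_diagFam K q (β : K) hβK = h35_diagFam K q (α : K) hαK * φ₁ := by
      funext i j
      apply Units.ext
      simp only [Pi.mul_apply, Units.val_mul, h35_diagFam_coe]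
      rw [hφ₁val i j, ← hαβ, map_div₀]
      have hjβ : j (algebraMap (𝓞 K) K β) ≠ 0 := (map_ne_zero j).mpr hβK
      have hjα : j (algebraMap (𝓞 K) K α) ≠ 0 := (map_ne_zero j).mpr hαK
      field_simp
    have h1 := congrArg πJ hfam
    rw [hJmul _ _ hφ (h35_isEquivFam_diag K q _ _),
      hJmul _ _ (h35_isEquivFam_diag K q _ _) hφ₁eq, hφ₁1, mul_one] at h1
    have hα := hdiag α hα0
    have hβ' := hdiag β hβ0
    have hx2 : x * πI (I₂ * h35_spanNZ α hα0) = πI (I₁ * h35_spanNZ β hβ0) := by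
      rw [map_mul, map_mul]
      apply mul_right_cancel (b := πJ (h35_diagFam K q (β : K) hβK))
      have e1 : x * (πI I₂ * πI (h35_spanNZ α hα0)) * πJ (h35_diagFam K q (β : K) hβK) =
          (x * πI I₂) * πJ (h35_diagFam K q (β : K) hβK) * πI (h35_spanNZ α hα0) := by ac_rfl
      have e2 : πJ φ * πI I₁ * πJ (h35_diagFam K q (β : K) hβK) * πI (h35_spanNZ α hα0) =
          (πJ φ * πJ (h35_diagFam K q (β : K) hβK)) * πI (h35_spanNZ α hα0) * πI I₁ := by ac_rfl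
      have e3 : πI I₁ * πI (h35_spanNZ β hβ0) * πJ (h35_diagFam K q (β : K) hβK) =
          πI I₁ * (πJ (h35_diagFam K q (β : K) hβK) * πI (h35_spanNZ β hβ0)) := by ac_rfl
      rw [e1, hx, e2, h1, hα, one_mul, e3, hβ', mul_one]
    have hAne : ((I₂ * h35_spanNZ α hα0 : (Ideal (𝓞 K))⁰) : Ideal (𝓞 K)) ≠ 0 :=
      mem_nonZeroDivisors_iff_ne_zero.mp (I₂ * h35_spanNZ α hα0).2
    have hBne : ((I₁ * h35_spanNZ β hβ0 : (Ideal (𝓞 K))⁰) : Ideal (𝓞 K)) ≠ 0 :=
      mem_nonZeroDivisors_iff_ne_zero.mp (I₁ * h35_spanNZ β hβ0).2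
    obtain ⟨A', hA'cop, hA'⟩ := hred _ hAne
    obtain ⟨B', hB'cop, hB'⟩ := hred _ hBne
    obtain ⟨A'', hA''cop, hA''⟩ := hinv A' hA'cop
    have hA'2 : πI A' = πI (I₂ * h35_spanNZ α hα0) := hA' (I₂ * h35_spanNZ α hα0).2
    have hB'2 : πI B' = πI (I₁ * h35_spanNZ β hβ0) := hB' (I₁ * h35_spanNZ β hβ0).2
    refine ⟨B' * A'', ?_, ?_⟩
    · rw [Submonoid.coe_mul]
      exact hB'cop.mul_left hA''cop
    · rw [map_mul, hB'2, ← hx2, ← hA'2, mul_assoc, hA'', mul_one]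
  have hsplit' : ∀ v : HeightOneSpectrum (𝓞 K), IsCoprime v.asIdeal 𝔪 →
      SplitsCompletely (𝓞 K) (𝓞 L) v.asIdeal → πI (primeIdeal v) = 1 :=
    fun v hv hs => hsplit v ((hcop_iff v).mp hv) hs
  exact h35_norm_index_le' K L 𝔪 h𝔪 (fun I => πI I) (fun I J _ _ => map_mul πI I J) hprinc
    hsurj hsplit'

end Main

end Fermat.Agent.S55
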