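import Mathlib
import Fermat.Agent.S55.h25_GlobDefs
import Fermat.Agent.S55.h35_SecondIneq
import Fermat.Agent.S14.h84_Split

/-!
# S55, GLOB layer: the second inequality in the `h25` carrier

For a cyclic extension `L / K` of number fields with generator `σ`, a finite set `S` of rational
primes, `C_K = h25_C K S`, `ext = h25_Cmap S (algebraMap K L) : C_K →* C_L` and the `σ`-norm
`N = h25_Nm S σ [L : K] : C_L →* C_L`:

  `[ext(C_K) : ext(C_K) ∩ N(C_L)]` is finite and at most `[L : K]`

(`h35_glob_second_ineq'`, `h35_glob_second_ineq`; the hypotheses are the naturality of the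
diagonal for `algebraMap K L` and for the automorphisms of `L / K`, row GLOB-FUNC).  No
hypothesis on the degree, on roots of unity or on ramification.

The proof instantiates the model-independent `h35_second_ineq` (ray class L-series, weak
approximation, equivariant roots near `1`):
* `h35_glob_second_aux` : the statement on the level of `X_K = J × Div` (no hypothesis at all);
* on the `J`-part, `N (ext ρ) = ext (ρ ^ [L:K])`;
* for a prime `v` outside `S` that splits completely and a prime `w` of `L` above it,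
  `v 𝓞_L = ∏_{i < [L:K]} σ^i w` (`h35_map_eq_prod_smul`, `h35_Dmap_split`), so `ext [v] = N [w]`.
-/

set_option autoImplicit false

namespace Fermat.Agent.S55

open NumberField IsDedekindDomain
open Fermat.Agent.S14
open scoped nonZeroDivisors Pointwise

section Div

variable (K : Type*) [Field K] [NumberField K] (S : Finset Nat.Primes)

/-- the prime-to-`S` divisor of a prime not above `S` -/
theorem h35_divIdeal_prime (v : HeightOneSpectrum (𝓞 K)) (hv : ¬ h25_above K S v) :
    h25_divIdeal K S (v.asIdeal : FractionalIdeal (𝓞 K)⁰ K) = Finsupp.single ⟨v, hv⟩ 1 := by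
  classical
  ext u
  rw [h25_divIdeal_apply, FractionalIdeal.count_maximal, Finsupp.single_apply]
  by_cases h : v = u.1
  · rw [if_pos h, if_pos (Subtype.ext h)]
  · rw [if_neg h, if_neg (fun h' => h (congrArg Subtype.val h'))]

/-- the prime-to-`S` divisor of a prime above `S` vanishes -/
theorem h35_divIdeal_above (v : HeightOneSpectrum (𝓞 K)) (hv : h25_above K S v) :
    h25_divIdeal K S (v.asIdeal : FractionalIdeal (𝓞 K)⁰ K) = 0 := by
  ext u
  rw [h25_divIdeal_apply, Finsupp.zero_apply]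
  exact FractionalIdeal.count_maximal_coprime K u.1 (fun h => u.2 (h ▸ hv))

theorem h35_divIdeal_prod {ι : Type*} (s : Finset ι) (I : ι → FractionalIdeal (𝓞 K)⁰ K)
    (hI : ∀ i ∈ s, I i ≠ 0) :
    h25_divIdeal K S (∏ i ∈ s, I i) = ∑ i ∈ s, h25_divIdeal K S (I i) := by
  ext u
  rw [h25_divIdeal_apply, FractionalIdeal.count_prod _ _ _ _ hI, Finsupp.finsetSum_apply]
  rfl

/-- the prime-to-`S` divisor of a nonzero integral ideal, as a monoid hom -/
noncomputable def h35_divHom : (Ideal (𝓞 K))⁰ →* Multiplicative (h25_Div K S) where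
  toFun I := Multiplicative.ofAdd
    (h25_divIdeal K S ((I : Ideal (𝓞 K)) : FractionalIdeal (𝓞 K)⁰ K))
  map_one' := by
    show Multiplicative.ofAdd (h25_divIdeal K S (((1 : Ideal (𝓞 K))) : FractionalIdeal (𝓞 K)⁰ K)) = 1
    rw [Ideal.one_eq_top, FractionalIdeal.coeIdeal_top, h25_divIdeal_one]
    rfl
  map_mul' I J := by
    show Multiplicative.ofAdd (h25_divIdeal K S
      (((I : Ideal (𝓞 K)) * (J : Ideal (𝓞 K)) : Ideal (𝓞 K)) : FractionalIdeal (𝓞 K)⁰ K)) = _
    rw [FractionalIdeal.coeIdeal_mul, h25_divIdeal_mul K S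
      (FractionalIdeal.coeIdeal_ne_zero.mpr (nonZeroDivisors.coe_ne_zero I))
      (FractionalIdeal.coeIdeal_ne_zero.mpr (nonZeroDivisors.coe_ne_zero J))]
    rfl

theorem h35_divHom_apply (I : (Ideal (𝓞 K))⁰) :
    h35_divHom K S I = Multiplicative.ofAdd
      (h25_divIdeal K S ((I : Ideal (𝓞 K)) : FractionalIdeal (𝓞 K)⁰ K)) := rfl

/-- every prime-to-`S` divisor is a quotient of divisors of integral ideals -/
theorem h35_exists_divHom (D : Multiplicative (h25_Div K S)) :
    ∃ I₁ I₂ : (Ideal (𝓞 K))⁰, D * h35_divHom K S I₂ = h35_divHom K S I₁ := by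
  classical
  have key : ∀ D : h25_Div K S, ∃ I₁ I₂ : (Ideal (𝓞 K))⁰,
      Multiplicative.ofAdd D * h35_divHom K S I₂ = h35_divHom K S I₁ := by
    intro D
    induction D using Finsupp.induction_linear with
    | zero => exact ⟨1, 1, by rw [map_one]; rfl⟩
    | add f g hf hg =>
      obtain ⟨I₁, I₂, h⟩ := hf
      obtain ⟨J₁, J₂, h'⟩ := hg
      refine ⟨I₁ * J₁, I₂ * J₂, ?_⟩
      rw [map_mul, map_mul, ← h, ← h', ofAdd_add]
      ac_rfl
    | single v n =>
      have h1 : h35_divHom K S (primeIdeal v.1) = Multiplicative.ofAdd (Finsupp.single v 1) := by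
        rw [h35_divHom_apply]
        exact congrArg _ (h35_divIdeal_prime K S v.1 v.2)
      have hn : ∀ k : ℕ, Multiplicative.ofAdd (Finsupp.single v (k : ℤ)) =
          h35_divHom K S (primeIdeal v.1 ^ k) := by
        intro k
        rw [map_pow, h1, ← ofAdd_nsmul, Finsupp.smul_single, nsmul_eq_mul, mul_one]
      obtain ⟨k, rfl | rfl⟩ := Int.eq_nat_or_neg n
      · exact ⟨primeIdeal v.1 ^ k, 1, by rw [map_one, mul_one, hn]⟩
      · refine ⟨1, primeIdeal v.1 ^ k, ?_⟩
        rw [map_one, ← hn, ← ofAdd_add, ← Finsupp.single_add, neg_add_cancel, Finsupp.single_zero]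
        rfl
  exact key (Multiplicative.toAdd D)

end Div

section Split

variable {K L : Type*} [Field K] [NumberField K] [Field L] [NumberField L] [Algebra K L]
  [IsGalois K L]


/-- a generator of the Galois group has `σ ^ [L:K] = 1` -/
theorem h35_pow_finrank_eq_one (σ : L ≃ₐ[K] L) : σ ^ Module.finrank K L = 1 := by
  rw [← IsGalois.card_aut_eq_finrank K L]
  exact pow_card_eq_one'

theorem h35_exists_pow_lt_finrank (σ : L ≃ₐ[K] L) (hσ : ∀ τ : L ≃ₐ[K] L, τ ∈ Subgroup.zpowers σ)
    (τ : L ≃ₐ[K] L) : ∃ i ∈ Finset.range (Module.finrank K L), σ ^ i = τ := by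
  have hd : 0 < Module.finrank K L := Module.finrank_pos
  obtain ⟨k, rfl⟩ := Subgroup.mem_zpowers_iff.mp (hσ τ)
  refine ⟨(k % (Module.finrank K L : ℤ)).toNat, ?_, ?_⟩
  · rw [Finset.mem_range]
    have := Int.emod_lt_of_pos k (Int.natCast_pos.mpr hd)
    have h0 := Int.emod_nonneg k (Int.natCast_pos.mpr hd).ne'
    omega
  · have h0 := Int.emod_nonneg k (Int.natCast_pos.mpr hd).ne'
    rw [← zpow_natCast, Int.toNat_of_nonneg h0]
    conv_rhs => rw [← Int.emod_add_mul_ediv k (Module.finrank K L : ℤ)]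
    rw [zpow_add, zpow_mul, zpow_natCast, h35_pow_finrank_eq_one, one_zpow, mul_one]

/-- a completely split prime `v` in a cyclic extension: `v 𝓞_L = ∏_{i < [L:K]} σ^i w`. -/
theorem h35_map_eq_prod_smul (σ : L ≃ₐ[K] L) (hσ : ∀ τ : L ≃ₐ[K] L, τ ∈ Subgroup.zpowers σ)
    (v : HeightOneSpectrum (𝓞 K)) (hsplit : SplitsCompletely (𝓞 K) (𝓞 L) v.asIdeal)
    (w : Ideal (𝓞 L)) [w.IsPrime] [w.LiesOver v.asIdeal] :
    Ideal.map (algebraMap (𝓞 K) (𝓞 L)) v.asIdeal =
      ∏ i ∈ Finset.range (Module.finrank K L), (σ ^ i) • w := by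
  classical
  have : v.asIdeal.IsMaximal := v.isMaximal
  rw [Ideal.map_algebraMap_eq_finsetProd_pow v.ne_bot]
  symm
  have hmaps : Set.MapsTo (fun i : ℕ => (σ ^ i) • w)
      (Finset.range (Module.finrank K L) : Set ℕ)
      ((v.asIdeal.primesOver (𝓞 L)).toFinset : Set _) := by
    intro i _
    rw [Finset.mem_coe, Set.mem_toFinset]
    exact ⟨Ideal.IsPrime.smul _, Ideal.LiesOver.smul _⟩
  have hsurj : Set.SurjOn (fun i : ℕ => (σ ^ i) • w)
      (Finset.range (Module.finrank K L) : Set ℕ)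
      ((v.asIdeal.primesOver (𝓞 L)).toFinset : Set _) := by
    intro P hP
    rw [Finset.mem_coe, Set.mem_toFinset] at hP
    have := hP.1
    have := hP.2
    obtain ⟨τ, hτ⟩ := Ideal.exists_smul_eq_of_isGaloisGroup v.asIdeal w P (L ≃ₐ[K] L)
    obtain ⟨i, hi, rfl⟩ := h35_exists_pow_lt_finrank σ hσ τ
    exact ⟨i, hi, hτ⟩
  have hcard : (Finset.range (Module.finrank K L)).card ≤
      (v.asIdeal.primesOver (𝓞 L)).toFinset.card := by
    rw [Finset.card_range, Set.toFinset_card, ← Nat.card_eq_fintype_card,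
      ← h84_card_fibre_of_splits K L v ((h84_splitsCompletely_iff K L v).mpr hsplit)]
    exact (Nat.card_congr (h84_fibreEquiv K L v)).le
  have hinj := Finset.injOn_of_surjOn_of_card_le _ hmaps hsurj hcard
  refine Finset.prod_nbij (fun i : ℕ => (σ ^ i) • w) hmaps hinj hsurj ?_
  intro i _
  have h1 := (hsplit ((σ ^ i) • w) (Ideal.IsPrime.smul _) (Ideal.LiesOver.smul _)).1
  rw [h1, pow_one]

end Split


section Func

variable {K : Type*} [Field K] [NumberField K] {K' : Type*} [Field K'] [NumberField K']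
variable (S : Finset Nat.Primes)

/-- `h25_Cmap` on classes, assuming only that `h25_Xmap S f` preserves principal elements -/
theorem h35_Cmap_mk (f : K →+* K')
    (h : ∀ x : Kˣ, h25_Xmap S f (h25_diag K S x) ∈ (h25_diag K' S).range)
    (x : h25_X K S) : h25_Cmap S f (h25_mk K S x) = h25_mk K' S (h25_Xmap S f x) := by
  have h' : (h25_diag K S).range ≤ ((h25_diag K' S).range).comap (h25_Xmap S f) := by
    rintro _ ⟨x, rfl⟩
    exact h x
  have e : h25_Cmap S f = QuotientGroup.map (h25_diag K S).range (h25_diag K' S).range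
      (h25_Xmap S f) h' := by
    unfold h25_Cmap
    exact dif_pos h'
  rw [e]
  rfl

omit [NumberField K] in
theorem h35_Dmap_single_one (f : K →+* K') (v : h25_Pl K S) :
    h25_Dmap S f (Finsupp.single v 1) = h25_divIdeal K' S
      ((Ideal.map (RingOfIntegers.mapRingHom f) v.1.asIdeal : Ideal (𝓞 K')) :
        FractionalIdeal (𝓞 K')⁰ K') := by
  unfold h25_Dmap
  rw [Finsupp.liftAddHom_apply_single]
  simp

end Func

section Main

variable (K L : Type*) [Field K] [NumberField K] [Field L] [NumberField L] [Algebra K L]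
  [IsGalois K L] (S : Finset Nat.Primes)

/-- the primes of `S` as a family of natural numbers -/
abbrev h35_qS : ↥S → ℕ := fun s => ((s : Nat.Primes) : ℕ)

/-- an equivariant family as an element of `h25_J K S` -/
def h35_toJ (φ : h35_Fam K (h35_qS S)) (h : h35_IsEquivFam K (h35_qS S) φ) : h25_J K S :=
  fun s => ⟨φ s, h s⟩

variable {K L S}

/-- the divisor identity `v 𝓞_L = ∑_{i < [L:K]} σ^i w` for a completely split prime -/
theorem h35_Dmap_split (σ : L ≃ₐ[K] L) (hσ : ∀ τ : L ≃ₐ[K] L, τ ∈ Subgroup.zpowers σ)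
    (v : HeightOneSpectrum (𝓞 K)) (hv : ¬ h25_above K S v)
    (hsplit : SplitsCompletely (𝓞 K) (𝓞 L) v.asIdeal)
    (w : h25_Pl L S) (hw : w.1.asIdeal.LiesOver v.asIdeal) :
    h25_Dmap S (algebraMap K L) (h25_divIdeal K S (v.asIdeal : FractionalIdeal (𝓞 K)⁰ K)) =
      ∑ i ∈ Finset.range (Module.finrank K L),
        h25_Dmap S ((σ ^ i : L ≃ₐ[K] L) : L →+* L) (Finsupp.single w 1) := by
  have := w.1.isPrime
  rw [h35_divIdeal_prime K S v hv, h35_Dmap_single_one]
  have h1 : Ideal.map (RingOfIntegers.mapRingHom (algebraMap K L)) v.asIdeal =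
      ∏ i ∈ Finset.range (Module.finrank K L), (σ ^ i) • w.1.asIdeal :=
    h35_map_eq_prod_smul σ hσ v hsplit w.1.asIdeal
  have h2 : ((∏ i ∈ Finset.range (Module.finrank K L), (σ ^ i) • w.1.asIdeal : Ideal (𝓞 L)) :
      FractionalIdeal (𝓞 L)⁰ L) = ∏ i ∈ Finset.range (Module.finrank K L),
        (((σ ^ i) • w.1.asIdeal : Ideal (𝓞 L)) : FractionalIdeal (𝓞 L)⁰ L) :=
    map_prod (FractionalIdeal.coeIdealHom (𝓞 L)⁰ L) _ _
  rw [h1, h2, h35_divIdeal_prod]
  · refine Finset.sum_congr rfl fun i _ => ?_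
    rw [h35_Dmap_single_one]
    rfl
  · intro i _
    rw [FractionalIdeal.coeIdeal_ne_zero]
    intro h
    have h3 : w.1.asIdeal = (σ ^ i)⁻¹ • ((σ ^ i) • w.1.asIdeal) := (inv_smul_smul _ _).symm
    rw [h, Ideal.smul_bot] at h3
    exact w.1.ne_bot h3

variable (K L S)

/-- The second inequality on the level of `X = J × Div`: a quotient of `X_K` killing the
principal elements and the elements whose extension to `L` is a `σ`-norm has order at most
`[L : K]`. -/
theorem h35_glob_second_aux (σ : L ≃ₐ[K] L) (hσ : ∀ τ : L ≃ₐ[K] L, τ ∈ Subgroup.zpowers σ)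
    {Q : Type*} [CommGroup Q] (m : h25_X K S →* Q) (hsurj : Function.Surjective m)
    (hdiag : ∀ x : Kˣ, m (h25_diag K S x) = 1)
    (hN : ∀ (x : h25_X K S) (y : h25_X L S), h25_Xmap S (algebraMap K L) x =
      ∏ i ∈ Finset.range (Module.finrank K L),
        h25_Xmap S ((σ ^ i : L ≃ₐ[K] L) : L →+* L) y → m x = 1) :
    Finite Q ∧ Nat.card Q ≤ Module.finrank K L := by
  classical
  let πJ : h35_Fam K (h35_qS S) → Q := fun φ =>
    if h : h35_IsEquivFam K (h35_qS S) φ then m (h35_toJ K S φ h, 1) else 1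
  let πI : (Ideal (𝓞 K))⁰ →* Q := m.comp ((MonoidHom.inr _ _).comp (h35_divHom K S))
  have hπJ : ∀ φ (h : h35_IsEquivFam K (h35_qS S) φ), πJ φ = m (h35_toJ K S φ h, 1) :=
    fun φ h => dif_pos h
  have hπI : ∀ I, πI I = m (1, h35_divHom K S I) := fun I => rfl
  refine h35_second_ineq K L (h35_qS S) ?hq πJ πI ?hJmul ?hJpow ?hdiag ?hS ?hsplit ?hgen
  case hq =>
    intro s s' h
    exact Subtype.ext (Subtype.ext h)
  case hJmul =>
    intro φ φ' h h'
    rw [hπJ _ h, hπJ _ h', hπJ _ (h35_isEquivFam_mul K _ h h'), ← map_mul]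
    rfl
  case hJpow =>
    intro ρ hρ
    have hρd : h35_IsEquivFam K (h35_qS S) (ρ ^ Module.finrank K L) :=
      fun s => ((h35_toJ K S ρ hρ s) ^ Module.finrank K L).2
    rw [hπJ _ hρd]
    apply hN _ (h25_Jmap S (algebraMap K L) (h35_toJ K S ρ hρ), 1)
    have h1 : ∀ i : ℕ, h25_Xmap S ((σ ^ i : L ≃ₐ[K] L) : L →+* L)
        (h25_Jmap S (algebraMap K L) (h35_toJ K S ρ hρ), 1) =
        (h25_Jmap S (algebraMap K L) (h35_toJ K S ρ hρ), 1) := by
      intro i
      refine Prod.ext ?_ ?_
      · funext s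
        apply Subtype.ext
        funext j'
        show (h35_toJ K S ρ hρ s).1
            ((j'.comp ((σ ^ i : L ≃ₐ[K] L) : L →+* L)).comp (algebraMap K L)) =
          (h35_toJ K S ρ hρ s).1 (j'.comp (algebraMap K L))
        have hj : (j'.comp ((σ ^ i : L ≃ₐ[K] L) : L →+* L)).comp (algebraMap K L) =
            j'.comp (algebraMap K L) := by
          refine RingHom.ext fun x => ?_
          show j' ((σ ^ i) (algebraMap K L x)) = j' (algebraMap K L x)
          rw [AlgEquiv.commutes]
        rw [hj]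
      · show (AddMonoidHom.toMultiplicative (h25_Dmap S ((σ ^ i : L ≃ₐ[K] L) : L →+* L))) 1 = 1
        exact map_one _
    rw [Finset.prod_congr rfl (fun i _ => h1 i), Finset.prod_const, Finset.card_range]
    refine Prod.ext ?_ ?_
    · rfl
    · show (AddMonoidHom.toMultiplicative (h25_Dmap S (algebraMap K L))) 1 =
        (1 : Multiplicative (h25_Div L S)) ^ Module.finrank K L
      rw [map_one, one_pow]
  case hdiag =>
    intro a ha
    have haK : (a : K) ≠ 0 := by simpa using ha
    rw [hπJ _ (h35_isEquivFam_diag K _ _ _), hπI, ← map_mul]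
    have h1 : ((h35_toJ K S _ (h35_isEquivFam_diag K (h35_qS S) (a : K) haK), 1) : h25_X K S) *
        (1, h35_divHom K S (h35_spanNZ a ha)) = h25_diag K S (Units.mk0 (a : K) haK) := by
      refine Prod.ext ?_ ?_
      · show h35_toJ K S _ (h35_isEquivFam_diag K (h35_qS S) (a : K) haK) * 1 = _
        rw [mul_one]
        funext s
        apply Subtype.ext
        funext j
        apply Units.ext
        rfl
      · show 1 * h35_divHom K S (h35_spanNZ a ha) =
          Multiplicative.ofAdd (h25_div K S (Units.mk0 (a : K) haK))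
        rw [one_mul, h35_divHom_apply, h35_spanNZ_coe, FractionalIdeal.coeIdeal_span_singleton]
        rfl
    rw [h1, hdiag]
  case hS =>
    rintro v ⟨s, hs⟩
    rw [hπI]
    have h1 : h35_divHom K S (primeIdeal v) = 1 := by
      rw [h35_divHom_apply]
      show Multiplicative.ofAdd (h25_divIdeal K S (v.asIdeal : FractionalIdeal (𝓞 K)⁰ K)) = 1
      rw [h35_divIdeal_above K S v ⟨s.1, s.2, hs⟩]
      rfl
    rw [h1]
    exact map_one m
  case hsplit =>
    intro v hv hsp
    have hv' : ¬ h25_above K S v := by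
      rintro ⟨q, hq, h⟩
      exact hv ⟨q, hq⟩ h
    rw [hπI]
    obtain ⟨⟨w, hwp, hwo⟩⟩ := Ideal.nonempty_primesOver (S := 𝓞 L) v.asIdeal
    have hw0 : w ≠ ⊥ := h84_ne_bot_of_liesOver K L v.asIdeal v.ne_bot w hwo
    have hw' : ¬ h25_above L S ⟨w, hwp, hw0⟩ := by
      rintro ⟨q, hq, h⟩
      apply hv'
      refine ⟨q, hq, ?_⟩
      rw [hwo.over, Ideal.under_def, Ideal.mem_comap]
      simpa using h
    apply hN _ (1, Multiplicative.ofAdd (Finsupp.single ⟨⟨w, hwp, hw0⟩, hw'⟩ 1))
    refine Prod.ext ?_ ?_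
    · rw [Prod.fst_prod]
      show h25_Jmap S (algebraMap K L) 1 = ∏ i ∈ Finset.range (Module.finrank K L),
        h25_Jmap S ((σ ^ i : L ≃ₐ[K] L) : L →+* L) 1
      simp
    · rw [Prod.snd_prod]
      show Multiplicative.ofAdd (h25_Dmap S (algebraMap K L)
          (h25_divIdeal K S (v.asIdeal : FractionalIdeal (𝓞 K)⁰ K))) =
        ∏ i ∈ Finset.range (Module.finrank K L), Multiplicative.ofAdd
          (h25_Dmap S ((σ ^ i : L ≃ₐ[K] L) : L →+* L)
            (Finsupp.single ⟨⟨w, hwp, hw0⟩, hw'⟩ 1))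
      rw [h35_Dmap_split σ hσ v hv' hsp ⟨⟨w, hwp, hw0⟩, hw'⟩ hwo, ofAdd_sum]
  case hgen =>
    intro x
    obtain ⟨⟨φ, D⟩, rfl⟩ := hsurj x
    obtain ⟨I₁, I₂, h⟩ := h35_exists_divHom K S D
    refine ⟨fun s => (φ s).1, I₁, I₂, fun s => (φ s).2, ?_⟩
    rw [hπJ _ (fun s => (φ s).2), hπI, hπI, ← map_mul, ← map_mul]
    congr 1
    refine Prod.ext ?_ ?_
    · show φ * 1 = h35_toJ K S (fun s => (φ s).1) (fun s => (φ s).2) * 1
      rfl
    · show D * h35_divHom K S I₂ = 1 * h35_divHom K S I₁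
      rw [h, one_mul]

end Main

section RelIndex

universe u v

/-- a bound for a relative index from a bound for all quotients -/
theorem h35_relIndex_le_of {A : Type u} {B : Type v} [CommGroup A] [CommGroup B] (e : A →* B)
    (N : Subgroup B) (d : ℕ)
    (h : ∀ (Q : Type v) [CommGroup Q] (θ : A →* Q), Function.Surjective θ →
      (∀ a, e a ∈ N → θ a = 1) → Finite Q ∧ Nat.card Q ≤ d) :
    N.relIndex e.range ≠ 0 ∧ N.relIndex e.range ≤ d := by
  obtain ⟨hfin, hcard⟩ := h (e.range ⧸ N.subgroupOf e.range)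
    ((QuotientGroup.mk' (N.subgroupOf e.range)).comp e.rangeRestrict)
    ((QuotientGroup.mk'_surjective _).comp e.rangeRestrict_surjective)
    (fun a ha => by
      rw [MonoidHom.comp_apply, QuotientGroup.mk'_apply, QuotientGroup.eq_one_iff]
      exact Subgroup.mem_subgroupOf.mpr ha)
  have hidx : N.relIndex e.range = Nat.card (e.range ⧸ N.subgroupOf e.range) := by
    rw [Subgroup.relIndex, Subgroup.index_eq_card]
  rw [hidx]
  exact ⟨Nat.card_pos.ne', hcard⟩

end RelIndex

section Final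

variable (K L : Type*) [Field K] [NumberField K] [Field L] [NumberField L] [Algebra K L]
  [IsGalois K L] (S : Finset Nat.Primes)

/-- **The second inequality in the `h25` carrier** (weak hypotheses): for a cyclic extension
`L / K` of number fields with generator `σ`, the index of `ext(C_K) ∩ N_σ(C_L)` in `ext(C_K)` is
finite and at most `[L : K]`.  The two hypotheses say that extension and the Galois action
preserve principal elements (row GLOB-FUNC). -/
theorem h35_glob_second_ineq' (σ : L ≃ₐ[K] L) (hσ : ∀ τ : L ≃ₐ[K] L, τ ∈ Subgroup.zpowers σ)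
    (hnat : ∀ x : Kˣ, h25_Xmap S (algebraMap K L) (h25_diag K S x) ∈ (h25_diag L S).range)
    (hnatσ : ∀ (τ : L ≃ₐ[K] L) (x : Lˣ),
      h25_Xmap S (τ : L →+* L) (h25_diag L S x) ∈ (h25_diag L S).range) :
    (h25_Nm S σ (Module.finrank K L)).range.relIndex (h25_Cmap S (algebraMap K L)).range ≠ 0 ∧
      (h25_Nm S σ (Module.finrank K L)).range.relIndex (h25_Cmap S (algebraMap K L)).range ≤
        Module.finrank K L := by
  apply h35_relIndex_le_of
  intro Q _ θ hθsurj hθ
  refine h35_glob_second_aux K L S σ hσ (θ.comp (h25_mk K S))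
    (hθsurj.comp (h25_mk_surjective K S))
    (fun x => by rw [MonoidHom.comp_apply, h25_mk_diag, map_one]) ?_
  intro x y hxy
  apply hθ
  refine ⟨h25_mk L S y, ?_⟩
  rw [h35_Cmap_mk S _ hnat, hxy, map_prod]
  show ∏ i ∈ Finset.range (Module.finrank K L),
    h25_Cmap S ((σ ^ i : L ≃ₐ[K] L) : L →+* L) (h25_mk L S y) = _
  exact Finset.prod_congr rfl (fun i _ => h35_Cmap_mk S _ (hnatσ _) y)

/-- **The second inequality in the `h25` carrier**, with the naturality of the diagonal (row
GLOB-FUNC) as hypotheses in equational form. -/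
theorem h35_glob_second_ineq (σ : L ≃ₐ[K] L) (hσ : ∀ τ : L ≃ₐ[K] L, τ ∈ Subgroup.zpowers σ)
    (hnat : ∀ x : Kˣ, h25_Xmap S (algebraMap K L) (h25_diag K S x) =
      h25_diag L S (Units.map (algebraMap K L : K →* L) x))
    (hnatσ : ∀ (τ : L ≃ₐ[K] L) (x : Lˣ), h25_Xmap S (τ : L →+* L) (h25_diag L S x) =
      h25_diag L S (Units.map ((τ : L →+* L) : L →* L) x)) :
    (h25_Nm S σ (Module.finrank K L)).range.relIndex (h25_Cmap S (algebraMap K L)).range ≠ 0 ∧
      (h25_Nm S σ (Module.finrank K L)).range.relIndex (h25_Cmap S (algebraMap K L)).range ≤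
        Module.finrank K L :=
  h35_glob_second_ineq' K L S σ hσ (fun x => ⟨_, (hnat x).symm⟩) (fun τ x => ⟨_, (hnatσ τ x).symm⟩)

end Final

end Fermat.Agent.S55
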