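import Fermat.Agent.S55.h25_GlobDefs

/-!
# S55 / GLOB-FUNC (helper66): naturality of the diagonal

`h66_Xmap_diag` : `h25_Xmap S f (h25_diag K S x) = h25_diag K' S (Units.map f x)` for a field
embedding `f : K →+* K'` of number fields; hence `h66_Cmap_mk` (the unconditional form of
`h25_Cmap_mk_of`).
-/

set_option autoImplicit false

open IsDedekindDomain NumberField
open scoped nonZeroDivisors

namespace Fermat.Agent.S55

section

variable {K : Type*} [Field K] [NumberField K] {K' : Type*} [Field K'] [NumberField K']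
variable (S : Finset Nat.Primes)

set_option linter.unusedSectionVars false

theorem h66_mapRingHom_injective (f : K →+* K') :
    Function.Injective (RingOfIntegers.mapRingHom f) := by
  intro a b h
  apply RingOfIntegers.ext
  apply f.injective
  have := congrArg (fun x : 𝓞 K' => (x : K')) h
  simpa using this

theorem h66_Dmap_apply (f : K →+* K') (d : h25_Div K S) :
    h25_Dmap S f d = d.sum (fun v n => n • h25_divIdeal K' S
        ((Ideal.map (RingOfIntegers.mapRingHom f) v.1.asIdeal : Ideal (𝓞 K')) :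
          FractionalIdeal (𝓞 K')⁰ K')) := by
  unfold h25_Dmap
  rw [Finsupp.liftAddHom_apply]
  rfl

/-- the ideal form of the naturality of divisors. -/
theorem h66_count_map (f : K →+* K') (w : h25_Pl K' S) (I : Ideal (𝓞 K)) (hI : I ≠ ⊥) :
    FractionalIdeal.count K' w.1
        ((Ideal.map (RingOfIntegers.mapRingHom f) I : Ideal (𝓞 K')) :
          FractionalIdeal (𝓞 K')⁰ K')
      = h25_Dmap S f (h25_divIdeal K S (I : FractionalIdeal (𝓞 K)⁰ K)) w := by
  classical
  have hinj := h66_mapRingHom_injective f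
  have hmap0 : ∀ J : Ideal (𝓞 K), J ≠ ⊥ →
      ((Ideal.map (RingOfIntegers.mapRingHom f) J : Ideal (𝓞 K')) :
          FractionalIdeal (𝓞 K')⁰ K') ≠ 0 := by
    intro J hJ
    rw [Ne, FractionalIdeal.coeIdeal_eq_zero, Ideal.map_eq_bot_iff_of_injective hinj]
    exact hJ
  induction I using UniqueFactorizationMonoid.induction_on_prime with
  | h₁ => exact absurd rfl hI
  | h₂ I hu =>
    have h1 : I = ⊤ := Ideal.isUnit_iff.1 hu
    subst h1
    have e1 : ((⊤ : Ideal (𝓞 K)) : FractionalIdeal (𝓞 K)⁰ K) = 1 := FractionalIdeal.coeIdeal_top _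
    rw [Ideal.map_top, FractionalIdeal.coeIdeal_top, FractionalIdeal.count_one, e1,
      h25_divIdeal_one, map_zero]
    rfl
  | h₃ a p ha hp ih =>
    have hp0 : p ≠ ⊥ := hp.ne_zero
    have ha0 : a ≠ ⊥ := ha
    rw [Ideal.map_mul, FractionalIdeal.coeIdeal_mul, FractionalIdeal.coeIdeal_mul,
      FractionalIdeal.count_mul K' w.1 (hmap0 p hp0) (hmap0 a ha0),
      h25_divIdeal_mul K S (FractionalIdeal.coeIdeal_ne_zero.2 hp0)
        (FractionalIdeal.coeIdeal_ne_zero.2 ha0), map_add, Finsupp.add_apply, ih ha0]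
    congr 1
    -- the prime case
    have hpp : p.IsPrime := (Ideal.prime_iff_isPrime hp0).1 hp
    let v : HeightOneSpectrum (𝓞 K) := ⟨p, hpp, hp0⟩
    by_cases hv : h25_above K S v
    · -- `p` above `S`: both sides vanish
      have hd : h25_divIdeal K S (p : FractionalIdeal (𝓞 K)⁰ K) = 0 := by
        ext u
        rw [h25_divIdeal_apply, Finsupp.zero_apply]
        apply FractionalIdeal.count_maximal_coprime K u.1 (w := v)
        intro h
        exact u.2 (h ▸ hv)
      rw [hd, map_zero, Finsupp.zero_apply]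
      by_contra hne
      rw [FractionalIdeal.count_coe K' w.1
        (by rw [Ne, Ideal.zero_eq_bot, Ideal.map_eq_bot_iff_of_injective hinj]; exact hp0)] at hne
      have hne' : (Associates.mk w.1.asIdeal).count
          (Associates.mk (Ideal.map (RingOfIntegers.mapRingHom f) p)).factors ≠ 0 := by
        intro h0; apply hne; rw [h0]; rfl
      rw [Associates.count_ne_zero_iff_dvd
        (by rw [Ne, Ideal.zero_eq_bot, Ideal.map_eq_bot_iff_of_injective hinj]; exact hp0)
        w.1.irreducible, Ideal.dvd_iff_le] at hne'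
      obtain ⟨q, hqS, hq⟩ := hv
      apply w.2
      refine ⟨q, hqS, hne' ?_⟩
      have : ((((q : Nat.Primes) : ℕ) : 𝓞 K')) = RingOfIntegers.mapRingHom f (((q : Nat.Primes) : ℕ) : 𝓞 K) := by
        rw [map_natCast]
      rw [this]
      exact Ideal.mem_map_of_mem _ hq
    · -- `p` not above `S`: the divisor of `p` is the basis vector at `p`
      have hd : h25_divIdeal K S (p : FractionalIdeal (𝓞 K)⁰ K) = Finsupp.single ⟨v, hv⟩ 1 := by
        ext u
        rw [h25_divIdeal_apply, Finsupp.single_apply]
        have := FractionalIdeal.count_maximal K u.1 v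
        rw [show (v.asIdeal : FractionalIdeal (𝓞 K)⁰ K) = (p : FractionalIdeal (𝓞 K)⁰ K) from rfl]
          at this
        rw [this]
        by_cases h : v = u.1
        · rw [if_pos h, if_pos (Subtype.ext h)]
        · rw [if_neg h, if_neg (fun h' => h (congrArg Subtype.val h'))]
      rw [hd, h66_Dmap_apply, Finsupp.sum_single_index (by simp), one_smul, h25_divIdeal_apply]

/-- naturality of the divisor map: `Dmap (div x) = div (f x)`. -/
theorem h66_Dmap_div (f : K →+* K') (x : Kˣ) :
    h25_Dmap S f (h25_div K S x) = h25_div K' S (Units.map (f : K →* K') x) := by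
  ext w
  -- the integral case
  have hint : ∀ a : 𝓞 K, a ≠ 0 → ∀ y : Kˣ, (y : K) = (a : K) →
      h25_Dmap S f (h25_div K S y) w = h25_div K' S (Units.map (f : K →* K') y) w := by
    intro a ha y hy
    have h1 := h66_count_map S f w (Ideal.span {a})
      (by rw [Ne, Ideal.span_singleton_eq_bot]; exact ha)
    rw [Ideal.map_span, Set.image_singleton, FractionalIdeal.coeIdeal_span_singleton,
      FractionalIdeal.coeIdeal_span_singleton] at h1
    unfold h25_div
    rw [h25_divIdeal_apply, Units.coe_map, hy]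
    exact h1.symm
  obtain ⟨a, b, hb, hab⟩ := IsFractionRing.div_surjective (A := 𝓞 K) (x : K)
  have hb0 : b ≠ 0 := nonZeroDivisors.ne_zero hb
  have hbK : (algebraMap (𝓞 K) K b) ≠ 0 := by
    rw [Ne, map_eq_zero_iff _ (IsFractionRing.injective (𝓞 K) K)]; exact hb0
  have ha0 : a ≠ 0 := by
    rintro rfl
    rw [map_zero, zero_div] at hab
    exact x.ne_zero hab.symm
  have haK : (algebraMap (𝓞 K) K a) ≠ 0 := by
    rw [Ne, map_eq_zero_iff _ (IsFractionRing.injective (𝓞 K) K)]; exact ha0
  have hmul : x * Units.mk0 _ hbK = Units.mk0 _ haK := by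
    ext
    rw [Units.val_mul, Units.val_mk0, Units.val_mk0, ← hab, div_mul_cancel₀ _ hbK]
  have h1 := hint a ha0 (Units.mk0 _ haK) rfl
  have h2 := hint b hb0 (Units.mk0 _ hbK) rfl
  rw [← hmul, h25_div_mul, map_add, Finsupp.add_apply, map_mul, h25_div_mul,
    Finsupp.add_apply, h2] at h1
  exact add_right_cancel h1

/-- **GLOB-FUNC**: naturality of the diagonal. -/
theorem h66_Xmap_diag (f : K →+* K') (x : Kˣ) :
    h25_Xmap S f (h25_diag K S x) = h25_diag K' S (Units.map (f : K →* K') x) := by
  refine Prod.ext ?_ ?_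
  · rfl
  · exact congrArg Multiplicative.ofAdd (h66_Dmap_div S f x)

/-- the unconditional form of `h25_Cmap_mk_of`. -/
theorem h66_Cmap_mk (f : K →+* K') (x : h25_X K S) :
    h25_Cmap S f (h25_mk K S x) = h25_mk K' S (h25_Xmap S f x) :=
  h25_Cmap_mk_of S f (h66_Xmap_diag S f) x

end

end Fermat.Agent.S55
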