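import Mathlib
import Fermat.Agent.S55.h35_GlobSecond
import Fermat.Agent.S55.h66_GlobFunc

/-!
# S55, GLOB layer: the second inequality in the `h25` carrier, unconditional

`h35_glob_second` : for a cyclic extension `L / K` of number fields with generator `σ` and every
finite set `S` of rational primes, the index of `ext(C_K) ∩ N_σ(C_L)` in `ext(C_K)`
(`ext = h25_Cmap S (algebraMap K L)`, `N_σ = h25_Nm S σ [L:K]`) is finite and at most `[L : K]`.
This is `h35_glob_second_ineq` with its two naturality hypotheses discharged by
`h66_Xmap_diag`.
-/

set_option autoImplicit false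

namespace Fermat.Agent.S55

open NumberField IsDedekindDomain

/-- **The second inequality** (range form, no hypothesis beyond cyclicity). -/
theorem h35_glob_second (K L : Type*) [Field K] [NumberField K] [Field L] [NumberField L]
    [Algebra K L] [IsGalois K L] (S : Finset Nat.Primes) (σ : L ≃ₐ[K] L)
    (hσ : ∀ τ : L ≃ₐ[K] L, τ ∈ Subgroup.zpowers σ) :
    (h25_Nm S σ (Module.finrank K L)).range.relIndex (h25_Cmap S (algebraMap K L)).range ≠ 0 ∧
      (h25_Nm S σ (Module.finrank K L)).range.relIndex (h25_Cmap S (algebraMap K L)).range ≤
        Module.finrank K L :=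
  h35_glob_second_ineq K L S σ hσ (fun x => h66_Xmap_diag S _ x) (fun _ x => h66_Xmap_diag S _ x)

end Fermat.Agent.S55
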