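import Mathlib
import Fermat.Agent.S55.h25_GlobDefs

/-!
# S55 GLOB-2ND-ASM (row 272), conditional wrapper

The second inequality on `h25_C L S` in the `ker (σ - 1)` form consumed by GLOB-CFA,
deduced from
* the range form (row 256, `h35_glob_second_ineq`),
* functoriality of `h25_Cmap` (row GLOB-FUNC),
* Galois descent `C_L^{Gal(L/K)} = C_K` (row GLOB-DESC),
all taken as hypotheses here; the unconditional statement is a one-line instantiation.
-/

set_option autoImplicit false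

open IsDedekindDomain NumberField
open scoped nonZeroDivisors

namespace Fermat.Agent.S55

noncomputable section

section

variable {K : Type*} [Field K] [NumberField K] {L : Type*} [Field L] [NumberField L] [Algebra K L]
variable (S : Finset Nat.Primes)

/-- an element of `C_L` fixed by `σ` is fixed by every power of `σ` (from functoriality). -/
theorem h78_Cmap_pow_fixed
    (hid : ∀ c : h25_C L S, h25_Cmap S (RingHom.id L) c = c)
    (hcomp : ∀ (g f : L →+* L) (c : h25_C L S),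
      h25_Cmap S (g.comp f) c = h25_Cmap S g (h25_Cmap S f c))
    (σ : L ≃ₐ[K] L) (c : h25_C L S) (hc : h25_Cmap S (σ : L →+* L) c = c) (k : ℕ) :
    h25_Cmap S ((σ ^ k : L ≃ₐ[K] L) : L →+* L) c = c := by
  induction k with
  | zero =>
    have h1 : (((σ ^ 0 : L ≃ₐ[K] L)) : L →+* L) = RingHom.id L := by
      ext x; simp
    rw [h1, hid]
  | succ k ih =>
    have h1 : (((σ ^ (k + 1) : L ≃ₐ[K] L)) : L →+* L) =
        ((σ ^ k : L ≃ₐ[K] L) : L →+* L).comp (σ : L →+* L) := by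
      ext x
      simp [pow_succ, AlgEquiv.mul_apply]
    rw [h1, hcomp, hc, ih]

/-- an element of `C_L` fixed by `σ` is fixed by `σ⁻¹`. -/
theorem h78_Cmap_inv_fixed
    (hid : ∀ c : h25_C L S, h25_Cmap S (RingHom.id L) c = c)
    (hcomp : ∀ (g f : L →+* L) (c : h25_C L S),
      h25_Cmap S (g.comp f) c = h25_Cmap S g (h25_Cmap S f c))
    (σ : L ≃ₐ[K] L) (c : h25_C L S) (hc : h25_Cmap S (σ : L →+* L) c = c) :
    h25_Cmap S ((σ⁻¹ : L ≃ₐ[K] L) : L →+* L) c = c := by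
  have h1 : ((σ⁻¹ : L ≃ₐ[K] L) : L →+* L).comp (σ : L →+* L) = RingHom.id L := by
    ext x
    show (σ⁻¹ : L ≃ₐ[K] L) (σ x) = x
    rw [← AlgEquiv.mul_apply, inv_mul_cancel, AlgEquiv.one_apply]
  have h2 := hcomp ((σ⁻¹ : L ≃ₐ[K] L) : L →+* L) (σ : L →+* L) c
  rw [h1, hid, hc] at h2
  exact h2.symm

/-- an element of `C_L` fixed by `σ` is fixed by the group generated by `σ`. -/
theorem h78_Cmap_zpowers_fixed
    (hid : ∀ c : h25_C L S, h25_Cmap S (RingHom.id L) c = c)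
    (hcomp : ∀ (g f : L →+* L) (c : h25_C L S),
      h25_Cmap S (g.comp f) c = h25_Cmap S g (h25_Cmap S f c))
    (σ : L ≃ₐ[K] L) (c : h25_C L S) (hc : h25_Cmap S (σ : L →+* L) c = c)
    (τ : L ≃ₐ[K] L) (hτ : τ ∈ Subgroup.zpowers σ) :
    h25_Cmap S (τ : L →+* L) c = c := by
  obtain ⟨k, rfl⟩ := Subgroup.mem_zpowers_iff.mp hτ
  obtain ⟨m, rfl | rfl⟩ := Int.eq_nat_or_neg k
  · rw [zpow_natCast]
    exact h78_Cmap_pow_fixed S hid hcomp σ c hc m
  · rw [zpow_neg, zpow_natCast, ← inv_pow]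
    exact h78_Cmap_pow_fixed S hid hcomp σ⁻¹ c (h78_Cmap_inv_fixed S hid hcomp σ c hc) m

theorem h78_mem_ker_Dm_iff (σ : L ≃ₐ[K] L) (c : h25_C L S) :
    c ∈ (h25_Dm S σ).ker ↔ h25_Cmap S (σ : L →+* L) c = c := by
  rw [MonoidHom.mem_ker]
  show h25_Cmap S (σ : L →+* L) c / c = 1 ↔ _
  rw [div_eq_one]

/-- `ker (σ - 1) = ext (C_K)` for a generator `σ`, from functoriality and descent. -/
theorem h78_ker_Dm_eq_range
    (hid : ∀ c : h25_C L S, h25_Cmap S (RingHom.id L) c = c)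
    (hcomp : ∀ (g f : L →+* L) (c : h25_C L S),
      h25_Cmap S (g.comp f) c = h25_Cmap S g (h25_Cmap S f c))
    (hdesc : ∀ c : h25_C L S, (∀ τ : L ≃ₐ[K] L, h25_Cmap S (τ : L →+* L) c = c) ↔
      c ∈ (h25_Cmap S (algebraMap K L)).range)
    (σ : L ≃ₐ[K] L) (hgen : ∀ τ : L ≃ₐ[K] L, τ ∈ Subgroup.zpowers σ) :
    (h25_Dm S σ).ker = (h25_Cmap S (algebraMap K L)).range := by
  ext c
  rw [h78_mem_ker_Dm_iff, ← hdesc c]
  exact ⟨fun hc τ => h78_Cmap_zpowers_fixed S hid hcomp σ c hc τ (hgen τ), fun h => h σ⟩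

/-- **GLOB-2ND-ASM, conditional form**: the `ker (σ - 1)` form of the second inequality from
the range form (row 256), functoriality (GLOB-FUNC) and descent (GLOB-DESC). -/
theorem h78_second_ineq_of
    (hid : ∀ c : h25_C L S, h25_Cmap S (RingHom.id L) c = c)
    (hcomp : ∀ (g f : L →+* L) (c : h25_C L S),
      h25_Cmap S (g.comp f) c = h25_Cmap S g (h25_Cmap S f c))
    (hdesc : ∀ c : h25_C L S, (∀ τ : L ≃ₐ[K] L, h25_Cmap S (τ : L →+* L) c = c) ↔
      c ∈ (h25_Cmap S (algebraMap K L)).range)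
    (σ : L ≃ₐ[K] L) (hgen : ∀ τ : L ≃ₐ[K] L, τ ∈ Subgroup.zpowers σ)
    (hsec : ((h25_Nm S σ (Module.finrank K L)).range).relIndex
      (h25_Cmap S (algebraMap K L)).range ≤ Module.finrank K L) :
    ((h25_Nm S σ (Module.finrank K L)).range).relIndex (h25_Dm S σ).ker ≤ Module.finrank K L := by
  rw [h78_ker_Dm_eq_range S hid hcomp hdesc σ hgen]
  exact hsec

end

end

end Fermat.Agent.S55
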