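import Mathlib

set_option autoImplicit false

/-!
# Herbrand indices in ambient (multiplicative) form

`E` is a commutative group with two endomorphisms `f`, `g` such that `f ∘ g = 1 = g ∘ f`.
For a subgroup `U` stable under `f` and `g` we put
`h92_hq f g U = [U ∩ ker f : g U]`.  The Herbrand quotient of `U` is
`h92_hq f g U / h92_hq g f U`.

* `h92_hq_finIndex` : invariance under passing to a finite-index stable subgroup;
* `h92_hq_sup` : multiplicativity for internal direct products;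
* `h92_mD σ`, `h92_mN σ p` : the maps `x ↦ σ x / x` and `x ↦ ∏_{k<p} σ^k x` for an action of a
  group element `σ` with `σ ^ p = 1`;
* `h92_hq_fixed`, `h92_hq_split` : Herbrand indices of the trivial rank one lattice and of the
  regular lattice `ℤ[ℤ/p]`;
* `h92_step` : the Herbrand indices of `U'` from those of `U = U' ∩ ⋂ ker ν_j`.
-/

namespace Fermat.Agent.S55

section Index

variable {E : Type*} [CommGroup E]

/-- The ambient Herbrand index `[U ∩ ker f : g U]`. -/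
noncomputable def h92_hq (f g : E →* E) (U : Subgroup E) : ℕ :=
  (U.map g).relIndex (U ⊓ f.ker)

theorem h92_hq_def (f g : E →* E) (U : Subgroup E) :
    h92_hq f g U = (U.map g).relIndex (U ⊓ f.ker) := rfl

/-- `[G : M] = [f G : f M] * [ker f : ker f ∩ M]`. -/
theorem h92_index_eq_map_relIndex_mul' {G G' : Type*} [CommGroup G] [CommGroup G']
    (f : G →* G') (M : Subgroup G) :
    M.index = (M.map f).relIndex f.range * M.relIndex f.ker := by
  have h1 : (M.map f).relIndex f.range = (M ⊔ f.ker).index := by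
    rw [MonoidHom.range_eq_map f, Subgroup.relIndex_map_map, top_sup_eq,
      Subgroup.relIndex_top_right]
  have h2 : M.relIndex (f.ker ⊔ M) = M.relIndex f.ker := Subgroup.relIndex_sup_right _ _
  have h3 : M.relIndex (M ⊔ f.ker) * (M ⊔ f.ker).index = M.index :=
    Subgroup.relIndex_mul_index le_sup_left
  rw [h1, ← h2, sup_comm f.ker M, mul_comm, h3]

/-- relative version: `[U : M] = [f U : f M] * [U ∩ ker f : M ∩ ker f]` for `M ≤ U`. -/
theorem h92_relIndex_eq_map_relIndex_mul (f : E →* E) {M U : Subgroup E} (hMU : M ≤ U) :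
    M.relIndex U = (M.map f).relIndex (U.map f) * (M ⊓ f.ker).relIndex (U ⊓ f.ker) := by
  have key := h92_index_eq_map_relIndex_mul' (f.comp U.subtype) (M.subgroupOf U)
  have e1 : (M.subgroupOf U).map (f.comp U.subtype) = M.map f := by
    rw [← Subgroup.map_map, Subgroup.subgroupOf_map_subtype, inf_eq_left.mpr hMU]
  have e2 : (f.comp U.subtype).range = U.map f := by
    rw [MonoidHom.range_comp, Subgroup.range_subtype]
  have e3 : (f.comp U.subtype).ker = (U ⊓ f.ker).subgroupOf U := by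
    rw [inf_comm, Subgroup.inf_subgroupOf_right]
    rfl
  have e4 : (M.subgroupOf U).relIndex ((U ⊓ f.ker).subgroupOf U) = M.relIndex (U ⊓ f.ker) :=
    Subgroup.relIndex_subgroupOf inf_le_left
  have e5 : M.relIndex (U ⊓ f.ker) = (M ⊓ f.ker).relIndex (U ⊓ f.ker) := by
    rw [← Subgroup.inf_relIndex_right M (U ⊓ f.ker), ← inf_assoc, inf_eq_left.mpr hMU]
  rw [e1, e2, e3, e4, e5] at key
  exact key

/-- Finite-index invariance of the Herbrand quotient, ambient form. -/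
theorem h92_hq_finIndex (f g : E →* E) (hfg : ∀ x, f (g x) = 1) (hgf : ∀ x, g (f x) = 1)
    {M U : Subgroup E} (hMU : M ≤ U)
    (hfM : ∀ x ∈ M, f x ∈ M) (hgM : ∀ x ∈ M, g x ∈ M)
    (hfU : ∀ x ∈ U, f x ∈ U) (hgU : ∀ x ∈ U, g x ∈ U)
    (hidx : M.relIndex U ≠ 0) (h1 : h92_hq f g M ≠ 0) (h2 : h92_hq g f M ≠ 0) :
    h92_hq f g U ≠ 0 ∧ h92_hq g f U ≠ 0 ∧
      h92_hq f g U * h92_hq g f M = h92_hq g f U * h92_hq f g M := by
  simp only [h92_hq_def] at h1 h2 ⊢
  have gM_le_Mf : M.map g ≤ M ⊓ f.ker := by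
    rintro _ ⟨x, hx, rfl⟩
    exact ⟨hgM x hx, hfg x⟩
  have fM_le_Mg : M.map f ≤ M ⊓ g.ker := by
    rintro _ ⟨x, hx, rfl⟩
    exact ⟨hfM x hx, hgf x⟩
  have gU_le : U.map g ≤ U ⊓ f.ker := by
    rintro _ ⟨x, hx, rfl⟩
    exact ⟨hgU x hx, hfg x⟩
  have fU_le : U.map f ≤ U ⊓ g.ker := by
    rintro _ ⟨x, hx, rfl⟩
    exact ⟨hfU x hx, hgf x⟩
  have gM_le_gU : M.map g ≤ U.map g := Subgroup.map_mono hMU
  have fM_le_fU : M.map f ≤ U.map f := Subgroup.map_mono hMU
  have Mf_le : M ⊓ f.ker ≤ U ⊓ f.ker := inf_le_inf_right _ hMU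
  have Mg_le : M ⊓ g.ker ≤ U ⊓ g.ker := inf_le_inf_right _ hMU
  have c1 : (M.map g).relIndex (U.map g) * (U.map g).relIndex (U ⊓ f.ker)
      = (M.map g).relIndex (M ⊓ f.ker) * (M ⊓ f.ker).relIndex (U ⊓ f.ker) := by
    rw [Subgroup.relIndex_mul_relIndex _ _ _ gM_le_gU gU_le,
      Subgroup.relIndex_mul_relIndex _ _ _ gM_le_Mf Mf_le]
  have c2 : (M.map f).relIndex (U.map f) * (U.map f).relIndex (U ⊓ g.ker)
      = (M.map f).relIndex (M ⊓ g.ker) * (M ⊓ g.ker).relIndex (U ⊓ g.ker) := by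
    rw [Subgroup.relIndex_mul_relIndex _ _ _ fM_le_fU fU_le,
      Subgroup.relIndex_mul_relIndex _ _ _ fM_le_Mg Mg_le]
  have i1 := h92_relIndex_eq_map_relIndex_mul f hMU
  have i2 := h92_relIndex_eq_map_relIndex_mul g hMU
  set X := (U.map g).relIndex (U ⊓ f.ker)
  set Y := (U.map f).relIndex (U ⊓ g.ker)
  set X' := (M.map g).relIndex (M ⊓ f.ker)
  set Y' := (M.map f).relIndex (M ⊓ g.ker)
  set u := (M.map g).relIndex (U.map g)
  set v := (M ⊓ f.ker).relIndex (U ⊓ f.ker)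
  set w := (M.map f).relIndex (U.map f)
  set z := (M ⊓ g.ker).relIndex (U ⊓ g.ker)
  set idx := M.relIndex U
  have hv : v ≠ 0 := fun h => hidx (by rw [i1, h, mul_zero])
  have hw : w ≠ 0 := fun h => hidx (by rw [i1, h, zero_mul])
  have hu : u ≠ 0 := fun h => hidx (by rw [i2, h, zero_mul])
  have hz : z ≠ 0 := fun h => hidx (by rw [i2, h, mul_zero])
  have hX : X ≠ 0 := by
    intro h
    have : X' * v = 0 := by rw [← c1, h, mul_zero]
    rcases Nat.mul_eq_zero.mp this with h | h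
    · exact h1 h
    · exact hv h
  have hY : Y ≠ 0 := by
    intro h
    have : Y' * z = 0 := by rw [← c2, h, mul_zero]
    rcases Nat.mul_eq_zero.mp this with h | h
    · exact h2 h
    · exact hz h
  refine ⟨hX, hY, ?_⟩
  have key : (X * Y') * idx = (Y * X') * idx := by
    calc (X * Y') * idx = (u * X) * (Y' * z) := by rw [i2]; ring
      _ = (X' * v) * (w * Y) := by rw [c1, c2]
      _ = (Y * X') * idx := by rw [i1]; ring
  exact Nat.eq_of_mul_eq_mul_right (Nat.pos_of_ne_zero hidx) key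

/-- index of a "product" subgroup in a "product" subgroup. -/
theorem h92_relIndex_sup_sup {A B A₁ A₂ B₁ B₂ : Subgroup E} (hAB : A ⊓ B = ⊥)
    (hA₁ : A₁ ≤ A₂) (hA₂ : A₂ ≤ A) (hB₁ : B₁ ≤ B₂) (hB₂ : B₂ ≤ B) :
    (A₁ ⊔ B₁).relIndex (A₂ ⊔ B₂) = A₁.relIndex A₂ * B₁.relIndex B₂ := by
  have hbot : ∀ {a b : E}, a ∈ A → b ∈ B → a * b ∈ A → b = 1 := by
    intro a b ha hb hab
    have : b ∈ A ⊓ B := ⟨by simpa using A.mul_mem (A.inv_mem ha) hab, hb⟩
    rw [hAB] at this
    exact Subgroup.mem_bot.mp this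
  have hbot' : ∀ {a b : E}, a ∈ A → b ∈ B → a * b ∈ B → a = 1 := by
    intro a b ha hb hab
    have : a ∈ A ⊓ B := ⟨ha, by simpa using B.mul_mem hab (B.inv_mem hb)⟩
    rw [hAB] at this
    exact Subgroup.mem_bot.mp this
  have s1 : (A₁ ⊔ B₁).relIndex (A₂ ⊔ B₁) = A₁.relIndex A₂ := by
    have e : A₂ ⊔ B₁ = A₂ ⊔ (A₁ ⊔ B₁) := by
      rw [← sup_assoc, sup_eq_left.mpr hA₁]
    have e2 : (A₁ ⊔ B₁) ⊓ A₂ = A₁ := by
      apply le_antisymm
      · rintro x ⟨hx1, hx2⟩
        obtain ⟨a, ha, b, hb, rfl⟩ := Subgroup.mem_sup.mp hx1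
        have hb1 : b = 1 := hbot (hA₂ (hA₁ ha)) (hB₂ (hB₁ hb)) (hA₂ hx2)
        rw [hb1, mul_one]
        exact ha
      · exact le_inf le_sup_left hA₁
    rw [e, Subgroup.relIndex_sup_right, ← Subgroup.inf_relIndex_right, e2]
  have s2 : (A₂ ⊔ B₁).relIndex (A₂ ⊔ B₂) = B₁.relIndex B₂ := by
    have e : A₂ ⊔ B₂ = B₂ ⊔ (A₂ ⊔ B₁) := by
      rw [sup_comm A₂ B₁, ← sup_assoc, sup_eq_left.mpr hB₁, sup_comm]
    have e2 : (A₂ ⊔ B₁) ⊓ B₂ = B₁ := by
      apply le_antisymm
      · rintro x ⟨hx1, hx2⟩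
        obtain ⟨a, ha, b, hb, rfl⟩ := Subgroup.mem_sup.mp hx1
        have ha1 : a = 1 := hbot' (hA₂ ha) (hB₂ (hB₁ hb)) (hB₂ hx2)
        rw [ha1, one_mul]
        exact hb
      · exact le_inf le_sup_right hB₁
    rw [e, Subgroup.relIndex_sup_right, ← Subgroup.inf_relIndex_right, e2]
  rw [← s1, ← s2]
  exact (Subgroup.relIndex_mul_relIndex _ _ _ (sup_le_sup_right hA₁ _)
    (sup_le_sup_left hB₁ _)).symm

/-- Multiplicativity of the Herbrand index for internal direct products. -/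
theorem h92_hq_sup (f g : E →* E) {A B : Subgroup E} (hAB : A ⊓ B = ⊥)
    (hfA : ∀ x ∈ A, f x ∈ A) (hgA : ∀ x ∈ A, g x ∈ A)
    (hfB : ∀ x ∈ B, f x ∈ B) (hgB : ∀ x ∈ B, g x ∈ B) (hfg : ∀ x, f (g x) = 1) :
    h92_hq f g (A ⊔ B) = h92_hq f g A * h92_hq f g B := by
  simp only [h92_hq_def]
  have e1 : (A ⊔ B).map g = A.map g ⊔ B.map g := Subgroup.map_sup _ _ _
  have e2 : (A ⊔ B) ⊓ f.ker = (A ⊓ f.ker) ⊔ (B ⊓ f.ker) := by
    apply le_antisymm
    · rintro x ⟨hx1, hx2⟩
      obtain ⟨a, ha, b, hb, rfl⟩ := Subgroup.mem_sup.mp hx1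
      have hx2 : f a * f b = 1 := by
        have h : a * b ∈ f.ker := hx2
        rwa [MonoidHom.mem_ker, map_mul] at h
      have hfa : f a ∈ A ⊓ B := by
        refine ⟨hfA a ha, ?_⟩
        have : f a = (f b)⁻¹ := eq_inv_of_mul_eq_one_left hx2
        rw [this]
        exact B.inv_mem (hfB b hb)
      rw [hAB, Subgroup.mem_bot] at hfa
      have hfb : f b = 1 := by rwa [hfa, one_mul] at hx2
      exact Subgroup.mul_mem_sup ⟨ha, hfa⟩ ⟨hb, hfb⟩
    · exact sup_le (inf_le_inf_right _ le_sup_left) (inf_le_inf_right _ le_sup_right)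
  rw [e1, e2]
  refine h92_relIndex_sup_sup hAB ?_ inf_le_left ?_ inf_le_left
  · rintro _ ⟨x, hx, rfl⟩
    exact ⟨hgA x hx, hfg x⟩
  · rintro _ ⟨x, hx, rfl⟩
    exact ⟨hgB x hx, hfg x⟩

end Index

section Cyclic

open Finset

variable {G : Type*} [Group G] {E : Type*} [CommGroup E] [MulDistribMulAction G E]

/-- `x ↦ σ • x / x`. -/
noncomputable def h92_mD (σ : G) : E →* E :=
  MulDistribMulAction.toMonoidHom E σ / MonoidHom.id E

/-- `x ↦ ∏_{k<p} σ^k • x`. -/
noncomputable def h92_mN (σ : G) (p : ℕ) : E →* E :=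
  ∏ k ∈ range p, MulDistribMulAction.toMonoidHom E (σ ^ k)

theorem h92_mD_apply (σ : G) (x : E) : h92_mD σ x = σ • x / x := rfl

theorem h92_mN_apply (σ : G) (p : ℕ) (x : E) : h92_mN σ p x = ∏ k ∈ range p, σ ^ k • x := by
  simp [h92_mN]

theorem h92_mN_smul {σ : G} {p : ℕ} (hσ : σ ^ p = 1) (x : E) :
    h92_mN σ p (σ • x) = h92_mN σ p x := by
  rw [h92_mN_apply, h92_mN_apply]
  have h1 : ∀ k, σ ^ k • σ • x = σ ^ (k + 1) • x := fun k => by rw [pow_succ, mul_smul]
  simp_rw [h1]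
  have h2 := Finset.prod_range_succ' (fun k => σ ^ k • x) p
  have h3 := Finset.prod_range_succ (fun k => σ ^ k • x) p
  rw [h3] at h2
  simp only [hσ, pow_zero] at h2
  exact (mul_right_cancel h2).symm

theorem h92_smul_mN {σ : G} {p : ℕ} (hσ : σ ^ p = 1) (x : E) :
    σ • h92_mN σ p x = h92_mN σ p x := by
  have h1 : σ • h92_mN σ p x = h92_mN σ p (σ • x) := by
    rw [h92_mN_apply, h92_mN_apply, Finset.smul_prod']
    refine Finset.prod_congr rfl fun k _ => ?_
    rw [← mul_smul, ← mul_smul, ← pow_succ, ← pow_succ']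
  rw [h1, h92_mN_smul hσ]

theorem h92_mD_mN {σ : G} {p : ℕ} (hσ : σ ^ p = 1) (x : E) : h92_mD σ (h92_mN σ p x) = 1 := by
  rw [h92_mD_apply, h92_smul_mN hσ, div_self']

theorem h92_mN_mD {σ : G} {p : ℕ} (hσ : σ ^ p = 1) (x : E) : h92_mN σ p (h92_mD σ x) = 1 := by
  rw [h92_mD_apply, map_div, h92_mN_smul hσ, div_self']

theorem h92_mN_of_fixed {σ : G} (p : ℕ) {x : E} (hx : σ • x = x) : h92_mN σ p x = x ^ p := by
  rw [h92_mN_apply]
  have : ∀ k : ℕ, σ ^ k • x = x := by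
    intro k
    induction k with
    | zero => simp
    | succ k ih => rw [pow_succ, mul_smul, hx, ih]
  simp [this]

theorem h92_pow_smul_mem {σ : G} {U : Subgroup E} (hU : ∀ x ∈ U, σ • x ∈ U) (k : ℕ) {x : E}
    (hx : x ∈ U) : σ ^ k • x ∈ U := by
  induction k with
  | zero => simpa using hx
  | succ k ih => rw [pow_succ', mul_smul]; exact hU _ ih

theorem h92_mD_mem {σ : G} {U : Subgroup E} (hU : ∀ x ∈ U, σ • x ∈ U) {x : E} (hx : x ∈ U) :
    h92_mD σ x ∈ U := by
  rw [h92_mD_apply]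
  exact U.div_mem (hU x hx) hx

theorem h92_mN_mem {σ : G} (p : ℕ) {U : Subgroup E} (hU : ∀ x ∈ U, σ • x ∈ U) {x : E}
    (hx : x ∈ U) : h92_mN σ p x ∈ U := by
  rw [h92_mN_apply]
  exact U.prod_mem fun k _ => h92_pow_smul_mem hU k hx

/-- `σ^k x / x ∈ D(U)`. -/
theorem h92_pow_smul_div_mem {σ : G} {U : Subgroup E} (hU : ∀ x ∈ U, σ • x ∈ U) (k : ℕ) {x : E}
    (hx : x ∈ U) : σ ^ k • x / x ∈ U.map (h92_mD σ) := by
  induction k with
  | zero => simp
  | succ k ih =>
    have h1 : σ ^ (k + 1) • x / x = h92_mD σ (σ ^ k • x) * (σ ^ k • x / x) := by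
      rw [h92_mD_apply, pow_succ', mul_smul]
      simp
    rw [h1]
    exact Subgroup.mul_mem _ (Subgroup.mem_map_of_mem _ (h92_pow_smul_mem hU k hx)) ih

end Cyclic

section Lattice

open Finset

variable {E : Type*} [CommGroup E] {J : Type*} [Fintype J]

/-- `e ↦ ∏_j a_j ^ e_j`. -/
noncomputable def h92_zpowHom (a : J → E) : Multiplicative (J → ℤ) →* E where
  toFun e := ∏ j, a j ^ (Multiplicative.toAdd e j)
  map_one' := by simp
  map_mul' x y := by
    simp only [toAdd_mul, Pi.add_apply, zpow_add, Finset.prod_mul_distrib]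

theorem h92_zpowHom_apply (a : J → E) (e : J → ℤ) :
    h92_zpowHom a (Multiplicative.ofAdd e) = ∏ j, a j ^ e j := rfl

theorem h92_mem_range_zpowHom (a : J → E) (x : E) :
    x ∈ (h92_zpowHom a).range ↔ ∃ e : J → ℤ, ∏ j, a j ^ e j = x := by
  constructor
  · rintro ⟨e, rfl⟩
    exact ⟨Multiplicative.toAdd e, rfl⟩
  · rintro ⟨e, rfl⟩
    exact ⟨Multiplicative.ofAdd e, rfl⟩

theorem h92_mem_range_zpowHom_self (a : J → E) (j : J) : a j ∈ (h92_zpowHom a).range := by
  classical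
  rw [h92_mem_range_zpowHom]
  refine ⟨Pi.single j 1, ?_⟩
  rw [Finset.prod_eq_single j]
  · simp
  · intro k _ hk
    simp [Pi.single_eq_of_ne hk]
  · intro h
    exact absurd (Finset.mem_univ j) h

variable [DecidableEq J]

/-- the additive valuation of `∏ a_j ^ e_j`. -/
theorem h92_val_prod (ν : J → E →* Multiplicative ℤ) (a : J → E) (h : ℤ)
    (hν : ∀ j k, ν k (a j) = if j = k then Multiplicative.ofAdd h else 1) (e : J → ℤ) (k : J) :
    Multiplicative.toAdd (ν k (∏ j, a j ^ e j)) = e k * h := by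
  rw [map_prod, toAdd_prod, Finset.sum_eq_single k]
  · rw [map_zpow, hν, if_pos rfl, toAdd_zpow, toAdd_ofAdd, smul_eq_mul]
  · intro j _ hj
    rw [map_zpow, hν, if_neg hj]
    simp
  · intro hk
    exact absurd (Finset.mem_univ k) hk

theorem h92_zpowHom_injective (ν : J → E →* Multiplicative ℤ) (a : J → E) (h : ℤ) (hh : h ≠ 0)
    (hν : ∀ j k, ν k (a j) = if j = k then Multiplicative.ofAdd h else 1) :
    Function.Injective (h92_zpowHom a) := by
  rw [injective_iff_map_eq_one]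
  intro e he
  have h1 : ∀ k, Multiplicative.toAdd e k = 0 := by
    intro k
    have := h92_val_prod ν a h hν (Multiplicative.toAdd e) k
    have he' : ∏ j, a j ^ (Multiplicative.toAdd e j) = 1 := he
    rw [he', map_one, toAdd_one] at this
    rcases mul_eq_zero.mp this.symm with h0 | h0
    · exact h0
    · exact absurd h0 hh
  exact Multiplicative.toAdd.injective (funext h1)

theorem h92_step_inf (U U' : Subgroup E) (ν : J → E →* Multiplicative ℤ) (a : J → E) (h : ℤ)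
    (hh : h ≠ 0) (hν : ∀ j k, ν k (a j) = if j = k then Multiplicative.ofAdd h else 1)
    (hU : ∀ x, x ∈ U ↔ x ∈ U' ∧ ∀ j, ν j x = 1) :
    U ⊓ (h92_zpowHom a).range = ⊥ := by
  rw [eq_bot_iff]
  rintro x ⟨hxU, hxV⟩
  obtain ⟨e, rfl⟩ := (h92_mem_range_zpowHom a x).mp hxV
  have h1 : ∀ k, e k = 0 := by
    intro k
    have := h92_val_prod ν a h hν e k
    rw [((hU _).mp hxU).2 k, toAdd_one] at this
    rcases mul_eq_zero.mp this.symm with h0 | h0
    · exact h0
    · exact absurd h0 hh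
  rw [Subgroup.mem_bot]
  simp [h1]

theorem h92_step_finIndex (U U' : Subgroup E) (ν : J → E →* Multiplicative ℤ) (a : J → E) (h : ℤ)
    (hh : h ≠ 0) (haU' : ∀ j, a j ∈ U')
    (hν : ∀ j k, ν k (a j) = if j = k then Multiplicative.ofAdd h else 1)
    (hU : ∀ x, x ∈ U ↔ x ∈ U' ∧ ∀ j, ν j x = 1) :
    (U ⊔ (h92_zpowHom a).range).relIndex U' ≠ 0 := by
  have hn : NeZero h.natAbs := ⟨Int.natAbs_ne_zero.mpr hh⟩
  let Φ : E →* (J → Multiplicative (ZMod h.natAbs)) :=
    MonoidHom.pi fun j =>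
      (AddMonoidHom.toMultiplicative (Int.castAddHom (ZMod h.natAbs))).comp (ν j)
  have hΦ : ∀ x, x ∈ Φ.ker ↔ ∀ j, h ∣ Multiplicative.toAdd (ν j x) := by
    intro x
    rw [MonoidHom.mem_ker]
    constructor
    · intro hx j
      have h1 : Φ x j = 1 := by rw [hx]; rfl
      have h2 : ((Multiplicative.toAdd (ν j x) : ℤ) : ZMod h.natAbs) = 0 := h1
      rw [ZMod.intCast_zmod_eq_zero_iff_dvd] at h2
      exact Int.natAbs_dvd.mp h2
    · intro hx
      funext j
      have h2 : ((Multiplicative.toAdd (ν j x) : ℤ) : ZMod h.natAbs) = 0 := by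
        rw [ZMod.intCast_zmod_eq_zero_iff_dvd]
        exact Int.natAbs_dvd.mpr (hx j)
      exact h2
  have hle : U' ⊓ Φ.ker ≤ U ⊔ (h92_zpowHom a).range := by
    rintro x ⟨hxU', hxΦ⟩
    have hxΦ' := (hΦ x).mp hxΦ
    choose c hc using hxΦ'
    have hxU' : x ∈ U' := hxU'
    have hψ : (∏ j, a j ^ c j) ∈ U' := U'.prod_mem fun j _ => U'.zpow_mem (haU' j) _
    have hy : x / (∏ j, a j ^ c j) ∈ U := by
      rw [hU]
      refine ⟨U'.div_mem hxU' hψ, fun k => ?_⟩
      apply Multiplicative.toAdd.injective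
      rw [map_div, toAdd_div, h92_val_prod ν a h hν c k, hc k, toAdd_one]
      ring
    have : x = x / (∏ j, a j ^ c j) * (∏ j, a j ^ c j) := by simp
    rw [this]
    exact Subgroup.mul_mem_sup hy ((h92_mem_range_zpowHom a _).mpr ⟨c, rfl⟩)
  have h1 : (U ⊔ (h92_zpowHom a).range).relIndex U' ∣ (U' ⊓ Φ.ker).relIndex U' :=
    Subgroup.relIndex_dvd_of_le_left U' hle
  have h2 : (U' ⊓ Φ.ker).relIndex U' = Φ.ker.relIndex U' := Subgroup.inf_relIndex_left _ _
  have h3 : Φ.ker.relIndex U' ∣ Φ.ker.index := Subgroup.relIndex_dvd_index_of_normal _ _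
  have h4 : Φ.ker.index ≠ 0 := by
    rw [Subgroup.index_ker]
    exact Nat.card_pos.ne'
  intro h0
  rw [h0, zero_dvd_iff, h2] at h1
  rw [h1, zero_dvd_iff] at h3
  exact h4 h3

end Lattice

section Perm

open Finset

variable {G : Type*} [Group G] {E : Type*} [CommGroup E] [MulDistribMulAction G E]

theorem h92_zpow_sum' {ι : Type*} (s : Finset ι) (x : E) (e : ι → ℤ) :
    ∏ j ∈ s, x ^ e j = x ^ ∑ j ∈ s, e j := by
  classical
  induction s using Finset.induction_on with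
  | empty => simp
  | insert i s hi ih => rw [Finset.prod_insert hi, Finset.sum_insert hi, ih, zpow_add]

/-- trivial action, rank one. -/
theorem h92_hq_fixed {J : Type*} [Fintype J] [Unique J] (σ : G) (p : ℕ) [NeZero p] (a : J → E)
    (hinj : Function.Injective (h92_zpowHom a)) (hfix : ∀ j, σ • a j = a j) :
    h92_hq (h92_mD σ) (h92_mN σ p) (h92_zpowHom a).range = p ∧
      h92_hq (h92_mN σ p) (h92_mD σ) (h92_zpowHom a).range = 1 := by
  set ψ := h92_zpowHom a with hψ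
  have hσψ : ∀ e, σ • ψ e = ψ e := by
    intro e
    change σ • (∏ j, a j ^ (Multiplicative.toAdd e j)) = ∏ j, a j ^ (Multiplicative.toAdd e j)
    rw [Finset.smul_prod']
    refine Finset.prod_congr rfl fun j _ => ?_
    rw [smul_zpow', hfix]
  have hD : ∀ e, h92_mD σ (ψ e) = 1 := fun e => by rw [h92_mD_apply, hσψ, div_self']
  have hN : ∀ e, h92_mN σ p (ψ e) = ψ (e ^ p) := fun e => by
    rw [h92_mN_of_fixed p (hσψ e), map_pow]
  constructor
  · rw [h92_hq_def]
    let χ : Multiplicative (J → ℤ) →* Multiplicative (ZMod p) :=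
      AddMonoidHom.toMultiplicative
        ((Int.castAddHom (ZMod p)).comp (Pi.evalAddMonoidHom (fun _ : J => ℤ) default))
    have hχ : ∀ e : Multiplicative (J → ℤ),
        χ e = Multiplicative.ofAdd ((Multiplicative.toAdd e default : ℤ) : ZMod p) := fun _ => rfl
    have hχsurj : Function.Surjective χ := by
      intro z
      refine ⟨Multiplicative.ofAdd (fun _ => (ZMod.cast (Multiplicative.toAdd z) : ℤ)), ?_⟩
      rw [hχ]
      simp
    have hker : ∀ e : Multiplicative (J → ℤ), e ∈ χ.ker ↔ ∃ e', e = e' ^ p := by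
      intro e
      rw [MonoidHom.mem_ker]
      constructor
      · intro he
        rw [hχ] at he
        have h2 : ((Multiplicative.toAdd e default : ℤ) : ZMod p) = 0 := he
        rw [ZMod.intCast_zmod_eq_zero_iff_dvd] at h2
        obtain ⟨c, hc⟩ := h2
        refine ⟨Multiplicative.ofAdd (fun _ => c), ?_⟩
        apply Multiplicative.toAdd.injective
        funext j
        rw [Unique.eq_default j, hc]
        simp
      · rintro ⟨e', rfl⟩
        rw [map_pow]
        apply Multiplicative.toAdd.injective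
        rw [toAdd_pow, toAdd_one]
        simp
    have e1 : (h92_zpowHom a).range ⊓ (h92_mD σ).ker = Subgroup.map ψ ⊤ := by
      rw [← MonoidHom.range_eq_map]
      apply le_antisymm inf_le_left
      rintro _ ⟨e, rfl⟩
      exact ⟨⟨e, rfl⟩, hD e⟩
    have e2 : (h92_zpowHom a).range.map (h92_mN σ p) = Subgroup.map ψ χ.ker := by
      ext x
      constructor
      · rintro ⟨_, ⟨e, rfl⟩, rfl⟩
        exact ⟨e ^ p, (hker _).mpr ⟨e, rfl⟩, (hN e).symm⟩
      · rintro ⟨e, he, rfl⟩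
        obtain ⟨e', rfl⟩ := (hker e).mp he
        exact ⟨ψ e', ⟨e', rfl⟩, hN e'⟩
    rw [e1, e2, Subgroup.relIndex_map_map_of_injective _ _ hinj, Subgroup.relIndex_top_right,
      Subgroup.index_ker, MonoidHom.range_eq_top.mpr hχsurj]
    simp
  · rw [h92_hq_def]
    have e1 : (h92_zpowHom a).range.map (h92_mD σ) = ⊥ := by
      rw [eq_bot_iff]
      rintro _ ⟨_, ⟨e, rfl⟩, rfl⟩
      exact hD e
    have e2 : (h92_zpowHom a).range ⊓ (h92_mN σ p).ker = ⊥ := by
      rw [eq_bot_iff]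
      rintro _ ⟨⟨e, rfl⟩, he⟩
      have he' : h92_mN σ p (ψ e) = 1 := he
      rw [hN, ← map_one ψ] at he'
      have h3 : e ^ p = 1 := hinj he'
      have h4 : e = 1 := by
        apply Multiplicative.toAdd.injective
        have h5 := congrArg Multiplicative.toAdd h3
        rw [toAdd_pow, toAdd_one] at h5
        rw [toAdd_one]
        funext j
        have h6 := congrFun h5 j
        simp only [Pi.smul_apply, Pi.zero_apply] at h6
        rcases mul_eq_zero.mp h6 with h7 | h7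
        · exact absurd (by exact_mod_cast h7) (NeZero.ne p)
        · exact h7
      rw [h4, map_one]
      exact Subgroup.mem_bot.mpr rfl
    rw [e1, e2, Subgroup.relIndex_self]

end Perm

section Split

open Finset

variable {G : Type*} [Group G] {E : Type*} [CommGroup E] [MulDistribMulAction G E]

theorem h92_prod_zmod_val {M : Type*} [CommMonoid M] (p : ℕ) [NeZero p] (f : ℕ → M) :
    ∏ i : ZMod p, f i.val = ∏ k ∈ range p, f k := by
  refine Finset.prod_bij (fun i _ => i.val) (fun i _ => mem_range.mpr (ZMod.val_lt i))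
    (fun i _ j _ h => ZMod.val_injective p h)
    (fun k hk => ⟨(k : ZMod p), mem_univ _, ZMod.val_cast_of_lt (mem_range.mp hk)⟩)
    (fun _ _ => rfl)

/-- regular representation. -/
theorem h92_hq_split (σ : G) (p : ℕ) [NeZero p] (hσ : σ ^ p = 1) (a : ZMod p → E)
    (hinj : Function.Injective (h92_zpowHom a)) (hshift : ∀ j, σ • a j = a (j + 1)) :
    h92_hq (h92_mD σ) (h92_mN σ p) (h92_zpowHom a).range = 1 ∧
      h92_hq (h92_mN σ p) (h92_mD σ) (h92_zpowHom a).range = 1 := by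
  set V := (h92_zpowHom a).range with hV
  have hmem : ∀ e : ZMod p → ℤ, ∏ j, a j ^ e j ∈ V := fun e =>
    (h92_mem_range_zpowHom a _).mpr ⟨e, rfl⟩
  have haV : ∀ j, a j ∈ V := h92_mem_range_zpowHom_self a
  -- `σ` acts by the shift
  have hσψ : ∀ e : ZMod p → ℤ, σ • (∏ j, a j ^ e j) = ∏ j, a j ^ e (j - 1) := by
    intro e
    rw [Finset.smul_prod']
    rw [← Equiv.prod_comp (Equiv.addRight (1 : ZMod p)) (fun j => a j ^ e (j - 1))]
    refine Finset.prod_congr rfl fun j _ => ?_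
    rw [smul_zpow', hshift]
    simp
  have hVσ : ∀ x ∈ V, σ • x ∈ V := by
    intro x hx
    obtain ⟨e, rfl⟩ := (h92_mem_range_zpowHom a x).mp hx
    rw [hσψ]
    exact hmem _
  -- `a_j = σ^j a_0`
  have hak : ∀ k : ℕ, a (k : ZMod p) = σ ^ k • a 0 := by
    intro k
    induction k with
    | zero => simp
    | succ k ih => rw [Nat.cast_succ, ← hshift, ih, pow_succ', mul_smul]
  have haj : ∀ j : ZMod p, a j = σ ^ j.val • a 0 := by
    intro j
    rw [← hak, ZMod.natCast_zmod_val]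
  -- the norm
  set ω := h92_mN σ p (a 0) with hω
  have hNpow : ∀ (k : ℕ) (x : E), h92_mN σ p (σ ^ k • x) = h92_mN σ p x := by
    intro k x
    induction k with
    | zero => simp
    | succ k ih => rw [pow_succ', mul_smul, h92_mN_smul hσ, ih]
  have hNa : ∀ j, h92_mN σ p (a j) = ω := fun j => by rw [haj, hNpow]
  have hNψ : ∀ e : ZMod p → ℤ, h92_mN σ p (∏ j, a j ^ e j) = ω ^ ∑ j, e j := by
    intro e
    rw [map_prod, ← h92_zpow_sum']
    refine Finset.prod_congr rfl fun j _ => ?_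
    rw [map_zpow, hNa]
  have hωψ : ω = ∏ j : ZMod p, a j := by
    rw [hω, h92_mN_apply, ← h92_prod_zmod_val p (fun k => σ ^ k • a 0)]
    refine Finset.prod_congr rfl fun j _ => ?_
    exact (haj j).symm
  have hωpow : ∀ s : ℤ, ω ^ s = ∏ j : ZMod p, a j ^ s := by
    intro s
    rw [hωψ, Finset.prod_zpow]
  have hωinj : ∀ s : ℤ, ω ^ s = 1 → s = 0 := by
    intro s hs
    rw [hωpow] at hs
    have h1 : h92_zpowHom a (Multiplicative.ofAdd (fun _ : ZMod p => s)) = h92_zpowHom a 1 := by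
      rw [map_one]
      exact hs
    have h2 := hinj h1
    have h3 := congrFun (congrArg Multiplicative.toAdd h2) 0
    exact h3
  have hψinj : ∀ e e' : ZMod p → ℤ, ∏ j, a j ^ e j = ∏ j, a j ^ e' j → e = e' := by
    intro e e' h
    have h1 : h92_zpowHom a (Multiplicative.ofAdd e) = h92_zpowHom a (Multiplicative.ofAdd e') := h
    exact Multiplicative.ofAdd.injective (hinj h1)
  constructor
  · rw [h92_hq_def, Subgroup.relIndex_eq_one]
    rintro x ⟨hxV, hxD⟩
    obtain ⟨e, rfl⟩ := (h92_mem_range_zpowHom a x).mp hxV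
    have hxD' : h92_mD σ (∏ j, a j ^ e j) = 1 := hxD
    rw [h92_mD_apply, div_eq_one, hσψ] at hxD'
    have he := hψinj _ _ hxD'
    have hconst : ∀ k : ℕ, e (k : ZMod p) = e 0 := by
      intro k
      induction k with
      | zero => simp
      | succ k ih =>
        have := congrFun he ((k : ZMod p) + 1)
        simp only [add_sub_cancel_right] at this
        rw [Nat.cast_succ, ← this, ih]
    have hconst' : ∀ j : ZMod p, e j = e 0 := fun j => by
      rw [← ZMod.natCast_zmod_val j]; exact hconst _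
    refine ⟨a 0 ^ e 0, V.zpow_mem (haV 0) _, ?_⟩
    rw [map_zpow, ← hω, hωpow]
    refine Finset.prod_congr rfl fun j _ => ?_
    rw [hconst' j]
  · rw [h92_hq_def, Subgroup.relIndex_eq_one]
    rintro x ⟨hxV, hxN⟩
    obtain ⟨e, rfl⟩ := (h92_mem_range_zpowHom a x).mp hxV
    have hxN' : h92_mN σ p (∏ j, a j ^ e j) = 1 := hxN
    rw [hNψ] at hxN'
    have hsum := hωinj _ hxN'
    have h1 : ∏ j, a j ^ e j = ∏ j, (σ ^ j.val • a 0 / a 0) ^ e j := by
      have h2 : ∀ j : ZMod p, (σ ^ j.val • a 0 / a 0) ^ e j = a j ^ e j / a 0 ^ e j := by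
        intro j
        rw [← haj j, div_zpow]
      simp_rw [h2]
      rw [Finset.prod_div_distrib, h92_zpow_sum', hsum, zpow_zero, div_one]
    rw [h1]
    exact Subgroup.prod_mem _ fun j _ =>
      Subgroup.zpow_mem _ (h92_pow_smul_div_mem hVσ j.val (haV 0)) _

end Split

section Step

open Finset

variable {G : Type*} [Group G] {E : Type*} [CommGroup E] [MulDistribMulAction G E]

/-- **Abstract step**: enlarging `U` to `U'` by "valuations" `ν_j` that have a "section up to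
`h`" `a_j`; the Herbrand quotient is multiplied by that of the lattice spanned by the `a_j`. -/
theorem h92_step {J : Type*} [Fintype J] [DecidableEq J] (σ : G) (p : ℕ) (hσ : σ ^ p = 1)
    (U U' : Subgroup E) (hUσ : ∀ x ∈ U, σ • x ∈ U) (hU'σ : ∀ x ∈ U', σ • x ∈ U')
    (ν : J → E →* Multiplicative ℤ) (a : J → E) (h : ℤ) (hh : h ≠ 0) (haU' : ∀ j, a j ∈ U')
    (hν : ∀ j k, ν k (a j) = if j = k then Multiplicative.ofAdd h else 1)
    (hU : ∀ x, x ∈ U ↔ x ∈ U' ∧ ∀ j, ν j x = 1)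
    (hVσ : ∀ x ∈ (h92_zpowHom a).range, σ • x ∈ (h92_zpowHom a).range)
    (c0 c1 : ℕ) (hc0 : h92_hq (h92_mD σ) (h92_mN σ p) (h92_zpowHom a).range = c0)
    (hc1 : h92_hq (h92_mN σ p) (h92_mD σ) (h92_zpowHom a).range = c1)
    (hc0' : c0 ≠ 0) (hc1' : c1 ≠ 0)
    (h0 : h92_hq (h92_mD σ) (h92_mN σ p) U ≠ 0) (h1 : h92_hq (h92_mN σ p) (h92_mD σ) U ≠ 0) :
    h92_hq (h92_mD σ) (h92_mN σ p) U' ≠ 0 ∧ h92_hq (h92_mN σ p) (h92_mD σ) U' ≠ 0 ∧
      h92_hq (h92_mD σ) (h92_mN σ p) U' * (h92_hq (h92_mN σ p) (h92_mD σ) U * c1)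
        = h92_hq (h92_mN σ p) (h92_mD σ) U' * (h92_hq (h92_mD σ) (h92_mN σ p) U * c0) := by
  set V := (h92_zpowHom a).range with hV
  have hinf : U ⊓ V = ⊥ := h92_step_inf U U' ν a h hh hν hU
  have hfin : (U ⊔ V).relIndex U' ≠ 0 := h92_step_finIndex U U' ν a h hh haU' hν hU
  have hUU' : U ≤ U' := fun x hx => ((hU x).mp hx).1
  have hVU' : V ≤ U' := by
    rintro x hx
    obtain ⟨e, rfl⟩ := (h92_mem_range_zpowHom a x).mp hx
    exact U'.prod_mem fun j _ => U'.zpow_mem (haU' j) _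
  have hMσ : ∀ x ∈ U ⊔ V, σ • x ∈ U ⊔ V := by
    intro x hx
    obtain ⟨u, hu, v, hv, rfl⟩ := Subgroup.mem_sup.mp hx
    rw [smul_mul']
    exact Subgroup.mul_mem_sup (hUσ u hu) (hVσ v hv)
  have s0 : h92_hq (h92_mD σ) (h92_mN σ p) (U ⊔ V)
      = h92_hq (h92_mD σ) (h92_mN σ p) U * c0 := by
    rw [← hc0]
    exact h92_hq_sup _ _ hinf (fun x hx => h92_mD_mem hUσ hx) (fun x hx => h92_mN_mem p hUσ hx)
      (fun x hx => h92_mD_mem hVσ hx) (fun x hx => h92_mN_mem p hVσ hx) (h92_mD_mN hσ)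
  have s1 : h92_hq (h92_mN σ p) (h92_mD σ) (U ⊔ V)
      = h92_hq (h92_mN σ p) (h92_mD σ) U * c1 := by
    rw [← hc1]
    exact h92_hq_sup _ _ hinf (fun x hx => h92_mN_mem p hUσ hx) (fun x hx => h92_mD_mem hUσ hx)
      (fun x hx => h92_mN_mem p hVσ hx) (fun x hx => h92_mD_mem hVσ hx) (h92_mN_mD hσ)
  have key := h92_hq_finIndex (h92_mD σ) (h92_mN σ p) (h92_mD_mN hσ) (h92_mN_mD hσ)
    (sup_le hUU' hVU') (fun x hx => h92_mD_mem hMσ hx) (fun x hx => h92_mN_mem p hMσ hx)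
    (fun x hx => h92_mD_mem hU'σ hx) (fun x hx => h92_mN_mem p hU'σ hx) hfin
    (by rw [s0]; exact Nat.mul_ne_zero h0 hc0') (by rw [s1]; exact Nat.mul_ne_zero h1 hc1')
  rw [s0, s1] at key
  exact key

end Step

end Fermat.Agent.S55
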