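import Mathlib
import Fermat.Agent.S55.h92_HerbrandMul

set_option autoImplicit false

/-!
# Herbrand indices of quotients in ambient form, and the abstract first inequality

`h92_hqQ f g U A = [{u ∈ U | f u ∈ A} : g U · A]` is the Herbrand index of the quotient `U/A`,
written inside the ambient group.

* `h92_hq_half`, `h92_hq_mul` : multiplicativity of the Herbrand quotient on
  `1 → A → U → U/A → 1` (unconditional identity in `ℕ` / finiteness statement);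
* `h92_hqQ_eq_of_sup` : `X/Δ ≅ Y/(Y ∩ Δ)` when `Y Δ = X`, on the level of Herbrand indices;
* `h92_first_ineq` : abstract first inequality: `h(Y) = p^t`, `h(Y ∩ Δ) = p^(t-1)` ⟹
  `h(X/Δ) = p`;
* `h92_hqQ_quotient` : the ambient index is the index in the quotient group `X ⧸ Δ`;
* `h92_first_ineq_quotient` : the first inequality for endomorphisms `Dq`, `Nq` of `X ⧸ Δ`;
* `h92_hq_map` : transport of Herbrand indices along an injective equivariant homomorphism.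
-/

namespace Fermat.Agent.S55

section Quot

variable {E : Type*} [CommGroup E]

/-- Herbrand index of the quotient `U/A` in ambient form: `[{u ∈ U | f u ∈ A} : g U · A]`. -/
noncomputable def h92_hqQ (f g : E →* E) (U A : Subgroup E) : ℕ :=
  (U.map g ⊔ A).relIndex (U ⊓ A.comap f)

theorem h92_hqQ_def (f g : E →* E) (U A : Subgroup E) :
    h92_hqQ f g U A = (U.map g ⊔ A).relIndex (U ⊓ A.comap f) := rfl

/-- **Half hexagon**: `a(U) * c = a(A) * a(U/A)` with the correction factor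
`c = [A ∩ g U : g A] * [A ∩ f U : f A]` (symmetric in `f`, `g`). -/
theorem h92_hq_half (f g : E →* E) (hfg : ∀ x, f (g x) = 1) {A U : Subgroup E} (hAU : A ≤ U)
    (hfA : ∀ x ∈ A, f x ∈ A) (hgA : ∀ x ∈ A, g x ∈ A) (hgU : ∀ x ∈ U, g x ∈ U) :
    h92_hq f g U * ((A.map g).relIndex (A ⊓ U.map g) * (A.map f).relIndex (A ⊓ U.map f))
      = h92_hq f g A * h92_hqQ f g U A := by
  rw [h92_hq_def, h92_hq_def, h92_hqQ_def]
  have hGUk : U.map g ≤ f.ker := by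
    rintro _ ⟨u, -, rfl⟩
    exact hfg u
  have hGUU : U.map g ≤ U := by
    rintro _ ⟨u, hu, rfl⟩
    exact hgU u hu
  have hGAGU : A.map g ≤ U.map g := Subgroup.map_mono hAU
  -- (s1)
  have hMP : U.map g ⊔ A ≤ U ⊓ A.comap f := by
    refine sup_le (le_inf hGUU ?_) (le_inf hAU ?_)
    · rintro _ ⟨u, -, rfl⟩
      change f (g u) ∈ A
      rw [hfg]; exact A.one_mem
    · intro a ha
      exact hfA a ha
  have s1 := h92_relIndex_eq_map_relIndex_mul f hMP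
  have e1 : (U.map g ⊔ A).map f = A.map f := by
    rw [Subgroup.map_sup]
    have : (U.map g).map f = ⊥ := by
      rw [eq_bot_iff]
      rintro _ ⟨_, ⟨u, -, rfl⟩, rfl⟩
      exact hfg u
    rw [this, bot_sup_eq]
  have e2 : (U ⊓ A.comap f).map f = A ⊓ U.map f := by
    ext x
    constructor
    · rintro ⟨y, ⟨hyU, hyA⟩, rfl⟩
      exact ⟨hyA, ⟨y, hyU, rfl⟩⟩
    · rintro ⟨hxA, ⟨u, hu, rfl⟩⟩
      exact ⟨u, ⟨hu, hxA⟩, rfl⟩
  have e3 : (U.map g ⊔ A) ⊓ f.ker = U.map g ⊔ (A ⊓ f.ker) := by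
    apply le_antisymm
    · rintro x ⟨hx1, hx2⟩
      obtain ⟨y, hy, a, ha, rfl⟩ := Subgroup.mem_sup.mp hx1
      have hx2' : f (y * a) = 1 := hx2
      have hy' : f y = 1 := hGUk hy
      rw [map_mul, hy', one_mul] at hx2'
      exact Subgroup.mul_mem_sup hy ⟨ha, hx2'⟩
    · exact sup_le (le_inf le_sup_left hGUk) (inf_le_inf_right _ le_sup_right)
  have e4 : (U ⊓ A.comap f) ⊓ f.ker = U ⊓ f.ker := by
    apply le_antisymm
    · exact inf_le_inf_right _ inf_le_left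
    · rintro x ⟨hxU, hxk⟩
      have hxk' : f x = 1 := hxk
      refine ⟨⟨hxU, ?_⟩, hxk⟩
      change f x ∈ A
      rw [hxk']; exact A.one_mem
  rw [e1, e2, e3, e4] at s1
  -- (s2)
  have hle2 : U.map g ⊔ (A ⊓ f.ker) ≤ U ⊓ f.ker :=
    sup_le (le_inf hGUU hGUk) (inf_le_inf_right _ hAU)
  have s2 := Subgroup.relIndex_mul_relIndex (U.map g) (U.map g ⊔ (A ⊓ f.ker)) (U ⊓ f.ker)
    le_sup_left hle2
  -- (s3)
  have s3 : (U.map g).relIndex (U.map g ⊔ (A ⊓ f.ker)) = (A ⊓ U.map g).relIndex (A ⊓ f.ker) := by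
    rw [Subgroup.relIndex_sup_left, ← Subgroup.inf_relIndex_right]
    congr 1
    apply le_antisymm
    · rintro x ⟨hx1, hx2, -⟩
      exact ⟨hx2, hx1⟩
    · rintro x ⟨hx1, hx2⟩
      exact ⟨hx2, hx1, hGUk hx2⟩
  -- (s4)
  have s4 := Subgroup.relIndex_mul_relIndex (A.map g) (A ⊓ U.map g) (A ⊓ f.ker)
    (by
      rintro _ ⟨a, ha, rfl⟩
      exact ⟨hgA a ha, ⟨a, hAU ha, rfl⟩⟩)
    (inf_le_inf_left _ hGUk)
  rw [← s2, s3, ← s4, s1]
  ring

end Quot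

section Mul

variable {E : Type*} [CommGroup E]

/-- **Multiplicativity of the Herbrand quotient** on `1 → A → U → U/A → 1`, ambient form:
`a(U) * b(A) * b(U/A) = b(U) * a(A) * a(U/A)`, and the quotient indices are finite as soon as
those of `A` and `U` are. -/
theorem h92_hq_mul (f g : E →* E) (hfg : ∀ x, f (g x) = 1) (hgf : ∀ x, g (f x) = 1)
    {A U : Subgroup E} (hAU : A ≤ U)
    (hfA : ∀ x ∈ A, f x ∈ A) (hgA : ∀ x ∈ A, g x ∈ A)
    (hfU : ∀ x ∈ U, f x ∈ U) (hgU : ∀ x ∈ U, g x ∈ U)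
    (haA : h92_hq f g A ≠ 0) (hbA : h92_hq g f A ≠ 0)
    (haU : h92_hq f g U ≠ 0) (hbU : h92_hq g f U ≠ 0) :
    h92_hqQ f g U A ≠ 0 ∧ h92_hqQ g f U A ≠ 0 ∧
      h92_hq f g U * (h92_hq g f A * h92_hqQ g f U A)
        = h92_hq g f U * (h92_hq f g A * h92_hqQ f g U A) := by
  have h1 := h92_hq_half f g hfg hAU hfA hgA hgU
  have h2 := h92_hq_half g f hgf hAU hgA hfA hfU
  set c1 := (A.map g).relIndex (A ⊓ U.map g)
  set c2 := (A.map f).relIndex (A ⊓ U.map f)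
  -- `c1 ∣ a(A)`, `c2 ∣ b(A)`
  have hc1 : c1 ≠ 0 := by
    intro h0
    apply haA
    rw [h92_hq_def, ← Subgroup.relIndex_mul_relIndex (A.map g) (A ⊓ U.map g) (A ⊓ f.ker)
      (by
        rintro _ ⟨a, ha, rfl⟩
        exact ⟨hgA a ha, ⟨a, hAU ha, rfl⟩⟩)
      (by
        rintro x ⟨hxA, ⟨u, -, rfl⟩⟩
        exact ⟨hxA, hfg u⟩)]
    change c1 * _ = 0
    rw [h0, zero_mul]
  have hc2 : c2 ≠ 0 := by
    intro h0
    apply hbA
    rw [h92_hq_def, ← Subgroup.relIndex_mul_relIndex (A.map f) (A ⊓ U.map f) (A ⊓ g.ker)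
      (by
        rintro _ ⟨a, ha, rfl⟩
        exact ⟨hfA a ha, ⟨a, hAU ha, rfl⟩⟩)
      (by
        rintro x ⟨hxA, ⟨u, -, rfl⟩⟩
        exact ⟨hxA, hgf u⟩)]
    change c2 * _ = 0
    rw [h0, zero_mul]
  have hq1 : h92_hqQ f g U A ≠ 0 := by
    intro h0
    rw [h0, mul_zero] at h1
    rcases Nat.mul_eq_zero.mp h1 with h | h
    · exact haU h
    · rcases Nat.mul_eq_zero.mp h with h | h
      · exact hc1 h
      · exact hc2 h
  have hq2 : h92_hqQ g f U A ≠ 0 := by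
    intro h0
    rw [h0, mul_zero] at h2
    rcases Nat.mul_eq_zero.mp h2 with h | h
    · exact hbU h
    · rcases Nat.mul_eq_zero.mp h with h | h
      · exact hc2 h
      · exact hc1 h
  refine ⟨hq1, hq2, ?_⟩
  have hcc : c1 * c2 ≠ 0 := Nat.mul_ne_zero hc1 hc2
  have key : (h92_hq f g U * (h92_hq g f A * h92_hqQ g f U A)) * (c1 * c2)
      = (h92_hq g f U * (h92_hq f g A * h92_hqQ f g U A)) * (c1 * c2) := by
    calc (h92_hq f g U * (h92_hq g f A * h92_hqQ g f U A)) * (c1 * c2)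
        = (h92_hq f g U * (c1 * c2)) * (h92_hq g f A * h92_hqQ g f U A) := by ring
      _ = (h92_hq f g A * h92_hqQ f g U A) * (h92_hq g f U * (c2 * c1)) := by rw [h1, h2]
      _ = (h92_hq g f U * (h92_hq f g A * h92_hqQ f g U A)) * (c1 * c2) := by ring
  exact Nat.eq_of_mul_eq_mul_right (Nat.pos_of_ne_zero hcc) key

/-- If `Y Δ = X` then `X/Δ ≅ Y/(Y ∩ Δ)`, on the level of Herbrand indices. -/
theorem h92_hqQ_eq_of_sup (f g : E →* E) (hfg : ∀ x, f (g x) = 1) {Y Δ : Subgroup E}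
    (hsup : Y ⊔ Δ = ⊤) (hfY : ∀ x ∈ Y, f x ∈ Y) (hgY : ∀ x ∈ Y, g x ∈ Y)
    (hfΔ : ∀ x ∈ Δ, f x ∈ Δ) (hgΔ : ∀ x ∈ Δ, g x ∈ Δ) :
    h92_hqQ f g ⊤ Δ = h92_hqQ f g Y (Y ⊓ Δ) := by
  rw [h92_hqQ_def, h92_hqQ_def]
  set P := (⊤ : Subgroup E) ⊓ Δ.comap f with hP
  set Q := (⊤ : Subgroup E).map g ⊔ Δ with hQ
  set P' := Y ⊓ (Y ⊓ Δ).comap f with hP'
  set Q' := Y.map g ⊔ (Y ⊓ Δ) with hQ'
  have hQP : Q ≤ P := by
    refine sup_le ?_ ?_
    · rintro _ ⟨x, -, rfl⟩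
      refine ⟨Subgroup.mem_top _, ?_⟩
      change f (g x) ∈ Δ
      rw [hfg]; exact Δ.one_mem
    · intro x hx
      exact ⟨Subgroup.mem_top _, hfΔ x hx⟩
  have hP'P : P' ≤ P := by
    rintro x ⟨-, hx⟩
    exact ⟨Subgroup.mem_top _, hx.2⟩
  have e1 : P = P' ⊔ Q := by
    apply le_antisymm
    · rintro x ⟨-, hx⟩
      have hx' : f x ∈ Δ := hx
      have hxt : x ∈ Y ⊔ Δ := by rw [hsup]; exact Subgroup.mem_top _
      obtain ⟨y, hy, d, hd, rfl⟩ := Subgroup.mem_sup.mp hxt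
      refine Subgroup.mul_mem_sup ⟨hy, ⟨hfY y hy, ?_⟩⟩ (Subgroup.mem_sup_right hd)
      have : f y = f (y * d) * (f d)⁻¹ := by rw [map_mul]; simp
      rw [this]
      exact Δ.mul_mem hx' (Δ.inv_mem (hfΔ d hd))
    · exact sup_le hP'P hQP
  have e2 : Q ⊓ P' = Q' := by
    apply le_antisymm
    · rintro x ⟨hxQ, hxY, -⟩
      obtain ⟨_, ⟨z, -, rfl⟩, d, hd, rfl⟩ := Subgroup.mem_sup.mp hxQ
      have hzt : z ∈ Y ⊔ Δ := by rw [hsup]; exact Subgroup.mem_top _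
      obtain ⟨y, hy, d', hd', rfl⟩ := Subgroup.mem_sup.mp hzt
      have hrew : g (y * d') * d = g y * (g d' * d) := by rw [map_mul, mul_assoc]
      rw [hrew] at hxY ⊢
      have hdd : g d' * d ∈ Δ := Δ.mul_mem (hgΔ d' hd') hd
      have hddY : g d' * d ∈ Y := by
        have : g d' * d = (g y)⁻¹ * (g y * (g d' * d)) := by simp
        rw [this]
        exact Y.mul_mem (Y.inv_mem (hgY y hy)) hxY
      exact Subgroup.mul_mem_sup (Subgroup.mem_map_of_mem g hy) ⟨hddY, hdd⟩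
    · refine le_inf ?_ ?_
      · exact sup_le_sup (Subgroup.map_mono le_top) inf_le_right
      · refine sup_le ?_ ?_
        · rintro _ ⟨y, hy, rfl⟩
          refine ⟨hgY y hy, ?_⟩
          change f (g y) ∈ Y ⊓ Δ
          rw [hfg]; exact (Y ⊓ Δ).one_mem
        · rintro x ⟨hxY, hxΔ⟩
          exact ⟨hxY, ⟨hfY x hxY, hfΔ x hxΔ⟩⟩
  rw [e1, Subgroup.relIndex_sup_right, ← Subgroup.inf_relIndex_right, e2]

end Mul

section FirstIneq

open Finset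

variable {G : Type*} [Group G] {X : Type*} [CommGroup X] [MulDistribMulAction G X]

/-- **Abstract first inequality.**  `X` a `σ`-module (`σ^p = 1`), `Δ` ("principal elements") and
`Y` ("`T`-ideles") `σ`-stable subgroups with `Y Δ = X`; if `h(Y) = p^t / 1` and
`h(Y ∩ Δ) = p^(t-1)` ("`T`-units") then the class module `X/Δ` has finite Herbrand indices and
`[(X/Δ)^σ : N (X/Δ)] = p * [ker N : D (X/Δ)]`. -/
theorem h92_first_ineq (σ : G) (p : ℕ) (hp : p ≠ 0) (hσ : σ ^ p = 1) (Δ Y : Subgroup X)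
    (hΔσ : ∀ x ∈ Δ, σ • x ∈ Δ) (hYσ : ∀ x ∈ Y, σ • x ∈ Y) (hsup : Y ⊔ Δ = ⊤) (t : ℕ)
    (haY : h92_hq (h92_mD σ) (h92_mN σ p) Y = p ^ t)
    (hbY : h92_hq (h92_mN σ p) (h92_mD σ) Y = 1)
    (haE : h92_hq (h92_mD σ) (h92_mN σ p) (Y ⊓ Δ) ≠ 0)
    (hbE : h92_hq (h92_mN σ p) (h92_mD σ) (Y ⊓ Δ) ≠ 0)
    (hE : h92_hq (h92_mD σ) (h92_mN σ p) (Y ⊓ Δ) * p
      = h92_hq (h92_mN σ p) (h92_mD σ) (Y ⊓ Δ) * p ^ t) :
    h92_hqQ (h92_mD σ) (h92_mN σ p) ⊤ Δ ≠ 0 ∧ h92_hqQ (h92_mN σ p) (h92_mD σ) ⊤ Δ ≠ 0 ∧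
      h92_hqQ (h92_mD σ) (h92_mN σ p) ⊤ Δ = p * h92_hqQ (h92_mN σ p) (h92_mD σ) ⊤ Δ := by
  have hEσ : ∀ x ∈ Y ⊓ Δ, σ • x ∈ Y ⊓ Δ := fun x hx => ⟨hYσ x hx.1, hΔσ x hx.2⟩
  have e1 := h92_hqQ_eq_of_sup (h92_mD σ) (h92_mN σ p) (h92_mD_mN hσ) hsup
    (fun x hx => h92_mD_mem hYσ hx) (fun x hx => h92_mN_mem p hYσ hx)
    (fun x hx => h92_mD_mem hΔσ hx) (fun x hx => h92_mN_mem p hΔσ hx)
  have e2 := h92_hqQ_eq_of_sup (h92_mN σ p) (h92_mD σ) (h92_mN_mD hσ) hsup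
    (fun x hx => h92_mN_mem p hYσ hx) (fun x hx => h92_mD_mem hYσ hx)
    (fun x hx => h92_mN_mem p hΔσ hx) (fun x hx => h92_mD_mem hΔσ hx)
  obtain ⟨q1, q2, key⟩ := h92_hq_mul (h92_mD σ) (h92_mN σ p) (h92_mD_mN hσ) (h92_mN_mD hσ)
    (inf_le_left : Y ⊓ Δ ≤ Y)
    (fun x hx => h92_mD_mem hEσ hx) (fun x hx => h92_mN_mem p hEσ hx)
    (fun x hx => h92_mD_mem hYσ hx) (fun x hx => h92_mN_mem p hYσ hx)
    haE hbE (by rw [haY]; exact pow_ne_zero _ hp) (by rw [hbY]; exact one_ne_zero)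
  rw [← e1] at q1 key
  rw [← e2] at q2 key
  refine ⟨q1, q2, ?_⟩
  rw [haY, hbY, one_mul] at key
  set aE := h92_hq (h92_mD σ) (h92_mN σ p) (Y ⊓ Δ)
  set bE := h92_hq (h92_mN σ p) (h92_mD σ) (Y ⊓ Δ)
  set aC := h92_hqQ (h92_mD σ) (h92_mN σ p) ⊤ Δ
  set bC := h92_hqQ (h92_mN σ p) (h92_mD σ) ⊤ Δ
  -- key : p ^ t * (bE * bC) = aE * aC ;  hE : aE * p = bE * p ^ t
  have h3 : aC * (bE * p ^ t) = (p * bC) * (bE * p ^ t) := by
    calc aC * (bE * p ^ t) = (aE * aC) * p := by rw [← hE]; ring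
      _ = (p ^ t * (bE * bC)) * p := by rw [key]
      _ = (p * bC) * (bE * p ^ t) := by ring
  exact Nat.eq_of_mul_eq_mul_right
    (Nat.pos_of_ne_zero (Nat.mul_ne_zero hbE (pow_ne_zero _ hp))) h3

end FirstIneq

section Quotient

variable {E : Type*} [CommGroup E]

/-- The ambient quotient index is the Herbrand index of the quotient group `E ⧸ Δ`. -/
theorem h92_hqQ_quotient (f g : E →* E) (Δ : Subgroup E) (hf : Δ ≤ Δ.comap f)
    (hg : Δ ≤ Δ.comap g) :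
    (QuotientGroup.map Δ Δ g hg).range.relIndex (QuotientGroup.map Δ Δ f hf).ker
      = h92_hqQ f g ⊤ Δ := by
  rw [h92_hqQ_def]
  have hsurj : Function.Surjective (QuotientGroup.mk' Δ) := QuotientGroup.mk'_surjective Δ
  have e1 : (QuotientGroup.map Δ Δ g hg).range.comap (QuotientGroup.mk' Δ)
      = (⊤ : Subgroup E).map g ⊔ Δ := by
    ext x
    constructor
    · rintro ⟨z, hz⟩
      obtain ⟨z, rfl⟩ := hsurj z
      have hz' : (QuotientGroup.mk' Δ) (g z) = (QuotientGroup.mk' Δ) x := hz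
      have h1 : (g z)⁻¹ * x ∈ Δ := by
        rw [← QuotientGroup.eq]
        exact hz'
      have : x = g z * ((g z)⁻¹ * x) := by simp
      rw [this]
      exact Subgroup.mul_mem_sup ⟨z, Subgroup.mem_top _, rfl⟩ h1
    · intro hx
      obtain ⟨_, ⟨z, -, rfl⟩, d, hd, rfl⟩ := Subgroup.mem_sup.mp hx
      refine ⟨QuotientGroup.mk' Δ z, ?_⟩
      change (QuotientGroup.mk' Δ) (g z) = (QuotientGroup.mk' Δ) (g z * d)
      have hd1 : (QuotientGroup.mk' Δ) d = 1 := (QuotientGroup.eq_one_iff d).mpr hd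
      rw [map_mul, hd1, mul_one]
  have e2 : (QuotientGroup.map Δ Δ f hf).ker.comap (QuotientGroup.mk' Δ)
      = (⊤ : Subgroup E) ⊓ Δ.comap f := by
    ext x
    constructor
    · intro hx
      have hx' : (QuotientGroup.mk' Δ) (f x) = 1 := hx
      exact ⟨Subgroup.mem_top _, (QuotientGroup.eq_one_iff (f x)).mp hx'⟩
    · rintro ⟨-, hx⟩
      change (QuotientGroup.mk' Δ) (f x) = 1
      exact (QuotientGroup.eq_one_iff (f x)).mpr hx
  rw [← e1, ← e2, Subgroup.relIndex_comap,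
    Subgroup.map_comap_eq_self_of_surjective hsurj]

end Quotient

section Transport

/-- transport of Herbrand indices along an injective equivariant homomorphism. -/
theorem h92_hq_map {A E : Type*} [CommGroup A] [CommGroup E] (ι : A →* E)
    (hι : Function.Injective ι) (fA gA : A →* A) (f g : E →* E)
    (hf : ∀ u, ι (fA u) = f (ι u)) (hg : ∀ u, ι (gA u) = g (ι u)) (B : Subgroup A) :
    h92_hq f g (B.map ι) = h92_hq fA gA B := by
  rw [h92_hq_def, h92_hq_def]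
  have e1 : (B.map ι).map g = (B.map gA).map ι := by
    ext x
    constructor
    · rintro ⟨_, ⟨u, hu, rfl⟩, rfl⟩
      exact ⟨gA u, ⟨u, hu, rfl⟩, hg u⟩
    · rintro ⟨_, ⟨u, hu, rfl⟩, rfl⟩
      exact ⟨ι u, ⟨u, hu, rfl⟩, (hg u).symm⟩
  have e2 : B.map ι ⊓ f.ker = (B ⊓ fA.ker).map ι := by
    ext x
    constructor
    · rintro ⟨⟨u, hu, rfl⟩, hx⟩
      have hx' : f (ι u) = 1 := hx
      refine ⟨u, ⟨hu, ?_⟩, rfl⟩
      change fA u = 1
      apply hι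
      rw [hf, map_one]
      exact hx'
    · rintro ⟨u, ⟨hu, hu2⟩, rfl⟩
      have hu' : fA u = 1 := hu2
      refine ⟨⟨u, hu, rfl⟩, ?_⟩
      change f (ι u) = 1
      rw [← hf, hu', map_one]
  rw [e1, e2, Subgroup.relIndex_map_map_of_injective _ _ hι]

end Transport

section FirstIneqQuotient

variable {G : Type*} [Group G] {X : Type*} [CommGroup X] [MulDistribMulAction G X]

/-- **Abstract first inequality**, stated in the quotient group `X ⧸ Δ`: for the induced maps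
`Dq`, `Nq` on the class group, `[ker Dq : im Nq] = p * [ker Nq : im Dq]`, both finite. -/
theorem h92_first_ineq_quotient (σ : G) (p : ℕ) (hp : p ≠ 0) (hσ : σ ^ p = 1) (Δ Y : Subgroup X)
    (hΔσ : ∀ x ∈ Δ, σ • x ∈ Δ) (hYσ : ∀ x ∈ Y, σ • x ∈ Y) (hsup : Y ⊔ Δ = ⊤) (t : ℕ)
    (haY : h92_hq (h92_mD σ) (h92_mN σ p) Y = p ^ t)
    (hbY : h92_hq (h92_mN σ p) (h92_mD σ) Y = 1)
    (haE : h92_hq (h92_mD σ) (h92_mN σ p) (Y ⊓ Δ) ≠ 0)
    (hbE : h92_hq (h92_mN σ p) (h92_mD σ) (Y ⊓ Δ) ≠ 0)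
    (hE : h92_hq (h92_mD σ) (h92_mN σ p) (Y ⊓ Δ) * p
      = h92_hq (h92_mN σ p) (h92_mD σ) (Y ⊓ Δ) * p ^ t)
    (Dq Nq : X ⧸ Δ →* X ⧸ Δ)
    (hDq : ∀ x : X, Dq (QuotientGroup.mk' Δ x) = QuotientGroup.mk' Δ (h92_mD σ x))
    (hNq : ∀ x : X, Nq (QuotientGroup.mk' Δ x) = QuotientGroup.mk' Δ (h92_mN σ p x)) :
    Nq.range.relIndex Dq.ker ≠ 0 ∧ Dq.range.relIndex Nq.ker ≠ 0 ∧
      Nq.range.relIndex Dq.ker = p * Dq.range.relIndex Nq.ker := by
  have hD : Δ ≤ Δ.comap (h92_mD σ) := fun x hx => h92_mD_mem hΔσ hx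
  have hN : Δ ≤ Δ.comap (h92_mN σ p) := fun x hx => h92_mN_mem p hΔσ hx
  have eD : Dq = QuotientGroup.map Δ Δ (h92_mD σ) hD := by
    ext x
    exact hDq x
  have eN : Nq = QuotientGroup.map Δ Δ (h92_mN σ p) hN := by
    ext x
    exact hNq x
  rw [eD, eN, h92_hqQ_quotient (h92_mD σ) (h92_mN σ p) Δ hD hN,
    h92_hqQ_quotient (h92_mN σ p) (h92_mD σ) Δ hN hD]
  exact h92_first_ineq σ p hp hσ Δ Y hΔσ hYσ hsup t haY hbY haE hbE hE

/-- class field axiom from the two inequalities (pure arithmetic). -/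
theorem h92_cfa_of_ineq {a b p : ℕ} (hb : b ≠ 0) (h1 : a = p * b) (h2 : a ≤ p) (hp : p ≠ 0) :
    a = p ∧ b = 1 := by
  have hb1 : b = 1 := by
    rcases Nat.lt_or_ge b 2 with h | h
    · omega
    · exfalso
      have : p * 2 ≤ p * b := Nat.mul_le_mul_left p h
      omega
  subst hb1
  simpa using h1

end FirstIneqQuotient

end Fermat.Agent.S55
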