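import Mathlib
import Fermat.Agent.S55.h92_HerbrandMul
import Fermat.Agent.S14.h92_UnitsIndex

set_option autoImplicit false

/-!
# Herbrand index of `T`-units in a cyclic extension of odd prime degree

`L/K` Galois of odd prime degree `p`, `σ ≠ 1` in `Gal(L/K)`, `T` a finite `σ`-stable set of primes
of `L`, `U = T.unit L` (Mathlib's `Set.unit`).  With `D x = σ x / x`, `N x = ∏_{i<p} σ^i x`:

`[U^σ : N U] * p = [U ∩ ker N : D U] * p ^ #{w ∈ T | σ w = w}`   (all indices finite),

i.e. the Herbrand quotient of the `T`-units is `p ^ (t - 1)`, `t` = number of `σ`-fixed (inert or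
ramified) primes in `T`.

* `h92_galPrime σ w` : the Galois action on `HeightOneSpectrum (𝓞 L)`, with
  `h92_valuation_galPrime`, `h92_valuationOfNeZero_galPrime` (`v_{σ w}(σ x) = v_w(x)`);
* `h92_exists_gen` : a "generator up to the class number" of a prime;
* `h92_sunits_index_finset`, `h92_sunits_index` (ambient form, indices `h92_hq` in `Lˣ`),
  `h92_sunits_index'` (intrinsic form for endomorphisms `D`, `N` of `↥(T.unit L)`).
-/

namespace Fermat.Agent.S55

open NumberField IsDedekindDomain Finset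
open scoped Pointwise nonZeroDivisors

section GalPrime

variable {K L : Type*} [Field K] [Field L] [NumberField L] [Algebra K L]

/-- Galois action on the primes of `𝓞 L`. -/
noncomputable def h92_galPrime (σ : L ≃ₐ[K] L) (w : HeightOneSpectrum (𝓞 L)) :
    HeightOneSpectrum (𝓞 L) where
  asIdeal := σ • w.asIdeal
  isPrime := by
    have := w.isPrime
    exact Ideal.IsPrime.smul σ
  ne_bot := by
    intro h
    have h2 : w.asIdeal = σ⁻¹ • (σ • w.asIdeal) := (inv_smul_smul σ _).symm
    rw [h, Ideal.smul_bot] at h2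
    exact w.ne_bot h2

theorem h92_galPrime_asIdeal (σ : L ≃ₐ[K] L) (w : HeightOneSpectrum (𝓞 L)) :
    (h92_galPrime σ w).asIdeal = σ • w.asIdeal := rfl

theorem h92_galPrime_one (w : HeightOneSpectrum (𝓞 L)) :
    h92_galPrime (1 : L ≃ₐ[K] L) w = w := by
  ext1
  rw [h92_galPrime_asIdeal, one_smul]

theorem h92_galPrime_mul (σ τ : L ≃ₐ[K] L) (w : HeightOneSpectrum (𝓞 L)) :
    h92_galPrime (σ * τ) w = h92_galPrime σ (h92_galPrime τ w) := by
  ext1
  rw [h92_galPrime_asIdeal, h92_galPrime_asIdeal, h92_galPrime_asIdeal, mul_smul]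

theorem h92_galPrime_pow (σ : L ≃ₐ[K] L) (k : ℕ) (w : HeightOneSpectrum (𝓞 L)) :
    h92_galPrime (σ ^ k) w = (h92_galPrime σ)^[k] w := by
  induction k with
  | zero => simp [h92_galPrime_one]
  | succ k ih => rw [pow_succ', h92_galPrime_mul, ih, Function.iterate_succ_apply']

theorem h92_galPrime_injective (σ : L ≃ₐ[K] L) : Function.Injective (h92_galPrime σ) := by
  intro w w' h
  have h1 := congrArg (h92_galPrime σ⁻¹) h
  rwa [← h92_galPrime_mul, ← h92_galPrime_mul, inv_mul_cancel, h92_galPrime_one,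
    h92_galPrime_one] at h1

/-- `v_{σ w}(σ r) = v_w(r)` on integers. -/
theorem h92_intValuation_galPrime (σ : L ≃ₐ[K] L) (w : HeightOneSpectrum (𝓞 L)) (r : 𝓞 L) :
    (h92_galPrime σ w).intValuation (σ • r) = w.intValuation r := by
  by_cases hr : r = 0
  · simp [hr]
  have hr' : σ • r ≠ 0 := by
    intro h
    apply hr
    have := congrArg (fun x => σ⁻¹ • x) h
    simpa using this
  rw [HeightOneSpectrum.intValuation_eq_exp_neg_multiplicity _ hr',
    HeightOneSpectrum.intValuation_eq_exp_neg_multiplicity _ hr]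
  have h1 : (Ideal.span {σ • r} : Ideal (𝓞 L)) = σ • Ideal.span {r} := by
    rw [Ideal.smul_closure, Set.smul_set_singleton]
  rw [h1, h92_galPrime_asIdeal]
  have h2 := multiplicity_map_eq (MulDistribMulAction.toMulEquiv (Ideal (𝓞 L)) σ)
    (a := w.asIdeal) (b := Ideal.span {r})
  simp only [MulDistribMulAction.toMulEquiv_apply] at h2
  rw [h2]

/-- `v_{σ w}(σ x) = v_w(x)`. -/
theorem h92_valuation_galPrime (σ : L ≃ₐ[K] L) (w : HeightOneSpectrum (𝓞 L)) (x : L) :
    (h92_galPrime σ w).valuation L (σ x) = w.valuation L x := by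
  obtain ⟨r, s, hs, rfl⟩ := IsFractionRing.div_surjective (A := 𝓞 L) x
  have h1 : σ (algebraMap (𝓞 L) L r / algebraMap (𝓞 L) L s)
      = algebraMap (𝓞 L) L (σ • r) / algebraMap (𝓞 L) L (σ • s) := by
    rw [map_div₀]
    rfl
  rw [h1, map_div₀, map_div₀, HeightOneSpectrum.valuation_of_algebraMap,
    HeightOneSpectrum.valuation_of_algebraMap, HeightOneSpectrum.valuation_of_algebraMap,
    HeightOneSpectrum.valuation_of_algebraMap, h92_intValuation_galPrime,
    h92_intValuation_galPrime]

end GalPrime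

section Units

variable {K L : Type*} [Field K] [Field L] [NumberField L] [Algebra K L]

theorem h92_units_smul_coe (σ : L ≃ₐ[K] L) (x : Lˣ) : ((σ • x : Lˣ) : L) = σ (x : L) := rfl

/-- `v_{σ w}(σ x) = v_w(x)` on `Lˣ`. -/
theorem h92_valuationOfNeZero_galPrime (σ : L ≃ₐ[K] L) (w : HeightOneSpectrum (𝓞 L)) (x : Lˣ) :
    (h92_galPrime σ w).valuationOfNeZero (σ • x) = w.valuationOfNeZero x := by
  rw [← WithZero.coe_inj, HeightOneSpectrum.valuationOfNeZero_eq,
    HeightOneSpectrum.valuationOfNeZero_eq, h92_units_smul_coe, h92_valuation_galPrime]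

theorem h92_valuationOfNeZero_smul (σ : L ≃ₐ[K] L) (w : HeightOneSpectrum (𝓞 L)) (x : Lˣ) :
    w.valuationOfNeZero (σ • x) = (h92_galPrime σ⁻¹ w).valuationOfNeZero x := by
  have h := h92_valuationOfNeZero_galPrime σ (h92_galPrime σ⁻¹ w) x
  rwa [← h92_galPrime_mul, mul_inv_cancel, h92_galPrime_one] at h

theorem h92_mem_unit_iff (T : Set (HeightOneSpectrum (𝓞 L))) (x : Lˣ) :
    x ∈ T.unit L ↔ ∀ v, v ∉ T → v.valuationOfNeZero x = 1 := by
  constructor
  · intro hx v hv
    rw [← WithZero.coe_inj, HeightOneSpectrum.valuationOfNeZero_eq]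
    exact hx v hv
  · intro hx v hv
    have := hx v hv
    rw [← WithZero.coe_inj, HeightOneSpectrum.valuationOfNeZero_eq] at this
    exact this

/-- `T`-units are stable under `σ` when `T` is. -/
theorem h92_unit_smul_mem (σ : L ≃ₐ[K] L) (T : Set (HeightOneSpectrum (𝓞 L)))
    (hT : ∀ w ∈ T, h92_galPrime σ w ∈ T) (x : Lˣ) (hx : x ∈ T.unit L) : σ • x ∈ T.unit L := by
  rw [h92_mem_unit_iff] at hx ⊢
  intro v hv
  rw [h92_valuationOfNeZero_smul]
  apply hx
  intro h
  apply hv
  have := hT _ h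
  rwa [← h92_galPrime_mul, mul_inv_cancel, h92_galPrime_one] at this

/-- a "generator up to the class number" of a prime. -/
theorem h92_exists_gen (w : HeightOneSpectrum (𝓞 L)) :
    ∃ b : Lˣ, ∃ h : ℤ, h ≠ 0 ∧ w.valuationOfNeZero b = Multiplicative.ofAdd h ∧
      ∀ w' : HeightOneSpectrum (𝓞 L), w' ≠ w → w'.valuationOfNeZero b = 1 := by
  classical
  let I0 : (Ideal (𝓞 L))⁰ := ⟨w.asIdeal, mem_nonZeroDivisors_of_ne_zero w.ne_bot⟩
  set n := Fintype.card (ClassGroup (𝓞 L)) with hn
  have hn0 : n ≠ 0 := Fintype.card_ne_zero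
  have h1 : ClassGroup.mk0 (I0 ^ n) = 1 := by rw [map_pow]; exact pow_card_eq_one
  rw [ClassGroup.mk0_eq_one_iff] at h1
  obtain ⟨b0, hb0⟩ := h1.principal
  have hb0' : w.asIdeal ^ n = Ideal.span {b0} := by
    rw [← Ideal.submodule_span_eq, ← hb0]
    simp [I0]
  have hb0ne : b0 ≠ 0 := by
    rintro rfl
    rw [Ideal.span_singleton_eq_bot.mpr rfl] at hb0'
    exact w.ne_bot (pow_eq_zero_iff hn0 |>.mp hb0')
  have hb0L : algebraMap (𝓞 L) L b0 ≠ 0 := by
    simpa using hb0ne
  refine ⟨Units.mk0 _ hb0L, Multiplicative.toAdd (w.valuationOfNeZero (Units.mk0 _ hb0L)), ?_,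
    rfl, ?_⟩
  · intro h0
    have h2 : w.valuationOfNeZero (Units.mk0 _ hb0L) = 1 := h0
    rw [← WithZero.coe_inj, HeightOneSpectrum.valuationOfNeZero_eq, Units.val_mk0,
      HeightOneSpectrum.valuation_of_algebraMap, WithZero.coe_one] at h2
    have h3 : w.intValuation b0 < 1 := by
      rw [HeightOneSpectrum.intValuation_lt_one_iff_dvd, ← hb0']
      exact dvd_pow_self _ hn0
    exact absurd h2 h3.ne
  · intro w' hw'
    rw [← WithZero.coe_inj, HeightOneSpectrum.valuationOfNeZero_eq, Units.val_mk0,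
      HeightOneSpectrum.valuation_of_algebraMap, WithZero.coe_one]
    refine le_antisymm (w'.intValuation_le_one b0) (not_lt.mp ?_)
    rw [HeightOneSpectrum.intValuation_lt_one_iff_dvd, ← hb0']
    intro hdvd
    have h4 : w'.asIdeal ∣ w.asIdeal := w'.prime.dvd_of_dvd_pow hdvd
    have h5 : w.asIdeal ≤ w'.asIdeal := Ideal.dvd_iff_le.mp h4
    have h6 : w.asIdeal = w'.asIdeal :=
      w.isMaximal.eq_of_le w'.isPrime.ne_top h5
    exact hw' (HeightOneSpectrum.ext h6.symm)

/-- `∅`-units are the units of `𝓞 L`. -/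
theorem h92_unit_empty :
    (∅ : Set (HeightOneSpectrum (𝓞 L))).unit L
      = (Units.map (algebraMap (𝓞 L) L : 𝓞 L →* L)).range := by
  ext x
  constructor
  · intro hx
    have h1 : ∀ v : HeightOneSpectrum (𝓞 L), v.valuation L (x : L) = 1 :=
      fun v => hx v (Set.notMem_empty v)
    have h2 : ∀ v : HeightOneSpectrum (𝓞 L), v.valuation L ((x⁻¹ : Lˣ) : L) = 1 := by
      intro v
      rw [Units.val_inv_eq_inv_val, map_inv₀, h1, inv_one]
    obtain ⟨r, hr⟩ := HeightOneSpectrum.mem_integers_of_valuation_le_one L (x : L)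
      (fun v => (h1 v).le)
    obtain ⟨s, hs⟩ := HeightOneSpectrum.mem_integers_of_valuation_le_one L ((x⁻¹ : Lˣ) : L)
      (fun v => (h2 v).le)
    have hrs : r * s = 1 := by
      apply FaithfulSMul.algebraMap_injective (𝓞 L) L
      rw [map_mul, hr, hs, map_one]
      simp
    have hsr : s * r = 1 := by rw [mul_comm]; exact hrs
    refine ⟨⟨r, s, hrs, hsr⟩, ?_⟩
    ext
    exact hr
  · rintro ⟨u, rfl⟩
    rw [h92_mem_unit_iff]
    intro v _
    exact HeightOneSpectrum.valuation_of_unit_eq v u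

end Units

section Base

variable {K L : Type*} [Field K] [NumberField K] [Field L] [NumberField L] [Algebra K L]

/-- transport of the Herbrand index along an injective equivariant homomorphism. -/
theorem h92_hq_range {A E : Type*} [CommGroup A] [CommGroup E] (ι : A →* E)
    (hι : Function.Injective ι) (fA gA : A →* A) (f g : E →* E)
    (hf : ∀ u, ι (fA u) = f (ι u)) (hg : ∀ u, ι (gA u) = g (ι u)) :
    h92_hq f g ι.range = gA.range.relIndex fA.ker := by
  rw [h92_hq_def]
  have e1 : ι.range.map g = gA.range.map ι := by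
    ext x
    constructor
    · rintro ⟨_, ⟨u, rfl⟩, rfl⟩
      exact ⟨gA u, ⟨u, rfl⟩, hg u⟩
    · rintro ⟨_, ⟨u, rfl⟩, rfl⟩
      exact ⟨ι u, ⟨u, rfl⟩, (hg u).symm⟩
  have e2 : ι.range ⊓ f.ker = fA.ker.map ι := by
    ext x
    constructor
    · rintro ⟨⟨u, rfl⟩, hx⟩
      have hx' : f (ι u) = 1 := hx
      refine ⟨u, ?_, rfl⟩
      change fA u = 1
      apply hι
      rw [hf, map_one]
      exact hx'
    · rintro ⟨u, hu, rfl⟩
      have hu' : fA u = 1 := hu
      refine ⟨⟨u, rfl⟩, ?_⟩
      change f (ι u) = 1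
      rw [← hf, hu', map_one]
  rw [e1, e2, Subgroup.relIndex_map_map_of_injective _ _ hι]

/-- base case: the units of `𝓞 L` (landed `h92_units_index` of S14). -/
theorem h92_sunits_base [IsGalois K L] {p : ℕ} (hp : p.Prime) (hp2 : p ≠ 2)
    (hdeg : Module.finrank K L = p) (σ : L ≃ₐ[K] L) (hσ : σ ≠ 1) :
    h92_hq (h92_mD σ) (h92_mN σ p) ((∅ : Set (HeightOneSpectrum (𝓞 L))).unit L) ≠ 0 ∧
    h92_hq (h92_mN σ p) (h92_mD σ) ((∅ : Set (HeightOneSpectrum (𝓞 L))).unit L) ≠ 0 ∧
    h92_hq (h92_mD σ) (h92_mN σ p) ((∅ : Set (HeightOneSpectrum (𝓞 L))).unit L) * p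
      = h92_hq (h92_mN σ p) (h92_mD σ) ((∅ : Set (HeightOneSpectrum (𝓞 L))).unit L) := by
  set ι : (𝓞 L)ˣ →* Lˣ := Units.map (algebraMap (𝓞 L) L : 𝓞 L →* L) with hι
  have hinj : Function.Injective ι :=
    Units.map_injective (FaithfulSMul.algebraMap_injective (𝓞 L) L)
  have hD : ∀ u, ι (Fermat.Agent.S14.h92_unitsD σ u) = h92_mD σ (ι u) := by
    intro u
    ext
    rw [h92_mD_apply, Units.val_div_eq_div_val, h92_units_smul_coe]
    exact Fermat.Agent.S14.h92_unitsD_coe σ u
  have hN : ∀ u, ι (Fermat.Agent.S14.h92_unitsN σ p u) = h92_mN σ p (ι u) := by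
    intro u
    ext
    rw [h92_mN_apply, Units.coe_prod]
    exact Fermat.Agent.S14.h92_unitsN_coe σ p u
  have e0 := h92_hq_range ι hinj (Fermat.Agent.S14.h92_unitsD σ) (Fermat.Agent.S14.h92_unitsN σ p)
    (h92_mD σ) (h92_mN σ p) hD hN
  have e1 := h92_hq_range ι hinj (Fermat.Agent.S14.h92_unitsN σ p) (Fermat.Agent.S14.h92_unitsD σ)
    (h92_mN σ p) (h92_mD σ) hN hD
  obtain ⟨hX, hXY⟩ := Fermat.Agent.S14.h92_units_index hp hp2 hdeg σ hσ
  rw [h92_unit_empty, e0, e1]
  refine ⟨hX, ?_, ?_⟩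
  · rw [hXY]
    exact Nat.mul_ne_zero hp.ne_zero hX
  · rw [hXY, mul_comm]

end Base

section Steps

variable {K L : Type*} [Field K] [Field L] [NumberField L] [Algebra K L]

theorem h92_galPrime_pow_fixed (σ : L ≃ₐ[K] L) {w : HeightOneSpectrum (𝓞 L)}
    (hw : h92_galPrime σ w = w) (k : ℕ) : h92_galPrime (σ ^ k) w = w := by
  rw [h92_galPrime_pow]
  exact Function.iterate_fixed hw k

theorem h92_galPrime_inv_eq_iff (σ : L ≃ₐ[K] L) (v w : HeightOneSpectrum (𝓞 L)) :
    h92_galPrime σ⁻¹ v = w ↔ v = h92_galPrime σ w := by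
  constructor
  · intro h
    rw [← h, ← h92_galPrime_mul, mul_inv_cancel, h92_galPrime_one]
  · intro h
    rw [h, ← h92_galPrime_mul, inv_mul_cancel, h92_galPrime_one]

/-- valuations of the conjugates of a generator. -/
theorem h92_val_conj (σ : L ≃ₐ[K] L) (w : HeightOneSpectrum (𝓞 L)) (b : Lˣ) (h : ℤ)
    (hbw : w.valuationOfNeZero b = Multiplicative.ofAdd h)
    (hbw' : ∀ w' : HeightOneSpectrum (𝓞 L), w' ≠ w → w'.valuationOfNeZero b = 1)
    (v : HeightOneSpectrum (𝓞 L)) [Decidable (v = h92_galPrime σ w)] :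
    v.valuationOfNeZero (σ • b) = if v = h92_galPrime σ w then Multiplicative.ofAdd h else 1 := by
  rw [h92_valuationOfNeZero_smul]
  split_ifs with hv
  · rw [(h92_galPrime_inv_eq_iff σ v w).mpr hv, hbw]
  · exact hbw' _ (fun h' => hv ((h92_galPrime_inv_eq_iff σ v w).mp h'))

theorem h92_pow_mod' {G : Type*} [Monoid G] {σ : G} {p : ℕ} (hσ : σ ^ p = 1) (n : ℕ) :
    σ ^ n = σ ^ (n % p) := by
  conv_lhs => rw [← Nat.div_add_mod n p, pow_add, pow_mul, hσ, one_pow, one_mul]

/-- **Step, fixed prime**: adding a `σ`-fixed prime multiplies the Herbrand quotient by `p`. -/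
theorem h92_sunits_step_fixed {p : ℕ} [NeZero p] (σ : L ≃ₐ[K] L) (hσp : σ ^ p = 1)
    (T' T : Set (HeightOneSpectrum (𝓞 L))) (w : HeightOneSpectrum (𝓞 L))
    (hw : h92_galPrime σ w = w) (hT : T = insert w T') (hwT' : w ∉ T')
    (hT'σ : ∀ v ∈ T', h92_galPrime σ v ∈ T')
    (h0 : h92_hq (h92_mD σ) (h92_mN σ p) (T'.unit L) ≠ 0)
    (h1 : h92_hq (h92_mN σ p) (h92_mD σ) (T'.unit L) ≠ 0) :
    h92_hq (h92_mD σ) (h92_mN σ p) (T.unit L) ≠ 0 ∧
    h92_hq (h92_mN σ p) (h92_mD σ) (T.unit L) ≠ 0 ∧
    h92_hq (h92_mD σ) (h92_mN σ p) (T.unit L) * h92_hq (h92_mN σ p) (h92_mD σ) (T'.unit L)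
      = h92_hq (h92_mN σ p) (h92_mD σ) (T.unit L)
        * (h92_hq (h92_mD σ) (h92_mN σ p) (T'.unit L) * p) := by
  classical
  obtain ⟨b, h, hh, hbw, hbw'⟩ := h92_exists_gen w
  set a : Lˣ := h92_mN σ p b with ha_def
  have hk : ∀ (k : ℕ) (v : HeightOneSpectrum (𝓞 L)),
      v.valuationOfNeZero (σ ^ k • b) = if v = w then Multiplicative.ofAdd h else 1 := by
    intro k v
    have := h92_val_conj (σ ^ k) w b h hbw hbw' v
    rwa [h92_galPrime_pow_fixed σ hw k] at this
  have ha : ∀ v : HeightOneSpectrum (𝓞 L),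
      v.valuationOfNeZero a = if v = w then Multiplicative.ofAdd ((p : ℤ) * h) else 1 := by
    intro v
    rw [ha_def, h92_mN_apply, map_prod]
    simp_rw [hk]
    split_ifs with hv
    · rw [Finset.prod_const, Finset.card_range, ← ofAdd_nsmul, nsmul_eq_mul]
    · simp
  have hh' : (p : ℤ) * h ≠ 0 := mul_ne_zero (by exact_mod_cast NeZero.ne p) hh
  have hσa : σ • a = a := h92_smul_mN hσp b
  have hTσ : ∀ v ∈ T, h92_galPrime σ v ∈ T := by
    intro v hv
    rw [hT] at hv ⊢
    rcases hv with rfl | hv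
    · rw [hw]; exact Set.mem_insert _ _
    · exact Set.mem_insert_of_mem _ (hT'σ v hv)
  have hν : ∀ j k : Unit, (fun _ : Unit => w.valuationOfNeZero) k ((fun _ : Unit => a) j)
      = if j = k then Multiplicative.ofAdd ((p : ℤ) * h) else 1 := by
    intro j k
    simp [ha]
  have hinj := h92_zpowHom_injective (fun _ : Unit => w.valuationOfNeZero) (fun _ : Unit => a)
    ((p : ℤ) * h) hh' hν
  obtain ⟨c0, c1⟩ := h92_hq_fixed σ p (fun _ : Unit => a) hinj (fun _ => hσa)
  have key := h92_step σ p hσp (T'.unit L) (T.unit L)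
    (fun x hx => h92_unit_smul_mem σ T' hT'σ x hx) (fun x hx => h92_unit_smul_mem σ T hTσ x hx)
    (fun _ : Unit => w.valuationOfNeZero) (fun _ : Unit => a) ((p : ℤ) * h) hh'
    (by
      intro _
      rw [h92_mem_unit_iff]
      intro v hv
      rw [ha, if_neg]
      rintro rfl
      exact hv (by rw [hT]; exact Set.mem_insert _ _))
    hν
    (by
      intro x
      rw [h92_mem_unit_iff, h92_mem_unit_iff]
      constructor
      · intro hx
        refine ⟨fun v hv => hx v (fun hv' => hv (by rw [hT]; exact Set.mem_insert_of_mem _ hv')),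
          fun _ => hx w hwT'⟩
      · rintro ⟨hx1, hx2⟩ v hv
        by_cases hvw : v = w
        · rw [hvw]; exact hx2 ()
        · exact hx1 v (by
            rw [hT]
            intro h'
            rcases h' with h' | h'
            · exact hvw h'
            · exact hv h'))
    (by
      rintro x hx
      obtain ⟨e, rfl⟩ := (h92_mem_range_zpowHom _ x).mp hx
      rw [Finset.smul_prod']
      simp_rw [smul_zpow', hσa]
      exact (h92_mem_range_zpowHom _ _).mpr ⟨e, rfl⟩)
    p 1 c0 c1 (NeZero.ne p) one_ne_zero h0 h1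
  simpa using key

end Steps

section StepSplit

variable {K L : Type*} [Field K] [Field L] [NumberField L] [Algebra K L]

/-- if `σ w ≠ w` and `σ` has prime order `p` then `σ^d w = w` forces `p ∣ d`. -/
theorem h92_dvd_of_galPrime_pow_eq {p : ℕ} (hp : p.Prime) (σ : L ≃ₐ[K] L) (hσp : σ ^ p = 1)
    (w : HeightOneSpectrum (𝓞 L)) (hw : h92_galPrime σ w ≠ w) (d : ℕ)
    (hd : h92_galPrime (σ ^ d) w = w) : p ∣ d := by
  by_contra hnd
  have hcop : Nat.Coprime d p := ((Nat.Prime.coprime_iff_not_dvd hp).mpr hnd).symm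
  obtain ⟨m, -, hm⟩ := Nat.exists_mul_mod_eq_one_of_coprime hcop hp.one_lt
  have h1 : σ ^ (d * m) = σ := by
    rw [h92_pow_mod' hσp (d * m), hm, pow_one]
  have h2 : h92_galPrime (σ ^ (d * m)) w = w := by
    rw [pow_mul]
    exact h92_galPrime_pow_fixed (σ ^ d) hd m
  rw [h1] at h2
  exact hw h2

/-- **Step, split orbit**: adding a free orbit of primes does not change the Herbrand quotient. -/
theorem h92_sunits_step_split {p : ℕ} (hp : p.Prime) (σ : L ≃ₐ[K] L) (hσp : σ ^ p = 1)
    (T' T : Set (HeightOneSpectrum (𝓞 L))) (w : HeightOneSpectrum (𝓞 L))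
    (hw : h92_galPrime σ w ≠ w)
    (hT : T = T' ∪ Set.range (fun k : ℕ => h92_galPrime (σ ^ k) w))
    (hwT' : ∀ k : ℕ, h92_galPrime (σ ^ k) w ∉ T')
    (hT'σ : ∀ v ∈ T', h92_galPrime σ v ∈ T')
    (h0 : h92_hq (h92_mD σ) (h92_mN σ p) (T'.unit L) ≠ 0)
    (h1 : h92_hq (h92_mN σ p) (h92_mD σ) (T'.unit L) ≠ 0) :
    h92_hq (h92_mD σ) (h92_mN σ p) (T.unit L) ≠ 0 ∧
    h92_hq (h92_mN σ p) (h92_mD σ) (T.unit L) ≠ 0 ∧
    h92_hq (h92_mD σ) (h92_mN σ p) (T.unit L) * h92_hq (h92_mN σ p) (h92_mD σ) (T'.unit L)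
      = h92_hq (h92_mN σ p) (h92_mD σ) (T.unit L)
        * h92_hq (h92_mD σ) (h92_mN σ p) (T'.unit L) := by
  classical
  have : NeZero p := ⟨hp.ne_zero⟩
  obtain ⟨b, h, hh, hbw, hbw'⟩ := h92_exists_gen w
  set W : ℕ → HeightOneSpectrum (𝓞 L) := fun k => h92_galPrime (σ ^ k) w with hW
  have hWmod : ∀ n : ℕ, W n = W (n % p) := by
    intro n
    simp only [hW]
    rw [h92_pow_mod' hσp n]
  have hWinj : ∀ i j : ZMod p, W i.val = W j.val → i = j := by
    intro i j hij
    have h2 : h92_galPrime (σ ^ (i.val + (p - j.val))) w = w := by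
      have hj : j.val ≤ p := (ZMod.val_lt j).le
      rw [add_comm, pow_add, h92_galPrime_mul]
      change h92_galPrime (σ ^ (p - j.val)) (W i.val) = w
      rw [hij]
      change h92_galPrime (σ ^ (p - j.val)) (h92_galPrime (σ ^ j.val) w) = w
      rw [← h92_galPrime_mul, ← pow_add, Nat.sub_add_cancel hj, hσp, h92_galPrime_one]
    have h3 := h92_dvd_of_galPrime_pow_eq hp σ hσp w hw _ h2
    have hi := ZMod.val_lt i
    have hj := ZMod.val_lt j
    have h4 : i.val + (p - j.val) = p :=
      Nat.eq_of_dvd_of_lt_two_mul (by omega) h3 (by omega)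
    apply ZMod.val_injective p
    omega
  have hval : ∀ (k : ℕ) (v : HeightOneSpectrum (𝓞 L)),
      v.valuationOfNeZero (σ ^ k • b) = if v = W k then Multiplicative.ofAdd h else 1 :=
    fun k v => h92_val_conj (σ ^ k) w b h hbw hbw' v
  set a : ZMod p → Lˣ := fun j => σ ^ j.val • b with ha
  set ν : ZMod p → Lˣ →* Multiplicative ℤ := fun j => (W j.val).valuationOfNeZero with hν_def
  have hν : ∀ j k : ZMod p, ν k (a j) = if j = k then Multiplicative.ofAdd h else 1 := by
    intro j k
    simp only [ha, hν_def]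
    rw [hval]
    by_cases hjk : j = k
    · rw [if_pos hjk, if_pos (by rw [hjk])]
    · rw [if_neg hjk, if_neg (fun h' => hjk (hWinj k j h').symm)]
  have hWT : ∀ k, W k ∈ T := by
    intro k
    rw [hT]
    exact Or.inr ⟨k, rfl⟩
  have hσW : ∀ k, h92_galPrime σ (W k) = W (k + 1) := by
    intro k
    simp only [hW]
    rw [← h92_galPrime_mul, ← pow_succ']
  have hTσ : ∀ v ∈ T, h92_galPrime σ v ∈ T := by
    intro v hv
    rw [hT] at hv
    rcases hv with hv | ⟨k, rfl⟩
    · rw [hT]; exact Or.inl (hT'σ v hv)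
    · change h92_galPrime σ (W k) ∈ T
      rw [hσW]; exact hWT _
  have hshift : ∀ j : ZMod p, σ • a j = a (j + 1) := by
    intro j
    simp only [ha]
    rw [← mul_smul, ← pow_succ', h92_pow_mod' hσp (j.val + 1), ZMod.val_add,
      ZMod.val_one_eq_one_mod, Nat.add_mod_mod]
  have hinj := h92_zpowHom_injective ν a h hh hν
  obtain ⟨c0, c1⟩ := h92_hq_split σ p hσp a hinj hshift
  have key := h92_step σ p hσp (T'.unit L) (T.unit L)
    (fun x hx => h92_unit_smul_mem σ T' hT'σ x hx) (fun x hx => h92_unit_smul_mem σ T hTσ x hx)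
    ν a h hh
    (by
      intro j
      rw [h92_mem_unit_iff]
      intro v hv
      simp only [ha]
      rw [hval, if_neg]
      rintro rfl
      exact hv (hWT _))
    hν
    (by
      intro x
      rw [h92_mem_unit_iff, h92_mem_unit_iff]
      constructor
      · intro hx
        refine ⟨fun v hv => hx v (fun hv' => hv (by rw [hT]; exact Or.inl hv')),
          fun j => hx _ (hwT' _)⟩
      · rintro ⟨hx1, hx2⟩ v hv
        by_cases hvW : ∃ k, v = W k
        · obtain ⟨k, rfl⟩ := hvW
          have := hx2 (k : ZMod p)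
          simp only [hν_def] at this
          rwa [ZMod.val_natCast, ← hWmod] at this
        · exact hx1 v (by
            rw [hT]
            intro h'
            rcases h' with h' | ⟨k, h'⟩
            · exact hv h'
            · exact hvW ⟨k, h'.symm⟩))
    (by
      rintro x hx
      obtain ⟨e, rfl⟩ := (h92_mem_range_zpowHom _ x).mp hx
      rw [Finset.smul_prod']
      refine Subgroup.prod_mem _ fun j _ => ?_
      rw [smul_zpow', hshift]
      exact Subgroup.zpow_mem _ (h92_mem_range_zpowHom_self a _) _)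
    1 1 c0 c1 one_ne_zero one_ne_zero h0 h1
  simpa using key

end StepSplit

section Main

variable {K L : Type*} [Field K] [NumberField K] [Field L] [NumberField L] [Algebra K L]

/-- **Herbrand index of `T`-units** (Finset form): for a cyclic extension `L/K` of odd prime
degree `p` with generator `σ` and a finite `σ`-stable set `T` of primes of `L`,
`[U_T^σ : N U_T] * p = [U_T ∩ ker N : D U_T] * p ^ #{w ∈ T | σ w = w}`, all indices finite. -/
theorem h92_sunits_index_finset [IsGalois K L] {p : ℕ} (hp : p.Prime) (hp2 : p ≠ 2)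
    (hdeg : Module.finrank K L = p) (σ : L ≃ₐ[K] L) (hσ : σ ≠ 1)
    [DecidablePred fun w : HeightOneSpectrum (𝓞 L) => h92_galPrime σ w = w]
    (T : Finset (HeightOneSpectrum (𝓞 L))) (hTσ : ∀ w ∈ T, h92_galPrime σ w ∈ T) :
    h92_hq (h92_mD σ) (h92_mN σ p) ((T : Set (HeightOneSpectrum (𝓞 L))).unit L) ≠ 0 ∧
    h92_hq (h92_mN σ p) (h92_mD σ) ((T : Set (HeightOneSpectrum (𝓞 L))).unit L) ≠ 0 ∧
    h92_hq (h92_mD σ) (h92_mN σ p) ((T : Set (HeightOneSpectrum (𝓞 L))).unit L) * p
      = h92_hq (h92_mN σ p) (h92_mD σ) ((T : Set (HeightOneSpectrum (𝓞 L))).unit L)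
        * p ^ (T.filter fun w => h92_galPrime σ w = w).card := by
  classical
  have hp0 : NeZero p := ⟨hp.ne_zero⟩
  have hσp : σ ^ p = 1 := by
    rw [← hdeg, ← IsGalois.card_aut_eq_finrank]
    exact pow_card_eq_one'
  induction T using Finset.strongInduction with
  | H T ih =>
    rcases T.eq_empty_or_nonempty with rfl | ⟨w, hwT⟩
    · obtain ⟨b0, b1, b2⟩ := h92_sunits_base hp hp2 hdeg σ hσ
      simp only [Finset.coe_empty, Finset.filter_empty, Finset.card_empty, pow_zero, mul_one]
      exact ⟨b0, b1, b2⟩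
    · by_cases hw : h92_galPrime σ w = w
      · -- fixed prime
        have hT'σ : ∀ v ∈ T.erase w, h92_galPrime σ v ∈ T.erase w := by
          intro v hv
          rw [Finset.mem_erase] at hv ⊢
          refine ⟨fun h' => hv.1 (h92_galPrime_injective σ (h'.trans hw.symm)), hTσ v hv.2⟩
        obtain ⟨i0, i1, i2⟩ := ih (T.erase w) (Finset.erase_ssubset hwT) hT'σ
        have hTset : (T : Set (HeightOneSpectrum (𝓞 L)))
            = insert w ((T.erase w : Finset _) : Set (HeightOneSpectrum (𝓞 L))) := by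
          rw [← Finset.coe_insert, Finset.insert_erase hwT]
        have hwT' : w ∉ ((T.erase w : Finset _) : Set (HeightOneSpectrum (𝓞 L))) := by
          simp
        obtain ⟨s0, s1, s2⟩ := h92_sunits_step_fixed σ hσp _ _ w hw hTset hwT'
          (fun v hv => hT'σ v hv) i0 i1
        have hcard : (T.filter fun w => h92_galPrime σ w = w).card
            = ((T.erase w).filter fun w => h92_galPrime σ w = w).card + 1 := by
          conv_lhs => rw [← Finset.insert_erase hwT]
          rw [Finset.filter_insert, if_pos hw, Finset.card_insert_of_notMem]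
          simp
        refine ⟨s0, s1, ?_⟩
        rw [hcard, pow_succ]
        set X' := h92_hq (h92_mD σ) (h92_mN σ p) ((T : Set (HeightOneSpectrum (𝓞 L))).unit L)
        set Y' := h92_hq (h92_mN σ p) (h92_mD σ) ((T : Set (HeightOneSpectrum (𝓞 L))).unit L)
        set X := h92_hq (h92_mD σ) (h92_mN σ p)
          (((T.erase w : Finset _) : Set (HeightOneSpectrum (𝓞 L))).unit L)
        set Y := h92_hq (h92_mN σ p) (h92_mD σ)
          (((T.erase w : Finset _) : Set (HeightOneSpectrum (𝓞 L))).unit L)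
        set t := ((T.erase w).filter fun w => h92_galPrime σ w = w).card
        -- s2 : X' * Y = Y' * (X * p);  i2 : X * p = Y * p ^ t
        have h3 : X' * Y = Y' * p ^ t * Y := by
          rw [s2, i2]; ring
        have h4 : X' = Y' * p ^ t := Nat.eq_of_mul_eq_mul_right (Nat.pos_of_ne_zero i1) h3
        rw [h4]; ring
      · -- free orbit
        set W : ℕ → HeightOneSpectrum (𝓞 L) := fun k => h92_galPrime (σ ^ k) w with hW
        have hWT : ∀ k, W k ∈ T := by
          intro k
          simp only [hW]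
          rw [h92_galPrime_pow]
          induction k with
          | zero => simpa using hwT
          | succ k ihk => rw [Function.iterate_succ_apply']; exact hTσ _ ihk
        set O : Finset (HeightOneSpectrum (𝓞 L)) := (Finset.range p).image W with hO
        have hWO : ∀ k, W k ∈ O := by
          intro k
          rw [hO, Finset.mem_image]
          refine ⟨k % p, Finset.mem_range.mpr (Nat.mod_lt _ hp.pos), ?_⟩
          simp only [hW]
          rw [← h92_pow_mod' hσp k]
        have hOT : O ⊆ T := by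
          intro v hv
          rw [hO, Finset.mem_image] at hv
          obtain ⟨k, -, rfl⟩ := hv
          exact hWT k
        have hOW : ∀ v ∈ O, ∃ k, v = W k := by
          intro v hv
          rw [hO, Finset.mem_image] at hv
          obtain ⟨k, -, rfl⟩ := hv
          exact ⟨k, rfl⟩
        have hT'σ : ∀ v ∈ T \ O, h92_galPrime σ v ∈ T \ O := by
          intro v hv
          rw [Finset.mem_sdiff] at hv ⊢
          refine ⟨hTσ v hv.1, fun h' => hv.2 ?_⟩
          obtain ⟨k, hk⟩ := hOW _ h'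
          have h5 : h92_galPrime σ v = h92_galPrime σ (W (k + (p - 1))) := by
            rw [hk]
            simp only [hW]
            rw [← h92_galPrime_mul, ← pow_succ']
            have : k + (p - 1) + 1 = k + p := by have := hp.pos; omega
            rw [this, pow_add, hσp, mul_one]
          rw [h92_galPrime_injective σ h5]
          exact hWO _
        have hss : T \ O ⊂ T :=
          Finset.sdiff_ssubset hOT ⟨W 0, hWO 0⟩
        obtain ⟨i0, i1, i2⟩ := ih (T \ O) hss hT'σ
        have hTset : (T : Set (HeightOneSpectrum (𝓞 L)))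
            = ((T \ O : Finset _) : Set (HeightOneSpectrum (𝓞 L)))
              ∪ Set.range (fun k : ℕ => h92_galPrime (σ ^ k) w) := by
          ext v
          simp only [Set.mem_union, Finset.mem_coe, Finset.mem_sdiff, Set.mem_range]
          constructor
          · intro hv
            by_cases hvO : v ∈ O
            · obtain ⟨k, hk⟩ := hOW v hvO
              exact Or.inr ⟨k, hk.symm⟩
            · exact Or.inl ⟨hv, hvO⟩
          · rintro (hv | ⟨k, rfl⟩)
            · exact hv.1
            · exact hWT k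
        have hwT' : ∀ k : ℕ, h92_galPrime (σ ^ k) w
            ∉ ((T \ O : Finset _) : Set (HeightOneSpectrum (𝓞 L))) := by
          intro k hk
          rw [Finset.mem_coe, Finset.mem_sdiff] at hk
          exact hk.2 (hWO k)
        obtain ⟨s0, s1, s2⟩ := h92_sunits_step_split hp σ hσp _ _ w hw hTset hwT'
          (fun v hv => hT'σ v hv) i0 i1
        have hfilter : (T.filter fun w => h92_galPrime σ w = w)
            = ((T \ O).filter fun w => h92_galPrime σ w = w) := by
          ext v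
          simp only [Finset.mem_filter, Finset.mem_sdiff]
          constructor
          · rintro ⟨hv, hfix⟩
            refine ⟨⟨hv, fun hvO => ?_⟩, hfix⟩
            obtain ⟨k, rfl⟩ := hOW v hvO
            apply hw
            simp only [hW] at hfix
            rw [← h92_galPrime_mul, ← pow_succ', pow_succ, h92_galPrime_mul] at hfix
            exact h92_galPrime_injective _ hfix
          · rintro ⟨⟨hv, -⟩, hfix⟩
            exact ⟨hv, hfix⟩
        refine ⟨s0, s1, ?_⟩
        rw [hfilter]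
        set X' := h92_hq (h92_mD σ) (h92_mN σ p) ((T : Set (HeightOneSpectrum (𝓞 L))).unit L)
        set Y' := h92_hq (h92_mN σ p) (h92_mD σ) ((T : Set (HeightOneSpectrum (𝓞 L))).unit L)
        set X := h92_hq (h92_mD σ) (h92_mN σ p)
          (((T \ O : Finset _) : Set (HeightOneSpectrum (𝓞 L))).unit L)
        set Y := h92_hq (h92_mN σ p) (h92_mD σ)
          (((T \ O : Finset _) : Set (HeightOneSpectrum (𝓞 L))).unit L)
        set t := ((T \ O).filter fun w => h92_galPrime σ w = w).card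
        -- s2 : X' * Y = Y' * X;  i2 : X * p = Y * p ^ t
        have h3 : (X' * p) * Y = (Y' * p ^ t) * Y := by
          calc (X' * p) * Y = (X' * Y) * p := by ring
            _ = Y' * (X * p) := by rw [s2]; ring
            _ = (Y' * p ^ t) * Y := by rw [i2]; ring
        exact Nat.eq_of_mul_eq_mul_right (Nat.pos_of_ne_zero i1) h3

end Main

section Corollaries

variable {K L : Type*} [Field K] [NumberField K] [Field L] [NumberField L] [Algebra K L]

/-- **Herbrand index of `T`-units** (Set form). -/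
theorem h92_sunits_index [IsGalois K L] {p : ℕ} (hp : p.Prime) (hp2 : p ≠ 2)
    (hdeg : Module.finrank K L = p) (σ : L ≃ₐ[K] L) (hσ : σ ≠ 1)
    (T : Set (HeightOneSpectrum (𝓞 L))) (hT : T.Finite)
    (hTσ : ∀ w ∈ T, h92_galPrime σ w ∈ T) :
    h92_hq (h92_mD σ) (h92_mN σ p) (T.unit L) ≠ 0 ∧
    h92_hq (h92_mN σ p) (h92_mD σ) (T.unit L) ≠ 0 ∧
    h92_hq (h92_mD σ) (h92_mN σ p) (T.unit L) * p
      = h92_hq (h92_mN σ p) (h92_mD σ) (T.unit L)
        * p ^ {w | w ∈ T ∧ h92_galPrime σ w = w}.ncard := by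
  classical
  have key := h92_sunits_index_finset hp hp2 hdeg σ hσ hT.toFinset (by simpa using hTσ)
  rw [Set.Finite.coe_toFinset] at key
  have hc : (hT.toFinset.filter fun w => h92_galPrime σ w = w).card
      = {w | w ∈ T ∧ h92_galPrime σ w = w}.ncard := by
    rw [← Set.ncard_coe_finset]
    congr 1
    ext w
    simp
  rw [hc] at key
  exact key

/-- **Herbrand index of `T`-units**, intrinsic form (same shape as `h92_units_index'` of S14):
`D u = σ u / u` and `N u = ∏_{i<p} σ^i u` as endomorphisms of the group of `T`-units. -/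
theorem h92_sunits_index' [IsGalois K L] {p : ℕ} (hp : p.Prime) (hp2 : p ≠ 2)
    (hdeg : Module.finrank K L = p) (σ : L ≃ₐ[K] L) (hσ : σ ≠ 1)
    (T : Set (HeightOneSpectrum (𝓞 L))) (hT : T.Finite)
    (hTσ : ∀ w ∈ T, h92_galPrime σ w ∈ T)
    (D N : ↥(T.unit L) →* ↥(T.unit L))
    (hD : ∀ u : ↥(T.unit L), (((D u : ↥(T.unit L)) : Lˣ) : L) = σ ((u : Lˣ) : L) / ((u : Lˣ) : L))
    (hN : ∀ u : ↥(T.unit L), (((N u : ↥(T.unit L)) : Lˣ) : L)
      = ∏ i ∈ Finset.range p, (σ ^ i) ((u : Lˣ) : L)) :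
    N.range.relIndex D.ker ≠ 0 ∧ D.range.relIndex N.ker ≠ 0 ∧
    N.range.relIndex D.ker * p
      = D.range.relIndex N.ker * p ^ {w | w ∈ T ∧ h92_galPrime σ w = w}.ncard := by
  have hD' : ∀ u, (T.unit L).subtype (D u) = h92_mD σ ((T.unit L).subtype u) := by
    intro u
    ext
    rw [h92_mD_apply, Units.val_div_eq_div_val, h92_units_smul_coe]
    exact hD u
  have hN' : ∀ u, (T.unit L).subtype (N u) = h92_mN σ p ((T.unit L).subtype u) := by
    intro u
    ext
    rw [h92_mN_apply, Units.coe_prod]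
    exact hN u
  have e0 := h92_hq_range (T.unit L).subtype Subtype.coe_injective D N
    (h92_mD σ) (h92_mN σ p) hD' hN'
  have e1 := h92_hq_range (T.unit L).subtype Subtype.coe_injective N D
    (h92_mN σ p) (h92_mD σ) hN' hD'
  rw [Subgroup.range_subtype] at e0 e1
  rw [← e0, ← e1]
  exact h92_sunits_index hp hp2 hdeg σ hσ T hT hTσ

end Corollaries

end Fermat.Agent.S55
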