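import Mathlib
import Fermat.Agent.S55.h25_GlobDefs
import Fermat.Agent.S55.h92_SUnits
import Fermat.Agent.S55.h46_SelmerFinite

set_option autoImplicit false

/-!
# S55, GLOB: the Galois action on `h25_X L S` (GLOB-FUNC for automorphisms)

For number fields `L/K` and `σ : L ≃ₐ[K] L` we make the functorial map
`h25_Xmap S (σ : L →+* L)` of `h25_GlobDefs` explicit:

* on divisors it is the permutation `h28_plMap S σ` of the places prime to `S`
  (`h28_Dmap_single`, `h28_Dmap_eq_mapDomain`, `h28_Dmap_apply`);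
* it is functorial (`h28_Xmap_mul`, `h28_Xmap_one`), so `L ≃ₐ[K] L` acts on `h25_X L S`
  (`h28_XAct`, a `MulDistribMulAction`);
* it commutes with the diagonal (`h28_smul_diag`), hence `h25_Cmap`, `h25_Dm`, `h25_Nm` are
  induced by the action on `X` (`h28_Cmap_mk`, `h28_Dm_mk`, `h28_Nm_mk`).
-/

open IsDedekindDomain NumberField
open scoped nonZeroDivisors Pointwise

namespace Fermat.Agent.S55

noncomputable section

section Act

variable {K : Type*} [Field K] {L : Type*} [Field L] [NumberField L] [Algebra K L]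
variable (S : Finset Nat.Primes)

theorem h28_above_galPrime (σ : L ≃ₐ[K] L) (v : HeightOneSpectrum (𝓞 L)) :
    h25_above L S (h92_galPrime σ v) ↔ h25_above L S v := by
  have key : ∀ (τ : L ≃ₐ[K] L) (w : HeightOneSpectrum (𝓞 L)),
      h25_above L S w → h25_above L S (h92_galPrime τ w) := by
    rintro τ w ⟨q, hq, hmem⟩
    refine ⟨q, hq, ?_⟩
    rw [h92_galPrime_asIdeal]
    have : (((q : Nat.Primes) : ℕ) : 𝓞 L) = τ • (((q : Nat.Primes) : ℕ) : 𝓞 L) :=
      (map_natCast (MulSemiringAction.toRingHom (L ≃ₐ[K] L) (𝓞 L) τ) _).symm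
    rw [this]
    exact Ideal.smul_mem_pointwise_smul _ _ _ hmem
  constructor
  · intro h
    have := key σ⁻¹ _ h
    rwa [← h92_galPrime_mul, inv_mul_cancel, h92_galPrime_one] at this
  · exact key σ v

/-- The action of an automorphism on the places prime to `S`. -/
def h28_plMap (σ : L ≃ₐ[K] L) (v : h25_Pl L S) : h25_Pl L S :=
  ⟨h92_galPrime σ v.1, fun h => v.2 ((h28_above_galPrime S σ v.1).mp h)⟩

theorem h28_plMap_coe (σ : L ≃ₐ[K] L) (v : h25_Pl L S) :
    (h28_plMap S σ v).1 = h92_galPrime σ v.1 := rfl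

theorem h28_plMap_mul (σ τ : L ≃ₐ[K] L) (v : h25_Pl L S) :
    h28_plMap S (σ * τ) v = h28_plMap S σ (h28_plMap S τ v) :=
  Subtype.ext (h92_galPrime_mul σ τ v.1)

theorem h28_plMap_one (v : h25_Pl L S) : h28_plMap S (1 : L ≃ₐ[K] L) v = v :=
  Subtype.ext (h92_galPrime_one v.1)

theorem h28_plMap_injective (σ : L ≃ₐ[K] L) : Function.Injective (h28_plMap S σ) := by
  intro v w h
  have := congrArg (h28_plMap S σ⁻¹) h
  rwa [← h28_plMap_mul, ← h28_plMap_mul, inv_mul_cancel, h28_plMap_one, h28_plMap_one] at this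

theorem h28_map_eq_galPrime (σ : L ≃ₐ[K] L) (v : HeightOneSpectrum (𝓞 L)) :
    Ideal.map (RingOfIntegers.mapRingHom (σ : L →+* L)) v.asIdeal
      = (h92_galPrime σ v).asIdeal := by
  rw [h92_galPrime_asIdeal, Ideal.pointwise_smul_def]
  rfl

/-- On divisors, `h25_Dmap S σ` permutes the places. -/
theorem h28_Dmap_single (σ : L ≃ₐ[K] L) (v : h25_Pl L S) (n : ℤ) :
    h25_Dmap S (σ : L →+* L) (Finsupp.single v n) = Finsupp.single (h28_plMap S σ v) n := by
  classical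
  have hD : h25_divIdeal L S
      ((Ideal.map (RingOfIntegers.mapRingHom (σ : L →+* L)) v.1.asIdeal : Ideal (𝓞 L)) :
        FractionalIdeal (𝓞 L)⁰ L) = Finsupp.single (h28_plMap S σ v) 1 := by
    ext w
    rw [h25_divIdeal_apply, h28_map_eq_galPrime, FractionalIdeal.count_maximal,
      Finsupp.single_apply]
    congr 1
    rw [eq_iff_iff]
    exact ⟨fun h => Subtype.ext h, fun h => congrArg Subtype.val h⟩
  unfold h25_Dmap
  rw [Finsupp.liftAddHom_apply_single, zmultiplesHom_apply, hD, Finsupp.smul_single,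
    smul_eq_mul, mul_one]

theorem h28_Dmap_eq_mapDomain (σ : L ≃ₐ[K] L) (d : h25_Div L S) :
    h25_Dmap S (σ : L →+* L) d = Finsupp.mapDomain (h28_plMap S σ) d := by
  have : h25_Dmap S (σ : L →+* L) = Finsupp.mapDomain.addMonoidHom (h28_plMap S σ) := by
    apply Finsupp.addHom_ext
    intro v n
    rw [h28_Dmap_single, Finsupp.mapDomain.addMonoidHom_apply, Finsupp.mapDomain_single]
  rw [this, Finsupp.mapDomain.addMonoidHom_apply]

theorem h28_Dmap_apply (σ : L ≃ₐ[K] L) (d : h25_Div L S) (v : h25_Pl L S) :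
    h25_Dmap S (σ : L →+* L) d (h28_plMap S σ v) = d v := by
  rw [h28_Dmap_eq_mapDomain, Finsupp.mapDomain_apply (h28_plMap_injective S σ)]

theorem h28_Dmap_mul (σ τ : L ≃ₐ[K] L) (d : h25_Div L S) :
    h25_Dmap S ((σ * τ : L ≃ₐ[K] L) : L →+* L) d
      = h25_Dmap S (σ : L →+* L) (h25_Dmap S (τ : L →+* L) d) := by
  rw [h28_Dmap_eq_mapDomain, h28_Dmap_eq_mapDomain, h28_Dmap_eq_mapDomain,
    ← Finsupp.mapDomain_comp]
  congr 1
  funext v
  exact h28_plMap_mul S σ τ v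

theorem h28_Dmap_one (d : h25_Div L S) :
    h25_Dmap S ((1 : L ≃ₐ[K] L) : L →+* L) d = d := by
  rw [h28_Dmap_eq_mapDomain]
  have : h28_plMap S (1 : L ≃ₐ[K] L) = id := funext fun v => h28_plMap_one S v
  rw [this, Finsupp.mapDomain_id]

omit [NumberField L] in
theorem h28_Jmap_mul (σ τ : L ≃ₐ[K] L) (φ : h25_J L S) :
    h25_Jmap S ((σ * τ : L ≃ₐ[K] L) : L →+* L) φ
      = h25_Jmap S (σ : L →+* L) (h25_Jmap S (τ : L →+* L) φ) := rfl

omit [NumberField L] in
theorem h28_Jmap_one (φ : h25_J L S) :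
    h25_Jmap S ((1 : L ≃ₐ[K] L) : L →+* L) φ = φ := rfl

theorem h28_Xmap_mul (σ τ : L ≃ₐ[K] L) (x : h25_X L S) :
    h25_Xmap S ((σ * τ : L ≃ₐ[K] L) : L →+* L) x
      = h25_Xmap S (σ : L →+* L) (h25_Xmap S (τ : L →+* L) x) := by
  refine Prod.ext (h28_Jmap_mul S σ τ x.1) ?_
  exact congrArg Multiplicative.ofAdd (h28_Dmap_mul S σ τ (Multiplicative.toAdd x.2))

theorem h28_Xmap_one (x : h25_X L S) :
    h25_Xmap S ((1 : L ≃ₐ[K] L) : L →+* L) x = x := by
  refine Prod.ext (h28_Jmap_one S x.1) ?_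
  exact congrArg Multiplicative.ofAdd (h28_Dmap_one S (Multiplicative.toAdd x.2))

/-- The Galois action on `X_L = J_L × Div_L`. -/
instance h28_XAct : MulDistribMulAction (L ≃ₐ[K] L) (h25_X L S) where
  smul σ x := h25_Xmap S (σ : L →+* L) x
  one_smul x := h28_Xmap_one S x
  mul_smul σ τ x := h28_Xmap_mul S σ τ x
  smul_mul σ x y := map_mul (h25_Xmap S (σ : L →+* L)) x y
  smul_one σ := map_one (h25_Xmap S (σ : L →+* L))

theorem h28_smul_def (σ : L ≃ₐ[K] L) (x : h25_X L S) :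
    σ • x = h25_Xmap S (σ : L →+* L) x := rfl

theorem h28_plMap_surjective (σ : L ≃ₐ[K] L) : Function.Surjective (h28_plMap S σ) := by
  intro w
  refine ⟨h28_plMap S σ⁻¹ w, ?_⟩
  rw [← h28_plMap_mul, mul_inv_cancel, h28_plMap_one]

/-- `ord_{σ v}(σ x) = ord_v(x)`. -/
theorem h28_div_smul (σ : L ≃ₐ[K] L) (x : Lˣ) :
    h25_Dmap S (σ : L →+* L) (h25_div L S x) = h25_div L S (σ • x) := by
  ext w
  obtain ⟨v, rfl⟩ := h28_plMap_surjective S σ w
  rw [h28_Dmap_apply]
  unfold h25_div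
  rw [h25_divIdeal_apply, h25_divIdeal_apply, h28_plMap_coe]
  have h1 := h46_valuationOfNeZero_eq_count (K := L) v.1 x
  have h2 := h46_valuationOfNeZero_eq_count (K := L) (h92_galPrime σ v.1) (σ • x)
  rw [h92_valuationOfNeZero_galPrime, h1] at h2
  have h3 := congrArg Multiplicative.toAdd h2
  simp only [toAdd_ofAdd, neg_inj] at h3
  exact h3

/-- The diagonal is Galois equivariant. -/
theorem h28_smul_diag (σ : L ≃ₐ[K] L) (x : Lˣ) :
    σ • h25_diag L S x = h25_diag L S (σ • x) := by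
  refine Prod.ext ?_ ?_
  · rfl
  · exact congrArg Multiplicative.ofAdd (h28_div_smul S σ x)

theorem h28_diag_range_smul (σ : L ≃ₐ[K] L) {x : h25_X L S} (hx : x ∈ (h25_diag L S).range) :
    σ • x ∈ (h25_diag L S).range := by
  obtain ⟨y, rfl⟩ := hx
  exact ⟨σ • y, (h28_smul_diag S σ y).symm⟩

/-- `h25_Cmap` of an automorphism is induced by the action on `X`. -/
theorem h28_Cmap_mk (σ : L ≃ₐ[K] L) (x : h25_X L S) :
    h25_Cmap S (σ : L →+* L) (h25_mk L S x) = h25_mk L S (σ • x) :=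
  h25_Cmap_mk_of S (σ : L →+* L) (fun y => h28_smul_diag S σ y) x

theorem h28_Dm_mk (σ : L ≃ₐ[K] L) (x : h25_X L S) :
    h25_Dm S σ (h25_mk L S x) = h25_mk L S (h92_mD σ x) := by
  rw [h92_mD_apply, map_div]
  show h25_Cmap S (σ : L →+* L) (h25_mk L S x) / h25_mk L S x = _
  rw [h28_Cmap_mk]

theorem h28_Nm_mk (σ : L ≃ₐ[K] L) (n : ℕ) (x : h25_X L S) :
    h25_Nm S σ n (h25_mk L S x) = h25_mk L S (h92_mN σ n x) := by
  rw [h92_mN_apply, map_prod]
  show ∏ i ∈ Finset.range n, h25_Cmap S ((σ ^ i : L ≃ₐ[K] L) : L →+* L) (h25_mk L S x) = _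
  exact Finset.prod_congr rfl fun i _ => h28_Cmap_mk S (σ ^ i) x

end Act

end

end Fermat.Agent.S55
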