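import Mathlib
import Fermat.Agent.S55.h28_GlobAct

set_option autoImplicit false

/-!
# S55, GLOB: a high-priority `SMul` shortcut for the Galois action on `h25_X L S`

`h25_X L S` is an abbreviation for a product, so instance search for
`SMul (L ≃ₐ[K] L) (h25_X L S)` explores the product and pi instances before it reaches
`h28_XAct`; this shortcut instance makes `σ • x` elaborate instantly.  It is the `SMul` of
`h28_XAct` (`h28_XSMul_eq`), so `h28_smul_def` and all lemmas of `h28_GlobAct` apply verbatim.
-/

open IsDedekindDomain NumberField

namespace Fermat.Agent.S55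

noncomputable section

variable {K : Type*} [Field K] {L : Type*} [Field L] [NumberField L] [Algebra K L]
variable (S : Finset Nat.Primes)

/-- Shortcut instance: the Galois action on `h25_X L S` (the `SMul` of `h28_XAct`). -/
instance (priority := high) h28_XSMul : SMul (L ≃ₐ[K] L) (h25_X L S) := (h28_XAct S).toSMul

theorem h28_XSMul_eq :
    (h28_XSMul S : SMul (L ≃ₐ[K] L) (h25_X L S)) = (h28_XAct S).toSMul := rfl

theorem h28_smul_def' (σ : L ≃ₐ[K] L) (x : h25_X L S) :
    σ • x = h25_Xmap S (σ : L →+* L) x := rfl

end

end Fermat.Agent.S55
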