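import Mathlib
import Fermat.Agent.S55.h92_SUnits

set_option autoImplicit false

/-!
# Enlarging a finite set of primes so that the class group becomes trivial

For a number field `L` and a finite set `S` of primes there is a finite `T ⊇ S` such that every
divisor is principal outside `T` (`h92_exists_clT`); `T` can be taken stable under a given
automorphism of finite order (`h92_exists_clT_stable`).  This is the input `Y_T ⊔ Δ = ⊤` of the
abstract first inequality `h92_first_ineq`.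
-/

namespace Fermat.Agent.S55

open NumberField IsDedekindDomain
open scoped nonZeroDivisors

section ClT

variable (L : Type*) [Field L] [NumberField L]

open Classical in
/-- multiplicity of the prime `v` in the ideal `J`. -/
noncomputable def h92_cnt (v : HeightOneSpectrum (𝓞 L)) (J : Ideal (𝓞 L)) : ℕ :=
  (Associates.mk v.asIdeal).count (Associates.mk J).factors

variable {L}

theorem h92_cnt_mul (v : HeightOneSpectrum (𝓞 L)) {I J : Ideal (𝓞 L)} (hI : I ≠ 0) (hJ : J ≠ 0) :
    h92_cnt L v (I * J) = h92_cnt L v I + h92_cnt L v J := by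
  classical
  unfold h92_cnt
  rw [← Associates.mk_mul_mk]
  exact Associates.count_mul (Associates.mk_ne_zero.mpr hI) (Associates.mk_ne_zero.mpr hJ)
    v.associates_irreducible

theorem h92_cnt_eq_zero (v : HeightOneSpectrum (𝓞 L)) {J : Ideal (𝓞 L)} (hJ : J ≠ 0)
    (h : ¬ v.asIdeal ∣ J) : h92_cnt L v J = 0 := by
  classical
  unfold h92_cnt
  by_contra h0
  exact h ((Associates.count_ne_zero_iff_dvd hJ v.irreducible).mp h0)

theorem h92_cnt_self (v : HeightOneSpectrum (𝓞 L)) : h92_cnt L v v.asIdeal = 1 := by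
  classical
  unfold h92_cnt
  exact Associates.count_self v.associates_irreducible

theorem h92_cnt_of_ne (v w : HeightOneSpectrum (𝓞 L)) (h : v ≠ w) :
    h92_cnt L v w.asIdeal = 0 := by
  apply h92_cnt_eq_zero v w.ne_bot
  intro hdvd
  have h5 : w.asIdeal ≤ v.asIdeal := Ideal.dvd_iff_le.mp hdvd
  have h6 : w.asIdeal = v.asIdeal := w.isMaximal.eq_of_le v.isPrime.ne_top h5
  exact h (HeightOneSpectrum.ext h6.symm)

theorem h92_intValuation_eq_cnt (v : HeightOneSpectrum (𝓞 L)) {r : 𝓞 L} (hr : r ≠ 0) :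
    v.intValuation r = WithZero.exp (-(h92_cnt L v (Ideal.span {r}) : ℤ)) := by
  classical
  unfold h92_cnt
  exact v.intValuation_if_neg hr

/-- a prime is principal outside `T` as soon as `T` contains the prime divisors of an ideal in
its class. -/
theorem h92_clT_single (w : HeightOneSpectrum (𝓞 L)) (I : (Ideal (𝓞 L))⁰)
    (hI : ClassGroup.mk0 I
      = ClassGroup.mk0 ⟨w.asIdeal, mem_nonZeroDivisors_of_ne_zero w.ne_bot⟩)
    [DecidableEq (HeightOneSpectrum (𝓞 L))] :
    ∃ x : Lˣ, ∀ v : HeightOneSpectrum (𝓞 L), ¬ v.asIdeal ∣ (I : Ideal (𝓞 L)) →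
      v.valuationOfNeZero x = Multiplicative.ofAdd (if v = w then (1 : ℤ) else 0) := by
  obtain ⟨x, y, hx, hy, hxy⟩ := ClassGroup.mk0_eq_mk0_iff.mp hI
  have hI0 : (I : Ideal (𝓞 L)) ≠ 0 := nonZeroDivisors.coe_ne_zero I
  have hxL : algebraMap (𝓞 L) L x ≠ 0 := by simpa using hx
  have hyL : algebraMap (𝓞 L) L y ≠ 0 := by simpa using hy
  refine ⟨Units.mk0 _ hyL / Units.mk0 _ hxL, fun v hv => ?_⟩
  have hsx : (Ideal.span {x} : Ideal (𝓞 L)) ≠ 0 := by
    rw [Ne, Ideal.zero_eq_bot, Ideal.span_singleton_eq_bot]; exact hx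
  have hsy : (Ideal.span {y} : Ideal (𝓞 L)) ≠ 0 := by
    rw [Ne, Ideal.zero_eq_bot, Ideal.span_singleton_eq_bot]; exact hy
  have hcount := congrArg (h92_cnt L v) hxy
  simp only [] at hcount
  rw [h92_cnt_mul v hsx hI0, h92_cnt_mul v hsy w.ne_bot, h92_cnt_eq_zero v hI0 hv,
    add_zero] at hcount
  rw [← WithZero.coe_inj, HeightOneSpectrum.valuationOfNeZero_eq, Units.val_div_eq_div_val,
    Units.val_mk0, Units.val_mk0, map_div₀, HeightOneSpectrum.valuation_of_algebraMap,
    HeightOneSpectrum.valuation_of_algebraMap, h92_intValuation_eq_cnt v hy,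
    h92_intValuation_eq_cnt v hx, hcount, ← WithZero.exp_sub]
  by_cases hvw : v = w
  · rw [if_pos hvw, hvw, h92_cnt_self]
    congr 1
    push_cast
    ring
  · rw [if_neg hvw, h92_cnt_of_ne v w hvw]
    congr 1
    push_cast
    ring

variable (L)

/-- **Enlargement**: a finite `T ⊇ S` such that every divisor is principal outside `T`. -/
theorem h92_exists_clT (S : Set (HeightOneSpectrum (𝓞 L))) (hS : S.Finite) :
    ∃ T : Set (HeightOneSpectrum (𝓞 L)), T.Finite ∧ S ⊆ T ∧
      ∀ d : HeightOneSpectrum (𝓞 L) →₀ ℤ, ∃ x : Lˣ, ∀ w, w ∉ T →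
        w.valuationOfNeZero x = Multiplicative.ofAdd (d w) := by
  classical
  choose rep hrep using (ClassGroup.mk0_surjective (R := 𝓞 L))
  set T : Set (HeightOneSpectrum (𝓞 L)) :=
    S ∪ ⋃ c : ClassGroup (𝓞 L), {v | v.asIdeal ∣ (rep c : Ideal (𝓞 L))} with hT
  have hTfin : T.Finite :=
    hS.union (Set.finite_iUnion fun c => Ideal.finite_factors (nonZeroDivisors.coe_ne_zero (rep c)))
  refine ⟨T, hTfin, Set.subset_union_left, ?_⟩
  have hsingle : ∀ w : HeightOneSpectrum (𝓞 L), ∃ x : Lˣ, ∀ v, v ∉ T →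
      v.valuationOfNeZero x = Multiplicative.ofAdd (if v = w then (1 : ℤ) else 0) := by
    intro w
    obtain ⟨x, hx⟩ := h92_clT_single w
      (rep (ClassGroup.mk0 ⟨w.asIdeal, mem_nonZeroDivisors_of_ne_zero w.ne_bot⟩)) (hrep _)
    refine ⟨x, fun v hv => hx v (fun hdvd => hv ?_)⟩
    exact Or.inr (Set.mem_iUnion.mpr ⟨_, hdvd⟩)
  intro d
  induction d using Finsupp.induction_linear with
  | zero => exact ⟨1, fun v _ => by simp⟩
  | add f g hf hg =>
    obtain ⟨x, hx⟩ := hf
    obtain ⟨y, hy⟩ := hg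
    exact ⟨x * y, fun v hv => by rw [map_mul, hx v hv, hy v hv, Finsupp.add_apply, ofAdd_add]⟩
  | single w n =>
    obtain ⟨x, hx⟩ := hsingle w
    refine ⟨x ^ n, fun v hv => ?_⟩
    rw [map_zpow, hx v hv, ← ofAdd_zsmul]
    congr 1
    by_cases hvw : v = w
    · rw [if_pos hvw, hvw, Finsupp.single_eq_same]; simp
    · rw [if_neg hvw, Finsupp.single_apply, if_neg (Ne.symm hvw)]; simp

end ClT

section Stable

variable {K L : Type*} [Field K] [Field L] [NumberField L] [Algebra K L]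

/-- **Enlargement, Galois-stable**: `T` can be taken stable under an automorphism of finite
order. -/
theorem h92_exists_clT_stable (σ : L ≃ₐ[K] L) (n : ℕ) (hn : 0 < n) (hσ : σ ^ n = 1)
    (S : Set (HeightOneSpectrum (𝓞 L))) (hS : S.Finite) :
    ∃ T : Set (HeightOneSpectrum (𝓞 L)), T.Finite ∧ S ⊆ T ∧
      (∀ w ∈ T, h92_galPrime σ w ∈ T) ∧
      ∀ d : HeightOneSpectrum (𝓞 L) →₀ ℤ, ∃ x : Lˣ, ∀ w, w ∉ T →
        w.valuationOfNeZero x = Multiplicative.ofAdd (d w) := by
  obtain ⟨T, hTfin, hST, hT⟩ := h92_exists_clT L S hS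
  set T' : Set (HeightOneSpectrum (𝓞 L)) :=
    ⋃ k ∈ Finset.range n, (h92_galPrime (σ ^ k)) '' T with hT'
  have hTT' : T ⊆ T' := by
    intro w hw
    rw [hT']
    refine Set.mem_biUnion (Finset.mem_range.mpr hn) ⟨w, hw, ?_⟩
    rw [pow_zero, h92_galPrime_one]
  refine ⟨T', ?_, hST.trans hTT', ?_, ?_⟩
  · exact Set.Finite.biUnion (Finset.finite_toSet _) fun k _ => hTfin.image _
  · intro w hw
    rw [hT'] at hw ⊢
    obtain ⟨k, -, t, ht, rfl⟩ := Set.mem_iUnion₂.mp hw
    refine Set.mem_biUnion (Finset.mem_range.mpr (Nat.mod_lt (k + 1) hn)) ⟨t, ht, ?_⟩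
    rw [← h92_pow_mod' hσ (k + 1), pow_succ', h92_galPrime_mul]
  · intro d
    obtain ⟨x, hx⟩ := hT d
    exact ⟨x, fun w hw => hx w (fun h => hw (hTT' h))⟩

end Stable

end Fermat.Agent.S55
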