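import Mathlib
import Fermat.Agent.S55.h25_GlobDefs
import Fermat.Agent.S55.h92_SUnits
import Fermat.Agent.S55.h92_FirstIneq
import Fermat.Agent.S55.h92_ClT
import Fermat.Agent.S55.h46_SelmerFinite
import Fermat.Agent.S55.h28_GlobAct
import Fermat.Agent.S55.h28_GlobActInst

set_option autoImplicit false

/-!
# S55, GLOB: the first inequality for the `S`-class module `h25_C L S`

`L/K` cyclic of odd prime degree `p`, `σ` a generator, `S ≠ ∅`.  With `Δ = diag Lˣ ⊆ X = h25_X L S`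
and `Y_T = h92_YT L S T = J × Div(T)`, `T ⊇ {primes above S}` finite, `σ`-stable with
trivial `T`-class group:

* `h92_YT_smul` : `Y_T` is `σ`-stable;
* `h92_YT_sup_diag` : `Y_T ⊔ Δ = ⊤`;
* `h92_YT_inf_diag` : `Y_T ⊓ Δ = diag (T-units)`;
* `h92_YT_inf_diag_index` : the Herbrand indices of `Y_T ⊓ Δ` (from `h92_sunits_index`);
* `h92_glob_first_ineq_of` : on `C = h25_C L S`: `[ker (σ-1) : im N_σ] = p * [ker N_σ : im (σ-1)]`,
  both indices finite, GIVEN the Herbrand indices `a(Y_T) = p ^ #{w ∈ T | σ w = w}`, `b(Y_T) = 1`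
  of the semi-local part (local norm index + Hilbert 90 + permutation lattices).
-/

namespace Fermat.Agent.S55

open IsDedekindDomain NumberField
open scoped nonZeroDivisors

noncomputable section

section Carrier

variable (L : Type*) [Field L] [NumberField L] (S : Finset Nat.Primes)

/-- The primes of `L` above `S` form a finite set. -/
theorem h92_above_finite : {w : HeightOneSpectrum (𝓞 L) | h25_above L S w}.Finite := by
  have h : {w : HeightOneSpectrum (𝓞 L) | h25_above L S w} ⊆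
      ⋃ q ∈ S, {w : HeightOneSpectrum (𝓞 L) |
        w.asIdeal ∣ Ideal.span {(((q : Nat.Primes) : ℕ) : 𝓞 L)}} := by
    rintro w ⟨q, hq, hqw⟩
    exact Set.mem_biUnion hq (Ideal.dvd_span_singleton.mpr hqw)
  refine Set.Finite.subset (Set.Finite.biUnion S.finite_toSet fun q _ => Ideal.finite_factors ?_) h
  rw [Ne, Ideal.zero_eq_bot, Ideal.span_singleton_eq_bot]
  exact_mod_cast q.2.ne_zero

/-- The divisor part of the diagonal in terms of valuations. -/
theorem h92_val_eq_div (x : Lˣ) (v : h25_Pl L S) :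
    v.1.valuationOfNeZero x = Multiplicative.ofAdd (-(h25_div L S x v)) := by
  rw [h46_valuationOfNeZero_eq_count]
  rfl

theorem h92_div_eq_zero_iff (x : Lˣ) (v : h25_Pl L S) :
    h25_div L S x v = 0 ↔ v.1.valuationOfNeZero x = 1 := by
  rw [h92_val_eq_div, ofAdd_eq_one, neg_eq_zero]

/-- For `S ≠ ∅` the diagonal `Lˣ → X_L` is injective. -/
theorem h92_diag_injective (hS : S.Nonempty) : Function.Injective (h25_diag L S) := by
  rw [injective_iff_map_eq_one]
  intro x hx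
  obtain ⟨q, hq⟩ := hS
  obtain ⟨j⟩ : Nonempty (L →+* PadicAlgCl ((q : Nat.Primes) : ℕ)) := inferInstance
  have h1 : ((h25_diag L S x).1 ⟨q, hq⟩).1 j = 1 := by rw [hx]; rfl
  have h2 : j (x : L) = 1 := congrArg Units.val h1
  ext
  apply j.injective
  rw [h2, Units.val_one, map_one]

end Carrier

section YT

variable (L : Type*) [Field L] [NumberField L] (S : Finset Nat.Primes)

/-- `Y_T = J_L × {divisors prime to S supported in T}` inside `X_L = h25_X L S`. -/
def h92_YT (T : Set (HeightOneSpectrum (𝓞 L))) : Subgroup (h25_X L S) where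
  carrier := {x | ∀ v : h25_Pl L S, v.1 ∉ T → Multiplicative.toAdd x.2 v = 0}
  mul_mem' := by
    intro a b ha hb v hv
    show (Multiplicative.toAdd a.2 + Multiplicative.toAdd b.2) v = 0
    rw [Finsupp.add_apply, ha v hv, hb v hv, add_zero]
  one_mem' := fun _ _ => rfl
  inv_mem' := by
    intro a ha v hv
    show (-(Multiplicative.toAdd a.2)) v = 0
    rw [Finsupp.neg_apply, ha v hv, neg_zero]

omit [NumberField L] in
theorem h92_mem_YT (T : Set (HeightOneSpectrum (𝓞 L))) (x : h25_X L S) :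
    x ∈ h92_YT L S T ↔ ∀ v : h25_Pl L S, v.1 ∉ T → Multiplicative.toAdd x.2 v = 0 := Iff.rfl

/-- `Y_T Δ = X` when every divisor is principal outside `T`. -/
theorem h92_YT_sup_diag (T : Set (HeightOneSpectrum (𝓞 L)))
    (hT : ∀ d : HeightOneSpectrum (𝓞 L) →₀ ℤ, ∃ x : Lˣ, ∀ w, w ∉ T →
      w.valuationOfNeZero x = Multiplicative.ofAdd (d w)) :
    h92_YT L S T ⊔ (h25_diag L S).range = ⊤ := by
  classical
  rw [eq_top_iff]
  rintro x -
  obtain ⟨y, hy⟩ := hT (-(Finsupp.mapDomain Subtype.val (Multiplicative.toAdd x.2)))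
  have hmem : x * (h25_diag L S y)⁻¹ ∈ h92_YT L S T := by
    intro v hv
    have h1 := hy v.1 hv
    rw [h92_val_eq_div L S y v, Finsupp.neg_apply,
      Finsupp.mapDomain_apply Subtype.val_injective] at h1
    have h2 : h25_div L S y v = Multiplicative.toAdd x.2 v :=
      neg_injective (Multiplicative.ofAdd.injective h1)
    show (Multiplicative.toAdd x.2 + -(h25_div L S y)) v = 0
    rw [Finsupp.add_apply, Finsupp.neg_apply, h2, add_neg_cancel]
  have hx : x = (x * (h25_diag L S y)⁻¹) * h25_diag L S y := by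
    rw [inv_mul_cancel_right]
  rw [hx]
  exact Subgroup.mul_mem_sup hmem ⟨y, rfl⟩

/-- `Y_T ∩ Δ = diag (T-units)` when `T` contains the primes above `S`. -/
theorem h92_YT_inf_diag (T : Set (HeightOneSpectrum (𝓞 L)))
    (hST : ∀ w, h25_above L S w → w ∈ T) :
    h92_YT L S T ⊓ (h25_diag L S).range = (T.unit L).map (h25_diag L S) := by
  ext x
  constructor
  · rintro ⟨hxY, y, rfl⟩
    refine ⟨y, (h92_mem_unit_iff T y).mpr ?_, rfl⟩
    intro w hw
    have hwS : ¬ h25_above L S w := fun h => hw (hST w h)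
    exact (h92_div_eq_zero_iff L S y ⟨w, hwS⟩).mp (hxY ⟨w, hwS⟩ hw)
  · rintro ⟨y, hy, rfl⟩
    refine ⟨?_, y, rfl⟩
    intro v hv
    exact (h92_div_eq_zero_iff L S y v).mpr ((h92_mem_unit_iff T y).mp hy v.1 hv)

end YT

section First

variable {K L : Type*} [Field K] [Field L] [NumberField L] [Algebra K L] (S : Finset Nat.Primes)

theorem h92_diag_mD (σ : L ≃ₐ[K] L) (x : Lˣ) :
    h25_diag L S (h92_mD σ x) = h92_mD σ (h25_diag L S x) := by
  rw [h92_mD_apply, h92_mD_apply, map_div, h28_smul_diag]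

theorem h92_diag_mN (σ : L ≃ₐ[K] L) (p : ℕ) (x : Lˣ) :
    h25_diag L S (h92_mN σ p x) = h92_mN σ p (h25_diag L S x) := by
  rw [h92_mN_apply, h92_mN_apply, map_prod]
  exact Finset.prod_congr rfl fun k _ => (h28_smul_diag S (σ ^ k) x).symm

/-- `Y_T` is Galois stable when `T` is. -/
theorem h92_YT_smul (σ : L ≃ₐ[K] L) (T : Set (HeightOneSpectrum (𝓞 L)))
    (hTσ : ∀ w ∈ T, h92_galPrime σ w ∈ T) (x : h25_X L S) (hx : x ∈ h92_YT L S T) :
    σ • x ∈ h92_YT L S T := by
  classical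
  intro v hv
  have h1 : Multiplicative.toAdd (σ • x).2 = h25_Dmap S (σ : L →+* L) (Multiplicative.toAdd x.2) :=
    rfl
  rw [h1, h28_Dmap_eq_mapDomain]
  by_contra hne
  have hmem : v ∈ (Finsupp.mapDomain (h28_plMap S σ) (Multiplicative.toAdd x.2)).support :=
    Finsupp.mem_support_iff.mpr hne
  obtain ⟨u, hu, rfl⟩ := Finset.mem_image.mp (Finsupp.mapDomain_support hmem)
  apply hv
  apply hTσ
  by_contra huT
  exact (Finsupp.mem_support_iff.mp hu) (hx u huT)

/-- The Herbrand indices of `Y_T ∩ Δ ≅ T-units`: transport of `h92_sunits_index` along the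
diagonal (`S ≠ ∅`, `T ⊇ {primes above S}` finite and `σ`-stable). -/
theorem h92_YT_inf_diag_index [NumberField K] [IsGalois K L] (hS : S.Nonempty) {p : ℕ} (hp : p.Prime)
    (hp2 : p ≠ 2) (hdeg : Module.finrank K L = p) (σ : L ≃ₐ[K] L) (hσ : σ ≠ 1)
    (T : Set (HeightOneSpectrum (𝓞 L))) (hT : T.Finite)
    (hTσ : ∀ w ∈ T, h92_galPrime σ w ∈ T) (hST : ∀ w, h25_above L S w → w ∈ T) :
    h92_hq (h92_mD σ) (h92_mN σ p) (h92_YT L S T ⊓ (h25_diag L S).range) ≠ 0 ∧
    h92_hq (h92_mN σ p) (h92_mD σ) (h92_YT L S T ⊓ (h25_diag L S).range) ≠ 0 ∧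
    h92_hq (h92_mD σ) (h92_mN σ p) (h92_YT L S T ⊓ (h25_diag L S).range) * p
      = h92_hq (h92_mN σ p) (h92_mD σ) (h92_YT L S T ⊓ (h25_diag L S).range)
        * p ^ {w | w ∈ T ∧ h92_galPrime σ w = w}.ncard := by
  obtain ⟨hE1, hE2, hE3⟩ := h92_sunits_index hp hp2 hdeg σ hσ T hT hTσ
  have htr1 := h92_hq_map (h25_diag L S) (h92_diag_injective L S hS) (h92_mD σ) (h92_mN σ p)
    (h92_mD σ) (h92_mN σ p) (h92_diag_mD S σ) (h92_diag_mN S σ p) (T.unit L)
  have htr2 := h92_hq_map (h25_diag L S) (h92_diag_injective L S hS) (h92_mN σ p) (h92_mD σ)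
    (h92_mN σ p) (h92_mD σ) (h92_diag_mN S σ p) (h92_diag_mD S σ) (T.unit L)
  rw [h92_YT_inf_diag L S T hST, htr1, htr2]
  exact ⟨hE1, hE2, hE3⟩

/-- **First inequality** for the `S`-class module `C_L = h25_C L S`, `L/K` cyclic of odd prime
degree `p` with generator `σ`, `S ≠ ∅`, GIVEN the Herbrand indices of the semi-local part
`Y_T = J_L × Div(T)` (`hY`): the indices `a = [ker (σ-1) : im N_σ]` and
`b = [ker N_σ : im (σ-1)]` on `C_L` are finite and `a = p * b`. -/
theorem h92_glob_first_ineq_of [NumberField K] [IsGalois K L] (hS : S.Nonempty) {p : ℕ}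
    (hp : p.Prime) (hp2 : p ≠ 2) (hdeg : Module.finrank K L = p) (σ : L ≃ₐ[K] L) (hσ : σ ≠ 1)
    (hY : ∀ T : Set (HeightOneSpectrum (𝓞 L)), T.Finite → (∀ w ∈ T, h92_galPrime σ w ∈ T) →
      (∀ w, h25_above L S w → w ∈ T) →
      h92_hq (h92_mD σ) (h92_mN σ p) (h92_YT L S T)
          = p ^ {w | w ∈ T ∧ h92_galPrime σ w = w}.ncard ∧
        h92_hq (h92_mN σ p) (h92_mD σ) (h92_YT L S T) = 1) :
    (h25_Nm S σ p).range.relIndex (h25_Dm S σ).ker ≠ 0 ∧
    (h25_Dm S σ).range.relIndex (h25_Nm S σ p).ker ≠ 0 ∧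
    (h25_Nm S σ p).range.relIndex (h25_Dm S σ).ker
      = p * (h25_Dm S σ).range.relIndex (h25_Nm S σ p).ker := by
  have hσp : σ ^ p = 1 := by
    have hcard : Nat.card (L ≃ₐ[K] L) = p := by rw [IsGalois.card_aut_eq_finrank, hdeg]
    rw [← hcard]
    exact pow_card_eq_one'
  obtain ⟨T, hTfin, hST, hTσ, hT⟩ := h92_exists_clT_stable σ p hp.pos hσp
    {w | h25_above L S w} (h92_above_finite L S)
  have hST' : ∀ w, h25_above L S w → w ∈ T := fun w hw => hST hw
  obtain ⟨haY, hbY⟩ := hY T hTfin hTσ hST'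
  obtain ⟨hE1, hE2, hE3⟩ := h92_YT_inf_diag_index S hS hp hp2 hdeg σ hσ T hTfin hTσ hST'
  exact h92_first_ineq_quotient σ p hp.ne_zero hσp (h25_diag L S).range (h92_YT L S T)
    (fun x hx => h28_diag_range_smul S σ hx) (h92_YT_smul S σ T hTσ) (h92_YT_sup_diag L S T hT)
    _ haY hbY hE1 hE2 hE3
    (h25_Dm S σ) (h25_Nm S σ p) (h28_Dm_mk S σ) (h28_Nm_mk S σ p)

end First

end

end Fermat.Agent.S55
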