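import Mathlib
import Fermat.Agent.S55.h25_GlobDefs
import Fermat.Agent.S55.h66_GlobFunc2
import Fermat.Agent.S55.h10_GlobDescC
import Fermat.Agent.S55.h78_GlobSecondOf
import Fermat.Agent.S55.h35_GlobSecondFinal
import Fermat.Agent.S55.h92_FirstIneq
import Fermat.Agent.S55.h92_GlobFirst

/-!
# S55, GLOB layer: the class field axiom on `h25_C L S` (row GLOB-CFA)

`L/K` a Galois extension of number fields of prime degree `p`, unramified outside `S ≠ ∅`,
`σ ≠ 1` in `Gal(L/K)`.  From

* DESC (helper81 + helper10): `ker (σ - 1) = ext (C_K)`,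
* the second inequality (helper35, analytic): `[ext C_K : N_σ C_L] ≤ p`,
* the first inequality (helper92 + helper28, Herbrand quotient): `a = p * b`,

we get the class field axiom: `[ker (σ - 1) : im N_σ] = p` and `ker N_σ = im (σ - 1)`.

* `h25_gal_gen_of_prime` : a nontrivial element generates `Gal(L/K)` when `[L:K]` is prime;
* `h25_ker_Dm_eq_range` : `ker (σ - 1) = ext (C_K)` for a generator `σ`;
* `h25_second_ineq` : the second inequality in the `ker (σ - 1)` form (any cyclic `L/K`);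
* `h25_cfa_of_first` : the class field axiom, with the first inequality as a hypothesis;
* `h25_cfa_of_Y` : the class field axiom, with helper28's Herbrand indices of `Y_T` (X2) as the
  only hypothesis (via `h92_glob_first_ineq_of`).
-/

set_option autoImplicit false

open IsDedekindDomain NumberField

namespace Fermat.Agent.S55

section CFA

variable {K : Type*} [Field K] [NumberField K] {L : Type*} [Field L] [NumberField L]
  [Algebra K L] (S : Finset Nat.Primes)

/-- A nontrivial element generates `Gal(L/K)` when `[L:K]` is prime. -/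
theorem h25_gal_gen_of_prime [IsGalois K L] {p : ℕ} (hp : p.Prime)
    (hdeg : Module.finrank K L = p) (σ : L ≃ₐ[K] L) (hσ : σ ≠ 1) :
    ∀ τ : L ≃ₐ[K] L, τ ∈ Subgroup.zpowers σ := by
  have hcard : Nat.card (L ≃ₐ[K] L) = p := by
    rw [IsGalois.card_aut_eq_finrank, hdeg]
  have : Fact p.Prime := ⟨hp⟩
  intro τ
  exact mem_zpowers_of_prime_card hcard hσ

/-- `ker (σ - 1) = ext (C_K)` for a generator `σ` of `Gal(L/K)` (DESC). -/
theorem h25_ker_Dm_eq_range [IsGalois K L] (hS : S.Nonempty) (hur : h25_UnramOutside K L S)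
    (σ : L ≃ₐ[K] L) (hgen : ∀ τ : L ≃ₐ[K] L, τ ∈ Subgroup.zpowers σ) :
    (h25_Dm S σ).ker = (h25_Cmap S (algebraMap K L)).range :=
  h78_ker_Dm_eq_range S (fun c => by rw [h66_Cmap_id]; rfl)
    (fun g f c => by rw [h66_Cmap_comp]; rfl) (h10_desc_range K L S hS hur) σ hgen

/-- **Second inequality**, `ker (σ - 1)` form: `[ker (σ - 1) : im N_σ]` is finite and at most
`[L:K]`, for every cyclic `L/K` unramified outside `S ≠ ∅`. -/
theorem h25_second_ineq [IsGalois K L] (hS : S.Nonempty) (hur : h25_UnramOutside K L S)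
    (σ : L ≃ₐ[K] L) (hgen : ∀ τ : L ≃ₐ[K] L, τ ∈ Subgroup.zpowers σ) :
    ((h25_Nm S σ (Module.finrank K L)).range).relIndex (h25_Dm S σ).ker ≠ 0 ∧
      ((h25_Nm S σ (Module.finrank K L)).range).relIndex (h25_Dm S σ).ker ≤
        Module.finrank K L := by
  rw [h25_ker_Dm_eq_range S hS hur σ hgen]
  exact h35_glob_second K L S σ hgen

/-- **GLOB-CFA, from the first inequality**: the class field axiom for a Galois extension `L/K`
of prime degree `p`, unramified outside `S ≠ ∅`. -/
theorem h25_cfa_of_first (p : ℕ) (hp : p.Prime) [IsGalois K L]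
    (hdeg : Module.finrank K L = p) (hS : S.Nonempty) (hur : h25_UnramOutside K L S)
    (σ : L ≃ₐ[K] L) (hσ : σ ≠ 1)
    (hfirst : (h25_Dm S σ).range.relIndex (h25_Nm S σ p).ker ≠ 0 ∧
      (h25_Nm S σ p).range.relIndex (h25_Dm S σ).ker =
        p * (h25_Dm S σ).range.relIndex (h25_Nm S σ p).ker) :
    ((h25_Nm S σ p).range).relIndex (h25_Dm S σ).ker = p ∧
      (h25_Nm S σ p).ker ≤ (h25_Dm S σ).range := by
  have hgen := h25_gal_gen_of_prime hp hdeg σ hσ
  have h2 := (h25_second_ineq S hS hur σ hgen).2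
  rw [hdeg] at h2
  obtain ⟨ha, hb⟩ := h92_cfa_of_ineq hfirst.1 hfirst.2 h2 hp.ne_zero
  exact ⟨ha, Subgroup.relIndex_eq_one.mp hb⟩

/-- **GLOB-CFA, from the Herbrand indices of `Y_T`** (helper28's (X2), the only remaining
hypothesis of the first inequality `h92_glob_first_ineq_of`). -/
theorem h25_cfa_of_Y (p : ℕ) (hp : p.Prime) (hp2 : p ≠ 2) [IsGalois K L]
    (hdeg : Module.finrank K L = p) (hS : S.Nonempty) (hur : h25_UnramOutside K L S)
    (σ : L ≃ₐ[K] L) (hσ : σ ≠ 1)
    (hY : ∀ T : Set (HeightOneSpectrum (𝓞 L)), T.Finite → (∀ w ∈ T, h92_galPrime σ w ∈ T) →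
      (∀ w, h25_above L S w → w ∈ T) →
      h92_hq (h92_mD σ) (h92_mN σ p) (h92_YT L S T) =
          p ^ {w | w ∈ T ∧ h92_galPrime σ w = w}.ncard ∧
        h92_hq (h92_mN σ p) (h92_mD σ) (h92_YT L S T) = 1) :
    ((h25_Nm S σ p).range).relIndex (h25_Dm S σ).ker = p ∧
      (h25_Nm S σ p).ker ≤ (h25_Dm S σ).range := by
  have h1 := h92_glob_first_ineq_of S hS hp hp2 hdeg σ hσ hY
  exact h25_cfa_of_first S p hp hdeg hS hur σ hσ ⟨h1.2.1, h1.2.2⟩

end CFA

end Fermat.Agent.S55
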