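import Mathlib
import Fermat.Agent.S55.h92_HerbrandMul

set_option autoImplicit false

/-!
# The semi-local module of a cyclic extension of prime degree (S55, abstract core)

A group `Γ` acts on a set `X` and on a commutative group `A`; `s` is a permutation of `X`
commuting with `Γ`, `s ^ p = 1` with `p` prime.  The *semi-local module* is the group
`Y = h28_eqv Γ X A` of `Γ`-equivariant functions `X → A`, with the operators
`D φ = (φ ∘ s) / φ` and `N φ = ∏_{k<p} φ ∘ s^k`.

(Example: `Γ = Gal(Ω/ℚ_q)`, `X = Hom(L, Ω)`, `A = Ωˣ`, `s j = j ∘ σ` for a generator `σ` of a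
cyclic extension `L/K` of number fields of degree `p`: then `Y = (L ⊗ ℚ_q)ˣ`.  For `Γ = 1` and
`A = ℤ` one gets permutation modules.)

For `j : X`, `h28_fix Γ A j` is the subgroup of `A` fixed by the stabiliser of `j` (the units of
the local field at `j`).  If the `Γ`-orbit of `j` is `s`-stable, `s j = τ₀ • j`, then `τ₀` acts on
`h28_fix Γ A j` as the generator of the local Galois group.

* `h28_semiloc_h90` : if Hilbert 90 holds at all these `(j, τ₀)`, then `ker N = D Y` on `Y`;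
* `h28_semiloc_index` : if the norm index is `n` at all these `(j, τ₀)`, then
  `[Y^s : N Y] = n ^ (number of s-stable Γ-orbits on X)`.

Orbits which are not `s`-stable ("split primes") need no input.
Indices are in the ambient language `h92_hq` of `h92_HerbrandMul`.
-/

namespace Fermat.Agent.S55

open Finset

section Defs

variable (Γ : Type*) [Group Γ] (X : Type*) [MulAction Γ X]
  (A : Type*) [CommGroup A] [MulDistribMulAction Γ A]

/-- `Γ`-equivariant functions `X → A`. -/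
def h28_eqv : Subgroup (X → A) where
  carrier := {φ | ∀ (τ : Γ) (j : X), φ (τ • j) = τ • φ j}
  one_mem' := fun τ j => by simp
  mul_mem' := fun {φ ψ} hφ hψ τ j => by
    simp only [Pi.mul_apply, hφ τ j, hψ τ j, smul_mul']
  inv_mem' := fun {φ} hφ τ j => by
    simp only [Pi.inv_apply, hφ τ j, smul_inv']

variable {Γ X A}

theorem h28_mem_eqv {φ : X → A} :
    φ ∈ h28_eqv Γ X A ↔ ∀ (τ : Γ) (j : X), φ (τ • j) = τ • φ j := Iff.rfl

variable (Γ A)

/-- The elements of `A` fixed by the stabiliser of `j`. -/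
def h28_fix (j : X) : Subgroup A where
  carrier := {a | ∀ τ : Γ, τ • j = j → τ • a = a}
  one_mem' := fun τ _ => smul_one τ
  mul_mem' := fun {a b} ha hb τ hτ => by rw [smul_mul', ha τ hτ, hb τ hτ]
  inv_mem' := fun {a} ha τ hτ => by rw [smul_inv', ha τ hτ]

variable {Γ A}

theorem h28_mem_fix {j : X} {a : A} :
    a ∈ h28_fix Γ A j ↔ ∀ τ : Γ, τ • j = j → τ • a = a := Iff.rfl

/-- Two group elements with the same effect on `j` have the same effect on `h28_fix j`. -/
theorem h28_fix_smul_eq {j : X} {a : A} (ha : a ∈ h28_fix Γ A j) {τ₁ τ₂ : Γ}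
    (h : τ₁ • j = τ₂ • j) : τ₁ • a = τ₂ • a := by
  have h1 : (τ₂⁻¹ * τ₁) • j = j := by rw [mul_smul, h, inv_smul_smul]
  have h2 := ha _ h1
  rw [mul_smul] at h2
  exact inv_smul_eq_iff.mp h2

/-- The value of an equivariant function at `j` is fixed by the stabiliser of `j`. -/
theorem h28_eqv_apply_mem_fix {φ : X → A} (hφ : φ ∈ h28_eqv Γ X A) (j : X) :
    φ j ∈ h28_fix Γ A j := by
  intro τ hτ
  rw [← hφ τ j, hτ]

variable (A)

/-- `φ ↦ (φ ∘ s) / φ`. -/
def h28_sD (s : Equiv.Perm X) : (X → A) →* (X → A) where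
  toFun φ := fun j => φ (s j) / φ j
  map_one' := by ext j; simp
  map_mul' φ ψ := by ext j; simp [mul_div_mul_comm]

/-- `φ ↦ ∏_{k<p} φ ∘ s^k`. -/
def h28_sN (s : Equiv.Perm X) (p : ℕ) : (X → A) →* (X → A) where
  toFun φ := fun j => ∏ k ∈ range p, φ ((s ^ k) j)
  map_one' := by ext j; simp
  map_mul' φ ψ := by ext j; simp [Finset.prod_mul_distrib]

variable {A}

@[simp] theorem h28_sD_apply (s : Equiv.Perm X) (φ : X → A) (j : X) :
    h28_sD A s φ j = φ (s j) / φ j := rfl

@[simp] theorem h28_sN_apply (s : Equiv.Perm X) (p : ℕ) (φ : X → A) (j : X) :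
    h28_sN A s p φ j = ∏ k ∈ range p, φ ((s ^ k) j) := rfl

variable (Γ)

/-- The `Γ`-orbit of `x` is stable under `s`. -/
def h28_St (s : Equiv.Perm X) (x : X) : Prop := ∃ τ : Γ, s x = τ • x

variable {Γ}

/-- The map on `Γ`-orbits induced by a permutation of `X` commuting with `Γ`. -/
def h28_orbMap (s : Equiv.Perm X) (hs : ∀ (τ : Γ) (j : X), s (τ • j) = τ • s j) :
    MulAction.orbitRel.Quotient Γ X → MulAction.orbitRel.Quotient Γ X :=
  Quotient.map' s (by
    intro a b hab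
    change a ∈ MulAction.orbit Γ b at hab
    change s a ∈ MulAction.orbit Γ (s b)
    obtain ⟨τ, rfl⟩ := hab
    exact ⟨τ, (hs τ b).symm⟩)

theorem h28_orbMap_mk (s : Equiv.Perm X) (hs : ∀ (τ : Γ) (j : X), s (τ • j) = τ • s j) (x : X) :
    h28_orbMap s hs (Quotient.mk'' x) = Quotient.mk'' (s x) := rfl

end Defs

section Infra

variable {Γ : Type*} [Group Γ] {X : Type*} [MulAction Γ X]
  (s : Equiv.Perm X) (hs : ∀ (τ : Γ) (j : X), s (τ • j) = τ • s j)

include hs in
theorem h28_pow_smul (k : ℕ) (τ : Γ) (j : X) : (s ^ k) (τ • j) = τ • (s ^ k) j := by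
  induction k with
  | zero => simp
  | succ k ih => rw [pow_succ', Equiv.Perm.mul_apply, ih, hs, ← Equiv.Perm.mul_apply]

include hs in
theorem h28_St_smul (γ : Γ) (x : X) : h28_St Γ s (γ • x) ↔ h28_St Γ s x := by
  constructor
  · rintro ⟨τ, h⟩
    refine ⟨γ⁻¹ * τ * γ, ?_⟩
    rw [hs] at h
    rw [mul_smul, mul_smul, ← h, inv_smul_smul]
  · rintro ⟨τ, h⟩
    refine ⟨γ * τ * γ⁻¹, ?_⟩
    rw [hs, h, mul_smul, mul_smul, inv_smul_smul]

include hs in
theorem h28_St_apply (x : X) : h28_St Γ s (s x) ↔ h28_St Γ s x := by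
  constructor
  · rintro ⟨τ, h⟩
    refine ⟨τ, ?_⟩
    apply s.injective
    rw [h, hs]
  · rintro ⟨τ, h⟩
    refine ⟨τ, ?_⟩
    rw [← hs, ← h]

include hs in
theorem h28_St_pow (k : ℕ) (x : X) : h28_St Γ s ((s ^ k) x) ↔ h28_St Γ s x := by
  induction k with
  | zero => simp
  | succ k ih => rw [pow_succ', Equiv.Perm.mul_apply, h28_St_apply s hs, ih]

include hs in
theorem h28_pow_eq_smul_pow {x : X} {τ : Γ} (h : s x = τ • x) (k : ℕ) :
    (s ^ k) x = τ ^ k • x := by
  induction k with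
  | zero => simp
  | succ k ih => rw [pow_succ', Equiv.Perm.mul_apply, ih, hs, h, ← mul_smul, ← pow_succ]

include hs in
theorem h28_St_of_pow {p : ℕ} (hp : p.Prime) (hsp : s ^ p = 1) {k : ℕ} (hk : ¬ p ∣ k) {x : X}
    {τ : Γ} (h : (s ^ k) x = τ • x) : h28_St Γ s x := by
  have hcop : Nat.Coprime k p := ((Nat.Prime.coprime_iff_not_dvd hp).mpr hk).symm
  obtain ⟨m, -, hm⟩ := Nat.exists_mul_mod_eq_one_of_coprime hcop hp.one_lt
  have h1 : ((s ^ k) ^ m) x = τ ^ m • x :=
    h28_pow_eq_smul_pow (s ^ k) (h28_pow_smul s hs k) h m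
  refine ⟨τ ^ m, ?_⟩
  rw [← h1, ← pow_mul, pow_eq_pow_mod (k * m) hsp, hm, pow_one]

/-- The orbit relation of the group generated by `Γ` and `s`. -/
def h28_bigRel {p : ℕ} (hp : 0 < p) (hsp : s ^ p = 1) : Setoid X where
  r x y := ∃ (k : ℕ) (τ : Γ), (s ^ k) (τ • x) = y
  iseqv := by
    refine ⟨fun x => ⟨0, 1, by simp⟩, ?_, ?_⟩
    · rintro x y ⟨k, τ, h⟩
      refine ⟨k * (p - 1), τ⁻¹, ?_⟩
      have e : s ^ (k * (p - 1)) * s ^ k = 1 := by
        rw [← pow_add, ← Nat.mul_succ, Nat.succ_eq_add_one, Nat.sub_add_cancel hp, mul_comm,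
          pow_mul, hsp, one_pow]
      rw [h28_pow_smul s hs, ← h, ← Equiv.Perm.mul_apply, e, Equiv.Perm.one_apply,
        inv_smul_smul]
    · rintro x y z ⟨k, τ, h⟩ ⟨l, γ, h'⟩
      refine ⟨l + k, γ * τ, ?_⟩
      rw [← h', ← h, pow_add, Equiv.Perm.mul_apply, mul_smul, h28_pow_smul s hs k γ]

include hs in
/-- A `Γ`-invariant "fundamental domain" for the action of `s` on the non-stable orbits. -/
theorem h28_exists_theta {p : ℕ} (hp : p.Prime) (hsp : s ^ p = 1) :
    ∃ θ : X → Prop, (∀ (γ : Γ) (x : X), θ (γ • x) ↔ θ x) ∧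
      (∀ x, ∃ k ∈ range p, θ ((s ^ k) x)) ∧
      (∀ x, ¬ h28_St Γ s x → ∀ k ∈ range p, ∀ l ∈ range p,
        θ ((s ^ k) x) → θ ((s ^ l) x) → k = l) := by
  classical
  set R : Setoid X := h28_bigRel s hs hp.pos hsp with hR
  set c : X → X := fun x => (Quotient.mk R x).out with hc
  have hc1 : ∀ x, R.r x (c x) := fun x => R.symm (Quotient.mk_out x)
  have hc2 : ∀ x y, R.r x y → c x = c y := fun x y h =>
    congrArg Quotient.out (Quotient.sound h)
  have hcγ : ∀ (γ : Γ) (x : X), c (γ • x) = c x := fun γ x =>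
    (hc2 x (γ • x) ⟨0, γ, by simp⟩).symm
  have hcs : ∀ (k : ℕ) (x : X), c ((s ^ k) x) = c x := fun k x =>
    (hc2 x ((s ^ k) x) ⟨k, 1, by simp⟩).symm
  have hStc : ∀ x, h28_St Γ s (c x) ↔ h28_St Γ s x := by
    intro x
    obtain ⟨k, τ, h⟩ := hc1 x
    rw [← h, h28_St_pow s hs, h28_St_smul s hs]
  refine ⟨fun x => ∃ τ : Γ, τ • c x = x, ?_, ?_, ?_⟩
  · intro γ x
    simp only [hcγ]
    constructor
    · rintro ⟨τ, h⟩
      exact ⟨γ⁻¹ * τ, by rw [mul_smul, h, inv_smul_smul]⟩
    · rintro ⟨τ, h⟩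
      exact ⟨γ * τ, by rw [mul_smul, h]⟩
  · intro x
    obtain ⟨k, τ, h⟩ := hc1 x
    refine ⟨k % p, Finset.mem_range.mpr (Nat.mod_lt _ hp.pos), τ⁻¹, ?_⟩
    rw [hcs, ← pow_eq_pow_mod k hsp, ← h, h28_pow_smul s hs, inv_smul_smul]
  · intro x hx
    have key : ∀ k l : ℕ, k ≤ l → l < p → (∃ τ : Γ, τ • c ((s ^ k) x) = (s ^ k) x) →
        (∃ τ : Γ, τ • c ((s ^ l) x) = (s ^ l) x) → k = l := by
      rintro k l hkl hl ⟨τ₁, h1⟩ ⟨τ₂, h2⟩
      by_contra hne
      obtain ⟨d, rfl⟩ := Nat.exists_eq_add_of_le hkl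
      have hd : 0 < d := by omega
      rw [hcs] at h1 h2
      have h3 : (s ^ d) (c x) = (τ₁⁻¹ * τ₂) • c x := by
        have : (s ^ (k + d)) x = τ₁ • (s ^ d) (c x) := by
          rw [← h28_pow_smul s hs, h1, ← Equiv.Perm.mul_apply, ← pow_add, add_comm]
        rw [mul_smul, h2, this, inv_smul_smul]
      have hnd : ¬ p ∣ d := fun hdvd => by
        have := Nat.le_of_dvd hd hdvd
        omega
      exact hx ((hStc x).mp (h28_St_of_pow s hs hp hsp hnd h3))
    intro k hk l hl h1 h2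
    rcases le_total k l with h | h
    · exact key k l h (Finset.mem_range.mp hl) h1 h2
    · exact (key l k h (Finset.mem_range.mp hk) h2 h1).symm

end Infra

section Main

variable {Γ : Type*} [Group Γ] {X : Type*} [MulAction Γ X]
  {A : Type*} [CommGroup A] [MulDistribMulAction Γ A]

/-- **Semi-local Hilbert 90**: if Hilbert 90 holds at every embedding `j` whose `Γ`-orbit is
`s`-stable, then `ker N = D Y` on the semi-local module `Y = Map_Γ(X, A)`. -/
theorem h28_semiloc_h90 {p : ℕ} (hp : p.Prime) (s : Equiv.Perm X)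
    (hs : ∀ (τ : Γ) (j : X), s (τ • j) = τ • s j) (hsp : s ^ p = 1)
    (h90 : ∀ (j : X) (τ₀ : Γ), s j = τ₀ • j → ∀ x ∈ h28_fix Γ A j,
        h92_mN τ₀ p x = 1 → ∃ y ∈ h28_fix Γ A j, x = h92_mD τ₀ y) :
    h92_hq (h28_sN A s p) (h28_sD A s) (h28_eqv Γ X A) = 1 := by
  classical
  rw [h92_hq_def, Subgroup.relIndex_eq_one]
  rintro φ ⟨hφY, hφN⟩
  have hφY' : ∀ (τ : Γ) (j : X), φ (τ • j) = τ • φ j := hφY
  have hφN' : ∀ j, ∏ k ∈ range p, φ ((s ^ k) j) = 1 := fun j => by
    have := congrFun (MonoidHom.mem_ker.mp hφN) j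
    simpa using this
  obtain ⟨θ, hθ1, hθ2, hθ3⟩ := h28_exists_theta s hs hp hsp
  -- representatives of Γ-orbits
  set c : X → X := fun x => (Quotient.mk (MulAction.orbitRel Γ X) x).out with hc
  have hc1 : ∀ x, ∃ τ : Γ, τ • c x = x := fun x => by
    have : (MulAction.orbitRel Γ X).r (c x) x := Quotient.mk_out x
    obtain ⟨g, hg⟩ := this
    exact ⟨g⁻¹, by rw [← hg, inv_smul_smul]⟩
  have hcγ : ∀ (γ : Γ) (x : X), c (γ • x) = c x := fun γ x =>
    congrArg Quotient.out (Quotient.sound ⟨γ, rfl⟩)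
  have hcs : ∀ x, h28_St Γ s x → c (s x) = c x := fun x ⟨τ, h⟩ => by rw [h, hcγ]
  have hStc : ∀ x, h28_St Γ s (c x) ↔ h28_St Γ s x := fun x => by
    obtain ⟨τ, h⟩ := hc1 x
    conv_rhs => rw [← h]
    rw [h28_St_smul s hs]
  choose t ht using hc1
  -- Hilbert 90 at the stable representatives
  have h90' : ∀ j, h28_St Γ s j → ∃ (τ₀ : Γ) (y : A), s j = τ₀ • j ∧ y ∈ h28_fix Γ A j ∧
      φ j = τ₀ • y / y := by
    rintro j ⟨τ₀, hτ₀⟩
    have hN : h92_mN τ₀ p (φ j) = 1 := by
      rw [h92_mN_apply, ← hφN' j]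
      refine Finset.prod_congr rfl fun k _ => ?_
      rw [h28_pow_eq_smul_pow s hs hτ₀ k, hφY']
    obtain ⟨y, hy, hxy⟩ := h90 j τ₀ hτ₀ (φ j) (h28_eqv_apply_mem_fix hφY j) hN
    exact ⟨τ₀, y, hτ₀, hy, by rw [hxy, h92_mD_apply]⟩
  choose! τc yc hτc hyc hφc using h90'
  -- the solution
  let ψ : X → A := fun x =>
    if h28_St Γ s x then t x • yc (c x)
    else ∏ k ∈ range p, if θ ((s ^ k) x) then (∏ i ∈ range k, φ ((s ^ i) x))⁻¹ else 1
  have hψY : ψ ∈ h28_eqv Γ X A := by
    intro γ x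
    by_cases hx : h28_St Γ s x
    · have hx' : h28_St Γ s (γ • x) := (h28_St_smul s hs γ x).mpr hx
      simp only [ψ, if_pos hx, if_pos hx', hcγ]
      rw [← mul_smul]
      apply h28_fix_smul_eq (hyc (c x) ((hStc x).mpr hx))
      rw [mul_smul, ht x, ← hcγ γ x, ht (γ • x)]
    · have hx' : ¬ h28_St Γ s (γ • x) := fun h => hx ((h28_St_smul s hs γ x).mp h)
      simp only [ψ, if_neg hx, if_neg hx']
      rw [Finset.smul_prod']
      refine Finset.prod_congr rfl fun k _ => ?_
      rw [h28_pow_smul s hs, hθ1]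
      split_ifs
      · rw [smul_inv', Finset.smul_prod']
        congr 1
        refine Finset.prod_congr rfl fun i _ => ?_
        rw [h28_pow_smul s hs, hφY']
      · rw [smul_one]
  refine ⟨ψ, hψY, ?_⟩
  funext x
  rw [h28_sD_apply]
  have hsx : ∀ i, (s ^ i) (s x) = (s ^ (i + 1)) x := fun i => by
    rw [pow_succ, Equiv.Perm.mul_apply]
  by_cases hx : h28_St Γ s x
  · have hx' : h28_St Γ s (s x) := (h28_St_apply s hs x).mpr hx
    simp only [ψ, if_pos hx, if_pos hx']
    have hcx : h28_St Γ s (c x) := (hStc x).mpr hx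
    rw [hcs x hx]
    have e1 : t (s x) • yc (c x) = (t x * τc (c x)) • yc (c x) := by
      apply h28_fix_smul_eq (hyc (c x) hcx)
      rw [← hcs x hx, ht (s x), hcs x hx, mul_smul, ← hτc (c x) hcx, ← hs, ht x]
    rw [e1, mul_smul, ← smul_div', ← hφc (c x) hcx, ← hφY', ht x]
  · have hx' : ¬ h28_St Γ s (s x) := fun h => hx ((h28_St_apply s hs x).mp h)
    simp only [ψ, if_neg hx, if_neg hx']
    obtain ⟨k₀, hk₀, hθk₀⟩ := hθ2 x
    have hψx : (∏ k ∈ range p, if θ ((s ^ k) x) then (∏ i ∈ range k, φ ((s ^ i) x))⁻¹ else 1)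
        = (∏ i ∈ range k₀, φ ((s ^ i) x))⁻¹ := by
      rw [Finset.prod_eq_single k₀, if_pos hθk₀]
      · intro k hk hne
        rw [if_neg]
        intro hθk
        exact hne (hθ3 x hx k hk k₀ hk₀ hθk hθk₀)
      · intro h; exact absurd hk₀ h
    rw [hψx]
    have key : ∀ m, m ∈ range p → θ ((s ^ m) (s x)) →
        (∏ k ∈ range p, if θ ((s ^ k) (s x)) then (∏ i ∈ range k, φ ((s ^ i) (s x)))⁻¹ else 1)
          = (∏ i ∈ range m, φ ((s ^ (i + 1)) x))⁻¹ := by
      intro m hm hθ'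
      rw [Finset.prod_eq_single m, if_pos hθ']
      · simp only [hsx]
      · intro k hk hne
        rw [if_neg]
        intro hθk
        exact hne (hθ3 (s x) hx' k hk m hm hθk hθ')
      · intro h; exact absurd hm h
    rcases Nat.eq_zero_or_pos k₀ with h0 | h0
    · subst h0
      have hθ' : θ ((s ^ (p - 1)) (s x)) := by
        have : (s ^ (p - 1)) (s x) = x := by
          rw [hsx, Nat.sub_add_cancel hp.pos, hsp, Equiv.Perm.one_apply]
        rw [this]; simpa using hθk₀
      have hm : p - 1 ∈ range p := Finset.mem_range.mpr (by have := hp.pos; omega)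
      rw [key (p - 1) hm hθ']
      have hN := hφN' x
      rw [← Nat.sub_add_cancel hp.pos, Finset.prod_range_succ'] at hN
      simp only [pow_zero, Equiv.Perm.one_apply, Finset.range_zero, Finset.prod_empty, inv_one,
        div_one] at hN ⊢
      exact (eq_inv_of_mul_eq_one_right hN).symm
    · obtain ⟨m, rfl⟩ : ∃ m, k₀ = m + 1 := ⟨k₀ - 1, by omega⟩
      have hθ' : θ ((s ^ m) (s x)) := by rw [hsx]; exact hθk₀
      have hm : m ∈ range p := Finset.mem_range.mpr (by have := Finset.mem_range.mp hk₀; omega)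
      rw [key m hm hθ', Finset.prod_range_succ']
      simp only [pow_zero, Equiv.Perm.one_apply]
      rw [div_eq_mul_inv, inv_inv, inv_mul_cancel_left]

/-- **Semi-local norm index**: if at every embedding `j` whose `Γ`-orbit is `s`-stable the local
norm index is `n`, then the norm index of the semi-local module `Y = Map_Γ(X, A)` is
`n ^ (number of s-stable Γ-orbits)`. -/
theorem h28_semiloc_index [Finite X] {p : ℕ} (hp : p.Prime) (s : Equiv.Perm X)
    (hs : ∀ (τ : Γ) (j : X), s (τ • j) = τ • s j) (hsp : s ^ p = 1) (n : ℕ)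
    (hloc : ∀ (j : X) (τ₀ : Γ), s j = τ₀ • j →
        h92_hq (h92_mD τ₀) (h92_mN τ₀ p) (h28_fix Γ A j) = n) :
    h92_hq (h28_sD A s) (h28_sN A s p) (h28_eqv Γ X A)
      = n ^ Nat.card {O : MulAction.orbitRel.Quotient Γ X // h28_orbMap s hs O = O} := by
  classical
  obtain ⟨θ, hθ1, hθ2, hθ3⟩ := h28_exists_theta s hs hp hsp
  -- orbit representatives
  let rep : MulAction.orbitRel.Quotient Γ X → X := Quotient.out
  have hrep : ∀ O : MulAction.orbitRel.Quotient Γ X, (Quotient.mk'' (rep O) : MulAction.orbitRel.Quotient Γ X) = O :=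
    fun O => Quotient.out_eq O
  have hmk : ∀ (γ : Γ) (x : X), (Quotient.mk'' (γ • x) : MulAction.orbitRel.Quotient Γ X) = Quotient.mk'' x :=
    fun γ x => Quotient.sound ⟨γ, rfl⟩
  have ht0 : ∀ x : X, ∃ τ : Γ, τ • rep (Quotient.mk'' x) = x := fun x => by
    have : (MulAction.orbitRel Γ X).r (rep (Quotient.mk'' x)) x := Quotient.mk_out x
    obtain ⟨g, hg⟩ := this
    exact ⟨g⁻¹, by rw [← hg, inv_smul_smul]⟩
  choose t ht using ht0
  have hSt_iff : ∀ x : X, h28_St Γ s x ↔ h28_orbMap s hs (Quotient.mk'' x) = Quotient.mk'' x := by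
    intro x
    rw [h28_orbMap_mk]
    constructor
    · rintro ⟨τ, h⟩
      rw [h]; exact hmk τ x
    · intro h
      have : (MulAction.orbitRel Γ X).r (s x) x := Quotient.exact h
      obtain ⟨g, hg⟩ := this
      exact ⟨g, hg.symm⟩
  have hSt_rep : ∀ O : MulAction.orbitRel.Quotient Γ X, h28_orbMap s hs O = O → h28_St Γ s (rep O) :=
    fun O hO => (hSt_iff _).mpr (by rw [hrep]; exact hO)
  have hmk_pow : ∀ (k : ℕ) (x : X), h28_St Γ s x →
      (Quotient.mk'' ((s ^ k) x) : MulAction.orbitRel.Quotient Γ X) = Quotient.mk'' x := by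
    rintro k x ⟨τ, h⟩
    rw [h28_pow_eq_smul_pow s hs h k, hmk]
  have hτ₀' : ∀ j : X, h28_St Γ s j → ∃ τ : Γ, s j = τ • j := fun j h => h
  choose! τ₀ hτ₀ using hτ₀'
  -- the local groups
  let B : MulAction.orbitRel.Quotient Γ X → Subgroup A := fun O =>
    h28_fix Γ A (rep O) ⊓ (h92_mD (τ₀ (rep O))).ker
  let NO : MulAction.orbitRel.Quotient Γ X → Subgroup A := fun O =>
    (h28_fix Γ A (rep O)).map (h92_mN (τ₀ (rep O)) p)
  have hBN : ∀ O, h28_orbMap s hs O = O → (NO O).relIndex (B O) = n := fun O hO =>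
    hloc (rep O) (τ₀ (rep O)) (hτ₀ _ (hSt_rep O hO))
  -- the evaluation homomorphism
  have hev : ∀ (O : {O : MulAction.orbitRel.Quotient Γ X // h28_orbMap s hs O = O})
      (φ : ↥(h28_eqv Γ X A ⊓ (h28_sD A s).ker)),
      ((Pi.evalMonoidHom (fun _ : X => A) (rep O.1)).comp
        (Subgroup.subtype (h28_eqv Γ X A ⊓ (h28_sD A s).ker))) φ ∈ B O.1 := by
    intro O φ
    have hφY : (φ : X → A) ∈ h28_eqv Γ X A := φ.2.1
    have hφD : (φ : X → A) ∈ (h28_sD A s).ker := φ.2.2
    have h1 := hτ₀ _ (hSt_rep O.1 O.2)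
    have h2 := congrFun (MonoidHom.mem_ker.mp hφD) (rep O.1)
    rw [h28_sD_apply, h1, hφY] at h2
    have h3 : (φ : X → A) (rep O.1) ∈ (h92_mD (τ₀ (rep O.1))).ker := by
      rw [MonoidHom.mem_ker, h92_mD_apply]
      exact h2
    exact ⟨h28_eqv_apply_mem_fix hφY _, h3⟩
  let Φ : ↥(h28_eqv Γ X A ⊓ (h28_sD A s).ker) →*
      (∀ O : {O : MulAction.orbitRel.Quotient Γ X // h28_orbMap s hs O = O},
        ↥(B O.1) ⧸ (NO O.1).subgroupOf (B O.1)) :=
    MonoidHom.pi fun O => (QuotientGroup.mk' ((NO O.1).subgroupOf (B O.1))).comp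
      (MonoidHom.codRestrict _ (B O.1) (hev O))
  have hΦ : ∀ (φ : ↥(h28_eqv Γ X A ⊓ (h28_sD A s).ker)),
      Φ φ = 1 ↔ ∀ O : MulAction.orbitRel.Quotient Γ X, h28_orbMap s hs O = O →
        (φ : X → A) (rep O) ∈ NO O := by
    intro φ
    constructor
    · intro h O hO
      have h1 := congrFun h ⟨O, hO⟩
      have h2 : (⟨(φ : X → A) (rep O), hev ⟨O, hO⟩ φ⟩ : ↥(B O)) ∈ (NO O).subgroupOf (B O) :=
        (QuotientGroup.eq_one_iff _).mp h1
      exact Subgroup.mem_subgroupOf.mp h2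
    · intro h
      funext O
      exact (QuotientGroup.eq_one_iff _).mpr (Subgroup.mem_subgroupOf.mpr (h O.1 O.2))
  -- the kernel of `Φ` is the norm group
  have hker : Φ.ker = ((h28_eqv Γ X A).map (h28_sN A s p)).subgroupOf
      (h28_eqv Γ X A ⊓ (h28_sD A s).ker) := by
    ext φ
    rw [MonoidHom.mem_ker, hΦ, Subgroup.mem_subgroupOf, Subgroup.mem_map]
    have hφY : ∀ (τ : Γ) (j : X), (φ : X → A) (τ • j) = τ • (φ : X → A) j := φ.2.1
    have hφD : ∀ j, (φ : X → A) (s j) = (φ : X → A) j := fun j => by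
      have h2 := congrFun (MonoidHom.mem_ker.mp φ.2.2) j
      rw [h28_sD_apply] at h2
      exact div_eq_one.mp h2
    have hφpow : ∀ (k : ℕ) (j : X), (φ : X → A) ((s ^ k) j) = (φ : X → A) j := by
      intro k
      induction k with
      | zero => intro j; simp
      | succ k ih => intro j; rw [pow_succ, Equiv.Perm.mul_apply, ih, hφD]
    constructor
    · intro h
      have h' : ∀ O : MulAction.orbitRel.Quotient Γ X, h28_orbMap s hs O = O →
          ∃ y, y ∈ h28_fix Γ A (rep O) ∧ h92_mN (τ₀ (rep O)) p y = (φ : X → A) (rep O) :=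
        fun O hO => Subgroup.mem_map.mp (h O hO)
      choose! y hy1 hy2 using h'
      let ψ : X → A := fun x =>
        if h28_St Γ s x then t x • y (Quotient.mk'' x) else if θ x then (φ : X → A) x else 1
      have hψY : ψ ∈ h28_eqv Γ X A := by
        intro γ x
        by_cases hx : h28_St Γ s x
        · have hx' : h28_St Γ s (γ • x) := (h28_St_smul s hs γ x).mpr hx
          simp only [ψ, if_pos hx, if_pos hx', hmk]
          rw [← mul_smul]
          apply h28_fix_smul_eq (hy1 _ ((hSt_iff x).mp hx))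
          rw [mul_smul, ht x, ← hmk γ x, ht (γ • x)]
        · have hx' : ¬ h28_St Γ s (γ • x) := fun h => hx ((h28_St_smul s hs γ x).mp h)
          simp only [ψ, if_neg hx, if_neg hx', hθ1]
          split_ifs
          · exact hφY γ x
          · rw [smul_one]
      refine ⟨ψ, hψY, ?_⟩
      funext x
      rw [h28_sN_apply]
      by_cases hx : h28_St Γ s x
      · have hO := (hSt_iff x).mp hx
        have hj := hSt_rep _ hO
        have hτ := hτ₀ _ hj
        have hterm : ∀ k ∈ range p, ψ ((s ^ k) x) =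
            t x • (τ₀ (rep (Quotient.mk'' x)) ^ k • y (Quotient.mk'' x)) := by
          intro k _
          have hxk : h28_St Γ s ((s ^ k) x) := (h28_St_pow s hs k x).mpr hx
          simp only [ψ, if_pos hxk]
          rw [hmk_pow k x hx, ← mul_smul]
          apply h28_fix_smul_eq (hy1 _ hO)
          have e := ht ((s ^ k) x)
          rw [hmk_pow k x hx] at e
          rw [e, mul_smul, ← h28_pow_eq_smul_pow s hs hτ k, ← h28_pow_smul s hs, ht x]
        rw [Finset.prod_congr rfl hterm, ← Finset.smul_prod', ← h92_mN_apply, hy2 _ hO, ← hφY,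
          ht x]
      · obtain ⟨k₀, hk₀, hθk₀⟩ := hθ2 x
        have hterm : ∀ k ∈ range p, ψ ((s ^ k) x) =
            if θ ((s ^ k) x) then (φ : X → A) x else 1 := by
          intro k _
          have hxk : ¬ h28_St Γ s ((s ^ k) x) := fun h => hx ((h28_St_pow s hs k x).mp h)
          simp only [ψ, if_neg hxk, hφpow]
        rw [Finset.prod_congr rfl hterm, Finset.prod_eq_single k₀, if_pos hθk₀]
        · intro k hk hne
          rw [if_neg]
          intro hθk
          exact hne (hθ3 x hx k hk k₀ hk₀ hθk hθk₀)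
        · intro h; exact absurd hk₀ h
    · rintro ⟨ψ, hψY, hψ⟩ O hO
      have hj := hSt_rep _ hO
      have hτ := hτ₀ _ hj
      refine Subgroup.mem_map.mpr ⟨ψ (rep O), h28_eqv_apply_mem_fix hψY _, ?_⟩
      rw [← hψ, h28_sN_apply, h92_mN_apply]
      refine Finset.prod_congr rfl fun k _ => ?_
      rw [h28_pow_eq_smul_pow s hs hτ k, hψY]
  -- `Φ` is surjective
  have hsurj : Function.Surjective Φ := by
    intro b
    have hb : ∀ O : {O : MulAction.orbitRel.Quotient Γ X // h28_orbMap s hs O = O},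
        ∃ a : ↥(B O.1), (QuotientGroup.mk a : ↥(B O.1) ⧸ (NO O.1).subgroupOf (B O.1)) = b O :=
      fun O => QuotientGroup.mk_surjective (b O)
    choose a ha using hb
    let b' : MulAction.orbitRel.Quotient Γ X → A := fun O =>
      if h : h28_orbMap s hs O = O then (a ⟨O, h⟩ : A) else 1
    have hb'1 : ∀ O (h : h28_orbMap s hs O = O), b' O = (a ⟨O, h⟩ : A) := fun O h => dif_pos h
    have hb'2 : ∀ O, h28_orbMap s hs O = O → b' O ∈ B O := fun O h => by
      rw [hb'1 O h]; exact (a ⟨O, h⟩).2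
    let φ : X → A := fun x => if h28_St Γ s x then t x • b' (Quotient.mk'' x) else 1
    have hφY : φ ∈ h28_eqv Γ X A := by
      intro γ x
      by_cases hx : h28_St Γ s x
      · have hx' : h28_St Γ s (γ • x) := (h28_St_smul s hs γ x).mpr hx
        simp only [φ, if_pos hx, if_pos hx', hmk]
        rw [← mul_smul]
        apply h28_fix_smul_eq (hb'2 _ ((hSt_iff x).mp hx)).1
        rw [mul_smul, ht x, ← hmk γ x, ht (γ • x)]
      · have hx' : ¬ h28_St Γ s (γ • x) := fun h => hx ((h28_St_smul s hs γ x).mp h)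
        simp only [φ, if_neg hx, if_neg hx', smul_one]
    have hφD : φ ∈ (h28_sD A s).ker := by
      rw [MonoidHom.mem_ker]
      funext x
      rw [h28_sD_apply, Pi.one_apply, div_eq_one]
      by_cases hx : h28_St Γ s x
      · have hx' : h28_St Γ s (s x) := (h28_St_apply s hs x).mpr hx
        have hO := (hSt_iff x).mp hx
        have hj := hSt_rep _ hO
        have hτ := hτ₀ _ hj
        have hmks : (Quotient.mk'' (s x) : MulAction.orbitRel.Quotient Γ X) = Quotient.mk'' x := by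
          rw [← h28_orbMap_mk s hs]; exact hO
        simp only [φ, if_pos hx, if_pos hx', hmks]
        have hfix : b' (Quotient.mk'' x) ∈ (h92_mD (τ₀ (rep (Quotient.mk'' x)))).ker :=
          (hb'2 _ hO).2
        rw [MonoidHom.mem_ker, h92_mD_apply, div_eq_one] at hfix
        have e : t (s x) • b' (Quotient.mk'' x)
            = (t x * τ₀ (rep (Quotient.mk'' x))) • b' (Quotient.mk'' x) := by
          apply h28_fix_smul_eq (hb'2 _ hO).1
          have e' := ht (s x)
          rw [hmks] at e'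
          rw [e', mul_smul, ← hτ, ← hs, ht x]
        rw [e, mul_smul, hfix]
      · have hx' : ¬ h28_St Γ s (s x) := fun h => hx ((h28_St_apply s hs x).mp h)
        simp only [φ, if_neg hx, if_neg hx']
    refine ⟨⟨φ, hφY, hφD⟩, ?_⟩
    funext O
    rw [← ha O]
    refine congrArg (QuotientGroup.mk (s := (NO O.1).subgroupOf (B O.1))) (Subtype.ext ?_)
    show φ (rep O.1) = (a O : A)
    have hj := hSt_rep _ O.2
    simp only [φ, if_pos hj, hrep]
    rw [hb'1 O.1 O.2]
    have e := ht (rep O.1)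
    rw [hrep] at e
    have e2 := h28_fix_smul_eq (a O).2.1 (τ₁ := t (rep O.1)) (τ₂ := 1) (by rw [e, one_smul])
    rw [e2, one_smul]
  -- count
  have : Finite (MulAction.orbitRel.Quotient Γ X) :=
    Finite.of_surjective (Quotient.mk'' : X → MulAction.orbitRel.Quotient Γ X)
      Quotient.mk''_surjective
  let _ : Fintype {O : MulAction.orbitRel.Quotient Γ X // h28_orbMap s hs O = O} :=
    Fintype.ofFinite _
  rw [h92_hq_def, Subgroup.relIndex, ← hker, Subgroup.index_ker,
    MonoidHom.range_eq_top.mpr hsurj, Subgroup.card_top, Nat.card_pi]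
  have hcard : ∀ O : {O : MulAction.orbitRel.Quotient Γ X // h28_orbMap s hs O = O},
      Nat.card (↥(B O.1) ⧸ (NO O.1).subgroupOf (B O.1)) = n := fun O => hBN O.1 O.2
  rw [Finset.prod_congr rfl fun O _ => hcard O, Finset.prod_const, Finset.card_univ,
    Nat.card_eq_fintype_card]

/-- `Y` is stable under `D`. -/
theorem h28_sD_mem_eqv (s : Equiv.Perm X) (hs : ∀ (τ : Γ) (j : X), s (τ • j) = τ • s j)
    {φ : X → A} (hφ : φ ∈ h28_eqv Γ X A) : h28_sD A s φ ∈ h28_eqv Γ X A := by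
  intro τ j
  rw [h28_sD_apply, h28_sD_apply, hs, hφ, hφ, smul_div']

/-- `Y` is stable under `N`. -/
theorem h28_sN_mem_eqv (s : Equiv.Perm X) (hs : ∀ (τ : Γ) (j : X), s (τ • j) = τ • s j)
    (p : ℕ) {φ : X → A} (hφ : φ ∈ h28_eqv Γ X A) : h28_sN A s p φ ∈ h28_eqv Γ X A := by
  intro τ j
  rw [h28_sN_apply, h28_sN_apply, Finset.smul_prod']
  refine Finset.prod_congr rfl fun k _ => ?_
  rw [h28_pow_smul s hs, hφ]

omit [Group Γ] [MulAction Γ X] [MulDistribMulAction Γ A] in
theorem h28_prod_shift (s : Equiv.Perm X) {p : ℕ} (hsp : s ^ p = 1) (φ : X → A) (j : X) :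
    ∏ k ∈ range p, φ ((s ^ k) (s j)) = ∏ k ∈ range p, φ ((s ^ k) j) := by
  have h1 : ∀ k, (s ^ k) (s j) = (s ^ (k + 1)) j := fun k => by
    rw [pow_succ, Equiv.Perm.mul_apply]
  simp only [h1]
  have h2 := Finset.prod_range_succ' (fun k => φ ((s ^ k) j)) p
  have h3 := Finset.prod_range_succ (fun k => φ ((s ^ k) j)) p
  rw [h3] at h2
  simp only [hsp, pow_zero] at h2
  exact (mul_right_cancel h2).symm

omit [Group Γ] [MulAction Γ X] [MulDistribMulAction Γ A] in
/-- `D ∘ N = 1`. -/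
theorem h28_sD_sN (s : Equiv.Perm X) {p : ℕ} (hsp : s ^ p = 1) (φ : X → A) :
    h28_sD A s (h28_sN A s p φ) = 1 := by
  funext j
  rw [h28_sD_apply, h28_sN_apply, h28_sN_apply, h28_prod_shift s hsp, div_self', Pi.one_apply]

omit [Group Γ] [MulAction Γ X] [MulDistribMulAction Γ A] in
/-- `N ∘ D = 1`. -/
theorem h28_sN_sD (s : Equiv.Perm X) {p : ℕ} (hsp : s ^ p = 1) (φ : X → A) :
    h28_sN A s p (h28_sD A s φ) = 1 := by
  funext j
  rw [h28_sN_apply, Pi.one_apply]
  simp only [h28_sD_apply]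
  rw [Finset.prod_div_distrib]
  have h1 : ∀ k, s ((s ^ k) j) = (s ^ k) (s j) := fun k => by
    rw [← Equiv.Perm.mul_apply, ← Equiv.Perm.mul_apply, ← pow_succ', pow_succ]
  simp only [h1]
  rw [h28_prod_shift s hsp, div_self']

end Main

end Fermat.Agent.S55
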