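import Mathlib
import Fermat.Agent.S55.h92_HerbrandMul
import Fermat.Agent.S55.h92_FirstIneq
import Fermat.Agent.S55.h28_SemilocAbs

set_option autoImplicit false

/-!
# S55: Herbrand indices of products and of permutation modules

* `h28_hq_bot`, `h28_hq_pi` : the ambient Herbrand index `h92_hq` of the trivial group and of a
  finite product with componentwise operators;
* `h28_perm_index`, `h28_perm_h90` : for a permutation `s` of prime order `p` of a finite set `X`
  and the module `X → A`: `[(X → A)^s : N (X → A)] = [A : A^p] ^ #Fix(s)`, and `ker N = D (X → A)`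
  when `A` has no `p`-torsion;
* `h28_finsupp_hq` : the same for the divisors `P →₀ ℤ` supported in a finite stable set `T`:
  `[M_T^σ : N M_T] = p ^ #{v ∈ T | π v = v}` and `ker N = D M_T`.
-/

namespace Fermat.Agent.S55

open Finset

section General

theorem h28_hq_bot {E : Type*} [CommGroup E] (f g : E →* E) : h92_hq f g ⊥ = 1 := by
  rw [h92_hq_def, Subgroup.relIndex_eq_one]
  exact inf_le_left.trans bot_le

/-- Herbrand index of a finite product of groups with componentwise operators. -/
theorem h28_hq_pi {ι : Type*} [Fintype ι] {H : ι → Type*} [∀ i, CommGroup (H i)]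
    (f g : (∀ i, H i) →* (∀ i, H i)) (fi gi : ∀ i, H i →* H i)
    (hf : ∀ φ i, f φ i = fi i (φ i)) (hg : ∀ φ i, g φ i = gi i (φ i))
    (hfg : ∀ i x, fi i (gi i x) = 1) :
    h92_hq f g ⊤ = ∏ i, h92_hq (fi i) (gi i) ⊤ := by
  classical
  let A : Finset ι → Subgroup (∀ i, H i) := fun s =>
    { carrier := {φ | ∀ i, i ∉ s → φ i = 1}
      one_mem' := fun i _ => rfl
      mul_mem' := fun {a b} ha hb i hi => by
        rw [Pi.mul_apply, ha i hi, hb i hi, mul_one]
      inv_mem' := fun {a} ha i hi => by rw [Pi.inv_apply, ha i hi, inv_one] }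
  have hAmem : ∀ s (φ : ∀ i, H i), φ ∈ A s ↔ ∀ i, i ∉ s → φ i = 1 := fun s φ => Iff.rfl
  have hfA : ∀ s, ∀ x ∈ A s, f x ∈ A s := fun s x hx i hi => by
    rw [hf, hx i hi, map_one]
  have hgA : ∀ s, ∀ x ∈ A s, g x ∈ A s := fun s x hx i hi => by
    rw [hg, hx i hi, map_one]
  have hfg' : ∀ x, f (g x) = 1 := fun x => by
    funext i
    rw [hf, hg, hfg, Pi.one_apply]
  have hfS : ∀ a (u : H a), f (Pi.mulSingle a u) = Pi.mulSingle a (fi a u) := by
    intro a u
    funext i
    rw [hf]
    by_cases hi : i = a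
    · subst hi; simp
    · rw [Pi.mulSingle_eq_of_ne hi, Pi.mulSingle_eq_of_ne hi, map_one]
  have hgS : ∀ a (u : H a), g (Pi.mulSingle a u) = Pi.mulSingle a (gi a u) := by
    intro a u
    funext i
    rw [hg]
    by_cases hi : i = a
    · subst hi; simp
    · rw [Pi.mulSingle_eq_of_ne hi, Pi.mulSingle_eq_of_ne hi, map_one]
  have key : ∀ s : Finset ι, h92_hq f g (A s) = ∏ i ∈ s, h92_hq (fi i) (gi i) ⊤ := by
    intro s
    induction s using Finset.induction_on with
    | empty =>
      have : A ∅ = ⊥ := by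
        ext φ
        rw [hAmem, Subgroup.mem_bot]
        constructor
        · intro h; funext i; exact h i (Finset.notMem_empty i)
        · intro h i _; rw [h]; rfl
      rw [this, h28_hq_bot, Finset.prod_empty]
    | insert a s ha ih =>
      have hB : (⊤ : Subgroup (H a)).map (MonoidHom.mulSingle H a)
          = (MonoidHom.mulSingle H a).range := (MonoidHom.range_eq_map _).symm
      have hsup : A (insert a s) = A s ⊔ (⊤ : Subgroup (H a)).map (MonoidHom.mulSingle H a) := by
        apply le_antisymm
        · intro φ hφ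
          have h1 : Function.update φ a 1 ∈ A s := by
            intro i hi
            by_cases hia : i = a
            · subst hia; simp
            · rw [Function.update_of_ne hia]
              exact hφ i (by simp [hia, hi])
          have h2 : φ = Function.update φ a 1 * Pi.mulSingle a (φ a) := by
            funext i
            by_cases hia : i = a
            · subst hia; simp
            · simp [hia]
          rw [h2]
          exact Subgroup.mul_mem_sup h1 ⟨φ a, Subgroup.mem_top _, rfl⟩
        · apply sup_le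
          · intro φ hφ i hi
            exact hφ i (fun h => hi (Finset.mem_insert_of_mem h))
          · rintro _ ⟨u, -, rfl⟩ i hi
            have hia : i ≠ a := fun h => hi (h ▸ Finset.mem_insert_self a s)
            exact Pi.mulSingle_eq_of_ne hia u
      have hdisj : A s ⊓ (⊤ : Subgroup (H a)).map (MonoidHom.mulSingle H a) = ⊥ := by
        rw [eq_bot_iff]
        rintro φ ⟨h1, ⟨u, -, rfl⟩⟩
        have := h1 a ha
        rw [MonoidHom.mulSingle_apply, Pi.mulSingle_eq_same] at this
        rw [Subgroup.mem_bot, this]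
        exact Pi.mulSingle_one a
      have hfB : ∀ x ∈ (⊤ : Subgroup (H a)).map (MonoidHom.mulSingle H a),
          f x ∈ (⊤ : Subgroup (H a)).map (MonoidHom.mulSingle H a) := by
        rintro _ ⟨u, -, rfl⟩
        exact ⟨fi a u, Subgroup.mem_top _, (hfS a u).symm⟩
      have hgB : ∀ x ∈ (⊤ : Subgroup (H a)).map (MonoidHom.mulSingle H a),
          g x ∈ (⊤ : Subgroup (H a)).map (MonoidHom.mulSingle H a) := by
        rintro _ ⟨u, -, rfl⟩
        exact ⟨gi a u, Subgroup.mem_top _, (hgS a u).symm⟩
      rw [hsup, h92_hq_sup f g hdisj (hfA s) (hgA s) hfB hgB hfg', ih,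
        h92_hq_map (MonoidHom.mulSingle H a) (Pi.mulSingle_injective a) (fi a) (gi a) f g
          (fun u => (hfS a u).symm) (fun u => (hgS a u).symm) ⊤,
        Finset.prod_insert ha, mul_comm]
  have htop : A Finset.univ = ⊤ := by
    ext φ
    rw [hAmem]
    simp
  rw [← htop, key]

end General

section Perm

variable {X : Type*} {A : Type*} [CommGroup A]

/-- Permutation modules, norm index: for a permutation `s` of prime order `p` of a finite set
`X`, `[ (X → A)^s : N (X → A) ] = [A : A^p] ^ #Fix(s)`. -/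
theorem h28_perm_index [Finite X] {p : ℕ} (hp : p.Prime) (s : Equiv.Perm X) (hsp : s ^ p = 1) :
    h92_hq (h28_sD A s) (h28_sN A s p) ⊤
      = (powMonoidHom p : A →* A).range.index ^ Nat.card {x : X // s x = x} := by
  let _i1 : MulAction PUnit.{1} X :=
    { smul := fun _ x => x, one_smul := fun _ => rfl, mul_smul := fun _ _ _ => rfl }
  let _i2 : MulDistribMulAction PUnit.{1} A :=
    { smul := fun _ a => a, one_smul := fun _ => rfl, mul_smul := fun _ _ _ => rfl,
      smul_mul := fun _ _ _ => rfl, smul_one := fun _ => rfl }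
  have hs : ∀ (τ : PUnit.{1}) (j : X), s (τ • j) = τ • s j := fun _ _ => rfl
  have hY : h28_eqv PUnit.{1} X A = ⊤ := by
    ext φ
    simp only [Subgroup.mem_top, iff_true]
    intro τ j
    rfl
  have hloc : ∀ (j : X) (τ₀ : PUnit.{1}), s j = τ₀ • j →
      h92_hq (h92_mD τ₀) (h92_mN τ₀ p) (h28_fix PUnit.{1} A j)
        = (powMonoidHom p : A →* A).range.index := by
    intro j τ₀ _
    have hfix : h28_fix PUnit.{1} A j = ⊤ := by
      ext a
      simp only [Subgroup.mem_top, iff_true]
      intro τ _
      rfl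
    have hD : (h92_mD τ₀ : A →* A).ker = ⊤ := by
      ext a
      simp only [Subgroup.mem_top, iff_true, MonoidHom.mem_ker, h92_mD_apply]
      exact div_self' a
    have hN : (⊤ : Subgroup A).map (h92_mN τ₀ p) = (powMonoidHom p : A →* A).range := by
      rw [← MonoidHom.range_eq_map]
      congr 1
      ext a
      rw [h92_mN_apply, powMonoidHom_apply]
      have : ∀ k ∈ range p, τ₀ ^ k • a = a := fun k _ => rfl
      rw [Finset.prod_congr rfl this, Finset.prod_const, Finset.card_range]
    rw [h92_hq_def, hfix, hD, hN, inf_top_eq, Subgroup.relIndex_top_right]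
  have key := h28_semiloc_index (Γ := PUnit.{1}) (A := A) hp s hs hsp _ hloc
  rw [hY] at key
  rw [key]
  congr 1
  -- count the orbits
  refine Nat.card_congr (Equiv.ofBijective
    (fun O : {O : MulAction.orbitRel.Quotient PUnit.{1} X // h28_orbMap s hs O = O} =>
      (⟨Quotient.out O.1, ?_⟩ : {x : X // s x = x})) ⟨?_, ?_⟩)
  · have h1 : h28_orbMap s hs (Quotient.mk'' (Quotient.out O.1)) = Quotient.mk'' (Quotient.out O.1) := by
      rw [Quotient.out_eq']
      exact O.2
    rw [h28_orbMap_mk] at h1
    have h2 : (MulAction.orbitRel PUnit.{1} X).r (s (Quotient.out O.1)) (Quotient.out O.1) :=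
      Quotient.exact h1
    obtain ⟨g, hg⟩ := h2
    exact hg.symm
  · intro O O' h
    have h1 : Quotient.out O.1 = Quotient.out O'.1 := congrArg Subtype.val h
    apply Subtype.ext
    rw [← Quotient.out_eq O.1, ← Quotient.out_eq O'.1, h1]
  · rintro ⟨x, hx⟩
    refine ⟨⟨Quotient.mk'' x, ?_⟩, ?_⟩
    · rw [h28_orbMap_mk, hx]
    · apply Subtype.ext
      have h2 : (MulAction.orbitRel PUnit.{1} X).r (Quotient.out (Quotient.mk'' x :
          MulAction.orbitRel.Quotient PUnit.{1} X)) x := Quotient.mk_out x
      obtain ⟨g, hg⟩ := h2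
      exact hg.symm

/-- Permutation modules, Hilbert 90: if `A` has no `p`-torsion then `ker N = D (X → A)`. -/
theorem h28_perm_h90 {p : ℕ} (hp : p.Prime) (s : Equiv.Perm X) (hsp : s ^ p = 1)
    (hA : ∀ a : A, a ^ p = 1 → a = 1) :
    h92_hq (h28_sN A s p) (h28_sD A s) ⊤ = 1 := by
  let _i1 : MulAction PUnit.{1} X :=
    { smul := fun _ x => x, one_smul := fun _ => rfl, mul_smul := fun _ _ _ => rfl }
  let _i2 : MulDistribMulAction PUnit.{1} A :=
    { smul := fun _ a => a, one_smul := fun _ => rfl, mul_smul := fun _ _ _ => rfl,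
      smul_mul := fun _ _ _ => rfl, smul_one := fun _ => rfl }
  have hs : ∀ (τ : PUnit.{1}) (j : X), s (τ • j) = τ • s j := fun _ _ => rfl
  have hY : h28_eqv PUnit.{1} X A = ⊤ := by
    ext φ
    simp only [Subgroup.mem_top, iff_true]
    intro τ j
    rfl
  have key := h28_semiloc_h90 (Γ := PUnit.{1}) (A := A) hp s hs hsp (by
    intro j τ₀ _ x _ hx
    have hx' : x ^ p = 1 := by
      rw [h92_mN_apply] at hx
      have : ∀ k ∈ range p, τ₀ ^ k • x = x := fun k _ => rfl
      rwa [Finset.prod_congr rfl this, Finset.prod_const, Finset.card_range] at hx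
    refine ⟨1, Subgroup.one_mem _, ?_⟩
    rw [map_one]
    exact hA x hx')
  rw [hY] at key
  exact key

end Perm


section Finsupp

variable {P : Type*}

/-- Divisors (written multiplicatively) supported in `T`. -/
def h28_suppSub (T : Set P) : Subgroup (Multiplicative (P →₀ ℤ)) where
  carrier := {m | ∀ v, v ∉ T → Multiplicative.toAdd m v = 0}
  one_mem' := fun _ _ => rfl
  mul_mem' := fun {a b} ha hb v hv => by
    show (Multiplicative.toAdd a + Multiplicative.toAdd b) v = 0
    rw [Finsupp.add_apply, ha v hv, hb v hv, add_zero]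
  inv_mem' := fun {a} ha v hv => by
    show (- Multiplicative.toAdd a) v = 0
    rw [Finsupp.neg_apply, ha v hv, neg_zero]

theorem h28_mem_suppSub (T : Set P) (m : Multiplicative (P →₀ ℤ)) :
    m ∈ h28_suppSub T ↔ ∀ v, v ∉ T → Multiplicative.toAdd m v = 0 := Iff.rfl

open Classical in
/-- Extension by zero `(T → ℤ) → (P →₀ ℤ)`. -/
noncomputable def h28_extT (T : Set P) (hT : T.Finite) :
    (T → Multiplicative ℤ) →* Multiplicative (P →₀ ℤ) where
  toFun φ := Multiplicative.ofAdd (Finsupp.ofSupportFinite
    (fun v => if h : v ∈ T then Multiplicative.toAdd (φ ⟨v, h⟩) else 0)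
    (hT.subset (fun v hv => by
      by_contra h
      exact hv (dif_neg h))))
  map_one' := by
    apply congrArg Multiplicative.ofAdd
    ext v
    show (if h : v ∈ T then Multiplicative.toAdd ((1 : T → Multiplicative ℤ) ⟨v, h⟩) else 0) = 0
    split_ifs <;> rfl
  map_mul' φ ψ := by
    apply congrArg Multiplicative.ofAdd
    ext v
    show (if h : v ∈ T then Multiplicative.toAdd ((φ * ψ) ⟨v, h⟩) else 0)
      = (if h : v ∈ T then Multiplicative.toAdd (φ ⟨v, h⟩) else 0)
        + (if h : v ∈ T then Multiplicative.toAdd (ψ ⟨v, h⟩) else 0)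
    split_ifs
    · rfl
    · rw [add_zero]

theorem h28_extT_apply_mem (T : Set P) (hT : T.Finite) (φ : T → Multiplicative ℤ) {v : P}
    (h : v ∈ T) : Multiplicative.toAdd (h28_extT T hT φ) v = Multiplicative.toAdd (φ ⟨v, h⟩) :=
  dif_pos h

theorem h28_extT_apply_notMem (T : Set P) (hT : T.Finite) (φ : T → Multiplicative ℤ) {v : P}
    (h : v ∉ T) : Multiplicative.toAdd (h28_extT T hT φ) v = 0 :=
  dif_neg h

theorem h28_extT_injective (T : Set P) (hT : T.Finite) : Function.Injective (h28_extT T hT) := by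
  intro φ ψ h
  funext x
  have h1 := h28_extT_apply_mem T hT φ x.2
  rw [h, h28_extT_apply_mem T hT ψ x.2] at h1
  exact (Multiplicative.toAdd.injective h1).symm

theorem h28_extT_range (T : Set P) (hT : T.Finite) :
    (⊤ : Subgroup (T → Multiplicative ℤ)).map (h28_extT T hT) = h28_suppSub T := by
  ext m
  constructor
  · rintro ⟨φ, -, rfl⟩ v hv
    exact h28_extT_apply_notMem T hT φ hv
  · intro hm
    refine ⟨fun x => Multiplicative.ofAdd (Multiplicative.toAdd m x.1), Subgroup.mem_top _, ?_⟩
    apply Multiplicative.toAdd.injective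
    ext v
    by_cases hv : v ∈ T
    · rw [h28_extT_apply_mem T hT _ hv]
      rfl
    · rw [h28_extT_apply_notMem T hT _ hv, hm v hv]

theorem h28_int_pow_index {p : ℕ} (hp : p.Prime) :
    (powMonoidHom p : Multiplicative ℤ →* Multiplicative ℤ).range.index = p := by
  have : NeZero p := ⟨hp.ne_zero⟩
  let F : Multiplicative ℤ →* Multiplicative (ZMod p) :=
    AddMonoidHom.toMultiplicative (Int.castAddHom (ZMod p))
  have hF : Function.Surjective F := by
    intro y
    obtain ⟨n, hn⟩ := ZMod.intCast_surjective (Multiplicative.toAdd y)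
    exact ⟨Multiplicative.ofAdd n, congrArg Multiplicative.ofAdd hn⟩
  have hker : F.ker = (powMonoidHom p : Multiplicative ℤ →* Multiplicative ℤ).range := by
    ext x
    rw [MonoidHom.mem_ker, MonoidHom.mem_range]
    have h1 : F x = 1 ↔ ((Multiplicative.toAdd x : ℤ) : ZMod p) = 0 := Iff.rfl
    rw [h1, ZMod.intCast_zmod_eq_zero_iff_dvd]
    constructor
    · rintro ⟨c, hc⟩
      refine ⟨Multiplicative.ofAdd c, ?_⟩
      apply Multiplicative.toAdd.injective
      rw [powMonoidHom_apply, toAdd_pow, toAdd_ofAdd, hc, nsmul_eq_mul]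
    · rintro ⟨y, rfl⟩
      refine ⟨Multiplicative.toAdd y, ?_⟩
      rw [powMonoidHom_apply, toAdd_pow, nsmul_eq_mul]
  rw [← hker, Subgroup.index_ker, MonoidHom.range_eq_top.mpr hF, Nat.card_congr
    (Subgroup.topEquiv (G := Multiplicative (ZMod p))).toEquiv, Nat.card_eq_fintype_card]
  exact (Fintype.card_congr Multiplicative.toAdd).trans (ZMod.card p)

/-- A set stable under a permutation of finite order is stable under all its powers, both
ways. -/
theorem h28_perm_stable_iff {p : ℕ} (hp : 0 < p) (π : Equiv.Perm P) (hπ : π ^ p = 1)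
    (T : Set P) (hTπ : ∀ v ∈ T, π v ∈ T) (k : ℕ) (x : P) : (π ^ k) x ∈ T ↔ x ∈ T := by
  have hTk : ∀ (k : ℕ) (v : P), v ∈ T → (π ^ k) v ∈ T := by
    intro k
    induction k with
    | zero => intro v hv; exact hv
    | succ k ih =>
      intro v hv
      rw [pow_succ', Equiv.Perm.mul_apply]
      exact hTπ _ (ih v hv)
  have hTiff : ∀ x, π x ∈ T ↔ x ∈ T := by
    intro x
    refine ⟨fun h => ?_, hTπ x⟩
    have h1 := hTk (p - 1) _ h
    have h2 : (π ^ (p - 1)) (π x) = x := by
      rw [← Equiv.Perm.mul_apply, ← pow_succ, Nat.sub_add_cancel hp, hπ]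
      rfl
    rwa [h2] at h1
  induction k generalizing x with
  | zero => exact Iff.rfl
  | succ k ih =>
    rw [pow_succ', Equiv.Perm.mul_apply]
    exact (hTiff _).trans (ih x)

/-- The divisors supported in a stable set are stable under `σ - 1` and the norm. -/
theorem h28_suppSub_stable {p : ℕ} (hp : 0 < p) (π : Equiv.Perm P) (hπ : π ^ p = 1)
    (T : Set P) (hTπ : ∀ v ∈ T, π v ∈ T)
    (f g : Multiplicative (P →₀ ℤ) →* Multiplicative (P →₀ ℤ))
    (hf : ∀ m v, Multiplicative.toAdd (f m) v
      = Multiplicative.toAdd m (π v) - Multiplicative.toAdd m v)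
    (hg : ∀ m v, Multiplicative.toAdd (g m) v
      = ∑ k ∈ range p, Multiplicative.toAdd m ((π ^ k) v)) :
    (∀ m ∈ h28_suppSub T, f m ∈ h28_suppSub T) ∧ (∀ m ∈ h28_suppSub T, g m ∈ h28_suppSub T) := by
  have hTkiff := h28_perm_stable_iff hp π hπ T hTπ
  constructor
  · intro m hm v hv
    have h1 : π v ∉ T := fun h => hv (by simpa using (hTkiff 1 v).mp (by simpa using h))
    rw [hf, hm v hv, hm _ h1, sub_zero]
  · intro m hm v hv
    rw [hg]
    refine Finset.sum_eq_zero fun k _ => ?_
    exact hm _ (fun h => hv ((hTkiff k v).mp h))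

/-- **Divisors supported in a finite stable set**: if the permutation `π` of the places has
`π ^ p = 1`, `T` is finite and `π`-stable, and `f = σ - 1`, `g = 1 + σ + ... + σ^(p-1)` for the
induced operator `(σ d)(v) = d (π v)`, then `[M_T^σ : N M_T] = p ^ #{v ∈ T | π v = v}` and
`ker N = D M_T`. -/
theorem h28_finsupp_hq {p : ℕ} (hp : p.Prime) (π : Equiv.Perm P) (hπ : π ^ p = 1)
    (T : Set P) (hT : T.Finite) (hTπ : ∀ v ∈ T, π v ∈ T)
    (f g : Multiplicative (P →₀ ℤ) →* Multiplicative (P →₀ ℤ))
    (hf : ∀ m v, Multiplicative.toAdd (f m) v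
      = Multiplicative.toAdd m (π v) - Multiplicative.toAdd m v)
    (hg : ∀ m v, Multiplicative.toAdd (g m) v
      = ∑ k ∈ range p, Multiplicative.toAdd m ((π ^ k) v)) :
    h92_hq f g (h28_suppSub T) = p ^ {v | v ∈ T ∧ π v = v}.ncard ∧
      h92_hq g f (h28_suppSub T) = 1 := by
  have hTkiff := h28_perm_stable_iff hp.pos π hπ T hTπ
  have hTiff : ∀ x, π x ∈ T ↔ x ∈ T := fun x => by simpa using hTkiff 1 x
  let s : Equiv.Perm T := π.subtypePerm hTiff
  have hs_coe : ∀ x : T, ((s x : T) : P) = π x := fun x => rfl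
  have hsk_coe : ∀ (k : ℕ) (x : T), (((s ^ k) x : T) : P) = (π ^ k) x := by
    intro k
    induction k with
    | zero => intro x; rfl
    | succ k ih =>
      intro x
      rw [pow_succ', Equiv.Perm.mul_apply, hs_coe, ih, pow_succ', Equiv.Perm.mul_apply]
  have hsp : s ^ p = 1 := by
    ext x
    rw [hsk_coe, hπ]
    rfl
  have hfT : ∀ φ : T → Multiplicative ℤ,
      h28_extT T hT (h28_sD (Multiplicative ℤ) s φ) = f (h28_extT T hT φ) := by
    intro φ
    apply Multiplicative.toAdd.injective
    ext v
    rw [hf]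
    by_cases hv : v ∈ T
    · rw [h28_extT_apply_mem T hT _ hv, h28_extT_apply_mem T hT _ hv,
        h28_extT_apply_mem T hT _ ((hTiff v).mpr hv), h28_sD_apply, toAdd_div]
      rfl
    · rw [h28_extT_apply_notMem T hT _ hv, h28_extT_apply_notMem T hT _ hv,
        h28_extT_apply_notMem T hT _ (fun h => hv ((hTiff v).mp h)), sub_zero]
  have hgT : ∀ φ : T → Multiplicative ℤ,
      h28_extT T hT (h28_sN (Multiplicative ℤ) s p φ) = g (h28_extT T hT φ) := by
    intro φ
    apply Multiplicative.toAdd.injective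
    ext v
    rw [hg]
    by_cases hv : v ∈ T
    · rw [h28_extT_apply_mem T hT _ hv, h28_sN_apply, toAdd_prod]
      refine Finset.sum_congr rfl fun k _ => ?_
      rw [h28_extT_apply_mem T hT _ ((hTkiff k v).mpr hv)]
      congr 2
      exact Subtype.ext (hsk_coe k ⟨v, hv⟩)
    · rw [h28_extT_apply_notMem T hT _ hv]
      symm
      refine Finset.sum_eq_zero fun k _ => ?_
      exact h28_extT_apply_notMem T hT _ (fun h => hv ((hTkiff k v).mp h))
  have : Finite T := hT.to_subtype
  have hcount : Nat.card {x : T // s x = x} = {v | v ∈ T ∧ π v = v}.ncard := by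
    rw [Set.ncard_def]
    refine Nat.card_congr (Equiv.trans (Equiv.subtypeEquivRight (fun x => ?_))
      (Equiv.subtypeSubtypeEquivSubtypeInter (fun v => v ∈ T) (fun v => π v = v)))
    constructor
    · intro h
      exact congrArg Subtype.val h
    · intro h
      exact Subtype.ext h
  constructor
  · rw [← h28_extT_range T hT, h92_hq_map (h28_extT T hT) (h28_extT_injective T hT)
      (h28_sD (Multiplicative ℤ) s) (h28_sN (Multiplicative ℤ) s p) f g hfT hgT ⊤,
      h28_perm_index hp s hsp, h28_int_pow_index hp, hcount]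
  · rw [← h28_extT_range T hT, h92_hq_map (h28_extT T hT) (h28_extT_injective T hT)
      (h28_sN (Multiplicative ℤ) s p) (h28_sD (Multiplicative ℤ) s) g f hgT hfT ⊤]
    refine h28_perm_h90 hp s hsp ?_
    intro a ha
    apply Multiplicative.toAdd.injective
    have h1 : (p : ℤ) * Multiplicative.toAdd a = 0 := by
      have := congrArg Multiplicative.toAdd ha
      rwa [toAdd_pow, nsmul_eq_mul] at this
    rcases mul_eq_zero.mp h1 with h | h
    · exact absurd (Nat.cast_eq_zero.mp h) hp.ne_zero
    · exact h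

end Finsupp

end Fermat.Agent.S55
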