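import Fermat.Agent.S55.h10_EmbPrime
import Fermat.Agent.S55.h92_SUnits
import Fermat.Agent.S55.h28_SemilocAbs

/-!
# S55, GLOB dictionary, part 2: orbits of embeddings and primes above `q`

`Gal(PadicAlgCl q / ℚ_[q])`-orbits of embeddings `K →+* PadicAlgCl q` correspond bijectively to
the primes of `𝓞 K` above `q` (`h10_orbPrime`), compatibly with automorphisms of `K`; hence the
number of `σ`-stable orbits (the exponent in `h28_semiloc_index`) is the number of `σ`-fixed
primes above `q` (the exponent in `h92_sunits_index`).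
-/

set_option autoImplicit false

open NumberField IsDedekindDomain
open scoped Pointwise

namespace Fermat.Agent.S55

section Orb

variable (q : ℕ) [Fact q.Prime] {K : Type*} [Field K] [NumberField K]

/-- Precomposing an embedding with an automorphism of `K` moves its prime by the inverse. -/
theorem h10_embPrime_comp_algEquiv {k : Type*} [Field k] [Algebra k K] (σ : K ≃ₐ[k] K)
    (j : K →+* PadicAlgCl q) :
    h10_embPrime q (j.comp (σ : K →+* K)) = h92_galPrime σ⁻¹ (h10_embPrime q j) := by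
  apply HeightOneSpectrum.ext
  ext x
  rw [h92_galPrime_asIdeal, h10_mem_embPrime, Ideal.mem_inv_pointwise_smul_iff, h10_mem_embPrime]
  rfl

variable {Γ : Type*} [Group Γ] [MulAction Γ (K →+* PadicAlgCl q)]

/-- The prime attached to a `Γ`-orbit of embeddings, for any group `Γ` acting on the embeddings
through `Gal(PadicAlgCl q / ℚ_[q])`. -/
noncomputable def h10_orbPrime (e : Γ → (PadicAlgCl q ≃ₐ[ℚ_[q]] PadicAlgCl q))
    (hsmul : ∀ (γ : Γ) (j : K →+* PadicAlgCl q),
      γ • j = ((e γ : PadicAlgCl q ≃ₐ[ℚ_[q]] PadicAlgCl q) :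
        PadicAlgCl q →+* PadicAlgCl q).comp j) :
    MulAction.orbitRel.Quotient Γ (K →+* PadicAlgCl q) → HeightOneSpectrum (𝓞 K) :=
  Quotient.lift (h10_embPrime q) (by
    intro a b hab
    change a ∈ MulAction.orbit Γ b at hab
    obtain ⟨γ, rfl⟩ := hab
    change h10_embPrime q (γ • b) = h10_embPrime q b
    rw [hsmul, h10_embPrime_comp_aut])

theorem h10_orbPrime_mk (e : Γ → (PadicAlgCl q ≃ₐ[ℚ_[q]] PadicAlgCl q))
    (hsmul : ∀ (γ : Γ) (j : K →+* PadicAlgCl q),
      γ • j = ((e γ : PadicAlgCl q ≃ₐ[ℚ_[q]] PadicAlgCl q) :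
        PadicAlgCl q →+* PadicAlgCl q).comp j) (j : K →+* PadicAlgCl q) :
    h10_orbPrime q e hsmul (Quotient.mk'' j) = h10_embPrime q j := rfl

theorem h10_orbPrime_injective (e : Γ → (PadicAlgCl q ≃ₐ[ℚ_[q]] PadicAlgCl q))
    (he : Function.Surjective e)
    (hsmul : ∀ (γ : Γ) (j : K →+* PadicAlgCl q),
      γ • j = ((e γ : PadicAlgCl q ≃ₐ[ℚ_[q]] PadicAlgCl q) :
        PadicAlgCl q →+* PadicAlgCl q).comp j) :
    Function.Injective (h10_orbPrime q e hsmul) := by
  intro O O' h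
  induction O using Quotient.inductionOn' with
  | h j =>
    induction O' using Quotient.inductionOn' with
    | h j' =>
      rw [h10_orbPrime_mk, h10_orbPrime_mk] at h
      obtain ⟨τ, hτ⟩ := h10_exists_aut_of_embPrime_eq q j j' h
      obtain ⟨γ, rfl⟩ := he τ
      apply Quotient.sound'
      change j ∈ MulAction.orbit Γ j'
      refine ⟨γ⁻¹, ?_⟩
      change γ⁻¹ • j' = j
      rw [hτ, ← hsmul, inv_smul_smul]

theorem h10_orbPrime_range (e : Γ → (PadicAlgCl q ≃ₐ[ℚ_[q]] PadicAlgCl q))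
    (hsmul : ∀ (γ : Γ) (j : K →+* PadicAlgCl q),
      γ • j = ((e γ : PadicAlgCl q ≃ₐ[ℚ_[q]] PadicAlgCl q) :
        PadicAlgCl q →+* PadicAlgCl q).comp j) :
    Set.range (h10_orbPrime q e hsmul)
      = {w : HeightOneSpectrum (𝓞 K) | ((q : ℕ) : 𝓞 K) ∈ w.asIdeal} := by
  ext w
  constructor
  · rintro ⟨O, rfl⟩
    induction O using Quotient.inductionOn' with
    | h j => exact h10_natCast_mem_embPrime q j
  · intro hw
    obtain ⟨j, rfl⟩ := h10_exists_emb_of_prime q w hw
    exact ⟨Quotient.mk'' j, rfl⟩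

/-- The number of orbits of embeddings is the number of primes above `q`. -/
theorem h10_card_orbits (e : Γ → (PadicAlgCl q ≃ₐ[ℚ_[q]] PadicAlgCl q))
    (he : Function.Surjective e)
    (hsmul : ∀ (γ : Γ) (j : K →+* PadicAlgCl q),
      γ • j = ((e γ : PadicAlgCl q ≃ₐ[ℚ_[q]] PadicAlgCl q) :
        PadicAlgCl q →+* PadicAlgCl q).comp j) :
    Nat.card (MulAction.orbitRel.Quotient Γ (K →+* PadicAlgCl q))
      = {w : HeightOneSpectrum (𝓞 K) | ((q : ℕ) : 𝓞 K) ∈ w.asIdeal}.ncard := by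
  rw [← h10_orbPrime_range q e hsmul, ← Set.image_univ,
    Set.ncard_image_of_injective _ (h10_orbPrime_injective q e he hsmul), Set.ncard_univ]

theorem h10_orbPrime_orbMap (e : Γ → (PadicAlgCl q ≃ₐ[ℚ_[q]] PadicAlgCl q))
    (hsmul : ∀ (γ : Γ) (j : K →+* PadicAlgCl q),
      γ • j = ((e γ : PadicAlgCl q ≃ₐ[ℚ_[q]] PadicAlgCl q) :
        PadicAlgCl q →+* PadicAlgCl q).comp j)
    {k : Type*} [Field k] [Algebra k K] (σ : K ≃ₐ[k] K)
    (s : Equiv.Perm (K →+* PadicAlgCl q)) (hsσ : ∀ j, s j = j.comp (σ : K →+* K))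
    (hs : ∀ (γ : Γ) (j : K →+* PadicAlgCl q), s (γ • j) = γ • s j)
    (O : MulAction.orbitRel.Quotient Γ (K →+* PadicAlgCl q)) :
    h10_orbPrime q e hsmul (h28_orbMap s hs O)
      = h92_galPrime σ⁻¹ (h10_orbPrime q e hsmul O) := by
  induction O using Quotient.inductionOn' with
  | h j =>
    rw [h28_orbMap_mk, h10_orbPrime_mk, h10_orbPrime_mk, hsσ, h10_embPrime_comp_algEquiv]

/-- **Dictionary for the first inequality**: the number of `σ`-stable
`Gal(PadicAlgCl q / ℚ_[q])`-orbits of embeddings `K →+* PadicAlgCl q` is the number of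
`σ`-fixed primes of `K` above `q`. -/
theorem h10_card_stable_orbits (e : Γ → (PadicAlgCl q ≃ₐ[ℚ_[q]] PadicAlgCl q))
    (he : Function.Surjective e)
    (hsmul : ∀ (γ : Γ) (j : K →+* PadicAlgCl q),
      γ • j = ((e γ : PadicAlgCl q ≃ₐ[ℚ_[q]] PadicAlgCl q) :
        PadicAlgCl q →+* PadicAlgCl q).comp j)
    {k : Type*} [Field k] [Algebra k K] (σ : K ≃ₐ[k] K)
    (s : Equiv.Perm (K →+* PadicAlgCl q)) (hsσ : ∀ j, s j = j.comp (σ : K →+* K))
    (hs : ∀ (γ : Γ) (j : K →+* PadicAlgCl q), s (γ • j) = γ • s j) :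
    Nat.card {O : MulAction.orbitRel.Quotient Γ (K →+* PadicAlgCl q) // h28_orbMap s hs O = O}
      = {w : HeightOneSpectrum (𝓞 K) |
          ((q : ℕ) : 𝓞 K) ∈ w.asIdeal ∧ h92_galPrime σ w = w}.ncard := by
  have hinj := h10_orbPrime_injective q e he hsmul
  have hset : {w : HeightOneSpectrum (𝓞 K) |
      ((q : ℕ) : 𝓞 K) ∈ w.asIdeal ∧ h92_galPrime σ w = w}
      = h10_orbPrime q e hsmul ''
        {O : MulAction.orbitRel.Quotient Γ (K →+* PadicAlgCl q) | h28_orbMap s hs O = O} := by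
    ext w
    constructor
    · rintro ⟨hw, hfix⟩
      have hmem : w ∈ Set.range (h10_orbPrime q e hsmul) := by
        rw [h10_orbPrime_range]; exact hw
      obtain ⟨O, rfl⟩ := hmem
      refine ⟨O, ?_, rfl⟩
      apply hinj
      rw [h10_orbPrime_orbMap q e hsmul σ s hsσ hs]
      conv_lhs => rw [← hfix]
      rw [← h92_galPrime_mul, inv_mul_cancel, h92_galPrime_one]
    · rintro ⟨O, hO, rfl⟩
      have hO' : h28_orbMap s hs O = O := hO
      refine ⟨?_, ?_⟩
      · have : h10_orbPrime q e hsmul O ∈ Set.range (h10_orbPrime q e hsmul) := ⟨O, rfl⟩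
        rw [h10_orbPrime_range] at this
        exact this
      · have h1 := h10_orbPrime_orbMap q e hsmul σ s hsσ hs O
        rw [hO'] at h1
        conv_lhs => rw [h1]
        rw [← h92_galPrime_mul, mul_inv_cancel, h92_galPrime_one]
  rw [hset, Set.ncard_image_of_injective _ hinj]
  exact Nat.card_coe_set_eq _

end Orb

end Fermat.Agent.S55
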