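import Mathlib
import Fermat.Agent.S55.h92_HerbrandMul
import Fermat.Agent.S55.h28_SemilocAbs

set_option autoImplicit false

/-!
# The semi-local module `J_q(L) = (L ⊗ ℚ_q)ˣ` of a cyclic extension of prime degree (S55)

`L` is a number field with a field automorphism `σ` of prime order `p` (a generator of
`Gal(L/K)` for a cyclic extension `L/K` of degree `p`), `q` a prime, `Ω = PadicAlgCl q`,
`Γ = Gal(Ω/ℚ_q)`.  `Γ` acts on the embeddings `X = (L →+* Ω)` by composition (`h28_embAction`), and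
`σ` acts on `X` by `j ↦ j ∘ σ` (`h28_embPerm`).  The semi-local module is
`J_q(L) = h28_eqv Γ X Ωˣ` (`Γ`-equivariant functions `X → Ωˣ`), see `h28_SemilocAbs`.

Main result `h28_Jq_semilocal`: `ker N = D J_q(L)` and
`[J_q(L)^σ : N J_q(L)] = p ^ (number of σ-stable Γ-orbits on X)`,
where the only arithmetic input is the local class field axiom `hLOC` (norm index of a cyclic
extension of finite extensions of `ℚ_q` equals its degree), taken as a hypothesis.

Ingredients:
* `h28_fixK` ... `h28_fixK_norm` : Artin's theorem for a single automorphism `t` of prime order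
  of a field `E` (fixed field `K`, `E/K` cyclic Galois of degree `p`, norm = `∏_{k<p} t^k`);
* `h28_locField q j = ℚ_q(j(L))`, finite over `ℚ_q`; `h28_locU q j` = its units inside `Ωˣ`
  (`h28_mem_locU`: infinite Galois correspondence); `h28_locRes` = restriction of `τ₀` when
  `τ₀ ∘ j = j ∘ σ`;
* `h28_loc_h90` (Hilbert 90 in ambient form), `h28_loc_index` (norm index in ambient form).
-/

namespace Fermat.Agent.S55

open Finset

section CyclicArtin

variable {F E : Type*} [Field F] [Field E] [Algebra F E] [FiniteDimensional F E]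

/-- The fixed field of a single automorphism. -/
noncomputable abbrev h28_fixK (t : E ≃ₐ[F] E) : IntermediateField F E :=
  IntermediateField.fixedField (Subgroup.zpowers t)

omit [FiniteDimensional F E] in
theorem h28_mem_fixK (t : E ≃ₐ[F] E) (x : E) : x ∈ h28_fixK t ↔ t x = x := by
  rw [IntermediateField.mem_fixedField_iff]
  constructor
  · intro h
    exact h t (Subgroup.mem_zpowers t)
  · intro h f hf
    obtain ⟨k, rfl⟩ := Subgroup.mem_zpowers_iff.mp hf
    have hfix : t ∈ MulAction.stabilizer (E ≃ₐ[F] E) x := h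
    exact (Subgroup.zpow_mem _ hfix k : t ^ k ∈ MulAction.stabilizer (E ≃ₐ[F] E) x)

instance h28_fixK_isGalois (t : E ≃ₐ[F] E) : IsGalois (h28_fixK t) E :=
  IsGalois.of_fixed_field E (Subgroup.zpowers t)

theorem h28_fixK_finrank {p : ℕ} (hp : p.Prime) (t : E ≃ₐ[F] E) (htp : t ^ p = 1) (ht1 : t ≠ 1) :
    Module.finrank (h28_fixK t) E = p := by
  rw [IntermediateField.finrank_fixedField_eq_card, Nat.card_zpowers]
  have := Fact.mk hp
  exact orderOf_eq_prime htp ht1

/-- `t` as an automorphism over its fixed field. -/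
noncomputable def h28_fixK_gen (t : E ≃ₐ[F] E) : E ≃ₐ[h28_fixK t] E :=
  IntermediateField.subgroupEquivAlgEquiv (Subgroup.zpowers t) ⟨t, Subgroup.mem_zpowers t⟩

theorem h28_fixK_gen_apply (t : E ≃ₐ[F] E) (x : E) : h28_fixK_gen t x = t x := rfl

theorem h28_fixK_gen_zpowers (t : E ≃ₐ[F] E) (g : E ≃ₐ[h28_fixK t] E) :
    g ∈ Subgroup.zpowers (h28_fixK_gen t) := by
  obtain ⟨⟨h, hh⟩, rfl⟩ :=
    (IntermediateField.subgroupEquivAlgEquiv (Subgroup.zpowers t)).surjective g
  obtain ⟨k, rfl⟩ := Subgroup.mem_zpowers_iff.mp hh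
  refine Subgroup.mem_zpowers_iff.mpr ⟨k, ?_⟩
  rw [h28_fixK_gen, ← map_zpow]
  rfl

instance h28_fixK_isCyclic (t : E ≃ₐ[F] E) : IsCyclic (E ≃ₐ[h28_fixK t] E) :=
  ⟨⟨h28_fixK_gen t, h28_fixK_gen_zpowers t⟩⟩

/-- The norm to the fixed field of `t` is the product over the powers of `t`. -/
theorem h28_fixK_norm {p : ℕ} (hp : p.Prime) (t : E ≃ₐ[F] E) (htp : t ^ p = 1) (ht1 : t ≠ 1)
    (x : E) :
    algebraMap (h28_fixK t) E (Algebra.norm (h28_fixK t) x) = ∏ k ∈ range p, (t ^ k) x := by
  classical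
  have := Fact.mk hp
  have hord : orderOf t = p := orderOf_eq_prime htp ht1
  have hfin : IsOfFinOrder t := isOfFinOrder_iff_pow_eq_one.mpr ⟨p, hp.pos, htp⟩
  rw [Algebra.norm_eq_prod_automorphisms]
  rw [← hord, Finset.prod_range]
  refine (Fintype.prod_equiv ((finEquivZPowers hfin).trans
    (IntermediateField.subgroupEquivAlgEquiv (Subgroup.zpowers t)).toEquiv)
    (fun i => (t ^ (i : ℕ)) x) (fun σ => σ x) (fun i => ?_)).symm
  rw [Equiv.trans_apply, finEquivZPowers_apply]
  rfl

end CyclicArtin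

section Local

variable (q : ℕ) [Fact q.Prime] {L : Type*} [Field L] [NumberField L]

/-- The local field `ℚ_q · j(L)` at an embedding `j : L → PadicAlgCl q`. -/
noncomputable def h28_locField (j : L →+* PadicAlgCl q) :
    IntermediateField ℚ_[q] (PadicAlgCl q) :=
  IntermediateField.adjoin ℚ_[q] (Set.range j)

omit [NumberField L] in
theorem h28_range_le_locField (j : L →+* PadicAlgCl q) (x : L) : j x ∈ h28_locField q j :=
  IntermediateField.subset_adjoin _ _ ⟨x, rfl⟩

instance h28_locField_finite (j : L →+* PadicAlgCl q) :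
    FiniteDimensional ℚ_[q] (h28_locField q j) := by
  classical
  let b := Module.finBasis ℚ L
  let S : Set (PadicAlgCl q) := Set.range fun i => j (b i)
  have hS : IntermediateField.adjoin ℚ_[q] (Set.range j) = IntermediateField.adjoin ℚ_[q] S := by
    apply le_antisymm
    · rw [IntermediateField.adjoin_le_iff]
      rintro _ ⟨x, rfl⟩
      let M : Submodule ℚ L :=
        { carrier := {x | j x ∈ IntermediateField.adjoin ℚ_[q] S}
          add_mem' := fun {a b} ha hb => by
            change j (a + b) ∈ IntermediateField.adjoin ℚ_[q] S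
            rw [map_add]
            exact add_mem ha hb
          zero_mem' := by
            change j 0 ∈ IntermediateField.adjoin ℚ_[q] S
            rw [map_zero]
            exact zero_mem _
          smul_mem' := fun c x hx => by
            change j (c • x) ∈ IntermediateField.adjoin ℚ_[q] S
            rw [Rat.smul_def, map_mul, map_ratCast]
            exact mul_mem (SubfieldClass.ratCast_mem _ c) hx }
      have hM : (⊤ : Submodule ℚ L) ≤ M := by
        rw [← b.span_eq, Submodule.span_le]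
        rintro _ ⟨i, rfl⟩
        exact IntermediateField.subset_adjoin _ _ ⟨i, rfl⟩
      exact hM (Submodule.mem_top (x := x))
    · apply IntermediateField.adjoin.mono
      rintro _ ⟨i, rfl⟩
      exact ⟨b i, rfl⟩
  have hfin : Finite S := Set.finite_range _
  rw [h28_locField, hS]
  exact IntermediateField.finiteDimensional_adjoin fun x _ => Algebra.IsIntegral.isIntegral x

omit [NumberField L] in
/-- The stabiliser of `j` is the fixing subgroup of the local field. -/
theorem h28_stab_iff (j : L →+* PadicAlgCl q) (τ : PadicAlgCl q ≃ₐ[ℚ_[q]] PadicAlgCl q) :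
    (∀ x, τ (j x) = j x) ↔ τ ∈ (h28_locField q j).fixingSubgroup := by
  rw [IntermediateField.mem_fixingSubgroup_iff]
  constructor
  · intro h
    have hle : h28_locField q j ≤ h28_fixK τ := by
      rw [h28_locField, IntermediateField.adjoin_le_iff]
      rintro _ ⟨x, rfl⟩
      exact (h28_mem_fixK τ _).mpr (h x)
    intro x hx
    exact (h28_mem_fixK τ x).mp (hle hx)
  · intro h x
    exact h _ (h28_range_le_locField q j x)

/-- The units of the local field at `j`, as a subgroup of `(PadicAlgCl q)ˣ`. -/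
def h28_locU (j : L →+* PadicAlgCl q) : Subgroup (PadicAlgCl q)ˣ where
  carrier := {u | ∀ τ : PadicAlgCl q ≃ₐ[ℚ_[q]] PadicAlgCl q, (∀ x, τ (j x) = j x) → τ • u = u}
  one_mem' := fun τ _ => smul_one τ
  mul_mem' := fun {a b} ha hb τ hτ => by rw [smul_mul', ha τ hτ, hb τ hτ]
  inv_mem' := fun {a} ha τ hτ => by rw [smul_inv', ha τ hτ]

omit [NumberField L] in
theorem h28_mem_locU (j : L →+* PadicAlgCl q) (u : (PadicAlgCl q)ˣ) :
    u ∈ h28_locU q j ↔ (u : PadicAlgCl q) ∈ h28_locField q j := by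
  have hgal : IntermediateField.fixedField (h28_locField q j).fixingSubgroup = h28_locField q j :=
    InfiniteGalois.fixedField_fixingSubgroup _
  constructor
  · intro h
    rw [← hgal, IntermediateField.mem_fixedField_iff]
    intro τ hτ
    have := h τ ((h28_stab_iff q j τ).mpr hτ)
    exact congrArg Units.val this
  · intro h τ hτ
    rw [← hgal, IntermediateField.mem_fixedField_iff] at h
    exact Units.ext (h τ ((h28_stab_iff q j τ).mp hτ))

end Local

section Restrict

variable (q : ℕ) [Fact q.Prime] {L : Type*} [Field L] (j : L →+* PadicAlgCl q)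
  (σ : L ≃+* L) (τ₀ : PadicAlgCl q ≃ₐ[ℚ_[q]] PadicAlgCl q) (hτ₀ : ∀ x, τ₀ (j x) = j (σ x))

include hτ₀ in
theorem h28_locField_map :
    (h28_locField q j).map (τ₀ : PadicAlgCl q →ₐ[ℚ_[q]] PadicAlgCl q) = h28_locField q j := by
  rw [h28_locField, IntermediateField.adjoin_map]
  congr 1
  ext y
  constructor
  · rintro ⟨_, ⟨x, rfl⟩, rfl⟩
    exact ⟨σ x, (hτ₀ x).symm⟩
  · rintro ⟨x, rfl⟩
    refine ⟨j (σ.symm x), ⟨_, rfl⟩, ?_⟩
    have := hτ₀ (σ.symm x)
    rw [RingEquiv.apply_symm_apply] at this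
    exact this

/-- The restriction of `τ₀` to the local field at `j`. -/
noncomputable def h28_locRes : h28_locField q j ≃ₐ[ℚ_[q]] h28_locField q j :=
  ((h28_locField q j).equivMap (τ₀ : PadicAlgCl q →ₐ[ℚ_[q]] PadicAlgCl q)).trans
    (IntermediateField.equivOfEq (h28_locField_map q j σ τ₀ hτ₀))

theorem h28_locRes_coe (x : h28_locField q j) :
    ((h28_locRes q j σ τ₀ hτ₀ x : h28_locField q j) : PadicAlgCl q) = τ₀ x := rfl

theorem h28_locRes_pow_coe (k : ℕ) (x : h28_locField q j) :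
    ((((h28_locRes q j σ τ₀ hτ₀) ^ k) x : h28_locField q j) : PadicAlgCl q) = (τ₀ ^ k) x := by
  induction k generalizing x with
  | zero => rfl
  | succ k ih =>
    rw [pow_succ, pow_succ, AlgEquiv.mul_apply, AlgEquiv.mul_apply, ih, h28_locRes_coe]

include hτ₀ in
theorem h28_pow_apply_emb (k : ℕ) (x : L) : (τ₀ ^ k) (j x) = j ((σ ^ k) x) := by
  induction k generalizing x with
  | zero => rfl
  | succ k ih =>
    rw [pow_succ, pow_succ, AlgEquiv.mul_apply, RingAut.mul_apply, hτ₀, ih]

theorem h28_locRes_pow_eq_one {p : ℕ} (hσp : σ ^ p = 1) : (h28_locRes q j σ τ₀ hτ₀) ^ p = 1 := by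
  have h1 : τ₀ ^ p ∈ (h28_locField q j).fixingSubgroup := by
    rw [← h28_stab_iff]
    intro x
    rw [h28_pow_apply_emb q j σ τ₀ hτ₀, hσp, RingAut.one_apply]
  rw [IntermediateField.mem_fixingSubgroup_iff] at h1
  ext x
  rw [h28_locRes_pow_coe, AlgEquiv.one_apply]
  exact h1 _ x.2

theorem h28_locRes_ne_one (hσ1 : σ ≠ 1) : h28_locRes q j σ τ₀ hτ₀ ≠ 1 := by
  intro h
  apply hσ1
  ext x
  apply j.injective
  have := congrArg (fun f : h28_locField q j ≃ₐ[ℚ_[q]] h28_locField q j =>
    ((f ⟨j x, h28_range_le_locField q j x⟩ : h28_locField q j) : PadicAlgCl q)) h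
  simp only [h28_locRes_coe, AlgEquiv.one_apply] at this
  rw [RingAut.one_apply, ← hτ₀, this]

end Restrict

section LocalIndex

variable (q : ℕ) [Fact q.Prime] {L : Type*} [Field L] [NumberField L] (j : L →+* PadicAlgCl q)
  (σ : L ≃+* L) (τ₀ : PadicAlgCl q ≃ₐ[ℚ_[q]] PadicAlgCl q) (hτ₀ : ∀ x, τ₀ (j x) = j (σ x))

omit [NumberField L] in
theorem h28_coe_mN (p : ℕ) (u : (PadicAlgCl q)ˣ) :
    ((h92_mN τ₀ p u : (PadicAlgCl q)ˣ) : PadicAlgCl q)
      = ∏ k ∈ range p, (τ₀ ^ k) (u : PadicAlgCl q) := by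
  rw [h92_mN_apply, Units.coe_prod]
  rfl

omit [NumberField L] in
theorem h28_coe_mD (u : (PadicAlgCl q)ˣ) :
    ((h92_mD τ₀ u : (PadicAlgCl q)ˣ) : PadicAlgCl q)
      = τ₀ (u : PadicAlgCl q) / (u : PadicAlgCl q) := by
  rw [h92_mD_apply, Units.val_div_eq_div_val]
  rfl

/-- The units of the local field at `j` inside `(PadicAlgCl q)ˣ`. -/
noncomputable def h28_locUnitsHom : (h28_locField q j)ˣ →* (PadicAlgCl q)ˣ :=
  Units.map ((h28_locField q j).val : h28_locField q j →* PadicAlgCl q)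

omit [NumberField L] in
theorem h28_locUnitsHom_coe (u : (h28_locField q j)ˣ) :
    ((h28_locUnitsHom q j u : (PadicAlgCl q)ˣ) : PadicAlgCl q)
      = ((u : h28_locField q j) : PadicAlgCl q) := rfl

omit [NumberField L] in
theorem h28_coe_prod_locRes (p : ℕ) (e : h28_locField q j) :
    ((∏ k ∈ range p, ((h28_locRes q j σ τ₀ hτ₀) ^ k) e : h28_locField q j) : PadicAlgCl q)
      = ∏ k ∈ range p, (τ₀ ^ k) (e : PadicAlgCl q) := by
  rw [← IntermediateField.coe_val, map_prod]
  refine Finset.prod_congr rfl fun k _ => ?_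
  rw [IntermediateField.coe_val, h28_locRes_pow_coe]

include hτ₀ in
/-- Hilbert 90 for the local field at `j`, in ambient form. -/
theorem h28_loc_h90 {p : ℕ} (hp : p.Prime) (hσp : σ ^ p = 1) (hσ1 : σ ≠ 1) :
    ∀ x ∈ h28_locU q j, h92_mN τ₀ p x = 1 → ∃ y ∈ h28_locU q j, x = h92_mD τ₀ y := by
  intro x hx hN
  have htp := h28_locRes_pow_eq_one q j σ τ₀ hτ₀ hσp
  have ht1 := h28_locRes_ne_one q j σ τ₀ hτ₀ hσ1
  let e : h28_locField q j := ⟨x, (h28_mem_locU q j x).mp hx⟩
  have hnorm : Algebra.norm (h28_fixK (h28_locRes q j σ τ₀ hτ₀)) e = 1 := by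
    apply (algebraMap (h28_fixK (h28_locRes q j σ τ₀ hτ₀)) (h28_locField q j)).injective
    rw [h28_fixK_norm hp _ htp ht1, map_one]
    apply Subtype.ext
    rw [h28_coe_prod_locRes, ← h28_coe_mN, hN]
    rfl
  obtain ⟨y, hy⟩ := groupCohomology.exists_div_of_norm_eq_one
    (g := h28_fixK_gen (h28_locRes q j σ τ₀ hτ₀)) (h28_fixK_gen_zpowers _) hnorm
  have hy' : ((y : h28_locField q j) : PadicAlgCl q)
      / τ₀ ((y : h28_locField q j) : PadicAlgCl q) = (x : PadicAlgCl q) := by
    have := congrArg (fun z : h28_locField q j => (z : PadicAlgCl q)) hy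
    exact this
  refine ⟨h28_locUnitsHom q j y⁻¹, (h28_mem_locU q j _).mpr ?_, ?_⟩
  · rw [h28_locUnitsHom_coe]
    exact Subtype.coe_prop _
  · apply Units.ext
    rw [h28_coe_mD, h28_locUnitsHom_coe, ← hy']
    have hinv : (((y⁻¹ : (h28_locField q j)ˣ) : h28_locField q j) : PadicAlgCl q)
        = (((y : h28_locField q j) : PadicAlgCl q))⁻¹ := by
      rw [Units.val_inv_eq_inv_val]
      rfl
    rw [hinv, map_inv₀, div_inv_eq_mul, div_eq_mul_inv, mul_comm]

include hτ₀ in
/-- The norm index of the local field at `j`, in ambient form, from the local class field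
axiom `hLOC` (cyclic norm index theorem for finite extensions of `ℚ_q`). -/
theorem h28_loc_index {p : ℕ} (hp : p.Prime) (hσp : σ ^ p = 1) (hσ1 : σ ≠ 1)
    (hLOC : ∀ (K E : Type) [Field K] [Field E] [Algebra ℚ_[q] K] [Algebra ℚ_[q] E] [Algebra K E]
      [IsScalarTower ℚ_[q] K E] [FiniteDimensional ℚ_[q] E] [IsGalois K E]
      [IsCyclic (E ≃ₐ[K] E)],
      (Units.map (Algebra.norm K : E →* K)).range.index = Module.finrank K E) :
    h92_hq (h92_mD τ₀) (h92_mN τ₀ p) (h28_locU q j) = p := by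
  have htp := h28_locRes_pow_eq_one q j σ τ₀ hτ₀ hσp
  have ht1 := h28_locRes_ne_one q j σ τ₀ hτ₀ hσ1
  have hidx := hLOC (h28_fixK (h28_locRes q j σ τ₀ hτ₀)) (h28_locField q j)
  rw [h28_fixK_finrank hp _ htp ht1] at hidx
  let ιK : (h28_fixK (h28_locRes q j σ τ₀ hτ₀))ˣ →* (PadicAlgCl q)ˣ :=
    (h28_locUnitsHom q j).comp (Units.map
      (algebraMap (h28_fixK (h28_locRes q j σ τ₀ hτ₀)) (h28_locField q j) :
        h28_fixK (h28_locRes q j σ τ₀ hτ₀) →* h28_locField q j))
  have hιK : ∀ u : (h28_fixK (h28_locRes q j σ τ₀ hτ₀))ˣ, ((ιK u : (PadicAlgCl q)ˣ) : PadicAlgCl q)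
      = (((u : h28_fixK (h28_locRes q j σ τ₀ hτ₀)) : h28_locField q j) : PadicAlgCl q) :=
    fun u => rfl
  have hinj : Function.Injective ιK := by
    intro u v huv
    have := congrArg (fun z : (PadicAlgCl q)ˣ => (z : PadicAlgCl q)) huv
    simp only [hιK] at this
    exact Units.ext (Subtype.ext (Subtype.ext this))
  have h1 : ιK.range = h28_locU q j ⊓ (h92_mD τ₀).ker := by
    ext u
    rw [MonoidHom.mem_range, Subgroup.mem_inf, h28_mem_locU, MonoidHom.mem_ker]
    constructor
    · rintro ⟨k, rfl⟩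
      refine ⟨by rw [hιK]; exact Subtype.coe_prop _, ?_⟩
      apply Units.ext
      rw [h28_coe_mD, hιK, Units.val_one]
      have hk : h28_locRes q j σ τ₀ hτ₀ ((k : h28_fixK (h28_locRes q j σ τ₀ hτ₀)) : h28_locField q j)
          = ((k : h28_fixK (h28_locRes q j σ τ₀ hτ₀)) : h28_locField q j) :=
        (h28_mem_fixK _ _).mp (Subtype.coe_prop _)
      have hk' := congrArg (fun z : h28_locField q j => (z : PadicAlgCl q)) hk
      simp only [h28_locRes_coe] at hk'
      rw [hk']
      exact div_self (by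
        intro h0
        have : ((k : h28_fixK (h28_locRes q j σ τ₀ hτ₀)) : h28_locField q j) = 0 :=
          Subtype.ext h0
        have h00 : (k : h28_fixK (h28_locRes q j σ τ₀ hτ₀)) = 0 := Subtype.ext this
        exact k.ne_zero h00)
    · rintro ⟨huE, huD⟩
      have hfix : τ₀ (u : PadicAlgCl q) = (u : PadicAlgCl q) := by
        have := congrArg (fun z : (PadicAlgCl q)ˣ => (z : PadicAlgCl q)) huD
        simp only [h28_coe_mD, Units.val_one] at this
        exact (div_eq_one_iff_eq u.ne_zero).mp this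
      let x : h28_locField q j := ⟨u, huE⟩
      have hx : x ∈ h28_fixK (h28_locRes q j σ τ₀ hτ₀) := by
        rw [h28_mem_fixK]
        apply Subtype.ext
        rw [h28_locRes_coe]
        exact hfix
      have hx0 : (⟨x, hx⟩ : h28_fixK (h28_locRes q j σ τ₀ hτ₀)) ≠ 0 := by
        intro h0
        have h1 : x = 0 := congrArg Subtype.val h0
        have h2 : (u : PadicAlgCl q) = 0 := congrArg Subtype.val h1
        exact u.ne_zero h2
      exact ⟨Units.mk0 ⟨x, hx⟩ hx0, Units.ext rfl⟩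
  have h2 : (Units.map (Algebra.norm (h28_fixK (h28_locRes q j σ τ₀ hτ₀)) :
        h28_locField q j →* h28_fixK (h28_locRes q j σ τ₀ hτ₀))).range.map ιK
      = (h28_locU q j).map (h92_mN τ₀ p) := by
    have hkey : ∀ e : (h28_locField q j)ˣ,
        ιK (Units.map (Algebra.norm (h28_fixK (h28_locRes q j σ τ₀ hτ₀)) :
          h28_locField q j →* h28_fixK (h28_locRes q j σ τ₀ hτ₀)) e)
        = h92_mN τ₀ p (h28_locUnitsHom q j e) := by
      intro e
      apply Units.ext
      rw [hιK, h28_coe_mN, h28_locUnitsHom_coe, ← h28_coe_prod_locRes q j σ τ₀ hτ₀,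
        ← h28_fixK_norm hp _ htp ht1]
      rfl
    ext u
    rw [Subgroup.mem_map, Subgroup.mem_map]
    constructor
    · rintro ⟨_, ⟨e, rfl⟩, rfl⟩
      refine ⟨h28_locUnitsHom q j e, (h28_mem_locU q j _).mpr ?_, (hkey e).symm⟩
      rw [h28_locUnitsHom_coe]
      exact Subtype.coe_prop _
    · rintro ⟨v, hv, rfl⟩
      have hvE := (h28_mem_locU q j v).mp hv
      have hv0 : (⟨v, hvE⟩ : h28_locField q j) ≠ 0 := by
        intro h0
        exact v.ne_zero (congrArg Subtype.val h0)
      refine ⟨_, ⟨Units.mk0 ⟨v, hvE⟩ hv0, rfl⟩, ?_⟩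
      rw [hkey]
      congr 1
      exact Units.ext rfl
  rw [h92_hq_def, ← h1, ← h2, MonoidHom.range_eq_map ιK,
    Subgroup.relIndex_map_map_of_injective _ _ hinj, Subgroup.relIndex_top_right, hidx]

end LocalIndex

section Global

variable (q : ℕ) [Fact q.Prime] (L : Type*) [Field L]

/-- The action of `Gal(PadicAlgCl q / ℚ_q)` on the embeddings `L → PadicAlgCl q`
(by composition).  Not an instance: use `attribute [local instance]` or `letI`. -/
@[reducible] noncomputable def h28_embAction :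
    MulAction (PadicAlgCl q ≃ₐ[ℚ_[q]] PadicAlgCl q) (L →+* PadicAlgCl q) where
  smul τ j := (τ : PadicAlgCl q →+* PadicAlgCl q).comp j
  one_smul j := by ext; rfl
  mul_smul τ τ' j := by ext; rfl

/-- Composition with an automorphism of `L`, as a permutation of the embeddings. -/
noncomputable def h28_embPerm (σ : L ≃+* L) : Equiv.Perm (L →+* PadicAlgCl q) where
  toFun j := j.comp (σ : L →+* L)
  invFun j := j.comp (σ.symm : L →+* L)
  left_inv j := by ext x; simp
  right_inv j := by ext x; simp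

variable {L}

theorem h28_embPerm_apply (σ : L ≃+* L) (j : L →+* PadicAlgCl q) (x : L) :
    h28_embPerm q L σ j x = j (σ x) := rfl

attribute [local instance] h28_embAction

theorem h28_embAction_apply (τ : PadicAlgCl q ≃ₐ[ℚ_[q]] PadicAlgCl q)
    (j : L →+* PadicAlgCl q) (x : L) : (τ • j) x = τ (j x) := rfl

theorem h28_embPerm_comm (σ : L ≃+* L) (τ : PadicAlgCl q ≃ₐ[ℚ_[q]] PadicAlgCl q)
    (j : L →+* PadicAlgCl q) : h28_embPerm q L σ (τ • j) = τ • h28_embPerm q L σ j := rfl

theorem h28_embPerm_pow_apply (σ : L ≃+* L) (k : ℕ) (j : L →+* PadicAlgCl q) (x : L) :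
    ((h28_embPerm q L σ) ^ k) j x = j ((σ ^ k) x) := by
  induction k generalizing j x with
  | zero => rfl
  | succ k ih =>
    rw [pow_succ, Equiv.Perm.mul_apply, ih, h28_embPerm_apply, pow_succ', RingAut.mul_apply]

theorem h28_embPerm_pow_eq_one (σ : L ≃+* L) {p : ℕ} (hσp : σ ^ p = 1) :
    (h28_embPerm q L σ) ^ p = 1 := by
  ext j x
  rw [h28_embPerm_pow_apply, hσp]
  rfl

theorem h28_fix_eq_locU (j : L →+* PadicAlgCl q) :
    h28_fix (PadicAlgCl q ≃ₐ[ℚ_[q]] PadicAlgCl q) (PadicAlgCl q)ˣ j = h28_locU q j := by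
  ext u
  constructor
  · intro h τ hτ
    exact h τ (RingHom.ext hτ)
  · intro h τ hτ
    exact h τ (fun x => congrArg (fun f : L →+* PadicAlgCl q => f x) hτ)

/-- **The semi-local module `J_q(L) = (L ⊗ ℚ_q)ˣ`** of a number field `L` with an automorphism `σ`
of prime order `p`: `ker N = D J_q(L)` (Hilbert 90) and
`[J_q(L)^σ : N J_q(L)] = p ^ (number of σ-stable Galois orbits of embeddings)`,
given the local class field axiom `hLOC`. -/
theorem h28_Jq_semilocal [NumberField L] {p : ℕ} (hp : p.Prime) (σ : L ≃+* L) (hσp : σ ^ p = 1)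
    (hσ1 : σ ≠ 1)
    (hLOC : ∀ (K E : Type) [Field K] [Field E] [Algebra ℚ_[q] K] [Algebra ℚ_[q] E] [Algebra K E]
      [IsScalarTower ℚ_[q] K E] [FiniteDimensional ℚ_[q] E] [IsGalois K E]
      [IsCyclic (E ≃ₐ[K] E)],
      (Units.map (Algebra.norm K : E →* K)).range.index = Module.finrank K E) :
    h92_hq (h28_sN (PadicAlgCl q)ˣ (h28_embPerm q L σ) p) (h28_sD (PadicAlgCl q)ˣ (h28_embPerm q L σ))
        (h28_eqv (PadicAlgCl q ≃ₐ[ℚ_[q]] PadicAlgCl q) (L →+* PadicAlgCl q) (PadicAlgCl q)ˣ) = 1 ∧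
    h92_hq (h28_sD (PadicAlgCl q)ˣ (h28_embPerm q L σ)) (h28_sN (PadicAlgCl q)ˣ (h28_embPerm q L σ) p)
        (h28_eqv (PadicAlgCl q ≃ₐ[ℚ_[q]] PadicAlgCl q) (L →+* PadicAlgCl q) (PadicAlgCl q)ˣ)
      = p ^ Nat.card {O : MulAction.orbitRel.Quotient (PadicAlgCl q ≃ₐ[ℚ_[q]] PadicAlgCl q)
          (L →+* PadicAlgCl q) //
            h28_orbMap (h28_embPerm q L σ) (h28_embPerm_comm q σ) O = O} := by
  have hsp := h28_embPerm_pow_eq_one q σ hσp
  constructor
  · refine h28_semiloc_h90 hp (h28_embPerm q L σ) (h28_embPerm_comm q σ) hsp ?_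
    intro j τ₀ hj
    rw [h28_fix_eq_locU]
    exact h28_loc_h90 q j σ τ₀ (fun x => (congrArg (fun f : L →+* PadicAlgCl q => f x) hj).symm)
      hp hσp hσ1
  · refine h28_semiloc_index hp (h28_embPerm q L σ) (h28_embPerm_comm q σ) hsp p ?_
    intro j τ₀ hj
    rw [h28_fix_eq_locU]
    exact h28_loc_index q j σ τ₀ (fun x => (congrArg (fun f : L →+* PadicAlgCl q => f x) hj).symm)
      hp hσp hσ1 hLOC

end Global

end Fermat.Agent.S55
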