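import Fermat.Agent.S55.h57_LocalLattice

set_option autoImplicit false
set_option linter.unusedSectionVars false

/-!
# Cohomological triviality of `1 + Λ_N` for a normal-basis lattice (S55, block LOC-AXIOM)

`L/K` is a finite Galois extension of finite extensions of `ℚ_q` with group `G`, and `B` is a
`ℚ_q`-basis of `L` indexed by `ι × G` with `B (i, τ) = τ (B (i, 1))` (a normal-basis lattice),
all of whose vectors have spectral norm `≤ 1`.  With `a` the constant of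
`h57_exists_coord_bound` and `Λ_m = h57_Lam q L B m`:

* `h57_norm_surj`: for `N ≥ a + 1`, every `G`-invariant `u ∈ 1 + Λ_N` is `∏ τ, τ w` with
  `w ∈ 1 + Λ_N`;
* `h57_h90`: for `G = ⟨σ⟩` and `N ≥ 2 a + 1`, every `u ∈ 1 + Λ_N` with `∏ τ, τ u = 1` is
  `σ w / w` with `w ∈ 1 + Λ_N`.
-/

namespace Fermat.Agent.S55

section Galois

variable (q : ℕ) [Fact q.Prime] (K L : Type*) [Field K] [Field L] [Algebra ℚ_[q] K]
  [Algebra ℚ_[q] L] [Algebra K L] [IsScalarTower ℚ_[q] K L] [FiniteDimensional ℚ_[q] L]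
  [FiniteDimensional K L]

/-- Galois automorphisms preserve the spectral norm. -/
theorem h57_S_gal (τ : L ≃ₐ[K] L) (x : L) : h57_S q L (τ x) = h57_S q L x :=
  h57_S_equiv q L (τ.restrictScalars ℚ_[q]) x

/-- Galois automorphisms are `ℚ_q`-linear. -/
theorem h57_gal_smul (τ : L ≃ₐ[K] L) (c : ℚ_[q]) (x : L) : τ (c • x) = c • τ x :=
  map_smul (τ.restrictScalars ℚ_[q]) c x

/-- `S(∏ (1 + x_i) - 1 - ∑ x_i) ≤ ε²` when all `S(x_i) ≤ ε ≤ 1`. -/
theorem h57_prod_one_add {α : Type*} (s : Finset α) (x : α → L) {ε : ℝ} (hε0 : 0 ≤ ε)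
    (hε1 : ε ≤ 1) (hx : ∀ i ∈ s, h57_S q L (x i) ≤ ε) :
    h57_S q L (∏ i ∈ s, (1 + x i) - 1 - ∑ i ∈ s, x i) ≤ ε ^ 2 := by
  classical
  induction s using Finset.induction_on with
  | empty => simp [h57_S_zero]; positivity
  | insert b s hb ih =>
    have hxb : h57_S q L (x b) ≤ ε := hx b (Finset.mem_insert_self b s)
    have hxs : ∀ i ∈ s, h57_S q L (x i) ≤ ε := fun i hi => hx i (Finset.mem_insert_of_mem hi)
    have ih' := ih hxs
    have hsum : h57_S q L (∑ i ∈ s, x i) ≤ ε := h57_S_sum_le q L s x hε0 hxs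
    have hε2 : ε ^ 2 ≤ ε := by nlinarith
    rw [Finset.prod_insert hb, Finset.sum_insert hb]
    have e : (1 + x b) * ∏ i ∈ s, (1 + x i) - 1 - (x b + ∑ i ∈ s, x i)
        = (∏ i ∈ s, (1 + x i) - 1 - ∑ i ∈ s, x i)
          + x b * ((∏ i ∈ s, (1 + x i) - 1 - ∑ i ∈ s, x i) + ∑ i ∈ s, x i) := by ring
    rw [e]
    apply h57_S_add_le_of q L ih'
    rw [h57_S_mul]
    have h2 : h57_S q L ((∏ i ∈ s, (1 + x i) - 1 - ∑ i ∈ s, x i) + ∑ i ∈ s, x i) ≤ ε :=
      h57_S_add_le_of q L (ih'.trans hε2) hsum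
    calc h57_S q L (x b) * h57_S q L (_ + ∑ i ∈ s, x i) ≤ ε * ε :=
          mul_le_mul hxb h2 (h57_S_nonneg q L _) hε0
      _ = ε ^ 2 := by ring

/-- `S(∏ x_i - 1) ≤ ε` when all `S(x_i - 1) ≤ ε ≤ 1`. -/
theorem h57_prod_sub_one {α : Type*} (s : Finset α) (x : α → L) {ε : ℝ} (hε0 : 0 ≤ ε)
    (hε1 : ε ≤ 1) (hx : ∀ i ∈ s, h57_S q L (x i - 1) ≤ ε) :
    h57_S q L (∏ i ∈ s, x i - 1) ≤ ε := by
  classical
  induction s using Finset.induction_on with
  | empty => simpa [h57_S_zero] using hε0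
  | insert b s hb ih =>
    have hxb : h57_S q L (x b - 1) ≤ ε := hx b (Finset.mem_insert_self b s)
    have ih' := ih fun i hi => hx i (Finset.mem_insert_of_mem hi)
    rw [Finset.prod_insert hb]
    have e : x b * ∏ i ∈ s, x i - 1 = x b * (∏ i ∈ s, x i - 1) + (x b - 1) := by ring
    rw [e]
    apply h57_S_add_le_of q L _ hxb
    rw [h57_S_mul]
    have hb1 : h57_S q L (x b) ≤ 1 := by
      have : x b = (x b - 1) + 1 := by ring
      rw [this]
      exact h57_S_add_le_of q L (hxb.trans hε1) (h57_S_one q L).le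
    calc h57_S q L (x b) * h57_S q L (∏ i ∈ s, x i - 1) ≤ 1 * ε :=
          mul_le_mul hb1 ih' (h57_S_nonneg q L _) zero_le_one
      _ = ε := one_mul ε

section NormalLattice

variable {ι : Type*} [Fintype ι] (B : Module.Basis (ι × (L ≃ₐ[K] L)) ℚ_[q] L)

/-- Coordinates of a Galois conjugate: `(τ y)_(i, ρ) = y_(i, τ⁻¹ ρ)`. -/
theorem h57_repr_gal (hB1 : ∀ (i : ι) (τ : L ≃ₐ[K] L), B (i, τ) = τ (B (i, 1)))
    (τ : L ≃ₐ[K] L) (y : L) (i : ι) (ρ : L ≃ₐ[K] L) :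
    B.repr (τ y) (i, ρ) = B.repr y (i, τ⁻¹ * ρ) := by
  classical
  have h : τ y = ∑ j, B.repr y j • B (j.1, τ * j.2) := by
    conv_lhs => rw [← B.sum_repr y]
    rw [map_sum]
    refine Finset.sum_congr rfl fun j _ => ?_
    rw [h57_gal_smul, hB1 j.1 j.2, hB1 j.1 (τ * j.2), AlgEquiv.mul_apply]
  rw [h, map_sum, Finsupp.finsetSum_apply, Finset.sum_eq_single (i, τ⁻¹ * ρ)]
  · rw [map_smul, Module.Basis.repr_self, Finsupp.smul_apply, mul_inv_cancel_left,
      Finsupp.single_eq_same, smul_eq_mul, mul_one]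
  · intro j _ hj
    rw [map_smul, Module.Basis.repr_self, Finsupp.smul_apply, Finsupp.single_apply, if_neg,
      smul_zero]
    intro heq
    apply hj
    have h1 : j.1 = i := congrArg Prod.fst heq
    have h2 : τ * j.2 = ρ := congrArg Prod.snd heq
    ext
    · exact h1
    · rw [← h2, inv_mul_cancel_left]
  · intro hni
    exact absurd (Finset.mem_univ _) hni

/-- The lattices `Λ_m` are Galois stable. -/
theorem h57_gal_mem_Lam (hB1 : ∀ (i : ι) (τ : L ≃ₐ[K] L), B (i, τ) = τ (B (i, 1)))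
    (τ : L ≃ₐ[K] L) {m : ℕ} {y : L} (hy : y ∈ h57_Lam q L B m) : τ y ∈ h57_Lam q L B m := by
  rintro ⟨i, ρ⟩
  rw [h57_repr_gal q K L B hB1]
  exact hy _

/-- Coordinates of a Galois invariant vector are constant along `G`. -/
theorem h57_repr_of_inv (hB1 : ∀ (i : ι) (τ : L ≃ₐ[K] L), B (i, τ) = τ (B (i, 1)))
    {y : L} (hy : ∀ τ : L ≃ₐ[K] L, τ y = y) (i : ι) (τ : L ≃ₐ[K] L) :
    B.repr y (i, τ) = B.repr y (i, 1) := by
  have := h57_repr_gal q K L B hB1 τ y i τ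
  rwa [hy τ, inv_mul_cancel] at this

/-- A Galois invariant vector of `Λ_m` is the trace of a vector of `Λ_m`. -/
theorem h57_exists_trace (hB1 : ∀ (i : ι) (τ : L ≃ₐ[K] L), B (i, τ) = τ (B (i, 1)))
    {m : ℕ} {y : L} (hym : y ∈ h57_Lam q L B m) (hy : ∀ τ : L ≃ₐ[K] L, τ y = y) :
    ∃ z : L, z ∈ h57_Lam q L B m ∧ ∑ τ : L ≃ₐ[K] L, τ z = y := by
  classical
  refine ⟨∑ i, B.repr y (i, 1) • B (i, 1), ?_, ?_⟩
  · apply AddSubgroup.sum_mem
    intro i _
    exact h57_smul_basis_mem_Lam q L B (hym (i, 1)) (i, 1)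
  · conv_rhs => rw [← B.sum_repr y]
    rw [Fintype.sum_prod_type, Finset.sum_comm]
    refine Finset.sum_congr rfl fun τ _ => ?_
    rw [map_sum]
    refine Finset.sum_congr rfl fun i _ => ?_
    rw [h57_gal_smul, ← hB1 i τ, h57_repr_of_inv q K L B hB1 hy i τ]

/-- The coordinates of the trace `∑ τ, τ y` are the sums of the coordinates of `y` along `G`. -/
theorem h57_repr_trace (hB1 : ∀ (i : ι) (τ : L ≃ₐ[K] L), B (i, τ) = τ (B (i, 1)))
    (y : L) (i : ι) (ρ : L ≃ₐ[K] L) :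
    B.repr (∑ τ : L ≃ₐ[K] L, τ y) (i, ρ) = ∑ τ : L ≃ₐ[K] L, B.repr y (i, τ) := by
  rw [map_sum, Finsupp.finsetSum_apply]
  simp_rw [h57_repr_gal q K L B hB1]
  exact Fintype.sum_equiv ((Equiv.inv _).trans (Equiv.mulRight ρ)) _ _ (fun τ => rfl)

/-! ### The multiplicative groups `1 + Λ_m` -/

variable (hB2 : ∀ j, h57_S q L (B j) ≤ 1) (a : ℕ)
  (ha : ∀ (y : L) (j : ι × (L ≃ₐ[K] L)), ‖B.repr y j‖ ≤ (q : ℝ) ^ a * h57_S q L y)

include hB2 in
theorem h57_S_sub_one_lt {m : ℕ} (hm : 1 ≤ m) {x : L} (hx : x - 1 ∈ h57_Lam q L B m) :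
    h57_S q L (x - 1) < 1 := by
  have h1 := h57_S_le_of_mem_Lam q L B hB2 hx
  have h2 : h57_r q ^ m ≤ h57_r q ^ 1 := h57_r_pow_anti q hm
  rw [pow_one] at h2
  exact (h1.trans h2).trans_lt (h57_r_lt_one q)

include hB2 in
theorem h57_S_eq_one {m : ℕ} (hm : 1 ≤ m) {x : L} (hx : x - 1 ∈ h57_Lam q L B m) :
    h57_S q L x = 1 := by
  have := h57_S_one_add q L (h57_S_sub_one_lt q K L B hB2 hm hx)
  rwa [add_sub_cancel] at this

include hB2 ha in
/-- `1 + Λ_m` is closed under multiplication (`m ≥ a`). -/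
theorem h57_one_add_mul {m : ℕ} (hm : a ≤ m) {x y : L} (hx : x - 1 ∈ h57_Lam q L B m)
    (hy : y - 1 ∈ h57_Lam q L B m) : x * y - 1 ∈ h57_Lam q L B m := by
  have e : x * y - 1 = (x - 1) + (y - 1) + (x - 1) * (y - 1) := by ring
  rw [e]
  refine add_mem (add_mem hx hy) (h57_mem_Lam_of_S_le q L B ha ?_)
  rw [h57_S_mul]
  calc h57_S q L (x - 1) * h57_S q L (y - 1) ≤ h57_r q ^ m * h57_r q ^ m :=
        mul_le_mul (h57_S_le_of_mem_Lam q L B hB2 hx) (h57_S_le_of_mem_Lam q L B hB2 hy)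
          (h57_S_nonneg q L _) (h57_r_pow_pos q m).le
    _ = h57_r q ^ (m + m) := (pow_add _ _ _).symm
    _ ≤ h57_r q ^ (m + a) := h57_r_pow_anti q (by omega)

include hB2 ha in
/-- `(1 + Λ_N) · Λ_M ⊆ Λ_M` (`N ≥ a`). -/
theorem h57_mul_mem_Lam {N M : ℕ} (hN : a ≤ N) {x t : L} (hx : x - 1 ∈ h57_Lam q L B N)
    (ht : t ∈ h57_Lam q L B M) : x * t ∈ h57_Lam q L B M := by
  have e : x * t = t + (x - 1) * t := by ring
  rw [e]
  refine add_mem ht (h57_mem_Lam_of_S_le q L B ha ?_)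
  rw [h57_S_mul]
  calc h57_S q L (x - 1) * h57_S q L t ≤ h57_r q ^ N * h57_r q ^ M :=
        mul_le_mul (h57_S_le_of_mem_Lam q L B hB2 hx) (h57_S_le_of_mem_Lam q L B hB2 ht)
          (h57_S_nonneg q L _) (h57_r_pow_pos q N).le
    _ = h57_r q ^ (N + M) := (pow_add _ _ _).symm
    _ ≤ h57_r q ^ (M + a) := h57_r_pow_anti q (by omega)

include hB2 ha in
/-- `1 + Λ_m` is closed under inverses (`m ≥ a`, `m ≥ 1`). -/
theorem h57_inv_sub_one {m : ℕ} (hm : a ≤ m) (hm1 : 1 ≤ m) {x : L}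
    (hx : x - 1 ∈ h57_Lam q L B m) : x⁻¹ - 1 ∈ h57_Lam q L B m := by
  have hS : h57_S q L x = 1 := h57_S_eq_one q K L B hB2 hm1 hx
  have hx0 : x ≠ 0 := by
    intro h0
    rw [h0, h57_S_zero] at hS
    exact zero_ne_one hS
  have e : x⁻¹ - 1 = -(x - 1) + (x - 1) * (x - 1) * x⁻¹ := by
    field_simp
    ring
  rw [e]
  refine add_mem (neg_mem hx) (h57_mem_Lam_of_S_le q L B ha ?_)
  rw [h57_S_mul, h57_S_mul, h57_S_inv, hS, inv_one, mul_one]
  calc h57_S q L (x - 1) * h57_S q L (x - 1) ≤ h57_r q ^ m * h57_r q ^ m :=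
        mul_le_mul (h57_S_le_of_mem_Lam q L B hB2 hx) (h57_S_le_of_mem_Lam q L B hB2 hx)
          (h57_S_nonneg q L _) (h57_r_pow_pos q m).le
    _ = h57_r q ^ (m + m) := (pow_add _ _ _).symm
    _ ≤ h57_r q ^ (m + a) := h57_r_pow_anti q (by omega)

/-! ### The two approximation steps -/

include hB2 ha in
/-- One approximation step for the surjectivity of the norm on invariants. -/
theorem h57_step_norm (hB1 : ∀ (i : ι) (τ : L ≃ₐ[K] L), B (i, τ) = τ (B (i, 1)))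
    {m : ℕ} (hm : a + 1 ≤ m) {u : L} (hu : u - 1 ∈ h57_Lam q L B m)
    (hinv : ∀ τ : L ≃ₐ[K] L, τ u = u) :
    ∃ w : L, w - 1 ∈ h57_Lam q L B m ∧
      u / (∏ τ : L ≃ₐ[K] L, τ w) - 1 ∈ h57_Lam q L B (m + 1) := by
  classical
  have hy : ∀ τ : L ≃ₐ[K] L, τ (u - 1) = u - 1 := fun τ => by rw [map_sub, hinv, map_one]
  obtain ⟨z, hz, hsum⟩ := h57_exists_trace q K L B hB1 hu hy
  refine ⟨1 + z, by simpa using hz, ?_⟩
  have hm1 : 1 ≤ m := by omega
  have hSz : ∀ τ : L ≃ₐ[K] L, h57_S q L (τ z) ≤ h57_r q ^ m := fun τ => by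
    rw [h57_S_gal]
    exact h57_S_le_of_mem_Lam q L B hB2 hz
  have hprod : ∏ τ : L ≃ₐ[K] L, τ (1 + z) = ∏ τ : L ≃ₐ[K] L, (1 + τ z) := by
    refine Finset.prod_congr rfl fun τ _ => ?_
    rw [map_add, map_one]
  have hR := h57_prod_one_add q L Finset.univ (fun τ : L ≃ₐ[K] L => τ z)
    (h57_r_pow_pos q m).le (h57_r_pow_le_one q m) (fun τ _ => hSz τ)
  rw [hsum, ← pow_mul] at hR
  rw [hprod]
  set g := ∏ τ : L ≃ₐ[K] L, (1 + τ z) with hg
  have hg1 : h57_S q L (g - 1) < 1 := by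
    have e : g - 1 = (g - 1 - (u - 1)) + (u - 1) := by ring
    rw [e]
    refine lt_of_le_of_lt (h57_S_add_le_of q L (ε := h57_r q ^ m) ?_
      (h57_S_le_of_mem_Lam q L B hB2 hu)) ?_
    · exact hR.trans (h57_r_pow_anti q (by omega))
    · calc h57_r q ^ m ≤ h57_r q ^ 1 := h57_r_pow_anti q hm1
        _ = h57_r q := pow_one _
        _ < 1 := h57_r_lt_one q
  have hSg : h57_S q L g = 1 := by
    have := h57_S_one_add q L hg1
    rwa [add_sub_cancel] at this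
  have hg0 : g ≠ 0 := by
    intro h0
    rw [h0, h57_S_zero] at hSg
    exact zero_ne_one hSg
  have e : u / g - 1 = -(g - 1 - (u - 1)) / g := by
    field_simp
    ring
  rw [e]
  apply h57_mem_Lam_of_S_le q L B ha
  rw [h57_S_div, h57_S_neg, hSg, div_one]
  exact hR.trans (h57_r_pow_anti q (by nlinarith))

include hB2 ha in
/-- One approximation step for Hilbert 90 (`H⁻¹ = 0`). -/
theorem h57_step_h90 (hB1 : ∀ (i : ι) (τ : L ≃ₐ[K] L), B (i, τ) = τ (B (i, 1)))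
    (σ : L ≃ₐ[K] L) (hσ : ∀ τ : L ≃ₐ[K] L, τ ∈ Subgroup.zpowers σ)
    {m : ℕ} (hm : 2 * a + 1 ≤ m) {u : L} (hu : u - 1 ∈ h57_Lam q L B m)
    (hN : ∏ τ : L ≃ₐ[K] L, τ u = 1) :
    ∃ w : L, w - 1 ∈ h57_Lam q L B m ∧ u / (σ w / w) - 1 ∈ h57_Lam q L B (m + 1) := by
  classical
  set y := u - 1 with hy
  have hm1 : 1 ≤ m := by omega
  have hSy0 : h57_S q L y ≤ h57_r q ^ m := h57_S_le_of_mem_Lam q L B hB2 hu
  have hSy : ∀ τ : L ≃ₐ[K] L, h57_S q L (τ y) ≤ h57_r q ^ m := fun τ => by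
    rw [h57_S_gal]
    exact hSy0
  -- the trace of `y` is small
  have hR := h57_prod_one_add q L Finset.univ (fun τ : L ≃ₐ[K] L => τ y)
    (h57_r_pow_pos q m).le (h57_r_pow_le_one q m) (fun τ _ => hSy τ)
  have hprod : ∏ τ : L ≃ₐ[K] L, (1 + τ y) = 1 := by
    have h0 : ∏ τ : L ≃ₐ[K] L, (1 + τ y) = ∏ τ : L ≃ₐ[K] L, τ u := by
      refine Finset.prod_congr rfl fun τ _ => ?_
      rw [hy, map_sub, map_one, add_sub_cancel]
    rw [h0, hN]
  rw [hprod, sub_self, zero_sub, h57_S_neg, ← pow_mul] at hR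
  have hT : ∑ τ : L ≃ₐ[K] L, τ y ∈ h57_Lam q L B (2 * m - a) := by
    apply h57_mem_Lam_of_S_le q L B ha
    exact hR.trans (h57_r_pow_anti q (by omega))
  have hs : ∀ i : ι, ‖∑ τ : L ≃ₐ[K] L, B.repr y (i, τ)‖ ≤ h57_r q ^ (2 * m - a) := fun i => by
    have := hT (i, 1)
    rwa [h57_repr_trace q K L B hB1] at this
  -- exponents
  have hk : ∀ τ : L ≃ₐ[K] L, ∃ k : ℕ, σ ^ k = τ := fun τ => by
    have := hσ τ
    rw [← mem_powers_iff_mem_zpowers] at this
    exact (Submonoid.mem_powers_iff _ _).mp this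
  choose k hk using hk
  let P : (L ≃ₐ[K] L) → L → L := fun τ x => ∑ j ∈ Finset.range (k τ), (σ ^ j) x
  have hP : ∀ (τ : L ≃ₐ[K] L) (x : L), σ (P τ x) - P τ x = τ x - x := by
    intro τ x
    simp only [P]
    rw [map_sum, ← Finset.sum_sub_distrib]
    have h1 : ∀ j : ℕ, σ ((σ ^ j) x) = (σ ^ (j + 1)) x := fun j => by
      rw [pow_succ', AlgEquiv.mul_apply]
    simp_rw [h1]
    rw [Finset.sum_range_sub (fun j => (σ ^ j) x), hk, pow_zero, AlgEquiv.one_apply]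
  have hPmem : ∀ (τ : L ≃ₐ[K] L) (i : ι), P τ (B (i, 1)) ∈ h57_Lam q L B 0 := by
    intro τ i
    apply AddSubgroup.sum_mem
    intro j _
    rw [← hB1 i (σ ^ j)]
    exact h57_basis_mem_Lam q L B _
  set z : L := ∑ j : ι × (L ≃ₐ[K] L), B.repr y j • P j.2 (B (j.1, 1)) with hz
  have hzmem : z ∈ h57_Lam q L B m := by
    apply AddSubgroup.sum_mem
    intro j _
    have := h57_smul_mem_Lam q L B (hu j) (hPmem j.2 j.1)
    rwa [zero_add] at this
  set e : L := ∑ i : ι, (∑ τ : L ≃ₐ[K] L, B.repr y (i, τ)) • B (i, 1) with he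
  have hemem : e ∈ h57_Lam q L B (2 * m - a) := by
    apply AddSubgroup.sum_mem
    intro i _
    exact h57_smul_basis_mem_Lam q L B (hs i) (i, 1)
  have hσz : σ z - z = y - e := by
    have h1 : σ z - z = ∑ j : ι × (L ≃ₐ[K] L), B.repr y j • (B j - B (j.1, 1)) := by
      rw [hz, map_sum, ← Finset.sum_sub_distrib]
      refine Finset.sum_congr rfl fun j _ => ?_
      rw [h57_gal_smul, ← smul_sub, hP, ← hB1 j.1 j.2]
    rw [h1]
    simp_rw [smul_sub]
    rw [Finset.sum_sub_distrib, B.sum_repr y, he, Fintype.sum_prod_type]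
    congr 1
    refine Finset.sum_congr rfl fun i _ => ?_
    rw [Finset.sum_smul]
  -- the candidate
  refine ⟨1 + z, by simpa using hzmem, ?_⟩
  have hSz : h57_S q L z ≤ h57_r q ^ m := h57_S_le_of_mem_Lam q L B hB2 hzmem
  have hw1 : h57_S q L (1 + z) = 1 := by
    apply h57_S_one_add
    calc h57_S q L z ≤ h57_r q ^ m := hSz
      _ ≤ h57_r q ^ 1 := h57_r_pow_anti q hm1
      _ = h57_r q := pow_one _
      _ < 1 := h57_r_lt_one q
  have hw0 : (1 + z) ≠ 0 := by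
    intro h0
    rw [h0, h57_S_zero] at hw1
    exact zero_ne_one hw1
  have hσw1 : h57_S q L (σ (1 + z)) = 1 := by rw [h57_S_gal, hw1]
  have hσw0 : σ (1 + z) ≠ 0 := by
    intro h0
    rw [h0, h57_S_zero] at hσw1
    exact zero_ne_one hσw1
  have hu' : u = 1 + y := by rw [hy]; ring
  have e1 : u / (σ (1 + z) / (1 + z)) - 1 = (e + y * z) / σ (1 + z) := by
    have h2 : u * (1 + z) - σ (1 + z) = e + y * z := by
      rw [map_add, map_one, hu']
      have : σ z = z + (y - e) := by rw [← hσz]; ring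
      rw [this]
      ring
    rw [← h2]
    field_simp
  rw [e1]
  apply h57_mem_Lam_of_S_le q L B ha
  rw [h57_S_div, hσw1, div_one]
  apply h57_S_add_le_of q L
  · exact (h57_S_le_of_mem_Lam q L B hB2 hemem).trans (h57_r_pow_anti q (by omega))
  · rw [h57_S_mul]
    calc h57_S q L y * h57_S q L z ≤ h57_r q ^ m * h57_r q ^ m :=
          mul_le_mul hSy0 hSz (h57_S_nonneg q L _) (h57_r_pow_pos q m).le
      _ = h57_r q ^ (m + m) := (pow_add _ _ _).symm
      _ ≤ h57_r q ^ (m + 1 + a) := h57_r_pow_anti q (by omega)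

/-! ### Successive approximation -/

include hB2 ha in
/-- Abstract successive approximation: if a multiplicative, `1`-Lipschitz map `h` can be
inverted modulo the next lattice at every level, it can be inverted exactly. -/
theorem h57_iterate (h : L → L) (N : ℕ) (hN : a + 1 ≤ N) (Q : L → Prop)
    (hmul : ∀ x y : L, h (x * y) = h x * h y)
    (hlip : ∀ x : L, h57_S q L (x - 1) < 1 → h57_S q L (h x - 1) ≤ h57_S q L (x - 1))
    (hstep : ∀ (k : ℕ) (u : L), u - 1 ∈ h57_Lam q L B (N + k) → Q u →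
      ∃ w : L, w - 1 ∈ h57_Lam q L B (N + k) ∧
        u / h w - 1 ∈ h57_Lam q L B (N + k + 1) ∧ Q (u / h w))
    {u : L} (hu : u - 1 ∈ h57_Lam q L B N) (hQ : Q u) :
    ∃ w : L, w - 1 ∈ h57_Lam q L B N ∧ h w = u := by
  classical
  have hN1 : 1 ≤ N := by omega
  have haN : a ≤ N := by omega
  -- `h` of an element close to `1` has norm `1`
  have hh1 : ∀ x : L, h57_S q L (x - 1) < 1 → h57_S q L (h x) = 1 := by
    intro x hx
    have := h57_S_one_add q L ((hlip x hx).trans_lt hx)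
    rwa [add_sub_cancel] at this
  have hh0 : ∀ x : L, h57_S q L (x - 1) < 1 → h x ≠ 0 := by
    intro x hx h0
    have := hh1 x hx
    rw [h0, h57_S_zero] at this
    exact zero_ne_one this
  have hone : h 1 = 1 := by
    have h1 := hlip 1 (by rw [sub_self, h57_S_zero]; exact zero_lt_one)
    rw [sub_self, h57_S_zero] at h1
    have h2 := le_antisymm h1 (h57_S_nonneg q L _)
    rw [h57_S_eq_zero] at h2
    exact sub_eq_zero.mp h2
  let Inv : ℕ → L × L → Prop := fun k s =>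
    s.1 - 1 ∈ h57_Lam q L B (N + k) ∧ Q s.1 ∧ s.2 - 1 ∈ h57_Lam q L B N ∧ u = h s.2 * s.1
  have hex : ∀ (k : ℕ) (s : L × L), Inv k s →
      ∃ s' : L × L, Inv (k + 1) s' ∧ s'.2 - s.2 ∈ h57_Lam q L B (N + k) := by
    rintro k ⟨uk, pk⟩ ⟨h1, h2, h3, h4⟩
    obtain ⟨w, hw1, hw2, hw3⟩ := hstep k uk h1 h2
    have hwN : w - 1 ∈ h57_Lam q L B N := h57_Lam_anti q L B (Nat.le_add_right N k) hw1
    have hwlt : h57_S q L (w - 1) < 1 := h57_S_sub_one_lt q K L B hB2 hN1 hwN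
    refine ⟨(uk / h w, pk * w), ⟨hw2, hw3, ?_, ?_⟩, ?_⟩
    · exact h57_one_add_mul q K L B hB2 a ha haN h3 hwN
    · show u = h (pk * w) * (uk / h w)
      rw [hmul, h4]
      field_simp [hh0 w hwlt]
    · show pk * w - pk ∈ h57_Lam q L B (N + k)
      have e : pk * w - pk = pk * (w - 1) := by ring
      rw [e]
      exact h57_mul_mem_Lam q K L B hB2 a ha haN h3 hw1
  choose! F hF using hex
  let seq : ℕ → L × L := fun k => Nat.rec (u, 1) (fun k s => F k s) k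
  have hseq0 : seq 0 = (u, 1) := rfl
  have hseqS : ∀ k, seq (k + 1) = F k (seq k) := fun k => rfl
  have hinv : ∀ k, Inv k (seq k) := by
    intro k
    induction k with
    | zero =>
      rw [hseq0]
      refine ⟨hu, hQ, ?_, ?_⟩
      · show (1 : L) - 1 ∈ h57_Lam q L B N
        rw [sub_self]
        exact zero_mem _
      · show u = h 1 * u
        rw [hone, one_mul]
    | succ k ih =>
      rw [hseqS]
      exact (hF k (seq k) ih).1
  have hinc : ∀ k, (seq (k + 1)).2 - (seq k).2 ∈ h57_Lam q L B (N + k) := by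
    intro k
    rw [hseqS]
    exact (hF k (seq k) (hinv k)).2
  obtain ⟨p, hp⟩ := h57_Lam_limit q L B N (fun k => (seq k).2) hinc
  have hp0 : p - 1 ∈ h57_Lam q L B N := by
    have := hp 0
    rwa [hseq0] at this
  refine ⟨p, hp0, ?_⟩
  have key : ∀ k : ℕ, h57_S q L (h p - u) ≤ h57_r q ^ (N + k) := by
    intro k
    obtain ⟨h1, -, h3, h4⟩ := hinv k
    set uk := (seq k).1
    set pk := (seq k).2
    have hpk1 : h57_S q L pk = 1 := h57_S_eq_one q K L B hB2 hN1 h3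
    have hpklt : h57_S q L (pk - 1) < 1 := h57_S_sub_one_lt q K L B hB2 hN1 h3
    have hpk0 : pk ≠ 0 := by
      intro h0
      rw [h0, h57_S_zero] at hpk1
      exact zero_ne_one hpk1
    have hrk : h57_r q ^ (N + k) < 1 :=
      lt_of_le_of_lt (h57_r_pow_anti q (by omega : 1 ≤ N + k))
        (by rw [pow_one]; exact h57_r_lt_one q)
    have ht : h57_S q L (p / pk - 1) ≤ h57_r q ^ (N + k) := by
      have e : p / pk - 1 = (p - pk) / pk := by field_simp
      rw [e, h57_S_div, hpk1, div_one]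
      exact h57_S_le_of_mem_Lam q L B hB2 (hp k)
    have hht : h57_S q L (h (p / pk) - 1) ≤ h57_r q ^ (N + k) :=
      (hlip _ (ht.trans_lt hrk)).trans ht
    have e2 : h p - u = h pk * ((h (p / pk) - 1) - (uk - 1)) := by
      rw [h4]
      have : p = pk * (p / pk) := by field_simp
      conv_lhs => rw [this, hmul]
      ring
    rw [e2, h57_S_mul, hh1 pk hpklt, one_mul]
    exact h57_S_sub_le_of q L hht (h57_S_le_of_mem_Lam q L B hB2 h1)
  have h0 : h57_S q L (h p - u) = 0 :=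
    le_antisymm (h57_le_zero_of_le_pow q N key) (h57_S_nonneg q L _)
  rw [h57_S_eq_zero] at h0
  exact sub_eq_zero.mp h0

/-! ### Cohomological triviality of `1 + Λ_N` -/

include hB2 ha in
/-- `Ĥ⁰(G, 1 + Λ_N) = 0`: every Galois invariant element of `1 + Λ_N` is a norm from
`1 + Λ_N` (`N ≥ a + 1`). -/
theorem h57_norm_surj (hB1 : ∀ (i : ι) (τ : L ≃ₐ[K] L), B (i, τ) = τ (B (i, 1)))
    {N : ℕ} (hN : a + 1 ≤ N) {u : L} (hu : u - 1 ∈ h57_Lam q L B N)
    (hinv : ∀ τ : L ≃ₐ[K] L, τ u = u) :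
    ∃ w : L, w - 1 ∈ h57_Lam q L B N ∧ ∏ τ : L ≃ₐ[K] L, τ w = u := by
  classical
  refine h57_iterate q K L B hB2 a ha (fun x => ∏ τ : L ≃ₐ[K] L, τ x) N hN
    (fun u => ∀ τ : L ≃ₐ[K] L, τ u = u) ?_ ?_ ?_ hu hinv
  · intro x y
    simp only [map_mul, Finset.prod_mul_distrib]
  · intro x hx
    refine h57_prod_sub_one q L Finset.univ (fun τ : L ≃ₐ[K] L => τ x)
      (h57_S_nonneg q L _) hx.le (fun τ _ => ?_)
    have : τ x - 1 = τ (x - 1) := by rw [map_sub, map_one]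
    rw [this, h57_S_gal]
  · intro k u hu hQ
    obtain ⟨w, hw1, hw2⟩ := h57_step_norm q K L B hB2 a ha hB1 (by omega : a + 1 ≤ N + k) hu hQ
    refine ⟨w, hw1, hw2, fun τ' => ?_⟩
    rw [map_div₀, hQ τ', map_prod]
    congr 1
    exact Fintype.prod_equiv (Equiv.mulLeft τ') _ _ (fun τ => rfl)

include hB2 ha in
/-- `Ĥ⁻¹(G, 1 + Λ_N) = 0` for cyclic `G = ⟨σ⟩`: every element of `1 + Λ_N` of norm `1` is
`σ w / w` with `w ∈ 1 + Λ_N` (`N ≥ 2 a + 1`). -/
theorem h57_h90 (hB1 : ∀ (i : ι) (τ : L ≃ₐ[K] L), B (i, τ) = τ (B (i, 1)))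
    (σ : L ≃ₐ[K] L) (hσ : ∀ τ : L ≃ₐ[K] L, τ ∈ Subgroup.zpowers σ)
    {N : ℕ} (hN : 2 * a + 1 ≤ N) {u : L} (hu : u - 1 ∈ h57_Lam q L B N)
    (hnorm : ∏ τ : L ≃ₐ[K] L, τ u = 1) :
    ∃ w : L, w - 1 ∈ h57_Lam q L B N ∧ σ w / w = u := by
  classical
  have hN1 : 1 ≤ N := by omega
  refine h57_iterate q K L B hB2 a ha (fun x => σ x / x) N (by omega)
    (fun u => ∏ τ : L ≃ₐ[K] L, τ u = 1) ?_ ?_ ?_ hu hnorm
  · intro x y
    show σ (x * y) / (x * y) = σ x / x * (σ y / y)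
    rw [map_mul, mul_div_mul_comm]
  · intro x hx
    show h57_S q L (σ x / x - 1) ≤ h57_S q L (x - 1)
    have hS : h57_S q L x = 1 := by
      have := h57_S_one_add q L hx
      rwa [add_sub_cancel] at this
    have hx0 : x ≠ 0 := by
      intro h0
      rw [h0, h57_S_zero] at hS
      exact zero_ne_one hS
    have e : σ x / x - 1 = (σ (x - 1) - (x - 1)) / x := by
      rw [map_sub, map_one]
      field_simp
      ring
    rw [e, h57_S_div, hS, div_one]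
    exact h57_S_sub_le_of q L (by rw [h57_S_gal]) le_rfl
  · intro k u hu hQ
    obtain ⟨w, hw1, hw2⟩ := h57_step_h90 q K L B hB2 a ha hB1 σ hσ
      (by omega : 2 * a + 1 ≤ N + k) hu hQ
    refine ⟨w, hw1, hw2, ?_⟩
    show ∏ τ : L ≃ₐ[K] L, τ (u / (σ w / w)) = 1
    have hwS : h57_S q L w = 1 :=
      h57_S_eq_one q K L B hB2 (by omega : 1 ≤ N + k) hw1
    have hw0 : w ≠ 0 := by
      intro h0
      rw [h0, h57_S_zero] at hwS
      exact zero_ne_one hwS
    have hP0 : ∏ τ : L ≃ₐ[K] L, τ w ≠ 0 :=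
      Finset.prod_ne_zero_iff.mpr fun τ _ => (map_ne_zero τ).mpr hw0
    have hre : ∏ τ : L ≃ₐ[K] L, τ (σ w) = ∏ τ : L ≃ₐ[K] L, τ w :=
      Fintype.prod_equiv (Equiv.mulRight σ) _ _ (fun τ => rfl)
    simp_rw [map_div₀]
    rw [Finset.prod_div_distrib, Finset.prod_div_distrib, hQ, hre, div_self hP0, div_one]

end NormalLattice

end Galois

end Fermat.Agent.S55
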