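import Fermat.Agent.S55.h57_HerbrandMul
import Fermat.Agent.S55.h57_LocalCoh

set_option autoImplicit false
set_option linter.unusedSectionVars false

/-!
# The local norm index (S55, block LOC-1 / LOC-AXIOM)

For a cyclic extension `L/K` of finite extensions of `ℚ_q` (any prime `q`, any degree, ramified
or not): `[Kˣ : N_{L/K} Lˣ] = [L : K]` (`h57_local_norm_index`).

Proof: Herbrand quotient bookkeeping (`h57_herbrand_mul`) for `U = ker (v_q ∘ N) ⊆ Lˣ` and the
finite-index subgroup `1 + Λ_N ⊆ U` of a normal-basis lattice, which is cohomologically trivial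
(`h57_norm_surj`, `h57_h90`), together with Hilbert 90.
-/

namespace Fermat.Agent.S55

/-- A subgroup has finite index as soon as its cosets are separated by a map to a finite type. -/
theorem h57_index_ne_zero_of_map {A : Type*} [AddCommGroup A] (W : AddSubgroup A) {T : Type*}
    [Finite T] (c : A → T) (h : ∀ x y, c x = c y → x - y ∈ W) : W.index ≠ 0 := by
  classical
  have hfin : Finite (A ⧸ W) := by
    let F : Set.range c → A ⧸ W := fun t => QuotientAddGroup.mk (Classical.choose t.2)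
    refine Finite.of_surjective F ?_
    intro y
    induction y using QuotientAddGroup.induction_on with
    | H x =>
      refine ⟨⟨c x, x, rfl⟩, ?_⟩
      have hc : c (Classical.choose (⟨x, rfl⟩ : c x ∈ Set.range c)) = c x :=
        Classical.choose_spec (⟨x, rfl⟩ : c x ∈ Set.range c)
      show QuotientAddGroup.mk _ = QuotientAddGroup.mk x
      rw [QuotientAddGroup.eq]
      have h1 := h _ _ hc.symm
      have e : -Classical.choose (⟨x, rfl⟩ : c x ∈ Set.range c) + x
          = x - Classical.choose (⟨x, rfl⟩ : c x ∈ Set.range c) := by abel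
      rw [e]
      exact h1
  exact AddSubgroup.index_ne_zero_of_finite

/-- Relative version of `h57_index_ne_zero_of_map`. -/
theorem h57_relIndex_ne_zero_of_map {A : Type*} [AddCommGroup A] (W U : AddSubgroup A)
    {T : Type*} [Finite T] (c : A → T) (h : ∀ x ∈ U, ∀ y ∈ U, c x = c y → x - y ∈ W) :
    W.relIndex U ≠ 0 := by
  unfold AddSubgroup.relIndex
  apply h57_index_ne_zero_of_map (W.addSubgroupOf U) (fun x : U => c x)
  intro x y hxy
  rw [AddSubgroup.mem_addSubgroupOf]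
  exact h x x.2 y y.2 hxy

/-- Reduction mod `q^M` of a `q`-adic number (junk value outside `ℤ_q`). -/
noncomputable def h57_red (q : ℕ) [Fact q.Prime] (M : ℕ) (z : ℚ_[q]) : ZMod (q ^ M) :=
  if h : ‖z‖ ≤ 1 then PadicInt.toZModPow M (⟨z, h⟩ : ℤ_[q]) else 0

theorem h57_red_eq (q : ℕ) [Fact q.Prime] (M : ℕ) {z z' : ℚ_[q]} (hz : ‖z‖ ≤ 1)
    (hz' : ‖z'‖ ≤ 1) (h : h57_red q M z = h57_red q M z') : ‖z - z'‖ ≤ h57_r q ^ M := by
  unfold h57_red at h
  rw [dif_pos hz, dif_pos hz'] at h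
  obtain ⟨Z, hZ⟩ : ∃ Z : ℤ_[q], Z = (⟨z, hz⟩ : ℤ_[q]) := ⟨_, rfl⟩
  obtain ⟨Z', hZ'⟩ : ∃ Z' : ℤ_[q], Z' = (⟨z', hz'⟩ : ℤ_[q]) := ⟨_, rfl⟩
  rw [← hZ, ← hZ'] at h
  have h0 : PadicInt.toZModPow M (Z - Z') = 0 := by
    rw [map_sub, h, sub_self]
  have h1 : Z - Z' ∈ Ideal.span {(q : ℤ_[q]) ^ M} := by
    rw [← PadicInt.ker_toZModPow]
    exact h0
  have h2 := (PadicInt.norm_le_pow_iff_mem_span_pow _ M).mpr h1
  have h3 : ‖Z - Z'‖ = ‖z - z'‖ := by
    rw [hZ, hZ']
    rfl
  rw [h3] at h2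
  refine h2.trans (le_of_eq ?_)
  unfold h57_r
  rw [zpow_neg, zpow_natCast, inv_pow]

section Basis

variable (q : ℕ) [Fact q.Prime] (K L : Type*) [Field K] [Field L] [Algebra ℚ_[q] K]
  [Algebra ℚ_[q] L] [Algebra K L] [IsScalarTower ℚ_[q] K L] [FiniteDimensional ℚ_[q] L]
  [FiniteDimensional K L] [IsGalois K L]

/-- Existence of a normal-basis lattice: a `ℚ_q`-basis of `L` indexed by `Fin r × G`, permuted
by `G` through the second index, all of whose vectors have spectral norm `≤ 1`. -/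
theorem h57_exists_normal_lattice :
    ∃ (r : ℕ) (B : Module.Basis (Fin r × (L ≃ₐ[K] L)) ℚ_[q] L),
      (∀ (i : Fin r) (τ : L ≃ₐ[K] L), B (i, τ) = τ (B (i, 1))) ∧
      (∀ j, h57_S q L (B j) ≤ 1) := by
  classical
  have : FiniteDimensional ℚ_[q] K := FiniteDimensional.left ℚ_[q] K L
  obtain ⟨B₀, hB₀⟩ : ∃ B₀ : Module.Basis (Fin (Module.finrank ℚ_[q] K) × (L ≃ₐ[K] L)) ℚ_[q] L,
      ∀ (i : Fin (Module.finrank ℚ_[q] K)) (τ : L ≃ₐ[K] L), B₀ (i, τ) = τ (B₀ (i, 1)) := by
    refine ⟨(Module.finBasis ℚ_[q] K).smulTower (IsGalois.normalBasis K L), fun i τ => ?_⟩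
    rw [Module.Basis.smulTower_apply, Module.Basis.smulTower_apply, map_smul,
      IsGalois.normalBasis_apply τ]
  obtain ⟨k, hk⟩ : ∃ k : ℕ, ∀ j, h57_S q L (B₀ j) ≤ (q : ℝ) ^ k := by
    obtain ⟨k, hk⟩ := pow_unbounded_of_one_lt (∑ j, h57_S q L (B₀ j)) (h57_q_gt_one q)
    refine ⟨k, fun j => le_trans ?_ hk.le⟩
    exact Finset.single_le_sum (f := fun j => h57_S q L (B₀ j))
      (fun i _ => h57_S_nonneg q L _) (Finset.mem_univ j)
  have hq0 : (q : ℚ_[q]) ≠ 0 := by exact_mod_cast (Fact.out : q.Prime).ne_zero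
  have hu : ∀ _ : Fin (Module.finrank ℚ_[q] K) × (L ≃ₐ[K] L), IsUnit ((q : ℚ_[q]) ^ k) :=
    fun _ => IsUnit.mk0 _ (pow_ne_zero k hq0)
  have h1 : ∀ j, B₀.isUnitSMul hu j = (q : ℚ_[q]) ^ k • B₀ j :=
    fun j => Module.Basis.isUnitSMul_apply hu j
  refine ⟨_, B₀.isUnitSMul hu, ?_, ?_⟩
  · intro i τ
    rw [h1, h1, h57_gal_smul, hB₀ i τ]
  · intro j
    rw [h1, h57_S_smul, norm_pow, Padic.norm_p, inv_pow]
    have hqk : (0 : ℝ) < (q : ℝ) ^ k := pow_pos (zero_lt_one.trans (h57_q_gt_one q)) k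
    rw [inv_mul_le_iff₀ hqk, mul_one]
    exact hk j

end Basis

section H90

variable {K L : Type*} [Field K] [Field L] [Algebra K L] [FiniteDimensional K L]

/-- Cyclic Hilbert 90 in multiplicative form, universe polymorphic (from Mathlib's Noether form):
if `G = ⟨σ⟩` and `∏ τ, τ x = 1` then `x = σ y / y`. -/
theorem h57_cyclic_h90 (σ : L ≃ₐ[K] L) (hσ : ∀ τ : L ≃ₐ[K] L, τ ∈ Subgroup.zpowers σ) (x : Lˣ)
    (hx : ∏ τ : L ≃ₐ[K] L, Units.map (τ : L →* L) x = 1) :
    ∃ y : Lˣ, Units.map (σ : L →* L) y / y = x := by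
  classical
  set n := orderOf σ with hn
  let P : ℕ → Lˣ := fun k => ∏ j ∈ Finset.range k, Units.map ((σ ^ j : L ≃ₐ[K] L) : L →* L) x
  have hPadd : ∀ a b, P (a + b) = P a * Units.map ((σ ^ a : L ≃ₐ[K] L) : L →* L) (P b) := by
    intro a b
    show ∏ j ∈ Finset.range (a + b), Units.map ((σ ^ j : L ≃ₐ[K] L) : L →* L) x
      = (∏ j ∈ Finset.range a, Units.map ((σ ^ j : L ≃ₐ[K] L) : L →* L) x)
        * Units.map ((σ ^ a : L ≃ₐ[K] L) : L →* L)
          (∏ j ∈ Finset.range b, Units.map ((σ ^ j : L ≃ₐ[K] L) : L →* L) x)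
    rw [Finset.prod_range_add, map_prod]
    congr 1
    refine Finset.prod_congr rfl fun j _ => ?_
    ext
    simp [pow_add]
  have hPn : P n = 1 := by
    rw [← hx]
    show ∏ j ∈ Finset.range n, Units.map ((σ ^ j : L ≃ₐ[K] L) : L →* L) x = _
    rw [← IsCyclic.image_range_orderOf hσ, Finset.prod_image]
    intro i hi j hj hij
    exact pow_injOn_Iio_orderOf (by simpa using hi) (by simpa using hj) hij
  have hPmul : ∀ m k, P (k + n * m) = P k := by
    intro m
    induction m with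
    | zero => intro k; simp
    | succ m ih =>
      intro k
      have e : k + n * (m + 1) = (k + n * m) + n := by ring
      rw [e, hPadd, hPn, map_one, mul_one, ih]
  have hPmod : ∀ k, P (k % n) = P k := by
    intro k
    conv_rhs => rw [← Nat.mod_add_div k n]
    rw [hPmul]
  have hPeq : ∀ k k', σ ^ k = σ ^ k' → P k = P k' := by
    intro k k' h
    have h1 : k % n = k' % n := pow_eq_pow_iff_modEq.mp h
    rw [← hPmod k, ← hPmod k', h1]
  have hex : ∀ τ : L ≃ₐ[K] L, ∃ k : ℕ, σ ^ k = τ := by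
    intro τ
    have h1 : τ ∈ Submonoid.powers σ := mem_powers_iff_mem_zpowers.mpr (hσ τ)
    exact h1
  choose kk hkk using hex
  let c : (L ≃ₐ[K] L) → Lˣ := fun τ => P (kk τ)
  have hc : ∀ k, c (σ ^ k) = P k := fun k => hPeq _ _ (hkk (σ ^ k))
  have hcoc : groupCohomology.IsMulCocycle₁ c := by
    intro g h
    have e1 : g * h = σ ^ (kk g + kk h) := by rw [pow_add, hkk, hkk]
    rw [e1, hc, hPadd, mul_comm]
    congr 1
    rw [AlgEquiv.smul_units_def, hkk]
  obtain ⟨β, hβ⟩ := groupCohomology.isMulCoboundary₁_of_isMulCocycle₁_of_aut_to_units c hcoc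
  refine ⟨β, ?_⟩
  have h1 := hβ σ
  rw [AlgEquiv.smul_units_def] at h1
  rw [h1]
  have h2 : c σ = P 1 := by
    have := hc 1
    rwa [pow_one] at this
  rw [h2]
  show ∏ j ∈ Finset.range 1, Units.map ((σ ^ j : L ≃ₐ[K] L) : L →* L) x = x
  rw [Finset.prod_range_one]
  ext
  simp

end H90

section Main

variable (q : ℕ) [Fact q.Prime] (K L : Type*) [Field K] [Field L] [Algebra ℚ_[q] K]
  [Algebra ℚ_[q] L] [Algebra K L] [IsScalarTower ℚ_[q] K L] [FiniteDimensional ℚ_[q] L]
  [FiniteDimensional K L]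

/-- `x ↦ σ x / x` on `Lˣ`. -/
noncomputable def h57_mD (σ : L ≃ₐ[K] L) : Lˣ →* Lˣ where
  toFun x := Units.map (σ : L →* L) x / x
  map_one' := by simp
  map_mul' x y := by rw [map_mul, mul_div_mul_comm]

/-- `x ↦ ∏ τ, τ x` on `Lˣ`. -/
noncomputable def h57_mN : Lˣ →* Lˣ where
  toFun x := ∏ τ : L ≃ₐ[K] L, Units.map (τ : L →* L) x
  map_one' := by simp
  map_mul' x y := by simp only [map_mul, Finset.prod_mul_distrib]

theorem h57_mD_coe (σ : L ≃ₐ[K] L) (x : Lˣ) :
    ((h57_mD K L σ x : Lˣ) : L) = σ (x : L) / (x : L) := by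
  show ((Units.map (σ : L →* L) x / x : Lˣ) : L) = _
  rw [Units.val_div_eq_div_val]
  rfl

theorem h57_mN_coe (x : Lˣ) :
    ((h57_mN K L x : Lˣ) : L) = ∏ τ : L ≃ₐ[K] L, τ (x : L) := by
  show ((∏ τ : L ≃ₐ[K] L, Units.map (τ : L →* L) x : Lˣ) : L) = _
  rw [Units.coe_prod]
  rfl

theorem h57_mD_mN (σ : L ≃ₐ[K] L) (x : Lˣ) : h57_mD K L σ (h57_mN K L x) = 1 := by
  ext
  rw [h57_mD_coe, h57_mN_coe, map_prod, Units.val_one]
  have h : ∏ τ : L ≃ₐ[K] L, σ (τ (x : L)) = ∏ τ : L ≃ₐ[K] L, τ (x : L) :=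
    Fintype.prod_equiv (Equiv.mulLeft σ) _ _ (fun τ => rfl)
  rw [h, div_self]
  exact Finset.prod_ne_zero_iff.mpr fun τ _ => (map_ne_zero τ).mpr x.ne_zero

theorem h57_mN_mD (σ : L ≃ₐ[K] L) (x : Lˣ) : h57_mN K L (h57_mD K L σ x) = 1 := by
  ext
  rw [h57_mN_coe, Units.val_one]
  simp_rw [h57_mD_coe, map_div₀]
  rw [Finset.prod_div_distrib]
  have h : ∏ τ : L ≃ₐ[K] L, τ (σ (x : L)) = ∏ τ : L ≃ₐ[K] L, τ (x : L) :=
    Fintype.prod_equiv (Equiv.mulRight σ) _ _ (fun τ => rfl)
  rw [h, div_self]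
  exact Finset.prod_ne_zero_iff.mpr fun τ _ => (map_ne_zero τ).mpr x.ne_zero

/-- `v` is invariant under `Gal(L/K)`. -/
theorem h57_v_gal (τ : L ≃ₐ[K] L) (x : Lˣ) :
    h57_v q L (Additive.ofMul (Units.map (τ : L →* L) x)) = h57_v q L (Additive.ofMul x) := by
  rw [h57_v_apply, h57_v_apply]
  congr 1
  exact Algebra.norm_eq_of_algEquiv (τ.restrictScalars ℚ_[q]) (x : L)

theorem h57_v_mD (σ : L ≃ₐ[K] L) (x : Lˣ) :
    h57_v q L (Additive.ofMul (h57_mD K L σ x)) = 0 := by
  show h57_v q L (Additive.ofMul (Units.map (σ : L →* L) x / x)) = 0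
  rw [ofMul_div, map_sub, h57_v_gal, sub_self]

theorem h57_v_mN (x : Lˣ) :
    h57_v q L (Additive.ofMul (h57_mN K L x))
      = Fintype.card (L ≃ₐ[K] L) • h57_v q L (Additive.ofMul x) := by
  show h57_v q L (Additive.ofMul (∏ τ : L ≃ₐ[K] L, Units.map (τ : L →* L) x)) = _
  rw [ofMul_prod, map_sum]
  simp_rw [h57_v_gal]
  rw [Finset.sum_const, Finset.card_univ]

/-- An element fixed by a generator is fixed by the whole group. -/
theorem h57_fixed_of_gen (σ : L ≃ₐ[K] L) (hσ : ∀ τ : L ≃ₐ[K] L, τ ∈ Subgroup.zpowers σ)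
    {x : L} (hx : σ x = x) (τ : L ≃ₐ[K] L) : τ x = x := by
  have h : Subgroup.zpowers σ ≤ MulAction.stabilizer (L ≃ₐ[K] L) x := by
    rw [Subgroup.zpowers_le, MulAction.mem_stabilizer_iff]
    exact hx
  exact MulAction.mem_stabilizer_iff.mp (h (hσ τ))

end Main

/-- The Herbrand index `[ker (σ - 1) : N Lˣ]` of `Lˣ` equals `#G` for a cyclic extension
`L/K` of finite extensions of `ℚ_q` (additive notation on `Additive Lˣ`). -/
theorem h57_local_herbrand (q : ℕ) [Fact q.Prime] (K L : Type*) [Field K] [Field L]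
    [Algebra ℚ_[q] K] [Algebra ℚ_[q] L] [Algebra K L] [IsScalarTower ℚ_[q] K L]
    [FiniteDimensional ℚ_[q] L] [FiniteDimensional K L] [IsGalois K L] (σ : L ≃ₐ[K] L)
    (hσ : ∀ τ : L ≃ₐ[K] L, τ ∈ Subgroup.zpowers σ) :
    (MonoidHom.toAdditive (h57_mN K L)).range.relIndex
        (MonoidHom.toAdditive (h57_mD K L σ)).ker
      = Fintype.card (L ≃ₐ[K] L) := by
  classical
  obtain ⟨r, B, hB1, hB2⟩ := h57_exists_normal_lattice q K L
  obtain ⟨a, ha⟩ := h57_exists_coord_bound q L B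
  obtain ⟨N, hN⟩ : ∃ N : ℕ, N = 2 * a + 1 := ⟨_, rfl⟩
  have hN1 : 1 ≤ N := by omega
  have haN : a ≤ N := by omega
  obtain ⟨f, hf⟩ : ∃ f : Additive Lˣ →+ Additive Lˣ, f = MonoidHom.toAdditive (h57_mD K L σ) :=
    ⟨_, rfl⟩
  obtain ⟨g, hg⟩ : ∃ g : Additive Lˣ →+ Additive Lˣ, g = MonoidHom.toAdditive (h57_mN K L) :=
    ⟨_, rfl⟩
  rw [← hf, ← hg]
  have hfo : ∀ x : Lˣ, f (Additive.ofMul x) = Additive.ofMul (h57_mD K L σ x) := by
    intro x; rw [hf]; rfl
  have hgo : ∀ x : Lˣ, g (Additive.ofMul x) = Additive.ofMul (h57_mN K L x) := by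
    intro x; rw [hg]; rfl
  have hfg : ∀ x, f (g x) = 0 := by
    intro x
    obtain ⟨x, rfl⟩ := Additive.ofMul.surjective x
    rw [hgo, hfo, h57_mD_mN]
    rfl
  have hgf : ∀ x, g (f x) = 0 := by
    intro x
    obtain ⟨x, rfl⟩ := Additive.ofMul.surjective x
    rw [hfo, hgo, h57_mN_mD]
    rfl
  obtain ⟨φ, hφ⟩ : ∃ φ : Additive Lˣ →+ ℤ, φ = h57_v q L := ⟨_, rfl⟩
  have hφf : ∀ x, φ (f x) = 0 := by
    intro x
    obtain ⟨x, rfl⟩ := Additive.ofMul.surjective x
    rw [hfo, hφ, h57_v_mD]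
  have hφg : ∀ x, φ (g x) = Fintype.card (L ≃ₐ[K] L) • φ x := by
    intro x
    obtain ⟨x, rfl⟩ := Additive.ofMul.surjective x
    rw [hgo, hφ, h57_v_mN]
  have hn0 : Fintype.card (L ≃ₐ[K] L) ≠ 0 := Fintype.card_ne_zero
  obtain ⟨U, hU⟩ : ∃ U : AddSubgroup (Additive Lˣ), U = φ.ker := ⟨_, rfl⟩
  have hmemU : ∀ x, x ∈ U ↔ φ x = 0 := by
    intro x; rw [hU, AddMonoidHom.mem_ker]
  have hfU : ∀ x ∈ U, f x ∈ U := fun x _ => (hmemU _).mpr (hφf x)
  have hgU : ∀ x ∈ U, g x ∈ U := by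
    intro x hx
    rw [hmemU, hφg, (hmemU x).mp hx, smul_zero]
  have key := h57_herbrand_mul f g hfg hgf U hfU hgU
  -- (i) `b(E) = 1`: Hilbert 90
  have hbE : f.range.relIndex g.ker = 1 := by
    rw [AddSubgroup.relIndex_eq_one]
    intro x hx
    obtain ⟨x, rfl⟩ := Additive.ofMul.surjective x
    rw [AddMonoidHom.mem_ker, hgo] at hx
    have hx' : h57_mN K L x = 1 := hx
    obtain ⟨y, hy⟩ := h57_cyclic_h90 σ hσ x hx'
    refine ⟨Additive.ofMul y, ?_⟩
    rw [hfo]
    exact congrArg Additive.ofMul hy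
  -- (ii) `b(E/U) = 1`
  have hbQ : (f.range ⊔ U).relIndex (U.comap g) = 1 := by
    rw [AddSubgroup.relIndex_eq_one]
    intro x hx
    apply AddSubgroup.mem_sup_right
    rw [AddSubgroup.mem_comap, hmemU, hφg] at hx
    rw [hmemU]
    exact (smul_eq_zero.mp hx).resolve_left hn0
  -- (iii) `a(E/U) = #G`
  have haQ : (g.range ⊔ U).relIndex (U.comap f) = Fintype.card (L ≃ₐ[K] L) := by
    have htop : U.comap f = ⊤ := by
      ext x
      simp only [AddSubgroup.mem_comap, AddSubgroup.mem_top, iff_true]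
      exact (hmemU _).mpr (hφf x)
    rw [htop, AddSubgroup.relIndex_top_right]
    obtain ⟨d, hd⟩ := Int.subgroup_cyclic φ.range
    rw [← AddSubgroup.zmultiples_eq_closure] at hd
    have hd0 : d ≠ 0 := by
      rintro rfl
      obtain ⟨x, hx⟩ := h57_v_ne_zero q L
      apply hx
      have h1 : φ (Additive.ofMul x) ∈ φ.range := ⟨_, rfl⟩
      rw [hd, AddSubgroup.zmultiples_zero_eq_bot, AddSubgroup.mem_bot] at h1
      rw [← hφ]
      exact h1
    have h1 := AddSubgroup.index_map g.range φ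
    have h2 : g.range.map φ
        = AddSubgroup.zmultiples ((Fintype.card (L ≃ₐ[K] L) : ℤ) * d) := by
      ext z
      constructor
      · rintro ⟨_, ⟨x, rfl⟩, rfl⟩
        rw [hφg]
        have h3 : φ x ∈ AddSubgroup.zmultiples d := hd ▸ ⟨x, rfl⟩
        obtain ⟨k, hk⟩ := AddSubgroup.mem_zmultiples_iff.mp h3
        rw [AddSubgroup.mem_zmultiples_iff]
        refine ⟨k, ?_⟩
        rw [← hk]
        simp only [smul_eq_mul, nsmul_eq_mul]
        ring
      · intro hz
        obtain ⟨k, hk⟩ := AddSubgroup.mem_zmultiples_iff.mp hz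
        have h3 : k • d ∈ φ.range := by
          rw [hd]
          exact AddSubgroup.zsmul_mem _ (AddSubgroup.mem_zmultiples d) k
        obtain ⟨x, hx⟩ := h3
        refine ⟨g x, ⟨x, rfl⟩, ?_⟩
        rw [hφg, hx, ← hk]
        simp only [smul_eq_mul, nsmul_eq_mul]
        ring
    rw [h2, hd, Int.index_zmultiples, Int.index_zmultiples, Int.natAbs_mul,
      Int.natAbs_natCast, ← hU] at h1
    exact (Nat.eq_of_mul_eq_mul_right (Int.natAbs_pos.mpr hd0) h1).symm
  -- (iv) `a(U) = b(U) ≠ 0`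
  have hUab : (U.map g).relIndex (U ⊓ f.ker) = (U.map f).relIndex (U ⊓ g.ker) ∧
      (U.map g).relIndex (U ⊓ f.ker) ≠ 0 := by
    obtain ⟨W, hW⟩ : ∃ W : AddSubgroup (Additive Lˣ),
        ∀ x : Lˣ, Additive.ofMul x ∈ W ↔ (x : L) - 1 ∈ h57_Lam q L B N := by
      refine ⟨{ carrier := {x | ((Additive.toMul x : Lˣ) : L) - 1 ∈ h57_Lam q L B N}
                zero_mem' := by
                  show ((1 : Lˣ) : L) - 1 ∈ h57_Lam q L B N
                  rw [Units.val_one, sub_self]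
                  exact zero_mem _
                add_mem' := by
                  intro x y hx hy
                  show ((Additive.toMul x * Additive.toMul y : Lˣ) : L) - 1 ∈ h57_Lam q L B N
                  rw [Units.val_mul]
                  exact h57_one_add_mul q K L B hB2 a ha haN hx hy
                neg_mem' := by
                  intro x hx
                  show (((Additive.toMul x)⁻¹ : Lˣ) : L) - 1 ∈ h57_Lam q L B N
                  rw [Units.val_inv_eq_inv_val]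
                  exact h57_inv_sub_one q K L B hB2 a ha haN hN1 hx }, fun x => Iff.rfl⟩
    have hWU : W ≤ U := by
      intro x hx
      obtain ⟨x, rfl⟩ := Additive.ofMul.surjective x
      rw [hW] at hx
      rw [hmemU, hφ, h57_v_eq_zero_iff]
      exact h57_S_eq_one q K L B hB2 hN1 hx
    have hfW : ∀ x ∈ W, f x ∈ W := by
      intro x hx
      obtain ⟨x, rfl⟩ := Additive.ofMul.surjective x
      rw [hW] at hx
      rw [hfo, hW, h57_mD_coe, div_eq_mul_inv]
      refine h57_one_add_mul q K L B hB2 a ha haN ?_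
        (h57_inv_sub_one q K L B hB2 a ha haN hN1 hx)
      have e : σ (x : L) - 1 = σ ((x : L) - 1) := by rw [map_sub, map_one]
      rw [e]
      exact h57_gal_mem_Lam q K L B hB1 σ hx
    have hgW : ∀ x ∈ W, g x ∈ W := by
      intro x hx
      obtain ⟨x, rfl⟩ := Additive.ofMul.surjective x
      rw [hW] at hx
      rw [hgo, hW, h57_mN_coe]
      refine Finset.prod_induction (fun τ : L ≃ₐ[K] L => τ (x : L))
        (fun y => y - 1 ∈ h57_Lam q L B N)
        (fun y z hy hz => h57_one_add_mul q K L B hB2 a ha haN hy hz) ?_ (fun τ _ => ?_)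
      · show (1 : L) - 1 ∈ _
        rw [sub_self]
        exact zero_mem _
      · show τ (x : L) - 1 ∈ _
        have e : τ (x : L) - 1 = τ ((x : L) - 1) := by rw [map_sub, map_one]
        rw [e]
        exact h57_gal_mem_Lam q K L B hB1 τ hx
    have hqa : (0 : ℝ) < (q : ℝ) ^ a := pow_pos (zero_lt_one.trans (h57_q_gt_one q)) a
    -- finite index of `W` in `U`
    have hidx : W.relIndex U ≠ 0 := by
      have : NeZero (q ^ (N + a + a)) := ⟨pow_ne_zero _ (Fact.out : q.Prime).ne_zero⟩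
      refine h57_relIndex_ne_zero_of_map W U
        (T := (Fin r × (L ≃ₐ[K] L)) → ZMod (q ^ (N + a + a)))
        (fun x j => h57_red q (N + a + a)
          ((q : ℚ_[q]) ^ a * B.repr ((Additive.toMul x : Lˣ) : L) j)) ?_
      intro x hx y hy hxy
      obtain ⟨x, rfl⟩ := Additive.ofMul.surjective x
      obtain ⟨y, rfl⟩ := Additive.ofMul.surjective y
      have hSx : h57_S q L (x : L) = 1 := by
        rw [hmemU, hφ] at hx
        exact (h57_v_eq_zero_iff q L x).mp hx
      have hSy : h57_S q L (y : L) = 1 := by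
        rw [hmemU, hφ] at hy
        exact (h57_v_eq_zero_iff q L y).mp hy
      have hc : ∀ z : Lˣ, h57_S q L (z : L) = 1 → ∀ j,
          ‖(q : ℚ_[q]) ^ a * B.repr (z : L) j‖ ≤ 1 := by
        intro z hz j
        rw [norm_mul, norm_pow, Padic.norm_p, inv_pow, inv_mul_le_iff₀ hqa, mul_one]
        have h1 := ha (z : L) j
        rwa [hz, mul_one] at h1
      have hdiff : (x : L) - (y : L) ∈ h57_Lam q L B (N + a) := by
        intro j
        have h1 := h57_red_eq q (N + a + a) (hc x hSx j) (hc y hSy j) (congrFun hxy j)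
        rw [← mul_sub, norm_mul, norm_pow, Padic.norm_p, inv_pow, inv_mul_le_iff₀ hqa,
          h57_q_pow_mul_r_pow] at h1
        rw [map_sub, Finsupp.sub_apply]
        exact h1
      have hS : h57_S q L ((x : L) - (y : L)) ≤ h57_r q ^ (N + a) :=
        h57_S_le_of_mem_Lam q L B hB2 hdiff
      show Additive.ofMul x - Additive.ofMul y ∈ W
      rw [← ofMul_div, hW, Units.val_div_eq_div_val]
      apply h57_mem_Lam_of_S_le q L B ha
      have e : (x : L) / (y : L) - 1 = ((x : L) - (y : L)) / (y : L) := by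
        have hy0 : (y : L) ≠ 0 := y.ne_zero
        field_simp
      rw [e, h57_S_div, hSy, div_one]
      exact hS
    -- restriction to `U`
    obtain ⟨fU, hfU'⟩ : ∃ fU : U →+ U, fU = h57_res f U hfU := ⟨_, rfl⟩
    obtain ⟨gU, hgU'⟩ : ∃ gU : U →+ U, gU = h57_res g U hgU := ⟨_, rfl⟩
    have hfUc : ∀ x : U, ((fU x : U) : Additive Lˣ) = f x := by
      intro x; rw [hfU']; rfl
    have hgUc : ∀ x : U, ((gU x : U) : Additive Lˣ) = g x := by
      intro x; rw [hgU']; rfl
    have hfgU : ∀ x, fU (gU x) = 0 := by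
      intro x
      apply Subtype.ext
      rw [hfUc, hgUc, hfg]
      rfl
    have hgfU : ∀ x, gU (fU x) = 0 := by
      intro x
      apply Subtype.ext
      rw [hgUc, hfUc, hgf]
      rfl
    obtain ⟨W', hW'⟩ : ∃ W' : AddSubgroup U, W' = W.addSubgroupOf U := ⟨_, rfl⟩
    have hmemW' : ∀ x : U, x ∈ W' ↔ (x : Additive Lˣ) ∈ W := by
      intro x; rw [hW']; exact AddSubgroup.mem_addSubgroupOf
    have hfW' : ∀ x ∈ W', fU x ∈ W' := by
      intro x hx
      rw [hmemW', hfUc]
      exact hfW _ ((hmemW' x).mp hx)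
    have hgW' : ∀ x ∈ W', gU x ∈ W' := by
      intro x hx
      rw [hmemW', hgUc]
      exact hgW _ ((hmemW' x).mp hx)
    have hidx' : W'.index ≠ 0 := by
      rw [hW']
      exact hidx
    have hmk : ∀ w : L, w - 1 ∈ h57_Lam q L B N → ∃ z : U, z ∈ W' ∧
        ∃ w' : Lˣ, (w' : L) = w ∧ (z : Additive Lˣ) = Additive.ofMul w' := by
      intro w hw1
      have hw0 : w ≠ 0 := by
        intro h0
        have h1 := h57_S_eq_one q K L B hB2 hN1 hw1
        rw [h0, h57_S_zero] at h1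
        exact zero_ne_one h1
      have hwW : Additive.ofMul (Units.mk0 w hw0) ∈ W := by
        rw [hW, Units.val_mk0]
        exact hw1
      exact ⟨⟨Additive.ofMul (Units.mk0 w hw0), hWU hwW⟩, (hmemW' _).mpr hwW,
        Units.mk0 w hw0, Units.val_mk0 hw0, rfl⟩
    have haW : (W'.map gU).relIndex (W' ⊓ fU.ker) = 1 := by
      rw [AddSubgroup.relIndex_eq_one]
      rintro ⟨x, hxU⟩ ⟨hxW, hxk⟩
      obtain ⟨x, rfl⟩ := Additive.ofMul.surjective x
      have hxW' : (x : L) - 1 ∈ h57_Lam q L B N := (hW x).mp ((hmemW' _).mp hxW)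
      have hσx : σ (x : L) = (x : L) := by
        have h1 : f (Additive.ofMul x) = 0 := by
          have h0 := congrArg Subtype.val (AddMonoidHom.mem_ker.mp hxk)
          rw [hfUc] at h0
          exact h0
        rw [hfo] at h1
        have h2 : h57_mD K L σ x = 1 := h1
        have h3 : ((h57_mD K L σ x : Lˣ) : L) = 1 := by rw [h2, Units.val_one]
        rw [h57_mD_coe] at h3
        exact (div_eq_one_iff_eq x.ne_zero).mp h3
      obtain ⟨w, hw1, hw2⟩ := h57_norm_surj q K L B hB2 a ha hB1 (by omega : a + 1 ≤ N) hxW'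
        (h57_fixed_of_gen K L σ hσ hσx)
      obtain ⟨z, hzW, w', hw', hz⟩ := hmk w hw1
      refine ⟨z, hzW, ?_⟩
      apply Subtype.ext
      rw [hgUc, hz, hgo]
      show Additive.ofMul (h57_mN K L w') = Additive.ofMul x
      congr 1
      ext
      rw [h57_mN_coe, hw']
      exact hw2
    have hbW : (W'.map fU).relIndex (W' ⊓ gU.ker) = 1 := by
      rw [AddSubgroup.relIndex_eq_one]
      rintro ⟨x, hxU⟩ ⟨hxW, hxk⟩
      obtain ⟨x, rfl⟩ := Additive.ofMul.surjective x
      have hxW' : (x : L) - 1 ∈ h57_Lam q L B N := (hW x).mp ((hmemW' _).mp hxW)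
      have hnorm : ∏ τ : L ≃ₐ[K] L, τ (x : L) = 1 := by
        have h1 : g (Additive.ofMul x) = 0 := by
          have h0 := congrArg Subtype.val (AddMonoidHom.mem_ker.mp hxk)
          rw [hgUc] at h0
          exact h0
        rw [hgo] at h1
        have h2 : h57_mN K L x = 1 := h1
        have h3 : ((h57_mN K L x : Lˣ) : L) = 1 := by rw [h2, Units.val_one]
        rw [h57_mN_coe] at h3
        exact h3
      obtain ⟨w, hw1, hw2⟩ := h57_h90 q K L B hB2 a ha hB1 σ hσ (le_of_eq hN.symm) hxW' hnorm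
      obtain ⟨z, hzW, w', hw', hz⟩ := hmk w hw1
      refine ⟨z, hzW, ?_⟩
      apply Subtype.ext
      rw [hfUc, hz, hfo]
      show Additive.ofMul (h57_mD K L σ w') = Additive.ofMul x
      congr 1
      ext
      rw [h57_mD_coe, hw']
      exact hw2
    obtain ⟨h1, h2, h3⟩ := h57_herbrand_of_finiteIndex fU gU hfgU hgfU W' hfW' hgW' hidx'
      (by rw [haW]; exact one_ne_zero) (by rw [hbW]; exact one_ne_zero)
    rw [haW, hbW, mul_one, mul_one] at h3
    rw [hfU', hgU'] at h1 h3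
    rw [h57_herbrand_restrict f g U hfU hgU] at h1 h3
    rw [h57_herbrand_restrict g f U hgU hfU] at h3
    exact ⟨h3, h1⟩
  rw [hbE, hbQ, haQ, mul_one, one_mul, ← hUab.1, mul_comm] at key
  exact Nat.eq_of_mul_eq_mul_left (Nat.pos_of_ne_zero hUab.2) key

/-- **Local norm index** (first and second local inequality for cyclic layers): for a cyclic
extension `L/K` of finite extensions of `ℚ_q`, `[Kˣ : N_{L/K} Lˣ] = [L : K]`. -/
theorem h57_local_norm_index (q : ℕ) [Fact q.Prime] (K L : Type*) [Field K] [Field L]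
    [Algebra ℚ_[q] K] [Algebra ℚ_[q] L] [Algebra K L] [IsScalarTower ℚ_[q] K L]
    [FiniteDimensional ℚ_[q] L] [IsGalois K L] [IsCyclic (L ≃ₐ[K] L)] :
    (Units.map (Algebra.norm K : L →* K)).range.index = Module.finrank K L := by
  classical
  have : FiniteDimensional K L := FiniteDimensional.right ℚ_[q] K L
  obtain ⟨σ, hσ⟩ := IsCyclic.exists_generator (α := L ≃ₐ[K] L)
  have key := h57_local_herbrand q K L σ hσ
  obtain ⟨j, hj⟩ : ∃ j : Kˣ →* Lˣ, j = Units.map (algebraMap K L : K →* L) := ⟨_, rfl⟩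
  have hjc : ∀ k : Kˣ, ((j k : Lˣ) : L) = algebraMap K L (k : K) := by
    intro k; rw [hj]; rfl
  have hjinj : Function.Injective j := by
    intro x y hxy
    apply Units.ext
    apply (algebraMap K L).injective
    rw [← hjc, ← hjc, hxy]
  have h1 : (h57_mN K L).range = (Units.map (Algebra.norm K : L →* K)).range.map j := by
    rw [MonoidHom.map_range]
    congr 1
    ext x
    rw [h57_mN_coe, MonoidHom.comp_apply, hjc]
    exact (Algebra.norm_eq_prod_automorphisms K (x : L)).symm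
  have h2 : (h57_mD K L σ).ker = (⊤ : Subgroup Kˣ).map j := by
    ext x
    rw [MonoidHom.mem_ker]
    constructor
    · intro hx
      have h3 : ((h57_mD K L σ x : Lˣ) : L) = 1 := by rw [hx, Units.val_one]
      rw [h57_mD_coe] at h3
      have hσx : σ (x : L) = (x : L) := (div_eq_one_iff_eq x.ne_zero).mp h3
      obtain ⟨k, hk⟩ := (IsGalois.mem_range_algebraMap_iff_fixed (x : L)).mpr
        (h57_fixed_of_gen K L σ hσ hσx)
      have hk0 : k ≠ 0 := by
        rintro rfl
        rw [map_zero] at hk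
        exact x.ne_zero hk.symm
      refine ⟨Units.mk0 k hk0, Subgroup.mem_top _, ?_⟩
      apply Units.ext
      rw [hjc, Units.val_mk0]
      exact hk
    · rintro ⟨k, -, rfl⟩
      ext
      rw [h57_mD_coe, hjc, AlgEquiv.commutes, Units.val_one, div_self]
      exact (map_ne_zero (algebraMap K L)).mpr k.ne_zero
  have e1 : Subgroup.toAddSubgroup (h57_mN K L).range
      = (MonoidHom.toAdditive (h57_mN K L)).range := by
    ext x
    rfl
  have e2 : Subgroup.toAddSubgroup (h57_mD K L σ).ker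
      = (MonoidHom.toAdditive (h57_mD K L σ)).ker := by
    ext x
    rfl
  rw [← Subgroup.relIndex_top_right, ← Subgroup.relIndex_map_map_of_injective _ _ hjinj, ← h1,
    ← h2, ← Subgroup.relIndex_toAddSubgroup, e1, e2, key, ← IsGalois.card_aut_eq_finrank,
    Nat.card_eq_fintype_card]

end Fermat.Agent.S55
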