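import Mathlib
import Fermat.Agent.S55.h28_SemilocJq
import Fermat.Agent.S55.h57_LocalNormIndex
import Fermat.Agent.S55.h10_EmbPrimeOrb

set_option autoImplicit false

/-!
# The semi-local module `J_q(L)`: unconditional Herbrand indices, counted by primes (S55)

`L` a number field, `σ` an automorphism of `L` of prime order `p`, `q` a prime.  With
`J_q(L) = h28_eqv Γ (L →+* PadicAlgCl q) (PadicAlgCl q)ˣ` (`Γ = Gal(PadicAlgCl q / ℚ_q)` acting by
composition, `h28_embAction`) and `D`, `N` the operators of `σ` (`h28_embPerm`):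

* `h28_Jq_semilocal'` : `ker N = D J_q(L)` and
  `[J_q(L)^σ : N J_q(L)] = p ^ (number of σ-stable Γ-orbits of embeddings)`
  (`h28_Jq_semilocal` with the landed local norm index theorem `h57_local_norm_index`);
* `h28_Jq_index_primes` : the same with the exponent `#{w ∣ q prime of L : σ w = w}`
  (dictionary `h10_card_stable_orbits`), i.e. the exponent of `h92_sunits_index`.
-/

namespace Fermat.Agent.S55

open NumberField IsDedekindDomain

attribute [local instance] h28_embAction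

/-- `h28_Jq_semilocal` with the local class field axiom discharged. -/
theorem h28_Jq_semilocal' (q : ℕ) [Fact q.Prime] {L : Type*} [Field L] [NumberField L] {p : ℕ}
    (hp : p.Prime) (σ : L ≃+* L) (hσp : σ ^ p = 1) (hσ1 : σ ≠ 1) :
    h92_hq (h28_sN (PadicAlgCl q)ˣ (h28_embPerm q L σ) p) (h28_sD (PadicAlgCl q)ˣ (h28_embPerm q L σ))
        (h28_eqv (PadicAlgCl q ≃ₐ[ℚ_[q]] PadicAlgCl q) (L →+* PadicAlgCl q) (PadicAlgCl q)ˣ) = 1 ∧
    h92_hq (h28_sD (PadicAlgCl q)ˣ (h28_embPerm q L σ)) (h28_sN (PadicAlgCl q)ˣ (h28_embPerm q L σ) p)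
        (h28_eqv (PadicAlgCl q ≃ₐ[ℚ_[q]] PadicAlgCl q) (L →+* PadicAlgCl q) (PadicAlgCl q)ˣ)
      = p ^ Nat.card {O : MulAction.orbitRel.Quotient (PadicAlgCl q ≃ₐ[ℚ_[q]] PadicAlgCl q)
          (L →+* PadicAlgCl q) //
            h28_orbMap (h28_embPerm q L σ) (h28_embPerm_comm q σ) O = O} :=
  h28_Jq_semilocal q hp σ hσp hσ1 (fun K E _ _ _ _ _ _ _ _ _ => h57_local_norm_index q K E)

theorem h28_toRingEquiv_pow {K L : Type*} [Field K] [Field L] [Algebra K L] (σ : L ≃ₐ[K] L)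
    (k : ℕ) (x : L) : ((σ : L ≃+* L) ^ k) x = (σ ^ k) x := by
  induction k generalizing x with
  | zero => rfl
  | succ k ih => rw [pow_succ, pow_succ, RingAut.mul_apply, AlgEquiv.mul_apply, ih]; rfl

/-- **Herbrand indices of `J_q(L)`** for a cyclic extension `L/K` of prime degree `p` with
generator `σ`: `ker N = D J_q(L)` and `[J_q(L)^σ : N J_q(L)] = p ^ #{w ∣ q : σ w = w}`. -/
theorem h28_Jq_index_primes (q : ℕ) [Fact q.Prime] {K L : Type*} [Field K] [Field L]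
    [NumberField L] [Algebra K L] {p : ℕ} (hp : p.Prime) (σ : L ≃ₐ[K] L) (hσp : σ ^ p = 1)
    (hσ1 : σ ≠ 1) :
    h92_hq (h28_sN (PadicAlgCl q)ˣ (h28_embPerm q L (σ : L ≃+* L)) p)
        (h28_sD (PadicAlgCl q)ˣ (h28_embPerm q L (σ : L ≃+* L)))
        (h28_eqv (PadicAlgCl q ≃ₐ[ℚ_[q]] PadicAlgCl q) (L →+* PadicAlgCl q) (PadicAlgCl q)ˣ) = 1 ∧
    h92_hq (h28_sD (PadicAlgCl q)ˣ (h28_embPerm q L (σ : L ≃+* L)))
        (h28_sN (PadicAlgCl q)ˣ (h28_embPerm q L (σ : L ≃+* L)) p)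
        (h28_eqv (PadicAlgCl q ≃ₐ[ℚ_[q]] PadicAlgCl q) (L →+* PadicAlgCl q) (PadicAlgCl q)ˣ)
      = p ^ {w : HeightOneSpectrum (𝓞 L) |
          ((q : ℕ) : 𝓞 L) ∈ w.asIdeal ∧ h92_galPrime σ w = w}.ncard := by
  have hσp' : (σ : L ≃+* L) ^ p = 1 := by
    ext x
    rw [h28_toRingEquiv_pow, hσp]
    rfl
  have hσ1' : (σ : L ≃+* L) ≠ 1 := by
    intro h
    apply hσ1
    ext x
    exact congrArg (fun f : L ≃+* L => f x) h
  have h := h28_Jq_semilocal' q hp (σ : L ≃+* L) hσp' hσ1'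
  have hcount := h10_card_stable_orbits q (K := L)
    (Γ := PadicAlgCl q ≃ₐ[ℚ_[q]] PadicAlgCl q) (fun τ => τ) (fun τ => ⟨τ, rfl⟩)
    (fun _ _ => rfl) σ (h28_embPerm q L (σ : L ≃+* L)) (fun _ => rfl) (h28_embPerm_comm q _)
  rw [hcount] at h
  exact h

end Fermat.Agent.S55
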