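import Mathlib
import Fermat.Agent.S55.h28_GlobActInst
import Fermat.Agent.S55.h28_HqProd
import Fermat.Agent.S55.h28_SemilocJqFinal

set_option autoImplicit false

/-!
# S55, GLOB: Herbrand indices of `Y_T = J_L × Div_T` (first inequality, step X2)

`L/K` number fields, `σ : L ≃ₐ[K] L` of prime order `p`, `S` a finite set of rational primes,
`T` a finite `σ`-stable set of primes of `L`.  In the carrier `h25_X L S = J_L × Div_L` of
`h25_GlobDefs` with the Galois action `h28_XAct` of `h28_GlobAct`: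

* `h28_YT L S T` : the subgroup of the `x` whose divisor is supported in `T`;
* `h28_YT_hq` : `[Y_T^σ : N Y_T] = p ^ #{w above S or in T : σ w = w}` and
  `ker N ∩ Y_T = D Y_T`, in the ambient Herbrand-index form `h92_hq`.

Proof: `Y_T = J_L ⊕ Div_T` (`h28_YT_eq_sup`, `h92_hq_sup`); `J_L = ∏_{q ∈ S} J_q(L)`
(`h28_hq_pi`) with `J_q(L)` the semi-local module of `h28_SemilocJqFinal`
(`h28_Jq_index_primes`); `Div_T` is a permutation module (`h28_finsupp_hq`); the exponents add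
up (`h28_count_YT`).
-/

open IsDedekindDomain NumberField Finset

namespace Fermat.Agent.S55

noncomputable section

attribute [local instance] h28_embAction

section Jq

variable {K : Type*} [Field K] (L : Type*) [Field L] [NumberField L] [Algebra K L]

omit [NumberField L] in
/-- `h25_Jq L q` is the group of `Γ_q`-equivariant functions of `h28_SemilocAbs`. -/
theorem h28_Jq_eq_eqv (q : ℕ) [Fact q.Prime] :
    h25_Jq L q
      = h28_eqv (PadicAlgCl q ≃ₐ[ℚ_[q]] PadicAlgCl q) (L →+* PadicAlgCl q) (PadicAlgCl q)ˣ := by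
  ext φ
  constructor
  · intro h τ j
    exact Units.ext (h τ j)
  · intro h τ j
    exact congrArg Units.val (h τ j)

/-- Pull-back on `J_q(L)` along a ring endomorphism of `L`. -/
def h28_Jqmap (q : ℕ) [Fact q.Prime] (f : L →+* L) : h25_Jq L q →* h25_Jq L q where
  toFun ψ := ⟨fun j => ψ.1 (j.comp f), fun τ j => by
    have h := ψ.2 τ (j.comp f)
    simpa [RingHom.comp_assoc] using h⟩
  map_one' := rfl
  map_mul' _ _ := rfl

variable {L}

omit [NumberField L] in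
theorem h28_Jqmap_apply (q : ℕ) [Fact q.Prime] (f : L →+* L) (ψ : h25_Jq L q)
    (j : L →+* PadicAlgCl q) : (h28_Jqmap L q f ψ).1 j = ψ.1 (j.comp f) := rfl

variable (L) in
/-- `σ - 1` on `J_q(L)`. -/
def h28_JqD (q : ℕ) [Fact q.Prime] (σ : L ≃ₐ[K] L) : h25_Jq L q →* h25_Jq L q :=
  h28_Jqmap L q (σ : L →+* L) / MonoidHom.id (h25_Jq L q)

variable (L) in
/-- `1 + σ + ... + σ^(p-1)` on `J_q(L)`. -/
def h28_JqN (q : ℕ) [Fact q.Prime] (σ : L ≃ₐ[K] L) (p : ℕ) : h25_Jq L q →* h25_Jq L q :=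
  ∏ k ∈ range p, h28_Jqmap L q ((σ ^ k : L ≃ₐ[K] L) : L →+* L)

omit [NumberField L] in
theorem h28_JqD_coe (q : ℕ) [Fact q.Prime] (σ : L ≃ₐ[K] L) (ψ : h25_Jq L q) :
    (h25_Jq L q).subtype (h28_JqD L q σ ψ)
      = h28_sD (PadicAlgCl q)ˣ (h28_embPerm q L (σ : L ≃+* L)) ((h25_Jq L q).subtype ψ) := by
  funext j
  rfl

omit [NumberField L] in
theorem h28_JqN_coe (q : ℕ) [Fact q.Prime] (σ : L ≃ₐ[K] L) (p : ℕ) (ψ : h25_Jq L q) :
    (h25_Jq L q).subtype (h28_JqN L q σ p ψ)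
      = h28_sN (PadicAlgCl q)ˣ (h28_embPerm q L (σ : L ≃+* L)) p ((h25_Jq L q).subtype ψ) := by
  funext j
  rw [h28_sN_apply, h28_JqN, MonoidHom.finsetProd_apply, Subgroup.subtype_apply,
    Subgroup.val_finsetProd, Finset.prod_apply]
  refine Finset.prod_congr rfl fun k _ => ?_
  rw [h28_Jqmap_apply, Subgroup.subtype_apply]
  have : j.comp ((σ ^ k : L ≃ₐ[K] L) : L →+* L) = ((h28_embPerm q L (σ : L ≃+* L)) ^ k) j := by
    ext x
    rw [h28_embPerm_pow_apply, h28_toRingEquiv_pow]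
    rfl
  rw [this]

omit [NumberField L] in
theorem h28_embPerm_pow_one (q : ℕ) [Fact q.Prime] {p : ℕ} (σ : L ≃ₐ[K] L) (hσp : σ ^ p = 1) :
    (h28_embPerm q L (σ : L ≃+* L)) ^ p = 1 := by
  apply h28_embPerm_pow_eq_one
  ext x
  rw [h28_toRingEquiv_pow, hσp]
  rfl

/-- Herbrand indices of `J_q(L)` (as the subtype `h25_Jq L q`). -/
theorem h28_Jq_hq (q : ℕ) [Fact q.Prime] {p : ℕ} (hp : p.Prime) (σ : L ≃ₐ[K] L)
    (hσp : σ ^ p = 1) (hσ1 : σ ≠ 1) :
    h92_hq (h28_JqD L q σ) (h28_JqN L q σ p) ⊤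
      = p ^ {w : HeightOneSpectrum (𝓞 L) |
          ((q : ℕ) : 𝓞 L) ∈ w.asIdeal ∧ h92_galPrime σ w = w}.ncard ∧
    h92_hq (h28_JqN L q σ p) (h28_JqD L q σ) ⊤ = 1 := by
  have h := h28_Jq_index_primes q hp σ hσp hσ1
  have htop : (⊤ : Subgroup (h25_Jq L q)).map (h25_Jq L q).subtype
      = h28_eqv (PadicAlgCl q ≃ₐ[ℚ_[q]] PadicAlgCl q) (L →+* PadicAlgCl q) (PadicAlgCl q)ˣ := by
    rw [← MonoidHom.range_eq_map, Subgroup.range_subtype, h28_Jq_eq_eqv]
  rw [← htop] at h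
  rw [h92_hq_map (h25_Jq L q).subtype (Subgroup.subtype_injective _) _ _ _ _
    (h28_JqN_coe q σ p) (h28_JqD_coe q σ) ⊤,
    h92_hq_map (h25_Jq L q).subtype (Subgroup.subtype_injective _) _ _ _ _
    (h28_JqD_coe q σ) (h28_JqN_coe q σ p) ⊤] at h
  exact ⟨h.2, h.1⟩

omit [NumberField L] in
theorem h28_JqD_JqN (q : ℕ) [Fact q.Prime] {p : ℕ} (σ : L ≃ₐ[K] L) (hσp : σ ^ p = 1)
    (ψ : h25_Jq L q) : h28_JqD L q σ (h28_JqN L q σ p ψ) = 1 := by
  apply Subgroup.subtype_injective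
  rw [h28_JqD_coe, h28_JqN_coe, h28_sD_sN _ (h28_embPerm_pow_one q σ hσp), map_one]

omit [NumberField L] in
theorem h28_JqN_JqD (q : ℕ) [Fact q.Prime] {p : ℕ} (σ : L ≃ₐ[K] L) (hσp : σ ^ p = 1)
    (ψ : h25_Jq L q) : h28_JqN L q σ p (h28_JqD L q σ ψ) = 1 := by
  apply Subgroup.subtype_injective
  rw [h28_JqN_coe, h28_JqD_coe, h28_sN_sD _ (h28_embPerm_pow_one q σ hσp), map_one]

end Jq

section Glob

variable {K : Type*} [Field K] (L : Type*) [Field L] [NumberField L] [Algebra K L]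
variable (S : Finset Nat.Primes)

/-- `σ - 1` on `J_L`. -/
def h28_JD (σ : L ≃ₐ[K] L) : h25_J L S →* h25_J L S :=
  h25_Jmap S (σ : L →+* L) / MonoidHom.id (h25_J L S)

/-- `1 + σ + ... + σ^(p-1)` on `J_L`. -/
def h28_JN (σ : L ≃ₐ[K] L) (p : ℕ) : h25_J L S →* h25_J L S :=
  ∏ k ∈ range p, h25_Jmap S ((σ ^ k : L ≃ₐ[K] L) : L →+* L)

omit [NumberField L] in
theorem h28_JD_apply (σ : L ≃ₐ[K] L) (φ : h25_J L S) (q : S) :
    h28_JD L S σ φ q = h28_JqD L q σ (φ q) := rfl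

omit [NumberField L] in
theorem h28_JN_apply (σ : L ≃ₐ[K] L) (p : ℕ) (φ : h25_J L S) (q : S) :
    h28_JN L S σ p φ q = h28_JqN L q σ p (φ q) := by
  rw [h28_JN, h28_JqN, MonoidHom.finsetProd_apply, MonoidHom.finsetProd_apply, Finset.prod_apply]
  rfl

/-- Herbrand indices of `J_L = ∏_{q ∈ S} J_q(L)`. -/
theorem h28_J_hq {p : ℕ} (hp : p.Prime) (σ : L ≃ₐ[K] L) (hσp : σ ^ p = 1) (hσ1 : σ ≠ 1) :
    h92_hq (h28_JD L S σ) (h28_JN L S σ p) ⊤
      = p ^ ∑ q : S, {w : HeightOneSpectrum (𝓞 L) |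
          ((((q : Nat.Primes) : ℕ) : 𝓞 L)) ∈ w.asIdeal ∧ h92_galPrime σ w = w}.ncard ∧
    h92_hq (h28_JN L S σ p) (h28_JD L S σ) ⊤ = 1 := by
  constructor
  · rw [h28_hq_pi (h28_JD L S σ) (h28_JN L S σ p) (fun q : S => h28_JqD L q σ)
      (fun q : S => h28_JqN L q σ p) (h28_JD_apply L S σ) (h28_JN_apply L S σ p)
      (fun q x => h28_JqD_JqN q σ hσp x),
      Finset.prod_congr rfl (fun q _ => (h28_Jq_hq (q : ℕ) hp σ hσp hσ1).1),
      Finset.prod_pow_eq_pow_sum]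
  · rw [h28_hq_pi (h28_JN L S σ p) (h28_JD L S σ) (fun q : S => h28_JqN L q σ p)
      (fun q : S => h28_JqD L q σ) (h28_JN_apply L S σ p) (h28_JD_apply L S σ)
      (fun q x => h28_JqN_JqD q σ hσp x)]
    exact Finset.prod_eq_one (fun q _ => (h28_Jq_hq (q : ℕ) hp σ hσp hσ1).2)

/-- `σ - 1` on `Div_L`. -/
def h28_DivD (σ : L ≃ₐ[K] L) : Multiplicative (h25_Div L S) →* Multiplicative (h25_Div L S) :=
  AddMonoidHom.toMultiplicative (h25_Dmap S (σ : L →+* L))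
    / MonoidHom.id (Multiplicative (h25_Div L S))

/-- `1 + σ + ... + σ^(p-1)` on `Div_L`. -/
def h28_DivN (σ : L ≃ₐ[K] L) (p : ℕ) :
    Multiplicative (h25_Div L S) →* Multiplicative (h25_Div L S) :=
  ∏ k ∈ range p, AddMonoidHom.toMultiplicative (h25_Dmap S ((σ ^ k : L ≃ₐ[K] L) : L →+* L))

theorem h28_inl_D (σ : L ≃ₐ[K] L) (φ : h25_J L S) :
    MonoidHom.inl (h25_J L S) (Multiplicative (h25_Div L S)) (h28_JD L S σ φ)
      = h92_mD σ (MonoidHom.inl (h25_J L S) (Multiplicative (h25_Div L S)) φ) := by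
  rw [h92_mD_apply, h28_smul_def]
  refine Prod.ext rfl ?_
  show (1 : Multiplicative (h25_Div L S))
    = AddMonoidHom.toMultiplicative (h25_Dmap S (σ : L →+* L)) 1 / 1
  rw [map_one, div_one]

theorem h28_inr_D (σ : L ≃ₐ[K] L) (m : Multiplicative (h25_Div L S)) :
    MonoidHom.inr (h25_J L S) (Multiplicative (h25_Div L S)) (h28_DivD L S σ m)
      = h92_mD σ (MonoidHom.inr (h25_J L S) (Multiplicative (h25_Div L S)) m) := by
  rw [h92_mD_apply, h28_smul_def]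
  refine Prod.ext ?_ rfl
  show (1 : h25_J L S) = h25_Jmap S (σ : L →+* L) 1 / 1
  rw [map_one, div_one]

theorem h28_inl_N (σ : L ≃ₐ[K] L) (p : ℕ) (φ : h25_J L S) :
    MonoidHom.inl (h25_J L S) (Multiplicative (h25_Div L S)) (h28_JN L S σ p φ)
      = h92_mN σ p (MonoidHom.inl (h25_J L S) (Multiplicative (h25_Div L S)) φ) := by
  rw [h92_mN_apply]
  refine Prod.ext ?_ ?_
  · rw [Prod.fst_prod, h28_JN, MonoidHom.finsetProd_apply]
    rfl
  · rw [Prod.snd_prod]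
    symm
    refine Finset.prod_eq_one fun k _ => ?_
    rw [h28_smul_def]
    exact map_one (AddMonoidHom.toMultiplicative (h25_Dmap S ((σ ^ k : L ≃ₐ[K] L) : L →+* L)))

theorem h28_inr_N (σ : L ≃ₐ[K] L) (p : ℕ) (m : Multiplicative (h25_Div L S)) :
    MonoidHom.inr (h25_J L S) (Multiplicative (h25_Div L S)) (h28_DivN L S σ p m)
      = h92_mN σ p (MonoidHom.inr (h25_J L S) (Multiplicative (h25_Div L S)) m) := by
  rw [h92_mN_apply]
  refine Prod.ext ?_ ?_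
  · rw [Prod.fst_prod]
    symm
    refine Finset.prod_eq_one fun k _ => ?_
    rw [h28_smul_def]
    exact map_one (h25_Jmap S ((σ ^ k : L ≃ₐ[K] L) : L →+* L))
  · rw [Prod.snd_prod, h28_DivN, MonoidHom.finsetProd_apply]
    rfl

/-- The permutation of the places prime to `S` induced by `σ⁻¹`. -/
def h28_plPerm (σ : L ≃ₐ[K] L) : Equiv.Perm (h25_Pl L S) where
  toFun := h28_plMap S σ⁻¹
  invFun := h28_plMap S σ
  left_inv v := by rw [← h28_plMap_mul, mul_inv_cancel, h28_plMap_one]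
  right_inv v := by rw [← h28_plMap_mul, inv_mul_cancel, h28_plMap_one]

theorem h28_plPerm_apply (σ : L ≃ₐ[K] L) (v : h25_Pl L S) :
    h28_plPerm L S σ v = h28_plMap S σ⁻¹ v := rfl

theorem h28_plPerm_pow (σ : L ≃ₐ[K] L) (k : ℕ) (v : h25_Pl L S) :
    ((h28_plPerm L S σ) ^ k) v = h28_plMap S (σ⁻¹ ^ k) v := by
  induction k generalizing v with
  | zero => rw [pow_zero, pow_zero, h28_plMap_one]; rfl
  | succ k ih =>
    rw [pow_succ', Equiv.Perm.mul_apply, ih, pow_succ', h28_plMap_mul, h28_plPerm_apply]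

theorem h28_Dmap_apply_inv (σ : L ≃ₐ[K] L) (d : h25_Div L S) (v : h25_Pl L S) :
    h25_Dmap S (σ : L →+* L) d v = d (h28_plMap S σ⁻¹ v) := by
  have := h28_Dmap_apply S σ d (h28_plMap S σ⁻¹ v)
  rwa [← h28_plMap_mul, mul_inv_cancel, h28_plMap_one] at this

theorem h28_DivD_apply (σ : L ≃ₐ[K] L) (m : Multiplicative (h25_Div L S)) (v : h25_Pl L S) :
    Multiplicative.toAdd (h28_DivD L S σ m) v
      = Multiplicative.toAdd m (h28_plPerm L S σ v) - Multiplicative.toAdd m v := by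
  show (h25_Dmap S (σ : L →+* L) (Multiplicative.toAdd m) - Multiplicative.toAdd m) v = _
  rw [Finsupp.sub_apply, h28_Dmap_apply_inv, h28_plPerm_apply]

theorem h28_DivN_apply (σ : L ≃ₐ[K] L) (p : ℕ) (m : Multiplicative (h25_Div L S))
    (v : h25_Pl L S) :
    Multiplicative.toAdd (h28_DivN L S σ p m) v
      = ∑ k ∈ range p, Multiplicative.toAdd m ((h28_plPerm L S σ ^ k) v) := by
  rw [h28_DivN, MonoidHom.finsetProd_apply, toAdd_prod, Finsupp.finsetSum_apply]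
  refine Finset.sum_congr rfl fun k _ => ?_
  show h25_Dmap S ((σ ^ k : L ≃ₐ[K] L) : L →+* L) (Multiplicative.toAdd m) v = _
  rw [h28_Dmap_apply_inv, h28_plPerm_pow, inv_pow]

/-- `Y_T = J_L × Div_T`: the elements of `X_L` whose divisor is supported in `T`. -/
def h28_YT (T : Set (HeightOneSpectrum (𝓞 L))) : Subgroup (h25_X L S) where
  carrier := {x | ∀ v : h25_Pl L S, v.1 ∉ T → Multiplicative.toAdd x.2 v = 0}
  one_mem' := fun _ _ => rfl
  mul_mem' := fun {a b} ha hb v hv => by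
    show (Multiplicative.toAdd a.2 + Multiplicative.toAdd b.2) v = 0
    rw [Finsupp.add_apply, ha v hv, hb v hv, add_zero]
  inv_mem' := fun {a} ha v hv => by
    show (- Multiplicative.toAdd a.2) v = 0
    rw [Finsupp.neg_apply, ha v hv, neg_zero]

omit [NumberField L] in
theorem h28_mem_YT (T : Set (HeightOneSpectrum (𝓞 L))) (x : h25_X L S) :
    x ∈ h28_YT L S T ↔ ∀ v : h25_Pl L S, v.1 ∉ T → Multiplicative.toAdd x.2 v = 0 := Iff.rfl

omit [NumberField L] in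
theorem h28_YT_eq_sup (T : Set (HeightOneSpectrum (𝓞 L))) :
    h28_YT L S T
      = (⊤ : Subgroup (h25_J L S)).map (MonoidHom.inl (h25_J L S) (Multiplicative (h25_Div L S)))
        ⊔ (h28_suppSub {v : h25_Pl L S | v.1 ∈ T}).map
            (MonoidHom.inr (h25_J L S) (Multiplicative (h25_Div L S))) := by
  apply le_antisymm
  · intro x hx
    have h2 : x = MonoidHom.inl (h25_J L S) (Multiplicative (h25_Div L S)) x.1
        * MonoidHom.inr (h25_J L S) (Multiplicative (h25_Div L S)) x.2 := by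
      refine Prod.ext ?_ ?_
      · show x.1 = x.1 * 1
        rw [mul_one]
      · show x.2 = 1 * x.2
        rw [one_mul]
    rw [h2]
    exact Subgroup.mul_mem_sup ⟨x.1, Subgroup.mem_top _, rfl⟩ ⟨x.2, hx, rfl⟩
  · apply sup_le
    · rintro _ ⟨φ, -, rfl⟩ v _
      rfl
    · rintro _ ⟨m, hm, rfl⟩ v hv
      exact hm v hv

omit [NumberField L] in
theorem h28_inl_inf_inr (T : Set (HeightOneSpectrum (𝓞 L))) :
    (⊤ : Subgroup (h25_J L S)).map (MonoidHom.inl (h25_J L S) (Multiplicative (h25_Div L S)))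
        ⊓ (h28_suppSub {v : h25_Pl L S | v.1 ∈ T}).map
            (MonoidHom.inr (h25_J L S) (Multiplicative (h25_Div L S))) = ⊥ := by
  rw [eq_bot_iff]
  rintro x ⟨⟨φ, -, rfl⟩, ⟨m, -, hm⟩⟩
  have h1 : (1 : h25_J L S) = φ := congrArg Prod.fst hm
  rw [Subgroup.mem_bot, ← h1]
  rfl

/-- Finitely many primes of `L` contain a given rational prime. -/
theorem h28_finite_above (q : Nat.Primes) :
    {w : HeightOneSpectrum (𝓞 L) | (((q : Nat.Primes) : ℕ) : 𝓞 L) ∈ w.asIdeal}.Finite := by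
  have h0 : Ideal.span {(((q : Nat.Primes) : ℕ) : 𝓞 L)} ≠ 0 := by
    rw [Ne, Ideal.zero_eq_bot, Ideal.span_singleton_eq_bot]
    exact Nat.cast_ne_zero.mpr q.2.ne_zero
  refine (Ideal.finite_factors h0).subset ?_
  intro w hw
  exact Ideal.dvd_span_singleton.mpr hw

omit [NumberField L] in
/-- A prime of `L` contains at most one rational prime. -/
theorem h28_above_unique {q q' : Nat.Primes} (hqq : q ≠ q') (w : HeightOneSpectrum (𝓞 L))
    (h : (((q : Nat.Primes) : ℕ) : 𝓞 L) ∈ w.asIdeal)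
    (h' : (((q' : Nat.Primes) : ℕ) : 𝓞 L) ∈ w.asIdeal) : False := by
  have hcop : Nat.Coprime (q : ℕ) (q' : ℕ) :=
    (Nat.coprime_primes q.2 q'.2).mpr (fun h => hqq (Subtype.ext h))
  obtain ⟨a, b, hab⟩ := Nat.isCoprime_iff_coprime.mpr hcop
  have h1 : ((a : ℤ) : 𝓞 L) * (((q : Nat.Primes) : ℕ) : 𝓞 L)
      + ((b : ℤ) : 𝓞 L) * (((q' : Nat.Primes) : ℕ) : 𝓞 L) = 1 := by
    have := congrArg (Int.cast : ℤ → 𝓞 L) hab
    push_cast at this
    exact this
  have h2 : (1 : 𝓞 L) ∈ w.asIdeal := by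
    rw [← h1]
    exact w.asIdeal.add_mem (w.asIdeal.mul_mem_left _ h) (w.asIdeal.mul_mem_left _ h')
  exact w.isPrime.ne_top ((Ideal.eq_top_iff_one _).mpr h2)

/-- Counting the stable primes above a finite set of rational primes. -/
theorem h28_count_above (σ : L ≃ₐ[K] L) (S' : Finset Nat.Primes) :
    {w : HeightOneSpectrum (𝓞 L) | (∃ q ∈ S', (((q : Nat.Primes) : ℕ) : 𝓞 L) ∈ w.asIdeal)
        ∧ h92_galPrime σ w = w}.Finite ∧
    ∑ q ∈ S', {w : HeightOneSpectrum (𝓞 L) |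
        (((q : Nat.Primes) : ℕ) : 𝓞 L) ∈ w.asIdeal ∧ h92_galPrime σ w = w}.ncard
      = {w : HeightOneSpectrum (𝓞 L) | (∃ q ∈ S', (((q : Nat.Primes) : ℕ) : 𝓞 L) ∈ w.asIdeal)
        ∧ h92_galPrime σ w = w}.ncard := by
  classical
  induction S' using Finset.induction_on with
  | empty =>
    have : {w : HeightOneSpectrum (𝓞 L) |
        (∃ q ∈ (∅ : Finset Nat.Primes), (((q : Nat.Primes) : ℕ) : 𝓞 L) ∈ w.asIdeal)
        ∧ h92_galPrime σ w = w} = ∅ := by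
      ext w
      simp
    rw [this]
    exact ⟨Set.finite_empty, by rw [Finset.sum_empty, Set.ncard_empty]⟩
  | insert a S' ha ih =>
    have hfa : {w : HeightOneSpectrum (𝓞 L) |
        (((a : Nat.Primes) : ℕ) : 𝓞 L) ∈ w.asIdeal ∧ h92_galPrime σ w = w}.Finite :=
      (h28_finite_above L a).subset (fun w hw => hw.1)
    have hU : {w : HeightOneSpectrum (𝓞 L) |
        (∃ q ∈ insert a S', (((q : Nat.Primes) : ℕ) : 𝓞 L) ∈ w.asIdeal)
        ∧ h92_galPrime σ w = w}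
        = {w : HeightOneSpectrum (𝓞 L) |
            (((a : Nat.Primes) : ℕ) : 𝓞 L) ∈ w.asIdeal ∧ h92_galPrime σ w = w}
          ∪ {w : HeightOneSpectrum (𝓞 L) |
            (∃ q ∈ S', (((q : Nat.Primes) : ℕ) : 𝓞 L) ∈ w.asIdeal) ∧ h92_galPrime σ w = w} := by
      ext w
      simp only [Set.mem_ofPred_eq, Set.mem_union, Finset.mem_insert]
      constructor
      · rintro ⟨⟨q, hq | hq, hqw⟩, hw⟩
        · subst hq
          exact Or.inl ⟨hqw, hw⟩
        · exact Or.inr ⟨⟨q, hq, hqw⟩, hw⟩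
      · rintro (⟨haw, hw⟩ | ⟨⟨q, hq, hqw⟩, hw⟩)
        · exact ⟨⟨a, Or.inl rfl, haw⟩, hw⟩
        · exact ⟨⟨q, Or.inr hq, hqw⟩, hw⟩
    have hdisj : Disjoint {w : HeightOneSpectrum (𝓞 L) |
            (((a : Nat.Primes) : ℕ) : 𝓞 L) ∈ w.asIdeal ∧ h92_galPrime σ w = w}
          {w : HeightOneSpectrum (𝓞 L) |
            (∃ q ∈ S', (((q : Nat.Primes) : ℕ) : 𝓞 L) ∈ w.asIdeal) ∧ h92_galPrime σ w = w} := by
      rw [Set.disjoint_left]
      rintro w ⟨haw, -⟩ ⟨⟨q, hq, hqw⟩, -⟩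
      exact h28_above_unique L (fun (h : a = q) => ha (by rw [h]; exact hq)) w haw hqw
    rw [hU, Finset.sum_insert ha, Set.ncard_union_eq hdisj hfa ih.1, ih.2]
    exact ⟨hfa.union ih.1, rfl⟩

/-- The exponent count: stable primes above `S` plus stable primes of `T` prime to `S`. -/
theorem h28_count_YT (σ : L ≃ₐ[K] L) (T : Set (HeightOneSpectrum (𝓞 L))) (hT : T.Finite) :
    ∑ q : S, {w : HeightOneSpectrum (𝓞 L) |
        ((((q : Nat.Primes) : ℕ) : 𝓞 L)) ∈ w.asIdeal ∧ h92_galPrime σ w = w}.ncard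
      + {v : h25_Pl L S | v ∈ {v : h25_Pl L S | v.1 ∈ T} ∧ h28_plPerm L S σ v = v}.ncard
      = {w : HeightOneSpectrum (𝓞 L) |
          (h25_above L S w ∨ w ∈ T) ∧ h92_galPrime σ w = w}.ncard := by
  have h1 := h28_count_above L σ S
  have hsum : ∑ q : S, {w : HeightOneSpectrum (𝓞 L) |
        ((((q : Nat.Primes) : ℕ) : 𝓞 L)) ∈ w.asIdeal ∧ h92_galPrime σ w = w}.ncard
      = ∑ q ∈ S, {w : HeightOneSpectrum (𝓞 L) |
        (((q : Nat.Primes) : ℕ) : 𝓞 L) ∈ w.asIdeal ∧ h92_galPrime σ w = w}.ncard :=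
    Finset.sum_coe_sort S (fun q : Nat.Primes => {w : HeightOneSpectrum (𝓞 L) |
        (((q : Nat.Primes) : ℕ) : 𝓞 L) ∈ w.asIdeal ∧ h92_galPrime σ w = w}.ncard)
  have himg : Subtype.val '' {v : h25_Pl L S | v ∈ {v : h25_Pl L S | v.1 ∈ T}
        ∧ h28_plPerm L S σ v = v}
      = {w : HeightOneSpectrum (𝓞 L) | ¬ h25_above L S w ∧ w ∈ T ∧ h92_galPrime σ w = w} := by
    ext w
    constructor
    · rintro ⟨v, ⟨hvT, hv⟩, rfl⟩
      refine ⟨v.2, hvT, ?_⟩
      have h2 : h92_galPrime σ⁻¹ v.1 = v.1 := congrArg Subtype.val hv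
      exact ((h92_galPrime_inv_eq_iff σ v.1 v.1).mp h2).symm
    · rintro ⟨hw1, hw2, hw3⟩
      refine ⟨⟨w, hw1⟩, ⟨hw2, ?_⟩, rfl⟩
      apply Subtype.ext
      show h92_galPrime σ⁻¹ w = w
      exact (h92_galPrime_inv_eq_iff σ w w).mpr hw3.symm
  have hfinT : {w : HeightOneSpectrum (𝓞 L) |
      ¬ h25_above L S w ∧ w ∈ T ∧ h92_galPrime σ w = w}.Finite :=
    hT.subset (fun w hw => hw.2.1)
  have hU : {w : HeightOneSpectrum (𝓞 L) | (h25_above L S w ∨ w ∈ T) ∧ h92_galPrime σ w = w}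
      = {w : HeightOneSpectrum (𝓞 L) | (∃ q ∈ S, (((q : Nat.Primes) : ℕ) : 𝓞 L) ∈ w.asIdeal)
          ∧ h92_galPrime σ w = w}
        ∪ {w : HeightOneSpectrum (𝓞 L) |
          ¬ h25_above L S w ∧ w ∈ T ∧ h92_galPrime σ w = w} := by
    ext w
    simp only [Set.mem_ofPred_eq, Set.mem_union]
    constructor
    · rintro ⟨h | h, hw⟩
      · exact Or.inl ⟨h, hw⟩
      · by_cases hab : h25_above L S w
        · exact Or.inl ⟨hab, hw⟩
        · exact Or.inr ⟨hab, h, hw⟩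
    · rintro (⟨h, hw⟩ | ⟨-, h, hw⟩)
      · exact ⟨Or.inl h, hw⟩
      · exact ⟨Or.inr h, hw⟩
  have hdisj : Disjoint {w : HeightOneSpectrum (𝓞 L) |
        (∃ q ∈ S, (((q : Nat.Primes) : ℕ) : 𝓞 L) ∈ w.asIdeal) ∧ h92_galPrime σ w = w}
      {w : HeightOneSpectrum (𝓞 L) | ¬ h25_above L S w ∧ w ∈ T ∧ h92_galPrime σ w = w} := by
    rw [Set.disjoint_left]
    rintro w ⟨h, -⟩ ⟨h', -⟩
    exact h' h
  rw [hU, Set.ncard_union_eq hdisj h1.1 hfinT, hsum, h1.2, ← himg,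
    Set.ncard_image_of_injective _ Subtype.val_injective]

/-- **Herbrand indices of `Y_T = J_L × Div_T`** for `σ` of prime order `p` and a finite
`σ`-stable set `T` of primes:
`[Y_T^σ : N Y_T] = p ^ #{w above S or in T : σ w = w}` and `ker N ∩ Y_T = D Y_T`. -/
theorem h28_YT_hq {p : ℕ} (hp : p.Prime) (σ : L ≃ₐ[K] L) (hσp : σ ^ p = 1) (hσ1 : σ ≠ 1)
    (T : Set (HeightOneSpectrum (𝓞 L))) (hT : T.Finite)
    (hTσ : ∀ w ∈ T, h92_galPrime σ w ∈ T) :
    h92_hq (h92_mD σ) (h92_mN σ p) (h28_YT L S T)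
      = p ^ {w : HeightOneSpectrum (𝓞 L) |
          (h25_above L S w ∨ w ∈ T) ∧ h92_galPrime σ w = w}.ncard ∧
    h92_hq (h92_mN σ p) (h92_mD σ) (h28_YT L S T) = 1 := by
  have hT'fin : {v : h25_Pl L S | v.1 ∈ T}.Finite := hT.preimage Subtype.val_injective.injOn
  have hσinv : σ⁻¹ = σ ^ (p - 1) := by
    apply inv_eq_of_mul_eq_one_right
    rw [← pow_succ', Nat.sub_add_cancel hp.one_le, hσp]
  have hTk : ∀ (k : ℕ) (w : HeightOneSpectrum (𝓞 L)), w ∈ T → h92_galPrime (σ ^ k) w ∈ T := by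
    intro k
    induction k with
    | zero => intro w hw; rwa [pow_zero, h92_galPrime_one]
    | succ k ih => intro w hw; rw [pow_succ', h92_galPrime_mul]; exact hTσ _ (ih w hw)
  have hT'π : ∀ v ∈ {v : h25_Pl L S | v.1 ∈ T}, h28_plPerm L S σ v ∈ {v : h25_Pl L S | v.1 ∈ T} := by
    intro v hv
    show h92_galPrime σ⁻¹ v.1 ∈ T
    rw [hσinv]
    exact hTk _ _ hv
  have hπp : h28_plPerm L S σ ^ p = 1 := by
    ext v : 1
    rw [h28_plPerm_pow, inv_pow, hσp, inv_one, h28_plMap_one]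
    rfl
  have hDiv := h28_finsupp_hq hp (h28_plPerm L S σ) hπp _ hT'fin hT'π (h28_DivD L S σ)
    (h28_DivN L S σ p) (h28_DivD_apply L S σ) (h28_DivN_apply L S σ p)
  have hstab := h28_suppSub_stable hp.pos (h28_plPerm L S σ) hπp _ hT'π (h28_DivD L S σ)
    (h28_DivN L S σ p) (h28_DivD_apply L S σ) (h28_DivN_apply L S σ p)
  have hJ := h28_J_hq L S hp σ hσp hσ1
  have hDA : ∀ x ∈ (⊤ : Subgroup (h25_J L S)).map
      (MonoidHom.inl (h25_J L S) (Multiplicative (h25_Div L S))),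
      h92_mD σ x ∈ (⊤ : Subgroup (h25_J L S)).map
        (MonoidHom.inl (h25_J L S) (Multiplicative (h25_Div L S))) := by
    rintro _ ⟨φ, -, rfl⟩
    exact ⟨_, Subgroup.mem_top _, h28_inl_D L S σ φ⟩
  have hNA : ∀ x ∈ (⊤ : Subgroup (h25_J L S)).map
      (MonoidHom.inl (h25_J L S) (Multiplicative (h25_Div L S))),
      h92_mN σ p x ∈ (⊤ : Subgroup (h25_J L S)).map
        (MonoidHom.inl (h25_J L S) (Multiplicative (h25_Div L S))) := by
    rintro _ ⟨φ, -, rfl⟩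
    exact ⟨_, Subgroup.mem_top _, h28_inl_N L S σ p φ⟩
  have hDB : ∀ x ∈ (h28_suppSub {v : h25_Pl L S | v.1 ∈ T}).map
      (MonoidHom.inr (h25_J L S) (Multiplicative (h25_Div L S))),
      h92_mD σ x ∈ (h28_suppSub {v : h25_Pl L S | v.1 ∈ T}).map
        (MonoidHom.inr (h25_J L S) (Multiplicative (h25_Div L S))) := by
    rintro _ ⟨m, hm, rfl⟩
    exact ⟨_, hstab.1 m hm, h28_inr_D L S σ m⟩
  have hNB : ∀ x ∈ (h28_suppSub {v : h25_Pl L S | v.1 ∈ T}).map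
      (MonoidHom.inr (h25_J L S) (Multiplicative (h25_Div L S))),
      h92_mN σ p x ∈ (h28_suppSub {v : h25_Pl L S | v.1 ∈ T}).map
        (MonoidHom.inr (h25_J L S) (Multiplicative (h25_Div L S))) := by
    rintro _ ⟨m, hm, rfl⟩
    exact ⟨_, hstab.2 m hm, h28_inr_N L S σ p m⟩
  have hinl : Function.Injective (MonoidHom.inl (h25_J L S) (Multiplicative (h25_Div L S))) :=
    fun a b h => congrArg Prod.fst h
  have hinr : Function.Injective (MonoidHom.inr (h25_J L S) (Multiplicative (h25_Div L S))) :=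
    fun a b h => congrArg Prod.snd h
  constructor
  · rw [h28_YT_eq_sup, h92_hq_sup _ _ (h28_inl_inf_inr L S T) hDA hNA hDB hNB (h92_mD_mN hσp),
      h92_hq_map _ hinl (h28_JD L S σ) (h28_JN L S σ p) _ _ (h28_inl_D L S σ)
        (h28_inl_N L S σ p) ⊤,
      h92_hq_map _ hinr (h28_DivD L S σ) (h28_DivN L S σ p) _ _ (h28_inr_D L S σ)
        (h28_inr_N L S σ p) _, hJ.1, hDiv.1, ← pow_add, h28_count_YT L S σ T hT]
  · rw [h28_YT_eq_sup, h92_hq_sup _ _ (h28_inl_inf_inr L S T) hNA hDA hNB hDB (h92_mN_mD hσp),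
      h92_hq_map _ hinl (h28_JN L S σ p) (h28_JD L S σ) _ _ (h28_inl_N L S σ p)
        (h28_inl_D L S σ) ⊤,
      h92_hq_map _ hinr (h28_DivN L S σ p) (h28_DivD L S σ) _ _ (h28_inr_N L S σ p)
        (h28_inr_D L S σ) _, hJ.2, hDiv.2]

end Glob

end

end Fermat.Agent.S55
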