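import Mathlib
import Fermat.Agent.S55.h25_GlobCFA
import Fermat.Agent.S55.h28_GlobY

/-!
# S55, GLOB layer: the class field axiom on `h25_C L S`, unconditional (row GLOB-CFA)

`h25_cfa` : for a Galois extension `L/K` of number fields of odd prime degree `p`, unramified
outside `S ≠ ∅`, and `1 ≠ σ ∈ Gal(L/K)`:
`[ker (σ - 1) : im N_σ] = p` and `ker N_σ ≤ im (σ - 1)` on `C_L = h25_C L S`.

Inputs: DESC (helper81, helper10), the second inequality (helper35), the first inequality
(helper92's `h92_glob_first_ineq_of` + helper28's Herbrand indices `h28_YT_hq`), assembled in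
`h25_cfa_of_Y`.
-/

set_option autoImplicit false

open IsDedekindDomain NumberField

namespace Fermat.Agent.S55

section CFA

variable {K : Type*} [Field K] [NumberField K] {L : Type*} [Field L] [NumberField L]
  [Algebra K L] (S : Finset Nat.Primes)

/-- **GLOB-CFA** (the class field axiom for cyclic layers of odd prime degree). -/
theorem h25_cfa (p : ℕ) (hp : p.Prime) (hp2 : p ≠ 2) [IsGalois K L]
    (hdeg : Module.finrank K L = p) (hS : S.Nonempty) (hur : h25_UnramOutside K L S)
    (σ : L ≃ₐ[K] L) (hσ : σ ≠ 1) :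
    ((h25_Nm S σ p).range).relIndex (h25_Dm S σ).ker = p ∧
      (h25_Nm S σ p).ker ≤ (h25_Dm S σ).range := by
  have hσp : σ ^ p = 1 := by
    have hcard : Nat.card (L ≃ₐ[K] L) = p := by
      rw [IsGalois.card_aut_eq_finrank, hdeg]
    rw [← hcard]
    exact pow_card_eq_one'
  refine h25_cfa_of_Y S p hp hp2 hdeg hS hur σ hσ ?_
  intro T hT hTσ hST
  have h := h28_YT_hq L S hp σ hσp hσ T hT hTσ
  have hY : h92_YT L S T = h28_YT L S T := Subgroup.ext fun _ => Iff.rfl
  rw [hY]
  have hset : {w : HeightOneSpectrum (𝓞 L) | (h25_above L S w ∨ w ∈ T) ∧ h92_galPrime σ w = w} =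
      {w | w ∈ T ∧ h92_galPrime σ w = w} := by
    ext w
    constructor
    · rintro ⟨h1 | h1, h2⟩
      · exact ⟨hST w h1, h2⟩
      · exact ⟨h1, h2⟩
    · rintro ⟨h1, h2⟩
      exact ⟨Or.inr h1, h2⟩
  rw [hset] at h
  exact h

end CFA

end Fermat.Agent.S55
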