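import Fermat.Agent.S14.NS
import Fermat.Agent.S14.FLD_Toolkit

/-!
# GLOB-VAL, arithmetic core (VAL-B): a prime whose norm is not in `μ_{p-1} · (1 + p ^ n ℤ_p)`

Setting: `F ⊆ F' ⊆ M` number fields, `M/F` and `F'/F` Galois, `ζ ∈ M` a primitive `p ^ n`-th root
of unity, and `F'` is fixed by every `σ ∈ Gal(M/F)` with `σ ζ = ζ ^ t`, `t ^ (p - 1) ≡ 1 mod p ^ n`
(e.g. `F' = F · Q_{n-1}`, the compositum with a layer of the cyclotomic `ℤ_p`-extension).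

* `h18_inertiaDeg_eq_one_of_modEq` : a prime `Q` of `F'` not above `p` whose restriction `P` to `F`
  satisfies `N(P) ^ (p - 1) ≡ 1 mod p ^ n` has residue degree one over `F`.
* `h18_exists_prime_absNorm_pow_not_modEq` : if `[F' : F] = p`, there is a prime `P` of `F` outside
  any given finite set, not above `p`, with `N(P) ^ (p - 1) ≢ 1 mod p ^ n`.
-/

namespace Fermat.Agent.S55

open NumberField Fermat.Agent.S14
open scoped Pointwise

variable (p : ℕ) [Fact p.Prime]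

omit [Fact p.Prime] in
theorem h18_inertiaDeg_eq_one_of_modEq (n : ℕ) (F F' M : Type*) [Field F] [NumberField F]
    [Field F'] [NumberField F'] [Field M] [NumberField M] [Algebra F F'] [Algebra F' M]
    [Algebra F M] [IsScalarTower F F' M] [IsGalois F F'] [IsGalois F M]
    (ζ : M) (hζ : IsPrimitiveRoot ζ (p ^ n))
    (hfix : ∀ (σ : M ≃ₐ[F] M) (t : ℕ), σ ζ = ζ ^ t → t ^ (p - 1) ≡ 1 [MOD p ^ n] →
      ∀ x : F', σ (algebraMap F' M x) = algebraMap F' M x)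
    (Q : Ideal (𝓞 F')) [Q.IsPrime] (hQ0 : Q ≠ ⊥) (hpQ : (p : 𝓞 F') ∉ Q)
    (hN : (Ideal.absNorm (Q.under (𝓞 F))) ^ (p - 1) ≡ 1 [MOD p ^ n]) :
    Q.inertiaDeg (𝓞 F) = 1 := by
  obtain ⟨𝔓, h𝔓prime, h𝔓Q⟩ := fldT_exists_over (E := F') (M := M) Q
  have h𝔓0 : 𝔓 ≠ ⊥ := by
    rintro rfl
    apply hQ0
    rw [← h𝔓Q]
    exact Ideal.under_bot _ _
  have hfin : Finite (𝓞 M ⧸ 𝔓) := Ideal.finiteQuotientOfFreeOfNeBot 𝔓 h𝔓0
  obtain ⟨σ, hσ⟩ := IsArithFrobAt.exists_of_isInvariant (𝓞 F) (M ≃ₐ[F] M) 𝔓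
  have hm : ((p ^ n : ℕ) : 𝓞 M) ∉ 𝔓 := by
    intro hmem
    rw [Nat.cast_pow] at hmem
    have h1 : (p : 𝓞 M) ∈ 𝔓 := h𝔓prime.mem_of_pow_mem n hmem
    apply hpQ
    rw [← h𝔓Q, Ideal.under_def, Ideal.mem_comap, map_natCast]
    exact h1
  have hz := fldT_frob_zeta (k := F) 𝔓 h𝔓0 σ hσ (p ^ n) hm ζ hζ.pow_eq_one
  have hunder : 𝔓.under (𝓞 F) = Q.under (𝓞 F) := by
    rw [← h𝔓Q, Ideal.under_under]
  rw [hunder] at hz
  have hfixσ := hfix σ _ hz hN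
  have h1 := h73_frob_restrictNormal (k := F) (E := F') 𝔓 σ hσ
  have hone : σ.restrictNormal F' = 1 := by
    ext x
    apply (algebraMap F' M).injective
    rw [AlgEquiv.restrictNormal_commutes, hfixσ]
    rfl
  rw [hone, h𝔓Q] at h1
  exact h73_inertiaDeg_eq_one_of_frob_one Q hQ0 h1

theorem h18_finite_primes_containing (F : Type*) [Field F] [NumberField F] (m : ℕ)
    (hm : m ≠ 0) : {P : Ideal (𝓞 F) | P.IsPrime ∧ (m : 𝓞 F) ∈ P}.Finite := by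
  have hne : (Ideal.span {(m : 𝓞 F)}) ≠ 0 := by
    rw [Ne, Ideal.zero_eq_bot, Ideal.span_singleton_eq_bot]
    exact_mod_cast hm
  refine ((Ideal.finite_factors hne).image
    (fun v : IsDedekindDomain.HeightOneSpectrum (𝓞 F) => v.asIdeal)).subset ?_
  rintro P ⟨hP, hmP⟩
  have hP0 : P ≠ ⊥ := by
    rintro rfl
    rw [Ideal.mem_bot] at hmP
    exact hm (by exact_mod_cast hmP)
  refine ⟨⟨P, hP, hP0⟩, ?_, rfl⟩
  rw [Set.mem_ofPred_eq, Ideal.dvd_iff_le, Ideal.span_singleton_le_iff_mem]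
  exact hmP

theorem h18_exists_prime_absNorm_pow_not_modEq (n : ℕ) (F F' M : Type*) [Field F] [NumberField F]
    [Field F'] [NumberField F'] [Field M] [NumberField M] [Algebra F F'] [Algebra F' M]
    [Algebra F M] [IsScalarTower F F' M] [IsGalois F F'] [IsGalois F M]
    (hdeg : Module.finrank F F' = p)
    (ζ : M) (hζ : IsPrimitiveRoot ζ (p ^ n))
    (hfix : ∀ (σ : M ≃ₐ[F] M) (t : ℕ), σ ζ = ζ ^ t → t ^ (p - 1) ≡ 1 [MOD p ^ n] →
      ∀ x : F', σ (algebraMap F' M x) = algebraMap F' M x)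
    (T : Set (Ideal (𝓞 F))) (hT : T.Finite) :
    ∃ P : Ideal (𝓞 F), P.IsPrime ∧ P ≠ ⊥ ∧ P ∉ T ∧ (p : 𝓞 F) ∉ P ∧
      ¬ (Ideal.absNorm P) ^ (p - 1) ≡ 1 [MOD p ^ n] := by
  have hpp : p.Prime := Fact.out
  have hT' : (T ∪ {P : Ideal (𝓞 F) | P.IsPrime ∧ (p : 𝓞 F) ∈ P}).Finite :=
    hT.union (h18_finite_primes_containing F p hpp.ne_zero)
  obtain ⟨P, hPprime, hP0, hPT, -, hunr, hns⟩ := exists_nonsplit_prime hpp hdeg _ hT'
  have hPT1 : P ∉ T := fun h => hPT (Or.inl h)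
  have hpP : (p : 𝓞 F) ∉ P := fun h => hPT (Or.inr ⟨hPprime, h⟩)
  refine ⟨P, hPprime, hP0, hPT1, hpP, fun hN => hns ?_⟩
  intro Q hQprime hQover
  refine ⟨hunr Q hQprime hQover, ?_⟩
  have hQ0 : Q ≠ ⊥ := h84_ne_bot_of_liesOver F F' P hP0 Q hQover
  have hpQ : (p : 𝓞 F') ∉ Q := by
    intro h
    apply hpP
    rw [hQover.over, Ideal.under_def, Ideal.mem_comap, map_natCast]
    exact h
  have hunder : Q.under (𝓞 F) = P := hQover.over.symm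
  exact h18_inertiaDeg_eq_one_of_modEq p n F F' M ζ hζ hfix Q hQ0 hpQ (by rw [hunder]; exact hN)

end Fermat.Agent.S55
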