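/-
S55 layer GLOB, row 354 GLOB-CF-V-ARITH (helper69): norms of primes of the fixed field of `H`
versus the degree map.

`L/ℚ` finite Galois containing a primitive `p^(n+1)`-th root of unity `ζ`, `deg : Gal(L/ℚ) → ℤ/p^n`
with `χ(σ)^(p-1) = (1+p)^(deg σ)` (`χ` = cyclotomic character mod `p^(n+1)`), `H ≤ Gal(L/ℚ)` with
`[ℤ/p^n : deg H] = p^a`, `F = L^H`:

* (A1) every prime `v ∤ p` of `F` has `N(v)^(p-1) ≡ 1 mod p^(a+1)`;
* (A2) if `deg H ≠ 0`, outside any finite set there is a prime `v ∤ p` of `F` with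
  `N(v)^(p-1) ≢ 1 mod p^(a+2)`.

(A1): a Frobenius element at `v` lies in `Gal(L/F) = H` and acts on `ζ` by `ζ ↦ ζ^(N v)`.
(A2): helper18's VAL-B (`h18_exists_prime_absNorm_pow_not_modEq`, from S14's non-split prime)
applied to the degree-`p` subextension cut out by `p^(a+1) ∣ deg`.
-/
import Mathlib
import Fermat.Agent.S14.NS
import Fermat.Agent.S14.FLD_Toolkit
import Fermat.Agent.S55.h18_ValB

set_option autoImplicit false

open IsDedekindDomain NumberField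

namespace Fermat.Agent.S55

open Fermat.Agent.S14

section ZModArith

variable (p : ℕ) [Fact p.Prime]

/-- Elements of a subgroup of index `p ^ a` of the cyclic group `ZMod (p ^ n)` are multiples of
`p ^ a`. -/
theorem h69_dvd_val_of_mem_of_index (n a : ℕ) (R : Subgroup (Multiplicative (ZMod (p ^ n))))
    (hR : R.index = p ^ a) (x : Multiplicative (ZMod (p ^ n))) (hx : x ∈ R) :
    p ^ a ∣ (Multiplicative.toAdd x).val := by
  have hpp : p.Prime := Fact.out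
  have : NeZero (p ^ n) := ⟨pow_ne_zero _ hpp.ne_zero⟩
  have hcardZ : Nat.card (Multiplicative (ZMod (p ^ n))) = p ^ n := by
    rw [Nat.card_eq_fintype_card, Fintype.card_multiplicative, ZMod.card]
  have hmul := R.card_mul_index
  rw [hR, hcardZ] at hmul
  have han : a ≤ n := (Nat.pow_dvd_pow_iff_le_right hpp.one_lt).1 ⟨_, by rw [← hmul, mul_comm]⟩
  have hcardR : Nat.card R = p ^ (n - a) := by
    have h1 : p ^ n = p ^ (n - a) * p ^ a := by rw [← pow_add, Nat.sub_add_cancel han]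
    exact Nat.eq_of_mul_eq_mul_right (pow_pos hpp.pos a) (hmul.trans h1)
  have hpow : x ^ (p ^ (n - a)) = 1 := by
    have h := pow_card_eq_one' (G := R) (x := ⟨x, hx⟩)
    rw [hcardR] at h
    exact congrArg Subtype.val h
  have h2 : (p ^ (n - a)) • (Multiplicative.toAdd x) = 0 := by
    rw [← toAdd_pow, hpow]; rfl
  rw [nsmul_eq_mul, ← ZMod.natCast_zmod_val (Multiplicative.toAdd x),
    ← Nat.cast_mul, ZMod.natCast_eq_zero_iff] at h2
  have h3 : p ^ (n - a) * p ^ a ∣ p ^ (n - a) * (Multiplicative.toAdd x).val := by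
    rw [← pow_add, Nat.sub_add_cancel han]; exact h2
  exact Nat.dvd_of_mul_dvd_mul_left (pow_pos hpp.pos _) h3

omit [Fact p.Prime] in
/-- `(1 + p) ^ d ≡ 1 mod p ^ (a + 1)` when `p ^ a ∣ d`. -/
theorem h69_one_add_pow_modEq (a d : ℕ) (hd : p ^ a ∣ d) :
    (1 + p) ^ d ≡ 1 [MOD p ^ (a + 1)] := by
  obtain ⟨m, rfl⟩ := hd
  have h1 : ((p : ℤ) ^ (a + 1)) ∣ ((1 + p : ℤ)) ^ p ^ a - 1 ^ p ^ a :=
    dvd_sub_pow_of_dvd_sub (R := ℤ) (p := p) (a := 1 + p) (b := 1) (by simp) a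
  have h2 : (1 + p) ^ p ^ a ≡ 1 [MOD p ^ (a + 1)] := by
    apply Nat.ModEq.symm
    rw [Nat.modEq_iff_dvd]
    push_cast
    rw [one_pow] at h1
    exact h1
  have h3 := h2.pow m
  rw [one_pow, ← pow_mul] at h3
  exact h3

/-- For odd `p`: `(1 + p) ^ d ≡ 1 mod p ^ (a + 2)` forces `p ^ (a + 1) ∣ d`. -/
theorem h69_dvd_of_one_add_pow_modEq (hp2 : p ≠ 2) (a d : ℕ)
    (h : (1 + p) ^ d ≡ 1 [MOD p ^ (a + 2)]) : p ^ (a + 1) ∣ d := by
  have hpp : p.Prime := Fact.out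
  have ho := ZMod.orderOf_one_add_prime hpp hp2 (a + 1)
  have h1 : ((1 : ZMod (p ^ (a + 1 + 1))) + p) ^ d = 1 := by
    have := (ZMod.natCast_eq_natCast_iff _ _ _).2 h
    push_cast at this
    exact this
  rw [← ho]
  exact orderOf_dvd_of_pow_eq_one h1

end ZModArith

section Core

variable (p : ℕ) [Fact p.Prime]

/-- `a ≤ n` for a subgroup of index `p ^ a` of `ZMod (p ^ n)`, and its cardinality. -/
theorem h69_card_of_index (n a : ℕ) (R : Subgroup (Multiplicative (ZMod (p ^ n))))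
    (hR : R.index = p ^ a) : a ≤ n ∧ Nat.card R = p ^ (n - a) := by
  have hpp : p.Prime := Fact.out
  have : NeZero (p ^ n) := ⟨pow_ne_zero _ hpp.ne_zero⟩
  have hcardZ : Nat.card (Multiplicative (ZMod (p ^ n))) = p ^ n := by
    rw [Nat.card_eq_fintype_card, Fintype.card_multiplicative, ZMod.card]
  have hmul := R.card_mul_index
  rw [hR, hcardZ] at hmul
  have han : a ≤ n := (Nat.pow_dvd_pow_iff_le_right hpp.one_lt).1 ⟨_, by rw [← hmul, mul_comm]⟩
  have h1 : p ^ n = p ^ (n - a) * p ^ a := by rw [← pow_add, Nat.sub_add_cancel han]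
  exact ⟨han, Nat.eq_of_mul_eq_mul_right (pow_pos hpp.pos a) (hmul.trans h1)⟩

/-- Powers of a primitive root agree iff the exponents are congruent. -/
theorem h69_modEq_of_pow_eq {M : Type*} [Field M] {ξ : M} {k : ℕ} (hξ : IsPrimitiveRoot ξ k)
    (hk : 0 < k) {s t : ℕ} (h : ξ ^ s = ξ ^ t) : s ≡ t [MOD k] := by
  have hξ0 : ξ ≠ 0 := hξ.ne_zero hk.ne'
  have h1 : ξ ^ ((t : ℤ) - (s : ℤ)) = 1 := by
    rw [zpow_sub₀ hξ0, zpow_natCast, zpow_natCast, h, div_self (pow_ne_zero _ hξ0)]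
  exact (Nat.modEq_iff_dvd).2 ((hξ.zpow_eq_one_iff_dvd _).1 h1)

/-- A Frobenius element at a prime `P` of `k` not dividing `m`: `σ ζ = ζ ^ N(P)` for every
`m`-th root of unity `ζ` of `L`. -/
theorem h69_exists_frob_zeta (k L : Type*) [Field k] [NumberField k] [Field L] [NumberField L]
    [Algebra k L] [IsGalois k L] (m : ℕ) (ζ : L) (hζ : ζ ^ m = 1)
    (P : Ideal (𝓞 k)) [P.IsPrime] (hP0 : P ≠ ⊥) (hmP : (m : 𝓞 k) ∉ P) :
    ∃ σ : L ≃ₐ[k] L, σ ζ = ζ ^ Ideal.absNorm P := by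
  obtain ⟨𝔓, h𝔓prime, h𝔓P⟩ := fldT_exists_over (E := k) (M := L) P
  have h𝔓0 : 𝔓 ≠ ⊥ := by
    rintro rfl
    apply hP0
    rw [← h𝔓P]
    exact Ideal.under_bot _ _
  have hfin : Finite (𝓞 L ⧸ 𝔓) := Ideal.finiteQuotientOfFreeOfNeBot 𝔓 h𝔓0
  obtain ⟨σ, hσ⟩ := IsArithFrobAt.exists_of_isInvariant (𝓞 k) (L ≃ₐ[k] L) 𝔓
  have hm : (m : 𝓞 L) ∉ 𝔓 := by
    intro hmem
    apply hmP
    rw [← h𝔓P, Ideal.under_def, Ideal.mem_comap, map_natCast]
    exact hmem
  have hz := fldT_frob_zeta (k := k) 𝔓 h𝔓0 σ hσ m hm ζ hζ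
  rw [h𝔓P] at hz
  exact ⟨σ, hz⟩

/-- (A1), core form over an arbitrary base number field `k`. -/
theorem h69_cfV_core_A1 (k L : Type*) [Field k] [NumberField k] [Field L] [NumberField L]
    [Algebra k L] [IsGalois k L] (n : ℕ) (ζ : L) (hζ : IsPrimitiveRoot ζ (p ^ (n + 1)))
    (φ : (L ≃ₐ[k] L) →* Multiplicative (ZMod (p ^ n)))
    (hφ : ∀ (σ : L ≃ₐ[k] L) (t : ℕ), σ ζ = ζ ^ t →
      (t : ZMod (p ^ (n + 1))) ^ (p - 1)
        = (1 + (p : ZMod (p ^ (n + 1)))) ^ (Multiplicative.toAdd (φ σ)).val)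
    (a : ℕ) (ha : φ.range.index = p ^ a)
    (P : Ideal (𝓞 k)) [P.IsPrime] (hP0 : P ≠ ⊥) (hpP : (p : 𝓞 k) ∉ P) :
    Ideal.absNorm P ^ (p - 1) ≡ 1 [MOD p ^ (a + 1)] := by
  have hmP : ((p ^ (n + 1) : ℕ) : 𝓞 k) ∉ P := by
    intro h
    rw [Nat.cast_pow] at h
    exact hpP (Ideal.IsPrime.mem_of_pow_mem inferInstance _ h)
  obtain ⟨σ, hσ⟩ := h69_exists_frob_zeta k L (p ^ (n + 1)) ζ hζ.pow_eq_one P hP0 hmP
  have h1 := hφ σ _ hσ
  have hd := h69_dvd_val_of_mem_of_index p n a φ.range ha (φ σ) ⟨σ, rfl⟩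
  have han : a ≤ n := (h69_card_of_index p n a φ.range ha).1
  have h2 : Ideal.absNorm P ^ (p - 1) ≡ (1 + p) ^ (Multiplicative.toAdd (φ σ)).val
      [MOD p ^ (n + 1)] := by
    rw [← ZMod.natCast_eq_natCast_iff]
    push_cast
    exact h1
  have h3 := h2.of_dvd (pow_dvd_pow p (Nat.succ_le_succ han))
  exact h3.trans (h69_one_add_pow_modEq p a _ hd)

/-- (A2), core form over an arbitrary base number field `k`. -/
theorem h69_cfV_core_A2 (hp2 : p ≠ 2) (k L : Type*) [Field k] [NumberField k] [Field L]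
    [NumberField L] [Algebra k L] [IsGalois k L] (n : ℕ) (ζ : L)
    (hζ : IsPrimitiveRoot ζ (p ^ (n + 1)))
    (φ : (L ≃ₐ[k] L) →* Multiplicative (ZMod (p ^ n)))
    (hφ : ∀ (σ : L ≃ₐ[k] L) (t : ℕ), σ ζ = ζ ^ t →
      (t : ZMod (p ^ (n + 1))) ^ (p - 1)
        = (1 + (p : ZMod (p ^ (n + 1)))) ^ (Multiplicative.toAdd (φ σ)).val)
    (a : ℕ) (ha : φ.range.index = p ^ a) (hne : φ.range ≠ ⊥)
    (T : Set (Ideal (𝓞 k))) (hT : T.Finite) :
    ∃ P : Ideal (𝓞 k), P.IsPrime ∧ P ≠ ⊥ ∧ P ∉ T ∧ (p : 𝓞 k) ∉ P ∧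
      ¬ Ideal.absNorm P ^ (p - 1) ≡ 1 [MOD p ^ (a + 2)] := by
  classical
  have hpp : p.Prime := Fact.out
  obtain ⟨han, hcardR⟩ := h69_card_of_index p n a φ.range ha
  -- `a < n`
  have han' : a < n := by
    rcases lt_or_eq_of_le han with h | h
    · exact h
    · exfalso
      rw [h, Nat.sub_self, pow_zero] at hcardR
      exact hne (Subgroup.card_eq_one.1 hcardR)
  have : NeZero (p ^ n) := ⟨pow_ne_zero _ hpp.ne_zero⟩
  have : NeZero (p ^ (a + 1)) := ⟨pow_ne_zero _ hpp.ne_zero⟩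
  -- reduction mod `p ^ (a + 1)`
  let red : Multiplicative (ZMod (p ^ n)) →* Multiplicative (ZMod (p ^ (a + 1))) :=
    AddMonoidHom.toMultiplicative
      (ZMod.castHom (pow_dvd_pow p han') (ZMod (p ^ (a + 1)))).toAddMonoidHom
  have hred : ∀ x : Multiplicative (ZMod (p ^ n)),
      Multiplicative.toAdd (red x) = (((Multiplicative.toAdd x).val : ℕ) : ZMod (p ^ (a + 1))) := by
    intro x
    show ZMod.castHom (pow_dvd_pow p han') (ZMod (p ^ (a + 1))) (Multiplicative.toAdd x) = _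
    rw [ZMod.castHom_apply, ZMod.natCast_val]
  have hred1 : ∀ x : Multiplicative (ZMod (p ^ n)),
      red x = 1 ↔ p ^ (a + 1) ∣ (Multiplicative.toAdd x).val := by
    intro x
    rw [← ZMod.natCast_eq_zero_iff, ← hred]
    exact ⟨fun h => by rw [h]; rfl, fun h => Multiplicative.toAdd.injective (by rw [h]; rfl)⟩
  let ψ : (L ≃ₐ[k] L) →* Multiplicative (ZMod (p ^ (a + 1))) := red.comp φ
  -- every value of `ψ` is killed by `p`
  have hψp : ∀ σ, ψ σ ^ p = 1 := by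
    intro σ
    have hd := h69_dvd_val_of_mem_of_index p n a φ.range ha (φ σ) ⟨σ, rfl⟩
    apply Multiplicative.toAdd.injective
    rw [toAdd_pow]
    show p • Multiplicative.toAdd (red (φ σ)) = 0
    rw [hred, nsmul_eq_mul, ← Nat.cast_mul, ZMod.natCast_eq_zero_iff, pow_succ']
    exact Nat.mul_dvd_mul_left p hd
  -- `ψ` is not trivial
  have hψne : ∃ σ, ψ σ ≠ 1 := by
    by_contra hcon
    have hall : ∀ σ, ψ σ = 1 := fun σ => by
      by_contra h
      exact hcon ⟨σ, h⟩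
    have hexp : ∀ g : φ.range, g ^ (p ^ (n - a - 1)) = 1 := by
      rintro ⟨x, σ, rfl⟩
      apply Subtype.ext
      have hd : p ^ (a + 1) ∣ (Multiplicative.toAdd (φ σ)).val := (hred1 _).1 (hall σ)
      show φ σ ^ (p ^ (n - a - 1)) = 1
      apply Multiplicative.toAdd.injective
      rw [toAdd_pow]
      show (p ^ (n - a - 1)) • Multiplicative.toAdd (φ σ) = 0
      rw [nsmul_eq_mul, ← ZMod.natCast_zmod_val (Multiplicative.toAdd (φ σ)), ← Nat.cast_mul,
        ZMod.natCast_eq_zero_iff]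
      have h1 : p ^ n = p ^ (n - a - 1) * p ^ (a + 1) := by
        rw [← pow_add]; congr 1; omega
      exact (dvd_of_eq h1).trans (Nat.mul_dvd_mul_left _ hd)
    have h1 := Monoid.exponent_dvd_of_forall_pow_eq_one hexp
    rw [IsCyclic.exponent_eq_card, hcardR] at h1
    have h2 := (Nat.pow_dvd_pow_iff_le_right hpp.one_lt).1 h1
    omega
  -- the range of `ψ` has `p` elements
  have hcardψ : Nat.card ψ.range = p := by
    have hexp : ∀ g : ψ.range, g ^ p = 1 := by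
      rintro ⟨x, σ, rfl⟩
      exact Subtype.ext (hψp σ)
    have h1 := Monoid.exponent_dvd_of_forall_pow_eq_one hexp
    rw [IsCyclic.exponent_eq_card] at h1
    rcases (Nat.dvd_prime hpp).1 h1 with h | h
    · exfalso
      obtain ⟨σ, hσ⟩ := hψne
      have hbot : ψ.range = ⊥ := Subgroup.card_eq_one.1 h
      have : ψ σ ∈ ψ.range := ⟨σ, rfl⟩
      rw [hbot, Subgroup.mem_bot] at this
      exact hσ this
    · exact h
  -- the degree-`p` subextension
  have hnormal : ψ.ker.Normal := MonoidHom.normal_ker ψ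
  have hdegF : Module.finrank k ↥(IntermediateField.fixedField ψ.ker) = p := by
    rw [IntermediateField.finrank_eq_fixingSubgroup_index,
      IntermediateField.fixingSubgroup_fixedField, Subgroup.index_ker, hcardψ]
  -- the primitive `p ^ (a + 2)`-th root of unity
  have hζ' : IsPrimitiveRoot (ζ ^ (p ^ (n - a - 1))) (p ^ (a + 2)) := by
    refine IsPrimitiveRoot.pow (pow_pos hpp.pos _) hζ ?_
    rw [← pow_add]; congr 1; omega
  have hfix : ∀ (σ : L ≃ₐ[k] L) (t : ℕ),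
      σ (ζ ^ (p ^ (n - a - 1))) = (ζ ^ (p ^ (n - a - 1))) ^ t →
      t ^ (p - 1) ≡ 1 [MOD p ^ (a + 2)] →
      ∀ x : ↥(IntermediateField.fixedField ψ.ker),
        σ (algebraMap ↥(IntermediateField.fixedField ψ.ker) L x)
          = algebraMap ↥(IntermediateField.fixedField ψ.ker) L x := by
    intro σ t hσt ht x
    have : NeZero (p ^ (n + 1)) := ⟨pow_ne_zero _ hpp.ne_zero⟩
    -- `σ ζ = ζ ^ s`
    have hσζ : (σ ζ) ^ (p ^ (n + 1)) = 1 := by
      rw [← map_pow, hζ.pow_eq_one, map_one]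
    obtain ⟨s, -, hs⟩ := hζ.eq_pow_of_pow_eq_one hσζ
    -- `s ≡ t mod p ^ (a + 2)`
    have hst : s ≡ t [MOD p ^ (a + 2)] := by
      apply h69_modEq_of_pow_eq hζ' (pow_pos hpp.pos _)
      rw [← hσt, map_pow, ← hs, ← pow_mul, ← pow_mul, mul_comm]
    have h1 := hφ σ s hs.symm
    have h2 : s ^ (p - 1) ≡ (1 + p) ^ (Multiplicative.toAdd (φ σ)).val [MOD p ^ (n + 1)] := by
      rw [← ZMod.natCast_eq_natCast_iff]
      push_cast
      exact h1
    have h3 := h2.of_dvd (pow_dvd_pow p (show a + 2 ≤ n + 1 by omega))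
    have h4 : (1 + p) ^ (Multiplicative.toAdd (φ σ)).val ≡ 1 [MOD p ^ (a + 2)] :=
      h3.symm.trans ((hst.pow (p - 1)).trans ht)
    have h5 := h69_dvd_of_one_add_pow_modEq p hp2 a _ h4
    have hmem : σ ∈ ψ.ker := by
      rw [MonoidHom.mem_ker]
      exact (hred1 _).2 h5
    exact x.2 ⟨σ, hmem⟩
  exact h18_exists_prime_absNorm_pow_not_modEq p (a + 2) k
    ↥(IntermediateField.fixedField ψ.ker) L hdegF (ζ ^ (p ^ (n - a - 1))) hζ' hfix T hT

end Core

section Main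

/-- **GLOB-CF-V-ARITH.** -/
theorem h69_cfV_arith (p : ℕ) [Fact p.Prime] (hp2 : p ≠ 2) (L : Type*) [Field L] [NumberField L]
    [IsGalois ℚ L] (n : ℕ) (ζ : L) (hζ : IsPrimitiveRoot ζ (p ^ (n + 1)))
    (deg : (L ≃ₐ[ℚ] L) →* Multiplicative (ZMod (p ^ n)))
    (hdeg : ∀ (σ : L ≃ₐ[ℚ] L) (t : ℕ), σ ζ = ζ ^ t →
      (t : ZMod (p ^ (n + 1))) ^ (p - 1) =
        (1 + (p : ZMod (p ^ (n + 1)))) ^ (Multiplicative.toAdd (deg σ)).val)
    (H : Subgroup (L ≃ₐ[ℚ] L)) (a : ℕ) (ha : (H.map deg).index = p ^ a) :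
    (∀ v : HeightOneSpectrum (𝓞 (IntermediateField.fixedField H)),
        (p : 𝓞 (IntermediateField.fixedField H)) ∉ v.asIdeal →
        Ideal.absNorm v.asIdeal ^ (p - 1) ≡ 1 [MOD p ^ (a + 1)]) ∧
    (H.map deg ≠ ⊥ → ∀ T : Set (HeightOneSpectrum (𝓞 (IntermediateField.fixedField H))),
      T.Finite → ∃ v : HeightOneSpectrum (𝓞 (IntermediateField.fixedField H)), v ∉ T ∧
        (p : 𝓞 (IntermediateField.fixedField H)) ∉ v.asIdeal ∧
        ¬ Ideal.absNorm v.asIdeal ^ (p - 1) ≡ 1 [MOD p ^ (a + 2)]) := by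
  -- `Gal(L/F) → Gal(L/ℚ)` with image `H`
  let ρ : (L ≃ₐ[↥(IntermediateField.fixedField H)] L) →* (L ≃ₐ[ℚ] L) :=
    AlgEquiv.restrictScalarsHom ℚ
  have hρ : ρ.range = H := by
    ext h
    constructor
    · rintro ⟨σ, rfl⟩
      have hmem : ρ σ ∈ (IntermediateField.fixedField H).fixingSubgroup := by
        rw [IntermediateField.mem_fixingSubgroup_iff]
        intro x hx
        exact σ.commutes ⟨x, hx⟩
      exact (IntermediateField.fixingSubgroup_fixedField H).le hmem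
    · intro hh
      have hh' : h ∈ (IntermediateField.fixedField H).fixingSubgroup := by
        rw [IntermediateField.fixingSubgroup_fixedField]; exact hh
      refine ⟨IntermediateField.fixingSubgroupEquiv (IntermediateField.fixedField H) ⟨h, hh'⟩, ?_⟩
      ext x
      rfl
  let φ : (L ≃ₐ[↥(IntermediateField.fixedField H)] L) →* Multiplicative (ZMod (p ^ n)) :=
    deg.comp ρ
  have hrange : φ.range = H.map deg := by
    rw [MonoidHom.range_comp, hρ]
  have hφ : ∀ (σ : L ≃ₐ[↥(IntermediateField.fixedField H)] L) (t : ℕ), σ ζ = ζ ^ t →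
      (t : ZMod (p ^ (n + 1))) ^ (p - 1)
        = (1 + (p : ZMod (p ^ (n + 1)))) ^ (Multiplicative.toAdd (φ σ)).val :=
    fun σ t h => hdeg (ρ σ) t h
  have ha' : φ.range.index = p ^ a := by rw [hrange]; exact ha
  refine ⟨?_, ?_⟩
  · intro v hv
    have := v.isPrime
    exact h69_cfV_core_A1 p ↥(IntermediateField.fixedField H) L n ζ hζ φ hφ a ha'
      v.asIdeal v.ne_bot hv
  · intro hne T hT
    have hne' : φ.range ≠ ⊥ := by rw [hrange]; exact hne
    obtain ⟨P, hPprime, hP0, hPT, hpP, hN⟩ :=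
      h69_cfV_core_A2 p hp2 ↥(IntermediateField.fixedField H) L n ζ hζ φ hφ a ha' hne'
        ((fun v : HeightOneSpectrum (𝓞 (IntermediateField.fixedField H)) => v.asIdeal) '' T)
        (hT.image _)
    refine ⟨⟨P, hPprime, hP0⟩, ?_, hpP, hN⟩
    intro hmem
    exact hPT ⟨_, hmem, rfl⟩

end Main

end Fermat.Agent.S55
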