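import Fermat.Agent.S55.h73_GlobCFV
import Fermat.Agent.S55.h69_CFVArith

/-!
# S55 row 355 (GLOB-CF-V), helper73: the unconditional row statement

`h73_glob_cf_V` = `sk_glob_cf_V` of the GLOB-VAL skeleton, verbatim:
`h73_glob_cf_V_of_arith` applied to the arithmetic row GLOB-CF-V-ARITH (`h69_cfV_arith`).
-/

set_option autoImplicit false

open IsDedekindDomain NumberField

namespace Fermat.Agent.S55

/-- **GLOB-CF-V**: honest (V1), (V2) of `h30_CFData` for `Gal(L/ℚ)` acting on `h25_C L S` with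
`w = h25_wC`. -/
theorem h73_glob_cf_V (L : Type*) [Field L] [NumberField L] [IsGalois ℚ L]
    (S : Finset Nat.Primes) (P : S) (hp2 : ((P : Nat.Primes) : ℕ) ≠ 2)
    (hur : h25_UnramOutside ℚ L S) (n : ℕ) (ζ : L)
    (hζ : IsPrimitiveRoot ζ (((P : Nat.Primes) : ℕ) ^ (n + 1)))
    (deg : (L ≃ₐ[ℚ] L) →* Multiplicative (ZMod (((P : Nat.Primes) : ℕ) ^ n)))
    (hdeg : ∀ (σ : L ≃ₐ[ℚ] L) (t : ℕ), σ ζ = ζ ^ t →
      (t : ZMod (((P : Nat.Primes) : ℕ) ^ (n + 1))) ^ (((P : Nat.Primes) : ℕ) - 1) =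
        (1 + (((P : Nat.Primes) : ℕ) : ZMod (((P : Nat.Primes) : ℕ) ^ (n + 1)))) ^
          (Multiplicative.toAdd (deg σ)).val) :
    (∀ (H : Subgroup (L ≃ₐ[ℚ] L)) (c : h25_C L S),
        (∀ h ∈ H, h25_Cmap S ((h : L ≃ₐ[ℚ] L) : L →+* L) c = c) →
        ∃ y : h18_U1 ((P : Nat.Primes) : ℕ),
          h25_wC L S P c = y ^ (Nat.card H * (H.map deg).index)) ∧
    (∀ H : Subgroup (L ≃ₐ[ℚ] L), H.map deg ≠ ⊥ → ∃ c : h25_C L S,
        (∀ h ∈ H, h25_Cmap S ((h : L ≃ₐ[ℚ] L) : L →+* L) c = c) ∧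
        ¬ ∃ y : h18_U1 ((P : Nat.Primes) : ℕ),
          h25_wC L S P c = y ^ (((P : Nat.Primes) : ℕ) * (Nat.card H * (H.map deg).index))) :=
  h73_glob_cf_V_of_arith L S P hp2 hur n deg
    (fun H a ha => h69_cfV_arith ((P : Nat.Primes) : ℕ) hp2 L n ζ hζ deg hdeg H a ha)

end Fermat.Agent.S55
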