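import Fermat.Agent.S55.h18_U1

/-!
# GLOB-VAL, arithmetic cores VAL-TF and VAL-PF

* `h18_U1_pow_eq_one` : `U1 = 1 + p ℤ_p` is torsion-free (`p` odd).
* `h18_natU1 p m : h18_U1 p` : the element `m ^ (p - 1)` of `U1` for a natural number `m` prime
  to `p` (and `1` otherwise); multiplicative on numbers prime to `p`.
* `h18_natU1_pow_iff` : `m ^ (p - 1) ∈ U1 ^ (p ^ a)` iff `m ^ (p - 1) ≡ 1 mod p ^ (a + 1)`.
* `h18_vp_of_eq` / `h18_vp_neg_one` / `h18_vp_rat` : the values of `v_p` on `ℚˣ`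
  (product formula in the form `v_p(± p ^ k * a / b) = a ^ (p - 1) / b ^ (p - 1)`).
-/

namespace Fermat.Agent.S55

variable (p : ℕ) [Fact p.Prime]

/-- `U1` is torsion-free (`p` odd). -/
theorem h18_U1_pow_eq_one (hp : p ≠ 2) (y : ℤ_[p]ˣ) (hy : y ∈ h18_U1 p) (m : ℕ) (hm : m ≠ 0)
    (hym : y ^ m = 1) : y = 1 := by
  have hpp : p.Prime := Fact.out
  obtain ⟨k, m', hm', rfl⟩ := Nat.exists_eq_pow_mul_and_not_dvd hm p hpp.ne_one
  -- first kill the `p`-part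
  have h1 : y ^ m' = 1 := by
    have hmem : y ^ m' ∈ h18_U1 p := pow_mem hy m'
    have : ∀ j : ℕ, ∀ z : ℤ_[p]ˣ, z ∈ h18_U1 p → z ^ (p ^ j) = 1 → z = 1 := by
      intro j
      induction j with
      | zero => intro z _ hz; simpa using hz
      | succ j ih =>
        intro z hz hzp
        have : (z ^ p) ^ (p ^ j) = 1 := by rw [← pow_mul, ← pow_succ']; exact hzp
        have h2 := ih (z ^ p) (pow_mem hz p) this
        exact h18_U1_torsionFree p hp z hz h2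
    apply this k (y ^ m') hmem
    rw [← pow_mul, mul_comm]; exact hym
  -- now `p ∤ m'`
  have hsum : IsUnit (∑ i ∈ Finset.range m', (y : ℤ_[p]) ^ i) := by
    by_contra hnu
    have hmem : (∑ i ∈ Finset.range m', (y : ℤ_[p]) ^ i) ∈ IsLocalRing.maximalIdeal ℤ_[p] :=
      (IsLocalRing.mem_maximalIdeal _).2 hnu
    rw [← PadicInt.ker_toZMod, RingHom.mem_ker, map_sum] at hmem
    have hy1 : PadicInt.toZMod (y : ℤ_[p]) = 1 := by
      have hmem' : (y : ℤ_[p]) - 1 ∈ RingHom.ker (PadicInt.toZMod (p := p)) := by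
        rw [PadicInt.ker_toZMod, PadicInt.maximalIdeal_eq_span_p, Ideal.mem_span_singleton]
        exact hy
      rw [RingHom.mem_ker, map_sub, map_one, sub_eq_zero] at hmem'
      exact hmem'
    simp only [map_pow, hy1, one_pow, Finset.sum_const, Finset.card_range, nsmul_eq_mul,
      mul_one] at hmem
    rw [ZMod.natCast_eq_zero_iff] at hmem
    exact hm' hmem
  have hgeom := geom_sum_mul (y : ℤ_[p]) m'
  have hy1 : (y : ℤ_[p]) ^ m' = 1 := by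
    rw [← Units.val_pow_eq_pow_val, h1, Units.val_one]
  rw [hy1, sub_self] at hgeom
  have h0 : (y : ℤ_[p]) - 1 = 0 := by
    rcases mul_eq_zero.1 hgeom with h | h
    · exact absurd h hsum.ne_zero
    · exact h
  exact Units.ext (by rw [Units.val_one]; exact sub_eq_zero.1 h0)

theorem h18_isUnit_natCast {m : ℕ} (hm : ¬ p ∣ m) : IsUnit (m : ℤ_[p]) := by
  rw [PadicInt.isUnit_iff, PadicInt.norm_natCast_eq_one_iff]
  exact (Nat.Prime.coprime_iff_not_dvd Fact.out).2 hm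

open Classical in
/-- `m ^ (p - 1)` as an element of `U1`, for `m` prime to `p` (junk value `1` otherwise). -/
noncomputable def h18_natU1 (m : ℕ) : h18_U1 p :=
  if h : p ∣ m then 1 else ⟨(h18_isUnit_natCast p h).unit ^ (p - 1), h18_pow_pred_mem_U1 p _⟩

theorem h18_natU1_coe {m : ℕ} (hm : ¬ p ∣ m) :
    (((h18_natU1 p m : h18_U1 p) : ℤ_[p]ˣ) : ℤ_[p]) = (m : ℤ_[p]) ^ (p - 1) := by
  rw [h18_natU1, dif_neg hm]
  simp

theorem h18_natU1_one : h18_natU1 p 1 = 1 := by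
  have h1 : ¬ p ∣ 1 := (Fact.out : p.Prime).one_lt.ne' ∘ Nat.dvd_one.1
  apply Subtype.ext; apply Units.ext
  rw [h18_natU1_coe p h1]; simp

theorem h18_natU1_mul {m n : ℕ} (hm : ¬ p ∣ m) (hn : ¬ p ∣ n) :
    h18_natU1 p (m * n) = h18_natU1 p m * h18_natU1 p n := by
  have hmn : ¬ p ∣ m * n := fun h =>
    ((Fact.out : p.Prime).dvd_mul.1 h).elim hm hn
  apply Subtype.ext; apply Units.ext
  rw [h18_natU1_coe p hmn, Subgroup.coe_mul, Units.val_mul, h18_natU1_coe p hm,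
    h18_natU1_coe p hn]
  push_cast; ring

theorem h18_natU1_pow {m : ℕ} (hm : ¬ p ∣ m) (k : ℕ) :
    h18_natU1 p (m ^ k) = h18_natU1 p m ^ k := by
  induction k with
  | zero => simp [h18_natU1_one]
  | succ k ih =>
    have hmk : ¬ p ∣ m ^ k := fun h => hm ((Fact.out : p.Prime).dvd_of_dvd_pow h)
    rw [pow_succ, h18_natU1_mul p hmk hm, ih, pow_succ]

/-- `m ^ (p - 1) ∈ U1 ^ (p ^ a)` iff `m ^ (p - 1) ≡ 1 mod p ^ (a + 1)`. -/
theorem h18_natU1_pow_iff (hp : p ≠ 2) (a : ℕ) {m : ℕ} (hm : ¬ p ∣ m) :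
    (∃ y : h18_U1 p, y ^ (p ^ a) = h18_natU1 p m) ↔ m ^ (p - 1) ≡ 1 [MOD p ^ (a + 1)] := by
  have key := h18_U1_pow_iff p hp a ((h18_natU1 p m : h18_U1 p) : ℤ_[p]ˣ)
  rw [h18_natU1_coe p hm] at key
  have h2 : (p : ℤ_[p]) ^ (a + 1) ∣ (m : ℤ_[p]) ^ (p - 1) - 1 ↔
      m ^ (p - 1) ≡ 1 [MOD p ^ (a + 1)] := by
    rw [Nat.ModEq.comm, Nat.modEq_iff_dvd]
    have := PadicInt.pow_p_dvd_int_iff (p := p) (a + 1) ((m : ℤ) ^ (p - 1) - 1)
    push_cast at this ⊢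
    exact this
  rw [← h2, ← key]
  constructor
  · rintro ⟨y, hyp⟩
    exact ⟨y, y.2, by rw [← hyp]; rfl⟩
  · rintro ⟨y, hy, hyp⟩
    exact ⟨⟨y, hy⟩, Subtype.ext hyp⟩

/-- `v_p (p ^ k * u) = u ^ (p - 1)` for a unit `u` of `ℤ_[p]`. -/
theorem h18_vp_of_eq (x : ℚ_[p]ˣ) (k : ℤ) (u : ℤ_[p]ˣ)
    (hx : (x : ℚ_[p]) = (p : ℚ_[p]) ^ k * ((u : ℤ_[p]) : ℚ_[p])) :
    ((h18_vp p x : h18_U1 p) : ℤ_[p]ˣ) = u ^ (p - 1) := by
  apply Units.ext
  rw [h18_vp_coe, Units.val_pow_eq_pow_val,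
    h32_unitPart_of_eq p x k (u : ℤ_[p]) (PadicInt.norm_units u) hx]

/-- `v_p (p ^ k * m) = m ^ (p - 1)` for a natural number `m` prime to `p`. -/
theorem h18_vp_natCast (x : ℚ_[p]ˣ) (k : ℤ) {m : ℕ} (hm : ¬ p ∣ m)
    (hx : (x : ℚ_[p]) = (p : ℚ_[p]) ^ k * (m : ℚ_[p])) :
    h18_vp p x = h18_natU1 p m := by
  apply Subtype.ext
  rw [h18_vp_of_eq p x k (h18_isUnit_natCast p hm).unit (by rw [hx]; simp)]
  apply Units.ext
  rw [h18_natU1_coe p hm]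
  simp

theorem h18_vp_neg_one (hp : p ≠ 2) : h18_vp p (-1) = 1 := by
  have hodd : Odd p := (Fact.out : p.Prime).odd_of_ne_two hp
  have heven : Even (p - 1) := by
    obtain ⟨j, hj⟩ := hodd
    exact ⟨j, by omega⟩
  apply Subtype.ext
  rw [h18_vp_of_eq p (-1) 0 (-1) (by simp)]
  simp [heven.neg_one_pow]

/-- Product formula, natural-number form: if `x * b = ± p ^ k * a` with `a`, `b` prime to `p`,
then `v_p x * b ^ (p - 1) = a ^ (p - 1)` in `U1`. -/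
theorem h18_vp_rat (hp : p ≠ 2) (x : ℚ_[p]ˣ) (k : ℤ) {a b : ℕ} (ha : ¬ p ∣ a) (hb : ¬ p ∣ b)
    (hx : (x : ℚ_[p]) * (b : ℚ_[p]) = (p : ℚ_[p]) ^ k * (a : ℚ_[p]) ∨
      (x : ℚ_[p]) * (b : ℚ_[p]) = -((p : ℚ_[p]) ^ k * (a : ℚ_[p]))) :
    h18_vp p x * h18_natU1 p b = h18_natU1 p a := by
  have hb0 : (b : ℚ_[p]) ≠ 0 := by
    intro h0
    have : b = 0 := by exact_mod_cast h0
    exact hb (this ▸ dvd_zero p)
  let bu : ℚ_[p]ˣ := Units.mk0 (b : ℚ_[p]) hb0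
  have hvb : h18_vp p bu = h18_natU1 p b := h18_vp_natCast p bu 0 hb (by simp [bu])
  rw [← hvb, ← map_mul]
  rcases hx with hx | hx
  · exact h18_vp_natCast p (x * bu) k ha (by rw [Units.val_mul]; exact hx)
  · have h1 : x * bu = -1 * (-(x * bu)) := by simp
    rw [h1, map_mul, h18_vp_neg_one p hp, one_mul]
    refine h18_vp_natCast p (-(x * bu)) k ha ?_
    rw [Units.val_neg, Units.val_mul, show ((bu : ℚ_[p]ˣ) : ℚ_[p]) = (b : ℚ_[p]) from rfl, hx,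
      neg_neg]

end Fermat.Agent.S55
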