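import Mathlib
import Fermat.Agent.S55.h25_GlobDefs
import Fermat.Agent.S55.h18_ValPF

/-!
# S55, GLOB layer: the valuation `w_K : C_K → U1 = 1 + pℤ_p` (GLOB-SPEC [VAL])

For a number field `K` (a type), a finite set `S` of rational primes and `P ∈ S` (`p = P`):

* `h25_Nq K q : h25_Jq K q →* ℚ_[q]ˣ` : the local norm `φ ↦ ∏_j φ j` (the product over all
  embeddings `j : K → PadicAlgCl q` is `Γ_q`-fixed, hence in `ℚ_q`); `h25_Nq_spec`;
* `h25_ordN K q` : `ord_q ∘ N_q`;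
* `h25_w K S P : h25_X K S →* h18_U1 p`,
  `w (φ, d) = (u_p(N_p φ_p)^(p-1))⁻¹ · ∏_{q ∈ S, q ≠ p} (q^(p-1))^(ord_q N_q φ_q) ·
  ∏_v (N(v)^(p-1))^(d v)` (`h25_w_apply`, `h25_w_prime`);
* `h25_wC K S P : h25_C K S →* h18_U1 p` (defined by cases; `h25_wC_mk_of`), and its additive
  form `h25_wA` (the `w` of `h30_CFData`).

Rows on top of this file: VAL-PRIN (`w ∘ diag = 1`), VAL-EXT (`w_L ∘ ext = w_K ^ [L:K]`),
VAL-INV (`w_L ∘ σ = w_L`), VAL-V1, GLOB-CF-V.
-/

set_option autoImplicit false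

open IsDedekindDomain NumberField

namespace Fermat.Agent.S55

noncomputable section

section Norm

variable (K : Type*) [Field K] [NumberField K] (q : ℕ) [Fact q.Prime]

/-- The product of the values of `φ ∈ J_q(K)` over all embeddings `K → PadicAlgCl q`. -/
def h25_prodEmb : h25_Jq K q →* (PadicAlgCl q)ˣ where
  toFun φ := ∏ j : K →+* PadicAlgCl q, (φ : (K →+* PadicAlgCl q) → (PadicAlgCl q)ˣ) j
  map_one' := by simp
  map_mul' a b := by simp [Finset.prod_mul_distrib]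

theorem h25_prodEmb_coe (φ : h25_Jq K q) :
    ((h25_prodEmb K q φ : (PadicAlgCl q)ˣ) : PadicAlgCl q) =
      ∏ j : K →+* PadicAlgCl q, ((φ.1 j : (PadicAlgCl q)ˣ) : PadicAlgCl q) := by
  simp [h25_prodEmb, Units.coe_prod]

theorem h25_prodEmb_fixed (φ : h25_Jq K q) (τ : PadicAlgCl q ≃ₐ[ℚ_[q]] PadicAlgCl q) :
    τ ((h25_prodEmb K q φ : (PadicAlgCl q)ˣ) : PadicAlgCl q) =
      ((h25_prodEmb K q φ : (PadicAlgCl q)ˣ) : PadicAlgCl q) := by
  rw [h25_prodEmb_coe, map_prod]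
  let e : (K →+* PadicAlgCl q) ≃ (K →+* PadicAlgCl q) :=
    { toFun := fun j => (τ : PadicAlgCl q →+* PadicAlgCl q).comp j
      invFun := fun j => (τ.symm : PadicAlgCl q →+* PadicAlgCl q).comp j
      left_inv := fun j => by ext x; simp
      right_inv := fun j => by ext x; simp }
  exact Fintype.prod_equiv e _ _ (fun j => (φ.2 τ j).symm)

theorem h25_prodEmb_mem_range (φ : h25_Jq K q) :
    h25_prodEmb K q φ ∈ (Units.map (algebraMap ℚ_[q] (PadicAlgCl q) : ℚ_[q] →* PadicAlgCl q)).range := by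
  have h := (InfiniteGalois.mem_range_algebraMap_iff_fixed (k := ℚ_[q]) (K := PadicAlgCl q)
    ((h25_prodEmb K q φ : (PadicAlgCl q)ˣ) : PadicAlgCl q)).2 (h25_prodEmb_fixed K q φ)
  obtain ⟨y, hy⟩ := h
  have hy0 : y ≠ 0 := by
    rintro rfl
    rw [map_zero] at hy
    exact (h25_prodEmb K q φ).ne_zero hy.symm
  exact ⟨Units.mk0 y hy0, Units.ext hy⟩

theorem h25_unitsMap_injective :
    Function.Injective (Units.map (algebraMap ℚ_[q] (PadicAlgCl q) : ℚ_[q] →* PadicAlgCl q)) :=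
  Units.map_injective (algebraMap ℚ_[q] (PadicAlgCl q)).injective

/-- The local norm `N_q : J_q(K) → ℚ_qˣ`, `φ ↦ ∏_j φ j`. -/
def h25_Nq : h25_Jq K q →* ℚ_[q]ˣ :=
  (MonoidHom.ofInjective (h25_unitsMap_injective q)).symm.toMonoidHom.comp
    ((h25_prodEmb K q).codRestrict _ (h25_prodEmb_mem_range K q))

theorem h25_Nq_spec (φ : h25_Jq K q) :
    algebraMap ℚ_[q] (PadicAlgCl q) ((h25_Nq K q φ : ℚ_[q]ˣ) : ℚ_[q]) =
      ∏ j : K →+* PadicAlgCl q, ((φ.1 j : (PadicAlgCl q)ˣ) : PadicAlgCl q) := by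
  rw [← h25_prodEmb_coe]
  have h := MulEquiv.apply_symm_apply (MonoidHom.ofInjective (h25_unitsMap_injective q))
    ((h25_prodEmb K q).codRestrict _ (h25_prodEmb_mem_range K q) φ)
  have h2 := congrArg (fun u => ((u : (Units.map (algebraMap ℚ_[q] (PadicAlgCl q) : ℚ_[q] →* PadicAlgCl q)).range) : (PadicAlgCl q)ˣ)) h
  have h3 := congrArg (fun u : (PadicAlgCl q)ˣ => (u : PadicAlgCl q)) h2
  exact h3

/-- `ord_q ∘ N_q : J_q(K) → ℤ`. -/
def h25_ordN : h25_Jq K q →* Multiplicative ℤ where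
  toFun φ := Multiplicative.ofAdd (Padic.valuation ((h25_Nq K q φ : ℚ_[q]ˣ) : ℚ_[q]))
  map_one' := by simp
  map_mul' a b := by
    rw [map_mul, Units.val_mul, Padic.valuation_mul (Units.ne_zero _) (Units.ne_zero _)]
    rfl

end Norm

section W

variable (K : Type*) [Field K] [NumberField K] (S : Finset Nat.Primes) (P : S)

/-- The `p`-component of `w` (`p = P`): `φ ↦ (u_p(N_p φ_p)^(p-1))⁻¹`. -/
def h25_wP : h25_J K S →* h18_U1 ((P : Nat.Primes) : ℕ) :=
  (((h18_vp ((P : Nat.Primes) : ℕ)).comp (h25_Nq K ((P : Nat.Primes) : ℕ))).comp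
    (Pi.evalMonoidHom (fun q : S => h25_Jq K ((q : Nat.Primes) : ℕ)) P))⁻¹

/-- The `q`-component of `w` (`q ∈ S`; used for `q ≠ p`): `φ ↦ (q^(p-1))^(ord_q (N_q φ_q))`. -/
def h25_wq (q : S) : h25_J K S →* h18_U1 ((P : Nat.Primes) : ℕ) :=
  ((zpowersHom (h18_U1 ((P : Nat.Primes) : ℕ))
      (h18_natU1 ((P : Nat.Primes) : ℕ) ((q : Nat.Primes) : ℕ))).comp
    (h25_ordN K ((q : Nat.Primes) : ℕ))).comp
    (Pi.evalMonoidHom (fun q : S => h25_Jq K ((q : Nat.Primes) : ℕ)) q)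

/-- The divisor component of `w`: `d ↦ ∏_v (N(v)^(p-1))^(d v)`. -/
def h25_wD : Multiplicative (h25_Div K S) →* h18_U1 ((P : Nat.Primes) : ℕ) :=
  AddMonoidHom.toMultiplicativeLeft (Finsupp.liftAddHom (fun v : h25_Pl K S =>
    zmultiplesHom (Additive (h18_U1 ((P : Nat.Primes) : ℕ)))
      (Additive.ofMul (h18_natU1 ((P : Nat.Primes) : ℕ) (Ideal.absNorm v.1.asIdeal)))))

open Classical in
/-- **The valuation** `w_K : X_K → U1 = 1 + pℤ_p` of GLOB-SPEC [VAL] (`p = P ∈ S`):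
`w (φ, d) = (u_p(N_p φ_p)^(p-1))⁻¹ · ∏_{q ∈ S, q ≠ p} (q^(p-1))^(ord_q N_q φ_q) ·
∏_v (N(v)^(p-1))^(d v)`. -/
def h25_w : h25_X K S →* h18_U1 ((P : Nat.Primes) : ℕ) :=
  ((h25_wP K S P * ∏ q ∈ Finset.univ.filter (fun q : S => q ≠ P), h25_wq K S P q).comp
      (MonoidHom.fst _ _)) *
    (h25_wD K S P).comp (MonoidHom.snd _ _)

theorem h25_wP_apply (φ : h25_J K S) :
    h25_wP K S P φ = (h18_vp ((P : Nat.Primes) : ℕ) (h25_Nq K ((P : Nat.Primes) : ℕ) (φ P)))⁻¹ :=
  rfl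

theorem h25_wq_apply (q : S) (φ : h25_J K S) :
    h25_wq K S P q φ = h18_natU1 ((P : Nat.Primes) : ℕ) ((q : Nat.Primes) : ℕ) ^
      (Padic.valuation ((h25_Nq K ((q : Nat.Primes) : ℕ) (φ q) : ℚ_[((q : Nat.Primes) : ℕ)]ˣ) :
        ℚ_[((q : Nat.Primes) : ℕ)])) :=
  rfl

theorem h25_wD_single (v : h25_Pl K S) (n : ℤ) :
    h25_wD K S P (Multiplicative.ofAdd (Finsupp.single v n)) =
      h18_natU1 ((P : Nat.Primes) : ℕ) (Ideal.absNorm v.1.asIdeal) ^ n := by
  unfold h25_wD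
  rw [AddMonoidHom.coe_toMultiplicativeLeft]
  simp

open Classical in
theorem h25_wD_apply (d : h25_Div K S) :
    h25_wD K S P (Multiplicative.ofAdd d) =
      d.prod (fun v n => h18_natU1 ((P : Nat.Primes) : ℕ) (Ideal.absNorm v.1.asIdeal) ^ n) := by
  induction d using Finsupp.induction with
  | zero => simp
  | single_add v n d hv hn ih =>
    rw [ofAdd_add, map_mul, ih, h25_wD_single, Finsupp.prod_add_index_of_disjoint]
    · rw [Finsupp.prod_single_index]; simp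
    · have hs : (Finsupp.single v n).support = {v} := by
        ext u; simp [hn, eq_comm]
      rw [hs]
      simpa using hv

open Classical in
theorem h25_w_apply (x : h25_X K S) :
    h25_w K S P x = h25_wP K S P x.1 *
      (∏ q ∈ Finset.univ.filter (fun q : S => q ≠ P), h25_wq K S P q x.1) *
        h25_wD K S P x.2 := by
  simp [h25_w]

/-- `w` on a pure divisor. -/
theorem h25_w_divisor (d : h25_Div K S) :
    h25_w K S P ((1 : h25_J K S), Multiplicative.ofAdd d) = h25_wD K S P (Multiplicative.ofAdd d) := by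
  rw [h25_w_apply]
  simp

/-- `w` on (the class of) a prime `v` not above `S`: `N(v)^(p-1)`. -/
theorem h25_w_prime (v : h25_Pl K S) :
    h25_w K S P ((1 : h25_J K S), Multiplicative.ofAdd (Finsupp.single v (1 : ℤ))) =
      h18_natU1 ((P : Nat.Primes) : ℕ) (Ideal.absNorm v.1.asIdeal) := by
  rw [h25_w_divisor, h25_wD_single, zpow_one]

open Classical in
/-- The valuation on the class module `C_K` (by cases, so that the definition carries no proof
obligation; the row VAL-PRIN proves that the first case always applies: `h25_wC_mk`). -/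
def h25_wC : h25_C K S →* h18_U1 ((P : Nat.Primes) : ℕ) :=
  if h : (h25_diag K S).range ≤ (h25_w K S P).ker then
    QuotientGroup.lift (h25_diag K S).range (h25_w K S P) h
  else 1

theorem h25_wC_mk_of (h : ∀ x : Kˣ, h25_w K S P (h25_diag K S x) = 1) (x : h25_X K S) :
    h25_wC K S P (h25_mk K S x) = h25_w K S P x := by
  have h' : (h25_diag K S).range ≤ (h25_w K S P).ker := by
    rintro _ ⟨x, rfl⟩
    exact h x
  unfold h25_wC
  rw [dif_pos h']
  rfl

/-- The additive form `w : Additive C_K →+ Additive U1` (the `w` of `h30_CFData`). -/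
def h25_wA : Additive (h25_C K S) →+ Additive (h18_U1 ((P : Nat.Primes) : ℕ)) :=
  MonoidHom.toAdditive (h25_wC K S P)

theorem h25_wA_ofMul (c : h25_C K S) :
    h25_wA K S P (Additive.ofMul c) = Additive.ofMul (h25_wC K S P c) := rfl

end W

end

end Fermat.Agent.S55
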