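import Mathlib
import Fermat.Agent.S55.h72_AbsDefs

/-!
# S55, abstract layer: input data of H-CFBUILD

`h30_CFData p deg w` packages the hypotheses of the theorem "class formation from the cyclic
degree-`p` axiom and a valuation" (row H-CFBUILD, (E2) of the H-SPEC).

* `G` a finite group, `C` a `p`-local `G`-module;
* `deg : G →* Multiplicative (ZMod (p ^ n))` surjective (the cyclotomic degree);
* `w : C →+ V` a `G`-invariant additive map to an additive group without `p`-torsion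
  (`V = ℤ`, `ℤ_[p]`, `Additive (1 + pℤ_p)`, ...).  Divisibility `k ∣ w c` is written
  `∃ y, w c = k • y`;
* for a subgroup `H`, `f_H := (H.map deg).index`;
  (V1) `w (C^H) ⊆ (|H| f_H) V`,  (V2) if `deg H ≠ 1`, `w (C^H) ⊄ (p |H| f_H) V`;
* (CFA) for `p`-subgroups `H₂ ⊲ H₁` of index `p` and `σ ∈ H₁ \ H₂`:
  `ker N_σ = im (σ - 1)` on `C^{H₂}` (CFA1) and `C^{H₁} / N_σ C^{H₂}` is generated by one
  element (CFA2; it is killed by `p`, so this says "index `≤ p`").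
-/

set_option autoImplicit false

namespace Fermat.Agent.S55

/-- Input data of H-CFBUILD (see the module docstring). -/
structure h30_CFData (p : ℕ) {G : Type*} [Group G] {C : Type*} [AddCommGroup C]
    [DistribMulAction G C] {n : ℕ} (deg : G →* Multiplicative (ZMod (p ^ n)))
    {V : Type*} [AddCommGroup V] (w : C →+ V) : Prop where
  ploc : ∀ m : ℕ, m.Coprime p → Function.Bijective (fun c : C => m • c)
  deg_surj : Function.Surjective deg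
  tf : ∀ x : V, p • x = 0 → x = 0
  w_inv : ∀ (g : G) (c : C), w (g • c) = w c
  V1 : ∀ (H : Subgroup G) (c : C), (∀ h ∈ H, h • c = c) →
    ∃ y : V, w c = (Nat.card H * (H.map deg).index) • y
  V2 : ∀ H : Subgroup G, H.map deg ≠ ⊥ → ∃ c : C, (∀ h ∈ H, h • c = c) ∧
    ¬ ∃ y : V, w c = (p * (Nat.card H * (H.map deg).index)) • y
  CFA1 : ∀ H₁ H₂ : Subgroup G, IsPGroup p H₁ → H₂ ≤ H₁ →
    (∀ g ∈ H₁, ∀ h ∈ H₂, g * h * g⁻¹ ∈ H₂) → H₂.relIndex H₁ = p → ∀ σ ∈ H₁, σ ∉ H₂ →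
    ∀ c : C, (∀ h ∈ H₂, h • c = c) → ∑ i ∈ Finset.range p, σ ^ i • c = 0 →
      ∃ b : C, (∀ h ∈ H₂, h • b = b) ∧ σ • b - b = c
  CFA2 : ∀ H₁ H₂ : Subgroup G, IsPGroup p H₁ → H₂ ≤ H₁ →
    (∀ g ∈ H₁, ∀ h ∈ H₂, g * h * g⁻¹ ∈ H₂) → H₂.relIndex H₁ = p → ∀ σ ∈ H₁, σ ∉ H₂ →
    ∃ c₀ : C, (∀ h ∈ H₁, h • c₀ = c₀) ∧ ∀ c : C, (∀ h ∈ H₁, h • c = c) →
      ∃ (k : ℕ) (b : C), (∀ h ∈ H₂, h • b = b) ∧
        c = k • c₀ + ∑ i ∈ Finset.range p, σ ^ i • b

end Fermat.Agent.S55
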