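/-
S55 layer H, row H-SYLOW (toolkit T5): restriction to a subgroup of index prime to `p` is
injective on cohomology classes of `p`-local modules, degrees 1 and 2 (unbundled Via-form).
-/
import Mathlib
import Fermat.Agent.S55.h72_AbsDefs
import Fermat.Agent.S55.h40_HDefs

set_option autoImplicit false

open groupCohomology

namespace Fermat.Agent.S55

section Transfer

variable {G : Type*} [Group G] {C : Type*} (H : Subgroup G)

/-- Two elements of the same left coset of `H` have the same value under a right-`H`-invariant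
function. -/
theorem h88_out_smul_eq (F : G → C) (hF : ∀ g : G, ∀ h ∈ H, F (g * h) = F g) (g : G)
    (q : G ⧸ H) : F ((g • q).out) = F (g * q.out) := by
  have h1 : ((g * q.out : G) : G ⧸ H) = (((g • q).out : G) : G ⧸ H) := by
    rw [QuotientGroup.out_eq']
    conv_rhs => rw [← QuotientGroup.out_eq' q]
    rfl
  have h2 : (g * q.out)⁻¹ * (g • q).out ∈ H := QuotientGroup.eq.1 h1
  have h3 := hF (g * q.out) _ h2
  rw [mul_inv_cancel_left] at h3
  exact h3

/-- Averaging a right-`H`-invariant function over coset representatives is translation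
invariant. -/
theorem h88_sum_out_mul [AddCommMonoid C] [Fintype (G ⧸ H)] (F : G → C)
    (hF : ∀ g : G, ∀ h ∈ H, F (g * h) = F g) (g : G) :
    ∑ q : G ⧸ H, F (g * q.out) = ∑ q : G ⧸ H, F q.out := by
  have h1 : ∀ q : G ⧸ H, F (g * q.out) = F ((MulAction.toPerm g : Equiv.Perm (G ⧸ H)) q).out :=
    fun q => (h88_out_smul_eq H F hF g q).symm
  simp_rw [h1]
  exact Equiv.sum_comp (MulAction.toPerm g : Equiv.Perm (G ⧸ H)) (fun q => F q.out)

end Transfer

variable (p : ℕ) [Fact p.Prime] {G : Type*} [Group G] {C : Type*} [AddCommGroup C]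
  [DistribMulAction G C] (hloc : h40_IsPLocal p C) (H : Subgroup G) [H.FiniteIndex]
  (hH : (H.index).Coprime p)

include hloc hH in
/-- Restriction to a subgroup of index prime to `p` is injective on `H¹` of a `p`-local module. -/
theorem h88_res₁_inj (f : G → C) (hf : IsCocycle₁ f)
    (h : IsCoboundary₁Via H.subtype (fun x : H => f x)) : IsCoboundary₁ f := by
  classical
  obtain ⟨x, hx⟩ := h
  have hfin : Finite (G ⧸ H) := Subgroup.finite_quotient_of_finiteIndex
  let _ : Fintype (G ⧸ H) := Fintype.ofFinite _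
  have hbij := hloc H.index hH
  have hcard : Fintype.card (G ⧸ H) = H.index := by
    rw [Subgroup.index_eq_card, Nat.card_eq_fintype_card]
  -- the modified cocycle
  obtain ⟨f', hf'⟩ : ∃ f' : G → C, ∀ g, f' g = f g - (g • x - x) := ⟨_, fun _ => rfl⟩
  have hf'c : ∀ g k : G, f' (g * k) = g • f' k + f' g := by
    intro g k
    simp only [hf', hf g k, mul_smul, smul_sub]
    abel
  have hf'H : ∀ k ∈ H, f' k = 0 := by
    intro k hk
    have := hx ⟨k, hk⟩
    simp only [Subgroup.coe_subtype] at this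
    rw [hf', this]; exact sub_self _
  have hf'inv : ∀ g : G, ∀ k ∈ H, f' (g * k) = f' g := by
    intro g k hk
    rw [hf'c, hf'H k hk, smul_zero, zero_add]
  obtain ⟨b, hb⟩ : ∃ b : C, b = ∑ q : G ⧸ H, f' q.out := ⟨_, rfl⟩
  have hgb : ∀ g : G, g • b = b - H.index • f' g := by
    intro g
    have h2 : ∀ q : G ⧸ H, g • f' q.out = f' (g * q.out) - f' g := by
      intro q; rw [hf'c]; abel
    rw [hb, Finset.smul_sum]
    simp_rw [h2]
    rw [Finset.sum_sub_distrib, h88_sum_out_mul H f' hf'inv g, Finset.sum_const,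
      Finset.card_univ, hcard]
  obtain ⟨b', hb'⟩ := hbij.2 (-b)
  simp only at hb'
  refine ⟨x + b', fun g => ?_⟩
  have h3 : H.index • f' g = H.index • (g • b' - b') := by
    rw [smul_sub, smul_comm H.index g b', hb', smul_neg, hgb g]
    abel
  have h4 : f' g = g • b' - b' := hbij.1 h3
  have h5 : f g = f' g + (g • x - x) := by rw [hf']; abel
  rw [h5, h4, smul_add]
  abel

omit [Fact p.Prime] in
/-- The coboundary of a 1-cochain is a 2-cocycle. -/
theorem h88_isCocycle₂_d (X : G → C) :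
    IsCocycle₂ (fun x : G × G => x.1 • X x.2 - X (x.1 * x.2) + X x.1) := by
  intro g h j
  simp only [mul_smul, smul_sub, smul_add, mul_assoc]
  abel

include hloc hH in
/-- Restriction to a subgroup of index prime to `p` is injective on `H²` of a `p`-local module. -/
theorem h88_res₂_inj (f : G × G → C) (hf : IsCocycle₂ f)
    (h : IsCoboundary₂Via H.subtype (fun x : H × H => f ((x.1 : G), (x.2 : G)))) :
    IsCoboundary₂ f := by
  classical
  obtain ⟨x, hx⟩ := h
  have hfin : Finite (G ⧸ H) := Subgroup.finite_quotient_of_finiteIndex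
  let _ : Fintype (G ⧸ H) := Fintype.ofFinite _
  have hbij := hloc H.index hH
  have hcard : Fintype.card (G ⧸ H) = H.index := by
    rw [Subgroup.index_eq_card, Nat.card_eq_fintype_card]
  -- Step 1: extend `x` by zero and subtract its coboundary.
  obtain ⟨X, hX⟩ : ∃ X : G → C, ∀ g, X g = if hg : g ∈ H then x ⟨g, hg⟩ else 0 :=
    ⟨_, fun _ => rfl⟩
  have hXH : ∀ (k : G) (hk : k ∈ H), X k = x ⟨k, hk⟩ := fun k hk => by rw [hX, dif_pos hk]
  obtain ⟨f₁, hf₁⟩ : ∃ f₁ : G × G → C,
      ∀ g k, f₁ (g, k) = f (g, k) - (g • X k - X (g * k) + X g) :=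
    ⟨fun x => f x - (x.1 • X x.2 - X (x.1 * x.2) + X x.1), fun _ _ => rfl⟩
  have hf₁c : ∀ g k j : G, f₁ (g * k, j) + f₁ (g, k) = g • f₁ (k, j) + f₁ (g, k * j) := by
    intro g k j
    have h1 := hf g k j
    have h2 := h88_isCocycle₂_d X g k j
    simp only at h2
    simp only [hf₁, smul_sub]
    rw [sub_add_sub_comm, h1, h2]
    simp only [smul_add, smul_sub]
    abel
  have hf₁H : ∀ g ∈ H, ∀ k ∈ H, f₁ (g, k) = 0 := by
    intro g hg k hk
    have := hx ⟨g, hg⟩ ⟨k, hk⟩
    simp only [Subgroup.coe_subtype] at this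
    rw [hf₁, hXH g hg, hXH k hk, hXH (g * k) (H.mul_mem hg hk), ← this]
    exact sub_self _
  -- Step 2: the cochain `y`.
  obtain ⟨r, hr⟩ : ∃ r : G → G, ∀ g, r g = ((g : G ⧸ H)).out := ⟨_, fun _ => rfl⟩
  have hrmem : ∀ g : G, (r g)⁻¹ * g ∈ H := by
    intro g
    rw [hr]
    exact QuotientGroup.eq.1 (QuotientGroup.out_eq' _)
  have hrmul : ∀ g : G, ∀ k ∈ H, r (g * k) = r g := by
    intro g k hk
    rw [hr, hr]
    congr 1
    exact QuotientGroup.eq.2 (by
      rw [mul_inv_rev, inv_mul_cancel_right]; exact H.inv_mem hk)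
  have hrH : ∀ g ∈ H, r g ∈ H := by
    intro g hg
    have := hrmem g
    have h2 : r g = g * ((r g)⁻¹ * g)⁻¹ := by group
    rw [h2]
    exact H.mul_mem hg (H.inv_mem this)
  obtain ⟨y, hy⟩ : ∃ y : G → C, ∀ g, y g = f₁ (r g, (r g)⁻¹ * g) := ⟨_, fun _ => rfl⟩
  have hyH : ∀ g ∈ H, y g = 0 := by
    intro g hg
    rw [hy]
    exact hf₁H _ (hrH g hg) _ (hrmem g)
  have hf₁y : ∀ g : G, ∀ k ∈ H, f₁ (g, k) = y (g * k) - y g := by
    intro g k hk
    have h1 := hf₁c (r g) ((r g)⁻¹ * g) k
    rw [mul_inv_cancel_left, hf₁H _ (hrmem g) k hk, smul_zero, zero_add] at h1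
    rw [hy (g * k), hy g, hrmul g k hk, ← mul_assoc, ← h1]
    abel
  obtain ⟨f₂, hf₂⟩ : ∃ f₂ : G × G → C,
      ∀ g k, f₂ (g, k) = f₁ (g, k) + (g • y k - y (g * k) + y g) :=
    ⟨fun x => f₁ x + (x.1 • y x.2 - y (x.1 * x.2) + y x.1), fun _ _ => rfl⟩
  have hf₂c : ∀ g k j : G, f₂ (g * k, j) + f₂ (g, k) = g • f₂ (k, j) + f₂ (g, k * j) := by
    intro g k j
    have h1 := hf₁c g k j
    have h2 := h88_isCocycle₂_d y g k j
    simp only at h2
    simp only [hf₂, smul_add]
    rw [add_add_add_comm, h1, h2]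
    simp only [smul_add, smul_sub]
    abel
  have hf₂H : ∀ g : G, ∀ k ∈ H, f₂ (g, k) = 0 := by
    intro g k hk
    rw [hf₂, hf₁y g k hk, hyH k hk, smul_zero]
    abel
  -- Step 3: right `H`-invariance in the second variable.
  have hf₂inv : ∀ g k : G, ∀ j ∈ H, f₂ (g, k * j) = f₂ (g, k) := by
    intro g k j hj
    have h1 := hf₂c g k j
    rw [hf₂H (g * k) j hj, hf₂H k j hj, smul_zero, zero_add, zero_add] at h1
    exact h1.symm
  -- Step 4: averaging.
  obtain ⟨t, ht⟩ : ∃ t : G → C, ∀ g, t g = ∑ q : G ⧸ H, f₂ (g, q.out) := ⟨_, fun _ => rfl⟩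
  have hkey : ∀ g k : G, H.index • f₂ (g, k) = g • t k - t (g * k) + t g := by
    intro g k
    have h1 : ∑ q : G ⧸ H, (f₂ (g * k, q.out) + f₂ (g, k))
        = ∑ q : G ⧸ H, (g • f₂ (k, q.out) + f₂ (g, k * q.out)) :=
      Finset.sum_congr rfl fun q _ => hf₂c g k q.out
    rw [Finset.sum_add_distrib, Finset.sum_add_distrib, Finset.sum_const, Finset.card_univ, hcard,
      ← Finset.smul_sum, h88_sum_out_mul H (fun j => f₂ (g, j)) (fun a b hb => hf₂inv g a b hb) k,
      ← ht, ← ht, ← ht] at h1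
    rw [eq_sub_of_add_eq' h1]
    abel
  choose t' ht' using fun g => hbij.2 (t g)
  simp only at ht'
  have hf₂d : ∀ g k : G, f₂ (g, k) = g • t' k - t' (g * k) + t' g := by
    intro g k
    apply hbij.1
    simp only
    rw [hkey, smul_add, smul_sub, smul_comm H.index g (t' k), ht', ht', ht']
  refine ⟨fun g => t' g - y g + X g, fun g k => ?_⟩
  have h5 : f (g, k) = f₂ (g, k) - (g • y k - y (g * k) + y g) + (g • X k - X (g * k) + X g) := by
    rw [hf₂, hf₁]; abel
  rw [h5, hf₂d]
  simp only [smul_add, smul_sub]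
  abel

/-! ### Corollaries: Sylow subgroups, and the relative (Via) forms for subgroups `K ≤ G` -/

include hloc in
/-- Restriction to a Sylow `p`-subgroup is injective on `H¹` of a `p`-local module. -/
theorem h88_res₁_inj_sylow [Finite G] (P : Sylow p G) (f : G → C) (hf : IsCocycle₁ f)
    (h : IsCoboundary₁Via (P : Subgroup G).subtype (fun x : ↥(P : Subgroup G) => f x)) :
    IsCoboundary₁ f :=
  h88_res₁_inj p hloc (P : Subgroup G)
    (Nat.Coprime.symm ((Fact.out : p.Prime).coprime_iff_not_dvd.2 P.not_dvd_index)) f hf h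

include hloc in
/-- Restriction to a Sylow `p`-subgroup is injective on `H²` of a `p`-local module. -/
theorem h88_res₂_inj_sylow [Finite G] (P : Sylow p G) (f : G × G → C) (hf : IsCocycle₂ f)
    (h : IsCoboundary₂Via (P : Subgroup G).subtype
      (fun x : ↥(P : Subgroup G) × ↥(P : Subgroup G) => f ((x.1 : G), (x.2 : G)))) :
    IsCoboundary₂ f :=
  h88_res₂_inj p hloc (P : Subgroup G)
    (Nat.Coprime.symm ((Fact.out : p.Prime).coprime_iff_not_dvd.2 P.not_dvd_index)) f hf h

include hloc in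
/-- Relative form, degree 1: for subgroups `H ≤ K` of `G` with `[K : H]` prime to `p`, a
1-cocycle of `K` (acting through `K.subtype`) whose restriction to `H` is a coboundary is a
coboundary. -/
theorem h88_res₁_inj_rel (K H : Subgroup G) (hHK : H ≤ K) [(H.subgroupOf K).FiniteIndex]
    (hrel : (H.relIndex K).Coprime p) (f : K → C) (hf : IsCocycle₁Via K.subtype f)
    (h : IsCoboundary₁Via H.subtype (fun x : H => f ⟨x, hHK x.2⟩)) :
    IsCoboundary₁Via K.subtype f := by
  have hf' : IsCocycle₁ f := fun g k => hf g k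
  have h' : IsCoboundary₁Via (H.subgroupOf K).subtype (fun x : H.subgroupOf K => f x) := by
    obtain ⟨x, hx⟩ := h
    exact ⟨x, fun b => hx ⟨((b : K) : G), Subgroup.mem_subgroupOf.1 b.2⟩⟩
  obtain ⟨x, hx⟩ := h88_res₁_inj p hloc (H.subgroupOf K) hrel f hf' h'
  exact ⟨x, fun g => hx g⟩

include hloc in
/-- Relative form, degree 2. -/
theorem h88_res₂_inj_rel (K H : Subgroup G) (hHK : H ≤ K) [(H.subgroupOf K).FiniteIndex]
    (hrel : (H.relIndex K).Coprime p) (f : K × K → C) (hf : IsCocycle₂Via K.subtype f)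
    (h : IsCoboundary₂Via H.subtype
      (fun x : H × H => f (⟨x.1, hHK x.1.2⟩, ⟨x.2, hHK x.2.2⟩))) :
    IsCoboundary₂Via K.subtype f := by
  have hf' : IsCocycle₂ f := fun g k j => hf g k j
  have h' : IsCoboundary₂Via (H.subgroupOf K).subtype
      (fun x : (H.subgroupOf K) × (H.subgroupOf K) => f ((x.1 : K), (x.2 : K))) := by
    obtain ⟨x, hx⟩ := h
    refine ⟨fun b => x ⟨((b : K) : G), Subgroup.mem_subgroupOf.1 b.2⟩, fun b c => ?_⟩
    exact hx ⟨((b : K) : G), Subgroup.mem_subgroupOf.1 b.2⟩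
      ⟨((c : K) : G), Subgroup.mem_subgroupOf.1 c.2⟩
  obtain ⟨x, hx⟩ := h88_res₂_inj p hloc (H.subgroupOf K) hrel f hf' h'
  exact ⟨x, fun g k => hx g k⟩

include hloc in
/-- Sylow form for a subgroup `K ≤ G`, degree 1: a 1-cocycle of `K` whose restriction to a Sylow
`p`-subgroup of `K` is a coboundary is a coboundary. -/
theorem h88_res₁_inj_sylow_via [Finite G] (K : Subgroup G) (P : Sylow p K) (f : K → C)
    (hf : IsCocycle₁Via K.subtype f)
    (h : IsCoboundary₁Via (K.subtype.comp (P : Subgroup K).subtype)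
      (fun x : ↥(P : Subgroup K) => f x)) :
    IsCoboundary₁Via K.subtype f := by
  have hf' : IsCocycle₁ f := fun g k => hf g k
  have h' : IsCoboundary₁Via (P : Subgroup K).subtype (fun x : ↥(P : Subgroup K) => f x) := by
    obtain ⟨x, hx⟩ := h
    exact ⟨x, fun b => hx b⟩
  obtain ⟨x, hx⟩ := h88_res₁_inj_sylow p hloc P f hf' h'
  exact ⟨x, fun g => hx g⟩

include hloc in
/-- Sylow form for a subgroup `K ≤ G`, degree 2. -/
theorem h88_res₂_inj_sylow_via [Finite G] (K : Subgroup G) (P : Sylow p K) (f : K × K → C)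
    (hf : IsCocycle₂Via K.subtype f)
    (h : IsCoboundary₂Via (K.subtype.comp (P : Subgroup K).subtype)
      (fun x : ↥(P : Subgroup K) × ↥(P : Subgroup K) => f ((x.1 : K), (x.2 : K)))) :
    IsCoboundary₂Via K.subtype f := by
  have hf' : IsCocycle₂ f := fun g k j => hf g k j
  have h' : IsCoboundary₂Via (P : Subgroup K).subtype
      (fun x : ↥(P : Subgroup K) × ↥(P : Subgroup K) => f ((x.1 : K), (x.2 : K))) := by
    obtain ⟨x, hx⟩ := h
    exact ⟨x, fun b c => hx b c⟩
  obtain ⟨x, hx⟩ := h88_res₂_inj_sylow p hloc P f hf' h'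
  exact ⟨x, fun g k => hx g k⟩

end Fermat.Agent.S55
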