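/-
S55 layer H, row H-CFBUILD (helper30), part 1: relative cocycle predicates on subgroups
(functions on the whole group, identities required on the subgroup only) and
Hilbert 90 on top: `H¹(H, C) = 0` for every subgroup `H` from the cyclic degree-`p` axiom (CFA1).
-/
import Mathlib
import Fermat.Agent.S55.h72_AbsDefs
import Fermat.Agent.S55.h40_InfRes
import Fermat.Agent.S55.h40_HDefs
import Fermat.Agent.S55.h88_Sylow
import Fermat.Agent.S55.h30_CFData

set_option autoImplicit false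

open groupCohomology

namespace Fermat.Agent.S55

section Rel

variable {G : Type*} [Group G] {C : Type*} [AddCommGroup C] [DistribMulAction G C]

/-- Relative 1-cocycles on a subgroup `H`: functions on `G`, cocycle identity on `H`. -/
def h30_Z1 (H : Subgroup G) (f : G → C) : Prop :=
  ∀ g ∈ H, ∀ h ∈ H, f (g * h) = g • f h + f g

/-- Relative 1-coboundaries on a subgroup `H`. -/
def h30_B1 (H : Subgroup G) (f : G → C) : Prop :=
  ∃ a : C, ∀ g ∈ H, g • a - a = f g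

/-- Relative 2-cocycles on a subgroup `H`. -/
def h30_Z2 (H : Subgroup G) (f : G × G → C) : Prop :=
  ∀ g ∈ H, ∀ h ∈ H, ∀ j ∈ H, f (g * h, j) + f (g, h) = g • f (h, j) + f (g, h * j)

/-- Relative 2-coboundaries on a subgroup `H`. -/
def h30_B2 (H : Subgroup G) (f : G × G → C) : Prop :=
  ∃ x : G → C, ∀ g ∈ H, ∀ h ∈ H, g • x h - x (g * h) + x g = f (g, h)

theorem h30_Z1_iff (H : Subgroup G) (f : G → C) :
    h30_Z1 H f ↔ IsCocycle₁ (fun x : H => f x) :=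
  ⟨fun h g k => h g g.2 k k.2, fun h g hg k hk => h ⟨g, hg⟩ ⟨k, hk⟩⟩

theorem h30_B1_iff (H : Subgroup G) (f : G → C) :
    h30_B1 H f ↔ IsCoboundary₁ (fun x : H => f x) :=
  ⟨fun ⟨a, ha⟩ => ⟨a, fun g => ha g g.2⟩, fun ⟨a, ha⟩ => ⟨a, fun g hg => ha ⟨g, hg⟩⟩⟩

theorem h30_Z2_iff (H : Subgroup G) (f : G × G → C) :
    h30_Z2 H f ↔ IsCocycle₂ (fun x : H × H => f ((x.1 : G), (x.2 : G))) :=
  ⟨fun h g k j => h g g.2 k k.2 j j.2, fun h g hg k hk j hj => h ⟨g, hg⟩ ⟨k, hk⟩ ⟨j, hj⟩⟩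

theorem h30_B2_iff (H : Subgroup G) (f : G × G → C) :
    h30_B2 H f ↔ IsCoboundary₂ (fun x : H × H => f ((x.1 : G), (x.2 : G))) := by
  classical
  constructor
  · rintro ⟨x, hx⟩
    exact ⟨fun g => x g, fun g h => hx g g.2 h h.2⟩
  · rintro ⟨x, hx⟩
    refine ⟨fun g => if hg : g ∈ H then x ⟨g, hg⟩ else 0, fun g hg h hh => ?_⟩
    simp only [dif_pos hg, dif_pos hh, dif_pos (H.mul_mem hg hh)]
    exact hx ⟨g, hg⟩ ⟨h, hh⟩

/-- Extension by zero of a function on a subgroup. -/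
noncomputable def h30_ext₁ (H : Subgroup G) (f : H → C) : G → C := by
  classical exact fun g => if hg : g ∈ H then f ⟨g, hg⟩ else 0

omit [DistribMulAction G C] in
theorem h30_ext₁_coe (H : Subgroup G) (f : H → C) (x : H) : h30_ext₁ H f (x : G) = f x := by
  classical
  unfold h30_ext₁
  simp only [x.2, dif_pos, Subtype.coe_eta]

/-- Extension by zero of a function on the square of a subgroup. -/
noncomputable def h30_ext₂ (H : Subgroup G) (f : H × H → C) : G × G → C := by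
  classical exact fun x => if hx : x.1 ∈ H ∧ x.2 ∈ H then f (⟨x.1, hx.1⟩, ⟨x.2, hx.2⟩) else 0

omit [DistribMulAction G C] in
theorem h30_ext₂_coe (H : Subgroup G) (f : H × H → C) (x y : H) :
    h30_ext₂ H f ((x : G), (y : G)) = f (x, y) := by
  classical
  unfold h30_ext₂
  have h : (x : G) ∈ H ∧ (y : G) ∈ H := ⟨x.2, y.2⟩
  simp only [h, dif_pos, Subtype.coe_eta, and_self]

theorem h30_Z2_ext₂ (H : Subgroup G) (f : H × H → C) :
    h30_Z2 H (h30_ext₂ H f) ↔ IsCocycle₂ f := by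
  rw [h30_Z2_iff]
  have : (fun x : H × H => h30_ext₂ H f ((x.1 : G), (x.2 : G))) = f := by
    funext ⟨x, y⟩; exact h30_ext₂_coe H f x y
  rw [this]

theorem h30_B2_ext₂ (H : Subgroup G) (f : H × H → C) :
    h30_B2 H (h30_ext₂ H f) ↔ IsCoboundary₂ f := by
  rw [h30_B2_iff]
  have : (fun x : H × H => h30_ext₂ H f ((x.1 : G), (x.2 : G))) = f := by
    funext ⟨x, y⟩; exact h30_ext₂_coe H f x y
  rw [this]

theorem h30_Z1_mono {H H' : Subgroup G} (h : H' ≤ H) {f : G → C} (hf : h30_Z1 H f) :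
    h30_Z1 H' f := fun g hg k hk => hf g (h hg) k (h hk)

theorem h30_B1_mono {H H' : Subgroup G} (h : H' ≤ H) {f : G → C} (hf : h30_B1 H f) :
    h30_B1 H' f := by
  obtain ⟨a, ha⟩ := hf
  exact ⟨a, fun g hg => ha g (h hg)⟩

theorem h30_Z2_mono {H H' : Subgroup G} (h : H' ≤ H) {f : G × G → C} (hf : h30_Z2 H f) :
    h30_Z2 H' f := fun g hg k hk j hj => hf g (h hg) k (h hk) j (h hj)

theorem h30_B2_mono {H H' : Subgroup G} (h : H' ≤ H) {f : G × G → C} (hf : h30_B2 H f) :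
    h30_B2 H' f := by
  obtain ⟨x, hx⟩ := hf
  exact ⟨x, fun g hg k hk => hx g (h hg) k (h hk)⟩

theorem h30_Z2_of_isCocycle₂ (H : Subgroup G) {f : G × G → C} (hf : IsCocycle₂ f) :
    h30_Z2 H f := fun g _ k _ j _ => hf g k j

theorem h30_B2_of_isCoboundary₂ (H : Subgroup G) {f : G × G → C} (hf : IsCoboundary₂ f) :
    h30_B2 H f := by
  obtain ⟨x, hx⟩ := hf
  exact ⟨x, fun g _ k _ => hx g k⟩

theorem h30_Z2_add {H : Subgroup G} {f f' : G × G → C} (hf : h30_Z2 H f) (hf' : h30_Z2 H f') :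
    h30_Z2 H (f + f') := by
  intro g hg k hk j hj
  have h1 := hf g hg k hk j hj
  have h2 := hf' g hg k hk j hj
  simp only [Pi.add_apply, smul_add]
  rw [add_add_add_comm, h1, h2, add_add_add_comm]

theorem h30_Z2_neg {H : Subgroup G} {f : G × G → C} (hf : h30_Z2 H f) : h30_Z2 H (-f) := by
  intro g hg k hk j hj
  have h1 := hf g hg k hk j hj
  simp only [Pi.neg_apply, smul_neg]
  rw [← neg_add, h1, neg_add]

theorem h30_Z2_sub {H : Subgroup G} {f f' : G × G → C} (hf : h30_Z2 H f) (hf' : h30_Z2 H f') :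
    h30_Z2 H (f - f') := by
  rw [sub_eq_add_neg]
  exact h30_Z2_add hf (h30_Z2_neg hf')

theorem h30_Z2_nsmul {H : Subgroup G} {f : G × G → C} (hf : h30_Z2 H f) (k : ℕ) :
    h30_Z2 H (k • f) := by
  intro g hg h hh j hj
  have h1 := hf g hg h hh j hj
  simp only [Pi.smul_apply]
  rw [← smul_add, h1, smul_add, smul_comm]

theorem h30_B2_zero (H : Subgroup G) : h30_B2 H (0 : G × G → C) :=
  ⟨0, fun g _ h _ => by simp⟩

theorem h30_B2_add {H : Subgroup G} {f f' : G × G → C} (hf : h30_B2 H f) (hf' : h30_B2 H f') :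
    h30_B2 H (f + f') := by
  obtain ⟨x, hx⟩ := hf
  obtain ⟨x', hx'⟩ := hf'
  refine ⟨x + x', fun g hg k hk => ?_⟩
  simp only [Pi.add_apply, smul_add, ← hx g hg k hk, ← hx' g hg k hk]
  abel

theorem h30_B2_neg {H : Subgroup G} {f : G × G → C} (hf : h30_B2 H f) : h30_B2 H (-f) := by
  obtain ⟨x, hx⟩ := hf
  refine ⟨-x, fun g hg k hk => ?_⟩
  simp only [Pi.neg_apply, smul_neg, ← hx g hg k hk]
  abel

theorem h30_B2_sub {H : Subgroup G} {f f' : G × G → C} (hf : h30_B2 H f) (hf' : h30_B2 H f') :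
    h30_B2 H (f - f') := by
  rw [sub_eq_add_neg]
  exact h30_B2_add hf (h30_B2_neg hf')

theorem h30_B2_nsmul {H : Subgroup G} {f : G × G → C} (hf : h30_B2 H f) (k : ℕ) :
    h30_B2 H (k • f) := by
  obtain ⟨x, hx⟩ := hf
  refine ⟨k • x, fun g hg h hh => ?_⟩
  simp only [Pi.smul_apply, ← hx g hg h hh, smul_add, smul_sub, smul_comm g k]

theorem h30_Z2_of_B2 {H : Subgroup G} {f : G × G → C} (hf : h30_B2 H f) : h30_Z2 H f := by
  obtain ⟨x, hx⟩ := hf
  intro g hg h hh j hj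
  rw [← hx (g * h) (H.mul_mem hg hh) j hj, ← hx g hg h hh, ← hx h hh j hj,
    ← hx g hg (h * j) (H.mul_mem hh hj)]
  simp only [smul_add, smul_sub, mul_smul, mul_assoc]
  abel

end Rel

section PGroup

variable {G : Type*} [Group G]

/-- A nontrivial finite `p`-subgroup has a normal subgroup of index `p` (elementwise form). -/
theorem h30_exists_normal_relIndex {p : ℕ} [Fact p.Prime] [Finite G] (H : Subgroup G)
    (hH : IsPGroup p H) (hbot : H ≠ ⊥) :
    ∃ H₂ : Subgroup G, H₂ ≤ H ∧ (∀ g ∈ H, ∀ h ∈ H₂, g * h * g⁻¹ ∈ H₂) ∧ H₂.relIndex H = p := by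
  have hp : p.Prime := Fact.out
  obtain ⟨k, hk⟩ := IsPGroup.iff_card.1 hH
  have hk0 : k ≠ 0 := by
    rintro rfl
    rw [pow_zero] at hk
    exact hbot (Subgroup.card_eq_one.1 hk)
  obtain ⟨K, hK⟩ := Sylow.exists_subgroup_card_pow_prime (G := H) p (n := k - 1)
    (by rw [hk]; exact pow_dvd_pow p (Nat.sub_le k 1))
  have hidx : K.index = p := by
    have h1 := K.card_mul_index
    rw [hK, hk] at h1
    have h2 : p ^ (k - 1) * p = p ^ k := by
      rw [← pow_succ]; congr 1; omega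
    rw [← h2] at h1
    exact Nat.eq_of_mul_eq_mul_left (pow_pos hp.pos _) h1
  have hnorm : K.Normal := by
    apply Subgroup.normal_of_index_eq_minFac_card
    rw [hidx, hk, Nat.Prime.pow_minFac hp hk0]
  refine ⟨K.map H.subtype, Subgroup.map_subtype_le K, ?_, ?_⟩
  · rintro g hg h ⟨h', hh', rfl⟩
    exact ⟨⟨g, hg⟩ * h' * ⟨g, hg⟩⁻¹, hnorm.conj_mem h' hh' ⟨g, hg⟩, rfl⟩
  · show ((K.map H.subtype).comap H.subtype).index = p
    rw [Subgroup.comap_map_eq_self_of_injective H.subtype_injective]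
    exact hidx

theorem h30_pow_relIndex_mem {H H₂ : Subgroup G}
    (hnorm : ∀ g ∈ H, ∀ h ∈ H₂, g * h * g⁻¹ ∈ H₂) {σ : G} (hσ : σ ∈ H) :
    σ ^ H₂.relIndex H ∈ H₂ := by
  have hN : (H₂.subgroupOf H).Normal := ⟨fun n hn g => by
    rw [Subgroup.mem_subgroupOf] at hn ⊢
    exact hnorm g g.2 n hn⟩
  have h1 := Subgroup.pow_index_mem (H₂.subgroupOf H) (⟨σ, hσ⟩ : H)
  rw [Subgroup.mem_subgroupOf] at h1
  exact h1

theorem h30_card_lt_of_relIndex [Finite G] {H H₂ : Subgroup G} (h21 : H₂ ≤ H) {p : ℕ}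
    (hp : 1 < p) (hidx : H₂.relIndex H = p) : Nat.card H₂ < Nat.card H := by
  have h1 := Subgroup.relIndex_mul_relIndex ⊥ H₂ H bot_le h21
  rw [Subgroup.relIndex_bot_left, Subgroup.relIndex_bot_left, hidx] at h1
  have h2 : 0 < Nat.card H₂ := Nat.card_pos
  rw [← h1]
  nlinarith

/-- A subgroup between `H₂` and `H` (`H₂` of prime index in `H`) that is not `H₂` is `H`. -/
theorem h30_le_of_relIndex_prime {H H₂ Z : Subgroup G} {p : ℕ} (hp : p.Prime)
    (hidx : H₂.relIndex H = p) (h2Z : H₂ ≤ Z) (hZH : Z ≤ H) {σ : G} (hσZ : σ ∈ Z)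
    (hσ' : σ ∉ H₂) : H ≤ Z := by
  have hmul := Subgroup.relIndex_mul_relIndex H₂ Z H h2Z hZH
  rw [hidx] at hmul
  rcases (Nat.dvd_prime hp).1 (Dvd.intro_left _ hmul) with h1 | h1
  · exact Subgroup.relIndex_eq_one.1 h1
  · rw [h1] at hmul
    have h3 : H₂.relIndex Z = 1 := by
      have hp' := hp.pos
      nlinarith
    exact absurd (Subgroup.relIndex_eq_one.1 h3 hσZ) hσ'

end PGroup

section H1

variable {G : Type*} [Group G] {C : Type*} [AddCommGroup C] [DistribMulAction G C]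

/-- The values of a relative 1-cocycle on the powers of an element. -/
theorem h30_Z1_pow {H : Subgroup G} {f : G → C} (hf : h30_Z1 H f) {σ : G} (hσ : σ ∈ H) (i : ℕ) :
    f (σ ^ i) = ∑ j ∈ Finset.range i, σ ^ j • f σ := by
  have h1 : f 1 = 0 := by
    have := hf 1 H.one_mem 1 H.one_mem
    rw [mul_one, one_smul] at this
    exact left_eq_add.1 this
  induction i with
  | zero => simp [h1]
  | succ i ih => rw [pow_succ, hf _ (H.pow_mem hσ i) σ hσ, ih, Finset.sum_range_succ, add_comm]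

theorem h30_Z1_one {H : Subgroup G} {f : G → C} (hf : h30_Z1 H f) : f 1 = 0 := by
  have := hf 1 H.one_mem 1 H.one_mem
  rw [mul_one, one_smul] at this
  exact left_eq_add.1 this

/-- The zero set of a relative 1-cocycle is a subgroup. -/
def h30_zeroSet (H : Subgroup G) (f : G → C) (hf : h30_Z1 H f) : Subgroup G where
  carrier := {g | g ∈ H ∧ f g = 0}
  mul_mem' := by
    rintro g h ⟨hg, hg0⟩ ⟨hh, hh0⟩
    exact ⟨H.mul_mem hg hh, by rw [hf g hg h hh, hg0, hh0, smul_zero, add_zero]⟩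
  one_mem' := ⟨H.one_mem, h30_Z1_one hf⟩
  inv_mem' := by
    rintro g ⟨hg, hg0⟩
    refine ⟨H.inv_mem hg, ?_⟩
    have h1 := hf g hg g⁻¹ (H.inv_mem hg)
    rw [mul_inv_cancel, h30_Z1_one hf, hg0, add_zero] at h1
    have h2 : g⁻¹ • (g • f g⁻¹) = 0 := by rw [← h1, smul_zero]
    rwa [inv_smul_smul] at h2

theorem h30_Z1_sub_d₀ {H : Subgroup G} {f : G → C} (hf : h30_Z1 H f) (a : C) :
    h30_Z1 H (fun g => f g - (g • a - a)) := by
  intro g hg h hh
  simp only [hf g hg h hh, mul_smul, smul_sub]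
  abel

/-- **Hilbert 90 on top, `p`-subgroups**: relative form. -/
theorem h30_H1_pgroup {p : ℕ} [Fact p.Prime] [Finite G]
    (hCFA1 : ∀ H₁ H₂ : Subgroup G, IsPGroup p H₁ → H₂ ≤ H₁ →
      (∀ g ∈ H₁, ∀ h ∈ H₂, g * h * g⁻¹ ∈ H₂) → H₂.relIndex H₁ = p → ∀ σ ∈ H₁, σ ∉ H₂ →
      ∀ c : C, (∀ h ∈ H₂, h • c = c) → ∑ i ∈ Finset.range p, σ ^ i • c = 0 →
      ∃ b : C, (∀ h ∈ H₂, h • b = b) ∧ σ • b - b = c) :
    ∀ (n : ℕ) (H : Subgroup G), Nat.card H = n → IsPGroup p H →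
      ∀ f : G → C, h30_Z1 H f → h30_B1 H f := by
  have hp : p.Prime := Fact.out
  intro n
  induction n using Nat.strong_induction_on with
  | _ n ih =>
    intro H hn hH f hf
    by_cases hbot : H = ⊥
    · subst hbot
      refine ⟨0, fun g hg => ?_⟩
      rw [Subgroup.mem_bot] at hg
      subst hg
      rw [h30_Z1_one hf, smul_zero, sub_zero]
    · obtain ⟨H₂, h21, hnorm, hidx⟩ := h30_exists_normal_relIndex H hH hbot
      have hcard : Nat.card H₂ < n := hn ▸ h30_card_lt_of_relIndex h21 hp.one_lt hidx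
      obtain ⟨a, ha⟩ := ih (Nat.card H₂) hcard H₂ rfl (hH.to_le h21) f (h30_Z1_mono h21 hf)
      obtain ⟨f', hf'⟩ : ∃ f' : G → C, ∀ g, f' g = f g - (g • a - a) := ⟨_, fun _ => rfl⟩
      have hf'c : h30_Z1 H f' := by
        have := h30_Z1_sub_d₀ hf a
        intro g hg h hh
        rw [hf', hf', hf']
        exact this g hg h hh
      have hf'0 : ∀ h ∈ H₂, f' h = 0 := fun h hh => by rw [hf', ha h hh, sub_self]
      obtain ⟨σ, hσ, hσ'⟩ : ∃ σ ∈ H, σ ∉ H₂ := by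
        by_contra hcon
        push Not at hcon
        have h1 : H₂.relIndex H = 1 := Subgroup.relIndex_eq_one.2 hcon
        rw [hidx] at h1
        exact hp.one_lt.ne' h1
      have h1 : ∀ g ∈ H, ∀ h ∈ H₂, f' (g * h) = f' g := by
        intro g hg h hh
        rw [hf'c g hg h (h21 hh), hf'0 h hh, smul_zero, zero_add]
      have h2 : ∀ h ∈ H₂, ∀ g ∈ H, f' (h * g) = h • f' g := by
        intro h hh g hg
        rw [hf'c h (h21 hh) g hg, hf'0 h hh, add_zero]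
      have hcfix : ∀ h ∈ H₂, h • f' σ = f' σ := by
        intro h hh
        rw [← h2 h hh σ hσ]
        have h3 : h * σ = σ * (σ⁻¹ * h * σ⁻¹⁻¹) := by group
        rw [h3]
        exact h1 σ hσ _ (hnorm σ⁻¹ (H.inv_mem hσ) h hh)
      have hσp : σ ^ p ∈ H₂ := hidx ▸ h30_pow_relIndex_mem hnorm hσ
      have hN : ∑ j ∈ Finset.range p, σ ^ j • f' σ = 0 := by
        rw [← h30_Z1_pow hf'c hσ, hf'0 _ hσp]
      obtain ⟨b, hb, hbc⟩ := hCFA1 H H₂ hH h21 hnorm hidx σ hσ hσ' (f' σ) hcfix hN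
      have hf''c := h30_Z1_sub_d₀ hf'c b
      have h2Z : H₂ ≤ h30_zeroSet H _ hf''c := fun h hh =>
        ⟨h21 hh, by show f' h - (h • b - b) = 0; rw [hf'0 h hh, hb h hh, sub_self, sub_zero]⟩
      have hσZ : σ ∈ h30_zeroSet H _ hf''c :=
        ⟨hσ, by show f' σ - (σ • b - b) = 0; rw [hbc, sub_self]⟩
      have hHZ := h30_le_of_relIndex_prime hp hidx h2Z (fun g hg => hg.1) hσZ hσ'
      refine ⟨a + b, fun g hg => ?_⟩
      have h3 : f' g - (g • b - b) = 0 := (hHZ hg).2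
      rw [hf'] at h3
      rw [smul_add]
      have h4 : f g = (g • a - a) + (g • b - b) := by
        rw [sub_eq_zero] at h3
        rw [← h3]; abel
      rw [h4]; abel

/-- **Hilbert 90 on top**: every 1-cocycle of every subgroup is a coboundary. -/
theorem h30_H1 {p : ℕ} [Fact p.Prime] [Finite G] (hploc : h40_IsPLocal p C)
    (hCFA1 : ∀ H₁ H₂ : Subgroup G, IsPGroup p H₁ → H₂ ≤ H₁ →
      (∀ g ∈ H₁, ∀ h ∈ H₂, g * h * g⁻¹ ∈ H₂) → H₂.relIndex H₁ = p → ∀ σ ∈ H₁, σ ∉ H₂ →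
      ∀ c : C, (∀ h ∈ H₂, h • c = c) → ∑ i ∈ Finset.range p, σ ^ i • c = 0 →
      ∃ b : C, (∀ h ∈ H₂, h • b = b) ∧ σ • b - b = c)
    (H : Subgroup G) (f : H → C) (hf : IsCocycle₁Via H.subtype f) :
    IsCoboundary₁Via H.subtype f := by
  obtain ⟨P⟩ : Nonempty (Sylow p H) := inferInstance
  apply h88_res₁_inj_sylow_via p hploc H P f hf
  have key := h30_H1_pgroup hCFA1 _ ((P : Subgroup H).map H.subtype) rfl (P.isPGroup'.map _)
    (h30_ext₁ H f) ?_
  · obtain ⟨a, ha⟩ := key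
    refine ⟨a, fun x => ?_⟩
    have h1 := ha ((x : H) : G) ⟨(x : H), x.2, rfl⟩
    rw [h30_ext₁_coe] at h1
    exact h1
  · rintro g ⟨g', -, rfl⟩ h ⟨h', -, rfl⟩
    have h1 := hf g' h'
    have h2 : (H.subtype g' * H.subtype h' : G) = ((g' * h' : H) : G) := rfl
    rw [h2]
    simp only [Subgroup.coe_subtype, h30_ext₁_coe]
    exact h1

/-- Hilbert 90 on top, relative form. -/
theorem h30_H1_rel {p : ℕ} [Fact p.Prime] [Finite G] (hploc : h40_IsPLocal p C)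
    (hCFA1 : ∀ H₁ H₂ : Subgroup G, IsPGroup p H₁ → H₂ ≤ H₁ →
      (∀ g ∈ H₁, ∀ h ∈ H₂, g * h * g⁻¹ ∈ H₂) → H₂.relIndex H₁ = p → ∀ σ ∈ H₁, σ ∉ H₂ →
      ∀ c : C, (∀ h ∈ H₂, h • c = c) → ∑ i ∈ Finset.range p, σ ^ i • c = 0 →
      ∃ b : C, (∀ h ∈ H₂, h • b = b) ∧ σ • b - b = c)
    (H : Subgroup G) (f : G → C) (hf : h30_Z1 H f) : h30_B1 H f := by
  rw [h30_B1_iff]
  rw [h30_Z1_iff] at hf
  exact h30_H1 hploc hCFA1 H (fun x : H => f x) hf

/-- Hilbert 90 for a subgroup of a subgroup, acting through the big group (the form consumed by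
the inflation-restriction theorems applied to a subgroup). -/
theorem h30_H1_sub {p : ℕ} [Fact p.Prime] [Finite G] (hploc : h40_IsPLocal p C)
    (hCFA1 : ∀ H₁ H₂ : Subgroup G, IsPGroup p H₁ → H₂ ≤ H₁ →
      (∀ g ∈ H₁, ∀ h ∈ H₂, g * h * g⁻¹ ∈ H₂) → H₂.relIndex H₁ = p → ∀ σ ∈ H₁, σ ∉ H₂ →
      ∀ c : C, (∀ h ∈ H₂, h • c = c) → ∑ i ∈ Finset.range p, σ ^ i • c = 0 →
      ∃ b : C, (∀ h ∈ H₂, h • b = b) ∧ σ • b - b = c)
    (H : Subgroup G) (U : Subgroup H) (u : U → C) (hu : IsCocycle₁Via U.subtype u) :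
    IsCoboundary₁Via U.subtype u := by
  classical
  obtain ⟨f, hf⟩ : ∃ f : G → C, ∀ x : U, f ((x : H) : G) = u x := by
    refine ⟨fun g => if hg : g ∈ H ∧ ∃ hg : g ∈ H, (⟨g, hg⟩ : H) ∈ U then
      u ⟨⟨g, hg.1⟩, hg.2.2⟩ else 0, fun x => ?_⟩
    have h : ((x : H) : G) ∈ H ∧ ∃ hg : ((x : H) : G) ∈ H, (⟨((x : H) : G), hg⟩ : H) ∈ U :=
      ⟨(x : H).2, (x : H).2, x.2⟩
    show dite _ _ _ = _
    rw [dif_pos h]
  have hZ : h30_Z1 (U.map H.subtype) f := by
    rintro g ⟨g', hg', rfl⟩ h ⟨h', hh', rfl⟩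
    have h1 := hu ⟨g', hg'⟩ ⟨h', hh'⟩
    have h2 := hf (⟨g', hg'⟩ * ⟨h', hh'⟩ : U)
    have h3 := hf ⟨g', hg'⟩
    have h4 := hf ⟨h', hh'⟩
    simp only [Subgroup.coe_subtype]
    rw [h3, h4]
    exact h2.trans h1
  obtain ⟨a, ha⟩ := h30_H1_rel hploc hCFA1 _ f hZ
  refine ⟨a, fun x => ?_⟩
  have h1 := ha ((x : H) : G) ⟨(x : H), x.2, rfl⟩
  rw [hf] at h1
  exact h1

end H1

end Fermat.Agent.S55
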