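/-
S55 layer H, row H-CFBUILD (helper30), part 2: the carry cocycle of a cyclic quotient, in relative
form (functions on the whole group, a subgroup `H` with an index function `ι : G → ℕ` modulo `r`),
and the two level lemmas: the carry cocycle of a norm is a coboundary, and conversely
(given `H¹ = 0` on the kernel of the index function).  Plus the `p`-adic arithmetic in the
torsion-free target of the valuation.
-/
import Mathlib
import Fermat.Agent.S55.h30_CFRel

set_option autoImplicit false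

open groupCohomology

namespace Fermat.Agent.S55

section Carry

variable {G : Type*} [Group G] {C : Type*} [AddCommGroup C] [DistribMulAction G C]

/-- The carry 2-cochain attached to a "logarithm" `v : G → ℕ` modulo `r` and an element `c`. -/
def h30_carry (v : G → ℕ) (r : ℕ) (c : C) : G × G → C := fun x => ((v x.1 + v x.2) / r) • c

omit [Group G] [DistribMulAction G C] in
theorem h30_carry_apply (v : G → ℕ) (r : ℕ) (c : C) (g h : G) :
    h30_carry v r c (g, h) = ((v g + v h) / r) • c := rfl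

omit [Group G] [DistribMulAction G C] in
theorem h30_carry_nsmul (v : G → ℕ) (r : ℕ) (c : C) (k : ℕ) :
    h30_carry v r (k • c) = k • h30_carry v r c := by
  funext ⟨g, h⟩
  simp only [h30_carry_apply, Pi.smul_apply, smul_comm k]

theorem h30_div_assoc (r : ℕ) (hr : 0 < r) (a b : ℕ) : (a % r + b) / r + a / r = (a + b) / r := by
  conv_rhs => rw [← Nat.mod_add_div a r, add_right_comm, Nat.add_mul_div_left _ _ hr]

/-- The carry cochain is a 2-cocycle. -/
theorem h30_carry_isCocycle₂ (v : G → ℕ) (r : ℕ) (hr : 0 < r)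
    (hv : ∀ g h, v (g * h) = (v g + v h) % r) (c : C) (hc : ∀ g : G, g • c = c) :
    IsCocycle₂ (h30_carry v r c) := by
  intro g h j
  simp only [h30_carry_apply, hv, smul_comm g, hc]
  rw [← add_smul, ← add_smul]
  congr 1
  rw [h30_div_assoc r hr, add_comm ((v h + v j) / r), add_comm (v g) ((v h + v j) % r),
    h30_div_assoc r hr (v h + v j) (v g)]
  congr 1
  ring

theorem h30_mod_cancel {a t r : ℕ} (ha : a < r) (ht : t < r) (h : (a + t) % r = a) : t = 0 := by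
  by_cases hlt : a + t < r
  · rw [Nat.mod_eq_of_lt hlt] at h; omega
  · rw [Nat.mod_eq_sub_mod (not_lt.1 hlt), Nat.mod_eq_of_lt (by omega)] at h; omega

section Index

variable (H : Subgroup G) (ι : G → ℕ) (r : ℕ)

theorem h30_idx_one (hι : ∀ g ∈ H, ι g < r)
    (hmul : ∀ g ∈ H, ∀ h ∈ H, ι (g * h) = (ι g + ι h) % r) : ι 1 = 0 := by
  have h1 := hmul 1 H.one_mem 1 H.one_mem
  rw [mul_one] at h1
  exact h30_mod_cancel (hι 1 H.one_mem) (hι 1 H.one_mem) h1.symm

theorem h30_idx_pow (hι : ∀ g ∈ H, ι g < r)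
    (hmul : ∀ g ∈ H, ∀ h ∈ H, ι (g * h) = (ι g + ι h) % r) {σ : G} (hσ : σ ∈ H)
    (hσ1 : ι σ = 1 % r) (k : ℕ) : ι (σ ^ k) = k % r := by
  induction k with
  | zero =>
    rw [pow_zero, h30_idx_one H ι r hι hmul, Nat.zero_mod]
  | succ k ih => rw [pow_succ, hmul _ (H.pow_mem hσ k) σ hσ, ih, hσ1, ← Nat.add_mod]

theorem h30_idx_inv_mul (hι : ∀ g ∈ H, ι g < r)
    (hmul : ∀ g ∈ H, ∀ h ∈ H, ι (g * h) = (ι g + ι h) % r) {g g' : G} (hg : g ∈ H)
    (hg' : g' ∈ H) (h : ι g = ι g') : ι (g⁻¹ * g') = 0 := by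
  have h1 := hmul g hg (g⁻¹ * g') (H.mul_mem (H.inv_mem hg) hg')
  rw [mul_inv_cancel_left, ← h] at h1
  exact h30_mod_cancel (hι g hg) (hι _ (H.mul_mem (H.inv_mem hg) hg')) h1.symm

/-- **Level lemma (a)**: the carry cocycle of a norm is a coboundary on `H`. -/
theorem h30_carry_B2_of_norm (hι : ∀ g ∈ H, ι g < r)
    (hmul : ∀ g ∈ H, ∀ h ∈ H, ι (g * h) = (ι g + ι h) % r) {σ : G} (hσ : σ ∈ H)
    (hσ1 : ι σ = 1 % r) (b : C) (hb : ∀ h ∈ H, ι h = 0 → h • b = b) :
    h30_B2 H (h30_carry ι r (∑ i ∈ Finset.range r, σ ^ i • b)) := by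
  obtain ⟨c, hc⟩ : ∃ c : C, c = ∑ i ∈ Finset.range r, σ ^ i • b := ⟨_, rfl⟩
  rw [← hc]
  have hpow := h30_idx_pow H ι r hι hmul hσ hσ1
  have hact : ∀ g ∈ H, ∀ g' ∈ H, ι g = ι g' → g • b = g' • b := by
    intro g hg g' hg' h
    have h0 := h30_idx_inv_mul H ι r hι hmul hg hg' h
    have h1 := hb (g⁻¹ * g') (H.mul_mem (H.inv_mem hg) hg') h0
    rw [mul_smul] at h1
    rw [← h1, smul_inv_smul, h1]
  have hσr : σ ^ r • b = b := hb _ (H.pow_mem hσ r) (by rw [hpow, Nat.mod_self])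
  have hσc : σ • c = c := by
    rw [hc, Finset.smul_sum]
    simp only [← mul_smul, ← pow_succ']
    have h1 := Finset.sum_range_succ (fun i => σ ^ i • b) r
    have h2 := Finset.sum_range_succ' (fun i => σ ^ i • b) r
    rw [h1] at h2
    simp only [pow_zero, one_smul, hσr] at h2
    exact (add_right_cancel h2).symm
  have hσkc : ∀ k : ℕ, σ ^ k • c = c := by
    intro k
    induction k with
    | zero => rw [pow_zero, one_smul]
    | succ k ih => rw [pow_succ, mul_smul, hσc, ih]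
  obtain ⟨S, hS⟩ : ∃ S : ℕ → C, ∀ k, S k = ∑ i ∈ Finset.range k, σ ^ i • b := ⟨_, fun _ => rfl⟩
  have hS_add : ∀ k l : ℕ, S (k + l) = S k + σ ^ k • S l := by
    intro k l
    rw [hS, hS, hS, Finset.sum_range_add, Finset.smul_sum]
    simp only [← mul_smul, ← pow_add]
  have hS_per : ∀ k q : ℕ, S (k + r * q) = S k + q • c := by
    intro k q
    induction q with
    | zero => simp
    | succ q ih =>
      rw [Nat.mul_succ, ← add_assoc, hS_add (k + r * q) r, ih, ← hc.trans (hS r).symm, hσkc,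
        succ_nsmul, add_assoc]
  refine ⟨fun g => S (ι g), fun g hg h hh => ?_⟩
  have h1 : g • S (ι h) = σ ^ (ι g) • S (ι h) := by
    rw [hS, Finset.smul_sum, Finset.smul_sum]
    refine Finset.sum_congr rfl fun i _ => ?_
    rw [← mul_smul, ← mul_smul, ← pow_add]
    apply hact _ (H.mul_mem hg (H.pow_mem hσ i)) _ (H.pow_mem hσ _)
    rw [hmul g hg _ (H.pow_mem hσ i), hpow, hpow, Nat.add_mod_mod]
  have h2 : S (ι g + ι h) = S (ι (g * h)) + ((ι g + ι h) / r) • c := by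
    rw [hmul g hg h hh, ← hS_per, Nat.mod_add_div]
  show g • S (ι h) - S (ι (g * h)) + S (ι g) = ((ι g + ι h) / r) • c
  rw [h1]
  have h3 := hS_add (ι g) (ι h)
  rw [h2] at h3
  rw [← sub_eq_zero]
  have h4 : S (ι (g * h)) + ((ι g + ι h) / r) • c - (S (ι g) + σ ^ ι g • S (ι h)) = 0 := by
    rw [h3, sub_self]
  rw [← neg_eq_zero, ← h4]
  abel

/-- **Level lemma (b)**: if the carry cocycle of an invariant `c` is a coboundary on `H` and
`H¹` vanishes on the kernel `H'` of the index function, then `c` is a norm. -/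
theorem h30_norm_of_carry_B2 (hr : 0 < r) (hι : ∀ g ∈ H, ι g < r)
    (hmul : ∀ g ∈ H, ∀ h ∈ H, ι (g * h) = (ι g + ι h) % r) {σ : G} (hσ : σ ∈ H)
    (hσ1 : ι σ = 1 % r) (H' : Subgroup G) (hH' : ∀ h, h ∈ H' ↔ h ∈ H ∧ ι h = 0)
    (hH1 : ∀ f : G → C, h30_Z1 H' f → h30_B1 H' f)
    (c : C) (hc : ∀ h ∈ H, h • c = c) (hB : h30_B2 H (h30_carry ι r c)) :
    ∃ b : C, (∀ h ∈ H', h • b = b) ∧ c = ∑ i ∈ Finset.range r, σ ^ i • b := by
  have hpow := h30_idx_pow H ι r hι hmul hσ hσ1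
  have hle : H' ≤ H := fun h hh => ((hH' h).1 hh).1
  by_cases hr1 : r = 1
  · subst hr1
    exact ⟨c, fun h hh => hc h (hle hh), by simp⟩
  have hr2 : 2 ≤ r := by omega
  obtain ⟨x, hx⟩ := hB
  -- `x` is a cocycle on `H'`
  have hxZ : h30_Z1 H' x := by
    intro g hg h hh
    have h1 := hx g (hle hg) h (hle hh)
    rw [h30_carry_apply, ((hH' g).1 hg).2, ((hH' h).1 hh).2, Nat.zero_add, Nat.zero_div,
      zero_smul] at h1
    have h2 : g • x h + x g - x (g * h) = 0 := by rw [← h1]; abel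
    exact (sub_eq_zero.1 h2).symm
  obtain ⟨a, ha⟩ := hH1 x hxZ
  obtain ⟨x', hx'⟩ : ∃ x' : G → C, ∀ g, x' g = x g - (g • a - a) := ⟨_, fun _ => rfl⟩
  have hx'd : ∀ g ∈ H, ∀ h ∈ H, g • x' h - x' (g * h) + x' g = ((ι g + ι h) / r) • c := by
    intro g hg h hh
    rw [hx', hx', hx', ← h30_carry_apply, ← hx g hg h hh]
    simp only [smul_sub, mul_smul]
    abel
  have hx'0 : ∀ h ∈ H', x' h = 0 := fun h hh => by rw [hx', ha h hh, sub_self]
  have h1 : ∀ g ∈ H, ∀ h ∈ H', x' (g * h) = x' g := by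
    intro g hg h hh
    have h2 := hx'd g hg h (hle hh)
    rw [((hH' h).1 hh).2, Nat.add_zero, Nat.div_eq_of_lt (hι g hg), zero_smul, hx'0 h hh,
      smul_zero, zero_sub, neg_add_eq_zero] at h2
    exact h2
  have h2 : ∀ h ∈ H', ∀ g ∈ H, x' (h * g) = h • x' g := by
    intro h hh g hg
    have h3 := hx'd h (hle hh) g hg
    rw [((hH' h).1 hh).2, Nat.zero_add, Nat.div_eq_of_lt (hι g hg), zero_smul, hx'0 h hh,
      add_zero, sub_eq_zero] at h3
    exact h3.symm
  refine ⟨x' σ, fun h hh => ?_, ?_⟩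
  · rw [← h2 h hh σ hσ]
    have h3 : h * σ = σ * (σ⁻¹ * (h * σ)) := by group
    have h4 : σ⁻¹ * (h * σ) ∈ H' := by
      rw [hH']
      refine ⟨H.mul_mem (H.inv_mem hσ) (H.mul_mem (hle hh) hσ), ?_⟩
      apply h30_idx_inv_mul H ι r hι hmul hσ (H.mul_mem (hle hh) hσ)
      rw [hmul h (hle hh) σ hσ, ((hH' h).1 hh).2, Nat.zero_add, Nat.mod_eq_of_lt (hι σ hσ)]
    rw [h3]
    exact h1 σ hσ _ h4
  · have hσr : σ ^ r ∈ H' := by
      rw [hH']
      exact ⟨H.pow_mem hσ r, by rw [hpow, Nat.mod_self]⟩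
    have h3 : ∀ i : ℕ, σ ^ i • x' σ = ((ι (σ ^ i) + ι σ) / r) • c + (x' (σ ^ (i + 1)) - x' (σ ^ i)) := by
      intro i
      have h4 := hx'd (σ ^ i) (H.pow_mem hσ i) σ hσ
      rw [← h4, pow_succ]
      abel
    rw [Finset.sum_congr rfl (fun i _ => h3 i), Finset.sum_add_distrib,
      Finset.sum_range_sub (fun i => x' (σ ^ i)), hx'0 _ hσr, pow_zero, hx'0 1 H'.one_mem,
      sub_zero, add_zero]
    obtain ⟨r₀, rfl⟩ : ∃ r₀, r = r₀ + 1 := ⟨r - 1, by omega⟩
    rw [Finset.sum_range_succ, Finset.sum_eq_zero, zero_add]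
    · rw [hpow, hσ1, Nat.mod_eq_of_lt (Nat.lt_succ_self r₀), Nat.mod_eq_of_lt (by omega),
        Nat.div_self (Nat.succ_pos r₀), one_smul]
    · intro i hi
      rw [Finset.mem_range] at hi
      rw [hpow, hσ1, Nat.mod_eq_of_lt (by omega), Nat.mod_eq_of_lt (by omega),
        Nat.div_eq_of_lt (by omega), zero_smul]

end Index

end Carry

section VNum

variable {V : Type*} [AddCommGroup V]

theorem h30_tf_pow {p : ℕ} (tf : ∀ x : V, p • x = 0 → x = 0) (e : ℕ) (x : V)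
    (h : p ^ e • x = 0) : x = 0 := by
  induction e with
  | zero => simpa using h
  | succ e ih =>
    apply ih
    apply tf
    rw [← mul_smul, ← pow_succ']
    exact h

/-- If `q` is prime to `p` and `q • y₀ ∈ p V` then `y₀ ∈ p V`. -/
theorem h30_dvd_of_coprime_smul {p : ℕ} (hp : p.Prime) (q : ℕ) (hq : q.Coprime p) (y₀ y : V)
    (h : q • y₀ = p • y) : ∃ y' : V, y₀ = p • y' := by
  obtain ⟨α, -, hα⟩ := Nat.exists_mul_mod_eq_one_of_coprime hq hp.one_lt
  have h1 : q * α = p * (q * α / p) + 1 := by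
    have := Nat.div_add_mod (q * α) p
    omega
  refine ⟨α • y - (q * α / p) • y₀, ?_⟩
  have h2 : (q * α) • y₀ = (p * (q * α / p)) • y₀ + y₀ := by
    conv_lhs => rw [h1]
    rw [add_smul, one_smul]
  have h3 : (q * α) • y₀ = p • α • y := by
    rw [mul_comm, mul_smul, h, smul_comm]
  rw [smul_sub, ← h3, h2, mul_smul]
  abel

/-- The `p`-adic arithmetic in the target of the valuation: if `y₀ ∉ p V`, `V` has no
`p`-torsion and `(a d) • y₀ = (p^m d) • y` with `d ≠ 0`, then `p^m ∣ a`. -/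
theorem h30_V_num {p : ℕ} (hp : p.Prime) (tf : ∀ x : V, p • x = 0 → x = 0) (y₀ : V)
    (hy₀ : ¬ ∃ y : V, y₀ = p • y) (a d m : ℕ) (hd : d ≠ 0) (y : V)
    (h : (a * d) • y₀ = (p ^ m * d) • y) : p ^ m ∣ a := by
  by_cases ha : a = 0
  · rw [ha]; exact dvd_zero _
  obtain ⟨t, q, hq, rfl⟩ := Nat.exists_eq_pow_mul_and_not_dvd ha p hp.ne_one
  obtain ⟨e, d', hd', rfl⟩ := Nat.exists_eq_pow_mul_and_not_dvd hd p hp.ne_one
  by_cases htm : m ≤ t
  · exact Dvd.dvd.mul_right (pow_dvd_pow p htm) q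
  exfalso
  apply hy₀
  have htm' : t < m := not_le.1 htm
  obtain ⟨s, rfl⟩ : ∃ s, m = t + 1 + s := ⟨m - (t + 1), by omega⟩
  have h1 : p ^ (t + e) • ((q * d') • y₀ - p • (p ^ s * d') • y) = 0 := by
    rw [smul_sub, sub_eq_zero, ← mul_smul, ← mul_smul, ← mul_smul]
    convert h using 2 <;> ring
  have h2 := h30_tf_pow tf _ _ h1
  rw [sub_eq_zero] at h2
  have hcop : (q * d').Coprime p :=
    Nat.Coprime.symm ((Nat.Prime.coprime_iff_not_dvd hp).2
      (fun hdvd => (hp.dvd_mul.1 hdvd).elim hq hd'))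
  exact h30_dvd_of_coprime_smul hp (q * d') hcop y₀ _ h2

end VNum

end Fermat.Agent.S55
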