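/-
S55 layer H, row H-CFBUILD (helper30), part 3: the degree map `deg : G → ℤ/p^n`, the logarithm
`v = deg mod p^m`, the index functions on subgroups, the numerics of `f_H = [ℤ/p^n : deg H]`
and the easy half of (CYC): the valuation of a norm from the layer.
-/
import Mathlib
import Fermat.Agent.S55.h30_CFCarry

set_option autoImplicit false
set_option linter.unusedSectionVars false

open groupCohomology

namespace Fermat.Agent.S55

section Deg

variable {p : ℕ} [Fact p.Prime] {G : Type*} [Group G] {n : ℕ}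
  (deg : G →* Multiplicative (ZMod (p ^ n)))

/-- The logarithm modulo `p^m` of the degree. -/
def h30_v (m : ℕ) : G → ℕ := fun g => (Multiplicative.toAdd (deg g)).val % p ^ m

theorem h30_v_apply (m : ℕ) (g : G) :
    h30_v deg m g = (Multiplicative.toAdd (deg g)).val % p ^ m := rfl

theorem h30_ppos (k : ℕ) : 0 < p ^ k := pow_pos (Fact.out : p.Prime).pos k

theorem h30_neZero_pow (k : ℕ) : NeZero (p ^ k) := ⟨(h30_ppos k).ne'⟩

attribute [local instance] h30_neZero_pow

theorem h30_v_lt (m : ℕ) (g : G) : h30_v deg m g < p ^ m := Nat.mod_lt _ (h30_ppos m)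

theorem h30_v_mul {m : ℕ} (hmn : m ≤ n) (g h : G) :
    h30_v deg m (g * h) = (h30_v deg m g + h30_v deg m h) % p ^ m := by
  simp only [h30_v_apply, map_mul, toAdd_mul, ZMod.val_add]
  rw [Nat.mod_mod_of_dvd _ (pow_dvd_pow p hmn), Nat.add_mod]

theorem h30_v_one (m : ℕ) : h30_v deg m 1 = 0 := by
  simp [h30_v_apply]

theorem h30_v_of_ker (m : ℕ) {g : G} (hg : g ∈ deg.ker) : h30_v deg m g = 0 := by
  rw [h30_v_apply, MonoidHom.mem_ker.1 hg]
  simp

/-- The subgroup `{g | deg g ≡ 0 mod p^m}`. -/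
def h30_Gm {m : ℕ} (hmn : m ≤ n) : Subgroup G where
  carrier := {g | h30_v deg m g = 0}
  mul_mem' := by
    intro g h hg hh
    show h30_v deg m (g * h) = 0
    rw [h30_v_mul deg hmn, show h30_v deg m g = 0 from hg, show h30_v deg m h = 0 from hh]
    simp
  one_mem' := h30_v_one deg m
  inv_mem' := by
    intro g hg
    show h30_v deg m g⁻¹ = 0
    have h1 := h30_v_mul deg hmn g g⁻¹
    rw [mul_inv_cancel, h30_v_one, show h30_v deg m g = 0 from hg, Nat.zero_add,
      Nat.mod_eq_of_lt (h30_v_lt deg m _)] at h1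
    exact h1.symm

theorem h30_mem_Gm {m : ℕ} (hmn : m ≤ n) (g : G) :
    g ∈ h30_Gm deg hmn ↔ h30_v deg m g = 0 := Iff.rfl

theorem h30_ker_le_Gm {m : ℕ} (hmn : m ≤ n) : deg.ker ≤ h30_Gm deg hmn :=
  fun _ hg => h30_v_of_ker deg m hg

theorem h30_card_target : Nat.card (Multiplicative (ZMod (p ^ n))) = p ^ n := by
  rw [Nat.card_congr Multiplicative.toAdd, Nat.card_zmod]

/-- `f_H` divides `p^n`. -/
theorem h30_f_dvd (H : Subgroup G) : (H.map deg).index ∣ p ^ n := by
  have h := (H.map deg).index_dvd_card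
  rwa [h30_card_target] at h

/-- Every element of a subgroup of index `f` of `ℤ/p^n` has value divisible by `f`. -/
theorem h30_f_dvd_val (S : Subgroup (Multiplicative (ZMod (p ^ n))))
    (x : Multiplicative (ZMod (p ^ n))) (hx : x ∈ S) : S.index ∣ (Multiplicative.toAdd x).val := by
  have hcard := S.card_mul_index
  rw [h30_card_target] at hcard
  have hpos : 0 < Nat.card S := Nat.card_pos
  have h1 : (⟨x, hx⟩ : S) ^ Nat.card S = 1 := pow_card_eq_one'
  have h2 : x ^ Nat.card S = 1 := by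
    have := congrArg (Subtype.val) h1
    simpa only [Subgroup.coe_pow, Subgroup.coe_one] using this
  have h3 : ((Nat.card S * (Multiplicative.toAdd x).val : ℕ) : ZMod (p ^ n)) = 0 := by
    have h4 := congrArg Multiplicative.toAdd h2
    rw [toAdd_pow, toAdd_one, nsmul_eq_mul] at h4
    rw [Nat.cast_mul, ZMod.natCast_zmod_val]
    exact h4
  rw [ZMod.natCast_eq_zero_iff] at h3
  have h5 : Nat.card S * S.index ∣ Nat.card S * (Multiplicative.toAdd x).val := by
    rw [hcard]; exact h3
  exact Nat.dvd_of_mul_dvd_mul_left hpos h5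

theorem h30_f_dvd_v (H : Subgroup G) {m : ℕ} (hf : (H.map deg).index ∣ p ^ m) {g : G}
    (hg : g ∈ H) : (H.map deg).index ∣ h30_v deg m g := by
  rw [h30_v_apply, Nat.dvd_mod_iff hf]
  exact h30_f_dvd_val (H.map deg) (deg g) (Subgroup.mem_map_of_mem deg hg)

/-- A normalised generator: `σ ∈ H` with `deg σ = f_H`. -/
theorem h30_exists_gen (H : Subgroup G) :
    ∃ σ ∈ H, deg σ = Multiplicative.ofAdd (((H.map deg).index : ℕ) : ZMod (p ^ n)) := by
  have h1 := Subgroup.pow_index_mem (H.map deg) (Multiplicative.ofAdd (1 : ZMod (p ^ n)))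
  rw [← ofAdd_nsmul, nsmul_one] at h1
  obtain ⟨σ, hσ, hσ'⟩ := h1
  exact ⟨σ, hσ, hσ'⟩

theorem h30_v_gen {m : ℕ} (hmn : m ≤ n) (f : ℕ) {σ : G}
    (hσ : deg σ = Multiplicative.ofAdd ((f : ℕ) : ZMod (p ^ n))) :
    h30_v deg m σ = f % p ^ m := by
  rw [h30_v_apply, hσ, toAdd_ofAdd, ZMod.val_natCast, Nat.mod_mod_of_dvd _ (pow_dvd_pow p hmn)]

/-! ### The index function `ι = v / f` on a subgroup with `p^j * f = p^m` -/

section Idx

variable (H : Subgroup G) {m : ℕ} (hmn : m ≤ n) {j : ℕ}
  (hjf : p ^ j * (H.map deg).index = p ^ m)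

include hjf

theorem h30_fpos : 0 < (H.map deg).index := by
  rcases Nat.eq_zero_or_pos (H.map deg).index with h | h
  · rw [h, mul_zero] at hjf
    exact absurd hjf.symm (h30_ppos m).ne'
  · exact h

theorem h30_f_dvd_pm : (H.map deg).index ∣ p ^ m := Dvd.intro_left _ hjf

theorem h30_v_eq {g : G} (hg : g ∈ H) :
    h30_v deg m g = (H.map deg).index * (h30_v deg m g / (H.map deg).index) :=
  (Nat.mul_div_cancel' (h30_f_dvd_v deg H (h30_f_dvd_pm deg H hjf) hg)).symm

theorem h30_idx_lt (g : G) : h30_v deg m g / (H.map deg).index < p ^ j := by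
  apply Nat.div_lt_of_lt_mul
  rw [mul_comm, hjf]
  exact h30_v_lt deg m g

include hmn

theorem h30_idx_mul {g h : G} (hg : g ∈ H) (hh : h ∈ H) :
    h30_v deg m (g * h) / (H.map deg).index =
      (h30_v deg m g / (H.map deg).index + h30_v deg m h / (H.map deg).index) % p ^ j := by
  have hf := h30_fpos deg H hjf
  rw [h30_v_mul deg hmn]
  conv_lhs => rw [h30_v_eq deg H hjf hg, h30_v_eq deg H hjf hh, ← hjf, mul_comm (p ^ j),
    ← Nat.mul_add, Nat.mul_mod_mul_left, Nat.mul_div_cancel_left _ hf]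

theorem h30_idx_gen {σ : G}
    (hσ : deg σ = Multiplicative.ofAdd (((H.map deg).index : ℕ) : ZMod (p ^ n))) :
    h30_v deg m σ / (H.map deg).index = 1 % p ^ j := by
  have hf := h30_fpos deg H hjf
  rw [h30_v_gen deg hmn _ hσ]
  conv_lhs => rw [← hjf, mul_comm (p ^ j)]
  conv_lhs => enter [1, 1]; rw [← Nat.mul_one (H.map deg).index]
  rw [Nat.mul_mod_mul_left, Nat.mul_div_cancel_left _ hf]

omit hmn in
theorem h30_idx_carry {g h : G} (hg : g ∈ H) (hh : h ∈ H) :
    (h30_v deg m g + h30_v deg m h) / p ^ m =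
      (h30_v deg m g / (H.map deg).index + h30_v deg m h / (H.map deg).index) / p ^ j := by
  have hf := h30_fpos deg H hjf
  conv_lhs => rw [h30_v_eq deg H hjf hg, h30_v_eq deg H hjf hh, ← hjf, mul_comm (p ^ j),
    ← Nat.mul_add, Nat.mul_div_mul_left _ _ hf]

omit hmn in
theorem h30_idx_eq_zero {g : G} (hg : g ∈ H) :
    h30_v deg m g / (H.map deg).index = 0 ↔ h30_v deg m g = 0 := by
  have hf := h30_fpos deg H hjf
  constructor
  · intro h
    rw [h30_v_eq deg H hjf hg, h, mul_zero]
  · intro h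
    rw [h, Nat.zero_div]

omit hmn in
/-- The carry cocycle of `v` agrees on `H` with the carry cocycle of the index function. -/
theorem h30_carry_eq_on {C : Type*} [AddCommGroup C] (c : C) {g h : G} (hg : g ∈ H)
    (hh : h ∈ H) :
    h30_carry (h30_v deg m) (p ^ m) c (g, h) =
      h30_carry (fun g => h30_v deg m g / (H.map deg).index) (p ^ j) c (g, h) := by
  rw [h30_carry_apply, h30_carry_apply, h30_idx_carry deg H hjf hg hh]

end Idx

/-! ### Index numerics -/

/-- `|H| · f_H = p^n · |H ∩ ker deg|`. -/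
theorem h30_card_mul_f [Finite G] (H : Subgroup G) :
    Nat.card H * (H.map deg).index = p ^ n * Nat.card (deg.ker ⊓ H : Subgroup G) := by
  have h1 := Subgroup.relIndex_mul_relIndex ⊥ (deg.ker ⊓ H) H bot_le inf_le_right
  rw [Subgroup.relIndex_bot_left, Subgroup.relIndex_bot_left, Subgroup.inf_relIndex_right,
    Subgroup.relIndex_ker] at h1
  have h2 := (H.map deg).card_mul_index
  rw [h30_card_target] at h2
  calc Nat.card H * (H.map deg).index
      = Nat.card (deg.ker ⊓ H : Subgroup G) * (Nat.card (H.map deg) * (H.map deg).index) := by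
        rw [← h1, mul_assoc]
    _ = p ^ n * Nat.card (deg.ker ⊓ H : Subgroup G) := by rw [h2, mul_comm]

theorem h30_card_mul_f_eq [Finite G] {H H' : Subgroup G} (hle : H' ≤ H)
    (hker : deg.ker ⊓ H ≤ H') :
    Nat.card H' * (H'.map deg).index = Nat.card H * (H.map deg).index := by
  rw [h30_card_mul_f, h30_card_mul_f]
  have h1 : deg.ker ⊓ H' = deg.ker ⊓ H :=
    le_antisymm (inf_le_inf_left _ hle) (le_inf inf_le_left hker)
  rw [h1]

/-- For a subgroup containing the kernel of a surjection onto `Q`, `f_H` divides the `p`-part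
of `|Q|`. -/
theorem h30_f_dvd_of_comap (hdeg : Function.Surjective deg) {Q : Type*} [Group Q] [Finite Q]
    (π : G →* Q) (hπ : Function.Surjective π) (K : Subgroup Q) :
    ((K.comap π).map deg).index ∣ p ^ (Nat.card Q).factorization p := by
  have hp : p.Prime := Fact.out
  have h1 : ((K.comap π).map deg).index ∣ K.index := by
    rw [← Subgroup.index_comap_of_surjective K hπ]
    exact Subgroup.index_map_dvd _ hdeg
  have h2 : ((K.comap π).map deg).index ∣ Nat.card Q := h1.trans K.index_dvd_card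
  obtain ⟨t, -, ht⟩ := (Nat.dvd_prime_pow hp).1 (h30_f_dvd deg (K.comap π))
  rw [ht] at h2 ⊢
  exact pow_dvd_pow p ((hp.pow_dvd_iff_le_factorization Nat.card_pos.ne').1 h2)

end Deg

section CycEasy

variable {p : ℕ} [Fact p.Prime] {G : Type*} [Group G] [Finite G] {C : Type*} [AddCommGroup C]
  [DistribMulAction G C] {n : ℕ} (deg : G →* Multiplicative (ZMod (p ^ n)))
  {V : Type*} [AddCommGroup V] (w : C →+ V)

/-- The valuation of a `σ`-norm. -/
theorem h30_w_norm (D : h30_CFData p deg w) (σ : G) (b : C) (r : ℕ) :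
    w (∑ i ∈ Finset.range r, σ ^ i • b) = r • w b := by
  rw [map_sum]
  simp only [D.w_inv, Finset.sum_const, Finset.card_range]

/-- **(CYC), easy half**: the valuation of a norm from the layer `H ∩ G_m`. -/
theorem h30_cyc_easy (D : h30_CFData p deg w) {m : ℕ} (hmn : m ≤ n) (H : Subgroup G) (j : ℕ)
    (σ : G) (b : C) (hb : ∀ h ∈ H ⊓ h30_Gm deg hmn, h • b = b) :
    ∃ y : V, w (∑ i ∈ Finset.range (p ^ j), σ ^ i • b) =
      (p ^ j * (Nat.card H * (H.map deg).index)) • y := by
  obtain ⟨y, hy⟩ := D.V1 (H ⊓ h30_Gm deg hmn) b hb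
  refine ⟨y, ?_⟩
  rw [h30_w_norm deg w D, hy, ← mul_smul,
    h30_card_mul_f_eq deg (inf_le_left : H ⊓ h30_Gm deg hmn ≤ H)
      (le_inf inf_le_right (inf_le_left.trans (h30_ker_le_Gm deg hmn)))]

end CycEasy

end Fermat.Agent.S55
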