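/-
S55 layer H, row H-CFBUILD (helper30), part 4: the pre-class `s = carry(χ, χ) • c` on the big
group and its two basic properties on the subgroups `π⁻¹ K`:
`|K| • s` is a coboundary (KILL) and `k • s` coboundary forces `p^m ∣ k [Q : K]` (ORD).
The hard half of (CYC) enters as the hypothesis `h30_CycHard`.
-/
import Mathlib
import Fermat.Agent.S55.h30_CFDeg

set_option autoImplicit false
set_option linter.unusedSectionVars false

open groupCohomology

namespace Fermat.Agent.S55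

attribute [local instance] h30_neZero_pow

section Class

variable {p : ℕ} [Fact p.Prime] {G : Type*} [Group G] [Finite G] {C : Type*} [AddCommGroup C]
  [DistribMulAction G C] {n : ℕ} (deg : G →* Multiplicative (ZMod (p ^ n)))
  {V : Type*} [AddCommGroup V] (w : C →+ V)

/-- **(CYC), hard half**, as a hypothesis: an invariant whose valuation is divisible by
`p^j |H| f_H` is a norm from the `j`-th cyclotomic layer of `H`. -/
def h30_CycHard (p : ℕ) {G : Type*} [Group G] {C : Type*} [AddCommGroup C]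
    [DistribMulAction G C] {n : ℕ} (deg : G →* Multiplicative (ZMod (p ^ n)))
    {V : Type*} [AddCommGroup V] (w : C →+ V) : Prop :=
  ∀ (H : Subgroup G) (j : ℕ), p ^ j * (H.map deg).index ∣ p ^ n → ∀ σ ∈ H,
    deg σ = Multiplicative.ofAdd (((H.map deg).index : ℕ) : ZMod (p ^ n)) →
    ∀ c : C, (∀ h ∈ H, h • c = c) →
      (∃ y : V, w c = (p ^ j * (Nat.card H * (H.map deg).index)) • y) →
      ∃ b : C, (∀ h ∈ H, deg h ∈ Subgroup.zpowers
          (Multiplicative.ofAdd (((p ^ j * (H.map deg).index : ℕ) : ℕ) : ZMod (p ^ n))) →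
          h • b = b) ∧ c = ∑ i ∈ Finset.range (p ^ j), σ ^ i • b

theorem h30_exists_j {f m : ℕ} (hf : f ∣ p ^ m) : ∃ j : ℕ, p ^ j * f = p ^ m := by
  obtain ⟨t, ht, rfl⟩ := (Nat.dvd_prime_pow (Fact.out : p.Prime)).1 hf
  exact ⟨m - t, by rw [← pow_add]; congr 1; omega⟩

theorem h30_deg_mem_zpowers {m : ℕ} {g : G} (h : h30_v deg m g = 0) :
    deg g ∈ Subgroup.zpowers (Multiplicative.ofAdd (((p ^ m : ℕ) : ℕ) : ZMod (p ^ n))) := by
  rw [h30_v_apply] at h
  obtain ⟨q, hq⟩ := Nat.dvd_of_mod_eq_zero h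
  have h1 : deg g = Multiplicative.ofAdd (((p ^ m : ℕ) : ℕ) : ZMod (p ^ n)) ^ q := by
    rw [← ofAdd_nsmul, nsmul_eq_mul, mul_comm, ← Nat.cast_mul, ← hq, ZMod.natCast_zmod_val,
      ofAdd_toAdd]
  rw [h1]
  exact Subgroup.pow_mem _ (Subgroup.mem_zpowers _) q

/-- The invariant element of valuation exactly `|G|` (from (V1), (V2) for the whole group). -/
theorem h30_exists_c (D : h30_CFData p deg w) (hn : n ≠ 0) :
    ∃ (c : C) (y₀ : V), (∀ g : G, g • c = c) ∧ w c = Nat.card G • y₀ ∧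
      ¬ ∃ y : V, y₀ = p • y := by
  have hp : p.Prime := Fact.out
  have htop : (⊤ : Subgroup G).map deg = ⊤ := Subgroup.map_top_of_surjective deg D.deg_surj
  have hne : (⊤ : Subgroup G).map deg ≠ ⊥ := by
    rw [htop]
    intro h
    have h1 := congrArg (fun S : Subgroup (Multiplicative (ZMod (p ^ n))) => Nat.card S) h
    simp only [Subgroup.card_top, Subgroup.card_bot] at h1
    rw [h30_card_target] at h1
    exact absurd h1 (Nat.one_lt_pow hn hp.one_lt).ne'
  obtain ⟨c, hc, hnot⟩ := D.V2 ⊤ hne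
  obtain ⟨y₀, hy₀⟩ := D.V1 ⊤ c hc
  rw [htop, Subgroup.index_top, mul_one, Subgroup.card_top] at hy₀ hnot
  refine ⟨c, y₀, fun g => hc g (Subgroup.mem_top g), hy₀, ?_⟩
  rintro ⟨y, rfl⟩
  exact hnot ⟨y, by rw [hy₀, ← mul_smul, mul_comm]⟩

theorem h30_B2_congr {H : Subgroup G} {f f' : G × G → C}
    (h : ∀ g ∈ H, ∀ k ∈ H, f (g, k) = f' (g, k)) (hf : h30_B2 H f) : h30_B2 H f' := by
  obtain ⟨x, hx⟩ := hf
  exact ⟨x, fun g hg k hk => (hx g hg k hk).trans (h g hg k hk)⟩

variable {Q : Type*} [Group Q] (π : G →* Q)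

/-- **(KILL)**: on `π⁻¹ K` the multiple `|K| • s` of the pre-class is a coboundary. -/
theorem h30_kill (D : h30_CFData p deg w) (hcyc : h30_CycHard p deg w)
    (hπ : Function.Surjective π) (hQ : (Nat.card Q).factorization p ≤ n)
    (c : C) (y₀ : V) (hc : ∀ g : G, g • c = c) (hy₀ : w c = Nat.card G • y₀)
    (K : Subgroup Q) :
    h30_B2 (K.comap π)
      (Nat.card K • h30_carry (h30_v deg ((Nat.card Q).factorization p))
        (p ^ (Nat.card Q).factorization p) c) := by
  have hp : p.Prime := Fact.out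
  have hfinQ : Finite Q := Finite.of_surjective π hπ
  obtain ⟨m, hm⟩ : ∃ m, m = (Nat.card Q).factorization p := ⟨_, rfl⟩
  rw [← hm] at hQ ⊢
  obtain ⟨H, hH⟩ : ∃ H : Subgroup G, H = K.comap π := ⟨_, rfl⟩
  rw [← hH]
  have hf : (H.map deg).index ∣ p ^ m := by
    rw [hH, hm]; exact h30_f_dvd_of_comap deg D.deg_surj π hπ K
  obtain ⟨j, hjf⟩ := h30_exists_j hf
  obtain ⟨σ, hσ, hσdeg⟩ := h30_exists_gen deg H
  -- the valuation of `|K| • c`
  obtain ⟨r', hr'⟩ : p ^ m ∣ Nat.card Q := hm ▸ Nat.ordProj_dvd (Nat.card Q) p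
  have hidx : H.index = K.index := by rw [hH]; exact Subgroup.index_comap_of_surjective K hπ
  have hw : ∃ y : V, w (Nat.card K • c) = (p ^ j * (Nat.card H * (H.map deg).index)) • y := by
    refine ⟨r' • y₀, ?_⟩
    rw [map_nsmul, hy₀, ← mul_smul, ← mul_smul]
    congr 1
    have h1 := H.card_mul_index
    have h2 := K.card_mul_index
    rw [hidx] at h1
    calc Nat.card K * Nat.card G = Nat.card K * (Nat.card H * K.index) := by rw [h1]
      _ = Nat.card H * (Nat.card K * K.index) := by ring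
      _ = Nat.card H * (p ^ m * r') := by rw [h2, hr']
      _ = Nat.card H * (p ^ j * (H.map deg).index * r') := by rw [hjf]
      _ = p ^ j * (Nat.card H * (H.map deg).index) * r' := by ring
  obtain ⟨b, hb, hcb⟩ := hcyc H j (by rw [hjf]; exact pow_dvd_pow p hQ) σ hσ hσdeg
    (Nat.card K • c) (fun h _ => by rw [smul_comm, hc]) hw
  have hb' : ∀ h ∈ H, h30_v deg m h / (H.map deg).index = 0 → h • b = b := by
    intro h hh h0
    apply hb h hh
    rw [hjf]
    exact h30_deg_mem_zpowers deg ((h30_idx_eq_zero deg H hjf hh).1 h0)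
  have key := h30_carry_B2_of_norm H (fun g => h30_v deg m g / (H.map deg).index) (p ^ j)
    (fun g _ => h30_idx_lt deg H hjf g)
    (fun g hg h hh => h30_idx_mul deg H hQ hjf hg hh) hσ (h30_idx_gen deg H hQ hjf hσdeg) b hb'
  rw [← hcb] at key
  rw [← h30_carry_nsmul]
  exact h30_B2_congr (fun g hg k hk => (h30_carry_eq_on deg H hjf _ hg hk).symm) key

/-- **(ORD)**: if `k • s` is a coboundary on `π⁻¹ K` then `p^m ∣ k [Q : K]`. -/
theorem h30_ord (D : h30_CFData p deg w)
    (hπ : Function.Surjective π) (hQ : (Nat.card Q).factorization p ≤ n)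
    (c : C) (y₀ : V) (hc : ∀ g : G, g • c = c) (hy₀ : w c = Nat.card G • y₀)
    (hy₀' : ¬ ∃ y : V, y₀ = p • y) (K : Subgroup Q) (k : ℕ)
    (hB : h30_B2 (K.comap π)
      (k • h30_carry (h30_v deg ((Nat.card Q).factorization p))
        (p ^ (Nat.card Q).factorization p) c)) :
    p ^ (Nat.card Q).factorization p ∣ k * K.index := by
  have hp : p.Prime := Fact.out
  have hfinQ : Finite Q := Finite.of_surjective π hπ
  obtain ⟨m, hm⟩ : ∃ m, m = (Nat.card Q).factorization p := ⟨_, rfl⟩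
  rw [← hm] at hQ hB ⊢
  obtain ⟨H, hH⟩ : ∃ H : Subgroup G, H = K.comap π := ⟨_, rfl⟩
  rw [← hH] at hB
  have hf : (H.map deg).index ∣ p ^ m := by
    rw [hH, hm]; exact h30_f_dvd_of_comap deg D.deg_surj π hπ K
  obtain ⟨j, hjf⟩ := h30_exists_j hf
  obtain ⟨σ, hσ, hσdeg⟩ := h30_exists_gen deg H
  have hidx : H.index = K.index := by rw [hH]; exact Subgroup.index_comap_of_surjective K hπ
  rw [← h30_carry_nsmul] at hB
  have hB' := h30_B2_congr (fun g hg k' hk' => h30_carry_eq_on deg H hjf (k • c) hg hk') hB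
  obtain ⟨b, hb, hkc⟩ := h30_norm_of_carry_B2 H (fun g => h30_v deg m g / (H.map deg).index)
    (p ^ j) (h30_ppos j) (fun g _ => h30_idx_lt deg H hjf g)
    (fun g hg h hh => h30_idx_mul deg H hQ hjf hg hh) hσ (h30_idx_gen deg H hQ hjf hσdeg)
    (H ⊓ h30_Gm deg hQ)
    (fun h => by
      rw [Subgroup.mem_inf, h30_mem_Gm]
      constructor
      · rintro ⟨hh, h0⟩
        exact ⟨hh, (h30_idx_eq_zero deg H hjf hh).2 h0⟩
      · rintro ⟨hh, h0⟩
        exact ⟨hh, (h30_idx_eq_zero deg H hjf hh).1 h0⟩)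
    (fun f hf => h30_H1_rel D.ploc D.CFA1 _ f hf)
    (k • c) (fun h _ => by rw [smul_comm, hc]) hB'
  obtain ⟨y, hy⟩ := h30_cyc_easy deg w D hQ H j σ b hb
  rw [← hkc, map_nsmul, hy₀, ← mul_smul] at hy
  apply h30_V_num hp D.tf y₀ hy₀' (k * K.index) (Nat.card H) m Nat.card_pos.ne' y
  have e1 : k * K.index * Nat.card H = k * Nat.card G := by
    have h1 := H.card_mul_index
    rw [hidx] at h1
    rw [← h1]; ring
  have e2 : p ^ m * Nat.card H = p ^ j * (Nat.card H * (H.map deg).index) := by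
    rw [← hjf]; ring
  rw [e1, e2]
  exact hy

end Class

end Fermat.Agent.S55
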