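import Mathlib
import Fermat.Agent.S55.h30_CFData

/-!
# S55, layer H: general cyclic steps and norm groups of the cyclotomic layers (H-CFBUILD, steps 2-3)

No cohomology here: coset sums, transfer of the "index ≤ p" axiom from `p`-subgroups to arbitrary
cyclic steps of degree `p`, and the description of the norm groups of the cyclotomic layers.
-/

set_option autoImplicit false

namespace Fermat.Agent.S55

section CosetSum

variable {H : Type*} [Group H] [Finite H] {C : Type*} [AddCommGroup C] [DistribMulAction H C]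

/-- Sum over the left cosets of `K` in `H` (with chosen representatives). -/
noncomputable def h70_cosetSum (K : Subgroup H) (b : C) : C :=
  ∑ᶠ q : H ⧸ K, (Quotient.out q : H) • b

omit [Finite H] in
theorem h70_cosetSum_reps (K : Subgroup H) (b : C) (hb : ∀ k ∈ K, k • b = b)
    (x : H ⧸ K → H) (hx : Function.Bijective fun q => (QuotientGroup.mk (x q) : H ⧸ K)) :
    ∑ᶠ q : H ⧸ K, x q • b = h70_cosetSum K b := by
  unfold h70_cosetSum
  refine finsum_eq_of_bijective _ hx (fun q => ?_)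
  obtain ⟨h, hh⟩ := QuotientGroup.mk_out_eq_mul K (x q)
  rw [hh, mul_smul, hb _ h.2]

theorem h70_smul_cosetSum (K : Subgroup H) (b : C) (hb : ∀ k ∈ K, k • b = b) (h : H) :
    h • h70_cosetSum K b = h70_cosetSum K b := by
  have h1 : h • h70_cosetSum K b = ∑ᶠ q : H ⧸ K, (h * Quotient.out q) • b := by
    unfold h70_cosetSum
    rw [← DistribMulAction.toAddMonoidHom_apply (A := C) h,
      AddMonoidHom.map_finsum _ (Set.toFinite _)]
    refine finsum_congr (fun q => ?_)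
    rw [DistribMulAction.toAddMonoidHom_apply, mul_smul]
  rw [h1]
  refine h70_cosetSum_reps K b hb _ ?_
  have : (fun q : H ⧸ K => (QuotientGroup.mk (h * Quotient.out q) : H ⧸ K)) = fun q => h • q := by
    funext q
    conv_rhs => rw [← QuotientGroup.out_eq' q]
    rfl
  rw [this]
  exact MulAction.bijective h

theorem h70_cosetSum_of_fixed (K : Subgroup H) (b : C) (hb : ∀ h : H, h • b = b) :
    h70_cosetSum K b = K.index • b := by
  unfold h70_cosetSum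
  have : (fun q : H ⧸ K => (Quotient.out q : H) • b) = fun _ => b := by
    funext q; exact hb _
  rw [this]
  haveI : Fintype (H ⧸ K) := Fintype.ofFinite _
  rw [finsum_eq_sum_of_fintype, Finset.sum_const, Finset.card_univ, Subgroup.index_eq_card,
    Nat.card_eq_fintype_card]

/-- A twisted-equivariant additive map commutes with coset sums. -/
theorem h70_map_cosetSum (K : Subgroup H) (b : C) (s : C →+ C) (φ : H → H)
    (hφ : ∀ (h : H) (c : C), s (h • c) = φ h • s c)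
    (hsb : ∀ k ∈ K, k • s b = s b)
    (hinj : Function.Injective fun q : H ⧸ K => (QuotientGroup.mk (φ (Quotient.out q)) : H ⧸ K)) :
    s (h70_cosetSum K b) = h70_cosetSum K (s b) := by
  have h1 : s (h70_cosetSum K b) = ∑ᶠ q : H ⧸ K, φ (Quotient.out q) • s b := by
    unfold h70_cosetSum
    rw [AddMonoidHom.map_finsum _ (Set.toFinite _)]
    exact finsum_congr (fun q => hφ _ _)
  rw [h1]
  exact h70_cosetSum_reps K (s b) hsb _ (Finite.injective_iff_bijective.mp hinj)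

omit [Finite H] in
theorem h70_cosetSum_add (K : Subgroup H) [Finite (H ⧸ K)] (b b' : C) :
    h70_cosetSum K (b + b') = h70_cosetSum K b + h70_cosetSum K b' := by
  unfold h70_cosetSum
  rw [← finsum_add_distrib (Set.toFinite _) (Set.toFinite _)]
  exact finsum_congr (fun q => smul_add _ _ _)

omit [Finite H] in
theorem h70_cosetSum_zero (K : Subgroup H) : h70_cosetSum K (0 : C) = 0 := by
  unfold h70_cosetSum
  simp

/-- `h70_cosetSum K` as an additive map. -/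
noncomputable def h70_cosetSumHom (K : Subgroup H) : C →+ C where
  toFun := h70_cosetSum K
  map_zero' := h70_cosetSum_zero K
  map_add' := h70_cosetSum_add K

end CosetSum

section General

variable {p : ℕ} [hp : Fact p.Prime] {G : Type*} [Group G] [Finite G]
  {C : Type*} [AddCommGroup C] [DistribMulAction G C]

/-- Existence of a Sylow `p`-subgroup inside a subgroup, in elementary terms. -/
theorem h70_exists_sylow (H₁ : Subgroup G) :
    ∃ P : Subgroup G, P ≤ H₁ ∧ IsPGroup p P ∧ ¬ p ∣ P.relIndex H₁ := by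
  obtain ⟨P'⟩ : Nonempty (Sylow p H₁) := inferInstance
  refine ⟨(P' : Subgroup H₁).map H₁.subtype, Subgroup.map_subtype_le _, P'.2.map _, ?_⟩
  have h1 : ((P' : Subgroup H₁).map H₁.subtype).subgroupOf H₁ = (P' : Subgroup H₁) := by
    unfold Subgroup.subgroupOf
    exact Subgroup.comap_map_eq_self_of_injective (Subgroup.subtype_injective _) _
  unfold Subgroup.relIndex
  rw [h1]
  exact Sylow.not_dvd_index P'

/-- The powers `σ^i`, `i < p`, represent the cosets of a normal subgroup of index `p`. -/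
theorem h70_cycSum_eq_cosetSum (H₁ H₂ : Subgroup G)
    (hnorm : ∀ g ∈ H₁, ∀ h ∈ H₂, g * h * g⁻¹ ∈ H₂) (hidx : H₂.relIndex H₁ = p)
    (σ : G) (hσ1 : σ ∈ H₁) (hσ2 : σ ∉ H₂) (b : C) (hb : ∀ h ∈ H₂, h • b = b) :
    ∑ i ∈ Finset.range p, σ ^ i • b = h70_cosetSum (H := H₁) (H₂.subgroupOf H₁) b := by
  haveI hN : (H₂.subgroupOf H₁).Normal := by
    refine ⟨fun x hx g => ?_⟩
    rw [Subgroup.mem_subgroupOf] at hx ⊢
    simpa using hnorm g g.2 x hx
  have hcard : Nat.card (H₁ ⧸ H₂.subgroupOf H₁) = p := by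
    rw [← Subgroup.index_eq_card]; exact hidx
  set q₀ : H₁ ⧸ H₂.subgroupOf H₁ := QuotientGroup.mk ⟨σ, hσ1⟩ with hq₀
  have hq1 : q₀ ≠ 1 := by
    rw [hq₀, Ne, QuotientGroup.eq_one_iff, Subgroup.mem_subgroupOf]
    exact hσ2
  have hord : orderOf q₀ = p := by
    refine orderOf_eq_prime ?_ hq1
    rw [← hcard]; exact pow_card_eq_one'
  have hbij : Function.Bijective (fun i : Fin p => q₀ ^ (i : ℕ)) := by
    refine Function.Injective.bijective_of_nat_card_le ?_ ?_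
    · intro i j hij
      have := pow_injOn_Iio_orderOf (x := q₀) (by simp [hord]) (by simp [hord]) hij
      exact Fin.ext this
    · simp [hcard]
  rw [Finset.sum_range (fun i => σ ^ i • b), ← finsum_eq_sum_of_fintype]
  unfold h70_cosetSum
  refine finsum_eq_of_bijective _ hbij (fun i => ?_)
  obtain ⟨h, hh⟩ := QuotientGroup.mk_out_eq_mul (H₂.subgroupOf H₁) (⟨σ, hσ1⟩ ^ (i : ℕ))
  have h2 : q₀ ^ (i : ℕ) = QuotientGroup.mk ((⟨σ, hσ1⟩ : H₁) ^ (i : ℕ)) := rfl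
  rw [h2, hh, mul_smul]
  have h3 : (h : H₁) • b = b := hb _ (Subgroup.mem_subgroupOf.mp h.2)
  rw [h3]
  rfl

theorem h70_cycSum_indep (H₁ H₂ : Subgroup G)
    (hnorm : ∀ g ∈ H₁, ∀ h ∈ H₂, g * h * g⁻¹ ∈ H₂) (hidx : H₂.relIndex H₁ = p)
    (σ τ : G) (hσ1 : σ ∈ H₁) (hσ2 : σ ∉ H₂) (hτ1 : τ ∈ H₁) (hτ2 : τ ∉ H₂)
    (b : C) (hb : ∀ h ∈ H₂, h • b = b) :
    ∑ i ∈ Finset.range p, σ ^ i • b = ∑ i ∈ Finset.range p, τ ^ i • b := by
  rw [h70_cycSum_eq_cosetSum H₁ H₂ hnorm hidx σ hσ1 hσ2 b hb,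
    h70_cycSum_eq_cosetSum H₁ H₂ hnorm hidx τ hτ1 hτ2 b hb]

omit hp [Finite G] in
/-- Conjugation-equivariance of coset sums. -/
theorem h70_smul_cosetSum_conj [Finite G] (H₂ P₂ : Subgroup G) (g : G)
    (hg2 : ∀ h ∈ H₂, g * h * g⁻¹ ∈ H₂) (hgP : ∀ h ∈ P₂, g⁻¹ * h * g ∈ P₂)
    (b : C) (hb : ∀ h ∈ P₂, h • b = b) :
    g • h70_cosetSum (H := H₂) (P₂.subgroupOf H₂) b
      = h70_cosetSum (H := H₂) (P₂.subgroupOf H₂) (g • b) := by
  have key := h70_map_cosetSum (H := H₂) (P₂.subgroupOf H₂) b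
    (DistribSMul.toAddMonoidHom C g) (fun h => ⟨g * h * g⁻¹, hg2 h h.2⟩) ?_ ?_ ?_
  · simpa using key
  · intro h c
    show g • ((h : G) • c) = (g * (h : G) * g⁻¹) • (g • c)
    simp [smul_smul]
  · intro k hk
    rw [Subgroup.mem_subgroupOf] at hk
    show (k : G) • (g • b) = g • b
    have h1 := hb _ (hgP _ hk)
    calc (k : G) • (g • b) = g • ((g⁻¹ * (k : G) * g) • b) := by simp [smul_smul, mul_assoc]
      _ = g • b := by rw [h1]
  · intro q q' hqq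
    simp only at hqq
    rw [QuotientGroup.eq, Subgroup.mem_subgroupOf] at hqq
    have h1 : g⁻¹ * (((⟨g * (Quotient.out q : H₂) * g⁻¹, hg2 _ (Quotient.out q).2⟩ : H₂)⁻¹ *
        (⟨g * (Quotient.out q' : H₂) * g⁻¹, hg2 _ (Quotient.out q').2⟩ : H₂) : H₂) : G) * g ∈ P₂ :=
      hgP _ hqq
    have h2 : ((Quotient.out q : H₂)⁻¹ * (Quotient.out q' : H₂) : H₂) ∈ P₂.subgroupOf H₂ := by
      rw [Subgroup.mem_subgroupOf]
      convert h1 using 1
      simp [mul_assoc]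
    have h3 : (QuotientGroup.mk (Quotient.out q) : H₂ ⧸ P₂.subgroupOf H₂)
        = QuotientGroup.mk (Quotient.out q') := QuotientGroup.eq.mpr h2
    rwa [QuotientGroup.out_eq', QuotientGroup.out_eq'] at h3

/-- Descent of norms from a Sylow pair to the full cyclic step. -/
theorem h70_norm_descend
    (hploc : ∀ m : ℕ, m.Coprime p → Function.Bijective (fun c : C => m • c))
    (H₁ H₂ P : Subgroup G) (h21 : H₂ ≤ H₁)
    (hnorm : ∀ g ∈ H₁, ∀ h ∈ H₂, g * h * g⁻¹ ∈ H₂) (hidx : H₂.relIndex H₁ = p)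
    (hP1 : P ≤ H₁) (hPidx : ¬ p ∣ P.relIndex H₁) (τ : G) (hτP : τ ∈ P) (hτ2 : τ ∉ H₂)
    (c : C) (hc : ∀ h ∈ H₁, h • c = c) (b' : C) (hb' : ∀ h ∈ P ⊓ H₂, h • b' = b')
    (hcb : c = ∑ i ∈ Finset.range p, τ ^ i • b') :
    ∃ b : C, (∀ h ∈ H₂, h • b = b) ∧ c = ∑ i ∈ Finset.range p, τ ^ i • b := by
  classical
  set K : Subgroup H₂ := (P ⊓ H₂).subgroupOf H₂ with hK
  set S : C := h70_cosetSum (H := H₂) K b' with hS
  have hb'K : ∀ k ∈ K, k • b' = b' := fun k hk => hb' _ (Subgroup.mem_subgroupOf.mp hk)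
  have hSinv : ∀ h ∈ H₂, h • S = S := fun h hh =>
    h70_smul_cosetSum (H := H₂) K b' hb'K ⟨h, hh⟩
  -- the index of `K`
  have hHP : H₂.relIndex P = p := by
    haveI hN : (H₂.subgroupOf H₁).Normal := by
      refine ⟨fun x hx g => ?_⟩
      rw [Subgroup.mem_subgroupOf] at hx ⊢
      simpa using hnorm g g.2 x hx
    have h1 := Subgroup.relIndex_dvd_index_of_normal (H₂.subgroupOf H₁) (P.subgroupOf H₁)
    rw [Subgroup.relIndex_subgroupOf hP1] at h1
    have h2 : (H₂.subgroupOf H₁).index = p := hidx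
    rw [h2] at h1
    rcases (Nat.dvd_prime hp.out).mp h1 with h3 | h3
    · exact absurd (Subgroup.relIndex_eq_one.mp h3 hτP) hτ2
    · exact h3
  have hKidx : K.index = P.relIndex H₁ := by
    have e1 : (P ⊓ H₂).relIndex P * P.relIndex H₁ = (P ⊓ H₂).relIndex H₁ :=
      Subgroup.relIndex_mul_relIndex _ _ _ inf_le_left hP1
    have e2 : (P ⊓ H₂).relIndex H₂ * H₂.relIndex H₁ = (P ⊓ H₂).relIndex H₁ :=
      Subgroup.relIndex_mul_relIndex _ _ _ inf_le_right h21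
    rw [Subgroup.inf_relIndex_left, hHP] at e1
    rw [hidx] at e2
    have e3 : (P ⊓ H₂).relIndex H₂ * p = p * P.relIndex H₁ := by rw [e2, e1]
    have e4 : (P ⊓ H₂).relIndex H₂ = P.relIndex H₁ := by
      have := hp.out.pos
      nlinarith [Nat.eq_of_mul_eq_mul_left this (by rw [← e3, mul_comm] :
        p * (P ⊓ H₂).relIndex H₂ = p * P.relIndex H₁)]
    exact e4
  have hcop : (K.index).Coprime p := by
    rw [hKidx]
    exact ((Nat.Prime.coprime_iff_not_dvd hp.out).mpr hPidx).symm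
  -- `τ^i` commutes with the coset sum
  have hτpow : ∀ i : ℕ, τ ^ i • S = h70_cosetSum (H := H₂) K (τ ^ i • b') := by
    intro i
    have hτi : τ ^ i ∈ P := pow_mem hτP i
    refine h70_smul_cosetSum_conj H₂ (P ⊓ H₂) (τ ^ i) (fun h hh => hnorm _ (hP1 hτi) h hh)
      (fun h hh => ⟨?_, ?_⟩) b' hb'
    · exact P.mul_mem (P.mul_mem (P.inv_mem hτi) hh.1) hτi
    · have := hnorm (τ ^ i)⁻¹ (H₁.inv_mem (hP1 hτi)) h hh.2
      simpa using this
  have hsum : ∑ i ∈ Finset.range p, τ ^ i • S = K.index • c := by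
    have h1 : ∑ i ∈ Finset.range p, τ ^ i • S
        = h70_cosetSumHom (H := H₂) K (∑ i ∈ Finset.range p, τ ^ i • b') := by
      rw [map_sum]
      exact Finset.sum_congr rfl (fun i _ => hτpow i)
    rw [h1, ← hcb]
    exact h70_cosetSum_of_fixed (H := H₂) K c (fun h => hc _ (h21 h.2))
  obtain ⟨b, hbS⟩ := (hploc _ hcop).2 S
  simp only at hbS
  refine ⟨b, fun h hh => ?_, ?_⟩
  · apply (hploc _ hcop).1
    simp only
    rw [← smul_comm, hbS, hSinv h hh]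
  · apply (hploc _ hcop).1
    simp only
    rw [← hsum, Finset.smul_sum]
    refine Finset.sum_congr rfl (fun i _ => ?_)
    rw [← smul_comm, hbS]

omit hp [Finite G] in
/-- `c ↦ ∑ i < k, σ^i • c` as an additive map. -/
noncomputable def h70_cycN (σ : G) (k : ℕ) : C →+ C :=
  ∑ i ∈ Finset.range k, DistribSMul.toAddMonoidHom C (σ ^ i)

omit hp [Finite G] in
theorem h70_cycN_apply (σ : G) (k : ℕ) (c : C) :
    h70_cycN σ k c = ∑ i ∈ Finset.range k, σ ^ i • c := by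
  simp [h70_cycN]

omit hp [Finite G] in
/-- The sum `∑ i < p, σ^i • c` of a `σ`-fixed element. -/
theorem h70_cycSum_fixed (σ : G) (c : C) (hc : σ • c = c) (k : ℕ) :
    ∑ i ∈ Finset.range k, σ ^ i • c = k • c := by
  have : ∀ i : ℕ, σ ^ i • c = c := by
    intro i
    induction i with
    | zero => simp
    | succ i ih => rw [pow_succ, mul_smul, hc, ih]
  simp [this]

/-- **General cyclic steps.** The "index ≤ p" axiom for cyclic steps of degree `p` between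
`p`-subgroups implies the same statement for arbitrary subgroups (for a `p`-local module). -/
theorem h70_cfa_general
    (hploc : ∀ m : ℕ, m.Coprime p → Function.Bijective (fun c : C => m • c))
    (hCFA2 : ∀ H₁ H₂ : Subgroup G, IsPGroup p H₁ → H₂ ≤ H₁ →
      (∀ g ∈ H₁, ∀ h ∈ H₂, g * h * g⁻¹ ∈ H₂) → H₂.relIndex H₁ = p → ∀ σ ∈ H₁, σ ∉ H₂ →
      ∃ c₀ : C, (∀ h ∈ H₁, h • c₀ = c₀) ∧ ∀ c : C, (∀ h ∈ H₁, h • c = c) →
        ∃ (k : ℕ) (b : C), (∀ h ∈ H₂, h • b = b) ∧ c = k • c₀ + ∑ i ∈ Finset.range p, σ ^ i • b)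
    (H₁ H₂ : Subgroup G) (h21 : H₂ ≤ H₁)
    (hnorm : ∀ g ∈ H₁, ∀ h ∈ H₂, g * h * g⁻¹ ∈ H₂) (hidx : H₂.relIndex H₁ = p)
    (σ : G) (hσ1 : σ ∈ H₁) (hσ2 : σ ∉ H₂) :
    ∃ c₀ : C, (∀ h ∈ H₁, h • c₀ = c₀) ∧ ∀ c : C, (∀ h ∈ H₁, h • c = c) →
      ∃ (k : ℕ) (b : C), (∀ h ∈ H₂, h • b = b) ∧ c = k • c₀ + ∑ i ∈ Finset.range p, σ ^ i • b := by
  classical
  obtain ⟨P, hP1, hPp, hPidx⟩ := h70_exists_sylow (p := p) H₁
  -- an element of `P` outside `H₂`
  have hex : ∃ τ ∈ P, τ ∉ H₂ := by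
    by_contra hcon
    push_neg at hcon
    have hPH : P ≤ H₂ := hcon
    have e := Subgroup.relIndex_mul_relIndex P H₂ H₁ hPH h21
    rw [hidx] at e
    exact hPidx ⟨P.relIndex H₂, by rw [← e, mul_comm]⟩
  obtain ⟨τ, hτP, hτ2⟩ := hex
  have hτ1 : τ ∈ H₁ := hP1 hτP
  -- the Sylow pair
  have hnormP : ∀ g ∈ P, ∀ h ∈ P ⊓ H₂, g * h * g⁻¹ ∈ P ⊓ H₂ := fun g hg h hh =>
    ⟨P.mul_mem (P.mul_mem hg hh.1) (P.inv_mem hg), hnorm g (hP1 hg) h hh.2⟩
  have hHP : H₂.relIndex P = p := by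
    haveI hN : (H₂.subgroupOf H₁).Normal := by
      refine ⟨fun x hx g => ?_⟩
      rw [Subgroup.mem_subgroupOf] at hx ⊢
      simpa using hnorm g g.2 x hx
    have h1 := Subgroup.relIndex_dvd_index_of_normal (H₂.subgroupOf H₁) (P.subgroupOf H₁)
    rw [Subgroup.relIndex_subgroupOf hP1] at h1
    have h2 : (H₂.subgroupOf H₁).index = p := hidx
    rw [h2] at h1
    rcases (Nat.dvd_prime hp.out).mp h1 with h3 | h3
    · exact absurd (Subgroup.relIndex_eq_one.mp h3 hτP) hτ2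
    · exact h3
  have hidxP : (P ⊓ H₂).relIndex P = p := by rw [Subgroup.inf_relIndex_left, hHP]
  obtain ⟨c₀', hc₀', hgen⟩ := hCFA2 P (P ⊓ H₂) hPp inf_le_left hnormP hidxP τ hτP
    (fun h => hτ2 h.2)
  -- norms of the Sylow pair which are `H₁`-fixed are norms of the full step
  have hdesc : ∀ c : C, (∀ h ∈ H₁, h • c = c) → ∀ b' : C, (∀ h ∈ P ⊓ H₂, h • b' = b') →
      c = ∑ i ∈ Finset.range p, τ ^ i • b' →
      ∃ b : C, (∀ h ∈ H₂, h • b = b) ∧ c = ∑ i ∈ Finset.range p, σ ^ i • b := by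
    intro c hc b' hb' hcb
    obtain ⟨b, hb, hcb2⟩ := h70_norm_descend hploc H₁ H₂ P h21 hnorm hidx hP1 hPidx τ hτP hτ2
      c hc b' hb' hcb
    exact ⟨b, hb, by rw [hcb2, h70_cycSum_indep H₁ H₂ hnorm hidx σ τ hσ1 hσ2 hτ1 hτ2 b hb]⟩
  have hpc₀' : ∑ i ∈ Finset.range p, τ ^ i • c₀' = p • c₀' :=
    h70_cycSum_fixed τ c₀' (hc₀' τ hτP) p
  have hc₀'P2 : ∀ h ∈ P ⊓ H₂, h • c₀' = c₀' := fun h hh => hc₀' h hh.1
  by_cases hall : ∀ c : C, (∀ h ∈ H₁, h • c = c) →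
      ∃ b' : C, (∀ h ∈ P ⊓ H₂, h • b' = b') ∧ c = ∑ i ∈ Finset.range p, τ ^ i • b'
  · -- every fixed element is a norm
    refine ⟨0, fun h _ => smul_zero h, fun c hc => ?_⟩
    obtain ⟨b', hb', hcb⟩ := hall c hc
    obtain ⟨b, hb, hcb2⟩ := hdesc c hc b' hb' hcb
    exact ⟨0, b, hb, by simpa using hcb2⟩
  · push_neg at hall
    obtain ⟨c₁, hc₁, hc₁n⟩ := hall
    obtain ⟨k₁, b₁, hb₁, hc₁eq⟩ := hgen c₁ (fun h hh => hc₁ h (hP1 hh))
    have hNc₀' : h70_cycN τ p c₀' = p • c₀' := by rw [h70_cycN_apply, hpc₀']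
    have hk₁ : ¬ p ∣ k₁ := by
      rintro ⟨t, rfl⟩
      refine hc₁n (t • c₀' + b₁) (fun h hh => ?_) ?_
      · rw [smul_add, ← smul_comm, hc₀'P2 h hh, hb₁ h hh]
      · rw [hc₁eq, ← h70_cycN_apply, ← h70_cycN_apply, map_add, map_nsmul, hNc₀', smul_smul,
          mul_comm]
    -- `c₁` generates
    refine ⟨c₁, hc₁, fun c hc => ?_⟩
    obtain ⟨k, b, hb, hceq⟩ := hgen c (fun h hh => hc h (hP1 hh))
    have hcop : Nat.Coprime k₁ p := ((Nat.Prime.coprime_iff_not_dvd hp.out).mpr hk₁).symm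
    obtain ⟨m, -, hm⟩ := Nat.exists_mul_mod_eq_one_of_coprime hcop hp.out.one_lt
    have hms : k₁ * m = 1 + p * (k₁ * m / p) := by
      have := Nat.div_add_mod (k₁ * m) p
      omega
    set s := k₁ * m / p with hs
    set j := k * m with hj
    have hjk : j * k₁ = k + p * (k * s) := by
      rw [hj]
      calc k * m * k₁ = k * (k₁ * m) := by ring
        _ = k * (1 + p * s) := by rw [hms]
        _ = k + p * (k * s) := by ring
    have hb'' : ∀ h ∈ P ⊓ H₂, h • (b - (k * s) • c₀' - j • b₁) = b - (k * s) • c₀' - j • b₁ := by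
      intro h hh
      rw [smul_sub, smul_sub, hb h hh, ← smul_comm, hc₀'P2 h hh, ← smul_comm, hb₁ h hh]
    have hdiff : c - j • c₁ = ∑ i ∈ Finset.range p, τ ^ i • (b - (k * s) • c₀' - j • b₁) := by
      rw [← h70_cycN_apply, map_sub, map_sub, map_nsmul, map_nsmul, hNc₀', hceq, hc₁eq,
        ← h70_cycN_apply, ← h70_cycN_apply, smul_add, smul_smul, hjk, add_smul, smul_smul,
        mul_comm (k * s) p]
      abel
    obtain ⟨b3, hb3, hb3eq⟩ := hdesc (c - j • c₁)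
      (fun h hh => by rw [smul_sub, hc h hh, ← smul_comm, hc₁ h hh]) _ hb'' hdiff
    exact ⟨j, b3, hb3, by rw [← hb3eq]; abel⟩

end General

section Cyc

variable {p : ℕ} [hp : Fact p.Prime] {G : Type*} [Group G] [Finite G]
  {C : Type*} [AddCommGroup C] [DistribMulAction G C]

omit hp [Finite G] [DistribMulAction G C] in
theorem h70_sum_range_mul (f : ℕ → C) (a q : ℕ) :
    ∑ l ∈ Finset.range (a * q), f l = ∑ i ∈ Finset.range q, ∑ j ∈ Finset.range a, f (a * i + j) := by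
  induction q with
  | zero => simp
  | succ q ih => rw [Nat.mul_succ, Finset.sum_range_add, ih, Finset.sum_range_succ]

omit hp [Finite G] in
theorem h70_cycSum_cycSum (σ : G) (a q : ℕ) (b : C) :
    ∑ j ∈ Finset.range a, σ ^ j • ∑ i ∈ Finset.range q, (σ ^ a) ^ i • b
      = ∑ l ∈ Finset.range (a * q), σ ^ l • b := by
  rw [h70_sum_range_mul, Finset.sum_comm]
  refine Finset.sum_congr rfl (fun j _ => ?_)
  rw [Finset.smul_sum]
  refine Finset.sum_congr rfl (fun i _ => ?_)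
  rw [smul_smul, ← pow_mul, ← pow_add, add_comm]

/-- The `j`-th cyclotomic layer subgroup of `H` (relative to a generator `deg σ` of `deg H`). -/
def h70_lev {n : ℕ} (deg : G →* Multiplicative (ZMod (p ^ n))) (H : Subgroup G) (σ : G) (j : ℕ) :
    Subgroup G :=
  H ⊓ (Subgroup.zpowers ((deg σ) ^ (p ^ j))).comap deg

omit hp [Finite G] in
theorem h70_mem_lev {n : ℕ} (deg : G →* Multiplicative (ZMod (p ^ n))) (H : Subgroup G) (σ : G)
    (j : ℕ) (h : G) :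
    h ∈ h70_lev deg H σ j ↔ h ∈ H ∧ deg h ∈ Subgroup.zpowers ((deg σ) ^ (p ^ j)) := by
  simp [h70_lev, Subgroup.mem_inf, Subgroup.mem_comap]

/-- The normalised cardinality `|H| · f_H`, `f_H = [deg G : deg H]`. -/
noncomputable def h70_E {n : ℕ} (deg : G →* Multiplicative (ZMod (p ^ n))) (H : Subgroup G) : ℕ :=
  Nat.card H * (H.map deg).index

omit hp [Finite G] in
theorem h70_E_eq {n : ℕ} (deg : G →* Multiplicative (ZMod (p ^ n))) (H : Subgroup G) :
    h70_E deg H = p ^ n * Nat.card (deg.ker ⊓ H : Subgroup G) := by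
  have h1 : Nat.card H = Nat.card (deg.ker ⊓ H : Subgroup G) * Nat.card (H.map deg) := by
    have e := Subgroup.relIndex_mul_relIndex (⊥ : Subgroup G) (deg.ker ⊓ H) H bot_le inf_le_right
    rw [Subgroup.relIndex_bot_left, Subgroup.relIndex_bot_left, Subgroup.inf_relIndex_right,
      Subgroup.relIndex_ker] at e
    exact e.symm
  have h2 : Nat.card (H.map deg) * (H.map deg).index = p ^ n := by
    rw [Subgroup.card_mul_index, Nat.card_congr Multiplicative.toAdd, Nat.card_zmod]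
  unfold h70_E
  rw [h1, mul_assoc, h2, mul_comm]

omit hp in
theorem h70_E_ne_zero {n : ℕ} (hp0 : p ≠ 0) (deg : G →* Multiplicative (ZMod (p ^ n)))
    (H : Subgroup G) : h70_E deg H ≠ 0 := by
  rw [h70_E_eq]
  exact mul_ne_zero (pow_ne_zero _ hp0) Nat.card_pos.ne'

omit hp in
theorem h70_E_lev {n : ℕ} (deg : G →* Multiplicative (ZMod (p ^ n))) (H : Subgroup G) (σ : G)
    (j : ℕ) : h70_E deg (h70_lev deg H σ j) = h70_E deg H := by
  have key : (deg.ker ⊓ h70_lev deg H σ j : Subgroup G) = deg.ker ⊓ H := by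
    ext h
    simp only [Subgroup.mem_inf, MonoidHom.mem_ker, h70_mem_lev]
    constructor
    · rintro ⟨h1, h2, -⟩; exact ⟨h1, h2⟩
    · rintro ⟨h1, h2⟩; exact ⟨h1, h2, by rw [h1]; exact one_mem _⟩
  rw [h70_E_eq, h70_E_eq, key]

omit hp [Finite G] in
theorem h70_lev_le {n : ℕ} (deg : G →* Multiplicative (ZMod (p ^ n))) (H : Subgroup G) (σ : G)
    (j : ℕ) : h70_lev deg H σ j ≤ H := inf_le_left

omit hp [Finite G] in
theorem h70_lev_zero {n : ℕ} (deg : G →* Multiplicative (ZMod (p ^ n))) (H : Subgroup G) (σ : G)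
    (hgen : H.map deg = Subgroup.zpowers (deg σ)) : h70_lev deg H σ 0 = H := by
  ext h
  rw [h70_mem_lev, pow_zero, pow_one, ← hgen]
  exact ⟨fun h1 => h1.1, fun h1 => ⟨h1, Subgroup.mem_map_of_mem deg h1⟩⟩

omit hp [Finite G] in
theorem h70_lev_normal {n : ℕ} (deg : G →* Multiplicative (ZMod (p ^ n))) (H : Subgroup G) (σ : G)
    (j : ℕ) : ∀ g ∈ H, ∀ h ∈ h70_lev deg H σ j, g * h * g⁻¹ ∈ h70_lev deg H σ j := by
  intro g hg h hh
  rw [h70_mem_lev] at hh ⊢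
  refine ⟨H.mul_mem (H.mul_mem hg hh.1) (H.inv_mem hg), ?_⟩
  have : deg (g * h * g⁻¹) = deg h := by
    rw [map_mul, map_mul, map_inv, mul_comm (deg g), mul_assoc, mul_inv_cancel, mul_one]
  rw [this]; exact hh.2

omit [Finite G] in
theorem h70_orderOf_pow_p {n : ℕ} [NeZero n] (x : Multiplicative (ZMod n))
    (hp1 : p ∣ orderOf x) : orderOf (x ^ p) = orderOf x / p := by
  rw [orderOf_pow, Nat.gcd_eq_right hp1]

omit [Finite G] in
theorem h70_not_mem_lev_one {n : ℕ} (deg : G →* Multiplicative (ZMod (p ^ n))) (H : Subgroup G)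
    (σ : G) (hp1 : p ∣ orderOf (deg σ)) : σ ∉ h70_lev deg H σ 1 := by
  haveI : NeZero (p ^ n) := ⟨pow_ne_zero _ hp.out.ne_zero⟩
  intro hmem
  rw [h70_mem_lev, pow_one] at hmem
  have hle : Subgroup.zpowers (deg σ) ≤ Subgroup.zpowers ((deg σ) ^ p) :=
    (Subgroup.zpowers_le).mpr hmem.2
  have hc := Subgroup.card_le_of_le hle
  rw [Nat.card_zpowers, Nat.card_zpowers, h70_orderOf_pow_p _ hp1] at hc
  have hpos : 0 < orderOf (deg σ) := orderOf_pos _
  exact absurd hc (not_le.mpr (Nat.div_lt_self hpos hp.out.one_lt))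

omit [Finite G] in
theorem h70_relIndex_lev_one {n : ℕ} (deg : G →* Multiplicative (ZMod (p ^ n))) (H : Subgroup G)
    (σ : G) (hgen : H.map deg = Subgroup.zpowers (deg σ)) (hp1 : p ∣ orderOf (deg σ)) :
    (h70_lev deg H σ 1).relIndex H = p := by
  haveI : NeZero (p ^ n) := ⟨pow_ne_zero _ hp.out.ne_zero⟩
  unfold h70_lev
  rw [Subgroup.inf_relIndex_left, Subgroup.relIndex_comap, hgen, pow_one]
  have hle : Subgroup.zpowers ((deg σ) ^ p) ≤ Subgroup.zpowers (deg σ) :=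
    (Subgroup.zpowers_le).mpr (Subgroup.pow_mem _ (Subgroup.mem_zpowers _) _)
  have e := Subgroup.relIndex_mul_relIndex (⊥ : Subgroup (Multiplicative (ZMod (p ^ n)))) _ _
    bot_le hle
  rw [Subgroup.relIndex_bot_left, Subgroup.relIndex_bot_left, Nat.card_zpowers, Nat.card_zpowers,
    h70_orderOf_pow_p _ hp1] at e
  obtain ⟨t, ht⟩ := hp1
  have htpos : 0 < t := by
    rcases Nat.eq_zero_or_pos t with h0 | h0
    · rw [h0, mul_zero] at ht
      exact absurd ht (orderOf_pos _).ne'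
    · exact h0
  rw [ht, Nat.mul_div_cancel_left _ hp.out.pos] at e
  have : t * (Subgroup.zpowers ((deg σ) ^ p)).relIndex (Subgroup.zpowers (deg σ)) = t * p := by
    rw [e, mul_comm]
  exact Nat.eq_of_mul_eq_mul_left htpos this

omit hp [Finite G] in
theorem h70_map_lev_one {n : ℕ} (deg : G →* Multiplicative (ZMod (p ^ n))) (H : Subgroup G)
    (σ : G) (hσ : σ ∈ H) :
    (h70_lev deg H σ 1).map deg = Subgroup.zpowers (deg (σ ^ p)) := by
  apply le_antisymm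
  · rintro y ⟨h, hh, rfl⟩
    have := ((h70_mem_lev deg H σ 1 h).mp hh).2
    rwa [pow_one, ← map_pow] at this
  · rw [Subgroup.zpowers_le]
    refine Subgroup.mem_map_of_mem deg ?_
    rw [h70_mem_lev, pow_one, map_pow]
    exact ⟨H.pow_mem hσ p, Subgroup.mem_zpowers _⟩

omit hp [Finite G] in
theorem h70_lev_lev {n : ℕ} (deg : G →* Multiplicative (ZMod (p ^ n))) (H : Subgroup G)
    (σ : G) (j : ℕ) :
    h70_lev deg (h70_lev deg H σ 1) (σ ^ p) j = h70_lev deg H σ (j + 1) := by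
  ext h
  have e1 : (deg (σ ^ p)) ^ (p ^ j) = (deg σ) ^ (p ^ (j + 1)) := by
    rw [map_pow, ← pow_mul, pow_succ, mul_comm]
  have e2 : (deg σ) ^ (p ^ (j + 1)) = ((deg σ) ^ (p ^ 1)) ^ (p ^ j) := by
    rw [← pow_mul, pow_one, pow_succ, mul_comm]
  rw [h70_mem_lev, h70_mem_lev, h70_mem_lev, e1]
  constructor
  · rintro ⟨⟨h1, -⟩, h2⟩; exact ⟨h1, h2⟩
  · rintro ⟨h1, h2⟩
    refine ⟨⟨h1, ?_⟩, h2⟩
    have hle : Subgroup.zpowers ((deg σ) ^ (p ^ (j + 1))) ≤ Subgroup.zpowers ((deg σ) ^ (p ^ 1)) := by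
      rw [Subgroup.zpowers_le, e2]
      exact Subgroup.pow_mem _ (Subgroup.mem_zpowers _) _
    exact hle h2

omit hp [Finite G] in
theorem h70_pow_mem_lev_one {n : ℕ} (deg : G →* Multiplicative (ZMod (p ^ n))) (H : Subgroup G)
    (σ : G) (hσ : σ ∈ H) : σ ^ p ∈ h70_lev deg H σ 1 := by
  rw [h70_mem_lev, pow_one, map_pow]
  exact ⟨H.pow_mem hσ p, Subgroup.mem_zpowers _⟩

omit hp [Finite G] in
theorem h70_w_cycSum {V : Type*} [AddCommGroup V] (w : C →+ V)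
    (hw : ∀ (g : G) (c : C), w (g • c) = w c)
    (σ : G) (k : ℕ) (b : C) : w (∑ i ∈ Finset.range k, σ ^ i • b) = k • w b := by
  rw [map_sum]
  simp [hw]

/-- One cyclotomic step: an `H`-fixed element whose valuation is divisible by `p |H| f_H` is a
norm from the first cyclotomic layer. -/
theorem h70_cyc_step
    (hploc : ∀ m : ℕ, m.Coprime p → Function.Bijective (fun c : C => m • c))
    {n : ℕ} (deg : G →* Multiplicative (ZMod (p ^ n)))
    {V : Type*} [AddCommGroup V] (w : C →+ V) (hw : ∀ (g : G) (c : C), w (g • c) = w c)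
    (hV1 : ∀ (H : Subgroup G) (c : C), (∀ h ∈ H, h • c = c) →
      ∃ y : V, w c = (h70_E deg H) • y)
    (hV2 : ∀ H : Subgroup G, H.map deg ≠ ⊥ → ∃ c : C, (∀ h ∈ H, h • c = c) ∧
      ¬ ∃ y : V, w c = (p * h70_E deg H) • y)
    (hCFA2 : ∀ H₁ H₂ : Subgroup G, IsPGroup p H₁ → H₂ ≤ H₁ →
      (∀ g ∈ H₁, ∀ h ∈ H₂, g * h * g⁻¹ ∈ H₂) → H₂.relIndex H₁ = p → ∀ σ ∈ H₁, σ ∉ H₂ →
      ∃ c₀ : C, (∀ h ∈ H₁, h • c₀ = c₀) ∧ ∀ c : C, (∀ h ∈ H₁, h • c = c) →
        ∃ (k : ℕ) (b : C), (∀ h ∈ H₂, h • b = b) ∧ c = k • c₀ + ∑ i ∈ Finset.range p, σ ^ i • b)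
    (H : Subgroup G) (σ : G) (hσ : σ ∈ H) (hgen : H.map deg = Subgroup.zpowers (deg σ))
    (hp1 : p ∣ orderOf (deg σ)) (c : C) (hc : ∀ h ∈ H, h • c = c)
    (hdiv : ∃ y : V, w c = (p * h70_E deg H) • y) :
    ∃ b : C, (∀ h ∈ h70_lev deg H σ 1, h • b = b) ∧ c = ∑ i ∈ Finset.range p, σ ^ i • b := by
  have hσ1 : σ ∉ h70_lev deg H σ 1 := h70_not_mem_lev_one deg H σ hp1
  obtain ⟨c₀, hc₀, hgen₀⟩ := h70_cfa_general hploc hCFA2 H (h70_lev deg H σ 1)
    (h70_lev_le deg H σ 1) (h70_lev_normal deg H σ 1) (h70_relIndex_lev_one deg H σ hgen hp1)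
    σ hσ hσ1
  -- norms from the first layer have valuation divisible by `p E`
  have hnormdiv : ∀ b : C, (∀ h ∈ h70_lev deg H σ 1, h • b = b) →
      ∃ y : V, w (∑ i ∈ Finset.range p, σ ^ i • b) = (p * h70_E deg H) • y := by
    intro b hb
    obtain ⟨y, hy⟩ := hV1 (h70_lev deg H σ 1) b hb
    rw [h70_E_lev] at hy
    exact ⟨y, by rw [h70_w_cycSum w hw, hy, smul_smul]⟩
  have hmapne : H.map deg ≠ ⊥ := by
    rw [hgen, Ne, Subgroup.zpowers_eq_bot]
    intro h1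
    rw [h1, orderOf_one] at hp1
    exact hp.out.one_lt.ne' (Nat.dvd_one.mp hp1)
  obtain ⟨cs, hcs, hcsn⟩ := hV2 H hmapne
  obtain ⟨ks, bs, hbs, hcseq⟩ := hgen₀ cs hcs
  obtain ⟨t₀, ht₀⟩ := hV1 H c₀ hc₀
  have hks : ¬ ∃ y : V, ks • w c₀ = (p * h70_E deg H) • y := by
    rintro ⟨y, hy⟩
    obtain ⟨y', hy'⟩ := hnormdiv bs hbs
    exact hcsn ⟨y + y', by rw [hcseq, map_add, map_nsmul, hy, hy', smul_add]⟩
  -- decompose `c`
  obtain ⟨k, b, hb, hceq⟩ := hgen₀ c hc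
  have hk1 : ∃ y : V, k • w c₀ = (p * h70_E deg H) • y := by
    obtain ⟨y₁, hy₁⟩ := hdiv
    obtain ⟨y₂, hy₂⟩ := hnormdiv b hb
    refine ⟨y₁ - y₂, ?_⟩
    rw [smul_sub, ← hy₁, ← hy₂, hceq, map_add, map_nsmul]
    abel
  have hk : p ∣ k := by
    by_contra hnd
    have hcop : Nat.Coprime k p := ((Nat.Prime.coprime_iff_not_dvd hp.out).mpr hnd).symm
    obtain ⟨j, -, hj⟩ := Nat.exists_mul_mod_eq_of_coprime ks hcop hp.out.ne_zero
    obtain ⟨y, hy⟩ := hk1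
    have e1 : ks + p * (k * j / p) = k * j + p * (ks / p) := by
      have h1 := Nat.div_add_mod (k * j) p
      have h2 := Nat.div_add_mod ks p
      omega
    have e2 : ∀ a : ℕ, (p * a) • w c₀ = (p * h70_E deg H) • (a • t₀) := by
      intro a
      rw [ht₀, smul_smul, smul_smul]
      congr 1; ring
    have e3 : (k * j) • w c₀ = (p * h70_E deg H) • (j • y) := by
      rw [mul_comm k j, mul_smul, hy, smul_comm]
    apply hks
    refine ⟨j • y + (ks / p) • t₀ - (k * j / p) • t₀, ?_⟩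
    have e4 : ks • w c₀ + (p * (k * j / p)) • w c₀ = (k * j) • w c₀ + (p * (ks / p)) • w c₀ := by
      rw [← add_smul, ← add_smul, e1]
    rw [e2, e2, e3] at e4
    rw [smul_sub, smul_add]
    rw [eq_sub_iff_add_eq]
    exact e4
  obtain ⟨k', rfl⟩ := hk
  have hc₀σ : σ • c₀ = c₀ := hc₀ σ hσ
  refine ⟨k' • c₀ + b, fun h hh => ?_, ?_⟩
  · rw [smul_add, ← smul_comm, hc₀ h (h70_lev_le deg H σ 1 hh), hb h hh]
  · rw [hceq, ← h70_cycN_apply, ← h70_cycN_apply, map_add, map_nsmul, h70_cycN_apply σ p c₀,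
      h70_cycSum_fixed σ c₀ hc₀σ p, smul_smul, mul_comm]

/-- Norm groups of the cyclotomic layers, inductive form. -/
theorem h70_cyc_aux
    (hploc : ∀ m : ℕ, m.Coprime p → Function.Bijective (fun c : C => m • c))
    {n : ℕ} (deg : G →* Multiplicative (ZMod (p ^ n)))
    {V : Type*} [AddCommGroup V] (w : C →+ V) (htf : ∀ x : V, p • x = 0 → x = 0)
    (hw : ∀ (g : G) (c : C), w (g • c) = w c)
    (hV1 : ∀ (H : Subgroup G) (c : C), (∀ h ∈ H, h • c = c) →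
      ∃ y : V, w c = (h70_E deg H) • y)
    (hV2 : ∀ H : Subgroup G, H.map deg ≠ ⊥ → ∃ c : C, (∀ h ∈ H, h • c = c) ∧
      ¬ ∃ y : V, w c = (p * h70_E deg H) • y)
    (hCFA2 : ∀ H₁ H₂ : Subgroup G, IsPGroup p H₁ → H₂ ≤ H₁ →
      (∀ g ∈ H₁, ∀ h ∈ H₂, g * h * g⁻¹ ∈ H₂) → H₂.relIndex H₁ = p → ∀ σ ∈ H₁, σ ∉ H₂ →
      ∃ c₀ : C, (∀ h ∈ H₁, h • c₀ = c₀) ∧ ∀ c : C, (∀ h ∈ H₁, h • c = c) →
        ∃ (k : ℕ) (b : C), (∀ h ∈ H₂, h • b = b) ∧ c = k • c₀ + ∑ i ∈ Finset.range p, σ ^ i • b) :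
    ∀ (m : ℕ) (H : Subgroup G) (σ : G), σ ∈ H → H.map deg = Subgroup.zpowers (deg σ) →
      p ^ m ∣ orderOf (deg σ) → ∀ c : C, (∀ h ∈ H, h • c = c) →
      (∃ y : V, w c = (p ^ m * h70_E deg H) • y) →
      ∃ b : C, (∀ h ∈ h70_lev deg H σ m, h • b = b) ∧
        c = ∑ i ∈ Finset.range (p ^ m), σ ^ i • b := by
  haveI : NeZero (p ^ n) := ⟨pow_ne_zero _ hp.out.ne_zero⟩
  intro m
  induction m with
  | zero =>
    intro H σ _ hgen _ c hc _
    refine ⟨c, fun h hh => hc h ?_, by simp⟩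
    rwa [h70_lev_zero deg H σ hgen] at hh
  | succ m ih =>
    intro H σ hσ hgen hdvd c hc hdiv
    obtain ⟨y, hy⟩ := hdiv
    have hp1 : p ∣ orderOf (deg σ) := dvd_trans (dvd_pow_self p (Nat.succ_ne_zero m)) hdvd
    obtain ⟨b₁, hb₁, hcb₁⟩ := h70_cyc_step hploc deg w hw hV1 hV2 hCFA2 H σ hσ hgen hp1 c hc
      ⟨p ^ m • y, by rw [hy, smul_smul]; congr 1; ring⟩
    have hwb₁ : w b₁ = (p ^ m * h70_E deg H) • y := by
      have h1 : p • (w b₁ - (p ^ m * h70_E deg H) • y) = 0 := by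
        rw [smul_sub, ← h70_w_cycSum w hw σ p b₁, ← hcb₁, hy, smul_smul, sub_eq_zero]
        congr 1; ring
      exact sub_eq_zero.mp (htf _ h1)
    have hdvd' : p ^ m ∣ orderOf (deg (σ ^ p)) := by
      rw [map_pow, h70_orderOf_pow_p _ hp1]
      exact Nat.dvd_div_of_mul_dvd (by rwa [← pow_succ'])
    obtain ⟨b₂, hb₂, hb₁eq⟩ := ih (h70_lev deg H σ 1) (σ ^ p) (h70_pow_mem_lev_one deg H σ hσ)
      (h70_map_lev_one deg H σ hσ) hdvd' b₁ hb₁ ⟨y, by rw [h70_E_lev, hwb₁]⟩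
    rw [h70_lev_lev] at hb₂
    refine ⟨b₂, hb₂, ?_⟩
    rw [hcb₁, hb₁eq, h70_cycSum_cycSum, pow_succ']

end Cyc

section Export

variable {p : ℕ} [hp : Fact p.Prime] {G : Type*} [Group G] [Finite G]
  {C : Type*} [AddCommGroup C] [DistribMulAction G C] {n : ℕ}
  {deg : G →* Multiplicative (ZMod (p ^ n))} {V : Type*} [AddCommGroup V] {w : C →+ V}

/-- **H-CFBUILD, step 2.** For class-formation data, the "index ≤ p" statement holds for every
cyclic step `H₂ ⊲ H₁` of degree `p` between ARBITRARY subgroups. -/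
theorem h70_cfa_general_of_data (D : h30_CFData p deg w)
    (H₁ H₂ : Subgroup G) (h21 : H₂ ≤ H₁)
    (hnorm : ∀ g ∈ H₁, ∀ h ∈ H₂, g * h * g⁻¹ ∈ H₂) (hidx : H₂.relIndex H₁ = p)
    (σ : G) (hσ1 : σ ∈ H₁) (hσ2 : σ ∉ H₂) :
    ∃ c₀ : C, (∀ h ∈ H₁, h • c₀ = c₀) ∧ ∀ c : C, (∀ h ∈ H₁, h • c = c) →
      ∃ (k : ℕ) (b : C), (∀ h ∈ H₂, h • b = b) ∧ c = k • c₀ + ∑ i ∈ Finset.range p, σ ^ i • b :=
  h70_cfa_general D.ploc D.CFA2 H₁ H₂ h21 hnorm hidx σ hσ1 hσ2

/-- **H-CFBUILD, step 3 (CYC).** Norm groups of the cyclotomic layers: for a subgroup `H`, a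
generator `deg σ` of `deg H` (`σ ∈ H`) and `p ^ m ∣ |deg H|`, an `H`-fixed `c` is a norm
`∑ i < p^m, σ^i • b` of an element `b` fixed by the `m`-th layer subgroup
`{h ∈ H | deg h ∈ ⟨(deg σ)^(p^m)⟩}` iff `w c` is divisible by `p^m |H| f_H`. -/
theorem h70_cyc_norm (D : h30_CFData p deg w)
    (H : Subgroup G) (σ : G) (hσ : σ ∈ H) (hgen : H.map deg = Subgroup.zpowers (deg σ))
    (m : ℕ) (hm : p ^ m ∣ Nat.card (H.map deg)) (c : C) (hc : ∀ h ∈ H, h • c = c) :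
    (∃ b : C, (∀ h ∈ H, deg h ∈ Subgroup.zpowers ((deg σ) ^ (p ^ m)) → h • b = b) ∧
        c = ∑ i ∈ Finset.range (p ^ m), σ ^ i • b) ↔
      ∃ y : V, w c = (p ^ m * (Nat.card H * (H.map deg).index)) • y := by
  constructor
  · rintro ⟨b, hb, hcb⟩
    have hb' : ∀ h ∈ h70_lev deg H σ m, h • b = b := fun h hh =>
      hb h ((h70_mem_lev deg H σ m h).mp hh).1 ((h70_mem_lev deg H σ m h).mp hh).2
    obtain ⟨y, hy⟩ := D.V1 (h70_lev deg H σ m) b hb'
    have hE : Nat.card (h70_lev deg H σ m) * ((h70_lev deg H σ m).map deg).index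
        = Nat.card H * (H.map deg).index := h70_E_lev deg H σ m
    rw [hE] at hy
    exact ⟨y, by rw [hcb, h70_w_cycSum w D.w_inv, hy, smul_smul]⟩
  · intro hdiv
    have hm' : p ^ m ∣ orderOf (deg σ) := by rwa [hgen, Nat.card_zpowers] at hm
    obtain ⟨b, hb, hcb⟩ := h70_cyc_aux D.ploc deg w D.tf D.w_inv D.V1 D.V2 D.CFA2 m H σ hσ hgen
      hm' c hc hdiv
    exact ⟨b, fun h hh hd => hb h ((h70_mem_lev deg H σ m h).mpr ⟨hh, hd⟩), hcb⟩

end Export

end Fermat.Agent.S55
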