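import Mathlib
import Fermat.Agent.S55.h70_CFCyc

/-!
# S55, layer H: `h70_cyc_norm` in the normalised-generator shape used by `h30_CFBuild`

The generator of `deg H` is normalised by `deg σ = f_H` (as an element of `ZMod (p ^ n)`),
`f_H = (H.map deg).index`, and the `j`-th layer is `{h ∈ H | deg h ∈ ⟨p^j f_H⟩}`.
-/

set_option autoImplicit false

namespace Fermat.Agent.S55

/-- A subgroup of index `f` of the cyclic group `Multiplicative (ZMod N)` is generated by `f`. -/
theorem h70_zmod_subgroup_eq_zpowers (N : ℕ) [NeZero N] (A : Subgroup (Multiplicative (ZMod N))) :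
    A = Subgroup.zpowers (Multiplicative.ofAdd ((A.index : ℕ) : ZMod N)) := by
  have hcard : Nat.card (Multiplicative (ZMod N)) = N := by
    rw [Nat.card_congr Multiplicative.toAdd, Nat.card_zmod]
  have hAidx : Nat.card A * A.index = N := by rw [Subgroup.card_mul_index, hcard]
  have hmem : Multiplicative.ofAdd ((A.index : ℕ) : ZMod N) ∈ A := by
    have h1 := Subgroup.pow_index_mem A (Multiplicative.ofAdd (1 : ZMod N))
    rwa [← ofAdd_nsmul, nsmul_one] at h1
  have hle : Subgroup.zpowers (Multiplicative.ofAdd ((A.index : ℕ) : ZMod N)) ≤ A :=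
    Subgroup.zpowers_le.mpr hmem
  symm
  refine Subgroup.eq_of_le_of_card_ge hle ?_
  rw [Nat.card_zpowers]
  have hord : orderOf (Multiplicative.ofAdd ((A.index : ℕ) : ZMod N)) = N / A.index := by
    have h2 : Multiplicative.ofAdd ((A.index : ℕ) : ZMod N)
        = (Multiplicative.ofAdd (1 : ZMod N)) ^ A.index := by
      rw [← ofAdd_nsmul, nsmul_one]
    rw [h2, orderOf_pow, orderOf_ofAdd_eq_addOrderOf, ZMod.addOrderOf_one,
      Nat.gcd_eq_right (Dvd.intro_left _ hAidx)]
  have hpos : 0 < A.index := by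
    rcases Nat.eq_zero_or_pos A.index with h0 | h0
    · rw [h0, mul_zero] at hAidx
      exact absurd hAidx.symm (NeZero.ne N)
    · exact h0
  rw [hord, Nat.le_div_iff_mul_le hpos]
  exact hAidx.le

variable {p : ℕ} [hp : Fact p.Prime] {G : Type*} [Group G] [Finite G]
  {C : Type*} [AddCommGroup C] [DistribMulAction G C] {n : ℕ}
  {deg : G →* Multiplicative (ZMod (p ^ n))} {V : Type*} [AddCommGroup V] {w : C →+ V}

/-- **H-CFBUILD, step 3 (CYC), hard direction, normalised generator.** -/
theorem h70_cyc_norm_normalised (D : h30_CFData p deg w) (H : Subgroup G) (j : ℕ)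
    (hj : p ^ j * (H.map deg).index ∣ p ^ n)
    (σ : G) (hσ : σ ∈ H)
    (hdeg : deg σ = Multiplicative.ofAdd (((H.map deg).index : ℕ) : ZMod (p ^ n)))
    (c : C) (hc : ∀ h ∈ H, h • c = c)
    (hw : ∃ y : V, w c = (p ^ j * (Nat.card H * (H.map deg).index)) • y) :
    ∃ b : C, (∀ h ∈ H, deg h ∈ Subgroup.zpowers
        (Multiplicative.ofAdd (((p ^ j * (H.map deg).index : ℕ) : ℕ) : ZMod (p ^ n))) → h • b = b) ∧
      c = ∑ i ∈ Finset.range (p ^ j), σ ^ i • b := by
  haveI : NeZero (p ^ n) := ⟨pow_ne_zero _ hp.out.ne_zero⟩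
  have hgen : H.map deg = Subgroup.zpowers (deg σ) := by
    rw [hdeg]; exact h70_zmod_subgroup_eq_zpowers (p ^ n) (H.map deg)
  have hcard : Nat.card (H.map deg) * (H.map deg).index = p ^ n := by
    rw [Subgroup.card_mul_index, Nat.card_congr Multiplicative.toAdd, Nat.card_zmod]
  have hidx0 : 0 < (H.map deg).index := by
    rcases Nat.eq_zero_or_pos (H.map deg).index with h0 | h0
    · rw [h0, mul_zero] at hcard
      exact absurd hcard.symm (pow_ne_zero _ hp.out.ne_zero)
    · exact h0
  have hm : p ^ j ∣ Nat.card (H.map deg) := by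
    have hj' : p ^ j * (H.map deg).index ∣ Nat.card (H.map deg) * (H.map deg).index :=
      hj.trans (dvd_of_eq hcard.symm)
    exact Nat.dvd_of_mul_dvd_mul_right hidx0 hj'
  have hlayer : (deg σ) ^ (p ^ j)
      = Multiplicative.ofAdd (((p ^ j * (H.map deg).index : ℕ) : ℕ) : ZMod (p ^ n)) := by
    rw [hdeg, ← ofAdd_nsmul, nsmul_eq_mul]
    push_cast
    rfl
  obtain ⟨b, hb, hcb⟩ := (h70_cyc_norm D H σ hσ hgen j hm c hc).mpr hw
  rw [hlayer] at hb
  exact ⟨b, hb, hcb⟩

end Fermat.Agent.S55
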