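import Mathlib
import Fermat.Agent.S55.h72_AbsDefs
import Fermat.Agent.S55.h40_InfRes
import Fermat.Agent.S55.h12_Cyclic
import Fermat.Agent.S55.h56_Inv
import Fermat.Agent.S55.h83_Kill
import Fermat.Agent.S55.h70_CFCyc

/-!
# S55, layer H: H-CFBUILD step 6 (generation of `H²` of `p`-subgroups by the fundamental class)

Abstract statement: a 2-cocycle `u` of a finite group `Q` in a `Q`-module `B` such that
* `H¹(K, B) = 0` for all subgroups `K`,
* every cyclic step `K₂ ⊲ K₁` of degree `p` between `p`-subgroups has "norm index `≤ p`",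
* the restriction of `u` to a `p`-subgroup `K` has order (at least) `|K|`,
generates `H²(K, B)` for every `p`-subgroup `K`.  No cardinality of cohomology groups is used.
-/

set_option autoImplicit false

open groupCohomology

namespace Fermat.Agent.S55

section Aux

variable {G A : Type*} [Group G] [AddCommGroup A] [DistribMulAction G A]

lemma h70_isCoboundary₂_nsmul (n : ℕ) {f : G × G → A} (hf : IsCoboundary₂ f) :
    IsCoboundary₂ (n • f) := by
  obtain ⟨x, hx⟩ := hf
  refine ⟨n • x, fun g h => ?_⟩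
  simp only [Pi.smul_apply]
  rw [← hx g h, smul_add, smul_sub, smul_comm g n]

lemma h70_cycInv_nsmul (s : G) (n : ℕ) (f : G × G → A) :
    h12_cycInv s (n • f) = n • h12_cycInv s f := by
  unfold h12_cycInv
  rw [Finset.smul_sum]
  rfl

lemma h70_inf₂_nsmul {Q B : Type*} [Group Q] [AddCommGroup B] [DistribMulAction Q B]
    (π : G →* Q) (ι : B →+ A) (n : ℕ) (f : Q × Q → B) :
    h40_inf₂ π ι (n • f) = n • h40_inf₂ π ι f := by
  funext ⟨g, h⟩
  simp only [h40_inf₂_apply, Pi.smul_apply, map_nsmul]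

end Aux

section Step

variable {p : ℕ} [hp : Fact p.Prime] {Γ : Type*} [Group Γ] [Finite Γ]
  {B : Type*} [AddCommGroup B] [DistribMulAction Γ B]

/-- The induction step: `Γ` a finite group, `N ⊲ Γ` of index `p`. -/
theorem h70_gen_step (N : Subgroup Γ) [hN : N.Normal] (hidx : N.index = p) (σ : Γ) (hσ : σ ∉ N)
    (u₀ : Γ × Γ → B) (hu₀ : IsCocycle₂ u₀)
    (hH1N : ∀ f : N → B, IsCocycle₁ f → IsCoboundary₁ f)
    (hcyc : ∃ c₀ : B, (∀ γ : Γ, γ • c₀ = c₀) ∧ ∀ c : B, (∀ γ : Γ, γ • c = c) →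
      ∃ (k : ℕ) (b : B), (∀ n ∈ N, n • b = b) ∧ c = k • c₀ + ∑ i ∈ Finset.range p, σ ^ i • b)
    (hgenN : ∀ f : N × N → B, IsCocycle₂ f →
      ∃ k : ℕ, IsCoboundary₂ (f - k • fun x : N × N => u₀ ((x.1 : Γ), (x.2 : Γ))))
    (hord : ∀ k : ℕ, IsCoboundary₂ (k • u₀) → Nat.card Γ ∣ k)
    (f : Γ × Γ → B) (hf : IsCocycle₂ f) : ∃ k : ℕ, IsCoboundary₂ (f - k • u₀) := by
  classical
  -- the quotient data
  set π : Γ →* Γ ⧸ N := QuotientGroup.mk' N with hπdef
  have hπ : Function.Surjective π := QuotientGroup.mk'_surjective N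
  have hker : π.ker = N := QuotientGroup.ker_mk' N
  set ι : h56_Inv N B →+ B := (h56_Inv N B).subtype with hιdef
  have hι : Function.Injective ι := Subtype.coe_injective
  have hιeq : ∀ (g : Γ) (b : h56_Inv N B), ι (π g • b) = g • ι b := fun g b => rfl
  have hιfix : ∀ a : B, (∀ s ∈ π.ker, s • a = a) → a ∈ ι.range := by
    intro a ha
    exact ⟨⟨a, fun s hs => ha s (by rw [hker]; exact hs)⟩, rfl⟩
  have hH1 : ∀ u : π.ker → B, IsCocycle₁Via π.ker.subtype u → IsCoboundary₁Via π.ker.subtype u := by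
    have : ∀ M : Subgroup Γ, M = N → ∀ u : M → B, IsCocycle₁Via M.subtype u →
        IsCoboundary₁Via M.subtype u := by
      rintro M rfl; exact hH1N
    exact this _ hker
  have hinfres : ∀ g : Γ × Γ → B, IsCocycle₂ g →
      IsCoboundary₂ (fun x : N × N => g ((x.1 : Γ), (x.2 : Γ))) →
      ∃ z : (Γ ⧸ N) × (Γ ⧸ N) → h56_Inv N B, IsCocycle₂ z ∧
        IsCoboundary₂ (g - h40_inf₂ π ι z) := by
    intro g hg hres
    have hres' : IsCoboundary₂Via π.ker.subtype
        (fun x : π.ker × π.ker => g ((x.1 : Γ), (x.2 : Γ))) := by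
      have : ∀ M : Subgroup Γ, M = N → IsCoboundary₂Via M.subtype
          (fun x : M × M => g ((x.1 : Γ), (x.2 : Γ))) := by
        rintro M rfl; exact hres
      exact this _ hker
    exact h40_E8b_infRes π ι hπ hι hιeq hιfix hH1 g hg hres'
  -- step 1: reduce `f` on `N`
  obtain ⟨k, hk⟩ := hgenN (fun x : N × N => f ((x.1 : Γ), (x.2 : Γ))) (fun a b c => hf a b c)
  have hg : IsCocycle₂ (f - k • u₀) := h40_isCocycle₂_sub hf (h83_isCocycle₂_nsmul k hu₀)
  obtain ⟨z, hz, hzg⟩ := hinfres (f - k • u₀) hg hk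
  -- the class `|N| • u₀`
  have hyN : IsCoboundary₂ (fun x : N × N => (Nat.card N • u₀) ((x.1 : Γ), (x.2 : Γ))) :=
    h83_kill₂ (fun x : N × N => u₀ ((x.1 : Γ), (x.2 : Γ))) (fun a b c => hu₀ a b c)
  obtain ⟨zy, hzy, hzyg⟩ := hinfres (Nat.card N • u₀) (h83_isCocycle₂_nsmul _ hu₀) hyN
  -- the cyclic quotient
  set s : Γ ⧸ N := π σ with hs_def
  have hcardQ : Nat.card (Γ ⧸ N) = p := by rw [← Subgroup.index_eq_card]; exact hidx
  have hs1 : s ≠ 1 := by
    rw [hs_def, Ne, ← MonoidHom.mem_ker, hker]; exact hσ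
  have hstop : Subgroup.zpowers s = ⊤ := zpowers_eq_top_of_prime_card hcardQ hs1
  have hs : ∀ q : Γ ⧸ N, q ∈ Subgroup.zpowers s := fun q => hstop ▸ Subgroup.mem_top q
  have hfin : IsOfFinOrder s := isOfFinOrder_of_finite s
  have hord_s : orderOf s = p := by
    rw [← Nat.card_zpowers, hstop, Subgroup.card_top, hcardQ]
  have hcoeN : ∀ b' : h56_Inv N B,
      ι (h12_cycNorm s b') = ∑ i ∈ Finset.range p, σ ^ i • ι b' := by
    intro b'
    unfold h12_cycNorm
    rw [hord_s, map_sum]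
    refine Finset.sum_congr rfl (fun i _ => ?_)
    rw [hs_def, ← map_pow, hιeq]
  have hfixall : ∀ a' : h56_Inv N B, s • a' = a' → ∀ γ : Γ, γ • ι a' = ι a' := by
    intro a' ha' γ
    have h1 : ∀ q : Γ ⧸ N, q • a' = a' := by
      intro q
      have hle : Subgroup.zpowers s ≤ MulAction.stabilizer (Γ ⧸ N) a' :=
        Subgroup.zpowers_le.mpr ha'
      exact hle (hs q)
    rw [← hιeq, h1]
  obtain ⟨c₀, hc₀, hgen⟩ := hcyc
  set c₀' : h56_Inv N B := ⟨c₀, fun n _ => hc₀ n⟩ with hc₀'def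
  have hsc₀' : s • c₀' = c₀' := Subtype.ext (hc₀ σ)
  obtain ⟨z₀, hz₀, hz₀inv⟩ := h12_cyc_exists_cocycle₂ s hs hfin c₀' hsc₀'
  have hcrit : ∀ z' : (Γ ⧸ N) × (Γ ⧸ N) → h56_Inv N B, IsCocycle₂ z' → ∀ (j : ℕ) (b : B),
      (∀ n ∈ N, n • b = b) →
      ι (h12_cycInv s z') = j • c₀ + ∑ i ∈ Finset.range p, σ ^ i • b →
      IsCoboundary₂ (z' - j • z₀) := by
    intro z' hz' j b hb heq
    have hcoc : IsCocycle₂ (z' - j • z₀) :=
      h40_isCocycle₂_sub hz' (h83_isCocycle₂_nsmul j hz₀)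
    rw [h12_cyc_isCoboundary₂_iff s hs hfin hcoc]
    refine ⟨⟨b, hb⟩, ?_⟩
    apply hι
    rw [hcoeN, h12_cycInv_sub, h70_cycInv_nsmul, hz₀inv, map_sub, map_nsmul, heq]
    show ∑ i ∈ Finset.range p, σ ^ i • b = j • c₀ + ∑ i ∈ Finset.range p, σ ^ i • b - j • c₀
    abel
  obtain ⟨j, b, hb, hjb⟩ := hgen _ (hfixall (h12_cycInv s z) (h12_cycInv_smul s hfin hz))
  have hzcob : IsCoboundary₂ (z - j • z₀) := hcrit z hz j b hb hjb
  obtain ⟨jy, b₂, hb₂, hjb₂⟩ := hgen _ (hfixall (h12_cycInv s zy) (h12_cycInv_smul s hfin hzy))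
  have hzycob : IsCoboundary₂ (zy - jy • z₀) := hcrit zy hzy jy b₂ hb₂ hjb₂
  have hpz₀ : IsCoboundary₂ (p • z₀) := by
    rw [h12_cyc_isCoboundary₂_iff s hs hfin (h83_isCocycle₂_nsmul p hz₀)]
    refine ⟨c₀', ?_⟩
    apply hι
    rw [hcoeN, h70_cycInv_nsmul, hz₀inv, map_nsmul]
    exact h70_cycSum_fixed σ c₀ (hc₀ σ) p
  have hcardΓ : Nat.card Γ = Nat.card N * p := by rw [← hidx, Subgroup.card_mul_index]
  have hjy : ¬ p ∣ jy := by
    rintro ⟨t, rfl⟩
    have h1 : IsCoboundary₂ zy := by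
      have h2 : IsCoboundary₂ ((p * t) • z₀) := by
        rw [mul_comm, mul_smul]; exact h70_isCoboundary₂_nsmul t hpz₀
      have := h40_isCoboundary₂_add hzycob h2
      rwa [sub_add_cancel] at this
    have h3 : IsCoboundary₂ (Nat.card N • u₀) := by
      have := h40_isCoboundary₂_add hzyg (h40_inf₂_isCoboundary₂ π ι hιeq h1)
      rwa [sub_add_cancel] at this
    have h4 := hord _ h3
    rw [hcardΓ] at h4
    have hNpos : 0 < Nat.card N := Nat.card_pos
    have h5 := Nat.le_of_dvd hNpos h4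
    have hp2 := hp.out.two_le
    nlinarith
  have hcop : Nat.Coprime jy p := ((Nat.Prime.coprime_iff_not_dvd hp.out).mpr hjy).symm
  obtain ⟨m, -, hm⟩ := Nat.exists_mul_mod_eq_of_coprime j hcop hp.out.ne_zero
  have key : jy * m + p * (j / p) = j + p * (jy * m / p) := by
    have h1 := Nat.div_add_mod (jy * m) p
    have h2 := Nat.div_add_mod j p
    omega
  have hzz : IsCoboundary₂ (z - m • zy) := by
    have e1 : z - m • zy = (z - j • z₀) - m • (zy - jy • z₀)
        + ((j / p) • (p • z₀) - (jy * m / p) • (p • z₀)) := by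
      have h0 : (jy * m + p * (j / p)) • z₀ = (j + p * (jy * m / p)) • z₀ := by rw [key]
      rw [add_smul, add_smul] at h0
      have h0' : (p * (j / p)) • z₀ - (p * (jy * m / p)) • z₀ = j • z₀ - (jy * m) • z₀ := by
        rw [sub_eq_sub_iff_add_eq_add, add_comm, h0, add_comm]
      rw [smul_sub, smul_smul, smul_smul, smul_smul, mul_comm m jy, mul_comm (j / p) p,
        mul_comm (jy * m / p) p, h0']
      abel
    rw [e1]
    exact h40_isCoboundary₂_add
      (h40_isCoboundary₂_sub hzcob (h70_isCoboundary₂_nsmul m hzycob))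
      (h40_isCoboundary₂_sub (h70_isCoboundary₂_nsmul _ hpz₀) (h70_isCoboundary₂_nsmul _ hpz₀))
  refine ⟨k + m * Nat.card N, ?_⟩
  have e2 : f - (k + m * Nat.card N) • u₀ = (f - k • u₀ - h40_inf₂ π ι z)
      + h40_inf₂ π ι (z - m • zy) - m • (Nat.card N • u₀ - h40_inf₂ π ι zy) := by
    rw [h40_inf₂_sub, h70_inf₂_nsmul, smul_sub, add_smul, mul_smul]
    abel
  rw [e2]
  exact h40_isCoboundary₂_sub
    (h40_isCoboundary₂_add hzg (h40_inf₂_isCoboundary₂ π ι hιeq hzz))
    (h70_isCoboundary₂_nsmul m hzyg)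

end Step

section Gen

variable {p : ℕ} [hp : Fact p.Prime] {Q : Type*} [Group Q] [Finite Q]
  {B : Type*} [AddCommGroup B] [DistribMulAction Q B]

/-- **H-CFBUILD, step 6.** The class of `u` generates `H²(K, B)` for every `p`-subgroup `K`. -/
theorem h70_cf_gen (u : Q × Q → B) (hu : IsCocycle₂ u)
    (hH1 : ∀ (K : Subgroup Q) (f : K → B), IsCocycle₁Via K.subtype f →
      IsCoboundary₁Via K.subtype f)
    (hcyc : ∀ K₁ K₂ : Subgroup Q, IsPGroup p K₁ → K₂ ≤ K₁ →
      (∀ g ∈ K₁, ∀ h ∈ K₂, g * h * g⁻¹ ∈ K₂) → K₂.relIndex K₁ = p → ∀ σ ∈ K₁, σ ∉ K₂ →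
      ∃ c₀ : B, (∀ h ∈ K₁, h • c₀ = c₀) ∧ ∀ c : B, (∀ h ∈ K₁, h • c = c) →
        ∃ (k : ℕ) (b : B), (∀ h ∈ K₂, h • b = b) ∧ c = k • c₀ + ∑ i ∈ Finset.range p, σ ^ i • b)
    (hord : ∀ K : Subgroup Q, IsPGroup p K → ∀ k : ℕ,
      IsCoboundary₂Via K.subtype (k • fun x : K × K => u ((x.1 : Q), (x.2 : Q))) →
      Nat.card K ∣ k)
    (K : Subgroup Q) (hK : IsPGroup p K) (f : K × K → B) (hf : IsCocycle₂Via K.subtype f) :
    ∃ k : ℕ, IsCoboundary₂Via K.subtype (f - k • fun x : K × K => u ((x.1 : Q), (x.2 : Q))) := by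
  classical
  suffices H : ∀ n : ℕ, ∀ K : Subgroup Q, Nat.card K = n → IsPGroup p K →
      ∀ f : K × K → B, IsCocycle₂Via K.subtype f →
      ∃ k : ℕ, IsCoboundary₂Via K.subtype
        (f - k • fun x : K × K => u ((x.1 : Q), (x.2 : Q))) from H _ K rfl hK f hf
  intro n
  induction n using Nat.strong_induction_on with
  | _ n ih =>
    intro K hn hK f hf
    obtain ⟨t, ht⟩ := (IsPGroup.iff_card).mp hK
    rcases t with _ | t
    · -- trivial group
      rw [pow_zero] at ht
      haveI : Subsingleton K := (Nat.card_eq_one_iff_unique.mp ht).1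
      refine ⟨0, ?_⟩
      rw [zero_smul, sub_zero]
      refine ⟨fun _ => f (1, 1), fun g h => ?_⟩
      have hg : g = 1 := Subsingleton.elim _ _
      have hh : h = 1 := Subsingleton.elim _ _
      subst hg hh
      simp
    · -- a normal subgroup of index `p`
      obtain ⟨N, hNcard⟩ := Sylow.exists_subgroup_card_pow_prime p (G := K) (n := t)
        (by rw [ht]; exact pow_dvd_pow p (Nat.le_succ t))
      have hidx : N.index = p := by
        have h1 := Subgroup.card_mul_index N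
        rw [hNcard, ht, pow_succ] at h1
        exact Nat.eq_of_mul_eq_mul_left (pow_pos hp.out.pos t) h1
      haveI hNn : N.Normal := by
        apply Subgroup.normal_of_index_eq_minFac_card
        rw [hidx, ht, Nat.Prime.pow_minFac hp.out (Nat.succ_ne_zero t)]
      obtain ⟨σ, hσ⟩ : ∃ σ : K, σ ∉ N := by
        by_contra hcon
        push Not at hcon
        have htop : N = ⊤ := (Subgroup.eq_top_iff' N).mpr hcon
        rw [htop, Subgroup.index_top] at hidx
        exact hp.out.one_lt.ne hidx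
      -- transport to subgroups of `Q`
      set N' : Subgroup Q := N.map K.subtype with hN'
      set e : N ≃* N' := N.equivMapOfInjective K.subtype K.subtype_injective with he
      have hcoe : ∀ x : N, ((e x : N') : Q) = ((x : K) : Q) := fun x =>
        Subgroup.coe_equivMapOfInjective_apply _ _ _ x
      have hcoe' : ∀ y : N', (((e.symm y : N) : K) : Q) = (y : Q) := by
        intro y
        rw [← hcoe, e.apply_symm_apply]
      have hcardN' : Nat.card N' = p ^ t := by rw [← hNcard]; exact Nat.card_congr e.symm.toEquiv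
      have hlt : Nat.card N' < n := by
        rw [hcardN', ← hn, ht]
        exact Nat.pow_lt_pow_right hp.out.one_lt (Nat.lt_succ_self t)
      have hN'p : IsPGroup p N' := IsPGroup.of_card hcardN'
      have hu₀ : IsCocycle₂ (fun x : K × K => u ((x.1 : Q), (x.2 : Q))) :=
        fun a b c => hu a b c
      -- the hypotheses of the step
      have hH1N : ∀ f₁ : N → B, IsCocycle₁ f₁ → IsCoboundary₁ f₁ := by
        intro f₁ hf₁
        obtain ⟨a, ha⟩ := hH1 N' (fun y => f₁ (e.symm y)) (by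
          intro x y
          show f₁ (e.symm (x * y)) = (x : Q) • f₁ (e.symm y) + f₁ (e.symm x)
          rw [map_mul, hf₁ (e.symm x) (e.symm y), ← hcoe' x]
          rfl)
        refine ⟨a, fun x => ?_⟩
        have h1 := ha (e x)
        simp only [e.symm_apply_apply] at h1
        rw [← h1]
        show ((x : K) : Q) • a - a = ((e x : N') : Q) • a - a
        rw [hcoe]
      have hgenN : ∀ f₂ : N × N → B, IsCocycle₂ f₂ → ∃ k : ℕ, IsCoboundary₂
          (f₂ - k • fun x : N × N =>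
            (fun x : K × K => u ((x.1 : Q), (x.2 : Q))) ((x.1 : K), (x.2 : K))) := by
        intro f₂ hf₂
        obtain ⟨k, x, hx⟩ := ih _ hlt N' rfl hN'p (fun y : N' × N' => f₂ (e.symm y.1, e.symm y.2))
          (by
            intro a b c
            show f₂ (e.symm (a * b), e.symm c) + f₂ (e.symm a, e.symm b)
              = (a : Q) • f₂ (e.symm b, e.symm c) + f₂ (e.symm a, e.symm (b * c))
            rw [map_mul, map_mul, hf₂ (e.symm a) (e.symm b) (e.symm c), ← hcoe' a]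
            rfl)
        refine ⟨k, fun y => x (e y), fun a b => ?_⟩
        have h1 := hx (e a) (e b)
        simp only [Pi.sub_apply, Pi.smul_apply, e.symm_apply_apply, hcoe] at h1
        show ((a : K) : Q) • x (e b) - x (e (a * b)) + x (e a)
          = f₂ (a, b) - k • u (((a : K) : Q), ((b : K) : Q))
        rw [map_mul, ← h1]
        show ((a : K) : Q) • x (e b) - x (e a * e b) + x (e a)
          = ((e a : N') : Q) • x (e b) - x (e a * e b) + x (e a)
        rw [hcoe]
      have hrel : N'.relIndex K = p := by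
        have h1 : N'.subgroupOf K = N := by
          unfold Subgroup.subgroupOf
          exact Subgroup.comap_map_eq_self_of_injective K.subtype_injective N
        unfold Subgroup.relIndex
        rw [h1, hidx]
      have hnormQ : ∀ g ∈ K, ∀ h ∈ N', g * h * g⁻¹ ∈ N' := by
        rintro g hg h ⟨h₀, hh₀, rfl⟩
        exact ⟨⟨g, hg⟩ * h₀ * ⟨g, hg⟩⁻¹, hNn.conj_mem h₀ hh₀ ⟨g, hg⟩, rfl⟩
      have hσN' : (σ : Q) ∉ N' := by
        intro hmem
        exact hσ ((Subgroup.mem_map_iff_mem K.subtype_injective).mp hmem)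
      obtain ⟨c₀, hc₀, hgen⟩ := hcyc K N' hK (Subgroup.map_subtype_le N) hnormQ hrel (σ : Q) σ.2 hσN'
      have hcycΓ : ∃ c₀ : B, (∀ γ : K, γ • c₀ = c₀) ∧ ∀ c : B, (∀ γ : K, γ • c = c) →
          ∃ (k : ℕ) (b : B), (∀ x ∈ N, x • b = b) ∧
            c = k • c₀ + ∑ i ∈ Finset.range p, σ ^ i • b := by
        refine ⟨c₀, fun γ => hc₀ γ γ.2, fun c hc => ?_⟩
        obtain ⟨k, b, hb, hcb⟩ := hgen c (fun h hh => hc ⟨h, hh⟩)
        refine ⟨k, b, fun x hx => hb x (Subgroup.mem_map_of_mem _ hx), ?_⟩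
        rw [hcb]
        congr 1
      exact h70_gen_step N hidx σ hσ (fun x : K × K => u ((x.1 : Q), (x.2 : Q))) hu₀ hH1N hcycΓ
        hgenN (fun k hk => hord K hK k hk) f hf

end Gen

end Fermat.Agent.S55
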