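import Mathlib
import Fermat.Agent.S55.h72_AbsDefs
import Fermat.Agent.S55.h40_HDefs
import Fermat.Agent.S55.h40_InfRes
import Fermat.Agent.S55.h83_Kill
import Fermat.Agent.S55.h88_Sylow
import Fermat.Agent.S55.h30_CFData
import Fermat.Agent.S55.h70_CFCyc
import Fermat.Agent.S55.h70_CFGen

/-!
# S55, layer H: H-CFBUILD, packaging

* `h70_isPClassModule_of`: a 2-cocycle `u` of `Q` in a `p`-local module `B` with `H¹ = 0` on all
  subgroups, "norm index `≤ p`" on cyclic steps of `p`-subgroups and the order property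
  (`k • res_K u ~ 0 ⟹ |K|_p ∣ k` for all subgroups `K`) makes `B` a `p`-class module
  (steps 6 + 7 of the plan);
* `h70_hcyc_of_data`: the "norm index `≤ p`" property for the quotient `(π, ι)` of class-formation
  data `h30_CFData`;
* `h70_ploc_of_data`: the invariants are `p`-local;
* `h70_cfbuild_of_class`: the combination.
-/

set_option autoImplicit false

open groupCohomology

namespace Fermat.Agent.S55

section Pack

variable {p : ℕ} [hp : Fact p.Prime] {Q : Type*} [Group Q] [Finite Q]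
  {B : Type*} [AddCommGroup B] [DistribMulAction Q B]

/-- **H-CFBUILD, steps 6 + 7.** -/
theorem h70_isPClassModule_of
    (hploc : ∀ m : ℕ, m.Coprime p → Function.Bijective (fun c : B => m • c))
    (u : Q × Q → B) (hu : IsCocycle₂ u)
    (hH1 : ∀ (K : Subgroup Q) (f : K → B), IsCocycle₁Via K.subtype f →
      IsCoboundary₁Via K.subtype f)
    (hcyc : ∀ K₁ K₂ : Subgroup Q, IsPGroup p K₁ → K₂ ≤ K₁ →
      (∀ g ∈ K₁, ∀ h ∈ K₂, g * h * g⁻¹ ∈ K₂) → K₂.relIndex K₁ = p → ∀ σ ∈ K₁, σ ∉ K₂ →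
      ∃ c₀ : B, (∀ h ∈ K₁, h • c₀ = c₀) ∧ ∀ c : B, (∀ h ∈ K₁, h • c = c) →
        ∃ (k : ℕ) (b : B), (∀ h ∈ K₂, h • b = b) ∧ c = k • c₀ + ∑ i ∈ Finset.range p, σ ^ i • b)
    (hordAll : ∀ (K : Subgroup Q) (k : ℕ),
      IsCoboundary₂Via K.subtype (k • fun x : K × K => u ((x.1 : Q), (x.2 : Q))) →
      p ^ (Nat.card K).factorization p ∣ k) :
    IsPClassModule p Q B := by
  classical
  have hordP : ∀ K : Subgroup Q, IsPGroup p K → ∀ k : ℕ,
      IsCoboundary₂Via K.subtype (k • fun x : K × K => u ((x.1 : Q), (x.2 : Q))) →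
      Nat.card K ∣ k := by
    intro K hK k hk
    obtain ⟨n, hn⟩ := (IsPGroup.iff_card).mp hK
    have h1 := hordAll K k hk
    rwa [hn, Nat.Prime.factorization_pow hp.out, Finsupp.single_eq_same, ← hn] at h1
  refine ⟨hploc, hH1, u, hu, fun H => ⟨fun f hf => ?_, fun k hk => hordAll H k hk⟩⟩
  obtain ⟨P⟩ : Nonempty (Sylow p H) := inferInstance
  set P' : Subgroup Q := (P : Subgroup H).map H.subtype with hP'
  set e : (P : Subgroup H) ≃* P' :=
    (P : Subgroup H).equivMapOfInjective H.subtype H.subtype_injective with he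
  have hcoe : ∀ x : (P : Subgroup H), ((e x : P') : Q) = ((x : H) : Q) := fun x =>
    Subgroup.coe_equivMapOfInjective_apply _ _ _ x
  have hcoe' : ∀ y : P', (((e.symm y : (P : Subgroup H)) : H) : Q) = (y : Q) := by
    intro y
    rw [← hcoe, e.apply_symm_apply]
  have hP'p : IsPGroup p P' := P.2.map _
  obtain ⟨k, x, hx⟩ := h70_cf_gen u hu hH1 hcyc hordP P' hP'p
    (fun y : P' × P' => f (((e.symm y.1 : (P : Subgroup H)) : H), ((e.symm y.2 : (P : Subgroup H)) : H)))
    (by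
      intro a b c
      show f (((e.symm (a * b) : (P : Subgroup H)) : H), ((e.symm c : (P : Subgroup H)) : H))
          + f (((e.symm a : (P : Subgroup H)) : H), ((e.symm b : (P : Subgroup H)) : H))
        = (a : Q) • f (((e.symm b : (P : Subgroup H)) : H), ((e.symm c : (P : Subgroup H)) : H))
          + f (((e.symm a : (P : Subgroup H)) : H), ((e.symm (b * c) : (P : Subgroup H)) : H))
      rw [map_mul, map_mul, ← hcoe' a]
      exact hf _ _ _)
  refine ⟨k, ?_⟩
  have hu_H : IsCocycle₂ (fun x : H × H => u ((x.1 : Q), (x.2 : Q))) := fun a b c => hu a b c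
  have hf' : IsCocycle₂ f := fun a b c => hf a b c
  refine h88_res₂_inj_sylow_via p hploc H P _
    (h40_isCocycle₂_sub hf' (h83_isCocycle₂_nsmul k hu_H)) ?_
  refine ⟨fun y => x (e y), fun a b => ?_⟩
  have h1 := hx (e a) (e b)
  simp only [Pi.sub_apply, Pi.smul_apply, e.symm_apply_apply, hcoe] at h1
  show (((a : H) : Q)) • x (e b) - x (e (a * b)) + x (e a)
    = f ((a : H), (b : H)) - k • u (((a : H) : Q), ((b : H) : Q))
  rw [map_mul, ← h1]
  show (((a : H) : Q)) • x (e b) - x (e a * e b) + x (e a)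
    = ((e a : P') : Q) • x (e b) - x (e a * e b) + x (e a)
  rw [hcoe]

end Pack

section Data

variable {p : ℕ} [hp : Fact p.Prime] {G : Type*} [Group G] [Finite G]
  {C : Type*} [AddCommGroup C] [DistribMulAction G C] {n : ℕ}
  {deg : G →* Multiplicative (ZMod (p ^ n))} {V : Type*} [AddCommGroup V] {w : C →+ V}
  {Q : Type*} [Group Q] {B : Type*} [AddCommGroup B] [DistribMulAction Q B]

omit hp [Finite G] in
/-- The invariants `B ≅ C^{ker π}` of a `p`-local module are `p`-local. -/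
theorem h70_ploc_of_data
    (hploc : ∀ m : ℕ, m.Coprime p → Function.Bijective (fun c : C => m • c))
    (π : G →* Q) (ι : B →+ C) (hι : Function.Injective ι)
    (hιeq : ∀ (g : G) (b : B), ι (π g • b) = g • ι b)
    (hιfix : ∀ c : C, (∀ s ∈ π.ker, s • c = c) → c ∈ ι.range) :
    ∀ m : ℕ, m.Coprime p → Function.Bijective (fun b : B => m • b) := by
  intro m hm
  have hbij := hploc m hm
  constructor
  · intro b b' hbb
    apply hι
    apply hbij.1
    simp only at hbb ⊢
    rw [← map_nsmul, ← map_nsmul, hbb]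
  · intro b
    obtain ⟨c', hc'⟩ := hbij.2 (ι b)
    simp only at hc'
    have hfix : ∀ s ∈ π.ker, s • c' = c' := by
      intro s hs
      apply hbij.1
      simp only
      rw [← smul_comm, hc']
      have h1 := hιeq s b
      rw [MonoidHom.mem_ker.mp hs, one_smul] at h1
      exact h1.symm
    obtain ⟨b', rfl⟩ := hιfix c' hfix
    refine ⟨b', hι ?_⟩
    simp only
    rw [map_nsmul, hc']

/-- **H-CFBUILD, step 2 in the quotient.** "Norm index `≤ p`" for cyclic steps of degree `p`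
between arbitrary subgroups of the quotient `Q`, acting on the invariants `B`. -/
theorem h70_hcyc_of_data (D : h30_CFData p deg w)
    (π : G →* Q) (hπ : Function.Surjective π) (ι : B →+ C) (hι : Function.Injective ι)
    (hιeq : ∀ (g : G) (b : B), ι (π g • b) = g • ι b)
    (hιfix : ∀ c : C, (∀ s ∈ π.ker, s • c = c) → c ∈ ι.range)
    (K₁ K₂ : Subgroup Q) (h21 : K₂ ≤ K₁) (hnorm : ∀ g ∈ K₁, ∀ h ∈ K₂, g * h * g⁻¹ ∈ K₂)
    (hidx : K₂.relIndex K₁ = p) (σ : Q) (hσ1 : σ ∈ K₁) (hσ2 : σ ∉ K₂) :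
    ∃ c₀ : B, (∀ h ∈ K₁, h • c₀ = c₀) ∧ ∀ c : B, (∀ h ∈ K₁, h • c = c) →
      ∃ (k : ℕ) (b : B), (∀ h ∈ K₂, h • b = b) ∧ c = k • c₀ + ∑ i ∈ Finset.range p, σ ^ i • b := by
  obtain ⟨τ, rfl⟩ := hπ σ
  have hrel : (K₂.comap π).relIndex (K₁.comap π) = p := by
    rw [Subgroup.relIndex_comap, Subgroup.map_comap_eq_self_of_surjective hπ, hidx]
  have hnorm' : ∀ g ∈ K₁.comap π, ∀ h ∈ K₂.comap π, g * h * g⁻¹ ∈ K₂.comap π := by
    intro g hg h hh
    rw [Subgroup.mem_comap] at hg hh ⊢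
    rw [map_mul, map_mul, map_inv]
    exact hnorm _ hg _ hh
  obtain ⟨c₀C, hc₀C, hgen⟩ := h70_cfa_general_of_data D (K₁.comap π) (K₂.comap π)
    (Subgroup.comap_mono h21) hnorm' hrel τ hσ1 hσ2
  have hker1 : π.ker ≤ K₁.comap π := fun s hs => by
    rw [Subgroup.mem_comap, MonoidHom.mem_ker.mp hs]; exact one_mem _
  have hker2 : π.ker ≤ K₂.comap π := fun s hs => by
    rw [Subgroup.mem_comap, MonoidHom.mem_ker.mp hs]; exact one_mem _
  obtain ⟨c₀, rfl⟩ := hιfix c₀C (fun s hs => hc₀C s (hker1 hs))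
  refine ⟨c₀, ?_, ?_⟩
  · intro h hh
    obtain ⟨g, rfl⟩ := hπ h
    apply hι
    rw [hιeq]
    exact hc₀C g hh
  · intro c hc
    have hιc : ∀ g ∈ K₁.comap π, g • ι c = ι c := by
      intro g hg
      rw [← hιeq, hc _ hg]
    obtain ⟨k, bC, hbC, hcb⟩ := hgen (ι c) hιc
    obtain ⟨b, rfl⟩ := hιfix bC (fun s hs => hbC s (hker2 hs))
    refine ⟨k, b, ?_, ?_⟩
    · intro h hh
      obtain ⟨g, rfl⟩ := hπ h
      apply hι
      rw [hιeq]
      exact hbC g hh
    · apply hι
      rw [hcb, map_add, map_nsmul, map_sum]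
      congr 1
      refine Finset.sum_congr rfl (fun i _ => ?_)
      rw [← map_pow, hιeq]

/-- **H-CFBUILD from the fundamental class.** Given class-formation data, a quotient `(π, ι)`
and a 2-cocycle `u` of `Q` in `B` with `H¹ = 0` on all subgroups of `Q` and the order property,
`B` is a `p`-class module for `Q`. -/
theorem h70_cfbuild_of_class [Finite Q] (D : h30_CFData p deg w)
    (π : G →* Q) (hπ : Function.Surjective π) (ι : B →+ C) (hι : Function.Injective ι)
    (hιeq : ∀ (g : G) (b : B), ι (π g • b) = g • ι b)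
    (hιfix : ∀ c : C, (∀ s ∈ π.ker, s • c = c) → c ∈ ι.range)
    (u : Q × Q → B) (hu : IsCocycle₂ u)
    (hH1 : ∀ (K : Subgroup Q) (f : K → B), IsCocycle₁Via K.subtype f →
      IsCoboundary₁Via K.subtype f)
    (hordAll : ∀ (K : Subgroup Q) (k : ℕ),
      IsCoboundary₂Via K.subtype (k • fun x : K × K => u ((x.1 : Q), (x.2 : Q))) →
      p ^ (Nat.card K).factorization p ∣ k) :
    IsPClassModule p Q B :=
  h70_isPClassModule_of (h70_ploc_of_data D.ploc π ι hι hιeq hιfix) u hu hH1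
    (fun K₁ K₂ _ h21 hnorm hidx σ hσ1 hσ2 =>
      h70_hcyc_of_data D π hπ ι hι hιeq hιfix K₁ K₂ h21 hnorm hidx σ hσ1 hσ2)
    hordAll

end Data

end Fermat.Agent.S55
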