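/-
S55 layer H, row H-CFBUILD (helper30): class formation from the cyclic degree-`p` axiom and a
valuation.  Final assembly:

* step 1 (`h30_H1`, Hilbert 90 on top) and inflation injectivity give `H¹ = 0` on all subgroups
  of the quotient;
* step 4: the pre-class `s = carry(χ, χ) • c` restricted to `ker π` is a coboundary (`h30_kill`
  for the trivial subgroup, using (CYC) = `h70_cyc_norm_normalised`), hence `s` is cohomologous
  to the inflation of a 2-cocycle `u` of the quotient (`h40_E8b_infRes`);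
* step 5: the order property of `u` from `h30_ord`;
* steps 6, 7 and the packaging: helper70's `h70_cfbuild_of_class`.
-/
import Mathlib
import Fermat.Agent.S55.h30_CFClass
import Fermat.Agent.S55.h70_CFCycAdapter
import Fermat.Agent.S55.h70_CFPack

set_option autoImplicit false
set_option linter.unusedSectionVars false

open groupCohomology

namespace Fermat.Agent.S55

section Build

variable {p : ℕ} [Fact p.Prime] {G : Type*} [Group G] [Finite G] {C : Type*} [AddCommGroup C]
  [DistribMulAction G C] {n : ℕ} (deg : G →* Multiplicative (ZMod (p ^ n)))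
  {V : Type*} [AddCommGroup V] (w : C →+ V)

/-- (CYC), hard half, from the data (helper70's `h70_cyc_norm_normalised`). -/
theorem h30_cycHard_of_data (D : h30_CFData p deg w) : h30_CycHard p deg w :=
  fun H j hj σ hσ hdeg c hc hw => h70_cyc_norm_normalised D H j hj σ hσ hdeg c hc hw

variable {Q : Type*} [Group Q] (π : G →* Q) {B : Type*} [AddCommGroup B] [DistribMulAction Q B]
  (ι : B →+ C)

/-- `H¹(K, B) = 0` for every subgroup `K` of the quotient. -/
theorem h30_H1_quot (D : h30_CFData p deg w) (hπ : Function.Surjective π)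
    (hι : Function.Injective ι) (hιeq : ∀ (g : G) (b : B), ι (π g • b) = g • ι b)
    (hιfix : ∀ c : C, (∀ s ∈ π.ker, s • c = c) → c ∈ ι.range)
    (K : Subgroup Q) (f : K → B) (hf : IsCocycle₁Via K.subtype f) :
    IsCoboundary₁Via K.subtype f := by
  have hf' : IsCocycle₁ f := fun g h => hf g h
  have hπ' : Function.Surjective (π.subgroupComap K) :=
    MonoidHom.subgroupComap_surjective_of_surjective π K hπ
  have hcoc : IsCocycle₁Via (K.comap π).subtype
      (fun g : K.comap π => ι (f (π.subgroupComap K g))) := by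
    intro g h
    show ι (f (π.subgroupComap K (g * h))) =
      (g : G) • ι (f (π.subgroupComap K h)) + ι (f (π.subgroupComap K g))
    rw [map_mul, hf', map_add, ← hιeq]
    rfl
  have h1 := h30_H1 D.ploc D.CFA1 (K.comap π) _ hcoc
  have h2 : IsCoboundary₁ (fun g : K.comap π => ι (f (π.subgroupComap K g))) := by
    obtain ⟨x, hx⟩ := h1
    exact ⟨x, fun g => hx g⟩
  have key := h40_E8a (π.subgroupComap K) ι hπ' hι (fun g b => hιeq (g : G) b)
    (fun a ha => hιfix a (fun s hs => by
      have hsK : s ∈ K.comap π := by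
        rw [Subgroup.mem_comap, MonoidHom.mem_ker.1 hs]; exact K.one_mem
      exact ha ⟨s, hsK⟩ (by
        rw [MonoidHom.mem_ker]; exact Subtype.ext (MonoidHom.mem_ker.1 hs)))) f hf' h2
  obtain ⟨x, hx⟩ := key
  exact ⟨x, fun g => hx g⟩

/-- Inflation of a coboundary relation on a subgroup `K` of the quotient to `π⁻¹ K`. -/
theorem h30_B2_inflate (hιeq : ∀ (g : G) (b : B), ι (π g • b) = g • ι b)
    (K : Subgroup Q) (z : Q × Q → B)
    (hz : IsCoboundary₂Via K.subtype (fun x : K × K => z ((x.1 : Q), (x.2 : Q)))) :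
    h30_B2 (K.comap π) (fun x : G × G => ι (z (π x.1, π x.2))) := by
  classical
  obtain ⟨x, hx⟩ := hz
  refine ⟨fun g => if hg : π g ∈ K then ι (x ⟨π g, hg⟩) else 0, fun g hg h hh => ?_⟩
  have hg' : π g ∈ K := hg
  have hh' : π h ∈ K := hh
  have hgh' : π (g * h) ∈ K := by rw [map_mul]; exact K.mul_mem hg' hh'
  simp only [dif_pos hg', dif_pos hh', dif_pos hgh']
  have h1 := hx ⟨π g, hg'⟩ ⟨π h, hh'⟩
  have h2 := congrArg ι h1
  rw [map_add, map_sub] at h2
  have h3 : ι (K.subtype ⟨π g, hg'⟩ • x ⟨π h, hh'⟩) = g • ι (x ⟨π h, hh'⟩) := hιeq g _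
  rw [h3] at h2
  have h4 : (⟨π g, hg'⟩ * ⟨π h, hh'⟩ : K) = ⟨π (g * h), hgh'⟩ := Subtype.ext (map_mul π g h).symm
  rw [h4] at h2
  exact h2

theorem h30_ord_num {N a i k : ℕ} (hp : p.Prime) (hN : N ≠ 0) (hai : a * i = N)
    (h : p ^ N.factorization p ∣ k * i) : p ^ a.factorization p ∣ k := by
  have ha : a ≠ 0 := by rintro rfl; exact hN (by rw [← hai, zero_mul])
  have hi : i ≠ 0 := by rintro rfl; exact hN (by rw [← hai, mul_zero])
  obtain ⟨e, r, hr, rfl⟩ := Nat.exists_eq_pow_mul_and_not_dvd hi p hp.ne_one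
  have h1 : p ^ (a.factorization p + e) ∣ N := by
    rw [← hai, pow_add]
    exact mul_dvd_mul (Nat.ordProj_dvd a p) (Dvd.intro _ rfl)
  have h2 : a.factorization p + e ≤ N.factorization p :=
    (hp.pow_dvd_iff_le_factorization hN).1 h1
  have h3 : p ^ e * p ^ a.factorization p ∣ p ^ e * (k * r) := by
    have h4 : p ^ e * p ^ a.factorization p ∣ p ^ N.factorization p := by
      rw [← pow_add]; exact pow_dvd_pow p (by omega)
    have h5 : k * (p ^ e * r) = p ^ e * (k * r) := by ring
    rw [← h5]
    exact h4.trans h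
  have h6 : p ^ a.factorization p ∣ k * r := Nat.dvd_of_mul_dvd_mul_left (pow_pos hp.pos e) h3
  have hcop : (p ^ a.factorization p).Coprime r :=
    Nat.Coprime.pow_left _ ((Nat.Prime.coprime_iff_not_dvd hp).2 hr)
  exact hcop.dvd_of_dvd_mul_right h6

/-- **H-CFBUILD**: class formation from the cyclic degree-`p` axiom and a valuation.
For class-formation data `(G, C, deg, w)` and a quotient `(π : G ↠ Q, ι : B ≅ C^{ker π})` with
`v_p |Q| ≤ n`, the module `B` is a `p`-class module for `Q`. -/
theorem h30_cfbuild_aux (D : h30_CFData p deg w) (hπ : Function.Surjective π)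
    (hQ : (Nat.card Q).factorization p ≤ n) (hι : Function.Injective ι)
    (hιeq : ∀ (g : G) (b : B), ι (π g • b) = g • ι b)
    (hιfix : ∀ c : C, (∀ s ∈ π.ker, s • c = c) → c ∈ ι.range) : IsPClassModule p Q B := by
  have hp : p.Prime := Fact.out
  have hfinQ : Finite Q := Finite.of_surjective π hπ
  have hH1 := h30_H1_quot deg w π ι D hπ hι hιeq hιfix
  by_cases hm : (Nat.card Q).factorization p = 0
  · refine h70_cfbuild_of_class D π hπ ι hι hιeq hιfix 0 h40_isCocycle₂_zero hH1
      (fun K k _ => ?_)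
    have h1 : (Nat.card K).factorization p ≤ (Nat.card Q).factorization p :=
      (Nat.factorization_le_iff_dvd Nat.card_pos.ne' Nat.card_pos.ne').2
        (Subgroup.card_subgroup_dvd_card K) p
    rw [hm, Nat.le_zero] at h1
    rw [h1, pow_zero]
    exact one_dvd k
  · have hn : n ≠ 0 := by omega
    obtain ⟨c, y₀, hc, hy₀, hy₀'⟩ := h30_exists_c deg w D hn
    obtain ⟨s, hs_def⟩ : ∃ s : G × G → C, s = h30_carry (h30_v deg ((Nat.card Q).factorization p))
      (p ^ (Nat.card Q).factorization p) c := ⟨_, rfl⟩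
    have hs : IsCocycle₂ s := by
      rw [hs_def]
      exact h30_carry_isCocycle₂ _ _ (h30_ppos _) (h30_v_mul deg hQ) c hc
    have hsres : IsCoboundary₂Via π.ker.subtype
        (fun x : π.ker × π.ker => s ((x.1 : G), (x.2 : G))) := by
      have h1 := h30_kill deg w π D (h30_cycHard_of_data deg w D) hπ hQ c y₀ hc hy₀ ⊥
      rw [Subgroup.card_bot, one_smul, MonoidHom.comap_bot, ← hs_def] at h1
      exact (h30_B2_iff _ _).1 h1
    obtain ⟨u, hu, hus⟩ := h40_E8b_infRes π ι hπ hι hιeq hιfix
      (fun f hf => h30_H1 D.ploc D.CFA1 π.ker f hf) s hs hsres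
    refine h70_cfbuild_of_class D π hπ ι hι hιeq hιfix u hu hH1 (fun K k hk => ?_)
    -- the order property
    have h1 : h30_B2 (K.comap π) (fun x : G × G => ι ((k • u) (π x.1, π x.2))) :=
      h30_B2_inflate π ι hιeq K (k • u) hk
    have h2 : h30_B2 (K.comap π) (k • (s - fun x : G × G => ι (u (π x.1, π x.2)))) :=
      h30_B2_nsmul (h30_B2_of_isCoboundary₂ _ hus) k
    have h3 : h30_B2 (K.comap π) (k • s) := by
      have h4 := h30_B2_add h1 h2
      refine h30_B2_congr (fun g _ h _ => ?_) h4
      simp only [Pi.add_apply, Pi.smul_apply, Pi.sub_apply, map_nsmul, smul_sub]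
      abel
    rw [hs_def] at h3
    have h5 := h30_ord deg w π D hπ hQ c y₀ hc hy₀ hy₀' K k h3
    exact h30_ord_num hp Nat.card_pos.ne' K.card_mul_index h5

end Build

/-- **H-CFBUILD** (row 192, export): class formation from the cyclic degree-`p` axiom and a
valuation.  For class-formation data `D : h30_CFData p deg w` on `(G, C)` and a quotient
`(π : G ↠ Q, ι : B ≅ C^{ker π})` with `v_p |Q| ≤ n`, the module `B` is a `p`-class module for
`Q`. -/
theorem h30_cfbuild {p : ℕ} [Fact p.Prime] {G : Type*} [Group G] [Finite G] {C : Type*}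
    [AddCommGroup C] [DistribMulAction G C] {n : ℕ}
    (deg : G →* Multiplicative (ZMod (p ^ n))) {V : Type*} [AddCommGroup V] (w : C →+ V)
    (D : h30_CFData p deg w)
    {Q : Type*} [Group Q] (π : G →* Q) (hπ : Function.Surjective π)
    (hQ : (Nat.card Q).factorization p ≤ n)
    {B : Type*} [AddCommGroup B] [DistribMulAction Q B] (ι : B →+ C) (hι : Function.Injective ι)
    (hιeq : ∀ (g : G) (b : B), ι (π g • b) = g • ι b)
    (hιfix : ∀ c : C, (∀ s ∈ π.ker, s • c = c) → c ∈ ι.range) : IsPClassModule p Q B :=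
  h30_cfbuild_aux deg w π ι D hπ hQ hι hιeq hιfix


end Fermat.Agent.S55
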