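import Fermat.Agent.S55.h66_GlobFunc2
import Fermat.Agent.S55.h33_GlobKumDefs

/-!
# S55 / GLOB-FUNC, part 3 (helper66): the interface Prop `h33_HypFunc` and the pointwise forms
of the skeleton row GLOB-FUNC (`sk_Xmap_id`, `sk_Xmap_comp`, `sk_Cmap_id`, `sk_Cmap_comp`,
`sk_Dmap_single`, `sk_Xmap_fst` of `h25_GlobSkel`).
-/

set_option autoImplicit false

open IsDedekindDomain NumberField
open scoped nonZeroDivisors

namespace Fermat.Agent.S55

/-- (F) of `h33_GlobKumDefs`: naturality of the diagonal. -/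
theorem h66_hypFunc (S : Finset Nat.Primes) : h33_HypFunc S :=
  fun _ _ _ _ _ _ f x => h66_Xmap_diag S f x

section

variable {K : Type*} [Field K] [NumberField K] {K' : Type*} [Field K'] [NumberField K']
variable {K'' : Type*} [Field K''] [NumberField K''] (S : Finset Nat.Primes)

set_option linter.unusedSectionVars false

theorem h66_Xmap_id_apply (x : h25_X K S) : h25_Xmap S (RingHom.id K) x = x := by
  rw [h66_Xmap_id]; rfl

theorem h66_Xmap_comp_apply (g : K' →+* K'') (f : K →+* K') (x : h25_X K S) :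
    h25_Xmap S (g.comp f) x = h25_Xmap S g (h25_Xmap S f x) := by
  rw [h66_Xmap_comp]; rfl

theorem h66_Cmap_id_apply (c : h25_C K S) : h25_Cmap S (RingHom.id K) c = c := by
  rw [h66_Cmap_id]; rfl

theorem h66_Cmap_comp_apply (g : K' →+* K'') (f : K →+* K') (c : h25_C K S) :
    h25_Cmap S (g.comp f) c = h25_Cmap S g (h25_Cmap S f c) := by
  rw [h66_Cmap_comp]; rfl

/-- the divisor of a prime `v` not above `S`, extended to `K'`: the coefficient at `w`. -/
theorem h66_Dmap_single_apply (f : K →+* K') (v : h25_Pl K S) (w : h25_Pl K' S) :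
    h25_Dmap S f (Finsupp.single v 1) w =
      FractionalIdeal.count K' w.1
        ((Ideal.map (RingOfIntegers.mapRingHom f) v.1.asIdeal : Ideal (𝓞 K')) :
          FractionalIdeal (𝓞 K')⁰ K') := by
  rw [h66_Dmap_single, one_smul, h25_divIdeal_apply]

/-- `J`-part of `h25_Xmap`. -/
theorem h66_Xmap_fst (f : K →+* K') (x : h25_X K S) (q : S)
    (j' : K' →+* PadicAlgCl ((q : Nat.Primes) : ℕ)) :
    (((h25_Xmap S f x).1 q : h25_Jq K' ((q : Nat.Primes) : ℕ)) :
        (K' →+* PadicAlgCl ((q : Nat.Primes) : ℕ)) → (PadicAlgCl ((q : Nat.Primes) : ℕ))ˣ) j' =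
      ((x.1 q : h25_Jq K ((q : Nat.Primes) : ℕ)) :
        (K →+* PadicAlgCl ((q : Nat.Primes) : ℕ)) → (PadicAlgCl ((q : Nat.Primes) : ℕ))ˣ)
        (j'.comp f) := rfl

end

end Fermat.Agent.S55
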