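import Mathlib

/-!
# S55 (helper63): units fixed by a subgroup of a Galois group, and the `σ`-norm
`x ↦ ∏_{i<p} σ^i x` (generic fields; shared by LOC-CFA and GLOB-CFA).
-/

namespace Fermat.Agent.S55

variable {F E : Type*} [Field F] [Field E] [Algebra F E]

/-- the units of `E` fixed by the subgroup `H` of `Gal(E/F)`. -/
def h63_fixU (H : Subgroup (E ≃ₐ[F] E)) : Subgroup Eˣ where
  carrier := {x | ∀ τ ∈ H, τ • x = x}
  mul_mem' := by
    intro a b ha hb τ hτ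
    rw [smul_mul', ha τ hτ, hb τ hτ]
  one_mem' := by
    intro τ _
    exact smul_one τ
  inv_mem' := by
    intro a ha τ hτ
    rw [smul_inv', ha τ hτ]

theorem h63_mem_fixU (H : Subgroup (E ≃ₐ[F] E)) (x : Eˣ) :
    x ∈ h63_fixU H ↔ ∀ τ ∈ H, τ • x = x := Iff.rfl

theorem h63_fixU_anti {H1 H2 : Subgroup (E ≃ₐ[F] E)} (h : H2 ≤ H1) :
    h63_fixU H1 ≤ h63_fixU H2 := fun _ hx τ hτ => hx τ (h hτ)

/-- the `σ`-norm `x ↦ ∏_{i<p} σ^i x` on `Eˣ`. -/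
noncomputable def h63_normPow (σ : E ≃ₐ[F] E) (p : ℕ) : Eˣ →* Eˣ :=
  ∏ i ∈ Finset.range p, MulDistribMulAction.toMonoidHom Eˣ (σ ^ i)

theorem h63_normPow_apply (σ : E ≃ₐ[F] E) (p : ℕ) (x : Eˣ) :
    h63_normPow σ p x = ∏ i ∈ Finset.range p, (σ ^ i) • x := by
  simp [h63_normPow]

theorem h63_normPow_coe (σ : E ≃ₐ[F] E) (p : ℕ) (x : Eˣ) :
    ((h63_normPow σ p x : Eˣ) : E) = ∏ i ∈ Finset.range p, (σ ^ i) (x : E) := by
  rw [h63_normPow_apply, Units.coe_prod]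
  rfl

end Fermat.Agent.S55
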