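import Mathlib
import Fermat.Agent.S55.h63_GalDefs
import Fermat.Agent.S14.h10_H90

/-!
# S55 row 234 (GAL-CYCSTEP), helper73

Generic cyclic Galois step for `H2 ◁ H1 ≤ Gal(E/F)` of prime index `p`.
Export: `Fermat.Agent.S55.h73_cycstep`.
-/

namespace Fermat.Agent.S55

open IntermediateField

section Aux

variable {K E : Type*} [Field K] [Field E] [Algebra K E] [FiniteDimensional K E] [IsGalois K E]

theorem h73_card_gal_fixedField (p : ℕ) (N : Subgroup (E ≃ₐ[K] E)) [N.Normal]
    (hN : N.index = p) :
    Nat.card (fixedField N ≃ₐ[K] fixedField N) = p := by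
  rw [← Nat.card_congr (IsGalois.normalAutEquivQuotient N).toEquiv, ← hN]
  rfl

theorem h73_restrict_ne_one (N : Subgroup (E ≃ₐ[K] E)) [N.Normal] (σ : E ≃ₐ[K] E)
    (hσ : σ ∉ N) : AlgEquiv.restrictNormalHom (fixedField N) σ ≠ 1 := by
  intro h
  apply hσ
  have h1 : σ ∈ (AlgEquiv.restrictNormalHom (fixedField N)).ker := h
  rw [IntermediateField.restrictNormalHom_ker, fixingSubgroup_fixedField] at h1
  exact h1

omit [FiniteDimensional K E] [IsGalois K E] in
/-- `σ^i` restricted to a normal intermediate field. -/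
theorem h73_restrict_pow_apply (L : IntermediateField K E) [Normal K L] (σ : E ≃ₐ[K] E) (i : ℕ)
    (x : L) :
    (((AlgEquiv.restrictNormalHom L σ) ^ i) x : E) = (σ ^ i) (x : E) := by
  rw [← map_pow]
  exact AlgEquiv.restrictNormal_commutes (σ ^ i) L x

/-- the norm from the fixed field of a normal subgroup of prime index `p` is `∏_{i<p} σ^i`. -/
theorem h73_norm_fixedField (p : ℕ) [Fact p.Prime] (N : Subgroup (E ≃ₐ[K] E)) [N.Normal]
    (hN : N.index = p) (σ : E ≃ₐ[K] E) (hσ : σ ∉ N) (x : fixedField N) :
    algebraMap K E (Algebra.norm K x) = ∏ i ∈ Finset.range p, (σ ^ i) (x : E) := by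
  classical
  have hcard := h73_card_gal_fixedField p N hN
  have hg1 := h73_restrict_ne_one N σ hσ
  set g := AlgEquiv.restrictNormalHom (fixedField N) σ with hg
  have hgen : ∀ y, y ∈ Subgroup.zpowers g := by
    intro y
    rw [zpowers_eq_top_of_prime_card hcard hg1]
    exact Subgroup.mem_top y
  have hord : orderOf g = p := by
    apply orderOf_eq_prime _ hg1
    rw [← hcard]
    exact pow_card_eq_one'
  have h1 : algebraMap K (fixedField N) (Algebra.norm K x) = ∏ τ : (fixedField N ≃ₐ[K] fixedField N), τ x :=
    Algebra.norm_eq_prod_automorphisms K x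
  have h2 : (∏ τ : (fixedField N ≃ₐ[K] fixedField N), τ x) = ∏ i ∈ Finset.range p, (g ^ i) x := by
    rw [← IsCyclic.image_range_orderOf hgen, hord, Finset.prod_image]
    intro i hi j hj hij
    have hi' : i < orderOf g := by rw [hord]; exact Finset.mem_range.mp hi
    have hj' : j < orderOf g := by rw [hord]; exact Finset.mem_range.mp hj
    exact pow_injOn_Iio_orderOf hi' hj' hij
  have h3 : algebraMap K E (Algebra.norm K x) = ((algebraMap K (fixedField N) (Algebra.norm K x) : fixedField N) : E) := rfl
  rw [h3, h1, h2]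
  rw [show ((∏ i ∈ Finset.range p, (g ^ i) x : fixedField N) : E) = ∏ i ∈ Finset.range p, (((g ^ i) x : fixedField N) : E) from map_prod (algebraMap (fixedField N) E) _ _]
  apply Finset.prod_congr rfl
  intro i _
  exact h73_restrict_pow_apply (fixedField N) σ i x

omit [FiniteDimensional K E] [IsGalois K E] in
/-- a unit of `E` fixed by `N` lies in the fixed field. -/
theorem h73_coe_mem_fixedField (N : Subgroup (E ≃ₐ[K] E)) (x : Eˣ) (hx : x ∈ h63_fixU N) :
    (x : E) ∈ fixedField N := by
  rw [IntermediateField.mem_fixedField_iff]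
  intro τ hτ
  exact congrArg Units.val (hx τ hτ)

omit [FiniteDimensional K E] [IsGalois K E] in
/-- a unit of the fixed field gives a unit of `E` fixed by `N`. -/
theorem h73_map_mem_fixU (N : Subgroup (E ≃ₐ[K] E)) (u : (fixedField N)ˣ) :
    Units.map (algebraMap (fixedField N) E).toMonoidHom u ∈ h63_fixU N := by
  intro τ hτ
  apply Units.ext
  have h := (u : fixedField N).2
  rw [IntermediateField.mem_fixedField_iff] at h
  exact h τ hτ

/-- Hilbert 90 for the step `E^N / K`. -/
theorem h73_h90_fixedField (p : ℕ) [Fact p.Prime] (N : Subgroup (E ≃ₐ[K] E)) [N.Normal]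
    (hN : N.index = p) (σ : E ≃ₐ[K] E) (hσ : σ ∉ N) (x : Eˣ) (hx : x ∈ h63_fixU N)
    (hnorm : h63_normPow σ p x = 1) : ∃ y ∈ h63_fixU N, x = (σ • y) / y := by
  have hxL := h73_coe_mem_fixedField N x hx
  have hcard := h73_card_gal_fixedField p N hN
  have hg1 := h73_restrict_ne_one N σ hσ
  have hord : orderOf (AlgEquiv.restrictNormalHom (fixedField N) σ) = p := by
    apply orderOf_eq_prime _ hg1
    rw [← hcard]
    exact pow_card_eq_one'
  have hprod : ∏ i ∈ Finset.range p,
      ((AlgEquiv.restrictNormalHom (fixedField N) σ) ^ i) (⟨x, hxL⟩ : fixedField N) = 1 := by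
    apply (algebraMap (fixedField N) E).injective
    rw [map_prod, map_one]
    have h := congrArg Units.val hnorm
    rw [h63_normPow_coe, Units.val_one] at h
    rw [← h]
    apply Finset.prod_congr rfl
    intro i _
    exact h73_restrict_pow_apply (fixedField N) σ i ⟨x, hxL⟩
  obtain ⟨β, hβ0, hβ⟩ := Fermat.Agent.S14.h10_h90_field p
    (AlgEquiv.restrictNormalHom (fixedField N) σ) hord (Fact.out : p.Prime).pos _ hprod
  have h1 : ((AlgEquiv.restrictNormalHom (fixedField N) σ β : fixedField N) : E)
      = σ (β : E) := AlgEquiv.restrictNormal_commutes σ (fixedField N) _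
  have hβE : (β : E) ≠ 0 := fun h => hβ0 (Subtype.ext h)
  have hσβ : σ (β : E) ≠ 0 := by
    rw [Ne, map_eq_zero]
    exact hβE
  have h2 : (x : E) * σ (β : E) = (β : E) := by
    rw [← h1]
    exact congrArg (fun z : fixedField N => (z : E)) hβ
  refine ⟨Units.map (algebraMap (fixedField N) E).toMonoidHom (Units.mk0 β hβ0)⁻¹,
    h73_map_mem_fixU N _, ?_⟩
  apply Units.ext
  rw [Units.val_div_eq_div_val]
  have h3 : ((σ • Units.map (algebraMap (fixedField N) E).toMonoidHom (Units.mk0 β hβ0)⁻¹ : Eˣ) : E)
      = σ ((β : E)⁻¹) := by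
    show σ (((((Units.mk0 β hβ0)⁻¹ : (fixedField N)ˣ) : fixedField N) : E)) = _
    rw [Units.val_inv_eq_inv_val]
    rfl
  have h4 : ((Units.map (algebraMap (fixedField N) E).toMonoidHom (Units.mk0 β hβ0)⁻¹ : Eˣ) : E)
      = (β : E)⁻¹ := by
    show (((((Units.mk0 β hβ0)⁻¹ : (fixedField N)ˣ) : fixedField N) : E)) = _
    rw [Units.val_inv_eq_inv_val]
    rfl
  rw [h3, h4, map_inv₀, inv_div_inv, eq_div_iff hσβ]
  exact h2

/-- norm index on fixed units for the step `E^N / K`. -/
theorem h73_index_fixedField (p : ℕ) [Fact p.Prime] (N : Subgroup (E ≃ₐ[K] E)) [N.Normal]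
    (hN : N.index = p) (σ : E ≃ₐ[K] E) (hσ : σ ∉ N) :
    ((h63_fixU N).map (h63_normPow σ p)).relIndex (h63_fixU (⊤ : Subgroup (E ≃ₐ[K] E)))
      = (Units.map (Algebra.norm K : fixedField N →* K)).range.index := by
  have hψ : Function.Injective (Units.map (algebraMap K E).toMonoidHom) :=
    Units.map_injective (algebraMap K E).injective
  have htop : (⊤ : Subgroup Kˣ).map (Units.map (algebraMap K E).toMonoidHom)
      = h63_fixU (⊤ : Subgroup (E ≃ₐ[K] E)) := by
    ext x
    constructor
    · rintro ⟨k, -, rfl⟩ τ -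
      apply Units.ext
      exact τ.commutes (k : K)
    · intro hx
      have h1 : (x : E) ∈ (⊥ : IntermediateField K E) := by
        rw [IsGalois.mem_bot_iff_fixed]
        intro f
        exact congrArg Units.val (hx f (Subgroup.mem_top f))
      obtain ⟨k, hk⟩ := IntermediateField.mem_bot.mp h1
      have hk0 : k ≠ 0 := by
        rintro rfl
        rw [map_zero] at hk
        exact x.ne_zero hk.symm
      exact ⟨Units.mk0 k hk0, Subgroup.mem_top _, Units.ext hk⟩
  have hR : (Units.map (Algebra.norm K : fixedField N →* K)).range.map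
      (Units.map (algebraMap K E).toMonoidHom) = (h63_fixU N).map (h63_normPow σ p) := by
    ext z
    constructor
    · rintro ⟨k, ⟨u, rfl⟩, rfl⟩
      refine ⟨Units.map (algebraMap (fixedField N) E).toMonoidHom u, h73_map_mem_fixU N u, ?_⟩
      apply Units.ext
      rw [h63_normPow_coe]
      exact (h73_norm_fixedField p N hN σ hσ (u : fixedField N)).symm
    · rintro ⟨x, hx, rfl⟩
      have hxL := h73_coe_mem_fixedField N x hx
      have hx0 : (⟨x, hxL⟩ : fixedField N) ≠ 0 := by
        intro h
        exact x.ne_zero (congrArg Subtype.val h)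
      refine ⟨Units.map (Algebra.norm K : fixedField N →* K) (Units.mk0 ⟨x, hxL⟩ hx0),
        ⟨_, rfl⟩, ?_⟩
      apply Units.ext
      rw [h63_normPow_coe]
      exact h73_norm_fixedField p N hN σ hσ ⟨x, hxL⟩
  rw [← htop, ← hR, Subgroup.relIndex_map_map_of_injective _ _ hψ, Subgroup.relIndex_top_right]

end Aux

section Main

variable {F E : Type*} [Field F] [Field E] [Algebra F E] [FiniteDimensional F E] [IsGalois F E]

/-- `Gal(E/K) → Gal(E/F)` for an intermediate field `K`. -/
noncomputable def h73_rho (K : IntermediateField F E) : (E ≃ₐ[K] E) →* (E ≃ₐ[F] E) :=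
  (K.fixingSubgroup.subtype).comp (IntermediateField.fixingSubgroupEquiv K).symm.toMonoidHom

omit [FiniteDimensional F E] [IsGalois F E] in
theorem h73_rho_apply (K : IntermediateField F E) (τ : E ≃ₐ[K] E) (x : E) :
    h73_rho K τ x = τ x := rfl

omit [FiniteDimensional F E] [IsGalois F E] in
theorem h73_rho_injective (K : IntermediateField F E) : Function.Injective (h73_rho K) := by
  intro a b hab
  apply AlgEquiv.ext
  intro x
  have := congrArg (fun f : E ≃ₐ[F] E => f x) hab
  exact this

omit [FiniteDimensional F E] [IsGalois F E] in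
theorem h73_rho_range (K : IntermediateField F E) : (h73_rho K).range = K.fixingSubgroup := by
  ext τ
  constructor
  · rintro ⟨n, rfl⟩
    exact ((IntermediateField.fixingSubgroupEquiv K).symm n).2
  · intro hτ
    exact ⟨IntermediateField.fixingSubgroupEquiv K ⟨τ, hτ⟩, rfl⟩

end Main

/-- **GAL-CYCSTEP** (row 234). Generic Galois step: `H2 ◁ H1 ≤ Gal(E/F)` of prime index `p`
gives `E^H2 / E^H1` cyclic Galois of degree `p`, with Hilbert 90 and the norm index
expressed on fixed units. -/
theorem h73_cycstep {F E : Type*} [Field F] [Field E] [Algebra F E] [FiniteDimensional F E]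
    [IsGalois F E] (p : ℕ) [Fact p.Prime]
    (H1 H2 : Subgroup (E ≃ₐ[F] E)) (h21 : H2 ≤ H1)
    (hnormal : ∀ σ ∈ H1, ∀ τ ∈ H2, σ * τ * σ⁻¹ ∈ H2) (hidx : H2.relIndex H1 = p)
    (σ : E ≃ₐ[F] E) (hσ1 : σ ∈ H1) (hσ2 : σ ∉ H2)
    (h12 : IntermediateField.fixedField H1 ≤ IntermediateField.fixedField H2) :
    IsGalois (IntermediateField.fixedField H1) (IntermediateField.extendScalars h12) ∧
    IsCyclic ((IntermediateField.extendScalars h12) ≃ₐ[IntermediateField.fixedField H1] (IntermediateField.extendScalars h12)) ∧
    Module.finrank (IntermediateField.fixedField H1) (IntermediateField.extendScalars h12) = p ∧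
    (∀ x ∈ h63_fixU H2, h63_normPow σ p x = 1 → ∃ y ∈ h63_fixU H2, x = (σ • y) / y) ∧
    ((h63_fixU H2).map (h63_normPow σ p)).relIndex (h63_fixU H1) = (Units.map (Algebra.norm (IntermediateField.fixedField H1) : (IntermediateField.extendScalars h12) →* (IntermediateField.fixedField H1))).range.index := by
  have hfix : (IntermediateField.fixedField H1).fixingSubgroup = H1 :=
    IntermediateField.fixingSubgroup_fixedField H1
  have hrange : (h73_rho (IntermediateField.fixedField H1)).range = H1 := by
    rw [h73_rho_range, hfix]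
  have hmemH1 : ∀ n, h73_rho (IntermediateField.fixedField H1) n ∈ H1 := by
    intro n
    have h : h73_rho (IntermediateField.fixedField H1) n ∈
        (h73_rho (IntermediateField.fixedField H1)).range := ⟨n, rfl⟩
    rwa [hrange] at h
  have hlift : ∀ τ ∈ H1, ∃ n, h73_rho (IntermediateField.fixedField H1) n = τ := by
    intro τ hτ
    have h : τ ∈ (h73_rho (IntermediateField.fixedField H1)).range := by
      rw [hrange]; exact hτ
    exact h
  -- the normal subgroup of `Gal(E/K1)`
  have hNnormal : (H2.comap (h73_rho (IntermediateField.fixedField H1))).Normal := by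
    refine ⟨fun n hn g => ?_⟩
    rw [Subgroup.mem_comap, map_mul, map_mul, map_inv]
    exact hnormal _ (hmemH1 g) _ hn
  have hNidx : (H2.comap (h73_rho (IntermediateField.fixedField H1))).index = p := by
    rw [Subgroup.index_comap, hrange, hidx]
  obtain ⟨σ', hσ'⟩ := hlift σ hσ1
  have hσ'N : σ' ∉ H2.comap (h73_rho (IntermediateField.fixedField H1)) := by
    rw [Subgroup.mem_comap, hσ']
    exact hσ2
  -- dictionary
  have hEq : IntermediateField.fixedField (H2.comap (h73_rho (IntermediateField.fixedField H1)))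
      = IntermediateField.extendScalars h12 := by
    ext x
    rw [IntermediateField.mem_fixedField_iff, IntermediateField.mem_extendScalars,
      IntermediateField.mem_fixedField_iff]
    constructor
    · intro h τ hτ
      obtain ⟨n, rfl⟩ := hlift τ (h21 hτ)
      exact h n hτ
    · intro h n hn
      exact h _ hn
  have hU2 : h63_fixU (H2.comap (h73_rho (IntermediateField.fixedField H1))) = h63_fixU H2 := by
    ext x
    constructor
    · intro h τ hτ
      obtain ⟨n, rfl⟩ := hlift τ (h21 hτ)
      exact h n hτ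
    · intro h n hn
      exact h _ hn
  have hU1 : h63_fixU (⊤ : Subgroup (E ≃ₐ[IntermediateField.fixedField H1] E)) = h63_fixU H1 := by
    ext x
    constructor
    · intro h τ hτ
      obtain ⟨n, rfl⟩ := hlift τ hτ
      exact h n (Subgroup.mem_top n)
    · intro h n _
      exact h _ (hmemH1 n)
  have hnp : h63_normPow σ' p = h63_normPow σ p := by
    ext x
    rw [h63_normPow_coe, h63_normPow_coe]
    apply Finset.prod_congr rfl
    intro i _
    rw [← hσ', ← map_pow]
    rfl
  have hsmul : ∀ y : Eˣ, σ' • y = σ • y := by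
    intro y
    apply Units.ext
    rw [← hσ']
    rfl
  have := hNnormal
  have key : ∀ L : IntermediateField (IntermediateField.fixedField H1) E,
      IntermediateField.fixedField (H2.comap (h73_rho (IntermediateField.fixedField H1))) = L →
      IsGalois (IntermediateField.fixedField H1) L ∧
      IsCyclic (L ≃ₐ[IntermediateField.fixedField H1] L) ∧
      Module.finrank (IntermediateField.fixedField H1) L = p ∧
      (∀ x ∈ h63_fixU H2, h63_normPow σ p x = 1 → ∃ y ∈ h63_fixU H2, x = (σ • y) / y) ∧
      ((h63_fixU H2).map (h63_normPow σ p)).relIndex (h63_fixU H1) =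
        (Units.map (Algebra.norm (IntermediateField.fixedField H1) :
          L →* (IntermediateField.fixedField H1))).range.index := by
    intro L hL
    subst hL
    have hcard := h73_card_gal_fixedField p
      (H2.comap (h73_rho (IntermediateField.fixedField H1))) hNidx
    refine ⟨inferInstance, isCyclic_of_prime_card hcard, ?_, ?_, ?_⟩
    · rw [← IsGalois.card_aut_eq_finrank]
      exact hcard
    · intro x hx hnorm
      rw [← hU2] at hx
      rw [← hnp] at hnorm
      obtain ⟨y, hy, hxy⟩ := h73_h90_fixedField p _ hNidx σ' hσ'N x hx hnorm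
      rw [hU2] at hy
      rw [hsmul] at hxy
      exact ⟨y, hy, hxy⟩
    · have h := h73_index_fixedField p _ hNidx σ' hσ'N
      rw [hU2, hU1, hnp] at h
      exact h
  exact key _ hEq

end Fermat.Agent.S55
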