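import Mathlib
import Fermat.Agent.S55.h25_GlobDefs
import Fermat.Agent.S55.h81_GlobDescX

/-!
# S55 GLOB, (UNR) second half: `h25_UnramOutside` in towers

For a tower of number fields `K ⊆ F ⊆ L` (types): if `L/K` is unramified outside `S` then so are
`L/F` (`h78_unram_top`) and `F/K` (`h78_unram_bot`).  (Ramification indices are multiplicative.)
-/

set_option autoImplicit false

open IsDedekindDomain NumberField

namespace Fermat.Agent.S55

section

variable (K F L : Type*) [Field K] [NumberField K] [Field F] [NumberField F] [Field L]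
  [NumberField L] [Algebra K F] [Algebra F L] [Algebra K L] [IsScalarTower K F L]
  (S : Finset Nat.Primes)

/-- `L/K` unramified outside `S` ⟹ `L/F` unramified outside `S`. -/
theorem h78_unram_top (hur : h25_UnramOutside K L S) : h25_UnramOutside F L S := by
  intro w
  have h := Ideal.ramificationIdx_tower (R := 𝓞 K) (w.1.asIdeal.under (𝓞 F)) w.1.asIdeal
  rw [hur w] at h
  exact Nat.eq_one_of_mul_eq_one_left h.symm

/-- `L/K` unramified outside `S` ⟹ `F/K` unramified outside `S`. -/
theorem h78_unram_bot (hur : h25_UnramOutside K L S) : h25_UnramOutside K F S := by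
  intro v
  obtain ⟨w, hw⟩ := h81_exists_underPl F L S v
  have h := Ideal.ramificationIdx_tower (R := 𝓞 K) (w.1.asIdeal.under (𝓞 F)) w.1.asIdeal
  rw [hur w] at h
  have h1 : (w.1.asIdeal.under (𝓞 F)).ramificationIdx (𝓞 K) = 1 :=
    Nat.eq_one_of_mul_eq_one_right h.symm
  have h2 : w.1.asIdeal.under (𝓞 F) = v.1.asIdeal := by
    have h3 := congrArg (fun x : h25_Pl F S => x.1.asIdeal) hw
    exact h3
  rw [← h2]
  exact h1

end

end Fermat.Agent.S55
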