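import Mathlib
import Fermat.Agent.S55.h25_GlobDefs
import Fermat.Agent.S55.h66_GlobFunc3
import Fermat.Agent.S55.h73_GalCycStep
import Fermat.Agent.S55.h78_GlobSecondOf
import Fermat.Agent.S55.h78_GlobUnr

/-!
# S55 GLOB-CF-CFA (row 339), core

Honest `(CFA1)`, `(CFA2)` of `h30_CFData` for `Gal(L/F)` acting on `h25_C L S` through
`h25_Cmap`, for subgroups `H₂ ◁ H₁` of index `p`, deduced from
* the class field axiom `sk_cfa` for cyclic layers of degree `p` (row 273),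
* Galois descent `C_K = C_L^{Gal(L/K)}` (row 270),
both taken as hypotheses quantified over all number fields of the universe of `L`.
-/

set_option autoImplicit false
set_option linter.unusedSectionVars false

open IsDedekindDomain NumberField IntermediateField

universe u

namespace Fermat.Agent.S55

/-- GLOB-DESC (C-level) for all Galois extensions unramified outside `S` (in universe `u`). -/
def h78_HypDesc (S : Finset Nat.Primes) : Prop :=
  ∀ (K M : Type u) [Field K] [NumberField K] [Field M] [NumberField M] [Algebra K M]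
    [IsGalois K M], h25_UnramOutside K M S →
    Function.Injective (h25_Cmap S (algebraMap K M)) ∧
    ∀ c : h25_C M S, (∀ σ : M ≃ₐ[K] M, h25_Cmap S (σ : M →+* M) c = c) ↔
      c ∈ (h25_Cmap S (algebraMap K M)).range

/-- GLOB-CFA (`sk_cfa`) for all cyclic layers of degree `p` unramified outside `S`. -/
def h78_HypCFA (S : Finset Nat.Primes) (p : ℕ) : Prop :=
  ∀ (K M : Type u) [Field K] [NumberField K] [Field M] [NumberField M] [Algebra K M]
    [IsGalois K M], Module.finrank K M = p → h25_UnramOutside K M S →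
    ∀ σ : M ≃ₐ[K] M, σ ≠ 1 →
      ((h25_Nm S σ p).range).relIndex (h25_Dm S σ).ker = p ∧
        (h25_Nm S σ p).ker ≤ (h25_Dm S σ).range

section GroupTheory

variable {G : Type*} [CommGroup G]

/-- In a commutative group, if `A` has prime relative index `p` in `B`, any `c₀ ∈ B \ A`
generates `B` modulo `A`. -/
theorem h78_exists_pow_mul_of_relIndex_prime (A B : Subgroup G) (p : ℕ) [Fact p.Prime]
    (h : A.relIndex B = p) (c₀ : G) (hc₀B : c₀ ∈ B) (hc₀A : c₀ ∉ A) (x : G) (hx : x ∈ B) :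
    ∃ (k : ℕ) (a : G), a ∈ A ∧ x = c₀ ^ k * a := by
  classical
  set A' : Subgroup B := A.subgroupOf B with hA'
  have hidx : A'.index = p := h
  have hcard : Nat.card (B ⧸ A') = p := hidx
  have hfin : Finite (B ⧸ A') := Nat.finite_of_card_ne_zero (by
    rw [hcard]; exact (Fact.out : p.Prime).ne_zero)
  set g : B ⧸ A' := QuotientGroup.mk (⟨c₀, hc₀B⟩ : B) with hg
  have hg1 : g ≠ 1 := by
    intro h1
    rw [hg, QuotientGroup.eq_one_iff, hA', Subgroup.mem_subgroupOf] at h1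
    exact hc₀A h1
  have htop : Subgroup.zpowers g = ⊤ := zpowers_eq_top_of_prime_card hcard hg1
  have hmem : (QuotientGroup.mk (⟨x, hx⟩ : B) : B ⧸ A') ∈ Subgroup.zpowers g := by
    rw [htop]; exact Subgroup.mem_top _
  rw [← mem_powers_iff_mem_zpowers] at hmem
  obtain ⟨k, hk⟩ := hmem
  refine ⟨k, (c₀ ^ k)⁻¹ * x, ?_, by group⟩
  have h2 : (QuotientGroup.mk ((⟨c₀, hc₀B⟩ : B) ^ k) : B ⧸ A') = QuotientGroup.mk (⟨x, hx⟩ : B) := by
    rw [QuotientGroup.mk_pow]; exact hk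
  rw [QuotientGroup.eq, hA', Subgroup.mem_subgroupOf] at h2
  simpa using h2

end GroupTheory

end Fermat.Agent.S55

namespace Fermat.Agent.S55

section Transport

variable {F : Type*} {L : Type u} [Field F] [NumberField F] [Field L] [NumberField L]
  [Algebra F L] [IsGalois F L] (S : Finset Nat.Primes)

/-- `ρ n` and `n` are the same ring homomorphism. -/
theorem h78_rho_coe (K : IntermediateField F L) (n : L ≃ₐ[K] L) :
    ((h73_rho K n : L ≃ₐ[F] L) : L →+* L) = ((n : L ≃ₐ[K] L) : L →+* L) := rfl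

theorem h78_rho_range_fixedField (H : Subgroup (L ≃ₐ[F] L)) :
    (h73_rho (fixedField H)).range = H := by
  rw [h73_rho_range, IntermediateField.fixingSubgroup_fixedField]

/-- invariance under a subgroup `H` of `Gal(L/F)` = invariance under `Gal(L/L^H)`. -/
theorem h78_fixed_iff (H : Subgroup (L ≃ₐ[F] L)) (c : h25_C L S) :
    (∀ h ∈ H, h25_Cmap S ((h : L ≃ₐ[F] L) : L →+* L) c = c) ↔
      (∀ τ : L ≃ₐ[fixedField H] L, h25_Cmap S (τ : L →+* L) c = c) := by
  constructor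
  · intro h τ
    have h1 : h73_rho (fixedField H) τ ∈ H :=
      (h78_rho_range_fixedField H).le ⟨τ, rfl⟩
    have h2 := h _ h1
    rwa [h78_rho_coe] at h2
  · intro h g hg
    have hg' : g ∈ (h73_rho (fixedField H)).range := (h78_rho_range_fixedField H).ge hg
    obtain ⟨τ, rfl⟩ := hg'
    rw [h78_rho_coe]
    exact h τ

end Transport

end Fermat.Agent.S55

namespace Fermat.Agent.S55

section Layer

variable {K L : Type u} [Field K] [NumberField K] [Field L] [NumberField L] [Algebra K L]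
  [IsGalois K L] (S : Finset Nat.Primes)

/-- **The class field axiom on `C_L` for a normal subgroup `N` of index `p` of `Gal(L/K)`**:
`(CFA1)` and `(CFA2)` for the pair `N ◁ Gal(L/K)`, from `sk_cfa` for the layer `L^N / K` and
Galois descent along `L / L^N`, `L / K`, `L^N / K`. -/
theorem h78_cfa_layer (p : ℕ) [Fact p.Prime] (hdesc : h78_HypDesc.{u} S)
    (hcfa : h78_HypCFA.{u} S p) (hur : h25_UnramOutside K L S)
    (N : Subgroup (L ≃ₐ[K] L)) [N.Normal] (hNidx : N.index = p)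
    (σ : L ≃ₐ[K] L) (hσ : σ ∉ N) :
    (∀ c : h25_C L S, (∀ n ∈ N, h25_Cmap S ((n : L ≃ₐ[K] L) : L →+* L) c = c) →
        ∏ i ∈ Finset.range p, h25_Cmap S ((σ ^ i : L ≃ₐ[K] L) : L →+* L) c = 1 →
        ∃ b : h25_C L S, (∀ n ∈ N, h25_Cmap S ((n : L ≃ₐ[K] L) : L →+* L) b = b) ∧
          h25_Cmap S (σ : L →+* L) b / b = c) ∧
    (∃ c₀ : h25_C L S, (∀ g : L ≃ₐ[K] L, h25_Cmap S (g : L →+* L) c₀ = c₀) ∧
      ∀ c : h25_C L S, (∀ g : L ≃ₐ[K] L, h25_Cmap S (g : L →+* L) c = c) →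
        ∃ (k : ℕ) (b : h25_C L S),
          (∀ n ∈ N, h25_Cmap S ((n : L ≃ₐ[K] L) : L →+* L) b = b) ∧
          c = c₀ ^ k * ∏ i ∈ Finset.range p, h25_Cmap S ((σ ^ i : L ≃ₐ[K] L) : L →+* L) b) := by
  classical
  set M : IntermediateField K L := fixedField N with hM
  have hurLM : h25_UnramOutside M L S := h78_unram_top K M L S hur
  have hurMK : h25_UnramOutside K M S := h78_unram_bot K M L S hur
  obtain ⟨hinjM, hdescM⟩ := hdesc M L hurLM
  obtain ⟨-, hdescK⟩ := hdesc K L hur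
  obtain ⟨-, hdescMK⟩ := hdesc K M hurMK
  have hcard : Nat.card (M ≃ₐ[K] M) = p := h73_card_gal_fixedField p N hNidx
  have hfin : Module.finrank K M = p := by rw [← hcard, IsGalois.card_aut_eq_finrank]
  set σM : M ≃ₐ[K] M := AlgEquiv.restrictNormalHom M σ with hσM
  have hσM1 : σM ≠ 1 := h73_restrict_ne_one N σ hσ
  have hgen : ∀ τ : M ≃ₐ[K] M, τ ∈ Subgroup.zpowers σM := by
    intro τ
    rw [zpowers_eq_top_of_prime_card hcard hσM1]
    exact Subgroup.mem_top τ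
  obtain ⟨hidxA, hker⟩ := hcfa K M hfin hurMK σM hσM1
  -- ring homomorphism identities
  have hcomp : ∀ i : ℕ, ((σ ^ i : L ≃ₐ[K] L) : L →+* L).comp (algebraMap M L) =
      (algebraMap M L).comp ((σM ^ i : M ≃ₐ[K] M) : M →+* M) := by
    intro i
    ext x
    exact (h73_restrict_pow_apply M σ i x).symm
  have hG4 : ∀ (i : ℕ) (c' : h25_C M S),
      h25_Cmap S ((σ ^ i : L ≃ₐ[K] L) : L →+* L) (h25_Cmap S (algebraMap M L) c') =
        h25_Cmap S (algebraMap M L) (h25_Cmap S ((σM ^ i : M ≃ₐ[K] M) : M →+* M) c') := by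
    intro i c'
    rw [← h66_Cmap_comp_apply, ← h66_Cmap_comp_apply, hcomp]
  have hG5 : ∀ c' : h25_C M S, h25_Cmap S (algebraMap M L) (h25_Nm S σM p c') =
      ∏ i ∈ Finset.range p,
        h25_Cmap S ((σ ^ i : L ≃ₐ[K] L) : L →+* L) (h25_Cmap S (algebraMap M L) c') := by
    intro c'
    show h25_Cmap S (algebraMap M L)
      (∏ i ∈ Finset.range p, h25_Cmap S ((σM ^ i : M ≃ₐ[K] M) : M →+* M) c') = _
    rw [map_prod]
    exact Finset.prod_congr rfl (fun i _ => (hG4 i c').symm)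
  have hG6 : ∀ c' : h25_C M S, h25_Cmap S (algebraMap M L) (h25_Dm S σM c') =
      h25_Cmap S (σ : L →+* L) (h25_Cmap S (algebraMap M L) c') /
        h25_Cmap S (algebraMap M L) c' := by
    intro c'
    show h25_Cmap S (algebraMap M L) (h25_Cmap S (σM : M →+* M) c' / c') = _
    rw [map_div]
    have h1 := hG4 1 c'
    rw [pow_one, pow_one] at h1
    rw [h1]
  have hG1 : ∀ c : h25_C L S, (∀ n ∈ N, h25_Cmap S ((n : L ≃ₐ[K] L) : L →+* L) c = c) ↔
      c ∈ (h25_Cmap S (algebraMap M L)).range :=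
    fun c => (h78_fixed_iff S N c).trans (hdescM c)
  have hG7 : (h25_Dm S σM).ker = (h25_Cmap S (algebraMap K M)).range :=
    h78_ker_Dm_eq_range S (fun c => h66_Cmap_id_apply S c)
      (fun g f c => h66_Cmap_comp_apply S g f c) hdescMK σM hgen
  have hG8 : ∀ c'' : h25_C K S,
      h25_Cmap S (algebraMap M L) (h25_Cmap S (algebraMap K M) c'') =
        h25_Cmap S (algebraMap K L) c'' := by
    intro c''
    rw [← h66_Cmap_comp_apply]
    rfl
  refine ⟨?_, ?_⟩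
  · intro c hc hNc
    obtain ⟨c', rfl⟩ := (hG1 c).mp hc
    have h1 : h25_Nm S σM p c' = 1 := by
      apply hinjM
      rw [hG5, hNc, map_one]
    obtain ⟨b', hb'⟩ := hker h1
    refine ⟨h25_Cmap S (algebraMap M L) b', (hG1 _).mpr ⟨b', rfl⟩, ?_⟩
    rw [← hG6, hb']
  · have hne : ¬ (h25_Dm S σM).ker ≤ (h25_Nm S σM p).range := by
      intro hle
      have h1 : ((h25_Nm S σM p).range).relIndex (h25_Dm S σM).ker = 1 :=
        Subgroup.relIndex_eq_one.mpr hle
      rw [hidxA] at h1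
      exact (Fact.out : p.Prime).ne_one h1
    obtain ⟨c₀', hc₀B, hc₀A⟩ := SetLike.not_le_iff_exists.mp hne
    have hc₀B' := hc₀B
    rw [hG7] at hc₀B'
    obtain ⟨c₀'', hc₀''⟩ := hc₀B'
    refine ⟨h25_Cmap S (algebraMap M L) c₀', ?_, ?_⟩
    · rw [hdescK, ← hc₀'', hG8]
      exact ⟨c₀'', rfl⟩
    · intro c hc
      obtain ⟨c'', rfl⟩ := (hdescK c).mp hc
      have hx : h25_Cmap S (algebraMap K M) c'' ∈ (h25_Dm S σM).ker := by
        rw [hG7]; exact ⟨c'', rfl⟩
      obtain ⟨k, a, ha, hxa⟩ := h78_exists_pow_mul_of_relIndex_prime _ _ p hidxA c₀' hc₀B hc₀A _ hx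
      obtain ⟨b', rfl⟩ := ha
      refine ⟨k, h25_Cmap S (algebraMap M L) b', (hG1 _).mpr ⟨b', rfl⟩, ?_⟩
      rw [← hG8, hxa, map_mul, map_pow, hG5]

end Layer

end Fermat.Agent.S55

namespace Fermat.Agent.S55

section Core

variable {F : Type*} {L : Type u} [Field F] [NumberField F] [Field L] [NumberField L]
  [Algebra F L] [IsGalois F L] (S : Finset Nat.Primes)

/-- **GLOB-CF-CFA, core form** (any base number field `F`; `sk_cfa` and descent as hypotheses). -/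
theorem h78_glob_cf_cfa_core (p : ℕ) [Fact p.Prime] (hdesc : h78_HypDesc.{u} S)
    (hcfa : h78_HypCFA.{u} S p) (hur : h25_UnramOutside F L S)
    (H₁ H₂ : Subgroup (L ≃ₐ[F] L)) (h21 : H₂ ≤ H₁)
    (hn : ∀ g ∈ H₁, ∀ h ∈ H₂, g * h * g⁻¹ ∈ H₂) (hidx : H₂.relIndex H₁ = p)
    (σ : L ≃ₐ[F] L) (hσ₁ : σ ∈ H₁) (hσ₂ : σ ∉ H₂) :
    (∀ c : h25_C L S, (∀ h ∈ H₂, h25_Cmap S ((h : L ≃ₐ[F] L) : L →+* L) c = c) →
        ∏ i ∈ Finset.range p, h25_Cmap S ((σ ^ i : L ≃ₐ[F] L) : L →+* L) c = 1 →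
        ∃ b : h25_C L S, (∀ h ∈ H₂, h25_Cmap S ((h : L ≃ₐ[F] L) : L →+* L) b = b) ∧
          h25_Cmap S (σ : L →+* L) b / b = c) ∧
    (∃ c₀ : h25_C L S, (∀ h ∈ H₁, h25_Cmap S ((h : L ≃ₐ[F] L) : L →+* L) c₀ = c₀) ∧
      ∀ c : h25_C L S, (∀ h ∈ H₁, h25_Cmap S ((h : L ≃ₐ[F] L) : L →+* L) c = c) →
        ∃ (k : ℕ) (b : h25_C L S),
          (∀ h ∈ H₂, h25_Cmap S ((h : L ≃ₐ[F] L) : L →+* L) b = b) ∧
          c = c₀ ^ k * ∏ i ∈ Finset.range p, h25_Cmap S ((σ ^ i : L ≃ₐ[F] L) : L →+* L) b) := by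
  classical
  have hrange : (h73_rho (fixedField H₁)).range = H₁ := h78_rho_range_fixedField H₁
  set N : Subgroup (L ≃ₐ[fixedField H₁] L) := H₂.comap (h73_rho (fixedField H₁)) with hN
  haveI hNn : N.Normal := ⟨fun n hn' g => by
    show h73_rho (fixedField H₁) (g * n * g⁻¹) ∈ H₂
    rw [map_mul, map_mul, map_inv]
    exact hn _ (hrange.le ⟨g, rfl⟩) _ hn'⟩
  have hNidx : N.index = p := by
    rw [hN, Subgroup.index_comap, hrange]
    exact hidx
  obtain ⟨σ', hσ'⟩ : ∃ σ' : L ≃ₐ[fixedField H₁] L, h73_rho (fixedField H₁) σ' = σ :=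
    hrange.ge hσ₁
  have hσ'N : σ' ∉ N := by
    intro h
    have h1 : h73_rho (fixedField H₁) σ' ∈ H₂ := h
    rw [hσ'] at h1
    exact hσ₂ h1
  have hurK : h25_UnramOutside (fixedField H₁) L S := h78_unram_top F (fixedField H₁) L S hur
  obtain ⟨hc1, c₀, hc₀, hc2⟩ := h78_cfa_layer S p hdesc hcfa hurK N hNidx σ' hσ'N
  -- dictionary
  have TN : ∀ c : h25_C L S, (∀ h ∈ H₂, h25_Cmap S ((h : L ≃ₐ[F] L) : L →+* L) c = c) ↔
      (∀ n ∈ N, h25_Cmap S ((n : L ≃ₐ[fixedField H₁] L) : L →+* L) c = c) := by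
    intro c
    constructor
    · intro h n hn'
      have h1 := h (h73_rho (fixedField H₁) n) hn'
      rwa [h78_rho_coe] at h1
    · intro h g hg
      obtain ⟨n, rfl⟩ : ∃ n : L ≃ₐ[fixedField H₁] L, h73_rho (fixedField H₁) n = g :=
        hrange.ge (h21 hg)
      rw [h78_rho_coe]
      exact h n hg
  have Tσ : ∀ (i : ℕ), ((σ ^ i : L ≃ₐ[F] L) : L →+* L) =
      ((σ' ^ i : L ≃ₐ[fixedField H₁] L) : L →+* L) := by
    intro i
    rw [← hσ', ← map_pow, h78_rho_coe]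
  have Tσ1 : (σ : L →+* L) = ((σ' : L ≃ₐ[fixedField H₁] L) : L →+* L) := by
    rw [← hσ', h78_rho_coe]
  refine ⟨?_, ?_⟩
  · intro c hc hNc
    have hNc' : ∏ i ∈ Finset.range p,
        h25_Cmap S ((σ' ^ i : L ≃ₐ[fixedField H₁] L) : L →+* L) c = 1 := by
      rw [← hNc]
      exact Finset.prod_congr rfl (fun i _ => by rw [Tσ i])
    obtain ⟨b, hb, hbc⟩ := hc1 c ((TN c).mp hc) hNc'
    refine ⟨b, (TN b).mpr hb, ?_⟩
    rw [Tσ1]
    exact hbc
  · refine ⟨c₀, (h78_fixed_iff S H₁ c₀).mpr hc₀, ?_⟩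
    intro c hc
    obtain ⟨k, b, hb, hcb⟩ := hc2 c ((h78_fixed_iff S H₁ c).mp hc)
    refine ⟨k, b, (TN b).mpr hb, ?_⟩
    rw [hcb]
    congr 1
    exact Finset.prod_congr rfl (fun i _ => by rw [Tσ i])

end Core

end Fermat.Agent.S55
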