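import Mathlib
import Fermat.Agent.S55.h78_GlobCFCFACore

/-!
# S55 GLOB-CF-CFA (row 339): statement of ruling #1353 (3), conditional on rows 270 + 273

`h78_glob_cf_cfa_of` is the row statement (base field `ℚ`) with the two inputs which are not
yet on main as explicit hypotheses:
* `hdesc : h78_HypDesc S`  = `sk_desc_injective` + `sk_desc_range` (row 270, GLOB-DESC, C-level),
* `hcfa : h78_HypCFA S p`  = `sk_cfa` (row 273, GLOB-CFA).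
The unconditional `h78_glob_cf_cfa` is the one-line instantiation.
-/

set_option autoImplicit false

open IsDedekindDomain NumberField

universe u

namespace Fermat.Agent.S55

/-- **GLOB-CF-CFA** (ruling #1353 (3)), modulo GLOB-DESC (C-level) and GLOB-CFA. -/
theorem h78_glob_cf_cfa_of (L : Type u) [Field L] [NumberField L] [IsGalois ℚ L]
    (S : Finset Nat.Primes) (p : ℕ) (hp : p.Prime)
    (hdesc : h78_HypDesc.{u} S) (hcfa : h78_HypCFA.{u} S p)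
    (hur : h25_UnramOutside ℚ L S)
    (H₁ H₂ : Subgroup (L ≃ₐ[ℚ] L)) (h21 : H₂ ≤ H₁)
    (hn : ∀ g ∈ H₁, ∀ h ∈ H₂, g * h * g⁻¹ ∈ H₂) (hidx : H₂.relIndex H₁ = p)
    (σ : L ≃ₐ[ℚ] L) (hσ₁ : σ ∈ H₁) (hσ₂ : σ ∉ H₂) :
    (∀ c : h25_C L S, (∀ h ∈ H₂, h25_Cmap S ((h : L ≃ₐ[ℚ] L) : L →+* L) c = c) →
        ∏ i ∈ Finset.range p, h25_Cmap S ((σ ^ i : L ≃ₐ[ℚ] L) : L →+* L) c = 1 →
        ∃ b : h25_C L S, (∀ h ∈ H₂, h25_Cmap S ((h : L ≃ₐ[ℚ] L) : L →+* L) b = b) ∧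
          h25_Cmap S (σ : L →+* L) b / b = c) ∧
    (∃ c₀ : h25_C L S, (∀ h ∈ H₁, h25_Cmap S ((h : L ≃ₐ[ℚ] L) : L →+* L) c₀ = c₀) ∧
      ∀ c : h25_C L S, (∀ h ∈ H₁, h25_Cmap S ((h : L ≃ₐ[ℚ] L) : L →+* L) c = c) →
        ∃ (k : ℕ) (b : h25_C L S),
          (∀ h ∈ H₂, h25_Cmap S ((h : L ≃ₐ[ℚ] L) : L →+* L) b = b) ∧
          c = c₀ ^ k * ∏ i ∈ Finset.range p, h25_Cmap S ((σ ^ i : L ≃ₐ[ℚ] L) : L →+* L) b) :=
  haveI : Fact p.Prime := ⟨hp⟩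
  h78_glob_cf_cfa_core S p hdesc hcfa hur H₁ H₂ h21 hn hidx σ hσ₁ hσ₂

end Fermat.Agent.S55
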