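import Mathlib
import Fermat.Agent.S55.h78_GlobCFCFA
import Fermat.Agent.S55.h10_GlobDescC

/-!
# S55 GLOB-CF-CFA (row 339): descent discharged, only `sk_cfa` (row 273) left as a hypothesis
-/

set_option autoImplicit false

open IsDedekindDomain NumberField

universe u

namespace Fermat.Agent.S55

/-- GLOB-DESC (C-level, helper10) in the packaged form `h78_HypDesc`. -/
theorem h78_hypDesc (S : Finset Nat.Primes) (hS : S.Nonempty) : h78_HypDesc.{u} S :=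
  fun K M _ _ _ _ _ _ hur =>
    ⟨h10_desc_injective K M S hS, fun c => h10_desc_range K M S hS hur c⟩

/-- **GLOB-CF-CFA** (ruling #1353 (3)), modulo GLOB-CFA (`sk_cfa`, row 273) only. -/
theorem h78_glob_cf_cfa_of_cfa (L : Type u) [Field L] [NumberField L] [IsGalois ℚ L]
    (S : Finset Nat.Primes) (hS : S.Nonempty) (p : ℕ) (hp : p.Prime)
    (hcfa : h78_HypCFA.{u} S p)
    (hur : h25_UnramOutside ℚ L S)
    (H₁ H₂ : Subgroup (L ≃ₐ[ℚ] L)) (h21 : H₂ ≤ H₁)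
    (hn : ∀ g ∈ H₁, ∀ h ∈ H₂, g * h * g⁻¹ ∈ H₂) (hidx : H₂.relIndex H₁ = p)
    (σ : L ≃ₐ[ℚ] L) (hσ₁ : σ ∈ H₁) (hσ₂ : σ ∉ H₂) :
    (∀ c : h25_C L S, (∀ h ∈ H₂, h25_Cmap S ((h : L ≃ₐ[ℚ] L) : L →+* L) c = c) →
        ∏ i ∈ Finset.range p, h25_Cmap S ((σ ^ i : L ≃ₐ[ℚ] L) : L →+* L) c = 1 →
        ∃ b : h25_C L S, (∀ h ∈ H₂, h25_Cmap S ((h : L ≃ₐ[ℚ] L) : L →+* L) b = b) ∧
          h25_Cmap S (σ : L →+* L) b / b = c) ∧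
    (∃ c₀ : h25_C L S, (∀ h ∈ H₁, h25_Cmap S ((h : L ≃ₐ[ℚ] L) : L →+* L) c₀ = c₀) ∧
      ∀ c : h25_C L S, (∀ h ∈ H₁, h25_Cmap S ((h : L ≃ₐ[ℚ] L) : L →+* L) c = c) →
        ∃ (k : ℕ) (b : h25_C L S),
          (∀ h ∈ H₂, h25_Cmap S ((h : L ≃ₐ[ℚ] L) : L →+* L) b = b) ∧
          c = c₀ ^ k * ∏ i ∈ Finset.range p, h25_Cmap S ((σ ^ i : L ≃ₐ[ℚ] L) : L →+* L) b) :=
  h78_glob_cf_cfa_of L S p hp (h78_hypDesc S hS) hcfa hur H₁ H₂ h21 hn hidx σ hσ₁ hσ₂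

end Fermat.Agent.S55
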