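import Mathlib

/-!
# S55, GLOB-CF assembly, row GLOB-CF-DEG (helper81): the degree map of a Galois number field
containing the `p^(n+1)`-th roots of unity

For an odd prime `p`, a number field `L` Galois over `ℚ` and a primitive `p^(n+1)`-th root of unity
`ζ ∈ L`, the cyclotomic character `χ : Gal(L/ℚ) → (ℤ/p^(n+1))ˣ` (`σ ζ = ζ^(χ σ)`) is surjective;
`χ^(p-1)` takes values in the cyclic group of order `p^n` generated by `1 + p`, which gives the
surjective degree map `deg : Gal(L/ℚ) → ℤ/p^n` with `χ(σ)^(p-1) = (1 + p)^(deg σ)`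
(`h81_glob_deg`).

* `h81_exists_deg` : the group-theoretic part, for any surjective character
  `χ : Γ →* (ZMod (p^(n+1)))ˣ`;
* `h81_autToPow_surjective` : surjectivity of the cyclotomic character of a normal extension of
  `ℚ` containing a primitive `N`-th root of unity;
* `h81_glob_deg` : the statement of the row.
-/

set_option autoImplicit false

namespace Fermat.Agent.S55

section Abstract

variable (p : ℕ) [Fact p.Prime]

theorem h81_card_units_zmod_pow (n : ℕ) :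
    Nat.card (ZMod (p ^ (n + 1)))ˣ = p ^ n * (p - 1) := by
  haveI : NeZero (p ^ (n + 1)) := ⟨pow_ne_zero _ (Fact.out : p.Prime).ne_zero⟩
  rw [Nat.card_eq_fintype_card, ZMod.card_units_eq_totient,
    Nat.totient_prime_pow_succ (Fact.out : p.Prime)]

omit [Fact p.Prime] in
theorem h81_coprime_one_add (n : ℕ) : Nat.Coprime (1 + p) (p ^ (n + 1)) := by
  apply Nat.Coprime.pow_right
  rw [Nat.coprime_add_self_left]
  exact Nat.coprime_one_left p

/-- The generator `1 + p` of the `p`-part of `(ℤ/p^(n+1))ˣ`. -/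
noncomputable def h81_gen (n : ℕ) : (ZMod (p ^ (n + 1)))ˣ :=
  ZMod.unitOfCoprime (1 + p) (h81_coprime_one_add p n)

omit [Fact p.Prime] in
theorem h81_gen_coe (n : ℕ) :
    ((h81_gen p n : (ZMod (p ^ (n + 1)))ˣ) : ZMod (p ^ (n + 1))) = 1 + (p : ZMod (p ^ (n + 1))) := by
  rw [h81_gen, ZMod.coe_unitOfCoprime]
  push_cast
  rfl

theorem h81_orderOf_gen (hp2 : p ≠ 2) (n : ℕ) : orderOf (h81_gen p n) = p ^ n := by
  rw [← orderOf_units, h81_gen_coe]
  exact ZMod.orderOf_one_add_prime Fact.out hp2 n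

omit [Fact p.Prime] in
/-- In a commutative group, an element of order prime to `d` is a `d`-th power. -/
theorem h81_mem_range_pow {G : Type*} [CommGroup G] (u : G) (d m : ℕ) (hcop : Nat.Coprime d m)
    (hu : u ^ m = 1) : u ∈ (powMonoidHom d : G →* G).range := by
  have h1 := Int.gcd_eq_gcd_ab (d : ℤ) (m : ℤ)
  have h2 : (Int.gcd (d : ℤ) (m : ℤ) : ℤ) = 1 := by
    have : Int.gcd (d : ℤ) (m : ℤ) = Nat.gcd d m := Int.gcd_natCast_natCast d m
    rw [this, hcop]
    rfl
  rw [h2] at h1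
  refine ⟨u ^ (Int.gcdA d m), ?_⟩
  change (u ^ (Int.gcdA d m)) ^ d = u
  have h3 : u = u ^ ((d : ℤ) * Int.gcdA d m + (m : ℤ) * Int.gcdB d m) := by
    rw [← h1, zpow_one]
  have h4 : u ^ ((m : ℤ) * Int.gcdB d m) = 1 := by
    rw [zpow_mul, zpow_natCast, hu, one_zpow]
  rw [zpow_add, h4, mul_one, mul_comm, zpow_mul, zpow_natCast] at h3
  exact h3.symm

variable {Γ : Type*} [Group Γ]

/-- **The degree map attached to a surjective character** `χ : Γ → (ℤ/p^(n+1))ˣ`, `p` odd: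
a surjective `deg : Γ → ℤ/p^n` with `χ(σ)^(p-1) = (1 + p)^(deg σ)`. -/
theorem h81_exists_deg (hp2 : p ≠ 2) (n : ℕ) (χ : Γ →* (ZMod (p ^ (n + 1)))ˣ)
    (hχ : Function.Surjective χ) :
    ∃ deg : Γ →* Multiplicative (ZMod (p ^ n)), Function.Surjective deg ∧
      ∀ σ : Γ, χ σ ^ (p - 1) = h81_gen p n ^ (Multiplicative.toAdd (deg σ)).val := by
  haveI : NeZero (p ^ (n + 1)) := ⟨pow_ne_zero _ (Fact.out : p.Prime).ne_zero⟩
  haveI : NeZero (p ^ n) := ⟨pow_ne_zero _ (Fact.out : p.Prime).ne_zero⟩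
  let ψ : Γ →* (ZMod (p ^ (n + 1)))ˣ := (powMonoidHom (p - 1)).comp χ
  have hrange : ψ.range = (powMonoidHom (p - 1) : (ZMod (p ^ (n + 1)))ˣ →* _).range := by
    show ((powMonoidHom (p - 1)).comp χ).range = _
    rw [MonoidHom.range_comp, MonoidHom.range_eq_top.mpr hχ, ← MonoidHom.range_eq_map]
  have hcard : Nat.card ψ.range = p ^ n := by
    have hcyc : IsCyclic (ZMod (p ^ (n + 1)))ˣ :=
      ZMod.isCyclic_units_of_prime_pow p Fact.out hp2 (n + 1)
    rw [hrange, IsCyclic.card_powMonoidHom_range, h81_card_units_zmod_pow]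
    have hpos : 0 < p - 1 := Nat.sub_pos_of_lt (Fact.out : p.Prime).one_lt
    rw [Nat.gcd_eq_right (Dvd.intro_left _ rfl), Nat.mul_div_cancel _ hpos]
  have hgen : h81_gen p n ∈ ψ.range := by
    rw [hrange]
    apply h81_mem_range_pow (h81_gen p n) (p - 1) (p ^ n)
    · apply Nat.Coprime.pow_right
      have h1 : Nat.Coprime p (p - 1) := by
        have := Nat.coprime_self_sub_right (m := 1) (n := p) (Fact.out : p.Prime).one_lt.le
        rw [this]
        exact Nat.coprime_one_right p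
      exact h1.symm
    · rw [← h81_orderOf_gen p hp2 n]
      exact pow_orderOf_eq_one _
  let gR : ψ.range := ⟨h81_gen p n, hgen⟩
  have hgenerates : ∀ x : ψ.range, x ∈ Subgroup.zpowers gR := by
    intro x
    have hfin : Finite ψ.range := Nat.finite_of_card_ne_zero (by
      rw [hcard]
      exact pow_ne_zero _ (Fact.out : p.Prime).ne_zero)
    have h1 : Nat.card (Subgroup.zpowers gR) = Nat.card ψ.range := by
      rw [Nat.card_zpowers, hcard]
      have : orderOf gR = orderOf (h81_gen p n) := (Subgroup.orderOf_coe gR).symm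
      rw [this, h81_orderOf_gen p hp2]
    have h2 := Subgroup.eq_top_of_card_eq _ h1
    rw [h2]
    exact Subgroup.mem_top x
  let e : Multiplicative (ZMod (p ^ n)) ≃* ψ.range := zmodMulEquivOfGenerator hgenerates hcard
  refine ⟨e.symm.toMonoidHom.comp ψ.rangeRestrict,
    e.symm.surjective.comp ψ.rangeRestrict_surjective, ?_⟩
  intro σ
  have h1 : e (e.symm.toMonoidHom.comp ψ.rangeRestrict σ) = ψ.rangeRestrict σ := by
    rw [MonoidHom.comp_apply]
    exact e.apply_symm_apply _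
  set d := e.symm.toMonoidHom.comp ψ.rangeRestrict σ with hd
  set k := Multiplicative.toAdd d with hk
  have h2 : d = Multiplicative.ofAdd (((k.val : ℤ)) : ZMod (p ^ n)) := by
    rw [Int.cast_natCast, ZMod.natCast_zmod_val]
    rfl
  rw [h2] at h1
  have h1' : gR ^ ((k.val : ℕ) : ℤ) = ψ.rangeRestrict σ := by
    rw [← h1]
    exact (zmodMulEquivOfGenerator_apply_ofAdd_intCast hgenerates hcard _).symm
  have h3 := congrArg Subtype.val h1'
  rw [zpow_natCast] at h3
  exact h3.symm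

end Abstract

section Cyclotomic

/-- The cyclotomic character of a normal extension of `ℚ` containing a primitive `N`-th root of
unity is surjective (irreducibility of the cyclotomic polynomial). -/
theorem h81_autToPow_surjective {L : Type*} [Field L] [CharZero L] [Normal ℚ L] {N : ℕ} [NeZero N]
    {ζ : L} (hζ : IsPrimitiveRoot ζ N) : Function.Surjective (hζ.autToPow ℚ) := by
  intro u
  have hN : 0 < N := NeZero.pos N
  have hζ' : IsPrimitiveRoot (ζ ^ (u : ZMod N).val) N :=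
    hζ.pow_of_coprime _ (ZMod.val_coe_unit_coprime u)
  have hmin : minpoly ℚ (ζ ^ (u : ZMod N).val) = minpoly ℚ ζ := by
    rw [← Polynomial.cyclotomic_eq_minpoly_rat hζ' hN, ← Polynomial.cyclotomic_eq_minpoly_rat hζ hN]
  obtain ⟨σ, hσ⟩ := (Normal.minpoly_eq_iff_mem_orbit (F := ℚ) (E := L)).1 hmin
  refine ⟨σ, Units.ext ?_⟩
  have h1 := hζ.autToPow_spec ℚ σ
  have h2 : ζ ^ ((hζ.autToPow ℚ σ : (ZMod N)ˣ) : ZMod N).val = ζ ^ (u : ZMod N).val := by
    rw [h1]
    exact hσ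
  have h3 := hζ.pow_inj (ZMod.val_lt _) (ZMod.val_lt _) h2
  exact ZMod.val_injective N h3

/-- If `σ ζ = ζ ^ t`, the cyclotomic character of `σ` is `t`. -/
theorem h81_autToPow_eq {L : Type*} [Field L] [CharZero L] {N : ℕ} [NeZero N]
    {ζ : L} (hζ : IsPrimitiveRoot ζ N) (σ : L ≃ₐ[ℚ] L) (t : ℕ) (h : σ ζ = ζ ^ t) :
    ((hζ.autToPow ℚ σ : (ZMod N)ˣ) : ZMod N) = (t : ZMod N) := by
  have h1 := hζ.autToPow_spec ℚ σ
  rw [h] at h1
  have h2 : ζ ^ (t % N) = ζ ^ ((hζ.autToPow ℚ σ : (ZMod N)ˣ) : ZMod N).val := by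
    rw [h1, ← pow_eq_pow_mod _ hζ.pow_eq_one]
  have h3 := hζ.pow_inj (Nat.mod_lt _ (NeZero.pos N)) (ZMod.val_lt _) h2
  rw [← ZMod.natCast_zmod_val ((hζ.autToPow ℚ σ : (ZMod N)ˣ) : ZMod N), ← h3, ZMod.natCast_mod]

/-- **Row GLOB-CF-DEG**: the degree map of a Galois number field containing `ζ_{p^(n+1)}`. -/
theorem h81_glob_deg (p : ℕ) [Fact p.Prime] (hp2 : p ≠ 2) (L : Type*) [Field L] [NumberField L]
    [IsGalois ℚ L] (n : ℕ) (ζ : L) (hζ : IsPrimitiveRoot ζ (p ^ (n + 1))) :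
    ∃ deg : (L ≃ₐ[ℚ] L) →* Multiplicative (ZMod (p ^ n)), Function.Surjective deg ∧
      ∀ (σ : L ≃ₐ[ℚ] L) (t : ℕ), σ ζ = ζ ^ t →
        (t : ZMod (p ^ (n + 1))) ^ (p - 1) =
          (1 + (p : ZMod (p ^ (n + 1)))) ^ (Multiplicative.toAdd (deg σ)).val := by
  haveI : NeZero (p ^ (n + 1)) := ⟨pow_ne_zero _ (Fact.out : p.Prime).ne_zero⟩
  obtain ⟨deg, hsurj, hdeg⟩ := h81_exists_deg p hp2 n (hζ.autToPow ℚ) (h81_autToPow_surjective hζ)
  refine ⟨deg, hsurj, ?_⟩
  intro σ t ht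
  have h1 := congrArg (fun u : (ZMod (p ^ (n + 1)))ˣ => (u : ZMod (p ^ (n + 1)))) (hdeg σ)
  simp only [Units.val_pow_eq_pow_val, h81_gen_coe] at h1
  rw [← h81_autToPow_eq hζ σ t ht]
  exact h1

end Cyclotomic

end Fermat.Agent.S55
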