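import Mathlib

/-!
# S55 / CYC-GAL (helper84): a cyclotomic extension of a finite Galois extension is finite Galois

For `L / F` finite Galois in characteristic zero, `CyclotomicField m L = L(μ_m)` is finite Galois
over `F` (used for `E = L(μ_m)` in LOC-7).
-/

set_option autoImplicit false

namespace Fermat.Agent.S55

open Polynomial

theorem h84_cyclotomic_isGalois (F L : Type*) [Field F] [Field L] [Algebra F L] [CharZero F]
    [FiniteDimensional F L] [IsGalois F L] (m : ℕ) [NeZero m] :
    FiniteDimensional F (CyclotomicField m L) ∧ IsGalois F (CyclotomicField m L) := by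
  have hL0 : CharZero L := charZero_of_injective_algebraMap (algebraMap F L).injective
  have hm : NeZero ((m : ℕ) : L) := NeZero.charZero
  have hcyc : IsCyclotomicExtension {m} L (CyclotomicField m L) := inferInstance
  have hfinL : FiniteDimensional L (CyclotomicField m L) :=
    IsCyclotomicExtension.finiteDimensional {m} L _
  have hfin : FiniteDimensional F (CyclotomicField m L) := FiniteDimensional.trans F L _
  refine ⟨hfin, ?_⟩
  -- `L` is the splitting field over `F` of a nonzero polynomial
  obtain ⟨f, hf0, hf⟩ : ∃ f : F[X], f ≠ 0 ∧ IsSplittingField F L f := by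
    obtain ⟨f, hf⟩ := Normal.exists_isSplittingField F L
    by_cases h0 : f = 0
    · subst h0
      refine ⟨1, one_ne_zero, ⟨?_, ?_⟩⟩
      · simp
      · have h1 := hf.adjoin_rootSet
        simpa using h1
    · exact ⟨f, h0, hf⟩
  have hg0 : (X ^ m - 1 : F[X]) ≠ 0 := X_pow_sub_C_ne_zero (NeZero.pos m) (1 : F)
  have hmap : (X ^ m - 1 : F[X]).map (algebraMap F L) = X ^ m - 1 := by simp
  have hg : IsSplittingField L (CyclotomicField m L) ((X ^ m - 1 : F[X]).map (algebraMap F L)) := by
    rw [hmap]
    exact IsCyclotomicExtension.isSplittingField_X_pow_sub_one m L (CyclotomicField m L)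
  have hsplit : IsSplittingField F (CyclotomicField m L) (f * (X ^ m - 1)) :=
    IsSplittingField.mul (F := F) (K := L) (L := CyclotomicField m L) f (X ^ m - 1) hf0 hg0
  have hnormal : Normal F (CyclotomicField m L) := Normal.of_isSplittingField (f * (X ^ m - 1))
  exact isGalois_iff.mpr ⟨inferInstance, hnormal⟩

end Fermat.Agent.S55
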