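import Fermat.Agent.S55.h25_GlobDefs

/-!
# S55, GLOB-VAL cores: the finite product formula for number fields

For `x ∈ Kˣ`, with `c_v(x) = FractionalIdeal.count K v (spanSingleton x)` (the order of `x` at
the prime `v`, `= h25_div K S x v` on primes not above `S`):

* `h10_abs_norm_eq_finprod` : `|N_{K/ℚ} x| = ∏ᶠ v, N(v) ^ c_v(x)`;
* `h10_padicValRat_norm` : `ord_l (N_{K/ℚ} x) = ∑ᶠ v, c_v(x) * ord_l (N v)`
  (`ord_l (N v) = 0` unless `v ∣ l`: `h10_padicValNat_absNorm_eq_zero`; `N v = l ^ f` if `v ∣ l`: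
  `h10_absNorm_eq_pow`);
* `h10_norm_split` : `|N x| = (∏_{q ∈ S} q ^ ord_q (N x)) * ∏ᶠ_{v ∤ S} N(v) ^ (h25_div K S x v)`;
* `h10_prod_emb_eq_norm` : `∏_j j x = N_{K/ℚ} x` over the embeddings into an algebraically closed
  field.
-/

set_option autoImplicit false
set_option linter.unusedSectionVars false

open IsDedekindDomain NumberField
open scoped nonZeroDivisors

namespace Fermat.Agent.S55

section Aux

/-- `padicValRat` of a finite product of nonzero rationals. -/
theorem h10_padicValRat_prod (l : ℕ) [Fact l.Prime] {ι : Type*} (s : Finset ι) (g : ι → ℚ)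
    (hg : ∀ i ∈ s, g i ≠ 0) :
    padicValRat l (∏ i ∈ s, g i) = ∑ i ∈ s, padicValRat l (g i) := by
  classical
  induction s using Finset.induction_on with
  | empty => simp
  | insert a s ha ih =>
    rw [Finset.prod_insert ha, Finset.sum_insert ha,
      padicValRat.mul (hg a (Finset.mem_insert_self a s))
        (Finset.prod_ne_zero_iff.mpr fun i hi => hg i (Finset.mem_insert_of_mem hi)),
      ih (fun i hi => hg i (Finset.mem_insert_of_mem hi))]

/-- `a ^ (∑ n i) = ∏ a ^ n i` for integer exponents. -/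
theorem h10_zpow_sum (a : ℚ) (ha : a ≠ 0) {ι : Type*} (s : Finset ι) (n : ι → ℤ) :
    a ^ (∑ i ∈ s, n i) = ∏ i ∈ s, a ^ n i := by
  classical
  induction s using Finset.induction_on with
  | empty => simp
  | insert b s hb ih =>
    rw [Finset.prod_insert hb, Finset.sum_insert hb, zpow_add₀ ha, ih]

end Aux

section PF

variable (K : Type*) [Field K] [NumberField K]

theorem h10_count_finite (x : Kˣ) :
    {v : HeightOneSpectrum (𝓞 K) |
      FractionalIdeal.count K v (FractionalIdeal.spanSingleton (𝓞 K)⁰ (x : K)) ≠ 0}.Finite :=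
  Filter.eventually_cofinite.mp (FractionalIdeal.finite_factors _)

theorem h10_absNorm_ne_zero (v : HeightOneSpectrum (𝓞 K)) :
    (Ideal.absNorm v.asIdeal : ℚ) ≠ 0 := by
  rw [Nat.cast_ne_zero, Ne, Ideal.absNorm_eq_zero_iff]
  exact v.ne_bot

/-- **Product formula, finite part**: `|N_{K/ℚ} x| = ∏_v N(v)^{ord_v x}`. -/
theorem h10_abs_norm_eq_finprod (x : Kˣ) :
    |Algebra.norm ℚ (x : K)| = ∏ᶠ v : HeightOneSpectrum (𝓞 K),
      (Ideal.absNorm v.asIdeal : ℚ)
        ^ FractionalIdeal.count K v (FractionalIdeal.spanSingleton (𝓞 K)⁰ (x : K)) := by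
  set I := FractionalIdeal.spanSingleton (𝓞 K)⁰ (x : K) with hI
  have hI0 : I ≠ 0 := FractionalIdeal.spanSingleton_ne_zero_iff.mpr x.ne_zero
  have h1 := FractionalIdeal.finprod_heightOneSpectrum_factorization' (K := K) hI0
  have hfin : (Function.mulSupport fun v : HeightOneSpectrum (𝓞 K) =>
      (v.asIdeal : FractionalIdeal (𝓞 K)⁰ K) ^ FractionalIdeal.count K v I).Finite := by
    apply Set.Finite.subset (Filter.eventually_cofinite.mp (FractionalIdeal.finite_factors I))
    intro v hv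
    rw [Function.mem_mulSupport] at hv
    intro h0
    apply hv
    rw [h0, zpow_zero]
  have h2 := MonoidHom.map_finprod
    (FractionalIdeal.absNorm (K := K) (R := 𝓞 K)).toMonoidHom hfin
  rw [h1] at h2
  have h3 : FractionalIdeal.absNorm I = |Algebra.norm ℚ (x : K)| :=
    FractionalIdeal.absNorm_span_singleton (R := 𝓞 K) (x : K)
  rw [← h3]
  refine h2.trans (finprod_congr fun v => ?_)
  change FractionalIdeal.absNorm ((v.asIdeal : FractionalIdeal (𝓞 K)⁰ K)
    ^ FractionalIdeal.count K v I) = _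
  rw [map_zpow₀, FractionalIdeal.coeIdeal_absNorm]

/-- Finset form of the product formula, over any finite set containing the support. -/
theorem h10_abs_norm_eq_prod (x : Kˣ) (T : Finset (HeightOneSpectrum (𝓞 K)))
    (hT : ∀ v, FractionalIdeal.count K v (FractionalIdeal.spanSingleton (𝓞 K)⁰ (x : K)) ≠ 0 →
      v ∈ T) :
    |Algebra.norm ℚ (x : K)| = ∏ v ∈ T, (Ideal.absNorm v.asIdeal : ℚ)
        ^ FractionalIdeal.count K v (FractionalIdeal.spanSingleton (𝓞 K)⁰ (x : K)) := by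
  rw [h10_abs_norm_eq_finprod]
  apply finprod_eq_prod_of_mulSupport_subset
  intro v hv
  rw [Function.mem_mulSupport] at hv
  apply hT
  intro h0
  apply hv
  rw [h0, zpow_zero]

/-- `ord_l (N x) = ∑_v ord_v(x) * ord_l (N v)`, Finset form. -/
theorem h10_padicValRat_norm_sum (l : ℕ) [Fact l.Prime] (x : Kˣ)
    (T : Finset (HeightOneSpectrum (𝓞 K)))
    (hT : ∀ v, FractionalIdeal.count K v (FractionalIdeal.spanSingleton (𝓞 K)⁰ (x : K)) ≠ 0 →
      v ∈ T) :
    padicValRat l (Algebra.norm ℚ (x : K)) = ∑ v ∈ T,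
      FractionalIdeal.count K v (FractionalIdeal.spanSingleton (𝓞 K)⁰ (x : K))
        * (padicValNat l (Ideal.absNorm v.asIdeal) : ℤ) := by
  have h1 : padicValRat l (Algebra.norm ℚ (x : K))
      = padicValRat l |Algebra.norm ℚ (x : K)| := by
    rcases abs_choice (Algebra.norm ℚ (x : K)) with h | h <;> rw [h]
    rw [padicValRat.neg]
  rw [h1, h10_abs_norm_eq_prod K x T hT, h10_padicValRat_prod]
  · apply Finset.sum_congr rfl
    intro v _
    rw [padicValRat.zpow, padicValRat.of_nat]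
  · intro v _
    exact zpow_ne_zero _ (h10_absNorm_ne_zero K v)

/-- **`ord_l (N_{K/ℚ} x) = ∑_v ord_v(x) * ord_l (N v)`**. -/
theorem h10_padicValRat_norm (l : ℕ) [Fact l.Prime] (x : Kˣ) :
    padicValRat l (Algebra.norm ℚ (x : K)) = ∑ᶠ v : HeightOneSpectrum (𝓞 K),
      FractionalIdeal.count K v (FractionalIdeal.spanSingleton (𝓞 K)⁰ (x : K))
        * (padicValNat l (Ideal.absNorm v.asIdeal) : ℤ) := by
  rw [h10_padicValRat_norm_sum K l x (h10_count_finite K x).toFinset (by simp)]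
  symm
  apply finsum_eq_sum_of_support_subset
  intro v hv
  rw [Function.mem_support] at hv
  rw [Set.Finite.coe_toFinset, Set.mem_ofPred_eq]
  intro h0
  apply hv
  rw [h0, zero_mul]

/-- A prime containing the rational prime `l` lies over `l`. -/
theorem h10_liesOver_of_natCast_mem (l : ℕ) [Fact l.Prime] (v : HeightOneSpectrum (𝓞 K))
    (hv : ((l : ℕ) : 𝓞 K) ∈ v.asIdeal) : v.asIdeal.LiesOver (Ideal.span {(l : ℤ)}) := by
  have hmax : (Ideal.span {(l : ℤ)}).IsMaximal := Int.ideal_span_isMaximal_of_prime l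
  have := v.isPrime
  refine ⟨hmax.eq_of_le (Ideal.IsPrime.under ℤ v.asIdeal).ne_top ?_⟩
  rw [Ideal.span_singleton_le_iff_mem, Ideal.under_def, Ideal.mem_comap]
  simpa using hv

/-- The norm of a prime above `l` is a positive power of `l`. -/
theorem h10_absNorm_eq_pow (l : ℕ) [Fact l.Prime] (v : HeightOneSpectrum (𝓞 K))
    (hv : ((l : ℕ) : 𝓞 K) ∈ v.asIdeal) :
    ∃ f : ℕ, 0 < f ∧ Ideal.absNorm v.asIdeal = l ^ f := by
  have := h10_liesOver_of_natCast_mem K l v hv
  have := v.isPrime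
  have h1 := Ideal.absNorm_eq_pow_inertiaDeg' v.asIdeal (Fact.out : l.Prime)
  refine ⟨_, ?_, h1⟩
  rw [Nat.pos_iff_ne_zero]
  intro h0
  rw [h0, pow_zero, Ideal.absNorm_eq_one_iff] at h1
  exact v.isPrime.ne_top h1

/-- Two distinct rational primes cannot lie in the same prime ideal. -/
theorem h10_not_two_primes (v : HeightOneSpectrum (𝓞 K)) {l l' : ℕ} (hl : l.Prime)
    (hl' : l'.Prime) (hne : l ≠ l') (h : ((l : ℕ) : 𝓞 K) ∈ v.asIdeal)
    (h' : ((l' : ℕ) : 𝓞 K) ∈ v.asIdeal) : False := by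
  have hcop : IsCoprime (l : ℤ) (l' : ℤ) :=
    Nat.isCoprime_iff_coprime.mpr ((Nat.coprime_primes hl hl').mpr hne)
  obtain ⟨a, b, hab⟩ := hcop
  have h1 : ((a : ℤ) : 𝓞 K) * ((l : ℕ) : 𝓞 K) + ((b : ℤ) : 𝓞 K) * ((l' : ℕ) : 𝓞 K) = 1 := by
    have := congrArg (fun z : ℤ => (z : 𝓞 K)) hab
    simpa using this
  have h2 : (1 : 𝓞 K) ∈ v.asIdeal := by
    rw [← h1]
    exact v.asIdeal.add_mem (v.asIdeal.mul_mem_left _ h) (v.asIdeal.mul_mem_left _ h')
  exact v.isPrime.ne_top ((Ideal.eq_top_iff_one _).mpr h2)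

/-- Every prime of `K` contains a rational prime. -/
theorem h10_exists_prime_mem (v : HeightOneSpectrum (𝓞 K)) :
    ∃ l : ℕ, l.Prime ∧ ((l : ℕ) : 𝓞 K) ∈ v.asIdeal := by
  have := v.isPrime
  have hprime : (v.asIdeal.under ℤ).IsPrime := inferInstance
  have hne : v.asIdeal.under ℤ ≠ ⊥ := Ideal.under_ne_bot ℤ v.ne_bot
  obtain ⟨g, hg⟩ : ∃ g : ℤ, v.asIdeal.under ℤ = Ideal.span {g} :=
    ⟨_, (Submodule.IsPrincipal.span_singleton_generator (v.asIdeal.under ℤ)).symm⟩
  have hg0 : g ≠ 0 := by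
    rintro rfl
    apply hne
    rw [hg]; simp
  have hgp : Prime g := by
    rw [hg] at hprime
    exact (Ideal.span_singleton_prime hg0).1 hprime
  refine ⟨g.natAbs, Int.prime_iff_natAbs_prime.1 hgp, ?_⟩
  have h1 : ((g.natAbs : ℕ) : ℤ) ∈ v.asIdeal.under ℤ := by
    rw [hg, Ideal.mem_span_singleton]
    exact Int.dvd_natAbs_self
  have h2 := Ideal.mem_comap.1 h1
  simpa using h2

/-- If `l` divides the norm of `v` then `v` lies above `l`. -/
theorem h10_natCast_mem_of_dvd_absNorm (l : ℕ) [Fact l.Prime] (v : HeightOneSpectrum (𝓞 K))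
    (h : l ∣ Ideal.absNorm v.asIdeal) : ((l : ℕ) : 𝓞 K) ∈ v.asIdeal := by
  obtain ⟨l', hl', hmem⟩ := h10_exists_prime_mem K v
  have : Fact l'.Prime := ⟨hl'⟩
  obtain ⟨f, -, hf⟩ := h10_absNorm_eq_pow K l' v hmem
  rw [hf] at h
  have : l = l' := (Nat.prime_dvd_prime_iff_eq (Fact.out : l.Prime) hl').1
    ((Fact.out : l.Prime).dvd_of_dvd_pow h)
  rw [this]
  exact hmem

theorem h10_padicValNat_absNorm_eq_zero (l : ℕ) [Fact l.Prime] (v : HeightOneSpectrum (𝓞 K))
    (hv : ((l : ℕ) : 𝓞 K) ∉ v.asIdeal) : padicValNat l (Ideal.absNorm v.asIdeal) = 0 :=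
  padicValNat.eq_zero_of_not_dvd (fun h => hv (h10_natCast_mem_of_dvd_absNorm K l v h))

open Classical in
/-- The part of the product formula above one rational prime:
`∏_{v ∣ l} N(v)^{ord_v x} = l ^ ord_l (N x)`. -/
theorem h10_prod_above_eq (l : ℕ) [Fact l.Prime] (x : Kˣ)
    (T : Finset (HeightOneSpectrum (𝓞 K)))
    (hT : ∀ v, FractionalIdeal.count K v (FractionalIdeal.spanSingleton (𝓞 K)⁰ (x : K)) ≠ 0 →
      v ∈ T) :
    ∏ v ∈ T.filter (fun v => ((l : ℕ) : 𝓞 K) ∈ v.asIdeal), (Ideal.absNorm v.asIdeal : ℚ)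
        ^ FractionalIdeal.count K v (FractionalIdeal.spanSingleton (𝓞 K)⁰ (x : K))
      = (l : ℚ) ^ padicValRat l (Algebra.norm ℚ (x : K)) := by
  have hl0 : (l : ℚ) ≠ 0 := Nat.cast_ne_zero.mpr (Fact.out : l.Prime).ne_zero
  rw [h10_padicValRat_norm_sum K l x T hT,
    ← Finset.sum_filter_add_sum_filter_not T (fun v => ((l : ℕ) : 𝓞 K) ∈ v.asIdeal)]
  have hzero : ∑ v ∈ T.filter (fun v => ¬ ((l : ℕ) : 𝓞 K) ∈ v.asIdeal),
      FractionalIdeal.count K v (FractionalIdeal.spanSingleton (𝓞 K)⁰ (x : K))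
        * (padicValNat l (Ideal.absNorm v.asIdeal) : ℤ) = 0 := by
    apply Finset.sum_eq_zero
    intro v hv
    rw [Finset.mem_filter] at hv
    rw [h10_padicValNat_absNorm_eq_zero K l v hv.2, Nat.cast_zero, mul_zero]
  rw [hzero, add_zero, h10_zpow_sum _ hl0]
  apply Finset.prod_congr rfl
  intro v hv
  rw [Finset.mem_filter] at hv
  obtain ⟨f, -, hf⟩ := h10_absNorm_eq_pow K l v hv.2
  rw [hf, padicValNat.prime_pow, Nat.cast_pow, ← zpow_natCast, ← zpow_mul, mul_comm]

open Classical in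
/-- **Product formula split along `S`**: the prime-to-`S` part of `|N_{K/ℚ} x|` is the norm of
the prime-to-`S` divisor of `x`. -/
theorem h10_norm_split (S : Finset Nat.Primes) (x : Kˣ) :
    |Algebra.norm ℚ (x : K)|
      = (∏ q ∈ S, (((q : Nat.Primes) : ℕ) : ℚ)
            ^ padicValRat ((q : Nat.Primes) : ℕ) (Algebra.norm ℚ (x : K)))
        * ∏ᶠ v : h25_Pl K S, (Ideal.absNorm v.1.asIdeal : ℚ) ^ (h25_div K S x v) := by
  set T := (h10_count_finite K x).toFinset with hTdef
  have hT : ∀ v, FractionalIdeal.count K v (FractionalIdeal.spanSingleton (𝓞 K)⁰ (x : K)) ≠ 0 →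
      v ∈ T := by
    intro v hv
    rw [hTdef, Set.Finite.mem_toFinset]
    exact hv
  rw [h10_abs_norm_eq_prod K x T hT,
    ← Finset.prod_filter_mul_prod_filter_not T (fun v => h25_above K S v)]
  congr 1
  · have hbi : T.filter (fun v => h25_above K S v)
        = S.biUnion (fun q => T.filter
            (fun v => ((((q : Nat.Primes) : ℕ) : ℕ) : 𝓞 K) ∈ v.asIdeal)) := by
      ext v
      rw [Finset.mem_filter, Finset.mem_biUnion]
      constructor
      · rintro ⟨hv, q, hq, hmem⟩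
        exact ⟨q, hq, Finset.mem_filter.mpr ⟨hv, hmem⟩⟩
      · rintro ⟨q, hq, hv⟩
        rw [Finset.mem_filter] at hv
        exact ⟨hv.1, q, hq, hv.2⟩
    rw [hbi, Finset.prod_biUnion]
    · apply Finset.prod_congr rfl
      intro q _
      have : Fact ((q : Nat.Primes) : ℕ).Prime := ⟨q.2⟩
      exact h10_prod_above_eq K q x T hT
    · intro q _ q' _ hne
      rw [Function.onFun, Finset.disjoint_left]
      intro v hv hv'
      rw [Finset.mem_filter] at hv hv'
      exact h10_not_two_primes K v q.2 q'.2 (fun h => hne (Subtype.ext h)) hv.2 hv'.2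
  · have e := finprod_subtype_eq_finprod_cond (M := ℚ)
      (f := fun v : HeightOneSpectrum (𝓞 K) => (Ideal.absNorm v.asIdeal : ℚ)
        ^ FractionalIdeal.count K v (FractionalIdeal.spanSingleton (𝓞 K)⁰ (x : K)))
      (fun v => ¬ h25_above K S v)
    refine Eq.trans ?_ e.symm
    symm
    apply finprod_cond_eq_prod_of_cond_iff
    intro v hv
    rw [Finset.mem_filter]
    constructor
    · intro h
      refine ⟨hT v ?_, h⟩
      intro h0
      apply hv
      rw [h0, zpow_zero]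
    · intro h
      exact h.2

/-- The product of the conjugates of `x` is its norm. -/
theorem h10_prod_emb_eq_norm {Ω : Type*} [Field Ω] [CharZero Ω] [IsAlgClosed Ω] (x : K) :
    ∏ j : K →+* Ω, j x = algebraMap ℚ Ω (Algebra.norm ℚ x) := by
  rw [Algebra.norm_eq_prod_embeddings ℚ Ω x]
  exact Fintype.prod_equiv (RingHom.equivRatAlgHom K Ω) _ _ (fun j => rfl)

end PF

end Fermat.Agent.S55
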