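import Fermat.Agent.S55.h25_GlobVal
import Fermat.Agent.S55.h10_NormPF

/-!
# S55, GLOB-VAL-PRIN: the valuation `w` is trivial on principal elements

`h10_w_diag` : `h25_w K S P (h25_diag K S x) = 1` for `p = P` odd (product formula), hence the
valuation on the class module is given by `h25_w` on representatives (`h10_wC_mk`).
-/

set_option autoImplicit false

open IsDedekindDomain NumberField
open scoped nonZeroDivisors

namespace Fermat.Agent.S55

noncomputable section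

section VQ

variable (p : ℕ) [Fact p.Prime]

/-- The character `ℚˣ → U1 = 1 + pℤ_p`, `r ↦ v_p(r)` (`= (r / p^{ord_p r})^(p-1)`). -/
def h10_vQ : ℚˣ →* h18_U1 p :=
  (h18_vp p).comp (Units.map ((Rat.castHom ℚ_[p] : ℚ →+* ℚ_[p]) : ℚ →* ℚ_[p]))

theorem h10_vQ_coe (u : ℚˣ) :
    ((Units.map ((Rat.castHom ℚ_[p] : ℚ →+* ℚ_[p]) : ℚ →* ℚ_[p]) u : ℚ_[p]ˣ) : ℚ_[p])
      = ((u : ℚ) : ℚ_[p]) := rfl

theorem h10_vQ_natCast {m : ℕ} (hm : ¬ p ∣ m) (u : ℚˣ) (hu : (u : ℚ) = m) :
    h10_vQ p u = h18_natU1 p m := by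
  refine h18_vp_natCast p _ 0 hm ?_
  rw [h10_vQ_coe, hu]
  simp

theorem h10_vQ_p (u : ℚˣ) (hu : (u : ℚ) = p) : h10_vQ p u = 1 := by
  have h1 : ¬ p ∣ 1 := (Fact.out : p.Prime).one_lt.ne' ∘ Nat.dvd_one.1
  have h2 := h18_vp_natCast p
    (Units.map ((Rat.castHom ℚ_[p] : ℚ →+* ℚ_[p]) : ℚ →* ℚ_[p]) u) 1 h1
    (by rw [h10_vQ_coe, hu]; simp)
  rw [h18_natU1_one] at h2
  exact h2

theorem h10_vQ_neg_one (hp : p ≠ 2) : h10_vQ p (-1) = 1 := by
  have h1 : Units.map ((Rat.castHom ℚ_[p] : ℚ →+* ℚ_[p]) : ℚ →* ℚ_[p]) (-1 : ℚˣ)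
      = (-1 : ℚ_[p]ˣ) := by
    ext
    simp
  rw [h10_vQ, MonoidHom.comp_apply, h1, h18_vp_neg_one p hp]

theorem h10_vQ_abs (hp : p ≠ 2) (u u' : ℚˣ) (h : (u' : ℚ) = |(u : ℚ)|) :
    h10_vQ p u' = h10_vQ p u := by
  rcases abs_choice (u : ℚ) with h1 | h1
  · have : u' = u := Units.ext (h.trans h1)
    rw [this]
  · have : u' = -1 * u := Units.ext (by rw [h, h1]; simp)
    rw [this, map_mul, h10_vQ_neg_one p hp, one_mul]

end VQ

/-- The natural number `m` as a unit of `ℚ` (junk `1` for `m = 0`). -/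
def h10_natUnit (m : ℕ) : ℚˣ :=
  if h : m = 0 then 1 else Units.mk0 (m : ℚ) (Nat.cast_ne_zero.mpr h)

theorem h10_natUnit_coe {m : ℕ} (hm : m ≠ 0) : ((h10_natUnit m : ℚˣ) : ℚ) = m := by
  rw [h10_natUnit, dif_neg hm]
  rfl

section Prin

variable (K : Type*) [Field K] [NumberField K] (S : Finset Nat.Primes) (P : S)

/-- The local norm of a principal element is the global norm. -/
theorem h10_Nq_diag (q : S) (x : Kˣ) :
    ((h25_Nq K ((q : Nat.Primes) : ℕ) ((h25_diag K S x).1 q) : ℚ_[((q : Nat.Primes) : ℕ)]ˣ) :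
        ℚ_[((q : Nat.Primes) : ℕ)])
      = ((Algebra.norm ℚ (x : K) : ℚ) : ℚ_[((q : Nat.Primes) : ℕ)]) := by
  apply (algebraMap ℚ_[((q : Nat.Primes) : ℕ)] (PadicAlgCl ((q : Nat.Primes) : ℕ))).injective
  rw [h25_Nq_spec]
  have h1 : ∏ j : K →+* PadicAlgCl ((q : Nat.Primes) : ℕ),
      ((((h25_diag K S x).1 q).1 j : (PadicAlgCl ((q : Nat.Primes) : ℕ))ˣ) :
        PadicAlgCl ((q : Nat.Primes) : ℕ))
      = ∏ j : K →+* PadicAlgCl ((q : Nat.Primes) : ℕ), j (x : K) :=
    Finset.prod_congr rfl (fun j _ => rfl)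
  rw [h1, h10_prod_emb_eq_norm]
  simp

/-- The norm of a prime not above `S` is prime to `p = P ∈ S`. -/
theorem h10_not_dvd_absNorm (v : h25_Pl K S) :
    ¬ ((P : Nat.Primes) : ℕ) ∣ Ideal.absNorm v.1.asIdeal := by
  intro h
  exact v.2 ⟨P, P.2, h10_natCast_mem_of_dvd_absNorm K _ v.1 h⟩

/-- The product formula in `ℚˣ`, in the shape needed for `w`. -/
theorem h10_abs_norm_unit (x : Kˣ) (u : ℚˣ) (hu : (u : ℚ) = |Algebra.norm ℚ (x : K)|) :
    u = (∏ q : S, h10_natUnit ((q : Nat.Primes) : ℕ)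
          ^ padicValRat ((q : Nat.Primes) : ℕ) (Algebra.norm ℚ (x : K)))
        * ∏ v ∈ (h25_div K S x).support,
            h10_natUnit (Ideal.absNorm v.1.asIdeal) ^ (h25_div K S x v) := by
  apply Units.ext
  rw [hu, h10_norm_split K S x, Units.val_mul, Units.coe_prod, Units.coe_prod]
  congr 1
  · rw [← Finset.prod_coe_sort S]
    apply Finset.prod_congr rfl
    intro q _
    rw [Units.val_zpow_eq_zpow_val, h10_natUnit_coe q.1.2.ne_zero]
  · rw [finprod_eq_prod_of_mulSupport_subset (s := (h25_div K S x).support)]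
    · apply Finset.prod_congr rfl
      intro v _
      have hv0 : Ideal.absNorm v.1.asIdeal ≠ 0 := by
        rw [Ne, Ideal.absNorm_eq_zero_iff]
        exact v.1.ne_bot
      rw [Units.val_zpow_eq_zpow_val, h10_natUnit_coe hv0]
    · intro v hv
      rw [Function.mem_mulSupport] at hv
      rw [Finset.mem_coe, Finsupp.mem_support_iff]
      intro h0
      apply hv
      rw [h0, zpow_zero]

open Classical in
/-- **GLOB-VAL-PRIN**: the valuation `w` is trivial on principal elements (`p = P` odd). -/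
theorem h10_w_diag (hp2 : ((P : Nat.Primes) : ℕ) ≠ 2) (x : Kˣ) :
    h25_w K S P (h25_diag K S x) = 1 := by
  have hr0 : Algebra.norm ℚ (x : K) ≠ 0 := Algebra.norm_ne_zero_iff.mpr x.ne_zero
  rw [h25_w_apply]
  -- the `P`-part
  have hP : h25_wP K S P (h25_diag K S x).1
      = (h10_vQ ((P : Nat.Primes) : ℕ) (Units.mk0 (Algebra.norm ℚ (x : K)) hr0))⁻¹ := by
    rw [h25_wP_apply, h10_vQ, MonoidHom.comp_apply]
    congr 2
    apply Units.ext
    rw [h10_Nq_diag, h10_vQ_coe]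
    rfl
  -- the `q`-parts
  have hq : ∀ q : S, h25_wq K S P q (h25_diag K S x).1
      = h18_natU1 ((P : Nat.Primes) : ℕ) ((q : Nat.Primes) : ℕ)
        ^ padicValRat ((q : Nat.Primes) : ℕ) (Algebra.norm ℚ (x : K)) := by
    intro q
    rw [h25_wq_apply, h10_Nq_diag, Padic.valuation_ratCast]
  -- the divisor part
  have hD : h25_wD K S P (h25_diag K S x).2
      = ∏ v ∈ (h25_div K S x).support,
          h18_natU1 ((P : Nat.Primes) : ℕ) (Ideal.absNorm v.1.asIdeal) ^ (h25_div K S x v) := by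
    have e : (h25_diag K S x).2 = Multiplicative.ofAdd (h25_div K S x) := rfl
    rw [e, h25_wD_apply]
    rfl
  rw [hP, hD, Finset.prod_congr rfl (fun q _ => hq q)]
  -- the product formula, pushed through `v_p`
  have habs := h10_vQ_abs ((P : Nat.Primes) : ℕ) hp2
    (Units.mk0 (Algebra.norm ℚ (x : K)) hr0)
    (Units.mk0 |Algebra.norm ℚ (x : K)| (abs_ne_zero.mpr hr0)) rfl
  have hunit := h10_abs_norm_unit K S x
    (Units.mk0 |Algebra.norm ℚ (x : K)| (abs_ne_zero.mpr hr0)) rfl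
  have hval : h10_vQ ((P : Nat.Primes) : ℕ) (Units.mk0 (Algebra.norm ℚ (x : K)) hr0)
      = (∏ q ∈ Finset.univ.filter (fun q : S => q ≠ P),
          h18_natU1 ((P : Nat.Primes) : ℕ) ((q : Nat.Primes) : ℕ)
            ^ padicValRat ((q : Nat.Primes) : ℕ) (Algebra.norm ℚ (x : K)))
        * ∏ v ∈ (h25_div K S x).support,
            h18_natU1 ((P : Nat.Primes) : ℕ) (Ideal.absNorm v.1.asIdeal) ^ (h25_div K S x v) := by
    rw [← habs, hunit, map_mul, map_prod, map_prod]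
    congr 1
    · rw [Finset.filter_ne', ← Finset.mul_prod_erase Finset.univ _ (Finset.mem_univ P)]
      rw [map_zpow, h10_vQ_p _ _ (h10_natUnit_coe P.1.2.ne_zero), one_zpow, one_mul]
      apply Finset.prod_congr rfl
      intro q hq
      rw [Finset.mem_erase] at hq
      have hne : ¬ ((P : Nat.Primes) : ℕ) ∣ ((q : Nat.Primes) : ℕ) := by
        intro hdvd
        apply hq.1
        have h1 := (Nat.prime_dvd_prime_iff_eq P.1.2 q.1.2).1 hdvd
        exact Subtype.ext (Subtype.ext h1.symm)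
      rw [map_zpow, h10_vQ_natCast _ hne _ (h10_natUnit_coe q.1.2.ne_zero)]
    · apply Finset.prod_congr rfl
      intro v _
      have hv0 : Ideal.absNorm v.1.asIdeal ≠ 0 := by
        rw [Ne, Ideal.absNorm_eq_zero_iff]
        exact v.1.ne_bot
      rw [map_zpow, h10_vQ_natCast _ (h10_not_dvd_absNorm K S P v) _ (h10_natUnit_coe hv0)]
  rw [mul_assoc, ← hval, inv_mul_cancel]

/-- The valuation on the class module is computed on representatives. -/
theorem h10_wC_mk (hp2 : ((P : Nat.Primes) : ℕ) ≠ 2) (x : h25_X K S) :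
    h25_wC K S P (h25_mk K S x) = h25_w K S P x :=
  h25_wC_mk_of K S P (h10_w_diag K S P hp2) x

end Prin

end

end Fermat.Agent.S55
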