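import Fermat.Agent.S55.h84_ValExt
import Fermat.Agent.S55.h10_ValPrin

/-!
# S55 / GLOB-VAL: the class-module forms of VAL-EXT and VAL-INV (helper84)

`h84_wC_ext` : `h25_wC L S P (h25_Cmap S (algebraMap K L) c) = h25_wC K S P c ^ [L:K]`,
`h84_wC_inv` : `h25_wC L S P (h25_Cmap S σ c) = h25_wC L S P c` (`p = P` odd), unconditionally
(VAL-PRIN = `h10_w_diag`).
-/

set_option autoImplicit false

open IsDedekindDomain NumberField

namespace Fermat.Agent.S55

section

variable {K : Type*} [Field K] [NumberField K] {L : Type*} [Field L] [NumberField L] [Algebra K L]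
  (S : Finset Nat.Primes) (P : S)

/-- **VAL-EXT** on the class module. -/
theorem h84_wC_ext (hp2 : ((P : Nat.Primes) : ℕ) ≠ 2) (c : h25_C K S) :
    h25_wC L S P (h25_Cmap S (algebraMap K L) c) = h25_wC K S P c ^ Module.finrank K L :=
  h84_wC_ext_of S P (h10_w_diag K S P hp2) (h10_w_diag L S P hp2) c

/-- **VAL-INV** on the class module. -/
theorem h84_wC_inv (hp2 : ((P : Nat.Primes) : ℕ) ≠ 2) (σ : L ≃+* L) (c : h25_C L S) :
    h25_wC L S P (h25_Cmap S (σ : L →+* L) c) = h25_wC L S P c :=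
  h84_wC_inv_of S P (h10_w_diag L S P hp2) σ c

omit [NumberField K] in
/-- **VAL-INV** on the class module, for `K`-algebra automorphisms (the Galois action). -/
theorem h84_wC_inv_algEquiv (hp2 : ((P : Nat.Primes) : ℕ) ≠ 2) (σ : L ≃ₐ[K] L) (c : h25_C L S) :
    h25_wC L S P (h25_Cmap S ((σ : L ≃ₐ[K] L) : L →+* L) c) = h25_wC L S P c :=
  h84_wC_inv S P hp2 (σ : L ≃+* L) c

omit [NumberField K] in
/-- additive form (the `w_inv` field shape for `h25_wA`). -/
theorem h84_wA_inv_algEquiv (hp2 : ((P : Nat.Primes) : ℕ) ≠ 2) (σ : L ≃ₐ[K] L) (c : h25_C L S) :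
    h25_wA L S P (Additive.ofMul (h25_Cmap S ((σ : L ≃ₐ[K] L) : L →+* L) c)) =
      h25_wA L S P (Additive.ofMul c) := by
  rw [h25_wA_ofMul, h25_wA_ofMul, h84_wC_inv_algEquiv S P hp2 σ c]

end

end Fermat.Agent.S55
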