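/-
S55 layer H / LOC (helper88), row H-LOC-CFDATA: honest data ⟹ `h30_CFData` on the
`p`-localisation.

(V1), (V2), (CFA1), (CFA2) proved for an honest `G`-module `C₀` give helper30's input record
`h30_CFData` for `C := h2_PL p C₀` (`= C₀ ⊗ ℤ_(p)`).  Main statement: `h88_cfdata_PL`
(verbatim from the row).
-/
import Mathlib
import Fermat.Agent.S55.h2_PLoc
import Fermat.Agent.S55.h30_CFData

set_option autoImplicit false

namespace Fermat.Agent.S55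

section

variable {p : ℕ} [Fact p.Prime] {G : Type*} [Group G] [Finite G]
  {C₀ : Type*} [AddCommGroup C₀] [DistribMulAction G C₀]

omit [Finite G] in
/-- A valuation on the localisation extending an invariant one is invariant. -/
theorem h88_PL_w_inv {V : Type*} [AddCommGroup V] (hV : h40_IsPLocal p V)
    (w₀ : C₀ →+ V) (hw₀ : ∀ (g : G) (c : C₀), w₀ (g • c) = w₀ c)
    (w : h2_PL p C₀ →+ V) (hw : ∀ c : C₀, w (h2_PL.j c) = w₀ c) (g : G) (x : h2_PL p C₀) :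
    w (g • x) = w x := by
  obtain ⟨m, hm, c, hc⟩ := h2_PL.exists_smul_eq_j x
  apply (hV m hm).1
  show m • w (g • x) = m • w x
  rw [← map_nsmul, ← map_nsmul, ← smul_comm g m x, hc, ← h2_PL.j_smul, hw, hw, hw₀]

/-- (V1) passes to the localisation. -/
theorem h88_PL_V1 {V : Type*} [AddCommGroup V] (hV : h40_IsPLocal p V)
    (w₀ : C₀ →+ V) (w : h2_PL p C₀ →+ V) (hw : ∀ c : C₀, w (h2_PL.j c) = w₀ c)
    (H : Subgroup G) (N : ℕ)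
    (hV1 : ∀ c : C₀, (∀ h ∈ H, h • c = c) → ∃ y : V, w₀ c = N • y)
    (x : h2_PL p C₀) (hx : ∀ h ∈ H, h • x = x) : ∃ y : V, w x = N • y := by
  obtain ⟨m, hm, c, hcH, hc⟩ := h2_PL.exists_smul_eq_j_of_fixed H x hx
  obtain ⟨y, hy⟩ := hV1 c hcH
  obtain ⟨y', hy'⟩ := (hV m hm).2 y
  have hy'' : m • y' = y := hy'
  refine ⟨y', (hV m hm).1 ?_⟩
  show m • w x = m • (N • y')
  rw [← map_nsmul, hc, hw, hy, ← hy'', smul_comm]

/-- (CFA1) passes to the localisation. -/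
theorem h88_PL_CFA1 (H₂ : Subgroup G) (σ : G)
    (hCFA1 : ∀ c : C₀, (∀ h ∈ H₂, h • c = c) → ∑ i ∈ Finset.range p, σ ^ i • c = 0 →
      ∃ b : C₀, (∀ h ∈ H₂, h • b = b) ∧ σ • b - b = c)
    (x : h2_PL p C₀) (hx : ∀ h ∈ H₂, h • x = x)
    (hsum : ∑ i ∈ Finset.range p, σ ^ i • x = 0) :
    ∃ b : h2_PL p C₀, (∀ h ∈ H₂, h • b = b) ∧ σ • b - b = x := by
  obtain ⟨m, hm, c, hcH, hc⟩ := h2_PL.exists_smul_eq_j_of_fixed H₂ x hx
  have h1 : h2_PL.j (p := p) (∑ i ∈ Finset.range p, σ ^ i • c) = 0 := by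
    rw [map_sum, Finset.sum_congr rfl (fun i _ =>
      show h2_PL.j (p := p) (σ ^ i • c) = m • (σ ^ i • x) by
        rw [h2_PL.j_smul, ← hc, smul_comm]), Finset.sum_nsmul, hsum, nsmul_zero]
  obtain ⟨m', hm', hm'0⟩ := (h2_PL.j_eq_zero_iff _).1 h1
  have h2 : ∑ i ∈ Finset.range p, σ ^ i • (m' • c) = 0 := by
    rw [← hm'0, ← Finset.sum_nsmul]
    exact Finset.sum_congr rfl fun i _ => smul_comm _ _ _
  have h3 : ∀ h ∈ H₂, h • (m' • c) = m' • c := fun h hh => by rw [smul_comm, hcH h hh]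
  obtain ⟨b₀, hb₀H, hb₀⟩ := hCFA1 (m' • c) h3 h2
  have hmm : (m' * m).Coprime p := Nat.Coprime.mul_left hm' hm
  obtain ⟨b, hb⟩ := h2_PL.smul_surjective (C := C₀) (m' * m) hmm (h2_PL.j b₀)
  have hb' : (m' * m) • b = h2_PL.j b₀ := hb
  refine ⟨b, fun h hh => ?_, ?_⟩
  · apply h2_PL.smul_injective (m' * m) hmm
    show (m' * m) • (h • b) = (m' * m) • b
    rw [← smul_comm h, hb', ← h2_PL.j_smul, hb₀H h hh]
  · apply h2_PL.smul_injective (m' * m) hmm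
    show (m' * m) • (σ • b - b) = (m' * m) • x
    rw [nsmul_sub, ← smul_comm σ, hb', ← h2_PL.j_smul, ← map_sub, hb₀, map_nsmul, ← hc,
      mul_nsmul']

/-- (CFA2) passes to the localisation. -/
theorem h88_PL_CFA2 (H₁ H₂ : Subgroup G) (hle : H₂ ≤ H₁) (σ : G) (hσ : σ ∈ H₁)
    (hCFA2 : ∃ c₀ : C₀, (∀ h ∈ H₁, h • c₀ = c₀) ∧ ∀ c : C₀, (∀ h ∈ H₁, h • c = c) →
        ∃ (k : ℕ) (b : C₀), (∀ h ∈ H₂, h • b = b) ∧
          c = k • c₀ + ∑ i ∈ Finset.range p, σ ^ i • b) :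
    ∃ c₀ : h2_PL p C₀, (∀ h ∈ H₁, h • c₀ = c₀) ∧ ∀ c : h2_PL p C₀, (∀ h ∈ H₁, h • c = c) →
        ∃ (k : ℕ) (b : h2_PL p C₀), (∀ h ∈ H₂, h • b = b) ∧
          c = k • c₀ + ∑ i ∈ Finset.range p, σ ^ i • b := by
  have hp : p.Prime := Fact.out
  obtain ⟨c₀, hc₀H, hgen⟩ := hCFA2
  refine ⟨h2_PL.j c₀, fun h hh => by rw [← h2_PL.j_smul, hc₀H h hh], fun x hx => ?_⟩
  obtain ⟨m, hm, c, hcH, hc⟩ := h2_PL.exists_smul_eq_j_of_fixed H₁ x hx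
  obtain ⟨k, b, hbH, hcb⟩ := hgen c hcH
  -- `m' * m = 1 + p * t`
  obtain ⟨m', -, ha⟩ := Nat.exists_mul_mod_eq_one_of_coprime hm hp.one_lt
  have hdiv := Nat.div_add_mod (m * m') p
  rw [ha] at hdiv
  obtain ⟨t, ht⟩ : ∃ t : ℕ, t = m * m' / p := ⟨_, rfl⟩
  rw [← ht] at hdiv
  have hmt : m' * m = 1 + p * t := by rw [mul_comm, ← hdiv, add_comm]
  have hσx : ∀ i : ℕ, σ ^ i • x = x := fun i => hx _ (H₁.pow_mem hσ i)
  refine ⟨m' * k, m' • h2_PL.j b - t • x, fun h hh => ?_, ?_⟩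
  · rw [smul_sub, smul_comm h m', smul_comm h t, ← h2_PL.j_smul, hbH h hh, hx h (hle hh)]
  · have e1 : ∑ i ∈ Finset.range p, σ ^ i • (m' • h2_PL.j (p := p) b - t • x) =
        m' • ∑ i ∈ Finset.range p, σ ^ i • h2_PL.j (p := p) b - (p * t) • x := by
      rw [Finset.sum_congr rfl (fun i _ =>
        show σ ^ i • (m' • h2_PL.j (p := p) b - t • x) =
          m' • (σ ^ i • h2_PL.j (p := p) b) - t • x by
          rw [smul_sub, smul_comm (σ ^ i) m', smul_comm (σ ^ i) t, hσx i]),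
        Finset.sum_sub_distrib, Finset.sum_nsmul, Finset.sum_const, Finset.card_range,
        mul_nsmul']
    have e2 : m' • h2_PL.j (p := p) c = x + (p * t) • x := by
      rw [← hc, ← mul_nsmul', hmt, add_nsmul, one_nsmul]
    have e3 : h2_PL.j (p := p) c =
        k • h2_PL.j c₀ + ∑ i ∈ Finset.range p, σ ^ i • h2_PL.j (p := p) b := by
      rw [hcb, map_add, map_nsmul, map_sum]
      simp only [h2_PL.j_smul]
    rw [e1, mul_nsmul', ← add_sub_assoc, ← nsmul_add, ← e3, e2, add_sub_cancel_right]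

end

/-- **H-LOC-CFDATA**: honest (V1), (V2), (CFA1), (CFA2) for a `G`-module `C₀` give the input
record `h30_CFData` of H-CFBUILD for the `p`-localisation `h2_PL p C₀`. -/
theorem h88_cfdata_PL {p : ℕ} [Fact p.Prime] {G : Type*} [Group G] [Finite G]
    {C₀ : Type*} [AddCommGroup C₀] [DistribMulAction G C₀] {n : ℕ}
    (deg : G →* Multiplicative (ZMod (p ^ n))) (hdeg : Function.Surjective deg)
    {V : Type*} [AddCommGroup V] (hV : h40_IsPLocal p V) (htf : ∀ x : V, p • x = 0 → x = 0)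
    (w₀ : C₀ →+ V) (hw₀ : ∀ (g : G) (c : C₀), w₀ (g • c) = w₀ c)
    (hV1 : ∀ (H : Subgroup G) (c : C₀), (∀ h ∈ H, h • c = c) →
      ∃ y : V, w₀ c = (Nat.card H * (H.map deg).index) • y)
    (hV2 : ∀ H : Subgroup G, H.map deg ≠ ⊥ → ∃ c : C₀, (∀ h ∈ H, h • c = c) ∧
      ¬ ∃ y : V, w₀ c = (p * (Nat.card H * (H.map deg).index)) • y)
    (hCFA1 : ∀ H₁ H₂ : Subgroup G, IsPGroup p H₁ → H₂ ≤ H₁ →
      (∀ g ∈ H₁, ∀ h ∈ H₂, g * h * g⁻¹ ∈ H₂) → H₂.relIndex H₁ = p → ∀ σ ∈ H₁, σ ∉ H₂ →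
      ∀ c : C₀, (∀ h ∈ H₂, h • c = c) → ∑ i ∈ Finset.range p, σ ^ i • c = 0 →
        ∃ b : C₀, (∀ h ∈ H₂, h • b = b) ∧ σ • b - b = c)
    (hCFA2 : ∀ H₁ H₂ : Subgroup G, IsPGroup p H₁ → H₂ ≤ H₁ →
      (∀ g ∈ H₁, ∀ h ∈ H₂, g * h * g⁻¹ ∈ H₂) → H₂.relIndex H₁ = p → ∀ σ ∈ H₁, σ ∉ H₂ →
      ∃ c₀ : C₀, (∀ h ∈ H₁, h • c₀ = c₀) ∧ ∀ c : C₀, (∀ h ∈ H₁, h • c = c) →
        ∃ (k : ℕ) (b : C₀), (∀ h ∈ H₂, h • b = b) ∧
          c = k • c₀ + ∑ i ∈ Finset.range p, σ ^ i • b)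
    (w : h2_PL p C₀ →+ V) (hw : ∀ c : C₀, w (h2_PL.j c) = w₀ c) : h30_CFData p deg w where
  ploc := fun m hm => h2_PL.isPLocal m hm
  deg_surj := hdeg
  tf := htf
  w_inv := h88_PL_w_inv hV w₀ hw₀ w hw
  V1 := fun H x hx => h88_PL_V1 hV w₀ w hw H _ (hV1 H) x hx
  V2 := fun H hH => by
    obtain ⟨c, hcH, hc⟩ := hV2 H hH
    refine ⟨h2_PL.j c, fun h hh => by rw [← h2_PL.j_smul, hcH h hh], ?_⟩
    rw [hw]
    exact hc
  CFA1 := fun H₁ H₂ hp hle hnorm hidx σ hσ₁ hσ₂ x hx hsum =>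
    h88_PL_CFA1 H₂ σ (hCFA1 H₁ H₂ hp hle hnorm hidx σ hσ₁ hσ₂) x hx hsum
  CFA2 := fun H₁ H₂ hp hle hnorm hidx σ hσ₁ hσ₂ =>
    h88_PL_CFA2 H₁ H₂ hle σ hσ₁ (hCFA2 H₁ H₂ hp hle hnorm hidx σ hσ₁ hσ₂)

end Fermat.Agent.S55
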