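/-
S55, row GAL-QUOT (helper96; spec owner helper63): the `(π, ι)` data of a Galois tower
`F ⊆ L ⊆ E`: the restriction `Gal(E/F) → Gal(L/F)` is surjective, the inclusion of units
`Additive Lˣ → Additive Eˣ` is injective and equivariant, and the units of `E` fixed by
`Gal(E/L) = ker (restriction)` come from `L`.
-/
import Mathlib
import Fermat.Agent.S55.h2_AddUnits

set_option autoImplicit false

namespace Fermat.Agent.S55

/-- Every `L`-automorphism of `E`, viewed as an `F`-automorphism, restricts to the identity
of `L`. -/
theorem h96_restrictScalars_mem_ker (F L E : Type*) [Field F] [Field L] [Field E] [Algebra F L]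
    [Algebra F E] [Algebra L E] [IsScalarTower F L E] [Normal F L] (τ : E ≃ₐ[L] E) :
    τ.restrictScalars F ∈ (AlgEquiv.restrictNormalHom (F := F) (K₁ := E) L).ker := by
  rw [MonoidHom.mem_ker]
  ext x
  apply (algebraMap L E).injective
  have h1 : algebraMap L E ((AlgEquiv.restrictNormalHom L (τ.restrictScalars F)) x) =
      (τ.restrictScalars F) (algebraMap L E x) :=
    AlgEquiv.restrictNormal_commutes (τ.restrictScalars F) L x
  rw [h1]
  show τ (algebraMap L E x) = algebraMap L E x
  exact τ.commutes x

/-- An element of `E` fixed by the kernel of the restriction `Gal(E/F) → Gal(L/F)` lies in `L`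
(finite Galois tower). -/
theorem h96_mem_range_of_fixed_ker (F L E : Type*) [Field F] [Field L] [Field E] [Algebra F L]
    [Algebra F E] [Algebra L E] [IsScalarTower F L E] [FiniteDimensional F E] [IsGalois F L]
    [IsGalois F E] (x : E)
    (hx : ∀ s ∈ (AlgEquiv.restrictNormalHom (F := F) (K₁ := E) L).ker, s x = x) :
    x ∈ Set.range (algebraMap L E) := by
  have : IsGalois L E := IsGalois.tower_top_of_isGalois F L E
  have : FiniteDimensional L E := FiniteDimensional.right F L E
  rw [IsGalois.mem_range_algebraMap_iff_fixed]
  intro τ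
  exact hx _ (h96_restrictScalars_mem_ker F L E τ)

/-- GAL-QUOT: the `(π, ι)` data of a Galois tower `F ⊆ L ⊆ E`. -/
theorem h96_gal_quot (F L E : Type*) [Field F] [Field L] [Field E] [Algebra F L] [Algebra F E]
    [Algebra L E] [IsScalarTower F L E] [FiniteDimensional F E] [IsGalois F L] [IsGalois F E] :
    Function.Surjective (AlgEquiv.restrictNormalHom (F := F) (K₁ := E) L) ∧
    Function.Injective (Units.map (algebraMap L E : L →* E)).toAdditive ∧
    (∀ (g : E ≃ₐ[F] E) (b : Additive Lˣ),
      (Units.map (algebraMap L E : L →* E)).toAdditive (AlgEquiv.restrictNormalHom L g • b)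
        = g • (Units.map (algebraMap L E : L →* E)).toAdditive b) ∧
    (∀ c : Additive Eˣ,
      (∀ s ∈ (AlgEquiv.restrictNormalHom (F := F) (K₁ := E) L).ker, s • c = c) →
        c ∈ ((Units.map (algebraMap L E : L →* E)).toAdditive).range) := by
  refine ⟨AlgEquiv.restrictNormalHom_surjective E, ?_, ?_, ?_⟩
  · intro a b hab
    have h1 : Units.map (algebraMap L E : L →* E) (Additive.toMul a) =
        Units.map (algebraMap L E : L →* E) (Additive.toMul b) := congrArg Additive.toMul hab
    have h2 : (Additive.toMul a : Lˣ) = Additive.toMul b := by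
      apply Units.ext
      apply (algebraMap L E).injective
      have h3 := congrArg (fun u : Eˣ => (u : E)) h1
      simpa using h3
    exact congrArg Additive.ofMul h2
  · intro g b
    apply congrArg Additive.ofMul
    apply Units.ext
    show algebraMap L E ((AlgEquiv.restrictNormalHom L g) ((Additive.toMul b : Lˣ) : L)) =
      g (algebraMap L E ((Additive.toMul b : Lˣ) : L))
    exact AlgEquiv.restrictNormal_commutes g L _
  · intro c hc
    have hfix : ∀ s ∈ (AlgEquiv.restrictNormalHom (F := F) (K₁ := E) L).ker,
        s ((Additive.toMul c : Eˣ) : E) = ((Additive.toMul c : Eˣ) : E) := by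
      intro s hs
      have h1 := congrArg (fun a : Additive Eˣ => ((Additive.toMul a : Eˣ) : E)) (hc s hs)
      exact h1
    obtain ⟨y, hy⟩ := h96_mem_range_of_fixed_ker F L E _ hfix
    have hy0 : y ≠ 0 := by
      rintro rfl
      rw [map_zero] at hy
      exact (Additive.toMul c : Eˣ).ne_zero hy.symm
    refine ⟨Additive.ofMul (Units.mk0 y hy0), ?_⟩
    apply congrArg Additive.ofMul
    apply Units.ext
    exact hy

end Fermat.Agent.S55
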