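import Mathlib
import Fermat.Agent.S55.h90_GlobCAct
import Fermat.Agent.S55.h10_GlobDescC
import Fermat.Agent.S55.h96_GalQuot

/-!
# S55 GLOB-CF, sub-row PI-IOTA: the `(π, ι)` data of a tower `ℚ ⊆ L ⊆ E` of number fields

For number fields `L ⊆ E` (types), both Galois over `ℚ`, `S` nonempty, `E/L` unramified outside
`S`:

* `π = AlgEquiv.restrictNormalHom L : Gal(E/ℚ) → Gal(L/ℚ)` is surjective;
* `ι = (h25_Cmap S (algebraMap L E)).toAdditive : Additive (C_L) → Additive (C_E)` is injective,
  `π`-equivariant, and its range is the module of `ker π = Gal(E/L)`-invariants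
  (Galois descent `h10_desc_injective`, `h10_desc_range`).

This is the global twin of `h96_gal_quot`, in the shape consumed by `h30_cfbuild`.
-/

set_option autoImplicit false

open IsDedekindDomain NumberField

namespace Fermat.Agent.S55

noncomputable section

/-- `ext ∘ (σ|_L) = σ ∘ ext` on class modules. -/
theorem h90_Cmap_restrictNormal (L E : Type*) [Field L] [NumberField L] [Field E] [NumberField E]
    [Algebra L E] [Normal ℚ L] (S : Finset Nat.Primes) (g : E ≃ₐ[ℚ] E) (b : h25_C L S) :
    h25_Cmap S (algebraMap L E)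
        (h25_Cmap S ((AlgEquiv.restrictNormalHom L g : L ≃ₐ[ℚ] L) : L →+* L) b) =
      h25_Cmap S (g : E →+* E) (h25_Cmap S (algebraMap L E) b) := by
  have h : (algebraMap L E).comp ((AlgEquiv.restrictNormalHom L g : L ≃ₐ[ℚ] L) : L →+* L) =
      (g : E →+* E).comp (algebraMap L E) :=
    RingHom.ext fun x => AlgEquiv.restrictNormal_commutes g L x
  rw [← MonoidHom.comp_apply, ← h66_Cmap_comp, h, h66_Cmap_comp, MonoidHom.comp_apply]

/-- **GLOB-CF, PI-IOTA**: the `(π, ι)` data of a tower `ℚ ⊆ L ⊆ E` of number fields for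
`h30_cfbuild`. -/
theorem h90_glob_quot (L E : Type*) [Field L] [NumberField L] [Field E] [NumberField E]
    [Algebra L E] [IsGalois ℚ L] [IsGalois ℚ E] (S : Finset Nat.Primes) (hS : S.Nonempty)
    (hur : h25_UnramOutside L E S) :
    Function.Surjective (AlgEquiv.restrictNormalHom (F := ℚ) (K₁ := E) L) ∧
    Function.Injective (h25_Cmap S (algebraMap L E)).toAdditive ∧
    (∀ (g : E ≃ₐ[ℚ] E) (b : Additive (h25_C L S)),
      (h25_Cmap S (algebraMap L E)).toAdditive (AlgEquiv.restrictNormalHom L g • b)
        = g • (h25_Cmap S (algebraMap L E)).toAdditive b) ∧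
    (∀ c : Additive (h25_C E S),
      (∀ s ∈ (AlgEquiv.restrictNormalHom (F := ℚ) (K₁ := E) L).ker, s • c = c) →
        c ∈ ((h25_Cmap S (algebraMap L E)).toAdditive).range) := by
  have hgal : IsGalois L E := IsGalois.tower_top_of_isGalois ℚ L E
  refine ⟨AlgEquiv.restrictNormalHom_surjective E, ?_, ?_, ?_⟩
  · intro a b hab
    have h1 : h25_Cmap S (algebraMap L E) (Additive.toMul a) =
        h25_Cmap S (algebraMap L E) (Additive.toMul b) := congrArg Additive.toMul hab
    exact congrArg Additive.ofMul (h10_desc_injective L E S hS h1)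
  · intro g b
    exact congrArg Additive.ofMul (h90_Cmap_restrictNormal L E S g (Additive.toMul b))
  · intro c hc
    have hfix : ∀ σ : E ≃ₐ[L] E, h25_Cmap S (σ : E →+* E) (Additive.toMul c) = Additive.toMul c := by
      intro σ
      have h1 := hc (σ.restrictScalars ℚ) (h96_restrictScalars_mem_ker ℚ L E σ)
      exact congrArg Additive.toMul h1
    obtain ⟨b, hb⟩ := (h10_desc_range L E S hS hur (Additive.toMul c)).1 hfix
    exact ⟨Additive.ofMul b, congrArg Additive.ofMul hb⟩

end

end Fermat.Agent.S55
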