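import Mathlib
import Fermat.Agent.S55.h25_GlobVal
import Fermat.Agent.S55.h66_GlobFunc2
import Fermat.Agent.S55.h90_GlobCAct
import Fermat.Agent.S55.h90_GlobQuot
import Fermat.Agent.S55.h81_GlobUnr
import Fermat.Agent.S55.h81_GlobDeg
import Fermat.Agent.S55.h84_CycGal
import Fermat.Agent.S55.h84_ValExtC
import Fermat.Agent.S55.h78_GlobCFCFA2
import Fermat.Agent.S55.h88_CFDataLoc
import Fermat.Agent.S55.h30_CFBuild

/-!
# S55 GLOB-CF: the global class formation at a level (assembly)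

For a number field `L` (a type), Galois over `ℚ` and unramified outside `S`, and an odd prime
`p = P ∈ S`, the `p`-localisation of the `S`-class module `h25_C L S` is a `p`-class module for
`Gal(L/ℚ)` (`h90_glob_classModule_of`):
`H¹(H, C_L ⊗ ℤ_(p)) = 0` and `H²(H, C_L ⊗ ℤ_(p))` is cyclic of order `|H|_p`, generated by the
restriction of one class, for every subgroup `H ≤ Gal(L/ℚ)`.

Proof (the global twin of `h63_local_classModule`): H-CFBUILD (`h30_cfbuild`) applied to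
`E = L(ζ_{p^(n+1)})` (`n = v_p |Gal(L/ℚ)|`), `G = Gal(E/ℚ)`, `deg` = the degree map of the
cyclotomic `ℤ_p`-tower (`h81_glob_deg`), `w` = the valuation `h25_wA` (`h90_glob_cfdata_of`),
`π` = restriction to `L`, `ι = C_L ⊗ ℤ_(p) → C_E ⊗ ℤ_(p)` (`h90_glob_quot`).

The three inputs which are not yet on main are explicit hypotheses:
* `hloc : h40_IsPLocal p (Additive (h18_U1 p))`           (U1-PLOC, helper18);
* `hV   : h90_HypV S P`    = (V1),(V2) of `h30_CFData`     (row 355 GLOB-CF-V, `sk_glob_cf_V`);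
* `hcfa : h78_HypCFA S p`  = the class field axiom `sk_cfa` (row 273 GLOB-CFA).
-/

set_option autoImplicit false

open IsDedekindDomain NumberField

universe u

namespace Fermat.Agent.S55

noncomputable section

/-- Row 355 (GLOB-CF-V, `sk_glob_cf_V`) for all levels in universe `u`: the honest (V1), (V2)
of `h30_CFData` for `Gal(L/ℚ)` acting on `h25_C L S`, `w = h25_wC`. -/
def h90_HypV (S : Finset Nat.Primes) (P : S) : Prop :=
  ∀ (L : Type u) [Field L] [NumberField L] [IsGalois ℚ L],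
    h25_UnramOutside ℚ L S → ∀ (n : ℕ) (ζ : L),
    IsPrimitiveRoot ζ (((P : Nat.Primes) : ℕ) ^ (n + 1)) →
    ∀ deg : (L ≃ₐ[ℚ] L) →* Multiplicative (ZMod (((P : Nat.Primes) : ℕ) ^ n)),
    (∀ (σ : L ≃ₐ[ℚ] L) (t : ℕ), σ ζ = ζ ^ t →
      (t : ZMod (((P : Nat.Primes) : ℕ) ^ (n + 1))) ^ (((P : Nat.Primes) : ℕ) - 1) =
        (1 + (((P : Nat.Primes) : ℕ) : ZMod (((P : Nat.Primes) : ℕ) ^ (n + 1)))) ^
          (Multiplicative.toAdd (deg σ)).val) →
    (∀ (H : Subgroup (L ≃ₐ[ℚ] L)) (c : h25_C L S),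
        (∀ h ∈ H, h25_Cmap S ((h : L ≃ₐ[ℚ] L) : L →+* L) c = c) →
        ∃ y : h18_U1 ((P : Nat.Primes) : ℕ),
          h25_wC L S P c = y ^ (Nat.card H * (H.map deg).index)) ∧
    (∀ H : Subgroup (L ≃ₐ[ℚ] L), H.map deg ≠ ⊥ → ∃ c : h25_C L S,
        (∀ h ∈ H, h25_Cmap S ((h : L ≃ₐ[ℚ] L) : L →+* L) c = c) ∧
        ¬ ∃ y : h18_U1 ((P : Nat.Primes) : ℕ),
          h25_wC L S P c = y ^ (((P : Nat.Primes) : ℕ) * (Nat.card H * (H.map deg).index)))

/-- `U1 = 1 + pℤ_p` has no `p`-torsion (additive form; the field `tf` of `h30_CFData`). -/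
theorem h90_U1_tf (p : ℕ) [Fact p.Prime] (hp2 : p ≠ 2) :
    ∀ x : Additive (h18_U1 p), p • x = 0 → x = 0 := by
  intro x hx
  have h1 : (Additive.toMul x : h18_U1 p) ^ p = 1 := congrArg Additive.toMul hx
  have h2 : ((Additive.toMul x : h18_U1 p) : ℤ_[p]ˣ) ^ p = 1 := by
    have := congrArg (fun y : h18_U1 p => (y : ℤ_[p]ˣ)) h1
    simpa using this
  have h3 := h18_U1_torsionFree p hp2 _ (Additive.toMul x).2 h2
  have h4 : (Additive.toMul x : h18_U1 p) = 1 := Subtype.ext h3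
  exact congrArg Additive.ofMul h4

/-- multiplicative (CFA1),(CFA2) ⟹ the additive form of `h30_CFData` / `h88_cfdata_PL`. -/
theorem h90_cfa_additive {G M : Type*} [Group G] [CommGroup M] [MulDistribMulAction G M]
    (p : ℕ) (H₁ H₂ : Subgroup G) (σ : G)
    (h1 : ∀ c : M, (∀ h ∈ H₂, h • c = c) → ∏ i ∈ Finset.range p, σ ^ i • c = 1 →
      ∃ b : M, (∀ h ∈ H₂, h • b = b) ∧ σ • b / b = c)
    (h2 : ∃ c₀ : M, (∀ h ∈ H₁, h • c₀ = c₀) ∧ ∀ c : M, (∀ h ∈ H₁, h • c = c) →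
      ∃ (k : ℕ) (b : M), (∀ h ∈ H₂, h • b = b) ∧ c = c₀ ^ k * ∏ i ∈ Finset.range p, σ ^ i • b) :
    (∀ c : Additive M, (∀ h ∈ H₂, h • c = c) → ∑ i ∈ Finset.range p, σ ^ i • c = 0 →
      ∃ b : Additive M, (∀ h ∈ H₂, h • b = b) ∧ σ • b - b = c) ∧
    (∃ c₀ : Additive M, (∀ h ∈ H₁, h • c₀ = c₀) ∧ ∀ c : Additive M, (∀ h ∈ H₁, h • c = c) →
      ∃ (k : ℕ) (b : Additive M), (∀ h ∈ H₂, h • b = b) ∧
        c = k • c₀ + ∑ i ∈ Finset.range p, σ ^ i • b) := by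
  have hsum : ∀ c : Additive M, Additive.toMul (∑ i ∈ Finset.range p, σ ^ i • c) =
      ∏ i ∈ Finset.range p, σ ^ i • Additive.toMul c := by
    intro c
    rw [toMul_sum]
    rfl
  refine ⟨fun c hc hs => ?_, ?_⟩
  · obtain ⟨b, hb, hbc⟩ := h1 (Additive.toMul c) (fun h hh => congrArg Additive.toMul (hc h hh))
      (by rw [← hsum, hs]; rfl)
    exact ⟨Additive.ofMul b, fun h hh => congrArg Additive.ofMul (hb h hh),
      congrArg Additive.ofMul hbc⟩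
  · obtain ⟨c₀, hc₀, h⟩ := h2
    refine ⟨Additive.ofMul c₀, fun h hh => congrArg Additive.ofMul (hc₀ h hh), fun c hc => ?_⟩
    obtain ⟨k, b, hb, hcb⟩ := h (Additive.toMul c) (fun h hh => congrArg Additive.toMul (hc h hh))
    refine ⟨k, Additive.ofMul b, fun h hh => congrArg Additive.ofMul (hb h hh), ?_⟩
    apply Additive.toMul.injective
    rw [hcb, toMul_add, toMul_nsmul, hsum]
    rfl

/-- **GLOB-CF, data part**: `h30_CFData` for `Gal(E/ℚ)` acting on `C_E ⊗ ℤ_(p)`, for a number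
field `E` Galois over `ℚ`, unramified outside `S ∋ p`, containing `ζ_{p^(n+1)}`. -/
theorem h90_glob_cfdata_of (S : Finset Nat.Primes) (P : S) (hp2 : ((P : Nat.Primes) : ℕ) ≠ 2)
    (hloc : h40_IsPLocal ((P : Nat.Primes) : ℕ) (Additive (h18_U1 ((P : Nat.Primes) : ℕ))))
    (hV : h90_HypV.{u} S P) (hcfa : h78_HypCFA.{u} S ((P : Nat.Primes) : ℕ))
    (E : Type u) [Field E] [NumberField E] [IsGalois ℚ E] (hur : h25_UnramOutside ℚ E S)
    (n : ℕ) (ζ : E) (hζ : IsPrimitiveRoot ζ (((P : Nat.Primes) : ℕ) ^ (n + 1))) :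
    ∃ (deg : (E ≃ₐ[ℚ] E) →* Multiplicative (ZMod (((P : Nat.Primes) : ℕ) ^ n)))
      (w : h2_PL ((P : Nat.Primes) : ℕ) (Additive (h25_C E S)) →+
        Additive (h18_U1 ((P : Nat.Primes) : ℕ))),
      h30_CFData ((P : Nat.Primes) : ℕ) deg w ∧
      (∀ c : Additive (h25_C E S), w (h2_PL.j c) = h25_wA E S P c) ∧
      (∀ (σ : E ≃ₐ[ℚ] E) (t : ℕ), σ ζ = ζ ^ t →
        (t : ZMod (((P : Nat.Primes) : ℕ) ^ (n + 1))) ^ (((P : Nat.Primes) : ℕ) - 1) =
          (1 + (((P : Nat.Primes) : ℕ) : ZMod (((P : Nat.Primes) : ℕ) ^ (n + 1)))) ^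
            (Multiplicative.toAdd (deg σ)).val) := by
  classical
  obtain ⟨deg, hdsurj, hdeg⟩ := h81_glob_deg ((P : Nat.Primes) : ℕ) hp2 E n ζ hζ
  obtain ⟨hV1, hV2⟩ := hV E hur n ζ hζ deg hdeg
  obtain ⟨w, hw⟩ := h2_PL.exists_lift hloc (h25_wA E S P)
  refine ⟨deg, w, ?_, hw, hdeg⟩
  have hS : S.Nonempty := ⟨P.1, P.2⟩
  refine h88_cfdata_PL deg hdsurj hloc (h90_U1_tf ((P : Nat.Primes) : ℕ) hp2)
    (h25_wA E S P) ?_ ?_ ?_ ?_ ?_ w hw
  · intro g c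
    exact h84_wA_inv_algEquiv S P hp2 g (Additive.toMul c)
  · intro H c hc
    obtain ⟨y, hy⟩ := hV1 H (Additive.toMul c) (fun h hh => congrArg Additive.toMul (hc h hh))
    exact ⟨Additive.ofMul y, congrArg Additive.ofMul hy⟩
  · intro H hH
    obtain ⟨c, hc, hny⟩ := hV2 H hH
    refine ⟨Additive.ofMul c, fun h hh => congrArg Additive.ofMul (hc h hh), ?_⟩
    rintro ⟨y, hy⟩
    exact hny ⟨Additive.toMul y, congrArg Additive.toMul hy⟩
  · intro H₁ H₂ _ h21 hnorm hidx σ hσ1 hσ2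
    obtain ⟨h1, h2⟩ := h78_glob_cf_cfa_of_cfa E S hS ((P : Nat.Primes) : ℕ) P.1.2 hcfa hur
      H₁ H₂ h21 hnorm hidx σ hσ1 hσ2
    exact (h90_cfa_additive ((P : Nat.Primes) : ℕ) H₁ H₂ σ h1 h2).1
  · intro H₁ H₂ _ h21 hnorm hidx σ hσ1 hσ2
    obtain ⟨h1, h2⟩ := h78_glob_cf_cfa_of_cfa E S hS ((P : Nat.Primes) : ℕ) P.1.2 hcfa hur
      H₁ H₂ h21 hnorm hidx σ hσ1 hσ2
    exact (h90_cfa_additive ((P : Nat.Primes) : ℕ) H₁ H₂ σ h1 h2).2

/-- **GLOB-CF**: the global class formation at a level.  For a number field `L` (a type), Galois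
over `ℚ` and unramified outside `S`, and an odd prime `p = P ∈ S`, the `p`-localisation of the
`S`-class module `C_L` is a `p`-class module for `Gal(L/ℚ)`.  (Conditional on the three inputs
`hloc`, `hV`, `hcfa` listed in the module docstring.) -/
theorem h90_glob_classModule_of (S : Finset Nat.Primes) (P : S)
    (hp2 : ((P : Nat.Primes) : ℕ) ≠ 2)
    (hloc : h40_IsPLocal ((P : Nat.Primes) : ℕ) (Additive (h18_U1 ((P : Nat.Primes) : ℕ))))
    (hV : h90_HypV.{u} S P) (hcfa : h78_HypCFA.{u} S ((P : Nat.Primes) : ℕ))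
    (L : Type u) [Field L] [NumberField L] [IsGalois ℚ L] (hur : h25_UnramOutside ℚ L S) :
    IsPClassModule ((P : Nat.Primes) : ℕ) (L ≃ₐ[ℚ] L)
      (h2_PL ((P : Nat.Primes) : ℕ) (Additive (h25_C L S))) := by
  classical
  obtain ⟨n, hn⟩ : ∃ n : ℕ, n = (Nat.card (L ≃ₐ[ℚ] L)).factorization ((P : Nat.Primes) : ℕ) :=
    ⟨_, rfl⟩
  have hm : NeZero (((P : Nat.Primes) : ℕ) ^ (n + 1)) := ⟨pow_ne_zero _ P.1.2.ne_zero⟩
  obtain ⟨-, hgal0⟩ := h84_cyclotomic_isGalois ℚ L (((P : Nat.Primes) : ℕ) ^ (n + 1))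
  -- the two `ℚ`-algebra structures on the cyclotomic field agree definitionally
  have hgal : IsGalois ℚ (CyclotomicField (((P : Nat.Primes) : ℕ) ^ (n + 1)) L) := hgal0
  have hζ := IsCyclotomicExtension.zeta_spec (((P : Nat.Primes) : ℕ) ^ (n + 1)) L
    (CyclotomicField (((P : Nat.Primes) : ℕ) ^ (n + 1)) L)
  have hurE : h25_UnramOutside ℚ (CyclotomicField (((P : Nat.Primes) : ℕ) ^ (n + 1)) L) S :=
    h81_unram_cyclotomicField L S P.1 P.2 (n + 1) hur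
  obtain ⟨deg, w, D, -, -⟩ := h90_glob_cfdata_of S P hp2 hloc hV hcfa
    (CyclotomicField (((P : Nat.Primes) : ℕ) ^ (n + 1)) L) hurE n _ hζ
  obtain ⟨hπ, hι, hιeq, hιfix⟩ := h90_glob_quot L
    (CyclotomicField (((P : Nat.Primes) : ℕ) ^ (n + 1)) L) S ⟨P.1, P.2⟩
    (h81_unram_top ℚ L (CyclotomicField (((P : Nat.Primes) : ℕ) ^ (n + 1)) L) S hurE)
  exact h30_cfbuild deg w D (AlgEquiv.restrictNormalHom L) hπ hn.ge
    (h2_PL.map (h25_Cmap S (algebraMap L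
      (CyclotomicField (((P : Nat.Primes) : ℕ) ^ (n + 1)) L))).toAdditive)
    (h2_PL.map_injective _ hι) (h2_PL.map_smul_of _ _ hιeq)
    (h2_PL.mem_range_map_of_fixed _ _ hιfix)

end

end Fermat.Agent.S55
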