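import Mathlib
import Fermat.Agent.S55.h90_GlobCF
import Fermat.Agent.S55.h18_U1PLocal
import Fermat.Agent.S55.h73_GlobCFVFinal
import Fermat.Agent.S55.h25_GlobCFAFinal

/-!
# S55 GLOB-CF: the global class formation at a level, unconditional

`h90_glob_classModule` : for a number field `L` (a type), Galois over `ℚ` and unramified outside
`S`, and an odd prime `p = P ∈ S`, the `p`-localisation of the `S`-class module `h25_C L S` is a
`p`-class module for `Gal(L/ℚ)`:

`H¹(H, C_L ⊗ ℤ_(p)) = 0` and `H²(H, C_L ⊗ ℤ_(p))` is cyclic of order `|H|_p`, generated by the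
restriction of one class, for every subgroup `H ≤ Gal(L/ℚ)`.

This is `h90_glob_classModule_of` (`h90_GlobCF.lean`) with its three inputs discharged:
* U1-PLOC  `h18_U1_isPLocal` (helper18),
* GLOB-CF-V `h73_glob_cf_V` (helper73; VAL rows of helper10, helper21, helper84, helper69,
  helper18),
* GLOB-CFA  `h25_cfa` (helper25; first inequality helper92 + helper28, second inequality
  helper35 + helper93 + helper78, descent helper81 + helper10).

Also: `h90_glob_cfdata` (the `h30_CFData` record at `E ∋ ζ_{p^(n+1)}`), the generic-`p` form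
`h90_glob_classModule'`, and the form for subgroups / intermediate fields via `h82_classModule_comap`
is left to the consumers.
-/

set_option autoImplicit false

open IsDedekindDomain NumberField

universe u

namespace Fermat.Agent.S55

noncomputable section

/-- Row 355 in the packaged form `h90_HypV`. -/
theorem h90_hypV (S : Finset Nat.Primes) (P : S) (hp2 : ((P : Nat.Primes) : ℕ) ≠ 2) :
    h90_HypV.{u} S P :=
  fun L _ _ _ hur n ζ hζ deg hdeg => h73_glob_cf_V L S P hp2 hur n ζ hζ deg hdeg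

/-- Row 273 in the packaged form `h78_HypCFA`. -/
theorem h90_hypCFA (S : Finset Nat.Primes) (hS : S.Nonempty) (p : ℕ) (hp : p.Prime)
    (hp2 : p ≠ 2) : h78_HypCFA.{u} S p :=
  fun _ _ _ _ _ _ _ _ hdeg hur σ hσ => h25_cfa S p hp hp2 hdeg hS hur σ hσ

/-- **GLOB-CF, data part** (unconditional): `h30_CFData` for `Gal(E/ℚ)` acting on
`C_E ⊗ ℤ_(p)`, for a number field `E` Galois over `ℚ`, unramified outside `S ∋ p`, containing
`ζ_{p^(n+1)}`; `deg` is the degree map of the cyclotomic `ℤ_p`-tower and `w` extends `h25_wA`. -/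
theorem h90_glob_cfdata (S : Finset Nat.Primes) (P : S) (hp2 : ((P : Nat.Primes) : ℕ) ≠ 2)
    (E : Type u) [Field E] [NumberField E] [IsGalois ℚ E] (hur : h25_UnramOutside ℚ E S)
    (n : ℕ) (ζ : E) (hζ : IsPrimitiveRoot ζ (((P : Nat.Primes) : ℕ) ^ (n + 1))) :
    ∃ (deg : (E ≃ₐ[ℚ] E) →* Multiplicative (ZMod (((P : Nat.Primes) : ℕ) ^ n)))
      (w : h2_PL ((P : Nat.Primes) : ℕ) (Additive (h25_C E S)) →+
        Additive (h18_U1 ((P : Nat.Primes) : ℕ))),
      h30_CFData ((P : Nat.Primes) : ℕ) deg w ∧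
      (∀ c : Additive (h25_C E S), w (h2_PL.j c) = h25_wA E S P c) ∧
      (∀ (σ : E ≃ₐ[ℚ] E) (t : ℕ), σ ζ = ζ ^ t →
        (t : ZMod (((P : Nat.Primes) : ℕ) ^ (n + 1))) ^ (((P : Nat.Primes) : ℕ) - 1) =
          (1 + (((P : Nat.Primes) : ℕ) : ZMod (((P : Nat.Primes) : ℕ) ^ (n + 1)))) ^
            (Multiplicative.toAdd (deg σ)).val) :=
  h90_glob_cfdata_of S P hp2 (h18_U1_isPLocal ((P : Nat.Primes) : ℕ) hp2) (h90_hypV S P hp2)
    (h90_hypCFA S ⟨P.1, P.2⟩ ((P : Nat.Primes) : ℕ) P.1.2 hp2) E hur n ζ hζ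

/-- **GLOB-CF**: the global class formation at a level.  For a number field `L` (a type), Galois
over `ℚ` and unramified outside `S`, and an odd prime `p = P ∈ S`, the `p`-localisation of the
`S`-class module `C_L = h25_C L S` is a `p`-class module for `Gal(L/ℚ)`. -/
theorem h90_glob_classModule (S : Finset Nat.Primes) (P : S)
    (hp2 : ((P : Nat.Primes) : ℕ) ≠ 2)
    (L : Type u) [Field L] [NumberField L] [IsGalois ℚ L] (hur : h25_UnramOutside ℚ L S) :
    IsPClassModule ((P : Nat.Primes) : ℕ) (L ≃ₐ[ℚ] L)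
      (h2_PL ((P : Nat.Primes) : ℕ) (Additive (h25_C L S))) :=
  h90_glob_classModule_of S P hp2 (h18_U1_isPLocal ((P : Nat.Primes) : ℕ) hp2)
    (h90_hypV S P hp2) (h90_hypCFA S ⟨P.1, P.2⟩ ((P : Nat.Primes) : ℕ) P.1.2 hp2) L hur

/-- **GLOB-CF**, generic-`p` form: `p` an odd prime with `⟨p, _⟩ ∈ S`. -/
theorem h90_glob_classModule' (p : ℕ) [hp : Fact p.Prime] (hp2 : p ≠ 2) (S : Finset Nat.Primes)
    (hpS : (⟨p, hp.out⟩ : Nat.Primes) ∈ S)
    (L : Type u) [Field L] [NumberField L] [IsGalois ℚ L] (hur : h25_UnramOutside ℚ L S) :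
    IsPClassModule p (L ≃ₐ[ℚ] L) (h2_PL p (Additive (h25_C L S))) :=
  h90_glob_classModule S ⟨⟨p, hp.out⟩, hpS⟩ hp2 L hur

end

end Fermat.Agent.S55
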