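import Mathlib
import Fermat.Agent.S55.h90_GlobCFFinal
import Fermat.Agent.S55.h37_UnrDict
import Fermat.Agent.S55.h41_HypNorm
import Fermat.Agent.S55.h56_GalLevels

/-!
# S55 GLOB-CF at the levels inside `Qbar` (the field `cf` of `h12_LevFacts`, model form)

* `h90_level_classModule` : for a level `L : IntermediateField ℚ Qbar` (`h25_IsLevel S L`), an odd
  prime `p` with `pPrime p ∈ S`: `IsPClassModule p (↥L ≃ₐ[ℚ] ↥L) (h2_PL p (Additive (h25_C ↥L S)))`;
* `h90_lf_cf_level` : the same for `L : h56_Level S` (carrier `↥L.field`) - the field `cf` of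
  `h12_LevFacts` for the model `Γ L = ↥L.field ≃ₐ[ℚ] ↥L.field`,
  `C L = h2_PL p (Additive (h25_C ↥L.field S))`;
* `h90_hypNorm` : `h33_HypNorm S p` (GLOB-NORMIDX-ARITH, helper41) is now unconditional.
-/

set_option autoImplicit false

open IsDedekindDomain NumberField ExtCitation

namespace Fermat.Agent.S55

local notation "Qb" => AlgebraicClosure ℚ

/-- **GLOB-CF at a level** `L ⊆ Qbar` (finite Galois over `ℚ`, unramified outside `S` in the
prelude sense), `p` odd, `p ∈ S`. -/
theorem h90_level_classModule (p : ℕ) [Fact p.Prime] (hp2 : p ≠ 2) (S : Finset Nat.Primes)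
    (hpS : pPrime p ∈ S) (L : IntermediateField ℚ Qb) [NumberField ↥L] (hL : h25_IsLevel S L) :
    IsPClassModule p (↥L ≃ₐ[ℚ] ↥L) (h2_PL p (Additive (h25_C ↥L S))) := by
  have : IsGalois ℚ ↥L := hL.2
  exact h90_glob_classModule' p hp2 S hpS ↥L (h37_unramOutside_of_level S L hL)

/-- **The field `cf` of `h12_LevFacts`** in the model `Γ L = Gal(L/ℚ)`,
`C L = C_L ⊗ ℤ_(p)` (`L : h56_Level S`). -/
theorem h90_lf_cf_level (p : ℕ) [Fact p.Prime] (hp2 : p ≠ 2) (S : Finset Nat.Primes)
    (hpS : pPrime p ∈ S) (L : h56_Level S) [NumberField ↥L.field] :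
    IsPClassModule p (↥L.field ≃ₐ[ℚ] ↥L.field) (h2_PL p (Additive (h25_C ↥L.field S))) :=
  h90_level_classModule p hp2 S hpS L.field ⟨L.unram, L.isGalois⟩

/-- **GLOB-NORMIDX-ARITH is unconditional**: the abelian norm index theorem for exponent-`p`
steps between levels (`h41_hypNorm` with GLOB-CF discharged). -/
theorem h90_hypNorm (p : ℕ) [Fact p.Prime] (hp2 : p ≠ 2) (S : Finset Nat.Primes)
    (hpS : pPrime p ∈ S) : h33_HypNorm S p :=
  h41_hypNorm S ⟨pPrime p, hpS⟩
    (fun L' _ hL' => h90_level_classModule p hp2 S hpS L' hL')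

end Fermat.Agent.S55
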