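import Mathlib
import Fermat.Agent.S55.h90_GlobCFLevel
import Fermat.Agent.S55.h40_AmbModel

/-!
# S55 Tier 3, row LF-CF: the field `cf` of the `h12_LevFacts` instance

`h90_lf_cf` : for every level `L : h56_Level S`, `IsPClassModule p (h40_Γ S L) (h40_C p S L)`,
i.e. GLOB-CF (`h90_glob_classModule`) at the level `L`, in EXACTLY the shape of the field
`cf : ∀ L : h56_Level S, IsPClassModule p (Γ L) (C L)` of `h12_LevFacts` over helper40's model
`Γ = h40_Γ S`, `C = h40_C p S` (`h40_AmbModel.lean`).
-/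

set_option autoImplicit false

open ExtCitation

namespace Fermat.Agent.S55

/-- **LF-CF**: the field `cf` of `h12_LevFacts` for the model of `h40_AmbModel`
(`p` odd, `pPrime p ∈ S`). -/
theorem h90_lf_cf (p : ℕ) [Fact p.Prime] (hp2 : p ≠ 2) (S : Finset Nat.Primes)
    (hpS : pPrime p ∈ S) :
    ∀ L : h56_Level S, IsPClassModule p (h40_Γ S L) (h40_C p S L) :=
  fun L => h90_lf_cf_level p hp2 S hpS L

end Fermat.Agent.S55
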