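import Fermat.Agent.S55.h41_LfEx
import Fermat.Agent.S55.h90_LfCf

/-!
# S55, Tier 3 (GLOB-AMB): the field `ex` of `h12_LevFacts`, unconditional (helper41)

`h41_lf_ex_final` = `h41_lf_ex` with the field `cf` supplied by helper90's `h90_lf_cf`.
-/

set_option autoImplicit false

namespace Fermat.Agent.S55

/-- **Field `ex` of `h12_LevFacts`** at helper40's model, unconditional (`p` odd, `p ∈ S`). -/
theorem h41_lf_ex_final (S : Finset Nat.Primes) (p : ℕ) [Fact p.Prime] (hp2 : p ≠ 2)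
    (hpS : ExtCitation.pPrime p ∈ S) :
    ∀ L : h56_Level S, ∃ (L' : h56_Level S) (h : L ≤ L'), ∀ c' : h40_C p S L',
      ∃ c : h40_C p S L, ∑ᶠ t : h40_K S L L', (t : h40_Γ S L') • c' = h40_ι p S L L' h (p • c) :=
  h41_lf_ex S p hp2 hpS (h90_lf_cf p hp2 S hpS)

end Fermat.Agent.S55
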