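import Fermat.Agent.S55.h46_UnramVal
import Fermat.Agent.S55.h81_GlobUnr
import Fermat.Agent.S14.GalVal

/-!
# S55, GLOB-AMB: the unramifiedness bridge (prelude levels ⟹ arithmetic carrier)

Levels are unramified outside `S` in the PRELUDE sense (`IntermediateField.IsUnramifiedOutside`:
inertia groups of valuation subrings of `ℚbar` over primes outside `S` fix the field), while the
arithmetic rows (`h10_desc_range`, `h81_unram_*`, GLOB-CF, ...) use `h25_UnramOutside`
(ramification index `1` at the primes not above `S`).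

* `h10_level_unram` : a Galois level `L` satisfies `h25_UnramOutside ℚ ↥L S`;
* `h10_level_unram_rel` : `h25_UnramOutside ↥L ↥L' S` for levels `L`, `L'` and any compatible
  algebra structure;
* `h10_inclAlgebra h` : the algebra structure of an inclusion `L ≤ L'`, with
  `h10_incl_isScalarTower`, `h10_incl_isGalois`, `h10_level_unram_incl`.
-/

set_option autoImplicit false

open IsDedekindDomain NumberField

namespace Fermat.Agent.S55

local notation "Qb" => AlgebraicClosure ℚ

/-- **GLOB-UNR-BRIDGE.**  A finite Galois extension of `ℚ` inside `ℚbar` which is unramified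
outside `S` in the prelude sense (inertia groups of valuation subrings of `ℚbar`) is unramified
outside `S` in the sense of the arithmetic carrier (ramification index `1`). -/
theorem h10_level_unram (S : Finset Nat.Primes) (L : IntermediateField ℚ Qb) [NumberField ↥L]
    [IsGalois ℚ ↥L] (hL : L.IsUnramifiedOutside S) : h25_UnramOutside ℚ ↥L S := by
  intro w
  have : w.1.asIdeal.IsPrime := w.1.isPrime
  obtain ⟨A, ℓ, hℓ, hAℓ, hℓw, hA⟩ := Fermat.Agent.S14.gal_exists_valuationSubring ↥L
    (algebraMap ↥L Qb) w.1.asIdeal w.1.ne_bot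
  have hℓS : (⟨ℓ, hℓ⟩ : Nat.Primes) ∉ S := fun h => w.2 ⟨⟨ℓ, hℓ⟩, h, hℓw⟩
  have hbot := h46_inertia_eq_bot S L hL A ⟨ℓ, hℓ⟩ hℓS hAℓ w.1.asIdeal (fun z => (hA z).2)
  have hcard := Ideal.card_inertia_eq_ramificationIdxIn (G := Gal(L/ℚ))
    (w.1.asIdeal.under (𝓞 ℚ)) w.1.asIdeal
  have hidx := Ideal.ramificationIdxIn_eq_ramificationIdx (w.1.asIdeal.under (𝓞 ℚ))
    w.1.asIdeal Gal(L/ℚ)
  rw [hbot, Subgroup.card_bot, hidx] at hcard
  exact hcard.symm

/-- The level form: `h25_IsLevel S L` gives `h25_UnramOutside ℚ ↥L S`. -/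
theorem h10_isLevel_unram (S : Finset Nat.Primes) (L : IntermediateField ℚ Qb) [NumberField ↥L]
    (hL : h25_IsLevel S L) : h25_UnramOutside ℚ ↥L S :=
  haveI : IsGalois ℚ ↥L := hL.2
  h10_level_unram S L hL.1

/-- A level is a number field. -/
theorem h10_isLevel_numberField (S : Finset Nat.Primes) (L : IntermediateField ℚ Qb)
    (hL : L.IsUnramifiedOutside S) : NumberField ↥L :=
  haveI : FiniteDimensional ℚ ↥L := hL.1
  ⟨⟩

/-- Relative form, for ANY algebra structure `↥L → ↥L'` compatible with the `ℚ`-structures. -/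
theorem h10_level_unram_rel (S : Finset Nat.Primes) (L L' : IntermediateField ℚ Qb)
    [NumberField ↥L] [NumberField ↥L'] [IsGalois ℚ ↥L'] [Algebra ↥L ↥L'] [IsScalarTower ℚ ↥L ↥L']
    (hL' : L'.IsUnramifiedOutside S) : h25_UnramOutside ↥L ↥L' S :=
  h81_unram_top ℚ ↥L ↥L' S (h10_level_unram S L' hL')

section Incl

variable {L L' : IntermediateField ℚ Qb} (h : L ≤ L')

/-- The algebra structure `↥L → ↥L'` of an inclusion of intermediate fields. -/
@[reducible] noncomputable def h10_inclAlgebra : Algebra ↥L ↥L' :=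
  (IntermediateField.inclusion h).toRingHom.toAlgebra

theorem h10_incl_algebraMap_apply (x : ↥L) :
    letI := h10_inclAlgebra h
    ((algebraMap ↥L ↥L' x : ↥L') : Qb) = (x : Qb) := rfl

theorem h10_incl_isScalarTower :
    letI := h10_inclAlgebra h
    IsScalarTower ℚ ↥L ↥L' :=
  letI := h10_inclAlgebra h
  IsScalarTower.of_algebraMap_eq fun r => by
    apply Subtype.ext
    rfl

theorem h10_incl_isScalarTower_top :
    letI := h10_inclAlgebra h
    IsScalarTower ↥L ↥L' Qb :=
  letI := h10_inclAlgebra h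
  IsScalarTower.of_algebraMap_eq fun _ => rfl

theorem h10_incl_isGalois [IsGalois ℚ ↥L'] :
    letI := h10_inclAlgebra h
    IsGalois ↥L ↥L' :=
  letI := h10_inclAlgebra h
  haveI := h10_incl_isScalarTower h
  IsGalois.tower_top_of_isGalois ℚ ↥L ↥L'

/-- Relative form for the inclusion algebra. -/
theorem h10_level_unram_incl (S : Finset Nat.Primes) [NumberField ↥L] [NumberField ↥L']
    [IsGalois ℚ ↥L'] (hL' : L'.IsUnramifiedOutside S) :
    letI := h10_inclAlgebra h
    h25_UnramOutside ↥L ↥L' S :=
  letI := h10_inclAlgebra h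
  haveI := h10_incl_isScalarTower h
  h10_level_unram_rel S L L' hL'

end Incl

end Fermat.Agent.S55
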