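import Fermat.Agent.S55.h41_DescLevel
import Fermat.Agent.S55.h97_GalLevel
import Fermat.Agent.S55.h90_GlobCAct
import Fermat.Agent.S55.h4_JqAct
import Fermat.Agent.S55.h2_PLoc

/-!
# S55, GLOB-AMB, SYS fields of the level-wise instance: model-independent cores

The fields `π_surj, π_ker, K_mem, ι_refl, ι_trans, ι_smul, ι_inj, ι_desc, k_ι, k_smul` of
`h12_LevFacts` for the concrete level system on the carrier `h25_C`, stated on the primitive
constants (`h97_π`, `h33_relGal`, `h33_ext`, `h2_PL.map`, `h2_PL.j`, `h25_mk`), for arbitrary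
intermediate fields `L ≤ L'` of `ℚbar/ℚ` (number fields, Galois over `ℚ` where needed).
-/

set_option autoImplicit false
set_option linter.unusedSectionVars false

open IsDedekindDomain NumberField

namespace Fermat.Agent.S55

local notation "Qb" => AlgebraicClosure ℚ
local notation "GQ" => (AlgebraicClosure ℚ ≃ₐ[ℚ] AlgebraicClosure ℚ)

/-! ### Generic facts on the localisation `h2_PL` -/

section PLGeneric

variable {p : ℕ} [Fact p.Prime] {C D : Type*} [AddCommGroup C] [AddCommGroup D]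

/-- Semi-equivariance survives localisation (two unrelated acting monoids). -/
theorem h10_PL_map_smul {G G' : Type*} [Monoid G] [Monoid G'] [DistribMulAction G C]
    [DistribMulAction G' D] (φ : C →+ D) (a : G) (b : G') (hφ : ∀ c : C, φ (a • c) = b • φ c)
    (x : h2_PL p C) : h2_PL.map φ (a • x) = b • h2_PL.map φ x := by
  rw [h2_PL.smul_def, h2_PL.smul_def, ← AddMonoidHom.comp_apply, ← h2_PL.map_comp,
    ← AddMonoidHom.comp_apply (h2_PL.map _) (h2_PL.map φ), ← h2_PL.map_comp]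
  congr 2
  ext c
  exact hφ c

/-- Descent survives localisation: if the range of `φ` contains the `H`-invariants (`H` a finite
subgroup), so does the range of `h2_PL.map φ`. -/
theorem h10_PL_desc {G : Type*} [Group G] [DistribMulAction G D] (H : Subgroup G) [Finite H]
    (φ : C →+ D) (hfix : ∀ d : D, (∀ t ∈ H, t • d = d) → d ∈ φ.range)
    (x : h2_PL p D) (hx : ∀ t ∈ H, t • x = x) : x ∈ (h2_PL.map (p := p) φ).range := by
  obtain ⟨m, hm, d, hd, hmx⟩ := h2_PL.exists_smul_eq_j_of_fixed H x hx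
  obtain ⟨c, rfl⟩ := hfix d hd
  obtain ⟨z, hz⟩ := h2_PL.smul_surjective (p := p) (C := C) m hm (h2_PL.j c)
  refine ⟨z, ?_⟩
  apply h2_PL.smul_injective m hm
  change m • h2_PL.map φ z = m • x
  rw [← map_nsmul, show m • z = h2_PL.j c from hz, h2_PL.map_j, hmx]

end PLGeneric

/-! ### The Galois groups of the levels -/

section Gal

variable {L L' : IntermediateField ℚ Qb}

/-- (K_mem) the image of `g` in `Gal(L'/ℚ)` lies in `Gal(L'/L)` iff `g` fixes `L`. -/
theorem h10_π_mem_relGal_iff [Normal ℚ ↥L'] (h : L ≤ L') (g : GQ) :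
    h97_π L' g ∈ h33_relGal L L' ↔ g ∈ L.fixingSubgroup := by
  rw [h33_mem_relGal, IntermediateField.mem_fixingSubgroup_iff]
  constructor
  · intro hg x hx
    have h1 := hg ⟨x, h hx⟩ hx
    have h2 := h97_π_apply L' g ⟨x, h hx⟩
    rw [h1] at h2
    exact h2.symm
  · intro hg x hx
    apply Subtype.ext
    rw [h97_π_apply]
    exact hg _ hx

/-- Restriction is compatible with the inclusion of levels. -/
theorem h10_incl_comp_π [Normal ℚ ↥L] [Normal ℚ ↥L'] (h : L ≤ L') (g : GQ) :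
    ((IntermediateField.inclusion h : ↥L →ₐ[ℚ] ↥L') : ↥L →+* ↥L').comp
        ((h97_π L g : ↥L ≃ₐ[ℚ] ↥L) : ↥L →+* ↥L)
      = ((h97_π L' g : ↥L' ≃ₐ[ℚ] ↥L') : ↥L' →+* ↥L').comp
        ((IntermediateField.inclusion h : ↥L →ₐ[ℚ] ↥L') : ↥L →+* ↥L') := by
  ext x
  show ((IntermediateField.inclusion h (h97_π L g x) : ↥L') : Qb)
    = ((h97_π L' g (IntermediateField.inclusion h x) : ↥L') : Qb)
  rw [h97_π_apply, IntermediateField.coe_inclusion, IntermediateField.coe_inclusion, h97_π_apply]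

end Gal

/-! ### The extension maps `h33_ext` -/

section Ext

variable (S : Finset Nat.Primes) {L L' L'' : IntermediateField ℚ Qb} [NumberField ↥L]
  [NumberField ↥L'] [NumberField ↥L'']

theorem h10_ext_refl (c : h25_C ↥L S) : h33_ext S (le_refl L) c = c := by
  unfold h33_ext
  have h1 : ((IntermediateField.inclusion (le_refl L) : ↥L →ₐ[ℚ] ↥L) : ↥L →+* ↥L)
      = RingHom.id ↥L := by
    ext x
    rfl
  rw [h1, h66_Cmap_id]
  rfl

theorem h10_ext_trans (h : L ≤ L') (h' : L' ≤ L'') (c : h25_C ↥L S) :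
    h33_ext S h' (h33_ext S h c) = h33_ext S (h.trans h') c := by
  unfold h33_ext
  rw [← MonoidHom.comp_apply, ← h66_Cmap_comp]
  rfl

theorem h10_ext_smul [Normal ℚ ↥L] [Normal ℚ ↥L'] (h : L ≤ L') (g : GQ) (c : h25_C ↥L S) :
    h33_ext S h (h97_π L g • c) = h97_π L' g • h33_ext S h c := by
  show h25_Cmap S _ (h25_Cmap S _ c) = h25_Cmap S _ (h25_Cmap S _ c)
  rw [← MonoidHom.comp_apply, ← h66_Cmap_comp, ← MonoidHom.comp_apply, ← h66_Cmap_comp,
    h10_incl_comp_π]

end Ext

/-! ### The localised level system `ι = h2_PL.map (h33_ext).toAdditive` -/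

section PL

variable (p : ℕ) [Fact p.Prime] (S : Finset Nat.Primes) {L L' L'' : IntermediateField ℚ Qb}
  [NumberField ↥L] [NumberField ↥L'] [NumberField ↥L'']

/-- (ι_refl) -/
theorem h10_PL_ext_refl (x : h2_PL p (Additive (h25_C ↥L S))) :
    h2_PL.map (MonoidHom.toAdditive (h33_ext S (le_refl L))) x = x := by
  have h1 : MonoidHom.toAdditive (h33_ext S (le_refl L))
      = AddMonoidHom.id (Additive (h25_C ↥L S)) := by
    ext c
    exact congrArg Additive.ofMul (h10_ext_refl S (Additive.toMul c))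
  rw [h1, h2_PL.map_id]
  rfl

/-- (ι_trans) -/
theorem h10_PL_ext_trans (h : L ≤ L') (h' : L' ≤ L'') (x : h2_PL p (Additive (h25_C ↥L S))) :
    h2_PL.map (MonoidHom.toAdditive (h33_ext S h'))
        (h2_PL.map (MonoidHom.toAdditive (h33_ext S h)) x)
      = h2_PL.map (MonoidHom.toAdditive (h33_ext S (h.trans h'))) x := by
  rw [← AddMonoidHom.comp_apply, ← h2_PL.map_comp]
  congr 2
  ext c
  exact congrArg Additive.ofMul (h10_ext_trans S h h' (Additive.toMul c))

/-- (ι_smul) -/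
theorem h10_PL_ext_smul [Normal ℚ ↥L] [Normal ℚ ↥L'] (h : L ≤ L') (g : GQ)
    (x : h2_PL p (Additive (h25_C ↥L S))) :
    h2_PL.map (MonoidHom.toAdditive (h33_ext S h)) (h97_π L g • x)
      = h97_π L' g • h2_PL.map (MonoidHom.toAdditive (h33_ext S h)) x :=
  h10_PL_map_smul _ _ _ (fun c => congrArg Additive.ofMul (h10_ext_smul S h g (Additive.toMul c))) x

/-- (ι_inj) -/
theorem h10_PL_ext_injective (hS : S.Nonempty) (h : L ≤ L') [IsGalois ℚ ↥L'] :
    Function.Injective (h2_PL.map (p := p) (MonoidHom.toAdditive (h33_ext S h))) :=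
  h2_PL.map_injective _ (fun _ _ hab => h41_ext_injective S hS h hab)

/-- (ι_desc) -/
theorem h10_PL_ext_desc (hS : S.Nonempty) (h : L ≤ L') [IsGalois ℚ ↥L']
    (hur : h25_UnramOutside ℚ ↥L' S) (x' : h2_PL p (Additive (h25_C ↥L' S)))
    (hx' : ∀ t ∈ h33_relGal L L', t • x' = x') :
    x' ∈ (h2_PL.map (p := p) (MonoidHom.toAdditive (h33_ext S h))).range := by
  refine h10_PL_desc (h33_relGal L L') _ ?_ x' hx'
  intro d hd
  obtain ⟨c, hc⟩ := h41_desc_level S hS h hur (Additive.toMul d) (fun s hs => hd s hs)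
  exact ⟨Additive.ofMul c, congrArg Additive.ofMul hc⟩

end PL

/-! ### The maps `k q : J q → C` -/

section K

variable (S : Finset Nat.Primes) {K K' : Type*} [Field K] [NumberField K] [Field K']
  [NumberField K']

/-- `h25_Jmap` on an element supported at one `q ∈ S`. -/
theorem h10_Jmap_mulSingle (f : K →+* K') (q : S) (y : h25_Jq K ((q : Nat.Primes) : ℕ))
    (y' : h25_Jq K' ((q : Nat.Primes) : ℕ))
    (hy : ∀ j' : K' →+* PadicAlgCl ((q : Nat.Primes) : ℕ), y'.1 j' = y.1 (j'.comp f)) :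
    h25_Jmap S f (Pi.mulSingle q y) = Pi.mulSingle q y' := by
  funext q'
  apply Subtype.ext
  funext j'
  show ((Pi.mulSingle q y : h25_J K S) q').1 (j'.comp f)
    = ((Pi.mulSingle q y' : h25_J K' S) q').1 j'
  by_cases hq : q' = q
  · subst hq
    rw [Pi.mulSingle_eq_same, Pi.mulSingle_eq_same, hy]
  · rw [Pi.mulSingle_eq_of_ne hq, Pi.mulSingle_eq_of_ne hq]
    rfl

/-- The class of an element of `J` supported at one `q ∈ S`, under a field embedding. -/
theorem h10_Cmap_mk_mulSingle (f : K →+* K') (q : S) (y : h25_Jq K ((q : Nat.Primes) : ℕ))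
    (y' : h25_Jq K' ((q : Nat.Primes) : ℕ))
    (hy : ∀ j' : K' →+* PadicAlgCl ((q : Nat.Primes) : ℕ), y'.1 j' = y.1 (j'.comp f)) :
    h25_Cmap S f (h25_mk K S (Pi.mulSingle q y, 1)) = h25_mk K' S (Pi.mulSingle q y', 1) := by
  rw [h66_Cmap_mk]
  congr 1
  refine Prod.ext (h10_Jmap_mulSingle S f q y y' hy) ?_
  show Multiplicative.ofAdd (h25_Dmap S f (Multiplicative.toAdd (1 : Multiplicative (h25_Div K S))))
    = 1
  rw [toAdd_one, map_zero]
  rfl

/-- (k_ι), core: the localised class of an element supported at `q` under a field embedding. -/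
theorem h10_PL_k_map (p : ℕ) [Fact p.Prime] (f : K →+* K') (q : S)
    (y : h25_Jq K ((q : Nat.Primes) : ℕ)) (y' : h25_Jq K' ((q : Nat.Primes) : ℕ))
    (hy : ∀ j' : K' →+* PadicAlgCl ((q : Nat.Primes) : ℕ), y'.1 j' = y.1 (j'.comp f)) :
    h2_PL.map (MonoidHom.toAdditive (h25_Cmap S f))
        (h2_PL.j (p := p) (Additive.ofMul (h25_mk K S (Pi.mulSingle q y, 1))))
      = h2_PL.j (p := p) (Additive.ofMul (h25_mk K' S (Pi.mulSingle q y', 1))) := by
  rw [h2_PL.map_j]
  congr 1
  exact congrArg Additive.ofMul (h10_Cmap_mk_mulSingle S f q y y' hy)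

end K

section KSmul

variable (S : Finset Nat.Primes) {K : Type*} [Field K] {L : Type*} [Field L] [NumberField L]
  [Algebra K L]

/-- (k_smul), core: `J_q(L) → C_L ⊗ ℤ_(p)` is Galois equivariant. -/
theorem h10_PL_k_smul (p : ℕ) [Fact p.Prime] (γ : L ≃ₐ[K] L) (q : S)
    (y : h25_Jq L ((q : Nat.Primes) : ℕ)) :
    h2_PL.j (p := p) (Additive.ofMul (h25_mk L S (Pi.mulSingle q (γ • y), 1)))
      = γ • h2_PL.j (p := p) (Additive.ofMul (h25_mk L S (Pi.mulSingle q y, 1))) := by
  rw [← h2_PL.j_smul]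
  congr 1
  exact congrArg Additive.ofMul
    (h10_Cmap_mk_mulSingle S (γ : L →+* L) q y (γ • y) (fun j' => rfl)).symm

end KSmul

end Fermat.Agent.S55
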