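import Fermat.Agent.S55.h40_AmbModel
import Fermat.Agent.S55.h12_AmbDefs
import Fermat.Agent.S55.h10_LfSysCore
import Fermat.Agent.S55.h10_LevelUnram

/-!
# S55, GLOB-AMB: the SYS fields of the `h12_LevFacts` instance (row LF-SYS)

The fields `π_surj, π_ker, K_mem, ι_refl, ι_trans, ι_smul, ι_inj, ι_desc, k_ι, k_smul` of
`h12_LevFacts p S (h40_Γ S) (h40_π S) (h40_K S) (h40_C p S) (h40_ι p S) (h40_J S) (h40_ιJ S)
(h40_k S p) (fun q => h63_XX q.1) (h40_e S) (fun q => h63_zz p q.1)`, in exactly the field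
shapes, over helper40's model constants (`h40_AmbModel`).  Cores: `h10_LfSysCore`.
-/

set_option autoImplicit false

open IsDedekindDomain NumberField

namespace Fermat.Agent.S55

local notation "Qb" => AlgebraicClosure ℚ
local notation "GQ" => (AlgebraicClosure ℚ ≃ₐ[ℚ] AlgebraicClosure ℚ)

section Groups

variable (S : Finset Nat.Primes)

theorem h10_lf_π_surj : ∀ L : h56_Level S, Function.Surjective (h40_π S L) :=
  fun L => h97_π_surjective L.field

theorem h10_lf_π_ker : ∀ L : h56_Level S, (h40_π S L).ker = L.U :=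
  fun L => h97_π_ker L.field

theorem h10_lf_K_mem : ∀ (L L' : h56_Level S), L ≤ L' → ∀ g : GQ,
    h40_π S L' g ∈ h40_K S L L' ↔ g ∈ L.U :=
  fun L L' h g => h10_π_mem_relGal_iff (L := L.field) (L' := L'.field) h g

end Groups

section ClassModules

variable (p : ℕ) [Fact p.Prime] (S : Finset Nat.Primes)

theorem h10_lf_ι_refl : ∀ (L : h56_Level S) (c : h40_C p S L), h40_ι p S L L le_rfl c = c :=
  fun L c => h10_PL_ext_refl p S (L := L.field) c

theorem h10_lf_ι_trans : ∀ (L L' L'' : h56_Level S) (h : L ≤ L') (h' : L' ≤ L'')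
    (c : h40_C p S L), h40_ι p S L' L'' h' (h40_ι p S L L' h c) = h40_ι p S L L'' (h.trans h') c :=
  fun L L' L'' h h' c =>
    h10_PL_ext_trans p S (L := L.field) (L' := L'.field) (L'' := L''.field) h h' c

theorem h10_lf_ι_smul : ∀ (L L' : h56_Level S) (h : L ≤ L') (g : GQ) (c : h40_C p S L),
    h40_ι p S L L' h (h40_π S L g • c) = h40_π S L' g • h40_ι p S L L' h c :=
  fun L L' h g c => h10_PL_ext_smul p S (L := L.field) (L' := L'.field) h g c

theorem h10_lf_ι_inj (hS : S.Nonempty) : ∀ (L L' : h56_Level S) (h : L ≤ L'),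
    Function.Injective (h40_ι p S L L' h) :=
  fun L L' h => h10_PL_ext_injective p S (L := L.field) (L' := L'.field) hS h

theorem h10_lf_ι_desc (hS : S.Nonempty) : ∀ (L L' : h56_Level S) (h : L ≤ L')
    (c' : h40_C p S L'), (∀ t ∈ h40_K S L L', t • c' = c') → c' ∈ (h40_ι p S L L' h).range :=
  fun L L' h c' hc' =>
    h10_PL_ext_desc p S (L := L.field) (L' := L'.field) hS h
      (h10_level_unram S L'.field L'.unram) c' hc'

end ClassModules

section KMaps

variable (p : ℕ) [Fact p.Prime] (S : Finset Nat.Primes)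

/-- `h25_Cmap` on the class of an idele concentrated at `q` (any decidability instance). -/
theorem h10_Cmap_mk_single {K K' : Type*} [Field K] [NumberField K] [Field K'] [NumberField K']
    (f : K →+* K') (q : S) (y : h25_Jq K ((q : Nat.Primes) : ℕ))
    (y' : h25_Jq K' ((q : Nat.Primes) : ℕ))
    (hy : ∀ j' : K' →+* PadicAlgCl ((q : Nat.Primes) : ℕ), y'.1 j' = y.1 (j'.comp f)) :
    h25_Cmap S f (h25_mk K S (h40_single S K q y)) = h25_mk K' S (h40_single S K' q y') := by
  classical
  rw [h40_single_apply, h40_single_apply]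
  have h := h10_Cmap_mk_mulSingle S f q y y' hy
  convert h using 4

theorem h10_lf_k_ι : ∀ (q : ↥S) (L L' : h56_Level S) (h : L ≤ L') (y : h40_J S q L),
    h40_k S p q L' (h40_ιJ S q L L' h y) = h40_ι p S L L' h (h40_k S p q L y) := by
  intro q L L' h y
  rw [h40_k_apply, h40_k_apply, h40_ι_j]
  congr 1
  exact congrArg Additive.ofMul
    (h10_Cmap_mk_single S _ q (Additive.toMul y) _ (fun j' => rfl)).symm

theorem h10_lf_k_smul : ∀ (q : ↥S) (L : h56_Level S) (γ : h40_Γ S L) (y : h40_J S q L),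
    h40_k S p q L (γ • y) = γ • h40_k S p q L y := by
  intro q L γ y
  rw [h40_k_apply, h40_k_apply, h40_C_smul_j]
  congr 1
  exact congrArg Additive.ofMul
    (h10_Cmap_mk_single S ((γ : ↥L.field ≃ₐ[ℚ] ↥L.field) : ↥L.field →+* ↥L.field) q
      (Additive.toMul y) _ (fun j' => rfl)).symm

end KMaps

end Fermat.Agent.S55
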