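/-
S55 (Poitou-Tate), no-regret block CYC-LOC (helper13): how the prelude's local Galois groups
`Gal(PadicAlgCl q / ℚ_q)` act, through `localGaloisToGlobal q`, on the roots of unity of `Qbar`.

* `h13_cyc_local_frob`       : a Frobenius exists at `q` (on all `m`-th roots of unity, `q ∤ m`);
* `h13_cyc_local_mem_zpowers`: every element of the local group at `q` acts on the `m`-th roots of
                               unity (`q ∤ m`) as a power of Frobenius (unramifiedness);
* `h13_cyc_local_surj`       : the local group at `p` surjects onto `(ℤ/p^n)ˣ` (total ramification);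
* `h13_cyclotomic_prime_pow_irreducible_padic` : `Φ_{p^n}` is irreducible over `ℚ_p`.
-/
import Mathlib
import Fermat.Prelude.Def_GaloisRep_CompletionBridge

set_option autoImplicit false

namespace Fermat.Agent.S55

open Polynomial IntermediateField NumberField
open scoped NNReal Pointwise

section Frob

variable (q : ℕ) [Fact q.Prime]

/-- A root of unity of `PadicAlgCl q` has norm one. -/
theorem h13_norm_rootOfUnity {m : ℕ} (hm0 : m ≠ 0) {w : PadicAlgCl q} (hw : w ^ m = 1) :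
    ‖w‖ = 1 := by
  have h : ‖w‖ ^ m = 1 := by rw [← norm_pow, hw, norm_one]
  exact (pow_eq_one_iff_of_nonneg (norm_nonneg w) hm0).mp h

/-- The norm of a natural number prime to `q` is one. -/
theorem h13_norm_natCast_of_not_dvd {m : ℕ} (hm : ¬ q ∣ m) : ‖(m : PadicAlgCl q)‖ = 1 := by
  rw [← map_natCast (algebraMap ℚ_[q] (PadicAlgCl q)), PadicAlgCl.norm_extends]
  have h1 : ‖((m : ℤ) : ℚ_[q])‖ ≤ 1 := Padic.norm_int_le_one _
  have h2 : ¬ ‖((m : ℤ) : ℚ_[q])‖ < 1 := by
    rw [Padic.norm_intCast_lt_one_iff]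
    exact_mod_cast hm
  have h3 : ‖((m : ℤ) : ℚ_[q])‖ = 1 := le_antisymm h1 (not_lt.mp h2)
  simpa using h3

/-- Norm bound for a finite sum in `PadicAlgCl q`. -/
theorem h13_norm_sum_le {ι : Type*} (s : Finset ι) (f : ι → PadicAlgCl q) {C : ℝ} (hC : 0 ≤ C)
    (h : ∀ i ∈ s, ‖f i‖ ≤ C) : ‖∑ i ∈ s, f i‖ ≤ C :=
  IsUltrametricDist.norm_sum_le_of_forall_le_of_nonneg hC h

/-- Distinct `m`-th roots of unity (`q ∤ m`) are at distance one. -/
theorem h13_norm_sub_rootOfUnity {m : ℕ} (hm : ¬ q ∣ m) {a b : PadicAlgCl q} (ha : a ^ m = 1)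
    (hb : b ^ m = 1) (hab : a ≠ b) : ‖a - b‖ = 1 := by
  have hm0 : m ≠ 0 := fun h => hm (h ▸ dvd_zero q)
  have hna := h13_norm_rootOfUnity q hm0 ha
  have hnb := h13_norm_rootOfUnity q hm0 hb
  have hb0 : b ≠ 0 := by
    intro h; rw [h, norm_zero] at hnb; exact zero_ne_one hnb
  set c := a / b with hc
  have hcm : c ^ m = 1 := by rw [hc, div_pow, ha, hb, div_one]
  have hc1 : c ≠ 1 := by
    intro h; apply hab; rw [hc, div_eq_one_iff_eq hb0] at h; exact h
  have hnc : ‖c‖ = 1 := h13_norm_rootOfUnity q hm0 hcm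
  have hab' : a - b = b * (c - 1) := by rw [hc]; field_simp
  rw [hab', norm_mul, hnb, one_mul]
  have hle : ‖c - 1‖ ≤ 1 := by
    have := PadicAlgCl.isNonarchimedean q c (-1)
    rw [norm_neg, norm_one, hnc, max_self, ← sub_eq_add_neg] at this
    exact this
  by_contra hne
  have hlt : ‖c - 1‖ < 1 := lt_of_le_of_ne hle hne
  -- geometric sum vanishes
  have hgeom : (∑ i ∈ Finset.range m, c ^ i) * (c - 1) = 0 := by
    rw [geom_sum_mul, hcm, sub_self]
  have hsum0 : ∑ i ∈ Finset.range m, c ^ i = 0 := by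
    rcases mul_eq_zero.mp hgeom with h | h
    · exact h
    · exact absurd (sub_eq_zero.mp h) hc1
  have hpow : ∀ i : ℕ, ‖c ^ i - 1‖ ≤ ‖c - 1‖ := by
    intro i
    rw [← geom_sum_mul, norm_mul]
    have : ‖∑ j ∈ Finset.range i, c ^ j‖ ≤ 1 :=
      h13_norm_sum_le q _ _ zero_le_one (fun j _ => by rw [norm_pow, hnc, one_pow])
    calc ‖∑ j ∈ Finset.range i, c ^ j‖ * ‖c - 1‖ ≤ 1 * ‖c - 1‖ :=
          mul_le_mul_of_nonneg_right this (norm_nonneg _)
      _ = ‖c - 1‖ := one_mul _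
  have hmm : (m : PadicAlgCl q) = - ∑ i ∈ Finset.range m, (c ^ i - 1) := by
    rw [Finset.sum_sub_distrib, hsum0]; simp
  have : ‖(m : PadicAlgCl q)‖ ≤ ‖c - 1‖ := by
    rw [hmm, norm_neg]
    exact h13_norm_sum_le q _ _ (norm_nonneg _) (fun i _ => hpow i)
  rw [h13_norm_natCast_of_not_dvd q hm] at this
  exact absurd (lt_of_le_of_lt this hlt) (lt_irrefl _)

/-- Over `ℤ_[q]`, `f(X^q) ≡ f(X)^q` modulo `q`. -/
theorem h13_expand_eq (f : ℤ_[q][X]) :
    ∃ g : ℤ_[q][X], expand ℤ_[q] q f = f ^ q + C (q : ℤ_[q]) * g := by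
  have h : (expand ℤ_[q] q f - f ^ q).map (PadicInt.toZMod (p := q)) = 0 := by
    rw [Polynomial.map_sub, map_expand, Polynomial.map_pow, ZMod.expand_card, sub_self]
  have h2 : C (q : ℤ_[q]) ∣ expand ℤ_[q] q f - f ^ q := by
    rw [C_dvd_iff_dvd_coeff]
    intro i
    have h3 : PadicInt.toZMod ((expand ℤ_[q] q f - f ^ q).coeff i) = 0 := by
      rw [← coeff_map, h, coeff_zero]
    have hmem : (expand ℤ_[q] q f - f ^ q).coeff i ∈ RingHom.ker (PadicInt.toZMod (p := q)) := h3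
    rw [PadicInt.ker_toZMod, PadicInt.maximalIdeal_eq_span_p, Ideal.mem_span_singleton] at hmem
    exact hmem
  obtain ⟨g, hg⟩ := h2
  exact ⟨g, by rw [← hg]; ring⟩

/-- Integral polynomial expressions in a root of unity have norm at most one. -/
theorem h13_norm_aeval_le (g : ℤ_[q][X]) {w : PadicAlgCl q} (hw : ‖w‖ = 1) :
    ‖aeval w g‖ ≤ 1 := by
  rw [aeval_eq_sum_range]
  refine h13_norm_sum_le q _ _ zero_le_one (fun i _ => ?_)
  rw [Algebra.smul_def, norm_mul, norm_pow, hw, one_pow, mul_one]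
  rw [IsScalarTower.algebraMap_apply ℤ_[q] ℚ_[q] (PadicAlgCl q), PadicAlgCl.norm_extends]
  exact PadicInt.norm_le_one _

/-- The `q`-th power of an `m`-th root of unity `w` (`q ∤ m`) is a root of the minimal polynomial
of `w` over `ℚ_[q]`. -/
theorem h13_aeval_pow_minpoly {m : ℕ} (hm : ¬ q ∣ m) {w : PadicAlgCl q} (hw : w ^ m = 1) :
    aeval (w ^ q) (minpoly ℚ_[q] w) = 0 := by
  have hm0 : m ≠ 0 := fun h => hm (h ▸ dvd_zero q)
  have hnw := h13_norm_rootOfUnity q hm0 hw
  have hint : IsIntegral ℤ_[q] w :=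
    ⟨X ^ m - 1, monic_X_pow_sub_C 1 hm0, by simp [hw]⟩
  have hintQ : IsIntegral ℚ_[q] w := hint.tower_top
  have hf : minpoly ℚ_[q] w = (minpoly ℤ_[q] w).map (algebraMap ℤ_[q] ℚ_[q]) :=
    minpoly.isIntegrallyClosed_eq_field_fractions' ℚ_[q] hint
  obtain ⟨g, hg⟩ := h13_expand_eq q (minpoly ℤ_[q] w)
  have h1 : aeval (w ^ q) (minpoly ℤ_[q] w) = (q : PadicAlgCl q) * aeval w g := by
    rw [← expand_aeval, hg]
    simp [minpoly.aeval, (Fact.out : q.Prime).ne_zero]
  have h2 : aeval (w ^ q) (minpoly ℚ_[q] w) = (q : PadicAlgCl q) * aeval w g := by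
    rw [hf, aeval_map_algebraMap, h1]
  have hlt : ‖aeval (w ^ q) (minpoly ℚ_[q] w)‖ < 1 := by
    rw [h2, norm_mul]
    have hq : ‖(q : PadicAlgCl q)‖ = (q : ℝ)⁻¹ := by
      rw [← map_natCast (algebraMap ℚ_[q] (PadicAlgCl q)), PadicAlgCl.norm_extends, Padic.norm_p]
    have hq1 : (q : ℝ)⁻¹ < 1 := by
      have : (1 : ℝ) < q := by exact_mod_cast (Fact.out : q.Prime).one_lt
      exact inv_lt_one_of_one_lt₀ this
    have hg1 := h13_norm_aeval_le q g hnw
    calc ‖(q : PadicAlgCl q)‖ * ‖aeval w g‖ ≤ ‖(q : PadicAlgCl q)‖ * 1 :=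
          mul_le_mul_of_nonneg_left hg1 (norm_nonneg _)
      _ < 1 := by rw [mul_one, hq]; exact hq1
  by_contra hne
  have hsplit : ((minpoly ℚ_[q] w).map (algebraMap ℚ_[q] (PadicAlgCl q))).Splits :=
    IsAlgClosed.splits _
  have hprod := hsplit.aeval_eq_prod_aroots_of_monic (minpoly.monic hintQ) (w ^ q)
  have hone : ‖aeval (w ^ q) (minpoly ℚ_[q] w)‖ = 1 := by
    rw [hprod, ← normHom_apply, map_multiset_prod, Multiset.map_map]
    apply Multiset.prod_eq_one
    intro x hx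
    rw [Multiset.mem_map] at hx
    obtain ⟨r, hr, rfl⟩ := hx
    have hr0 : aeval r (minpoly ℚ_[q] w) = 0 := by
      rw [mem_aroots] at hr; exact hr.2
    have hrm : r ^ m = 1 := by
      have hdvd : minpoly ℚ_[q] w ∣ X ^ m - 1 := minpoly.dvd _ _ (by simp [hw])
      obtain ⟨c, hc⟩ := hdvd
      have := congrArg (aeval r) hc
      simp [hr0] at this
      exact sub_eq_zero.mp this
    have hwq : (w ^ q) ^ m = 1 := by rw [← pow_mul, mul_comm, pow_mul, hw, one_pow]
    have hne' : w ^ q ≠ r := fun h => hne (h ▸ hr0)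
    simpa using h13_norm_sub_rootOfUnity q hm hwq hrm hne'
  rw [hone] at hlt
  exact lt_irrefl _ hlt

/-- A local Frobenius: some `ℚ_[q]`-automorphism raises a given `m`-th root of unity (`q ∤ m`) to
the `q`-th power. -/
theorem h13_exists_local_frob {m : ℕ} (hm : ¬ q ∣ m) {w : PadicAlgCl q} (hw : w ^ m = 1) :
    ∃ τ : PadicAlgCl q ≃ₐ[ℚ_[q]] PadicAlgCl q, τ w = w ^ q := by
  have hm0 : m ≠ 0 := fun h => hm (h ▸ dvd_zero q)
  have hint : IsIntegral ℚ_[q] w :=
    ⟨X ^ m - 1, monic_X_pow_sub_C 1 hm0, by simp [hw]⟩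
  have h := h13_aeval_pow_minpoly q hm hw
  have hmin : minpoly ℚ_[q] w = minpoly ℚ_[q] (w ^ q) :=
    minpoly.eq_of_irreducible_of_monic (minpoly.irreducible hint) h (minpoly.monic hint)
  have : Normal ℚ_[q] (PadicAlgCl q) := IsAlgClosure.normal _ _
  have hconj : IsConjRoot ℚ_[q] (w ^ q) w := hmin.symm
  obtain ⟨σ, hσ⟩ := hconj.exists_algEquiv
  exact ⟨σ, hσ⟩

/-- The embedding `Qbar → PadicAlgCl q` is injective. -/
theorem h13_padicEmbedding_injective : Function.Injective (padicEmbedding q) :=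
  (padicEmbedding q).toRingHom.injective

/-- **Frobenius at `q`**: the local Galois group at `q` contains an element acting on all `m`-th
roots of unity of `Qbar` (`q ∤ m`) as the `q`-th power map. -/
theorem h13_cyc_local_frob (m : ℕ) (hm : ¬ q ∣ m) :
    ∃ τ : PadicAlgCl q ≃ₐ[ℚ_[q]] PadicAlgCl q, ∀ ζ : AlgebraicClosure ℚ, ζ ^ m = 1 →
      localGaloisToGlobal q τ ζ = ζ ^ q := by
  have hm0 : m ≠ 0 := fun h => hm (h ▸ dvd_zero q)
  have : NeZero m := ⟨hm0⟩
  obtain ⟨z, hz⟩ := HasEnoughRootsOfUnity.exists_primitiveRoot (AlgebraicClosure ℚ) m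
  have hw : (padicEmbedding q z) ^ m = 1 := by rw [← map_pow, hz.pow_eq_one, map_one]
  obtain ⟨τ, hτ⟩ := h13_exists_local_frob q hm hw
  refine ⟨τ, fun ζ hζ => ?_⟩
  have hz1 : localGaloisToGlobal q τ z = z ^ q := by
    apply h13_padicEmbedding_injective q
    rw [padicEmbedding_localGaloisToGlobal, hτ, map_pow]
  obtain ⟨i, -, rfl⟩ := hz.eq_pow_of_pow_eq_one hζ
  rw [map_pow, hz1, ← pow_mul, ← pow_mul, mul_comm]

end Frob

section Unram

variable (q : ℕ) [Fact q.Prime]

/-- Algebraic integers of `PadicAlgCl q` have norm at most one. -/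
theorem h13_norm_le_one_of_isIntegral {y : PadicAlgCl q} (hy : IsIntegral ℤ y) : ‖y‖ ≤ 1 := by
  have h := (Valuation.integer.integers (Valued.v : Valuation (PadicAlgCl q) ℝ≥0)).mem_of_integral
    (hy.tower_top)
  rw [Valuation.mem_integer_iff, PadicAlgCl.valuation_def] at h
  exact_mod_cast h

/-- The ring homomorphism from the integers of a subfield `K ⊆ Qbar` to `PadicAlgCl q`. -/
noncomputable def h13_placeHom (K : IntermediateField ℚ (AlgebraicClosure ℚ)) :
    𝓞 K →+* PadicAlgCl q :=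
  (padicEmbedding q).toRingHom.comp
    ((algebraMap K (AlgebraicClosure ℚ)).comp (algebraMap (𝓞 K) K))

theorem h13_placeHom_apply (K : IntermediateField ℚ (AlgebraicClosure ℚ)) (x : 𝓞 K) :
    h13_placeHom q K x = padicEmbedding q ((x : K) : AlgebraicClosure ℚ) := rfl

theorem h13_norm_placeHom_le (K : IntermediateField ℚ (AlgebraicClosure ℚ)) (x : 𝓞 K) :
    ‖h13_placeHom q K x‖ ≤ 1 := by
  apply h13_norm_le_one_of_isIntegral
  have h1 : IsIntegral ℤ x := RingOfIntegers.isIntegral x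
  exact h1.map ((h13_placeHom q K).toIntAlgHom)

/-- The prime of a number field `K ⊆ Qbar` cut out by the `q`-adic place. -/
noncomputable def h13_placeIdeal (K : IntermediateField ℚ (AlgebraicClosure ℚ)) : Ideal (𝓞 K) where
  carrier := {x | ‖h13_placeHom q K x‖ < 1}
  add_mem' := by
    intro a b ha hb
    change ‖h13_placeHom q K (a + b)‖ < 1
    rw [map_add]
    exact lt_of_le_of_lt (PadicAlgCl.isNonarchimedean q _ _) (max_lt ha hb)
  zero_mem' := by
    change ‖h13_placeHom q K 0‖ < 1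
    simp
  smul_mem' := by
    intro c x hx
    change ‖h13_placeHom q K (c * x)‖ < 1
    rw [map_mul, norm_mul]
    calc _ ≤ 1 * ‖h13_placeHom q K x‖ :=
          mul_le_mul_of_nonneg_right (h13_norm_placeHom_le q K c) (norm_nonneg _)
      _ < 1 := by rw [one_mul]; exact hx

theorem h13_mem_placeIdeal (K : IntermediateField ℚ (AlgebraicClosure ℚ)) (x : 𝓞 K) :
    x ∈ h13_placeIdeal q K ↔ ‖h13_placeHom q K x‖ < 1 := Iff.rfl

instance h13_placeIdeal_isPrime (K : IntermediateField ℚ (AlgebraicClosure ℚ)) :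
    (h13_placeIdeal q K).IsPrime := by
  refine ⟨?_, ?_⟩
  · rw [Ideal.ne_top_iff_one, h13_mem_placeIdeal, map_one, norm_one]
    exact lt_irrefl _
  · intro x y hxy
    rw [h13_mem_placeIdeal, map_mul, norm_mul] at hxy
    by_contra hcon
    push Not at hcon
    rw [h13_mem_placeIdeal, h13_mem_placeIdeal, not_lt, not_lt] at hcon
    have := mul_le_mul hcon.1 hcon.2 zero_le_one (norm_nonneg _)
    rw [one_mul] at this
    exact absurd hxy (not_lt.mpr this)

theorem h13_natCast_mem_placeIdeal (K : IntermediateField ℚ (AlgebraicClosure ℚ)) :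
    (q : 𝓞 K) ∈ h13_placeIdeal q K := by
  rw [h13_mem_placeIdeal, map_natCast, ← map_natCast (algebraMap ℚ_[q] (PadicAlgCl q)),
    PadicAlgCl.norm_extends, Padic.norm_p]
  have : (1 : ℝ) < q := by exact_mod_cast (Fact.out : q.Prime).one_lt
  exact inv_lt_one_of_one_lt₀ this

instance h13_placeIdeal_liesOver (K : IntermediateField ℚ (AlgebraicClosure ℚ)) :
    (h13_placeIdeal q K).LiesOver (Ideal.span {(q : ℤ)}) := by
  constructor
  have hmax : (Ideal.span {(q : ℤ)}).IsMaximal :=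
    Int.ideal_span_isMaximal_of_prime q
  refine hmax.eq_of_le ?_ ?_
  · exact (Ideal.IsPrime.under ℤ (h13_placeIdeal q K)).ne_top
  · rw [Ideal.span_singleton_le_iff_mem, Ideal.mem_comap]
    simpa using h13_natCast_mem_placeIdeal q K

instance h13_placeIdeal_isMaximal (K : IntermediateField ℚ (AlgebraicClosure ℚ))
    [NumberField K] : (h13_placeIdeal q K).IsMaximal := by
  apply Ideal.IsPrime.isMaximal inferInstance
  intro h
  have h1 := h13_natCast_mem_placeIdeal q K
  rw [h, Ideal.mem_bot] at h1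
  have : (q : ℕ) = 0 := by exact_mod_cast h1
  exact (Fact.out : q.Prime).ne_zero this

local instance h13_isAlgebraicQbar : Algebra.IsAlgebraic ℚ (AlgebraicClosure ℚ) :=
  AlgebraicClosure.isAlgebraic ℚ

theorem h13_norm_placeHom_smul (K : IntermediateField ℚ (AlgebraicClosure ℚ)) [NumberField K]
    [IsGalois ℚ K] (τ : PadicAlgCl q ≃ₐ[ℚ_[q]] PadicAlgCl q) (x : 𝓞 K) :
    ‖h13_placeHom q K (((localGaloisToGlobal q τ).restrictNormal K) • x)‖ =
      ‖h13_placeHom q K x‖ := by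
  have h1 : h13_placeHom q K (((localGaloisToGlobal q τ).restrictNormal K) • x) =
      τ (h13_placeHom q K x) := by
    rw [h13_placeHom_apply, h13_placeHom_apply, ← padicEmbedding_localGaloisToGlobal]
    congr 1
    exact AlgEquiv.restrictNormal_commutes (localGaloisToGlobal q τ) K (x : K)
  rw [h1]
  exact congrArg NNReal.toReal (nnnorm_padicAlgCl_algEquiv q τ _)

/-- The restriction to a Galois number field `K ⊆ Qbar` of an element coming from the local
group at `q` lies in the decomposition group of the prime cut out by the `q`-adic place. -/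
theorem h13_restrict_mem_stabilizer (K : IntermediateField ℚ (AlgebraicClosure ℚ)) [NumberField K]
    [IsGalois ℚ K] (τ : PadicAlgCl q ≃ₐ[ℚ_[q]] PadicAlgCl q) :
    (localGaloisToGlobal q τ).restrictNormal K ∈
      MulAction.stabilizer Gal(K/ℚ) (h13_placeIdeal q K) := by
  rw [MulAction.mem_stabilizer_iff]
  ext x
  rw [Ideal.mem_pointwise_smul_iff_inv_smul_mem, h13_mem_placeIdeal, h13_mem_placeIdeal]
  have h := h13_norm_placeHom_smul q K τ
    (((localGaloisToGlobal q τ).restrictNormal K)⁻¹ • x)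
  rw [smul_inv_smul] at h
  rw [h]

/-- **Unramifiedness at `q`**: every element of the local Galois group at `q` acts on the `m`-th
roots of unity of `Qbar` (`q ∤ m`) as a power of the Frobenius `ζ ↦ ζ ^ q`. -/
theorem h13_cyc_local_mem_zpowers (m : ℕ) (hm : ¬ q ∣ m)
    (τ : PadicAlgCl q ≃ₐ[ℚ_[q]] PadicAlgCl q) :
    ∃ k : ℕ, ∀ ζ : AlgebraicClosure ℚ, ζ ^ m = 1 →
      localGaloisToGlobal q τ ζ = ζ ^ (q ^ k) := by
  have hm0 : m ≠ 0 := fun h => hm (h ▸ dvd_zero q)
  have : NeZero m := ⟨hm0⟩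
  obtain ⟨z, hz⟩ := HasEnoughRootsOfUnity.exists_primitiveRoot (AlgebraicClosure ℚ) m
  let K : IntermediateField ℚ (AlgebraicClosure ℚ) := ℚ⟮z⟯
  have : IsCyclotomicExtension {m} ℚ K := hz.intermediateField_adjoin_isCyclotomicExtension ℚ
  have : NumberField K := IsCyclotomicExtension.numberField {m} ℚ K
  have : IsGalois ℚ K := IsCyclotomicExtension.isGalois {m} ℚ K
  have hcop : q.Coprime m := (Nat.Prime.coprime_iff_not_dvd Fact.out).mpr hm
  have hstab := h13_restrict_mem_stabilizer q K τ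
  have hmem := IsCyclotomicExtension.Rat.mem_zpowers_galEquivZMod_of_mem_stabilizer m K q
    (h13_placeIdeal q K) hcop hstab
  rw [← mem_powers_iff_mem_zpowers] at hmem
  obtain ⟨k, hk⟩ := hmem
  refine ⟨k, fun ζ hζ => ?_⟩
  obtain ⟨i, -, rfl⟩ := hz.eq_pow_of_pow_eq_one hζ
  have hzK : z ∈ K := mem_adjoin_simple_self ℚ z
  have h1 := IsCyclotomicExtension.Rat.galEquivZMod_apply_of_pow_eq m K
    ((localGaloisToGlobal q τ).restrictNormal K) (x := ⟨z, hzK⟩)
    (by ext; simp [hz.pow_eq_one])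
  have h2 : localGaloisToGlobal q τ z = z ^ (q ^ k) := by
    have h3 := congrArg (algebraMap K (AlgebraicClosure ℚ)) h1
    rw [AlgEquiv.restrictNormal_commutes] at h3
    rw [← hk] at h3
    have h4 : ((ZMod.unitOfCoprime q hcop ^ k : (ZMod m)ˣ) : ZMod m).val = q ^ k % m := by
      rw [Units.val_pow_eq_pow_val, ZMod.coe_unitOfCoprime, ← Nat.cast_pow, ZMod.val_natCast]
    simp only [h4] at h3
    have h5 : (algebraMap K (AlgebraicClosure ℚ)) ⟨z, hzK⟩ = z := rfl
    rw [map_pow, h5] at h3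
    rw [h3, ← pow_eq_pow_mod _ hz.pow_eq_one]
  rw [map_pow, h2, ← pow_mul, ← pow_mul, mul_comm]

end Unram

section Ram

variable (p : ℕ) [Fact p.Prime]

/-- The cyclotomic polynomial `Φ_{p^n}` is irreducible over `ℤ_[p]` (Eisenstein). -/
theorem h13_cyclotomic_prime_pow_irreducible_padicInt (k : ℕ) :
    Irreducible (cyclotomic (p ^ (k + 1)) ℤ_[p]) := by
  have hE := cyclotomic_prime_pow_comp_X_add_one_isEisensteinAt p k
  have hmonZ : ((cyclotomic (p ^ (k + 1)) ℤ).comp (X + 1)).Monic := by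
    have := (cyclotomic.monic (p ^ (k + 1)) ℤ).comp_X_add_C 1
    simpa using this
  set fZ := (cyclotomic (p ^ (k + 1)) ℤ).comp (X + 1) with hfZ
  set f := (cyclotomic (p ^ (k + 1)) ℤ_[p]).comp (X + 1) with hf
  have hmap : f = fZ.map (Int.castRingHom ℤ_[p]) := by
    rw [hf, hfZ, Polynomial.map_comp, map_cyclotomic]
    simp
  have hmon : f.Monic := by rw [hmap]; exact hmonZ.map _
  have hdeg : f.natDegree = fZ.natDegree := by rw [hmap]; exact hmonZ.natDegree_map _
  have hpnu : ¬ IsUnit (p : ℤ_[p]) := PadicInt.prime_p.not_isUnit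
  have hEis : f.IsEisensteinAt (Ideal.span {(p : ℤ_[p])}) := by
    refine ⟨?_, ?_, ?_⟩
    · rw [hmon.leadingCoeff, Ideal.mem_span_singleton]
      exact fun h => hpnu (isUnit_of_dvd_one h)
    · intro i hi
      rw [hdeg] at hi
      have h1 := hE.mem hi
      rw [Ideal.mem_span_singleton] at h1 ⊢
      rw [hmap, coeff_map]
      obtain ⟨c, hc⟩ := h1
      exact ⟨(c : ℤ_[p]), by rw [hc]; simp⟩
    · intro h
      apply hE.notMem
      rw [Ideal.span_singleton_pow, Ideal.mem_span_singleton] at h ⊢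
      rw [hmap, coeff_map] at h
      have h2 : ‖((fZ.coeff 0 : ℤ) : ℤ_[p])‖ ≤ (p : ℝ) ^ (-(2 : ℕ) : ℤ) := by
        obtain ⟨c, hc⟩ := h
        have hc' : ((fZ.coeff 0 : ℤ) : ℤ_[p]) = (p : ℤ_[p]) ^ 2 * c := by
          simpa using hc
        rw [hc', norm_mul, norm_pow, PadicInt.norm_p]
        have hc1 : ‖c‖ ≤ 1 := PadicInt.norm_le_one c
        have hp0 : (0 : ℝ) ≤ ((p : ℝ)⁻¹) ^ 2 := by positivity
        calc ((p : ℝ)⁻¹) ^ 2 * ‖c‖ ≤ ((p : ℝ)⁻¹) ^ 2 * 1 := mul_le_mul_of_nonneg_left hc1 hp0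
          _ = (p : ℝ) ^ (-(2 : ℕ) : ℤ) := by
            rw [mul_one, zpow_neg, zpow_natCast, inv_pow]
      rw [PadicInt.norm_int_le_pow_iff_dvd] at h2
      exact_mod_cast h2
  have hprime : (Ideal.span {(p : ℤ_[p])}).IsPrime :=
    (Ideal.span_singleton_prime PadicInt.prime_p.ne_zero).mpr PadicInt.prime_p
  have hpos : 0 < f.natDegree := by
    rw [hf, natDegree_comp, natDegree_cyclotomic]
    have h1 : ((X : ℤ_[p][X]) + 1).natDegree = 1 := by
      have := natDegree_X_add_C (1 : ℤ_[p])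
      simpa using this
    rw [h1, mul_one]
    exact Nat.totient_pos.mpr (pow_pos (Fact.out : p.Prime).pos _)
  have hirr : Irreducible f := hEis.irreducible hprime hmon.isPrimitive hpos
  have : f = (algEquivAevalXAddC (1 : ℤ_[p])) (cyclotomic (p ^ (k + 1)) ℤ_[p]) := by
    rw [hf, algEquivAevalXAddC_apply, comp_eq_aeval]
    simp
  rw [this] at hirr
  exact (MulEquiv.irreducible_iff (algEquivAevalXAddC (1 : ℤ_[p])).toMulEquiv).mp hirr

/-- The cyclotomic polynomial `Φ_{p^n}` is irreducible over `ℚ_[p]`. -/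
theorem h13_cyclotomic_prime_pow_irreducible_padic (n : ℕ) :
    Irreducible (cyclotomic (p ^ n) ℚ_[p]) := by
  rcases n with _ | k
  · simp only [pow_zero, cyclotomic_one]
    exact irreducible_X_sub_C 1
  · have h := h13_cyclotomic_prime_pow_irreducible_padicInt p k
    have h2 := (Polynomial.Monic.irreducible_iff_irreducible_map_fraction_map (K := ℚ_[p])
      (cyclotomic.monic _ ℤ_[p])).mp h
    rwa [map_cyclotomic] at h2

/-- **Total ramification at `p`**: the local Galois group at `p` surjects onto `(ℤ/p^n)ˣ`, i.e. for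
every `a` prime to `p` some element of the local group acts on all `p^n`-th roots of unity of
`Qbar` as `ζ ↦ ζ ^ a`. -/
theorem h13_cyc_local_surj (n : ℕ) (a : ℕ) (ha : ¬ p ∣ a) :
    ∃ τ : PadicAlgCl p ≃ₐ[ℚ_[p]] PadicAlgCl p, ∀ ζ : AlgebraicClosure ℚ, ζ ^ (p ^ n) = 1 →
      localGaloisToGlobal p τ ζ = ζ ^ a := by
  have : NeZero (p ^ n) := ⟨pow_ne_zero _ (Fact.out : p.Prime).ne_zero⟩
  obtain ⟨z, hz⟩ := HasEnoughRootsOfUnity.exists_primitiveRoot (AlgebraicClosure ℚ) (p ^ n)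
  have hw : IsPrimitiveRoot (padicEmbedding p z) (p ^ n) :=
    hz.map_of_injective (h13_padicEmbedding_injective p)
  have hcop : a.Coprime (p ^ n) :=
    Nat.Coprime.pow_right n ((Nat.Prime.coprime_iff_not_dvd Fact.out).mpr ha).symm
  have hwa : IsPrimitiveRoot ((padicEmbedding p z) ^ a) (p ^ n) := hw.pow_of_coprime a hcop
  have hirr := h13_cyclotomic_prime_pow_irreducible_padic p n
  have h1 : minpoly ℚ_[p] (padicEmbedding p z) = cyclotomic (p ^ n) ℚ_[p] :=
    (hw.minpoly_eq_cyclotomic_of_irreducible hirr).symm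
  have h2 : minpoly ℚ_[p] ((padicEmbedding p z) ^ a) = cyclotomic (p ^ n) ℚ_[p] :=
    (hwa.minpoly_eq_cyclotomic_of_irreducible hirr).symm
  have : Normal ℚ_[p] (PadicAlgCl p) := IsAlgClosure.normal _ _
  have hconj : IsConjRoot ℚ_[p] ((padicEmbedding p z) ^ a) (padicEmbedding p z) :=
    h2.trans h1.symm
  obtain ⟨τ, hτ⟩ := hconj.exists_algEquiv
  refine ⟨τ, fun ζ hζ => ?_⟩
  have hz1 : localGaloisToGlobal p τ z = z ^ a := by
    apply h13_padicEmbedding_injective p
    rw [padicEmbedding_localGaloisToGlobal, hτ, map_pow]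
  obtain ⟨i, -, rfl⟩ := hz.eq_pow_of_pow_eq_one hζ
  rw [map_pow, hz1, ← pow_mul, ← pow_mul, mul_comm]

end Ram

end Fermat.Agent.S55
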