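/-
S55 (Poitou-Tate), no-regret block CYC-LOC, part 2 (helper13): local degrees of the cyclotomic
fields at every prime, in the prelude language.

* `h13_cyc_local_index_eq`        : for `q ∤ m`, the preimage in the local Galois group at `q` of
                                    `Gal(Qbar/ℚ(ζ_m))` has index `orderOf (q : ZMod m)`;
* `h13_cyc_local_index_eq_totient`: at `q = p`, `m = p^n`, the index is `φ(p^n)`;
* `h13_cyc_local_index`           : `p^∞` divides the local degree of `ℚ(μ_{p^∞})` at every prime.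
-/
import Mathlib
import Fermat.Prelude.Def_GaloisRep_CompletionBridge
import Fermat.Agent.S55.h13_CycLocal

set_option autoImplicit false

namespace Fermat.Agent.S55

open Polynomial IntermediateField NumberField
open scoped NNReal Pointwise

section Counting

theorem h13_pow_val_injective {R : Type*} [CommRing R] [IsDomain R] {w : R} {m : ℕ} [NeZero m]
    (hw : IsPrimitiveRoot w m) :
    Function.Injective (fun a : (ZMod m)ˣ => w ^ (a : ZMod m).val) := by
  intro a b hab
  have := hw.pow_inj (ZMod.val_lt (a : ZMod m)) (ZMod.val_lt (b : ZMod m)) hab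
  exact Units.ext (ZMod.val_injective m this)

theorem h13_range_pow_eq {R : Type*} [CommRing R] [IsDomain R] {w : R} {m : ℕ} [NeZero m]
    (hw : IsPrimitiveRoot w m) (q : ℕ) (hq : q.Coprime m) :
    Set.range (fun k : ℕ => w ^ (q ^ k)) =
      (fun a : (ZMod m)ˣ => w ^ (a : ZMod m).val) ''
        (Submonoid.powers (ZMod.unitOfCoprime q hq) : Set (ZMod m)ˣ) := by
  have key : ∀ k : ℕ,
      w ^ ((ZMod.unitOfCoprime q hq ^ k : (ZMod m)ˣ) : ZMod m).val = w ^ (q ^ k) := by
    intro k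
    rw [Units.val_pow_eq_pow_val, ZMod.coe_unitOfCoprime, ← Nat.cast_pow, ZMod.val_natCast,
      ← pow_eq_pow_mod _ hw.pow_eq_one]
  ext y
  constructor
  · rintro ⟨k, rfl⟩
    exact ⟨ZMod.unitOfCoprime q hq ^ k, ⟨k, rfl⟩, key k⟩
  · rintro ⟨a, ⟨k, rfl⟩, rfl⟩
    exact ⟨k, (key k).symm⟩

/-- The number of distinct `q^k`-th powers of a primitive `m`-th root of unity is the order of `q`
modulo `m` (for `q` prime to `m`). -/
theorem h13_ncard_range_pow {R : Type*} [CommRing R] [IsDomain R] {w : R} {m : ℕ} [NeZero m]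
    (hw : IsPrimitiveRoot w m) (q : ℕ) (hq : q.Coprime m) :
    (Set.range (fun k : ℕ => w ^ (q ^ k))).ncard = orderOf (q : ZMod m) := by
  rw [h13_range_pow_eq hw q hq, Set.ncard_image_of_injective _ (h13_pow_val_injective hw),
    ← Nat.card_coe_set_eq]
  have h1 : Nat.card (Submonoid.powers (ZMod.unitOfCoprime q hq)) =
      orderOf (ZMod.unitOfCoprime q hq) := Nat.card_submonoidPowers
  rw [← orderOf_units, ZMod.coe_unitOfCoprime] at h1
  exact h1

/-- For primes `q ≠ p`, the order of `q` modulo `p^n` is divisible by `p^k` once `n` is large. -/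
theorem h13_pow_dvd_orderOf {p q : ℕ} (hp : p.Prime) (hq : q.Prime) (hqp : q ≠ p) (k n : ℕ)
    (hn : q ^ (p ^ k * (p - 1)) ≤ p ^ n) : p ^ k ∣ orderOf (q : ZMod (p ^ n)) := by
  have hcop : q.Coprime (p ^ n) := Nat.Coprime.pow_right n ((Nat.coprime_primes hq hp).mpr hqp)
  set j := orderOf (q : ZMod (p ^ n)) with hj
  have hn0 : n ≠ 0 := by
    rintro rfl
    have h2 : 2 ≤ q ^ (p ^ k * (p - 1)) := by
      have hpos : 0 < p ^ k * (p - 1) :=
        Nat.mul_pos (pow_pos hp.pos _) (Nat.sub_pos_of_lt hp.one_lt)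
      calc 2 ≤ q := hq.two_le
        _ = q ^ 1 := (pow_one q).symm
        _ ≤ q ^ (p ^ k * (p - 1)) := Nat.pow_le_pow_right hq.pos hpos
    simp at hn
    omega
  -- `j` divides `φ(p^n)`
  have hjdvd : j ∣ p ^ (n - 1) * (p - 1) := by
    rw [← Nat.totient_prime_pow hp (Nat.pos_of_ne_zero hn0)]
    apply orderOf_dvd_of_pow_eq_one
    have := Nat.ModEq.pow_totient hcop
    have h2 := (ZMod.natCast_eq_natCast_iff _ _ _).mpr this
    simpa using h2
  have hj0 : j ≠ 0 := by
    intro h0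
    rw [h0, zero_dvd_iff] at hjdvd
    have : 0 < p ^ (n - 1) * (p - 1) :=
      Nat.mul_pos (pow_pos hp.pos _) (Nat.sub_pos_of_lt hp.one_lt)
    omega
  by_contra hnot
  obtain ⟨a, b, hb, hjab⟩ := Nat.exists_eq_pow_mul_and_not_dvd hj0 p hp.ne_one
  have hak : a < k := by
    by_contra hak
    push Not at hak
    apply hnot
    rw [hjab]
    exact Dvd.dvd.mul_right (pow_dvd_pow p hak) b
  have hbdvd : b ∣ p - 1 := by
    have h1 : b ∣ p ^ (n - 1) * (p - 1) := Dvd.dvd.trans ⟨p ^ a, by rw [hjab, mul_comm]⟩ hjdvd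
    have hcopb : Nat.Coprime b (p ^ (n - 1)) :=
      Nat.Coprime.pow_right _ ((Nat.Prime.coprime_iff_not_dvd hp).mpr hb).symm
    exact hcopb.dvd_of_dvd_mul_left h1
  have hjJ : j ∣ p ^ k * (p - 1) := by
    rw [hjab]
    exact Nat.mul_dvd_mul (pow_dvd_pow p hak.le) hbdvd
  have hpow : ((q : ZMod (p ^ n))) ^ (p ^ k * (p - 1)) = 1 := by
    obtain ⟨c, hc⟩ := hjJ
    rw [hc, pow_mul, hj, pow_orderOf_eq_one, one_pow]
  have hdvd : p ^ n ∣ q ^ (p ^ k * (p - 1)) - 1 := by
    have h1 : ((q ^ (p ^ k * (p - 1)) : ℕ) : ZMod (p ^ n)) = ((1 : ℕ) : ZMod (p ^ n)) := by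
      push_cast
      exact hpow
    rw [ZMod.natCast_eq_natCast_iff] at h1
    exact (Nat.modEq_iff_dvd' (Nat.one_le_pow _ _ hq.pos)).mp h1.symm
  have hJpos : 0 < p ^ k * (p - 1) :=
    Nat.mul_pos (pow_pos hp.pos _) (Nat.sub_pos_of_lt hp.one_lt)
  have hgt : 1 < q ^ (p ^ k * (p - 1)) := Nat.one_lt_pow hJpos.ne' hq.one_lt
  have hle := Nat.le_of_dvd (by omega) hdvd
  omega

end Counting

section Index

variable (q : ℕ) [Fact q.Prime]

/-- The preimage in the local group of the fixing subgroup of `ℚ(ζ)` is the stabiliser of the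
image of `ζ` in `PadicAlgCl q`. -/
theorem h13_comap_fixingSubgroup_adjoin (ζ : AlgebraicClosure ℚ) :
    (ℚ⟮ζ⟯.fixingSubgroup).comap (localGaloisToGlobal q) =
      MulAction.stabilizer (PadicAlgCl q ≃ₐ[ℚ_[q]] PadicAlgCl q) (padicEmbedding q ζ) := by
  ext τ
  rw [Subgroup.mem_comap, IntermediateField.mem_fixingSubgroup_iff, MulAction.mem_stabilizer_iff]
  constructor
  · intro h
    have h1 := h ζ (mem_adjoin_simple_self ℚ ζ)
    have h2 := padicEmbedding_localGaloisToGlobal q τ ζ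
    rw [h1] at h2
    exact h2.symm
  · intro h x hx
    have h1 : localGaloisToGlobal q τ ζ = ζ := by
      apply h13_padicEmbedding_injective q
      rw [padicEmbedding_localGaloisToGlobal]
      exact h
    induction hx using IntermediateField.adjoin_induction with
    | mem x hx => rw [Set.mem_singleton_iff.mp hx]; exact h1
    | algebraMap x => exact (localGaloisToGlobal q τ).commutes x
    | add x y _ _ hx hy => rw [map_add, hx, hy]
    | inv x _ hx => rw [map_inv₀, hx]
    | mul x y _ _ hx hy => rw [map_mul, hx, hy]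

/-- The orbit of a primitive `m`-th root of unity (`q ∤ m`) under the local Galois group is the
set of its `q^k`-th powers. -/
theorem h13_orbit_eq_of_not_dvd {m : ℕ} (hm : ¬ q ∣ m) {ζ : AlgebraicClosure ℚ}
    (hζ : IsPrimitiveRoot ζ m) :
    MulAction.orbit (PadicAlgCl q ≃ₐ[ℚ_[q]] PadicAlgCl q) (padicEmbedding q ζ) =
      Set.range (fun k : ℕ => (padicEmbedding q ζ) ^ (q ^ k)) := by
  ext y
  constructor
  · rintro ⟨τ, rfl⟩
    obtain ⟨k, hk⟩ := h13_cyc_local_mem_zpowers q m hm τ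
    refine ⟨k, ?_⟩
    have := hk ζ hζ.pow_eq_one
    change _ = τ (padicEmbedding q ζ)
    rw [← padicEmbedding_localGaloisToGlobal, this, map_pow]
  · rintro ⟨k, rfl⟩
    obtain ⟨τ, hτ⟩ := h13_cyc_local_frob q m hm
    have hτ' : τ (padicEmbedding q ζ) = (padicEmbedding q ζ) ^ q := by
      rw [← padicEmbedding_localGaloisToGlobal, hτ ζ hζ.pow_eq_one, map_pow]
    refine ⟨τ ^ k, ?_⟩
    change (τ ^ k) (padicEmbedding q ζ) = (padicEmbedding q ζ) ^ (q ^ k)
    induction k with
    | zero => simp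
    | succ k ih =>
      rw [pow_succ', AlgEquiv.mul_apply, ih, map_pow, hτ', ← pow_mul, pow_succ']

/-- **Local degree of `ℚ(μ_m)` at `q ∤ m`**: the preimage in the local Galois group at `q` of
`Gal(Qbar/ℚ(ζ_m))` has index the order of `q` modulo `m`. -/
theorem h13_cyc_local_index_eq {m : ℕ} (hm : ¬ q ∣ m) {ζ : AlgebraicClosure ℚ}
    (hζ : IsPrimitiveRoot ζ m) :
    ((ℚ⟮ζ⟯.fixingSubgroup).comap (localGaloisToGlobal q)).index = orderOf (q : ZMod m) := by
  have hm0 : m ≠ 0 := fun h => hm (h ▸ dvd_zero q)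
  have : NeZero m := ⟨hm0⟩
  have hcop : q.Coprime m := (Nat.Prime.coprime_iff_not_dvd Fact.out).mpr hm
  rw [h13_comap_fixingSubgroup_adjoin, MulAction.index_stabilizer, h13_orbit_eq_of_not_dvd q hm hζ]
  exact h13_ncard_range_pow (hζ.map_of_injective (h13_padicEmbedding_injective q)) q hcop

/-- The orbit of a primitive `p^n`-th root of unity under the local Galois group at `p` is the
set of all primitive `p^n`-th roots of unity. -/
theorem h13_orbit_eq_primitiveRoots (n : ℕ) {ζ : AlgebraicClosure ℚ}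
    (hζ : IsPrimitiveRoot ζ (q ^ n)) :
    MulAction.orbit (PadicAlgCl q ≃ₐ[ℚ_[q]] PadicAlgCl q) (padicEmbedding q ζ) =
      ↑(primitiveRoots (q ^ n) (PadicAlgCl q)) := by
  have hpos : 0 < q ^ n := pow_pos (Fact.out : q.Prime).pos n
  have hw : IsPrimitiveRoot (padicEmbedding q ζ) (q ^ n) :=
    hζ.map_of_injective (h13_padicEmbedding_injective q)
  ext y
  rw [Finset.mem_coe, mem_primitiveRoots hpos]
  constructor
  · rintro ⟨τ, rfl⟩
    exact hw.map_of_injective τ.injective
  · intro hy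
    obtain ⟨a, -, rfl⟩ := hw.eq_pow_of_pow_eq_one hy.pow_eq_one
    have hcop : a.Coprime (q ^ n) := (hw.pow_iff_coprime hpos a).mp hy
    rcases Nat.eq_zero_or_pos n with hn | hn
    · subst hn
      rw [pow_zero] at hw
      have h1 : padicEmbedding q ζ = 1 := by simpa using hw.pow_eq_one
      exact ⟨1, by rw [h1, one_pow]; exact map_one _⟩
    · have ha : ¬ q ∣ a := by
        intro hdvd
        have h2 : q ∣ Nat.gcd a (q ^ n) := Nat.dvd_gcd hdvd (dvd_pow_self q hn.ne')
        rw [hcop] at h2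
        exact (Fact.out : q.Prime).one_lt.ne' (Nat.dvd_one.mp h2)
      obtain ⟨τ, hτ⟩ := h13_cyc_local_surj q n a ha
      refine ⟨τ, ?_⟩
      change τ (padicEmbedding q ζ) = _
      rw [← padicEmbedding_localGaloisToGlobal, hτ ζ hζ.pow_eq_one, map_pow]

/-- **Local degree of `ℚ(μ_{p^n})` at `p`**: the preimage in the local Galois group at `p` of
`Gal(Qbar/ℚ(ζ_{p^n}))` has index `φ(p^n)`. -/
theorem h13_cyc_local_index_eq_totient (n : ℕ) {ζ : AlgebraicClosure ℚ}
    (hζ : IsPrimitiveRoot ζ (q ^ n)) :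
    ((ℚ⟮ζ⟯.fixingSubgroup).comap (localGaloisToGlobal q)).index = (q ^ n).totient := by
  rw [h13_comap_fixingSubgroup_adjoin, MulAction.index_stabilizer,
    h13_orbit_eq_primitiveRoots q n hζ, Set.ncard_coe_finset]
  exact (hζ.map_of_injective (h13_padicEmbedding_injective q)).card_primitiveRoots

end Index

/-- **`p^∞` divides the local degree of the cyclotomic tower `ℚ(μ_{p^∞})` at every prime `q`**
(`q = p` or `q ≠ p`): for every `k` there is `n` such that the preimage in the local Galois group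
at `q` of `Gal(Qbar/ℚ(ζ_{p^n}))` has index divisible by `p^k`. -/
theorem h13_cyc_local_index (p q : ℕ) [Fact p.Prime] [Fact q.Prime] (k : ℕ) :
    ∃ n : ℕ, ∀ ζ : AlgebraicClosure ℚ, IsPrimitiveRoot ζ (p ^ n) →
      p ^ k ∣ ((ℚ⟮ζ⟯.fixingSubgroup).comap (localGaloisToGlobal q)).index := by
  have hp : p.Prime := Fact.out
  have hq : q.Prime := Fact.out
  by_cases hqp : q = p
  · subst hqp
    refine ⟨k + 1, fun ζ hζ => ?_⟩
    rw [h13_cyc_local_index_eq_totient q (k + 1) hζ, Nat.totient_prime_pow_succ hq]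
    exact Dvd.intro _ rfl
  · refine ⟨q ^ (p ^ k * (p - 1)), fun ζ hζ => ?_⟩
    have hm : ¬ q ∣ p ^ (q ^ (p ^ k * (p - 1))) := by
      intro h
      exact hqp ((Nat.prime_dvd_prime_iff_eq hq hp).mp (hq.dvd_of_dvd_pow h))
    rw [h13_cyc_local_index_eq q hm hζ]
    exact h13_pow_dvd_orderOf hp hq hqp k _ (Nat.lt_pow_self hp.one_lt).le

end Fermat.Agent.S55
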