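/-
S55 (Poitou-Tate), GLOB tower bookkeeping (helper13): the cyclotomic `ℤ_p`-extension of `ℚ` inside
`Qbar = AlgebraicClosure ℚ`, in the prelude language.

* `h13_chiN p N`   : the mod `p^N` cyclotomic character of `Gal(Qbar/ℚ)` (spec, uniqueness,
                      surjectivity, compatibility in `N`);
* `h13_psi p n`    : `ψ_n = χ_{n+1}^(p-1)`, the character cutting out the `n`-th layer;
* `h13_Qn p n`     : the `n`-th layer `Q_n` (`IntermediateField ℚ Qbar`), with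
                      `h13_Qn_fixingSubgroup`, `h13_Qn_finrank` (`= p^n`), `h13_Qn_isGalois`,
                      `h13_Qn_mono`, `h13_Qn_le_adjoin`, `h13_Qn_isUnramifiedOutside` (a level);
* `h13_deg p hp2 n`: the degree map `Gal(Qbar/ℚ) →* Multiplicative (ZMod (p^n))`, surjective, with
                      kernel `(h13_Qn p n).fixingSubgroup` and `ψ_n σ = (1+p)^(deg σ)`;
* local behaviour  : Frobenius at `q ≠ p` (`h13_chiN_local_frob`), image of the local group is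
                      generated by `q` (`h13_chiN_local_mem_zpowers`), surjectivity at `p`
                      (`h13_chiN_local_surjective`), local degrees of `Q_n`
                      (`h13_Qn_local_index_eq`, `h13_Qn_local_index_self`) and
                      `p^∞ ∣` local degree of the tower at every prime (`h13_Qn_local_index_dvd`).
-/
import Mathlib
import Fermat.Prelude.Def_GaloisRep_CompletionBridge
import Fermat.Prelude.Def_GroupCohomology_ContinuousUnramified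
import Fermat.Agent.S55.h13_CycLocal
import Fermat.Agent.S55.h13_CycLocalIndex
import Fermat.Agent.S55.h85_Unram

set_option autoImplicit false

namespace Fermat.Agent.S55

open IntermediateField

local notation "Qbar" => AlgebraicClosure ℚ

local instance h13_isAlgebraicQbar' : Algebra.IsAlgebraic ℚ (AlgebraicClosure ℚ) :=
  AlgebraicClosure.isAlgebraic ℚ
local instance h13_isAlgClosureQbar' : IsAlgClosure ℚ (AlgebraicClosure ℚ) :=
  ⟨inferInstance, inferInstance⟩
local instance h13_normalQbar' : Normal ℚ (AlgebraicClosure ℚ) :=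
  IsAlgClosure.normal ℚ (AlgebraicClosure ℚ)
local instance h13_isGaloisQbar' : IsGalois ℚ (AlgebraicClosure ℚ) := ⟨⟩

section Char

variable (p : ℕ) [Fact p.Prime]

local instance h13_neZero_pow (N : ℕ) : NeZero (p ^ N) := ⟨pow_ne_zero _ (Fact.out : p.Prime).ne_zero⟩

/-- The mod `p^N` cyclotomic character of `Gal(Qbar/ℚ)`. -/
noncomputable def h13_chiN (N : ℕ) : (Qbar ≃ₐ[ℚ] Qbar) →* (ZMod (p ^ N))ˣ :=
  MonoidHom.mk'
    (fun σ => modularCyclotomicCharacter Qbar (IsAlgClosed.card_rootsOfUnity_eq Qbar (p ^ N))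
      (σ : Qbar ≃+* Qbar))
    (fun a b => by rw [← map_mul]; congr 1)

theorem h13_chiN_spec (N : ℕ) (σ : Qbar ≃ₐ[ℚ] Qbar) (ζ : Qbar) (hζ : ζ ^ p ^ N = 1) :
    σ ζ = ζ ^ ((h13_chiN p N σ : (ZMod (p ^ N))ˣ) : ZMod (p ^ N)).val := by
  have h := modularCyclotomicCharacter.spec Qbar (IsAlgClosed.card_rootsOfUnity_eq Qbar (p ^ N))
    (σ : Qbar ≃+* Qbar) (t := (rootsOfUnity.mkOfPowEq ζ hζ : Qbarˣ))
    (rootsOfUnity.mkOfPowEq ζ hζ).2
  have h' : (σ : Qbar ≃+* Qbar) ζ = ζ ^ ((modularCyclotomicCharacter Qbar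
      (IsAlgClosed.card_rootsOfUnity_eq Qbar (p ^ N)) (σ : Qbar ≃+* Qbar) : (ZMod (p ^ N))ˣ) :
      ZMod (p ^ N)).val := by simpa using h
  exact h'

/-- Uniqueness: the character is determined by the action on `p^N`-th roots of unity. -/
theorem h13_chiN_eq (N : ℕ) (σ : Qbar ≃ₐ[ℚ] Qbar) (a : ℕ)
    (h : ∀ ζ : Qbar, ζ ^ p ^ N = 1 → σ ζ = ζ ^ a) :
    ((h13_chiN p N σ : (ZMod (p ^ N))ˣ) : ZMod (p ^ N)) = (a : ZMod (p ^ N)) := by
  obtain ⟨z, hz⟩ := HasEnoughRootsOfUnity.exists_primitiveRoot Qbar (p ^ N)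
  have h1 := h13_chiN_spec p N σ z hz.pow_eq_one
  rw [h z hz.pow_eq_one] at h1
  have h2 : z ^ (a % p ^ N) = z ^ ((h13_chiN p N σ : (ZMod (p ^ N))ˣ) : ZMod (p ^ N)).val := by
    rw [← h1, ← pow_eq_pow_mod _ hz.pow_eq_one]
  have h3 := hz.pow_inj (Nat.mod_lt _ (pow_pos (Fact.out : p.Prime).pos N)) (ZMod.val_lt _) h2
  rw [← ZMod.natCast_zmod_val ((h13_chiN p N σ : (ZMod (p ^ N))ˣ) : ZMod (p ^ N)), ← h3,
    ZMod.natCast_mod]

/-- The mod `p^N` cyclotomic character is surjective (already on the image of the local Galois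
group at `p`). -/
theorem h13_chiN_local_surjective (N : ℕ) (u : (ZMod (p ^ N))ˣ) :
    ∃ τ : PadicAlgCl p ≃ₐ[ℚ_[p]] PadicAlgCl p, h13_chiN p N (localGaloisToGlobal p τ) = u := by
  obtain ⟨a, ha, hau⟩ : ∃ a : ℕ, ¬ p ∣ a ∧ (a : ZMod (p ^ N)) = (u : ZMod (p ^ N)) := by
    rcases Nat.eq_zero_or_pos N with rfl | hN
    · have : Subsingleton (ZMod (p ^ 0)) := by rw [pow_zero]; infer_instance
      exact ⟨1, fun h => (Fact.out : p.Prime).one_lt.ne' (Nat.dvd_one.mp h), Subsingleton.elim _ _⟩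
    · refine ⟨(u : ZMod (p ^ N)).val, fun hdvd => ?_, ZMod.natCast_zmod_val _⟩
      have hcop := ZMod.val_coe_unit_coprime u
      have h2 : p ∣ Nat.gcd (u : ZMod (p ^ N)).val (p ^ N) :=
        Nat.dvd_gcd hdvd (dvd_pow_self p hN.ne')
      rw [hcop] at h2
      exact (Fact.out : p.Prime).one_lt.ne' (Nat.dvd_one.mp h2)
  obtain ⟨τ, hτ⟩ := h13_cyc_local_surj p N a ha
  refine ⟨τ, Units.ext ?_⟩
  rw [h13_chiN_eq p N _ a hτ, hau]

theorem h13_chiN_surjective (N : ℕ) : Function.Surjective (h13_chiN p N) := by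
  intro u
  obtain ⟨τ, hτ⟩ := h13_chiN_local_surjective p N u
  exact ⟨_, hτ⟩

/-- Compatibility of the characters `χ_{N+1}` and `χ_N`. -/
theorem h13_chiN_succ (N : ℕ) (σ : Qbar ≃ₐ[ℚ] Qbar) :
    ZMod.castHom (pow_dvd_pow p (Nat.le_succ N)) (ZMod (p ^ N))
        ((h13_chiN p (N + 1) σ : (ZMod (p ^ (N + 1)))ˣ) : ZMod (p ^ (N + 1))) =
      ((h13_chiN p N σ : (ZMod (p ^ N))ˣ) : ZMod (p ^ N)) := by
  set a := ((h13_chiN p (N + 1) σ : (ZMod (p ^ (N + 1)))ˣ) : ZMod (p ^ (N + 1))).val with ha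
  have h1 : ∀ ζ : Qbar, ζ ^ p ^ N = 1 → σ ζ = ζ ^ a := by
    intro ζ hζ
    apply h13_chiN_spec p (N + 1) σ ζ
    rw [pow_succ, pow_mul, hζ, one_pow]
  rw [h13_chiN_eq p N σ a h1, ha, ZMod.natCast_val, ZMod.castHom_apply]

/-- `σ` is in the kernel of `χ_N` iff it fixes a (any) primitive `p^N`-th root of unity. -/
theorem h13_chiN_eq_one_iff (N : ℕ) (σ : Qbar ≃ₐ[ℚ] Qbar) {ζ : Qbar}
    (hζ : IsPrimitiveRoot ζ (p ^ N)) : h13_chiN p N σ = 1 ↔ σ ζ = ζ := by
  constructor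
  · intro h
    have h1 := h13_chiN_spec p N σ ζ hζ.pow_eq_one
    rw [h, Units.val_one] at h1
    rcases Nat.eq_zero_or_pos N with rfl | hN
    · have hz1 : ζ = 1 := by simpa using hζ.pow_eq_one
      rw [hz1, map_one]
    · have : Fact (1 < p ^ N) := ⟨Nat.one_lt_pow hN.ne' (Fact.out : p.Prime).one_lt⟩
      rw [ZMod.val_one, pow_one] at h1
      exact h1
  · intro h
    apply Units.ext
    have h1 : ∀ ξ : Qbar, ξ ^ p ^ N = 1 → σ ξ = ξ ^ 1 := by
      intro ξ hξ
      obtain ⟨i, -, rfl⟩ := hζ.eq_pow_of_pow_eq_one hξ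
      rw [map_pow, h, pow_one]
    rw [h13_chiN_eq p N σ 1 h1]
    simp

theorem h13_fixingSubgroup_le_ker_chiN (N : ℕ) {ζ : Qbar} (hζ : IsPrimitiveRoot ζ (p ^ N)) :
    (ℚ⟮ζ⟯).fixingSubgroup = (h13_chiN p N).ker := by
  ext σ
  rw [MonoidHom.mem_ker, h13_chiN_eq_one_iff p N σ hζ, IntermediateField.mem_fixingSubgroup_iff]
  constructor
  · intro h
    exact h ζ (mem_adjoin_simple_self ℚ ζ)
  · intro h x hx
    induction hx using IntermediateField.adjoin_induction with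
    | mem x hx => rw [Set.mem_singleton_iff.mp hx]; exact h
    | algebraMap x => exact σ.commutes x
    | add x y _ _ hx hy => rw [map_add, hx, hy]
    | inv x _ hx => rw [map_inv₀, hx]
    | mul x y _ _ hx hy => rw [map_mul, hx, hy]

/-- The character of the `n`-th layer of the cyclotomic `ℤ_p`-tower: `ψ_n = χ_{n+1}^(p-1)`. -/
noncomputable def h13_psi (n : ℕ) : (Qbar ≃ₐ[ℚ] Qbar) →* (ZMod (p ^ (n + 1)))ˣ :=
  (powMonoidHom (p - 1)).comp (h13_chiN p (n + 1))

theorem h13_psi_apply (n : ℕ) (σ : Qbar ≃ₐ[ℚ] Qbar) :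
    h13_psi p n σ = h13_chiN p (n + 1) σ ^ (p - 1) := rfl

theorem h13_ker_chiN_le_ker_psi (n : ℕ) : (h13_chiN p (n + 1)).ker ≤ (h13_psi p n).ker := by
  intro σ hσ
  rw [MonoidHom.mem_ker] at hσ ⊢
  rw [h13_psi_apply, hσ, one_pow]

theorem h13_ker_psi_isOpen (n : ℕ) : IsOpen ((h13_psi p n).ker : Set (Qbar ≃ₐ[ℚ] Qbar)) := by
  obtain ⟨z, hz⟩ := HasEnoughRootsOfUnity.exists_primitiveRoot Qbar (p ^ (n + 1))
  have hfd : FiniteDimensional ℚ ℚ⟮z⟯ :=
    IntermediateField.adjoin.finiteDimensional (Algebra.IsIntegral.isIntegral z)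
  have h1 : IsOpen ((ℚ⟮z⟯).fixingSubgroup : Set (Qbar ≃ₐ[ℚ] Qbar)) :=
    IntermediateField.fixingSubgroup_isOpen ℚ⟮z⟯
  refine Subgroup.isOpen_mono ?_ h1
  rw [h13_fixingSubgroup_le_ker_chiN p (n + 1) hz]
  exact h13_ker_chiN_le_ker_psi p n

/-- **The `n`-th layer `Q_n` of the cyclotomic `ℤ_p`-extension of `ℚ`** (inside `Qbar`): the
fixed field of the kernel of `ψ_n`. -/
noncomputable def h13_Qn (n : ℕ) : IntermediateField ℚ Qbar :=
  IntermediateField.fixedField (h13_psi p n).ker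

theorem h13_Qn_fixingSubgroup (n : ℕ) : (h13_Qn p n).fixingSubgroup = (h13_psi p n).ker := by
  have hclosed : IsClosed ((h13_psi p n).ker : Set (Qbar ≃ₐ[ℚ] Qbar)) :=
    Subgroup.isClosed_of_isOpen _ (h13_ker_psi_isOpen p n)
  exact InfiniteGalois.fixingSubgroup_fixedField ⟨(h13_psi p n).ker, hclosed⟩

theorem h13_mem_Qn_fixingSubgroup_iff (n : ℕ) (σ : Qbar ≃ₐ[ℚ] Qbar) :
    σ ∈ (h13_Qn p n).fixingSubgroup ↔ h13_chiN p (n + 1) σ ^ (p - 1) = 1 := by
  rw [h13_Qn_fixingSubgroup, MonoidHom.mem_ker, h13_psi_apply]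

theorem h13_card_units_zmod_pow (n : ℕ) :
    Nat.card (ZMod (p ^ (n + 1)))ˣ = p ^ n * (p - 1) := by
  rw [Nat.card_eq_fintype_card, ZMod.card_units_eq_totient,
    Nat.totient_prime_pow_succ (Fact.out : p.Prime)]

/-- The range of `ψ_n` is the group of `(p-1)`-th powers in `(ℤ/p^(n+1))ˣ`. -/
theorem h13_psi_range (n : ℕ) :
    (h13_psi p n).range = (powMonoidHom (p - 1) : (ZMod (p ^ (n + 1)))ˣ →* _).range := by
  rw [h13_psi, MonoidHom.range_comp,
    MonoidHom.range_eq_top.mpr (h13_chiN_surjective p (n + 1)), ← MonoidHom.range_eq_map]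

/-- The range of `ψ_n` has order `p^n`. -/
theorem h13_card_psi_range (hp2 : p ≠ 2) (n : ℕ) : Nat.card (h13_psi p n).range = p ^ n := by
  have hcyc : IsCyclic (ZMod (p ^ (n + 1)))ˣ :=
    ZMod.isCyclic_units_of_prime_pow p Fact.out hp2 (n + 1)
  rw [h13_psi_range, IsCyclic.card_powMonoidHom_range, h13_card_units_zmod_pow]
  have hpos : 0 < p - 1 := Nat.sub_pos_of_lt (Fact.out : p.Prime).one_lt
  rw [Nat.gcd_eq_right (Dvd.intro_left _ rfl), Nat.mul_div_cancel _ hpos]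

/-- **`[Q_n : ℚ] = p^n`.** -/
theorem h13_Qn_finrank (hp2 : p ≠ 2) (n : ℕ) : Module.finrank ℚ (h13_Qn p n) = p ^ n := by
  rw [IntermediateField.finrank_eq_fixingSubgroup_index, h13_Qn_fixingSubgroup,
    Subgroup.index_ker, h13_card_psi_range p hp2]

theorem h13_Qn_finiteDimensional (hp2 : p ≠ 2) (n : ℕ) : FiniteDimensional ℚ (h13_Qn p n) := by
  apply Module.finite_of_finrank_pos
  rw [h13_Qn_finrank p hp2]
  exact pow_pos (Fact.out : p.Prime).pos n

/-- `Q_n` is contained in `ℚ(ζ_{p^(n+1)})`. -/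
theorem h13_Qn_le_adjoin (n : ℕ) {ζ : Qbar} (hζ : IsPrimitiveRoot ζ (p ^ (n + 1))) :
    h13_Qn p n ≤ ℚ⟮ζ⟯ := by
  have h1 : (ℚ⟮ζ⟯).fixingSubgroup ≤ (h13_psi p n).ker := by
    rw [h13_fixingSubgroup_le_ker_chiN p (n + 1) hζ]
    exact h13_ker_chiN_le_ker_psi p n
  have h2 : IntermediateField.fixedField (h13_psi p n).ker ≤
      IntermediateField.fixedField (ℚ⟮ζ⟯).fixingSubgroup :=
    IntermediateField.fixedField_antitone h1
  rw [InfiniteGalois.fixedField_fixingSubgroup] at h2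
  exact h2

/-- `Q_n` is a level: it is unramified outside every `S ∋ p` (frozen sense). -/
theorem h13_Qn_isUnramifiedOutside (S : Finset Nat.Primes) (hpS : ExtCitation.pPrime p ∈ S)
    (n : ℕ) : (h13_Qn p n).IsUnramifiedOutside S := by
  obtain ⟨z, hz⟩ := HasEnoughRootsOfUnity.exists_primitiveRoot Qbar (p ^ (n + 1))
  exact IntermediateField.IsUnramifiedOutside.of_le (h13_Qn_le_adjoin p n hz)
    (h85_unram_pPowRoot S hpS (n + 1) z hz.pow_eq_one)

/-- `Q_n / ℚ` is Galois. -/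
theorem h13_Qn_isGalois (n : ℕ) : IsGalois ℚ (h13_Qn p n) := by
  have h := (InfiniteGalois.normal_iff_isGalois (h13_Qn p n)).mp
    (by rw [h13_Qn_fixingSubgroup]; exact MonoidHom.normal_ker _)
  convert h
  exact Subsingleton.elim _ _

/-- The tower is increasing: `Q_n ≤ Q_{n+1}`. -/
theorem h13_Qn_mono (n : ℕ) : h13_Qn p n ≤ h13_Qn p (n + 1) := by
  apply IntermediateField.fixedField_antitone
  intro σ hσ
  rw [MonoidHom.mem_ker, h13_psi_apply] at hσ ⊢
  have h1 := h13_chiN_succ p (n + 1) σ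
  apply Units.ext
  rw [Units.val_pow_eq_pow_val, ← h1, ← map_pow, ← Units.val_pow_eq_pow_val, hσ, Units.val_one,
    map_one, Units.val_one]

/-! ### The degree map of the tower -/

omit [Fact p.Prime] in
theorem h13_coprime_one_add (n : ℕ) : Nat.Coprime (1 + p) (p ^ (n + 1)) := by
  apply Nat.Coprime.pow_right
  rw [Nat.coprime_add_self_left]
  exact Nat.coprime_one_left p

/-- The generator `1 + p` of the `p`-part of `(ℤ/p^(n+1))ˣ`. -/
noncomputable def h13_gen (n : ℕ) : (ZMod (p ^ (n + 1)))ˣ :=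
  ZMod.unitOfCoprime (1 + p) (h13_coprime_one_add p n)

omit [Fact p.Prime] in
theorem h13_gen_coe (n : ℕ) :
    ((h13_gen p n : (ZMod (p ^ (n + 1)))ˣ) : ZMod (p ^ (n + 1))) = 1 + (p : ZMod (p ^ (n + 1))) := by
  rw [h13_gen, ZMod.coe_unitOfCoprime]
  push_cast
  rfl

theorem h13_orderOf_gen (hp2 : p ≠ 2) (n : ℕ) : orderOf (h13_gen p n) = p ^ n := by
  rw [← orderOf_units, h13_gen_coe]
  exact ZMod.orderOf_one_add_prime Fact.out hp2 n

/-- In a commutative group, an element of order prime to `d` is a `d`-th power. -/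
theorem h13_mem_range_pow {G : Type*} [CommGroup G] (u : G) (d m : ℕ) (hcop : Nat.Coprime d m)
    (hu : u ^ m = 1) : u ∈ (powMonoidHom d : G →* G).range := by
  have h1 := Int.gcd_eq_gcd_ab (d : ℤ) (m : ℤ)
  have h2 : (Int.gcd (d : ℤ) (m : ℤ) : ℤ) = 1 := by
    have : Int.gcd (d : ℤ) (m : ℤ) = Nat.gcd d m := Int.gcd_natCast_natCast d m
    rw [this, hcop]
    rfl
  rw [h2] at h1
  refine ⟨u ^ (Int.gcdA d m), ?_⟩
  change (u ^ (Int.gcdA d m)) ^ d = u
  have h3 : u = u ^ ((d : ℤ) * Int.gcdA d m + (m : ℤ) * Int.gcdB d m) := by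
    rw [← h1, zpow_one]
  have h4 : u ^ ((m : ℤ) * Int.gcdB d m) = 1 := by
    rw [zpow_mul, zpow_natCast, hu, one_zpow]
  rw [zpow_add, h4, mul_one, mul_comm, zpow_mul, zpow_natCast] at h3
  exact h3.symm

theorem h13_gen_mem_range (hp2 : p ≠ 2) (n : ℕ) : h13_gen p n ∈ (h13_psi p n).range := by
  rw [h13_psi_range]
  apply h13_mem_range_pow (h13_gen p n) (p - 1) (p ^ n)
  · apply Nat.Coprime.pow_right
    have h1 : Nat.Coprime p (p - 1) := by
      have := Nat.coprime_self_sub_right (m := 1) (n := p) (Fact.out : p.Prime).one_lt.le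
      rw [this]
      exact Nat.coprime_one_right p
    exact h1.symm
  · rw [← h13_orderOf_gen p hp2 n]
    exact pow_orderOf_eq_one _

/-- The generator of the range of `ψ_n`. -/
noncomputable def h13_genR (hp2 : p ≠ 2) (n : ℕ) : (h13_psi p n).range :=
  ⟨h13_gen p n, h13_gen_mem_range p hp2 n⟩

theorem h13_genR_generates (hp2 : p ≠ 2) (n : ℕ) (x : (h13_psi p n).range) :
    x ∈ Subgroup.zpowers (h13_genR p hp2 n) := by
  have hfin : Finite (h13_psi p n).range := Nat.finite_of_card_ne_zero (by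
    rw [h13_card_psi_range p hp2]
    exact pow_ne_zero _ (Fact.out : p.Prime).ne_zero)
  have h1 : Nat.card (Subgroup.zpowers (h13_genR p hp2 n)) = Nat.card (h13_psi p n).range := by
    rw [Nat.card_zpowers, h13_card_psi_range p hp2]
    have : orderOf (h13_genR p hp2 n) = orderOf (h13_gen p n) :=
      (Subgroup.orderOf_coe (h13_genR p hp2 n)).symm
    rw [this, h13_orderOf_gen p hp2]
  have h2 := Subgroup.eq_top_of_card_eq _ h1
  rw [h2]
  exact Subgroup.mem_top x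

/-- The isomorphism `ℤ/p^n ≃ range ψ_n` sending `1` to `1 + p`. -/
noncomputable def h13_degEquiv (hp2 : p ≠ 2) (n : ℕ) :
    Multiplicative (ZMod (p ^ n)) ≃* (h13_psi p n).range :=
  zmodMulEquivOfGenerator (h13_genR_generates p hp2 n) (h13_card_psi_range p hp2 n)

/-- **The degree map of the cyclotomic `ℤ_p`-tower at level `n`**:
`deg_n : Gal(Qbar/ℚ) → ℤ/p^n` with `ψ_n σ = (1 + p) ^ deg_n σ`. -/
noncomputable def h13_deg (hp2 : p ≠ 2) (n : ℕ) :
    (Qbar ≃ₐ[ℚ] Qbar) →* Multiplicative (ZMod (p ^ n)) :=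
  (h13_degEquiv p hp2 n).symm.toMonoidHom.comp (h13_psi p n).rangeRestrict

theorem h13_deg_surjective (hp2 : p ≠ 2) (n : ℕ) : Function.Surjective (h13_deg p hp2 n) := by
  rw [h13_deg]
  exact (h13_degEquiv p hp2 n).symm.surjective.comp (h13_psi p n).rangeRestrict_surjective

theorem h13_deg_ker (hp2 : p ≠ 2) (n : ℕ) :
    (h13_deg p hp2 n).ker = (h13_Qn p n).fixingSubgroup := by
  rw [h13_Qn_fixingSubgroup]
  ext σ
  rw [MonoidHom.mem_ker, MonoidHom.mem_ker, h13_deg, MonoidHom.comp_apply]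
  constructor
  · intro h
    have h1 : (h13_psi p n).rangeRestrict σ = 1 := by
      have := (h13_degEquiv p hp2 n).symm.injective (a₁ := (h13_psi p n).rangeRestrict σ)
        (a₂ := 1) (by rw [map_one]; exact h)
      exact this
    have h2 := congrArg Subtype.val h1
    exact h2
  · intro h
    have h1 : (h13_psi p n).rangeRestrict σ = 1 := Subtype.ext h
    rw [h1]
    exact map_one _

/-- `ψ_n σ = (1 + p) ^ (deg_n σ)`. -/
theorem h13_deg_spec (hp2 : p ≠ 2) (n : ℕ) (σ : Qbar ≃ₐ[ℚ] Qbar) :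
    h13_psi p n σ = h13_gen p n ^ (Multiplicative.toAdd (h13_deg p hp2 n σ)).val := by
  have h1 : h13_degEquiv p hp2 n (h13_deg p hp2 n σ) = (h13_psi p n).rangeRestrict σ := by
    rw [h13_deg, MonoidHom.comp_apply]
    exact (h13_degEquiv p hp2 n).apply_symm_apply _
  set k := Multiplicative.toAdd (h13_deg p hp2 n σ) with hk
  have h2 : h13_deg p hp2 n σ = Multiplicative.ofAdd (((k.val : ℤ)) : ZMod (p ^ n)) := by
    rw [Int.cast_natCast, ZMod.natCast_zmod_val]
    rfl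
  rw [h2, h13_degEquiv, zmodMulEquivOfGenerator_apply_ofAdd_intCast] at h1
  have h3 := congrArg Subtype.val h1
  rw [zpow_natCast] at h3
  exact h3.symm

end Char

section Local

variable (p : ℕ) [Fact p.Prime] (q : ℕ) [Fact q.Prime]

theorem h13_coprime_of_ne (hqp : q ≠ p) (N : ℕ) : q.Coprime (p ^ N) :=
  Nat.Coprime.pow_right N ((Nat.coprime_primes Fact.out Fact.out).mpr hqp)

theorem h13_not_dvd_pow_of_ne (hqp : q ≠ p) (N : ℕ) : ¬ q ∣ p ^ N := fun h =>
  hqp ((Nat.prime_dvd_prime_iff_eq Fact.out Fact.out).mp ((Fact.out : q.Prime).dvd_of_dvd_pow h))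

/-- **Frobenius at `q ≠ p`**: some element of the local Galois group at `q` has cyclotomic
character `q` modulo `p^N`. -/
theorem h13_chiN_local_frob (hqp : q ≠ p) (N : ℕ) :
    ∃ τ : PadicAlgCl q ≃ₐ[ℚ_[q]] PadicAlgCl q,
      h13_chiN p N (localGaloisToGlobal q τ) =
        ZMod.unitOfCoprime q (h13_coprime_of_ne p q hqp N) := by
  obtain ⟨τ, hτ⟩ := h13_cyc_local_frob q (p ^ N) (h13_not_dvd_pow_of_ne p q hqp N)
  refine ⟨τ, Units.ext ?_⟩
  rw [h13_chiN_eq p N _ q hτ, ZMod.coe_unitOfCoprime]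

/-- **Unramifiedness at `q ≠ p`**: the cyclotomic character modulo `p^N` of every element of the
local Galois group at `q` is a power of `q`. -/
theorem h13_chiN_local_mem_zpowers (hqp : q ≠ p) (N : ℕ)
    (τ : PadicAlgCl q ≃ₐ[ℚ_[q]] PadicAlgCl q) :
    h13_chiN p N (localGaloisToGlobal q τ) ∈
      Subgroup.zpowers (ZMod.unitOfCoprime q (h13_coprime_of_ne p q hqp N)) := by
  obtain ⟨k, hk⟩ := h13_cyc_local_mem_zpowers q (p ^ N) (h13_not_dvd_pow_of_ne p q hqp N) τ
  rw [Subgroup.mem_zpowers_iff]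
  refine ⟨(k : ℤ), ?_⟩
  apply Units.ext
  rw [zpow_natCast, Units.val_pow_eq_pow_val, ZMod.coe_unitOfCoprime,
    h13_chiN_eq p N _ (q ^ k) hk, Nat.cast_pow]

/-- The image of the local Galois group at `q ≠ p` under `ψ_n` is generated by `q^(p-1)`. -/
theorem h13_psi_local_range (hqp : q ≠ p) (n : ℕ) :
    ((h13_psi p n).comp (localGaloisToGlobal q)).range =
      Subgroup.zpowers (ZMod.unitOfCoprime q (h13_coprime_of_ne p q hqp (n + 1)) ^ (p - 1)) := by
  apply le_antisymm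
  · rintro _ ⟨τ, rfl⟩
    obtain ⟨k, hk⟩ := Subgroup.mem_zpowers_iff.mp
      (h13_chiN_local_mem_zpowers p q hqp (n + 1) τ)
    rw [Subgroup.mem_zpowers_iff]
    refine ⟨k, ?_⟩
    change _ = h13_psi p n (localGaloisToGlobal q τ)
    rw [h13_psi_apply, ← hk, ← zpow_natCast, ← zpow_natCast, ← zpow_mul, ← zpow_mul, mul_comm]
  · rw [Subgroup.zpowers_le]
    obtain ⟨τ, hτ⟩ := h13_chiN_local_frob p q hqp (n + 1)
    refine ⟨τ, ?_⟩
    change h13_psi p n (localGaloisToGlobal q τ) = _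
    rw [h13_psi_apply, hτ]

theorem h13_comap_Qn_fixingSubgroup (n : ℕ) :
    ((h13_Qn p n).fixingSubgroup).comap (localGaloisToGlobal q) =
      ((h13_psi p n).comp (localGaloisToGlobal q)).ker := by
  rw [h13_Qn_fixingSubgroup]
  rfl

/-- **Local degree of `Q_n` at `q ≠ p`**: the order of `q^(p-1)` modulo `p^(n+1)`. -/
theorem h13_Qn_local_index_eq (hqp : q ≠ p) (n : ℕ) :
    (((h13_Qn p n).fixingSubgroup).comap (localGaloisToGlobal q)).index =
      orderOf (ZMod.unitOfCoprime q (h13_coprime_of_ne p q hqp (n + 1)) ^ (p - 1)) := by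
  rw [h13_comap_Qn_fixingSubgroup, Subgroup.index_ker, h13_psi_local_range p q hqp n,
    Nat.card_zpowers]

/-- **Local degree of `Q_n` at `p`**: `p^n` (total ramification). -/
theorem h13_Qn_local_index_self (hp2 : p ≠ 2) (n : ℕ) :
    (((h13_Qn p n).fixingSubgroup).comap (localGaloisToGlobal p)).index = p ^ n := by
  rw [h13_comap_Qn_fixingSubgroup, Subgroup.index_ker]
  have h1 : ((h13_psi p n).comp (localGaloisToGlobal p)).range = (h13_psi p n).range := by
    apply le_antisymm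
    · rintro _ ⟨τ, rfl⟩
      exact ⟨_, rfl⟩
    · rintro _ ⟨σ, rfl⟩
      obtain ⟨τ, hτ⟩ := h13_chiN_local_surjective p (n + 1) (h13_chiN p (n + 1) σ)
      refine ⟨τ, ?_⟩
      change h13_psi p n (localGaloisToGlobal p τ) = h13_psi p n σ
      rw [h13_psi_apply, h13_psi_apply, hτ]
  rw [h1, h13_card_psi_range p hp2]

/-- **`p^∞` divides the local degree of the cyclotomic `ℤ_p`-tower at every prime `q`**: for
every `k`, the local degree of `Q_n` at `q` is divisible by `p^k` for all large `n`. -/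
theorem h13_Qn_local_index_dvd (hp2 : p ≠ 2) (k : ℕ) :
    ∃ n₀ : ℕ, ∀ n : ℕ, n₀ ≤ n →
      p ^ k ∣ (((h13_Qn p n).fixingSubgroup).comap (localGaloisToGlobal q)).index := by
  have hp : p.Prime := Fact.out
  have hq : q.Prime := Fact.out
  by_cases hqp : q = p
  · subst hqp
    refine ⟨k, fun n hn => ?_⟩
    rw [h13_Qn_local_index_self q hp2 n]
    exact pow_dvd_pow q hn
  · refine ⟨q ^ (p ^ k * (p - 1)), fun n hn => ?_⟩
    rw [h13_Qn_local_index_eq p q hqp n]
    set u := ZMod.unitOfCoprime q (h13_coprime_of_ne p q hqp (n + 1)) with hu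
    have hle : q ^ (p ^ k * (p - 1)) ≤ p ^ (n + 1) := by
      calc q ^ (p ^ k * (p - 1)) ≤ n := hn
        _ ≤ p ^ n := (Nat.lt_pow_self hp.one_lt).le
        _ ≤ p ^ (n + 1) := Nat.pow_le_pow_right hp.pos (Nat.le_succ n)
    have h1 : p ^ k ∣ orderOf u := by
      rw [← orderOf_units, hu, ZMod.coe_unitOfCoprime]
      exact h13_pow_dvd_orderOf hp hq hqp k (n + 1) hle
    have hpos : p - 1 ≠ 0 := (Nat.sub_pos_of_lt hp.one_lt).ne'
    have h2 : orderOf (u ^ (p - 1)) * Nat.gcd (orderOf u) (p - 1) = orderOf u := by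
      rw [orderOf_pow' u hpos]
      exact Nat.div_mul_cancel (Nat.gcd_dvd_left _ _)
    rw [← h2] at h1
    have hcop : Nat.Coprime (p ^ k) (Nat.gcd (orderOf u) (p - 1)) := by
      apply Nat.Coprime.pow_left
      apply Nat.Coprime.coprime_dvd_right (Nat.gcd_dvd_right _ _)
      have := Nat.coprime_self_sub_right (m := 1) (n := p) hp.one_lt.le
      rw [this]
      exact Nat.coprime_one_right p
    exact hcop.dvd_of_dvd_mul_right h1

end Local

end Fermat.Agent.S55
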