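/-
S55 layer H (helper12), H-LOC complements on top of helper2's carrier `h2_PL p C = C ⊗ ℤ_(p)`:

* common denominators (`h12_PL_common_denom`, `h12_PL_common_kill`);
* `h12_coind_PL` : the localisation of a coinduced module is coinduced (the interface of the
  Shapiro row `h85_Shapiro` is stable under `h2_PL`);
* `h12_PL_shortExact` : localisation is exact on short exact sequences of `G`-modules;
* cohomology of a finite group commutes with localisation, unbundled, degrees 1 and 2: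
  `h12_PL_cob₁/₂` (a cocycle whose image is a coboundary becomes a coboundary after multiplying
  by an integer prime to `p`) and `h12_PL_cocycle₁/₂` (every cocycle of `C ⊗ ℤ_(p)` is, up to an
  integer prime to `p`, the image of a cocycle of `C`).
-/
import Mathlib
import Fermat.Agent.S55.h40_HDefs
import Fermat.Agent.S55.h2_PLoc

set_option autoImplicit false

open groupCohomology

namespace Fermat.Agent.S55

section Denominators

variable {p : ℕ} [Fact p.Prime] {C : Type*} [AddCommGroup C]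

/-- finitely many elements of `C ⊗ ℤ_(p)` have a common denominator prime to `p`. -/
theorem h12_PL_common_denom {ι : Type*} [Finite ι] (f : ι → h2_PL p C) :
    ∃ m : ℕ, m.Coprime p ∧ ∃ c : ι → C, ∀ i, m • f i = h2_PL.j (c i) := by
  classical
  have : Fintype ι := Fintype.ofFinite ι
  choose m hm c hc using fun i => h2_PL.exists_smul_eq_j (f i)
  refine ⟨∏ i, m i, Nat.Coprime.prod_left fun i _ => hm i,
    fun i => ((∏ i, m i) / m i) • c i, fun i => ?_⟩
  have hd : m i ∣ ∏ i, m i := Finset.dvd_prod_of_mem m (Finset.mem_univ i)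
  rw [map_nsmul, ← hc i, ← mul_nsmul, mul_comm, Nat.div_mul_cancel hd]

/-- finitely many elements of `C` dying in `C ⊗ ℤ_(p)` are killed by a common integer prime to
`p`. -/
theorem h12_PL_common_kill {ι : Type*} [Finite ι] (c : ι → C)
    (h : ∀ i, h2_PL.j (p := p) (c i) = 0) : ∃ m : ℕ, m.Coprime p ∧ ∀ i, m • c i = 0 := by
  classical
  have : Fintype ι := Fintype.ofFinite ι
  choose m hm hc using fun i => (h2_PL.j_eq_zero_iff (c i)).1 (h i)
  refine ⟨∏ i, m i, Nat.Coprime.prod_left fun i _ => hm i, fun i => ?_⟩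
  have hd : m i ∣ ∏ i, m i := Finset.dvd_prod_of_mem m (Finset.mem_univ i)
  obtain ⟨t, ht⟩ := hd
  rw [ht, mul_nsmul, hc i, nsmul_zero]

end Denominators

section Coind

variable {p : ℕ} [Fact p.Prime] {G : Type*} [Group G] [Finite G] (D : Subgroup G)
  {X Y : Type*} [AddCommGroup X] [DistribMulAction D X] [AddCommGroup Y] [DistribMulAction G Y]
  (ev : Y →+ X)

omit [Finite G] in
theorem h12_PL_smul_nsmul {C : Type*} [AddCommGroup C] [DistribMulAction G C] (g : G) (n : ℕ)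
    (x : h2_PL p C) : g • (n • x) = n • (g • x) :=
  map_nsmul (DistribMulAction.toAddMonoidHom (h2_PL p C) g) n x

/-- **The localisation of a coinduced module is coinduced**: the interface of the Shapiro row
(`ev`, `hev`, `hbij`) is stable under `C ↦ C ⊗ ℤ_(p)`. -/
theorem h12_coind_PL (hev : ∀ (d : D) (y : Y), ev ((d : G) • y) = d • ev y)
    (hbij : ∀ φ : G → X, (∀ (d : D) (g : G), φ ((d : G) * g) = d • φ g) →
      ∃! y : Y, ∀ g : G, ev (g • y) = φ g) :
    (∀ (d : D) (y : h2_PL p Y), h2_PL.map ev ((d : G) • y) = d • h2_PL.map ev y) ∧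
    (∀ φ : G → h2_PL p X, (∀ (d : D) (g : G), φ ((d : G) * g) = d • φ g) →
      ∃! y : h2_PL p Y, ∀ g : G, h2_PL.map ev (g • y) = φ g) := by
  have hequiv : ∀ (d : D) (y : h2_PL p Y), h2_PL.map ev ((d : G) • y) = d • h2_PL.map ev y :=
    fun d y => h2_PL.map_smul_of (p := p) D.subtype ev (fun d y => hev d y) d y
  -- `map ev (g • j y) = j (ev (g • y))`
  have hj : ∀ (g : G) (y : Y), h2_PL.map (p := p) ev (g • h2_PL.j y) = h2_PL.j (ev (g • y)) := by
    intro g y
    rw [← h2_PL.j_smul, h2_PL.map_j]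
  refine ⟨hequiv, fun φ hφ => ?_⟩
  -- uniqueness
  have huniq : ∀ z : h2_PL p Y, (∀ g : G, h2_PL.map ev (g • z) = 0) → z = 0 := by
    intro z hz
    obtain ⟨n, hn, z₀, hz₀⟩ := h2_PL.exists_smul_eq_j z
    have h1 : ∀ g : G, h2_PL.j (p := p) (ev (g • z₀)) = 0 := by
      intro g
      rw [← hj, ← hz₀, h12_PL_smul_nsmul, map_nsmul, hz g, nsmul_zero]
    obtain ⟨n', hn', hk⟩ := h12_PL_common_kill (fun g : G => ev (g • z₀)) h1
    have h2 : n' • z₀ = 0 := by
      obtain ⟨y, -, hy⟩ := hbij (fun _ => 0) (fun d g => (smul_zero d).symm)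
      have e1 : n' • z₀ = y := hy _ fun g => by
        rw [show g • (n' • z₀) = n' • (g • z₀) from smul_comm g n' z₀, map_nsmul]
        exact hk g
      have e2 : (0 : Y) = y := hy _ fun g => by rw [smul_zero, map_zero]
      rw [e1, ← e2]
    have h3 : h2_PL.j (p := p) z₀ = 0 := by
      apply h2_PL.smul_injective (p := p) n' hn'
      show n' • h2_PL.j z₀ = n' • (0 : h2_PL p Y)
      rw [← map_nsmul, h2, map_zero, nsmul_zero]
    apply h2_PL.smul_injective (p := p) n hn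
    show n • z = n • (0 : h2_PL p Y)
    rw [hz₀, h3, nsmul_zero]
  -- existence
  obtain ⟨m, hm, x, hx⟩ := h12_PL_common_denom φ
  have hdef : ∀ dg : D × G,
      h2_PL.j (p := p) (x ((dg.1 : G) * dg.2) - dg.1 • x dg.2) = 0 := by
    rintro ⟨d, g⟩
    rw [map_sub, h2_PL.j_smul, ← hx, ← hx, hφ d g, h12_PL_smul_nsmul, sub_self]
  obtain ⟨m', hm', hkill⟩ := h12_PL_common_kill _ hdef
  have hφ₀ : ∀ (d : D) (g : G), m' • x ((d : G) * g) = d • (m' • x g) := by
    intro d g
    have h1 := hkill (d, g)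
    rw [smul_sub, sub_eq_zero] at h1
    rw [h1]
    exact (smul_comm d m' (x g)).symm
  obtain ⟨y₀, hy₀, -⟩ := hbij (fun g => m' • x g) hφ₀
  obtain ⟨y, hy⟩ := h2_PL.smul_surjective (p := p) (m' * m) (Nat.Coprime.mul_left hm' hm)
    (h2_PL.j y₀)
  have hy' : (m' * m) • y = h2_PL.j y₀ := hy
  have hPy : ∀ g : G, h2_PL.map ev (g • y) = φ g := by
    intro g
    apply h2_PL.smul_injective (p := p) (m' * m) (Nat.Coprime.mul_left hm' hm)
    show (m' * m) • h2_PL.map ev (g • y) = (m' * m) • φ g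
    rw [← map_nsmul, ← h12_PL_smul_nsmul, hy', hj, hy₀ g, map_nsmul, ← hx, mul_nsmul']
  refine ⟨y, hPy, fun y' hy'' => ?_⟩
  have h0 := huniq (y' - y) fun g => by
    rw [smul_sub, map_sub, hy'' g, hPy g, sub_self]
  exact sub_eq_zero.1 h0

end Coind

section Exact

variable {p : ℕ} [Fact p.Prime] {G : Type*} [Group G] {A B C : Type*} [AddCommGroup A]
  [AddCommGroup B] [AddCommGroup C] [DistribMulAction G A] [DistribMulAction G B]
  [DistribMulAction G C]

/-- Localisation is exact on short exact sequences of `G`-modules. -/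
theorem h12_PL_shortExact (i : A →+ B) (q : B →+ C) (h : h40_ShortExact G i q) :
    h40_ShortExact G (h2_PL.map (p := p) i) (h2_PL.map (p := p) q) := by
  have hqi : ∀ a : A, q (i a) = 0 := fun a => (h.exact (i a)).2 ⟨a, rfl⟩
  refine ⟨h2_PL.map_injective i h.inj, ?_, ?_, ?_, ?_⟩
  · intro x
    obtain ⟨m, hm, c, hc⟩ := h2_PL.exists_smul_eq_j x
    obtain ⟨b, rfl⟩ := h.surj c
    obtain ⟨y, hy⟩ := h2_PL.smul_surjective (p := p) m hm (h2_PL.j b)
    have hy' : m • y = h2_PL.j b := hy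
    refine ⟨y, ?_⟩
    apply h2_PL.smul_injective (p := p) m hm
    show m • h2_PL.map q y = m • x
    rw [← map_nsmul, hy', h2_PL.map_j, hc]
  · intro y
    constructor
    · intro hy
      obtain ⟨m, hm, b, hb⟩ := h2_PL.exists_smul_eq_j y
      have h1 : h2_PL.j (p := p) (q b) = 0 := by
        rw [← h2_PL.map_j, ← hb, map_nsmul, hy, nsmul_zero]
      obtain ⟨m', hm', h2⟩ := (h2_PL.j_eq_zero_iff _).1 h1
      have h3 : q (m' • b) = 0 := by rw [map_nsmul, h2]
      obtain ⟨a, ha⟩ := (h.exact _).1 h3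
      obtain ⟨z, hz⟩ := h2_PL.smul_surjective (p := p) (m' * m) (Nat.Coprime.mul_left hm' hm)
        (h2_PL.j a)
      have hz' : (m' * m) • z = h2_PL.j a := hz
      refine ⟨z, ?_⟩
      apply h2_PL.smul_injective (p := p) (m' * m) (Nat.Coprime.mul_left hm' hm)
      show (m' * m) • h2_PL.map i z = (m' * m) • y
      rw [← map_nsmul, hz', h2_PL.map_j, ha, map_nsmul, mul_nsmul', hb]
    · rintro ⟨a, rfl⟩
      obtain ⟨m, hm, a₀, ha₀⟩ := h2_PL.exists_smul_eq_j a
      apply h2_PL.smul_injective (p := p) m hm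
      show m • h2_PL.map q (h2_PL.map i a) = m • (0 : h2_PL p C)
      rw [← map_nsmul, ← map_nsmul, ha₀, h2_PL.map_j, h2_PL.map_j, hqi, map_zero, nsmul_zero]
  · intro g a
    exact h2_PL.map_smul_of (p := p) (MonoidHom.id G) i (fun g a => h.i_smul g a) g a
  · intro g b
    exact h2_PL.map_smul_of (p := p) (MonoidHom.id G) q (fun g b => h.q_smul g b) g b

end Exact

section Cohomology

variable {p : ℕ} [Fact p.Prime] {G : Type*} [Group G] [Finite G] {C : Type*} [AddCommGroup C]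
  [DistribMulAction G C]

/-- degree 1: a cochain of `C` whose image in `C ⊗ ℤ_(p)` is a coboundary becomes a coboundary
after multiplication by an integer prime to `p`. -/
theorem h12_PL_cob₁ (z : G → C) (h : IsCoboundary₁ (fun g => h2_PL.j (p := p) (z g))) :
    ∃ m : ℕ, m.Coprime p ∧ IsCoboundary₁ (m • z) := by
  obtain ⟨x, hx'⟩ := h
  have hx : ∀ g : G, g • x - x = h2_PL.j (z g) := hx'
  obtain ⟨m, hm, x₀, hx₀⟩ := h2_PL.exists_smul_eq_j x
  have hdef : ∀ g : G, h2_PL.j (p := p) (g • x₀ - x₀ - m • z g) = 0 := by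
    intro g
    rw [map_sub, map_sub, h2_PL.j_smul, ← hx₀, map_nsmul, ← hx g, h12_PL_smul_nsmul, nsmul_sub,
      sub_self]
  obtain ⟨m', hm', hk⟩ := h12_PL_common_kill _ hdef
  refine ⟨m' * m, Nat.Coprime.mul_left hm' hm, m' • x₀, fun g => ?_⟩
  have h1 := hk g
  rw [smul_sub, sub_eq_zero] at h1
  rw [Pi.smul_apply, mul_nsmul', ← h1, smul_sub]
  congr 1
  exact smul_comm g m' x₀

/-- degree 2: a cochain of `C` whose image in `C ⊗ ℤ_(p)` is a coboundary becomes a coboundary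
after multiplication by an integer prime to `p`. -/
theorem h12_PL_cob₂ (z : G × G → C) (h : IsCoboundary₂ (fun x => h2_PL.j (p := p) (z x))) :
    ∃ m : ℕ, m.Coprime p ∧ IsCoboundary₂ (m • z) := by
  obtain ⟨x, hx'⟩ := h
  have hx : ∀ g h : G, g • x h - x (g * h) + x g = h2_PL.j (z (g, h)) := hx'
  obtain ⟨m, hm, x₀, hx₀⟩ := h12_PL_common_denom x
  have hdef : ∀ gh : G × G, h2_PL.j (p := p)
      (gh.1 • x₀ gh.2 - x₀ (gh.1 * gh.2) + x₀ gh.1 - m • z gh) = 0 := by
    rintro ⟨g, h⟩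
    show h2_PL.j (p := p) (g • x₀ h - x₀ (g * h) + x₀ g - m • z (g, h)) = 0
    rw [map_sub, map_add, map_sub, h2_PL.j_smul, ← hx₀, ← hx₀, ← hx₀, map_nsmul, ← hx g h,
      h12_PL_smul_nsmul, nsmul_add, nsmul_sub, sub_self]
  obtain ⟨m', hm', hk⟩ := h12_PL_common_kill _ hdef
  refine ⟨m' * m, Nat.Coprime.mul_left hm' hm, fun g => m' • x₀ g, fun g h => ?_⟩
  have h1 := hk (g, h)
  rw [smul_sub, sub_eq_zero] at h1
  rw [Pi.smul_apply, mul_nsmul', ← h1, smul_add, smul_sub]
  congr 2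
  exact smul_comm g m' (x₀ h)

/-- degree 1: every cocycle of `C ⊗ ℤ_(p)` is, up to an integer prime to `p`, the image of a
cocycle of `C`. -/
theorem h12_PL_cocycle₁ (z : G → h2_PL p C) (hz : IsCocycle₁ z) :
    ∃ m : ℕ, m.Coprime p ∧ ∃ z₀ : G → C, IsCocycle₁ z₀ ∧ ∀ g, m • z g = h2_PL.j (z₀ g) := by
  obtain ⟨m, hm, x₀, hx₀⟩ := h12_PL_common_denom z
  have hdef : ∀ gh : G × G, h2_PL.j (p := p)
      (x₀ (gh.1 * gh.2) - (gh.1 • x₀ gh.2 + x₀ gh.1)) = 0 := by
    rintro ⟨g, h⟩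
    show h2_PL.j (p := p) (x₀ (g * h) - (g • x₀ h + x₀ g)) = 0
    rw [map_sub, map_add, h2_PL.j_smul, ← hx₀, ← hx₀, ← hx₀, hz g h, h12_PL_smul_nsmul, nsmul_add,
      sub_self]
  obtain ⟨m', hm', hk⟩ := h12_PL_common_kill _ hdef
  refine ⟨m' * m, Nat.Coprime.mul_left hm' hm, fun g => m' • x₀ g, fun g h => ?_, fun g => ?_⟩
  · have h1 := hk (g, h)
    rw [smul_sub, sub_eq_zero] at h1
    show m' • x₀ (g * h) = g • (m' • x₀ h) + m' • x₀ g
    rw [h1, smul_add]
    congr 1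
    exact (smul_comm g m' (x₀ h)).symm
  · rw [mul_nsmul', hx₀, map_nsmul]

/-- degree 2: every cocycle of `C ⊗ ℤ_(p)` is, up to an integer prime to `p`, the image of a
cocycle of `C`. -/
theorem h12_PL_cocycle₂ (z : G × G → h2_PL p C) (hz : IsCocycle₂ z) :
    ∃ m : ℕ, m.Coprime p ∧ ∃ z₀ : G × G → C, IsCocycle₂ z₀ ∧ ∀ x, m • z x = h2_PL.j (z₀ x) := by
  obtain ⟨m, hm, x₀, hx₀⟩ := h12_PL_common_denom z
  have hdef : ∀ t : G × G × G, h2_PL.j (p := p)
      (x₀ (t.1 * t.2.1, t.2.2) + x₀ (t.1, t.2.1) -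
        (t.1 • x₀ (t.2.1, t.2.2) + x₀ (t.1, t.2.1 * t.2.2))) = 0 := by
    rintro ⟨g, h, k⟩
    show h2_PL.j (p := p) (x₀ (g * h, k) + x₀ (g, h) - (g • x₀ (h, k) + x₀ (g, h * k))) = 0
    rw [map_sub, map_add, map_add, h2_PL.j_smul, ← hx₀, ← hx₀, ← hx₀, ← hx₀, ← nsmul_add,
      hz g h k, h12_PL_smul_nsmul, nsmul_add, sub_self]
  obtain ⟨m', hm', hk⟩ := h12_PL_common_kill _ hdef
  refine ⟨m' * m, Nat.Coprime.mul_left hm' hm, fun x => m' • x₀ x, fun g h k => ?_, fun x => ?_⟩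
  · have h1 := hk (g, h, k)
    rw [smul_sub, sub_eq_zero, smul_add, smul_add] at h1
    show m' • x₀ (g * h, k) + m' • x₀ (g, h) = g • (m' • x₀ (h, k)) + m' • x₀ (g, h * k)
    rw [h1]
    congr 1
    exact (smul_comm g m' (x₀ (h, k))).symm
  · rw [mul_nsmul', hx₀, map_nsmul]

end Cohomology

end Fermat.Agent.S55
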