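import Mathlib
import Fermat.Agent.S55.h72_AbsDefs
import Fermat.Agent.S55.h40_InfRes
import Fermat.Agent.S55.h12_Cyclic

/-!
# S55, GLOB-BETA: the abstract core

`[BETA]` of GLOB-SPEC: for a level `L` and `q ∈ S`, a 2-cocycle of `Gal(L/ℚ)` in
`J_q(L) ⊗ Z_(p)` whose image in `C_L ⊗ Z_(p)` is a coboundary is a coboundary.

This file contains the model-independent argument (`h13_beta_abs`):

* `G = Gal(L~/ℚ)` with `L~ = L·Q_n`, acting on `J = J_q(L~)_(p)` and `C = C_{L~,(p)}`,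
  `f : J → C` equivariant; `H²(G, J)` is cyclic of order `p ^ d`, generated by `uJ`;
* `Q = Gal(L/ℚ)` (`π : G → Q`) acting on `JL`, `CL` (the level `L`);
* `Γ = Gal(Q_n/ℚ) = ⟨γ⟩` (`ρ : G → Γ`) acting on `JΓ`, `CΓ` (the cyclotomic level), with a
  2-cocycle `z0` of `Γ` in `JΓ` whose inflation has order divisible by `p ^ m`;
* the arithmetic input `hnorm`: an invariant of `JΓ` whose image in `CΓ` is a norm is a norm.

Then a 2-cocycle `z` of `Q` in `JL`, killed by `p ^ m`, whose image in `CL` is a coboundary, is a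
coboundary.
-/

set_option autoImplicit false

open groupCohomology

namespace Fermat.Agent.S55

section Tools

variable {G A B : Type*} [Group G] [AddCommGroup A] [DistribMulAction G A]
  [AddCommGroup B] [DistribMulAction G B]

/-- A multiple of a 2-coboundary is a 2-coboundary. -/
lemma h13_isCoboundary₂_nsmul (n : ℕ) {y : G × G → A} (hy : IsCoboundary₂ y) :
    IsCoboundary₂ (n • y) := by
  obtain ⟨x, hx⟩ := hy
  refine ⟨n • x, fun g h => ?_⟩
  simp only [Pi.smul_apply, ← hx g h, smul_add, smul_sub, smul_comm g n]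

/-- A multiple of a 2-cocycle is a 2-cocycle. -/
lemma h13_isCocycle₂_nsmul (n : ℕ) {y : G × G → A} (hy : IsCocycle₂ y) :
    IsCocycle₂ (n • y) := by
  intro g h j
  simp only [Pi.smul_apply]
  rw [← smul_add, hy g h j, smul_add, smul_comm g n]

/-- The image of a 2-coboundary under an equivariant map is a 2-coboundary. -/
lemma h13_isCoboundary₂_comp (f : A →+ B) (hf : ∀ (g : G) (a : A), f (g • a) = g • f a)
    {y : G × G → A} (hy : IsCoboundary₂ y) : IsCoboundary₂ (fun x => f (y x)) := by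
  obtain ⟨x, hx⟩ := hy
  refine ⟨fun g => f (x g), fun g h => ?_⟩
  simp only [← hx g h, map_add, map_sub, hf]

/-- The image of a 2-cocycle under an equivariant map is a 2-cocycle. -/
lemma h13_isCocycle₂_comp (f : A →+ B) (hf : ∀ (g : G) (a : A), f (g • a) = g • f a)
    {y : G × G → A} (hy : IsCocycle₂ y) : IsCocycle₂ (fun x => f (y x)) := by
  intro g h j
  have := congrArg f (hy g h j)
  simpa only [map_add, hf] using this

end Tools

section Arith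

/-- The arithmetic of a cyclic group of order `p ^ d`: if `k` is killed by `p ^ m` and the multiples
of `k0` have order at least `p ^ m`, then `k` is a multiple of `k0` modulo `p ^ d`. -/
lemma h13_exists_mul_modEq {p : ℕ} (hp : p.Prime) (d m k k0 : ℕ) (h1 : p ^ d ∣ p ^ m * k)
    (h2 : ∀ t : ℕ, p ^ d ∣ t * k0 → p ^ m ∣ t) :
    ∃ t a b : ℕ, t * k0 + p ^ d * a = k + p ^ d * b := by
  have hpd : 0 < p ^ d := pow_pos hp.pos d
  -- `g = gcd (k0, p ^ d) = p ^ v`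
  obtain ⟨v, hvd, hv⟩ := (Nat.dvd_prime_pow hp).1 (Nat.gcd_dvd_right k0 (p ^ d))
  have hgk0 : p ^ v ∣ k0 := hv ▸ Nat.gcd_dvd_left k0 (p ^ d)
  -- `m ≤ d - v`
  have hm : m ≤ d - v := by
    have h3 : p ^ d ∣ p ^ (d - v) * k0 := by
      obtain ⟨c, hc⟩ := hgk0
      refine ⟨c, ?_⟩
      rw [hc, ← mul_assoc, ← pow_add, Nat.sub_add_cancel hvd]
    exact (Nat.pow_dvd_pow_iff_le_right hp.one_lt).1 (h2 _ h3)
  -- `p ^ v ∣ k`
  have hgk : p ^ v ∣ k := by
    have h4 : p ^ m * p ^ (d - m) ∣ p ^ m * k := by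
      rw [← pow_add, Nat.add_sub_cancel' (by omega : m ≤ d)]
      exact h1
    have h5 : p ^ (d - m) ∣ k := Nat.dvd_of_mul_dvd_mul_left (pow_pos hp.pos m) h4
    exact (pow_dvd_pow p (by omega : v ≤ d - m)).trans h5
  obtain ⟨c, hc⟩ := hgk
  -- Bezout
  have hbez : ((p ^ v : ℕ) : ℤ) = (k0 : ℤ) * Nat.gcdA k0 (p ^ d) + ((p ^ d : ℕ) : ℤ) * Nat.gcdB k0 (p ^ d) := by
    rw [← hv]
    exact Nat.gcd_eq_gcd_ab k0 (p ^ d)
  set T : ℤ := (c : ℤ) * Nat.gcdA k0 (p ^ d) with hT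
  set t : ℕ := (T % ((p ^ d : ℕ) : ℤ)).toNat with ht
  have htT : (t : ℤ) = T % ((p ^ d : ℕ) : ℤ) := by
    rw [ht]
    exact Int.toNat_of_nonneg (Int.emod_nonneg _ (by exact_mod_cast hpd.ne'))
  have hmod : ((t * k0 : ℕ) : ℤ) ≡ (k : ℤ) [ZMOD ((p ^ d : ℕ) : ℤ)] := by
    have e1 : (t : ℤ) ≡ T [ZMOD ((p ^ d : ℕ) : ℤ)] := by
      rw [htT]; exact Int.mod_modEq _ _
    have e2 : T * (k0 : ℤ) ≡ (k : ℤ) [ZMOD ((p ^ d : ℕ) : ℤ)] := by
      have : (k : ℤ) = T * (k0 : ℤ) + ((p ^ d : ℕ) : ℤ) * ((c : ℤ) * Nat.gcdB k0 (p ^ d)) := by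
        rw [hc, Nat.cast_mul, hbez, hT]; ring
      rw [this]
      exact (Int.modEq_add_fac_self).symm
    push_cast
    exact (e1.mul_right _).trans e2
  have hmod' : t * k0 ≡ k [MOD p ^ d] := Int.natCast_modEq_iff.1 hmod
  refine ⟨t, k / p ^ d, t * k0 / p ^ d, ?_⟩
  have e1 := Nat.div_add_mod (t * k0) (p ^ d)
  have e2 := Nat.div_add_mod k (p ^ d)
  have e3 : t * k0 % p ^ d = k % p ^ d := hmod'
  omega

end Arith

section Core

/-- **GLOB-BETA, abstract core.** -/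
theorem h13_beta_abs {p : ℕ} [hp : Fact p.Prime]
    {G : Type*} [Group G] {J C : Type*} [AddCommGroup J] [DistribMulAction G J]
    [AddCommGroup C] [DistribMulAction G C]
    (f : J →+ C) (hf : ∀ (g : G) (x : J), f (g • x) = g • f x)
    -- `H²(G, J)` is cyclic of order `p ^ d`, generated by the class of `uJ`
    (uJ : G × G → J)
    (hgen : ∀ y : G × G → J, IsCocycle₂ y → ∃ k : ℕ, IsCoboundary₂ (y - k • uJ))
    (d : ℕ) (hord : ∀ k : ℕ, IsCoboundary₂ (k • uJ) ↔ p ^ d ∣ k)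
    -- the level `L`
    {Q : Type*} [Group Q] (π : G →* Q) (hπ : Function.Surjective π)
    {JL CL : Type*} [AddCommGroup JL] [DistribMulAction Q JL]
    [AddCommGroup CL] [DistribMulAction Q CL]
    (ιJ : JL →+ J) (hιJ : Function.Injective ιJ)
    (hιJeq : ∀ (g : G) (x : JL), ιJ (π g • x) = g • ιJ x)
    (hιJfix : ∀ x : J, (∀ s ∈ π.ker, s • x = x) → x ∈ ιJ.range)
    (hH1J : ∀ u : π.ker → J, IsCocycle₁ u → IsCoboundary₁ u)
    (ιC : CL →+ C) (hιCeq : ∀ (g : G) (c : CL), ιC (π g • c) = g • ιC c)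
    (fL : JL →+ CL) (hfL : ∀ x : JL, ιC (fL x) = f (ιJ x))
    -- the cyclic level `Γ = ⟨γ⟩`
    {Γ : Type*} [Group Γ] [Finite Γ] (ρ : G →* Γ) (hρ : Function.Surjective ρ)
    (γ : Γ) (hγ : ∀ x : Γ, x ∈ Subgroup.zpowers γ)
    {JΓ CΓ : Type*} [AddCommGroup JΓ] [DistribMulAction Γ JΓ]
    [AddCommGroup CΓ] [DistribMulAction Γ CΓ]
    (κJ : JΓ →+ J) (hκJeq : ∀ (g : G) (x : JΓ), κJ (ρ g • x) = g • κJ x)
    (κC : CΓ →+ C) (hκC : Function.Injective κC)
    (hκCeq : ∀ (g : G) (c : CΓ), κC (ρ g • c) = g • κC c)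
    (hκCfix : ∀ c : C, (∀ s ∈ ρ.ker, s • c = c) → c ∈ κC.range)
    (hH1C : ∀ u : ρ.ker → C, IsCocycle₁ u → IsCoboundary₁ u)
    (fΓ : JΓ →+ CΓ) (hfΓ : ∀ x : JΓ, κC (fΓ x) = f (κJ x))
    -- arithmetic: an invariant of `JΓ` whose image in `CΓ` is a norm is a norm
    (hnorm : ∀ j : JΓ, γ • j = j → (∃ c : CΓ, h12_cycNorm γ c = fΓ j) →
      ∃ b : JΓ, h12_cycNorm γ b = j)
    -- a class of order at least `p ^ m` inflated from `Γ`
    (m : ℕ) (z0 : Γ × Γ → JΓ) (hz0 : IsCocycle₂ z0)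
    (hz0ord : ∀ k : ℕ, IsCoboundary₂ (k • h40_inf₂ ρ κJ z0) → p ^ m ∣ k)
    -- the cocycle
    (z : Q × Q → JL) (hz : IsCocycle₂ z) (hzm : IsCoboundary₂ (p ^ m • z))
    (hcob : IsCoboundary₂ (fun x : Q × Q => fL (z x))) : IsCoboundary₂ z := by
  have hγfin : IsOfFinOrder γ := isOfFinOrder_of_finite γ
  have hinfsmul : ∀ (n : ℕ) (y : Γ × Γ → JΓ), h40_inf₂ ρ κJ (n • y) = n • h40_inf₂ ρ κJ y := by
    intro n y; funext x; simp [h40_inf₂]
  have hinfsmul' : ∀ (n : ℕ) (y : Q × Q → JL), h40_inf₂ π ιJ (n • y) = n • h40_inf₂ π ιJ y := by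
    intro n y; funext x; simp [h40_inf₂]
  -- the inflated cocycles
  have hZ : IsCocycle₂ (h40_inf₂ π ιJ z) := h40_inf₂_isCocycle₂ π ιJ hιJeq hz
  have hZ0 : IsCocycle₂ (h40_inf₂ ρ κJ z0) := h40_inf₂_isCocycle₂ ρ κJ hκJeq hz0
  obtain ⟨k, hk⟩ := hgen _ hZ
  obtain ⟨k0, hk0⟩ := hgen _ hZ0
  -- `p ^ d ∣ p ^ m * k`
  have h1 : p ^ d ∣ p ^ m * k := by
    rw [← hord]
    have e : (p ^ m * k) • uJ
        = p ^ m • h40_inf₂ π ιJ z - p ^ m • (h40_inf₂ π ιJ z - k • uJ) := by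
      rw [smul_sub, mul_smul]; abel
    rw [e, ← hinfsmul']
    exact h40_isCoboundary₂_sub (h40_inf₂_isCoboundary₂ π ιJ hιJeq hzm)
      (h13_isCoboundary₂_nsmul _ hk)
  -- the multiples of `k0` have order at least `p ^ m`
  have h2 : ∀ t : ℕ, p ^ d ∣ t * k0 → p ^ m ∣ t := by
    intro t ht
    apply hz0ord
    have e : t • h40_inf₂ ρ κJ z0
        = t • (h40_inf₂ ρ κJ z0 - k0 • uJ) + (t * k0) • uJ := by
      rw [smul_sub, mul_smul]; abel
    rw [e]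
    exact h40_isCoboundary₂_add (h13_isCoboundary₂_nsmul _ hk0) ((hord _).2 ht)
  obtain ⟨t, a, b, htab⟩ := h13_exists_mul_modEq hp.out d m k k0 h1 h2
  -- `Z - t • Z0` is a coboundary
  have h3 : IsCoboundary₂ (h40_inf₂ π ιJ z - t • h40_inf₂ ρ κJ z0) := by
    have e : h40_inf₂ π ιJ z - t • h40_inf₂ ρ κJ z0
        = (h40_inf₂ π ιJ z - k • uJ) - t • (h40_inf₂ ρ κJ z0 - k0 • uJ)
          + ((p ^ d * a) • uJ - (p ^ d * b) • uJ) := by
      have e' : (t * k0) • uJ + (p ^ d * a) • uJ = k • uJ + (p ^ d * b) • uJ := by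
        rw [← add_smul, ← add_smul, htab]
      have e'' : (p ^ d * a) • uJ - (p ^ d * b) • uJ = k • uJ - (t * k0) • uJ := by
        rw [sub_eq_sub_iff_add_eq_add, add_comm, e', add_comm]
      rw [e'', smul_sub, mul_smul]; abel
    rw [e]
    exact h40_isCoboundary₂_add
      (h40_isCoboundary₂_sub hk (h13_isCoboundary₂_nsmul _ hk0))
      (h40_isCoboundary₂_sub ((hord _).2 (dvd_mul_right _ _)) ((hord _).2 (dvd_mul_right _ _)))
  -- the image of `t • Z0` in `C` is a coboundary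
  have h4 : IsCoboundary₂ (fun x => f ((t • h40_inf₂ ρ κJ z0) x)) := by
    have e : (fun x => f ((t • h40_inf₂ ρ κJ z0) x))
        = h40_inf₂ π ιC (fun x => fL (z x))
          - fun x => f ((h40_inf₂ π ιJ z - t • h40_inf₂ ρ κJ z0) x) := by
      funext x
      simp only [Pi.sub_apply, h40_inf₂, map_sub, hfL]
      abel
    rw [e]
    exact h40_isCoboundary₂_sub (h40_inf₂_isCoboundary₂ π ιC hιCeq hcob)
      (h13_isCoboundary₂_comp f hf h3)
  -- `fΓ` is equivariant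
  have hfΓeq : ∀ (x : Γ) (j : JΓ), fΓ (x • j) = x • fΓ j := by
    intro x j
    obtain ⟨g, rfl⟩ := hρ x
    apply hκC
    rw [hfΓ, hκJeq, hf, hκCeq, hfΓ]
  -- descend to `Γ`
  have hz2 : IsCocycle₂ (t • z0) := h13_isCocycle₂_nsmul t hz0
  have hy : IsCocycle₂ (fun x => fΓ ((t • z0) x)) := h13_isCocycle₂_comp fΓ hfΓeq hz2
  have h5 : IsCoboundary₂ (fun x => fΓ ((t • z0) x)) := by
    apply h40_inf₂_injective ρ κC hρ hκC hκCeq (fun a ha => hκCfix a ha) hH1C _ hy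
    have e : h40_inf₂ ρ κC (fun x => fΓ ((t • z0) x))
        = fun x => f ((t • h40_inf₂ ρ κJ z0) x) := by
      funext x
      simp only [h40_inf₂, hfΓ, Pi.smul_apply, map_nsmul]
    rw [e]
    exact h4
  -- the cyclic group `Γ`
  obtain ⟨c, hc⟩ := (h12_cyc_isCoboundary₂_iff γ hγ hγfin hy).1 h5
  have hinv : h12_cycInv γ (fun x => fΓ ((t • z0) x)) = fΓ (h12_cycInv γ (t • z0)) := by
    simp only [h12_cycInv, map_sum]
  rw [hinv] at hc
  obtain ⟨b', hb'⟩ := hnorm _ (h12_cycInv_smul γ hγfin hz2) ⟨c, hc⟩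
  have h6 : IsCoboundary₂ (t • z0) := (h12_cyc_isCoboundary₂_iff γ hγ hγfin hz2).2 ⟨b', hb'⟩
  -- back to `G`
  have h7 : IsCoboundary₂ (h40_inf₂ π ιJ z) := by
    have e : h40_inf₂ π ιJ z
        = (h40_inf₂ π ιJ z - t • h40_inf₂ ρ κJ z0) + h40_inf₂ ρ κJ (t • z0) := by
      rw [hinfsmul]; abel
    rw [e]
    exact h40_isCoboundary₂_add h3 (h40_inf₂_isCoboundary₂ ρ κJ hκJeq h6)
  exact h40_inf₂_injective π ιJ hπ hιJ hιJeq (fun a ha => hιJfix a ha) hH1J z hz h7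

end Core

end Fermat.Agent.S55
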