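import Mathlib

/-!
# S55, row H-SHAP: Shapiro's lemma in degrees 1 and 2 for an abstract coinduced module

`D ≤ G`, `X` a `D`-module, `Y` a `G`-module, `ev : Y →+ X` a `D`-equivariant map such that
`y ↦ (g ↦ ev (g • y))` is a bijection of `Y` onto the `D`-equivariant functions `G → X`.
Then restriction-evaluation induces bijections on cohomology classes in degrees 1 and 2
(unbundled Mathlib predicates `IsCocycle₁`, `IsCoboundary₁`, `IsCocycle₂`, `IsCoboundary₂`).
-/

set_option autoImplicit false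

open groupCohomology

namespace Fermat.Agent.S55

section Rho

variable {G : Type*} [Group G] (D : Subgroup G)

/-- A left-`D`-equivariant retraction `G → D` normalised at `1`. -/
theorem h85_exists_rho :
    ∃ ρ : G → D, (∀ (d : D) (g : G), ρ ((d : G) * g) = d * ρ g) ∧ ρ 1 = 1 := by
  classical
  -- representatives of right cosets
  let s : G → G := fun g => (Quotient.mk (QuotientGroup.rightRel D) g).out
  have hs : ∀ g, g * (s g)⁻¹ ∈ D := by
    intro g
    have h : (QuotientGroup.rightRel D) (s g) g := Quotient.mk_out (s := QuotientGroup.rightRel D) g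
    rwa [QuotientGroup.rightRel_apply] at h
  have hsd : ∀ (d : D) (g : G), s ((d : G) * g) = s g := by
    intro d g
    have : Quotient.mk (QuotientGroup.rightRel D) ((d : G) * g)
        = Quotient.mk (QuotientGroup.rightRel D) g := by
      apply Quotient.sound
      show (QuotientGroup.rightRel D) ((d : G) * g) g
      rw [QuotientGroup.rightRel_apply]
      have : g * ((d : G) * g)⁻¹ = ((d : G))⁻¹ := by group
      rw [this]
      exact D.inv_mem d.2
    show (Quotient.mk (QuotientGroup.rightRel D) ((d : G) * g)).out = _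
    rw [this]
  let ρ₀ : G → D := fun g => ⟨g * (s g)⁻¹, hs g⟩
  have hρ₀ : ∀ (d : D) (g : G), ρ₀ ((d : G) * g) = d * ρ₀ g := by
    intro d g
    apply Subtype.ext
    show (d : G) * g * (s ((d : G) * g))⁻¹ = (d : G) * (g * (s g)⁻¹)
    rw [hsd d g, mul_assoc]
  refine ⟨fun g => ρ₀ g * (ρ₀ 1)⁻¹, fun d g => ?_, ?_⟩
  · show ρ₀ ((d : G) * g) * (ρ₀ 1)⁻¹ = d * (ρ₀ g * (ρ₀ 1)⁻¹)
    rw [hρ₀ d g, mul_assoc]
  · show ρ₀ 1 * (ρ₀ 1)⁻¹ = 1
    exact mul_inv_cancel _

end Rho

section Shapiro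

variable {G : Type*} [Group G] (D : Subgroup G) {X Y : Type*} [AddCommGroup X]
  [DistribMulAction D X] [AddCommGroup Y] [DistribMulAction G Y] (ev : Y →+ X)
  (hev : ∀ (d : D) (y : Y), ev ((d : G) • y) = d • ev y)
  (hbij : ∀ φ : G → X, (∀ (d : D) (g : G), φ ((d : G) * g) = d • φ g) →
    ∃! y : Y, ∀ g : G, ev (g • y) = φ g)

include hev hbij in
/-- (U) an element of `Y` is determined by the function `k ↦ ev (k • y)`. -/
theorem h85_shap_ext (y y' : Y) (h : ∀ k : G, ev (k • y) = ev (k • y')) : y = y' := by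
  have hφ : ∀ (d : D) (g : G), ev (((d : G) * g) • y') = d • ev (g • y') := by
    intro d g
    rw [mul_smul, hev]
  exact (hbij (fun k => ev (k • y')) hφ).unique h (fun _ => rfl)

include hbij in
/-- (E) every `D`-equivariant function is of the form `k ↦ ev (k • y)`. -/
theorem h85_shap_exists (φ : G → X) (hφ : ∀ (d : D) (g : G), φ ((d : G) * g) = d • φ g) :
    ∃ y : Y, ∀ g : G, ev (g • y) = φ g :=
  (hbij φ hφ).exists

include hev hbij in
/-- Shapiro, degree 1, injectivity. -/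
theorem h85_shapiro₁_inj (z : G → Y) (hz : IsCocycle₁ z)
    (h : IsCoboundary₁ (fun d : D => ev (z (d : G)))) : IsCoboundary₁ z := by
  obtain ⟨x, hx⟩ := h
  have hx' : ∀ d : D, d • x - x = ev (z (d : G)) := hx
  have hφ : ∀ (d : D) (g : G), ev (z ((d : G) * g)) + x = d • (ev (z g) + x) := by
    intro d g
    rw [hz (d : G) g, map_add, hev, smul_add, ← hx' d]
    abel
  obtain ⟨y, hy⟩ := h85_shap_exists D ev hbij (fun k => ev (z k) + x) hφ
  refine ⟨y, fun g => ?_⟩
  apply h85_shap_ext D ev hev hbij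
  intro k
  rw [smul_sub, map_sub, ← mul_smul, hy, hy, hz k g, map_add]
  abel

include hev hbij in
/-- Shapiro, degree 1, surjectivity. -/
theorem h85_shapiro₁_surj (u : D → X) (hu : IsCocycle₁ u) :
    ∃ z : G → Y, IsCocycle₁ z ∧ ∀ d : D, ev (z (d : G)) = u d := by
  obtain ⟨ρ, hρ, hρ1⟩ := h85_exists_rho D
  have hu1 : u 1 = 0 := by
    have := hu 1 1
    simpa using this
  have hut : ∀ (d : D) (g : G), u (ρ ((d : G) * g)) = d • u (ρ g) + u d := by
    intro d g
    rw [hρ d g, hu d (ρ g)]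
  have hZ : ∀ g : G, ∀ (d : D) (k : G),
      u (ρ ((d : G) * k * g)) - u (ρ ((d : G) * k)) = d • (u (ρ (k * g)) - u (ρ k)) := by
    intro g d k
    rw [mul_assoc, hut d (k * g), hut d k, smul_sub]
    abel
  choose z hzspec using fun g : G =>
    h85_shap_exists D ev hbij (fun k => u (ρ (k * g)) - u (ρ k)) (hZ g)
  refine ⟨z, fun g h => ?_, fun d => ?_⟩
  · apply h85_shap_ext D ev hev hbij
    intro k
    rw [smul_add, map_add, ← mul_smul, hzspec, hzspec, hzspec, mul_assoc]
    abel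
  · have h1 := hzspec (d : G) 1
    rw [one_smul, one_mul, hρ1, hu1, sub_zero] at h1
    rw [h1]
    have : ρ (d : G) = d := by
      have := hρ d 1
      rw [mul_one, hρ1, mul_one] at this
      exact this
    rw [this]

include hev hbij in
/-- Shapiro, degree 2, injectivity. -/
theorem h85_shapiro₂_inj (z : G × G → Y) (hz : IsCocycle₂ z)
    (h : IsCoboundary₂ (fun x : D × D => ev (z ((x.1 : G), (x.2 : G))))) : IsCoboundary₂ z := by
  obtain ⟨x', hx'0⟩ := h
  have hx' : ∀ d d' : D, d • x' d' - x' (d * d') + x' d = ev (z ((d : G), (d' : G))) := hx'0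
  obtain ⟨ρ, hρ, -⟩ := h85_exists_rho D
  -- `β d k = ev (z (d, k))`, `r k = (ρ k)⁻¹ * k`
  obtain ⟨r, hr⟩ : ∃ r : G → G, ∀ k, r k = ((ρ k : D) : G)⁻¹ * k := ⟨_, fun _ => rfl⟩
  have hrk : ∀ k : G, ((ρ k : D) : G) * r k = k := by
    intro k
    rw [hr]
    group
  have hrd : ∀ (d : D) (k : G), r ((d : G) * k) = r k := by
    intro d k
    rw [hr, hr, hρ d k, Subgroup.coe_mul]
    group
  obtain ⟨θ, hθ⟩ : ∃ θ : G → X, ∀ k, θ k = -ev (z (((ρ k : D) : G), r k)) + x' (ρ k) :=
    ⟨_, fun _ => rfl⟩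
  have hθd : ∀ (d : D) (k : G),
      θ ((d : G) * k) = d • θ k - ev (z ((d : G), k)) + x' d := by
    intro d k
    have h1 := hz (d : G) ((ρ k : D) : G) (r k)
    rw [hrk k] at h1
    have h2 := congrArg ev h1
    rw [map_add, map_add, hev] at h2
    have h3 := hx' d (ρ k)
    rw [hθ, hθ, hρ d k, hrd d k, Subgroup.coe_mul, smul_add, smul_neg]
    -- h2 : ev z(dρk, rk) + ev z(d, ρk) = d • ev z(ρk, rk) + ev z(d, k)
    -- h3 : d • x'(ρk) - x'(dρk) + x' d = ev z(d, ρk)
    have h4 : ev (z ((d : G) * ((ρ k : D) : G), r k))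
        = d • ev (z (((ρ k : D) : G), r k)) + ev (z ((d : G), k))
          - ev (z ((d : G), ((ρ k : D) : G))) := by
      rw [← h2]; abel
    rw [h4, ← h3]
    abel
  have hW : ∀ g : G, ∀ (d : D) (k : G),
      ev (z ((d : G) * k, g)) + θ ((d : G) * k * g) - θ ((d : G) * k)
        = d • (ev (z (k, g)) + θ (k * g) - θ k) := by
    intro g d k
    have h1 := hz (d : G) k g
    have h2 := congrArg ev h1
    rw [map_add, map_add, hev] at h2
    have h4 : ev (z ((d : G) * k, g))
        = d • ev (z (k, g)) + ev (z ((d : G), k * g)) - ev (z ((d : G), k)) := by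
      rw [← h2]; abel
    rw [mul_assoc, hθd d (k * g), hθd d k, h4, smul_sub, smul_add]
    abel
  choose w hwspec using fun g : G =>
    h85_shap_exists D ev hbij (fun k => ev (z (k, g)) + θ (k * g) - θ k) (hW g)
  refine ⟨w, fun g h => ?_⟩
  apply h85_shap_ext D ev hev hbij
  intro k
  have h1 := hz k g h
  have h2 := congrArg ev h1
  rw [map_add, map_add] at h2
  rw [smul_add, smul_sub, map_add, map_sub, ← mul_smul, hwspec, hwspec, hwspec, mul_assoc]
  have h5 : ev (k • z (g, h)) = ev (z (k * g, h)) + ev (z (k, g)) - ev (z (k, g * h)) := by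
    rw [h2]; abel
  rw [h5]
  abel

include hev hbij in
/-- Shapiro, degree 2, surjectivity (strong form: the restriction is equal to `u`). -/
theorem h85_shapiro₂_surj_strong (u : D × D → X) (hu : IsCocycle₂ u) :
    ∃ z : G × G → Y, IsCocycle₂ z ∧
      ∀ x : D × D, ev (z ((x.1 : G), (x.2 : G))) = u x := by
  obtain ⟨ρ, hρ, hρ1⟩ := h85_exists_rho D
  have hρd : ∀ d : D, ρ (d : G) = d := by
    intro d
    have := hρ d 1
    rw [mul_one, hρ1, mul_one] at this
    exact this
  have hZ : ∀ g h : G, ∀ (d : D) (k : G),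
      ρ ((d : G) * k) • u ((ρ ((d : G) * k))⁻¹ * ρ ((d : G) * k * g),
          (ρ ((d : G) * k * g))⁻¹ * ρ ((d : G) * k * g * h))
        = d • (ρ k • u ((ρ k)⁻¹ * ρ (k * g), (ρ (k * g))⁻¹ * ρ (k * g * h))) := by
    intro g h d k
    have e1 : (d : G) * k * g = (d : G) * (k * g) := mul_assoc _ _ _
    have e2 : (d : G) * (k * g) * h = (d : G) * (k * g * h) := mul_assoc _ _ _
    rw [e1, e2, hρ d k, hρ d (k * g), hρ d (k * g * h), mul_smul]
    have a1 : (d * ρ k)⁻¹ * (d * ρ (k * g)) = (ρ k)⁻¹ * ρ (k * g) := by group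
    have a2 : (d * ρ (k * g))⁻¹ * (d * ρ (k * g * h)) = (ρ (k * g))⁻¹ * ρ (k * g * h) := by
      group
    rw [a1, a2]
  choose z hzspec using fun p : G × G =>
    h85_shap_exists D ev hbij
      (fun k => ρ k • u ((ρ k)⁻¹ * ρ (k * p.1), (ρ (k * p.1))⁻¹ * ρ (k * p.1 * p.2)))
      (hZ p.1 p.2)
  refine ⟨z, fun g h j => ?_, fun x => ?_⟩
  · apply h85_shap_ext D ev hev hbij
    intro k
    rw [smul_add, smul_add, map_add, map_add, ← mul_smul, hzspec, hzspec, hzspec, hzspec]
    simp only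
    -- a = ρ k, b = ρ (k g), c = ρ (k g h), e = ρ (k g h j)
    have hc := hu ((ρ k)⁻¹ * ρ (k * g)) ((ρ (k * g))⁻¹ * ρ (k * g * h))
      ((ρ (k * g * h))⁻¹ * ρ (k * g * h * j))
    have e1 : (ρ k)⁻¹ * ρ (k * g) * ((ρ (k * g))⁻¹ * ρ (k * g * h))
        = (ρ k)⁻¹ * ρ (k * g * h) := by group
    have e2 : (ρ (k * g))⁻¹ * ρ (k * g * h) * ((ρ (k * g * h))⁻¹ * ρ (k * g * h * j))
        = (ρ (k * g))⁻¹ * ρ (k * g * h * j) := by group
    rw [e1, e2] at hc
    have hc' := congrArg (fun t => ρ k • t) hc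
    simp only [smul_add, ← mul_smul] at hc'
    have e3 : ρ k * ((ρ k)⁻¹ * ρ (k * g)) = ρ (k * g) := by group
    rw [e3] at hc'
    have e4 : k * (g * h) = k * g * h := by group
    have e5 : k * g * (h * j) = k * g * h * j := by group
    rw [e4, e5]
    exact hc'
  · have h1 := hzspec ((x.1 : G), (x.2 : G)) 1
    simp only [one_smul, one_mul, hρ1, inv_one] at h1
    rw [h1]
    have e1 : ρ ((x.1 : G) * (x.2 : G)) = x.1 * x.2 := by
      have := hρd (x.1 * x.2)
      rwa [Subgroup.coe_mul] at this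
    rw [hρd x.1, e1]
    simp

include hev hbij in
/-- Shapiro, degree 2, surjectivity (form required by the row). -/
theorem h85_shapiro₂_surj (u : D × D → X) (hu : IsCocycle₂ u) :
    ∃ z : G × G → Y, IsCocycle₂ z ∧
      IsCoboundary₂ (fun x : D × D => ev (z ((x.1 : G), (x.2 : G))) - u x) := by
  obtain ⟨z, hz, hzu⟩ := h85_shapiro₂_surj_strong D ev hev hbij u hu
  refine ⟨z, hz, 0, fun g h => ?_⟩
  simp only [Pi.zero_apply, smul_zero, sub_zero, add_zero]
  rw [hzu (g, h), sub_self]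

end Shapiro

end Fermat.Agent.S55
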