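import Mathlib
import Fermat.Agent.S55.h72_AbsDefs
import Fermat.Agent.S55.h40_HDefs
import Fermat.Agent.S55.h40_InfRes
import Fermat.Agent.S55.h83_Kill
import Fermat.Agent.S55.h85_Shapiro
import Fermat.Agent.S55.h13_BetaAbs

/-!
# S55, GLOB-BETA: adapters for coinduced modules

Context: the H-SHAP interface of `h85_Shapiro` (`D ≤ G`, `X` a `D`-module, `Y` a `G`-module,
`ev : Y →+ X` with `hev`, `hbij`, i.e. `Y = Coind_D^G X`).

* `h13_mackey₁` : if `H¹(D', X) = 0` for every subgroup `D' ≤ D`, then `H¹(N, Y) = 0` for every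
  subgroup `N ≤ G` (Mackey's decomposition in degree 1, written with double coset
  representatives).
* `h13_coind_fund` : if `X` is a `p`-class module for `D`, then `H²(G, Y)` is cyclic of order
  `p ^ v_p(|D|)`: there is a 2-cocycle `uJ` such that every 2-cocycle is cohomologous to a
  multiple of `uJ`, and `k • uJ` is a coboundary iff `p ^ v_p(|D|) ∣ k`.
* `h13_beta_coind` : `h13_beta_abs` with the cohomological hypotheses on `J` replaced by
  coinduction data at the top level and at the cyclic level.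
-/

set_option autoImplicit false

open groupCohomology

namespace Fermat.Agent.S55

section Kill

variable {G A : Type*} [Group G] [Finite G] [AddCommGroup A] [DistribMulAction G A]

/-- On a `p`-local module, the `p`-part of `|G|` kills `H²`. -/
theorem h13_pow_kill₂ {p : ℕ} [hp : Fact p.Prime] (hA : h40_IsPLocal p A)
    (f : G × G → A) (hf : IsCocycle₂ f) :
    IsCoboundary₂ (p ^ ((Nat.card G).factorization p) • f) := by
  have hcard : Nat.card G ≠ 0 := Nat.card_pos.ne'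
  have hcop : (Nat.card G / p ^ ((Nat.card G).factorization p)).Coprime p :=
    (Nat.coprime_ordCompl hp.out hcard).symm
  obtain ⟨f', hf'c, hf'⟩ := h83_exists_div₂ _ (hA _ hcop) f hf
  have h2 := h83_kill₂ f' hf'c
  rw [← Nat.ordProj_mul_ordCompl_eq_self (Nat.card G) p, mul_smul, hf'] at h2
  exact h2

end Kill

section Mackey

variable {G : Type*} [Group G] (D : Subgroup G) {X Y : Type*} [AddCommGroup X]
  [DistribMulAction D X] [AddCommGroup Y] [DistribMulAction G Y] (ev : Y →+ X)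
  (hev : ∀ (d : D) (y : Y), ev ((d : G) • y) = d • ev y)
  (hbij : ∀ φ : G → X, (∀ (d : D) (g : G), φ ((d : G) * g) = d • φ g) →
    ∃! y : Y, ∀ g : G, ev (g • y) = φ g)

/-- The double coset relation `D g N`. -/
def h13_dcSetoid (N : Subgroup G) : Setoid G where
  r a b := ∃ d ∈ D, ∃ n ∈ N, b = d * a * n
  iseqv := by
    refine ⟨fun a => ⟨1, D.one_mem, 1, N.one_mem, by simp⟩, ?_, ?_⟩
    · rintro a b ⟨d, hd, n, hn, h⟩
      exact ⟨d⁻¹, D.inv_mem hd, n⁻¹, N.inv_mem hn, by rw [h]; group⟩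
    · rintro a b c ⟨d, hd, n, hn, h⟩ ⟨d', hd', n', hn', h'⟩
      exact ⟨d' * d, D.mul_mem hd' hd, n * n', N.mul_mem hn hn', by rw [h', h]; group⟩

/-- The subgroup `D ∩ g₀ N g₀⁻¹` of `D`. -/
def h13_dcStab (N : Subgroup G) (g₀ : G) : Subgroup D where
  carrier := {δ | g₀⁻¹ * (δ : G) * g₀ ∈ N}
  one_mem' := by simp
  mul_mem' := by
    intro a b ha hb
    have : g₀⁻¹ * ((a * b : D) : G) * g₀ = (g₀⁻¹ * (a : G) * g₀) * (g₀⁻¹ * (b : G) * g₀) := by
      rw [Subgroup.coe_mul]; group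
    show g₀⁻¹ * ((a * b : D) : G) * g₀ ∈ N
    rw [this]
    exact N.mul_mem ha hb
  inv_mem' := by
    intro a ha
    have : g₀⁻¹ * ((a⁻¹ : D) : G) * g₀ = (g₀⁻¹ * (a : G) * g₀)⁻¹ := by
      rw [Subgroup.coe_inv]; group
    show g₀⁻¹ * ((a⁻¹ : D) : G) * g₀ ∈ N
    rw [this]
    exact N.inv_mem ha

include hev hbij in
/-- **Mackey, degree 1.** If `H¹(D', X) = 0` for all subgroups `D'` of `D`, then
`H¹(N, Coind_D^G X) = 0` for all subgroups `N` of `G`. -/
theorem h13_mackey₁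
    (hX1 : ∀ (D' : Subgroup D) (u : D' → X), IsCocycle₁ u → IsCoboundary₁ u)
    (N : Subgroup G) (u : N → Y) (hu : IsCocycle₁ u) : IsCoboundary₁ u := by
  classical
  -- the function `U(n, g) = ev (g • u n)`
  set U : N → G → X := fun n g => ev (g • u n) with hU
  have hUD : ∀ (n : N) (d : D) (g : G), U n ((d : G) * g) = d • U n g := by
    intro n d g
    simp only [hU, mul_smul, hev]
  have hUc : ∀ (n n' : N) (g : G), U (n * n') g = U n' (g * (n : G)) + U n g := by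
    intro n n' g
    have h1 : u (n * n') = (n : G) • u n' + u n := hu n n'
    simp only [hU, h1, smul_add, map_add, mul_smul]
  -- the correction terms `c g₀`
  have hc : ∀ g₀ : G, ∃ c : X, ∀ (δ : D) (hδ : g₀⁻¹ * (δ : G) * g₀ ∈ N),
      δ • c - c = U ⟨g₀⁻¹ * (δ : G) * g₀, hδ⟩ g₀ := by
    intro g₀
    obtain ⟨c, hc⟩ := hX1 (h13_dcStab D N g₀)
      (fun δ => U ⟨g₀⁻¹ * ((δ : D) : G) * g₀, δ.2⟩ g₀) (by
        intro δ δ'
        have e1 : (⟨g₀⁻¹ * (((δ * δ' : h13_dcStab D N g₀) : D) : G) * g₀, (δ * δ').2⟩ : N)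
            = ⟨g₀⁻¹ * ((δ : D) : G) * g₀, δ.2⟩ * ⟨g₀⁻¹ * ((δ' : D) : G) * g₀, δ'.2⟩ := by
          apply Subtype.ext
          simp only [Subgroup.coe_mul]
          group
        show U ⟨g₀⁻¹ * (((δ * δ' : h13_dcStab D N g₀) : D) : G) * g₀, (δ * δ').2⟩ g₀
          = (δ : D) • U ⟨g₀⁻¹ * ((δ' : D) : G) * g₀, δ'.2⟩ g₀
            + U ⟨g₀⁻¹ * ((δ : D) : G) * g₀, δ.2⟩ g₀
        rw [e1, hUc, ← hUD]
        congr 2
        simp only
        group)
    refine ⟨c, fun δ hδ => ?_⟩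
    exact hc ⟨δ, hδ⟩
  choose c hc using hc
  -- `Φ(d, n, g₀) = d • (U(n, g₀) + c g₀)` only depends on `d g₀ n`
  have hΦ : ∀ (g₀ : G) (d d' : D) (n n' : N), (d : G) * g₀ * (n : G) = (d' : G) * g₀ * (n' : G) →
      d • (U n g₀ + c g₀) = d' • (U n' g₀ + c g₀) := by
    intro g₀ d d' n n' h
    have hδ : g₀⁻¹ * ((d'⁻¹ * d : D) : G) * g₀ = (n' : G) * (n : G)⁻¹ := by
      have h' : ((d'⁻¹ * d : D) : G) * g₀ = g₀ * ((n' : G) * (n : G)⁻¹) := by
        have : (d : G) * g₀ = (d' : G) * g₀ * (n' : G) * (n : G)⁻¹ := by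
          rw [← h]; group
        rw [Subgroup.coe_mul, Subgroup.coe_inv, mul_assoc, this]; group
      rw [mul_assoc, h']; group
    have hδN : g₀⁻¹ * ((d'⁻¹ * d : D) : G) * g₀ ∈ N := by
      rw [hδ]; exact N.mul_mem n'.2 (N.inv_mem n.2)
    have h1 := hc g₀ (d'⁻¹ * d) hδN
    have hν : (⟨g₀⁻¹ * ((d'⁻¹ * d : D) : G) * g₀, hδN⟩ : N) * n = n' := by
      apply Subtype.ext
      show g₀⁻¹ * ((d'⁻¹ * d : D) : G) * g₀ * (n : G) = (n' : G)
      rw [hδ]; group
    have h2 := hUc ⟨g₀⁻¹ * ((d'⁻¹ * d : D) : G) * g₀, hδN⟩ n g₀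
    rw [hν] at h2
    have h3 : g₀ * (g₀⁻¹ * ((d'⁻¹ * d : D) : G) * g₀) = ((d'⁻¹ * d : D) : G) * g₀ := by group
    simp only at h2
    rw [h3, hUD] at h2
    have h4 : d = d' * (d'⁻¹ * d) := by group
    rw [h4, mul_smul]
    congr 1
    rw [smul_add, h2]
    have h5 : (d'⁻¹ * d) • c g₀ = c g₀ + U ⟨g₀⁻¹ * ((d'⁻¹ * d : D) : G) * g₀, hδN⟩ g₀ := by
      rw [← h1]; abel
    rw [h5]
    abel
  -- representatives and decompositions
  let s : Setoid G := h13_dcSetoid D N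
  let r : G → G := fun g => (Quotient.mk s g).out
  have hr : ∀ g : G, ∃ d : D, ∃ n : N, g = (d : G) * r g * (n : G) := by
    intro g
    have h : s.r (r g) g := Quotient.mk_out (s := s) g
    obtain ⟨d, hd, n, hn, h⟩ := h
    exact ⟨⟨d, hd⟩, ⟨n, hn⟩, h⟩
  have hrr : ∀ (g : G) (d : D) (n : N), r ((d : G) * g * (n : G)) = r g := by
    intro g d n
    have : Quotient.mk s ((d : G) * g * (n : G)) = Quotient.mk s g := by
      apply Quotient.sound
      show s.r ((d : G) * g * (n : G)) g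
      exact s.iseqv.symm ⟨d, d.2, n, n.2, rfl⟩
    show (Quotient.mk s ((d : G) * g * (n : G))).out = (Quotient.mk s g).out
    rw [this]
  choose dd nn hdn using hr
  set φ : G → X := fun g => dd g • (U (nn g) (r g) + c (r g)) with hφ
  -- `φ g = Φ(d, n, r g)` for every decomposition
  have hφeq : ∀ (g : G) (d : D) (n : N), g = (d : G) * r g * (n : G) →
      φ g = d • (U n (r g) + c (r g)) := by
    intro g d n h
    exact hΦ (r g) (dd g) d (nn g) n ((hdn g).symm.trans h)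
  have hφD : ∀ (d : D) (g : G), φ ((d : G) * g) = d • φ g := by
    intro d g
    have hr' : r ((d : G) * g) = r g := by
      have := hrr g d 1
      simpa using this
    have h1 : (d : G) * g = ((d * dd g : D) : G) * r ((d : G) * g) * (nn g : G) := by
      rw [hr', Subgroup.coe_mul, mul_assoc, mul_assoc, ← mul_assoc (dd g : G), ← hdn g]
    rw [hφeq _ _ _ h1, hr', mul_smul]
  have hφN : ∀ (g : G) (n : N), φ (g * (n : G)) - φ g = U n g := by
    intro g n
    have hr' : r (g * (n : G)) = r g := by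
      have := hrr g 1 n
      simpa using this
    have h1 : g * (n : G) = (dd g : G) * r (g * (n : G)) * ((nn g * n : N) : G) := by
      rw [hr', Subgroup.coe_mul, ← mul_assoc, ← hdn g]
    rw [hφeq _ _ _ h1, hr', hφ, ← smul_sub, hUc]
    have h2 : U n (r g * (nn g : G)) + U (nn g) (r g) + c (r g) - (U (nn g) (r g) + c (r g))
        = U n (r g * (nn g : G)) := by abel
    rw [h2, ← hUD, ← mul_assoc, ← hdn g]
  -- the element of `Y`
  obtain ⟨y, hy⟩ := h85_shap_exists D ev hbij φ hφD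
  refine ⟨y, fun n => ?_⟩
  apply h85_shap_ext D ev hev hbij
  intro k
  have h1 : (n : N) • y = (n : G) • y := rfl
  rw [smul_sub, map_sub, h1, ← mul_smul, hy, hy, hφN]

end Mackey

section Fund

variable {G : Type*} [Group G] [Finite G] (D : Subgroup G) {X Y : Type*} [AddCommGroup X]
  [DistribMulAction D X] [AddCommGroup Y] [DistribMulAction G Y] (ev : Y →+ X)
  (hev : ∀ (d : D) (y : Y), ev ((d : G) • y) = d • ev y)
  (hbij : ∀ φ : G → X, (∀ (d : D) (g : G), φ ((d : G) * g) = d • φ g) →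
    ∃! y : Y, ∀ g : G, ev (g • y) = φ g)

omit [Finite G] in
include hev in
/-- Restriction-evaluation of a 2-cocycle is a 2-cocycle. -/
lemma h13_resEv_isCocycle₂ {y : G × G → Y} (hy : IsCocycle₂ y) :
    IsCocycle₂ (fun x : D × D => ev (y ((x.1 : G), (x.2 : G)))) := by
  intro d d' d''
  have := congrArg ev (hy (d : G) (d' : G) (d'' : G))
  simpa only [map_add, hev, Subgroup.coe_mul] using this

omit [Finite G] in
include hev in
/-- Restriction-evaluation of a 2-coboundary is a 2-coboundary. -/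
lemma h13_resEv_isCoboundary₂ {y : G × G → Y} (hy : IsCoboundary₂ y) :
    IsCoboundary₂ (fun x : D × D => ev (y ((x.1 : G), (x.2 : G)))) := by
  obtain ⟨x, hx⟩ := hy
  refine ⟨fun d => ev (x (d : G)), fun d d' => ?_⟩
  simp only [← hx (d : G) (d' : G), map_add, map_sub, hev, Subgroup.coe_mul]

include hev hbij in
/-- **`H²` of a coinduced module.** If `X` is a `p`-class module for `D`, then `H²(G, Coind X)` is
cyclic of order `p ^ v_p(|D|)`. -/
theorem h13_coind_fund {p : ℕ} [hp : Fact p.Prime] (hX : IsPClassModule p D X) :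
    ∃ uJ : G × G → Y, IsCocycle₂ uJ ∧
      (∀ y : G × G → Y, IsCocycle₂ y → ∃ k : ℕ, IsCoboundary₂ (y - k • uJ)) ∧
      ∀ k : ℕ, IsCoboundary₂ (k • uJ) ↔ p ^ ((Nat.card D).factorization p) ∣ k := by
  obtain ⟨u, hu, hfund⟩ := hX.fund
  obtain ⟨hgenT, hordT⟩ := hfund ⊤
  -- generation on `D`
  have hgenD : ∀ f : D × D → X, IsCocycle₂ f → ∃ k : ℕ, IsCoboundary₂ (f - k • u) := by
    intro f hf
    obtain ⟨k, x, hx⟩ := hgenT (fun x => f ((x.1 : D), (x.2 : D)))
      (fun g h j => hf (g : D) (h : D) (j : D))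
    refine ⟨k, fun d => x ⟨d, Subgroup.mem_top d⟩, fun d d' => ?_⟩
    exact hx ⟨d, Subgroup.mem_top d⟩ ⟨d', Subgroup.mem_top d'⟩
  -- order on `D`
  have hordD : ∀ k : ℕ, IsCoboundary₂ (k • u) ↔ p ^ ((Nat.card D).factorization p) ∣ k := by
    intro k
    constructor
    · rintro ⟨x, hx⟩
      have := hordT k ⟨fun d => x (d : D), fun g h => hx (g : D) (h : D)⟩
      rwa [Subgroup.card_top] at this
    · rintro ⟨k', rfl⟩
      rw [mul_comm, mul_smul]
      exact h13_isCoboundary₂_nsmul _ (h13_pow_kill₂ hX.ploc u hu)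
  -- lift `u` to `G`
  obtain ⟨uJ, huJ, huJu⟩ := h85_shapiro₂_surj_strong D ev hev hbij u hu
  have hres : ∀ k : ℕ, (fun x : D × D => ev ((k • uJ) ((x.1 : G), (x.2 : G)))) = k • u := by
    intro k
    funext x
    simp only [Pi.smul_apply, map_nsmul, huJu x]
  refine ⟨uJ, huJ, fun y hy => ?_, fun k => ?_⟩
  · obtain ⟨k, hk⟩ := hgenD _ (h13_resEv_isCocycle₂ D ev hev hy)
    refine ⟨k, h85_shapiro₂_inj D ev hev hbij _
      (h40_isCocycle₂_sub hy (h13_isCocycle₂_nsmul k huJ)) ?_⟩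
    have e : (fun x : D × D => ev ((y - k • uJ) ((x.1 : G), (x.2 : G))))
        = (fun x : D × D => ev (y ((x.1 : G), (x.2 : G)))) - k • u := by
      funext x
      simp only [Pi.sub_apply, Pi.smul_apply, map_sub, map_nsmul, huJu x]
    rw [e]
    exact hk
  · rw [← hordD k]
    constructor
    · intro h
      have := h13_resEv_isCoboundary₂ D ev hev h
      rwa [hres k] at this
    · intro h
      refine h85_shapiro₂_inj D ev hev hbij _ (h13_isCocycle₂_nsmul k huJ) ?_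
      rw [hres k]
      exact h

end Fund

section BetaCoind

/-- **GLOB-BETA from coinduction data.** `h13_beta_abs` where the cohomological hypotheses on `J`
are replaced by: `J = Coind_D^G X` with `X` a `p`-class module of `D` (top level), and
`JΓ = Coind_{DΓ}^Γ XΓ` with `XΓ` a `p`-class module of `DΓ` (cyclic level), with
`v_p |Q| ≤ v_p |DΓ|`. -/
theorem h13_beta_coind {p : ℕ} [hp : Fact p.Prime]
    {G : Type*} [Group G] [Finite G] {J C : Type*} [AddCommGroup J] [DistribMulAction G J]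
    [AddCommGroup C] [DistribMulAction G C]
    (f : J →+ C) (hf : ∀ (g : G) (x : J), f (g • x) = g • f x)
    -- `J` is coinduced from a `p`-class module `X` of `D ≤ G`
    (D : Subgroup G) {X : Type*} [AddCommGroup X] [DistribMulAction D X] (ev : J →+ X)
    (hev : ∀ (d : D) (y : J), ev ((d : G) • y) = d • ev y)
    (hbij : ∀ φ : G → X, (∀ (d : D) (g : G), φ ((d : G) * g) = d • φ g) →
      ∃! y : J, ∀ g : G, ev (g • y) = φ g)
    (hX : IsPClassModule p D X)
    -- the level `L`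
    {Q : Type*} [Group Q] [Finite Q] (π : G →* Q) (hπ : Function.Surjective π)
    {JL CL : Type*} [AddCommGroup JL] [DistribMulAction Q JL]
    [AddCommGroup CL] [DistribMulAction Q CL] (hJL : h40_IsPLocal p JL)
    (ιJ : JL →+ J) (hιJ : Function.Injective ιJ)
    (hιJeq : ∀ (g : G) (x : JL), ιJ (π g • x) = g • ιJ x)
    (hιJfix : ∀ x : J, (∀ s ∈ π.ker, s • x = x) → x ∈ ιJ.range)
    (ιC : CL →+ C) (hιCeq : ∀ (g : G) (c : CL), ιC (π g • c) = g • ιC c)
    (fL : JL →+ CL) (hfL : ∀ x : JL, ιC (fL x) = f (ιJ x))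
    -- the cyclic level `Γ = ⟨γ⟩`
    {Γ : Type*} [Group Γ] [Finite Γ] (ρ : G →* Γ) (hρ : Function.Surjective ρ)
    (γ : Γ) (hγ : ∀ x : Γ, x ∈ Subgroup.zpowers γ)
    {JΓ CΓ : Type*} [AddCommGroup JΓ] [DistribMulAction Γ JΓ]
    [AddCommGroup CΓ] [DistribMulAction Γ CΓ]
    (κJ : JΓ →+ J) (hκJ : Function.Injective κJ)
    (hκJeq : ∀ (g : G) (x : JΓ), κJ (ρ g • x) = g • κJ x)
    (hκJfix : ∀ x : J, (∀ s ∈ ρ.ker, s • x = x) → x ∈ κJ.range)
    (κC : CΓ →+ C) (hκC : Function.Injective κC)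
    (hκCeq : ∀ (g : G) (c : CΓ), κC (ρ g • c) = g • κC c)
    (hκCfix : ∀ c : C, (∀ s ∈ ρ.ker, s • c = c) → c ∈ κC.range)
    (hH1C : ∀ u : ρ.ker → C, IsCocycle₁ u → IsCoboundary₁ u)
    (fΓ : JΓ →+ CΓ) (hfΓ : ∀ x : JΓ, κC (fΓ x) = f (κJ x))
    (hnorm : ∀ j : JΓ, γ • j = j → (∃ c : CΓ, h12_cycNorm γ c = fΓ j) →
      ∃ b : JΓ, h12_cycNorm γ b = j)
    -- `JΓ` is coinduced from a `p`-class module `XΓ` of `DΓ ≤ Γ`
    (DΓ : Subgroup Γ) {XΓ : Type*} [AddCommGroup XΓ] [DistribMulAction DΓ XΓ] (evΓ : JΓ →+ XΓ)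
    (hevΓ : ∀ (d : DΓ) (y : JΓ), evΓ ((d : Γ) • y) = d • evΓ y)
    (hbijΓ : ∀ φ : Γ → XΓ, (∀ (d : DΓ) (g : Γ), φ ((d : Γ) * g) = d • φ g) →
      ∃! y : JΓ, ∀ g : Γ, evΓ (g • y) = φ g)
    (hXΓ : IsPClassModule p DΓ XΓ)
    (hQ : (Nat.card Q).factorization p ≤ (Nat.card DΓ).factorization p)
    -- the cocycle
    (z : Q × Q → JL) (hz : IsCocycle₂ z)
    (hcob : IsCoboundary₂ (fun x : Q × Q => fL (z x))) : IsCoboundary₂ z := by
  obtain ⟨uJ, -, hgen, hord⟩ := h13_coind_fund D ev hev hbij hX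
  have hH1 : ∀ (N : Subgroup G) (u : N → J), IsCocycle₁ u → IsCoboundary₁ u :=
    h13_mackey₁ D ev hev hbij (fun D' u hu => hX.h1 D' u hu)
  obtain ⟨z0, hz0, -, hordΓ⟩ := h13_coind_fund DΓ evΓ hevΓ hbijΓ hXΓ
  have hz0ord : ∀ k : ℕ, IsCoboundary₂ (k • h40_inf₂ ρ κJ z0) →
      p ^ ((Nat.card DΓ).factorization p) ∣ k := by
    intro k hk
    rw [← hordΓ k]
    apply h40_inf₂_injective ρ κJ hρ hκJ hκJeq (fun a ha => hκJfix a ha) (hH1 ρ.ker) (k • z0)
      (h13_isCocycle₂_nsmul k hz0)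
    have e : h40_inf₂ ρ κJ (k • z0) = k • h40_inf₂ ρ κJ z0 := by
      funext x; simp [h40_inf₂]
    rw [e]
    exact hk
  have hzm : IsCoboundary₂ (p ^ ((Nat.card DΓ).factorization p) • z) := by
    have h1 := h13_pow_kill₂ hJL z hz
    have h2 := h13_isCoboundary₂_nsmul
      (p ^ ((Nat.card DΓ).factorization p - (Nat.card Q).factorization p)) h1
    rwa [← mul_smul, ← pow_add, Nat.sub_add_cancel hQ] at h2
  exact h13_beta_abs f hf uJ hgen _ hord π hπ ιJ hιJ hιJeq hιJfix (hH1 π.ker) ιC hιCeq fL hfL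
    ρ hρ γ hγ κJ hκJeq κC hκC hκCeq hκCfix hH1C fΓ hfΓ hnorm _ z0 hz0 hz0ord z hz hzm hcob

end BetaCoind

end Fermat.Agent.S55
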