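import Mathlib
import Fermat.Agent.S55.h56_GalLevels
import Fermat.Agent.S55.h2_PLoc
import Fermat.Agent.S55.h12_CoindLoc
import Fermat.Agent.S55.h13_BetaCoind

/-!
# S55, GLOB-BETA (iv): the field `beta` of the level-wise interface, from the other fields

For an abstract level system `(Γ, π, K, C, ι, J, ιJ, k)` over the Galois `S`-levels (the shape of
`h12_LevFacts`, one fixed `q`), `h4_beta_of_levels` proves the field `beta`

  a 2-cocycle `z` of `Γ L` in `J L` with `k ∘ z` a coboundary is a coboundary up to an integer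
  prime to `p`

from the formal fields (`π_surj`, `π_ker`, `K_mem`, `ι_smul`, `ι_inj`, `ι_desc`, `ιJ_smul`,
`ιJ_inj`, `ιJ_desc`, `k_ι`, `k_smul`), the class formation `cf`, and two arithmetic inputs:

* `hcoind` : at every level, `J L ⊗ ℤ_(p)` is coinduced (interface of `h85_Shapiro`) from a
  `p`-class module of a subgroup (the decomposition group and the local field);
* `hcyc` : there are cyclic levels `M` (the layers of the cyclotomic `ℤ_p`-extension) with
  arbitrarily large `p`-part of the decomposition group, at which an invariant of `J M ⊗ ℤ_(p)`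
  whose image in `C M` is a norm is a norm.

The proof is helper13's `h13_beta_coind` at a common upper level of `L` and `M`.
-/

set_option autoImplicit false
set_option linter.unusedSectionVars false
set_option linter.unusedVariables false

open groupCohomology

namespace Fermat.Agent.S55

local notation "GQ" => (AlgebraicClosure ℚ ≃ₐ[ℚ] AlgebraicClosure ℚ)

section Levels

variable {p : ℕ} [Fact p.Prime] {S : Finset Nat.Primes}
  {Γ : h56_Level S → Type} [∀ L, Group (Γ L)] (π : ∀ L, GQ →* Γ L)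
  (K : h56_Level S → ∀ L' : h56_Level S, Subgroup (Γ L'))
  {C : h56_Level S → Type} [∀ L, AddCommGroup (C L)] [∀ L, DistribMulAction (Γ L) (C L)]
  (ι : ∀ L L' : h56_Level S, L ≤ L' → C L →+ C L')
  {J : h56_Level S → Type} [∀ L, AddCommGroup (J L)] [∀ L, DistribMulAction (Γ L) (J L)]
  (ιJ : ∀ L L' : h56_Level S, L ≤ L' → J L →+ J L')
  (k : ∀ L : h56_Level S, J L →+ C L)

/-- The groups of the levels are finite. -/
theorem h4_level_finite (hπs : ∀ L, Function.Surjective (π L)) (hπk : ∀ L, (π L).ker = L.U)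
    (L : h56_Level S) : Finite (Γ L) := by
  have h1 : Finite (GQ ⧸ (π L).ker) := by
    rw [hπk L]
    infer_instance
  exact Finite.of_equiv _ (QuotientGroup.quotientKerEquivOfSurjective (π L) (hπs L)).toEquiv

/-- The transition maps `Γ L' → Γ L` of the level groups. -/
theorem h4_exists_res (hπs : ∀ L, Function.Surjective (π L)) (hπk : ∀ L, (π L).ker = L.U)
    (L L' : h56_Level S) (h : L ≤ L') :
    ∃ r : Γ L' →* Γ L, ∀ g : GQ, r (π L' g) = π L g := by
  have hker : (π L').ker ≤ (π L).ker := by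
    rw [hπk, hπk]
    exact h56_Level.U_anti h
  refine ⟨(π L').liftOfRightInverse (Function.surjInv (hπs L'))
    (Function.rightInverse_surjInv (hπs L')) ⟨π L, hker⟩, fun g => ?_⟩
  exact MonoidHom.liftOfRightInverse_comp_apply _ _ _ ⟨π L, hker⟩ g

/-- **GLOB-BETA, level-wise**: the field `beta` of `h12_LevFacts` (for one `q`). -/
theorem h4_beta_of_levels
    (hπs : ∀ L, Function.Surjective (π L)) (hπk : ∀ L, (π L).ker = L.U)
    (hK : ∀ (L L' : h56_Level S), L ≤ L' → ∀ g : GQ, π L' g ∈ K L L' ↔ g ∈ L.U)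
    (hι_smul : ∀ (L L' : h56_Level S) (h : L ≤ L') (g : GQ) (c : C L),
      ι L L' h (π L g • c) = π L' g • ι L L' h c)
    (hι_inj : ∀ (L L' : h56_Level S) (h : L ≤ L'), Function.Injective (ι L L' h))
    (hι_desc : ∀ (L L' : h56_Level S) (h : L ≤ L') (c' : C L'),
      (∀ t ∈ K L L', t • c' = c') → c' ∈ (ι L L' h).range)
    (hιJ_smul : ∀ (L L' : h56_Level S) (h : L ≤ L') (g : GQ) (y : J L),
      ιJ L L' h (π L g • y) = π L' g • ιJ L L' h y)
    (hιJ_inj : ∀ (L L' : h56_Level S) (h : L ≤ L'), Function.Injective (ιJ L L' h))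
    (hιJ_desc : ∀ (L L' : h56_Level S) (h : L ≤ L') (y' : J L'),
      (∀ t ∈ K L L', t • y' = y') → y' ∈ (ιJ L L' h).range)
    (hk_ι : ∀ (L L' : h56_Level S) (h : L ≤ L') (y : J L),
      k L' (ιJ L L' h y) = ι L L' h (k L y))
    (hk_smul : ∀ (L : h56_Level S) (γ : Γ L) (y : J L), k L (γ • y) = γ • k L y)
    (hcf : ∀ L : h56_Level S, IsPClassModule p (Γ L) (C L))
    -- the extension of `k` to the localisation (model: `h2_PL.map` of the honest map)
    (kP : ∀ L : h56_Level S, h2_PL p (J L) →+ C L)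
    (hkP : ∀ (L : h56_Level S) (y : J L), kP L (h2_PL.j y) = k L y)
    -- coinduction data at every level
    (hcoind : ∀ L : h56_Level S, ∃ (D : Subgroup (Γ L)) (X : Type) (_ : AddCommGroup X)
      (_ : DistribMulAction D X) (ev : h2_PL p (J L) →+ X),
        (∀ (d : D) (y : h2_PL p (J L)), ev ((d : Γ L) • y) = d • ev y) ∧
        (∀ φ : Γ L → X, (∀ (d : D) (g : Γ L), φ ((d : Γ L) * g) = d • φ g) →
          ∃! y : h2_PL p (J L), ∀ g : Γ L, ev (g • y) = φ g) ∧
        IsPClassModule p D X)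
    -- the cyclic levels
    (hcyc : ∀ n : ℕ, ∃ (M : h56_Level S) (γ : Γ M), (∀ x : Γ M, x ∈ Subgroup.zpowers γ) ∧
      (∀ j : h2_PL p (J M), γ • j = j → (∃ c : C M, h12_cycNorm γ c = kP M j) →
        ∃ b : h2_PL p (J M), h12_cycNorm γ b = j) ∧
      ∃ (D : Subgroup (Γ M)) (X : Type) (_ : AddCommGroup X) (_ : DistribMulAction D X)
        (ev : h2_PL p (J M) →+ X),
          (∀ (d : D) (y : h2_PL p (J M)), ev ((d : Γ M) • y) = d • ev y) ∧
          (∀ φ : Γ M → X, (∀ (d : D) (g : Γ M), φ ((d : Γ M) * g) = d • φ g) →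
            ∃! y : h2_PL p (J M), ∀ g : Γ M, ev (g • y) = φ g) ∧
          IsPClassModule p D X ∧ n ≤ (Nat.card D).factorization p)
    (L : h56_Level S) (z : Γ L × Γ L → J L) (hz : IsCocycle₂ z)
    (hcob : IsCoboundary₂ (fun x => k L (z x))) :
    ∃ m : ℕ, m.Coprime p ∧ IsCoboundary₂ (m • z) := by
  classical
  have hfin : ∀ L, Finite (Γ L) := h4_level_finite π hπs hπk
  -- `C L` is `p`-local
  have hCinj : ∀ (L : h56_Level S) (m : ℕ), m.Coprime p →
      Function.Injective (fun c : C L => m • c) := fun L m hm => ((hcf L).ploc m hm).1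
  -- `kP` is equivariant and compatible with the level maps
  have hkP_smul : ∀ (L : h56_Level S) (g : Γ L) (x : h2_PL p (J L)),
      kP L (g • x) = g • kP L x := by
    intro L g x
    have h1 : (kP L).comp (DistribSMul.toAddMonoidHom (h2_PL p (J L)) g) =
        (DistribSMul.toAddMonoidHom (C L) g).comp (kP L) := by
      apply h2_PL.hom_ext_of_injective (hCinj L)
      intro y
      show kP L (g • h2_PL.j y) = g • kP L (h2_PL.j y)
      rw [← h2_PL.j_smul, hkP, hkP, hk_smul]
    exact congrArg (fun f : h2_PL p (J L) →+ C L => f x) h1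
  have hkP_ι : ∀ (L L' : h56_Level S) (h : L ≤ L') (x : h2_PL p (J L)),
      ι L L' h (kP L x) = kP L' (h2_PL.map (ιJ L L' h) x) := by
    intro L L' h x
    have h1 : (ι L L' h).comp (kP L) = (kP L').comp (h2_PL.map (ιJ L L' h)) := by
      apply h2_PL.hom_ext_of_injective (hCinj L')
      intro y
      show ι L L' h (kP L (h2_PL.j y)) = kP L' (h2_PL.map (ιJ L L' h) (h2_PL.j y))
      rw [h2_PL.map_j, hkP, hkP, hk_ι]
    exact congrArg (fun f : h2_PL p (J L) →+ C L' => f x) h1
  -- facts about a transition map `r : Γ L' → Γ L`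
  have hr_surj : ∀ (L L' : h56_Level S) (r : Γ L' →* Γ L), (∀ g : GQ, r (π L' g) = π L g) →
      Function.Surjective r := by
    intro L L' r hr x
    obtain ⟨g, rfl⟩ := hπs L x
    exact ⟨π L' g, hr g⟩
  have hr_ker : ∀ (L L' : h56_Level S) (h : L ≤ L') (r : Γ L' →* Γ L),
      (∀ g : GQ, r (π L' g) = π L g) → ∀ t : Γ L', t ∈ K L L' → t ∈ r.ker := by
    intro L L' h r hr t ht
    obtain ⟨g, rfl⟩ := hπs L' t
    rw [MonoidHom.mem_ker, hr, ← MonoidHom.mem_ker, hπk]
    exact (hK L L' h g).1 ht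
  have hιr : ∀ (L L' : h56_Level S) (h : L ≤ L') (r : Γ L' →* Γ L),
      (∀ g : GQ, r (π L' g) = π L g) → ∀ (g : Γ L') (c : C L),
        ι L L' h (r g • c) = g • ι L L' h c := by
    intro L L' h r hr g c
    obtain ⟨g₀, rfl⟩ := hπs L' g
    rw [hr, hι_smul]
  have hιJr : ∀ (L L' : h56_Level S) (h : L ≤ L') (r : Γ L' →* Γ L),
      (∀ g : GQ, r (π L' g) = π L g) → ∀ (g : Γ L') (c : J L),
        ιJ L L' h (r g • c) = g • ιJ L L' h c := by
    intro L L' h r hr g c
    obtain ⟨g₀, rfl⟩ := hπs L' g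
    rw [hr, hιJ_smul]
  -- the cyclic level and a common upper level
  obtain ⟨M, γ, hγ, hnorm, DΓ, XΓ, iX1, iX2, evΓ, hevΓ, hbijΓ, hXΓ, hn⟩ :=
    hcyc ((Nat.card (Γ L)).factorization p)
  obtain ⟨E, hLE, hME⟩ := (h56_Level.instIsDirected (S := S)).directed L M
  obtain ⟨D, X, iX3, iX4, ev, hev, hbij, hX⟩ := hcoind E
  obtain ⟨π1, hπ1⟩ := h4_exists_res π hπs hπk L E hLE
  obtain ⟨ρ1, hρ1⟩ := h4_exists_res π hπs hπk M E hME
  have := hfin E
  have := hfin L
  have := hfin M
  -- the localised cocycle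
  have hzP : IsCocycle₂ (fun x : Γ L × Γ L => h2_PL.j (p := p) (z x)) :=
    h13_isCocycle₂_comp (h2_PL.j (p := p)) (fun g a => h2_PL.j_smul g a) hz
  have hcobP : IsCoboundary₂ (fun x : Γ L × Γ L => kP L (h2_PL.j (p := p) (z x))) := by
    have e : (fun x : Γ L × Γ L => kP L (h2_PL.j (p := p) (z x))) = fun x => k L (z x) :=
      funext fun x => hkP L (z x)
    rw [e]
    exact hcob
  have key : IsCoboundary₂ (fun x : Γ L × Γ L => h2_PL.j (p := p) (z x)) :=
    h13_beta_coind (p := p) (f := kP E) (hkP_smul E) D ev hev hbij hX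
      π1 (hr_surj L E π1 hπ1) h2_PL.isPLocal
      (h2_PL.map (ιJ L E hLE)) (h2_PL.map_injective _ (hιJ_inj L E hLE))
      (fun g x => h2_PL.map_smul_of π1 (ιJ L E hLE) (hιJr L E hLE π1 hπ1) g x)
      (fun x hx => h2_PL.mem_range_map_of_fixed π1 (ιJ L E hLE)
        (fun d hd => hιJ_desc L E hLE d (fun t ht => hd t (hr_ker L E hLE π1 hπ1 t ht))) x hx)
      (ι L E hLE) (hιr L E hLE π1 hπ1)
      (kP L) (fun x => hkP_ι L E hLE x)
      ρ1 (hr_surj M E ρ1 hρ1) γ hγ
      (h2_PL.map (ιJ M E hME)) (h2_PL.map_injective _ (hιJ_inj M E hME))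
      (fun g x => h2_PL.map_smul_of ρ1 (ιJ M E hME) (hιJr M E hME ρ1 hρ1) g x)
      (fun x hx => h2_PL.mem_range_map_of_fixed ρ1 (ιJ M E hME)
        (fun d hd => hιJ_desc M E hME d (fun t ht => hd t (hr_ker M E hME ρ1 hρ1 t ht))) x hx)
      (ι M E hME) (hι_inj M E hME) (hιr M E hME ρ1 hρ1)
      (fun c hc => hι_desc M E hME c (fun t ht => hc t (hr_ker M E hME ρ1 hρ1 t ht)))
      (fun u hu => (hcf E).h1 ρ1.ker u hu)
      (kP M) (fun x => hkP_ι M E hME x)
      hnorm DΓ evΓ hevΓ hbijΓ hXΓ hn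
      (fun x : Γ L × Γ L => h2_PL.j (p := p) (z x)) hzP hcobP
  exact h12_PL_cob₂ z key

end Levels

end Fermat.Agent.S55
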