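import Mathlib
import Fermat.Agent.S55.h2_AddUnits

/-!
# S55 / LOC: Galois plumbing for a tower of finite levels inside a big Galois extension

`Ω/F` is a (possibly infinite) Galois extension, `Γ = Gal(Ω/F)`.  For a normal intermediate
field `K` we package the pair `(π, ι)` in exactly the shape of the hypotheses of `adt_D1`,
`h30_cfbuild`, `h81_E8c` and of the dictionary `h56_via_*`:

* `h2_galπ K : Γ →* Gal(K/F)` (restriction), `h2_galι K : Additive Kˣ →+ Additive Ωˣ`;
* for `K ≤ K'`: `h2_galRes h : Gal(K'/F) →* Gal(K/F)`, `h2_galIncl h : Additive Kˣ →+ Additive K'ˣ`;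
* each pair is surjective / injective / equivariant / onto the invariants of the kernel.
-/

set_option autoImplicit false

namespace Fermat.Agent.S55

noncomputable section

variable {F Ω : Type*} [Field F] [Field Ω] [Algebra F Ω]

section Level

variable (K : IntermediateField F Ω) [Normal F K]

/-- Restriction `Gal(Ω/F) → Gal(K/F)`. -/
def h2_galπ : (Ω ≃ₐ[F] Ω) →* (K ≃ₐ[F] K) := AlgEquiv.restrictNormalHom K

theorem h2_galπ_apply (σ : Ω ≃ₐ[F] Ω) (x : K) : ((h2_galπ K σ x : K) : Ω) = σ (x : Ω) :=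
  AlgEquiv.restrictNormal_commutes σ K x

theorem h2_galπ_surjective [Normal F Ω] : Function.Surjective (h2_galπ K) :=
  AlgEquiv.restrictNormalHom_surjective Ω

theorem h2_galπ_ker : (h2_galπ K).ker = K.fixingSubgroup :=
  IntermediateField.restrictNormalHom_ker K

theorem h2_galπ_eq_one_iff (s : Ω ≃ₐ[F] Ω) : h2_galπ K s = 1 ↔ s ∈ K.fixingSubgroup := by
  rw [← h2_galπ_ker K, MonoidHom.mem_ker]

end Level

section Units

variable (K : IntermediateField F Ω)

/-- The inclusion `Kˣ → Ωˣ`, additively. -/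
def h2_galι : Additive Kˣ →+ Additive Ωˣ :=
  MonoidHom.toAdditive (Units.map (K.val : K →* Ω))

theorem h2_galι_apply (c : Additive Kˣ) :
    ((Additive.toMul (h2_galι K c) : Ωˣ) : Ω) = ((Additive.toMul c : Kˣ) : K) := rfl

theorem h2_galι_injective : Function.Injective (h2_galι K) := by
  intro a b h
  apply Additive.toMul.injective
  apply Units.ext
  apply Subtype.ext
  have := congrArg (fun x => ((Additive.toMul x : Ωˣ) : Ω)) h
  exact this

theorem h2_galι_smul [Normal F K] (g : Ω ≃ₐ[F] Ω) (c : Additive Kˣ) :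
    h2_galι K (h2_galπ K g • c) = g • h2_galι K c := by
  apply Additive.toMul.injective
  apply Units.ext
  exact h2_galπ_apply K g _

theorem h2_galι_mem_range [IsGalois F Ω] [Normal F K] (a : Additive Ωˣ)
    (ha : ∀ s ∈ (h2_galπ K).ker, s • a = a) : a ∈ (h2_galι K).range := by
  have hmem : ((Additive.toMul a : Ωˣ) : Ω) ∈ K := by
    rw [← InfiniteGalois.fixedField_fixingSubgroup K, IntermediateField.mem_fixedField_iff]
    intro s hs
    have h := ha s (by rw [h2_galπ_ker]; exact hs)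
    exact congrArg (fun x => ((Additive.toMul x : Ωˣ) : Ω)) h
  have hinv : ((Additive.toMul a : Ωˣ)⁻¹ : Ωˣ).val ∈ K := by
    rw [Units.val_inv_eq_inv_val]
    exact K.inv_mem hmem
  refine ⟨Additive.ofMul ⟨⟨_, hmem⟩, ⟨_, hinv⟩, ?_, ?_⟩, ?_⟩
  · apply Subtype.ext
    simp
  · apply Subtype.ext
    simp
  · apply Additive.toMul.injective
    apply Units.ext
    rfl

end Units

section Tower

variable {K K' : IntermediateField F Ω} [Normal F K] [Normal F K']

/-- Restriction `Gal(K'/F) → Gal(K/F)` for `K ≤ K'`. -/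
def h2_galRes [Normal F Ω] (h : K ≤ K') : (K' ≃ₐ[F] K') →* (K ≃ₐ[F] K) :=
  (h2_galπ K').liftOfRightInverse (Function.surjInv (h2_galπ_surjective K'))
    (Function.surjInv_eq (h2_galπ_surjective K')) ⟨h2_galπ K, by
      rw [h2_galπ_ker, h2_galπ_ker]; exact IntermediateField.fixingSubgroup_antitone h⟩

variable [Normal F Ω]

theorem h2_galRes_π (h : K ≤ K') (σ : Ω ≃ₐ[F] Ω) :
    h2_galRes h (h2_galπ K' σ) = h2_galπ K σ :=
  MonoidHom.liftOfRightInverse_comp_apply _ _ _ _ σ

theorem h2_galRes_surjective (h : K ≤ K') : Function.Surjective (h2_galRes h) := by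
  intro a
  obtain ⟨σ, rfl⟩ := h2_galπ_surjective K a
  exact ⟨h2_galπ K' σ, h2_galRes_π h σ⟩

theorem h2_galRes_apply (h : K ≤ K') (τ : K' ≃ₐ[F] K') (x : K) :
    ((h2_galRes h τ x : K) : Ω) = ((τ (IntermediateField.inclusion h x) : K') : Ω) := by
  obtain ⟨σ, rfl⟩ := h2_galπ_surjective K' τ
  rw [h2_galRes_π, h2_galπ_apply, h2_galπ_apply]
  rfl

theorem h2_galRes_mem_ker_iff (h : K ≤ K') (σ : Ω ≃ₐ[F] Ω) :
    h2_galπ K' σ ∈ (h2_galRes h).ker ↔ σ ∈ (h2_galπ K).ker := by
  rw [MonoidHom.mem_ker, MonoidHom.mem_ker, h2_galRes_π]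

/-- The inclusion `Kˣ → K'ˣ`, additively. -/
def h2_galIncl (h : K ≤ K') : Additive Kˣ →+ Additive K'ˣ :=
  MonoidHom.toAdditive (Units.map ((IntermediateField.inclusion h : K →ₐ[F] K') : K →* K'))

omit [Normal F K] [Normal F K'] [Normal F Ω] in
theorem h2_galι_incl (h : K ≤ K') (c : Additive Kˣ) :
    h2_galι K' (h2_galIncl h c) = h2_galι K c := by
  apply Additive.toMul.injective
  apply Units.ext
  rfl

omit [Normal F K] [Normal F K'] [Normal F Ω] in
theorem h2_galIncl_injective (h : K ≤ K') : Function.Injective (h2_galIncl h) := by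
  intro a b hab
  apply h2_galι_injective K
  rw [← h2_galι_incl h, ← h2_galι_incl h, hab]

theorem h2_galIncl_smul (h : K ≤ K') (g : K' ≃ₐ[F] K') (c : Additive Kˣ) :
    h2_galIncl h (h2_galRes h g • c) = g • h2_galIncl h c := by
  obtain ⟨σ, rfl⟩ := h2_galπ_surjective K' g
  apply h2_galι_injective K'
  rw [h2_galι_incl, h2_galRes_π, h2_galι_smul, h2_galι_smul, h2_galι_incl]

theorem h2_galIncl_mem_range [IsGalois F Ω] (h : K ≤ K') (c' : Additive K'ˣ)
    (hc' : ∀ s ∈ (h2_galRes h).ker, s • c' = c') : c' ∈ (h2_galIncl h).range := by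
  have h1 : h2_galι K' c' ∈ (h2_galι K).range := by
    apply h2_galι_mem_range K
    intro s hs
    rw [← h2_galι_smul K' s c', hc' _ ((h2_galRes_mem_ker_iff h s).2 hs)]
  obtain ⟨c, hc⟩ := h1
  refine ⟨c, ?_⟩
  apply h2_galι_injective K'
  rw [h2_galι_incl, hc]

/-- `|ker(Gal(K'/F) → Gal(K/F))| · [K:F] = [K':F]`. -/
theorem h2_galRes_card_ker [FiniteDimensional F K'] [IsGalois F K'] [IsGalois F K] (h : K ≤ K') :
    Nat.card (h2_galRes h).ker * Module.finrank F K = Module.finrank F K' := by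
  have : FiniteDimensional F K :=
    FiniteDimensional.of_injective (IntermediateField.inclusion h).toLinearMap
      (IntermediateField.inclusion_injective h)
  have h1 := Subgroup.card_mul_index (h2_galRes h).ker
  rw [Subgroup.index_ker, MonoidHom.range_eq_top.2 (h2_galRes_surjective h),
    Nat.card_congr Subgroup.topEquiv.toEquiv, IsGalois.card_aut_eq_finrank,
    IsGalois.card_aut_eq_finrank] at h1
  exact h1

end Tower

end

end Fermat.Agent.S55
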