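import Fermat.Agent.S55.h72_AbsDefs

/-!
# S55 / H-TRANSPORT (helper66): `IsPClassModule` is invariant under isomorphisms of
(group, module) pairs.
-/

set_option autoImplicit false

open groupCohomology

namespace Fermat.Agent.S55

/-- **H-TRANSPORT**: `IsPClassModule` is invariant under isomorphism of (group, module) pairs. -/
theorem h66_isPClassModule_transport {p : ℕ} {G G' : Type*} [Group G] [Group G'] {C C' : Type*}
    [AddCommGroup C] [DistribMulAction G C] [AddCommGroup C'] [DistribMulAction G' C']
    (e : G' ≃* G) (ε : C' ≃+ C) (hε : ∀ (g : G') (c : C'), ε (g • c) = e g • ε c)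
    (h : IsPClassModule p G C) : IsPClassModule p G' C' := by
  have hεs : ∀ (g : G') (c : C), ε.symm (e g • c) = g • ε.symm c := by
    intro g c
    apply ε.injective
    rw [hε, ε.apply_symm_apply, ε.apply_symm_apply]
  -- the isomorphism `H' ≃ H'.map e` and its compatibility with the inclusions
  have key : ∀ H' : Subgroup G', ∃ a : H' ≃* H'.map (e : G' →* G),
      (∀ x : H', ((a x : H'.map (e : G' →* G)) : G) = e (x : G')) ∧
      (∀ y : H'.map (e : G' →* G), e ((a.symm y : H') : G') = (y : G)) := by
    intro H'
    refine ⟨e.subgroupMap H', fun x => rfl, fun y => ?_⟩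
    have h1 : (((e.subgroupMap H') ((e.subgroupMap H').symm y) : H'.map (e : G' →* G)) : G)
        = e (((e.subgroupMap H').symm y : H') : G') := rfl
    rw [MulEquiv.apply_symm_apply] at h1
    exact h1.symm
  refine ⟨?_, ?_, ?_⟩
  · intro m hm
    have hb := h.ploc m hm
    constructor
    · intro c₁ c₂ hc
      apply ε.injective
      apply hb.1
      show m • ε c₁ = m • ε c₂
      rw [← map_nsmul, ← map_nsmul]
      exact congrArg ε hc
    · intro c
      obtain ⟨d, hd⟩ := hb.2 (ε c)
      refine ⟨ε.symm d, ?_⟩
      show m • ε.symm d = c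
      apply ε.injective
      rw [map_nsmul, ε.apply_symm_apply]
      exact hd
  · intro H' f' hf'
    obtain ⟨a, ha, has⟩ := key H'
    obtain ⟨c, hc⟩ := h.h1 (H'.map (e : G' →* G)) (fun x => ε (f' (a.symm x))) (by
      intro x y
      show ε (f' (a.symm (x * y))) = (x : G) • ε (f' (a.symm y)) + ε (f' (a.symm x))
      rw [map_mul, hf' (a.symm x) (a.symm y), map_add, hε]
      congr 2
      exact has x)
    refine ⟨ε.symm c, fun g => ?_⟩
    apply ε.injective
    have h1 := hc (a g)
    simp only [MulEquiv.symm_apply_apply] at h1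
    rw [map_sub, ε.apply_symm_apply]
    show ε ((g : G') • ε.symm c) - c = ε (f' g)
    rw [hε, ε.apply_symm_apply, ← ha g]
    exact h1
  · obtain ⟨u, hu, hH⟩ := h.fund
    refine ⟨fun x => ε.symm (u (e x.1, e x.2)), ?_, ?_⟩
    · intro g h j
      show ε.symm (u (e (g * h), e j)) + ε.symm (u (e g, e h))
        = g • ε.symm (u (e h, e j)) + ε.symm (u (e g, e (h * j)))
      rw [← hεs, ← map_add, ← map_add, map_mul, map_mul]
      exact congrArg ε.symm (hu (e g) (e h) (e j))
    · intro H'
      obtain ⟨a, ha, has⟩ := key H'
      obtain ⟨hA, hB⟩ := hH (H'.map (e : G' →* G))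
      constructor
      · intro f' hf'
        obtain ⟨k, b, hb⟩ := hA (fun x => ε (f' (a.symm x.1, a.symm x.2))) (by
          intro x y z
          show ε (f' (a.symm (x * y), a.symm z)) + ε (f' (a.symm x, a.symm y))
            = (x : G) • ε (f' (a.symm y, a.symm z)) + ε (f' (a.symm x, a.symm (y * z)))
          rw [map_mul, map_mul, ← map_add, hf' (a.symm x) (a.symm y) (a.symm z), map_add, hε]
          congr 2
          exact has x)
        refine ⟨k, fun g => ε.symm (b (a g)), fun g g' => ?_⟩
        have h1 := hb (a g) (a g')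
        simp only [Pi.sub_apply, Pi.smul_apply, MulEquiv.symm_apply_apply] at h1
        show (g : G') • ε.symm (b (a g')) - ε.symm (b (a (g * g'))) + ε.symm (b (a g))
          = f' (g, g') - k • ε.symm (u (e (g : G'), e (g' : G')))
        apply ε.injective
        rw [map_add, map_sub, hε, ε.apply_symm_apply, ε.apply_symm_apply, ε.apply_symm_apply,
          map_sub, map_nsmul, ε.apply_symm_apply, map_mul, ← ha g, ← ha g']
        exact h1
      · rintro k ⟨b', hb'⟩
        have hcard : Nat.card (H'.map (e : G' →* G)) = Nat.card H' :=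
          (Nat.card_congr a.toEquiv).symm
        rw [← hcard]
        apply hB k
        refine ⟨fun x => ε (b' (a.symm x)), fun x y => ?_⟩
        have h1 := hb' (a.symm x) (a.symm y)
        simp only [Pi.smul_apply] at h1
        show (x : G) • ε (b' (a.symm y)) - ε (b' (a.symm (x * y))) + ε (b' (a.symm x))
          = k • u ((x : G), (y : G))
        have h2 := congrArg ε h1
        rw [map_add, map_sub, hε, map_nsmul, ε.apply_symm_apply] at h2
        have hx : e (H'.subtype (a.symm x)) = (x : G) := has x
        rw [hx, has x, has y] at h2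
        rw [map_mul]
        exact h2

/-- transport in the other direction. -/
theorem h66_isPClassModule_transport_symm {p : ℕ} {G G' : Type*} [Group G] [Group G']
    {C C' : Type*} [AddCommGroup C] [DistribMulAction G C] [AddCommGroup C']
    [DistribMulAction G' C'] (e : G' ≃* G) (ε : C' ≃+ C)
    (hε : ∀ (g : G') (c : C'), ε (g • c) = e g • ε c)
    (h : IsPClassModule p G' C') : IsPClassModule p G C := by
  refine h66_isPClassModule_transport e.symm ε.symm (fun g c => ?_) h
  apply ε.injective
  rw [hε, ε.apply_symm_apply, MulEquiv.apply_symm_apply, ε.apply_symm_apply]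

/-- `IsPClassModule` is invariant under isomorphism of (group, module) pairs (iff form). -/
theorem h66_isPClassModule_congr {p : ℕ} {G G' : Type*} [Group G] [Group G']
    {C C' : Type*} [AddCommGroup C] [DistribMulAction G C] [AddCommGroup C']
    [DistribMulAction G' C'] (e : G' ≃* G) (ε : C' ≃+ C)
    (hε : ∀ (g : G') (c : C'), ε (g • c) = e g • ε c) :
    IsPClassModule p G' C' ↔ IsPClassModule p G C :=
  ⟨h66_isPClassModule_transport_symm e ε hε, h66_isPClassModule_transport e ε hε⟩

/-- the `(π, ι)` variant (shape of `adt_D1`): `π : G' →* G` bijective, `ι : C →+ C'` bijective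
with `ι (π g • c) = g • ι c`. -/
theorem h66_isPClassModule_iff_of_bijective {p : ℕ} {G G' : Type*} [Group G] [Group G']
    {C C' : Type*} [AddCommGroup C] [DistribMulAction G C] [AddCommGroup C']
    [DistribMulAction G' C'] (π : G' →* G) (hπ : Function.Bijective π) (ι : C →+ C')
    (hι : Function.Bijective ι) (hιeq : ∀ (g : G') (c : C), ι (π g • c) = g • ι c) :
    IsPClassModule p G' C' ↔ IsPClassModule p G C := by
  refine h66_isPClassModule_congr (MulEquiv.ofBijective π hπ) (AddEquiv.ofBijective ι hι).symm
    (fun g c => ?_)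
  apply (AddEquiv.ofBijective ι hι).injective
  rw [AddEquiv.apply_symm_apply]
  show g • c = ι (π g • (AddEquiv.ofBijective ι hι).symm c)
  rw [hιeq]
  congr 1
  exact ((AddEquiv.ofBijective ι hι).apply_symm_apply c).symm

end Fermat.Agent.S55
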