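import Mathlib
import Fermat.Prelude.Def_GaloisRep_CompletionBridge

/-!
# S55 bridge (local side): `Gal(ℚ̄_q/ℚ_q)` is the decomposition group of `padicPlace q`

* `h6_exists_global_gen` : `ℚ̄_q = ℚ_q · ι(ℚ̄)` (Krasner).
* `h6_localGaloisToGlobal_injective`.
* `h6_nnnorm_of_mem_decomposition` : the decomposition group acts by isometries.
* `h6_localGaloisToGlobal_range` : the range is the decomposition group.
-/

set_option autoImplicit false

namespace Fermat.Agent.S55

open scoped NNReal Pointwise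
open IntermediateField Polynomial

variable (q : ℕ) [Fact q.Prime]

local instance h6_isAlgebraicQbar : Algebra.IsAlgebraic ℚ (AlgebraicClosure ℚ) :=
  AlgebraicClosure.isAlgebraic ℚ

theorem h6_padicEmbedding_injective :
    Function.Injective (padicEmbedding q : AlgebraicClosure ℚ → PadicAlgCl q) :=
  (padicEmbedding q).injective

theorem h6_algebraMap_rat_padic :
    (algebraMap ℚ ℚ_[q] : ℚ → ℚ_[q]) = ((↑) : ℚ → ℚ_[q]) := by
  funext r
  simp

theorem h6_denseRange_rat : DenseRange (algebraMap ℚ ℚ_[q]) := by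
  rw [h6_algebraMap_rat_padic]
  exact Padic.denseRange_ratCast q

/-- Every element of `PadicAlgCl q` that is a root of a rational polynomial lies in the image of
`padicEmbedding q`. -/
theorem h6_mem_range_of_root (g : ℚ[X]) (hg : g ≠ 0) (b : PadicAlgCl q)
    (hb : aeval b g = 0) : ∃ β : AlgebraicClosure ℚ, padicEmbedding q β = b := by
  have hsplit : (g.map (algebraMap ℚ (AlgebraicClosure ℚ))).Splits := IsAlgClosed.splits _
  have hb' : b ∈ (g.map (algebraMap ℚ (PadicAlgCl q))).roots := by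
    rw [Polynomial.mem_roots (Polynomial.map_ne_zero hg)]
    rw [Polynomial.IsRoot.def, Polynomial.eval_map_algebraMap]
    exact hb
  have hmap : g.map (algebraMap ℚ (PadicAlgCl q)) =
      (g.map (algebraMap ℚ (AlgebraicClosure ℚ))).map (padicEmbedding q).toRingHom := by
    rw [Polynomial.map_map]
    congr 1
    exact Subsingleton.elim _ _
  rw [hmap, Polynomial.Splits.roots_map hsplit, Multiset.mem_map] at hb'
  obtain ⟨β, _, hβ⟩ := hb'
  exact ⟨β, hβ⟩

/-- **Krasner**: `ℚ̄_q = ℚ_q · ι(ℚ̄)`.  Every element of `PadicAlgCl q` lies in the field generated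
over `ℚ_q` by the image of an algebraic number. -/
theorem h6_exists_global_gen (α : PadicAlgCl q) :
    ∃ β : AlgebraicClosure ℚ, α ∈ ℚ_[q]⟮padicEmbedding q β⟯ := by
  classical
  have hint : IsIntegral ℚ_[q] α := Algebra.IsIntegral.isIntegral α
  set f := minpoly ℚ_[q] α with hf
  have fmon : f.Monic := minpoly.monic hint
  have fa0 : aeval α f = 0 := minpoly.aeval _ _
  have fnatdeg0 : f.natDegree ≠ 0 := (minpoly.natDegree_pos hint).ne'
  let S : Finset (PadicAlgCl q) := {x ∈ (f.rootSet (PadicAlgCl q)).toFinset | x ≠ α}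
  let δ : ℝ := if hS : S.Nonempty then Finset.min' (S.image fun x => ‖α - x‖)
      (Finset.image_nonempty.mpr hS) else 1
  have norm_sub_le : ∀ a' : PadicAlgCl q, IsConjRoot ℚ_[q] α a' → α ≠ a' → δ ≤ ‖α - a'‖ := by
    intro a' conj ne
    have ha'S : a' ∈ S := by
      simp only [Finset.mem_filter, Set.mem_toFinset, S]
      rw [hf, ← isConjRoot_iff_mem_minpoly_rootSet hint]
      exact ⟨conj, ne.symm⟩
    have hS : S.Nonempty := ⟨a', ha'S⟩
    simp only [hS, ↓reduceDIte, δ]
    exact Finset.min'_le (S.image fun x => ‖α - x‖) (‖α - a'‖) (Finset.mem_image_of_mem _ ha'S)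
  have δpos : δ > 0 := by
    by_cases hS : S.Nonempty <;> simp only [hS, ↓reduceDIte, δ]
    · simp only [gt_iff_lt, Finset.lt_min'_iff, Finset.mem_image, forall_exists_index, and_imp,
        forall_apply_eq_imp_iff₂]
      rintro a' ha'
      simp only [Finset.mem_filter, Set.mem_toFinset, S] at ha'
      rw [norm_pos_iff, sub_ne_zero]
      exact ha'.2.symm
    · linarith
  have hε : (δ / (max ‖α‖ 1)) ^ f.natDegree / (f.natDegree + 1) > 0 := by positivity
  obtain ⟨g, gmon, gdeg, gcoeff⟩ :=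
    exists_monic_and_natDegree_eq_and_norm_map_algebraMap_coeff_sub_lt (h6_denseRange_rat q)
      fmon hε
  obtain ⟨b, hb, hab⟩ := exists_aroots_norm_sub_lt_of_norm_coeff_sub_lt (L := PadicAlgCl q)
      hε fa0 fmon (gmon.map _) (gdeg ▸ (g.natDegree_map _)) gcoeff (IsAlgClosed.splits _)
  have hab : ‖α - b‖ < δ := by
    rw [← Real.rpow_natCast, ← mul_comm_div, div_self, one_mul,
        ← Real.rpow_mul (div_pos δpos (by positivity)).le, mul_inv_cancel₀] at hab
    · simpa [mul_assoc, div_mul_cancel₀ _ (by positivity : (max ‖α‖ 1) > 0).ne'] using hab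
    · simp [fnatdeg0]
    · positivity
  have hb0 : aeval b g = 0 := by
    have h1 := (Polynomial.mem_aroots.mp hb).2
    rw [Polynomial.aeval_map_algebraMap] at h1
    exact h1
  obtain ⟨β, hβ⟩ := h6_mem_range_of_root q g gmon.ne_zero b hb0
  refine ⟨β, ?_⟩
  rw [hβ]
  have masp : ((minpoly ℚ_[q] α).map (algebraMap ℚ_[q] (PadicAlgCl q))).Splits :=
    IsAlgClosed.splits _
  have hbint : IsIntegral ℚ_[q] b := Algebra.IsIntegral.isIntegral b
  exact IsKrasner.krasner (minpoly.irreducible hint).separable masp hbint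
    fun a' h1 h2 ↦ lt_of_lt_of_le hab (norm_sub_le a' h1 h2)

/-- Two `ℚ_q`-algebra maps out of `PadicAlgCl q` that agree at `b` agree on `ℚ_q⟮b⟯`. -/
theorem h6_eq_of_mem_adjoin {B : Type*} [Ring B] [Algebra ℚ_[q] B]
    (τ₁ τ₂ : PadicAlgCl q →ₐ[ℚ_[q]] B) {b x : PadicAlgCl q}
    (hb : τ₁ b = τ₂ b) (hx : x ∈ ℚ_[q]⟮b⟯) : τ₁ x = τ₂ x := by
  have hbint : IsIntegral ℚ_[q] b := Algebra.IsIntegral.isIntegral b
  have hx' : x ∈ Algebra.adjoin ℚ_[q] {b} := by
    rw [← IntermediateField.adjoin_simple_toSubalgebra_of_isAlgebraic hbint.isAlgebraic]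
    exact hx
  have hle : Algebra.adjoin ℚ_[q] {b} ≤ AlgHom.equalizer τ₁ τ₂ := by
    rw [Algebra.adjoin_le_iff]
    intro y hy
    rw [Set.mem_singleton_iff] at hy
    subst hy
    exact hb
  exact hle hx'

/-- `Gal(ℚ̄_q/ℚ_q) → Gal(ℚ̄/ℚ)` is injective. -/
theorem h6_localGaloisToGlobal_injective : Function.Injective (localGaloisToGlobal q) := by
  rw [injective_iff_map_eq_one]
  intro τ hτ
  ext α
  obtain ⟨β, hβ⟩ := h6_exists_global_gen q α
  have hfix : τ (padicEmbedding q β) = padicEmbedding q β := by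
    rw [← padicEmbedding_localGaloisToGlobal, hτ]
    rfl
  exact h6_eq_of_mem_adjoin q (τ : PadicAlgCl q →ₐ[ℚ_[q]] PadicAlgCl q) (AlgHom.id _ _) hfix hβ

theorem h6_mem_padicPlace_of_mem_decomposition
    {σ : AlgebraicClosure ℚ ≃ₐ[ℚ] AlgebraicClosure ℚ}
    (hσ : σ ∈ (padicPlace q).decompositionSubgroup ℚ) (x : AlgebraicClosure ℚ) :
    σ x ∈ padicPlace q ↔ x ∈ padicPlace q := by
  have h : σ • padicPlace q = padicPlace q := MulAction.mem_stabilizer_iff.mp hσ
  constructor
  · intro hx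
    have h1 : σ x ∈ σ • padicPlace q := by rw [h]; exact hx
    rw [ValuationSubring.mem_pointwise_smul_iff_inv_smul_mem] at h1
    simpa [AlgEquiv.smul_def] using h1
  · intro hx
    rw [← h, ValuationSubring.mem_pointwise_smul_iff_inv_smul_mem]
    simpa [AlgEquiv.smul_def] using hx

theorem h6_norm_natCast_q : ‖((q : ℕ) : PadicAlgCl q)‖ = (q : ℝ)⁻¹ := by
  rw [← map_natCast (algebraMap ℚ_[q] (PadicAlgCl q)), PadicAlgCl.norm_extends, Padic.norm_p]

theorem h6_norm_le_of_mem_decomposition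
    {σ : AlgebraicClosure ℚ ≃ₐ[ℚ] AlgebraicClosure ℚ}
    (hσ : σ ∈ (padicPlace q).decompositionSubgroup ℚ) (x : AlgebraicClosure ℚ) :
    ‖padicEmbedding q (σ x)‖ ≤ ‖padicEmbedding q x‖ := by
  by_contra hlt
  rw [not_le] at hlt
  set a := ‖padicEmbedding q x‖ with ha
  set b := ‖padicEmbedding q (σ x)‖ with hb
  have hq1 : (1 : ℝ) < (q : ℝ) := by exact_mod_cast (Fact.out : q.Prime).one_lt
  have hq0 : (0 : ℝ) < (q : ℝ) := by linarith
  have ha0 : 0 ≤ a := norm_nonneg _
  rcases ha0.eq_or_lt with ha00 | hapos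
  · -- `x = 0`
    have hx0 : x = 0 := by
      have h1 : padicEmbedding q x = 0 := norm_eq_zero.mp ha00.symm
      exact (map_eq_zero_iff _ (padicEmbedding q).injective).mp h1
    rw [hb, hx0, map_zero, map_zero, norm_zero] at hlt
    rw [← ha00] at hlt
    exact lt_irrefl _ hlt
  · have hba : 1 < b / a := by rw [one_lt_div hapos]; exact hlt
    obtain ⟨n, hn⟩ := pow_unbounded_of_one_lt (q : ℝ) hba
    obtain ⟨m, hm1, hm2⟩ := exists_mem_Ioc_zpow (pow_pos hapos n) hq1
    -- `q^m < a^n ≤ q^(m+1) < b^n`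
    have hbn : (q : ℝ) ^ (m + 1) < b ^ n := by
      have h1 : (q : ℝ) ^ (m + 1) = (q : ℝ) ^ m * q := zpow_add_one₀ hq0.ne' m
      have h2 : (q : ℝ) * a ^ n < b ^ n := by
        rw [div_pow, lt_div_iff₀ (pow_pos hapos n)] at hn
        exact hn
      rw [h1]
      nlinarith [zpow_pos hq0 m]
    set y : AlgebraicClosure ℚ := x ^ n * ((q : ℕ) : AlgebraicClosure ℚ) ^ (m + 1) with hy
    have hnorm : ∀ z : AlgebraicClosure ℚ,
        ‖padicEmbedding q (z ^ n * ((q : ℕ) : AlgebraicClosure ℚ) ^ (m + 1))‖ =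
          ‖padicEmbedding q z‖ ^ n * ((q : ℝ) ^ (m + 1))⁻¹ := by
      intro z
      rw [map_mul, map_pow, map_zpow₀, map_natCast, norm_mul, norm_pow, norm_zpow,
        h6_norm_natCast_q, inv_zpow]
    have hyA : y ∈ padicPlace q := by
      rw [mem_padicPlace_iff, ← NNReal.coe_le_coe, coe_nnnorm, hy, hnorm x, NNReal.coe_one,
        ← div_eq_mul_inv, div_le_one (zpow_pos hq0 _)]
      exact hm2
    have hσy : σ y = (σ x) ^ n * ((q : ℕ) : AlgebraicClosure ℚ) ^ (m + 1) := by
      rw [hy, map_mul, map_pow, map_zpow₀, map_natCast]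
    have hσyA : σ y ∈ padicPlace q := (h6_mem_padicPlace_of_mem_decomposition q hσ y).mpr hyA
    rw [mem_padicPlace_iff, ← NNReal.coe_le_coe, coe_nnnorm, hσy, hnorm (σ x), NNReal.coe_one,
      ← div_eq_mul_inv, div_le_one (zpow_pos hq0 _)] at hσyA
    exact absurd hσyA (not_le.mpr hbn)

/-- The decomposition group of `padicPlace q` acts by isometries for the `q`-adic norm. -/
theorem h6_norm_of_mem_decomposition
    {σ : AlgebraicClosure ℚ ≃ₐ[ℚ] AlgebraicClosure ℚ}
    (hσ : σ ∈ (padicPlace q).decompositionSubgroup ℚ) (x : AlgebraicClosure ℚ) :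
    ‖padicEmbedding q (σ x)‖ = ‖padicEmbedding q x‖ := by
  refine le_antisymm (h6_norm_le_of_mem_decomposition q hσ x) ?_
  have h := h6_norm_le_of_mem_decomposition q (inv_mem hσ) (σ x)
  have h2 : σ⁻¹ (σ x) = x := by
    change σ.symm (σ x) = x
    exact σ.symm_apply_apply x
  rwa [h2] at h

theorem h6_nnnorm_of_mem_decomposition
    {σ : AlgebraicClosure ℚ ≃ₐ[ℚ] AlgebraicClosure ℚ}
    (hσ : σ ∈ (padicPlace q).decompositionSubgroup ℚ) (x : AlgebraicClosure ℚ) :
    ‖padicEmbedding q (σ x)‖₊ = ‖padicEmbedding q x‖₊ := by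
  ext
  exact h6_norm_of_mem_decomposition q hσ x

/-- Coefficientwise close polynomials have close values. -/
theorem h6_norm_aeval_sub_le {P Q : ℚ_[q][X]} {d : ℕ} (hP : P.natDegree ≤ d)
    (hQ : Q.natDegree ≤ d) {ε : ℝ} (hcoeff : ∀ n, ‖Q.coeff n - P.coeff n‖ ≤ ε)
    (y : PadicAlgCl q) :
    ‖aeval y Q - aeval y P‖ ≤ (d + 1) * ε * (max ‖y‖ 1) ^ d := by
  have hε : 0 ≤ ε := le_trans (norm_nonneg _) (hcoeff 0)
  rw [← map_sub]
  have hdeg : (Q - P).natDegree < d + 1 := by
    have h1 := Polynomial.natDegree_sub_le Q P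
    have h2 : max Q.natDegree P.natDegree ≤ d := max_le hQ hP
    omega
  rw [Polynomial.aeval_eq_sum_range' hdeg]
  calc ‖∑ i ∈ Finset.range (d + 1), (Q - P).coeff i • y ^ i‖
      ≤ ∑ i ∈ Finset.range (d + 1), ‖(Q - P).coeff i • y ^ i‖ := norm_sum_le _ _
    _ ≤ ∑ i ∈ Finset.range (d + 1), ε * (max ‖y‖ 1) ^ d := by
        apply Finset.sum_le_sum
        intro i hi
        rw [norm_smul, Polynomial.coeff_sub, norm_pow]
        apply mul_le_mul (hcoeff i) _ (by positivity) hε
        exact (pow_le_pow_left₀ (norm_nonneg y) (le_max_left _ _) i).trans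
          (pow_le_pow_right₀ (le_max_right _ _) (Nat.le_of_lt_succ (Finset.mem_range.mp hi)))
    _ = (d + 1) * ε * (max ‖y‖ 1) ^ d := by
        rw [Finset.sum_const, Finset.card_range, nsmul_eq_mul]
        push_cast
        ring

/-- Finite level: an element of the decomposition group moves `ι θ` to a `ℚ_q`-conjugate. -/
theorem h6_exists_local_lift_elem
    {σ : AlgebraicClosure ℚ ≃ₐ[ℚ] AlgebraicClosure ℚ}
    (hσ : σ ∈ (padicPlace q).decompositionSubgroup ℚ) (θ : AlgebraicClosure ℚ) :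
    ∃ τ : PadicAlgCl q ≃ₐ[ℚ_[q]] PadicAlgCl q,
      τ (padicEmbedding q θ) = padicEmbedding q (σ θ) := by
  set a := padicEmbedding q θ with ha
  set a' := padicEmbedding q (σ θ) with ha'
  have hint : IsIntegral ℚ_[q] a := Algebra.IsIntegral.isIntegral a
  set g₁ := minpoly ℚ_[q] a with hg₁
  have hroot : aeval a' g₁ = 0 := by
    by_contra hne
    set c := ‖aeval a' g₁‖ with hc
    have hcpos : 0 < c := norm_pos_iff.mpr hne
    set d := g₁.natDegree with hd
    set M := max ‖a‖ 1 with hM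
    have hMpos : 0 < M := lt_of_lt_of_le one_pos (le_max_right _ _)
    have hM' : max ‖a'‖ 1 = M := by
      rw [hM, ha', ha, h6_norm_of_mem_decomposition q hσ θ]
    set ε := c / (3 * ((d + 1) * M ^ d)) with hε
    have hεpos : 0 < ε := by positivity
    obtain ⟨h, hmon, hdeg, hcoeff⟩ :=
      exists_monic_and_natDegree_eq_and_norm_map_algebraMap_coeff_sub_lt (h6_denseRange_rat q)
        (minpoly.monic hint) hεpos
    set h' := h.map (algebraMap ℚ ℚ_[q]) with hh'
    have hh'deg : h'.natDegree ≤ d := by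
      rw [hh', Polynomial.natDegree_map, ← hdeg]
    have hcoeff' : ∀ n, ‖h'.coeff n - g₁.coeff n‖ ≤ ε := fun n => (hcoeff n).le
    have e1 := h6_norm_aeval_sub_le q (le_refl d) hh'deg hcoeff' a
    have e2 := h6_norm_aeval_sub_le q (le_refl d) hh'deg hcoeff' a'
    rw [hg₁, minpoly.aeval, sub_zero] at e1
    rw [hM'] at e2
    have e3 : ‖aeval a' h'‖ = ‖aeval a h'‖ := by
      rw [hh', Polynomial.aeval_map_algebraMap, Polynomial.aeval_map_algebraMap, ha', ha,
        Polynomial.aeval_algHom_apply, Polynomial.aeval_algHom_apply,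
        Polynomial.aeval_algHom_apply, h6_norm_of_mem_decomposition q hσ]
    have e4 : c ≤ ‖aeval a' h' - aeval a' g₁‖ + ‖aeval a' h'‖ := by
      rw [hc]
      have := norm_sub_le (aeval a' h') (aeval a' h' - aeval a' g₁)
      rw [sub_sub_cancel] at this
      linarith
    have e5 : (d + 1 : ℝ) * ε * M ^ d = c / 3 := by
      rw [hε]
      field_simp
    rw [e3] at e4
    rw [e5] at e1 e2
    linarith
  have hmin : minpoly ℚ_[q] a' = g₁ :=
    (minpoly.eq_of_irreducible_of_monic (minpoly.irreducible hint) hroot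
      (minpoly.monic hint)).symm
  have hconj : IsConjRoot ℚ_[q] a' a := hmin
  obtain ⟨τ, hτ⟩ := isConjRoot_iff_exists_algEquiv.mp hconj
  exact ⟨τ, hτ⟩

/-- Finitely many algebraic numbers are polynomial expressions in a single one. -/
theorem h6_exists_poly_of_finset (T : Finset (AlgebraicClosure ℚ)) :
    ∃ θ : AlgebraicClosure ℚ, ∀ x ∈ T, ∃ h : ℚ[X], x = aeval θ h := by
  classical
  let E := IntermediateField.adjoin ℚ (T : Set (AlgebraicClosure ℚ))
  have : FiniteDimensional ℚ E :=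
    IntermediateField.finiteDimensional_adjoin (fun x _ => Algebra.IsIntegral.isIntegral x)
  obtain ⟨α, hα⟩ := Field.exists_primitive_element ℚ E
  refine ⟨(α : AlgebraicClosure ℚ), fun x hx => ?_⟩
  have hxE : x ∈ E := IntermediateField.subset_adjoin ℚ _ hx
  have hmem : (⟨x, hxE⟩ : E) ∈ ℚ⟮α⟯ := by rw [hα]; trivial
  have hαint : IsIntegral ℚ α := Algebra.IsIntegral.isIntegral α
  rw [← IntermediateField.mem_toSubalgebra,
    IntermediateField.adjoin_simple_toSubalgebra_of_isAlgebraic hαint.isAlgebraic,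
    Algebra.adjoin_singleton_eq_range_aeval] at hmem
  obtain ⟨h, hh⟩ := hmem
  refine ⟨h, ?_⟩
  have h1 := Polynomial.aeval_algHom_apply E.val α h
  have h2 : (aeval α) h = (⟨x, hxE⟩ : E) := hh
  rw [h2] at h1
  exact h1.symm

local instance h6_towerQqPadic : IsScalarTower ℚ ℚ_[q] (PadicAlgCl q) :=
  IsScalarTower.of_algebraMap_eq' (Subsingleton.elim _ _)

/-- Every element of the decomposition group of `padicPlace q` comes from `Gal(ℚ̄_q/ℚ_q)`. -/
theorem h6_exists_local_lift
    {σ : AlgebraicClosure ℚ ≃ₐ[ℚ] AlgebraicClosure ℚ}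
    (hσ : σ ∈ (padicPlace q).decompositionSubgroup ℚ) :
    ∃ τ : PadicAlgCl q ≃ₐ[ℚ_[q]] PadicAlgCl q, localGaloisToGlobal q τ = σ := by
  classical
  let C : AlgebraicClosure ℚ → Set (PadicAlgCl q ≃ₐ[ℚ_[q]] PadicAlgCl q) :=
    fun x => {τ | τ (padicEmbedding q x) = padicEmbedding q (σ x)}
  have hclosed : ∀ x, IsClosed (C x) := by
    intro x
    obtain ⟨τ₀, hτ₀⟩ := h6_exists_local_lift_elem q hσ x
    have hC : C x = τ₀ • (MulAction.stabilizer (PadicAlgCl q ≃ₐ[ℚ_[q]] PadicAlgCl q)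
        (padicEmbedding q x) : Set (PadicAlgCl q ≃ₐ[ℚ_[q]] PadicAlgCl q)) := by
      ext τ
      rw [Set.mem_smul_set_iff_inv_smul_mem]
      simp only [C, Set.mem_ofPred_eq, SetLike.mem_coe, MulAction.mem_stabilizer_iff, smul_eq_mul,
        AlgEquiv.smul_def, AlgEquiv.mul_apply]
      rw [← hτ₀]
      constructor
      · intro h
        rw [h]
        change τ₀.symm (τ₀ _) = _
        exact τ₀.symm_apply_apply _
      · intro h
        have h3 : τ₀ (τ₀⁻¹ (τ (padicEmbedding q x))) = τ₀ (padicEmbedding q x) := by rw [h]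
        have h4 : τ₀ (τ₀⁻¹ (τ (padicEmbedding q x))) = τ (padicEmbedding q x) := by
          change τ₀ (τ₀.symm _) = _
          exact τ₀.apply_symm_apply _
        rw [← h4, h3]
    rw [hC]
    exact (Subgroup.isClosed_of_isOpen _
      (stabilizer_isOpen_of_isIntegral (K := ℚ_[q]) (padicEmbedding q x))).smul τ₀
  have hfin : ∀ u : Finset (AlgebraicClosure ℚ), (Set.univ ∩ ⋂ x ∈ u, C x).Nonempty := by
    intro u
    obtain ⟨θ, hθ⟩ := h6_exists_poly_of_finset u
    obtain ⟨τ, hτ⟩ := h6_exists_local_lift_elem q hσ θ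
    refine ⟨τ, Set.mem_univ _, Set.mem_iInter₂.mpr fun x hx => ?_⟩
    obtain ⟨h, rfl⟩ := hθ x hx
    change τ (padicEmbedding q (aeval θ h)) = padicEmbedding q (σ (aeval θ h))
    rw [← Polynomial.aeval_algHom_apply σ, ← Polynomial.aeval_algHom_apply (padicEmbedding q),
      ← Polynomial.aeval_algHom_apply (padicEmbedding q), ← hτ]
    exact (Polynomial.aeval_algHom_apply (τ.restrictScalars ℚ) _ h).symm
  obtain ⟨τ, -, hτ⟩ := isCompact_univ.inter_iInter_nonempty C hclosed hfin
  refine ⟨τ, ?_⟩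
  ext x
  have h1 : padicEmbedding q (localGaloisToGlobal q τ x) = padicEmbedding q (σ x) := by
    rw [padicEmbedding_localGaloisToGlobal]
    exact Set.mem_iInter.mp hτ x
  exact (padicEmbedding q).injective h1

/-- The image of `Gal(ℚ̄_q/ℚ_q)` in `Gal(ℚ̄/ℚ)` is exactly the decomposition group of the place
`padicPlace q`. -/
theorem h6_localGaloisToGlobal_range :
    (localGaloisToGlobal q).range = (padicPlace q).decompositionSubgroup ℚ := by
  ext σ
  constructor
  · rintro ⟨τ, rfl⟩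
    exact localGaloisToGlobal_mem_decompositionSubgroup q τ
  · intro hσ
    exact h6_exists_local_lift q hσ

/-- The group isomorphism `Gal(ℚ̄_q/ℚ_q) ≃ D(padicPlace q)`. -/
noncomputable def h6_localEquivDecomposition :
    (PadicAlgCl q ≃ₐ[ℚ_[q]] PadicAlgCl q) ≃* ↥((padicPlace q).decompositionSubgroup ℚ) :=
  MulEquiv.ofBijective
    ((localGaloisToGlobal q).codRestrict ((padicPlace q).decompositionSubgroup ℚ)
      (localGaloisToGlobal_mem_decompositionSubgroup q))
    ⟨fun τ₁ τ₂ h => h6_localGaloisToGlobal_injective q (congrArg Subtype.val h),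
     fun σ => by
      obtain ⟨τ, hτ⟩ := h6_exists_local_lift q σ.2
      exact ⟨τ, Subtype.ext hτ⟩⟩

@[simp]
theorem h6_localEquivDecomposition_coe (τ : PadicAlgCl q ≃ₐ[ℚ_[q]] PadicAlgCl q) :
    ((h6_localEquivDecomposition q τ : ↥((padicPlace q).decompositionSubgroup ℚ)) :
      AlgebraicClosure ℚ ≃ₐ[ℚ] AlgebraicClosure ℚ) = localGaloisToGlobal q τ := rfl

/-- A finite-dimensional intermediate field (characteristic zero) consists of polynomial
expressions in one of its elements. -/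
theorem h6_exists_poly_gen {K Ω : Type*} [Field K] [CharZero K] [Field Ω] [Algebra K Ω]
    (E : IntermediateField K Ω) [FiniteDimensional K E] :
    ∃ θ : Ω, θ ∈ E ∧ ∀ x ∈ E, ∃ h : K[X], x = aeval θ h := by
  obtain ⟨α, hα⟩ := Field.exists_primitive_element K E
  refine ⟨(α : Ω), α.2, fun x hx => ?_⟩
  have hmem : (⟨x, hx⟩ : E) ∈ K⟮α⟯ := by rw [hα]; trivial
  have hαint : IsIntegral K α := Algebra.IsIntegral.isIntegral α
  rw [← IntermediateField.mem_toSubalgebra,
    IntermediateField.adjoin_simple_toSubalgebra_of_isAlgebraic hαint.isAlgebraic,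
    Algebra.adjoin_singleton_eq_range_aeval] at hmem
  obtain ⟨h, hh⟩ := hmem
  refine ⟨h, ?_⟩
  have h1 := Polynomial.aeval_algHom_apply E.val α h
  have h2 : (aeval α) h = (⟨x, hx⟩ : E) := hh
  rw [h2] at h1
  exact h1.symm

/-- `Gal(ℚ̄_q/ℚ_q) → Gal(ℚ̄/ℚ)` is continuous for the Krull topologies. -/
theorem h6_localGaloisToGlobal_continuous : Continuous (localGaloisToGlobal q) := by
  apply continuous_of_continuousAt_one
  rw [ContinuousAt, map_one]
  intro s hs
  rw [krullTopology_mem_nhds_one_iff] at hs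
  obtain ⟨F, hF, hFs⟩ := hs
  rw [Filter.mem_map, krullTopology_mem_nhds_one_iff]
  obtain ⟨θ, -, hθ⟩ := h6_exists_poly_gen F
  refine ⟨ℚ_[q]⟮padicEmbedding q θ⟯,
    IntermediateField.adjoin.finiteDimensional (Algebra.IsIntegral.isIntegral _), ?_⟩
  intro τ hτ
  apply hFs
  rw [SetLike.mem_coe, IntermediateField.mem_fixingSubgroup_iff]
  intro x hx
  obtain ⟨h, rfl⟩ := hθ x hx
  have hτθ : τ (padicEmbedding q θ) = padicEmbedding q θ :=
    (IntermediateField.mem_fixingSubgroup_iff _ _).mp hτ _ (mem_adjoin_simple_self _ _)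
  have hfix : localGaloisToGlobal q τ θ = θ :=
    h6_padicEmbedding_injective q (by rw [padicEmbedding_localGaloisToGlobal, hτθ])
  rw [← Polynomial.aeval_algHom_apply, hfix]

/-- The subgroups `(localGaloisToGlobal q)⁻¹(Gal(ℚ̄/F))`, `F/ℚ` finite, are cofinal among the open
subgroups of `Gal(ℚ̄_q/ℚ_q)`. -/
theorem h6_exists_global_level (L : IntermediateField ℚ_[q] (PadicAlgCl q))
    [FiniteDimensional ℚ_[q] L] :
    ∃ F : IntermediateField ℚ (AlgebraicClosure ℚ), FiniteDimensional ℚ F ∧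
      ∀ τ : PadicAlgCl q ≃ₐ[ℚ_[q]] PadicAlgCl q,
        localGaloisToGlobal q τ ∈ F.fixingSubgroup → τ ∈ L.fixingSubgroup := by
  obtain ⟨α, -, hα⟩ := h6_exists_poly_gen L
  obtain ⟨β, hβ⟩ := h6_exists_global_gen q α
  refine ⟨ℚ⟮β⟯, IntermediateField.adjoin.finiteDimensional (Algebra.IsIntegral.isIntegral β),
    fun τ hτ => ?_⟩
  have hfixβ : localGaloisToGlobal q τ β = β :=
    (IntermediateField.mem_fixingSubgroup_iff _ _).mp hτ β (mem_adjoin_simple_self ℚ β)
  have hfix : τ (padicEmbedding q β) = padicEmbedding q β := by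
    rw [← padicEmbedding_localGaloisToGlobal, hfixβ]
  have hα' : τ α = α :=
    h6_eq_of_mem_adjoin q (τ : PadicAlgCl q →ₐ[ℚ_[q]] PadicAlgCl q) (AlgHom.id _ _) hfix hβ
  rw [IntermediateField.mem_fixingSubgroup_iff]
  intro x hx
  obtain ⟨h, rfl⟩ := hα x hx
  rw [← Polynomial.aeval_algHom_apply, hα']

/-- Local level of a global level: the preimage of `Gal(ℚ̄/F)` contains the open subgroup
`Gal(ℚ̄_q/ℚ_q(ι θ))` for a generator `θ` of `F`. -/
theorem h6_exists_local_level (F : IntermediateField ℚ (AlgebraicClosure ℚ))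
    [FiniteDimensional ℚ F] :
    ∃ L : IntermediateField ℚ_[q] (PadicAlgCl q), FiniteDimensional ℚ_[q] L ∧
      ∀ τ : PadicAlgCl q ≃ₐ[ℚ_[q]] PadicAlgCl q,
        τ ∈ L.fixingSubgroup ↔ localGaloisToGlobal q τ ∈ F.fixingSubgroup := by
  obtain ⟨θ, hθF, hθ⟩ := h6_exists_poly_gen F
  refine ⟨ℚ_[q]⟮padicEmbedding q θ⟯,
    IntermediateField.adjoin.finiteDimensional (Algebra.IsIntegral.isIntegral _), fun τ => ?_⟩
  constructor
  · intro hτ
    rw [IntermediateField.mem_fixingSubgroup_iff]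
    intro x hx
    obtain ⟨h, rfl⟩ := hθ x hx
    have hτθ : τ (padicEmbedding q θ) = padicEmbedding q θ :=
      (IntermediateField.mem_fixingSubgroup_iff _ _).mp hτ _ (mem_adjoin_simple_self _ _)
    have hfix : localGaloisToGlobal q τ θ = θ :=
      h6_padicEmbedding_injective q (by rw [padicEmbedding_localGaloisToGlobal, hτθ])
    rw [← Polynomial.aeval_algHom_apply, hfix]
  · intro hτ
    have hfixθ : localGaloisToGlobal q τ θ = θ :=
      (IntermediateField.mem_fixingSubgroup_iff _ _).mp hτ θ hθF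
    have hfix : τ (padicEmbedding q θ) = padicEmbedding q θ := by
      rw [← padicEmbedding_localGaloisToGlobal, hfixθ]
    rw [IntermediateField.mem_fixingSubgroup_iff]
    intro x hx
    exact h6_eq_of_mem_adjoin q (τ : PadicAlgCl q →ₐ[ℚ_[q]] PadicAlgCl q) (AlgHom.id _ _) hfix hx

end Fermat.Agent.S55
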