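import Mathlib
import Fermat.Agent.S55.h6_LocalBridge

/-!
# S55 / GLOB dictionary support (helper84): embeddings `K →+* PadicAlgCl q` and primes above `q`

For a number field `K` (as a type) and `j : K →+* PadicAlgCl q`:

* `h84_placeOf q j : HeightOneSpectrum (𝓞 K)` : the prime `{x | ‖j x‖ < 1}` (contains `q`);
* `h84_placeOf_comp` : invariance under `Gal(ℚ̄_q/ℚ_q)`;
* `h84_norm_le_one_iff`, `h84_norm_lt_one_iff`, `h84_norm_eq_one_iff` : `‖j x‖` versus the
  `v`-adic valuation, and the exact formula `h84_norm_pow_ramIdx`;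
* `h84_placeOf_eq_iff` : same prime iff conjugate under `Gal(ℚ̄_q/ℚ_q)`
  (`h84_exists_algEquiv_of_norm_eq` is the carrier-free form);
* `h84_exists_placeOf_eq` : every prime above `q` comes from an embedding;
* `h84_localField j = ℚ_q · j(K)` is finite over `ℚ_q`, its fixing subgroup is the stabilizer of
  `j` (`h84_comp_eq_iff`) and it is the fixed field of that stabilizer (`h84_mem_localField_iff`).
-/

set_option autoImplicit false

namespace Fermat.Agent.S55

open NumberField IsDedekindDomain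

variable (q : ℕ) [Fact q.Prime] {K : Type*} [Field K] [NumberField K]

/-- Elements of `PadicAlgCl q` integral over `ℤ` have norm `≤ 1`. -/
theorem h84_norm_le_one_of_isIntegral {x : PadicAlgCl q} (hx : IsIntegral ℤ x) : ‖x‖ ≤ 1 := by
  have h1 : IsIntegral (Valued.v : Valuation (PadicAlgCl q) NNReal).valuationSubring x :=
    hx.tower_top
  obtain ⟨y, rfl⟩ := (IsIntegrallyClosed.isIntegral_iff
    (R := (Valued.v : Valuation (PadicAlgCl q) NNReal).valuationSubring)
    (K := PadicAlgCl q)).mp h1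
  exact y.2

omit [NumberField K] in
theorem h84_norm_le_one (j : K →+* PadicAlgCl q) (x : 𝓞 K) : ‖j (x : K)‖ ≤ 1 := by
  apply h84_norm_le_one_of_isIntegral
  have h := (RingOfIntegers.isIntegral_coe x)
  exact h.map (j : K →+* PadicAlgCl q).toIntAlgHom

theorem h84_norm_natCast_q : ‖((q : ℕ) : PadicAlgCl q)‖ = (q : ℝ)⁻¹ := by
  rw [← map_natCast (algebraMap ℚ_[q] (PadicAlgCl q)), PadicAlgCl.norm_extends, Padic.norm_p]

/-- The prime ideal of `𝓞 K` cut out by an embedding `j : K →+* PadicAlgCl q`. -/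
def h84_primeOf (j : K →+* PadicAlgCl q) : Ideal (𝓞 K) where
  carrier := {x | ‖j (x : K)‖ < 1}
  add_mem' := by
    intro a b ha hb
    simp only [Set.mem_ofPred_eq] at ha hb ⊢
    rw [show ((a + b : 𝓞 K) : K) = (a : K) + (b : K) by simp, map_add]
    exact lt_of_le_of_lt (IsUltrametricDist.norm_add_le_max _ _) (max_lt ha hb)
  zero_mem' := by simp
  smul_mem' := by
    intro c x hx
    simp only [Set.mem_ofPred_eq, smul_eq_mul] at hx ⊢
    rw [show ((c * x : 𝓞 K) : K) = (c : K) * (x : K) by simp, map_mul, norm_mul]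
    calc ‖j (c : K)‖ * ‖j (x : K)‖ ≤ 1 * ‖j (x : K)‖ :=
          mul_le_mul_of_nonneg_right (h84_norm_le_one q j c) (norm_nonneg _)
      _ < 1 := by rw [one_mul]; exact hx

theorem h84_mem_primeOf (j : K →+* PadicAlgCl q) (x : 𝓞 K) :
    x ∈ h84_primeOf q j ↔ ‖j (x : K)‖ < 1 := Iff.rfl

theorem h84_natCast_mem_primeOf (j : K →+* PadicAlgCl q) : ((q : ℕ) : 𝓞 K) ∈ h84_primeOf q j := by
  rw [h84_mem_primeOf]
  have : j (((q : ℕ) : 𝓞 K) : K) = ((q : ℕ) : PadicAlgCl q) := by simp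
  rw [this, h84_norm_natCast_q]
  have hq : (1 : ℝ) < q := by exact_mod_cast (Fact.out : q.Prime).one_lt
  exact inv_lt_one_of_one_lt₀ hq

instance h84_primeOf_isPrime (j : K →+* PadicAlgCl q) : (h84_primeOf q j).IsPrime := by
  constructor
  · intro h
    have h1 : (1 : 𝓞 K) ∈ h84_primeOf q j := by rw [h]; trivial
    rw [h84_mem_primeOf] at h1
    simp at h1
  · intro a b hab
    rw [h84_mem_primeOf] at hab
    simp only [h84_mem_primeOf]
    by_contra hcon
    push Not at hcon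
    have ha : ‖j (a : K)‖ = 1 := le_antisymm (h84_norm_le_one q j a) hcon.1
    have hb : ‖j (b : K)‖ = 1 := le_antisymm (h84_norm_le_one q j b) hcon.2
    have : ‖j ((a * b : 𝓞 K) : K)‖ = 1 := by
      rw [show ((a * b : 𝓞 K) : K) = (a : K) * (b : K) by simp, map_mul, norm_mul, ha, hb, one_mul]
    linarith

theorem h84_primeOf_ne_bot (j : K →+* PadicAlgCl q) : h84_primeOf q j ≠ ⊥ := by
  intro h
  have h1 := h84_natCast_mem_primeOf q j
  rw [h, Ideal.mem_bot] at h1
  have hq : (q : ℕ) ≠ 0 := (Fact.out : q.Prime).ne_zero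
  exact hq (by exact_mod_cast h1)

/-- The place of `K` cut out by an embedding `j : K →+* PadicAlgCl q`. -/
def h84_placeOf (j : K →+* PadicAlgCl q) : HeightOneSpectrum (𝓞 K) :=
  ⟨h84_primeOf q j, h84_primeOf_isPrime q j, h84_primeOf_ne_bot q j⟩

theorem h84_placeOf_asIdeal (j : K →+* PadicAlgCl q) :
    (h84_placeOf q j).asIdeal = h84_primeOf q j := rfl

theorem h84_mem_placeOf (j : K →+* PadicAlgCl q) (x : 𝓞 K) :
    x ∈ (h84_placeOf q j).asIdeal ↔ ‖j (x : K)‖ < 1 := Iff.rfl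

theorem h84_natCast_mem_placeOf (j : K →+* PadicAlgCl q) :
    ((q : ℕ) : 𝓞 K) ∈ (h84_placeOf q j).asIdeal := h84_natCast_mem_primeOf q j

theorem h84_norm_algEquiv (τ : PadicAlgCl q ≃ₐ[ℚ_[q]] PadicAlgCl q) (y : PadicAlgCl q) :
    ‖τ y‖ = ‖y‖ := (spectralNorm_eq_of_equiv τ y).symm

theorem h84_placeOf_comp (τ : PadicAlgCl q ≃ₐ[ℚ_[q]] PadicAlgCl q) (j : K →+* PadicAlgCl q) :
    h84_placeOf q ((τ : PadicAlgCl q →+* PadicAlgCl q).comp j) = h84_placeOf q j := by
  ext x
  rw [h84_mem_placeOf, h84_mem_placeOf]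
  simp [h84_norm_algEquiv]

variable {q}

theorem h84_norm_eq_one_of_notMem (j : K →+* PadicAlgCl q) {d : 𝓞 K}
    (hd : d ∉ (h84_placeOf q j).asIdeal) : ‖j (d : K)‖ = 1 := by
  rw [h84_mem_placeOf, not_lt] at hd
  exact le_antisymm (h84_norm_le_one q j d) hd

theorem h84_norm_le_one_of_valuation_le_one (j : K →+* PadicAlgCl q) {x : K}
    (hx : (h84_placeOf q j).valuation K x ≤ 1) : ‖j x‖ ≤ 1 := by
  obtain ⟨n, d, hnd⟩ := (h84_placeOf q j).exists_primeCompl_mul_eq_of_integer x hx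
  have h1 : ‖j x‖ * ‖j ((d : 𝓞 K) : K)‖ = ‖j (n : K)‖ := by
    rw [← norm_mul, ← map_mul]
    exact congrArg (fun y => ‖j y‖) hnd
  rw [h84_norm_eq_one_of_notMem j d.2, mul_one] at h1
  rw [h1]
  exact h84_norm_le_one q j n

theorem h84_norm_lt_one_of_valuation_lt_one (j : K →+* PadicAlgCl q) {x : K}
    (hx : (h84_placeOf q j).valuation K x < 1) : ‖j x‖ < 1 := by
  obtain ⟨n, d, hnd⟩ := (h84_placeOf q j).exists_primeCompl_mul_eq_of_integer x hx.le
  have h1 : ‖j x‖ * ‖j ((d : 𝓞 K) : K)‖ = ‖j (n : K)‖ := by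
    rw [← norm_mul, ← map_mul]
    exact congrArg (fun y => ‖j y‖) hnd
  rw [h84_norm_eq_one_of_notMem j d.2, mul_one] at h1
  rw [h1, ← h84_mem_placeOf, ← HeightOneSpectrum.valuation_lt_one_iff_mem (K := K)]
  have h2 : (h84_placeOf q j).valuation K ((d : 𝓞 K) : K) = 1 :=
    ((h84_placeOf q j).valuation_eq_one_iff_notMem (K := K)).mpr d.2
  have h3 := congrArg ((h84_placeOf q j).valuation K) hnd
  rw [map_mul] at h3
  change (h84_placeOf q j).valuation K x * (h84_placeOf q j).valuation K ((d : 𝓞 K) : K) = _ at h3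
  rw [h2, mul_one] at h3
  rw [← h3]
  exact hx

theorem h84_norm_eq_one_of_valuation_eq_one (j : K →+* PadicAlgCl q) {x : K}
    (hx : (h84_placeOf q j).valuation K x = 1) : ‖j x‖ = 1 := by
  have hx0 : x ≠ 0 := by
    rintro rfl
    simp at hx
  have h1 := h84_norm_le_one_of_valuation_le_one j hx.le
  have h2 : ‖j x⁻¹‖ ≤ 1 := h84_norm_le_one_of_valuation_le_one j (by rw [map_inv₀, hx, inv_one])
  rw [map_inv₀, norm_inv] at h2
  have h3 : 0 < ‖j x‖ := norm_pos_iff.mpr ((map_ne_zero j).mpr hx0)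
  have h4 : 1 ≤ ‖j x‖ := by
    rwa [inv_le_one₀ h3] at h2
  exact le_antisymm h1 h4

theorem h84_norm_lt_one_iff (j : K →+* PadicAlgCl q) (x : K) :
    ‖j x‖ < 1 ↔ (h84_placeOf q j).valuation K x < 1 := by
  refine ⟨fun h => ?_, h84_norm_lt_one_of_valuation_lt_one j⟩
  by_contra hcon
  rw [not_lt] at hcon
  rcases hcon.eq_or_lt with h1 | h1
  · rw [h84_norm_eq_one_of_valuation_eq_one j h1.symm] at h
    exact lt_irrefl _ h
  · have hx0 : x ≠ 0 := by
      rintro rfl
      simp at h1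
    have h2 : (h84_placeOf q j).valuation K x⁻¹ < 1 := by
      rw [map_inv₀]
      exact inv_lt_one_of_one_lt₀ h1
    have h3 := h84_norm_lt_one_of_valuation_lt_one j h2
    rw [map_inv₀, norm_inv] at h3
    have h4 : 0 < ‖j x‖ := norm_pos_iff.mpr ((map_ne_zero j).mpr hx0)
    have h5 : 1 < ‖j x‖ := by
      rwa [inv_lt_one₀ h4] at h3
    linarith

theorem h84_norm_le_one_iff (j : K →+* PadicAlgCl q) (x : K) :
    ‖j x‖ ≤ 1 ↔ (h84_placeOf q j).valuation K x ≤ 1 := by
  refine ⟨fun h => ?_, h84_norm_le_one_of_valuation_le_one j⟩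
  by_contra hcon
  rw [not_le] at hcon
  have hx0 : x ≠ 0 := by
    rintro rfl
    simp at hcon
  have h2 : (h84_placeOf q j).valuation K x⁻¹ < 1 := by
    rw [map_inv₀]
    exact inv_lt_one_of_one_lt₀ hcon
  have h3 := h84_norm_lt_one_of_valuation_lt_one j h2
  rw [map_inv₀, norm_inv] at h3
  have h4 : 0 < ‖j x‖ := norm_pos_iff.mpr ((map_ne_zero j).mpr hx0)
  have h5 : 1 < ‖j x‖ := by
    rwa [inv_lt_one₀ h4] at h3
  linarith

theorem h84_norm_eq_one_iff (j : K →+* PadicAlgCl q) (x : K) :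
    ‖j x‖ = 1 ↔ (h84_placeOf q j).valuation K x = 1 := by
  constructor
  · intro h
    refine le_antisymm ((h84_norm_le_one_iff j x).mp h.le) ?_
    by_contra hcon
    rw [not_le] at hcon
    have := (h84_norm_lt_one_iff j x).mpr hcon
    linarith
  · exact h84_norm_eq_one_of_valuation_eq_one j


/-! ### The exact norm formula -/

variable (q) in
/-- The ramification index of `v` over `q`, read off the valuation: `v(q) = exp (-e)`. -/
noncomputable def h84_ramIdx (v : HeightOneSpectrum (𝓞 K)) : ℕ :=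
  (-(WithZero.log (v.valuation K ((q : ℕ) : K)))).toNat

theorem h84_valuation_q (v : HeightOneSpectrum (𝓞 K)) (hv : ((q : ℕ) : 𝓞 K) ∈ v.asIdeal) :
    v.valuation K ((q : ℕ) : K) = WithZero.exp (-(h84_ramIdx q v : ℤ)) ∧ 0 < h84_ramIdx q v := by
  have hq0 : ((q : ℕ) : K) ≠ 0 := by
    exact_mod_cast (Fact.out : q.Prime).ne_zero
  have h0 : v.valuation K ((q : ℕ) : K) ≠ 0 := (map_ne_zero _).mpr hq0
  have h1 : v.valuation K ((q : ℕ) : K) < 1 := by
    have := (v.valuation_lt_one_iff_mem (K := K) ((q : ℕ) : 𝓞 K)).mpr hv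
    simpa using this
  have h2 : WithZero.log (v.valuation K ((q : ℕ) : K)) < 0 := by
    rw [← WithZero.exp_log h0, ← WithZero.exp_zero, WithZero.exp_lt_exp] at h1
    exact h1
  have h3 : ((h84_ramIdx q v : ℕ) : ℤ) = -(WithZero.log (v.valuation K ((q : ℕ) : K))) := by
    unfold h84_ramIdx
    rw [Int.toNat_of_nonneg (by omega)]
  refine ⟨?_, ?_⟩
  · rw [h3, neg_neg, WithZero.exp_log h0]
  · have : (0 : ℤ) < (h84_ramIdx q v : ℕ) := by rw [h3]; omega
    exact_mod_cast this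

/-- **Exact norm formula**: `‖j x‖ ^ e = q ^ (log v(x))`, i.e. `‖j x‖ = q ^ (-ord_v x / e)`. -/
theorem h84_norm_pow_ramIdx (j : K →+* PadicAlgCl q) {x : K} (hx : x ≠ 0) :
    ‖j x‖ ^ (h84_ramIdx q (h84_placeOf q j)) =
      (q : ℝ) ^ (WithZero.log ((h84_placeOf q j).valuation K x)) := by
  set v := h84_placeOf q j with hv
  set e := h84_ramIdx q v with he
  set n := WithZero.log (v.valuation K x) with hn
  obtain ⟨hq, -⟩ := h84_valuation_q v (h84_natCast_mem_placeOf q j)
  have hx0 : v.valuation K x ≠ 0 := (map_ne_zero _).mpr hx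
  have hvx : v.valuation K x = WithZero.exp n := (WithZero.exp_log hx0).symm
  have hy : v.valuation K (x ^ e * ((q : ℕ) : K) ^ n) = 1 := by
    rw [map_mul, map_pow, map_zpow₀, hq, hvx, ← WithZero.exp_nsmul, ← WithZero.exp_zsmul,
      ← WithZero.exp_add, WithZero.exp_eq_one]
    simp only [smul_eq_mul, nsmul_eq_mul]
    ring
  have h1 := h84_norm_eq_one_of_valuation_eq_one j hy
  rw [map_mul, map_pow, map_zpow₀, map_natCast, norm_mul, norm_pow, norm_zpow,
    h84_norm_natCast_q, inv_zpow] at h1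
  have hq0 : (0 : ℝ) < (q : ℝ) := by exact_mod_cast (Fact.out : q.Prime).pos
  have h2 : ((q : ℝ) ^ n) ≠ 0 := (zpow_pos hq0 n).ne'
  field_simp at h1
  exact h1

/-- Two embeddings cutting out the same place induce the same absolute value. -/
theorem h84_norm_eq_of_placeOf_eq {j j' : K →+* PadicAlgCl q}
    (h : h84_placeOf q j = h84_placeOf q j') (x : K) : ‖j x‖ = ‖j' x‖ := by
  rcases eq_or_ne x 0 with rfl | hx
  · simp
  have h1 := h84_norm_pow_ramIdx j hx
  have h2 := h84_norm_pow_ramIdx j' hx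
  rw [← h] at h2
  have he : h84_ramIdx q (h84_placeOf q j) ≠ 0 :=
    (h84_valuation_q _ (h84_natCast_mem_placeOf q j)).2.ne'
  exact (pow_left_inj₀ (norm_nonneg _) (norm_nonneg _) he).mp (h1.trans h2.symm)


/-! ### Embeddings with the same place are conjugate under `Gal(ℚ̄_q/ℚ_q)` -/

open Polynomial IntermediateField in
/-- Two embeddings inducing the same absolute value on `K` send any `θ : K` to
`ℚ_q`-conjugate elements. -/
theorem h84_exists_algEquiv_apply_eq {j j' : K →+* PadicAlgCl q}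
    (hnorm : ∀ x : K, ‖j x‖ = ‖j' x‖) (θ : K) :
    ∃ τ : PadicAlgCl q ≃ₐ[ℚ_[q]] PadicAlgCl q, τ (j θ) = j' θ := by
  have : IsScalarTower ℚ ℚ_[q] (PadicAlgCl q) :=
    IsScalarTower.of_algebraMap_eq' (Subsingleton.elim _ _)
  set a := j θ with ha
  set a' := j' θ with ha'
  have hint : IsIntegral ℚ_[q] a := Algebra.IsIntegral.isIntegral a
  set g₁ := minpoly ℚ_[q] a with hg₁
  have hroot : aeval a' g₁ = 0 := by
    by_contra hne
    set c := ‖aeval a' g₁‖ with hc
    have hcpos : 0 < c := norm_pos_iff.mpr hne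
    set d := g₁.natDegree with hd
    set M := max ‖a‖ 1 with hM
    have hMpos : 0 < M := lt_of_lt_of_le one_pos (le_max_right _ _)
    have hM' : max ‖a'‖ 1 = M := by
      rw [hM, ha', ha, hnorm θ]
    set ε := c / (3 * ((d + 1) * M ^ d)) with hε
    have hεpos : 0 < ε := by positivity
    obtain ⟨h, hmon, hdeg, hcoeff⟩ :=
      exists_monic_and_natDegree_eq_and_norm_map_algebraMap_coeff_sub_lt (h6_denseRange_rat q)
        (minpoly.monic hint) hεpos
    set h' := h.map (algebraMap ℚ ℚ_[q]) with hh'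
    have hh'deg : h'.natDegree ≤ d := by
      rw [hh', Polynomial.natDegree_map, ← hdeg]
    have hcoeff' : ∀ n, ‖h'.coeff n - g₁.coeff n‖ ≤ ε := fun n => (hcoeff n).le
    have e1 := h6_norm_aeval_sub_le q (le_refl d) hh'deg hcoeff' a
    have e2 := h6_norm_aeval_sub_le q (le_refl d) hh'deg hcoeff' a'
    rw [hg₁, minpoly.aeval, sub_zero] at e1
    rw [hM'] at e2
    have e3 : ‖aeval a' h'‖ = ‖aeval a h'‖ := by
      rw [hh', Polynomial.aeval_map_algebraMap, Polynomial.aeval_map_algebraMap, ha', ha]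
      have h1 := Polynomial.aeval_algHom_apply j.toRatAlgHom θ h
      have h2 := Polynomial.aeval_algHom_apply j'.toRatAlgHom θ h
      rw [RingHom.toRatAlgHom_apply] at h1 h2
      rw [h1, h2, RingHom.toRatAlgHom_apply, RingHom.toRatAlgHom_apply, hnorm]
    have e4 : c ≤ ‖aeval a' h' - aeval a' g₁‖ + ‖aeval a' h'‖ := by
      rw [hc]
      have := norm_sub_le (aeval a' h') (aeval a' h' - aeval a' g₁)
      rw [sub_sub_cancel] at this
      linarith
    have e5 : (d + 1 : ℝ) * ε * M ^ d = c / 3 := by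
      rw [hε]
      field_simp
    rw [e3] at e4
    rw [e5] at e1 e2
    linarith
  have hmin : minpoly ℚ_[q] a' = g₁ :=
    (minpoly.eq_of_irreducible_of_monic (minpoly.irreducible hint) hroot
      (minpoly.monic hint)).symm
  have hconj : IsConjRoot ℚ_[q] a' a := hmin
  obtain ⟨τ, hτ⟩ := isConjRoot_iff_exists_algEquiv.mp hconj
  exact ⟨τ, hτ⟩

open IntermediateField in
/-- Two embeddings inducing the same absolute value on `K` are conjugate under
`Gal(ℚ̄_q/ℚ_q)`. -/
theorem h84_exists_algEquiv_of_norm_eq {j j' : K →+* PadicAlgCl q}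
    (hnorm : ∀ x : K, ‖j x‖ = ‖j' x‖) :
    ∃ τ : PadicAlgCl q ≃ₐ[ℚ_[q]] PadicAlgCl q,
      j' = (τ : PadicAlgCl q →+* PadicAlgCl q).comp j := by
  obtain ⟨θ, hθ⟩ := Field.exists_primitive_element ℚ K
  obtain ⟨τ, hτ⟩ := h84_exists_algEquiv_apply_eq hnorm θ
  refine ⟨τ, ?_⟩
  have hθint : IsIntegral ℚ θ := Algebra.IsIntegral.isIntegral θ
  have hadj : Algebra.adjoin ℚ {θ} = ⊤ := by
    rw [← IntermediateField.adjoin_simple_toSubalgebra_of_isAlgebraic hθint.isAlgebraic, hθ,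
      IntermediateField.top_toSubalgebra]
  have key : j'.toRatAlgHom = ((τ : PadicAlgCl q →+* PadicAlgCl q).comp j).toRatAlgHom := by
    apply AlgHom.ext_of_adjoin_eq_top hadj
    intro x hx
    rw [Set.mem_singleton_iff] at hx
    subst hx
    simp [hτ]
  ext x
  exact congrArg (fun f : K →ₐ[ℚ] PadicAlgCl q => f x) key

/-- **Dictionary, injectivity**: two embeddings cut out the same place iff they are conjugate under
`Gal(ℚ̄_q/ℚ_q)`. -/
theorem h84_placeOf_eq_iff (j j' : K →+* PadicAlgCl q) :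
    h84_placeOf q j = h84_placeOf q j' ↔
      ∃ τ : PadicAlgCl q ≃ₐ[ℚ_[q]] PadicAlgCl q,
        j' = (τ : PadicAlgCl q →+* PadicAlgCl q).comp j := by
  constructor
  · intro h
    exact h84_exists_algEquiv_of_norm_eq (h84_norm_eq_of_placeOf_eq h)
  · rintro ⟨τ, rfl⟩
    exact (h84_placeOf_comp q τ j).symm


/-! ### Every prime above `q` comes from an embedding -/

omit [Fact q.Prime] in
theorem h84_prime_dvd_norm (hq : q.Prime) {P : Ideal (𝓞 K)} [P.IsPrime]
    (hP : ((q : ℕ) : 𝓞 K) ∈ P) {x : 𝓞 K} (hx : x ∈ P) : (q : ℤ) ∣ Algebra.norm ℤ x := by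
  have h1 : ((Ideal.absNorm P : ℕ) : ℤ) ∣ Algebra.norm ℤ x := Ideal.absNorm_dvd_norm_of_mem hx
  have h2 : q ∣ Ideal.absNorm P := by
    by_contra hndvd
    have hcop : Nat.Coprime q (Ideal.absNorm P) := (Nat.Prime.coprime_iff_not_dvd hq).mpr hndvd
    have h3 : ((Ideal.absNorm P : ℕ) : 𝓞 K) ∈ P := Ideal.absNorm_mem P
    have h4 : ((Nat.gcd q (Ideal.absNorm P) : ℕ) : ℤ) =
        q * Nat.gcdA q (Ideal.absNorm P) + Ideal.absNorm P * Nat.gcdB q (Ideal.absNorm P) :=
      Nat.gcd_eq_gcd_ab q (Ideal.absNorm P)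
    rw [hcop] at h4
    have h5 : (1 : 𝓞 K) = ((q : ℕ) : 𝓞 K) * ((Nat.gcdA q (Ideal.absNorm P) : ℤ) : 𝓞 K) +
        ((Ideal.absNorm P : ℕ) : 𝓞 K) * ((Nat.gcdB q (Ideal.absNorm P) : ℤ) : 𝓞 K) := by
      have := congrArg (fun z : ℤ => (z : 𝓞 K)) h4
      simpa using this
    have h6 : (1 : 𝓞 K) ∈ P := by
      rw [h5]
      exact P.add_mem (P.mul_mem_right _ hP) (P.mul_mem_right _ h3)
    exact (Ideal.IsPrime.ne_top inferInstance) ((Ideal.eq_top_iff_one P).mpr h6)
  exact dvd_trans (Int.natCast_dvd_natCast.mpr h2) h1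

/-- **Dictionary, surjectivity**: every prime of `K` above `q` is cut out by an embedding
`K →+* PadicAlgCl q`. -/
theorem h84_exists_placeOf_eq (v : HeightOneSpectrum (𝓞 K))
    (hv : ((q : ℕ) : 𝓞 K) ∈ v.asIdeal) :
    ∃ j : K →+* PadicAlgCl q, h84_placeOf q j = v := by
  classical
  by_contra hcon
  push Not at hcon
  let σ₀ : K →ₐ[ℚ] PadicAlgCl q := IsAlgClosed.lift
  have h1 : ¬ ((v.asIdeal : Set (𝓞 K)) ⊆
      ⋃ σ ∈ ((Finset.univ : Finset (K →ₐ[ℚ] PadicAlgCl q)) : Set (K →ₐ[ℚ] PadicAlgCl q)),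
        ((h84_primeOf q (σ : K →+* PadicAlgCl q) : Ideal (𝓞 K)) : Set (𝓞 K))) := by
    rw [Ideal.subset_union_prime σ₀ σ₀ (fun σ _ _ _ => h84_primeOf_isPrime q _)]
    rintro ⟨σ, -, hσ⟩
    apply hcon (σ : K →+* PadicAlgCl q)
    have hmax : v.asIdeal.IsMaximal := v.isMaximal
    have := hmax.eq_of_le (Ideal.IsPrime.ne_top (h84_primeOf_isPrime q _)) hσ
    exact HeightOneSpectrum.ext this.symm
  rw [Set.not_subset] at h1
  obtain ⟨x, hxv, hx⟩ := h1
  simp only [Finset.coe_univ, Set.mem_univ, Set.iUnion_true, Set.mem_iUnion, SetLike.mem_coe,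
    not_exists] at hx
  have hnorm1 : ∀ σ : K →ₐ[ℚ] PadicAlgCl q, ‖σ (x : K)‖ = 1 := by
    intro σ
    have := hx σ
    rw [h84_mem_primeOf, not_lt] at this
    exact le_antisymm (h84_norm_le_one q (σ : K →+* PadicAlgCl q) x) this
  have hprod := Algebra.norm_eq_prod_embeddings ℚ (PadicAlgCl q) (x : K)
  have h2 : ‖algebraMap ℚ (PadicAlgCl q) (Algebra.norm ℚ (x : K))‖ = 1 := by
    rw [hprod, norm_prod]
    exact Finset.prod_eq_one (fun σ _ => hnorm1 σ)
  have h3 : (q : ℤ) ∣ Algebra.norm ℤ x := h84_prime_dvd_norm Fact.out hv hxv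
  have h4 : Algebra.norm ℚ (x : K) = ((Algebra.norm ℤ x : ℤ) : ℚ) := (Algebra.coe_norm_int x).symm
  have h5 : algebraMap ℚ (PadicAlgCl q) (Algebra.norm ℚ (x : K)) =
      algebraMap ℚ_[q] (PadicAlgCl q) ((Algebra.norm ℤ x : ℤ) : ℚ_[q]) := by
    rw [h4]
    simp
  rw [h5, PadicAlgCl.norm_extends] at h2
  have h6 := (Padic.norm_intCast_lt_one_iff (p := q) (k := Algebra.norm ℤ x)).mpr h3
  linarith


/-! ### The local field of an embedding, stabilizers -/

open IntermediateField in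
/-- The local field `ℚ_q · j(K)` of an embedding `j : K →+* PadicAlgCl q`. -/
noncomputable def h84_localField (j : K →+* PadicAlgCl q) :
    IntermediateField ℚ_[q] (PadicAlgCl q) :=
  IntermediateField.adjoin ℚ_[q] (Set.range j)

omit [NumberField K] in
theorem h84_mem_localField (j : K →+* PadicAlgCl q) (x : K) : j x ∈ h84_localField j :=
  IntermediateField.subset_adjoin _ _ ⟨x, rfl⟩

open IntermediateField Polynomial in
/-- If `θ` generates `K` over `ℚ`, then the local field is `ℚ_q(j θ)`. -/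
theorem h84_localField_eq_adjoin_gen (j : K →+* PadicAlgCl q) {θ : K} (hθ : ℚ⟮θ⟯ = ⊤) :
    h84_localField j = ℚ_[q]⟮j θ⟯ := by
  have : IsScalarTower ℚ ℚ_[q] (PadicAlgCl q) :=
    IsScalarTower.of_algebraMap_eq' (Subsingleton.elim _ _)
  apply le_antisymm
  · rw [h84_localField, IntermediateField.adjoin_le_iff]
    rintro _ ⟨x, rfl⟩
    have hθint : IsIntegral ℚ θ := Algebra.IsIntegral.isIntegral θ
    have hx : x ∈ Algebra.adjoin ℚ {θ} := by
      rw [← IntermediateField.adjoin_simple_toSubalgebra_of_isAlgebraic hθint.isAlgebraic, hθ]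
      trivial
    rw [Algebra.adjoin_singleton_eq_range_aeval] at hx
    obtain ⟨h, rfl⟩ := hx
    have h0 := Polynomial.aeval_algHom_apply j.toRatAlgHom θ h
    rw [RingHom.toRatAlgHom_apply, RingHom.toRatAlgHom_apply] at h0
    change j (aeval θ h) ∈ ℚ_[q]⟮j θ⟯
    rw [← h0, ← Polynomial.aeval_map_algebraMap ℚ_[q]]
    have hmem : j θ ∈ ℚ_[q]⟮j θ⟯ := mem_adjoin_simple_self _ _
    have h1 := Polynomial.aeval_algHom_apply (ℚ_[q]⟮j θ⟯).val
      (⟨j θ, hmem⟩ : ℚ_[q]⟮j θ⟯) (h.map (algebraMap ℚ ℚ_[q]))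
    change (aeval (j θ)) (h.map (algebraMap ℚ ℚ_[q])) = _ at h1
    rw [h1]
    exact Subtype.property _
  · rw [IntermediateField.adjoin_le_iff]
    rintro _ rfl
    exact h84_mem_localField j θ

instance h84_localField_finiteDimensional (j : K →+* PadicAlgCl q) :
    FiniteDimensional ℚ_[q] (h84_localField j) := by
  obtain ⟨θ, hθ⟩ := Field.exists_primitive_element ℚ K
  rw [h84_localField_eq_adjoin_gen j hθ]
  exact IntermediateField.adjoin.finiteDimensional (Algebra.IsIntegral.isIntegral _)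

omit [NumberField K] in
/-- The stabilizer of `j` in `Gal(ℚ̄_q/ℚ_q)` is `Gal(ℚ̄_q/ℚ_q·j(K))`. -/
theorem h84_comp_eq_iff (j : K →+* PadicAlgCl q) (τ : PadicAlgCl q ≃ₐ[ℚ_[q]] PadicAlgCl q) :
    (τ : PadicAlgCl q →+* PadicAlgCl q).comp j = j ↔ τ ∈ (h84_localField j).fixingSubgroup := by
  rw [IntermediateField.mem_fixingSubgroup_iff]
  constructor
  · intro h x hx
    induction hx using IntermediateField.adjoin_induction with
    | mem x hx =>
      obtain ⟨y, rfl⟩ := hx
      exact congrArg (fun f : K →+* PadicAlgCl q => f y) h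
    | algebraMap x => exact τ.commutes x
    | add x y _ _ hx hy => rw [map_add, hx, hy]
    | inv x _ hx => rw [map_inv₀, hx]
    | mul x y _ _ hx hy => rw [map_mul, hx, hy]
  · intro h
    ext x
    exact h _ (h84_mem_localField j x)

/-- The local field is the fixed field of the stabilizer of `j`. -/
theorem h84_mem_localField_iff (j : K →+* PadicAlgCl q) (a : PadicAlgCl q) :
    a ∈ h84_localField j ↔
      ∀ τ : PadicAlgCl q ≃ₐ[ℚ_[q]] PadicAlgCl q,
        (τ : PadicAlgCl q →+* PadicAlgCl q).comp j = j → τ a = a := by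
  have hgal : IsGalois ℚ_[q] (PadicAlgCl q) :=
    { to_isSeparable := inferInstance
      to_normal := IsAlgClosure.normal ℚ_[q] (PadicAlgCl q) }
  have h1 := InfiniteGalois.fixedField_fixingSubgroup (h84_localField j)
  constructor
  · intro ha τ hτ
    exact (IntermediateField.mem_fixingSubgroup_iff _ _).mp ((h84_comp_eq_iff j τ).mp hτ) a ha
  · intro h
    rw [← h1, IntermediateField.mem_fixedField_iff]
    intro τ hτ
    exact h τ ((h84_comp_eq_iff j τ).mpr hτ)

end Fermat.Agent.S55
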