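import Mathlib
import Fermat.Agent.S55.h25_GlobDefs
import Fermat.Agent.S55.h4_JqAct
import Fermat.Agent.S55.h84_EmbDict
import Fermat.Agent.S55.h10_DescEmb
import Fermat.Agent.S55.h2_AddUnits
import Fermat.Agent.S55.h2_GalTower
import Fermat.Agent.S55.h2_PLoc
import Fermat.Agent.S55.h12_CoindLoc
import Fermat.Agent.S55.h66_Transport

/-!
# S55, GLOB-BETA (i): the semi-local module `J_q(L)` is coinduced from a local field

`L` a number field (a type), Galois over `ℚ`; `q` a prime; `Ω = PadicAlgCl q`;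
`j₀ : L →+* Ω` an embedding.

* (`h4_JqAct`, in `h4_JqAct.lean`: the action of `Gal(L/K)` on `h25_Jq L q`,
  `(σ • φ) j = φ (j ∘ σ)`.)
* `K₀ = h84_localField j₀ = ℚ_q · j₀(L)` is Galois over `ℚ_q` (`h4_locField_isGalois`).
* `h4_decHom q j₀ : Gal(K₀/ℚ_q) →* Gal(L/ℚ)`, injective, `j₀ (h4_decHom q j₀ s x) = s (j₀ x)`;
  `h4_dec q j₀` its range (the decomposition group of `j₀`), `h4_decEquiv`.
* `h4_LocX q j₀ = Additive K₀ˣ` as a module over `h4_dec q j₀`.
* `h4_JqEv q j₀ : Additive (h25_Jq L q) →+ h4_LocX q j₀`, `φ ↦ φ j₀`, with the two properties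
  `h4_JqEv_smul`, `h4_Jq_bij` of the interface of `h85_Shapiro` (row H-SHAP): `J_q(L)` is the
  module coinduced from the `h4_dec q j₀`-module `K₀ˣ`.
* `h4_locX_class` : the local class module, transported to `h4_dec q j₀`.
-/

set_option autoImplicit false
set_option linter.unusedSectionVars false

open groupCohomology

namespace Fermat.Agent.S55

noncomputable section

/-! ### The local field of an embedding of a Galois number field -/

section Loc

variable (q : ℕ) [Fact q.Prime] {L : Type*} [Field L] [NumberField L] [IsGalois ℚ L]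
  (j₀ : L →+* PadicAlgCl q)

/-- Two embeddings of a Galois number field differ by a unique automorphism. -/
theorem h4_exists_aut {Ω : Type*} [Field Ω] (j j' : L →+* Ω) :
    ∃ g : L ≃ₐ[ℚ] L, j' = j.comp (g : L →+* L) :=
  (h10_embRes_eq_iff (K := ℚ) j j').mp (Subsingleton.elim _ _)

theorem h4_aut_unique {Ω : Type*} [Field Ω] (j : L →+* Ω) {g g' : L ≃ₐ[ℚ] L}
    (h : ∀ x, j (g x) = j (g' x)) : g = g' :=
  AlgEquiv.ext fun x => j.injective (h x)

/-- `K₀ = ℚ_q · j₀(L)` is normal over `ℚ_q`. -/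
instance h4_locField_normal : Normal ℚ_[q] (h84_localField j₀) := by
  rw [IntermediateField.normal_iff_forall_map_le']
  intro τ
  rw [h84_localField, IntermediateField.adjoin_map, IntermediateField.adjoin_le_iff]
  rintro _ ⟨_, ⟨x, rfl⟩, rfl⟩
  obtain ⟨g, hg⟩ := h4_exists_aut j₀ ((τ : PadicAlgCl q →+* PadicAlgCl q).comp j₀)
  have h1 : τ (j₀ x) = j₀ (g x) := congrArg (fun f : L →+* PadicAlgCl q => f x) hg
  show (τ : PadicAlgCl q →ₐ[ℚ_[q]] PadicAlgCl q) (j₀ x) ∈ IntermediateField.adjoin ℚ_[q] (Set.range j₀)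
  exact IntermediateField.subset_adjoin _ _ ⟨g x, h1.symm⟩

instance h4_locField_isGalois : IsGalois ℚ_[q] (h84_localField j₀) := ⟨⟩

/-- `j₀` with values in the local field. -/
def h4_emb₀ : L →+* h84_localField j₀ :=
  j₀.codRestrict (h84_localField j₀) (h84_mem_localField j₀)

theorem h4_emb₀_coe (x : L) : ((h4_emb₀ q j₀ x : h84_localField j₀) : PadicAlgCl q) = j₀ x := rfl

/-- The embedding `x ↦ s (j₀ x)` attached to an automorphism `s` of the local field. -/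
def h4_twEmb (s : h84_localField j₀ ≃ₐ[ℚ_[q]] h84_localField j₀) : L →+* PadicAlgCl q :=
  ((h84_localField j₀).val : h84_localField j₀ →+* PadicAlgCl q).comp
    ((s : h84_localField j₀ →+* h84_localField j₀).comp (h4_emb₀ q j₀))

theorem h4_twEmb_apply (s : h84_localField j₀ ≃ₐ[ℚ_[q]] h84_localField j₀) (x : L) :
    h4_twEmb q j₀ s x = ((s (h4_emb₀ q j₀ x) : h84_localField j₀) : PadicAlgCl q) := rfl

/-- The automorphism of `L` induced by an automorphism of the local field. -/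
def h4_decFun (s : h84_localField j₀ ≃ₐ[ℚ_[q]] h84_localField j₀) : L ≃ₐ[ℚ] L :=
  Classical.choose (h4_exists_aut j₀ (h4_twEmb q j₀ s))

theorem h4_decFun_spec (s : h84_localField j₀ ≃ₐ[ℚ_[q]] h84_localField j₀) (x : L) :
    j₀ (h4_decFun q j₀ s x) = ((s (h4_emb₀ q j₀ x) : h84_localField j₀) : PadicAlgCl q) := by
  have h := Classical.choose_spec (h4_exists_aut j₀ (h4_twEmb q j₀ s))
  exact (congrArg (fun f : L →+* PadicAlgCl q => f x) h).symm

theorem h4_emb₀_decFun (s : h84_localField j₀ ≃ₐ[ℚ_[q]] h84_localField j₀) (x : L) :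
    h4_emb₀ q j₀ (h4_decFun q j₀ s x) = s (h4_emb₀ q j₀ x) :=
  Subtype.ext (h4_decFun_spec q j₀ s x)

/-- `Gal(K₀/ℚ_q) → Gal(L/ℚ)`: the decomposition map of the embedding `j₀`. -/
def h4_decHom : (h84_localField j₀ ≃ₐ[ℚ_[q]] h84_localField j₀) →* (L ≃ₐ[ℚ] L) :=
  MonoidHom.mk' (h4_decFun q j₀) (fun s t => by
    apply h4_aut_unique j₀
    intro x
    rw [h4_decFun_spec, AlgEquiv.mul_apply, AlgEquiv.mul_apply, h4_decFun_spec,
      h4_emb₀_decFun])

theorem h4_decHom_spec (s : h84_localField j₀ ≃ₐ[ℚ_[q]] h84_localField j₀) (x : L) :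
    j₀ (h4_decHom q j₀ s x) = ((s (h4_emb₀ q j₀ x) : h84_localField j₀) : PadicAlgCl q) :=
  h4_decFun_spec q j₀ s x

theorem h4_emb₀_decHom (s : h84_localField j₀ ≃ₐ[ℚ_[q]] h84_localField j₀) (x : L) :
    h4_emb₀ q j₀ (h4_decHom q j₀ s x) = s (h4_emb₀ q j₀ x) :=
  h4_emb₀_decFun q j₀ s x

/-- A lift `τ` of `s` to `Ω` satisfies `τ ∘ j₀ = j₀ ∘ (h4_decHom s)`. -/
theorem h4_lift_comp (τ : PadicAlgCl q ≃ₐ[ℚ_[q]] PadicAlgCl q) (x : L) :
    τ (j₀ x) = j₀ (h4_decHom q j₀ (h2_galπ (h84_localField j₀) τ) x) := by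
  rw [h4_decHom_spec, h2_galπ_apply]
  rfl

theorem h4_decHom_injective : Function.Injective (h4_decHom q j₀) := by
  rw [injective_iff_map_eq_one]
  intro s hs
  obtain ⟨τ, rfl⟩ := h2_galπ_surjective (h84_localField j₀) s
  rw [h2_galπ_eq_one_iff, ← h84_comp_eq_iff]
  ext x
  show τ (j₀ x) = j₀ x
  rw [h4_lift_comp, hs]
  rfl

/-- The decomposition group of the embedding `j₀`. -/
def h4_dec : Subgroup (L ≃ₐ[ℚ] L) := (h4_decHom q j₀).range

/-- `Gal(K₀/ℚ_q) ≃ D`. -/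
def h4_decEquiv : (h84_localField j₀ ≃ₐ[ℚ_[q]] h84_localField j₀) ≃* h4_dec q j₀ :=
  MonoidHom.ofInjective (h4_decHom_injective q j₀)

theorem h4_decEquiv_coe (s : h84_localField j₀ ≃ₐ[ℚ_[q]] h84_localField j₀) :
    ((h4_decEquiv q j₀ s : h4_dec q j₀) : L ≃ₐ[ℚ] L) = h4_decHom q j₀ s := rfl

theorem h4_decHom_symm (d : h4_dec q j₀) :
    h4_decHom q j₀ ((h4_decEquiv q j₀).symm d) = (d : L ≃ₐ[ℚ] L) := by
  rw [← h4_decEquiv_coe, MulEquiv.apply_symm_apply]

theorem h4_card_dec :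
    Nat.card (h4_dec q j₀) = Module.finrank ℚ_[q] (h84_localField j₀) := by
  rw [← Nat.card_congr (h4_decEquiv q j₀).toEquiv]
  exact IsGalois.card_aut_eq_finrank ℚ_[q] (h84_localField j₀)

/-- a `τ` inducing a given element of the decomposition group. -/
theorem h4_dec_exists_lift (d : h4_dec q j₀) :
    ∃ τ : PadicAlgCl q ≃ₐ[ℚ_[q]] PadicAlgCl q,
      h2_galπ (h84_localField j₀) τ = (h4_decEquiv q j₀).symm d ∧
      ∀ x : L, τ (j₀ x) = j₀ ((d : L ≃ₐ[ℚ] L) x) := by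
  obtain ⟨τ, hτ⟩ := h2_galπ_surjective (h84_localField j₀) ((h4_decEquiv q j₀).symm d)
  refine ⟨τ, hτ, fun x => ?_⟩
  rw [h4_lift_comp, hτ, h4_decHom_symm]

/-- Every element of `Gal(Ω/ℚ_q)` induces an element of the decomposition group. -/
theorem h4_exists_dec (τ : PadicAlgCl q ≃ₐ[ℚ_[q]] PadicAlgCl q) :
    ∃ d : h4_dec q j₀, (h4_decEquiv q j₀).symm d = h2_galπ (h84_localField j₀) τ ∧
      ∀ x : L, τ (j₀ x) = j₀ ((d : L ≃ₐ[ℚ] L) x) := by
  refine ⟨h4_decEquiv q j₀ (h2_galπ (h84_localField j₀) τ), ?_, fun x => ?_⟩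
  · rw [MulEquiv.symm_apply_apply]
  · rw [h4_lift_comp, h4_decEquiv_coe]

/-! ### The local module `X = K₀ˣ` over the decomposition group -/

/-- `Additive K₀ˣ`, as a module over the decomposition group `h4_dec q j₀`. -/
def h4_LocX : Type := Additive (h84_localField j₀)ˣ

instance h4_LocX_addCommGroup : AddCommGroup (h4_LocX q j₀) :=
  inferInstanceAs (AddCommGroup (Additive (h84_localField j₀)ˣ))

/-- the identification `Additive K₀ˣ ≃+ h4_LocX`. -/
def h4_locXEquiv : Additive (h84_localField j₀)ˣ ≃+ h4_LocX q j₀ := AddEquiv.refl _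

instance h4_LocX_action : DistribMulAction (h4_dec q j₀) (h4_LocX q j₀) :=
  DistribMulAction.compHom (Additive (h84_localField j₀)ˣ)
    ((h4_decEquiv q j₀).symm : h4_dec q j₀ →* (h84_localField j₀ ≃ₐ[ℚ_[q]] h84_localField j₀))

theorem h4_LocX_smul_def (d : h4_dec q j₀) (x : Additive (h84_localField j₀)ˣ) :
    d • h4_locXEquiv q j₀ x = h4_locXEquiv q j₀ (((h4_decEquiv q j₀).symm d) • x) := rfl

/-- The value in `Ω` of an element of `h4_LocX`. -/
def h4_locXVal (x : h4_LocX q j₀) : PadicAlgCl q :=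
  ((((h4_locXEquiv q j₀).symm x).toMul : (h84_localField j₀)ˣ) : h84_localField j₀)

theorem h4_locXVal_injective : Function.Injective (h4_locXVal q j₀) := by
  intro x y h
  apply (h4_locXEquiv q j₀).symm.injective
  apply Additive.toMul.injective
  apply Units.ext
  exact Subtype.ext h

theorem h4_locXVal_smul (d : h4_dec q j₀) (x : h4_LocX q j₀)
    (τ : PadicAlgCl q ≃ₐ[ℚ_[q]] PadicAlgCl q)
    (hτ : h2_galπ (h84_localField j₀) τ = (h4_decEquiv q j₀).symm d) :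
    h4_locXVal q j₀ (d • x) = τ (h4_locXVal q j₀ x) := by
  have h1 : h4_locXVal q j₀ (d • x) =
      (((h4_decEquiv q j₀).symm d
        ((((h4_locXEquiv q j₀).symm x).toMul : (h84_localField j₀)ˣ) : h84_localField j₀) :
          h84_localField j₀) : PadicAlgCl q) := rfl
  rw [h1, ← hτ, h2_galπ_apply]
  rfl

/-- A unit of `Ω` lying in an intermediate field, as a unit of that field. -/
def h4_unitOfMem {F E : Type*} [Field F] [Field E] [Algebra F E] (M : IntermediateField F E)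
    (u : Eˣ) (hu : (u : E) ∈ M) : Mˣ where
  val := ⟨u, hu⟩
  inv := ⟨((u⁻¹ : Eˣ) : E), by rw [Units.val_inv_eq_inv_val]; exact M.inv_mem hu⟩
  val_inv := Subtype.ext (by simp)
  inv_val := Subtype.ext (by simp)

theorem h4_unitOfMem_coe {F E : Type*} [Field F] [Field E] [Algebra F E]
    (M : IntermediateField F E) (u : Eˣ) (hu : (u : E) ∈ M) :
    (((h4_unitOfMem M u hu : Mˣ) : M) : E) = u := rfl

/-- The values of an element of `J_q(L)` at `j₀` lie in the local field. -/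
theorem h4_Jq_apply_mem (φ : h25_Jq L q) : ((φ.1 j₀ : (PadicAlgCl q)ˣ) : PadicAlgCl q) ∈
    h84_localField j₀ := by
  rw [h84_mem_localField_iff]
  intro τ hτ
  have h := φ.2 τ j₀
  rw [hτ] at h
  exact h.symm

/-- Evaluation at `j₀`: `J_q(L) → K₀ˣ`. -/
def h4_JqEvMul : h25_Jq L q →* (h84_localField j₀)ˣ where
  toFun φ := h4_unitOfMem (h84_localField j₀) (φ.1 j₀) (h4_Jq_apply_mem q j₀ φ)
  map_one' := Units.ext (Subtype.ext rfl)
  map_mul' _ _ := Units.ext (Subtype.ext rfl)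

/-- Evaluation at `j₀`, additive form: the `ev` of the coinduction interface. -/
def h4_JqEv : Additive (h25_Jq L q) →+ h4_LocX q j₀ :=
  (h4_locXEquiv q j₀ : Additive (h84_localField j₀)ˣ →+ h4_LocX q j₀).comp
    (MonoidHom.toAdditive (h4_JqEvMul q j₀))

theorem h4_locXVal_JqEv (y : Additive (h25_Jq L q)) :
    h4_locXVal q j₀ (h4_JqEv q j₀ y) = ((y.toMul.1 j₀ : (PadicAlgCl q)ˣ) : PadicAlgCl q) := rfl

theorem h4_smul_toMul (g : L ≃ₐ[ℚ] L) (y : Additive (h25_Jq L q)) :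
    (g • y).toMul = g • y.toMul := rfl

/-- `hev` of the interface of `h85_Shapiro`. -/
theorem h4_JqEv_smul (d : h4_dec q j₀) (y : Additive (h25_Jq L q)) :
    h4_JqEv q j₀ ((d : L ≃ₐ[ℚ] L) • y) = d • h4_JqEv q j₀ y := by
  obtain ⟨τ, hτ, hτj⟩ := h4_dec_exists_lift q j₀ d
  apply h4_locXVal_injective
  rw [h4_locXVal_smul q j₀ d _ τ hτ, h4_locXVal_JqEv, h4_locXVal_JqEv, h4_smul_toMul,
    h4_JqAct_apply]
  have e : j₀.comp ((d : L ≃ₐ[ℚ] L) : L →+* L) = (τ : PadicAlgCl q →+* PadicAlgCl q).comp j₀ :=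
    RingHom.ext fun x => (hτj x).symm
  rw [e]
  exact y.toMul.2 τ j₀

/-- `hbij` of the interface of `h85_Shapiro`: `J_q(L)` is coinduced from `K₀ˣ`. -/
theorem h4_Jq_bij (φ : (L ≃ₐ[ℚ] L) → h4_LocX q j₀)
    (hφ : ∀ (d : h4_dec q j₀) (g : L ≃ₐ[ℚ] L), φ ((d : L ≃ₐ[ℚ] L) * g) = d • φ g) :
    ∃! y : Additive (h25_Jq L q), ∀ g : L ≃ₐ[ℚ] L, h4_JqEv q j₀ (g • y) = φ g := by
  -- every embedding is `j₀ ∘ g`
  choose gOf hgOf using fun j : L →+* PadicAlgCl q => h4_exists_aut j₀ j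
  have hgOf' : ∀ (j : L →+* PadicAlgCl q) (x : L), j x = j₀ (gOf j x) := fun j x =>
    congrArg (fun f : L →+* PadicAlgCl q => f x) (hgOf j)
  have hgOf_comp : ∀ g : L ≃ₐ[ℚ] L, gOf (j₀.comp (g : L →+* L)) = g := by
    intro g
    apply h4_aut_unique j₀
    intro x
    rw [← hgOf']
    rfl
  -- the candidate
  have hval_ne : ∀ x : h4_LocX q j₀, h4_locXVal q j₀ x ≠ 0 := by
    intro x
    exact fun h => Units.ne_zero (((h4_locXEquiv q j₀).symm x).toMul : (h84_localField j₀)ˣ)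
      (Subtype.ext h)
  let Φ : (L →+* PadicAlgCl q) → (PadicAlgCl q)ˣ := fun j =>
    Units.mk0 (h4_locXVal q j₀ (φ (gOf j))) (hval_ne _)
  have hΦ : Φ ∈ h25_Jq L q := by
    intro τ j
    obtain ⟨d, hd, hdj⟩ := h4_exists_dec q j₀ τ
    have h1 : gOf ((τ : PadicAlgCl q →+* PadicAlgCl q).comp j) = (d : L ≃ₐ[ℚ] L) * gOf j := by
      apply h4_aut_unique j₀
      intro x
      rw [← hgOf']
      show τ (j x) = j₀ ((d : L ≃ₐ[ℚ] L) (gOf j x))
      rw [hgOf' j x, hdj]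
    show h4_locXVal q j₀ (φ (gOf ((τ : PadicAlgCl q →+* PadicAlgCl q).comp j))) =
      τ (h4_locXVal q j₀ (φ (gOf j)))
    rw [h1, hφ, h4_locXVal_smul q j₀ d _ τ hd.symm]
  have key : ∀ (y : Additive (h25_Jq L q)) (g : L ≃ₐ[ℚ] L),
      h4_locXVal q j₀ (h4_JqEv q j₀ (g • y)) =
        ((y.toMul.1 (j₀.comp (g : L →+* L)) : (PadicAlgCl q)ˣ) : PadicAlgCl q) := fun y g => rfl
  refine ⟨Additive.ofMul ⟨Φ, hΦ⟩, fun g => ?_, fun y hy => ?_⟩
  · apply h4_locXVal_injective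
    rw [key]
    show h4_locXVal q j₀ (φ (gOf (j₀.comp (g : L →+* L)))) = _
    rw [hgOf_comp]
  · apply Additive.toMul.injective
    apply Subtype.ext
    funext j
    apply Units.ext
    show ((y.toMul.1 j : (PadicAlgCl q)ˣ) : PadicAlgCl q) = h4_locXVal q j₀ (φ (gOf j))
    rw [← hy, key]
    exact congrArg (fun i => ((y.toMul.1 i : (PadicAlgCl q)ˣ) : PadicAlgCl q)) (hgOf j)

/-! ### The local class module on the decomposition group -/

/-- `h2_PL p (h4_LocX q j₀)` is a `p`-class module for the decomposition group, given the local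
class module `IsPClassModule p Gal(K₀/ℚ_q) (K₀ˣ ⊗ ℤ_(p))` (LOC-7). -/
theorem h4_locX_class {p : ℕ} [Fact p.Prime]
    (h : IsPClassModule p (h84_localField j₀ ≃ₐ[ℚ_[q]] h84_localField j₀)
      (h2_PL p (Additive (h84_localField j₀)ˣ))) :
    IsPClassModule p (h4_dec q j₀) (h2_PL p (h4_LocX q j₀)) := by
  refine h66_isPClassModule_transport (h4_decEquiv q j₀).symm
    (AddEquiv.refl (h2_PL p (Additive (h84_localField j₀)ˣ))) (fun g c => ?_) h
  rfl

/-! ### The `p`-localised interface -/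

/-- The coinduction interface (`hev`, `hbij` of `h85_Shapiro`) for the `p`-localisations
`Y = J_q(L) ⊗ ℤ_(p)`, `X = K₀ˣ ⊗ ℤ_(p)`, `ev = h2_PL.map (h4_JqEv q j₀)`. -/
theorem h4_JqEv_PL {p : ℕ} [Fact p.Prime] :
    (∀ (d : h4_dec q j₀) (y : h2_PL p (Additive (h25_Jq L q))),
      h2_PL.map (h4_JqEv q j₀) ((d : L ≃ₐ[ℚ] L) • y) = d • h2_PL.map (h4_JqEv q j₀) y) ∧
    (∀ φ : (L ≃ₐ[ℚ] L) → h2_PL p (h4_LocX q j₀),
      (∀ (d : h4_dec q j₀) (g : L ≃ₐ[ℚ] L), φ ((d : L ≃ₐ[ℚ] L) * g) = d • φ g) →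
      ∃! y : h2_PL p (Additive (h25_Jq L q)),
        ∀ g : L ≃ₐ[ℚ] L, h2_PL.map (h4_JqEv q j₀) (g • y) = φ g) :=
  h12_coind_PL (h4_dec q j₀) (h4_JqEv q j₀) (h4_JqEv_smul q j₀) (h4_Jq_bij q j₀)

end Loc

end

end Fermat.Agent.S55
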