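import Fermat.Agent.S55.h63_LocCFData
import Fermat.Agent.S55.h96_GalQuot
import Fermat.Agent.S55.h84_CycGal
import Fermat.Agent.S55.h30_CFBuild

/-!
# S55 / LOC-7 (helper63): the local class formation

For every finite Galois extension `L/ℚ_q` and every prime `p`, the `p`-localisation of `Lˣ` is
a `p`-class module for `Gal(L/ℚ_q)`: `H¹` of every subgroup vanishes and `H²` of every subgroup
is cyclic of order the `p`-part of the subgroup, generated by the restriction of a fundamental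
class (`h63_local_classModule`).

Proof: H-CFBUILD (`h30_cfbuild`) applied to `E = L(μ_{q^(p^n) - 1})`, `G = Gal(E/ℚ_q)`,
`deg` = Frobenius degree, `w = v_q ∘ N_{E/ℚ_q}` (`h63_local_cfdata`), `π` = restriction to `L`,
`ι` = the inclusion `Lˣ ⊗ ℤ_(p) → Eˣ ⊗ ℤ_(p)` (`h96_gal_quot`).
-/

namespace Fermat.Agent.S55

open groupCohomology

universe u

/-- LOC-7: the local class formation (absolute form). -/
theorem h63_local_classModule (q p : ℕ) [Fact q.Prime] [Fact p.Prime]
    (L : Type u) [Field L] [Algebra ℚ_[q] L] [FiniteDimensional ℚ_[q] L] [IsGalois ℚ_[q] L] :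
    IsPClassModule p (L ≃ₐ[ℚ_[q]] L) (h2_PL p (Additive Lˣ)) := by
  classical
  obtain ⟨n, hn⟩ : ∃ n : ℕ, n = (Nat.card (L ≃ₐ[ℚ_[q]] L)).factorization p := ⟨_, rfl⟩
  have hq1 : 1 < q := (Fact.out : q.Prime).one_lt
  have hm : NeZero (q ^ (p ^ n) - 1) := by
    refine ⟨?_⟩
    have : 1 < q ^ (p ^ n) := Nat.one_lt_pow (pow_ne_zero _ (Fact.out : p.Prime).ne_zero) hq1
    omega
  have hL0 : CharZero L := charZero_of_injective_algebraMap (algebraMap ℚ_[q] L).injective
  have hmL : NeZero ((q ^ (p ^ n) - 1 : ℕ) : L) := NeZero.charZero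
  obtain ⟨hfin, hgal⟩ := h84_cyclotomic_isGalois ℚ_[q] L (q ^ (p ^ n) - 1)
  have hζ := IsCyclotomicExtension.zeta_spec (q ^ (p ^ n) - 1) L
    (CyclotomicField (q ^ (p ^ n) - 1) L)
  obtain ⟨deg, w, D, -, -, -⟩ := h63_local_cfdata q p
    (CyclotomicField (q ^ (p ^ n) - 1) L) n _ hζ
  obtain ⟨hπ, hι, hιeq, hιfix⟩ := h96_gal_quot ℚ_[q] L (CyclotomicField (q ^ (p ^ n) - 1) L)
  exact h30_cfbuild deg w D (AlgEquiv.restrictNormalHom L) hπ hn.ge
    (h2_PL.map (Units.map (algebraMap L (CyclotomicField (q ^ (p ^ n) - 1) L) :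
      L →* CyclotomicField (q ^ (p ^ n) - 1) L)).toAdditive)
    (h2_PL.map_injective _ hι) (h2_PL.map_smul_of _ _ hιeq)
    (h2_PL.mem_range_map_of_fixed _ _ hιfix)

end Fermat.Agent.S55
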