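import Mathlib
import Fermat.Prelude.Def_GroupCohomology_ContinuousH2
import Fermat.Prelude.Def_ExtEndgame_ProductionDatum
import Fermat.Agent.S55.h6_LocalBridge

/-!
# S55 bridge (local side), part 2: local levels

* `h6_mem_range_padicEmbedding_iff` : the image of `ℚ̄` in `ℚ̄_q` is the set of algebraic numbers.
* `h6_localField q F = ℚ_q · ι(F)`; finite over `ℚ_q` for finite `F`; the preimage of
  `Gal(ℚ̄/F)` in `Gal(ℚ̄_q/ℚ_q)` is `Gal(ℚ̄_q/F_q)`; every finite `L/ℚ_q` lies in some `F_q`.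
* `h6_isLevelConstant₁_iff`, `h6_isLevelConstant₂_iff` : the prelude's level-constant cochains on
  the local Galois group are exactly the cochains that are constant modulo `Gal(ℚ̄_q/L)` for a
  finite `L/ℚ_q`.
* wrappers for `ExtCitation.primeLocalToGlobal`.
-/

set_option autoImplicit false

namespace Fermat.Agent.S55

open scoped NNReal Pointwise
open IntermediateField Polynomial groupCohomology

variable (q : ℕ) [Fact q.Prime]

attribute [local instance] h6_isAlgebraicQbar h6_towerQqPadic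

/-- The image of `ℚ̄` in `ℚ̄_q` consists exactly of the elements algebraic over `ℚ`. -/
theorem h6_mem_range_padicEmbedding_iff (y : PadicAlgCl q) :
    y ∈ Set.range (padicEmbedding q) ↔ IsAlgebraic ℚ y := by
  constructor
  · rintro ⟨β, rfl⟩
    obtain ⟨g, hg, hβ⟩ := Algebra.IsAlgebraic.isAlgebraic (R := ℚ) β
    exact ⟨g, hg, by rw [Polynomial.aeval_algHom_apply, hβ, map_zero]⟩
  · rintro ⟨g, hg, hy⟩
    exact h6_mem_range_of_root q g hg y hy

/-- A `K`-automorphism fixing `S` pointwise fixes `K(S)` pointwise. -/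
theorem h6_fix_adjoin {K Ω : Type*} [Field K] [Field Ω] [Algebra K Ω] (τ : Ω ≃ₐ[K] Ω)
    (S : Set Ω) (h : ∀ x ∈ S, τ x = x) : ∀ x ∈ IntermediateField.adjoin K S, τ x = x := by
  intro x hx
  induction hx using IntermediateField.adjoin_induction with
  | mem x hx => exact h x hx
  | algebraMap x => exact τ.commutes x
  | add x y _ _ hx hy => rw [map_add, hx, hy]
  | inv x _ hx => rw [map_inv₀, hx]
  | mul x y _ _ hx hy => rw [map_mul, hx, hy]

/-- The local field `F_q = ℚ_q · ι(F)` attached to a subfield `F ⊆ ℚ̄`. -/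
noncomputable def h6_localField (F : IntermediateField ℚ (AlgebraicClosure ℚ)) :
    IntermediateField ℚ_[q] (PadicAlgCl q) :=
  IntermediateField.adjoin ℚ_[q] (padicEmbedding q '' (F : Set (AlgebraicClosure ℚ)))

theorem h6_mem_localField (F : IntermediateField ℚ (AlgebraicClosure ℚ)) {x : AlgebraicClosure ℚ}
    (hx : x ∈ F) : padicEmbedding q x ∈ h6_localField q F :=
  IntermediateField.subset_adjoin _ _ ⟨x, hx, rfl⟩

theorem h6_localField_mono {F F' : IntermediateField ℚ (AlgebraicClosure ℚ)} (h : F ≤ F') :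
    h6_localField q F ≤ h6_localField q F' :=
  IntermediateField.adjoin.mono _ _ _ (Set.image_mono h)

/-- If `F` consists of polynomial expressions in `θ ∈ F`, then `F_q = ℚ_q(ι θ)`. -/
theorem h6_localField_eq_adjoin_gen (F : IntermediateField ℚ (AlgebraicClosure ℚ))
    {θ : AlgebraicClosure ℚ} (hθF : θ ∈ F) (hθ : ∀ x ∈ F, ∃ h : ℚ[X], x = aeval θ h) :
    h6_localField q F = ℚ_[q]⟮padicEmbedding q θ⟯ := by
  apply le_antisymm
  · rw [h6_localField, IntermediateField.adjoin_le_iff]
    rintro _ ⟨x, hx, rfl⟩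
    obtain ⟨h, rfl⟩ := hθ x hx
    rw [← Polynomial.aeval_algHom_apply, ← Polynomial.aeval_map_algebraMap ℚ_[q]]
    have hmem : padicEmbedding q θ ∈ ℚ_[q]⟮padicEmbedding q θ⟯ := mem_adjoin_simple_self _ _
    have h1 := Polynomial.aeval_algHom_apply (ℚ_[q]⟮padicEmbedding q θ⟯).val
      (⟨padicEmbedding q θ, hmem⟩ : ℚ_[q]⟮padicEmbedding q θ⟯) (h.map (algebraMap ℚ ℚ_[q]))
    change (aeval (padicEmbedding q θ)) (h.map (algebraMap ℚ ℚ_[q])) = _ at h1
    rw [h1]
    exact Subtype.property _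
  · rw [IntermediateField.adjoin_le_iff]
    rintro _ rfl
    exact h6_mem_localField q F hθF

instance h6_localField_finiteDimensional (F : IntermediateField ℚ (AlgebraicClosure ℚ))
    [FiniteDimensional ℚ F] : FiniteDimensional ℚ_[q] (h6_localField q F) := by
  obtain ⟨θ, hθF, hθ⟩ := h6_exists_poly_gen F
  rw [h6_localField_eq_adjoin_gen q F hθF hθ]
  exact IntermediateField.adjoin.finiteDimensional (Algebra.IsIntegral.isIntegral _)

theorem h6_mem_fixingSubgroup_localField_iff (F : IntermediateField ℚ (AlgebraicClosure ℚ))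
    (τ : PadicAlgCl q ≃ₐ[ℚ_[q]] PadicAlgCl q) :
    τ ∈ (h6_localField q F).fixingSubgroup ↔ localGaloisToGlobal q τ ∈ F.fixingSubgroup := by
  rw [IntermediateField.mem_fixingSubgroup_iff, IntermediateField.mem_fixingSubgroup_iff]
  constructor
  · intro h x hx
    apply h6_padicEmbedding_injective q
    rw [padicEmbedding_localGaloisToGlobal]
    exact h _ (h6_mem_localField q F hx)
  · intro h
    apply h6_fix_adjoin τ
    rintro _ ⟨x, hx, rfl⟩
    rw [← padicEmbedding_localGaloisToGlobal, h x hx]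

/-- The preimage of `Gal(ℚ̄/F)` in `Gal(ℚ̄_q/ℚ_q)` is `Gal(ℚ̄_q/F_q)`. -/
theorem h6_comap_fixingSubgroup (F : IntermediateField ℚ (AlgebraicClosure ℚ)) :
    (F.fixingSubgroup).comap (localGaloisToGlobal q) = (h6_localField q F).fixingSubgroup := by
  ext τ
  rw [Subgroup.mem_comap, h6_mem_fixingSubgroup_localField_iff]

/-- Every finite extension of `ℚ_q` inside `ℚ̄_q` is contained in `F_q` for a number field `F`. -/
theorem h6_exists_le_localField (L : IntermediateField ℚ_[q] (PadicAlgCl q))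
    [FiniteDimensional ℚ_[q] L] :
    ∃ F : IntermediateField ℚ (AlgebraicClosure ℚ), FiniteDimensional ℚ F ∧
      L ≤ h6_localField q F := by
  obtain ⟨α, -, hα⟩ := h6_exists_poly_gen L
  obtain ⟨β, hβ⟩ := h6_exists_global_gen q α
  refine ⟨ℚ⟮β⟯, IntermediateField.adjoin.finiteDimensional (Algebra.IsIntegral.isIntegral β), ?_⟩
  have hβmem : padicEmbedding q β ∈ h6_localField q ℚ⟮β⟯ :=
    h6_mem_localField q _ (mem_adjoin_simple_self ℚ β)
  have hle : ℚ_[q]⟮padicEmbedding q β⟯ ≤ h6_localField q ℚ⟮β⟯ := by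
    rw [IntermediateField.adjoin_le_iff]
    rintro _ rfl
    exact hβmem
  have hαmem : α ∈ h6_localField q ℚ⟮β⟯ := hle hβ
  intro x hx
  obtain ⟨h, rfl⟩ := hα x hx
  have h1 := Polynomial.aeval_algHom_apply (h6_localField q ℚ⟮β⟯).val
    (⟨α, hαmem⟩ : h6_localField q ℚ⟮β⟯) h
  change (aeval α) h = _ at h1
  rw [h1]
  exact Subtype.property _

/-- The prelude's level-constant 1-cochains on the local Galois group are exactly the functions
that are right-invariant under `Gal(ℚ̄_q/L)` for some finite `L/ℚ_q`. -/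
theorem h6_isLevelConstant₁_iff {X : Type*} (f : (PadicAlgCl q ≃ₐ[ℚ_[q]] PadicAlgCl q) → X) :
    IsLevelConstant₁ (localGaloisToGlobal q) f ↔
      ∃ L : IntermediateField ℚ_[q] (PadicAlgCl q), FiniteDimensional ℚ_[q] L ∧
        ∀ g s, s ∈ L.fixingSubgroup → f (g * s) = f g := by
  constructor
  · rintro ⟨F, hF, h⟩
    exact ⟨h6_localField q F, inferInstance, fun g s hs =>
      h g s ((h6_mem_fixingSubgroup_localField_iff q F s).mp hs)⟩
  · rintro ⟨L, hL, h⟩
    obtain ⟨F, hF, hFL⟩ := h6_exists_global_level q L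
    exact ⟨F, hF, fun g s hs => h g s (hFL s hs)⟩

/-- The prelude's level-constant 2-cochains on the local Galois group are exactly the functions
that are right-invariant (in both variables) under `Gal(ℚ̄_q/L)` for some finite `L/ℚ_q`. -/
theorem h6_isLevelConstant₂_iff {X : Type*}
    (f : (PadicAlgCl q ≃ₐ[ℚ_[q]] PadicAlgCl q) × (PadicAlgCl q ≃ₐ[ℚ_[q]] PadicAlgCl q) → X) :
    IsLevelConstant₂ (localGaloisToGlobal q) f ↔
      ∃ L : IntermediateField ℚ_[q] (PadicAlgCl q), FiniteDimensional ℚ_[q] L ∧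
        ∀ g g' s s', s ∈ L.fixingSubgroup → s' ∈ L.fixingSubgroup →
          f (g * s, g' * s') = f (g, g') := by
  constructor
  · rintro ⟨F, hF, h⟩
    exact ⟨h6_localField q F, inferInstance, fun g g' s s' hs hs' =>
      h g g' s s' ((h6_mem_fixingSubgroup_localField_iff q F s).mp hs)
        ((h6_mem_fixingSubgroup_localField_iff q F s').mp hs')⟩
  · rintro ⟨L, hL, h⟩
    obtain ⟨F, hF, hFL⟩ := h6_exists_global_level q L
    exact ⟨F, hF, fun g g' s s' hs hs' => h g g' s s' (hFL s hs) (hFL s' hs')⟩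

section Wrappers

open ExtCitation

/-- `primeLocalToGlobal q` is injective. -/
theorem h6_primeLocalToGlobal_injective (q : Nat.Primes) :
    Function.Injective (primeLocalToGlobal q) := by
  have : Fact (q : ℕ).Prime := ⟨q.2⟩
  exact h6_localGaloisToGlobal_injective (q : ℕ)

/-- The range of `primeLocalToGlobal q` is the decomposition group of `primeLocalPlace q`. -/
theorem h6_primeLocalToGlobal_range (q : Nat.Primes) :
    (primeLocalToGlobal q).range = (primeLocalPlace q).decompositionSubgroup ℚ := by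
  have : Fact (q : ℕ).Prime := ⟨q.2⟩
  exact h6_localGaloisToGlobal_range (q : ℕ)

theorem h6_primeLocalToGlobal_mem_decomposition (q : Nat.Primes) (τ : primeLocalGaloisGroup q) :
    primeLocalToGlobal q τ ∈ (primeLocalPlace q).decompositionSubgroup ℚ := by
  rw [← h6_primeLocalToGlobal_range]
  exact ⟨τ, rfl⟩

theorem h6_exists_primeLocal_lift (q : Nat.Primes)
    {σ : AlgebraicClosure ℚ ≃ₐ[ℚ] AlgebraicClosure ℚ}
    (hσ : σ ∈ (primeLocalPlace q).decompositionSubgroup ℚ) :
    ∃ τ : primeLocalGaloisGroup q, primeLocalToGlobal q τ = σ := by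
  rw [← h6_primeLocalToGlobal_range] at hσ
  exact hσ

/-- Level-constant 1-cochains for `primeLocalToGlobal q`, in terms of finite extensions of `ℚ_q`. -/
theorem h6_primeLocal_isLevelConstant₁_iff (q : Nat.Primes) {X : Type*}
    (f : primeLocalGaloisGroup q → X) :
    letI : Fact (q : ℕ).Prime := ⟨q.2⟩
    IsLevelConstant₁ (primeLocalToGlobal q) f ↔
      ∃ L : IntermediateField ℚ_[(q : ℕ)] (PadicAlgCl (q : ℕ)),
        FiniteDimensional ℚ_[(q : ℕ)] L ∧
        ∀ g s : PadicAlgCl (q : ℕ) ≃ₐ[ℚ_[(q : ℕ)]] PadicAlgCl (q : ℕ),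
          s ∈ L.fixingSubgroup → f (g * s) = f g := by
  have : Fact (q : ℕ).Prime := ⟨q.2⟩
  exact h6_isLevelConstant₁_iff (q : ℕ) f

/-- Level-constant 2-cochains for `primeLocalToGlobal q`, in terms of finite extensions of `ℚ_q`. -/
theorem h6_primeLocal_isLevelConstant₂_iff (q : Nat.Primes) {X : Type*}
    (f : primeLocalGaloisGroup q × primeLocalGaloisGroup q → X) :
    letI : Fact (q : ℕ).Prime := ⟨q.2⟩
    IsLevelConstant₂ (primeLocalToGlobal q) f ↔
      ∃ L : IntermediateField ℚ_[(q : ℕ)] (PadicAlgCl (q : ℕ)),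
        FiniteDimensional ℚ_[(q : ℕ)] L ∧
        ∀ g g' s s' : PadicAlgCl (q : ℕ) ≃ₐ[ℚ_[(q : ℕ)]] PadicAlgCl (q : ℕ),
          s ∈ L.fixingSubgroup → s' ∈ L.fixingSubgroup → f (g * s, g' * s') = f (g, g') := by
  have : Fact (q : ℕ).Prime := ⟨q.2⟩
  exact h6_isLevelConstant₂_iff (q : ℕ) f

end Wrappers

end Fermat.Agent.S55
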