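import Mathlib
import Fermat.Agent.S55.h4_JqCoind
import Fermat.Agent.S55.h4_BetaLevels
import Fermat.Agent.S55.h63_LocClass
import Fermat.Agent.S55.h6_LocalLevels
import Fermat.Agent.S55.h13_CycTower

/-!
# S55, GLOB-BETA: the field `beta` for the concrete level system

* `h4_Jq_hcoind` : the coinduction data of `J_q(L) ⊗ ℤ_(p)` (shape of `hcoind` in
  `h4_beta_of_levels`), unconditional (local class module `h63_local_classModule`).
* `h4_embQ q F` : the restriction to `F ⊆ ℚbar` of the fixed embedding `padicEmbedding q`;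
  `h4_finrank_localField_eq_index` : the local degree of `F` at `q` is the index of the preimage
  of `Gal(ℚbar/F)` in the local Galois group.
* `h4_cyclic_of_deg` : the group of a level whose field is `Q_n` is cyclic.
* `h4_beta_model` : the field `beta` of `h12_LevFacts` for a level system with
  `Γ L = Gal(L/ℚ)`, `J L = Additive (h25_Jq L q)`, from the formal fields, `cf`, and the norm
  statement `hnorm` at the layers `Q_n` of the cyclotomic `ℤ_p`-extension.
-/

set_option autoImplicit false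
set_option linter.unusedSectionVars false
set_option linter.unusedVariables false

open groupCohomology

namespace Fermat.Agent.S55

local notation "Qb" => AlgebraicClosure ℚ
local notation "GQ" => (AlgebraicClosure ℚ ≃ₐ[ℚ] AlgebraicClosure ℚ)

noncomputable section

/-- Coinduction data of `J_q(L) ⊗ ℤ_(p)` for a Galois number field `L` and an embedding `j₀`:
the decomposition group, the `p`-localised units of the local field (a `p`-class module), and
the evaluation at `j₀`. -/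
theorem h4_Jq_hcoind (q p : ℕ) [Fact q.Prime] [Fact p.Prime] {L : Type} [Field L]
    [NumberField L] [IsGalois ℚ L] (j₀ : L →+* PadicAlgCl q) :
    ∃ (D : Subgroup (L ≃ₐ[ℚ] L)) (X : Type) (_ : AddCommGroup X) (_ : DistribMulAction D X)
      (ev : h2_PL p (Additive (h25_Jq L q)) →+ X),
      (∀ (d : D) (y : h2_PL p (Additive (h25_Jq L q))), ev ((d : L ≃ₐ[ℚ] L) • y) = d • ev y) ∧
      (∀ φ : (L ≃ₐ[ℚ] L) → X, (∀ (d : D) (g : L ≃ₐ[ℚ] L), φ ((d : L ≃ₐ[ℚ] L) * g) = d • φ g) →
        ∃! y : h2_PL p (Additive (h25_Jq L q)), ∀ g : L ≃ₐ[ℚ] L, ev (g • y) = φ g) ∧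
      IsPClassModule p D X ∧ Nat.card D = Module.finrank ℚ_[q] (h84_localField j₀) :=
  ⟨h4_dec q j₀, h2_PL p (h4_LocX q j₀), inferInstance, inferInstance,
    h2_PL.map (h4_JqEv q j₀), (h4_JqEv_PL q j₀).1, (h4_JqEv_PL q j₀).2,
    h4_locX_class q j₀ (h63_local_classModule q p _), h4_card_dec q j₀⟩

/-! ### Levels inside `ℚbar` -/

section Qbar

variable (q : ℕ) [Fact q.Prime] (F : IntermediateField ℚ Qb)

/-- The restriction to `F` of the fixed embedding `ℚbar → ℚ̄_q`. -/
def h4_embQ : ↥F →+* PadicAlgCl q :=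
  ((padicEmbedding q : Qb →ₐ[ℚ] PadicAlgCl q) : Qb →+* PadicAlgCl q).comp
    (F.val : ↥F →+* Qb)

theorem h4_embQ_apply (x : F) : h4_embQ q F x = padicEmbedding q (x : Qb) := rfl

theorem h4_localField_embQ : h84_localField (h4_embQ q F) = h6_localField q F := by
  unfold h84_localField h6_localField
  congr 1
  ext y
  constructor
  · rintro ⟨x, rfl⟩
    exact ⟨(x : Qb), x.2, rfl⟩
  · rintro ⟨x, hx, rfl⟩
    exact ⟨⟨x, hx⟩, rfl⟩

/-- The local degree of `F` at `q` = the index of the preimage of `Gal(ℚbar/F)` in the local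
Galois group. -/
theorem h4_finrank_localField_eq_index :
    Module.finrank ℚ_[q] (h84_localField (h4_embQ q F)) =
      ((F.fixingSubgroup).comap (localGaloisToGlobal q)).index := by
  rw [h4_localField_embQ, h6_comap_fixingSubgroup]
  exact IntermediateField.finrank_eq_fixingSubgroup_index (F := ℚ_[q]) (E' := PadicAlgCl q)
    (h6_localField q F)

end Qbar

/-- A quotient of a group with the same kernel as a surjection onto a cyclic group `ZMod m` is
cyclic. -/
theorem h4_cyclic_of_deg {G Γ : Type*} [Group G] [Group Γ] (π : G →* Γ)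
    (hπ : Function.Surjective π) {m : ℕ} (d : G →* Multiplicative (ZMod m))
    (hd : Function.Surjective d) (hker : d.ker = π.ker) :
    ∃ γ : Γ, ∀ x : Γ, x ∈ Subgroup.zpowers γ := by
  obtain ⟨g₀, hg₀⟩ := hd (Multiplicative.ofAdd 1)
  refine ⟨π g₀, fun x => ?_⟩
  obtain ⟨g, rfl⟩ := hπ x
  have h1 : d g = d g₀ ^ ((Multiplicative.toAdd (d g)).cast : ℤ) := by
    rw [hg₀, ← ofAdd_zsmul, zsmul_one, ZMod.intCast_zmod_cast]
    rfl
  have h2 : g * (g₀ ^ ((Multiplicative.toAdd (d g)).cast : ℤ))⁻¹ ∈ π.ker := by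
    rw [← hker, MonoidHom.mem_ker, map_mul, map_inv, map_zpow, ← h1, mul_inv_cancel]
  rw [MonoidHom.mem_ker, map_mul, map_inv, map_zpow, mul_inv_eq_one] at h2
  rw [h2]
  exact Subgroup.zpow_mem_zpowers _ _

/-! ### The field `beta` for the concrete level system -/

section Model

variable {p : ℕ} [Fact p.Prime] {S : Finset Nat.Primes} (q : ↥S)

/-- The level of the `n`-th layer of the cyclotomic `ℤ_p`-extension. -/
def h4_QnLevel (hpS : ExtCitation.pPrime p ∈ S) (n : ℕ) : h56_Level S :=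
  ⟨h13_Qn p n, h13_Qn_isUnramifiedOutside p S hpS n, h13_Qn_isGalois p n⟩

theorem h4_QnLevel_field (hpS : ExtCitation.pPrime p ∈ S) (n : ℕ) :
    (h4_QnLevel (p := p) (S := S) hpS n).field = h13_Qn p n := rfl

/-- **GLOB-BETA for the concrete level system**: `Γ L = Gal(L/ℚ)`,
`J L = Additive (h25_Jq L q)` (with the action `h4_JqAct`), and abstract `π, K, C, ι, ιJ, k`
satisfying the formal fields of `h12_LevFacts` and `cf`; the only arithmetic input left is the
norm statement `hnorm` at the layers `Q_n` of the cyclotomic `ℤ_p`-extension. -/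
theorem h4_beta_model (hp2 : p ≠ 2) (hpS : ExtCitation.pPrime p ∈ S)
    (π : ∀ L : h56_Level S, GQ →* (↥L.field ≃ₐ[ℚ] ↥L.field))
    (K : h56_Level S → ∀ L' : h56_Level S, Subgroup (↥L'.field ≃ₐ[ℚ] ↥L'.field))
    {C : h56_Level S → Type} [∀ L, AddCommGroup (C L)]
    [∀ L : h56_Level S, DistribMulAction (↥L.field ≃ₐ[ℚ] ↥L.field) (C L)]
    (ι : ∀ L L' : h56_Level S, L ≤ L' → C L →+ C L')
    (ιJ : ∀ L L' : h56_Level S, L ≤ L' →
      Additive (h25_Jq ↥L.field ((q : Nat.Primes) : ℕ)) →+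
        Additive (h25_Jq ↥L'.field ((q : Nat.Primes) : ℕ)))
    (k : ∀ L : h56_Level S, Additive (h25_Jq ↥L.field ((q : Nat.Primes) : ℕ)) →+ C L)
    (hπs : ∀ L, Function.Surjective (π L)) (hπk : ∀ L, (π L).ker = L.U)
    (hK : ∀ (L L' : h56_Level S), L ≤ L' → ∀ g : GQ, π L' g ∈ K L L' ↔ g ∈ L.U)
    (hι_smul : ∀ (L L' : h56_Level S) (h : L ≤ L') (g : GQ) (c : C L),
      ι L L' h (π L g • c) = π L' g • ι L L' h c)
    (hι_inj : ∀ (L L' : h56_Level S) (h : L ≤ L'), Function.Injective (ι L L' h))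
    (hι_desc : ∀ (L L' : h56_Level S) (h : L ≤ L') (c' : C L'),
      (∀ t ∈ K L L', t • c' = c') → c' ∈ (ι L L' h).range)
    (hιJ_smul : ∀ (L L' : h56_Level S) (h : L ≤ L') (g : GQ)
      (y : Additive (h25_Jq ↥L.field ((q : Nat.Primes) : ℕ))),
      ιJ L L' h (π L g • y) = π L' g • ιJ L L' h y)
    (hιJ_inj : ∀ (L L' : h56_Level S) (h : L ≤ L'), Function.Injective (ιJ L L' h))
    (hιJ_desc : ∀ (L L' : h56_Level S) (h : L ≤ L')
      (y' : Additive (h25_Jq ↥L'.field ((q : Nat.Primes) : ℕ))),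
      (∀ t ∈ K L L', t • y' = y') → y' ∈ (ιJ L L' h).range)
    (hk_ι : ∀ (L L' : h56_Level S) (h : L ≤ L')
      (y : Additive (h25_Jq ↥L.field ((q : Nat.Primes) : ℕ))),
      k L' (ιJ L L' h y) = ι L L' h (k L y))
    (hk_smul : ∀ (L : h56_Level S) (γ : ↥L.field ≃ₐ[ℚ] ↥L.field)
      (y : Additive (h25_Jq ↥L.field ((q : Nat.Primes) : ℕ))), k L (γ • y) = γ • k L y)
    (hcf : ∀ L : h56_Level S, IsPClassModule p (↥L.field ≃ₐ[ℚ] ↥L.field) (C L))
    (kP : ∀ L : h56_Level S, h2_PL p (Additive (h25_Jq ↥L.field ((q : Nat.Primes) : ℕ))) →+ C L)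
    (hkP : ∀ (L : h56_Level S) (y : Additive (h25_Jq ↥L.field ((q : Nat.Primes) : ℕ))),
      kP L (h2_PL.j y) = k L y)
    -- the norm statement at the layers of the cyclotomic `ℤ_p`-extension
    (hnorm : ∀ (n : ℕ) (M : h56_Level S), M.field = h13_Qn p n →
      ∀ γ : ↥M.field ≃ₐ[ℚ] ↥M.field, (∀ x : ↥M.field ≃ₐ[ℚ] ↥M.field, x ∈ Subgroup.zpowers γ) →
      ∀ j : h2_PL p (Additive (h25_Jq ↥M.field ((q : Nat.Primes) : ℕ))), γ • j = j →
        (∃ c : C M, h12_cycNorm γ c = kP M j) →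
        ∃ b : h2_PL p (Additive (h25_Jq ↥M.field ((q : Nat.Primes) : ℕ))), h12_cycNorm γ b = j)
    (L : h56_Level S)
    (z : (↥L.field ≃ₐ[ℚ] ↥L.field) × (↥L.field ≃ₐ[ℚ] ↥L.field) →
      Additive (h25_Jq ↥L.field ((q : Nat.Primes) : ℕ)))
    (hz : IsCocycle₂ z) (hcob : IsCoboundary₂ (fun x => k L (z x))) :
    ∃ m : ℕ, m.Coprime p ∧ IsCoboundary₂ (m • z) := by
  have hnf : ∀ L : h56_Level S, NumberField ↥L.field := fun L =>
    { to_charZero := inferInstance
      to_finiteDimensional := L.2.1.1 }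
  have hgal : ∀ L : h56_Level S, IsGalois ℚ ↥L.field := fun L => L.isGalois
  refine h4_beta_of_levels (p := p) (S := S) (Γ := fun L => ↥L.field ≃ₐ[ℚ] ↥L.field)
    (J := fun L => Additive (h25_Jq ↥L.field ((q : Nat.Primes) : ℕ)))
    π K ι ιJ k hπs hπk hK hι_smul hι_inj hι_desc hιJ_smul hιJ_inj hιJ_desc hk_ι hk_smul hcf
    kP hkP ?_ ?_ L z hz hcob
  · -- coinduction data at every level
    intro L
    have := hnf L
    have := hgal L
    obtain ⟨D, X, i1, i2, ev, h1, h2, h3, -⟩ :=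
      h4_Jq_hcoind ((q : Nat.Primes) : ℕ) p (h4_embQ ((q : Nat.Primes) : ℕ) L.field)
    exact ⟨D, X, i1, i2, ev, h1, h2, h3⟩
  · -- the cyclic levels
    intro n
    obtain ⟨n₀, hn₀⟩ := h13_Qn_local_index_dvd p ((q : Nat.Primes) : ℕ) hp2 n
    let M : h56_Level S := h4_QnLevel hpS n₀
    have := hnf M
    have := hgal M
    have hMU : M.U = (h13_Qn p n₀).fixingSubgroup := rfl
    obtain ⟨γ, hγ⟩ := h4_cyclic_of_deg (π M) (hπs M) (h13_deg p hp2 n₀)
      (h13_deg_surjective p hp2 n₀) (by rw [h13_deg_ker, hπk M, hMU])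
    obtain ⟨D, X, i1, i2, ev, h1, h2, h3, h4⟩ :=
      h4_Jq_hcoind ((q : Nat.Primes) : ℕ) p (h4_embQ ((q : Nat.Primes) : ℕ) M.field)
    refine ⟨M, γ, hγ, hnorm n₀ M rfl γ hγ, D, X, i1, i2, ev, h1, h2, h3, ?_⟩
    have h5 : p ^ n ∣ Nat.card D := by
      rw [h4, h4_finrank_localField_eq_index]
      exact hn₀ n₀ le_rfl
    have hfinD : Finite D := by
      have := h4_level_finite π hπs hπk M
      infer_instance
    have hpos : Nat.card D ≠ 0 := Nat.card_pos.ne'
    exact (Nat.Prime.pow_dvd_iff_le_factorization (Fact.out : p.Prime) hpos).1 h5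

end Model

end

end Fermat.Agent.S55
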