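import Fermat.Agent.S55.h40_AmbModel

/-!
# S55, GLOB-AMB: the `J`-system fields of `h12_LevFacts` for the model (LF-JSYS, row 390)

The five fields `ιJ_refl`, `ιJ_trans`, `ιJ_smul`, `ιJ_inj`, `ιJ_desc` of `h12_LevFacts`, stated in
EXACTLY the field shape over helper40's model constants (`h40_AmbModel.lean`): each is the
corresponding core `h94_JqExt_*` of helper94's `h94_LevJ.lean`, transported through `Additive`.
-/

set_option autoImplicit false
set_option linter.unusedVariables false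

open ExtCitation

namespace Fermat.Agent.S55

local notation "Qb" => AlgebraicClosure ℚ
local notation "GQ" => (AlgebraicClosure ℚ ≃ₐ[ℚ] AlgebraicClosure ℚ)

variable (S : Finset Nat.Primes)

/-- field `ιJ_refl`. -/
theorem h97_lf_ιJ_refl : ∀ (q : ↥S) (L : h56_Level S) (y : h40_J S q L),
    h40_ιJ S q L L le_rfl y = y :=
  fun q L y => congrArg Additive.ofMul
    (h94_JqExt_refl ((q.1 : Nat.Primes) : ℕ) L.field (Additive.toMul y))

/-- field `ιJ_trans`. -/
theorem h97_lf_ιJ_trans : ∀ (q : ↥S) (L L' L'' : h56_Level S) (h : L ≤ L') (h' : L' ≤ L'')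
    (y : h40_J S q L),
    h40_ιJ S q L' L'' h' (h40_ιJ S q L L' h y) = h40_ιJ S q L L'' (h.trans h') y :=
  fun q L L' L'' h h' y => congrArg Additive.ofMul
    (h94_JqExt_trans ((q.1 : Nat.Primes) : ℕ) (h56_Level.le_def.1 h) (h56_Level.le_def.1 h')
      (Additive.toMul y))

/-- field `ιJ_smul`. -/
theorem h97_lf_ιJ_smul : ∀ (q : ↥S) (L L' : h56_Level S) (h : L ≤ L') (g : GQ)
    (y : h40_J S q L),
    h40_ιJ S q L L' h (h40_π S L g • y) = h40_π S L' g • h40_ιJ S q L L' h y :=
  fun q L L' h g y => congrArg Additive.ofMul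
    (h94_JqExt_gal ((q.1 : Nat.Primes) : ℕ) (h56_Level.le_def.1 h) g (Additive.toMul y))

/-- field `ιJ_inj`. -/
theorem h97_lf_ιJ_inj : ∀ (q : ↥S) (L L' : h56_Level S) (h : L ≤ L'),
    Function.Injective (h40_ιJ S q L L' h) :=
  fun q L L' h y y' hyy => congrArg Additive.ofMul
    (h94_JqExt_injective ((q.1 : Nat.Primes) : ℕ) (h56_Level.le_def.1 h)
      (congrArg Additive.toMul hyy))

/-- field `ιJ_desc`. -/
theorem h97_lf_ιJ_desc : ∀ (q : ↥S) (L L' : h56_Level S) (h : L ≤ L') (y' : h40_J S q L'),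
    (∀ t ∈ h40_K S L L', t • y' = y') → y' ∈ (h40_ιJ S q L L' h).range :=
  fun q L L' h y' hy' => by
    obtain ⟨y, hy⟩ := h94_JqExt_desc ((q.1 : Nat.Primes) : ℕ) (h56_Level.le_def.1 h)
      (Additive.toMul y') (fun t ht => congrArg Additive.toMul (hy' t ht))
    exact ⟨Additive.ofMul y, congrArg Additive.ofMul hy⟩

end Fermat.Agent.S55
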