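import Mathlib
import Fermat.Agent.S55.h4_BetaModel
import Fermat.Agent.S55.h40_AmbModel
import Fermat.Agent.S55.h12_AmbDefs
import Fermat.Agent.S55.h10_LfSys
import Fermat.Agent.S55.h97_LfJSys
import Fermat.Agent.S55.h90_LfCf

/-!
# S55 Tier 3, row LF-BETA: the field `beta` of the `h12_LevFacts` instance, modulo `hnorm`

`h4_lf_beta_of` : the field `beta` of `h12_LevFacts` over helper40's model (`h40_AmbModel.lean`),
in exactly the field shape, from the single arithmetic hypothesis `hnorm` (the norm statement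
at the layers `Q_n` of the cyclotomic `ℤ_p`-extension, localised at `p`):  it is
`h4_beta_model` fed with the landed field lemmas `h10_lf_*` (SYS), `h97_lf_*` (JSYS),
`h90_lf_cf` (CF).

`h4_kP p S q L` is the `p`-localisation of the unlocalised map `J_q(L) → C_L`
(`h40_k S p q L = h4_kP p S q L ∘ j`).
-/

set_option autoImplicit false

open groupCohomology ExtCitation

namespace Fermat.Agent.S55

local notation "Qb" => AlgebraicClosure ℚ
local notation "GQ" => (AlgebraicClosure ℚ ≃ₐ[ℚ] AlgebraicClosure ℚ)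

noncomputable section

variable (p : ℕ) [Fact p.Prime] (S : Finset Nat.Primes)

/-- The unlocalised map `J_q(L) → C_L` (additive form): the class of the idele concentrated
at `q`. -/
def h4_k₀ (q : ↥S) (L : h56_Level S) : h40_J S q L →+ Additive (h25_C ↥L.field S) :=
  MonoidHom.toAdditive ((h25_mk ↥L.field S).comp (h40_single S ↥L.field q))

theorem h4_k₀_apply (q : ↥S) (L : h56_Level S) (y : h40_J S q L) :
    h4_k₀ S q L y =
      Additive.ofMul (h25_mk ↥L.field S (h40_single S ↥L.field q (Additive.toMul y))) := rfl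

/-- The `p`-localisation of `J_q(L) → C_L`. -/
def h4_kP (q : ↥S) (L : h56_Level S) : h2_PL p (h40_J S q L) →+ h40_C p S L :=
  h2_PL.map (h4_k₀ S q L)

theorem h4_kP_eq (q : ↥S) (L : h56_Level S) : h4_kP p S q L = h2_PL.map (h4_k₀ S q L) := rfl

theorem h4_kP_j (q : ↥S) (L : h56_Level S) (y : h40_J S q L) :
    h4_kP p S q L (h2_PL.j y) = h40_k S p q L y :=
  h2_PL.map_j _ _

/-- **LF-BETA modulo `hnorm`**: the field `beta` of `h12_LevFacts` over helper40's model, from the
norm statement at the layers `Q_n` of the cyclotomic `ℤ_p`-extension. -/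
theorem h4_lf_beta_of (hp2 : p ≠ 2) (hpS : pPrime p ∈ S)
    (hnorm : ∀ (q : ↥S) (n : ℕ) (M : h56_Level S), M.field = h13_Qn p n →
      ∀ γ : h40_Γ S M, (∀ x : h40_Γ S M, x ∈ Subgroup.zpowers γ) →
      ∀ j : h2_PL p (h40_J S q M), γ • j = j →
        (∃ c : h40_C p S M, h12_cycNorm γ c = h4_kP p S q M j) →
        ∃ b : h2_PL p (h40_J S q M), h12_cycNorm γ b = j) :
    ∀ (q : ↥S) (L : h56_Level S) (z : h40_Γ S L × h40_Γ S L → h40_J S q L), IsCocycle₂ z →
      IsCoboundary₂ (fun x => h40_k S p q L (z x)) →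
      ∃ m : ℕ, m.Coprime p ∧ IsCoboundary₂ (m • z) := by
  intro q L z hz hcob
  have hS : S.Nonempty := ⟨_, hpS⟩
  exact h4_beta_model (p := p) (S := S) q hp2 hpS (h40_π S) (h40_K S) (h40_ι p S) (h40_ιJ S q)
    (h40_k S p q)
    (h10_lf_π_surj S) (h10_lf_π_ker S) (h10_lf_K_mem S)
    (h10_lf_ι_smul p S) (h10_lf_ι_inj p S hS) (h10_lf_ι_desc p S hS)
    (h97_lf_ιJ_smul S q) (h97_lf_ιJ_inj S q) (h97_lf_ιJ_desc S q)
    (h10_lf_k_ι p S q) (h10_lf_k_smul p S q) (h90_lf_cf p hp2 S hpS)
    (h4_kP p S q) (h4_kP_j p S q) (hnorm q) L z hz hcob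

end

end Fermat.Agent.S55
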