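import Mathlib
import Fermat.Agent.S55.h56_Inv

/-!
# S55, bridge layer: transitivity of the norm between levels

For normal subgroups `U₃ ≤ U₂ ≤ U₁` of `G` with `G ⧸ U₃` finite, the norm from level `U₃` to
level `U₁` (sum over the kernel of `G ⧸ U₃ → G ⧸ U₁`) is the composite of the norms
`U₃ → U₂ → U₁`.  Consequence: the hypothesis `hnorm` of `adt_D1` ("norms from level `U₂` land in
`p •` level `U₁`") passes to every deeper level `U₃`.
-/

set_option autoImplicit false
set_option linter.unusedSectionVars false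
set_option linter.unusedVariables false

namespace Fermat.Agent.S55

section Tower

variable {G : Type*} [Group G] {U₁ U₂ U₃ : Subgroup G} [U₁.Normal] [U₂.Normal] [U₃.Normal]
  {A : Type*} [AddCommGroup A] [DistribMulAction G A]

theorem h56_quotMap_comp (h12 : U₂ ≤ U₁) (h23 : U₃ ≤ U₂) (x : G ⧸ U₃) :
    h56_quotMap h12 (h56_quotMap h23 x) = h56_quotMap (h23.trans h12) x := by
  induction x using QuotientGroup.induction_on with
  | H g => rfl

/-- **transitivity of the norm.** -/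
theorem h56_finsum_ker_tower [Finite (G ⧸ U₃)] (h12 : U₂ ≤ U₁) (h23 : U₃ ≤ U₂)
    (c : h56_Inv U₃ A) (d : h56_Inv U₂ A)
    (hd : h56_invIncl h23 d = ∑ᶠ n : (h56_quotMap h23).ker, (n : G ⧸ U₃) • c) :
    ∑ᶠ k : (h56_quotMap (h23.trans h12)).ker, (k : G ⧸ U₃) • c =
      h56_invIncl h23 (∑ᶠ t : (h56_quotMap h12).ker, (t : G ⧸ U₂) • d) := by
  classical
  have hfin2 : Finite (G ⧸ U₂) := Finite.of_surjective _ (h56_quotMap_surjective h23)
  have := Fintype.ofFinite (h56_quotMap (U' := U₃) (U := U₁) (h23.trans h12)).ker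
  have := Fintype.ofFinite (h56_quotMap (U' := U₂) (U := U₁) h12).ker
  have := Fintype.ofFinite (h56_quotMap (U' := U₃) (U := U₂) h23).ker
  rw [finsum_eq_sum_of_fintype] at hd
  rw [finsum_eq_sum_of_fintype, finsum_eq_sum_of_fintype, map_sum]
  -- the restriction of `G ⧸ U₃ → G ⧸ U₂` to the kernels
  let ρ' : (h56_quotMap (U' := U₃) (U := U₁) (h23.trans h12)).ker →
      (h56_quotMap (U' := U₂) (U := U₁) h12).ker := fun k =>
    ⟨h56_quotMap h23 (k : G ⧸ U₃), by
      rw [MonoidHom.mem_ker, h56_quotMap_comp]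
      exact k.2⟩
  have hρ' : ∀ k, ((ρ' k : (h56_quotMap h12).ker) : G ⧸ U₂) = h56_quotMap h23 (k : G ⧸ U₃) :=
    fun k => rfl
  rw [← Fintype.sum_fiberwise ρ' (fun k => (k : G ⧸ U₃) • c)]
  refine Finset.sum_congr rfl fun t _ => ?_
  -- a point of the fibre over `t`
  obtain ⟨x, hx⟩ := h56_quotMap_surjective h23 (t : G ⧸ U₂)
  have hxK : x ∈ (h56_quotMap (U' := U₃) (U := U₁) (h23.trans h12)).ker := by
    rw [MonoidHom.mem_ker, ← h56_quotMap_comp h12 h23, hx]
    exact t.2
  -- the fibre is a coset of the kernel of `G ⧸ U₃ → G ⧸ U₂`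
  let e : (h56_quotMap (U' := U₃) (U := U₂) h23).ker ≃ {k // ρ' k = t} :=
    { toFun := fun n => ⟨⟨x * (n : G ⧸ U₃), by
          rw [MonoidHom.mem_ker, map_mul, MonoidHom.mem_ker.1 hxK, one_mul,
            ← h56_quotMap_comp h12 h23, MonoidHom.mem_ker.1 n.2, map_one]⟩, by
          apply Subtype.ext
          rw [hρ']
          show h56_quotMap h23 (x * (n : G ⧸ U₃)) = t
          rw [map_mul, hx, MonoidHom.mem_ker.1 n.2, mul_one]⟩
      invFun := fun k => ⟨x⁻¹ * ((k : (h56_quotMap (h23.trans h12)).ker) : G ⧸ U₃), by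
          have h1 : h56_quotMap h23 ((k : (h56_quotMap (h23.trans h12)).ker) : G ⧸ U₃) = t := by
            have := congrArg Subtype.val k.2
            rwa [hρ'] at this
          rw [MonoidHom.mem_ker, map_mul, map_inv, hx, h1, inv_mul_cancel]⟩
      left_inv := fun n => by
        apply Subtype.ext
        show x⁻¹ * (x * (n : G ⧸ U₃)) = n
        rw [inv_mul_cancel_left]
      right_inv := fun k => by
        apply Subtype.ext
        apply Subtype.ext
        show x * (x⁻¹ * ((k : (h56_quotMap (h23.trans h12)).ker) : G ⧸ U₃)) = _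
        rw [mul_inv_cancel_left] }
  have he : ∀ n, (((e n : {k // ρ' k = t}) : (h56_quotMap (h23.trans h12)).ker) : G ⧸ U₃) =
      x * (n : G ⧸ U₃) := fun n => rfl
  rw [← Fintype.sum_equiv e (fun n => (x * (n : G ⧸ U₃)) • c) _ (fun n => by rw [he])]
  simp only [mul_smul]
  rw [← Finset.smul_sum, ← hd, ← hx, h56_invIncl_smul]

/-- the hypothesis `hnorm` of `adt_D1` passes to deeper levels. -/
theorem h56_hnorm_tower [Finite (G ⧸ U₃)] (h12 : U₂ ≤ U₁) (h23 : U₃ ≤ U₂) (p : ℕ)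
    (hnorm : ∀ c' : h56_Inv U₂ A, ∃ c : h56_Inv U₁ A,
      ∑ᶠ s : (h56_quotMap h12).ker, (s : G ⧸ U₂) • c' = h56_invIncl h12 (p • c))
    (c'' : h56_Inv U₃ A) : ∃ c : h56_Inv U₁ A,
      ∑ᶠ s : (h56_quotMap (h23.trans h12)).ker, (s : G ⧸ U₃) • c'' =
        h56_invIncl (h23.trans h12) (p • c) := by
  obtain ⟨d, hd⟩ := h56_finsum_ker_mem_range h23 c''
  obtain ⟨c, hc⟩ := hnorm d
  refine ⟨c, ?_⟩
  rw [h56_finsum_ker_tower h12 h23 c'' d hd, hc]
  rfl

end Tower

end Fermat.Agent.S55
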