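import Fermat.Agent.S55.h56_AssemblyS2
import Fermat.Agent.S55.h56_GalLevels
import Fermat.Agent.S55.h56_InvNorm

/-!
# S55, assembly layer: the fact `(RK)` from `adt_D1`, `(CF)` and `(EX)`

`(RK)`: a level `2`-cocycle `c` of `G_ℚ` in `M` such that `f ∘ c` is a level coboundary in the
class module `CC` for every equivariant `f : M → CC` is a level coboundary.

Inputs, in the ambient language (`CC` a `G_ℚ`-module; level `L` object = `h56_Inv L.U CC` with
`G_ℚ ⧸ L.U` acting):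
* `h56_ADT1Statement p` : the statement of `adt_D1` (H layer), verbatim;
* `(CF)` : `IsPClassModule p (G_ℚ ⧸ L.U) (h56_Inv L.U CC)` for all levels `L ≥ L₀`;
* `(EX)` : for every level `L ≥ L₀` there is a level `L' ≥ L` with `N_{L'/L}(CC^{U_L'}) ⊆ p • CC^{U_L}`;
* finiteness of the set of equivariant maps `M → CC`.
-/

set_option autoImplicit false
set_option linter.unusedSectionVars false
set_option linter.unusedVariables false

open CategoryTheory Module groupCohomology ExtCitation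

namespace Fermat.Agent.S55

local notation "GQ" => (AlgebraicClosure ℚ ≃ₐ[ℚ] AlgebraicClosure ℚ)

/-- The statement of `adt_D1` (abstract duality theorem, right kernel), verbatim from the
`H` layer, as a proposition. -/
def h56_ADT1Statement (p : ℕ) : Prop :=
  ∀ {G' G : Type} [Group G'] [Group G] [Finite G'] (π : G' →* G) (_ : Function.Surjective π)
    {C' C : Type} [AddCommGroup C'] [DistribMulAction G' C'] [AddCommGroup C]
    [DistribMulAction G C]
    (ι : C →+ C') (_ : Function.Injective ι) (_ : ∀ (g : G') (c : C), ι (π g • c) = g • ι c)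
    (_ : ∀ c' : C', (∀ s ∈ π.ker, s • c' = c') → c' ∈ ι.range)
    (_ : IsPClassModule p G' C')
    (_ : ∀ c' : C', ∃ c : C, ∑ᶠ s : π.ker, (s : G') • c' = ι (p • c))
    {M : Type} [AddCommGroup M] [DistribMulAction G M] [Finite M] (_ : ∀ m : M, p • m = 0)
    (y : G × G → M) (_ : IsCocycle₂ y)
    (_ : ∀ f : M →+ C, (∀ (g : G) (m : M), f (g • m) = g • f m) →
      IsCoboundary₂ (fun x : G' × G' => ι (f (y (π x.1, π x.2))))),
    IsCoboundary₂Via π (fun x : G' × G' => y (π x.1, π x.2))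

section RK

variable {p : ℕ} [Fact p.Prime] (S : Finset Nat.Primes) (M : Rep.{0, 0, 0} (ZMod p) GQ)
  {CC : Type} [AddCommGroup CC] [DistribMulAction GQ CC]

/-- **(RK) from `adt_D1` + (CF) + (EX).** -/
theorem h56_RK_of_adt [Finite M] (hadt : h56_ADT1Statement p)
    (L₀ : h56_Level S) (hL₀M : ∀ s ∈ L₀.U, ∀ m : M, M.ρ s m = m)
    (hCF : ∀ L : h56_Level S, L₀ ≤ L → IsPClassModule p (GQ ⧸ L.U) (h56_Inv L.U CC))
    (hEX : ∀ L : h56_Level S, L₀ ≤ L → ∃ (L' : h56_Level S) (h : L ≤ L'),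
      ∀ c' : h56_Inv L'.U CC, ∃ c : h56_Inv L.U CC,
        ∑ᶠ s : (h56_quotMap (h56_Level.U_anti h)).ker, (s : GQ ⧸ L'.U) • c' =
          h56_invIncl (h56_Level.U_anti h) (p • c))
    (hfin : Finite {f : M →+ CC // ∀ (g : GQ) (m : M), f (M.ρ g m) = g • f m})
    (c : ↥(levelCocyclesS₂ S M))
    (hc : ∀ f : M →+ CC, (∀ (g : GQ) (m : M), f (M.ρ g m) = g • f m) →
      (fun x : GQ × GQ => f ((c : GQ × GQ → M) x)) ∈ h56_levelCobS₂ S CC) :
    (c : GQ × GQ → M) ∈ levelCoboundariesS₂ S M := by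
  classical
  let _ : DistribMulAction GQ M := h56_repAction M
  obtain ⟨hcoc, hlev⟩ := c.2
  obtain ⟨L₁, hL₀₁, hL₁⟩ := (h56_isLevelConstantS₂_iff L₀ _).1 hlev
  have hcoc' : IsCocycle₂ (c : GQ × GQ → M) :=
    fun g h j => (mem_cocycles₂_iff _).1 hcoc g h j
  obtain ⟨ybar, hybar, hinfl⟩ := h56_exists_defl₂ (U := L₁.U) (c : GQ × GQ → M) hcoc' hL₁
  have hMinv : ∀ m : M, m ∈ h56_Inv L₁.U M :=
    fun m s hs => hL₀M s (h56_Level.U_anti hL₀₁ hs) m
  obtain ⟨L₂, h12, hnorm⟩ := hEX L₁ hL₀₁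
  -- the finitely many equivariant maps and a common level for the trivialising cochains
  have hx : ∀ f : {f : M →+ CC // ∀ (g : GQ) (m : M), f (M.ρ g m) = g • f m},
      ∃ x : GQ → CC, IsLevelConstantS₁ S x ∧
        ∀ g h, g • x h - x (g * h) + x g = f.1 ((c : GQ × GQ → M) (g, h)) :=
    fun f => hc f.1 f.2
  choose xf hxf1 hxf2 using hx
  obtain ⟨L₃, h23, hL₃⟩ := h56_exists_common_level₁ L₂ xf hxf1
  have h13 : L₁ ≤ L₃ := h12.trans h23
  have hU13 : L₃.U ≤ L₁.U := h56_Level.U_anti h13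
  have hpM : ∀ m : h56_Inv L₁.U M, p • m = 0 := by
    intro m
    apply Subtype.ext
    show p • (m : M) = 0
    rw [← Nat.cast_smul_eq_nsmul (ZMod p), ZMod.natCast_self, zero_smul]
  -- the map `M → M^{U}` (an isomorphism)
  let toInv : M →+ h56_Inv L₁.U M := AddMonoidHom.mk' (fun m => ⟨m, hMinv m⟩) (fun a b => rfl)
  have hres := hadt (h56_quotMap hU13) (h56_quotMap_surjective hU13) (h56_invIncl hU13)
    (h56_invIncl_injective hU13) (fun g a => h56_invIncl_smul hU13 g a)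
    (fun c' hc' => h56_mem_range_invIncl hU13 c' hc') (hCF L₃ (hL₀₁.trans h13))
    (h56_hnorm_tower (h56_Level.U_anti h12) (h56_Level.U_anti h23) p hnorm)
    (M := h56_Inv L₁.U M) hpM ybar hybar (by
      intro fbar hfbar
      -- the corresponding equivariant map `M → CC`
      let f : M →+ CC := ((h56_Inv L₁.U CC).subtype.comp fbar).comp toInv
      have hf : ∀ (g : GQ) (m : M), f (M.ρ g m) = g • f m := by
        intro g m
        have h1 : toInv (M.ρ g m) = (g : GQ ⧸ L₁.U) • toInv m := Subtype.ext rfl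
        show ((fbar (toInv (M.ρ g m)) : h56_Inv L₁.U CC) : CC) = g • ((fbar (toInv m) : h56_Inv L₁.U CC) : CC)
        rw [h1, hfbar]
        rfl
      refine (h56_isCoboundary₂_tower_iff hU13 (fun a => fbar (ybar a))).2
        ⟨xf ⟨f, hf⟩, hL₃ ⟨f, hf⟩, fun g g' => ?_⟩
      rw [hxf2 ⟨f, hf⟩ g g']
      show ((fbar (toInv ((c : GQ × GQ → M) (g, g'))) : h56_Inv L₁.U CC) : CC) =
        ((fbar (ybar ((g : GQ ⧸ L₁.U), (g' : GQ ⧸ L₁.U))) : h56_Inv L₁.U CC) : CC)
      have h2 : toInv ((c : GQ × GQ → M) (g, g')) = ybar ((g : GQ ⧸ L₁.U), (g' : GQ ⧸ L₁.U)) :=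
        Subtype.ext (congrFun hinfl (g, g')).symm
      rw [h2])
  obtain ⟨x, hx1, hx2⟩ := (h56_isCoboundary₂Via_iff hU13 hMinv ybar).1 hres
  refine (mem_levelCoboundariesS₂_iff S M _).2
    ⟨x, (h56_isLevelConstantS₁_iff L₀ x).2 ⟨L₃, hL₀₁.trans h13, hx1⟩, ?_⟩
  funext ⟨g, g'⟩
  rw [d₁₂_hom_apply]
  exact (hx2 g g').trans (congrFun hinfl (g, g'))

end RK

end Fermat.Agent.S55
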