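/-
S55, layer LOC: local duality (LOC-DUAL), abstract and field-theoretic cores.

* `h98_dual_abs`    : deflation to a finite quotient + `adt_D1` (pure group theory);
* `h98_norm_tower`  : transitivity of norms along a tower of quotients (the `hnorm` hypothesis
                      of `adt_D1` passes to deeper levels: `h98_hnorm_tower`);
* `h98_locDual_field` : for a Galois extension `Ω/F` whose finite normal levels `K` carry
  `p`-class modules `Kˣ ⊗ ℤ_(p)` and satisfy existence mod `p`: a 2-cocycle of `Gal(Ω/F)` in a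
  finite smooth `𝔽_p`-module `N`, constant modulo a finite level, which becomes a level
  coboundary in `Ωˣ` under every equivariant map `N → Ωˣ`, is a level coboundary.
-/
import Mathlib
import Fermat.Agent.S55.h72_AbsDefs
import Fermat.Agent.S55.h2_AddUnits
import Fermat.Agent.S55.h2_PLoc
import Fermat.Agent.S55.h2_GalTower
import Fermat.Agent.S55.h56_AssemblyRK

set_option autoImplicit false

open groupCohomology

namespace Fermat.Agent.S55

section Abs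

variable {p : ℕ}

/-- **Deflation + `adt_D1`.**  `Γ` a group with two finite quotients `Γ ↠ G' ↠ G`; `N` a finite
`Γ`-module killed by `p` on which `ker (Γ → G)` acts trivially; `c` a 2-cocycle of `Γ` in `N`
which is constant modulo `ker (Γ → G)`.  If for every equivariant `f : N → C` the cocycle
`ι ∘ f ∘ c` is the coboundary of a cochain of `G'` in `C'`, then `c` is the coboundary of a
cochain of `G'` in `N`. -/
theorem h98_dual_abs (hadt : h56_ADT1Statement p)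
    {Γ G G' : Type} [Group Γ] [Group G] [Group G'] [Finite G']
    (πG : Γ →* G) (πG' : Γ →* G') (ρ : G' →* G) (hρ : ∀ σ, ρ (πG' σ) = πG σ)
    (hπG : Function.Surjective πG) (hπG' : Function.Surjective πG')
    {C C' : Type} [AddCommGroup C] [DistribMulAction G C] [AddCommGroup C']
    [DistribMulAction G' C']
    (ι : C →+ C') (hι : Function.Injective ι)
    (hιeq : ∀ (g : G') (c : C), ι (ρ g • c) = g • ι c)
    (hιfix : ∀ c' : C', (∀ s ∈ ρ.ker, s • c' = c') → c' ∈ ι.range)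
    (hC' : IsPClassModule p G' C')
    (hnorm : ∀ c' : C', ∃ c : C, ∑ᶠ s : ρ.ker, (s : G') • c' = ι (p • c))
    {N : Type} [AddCommGroup N] [DistribMulAction Γ N] [Finite N] (hpN : ∀ n : N, p • n = 0)
    (hNtriv : ∀ s ∈ πG.ker, ∀ n : N, s • n = n)
    (c : Γ × Γ → N) (hc : IsCocycle₂ c)
    (hcinv : ∀ g g' s s' : Γ, s ∈ πG.ker → s' ∈ πG.ker → c (g * s, g' * s') = c (g, g'))
    (hperp : ∀ f : N →+ C, (∀ (σ : Γ) (n : N), f (σ • n) = πG σ • f n) →
      ∃ X : G' → C', ∀ σ σ' : Γ,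
        πG' σ • X (πG' σ') - X (πG' (σ * σ')) + X (πG' σ) = ι (f (c (σ, σ')))) :
    ∃ x : G' → N, ∀ σ σ' : Γ,
      σ • x (πG' σ') - x (πG' (σ * σ')) + x (πG' σ) = c (σ, σ') := by
  classical
  -- a section of `πG`
  obtain ⟨s, hs⟩ : ∃ s : G → Γ, ∀ g, πG (s g) = g :=
    ⟨Function.surjInv hπG, Function.surjInv_eq hπG⟩
  have hsk : ∀ σ : Γ, ∃ k ∈ πG.ker, s (πG σ) = σ * k := by
    intro σ
    refine ⟨σ⁻¹ * s (πG σ), ?_, by group⟩
    rw [MonoidHom.mem_ker, map_mul, map_inv, hs, inv_mul_cancel]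
  have hact : ∀ (σ : Γ) (n : N), s (πG σ) • n = σ • n := by
    intro σ n
    obtain ⟨k, hk, e⟩ := hsk σ
    rw [e, mul_smul, hNtriv k hk]
  -- the action of `G` on `N`
  let _ : DistribMulAction G N :=
    { smul := fun g n => s g • n
      one_smul := fun n => by
        show s 1 • n = n
        have h1 := hact 1 n
        rw [map_one] at h1
        rw [h1, one_smul]
      mul_smul := fun g h n => by
        show s (g * h) • n = s g • s h • n
        have h1 := hact (s g * s h) n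
        rw [map_mul, hs, hs] at h1
        rw [h1, mul_smul]
      smul_zero := fun g => smul_zero (s g)
      smul_add := fun g a b => smul_add (s g) a b }
  have hsmul : ∀ (σ : Γ) (n : N), (πG σ) • n = σ • n := hact
  -- the deflated cocycle
  obtain ⟨y, hydef⟩ : ∃ y : G × G → N, ∀ x, y x = c (s x.1, s x.2) :=
    ⟨fun x => c (s x.1, s x.2), fun _ => rfl⟩
  have hy' : ∀ σ σ' : Γ, y (πG σ, πG σ') = c (σ, σ') := by
    intro σ σ'
    obtain ⟨k, hk, e⟩ := hsk σ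
    obtain ⟨k', hk', e'⟩ := hsk σ'
    rw [hydef]
    show c (s (πG σ), s (πG σ')) = c (σ, σ')
    rw [e, e', hcinv σ σ' k k' hk hk']
  have hy : IsCocycle₂ y := by
    intro g h j
    obtain ⟨σ, rfl⟩ := hπG g
    obtain ⟨σ', rfl⟩ := hπG h
    obtain ⟨σ'', rfl⟩ := hπG j
    rw [← map_mul, ← map_mul, hy', hy', hy', hy', hsmul]
    exact hc σ σ' σ''
  have hρsurj : Function.Surjective ρ := by
    intro g
    obtain ⟨σ, rfl⟩ := hπG g
    exact ⟨πG' σ, hρ σ⟩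
  have hperp' : ∀ f : N →+ C, (∀ (g : G) (m : N), f (g • m) = g • f m) →
      IsCoboundary₂ (fun x : G' × G' => ι (f (y (ρ x.1, ρ x.2)))) := by
    intro f hf
    obtain ⟨X, hX⟩ := hperp f (fun σ n => by rw [← hsmul, hf])
    refine ⟨X, fun g h => ?_⟩
    obtain ⟨σ, rfl⟩ := hπG' g
    obtain ⟨σ', rfl⟩ := hπG' h
    show πG' σ • X (πG' σ') - X (πG' σ * πG' σ') + X (πG' σ)
      = ι (f (y (ρ (πG' σ), ρ (πG' σ'))))
    rw [hρ, hρ, hy', ← map_mul]
    exact hX σ σ'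
  obtain ⟨x, hx⟩ := hadt ρ hρsurj ι hι hιeq hιfix hC' hnorm hpN y hy hperp'
  refine ⟨x, fun σ σ' => ?_⟩
  have h1 := hx (πG' σ) (πG' σ')
  simp only [] at h1
  rw [hρ, hρ, hy', hsmul, ← map_mul] at h1
  exact h1

end Abs

section Tower

/-- The sum over a finite subgroup `H` of the translates of `c` is `H`-invariant. -/
theorem h98_finsum_subgroup_fixed {G C : Type*} [Group G] [AddCommGroup C]
    [DistribMulAction G C] (H : Subgroup G) [Finite H] (c : C) (h : G) (hh : h ∈ H) :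
    h • ∑ᶠ u : H, (u : G) • c = ∑ᶠ u : H, (u : G) • c := by
  have e1 : h • ∑ᶠ u : H, (u : G) • c = ∑ᶠ u : H, h • (u : G) • c :=
    AddMonoidHom.map_finsum (DistribSMul.toAddMonoidHom C h) (Set.toFinite _)
  rw [e1]
  have e2 : ∑ᶠ u : H, h • (u : G) • c
      = ∑ᶠ u : H, ((Equiv.mulLeft (⟨h, hh⟩ : H) u : H) : G) • c := by
    refine finsum_congr fun u => ?_
    rw [Equiv.coe_mulLeft, Subgroup.coe_mul, mul_smul]
  rw [e2]
  exact finsum_comp_equiv (Equiv.mulLeft (⟨h, hh⟩ : H)) (f := fun u : H => (u : G) • c)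

/-- **Transitivity of the norm** along `G₃ ↠ G₂ → G₁`. -/
theorem h98_norm_tower {G₁ G₂ G₃ : Type*} [Group G₁] [Group G₂] [Group G₃] [Finite G₃]
    (ρ₂₁ : G₂ →* G₁) (ρ₃₂ : G₃ →* G₂) (hρ₃₂ : Function.Surjective ρ₃₂)
    (ρ₃₁ : G₃ →* G₁) (hcomp : ∀ g, ρ₂₁ (ρ₃₂ g) = ρ₃₁ g)
    {C₂ C₃ : Type*} [AddCommGroup C₂] [DistribMulAction G₂ C₂] [AddCommGroup C₃]
    [DistribMulAction G₃ C₃]
    (ι₂₃ : C₂ →+ C₃) (hιeq : ∀ (g : G₃) (c : C₂), ι₂₃ (ρ₃₂ g • c) = g • ι₂₃ c)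
    (c₃ : C₃) (c₂ : C₂) (hc₂ : ι₂₃ c₂ = ∑ᶠ u : ρ₃₂.ker, (u : G₃) • c₃) :
    ∑ᶠ s : ρ₃₁.ker, (s : G₃) • c₃ = ι₂₃ (∑ᶠ t : ρ₂₁.ker, (t : G₂) • c₂) := by
  classical
  have hfin2 : Finite G₂ := Finite.of_surjective _ hρ₃₂
  have := Fintype.ofFinite ρ₃₁.ker
  have := Fintype.ofFinite ρ₂₁.ker
  have := Fintype.ofFinite ρ₃₂.ker
  rw [finsum_eq_sum_of_fintype] at hc₂
  rw [finsum_eq_sum_of_fintype, finsum_eq_sum_of_fintype, map_sum]
  -- the restriction of `ρ₃₂` to the kernels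
  let ρ' : ρ₃₁.ker → ρ₂₁.ker := fun k =>
    ⟨ρ₃₂ (k : G₃), by
      rw [MonoidHom.mem_ker, hcomp]
      exact k.2⟩
  have hρ' : ∀ k, ((ρ' k : ρ₂₁.ker) : G₂) = ρ₃₂ (k : G₃) := fun k => rfl
  rw [← Fintype.sum_fiberwise ρ' (fun k => (k : G₃) • c₃)]
  refine Finset.sum_congr rfl fun t _ => ?_
  obtain ⟨x, hx⟩ := hρ₃₂ (t : G₂)
  have hxK : x ∈ ρ₃₁.ker := by
    rw [MonoidHom.mem_ker, ← hcomp, hx]
    exact t.2
  let e : ρ₃₂.ker ≃ {k // ρ' k = t} :=
    { toFun := fun n => ⟨⟨x * (n : G₃), by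
          rw [MonoidHom.mem_ker, ← hcomp, map_mul, MonoidHom.mem_ker.1 n.2, mul_one, hcomp]
          exact hxK⟩, by
          apply Subtype.ext
          rw [hρ']
          show ρ₃₂ (x * (n : G₃)) = t
          rw [map_mul, hx, MonoidHom.mem_ker.1 n.2, mul_one]⟩
      invFun := fun k => ⟨x⁻¹ * ((k : ρ₃₁.ker) : G₃), by
          have h1 : ρ₃₂ ((k : ρ₃₁.ker) : G₃) = t := by
            have := congrArg Subtype.val k.2
            rwa [hρ'] at this
          rw [MonoidHom.mem_ker, map_mul, map_inv, hx, h1, inv_mul_cancel]⟩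
      left_inv := fun n => by
        apply Subtype.ext
        show x⁻¹ * (x * (n : G₃)) = n
        rw [inv_mul_cancel_left]
      right_inv := fun k => by
        apply Subtype.ext
        apply Subtype.ext
        show x * (x⁻¹ * ((k : ρ₃₁.ker) : G₃)) = _
        rw [mul_inv_cancel_left] }
  have he : ∀ n, (((e n : {k // ρ' k = t}) : ρ₃₁.ker) : G₃) = x * (n : G₃) := fun n => rfl
  rw [← Fintype.sum_equiv e (fun n => (x * (n : G₃)) • c₃) _ (fun n => by rw [he])]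
  simp only [mul_smul]
  rw [← Finset.smul_sum, ← hc₂, ← hx, hιeq]

/-- The hypothesis `hnorm` of `adt_D1` passes to deeper levels. -/
theorem h98_hnorm_tower {G₁ G₂ G₃ : Type*} [Group G₁] [Group G₂] [Group G₃] [Finite G₃]
    (ρ₂₁ : G₂ →* G₁) (ρ₃₂ : G₃ →* G₂) (hρ₃₂ : Function.Surjective ρ₃₂)
    (ρ₃₁ : G₃ →* G₁) (hcomp : ∀ g, ρ₂₁ (ρ₃₂ g) = ρ₃₁ g)
    {C₁ C₂ C₃ : Type*} [AddCommGroup C₁] [AddCommGroup C₂] [DistribMulAction G₂ C₂]
    [AddCommGroup C₃] [DistribMulAction G₃ C₃]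
    (ι₁₂ : C₁ →+ C₂) (ι₂₃ : C₂ →+ C₃) (ι₁₃ : C₁ →+ C₃) (hι : ∀ c, ι₂₃ (ι₁₂ c) = ι₁₃ c)
    (hιeq : ∀ (g : G₃) (c : C₂), ι₂₃ (ρ₃₂ g • c) = g • ι₂₃ c)
    (hιfix : ∀ c₃ : C₃, (∀ s ∈ ρ₃₂.ker, s • c₃ = c₃) → c₃ ∈ ι₂₃.range)
    (n : ℕ) (hnorm : ∀ c₂ : C₂, ∃ c₁ : C₁, ∑ᶠ s : ρ₂₁.ker, (s : G₂) • c₂ = ι₁₂ (n • c₁))
    (c₃ : C₃) : ∃ c₁ : C₁, ∑ᶠ s : ρ₃₁.ker, (s : G₃) • c₃ = ι₁₃ (n • c₁) := by
  obtain ⟨c₂, hc₂⟩ := hιfix (∑ᶠ u : ρ₃₂.ker, (u : G₃) • c₃)
    (fun s hs => h98_finsum_subgroup_fixed ρ₃₂.ker c₃ s hs)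
  obtain ⟨c₁, hc₁⟩ := hnorm c₂
  refine ⟨c₁, ?_⟩
  rw [h98_norm_tower ρ₂₁ ρ₃₂ hρ₃₂ ρ₃₁ hcomp ι₂₃ hιeq c₃ c₂ hc₂, hc₁, hι]

end Tower

section Lift

variable {p : ℕ} [Fact p.Prime]

/-- Equivariant maps from a `p`-torsion module to `A ⊗ ℤ_(p)` factor through `A[p]`. -/
theorem h98_exists_torsion_lift {Γ G : Type*} [Group Γ] [Group G] (π : Γ →* G)
    {A : Type*} [AddCommGroup A] [DistribMulAction G A]
    {N : Type*} [AddCommGroup N] [DistribMulAction Γ N] (hpN : ∀ n : N, p • n = 0)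
    (f : N →+ h2_PL p A) (hf : ∀ (σ : Γ) (n : N), f (σ • n) = π σ • f n) :
    ∃ f₀ : N →+ A, (∀ n, h2_PL.j (f₀ n) = f n) ∧ ∀ (σ : Γ) (n : N), f₀ (σ • n) = π σ • f₀ n := by
  have h1 : ∀ n : N, ∃ a : A, p • a = 0 ∧ h2_PL.j a = f n := by
    intro n
    apply h2_PL.exists_j_eq_of_torsion
    rw [← map_nsmul, hpN, map_zero]
  choose g hg0 hgj using h1
  have hadd : ∀ n n' : N, g (n + n') = g n + g n' := by
    intro n n'
    rw [← sub_eq_zero]
    apply h2_PL.eq_zero_of_torsion_of_j_eq_zero (p := p)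
    · rw [smul_sub, smul_add, hg0, hg0, hg0, add_zero, sub_zero]
    · rw [map_sub, map_add, hgj, hgj, hgj, map_add, sub_self]
  refine ⟨AddMonoidHom.mk' g hadd, hgj, fun σ n => ?_⟩
  show g (σ • n) = π σ • g n
  rw [← sub_eq_zero]
  apply h2_PL.eq_zero_of_torsion_of_j_eq_zero (p := p)
  · rw [smul_sub, hg0, smul_comm, hg0, smul_zero, sub_zero]
  · rw [map_sub, hgj, h2_PL.j_smul, hgj, hf, sub_self]

/-- There are only finitely many additive maps from a finite `p`-torsion group to the units of a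
field. -/
theorem h98_finite_addHom_units {Ω : Type*} [Field Ω] {N : Type*} [AddCommGroup N] [Finite N]
    (hpN : ∀ n : N, p • n = 0) : Finite (N →+ Additive Ωˣ) := by
  have : NeZero p := ⟨(Fact.out : p.Prime).ne_zero⟩
  have hmem : ∀ (h : N →+ Additive Ωˣ) (n : N), Additive.toMul (h n) ∈ rootsOfUnity p Ω := by
    intro h n
    rw [mem_rootsOfUnity]
    have h1 : p • h n = 0 := by rw [← map_nsmul, hpN, map_zero]
    exact congrArg Additive.toMul h1
  let Φ : (N →+ Additive Ωˣ) → (N → rootsOfUnity p Ω) := fun h n => ⟨Additive.toMul (h n), hmem h n⟩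
  have hΦ : Function.Injective Φ := by
    intro h h' e
    refine DFunLike.ext _ _ fun n => ?_
    have := congrArg (fun φ : N → rootsOfUnity p Ω => ((φ n : Ωˣ))) e
    exact this
  exact Finite.of_injective Φ hΦ

end Lift

section Field

variable {p : ℕ} [Fact p.Prime]

/-- **Local duality, field-theoretic core.**  `Ω/F` a Galois extension (possibly infinite) such
that for every finite normal level `K` the module `Kˣ ⊗ ℤ_(p)` is a `p`-class module for
`Gal(K/F)` (`hCF`) and some higher level has all its norms in `p • (Kˣ ⊗ ℤ_(p))` (`hEX`).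
Let `N` be a finite `Gal(Ω/F)`-module killed by `p`, with trivial action of a finite level, and
`c` a 2-cocycle in `N`, constant modulo a finite level.  If `h ∘ c` is the coboundary of a
level-constant cochain in `Ωˣ` for every equivariant `h : N → Ωˣ`, then `c` is the coboundary of
a level-constant cochain in `N`. -/
theorem h98_locDual_field (hadt : h56_ADT1Statement p)
    {F Ω : Type} [Field F] [Field Ω] [Algebra F Ω] [IsGalois F Ω]
    (hCF : ∀ (K : IntermediateField F Ω) [FiniteDimensional F K] [Normal F K],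
      IsPClassModule p (K ≃ₐ[F] K) (h2_PL p (Additive Kˣ)))
    (hEX : ∀ (K : IntermediateField F Ω) [FiniteDimensional F K] [Normal F K],
      ∃ (K' : IntermediateField F Ω) (_ : FiniteDimensional F K') (_ : Normal F K')
        (h : K ≤ K'), ∀ c' : h2_PL p (Additive K'ˣ), ∃ c : h2_PL p (Additive Kˣ),
          ∑ᶠ s : (h2_galRes h).ker, (s : K' ≃ₐ[F] K') • c' = h2_PL.map (h2_galIncl h) (p • c))
    (N : Type) [AddCommGroup N] [DistribMulAction (Ω ≃ₐ[F] Ω) N] [Finite N]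
    (hpN : ∀ n : N, p • n = 0)
    (hsm : ∃ L : IntermediateField F Ω, FiniteDimensional F L ∧
      ∀ τ ∈ L.fixingSubgroup, ∀ n : N, τ • n = n)
    (c : (Ω ≃ₐ[F] Ω) × (Ω ≃ₐ[F] Ω) → N) (hc : IsCocycle₂ c)
    (hcl : ∃ L : IntermediateField F Ω, FiniteDimensional F L ∧
      ∀ g g' s s' : Ω ≃ₐ[F] Ω, s ∈ L.fixingSubgroup → s' ∈ L.fixingSubgroup →
        c (g * s, g' * s') = c (g, g'))
    (hperp : ∀ h : N →+ Additive Ωˣ, (∀ (τ : Ω ≃ₐ[F] Ω) (n : N), h (τ • n) = τ • h n) →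
      ∃ x : (Ω ≃ₐ[F] Ω) → Additive Ωˣ,
        (∃ L : IntermediateField F Ω, FiniteDimensional F L ∧
          ∀ g s : Ω ≃ₐ[F] Ω, s ∈ L.fixingSubgroup → x (g * s) = x g) ∧
        ∀ τ τ' : Ω ≃ₐ[F] Ω, τ • x τ' - x (τ * τ') + x τ = h (c (τ, τ'))) :
    ∃ x : (Ω ≃ₐ[F] Ω) → N,
      (∃ L : IntermediateField F Ω, FiniteDimensional F L ∧
        ∀ g s : Ω ≃ₐ[F] Ω, s ∈ L.fixingSubgroup → x (g * s) = x g) ∧
      ∀ τ τ' : Ω ≃ₐ[F] Ω, τ • x τ' - x (τ * τ') + x τ = c (τ, τ') := by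
  classical
  obtain ⟨LN, hLNfin, hLN⟩ := hsm
  obtain ⟨Lc, hLcfin, hLc⟩ := hcl
  -- the base level `K`
  obtain ⟨K, hKdef⟩ : ∃ K : IntermediateField F Ω,
      K = IntermediateField.normalClosure F (↥(LN ⊔ Lc)) Ω := ⟨_, rfl⟩
  have hKle : LN ⊔ Lc ≤ K := by rw [hKdef]; exact IntermediateField.le_normalClosure _
  have hLNK : LN ≤ K := le_sup_left.trans hKle
  have hLcK : Lc ≤ K := le_sup_right.trans hKle
  have hKfin : FiniteDimensional F K := by rw [hKdef]; infer_instance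
  have hKnorm : Normal F K := by rw [hKdef]; infer_instance
  obtain ⟨KE, hKEfin, hKEnorm, hKKE, hnormE⟩ := hEX K
  -- the levels of the finitely many maps `h`
  have hfinH : Finite (N →+ Additive Ωˣ) := h98_finite_addHom_units hpN
  have hlev : ∀ h : N →+ Additive Ωˣ, ∃ L : IntermediateField F Ω, FiniteDimensional F L ∧
      ((∀ (τ : Ω ≃ₐ[F] Ω) (n : N), h (τ • n) = τ • h n) →
        ∃ x : (Ω ≃ₐ[F] Ω) → Additive Ωˣ,
          (∀ g s : Ω ≃ₐ[F] Ω, s ∈ L.fixingSubgroup → x (g * s) = x g) ∧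
          ∀ τ τ' : Ω ≃ₐ[F] Ω, τ • x τ' - x (τ * τ') + x τ = h (c (τ, τ'))) := by
    intro h
    by_cases hh : ∀ (τ : Ω ≃ₐ[F] Ω) (n : N), h (τ • n) = τ • h n
    · obtain ⟨x, ⟨L, hL, hxL⟩, hx⟩ := hperp h hh
      exact ⟨L, hL, fun _ => ⟨x, hxL, hx⟩⟩
    · exact ⟨⊥, inferInstance, fun h' => absurd h' hh⟩
  choose Lh hLhfin hLh using hlev
  -- the top level `K'`
  obtain ⟨K', hK'def⟩ : ∃ K' : IntermediateField F Ω,
      K' = IntermediateField.normalClosure F (↥(KE ⊔ ⨆ h, Lh h)) Ω := ⟨_, rfl⟩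
  have hK'le : KE ⊔ ⨆ h, Lh h ≤ K' := by
    rw [hK'def]; exact IntermediateField.le_normalClosure _
  have hKEK' : KE ≤ K' := le_sup_left.trans hK'le
  have hLhK' : ∀ h, Lh h ≤ K' := fun h => (le_iSup Lh h).trans (le_sup_right.trans hK'le)
  have hK'fin : FiniteDimensional F K' := by
    have : FiniteDimensional F ↥(⨆ h, Lh h) := IntermediateField.finiteDimensional_iSup_of_finite
    rw [hK'def]; infer_instance
  have hK'norm : Normal F K' := by rw [hK'def]; infer_instance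
  have hKK' : K ≤ K' := hKKE.trans hKEK'
  have hfinG' : Finite (K' ≃ₐ[F] K') := inferInstance
  -- the hypotheses of the abstract theorem
  have hNtriv : ∀ s ∈ (h2_galπ K).ker, ∀ n : N, s • n = n := by
    intro s hs n
    rw [h2_galπ_ker] at hs
    exact hLN s (IntermediateField.fixingSubgroup_antitone hLNK hs) n
  have hcinv : ∀ g g' s s' : Ω ≃ₐ[F] Ω, s ∈ (h2_galπ K).ker → s' ∈ (h2_galπ K).ker →
      c (g * s, g' * s') = c (g, g') := by
    intro g g' s s' hs hs'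
    rw [h2_galπ_ker] at hs hs'
    exact hLc g g' s s' (IntermediateField.fixingSubgroup_antitone hLcK hs)
      (IntermediateField.fixingSubgroup_antitone hLcK hs')
  have hcomp : ∀ g : K' ≃ₐ[F] K', h2_galRes hKKE (h2_galRes hKEK' g) = h2_galRes hKK' g := by
    intro g
    obtain ⟨σ, rfl⟩ := h2_galπ_surjective K' g
    rw [h2_galRes_π, h2_galRes_π, h2_galRes_π]
  have hιcomp : ∀ a : h2_PL p (Additive Kˣ),
      h2_PL.map (h2_galIncl hKEK') (h2_PL.map (h2_galIncl hKKE) a)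
        = h2_PL.map (h2_galIncl hKK') a := by
    intro a
    have e : (h2_galIncl hKEK').comp (h2_galIncl hKKE) = h2_galIncl hKK' := by
      refine AddMonoidHom.ext fun b => ?_
      apply h2_galι_injective K'
      rw [AddMonoidHom.comp_apply, h2_galι_incl, h2_galι_incl, h2_galι_incl]
    rw [← e, h2_PL.map_comp, AddMonoidHom.comp_apply]
  have hnorm : ∀ c' : h2_PL p (Additive K'ˣ), ∃ c : h2_PL p (Additive Kˣ),
      ∑ᶠ s : (h2_galRes hKK').ker, (s : K' ≃ₐ[F] K') • c'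
        = h2_PL.map (h2_galIncl hKK') (p • c) :=
    h98_hnorm_tower (h2_galRes hKKE) (h2_galRes hKEK') (h2_galRes_surjective hKEK')
      (h2_galRes hKK') hcomp (h2_PL.map (h2_galIncl hKKE)) (h2_PL.map (h2_galIncl hKEK'))
      (h2_PL.map (h2_galIncl hKK')) hιcomp
      (h2_PL.map_smul_of _ _ (h2_galIncl_smul hKEK'))
      (h2_PL.mem_range_map_of_fixed _ _ (h2_galIncl_mem_range hKEK')) p hnormE
  have hperp' : ∀ f : N →+ h2_PL p (Additive Kˣ),
      (∀ (σ : Ω ≃ₐ[F] Ω) (n : N), f (σ • n) = h2_galπ K σ • f n) →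
      ∃ X : (K' ≃ₐ[F] K') → h2_PL p (Additive K'ˣ), ∀ σ σ' : Ω ≃ₐ[F] Ω,
        h2_galπ K' σ • X (h2_galπ K' σ') - X (h2_galπ K' (σ * σ')) + X (h2_galπ K' σ)
          = h2_PL.map (h2_galIncl hKK') (f (c (σ, σ'))) := by
    intro f hf
    obtain ⟨f₀, hf₀j, hf₀eq⟩ := h98_exists_torsion_lift (h2_galπ K) hpN f hf
    obtain ⟨h, hhdef⟩ : ∃ h : N →+ Additive Ωˣ, ∀ n, h n = h2_galι K (f₀ n) :=
      ⟨(h2_galι K).comp f₀, fun _ => rfl⟩
    have hh : ∀ (τ : Ω ≃ₐ[F] Ω) (n : N), h (τ • n) = τ • h n := by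
      intro τ n
      rw [hhdef, hhdef, hf₀eq, h2_galι_smul]
    obtain ⟨x, hxL, hx⟩ := hLh h hh
    have hxinv : ∀ g s : Ω ≃ₐ[F] Ω, s ∈ (h2_galπ K').ker → x (g * s) = x g := by
      intro g s hs
      rw [h2_galπ_ker] at hs
      exact hxL g s (IntermediateField.fixingSubgroup_antitone (hLhK' h) hs)
    have hkerle : ∀ s : Ω ≃ₐ[F] Ω, s ∈ (h2_galπ K').ker → s ∈ (h2_galπ K).ker := by
      intro s hs
      rw [h2_galπ_ker] at hs ⊢
      exact IntermediateField.fixingSubgroup_antitone hKK' hs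
    -- the values of `x` are fixed by `Gal(Ω/K')`
    have hfix : ∀ τ : Ω ≃ₐ[F] Ω, ∀ s ∈ (h2_galπ K').ker, s • x τ = x τ := by
      intro τ s hs
      have h1 := hx s τ
      have h2 := hx 1 τ
      have h3 : c (s, τ) = c (1, τ) := by
        have := hcinv 1 τ s 1 (hkerle s hs) (one_mem _)
        rwa [one_mul, mul_one] at this
      have h4 : x (s * τ) = x τ := by
        have e : s * τ = τ * (τ⁻¹ * s * τ) := by group
        rw [e]
        apply hxinv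
        rw [MonoidHom.mem_ker, map_mul, map_mul, MonoidHom.mem_ker.1 hs, mul_one, ← map_mul,
          inv_mul_cancel, map_one]
      have h5 : x s = x 1 := by
        have := hxinv 1 s hs
        rwa [one_mul] at this
      rw [h3, ← h2, h4, h5, one_smul, one_mul] at h1
      have h6 := add_right_cancel h1
      rw [sub_self, sub_eq_zero] at h6
      exact h6
    have hx₁ : ∀ τ : Ω ≃ₐ[F] Ω, ∃ a : Additive K'ˣ, h2_galι K' a = x τ :=
      fun τ => h2_galι_mem_range K' (x τ) (hfix τ)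
    choose x₁ hx₁ using hx₁
    have hx₁inv : ∀ g s : Ω ≃ₐ[F] Ω, s ∈ (h2_galπ K').ker → x₁ (g * s) = x₁ g := by
      intro g s hs
      apply h2_galι_injective K'
      rw [hx₁, hx₁, hxinv g s hs]
    obtain ⟨t, ht⟩ : ∃ t : (K' ≃ₐ[F] K') → (Ω ≃ₐ[F] Ω), ∀ g, h2_galπ K' (t g) = g :=
      ⟨Function.surjInv (h2_galπ_surjective K'), Function.surjInv_eq (h2_galπ_surjective K')⟩
    have htk : ∀ σ : Ω ≃ₐ[F] Ω, x₁ (t (h2_galπ K' σ)) = x₁ σ := by
      intro σ
      have e : t (h2_galπ K' σ) = σ * (σ⁻¹ * t (h2_galπ K' σ)) := by group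
      rw [e]
      apply hx₁inv
      rw [MonoidHom.mem_ker, map_mul, map_inv, ht, inv_mul_cancel]
    refine ⟨fun g => h2_PL.j (x₁ (t g)), fun σ σ' => ?_⟩
    show h2_galπ K' σ • h2_PL.j (x₁ (t (h2_galπ K' σ'))) - h2_PL.j (x₁ (t (h2_galπ K' (σ * σ'))))
      + h2_PL.j (x₁ (t (h2_galπ K' σ))) = h2_PL.map (h2_galIncl hKK') (f (c (σ, σ')))
    rw [htk, htk, htk, ← h2_PL.j_smul, ← map_sub, ← map_add, ← hf₀j, h2_PL.map_j]
    congr 1
    apply h2_galι_injective K'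
    rw [map_add, map_sub, h2_galι_smul, hx₁, hx₁, hx₁, h2_galι_incl, ← hhdef]
    exact hx σ σ'
  obtain ⟨x, hx⟩ := h98_dual_abs hadt (h2_galπ K) (h2_galπ K') (h2_galRes hKK')
    (h2_galRes_π hKK') (h2_galπ_surjective K) (h2_galπ_surjective K')
    (h2_PL.map (h2_galIncl hKK')) (h2_PL.map_injective _ (h2_galIncl_injective hKK'))
    (h2_PL.map_smul_of _ _ (h2_galIncl_smul hKK'))
    (h2_PL.mem_range_map_of_fixed _ _ (h2_galIncl_mem_range hKK'))
    (hCF K') hnorm hpN hNtriv c hc hcinv hperp'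
  refine ⟨fun σ => x (h2_galπ K' σ), ⟨K', hK'fin, fun g s hs => ?_⟩, fun τ τ' => hx τ τ'⟩
  show x (h2_galπ K' (g * s)) = x (h2_galπ K' g)
  rw [map_mul, (h2_galπ_eq_one_iff K' s).2 hs, mul_one]

end Field

end Fermat.Agent.S55
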