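import Fermat.Agent.S55.h56_UnormCarrier
import Fermat.Agent.S55.h33_AmbKum
import Fermat.Agent.S55.h10_LfSys
import Fermat.Agent.S55.h97_LfJSys
import Fermat.Agent.S55.h98_LocDual

/-!
# S55 / GLOB-UNORM (UE): the field `unorm` of `h12_LevFacts` for the model `h40_AmbModel`

* `h56_unorm_model_step` : the carrier statement (norms of `p`-torsion classes of `C_{L'}` are
  extended from classes `[(φ, 1)]`, `φ ∈ J_L[p]`) in the model shape;
* `h56_unorm_model_trans` : transitivity along `L ≤ L₁ ≤ L'` in the model;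
* `h56_lf_unorm` : the field `unorm`, from reciprocity `h56_HypRecip S p`.
-/

set_option autoImplicit false
set_option linter.style.haveILetI false

open ExtCitation

namespace Fermat.Agent.S55

local notation "Qb" => AlgebraicClosure ℚ
local notation "GQ" => (AlgebraicClosure ℚ ≃ₐ[ℚ] AlgebraicClosure ℚ)

section

variable (p : ℕ) [Fact p.Prime] (S : Finset Nat.Primes)

/-- The carrier form of UNORM for a pair of levels, in the model shape. -/
theorem h56_unorm_model_step (L L' : h56_Level S) (h : L ≤ L')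
    (H : ∀ c' : h25_C ↥L'.field S, c' ^ p = 1 → ∃ φ : h25_J ↥L.field S, φ ^ p = 1 ∧
      h33_relNorm S L.field L'.field c' =
        h33_ext S (h56_Level.le_def.1 h) (h25_mk ↥L.field S (φ, 1))) :
    ∀ c' : h40_C p S L', p • c' = 0 → ∃ y : ∀ q, h40_J S q L, (∀ q, p • y q = 0) ∧
      ∑ᶠ t : h40_K S L L', (t : h40_Γ S L') • c' =
        h40_ι p S L L' h (∑ q : ↥S, h40_k S p q L (y q)) := by
  intro c' hc'
  obtain ⟨c₀, hc₀, rfl⟩ := h2_PL.exists_j_eq_of_torsion c' hc'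
  have hc₀' : (Additive.toMul c₀) ^ p = 1 := by
    have h1 := congrArg Additive.toMul hc₀
    rwa [toMul_nsmul, toMul_zero] at h1
  obtain ⟨φ, hφp, hφ⟩ := H (Additive.toMul c₀) hc₀'
  refine ⟨fun q => Additive.ofMul (φ q), fun q => ?_, ?_⟩
  · have h1 : (φ q) ^ p = 1 := congrFun hφp q
    rw [← ofMul_pow, h1, ofMul_one]
  · rw [h33_sum_k, h40_ι_j]
    have hL : ∑ᶠ t : h40_K S L L', (t : h40_Γ S L') • (h2_PL.j c₀ : h40_C p S L') =
        h2_PL.j (Additive.ofMul (h33_relNorm S L.field L'.field (Additive.toMul c₀))) := by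
      classical
      show ∑ᶠ t : h33_relGal L.field L'.field,
        ((t : ↥L'.field ≃ₐ[ℚ] ↥L'.field)) • (h2_PL.j c₀ : h40_C p S L') = _
      haveI : Fintype ↥(h33_relGal L.field L'.field) := Fintype.ofFinite _
      rw [finsum_eq_sum_of_fintype, h33_relNorm_apply, finprod_eq_prod_of_fintype, ofMul_prod,
        map_sum]
      refine Finset.sum_congr rfl (fun t _ => ?_)
      rw [h40_C_smul_j]
      rfl
    rw [hL, hφ]
    rfl

/-- Transitivity of UNORM along `L ≤ L₁ ≤ L'` in the model. -/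
theorem h56_unorm_model_trans (L L₁ L' : h56_Level S) (h : L ≤ L₁) (h' : L₁ ≤ L')
    (H : ∀ c' : h40_C p S L', p • c' = 0 → ∃ y : ∀ q, h40_J S q L₁, (∀ q, p • y q = 0) ∧
      ∑ᶠ t : h40_K S L₁ L', (t : h40_Γ S L') • c' =
        h40_ι p S L₁ L' h' (∑ q : ↥S, h40_k S p q L₁ (y q))) :
    ∀ c' : h40_C p S L', p • c' = 0 → ∃ y : ∀ q, h40_J S q L, (∀ q, p • y q = 0) ∧
      ∑ᶠ t : h40_K S L L', (t : h40_Γ S L') • c' =
        h40_ι p S L L' (h.trans h') (∑ q : ↥S, h40_k S p q L (y q)) := by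
  intro c' hc'
  obtain ⟨y₁, hy₁, hN⟩ := H c' hc'
  have hF : L.field ≤ L₁.field := h56_Level.le_def.1 h
  have hF' : L₁.field ≤ L'.field := h56_Level.le_def.1 h'
  have hK1 : h40_K S L₁ L' = (h97_res hF').ker := h33_relGal_eq_ker hF'
  have hK2 : h40_K S L L' = (h97_res (hF.trans hF')).ker := h33_relGal_eq_ker (hF.trans hF')
  have hK3 : h40_K S L L₁ = (h97_res hF).ker := h33_relGal_eq_ker hF
  have hιeq : ∀ (g : h40_Γ S L') (c : h40_C p S L₁),
      h40_ι p S L₁ L' h' (h97_res hF' g • c) = g • h40_ι p S L₁ L' h' c := by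
    intro g c
    obtain ⟨σ, rfl⟩ := h97_π_surjective L'.field g
    rw [h97_res_π]
    exact h10_lf_ι_smul p S L₁ L' h' σ c
  have hN' : h40_ι p S L₁ L' h' (∑ q : ↥S, h40_k S p q L₁ (y₁ q)) =
      ∑ᶠ u : (h97_res hF').ker, (u : h40_Γ S L') • c' := by
    rw [← hK1]
    exact hN.symm
  have key := h98_norm_tower (h97_res hF) (h97_res hF') (h97_res_surjective hF')
    (h97_res (hF.trans hF')) (fun g => h97_res_res hF hF' g) (h40_ι p S L₁ L' h') hιeq c'
    (∑ q : ↥S, h40_k S p q L₁ (y₁ q)) hN'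
  rw [← hK2, ← hK3] at key
  -- the norms of the `y₁ q`
  set z : ∀ q : ↥S, h40_J S q L₁ := fun q => ∑ᶠ t : h40_K S L L₁, (t : h40_Γ S L₁) • y₁ q with hz
  have hzfix : ∀ q, ∀ t ∈ h40_K S L L₁, t • z q = z q := fun q t ht =>
    h98_finsum_subgroup_fixed (h40_K S L L₁) (y₁ q) t ht
  have hzp : ∀ q, p • z q = 0 := by
    intro q
    have e1 : p • z q = ∑ᶠ t : h40_K S L L₁, p • ((t : h40_Γ S L₁) • y₁ q) :=
      AddMonoidHom.map_finsum (nsmulAddMonoidHom p) (Set.toFinite _)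
    rw [e1]
    have e2 : ∀ t : h40_K S L L₁, p • ((t : h40_Γ S L₁) • y₁ q) = 0 := by
      intro t
      rw [smul_comm, hy₁ q, smul_zero]
    simp only [e2, finsum_zero]
  have hdesc : ∀ q, ∃ y : h40_J S q L, h40_ιJ S q L L₁ h y = z q := fun q =>
    h97_lf_ιJ_desc S q L L₁ h (z q) (hzfix q)
  choose y hy using hdesc
  refine ⟨y, fun q => ?_, ?_⟩
  · apply h97_lf_ιJ_inj S q L L₁ h
    rw [map_nsmul, hy, hzp, map_zero]
  · rw [key, ← h10_lf_ι_trans p S L L₁ L' h h']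
    congr 1
    rw [map_sum]
    have e3 : ∑ᶠ t : h40_K S L L₁, (t : h40_Γ S L₁) • ∑ q : ↥S, h40_k S p q L₁ (y₁ q) =
        ∑ q : ↥S, h40_k S p q L₁ (z q) := by
      classical
      haveI : Fintype ↥(h40_K S L L₁) := Fintype.ofFinite _
      rw [finsum_eq_sum_of_fintype]
      simp only [Finset.smul_sum]
      rw [Finset.sum_comm]
      refine Finset.sum_congr rfl (fun q _ => ?_)
      rw [hz]
      simp only
      rw [finsum_eq_sum_of_fintype, map_sum]
      refine Finset.sum_congr rfl (fun t _ => ?_)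
      rw [h10_lf_k_smul]
    rw [e3]
    refine Finset.sum_congr rfl (fun q _ => ?_)
    rw [← hy q, h10_lf_k_ι]

/-- **Field `unorm` of `h12_LevFacts`** for helper40's model, from reciprocity (R1). -/
theorem h56_lf_unorm (hpS : pPrime p ∈ S) (hrec : h56_HypRecip S p) :
    ∀ L : h56_Level S, ∃ (L' : h56_Level S) (h : L ≤ L'), ∀ c' : h40_C p S L', p • c' = 0 →
      ∃ y : ∀ q, h40_J S q L, (∀ q, p • y q = 0) ∧
        ∑ᶠ t : h40_K S L L', (t : h40_Γ S L') • c' =
          h40_ι p S L L' h (∑ q : ↥S, h40_k S p q L (y q)) := by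
  intro L
  have hp : p.Prime := Fact.out
  have hpS' : ∀ q : Nat.Primes, (q : ℕ) ∣ p → q ∈ S := h33_dvd_mem_of_pPrime S p hpS
  obtain ⟨F₁, hLF₁, hF₁, ζ, hζ⟩ := h33_exists_level_zeta S p hp.pos hpS' L.field L.2
  set L₁ : h56_Level S := ⟨F₁, hF₁⟩ with hL₁
  obtain ⟨F', _, hF₁F', hF', Hc⟩ := h56_unorm_zeta_of S p hp hpS' hrec L₁.field L₁.2 ζ hζ
  set L' : h56_Level S := ⟨F', hF'⟩ with hL'
  have h1 : L ≤ L₁ := h56_Level.le_def.2 hLF₁
  have h2 : L₁ ≤ L' := h56_Level.le_def.2 hF₁F'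
  refine ⟨L', h1.trans h2, ?_⟩
  exact h56_unorm_model_trans p S L L₁ L' h1 h2
    (h56_unorm_model_step p S L₁ L' h2 (fun c' hc' => Hc c' hc'))

end

end Fermat.Agent.S55
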