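import Fermat.Agent.S55.h72_AmbInst
import Fermat.Agent.S55.h41_LfExFinal
import Fermat.Agent.S55.h33_AmbKum
import Fermat.Agent.S55.h56_LfUnorm
import Fermat.Agent.S55.h4_LfBeta

/-!
# S55, Tier 3 (AMB-FINAL, helper72): the seven open fields, from the two last inputs

`h72_openFields_of` assembles `h72_OpenFields p S` from the landed field theorems
(`ex` = helper41, `fin` / `kum_diag` / `kum_ker` / `kum_cap` = helper33, `unorm` = helper56,
`beta` = helper4) and their two remaining inputs: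

* `hrec : h56_HypRecip S p` (reciprocity (R1), helper38 + helper98 + ...);
* `hnorm` : the norm statement at the layers `Q_n` of the cyclotomic `ℤ_p`-extension
  (helper13 + helper18), in the shape of `h4_lf_beta_of`.
-/

set_option autoImplicit false

open CategoryTheory Module groupCohomology ExtCitation

namespace Fermat.Agent.S55

local notation "GQ" => (AlgebraicClosure ℚ ≃ₐ[ℚ] AlgebraicClosure ℚ)

variable {p : ℕ} [Fact p.Prime]

/-- The seven open fields of the level-wise interface, from reciprocity and the cyclotomic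
norm statement. -/
theorem h72_openFields_of (hp2 : p ≠ 2) (S : Finset Nat.Primes) (hpS : pPrime p ∈ S)
    (hrec : h56_HypRecip S p)
    (hnorm : ∀ (q : ↥S) (n : ℕ) (M : h56_Level S), M.field = h13_Qn p n →
      ∀ γ : h40_Γ S M, (∀ x : h40_Γ S M, x ∈ Subgroup.zpowers γ) →
      ∀ j : h2_PL p (h40_J S q M), γ • j = j →
        (∃ c : h40_C p S M, h12_cycNorm γ c = h4_kP p S q M j) →
        ∃ b : h2_PL p (h40_J S q M), h12_cycNorm γ b = j) :
    h72_OpenFields p S where
  ex := h41_lf_ex_final S p hp2 hpS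
  fin := h33_lf_fin p S hp2 hpS
  kum_diag := h33_lf_kum_diag p S
  kum_ker := h33_lf_kum_ker p S hpS
  kum_cap := h33_lf_kum_cap p S hp2 hpS
  unorm := h56_lf_unorm p S hpS hrec
  beta := h4_lf_beta_of p S hp2 hpS hnorm

/-- **S55 from the two last inputs**: the frozen statement, given reciprocity `h56_HypRecip S p`
and the cyclotomic norm statement `hnorm`. -/
theorem h72_S55_of_recip_norm (hp2 : p ≠ 2) (S : Finset Nat.Primes) (hpS : pPrime p ∈ S)
    (M : Rep (ZMod p) GQ) [FiniteDimensional (ZMod p) M]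
    (hsm : ∀ m : M, ∃ F : IntermediateField ℚ (AlgebraicClosure ℚ), FiniteDimensional ℚ F ∧
      ∀ s ∈ F.fixingSubgroup, M.ρ s m = m)
    (hMur : ∀ q : Nat.Primes, q ∉ S → ∀ A : ValuationSubring (AlgebraicClosure ℚ),
      A.LiesOverPrime (q : ℕ) → ∀ g ∈ A.inertiaSubgroupIn ℚ, M.ρ g = 1)
    (hrec : h56_HypRecip S p)
    (hnorm : ∀ (q : ↥S) (n : ℕ) (M : h56_Level S), M.field = h13_Qn p n →
      ∀ γ : h40_Γ S M, (∀ x : h40_Γ S M, x ∈ Subgroup.zpowers γ) →
      ∀ j : h2_PL p (h40_J S q M), γ • j = j →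
        (∃ c : h40_C p S M, h12_cycNorm γ c = h4_kP p S q M j) →
        ∃ b : h2_PL p (h40_J S q M), h12_cycNorm γ b = j) :
    ∃ B : sha₁ S (M.dualTwist (cycloChar p)) →ₗ[ZMod p] sha₂ S M →ₗ[ZMod p] ZMod p,
      (∀ y, (∀ x, B y x = 0) → y = 0) ∧ (∀ x, (∀ y, B y x = 0) → x = 0) :=
  h72_S55_of_openFields hp2 S hpS M hsm hMur (h72_openFields_of hp2 S hpS hrec hnorm)

end Fermat.Agent.S55
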