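import Fermat.Agent.S55.h33_GlobEx

/-!
# S55 / GLOB-KUMSEQ-ARITH: the Kummer sequence on the arithmetic carrier `h25_C`

`0 → μ_p(K) → J_K[p] → C_K[p] → V_split / K^p → 0`, level form (feeds the fields
`kum_diag`, `kum_ker`, `kum_cap`, `cc_fin` of `h72_PTAmbient`).

* `h33_kum_diag` : `a ^ p = 1 → h25_mk K S (h33_dJ K S a, 1) = 1`;
* `h33_dJ_injective`, `h33_kum_ker` (`S` nonempty) : `φ ^ p = 1 → h25_mk K S (φ, 1) = 1 →
  ∃ a, a ^ p = 1 ∧ φ = h33_dJ K S a`;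
* `h33_Jtors_finite` : `J_K[p]` is finite;
* `h33_finite_torsion_C` (abstract), `h33_glob_fin_of` : `C_L[p]` is finite at a level `L ∋ ζ_p`;
* `h33_splitLevel` : `L(V_split^{1/p})` is a level;
* `h33_kum_cap_core`, `h33_GlobKumCap`, `h33_glob_kum_cap_of` : capitulation — every class of
  `C_L[p]` is the class of an element of `J_{L'}[p]` in `L' = L(V_split^{1/p})`;
* `h33_exists_level_zeta` : levels containing `ζ_p` are cofinal.
-/

set_option autoImplicit false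

namespace Fermat.Agent.S55

local notation "Qb" => AlgebraicClosure ℚ

local instance h33_isAlgebraicQb' : Algebra.IsAlgebraic ℚ (AlgebraicClosure ℚ) :=
  AlgebraicClosure.isAlgebraic ℚ
local instance h33_isAlgClosureQb' : IsAlgClosure ℚ (AlgebraicClosure ℚ) :=
  ⟨inferInstance, inferInstance⟩
local instance h33_normalQb' : Normal ℚ (AlgebraicClosure ℚ) :=
  IsAlgClosure.normal ℚ (AlgebraicClosure ℚ)

section AbsFin

variable {J I K : Type*} [CommGroup J] [CommGroup I] [CommGroup K]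

/-- Finiteness of the `p`-torsion of `C = (J × I) ⧸ D` from the Kummer sequence
`J[p] → C[p] → V_split / K^p`. -/
theorem h33_finite_torsion_C (d₁ : K →* J) (d₂ : K →* I) (p : ℕ)
    (hI : ∀ i : I, i ^ p = 1 → i = 1) (hJ : Finite {j : J // j ^ p = 1})
    (hW : (powMonoidHom p : K →* K).range.relIndex (h33_Vsplit d₁ d₂ p) ≠ 0) :
    Finite {c : (J × I) ⧸ (h33_diag d₁ d₂).range // c ^ p = 1} := by
  classical
  have hfi : ((powMonoidHom p : K →* K).range.subgroupOf (h33_Vsplit d₁ d₂ p)).FiniteIndex :=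
    ⟨hW⟩
  have hfinQ : Finite (↥(h33_Vsplit d₁ d₂ p) ⧸
      (powMonoidHom p : K →* K).range.subgroupOf (h33_Vsplit d₁ d₂ p)) :=
    Subgroup.finite_quotient_of_finiteIndex
  have hx : ∀ a : ↥(h33_Vsplit d₁ d₂ p), ∃ x : J × I, x ^ p = h33_diag d₁ d₂ (a : K) :=
    fun a => h33_kumseq_exists d₁ d₂ p a a.2
  choose xr hxr using hx
  let f : (↥(h33_Vsplit d₁ d₂ p) ⧸
      (powMonoidHom p : K →* K).range.subgroupOf (h33_Vsplit d₁ d₂ p)) × {j : J // j ^ p = 1} →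
      (J × I) ⧸ (h33_diag d₁ d₂).range :=
    fun κt => QuotientGroup.mk (xr (Quotient.out κt.1) * ((κt.2 : J), (1 : I)))
  have hsub : {c : (J × I) ⧸ (h33_diag d₁ d₂).range | c ^ p = 1} ⊆ Set.range f := by
    intro c hc
    obtain ⟨x, rfl⟩ := QuotientGroup.mk_surjective c
    have hc' : x ^ p ∈ (h33_diag d₁ d₂).range := by
      rw [← QuotientGroup.eq_one_iff]
      exact hc
    obtain ⟨a, ha⟩ := hc'
    have haW : a ∈ h33_Vsplit d₁ d₂ p := h33_kumseq_mem_Vsplit d₁ d₂ p x a ha.symm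
    obtain ⟨κ, hκ⟩ : ∃ κ : ↥(h33_Vsplit d₁ d₂ p) ⧸
        (powMonoidHom p : K →* K).range.subgroupOf (h33_Vsplit d₁ d₂ p),
        κ = QuotientGroup.mk (⟨a, haW⟩ : ↥(h33_Vsplit d₁ d₂ p)) := ⟨_, rfl⟩
    have h1 : (Quotient.out κ)⁻¹ * ⟨a, haW⟩ ∈
        (powMonoidHom p : K →* K).range.subgroupOf (h33_Vsplit d₁ d₂ p) := by
      apply QuotientGroup.eq.1
      rw [← hκ]
      exact Quotient.out_eq κ
    obtain ⟨b, hb⟩ := Subgroup.mem_subgroupOf.1 h1
    have hb' : b ^ p = ((Quotient.out κ : ↥(h33_Vsplit d₁ d₂ p)) : K)⁻¹ * a := by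
      simpa using hb
    have h2 : (x / xr (Quotient.out κ)) ^ p = h33_diag d₁ d₂ (b ^ p) := by
      rw [div_pow, hxr, ← ha, hb', map_mul, map_inv, div_eq_inv_mul]
    obtain ⟨j, hj, hxj⟩ := h33_kumseq_of_pow d₁ d₂ p hI _ b h2
    have hx' : x = h33_diag d₁ d₂ b * (j, 1) * xr (Quotient.out κ) := eq_mul_of_div_eq hxj
    refine ⟨(κ, ⟨j, hj⟩), ?_⟩
    show ((xr (Quotient.out κ) * (j, 1) : J × I) : (J × I) ⧸ (h33_diag d₁ d₂).range) = (x : _)
    rw [QuotientGroup.eq]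
    refine ⟨b, ?_⟩
    rw [eq_inv_mul_iff_mul_eq, hx']
    simp only [mul_comm, mul_left_comm, mul_assoc]
  exact Set.Finite.to_subtype ((Set.finite_range f).subset hsub)

end AbsFin

section GenK

variable (K : Type*) [Field K] [NumberField K] (S : Finset Nat.Primes) (p : ℕ)

omit [NumberField K] in
/-- The divisor group has no `p`-torsion. -/
theorem h33_Div_pow_eq_one (hp : 0 < p) (i : Multiplicative (h25_Div K S)) (hi : i ^ p = 1) :
    i = 1 := by
  have h1 : p • Multiplicative.toAdd i = 0 := by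
    have := congrArg Multiplicative.toAdd hi
    simpa using this
  have h2 : Multiplicative.toAdd i = 0 := by
    rcases smul_eq_zero.1 h1 with h | h
    · exact absurd h hp.ne'
    · exact h
  exact Multiplicative.toAdd.injective h2

/-- **KUMSEQ (i), `⊇`**: the diagonal roots of unity die in `C_K`. -/
theorem h33_kum_diag (hp : 0 < p) (a : Kˣ) (ha : a ^ p = 1) :
    h25_mk K S (h33_dJ K S a, 1) = 1 := by
  have h1 : h33_dI K S a = 1 := by
    apply h33_Div_pow_eq_one K S p hp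
    rw [← map_pow, ha, map_one]
  have h2 : ((h33_dJ K S a, 1) : h25_X K S) = h25_diag K S a := by
    refine Prod.ext rfl ?_
    exact h1.symm
  rw [h2]
  exact (h25_mk_eq_one_iff K S _).2 ⟨a, rfl⟩

/-- The `J`-component of the diagonal is injective when `S` is nonempty. -/
theorem h33_dJ_injective (hS : S.Nonempty) : Function.Injective (h33_dJ K S) := by
  rw [injective_iff_map_eq_one]
  intro a ha
  obtain ⟨q, hq⟩ := hS
  obtain ⟨j⟩ : Nonempty (K →+* PadicAlgCl ((q : Nat.Primes) : ℕ)) := inferInstance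
  have h1 := h33_dJ_apply K S a ⟨q, hq⟩ j
  rw [ha] at h1
  have h2 : j (a : K) = j 1 := by
    rw [← h1, map_one]
    rfl
  exact Units.ext (j.injective h2)

/-- **KUMSEQ (i), `⊆`**: the kernel of `J[p] → C_K[p]` is the diagonal `μ_p(K)`. -/
theorem h33_kum_ker (hS : S.Nonempty) (φ : h25_J K S) (hφ : φ ^ p = 1)
    (h : h25_mk K S (φ, 1) = 1) : ∃ a : Kˣ, a ^ p = 1 ∧ φ = h33_dJ K S a := by
  obtain ⟨a, ha⟩ := (h25_mk_eq_one_iff K S _).1 h
  have h1 : h33_dJ K S a = φ := congrArg Prod.fst ha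
  refine ⟨a, h33_dJ_injective K S hS ?_, h1.symm⟩
  rw [map_pow, h1, hφ, map_one]

/-- The `p`-torsion of `J` is finite. -/
theorem h33_Jtors_finite (hp : 0 < p) : Finite {φ : h25_J K S // φ ^ p = 1} := by
  have : NeZero p := ⟨hp.ne'⟩
  let g : {φ : h25_J K S // φ ^ p = 1} → ∀ q : S,
      (K →+* PadicAlgCl ((q : Nat.Primes) : ℕ)) →
        rootsOfUnity p (PadicAlgCl ((q : Nat.Primes) : ℕ)) :=
    fun φ q j => ⟨(φ.1 q).1 j, by
      rw [mem_rootsOfUnity]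
      have h1 := congrFun φ.2 q
      have h2 := congrArg (fun u : h25_Jq K ((q : Nat.Primes) : ℕ) => u.1 j) h1
      simpa using h2⟩
  have hg : Function.Injective g := by
    intro φ ψ hφψ
    apply Subtype.ext
    funext q
    apply Subtype.ext
    funext j
    have := congrArg Subtype.val (congrFun (congrFun hφψ q) j)
    exact this
  exact Finite.of_injective g hg

end GenK

section Level

variable (S : Finset Nat.Primes) (p : ℕ) [Fact p.Prime]

/-- The split Kummer level `L(V_split^{1/p})` is a level, and `[V_split : L^p]` is finite. -/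
theorem h33_splitLevel (hpS : ∀ q : Nat.Primes, (q : ℕ) ∣ p → q ∈ S)
    (hNUM : h33_HypNum S p) (hVAL : h33_HypVal S p)
    (L : IntermediateField ℚ Qb) [NumberField ↥L] (hL : h25_IsLevel S L) {ζ : ↥L}
    (hζ : IsPrimitiveRoot ζ p) :
    (powMonoidHom p : (↥L)ˣ →* (↥L)ˣ).range.relIndex
        (h33_Vsplit (h33_dJ ↥L S) (h33_dI ↥L S) p) ≠ 0 ∧
      h25_IsLevel S (h33_kummerLevel L p (h33_Vsplit (h33_dJ ↥L S) (h33_dI ↥L S) p)) := by
  have hp : 0 < p := (Fact.out : p.Prime).pos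
  have hfinL : FiniteDimensional ℚ L := hL.1.1
  have hgalL : IsGalois ℚ L := hL.2
  have hnormL : Normal ℚ L := IsGalois.to_normal
  obtain ⟨hD, hE, -⟩ := hNUM L hL ⟨ζ, hζ⟩
  have hI : ∀ i : Multiplicative (h25_Div ↥L S), i ^ p = 1 → i = 1 :=
    h33_Div_pow_eq_one ↥L S p hp
  have hPV₂ : (powMonoidHom p : (↥L)ˣ →* (↥L)ˣ).range ≤
      h33_Vsplit (h33_dJ ↥L S) (h33_dI ↥L S) p := h33_pow_le_Vsplit _ _ p
  have hV₂V₁ : h33_Vsplit (h33_dJ ↥L S) (h33_dI ↥L S) p ≤ h33_V (h33_dI ↥L S) p :=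
    h33_Vsplit_le_V _ _ p
  have hdelta := h33_count_delta (h33_dI ↥L S) p hI hD
  have hcl : ((powMonoidHom p : Multiplicative (h25_Div ↥L S) →* _).range ⊔
      (h33_dI ↥L S).range).index ≠ 0 := by
    intro h0
    have := Subgroup.index_dvd_of_le (le_sup_right :
      (h33_dI ↥L S).range ≤ (powMonoidHom p : Multiplicative (h25_Div ↥L S) →* _).range ⊔
        (h33_dI ↥L S).range)
    rw [h0] at this
    exact hD (Nat.eq_zero_of_zero_dvd this)
  have hfin₁ : (powMonoidHom p : (↥L)ˣ →* (↥L)ˣ).range.relIndex (h33_V (h33_dI ↥L S) p) ≠ 0 := by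
    rw [hdelta]
    exact mul_ne_zero hE hcl
  have hfin₂ : (powMonoidHom p : (↥L)ˣ →* (↥L)ˣ).range.relIndex
      (h33_Vsplit (h33_dJ ↥L S) (h33_dI ↥L S) p) ≠ 0 := by
    intro h0
    have := Subgroup.relIndex_mul_relIndex _ _ _ hPV₂ hV₂V₁
    rw [h0, zero_mul] at this
    exact hfin₁ this.symm
  exact ⟨hfin₂, h33_kummerLevel_unram S L hL.1 hp hpS hζ _ hPV₂ hfin₂
        (fun a ha => hVAL L hL a (hV₂V₁ ha)),
      h33_kummerLevel_isGalois L p _ (h33_Vsplit_stable S p L)⟩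

omit [Fact p.Prime] in
/-- Core of capitulation: if `x ^ p = diag a` and `a` has a `p`-th root in `L'`, the class of
`x` in `C_{L'}` is the class of a `p`-torsion element of `J_{L'}`. -/
theorem h33_kum_cap_core (hp : 0 < p) (L L' : IntermediateField ℚ Qb) [NumberField ↥L]
    [NumberField ↥L'] (h : L ≤ L') (x : h25_X ↥L S) (a : (↥L)ˣ)
    (ha : h25_diag ↥L S a = x ^ p) (β : Qb) (hβ : β ∈ L') (hβp : β ^ p = ((a : ↥L) : Qb)) :
    ∃ φ : h25_J ↥L' S, φ ^ p = 1 ∧ h33_ext S h (h25_mk ↥L S x) = h25_mk ↥L' S (φ, 1) := by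
  have hβ0 : (⟨β, hβ⟩ : ↥L') ≠ 0 := by
    intro h0
    have h1 : β = 0 := congrArg Subtype.val h0
    rw [h1, zero_pow hp.ne'] at hβp
    have h2 : ((a : ↥L) : Qb) ≠ 0 := by
      intro h3
      exact a.ne_zero (Subtype.ext h3)
    exact h2 hβp.symm
  have hb : (Units.mk0 (⟨β, hβ⟩ : ↥L') hβ0) ^ p = Units.map
      (((IntermediateField.inclusion h : ↥L →ₐ[ℚ] ↥L') : ↥L →+* ↥L') : ↥L →* ↥L') a := by
    apply Units.ext
    apply Subtype.ext
    rw [Units.val_pow_eq_pow_val, Units.val_mk0, IntermediateField.coe_pow]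
    exact hβp
  have hX : (h25_Xmap S ((IntermediateField.inclusion h : ↥L →ₐ[ℚ] ↥L') : ↥L →+* ↥L') x) ^ p
      = h33_diag (h33_dJ ↥L' S) (h33_dI ↥L' S) ((Units.mk0 (⟨β, hβ⟩ : ↥L') hβ0) ^ p) := by
    rw [← map_pow, ← ha, h66_Xmap_diag, hb]
    rfl
  obtain ⟨j, hj, hxj⟩ := h33_kumseq_of_pow (h33_dJ ↥L' S) (h33_dI ↥L' S) p
    (h33_Div_pow_eq_one ↥L' S p hp) _ _ hX
  refine ⟨j, hj, ?_⟩
  rw [h33_ext, h66_Cmap_mk, hxj, map_mul]
  have h1 : h25_mk ↥L' S (h33_diag (h33_dJ ↥L' S) (h33_dI ↥L' S)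
      (Units.mk0 (⟨β, hβ⟩ : ↥L') hβ0)) = 1 :=
    h25_mk_diag ↥L' S _
  rw [h1, one_mul]

/-- **KUMSEQ (iii), capitulation** (arithmetic level form): the statement. -/
def h33_GlobKumCap (S : Finset Nat.Primes) (p : ℕ) : Prop :=
  ∀ (L : IntermediateField ℚ Qb) [NumberField ↥L], h25_IsLevel S L →
    (∃ ζ : ↥L, IsPrimitiveRoot ζ p) →
    ∃ (L' : IntermediateField ℚ Qb) (_ : NumberField ↥L') (h : L ≤ L'), h25_IsLevel S L' ∧
      ∀ c : h25_C ↥L S, c ^ p = 1 →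
        ∃ φ : h25_J ↥L' S, φ ^ p = 1 ∧ h33_ext S h c = h25_mk ↥L' S (φ, 1)

/-- **KUMSEQ (iii)**: every `p`-torsion class of `C_L` becomes the class of a `p`-torsion
element of `J_{L'}` in the split Kummer level `L' = L(V_split^{1/p})`. -/
theorem h33_glob_kum_cap_of (hpS : ∀ q : Nat.Primes, (q : ℕ) ∣ p → q ∈ S)
    (hNUM : h33_HypNum S p) (hVAL : h33_HypVal S p) : h33_GlobKumCap S p := by
  intro L _ hL hζ'
  obtain ⟨ζ, hζ⟩ := hζ'
  have hp : 0 < p := (Fact.out : p.Prime).pos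
  obtain ⟨hfin₂, hL₂⟩ := h33_splitLevel S p hpS hNUM hVAL L hL hζ
  have nf₂ : NumberField ↥(h33_kummerLevel L p (h33_Vsplit (h33_dJ ↥L S) (h33_dI ↥L S) p)) :=
    h33_level_numberField hL₂
  have hle₂ : L ≤ h33_kummerLevel L p (h33_Vsplit (h33_dJ ↥L S) (h33_dI ↥L S) p) :=
    h33_le_kummerLevel
  refine ⟨_, nf₂, hle₂, hL₂, fun c hc => ?_⟩
  have hsurj := h25_mk_surjective ↥L S c
  obtain ⟨x, hxc⟩ := hsurj
  subst hxc
  have hx : x ^ p ∈ (h25_diag ↥L S).range := by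
    rw [← h25_mk_eq_one_iff, map_pow]
    exact hc
  obtain ⟨a, ha⟩ := hx
  have haV : a ∈ h33_Vsplit (h33_dJ ↥L S) (h33_dI ↥L S) p :=
    h33_kumseq_mem_Vsplit (h33_dJ ↥L S) (h33_dI ↥L S) p x a ha.symm
  have hex : ∃ α : Qb, α ^ p = (((a : ↥L) : Qb)) :=
    IsAlgClosed.exists_pow_nat_eq (((a : ↥L) : Qb)) hp
  obtain ⟨α, hα⟩ := hex
  exact h33_kum_cap_core S p hp L _ hle₂ x a ha α (h33_mem_kummerLevel_of_pow haV hα) hα

/-- **Finiteness of `C_L[p]`** at a level containing `μ_p`. -/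
theorem h33_glob_fin_of (hNUM : h33_HypNum S p)
    (L : IntermediateField ℚ Qb) [NumberField ↥L] (hL : h25_IsLevel S L)
    (hζ : ∃ ζ : ↥L, IsPrimitiveRoot ζ p) : Finite {c : h25_C ↥L S // c ^ p = 1} := by
  have hp : 0 < p := (Fact.out : p.Prime).pos
  obtain ⟨hD, hE, -⟩ := hNUM L hL hζ
  have hI : ∀ i : Multiplicative (h25_Div ↥L S), i ^ p = 1 → i = 1 :=
    h33_Div_pow_eq_one ↥L S p hp
  have hPV₂ : (powMonoidHom p : (↥L)ˣ →* (↥L)ˣ).range ≤
      h33_Vsplit (h33_dJ ↥L S) (h33_dI ↥L S) p := h33_pow_le_Vsplit _ _ p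
  have hV₂V₁ : h33_Vsplit (h33_dJ ↥L S) (h33_dI ↥L S) p ≤ h33_V (h33_dI ↥L S) p :=
    h33_Vsplit_le_V _ _ p
  have hdelta := h33_count_delta (h33_dI ↥L S) p hI hD
  have hcl : ((powMonoidHom p : Multiplicative (h25_Div ↥L S) →* _).range ⊔
      (h33_dI ↥L S).range).index ≠ 0 := by
    intro h0
    have := Subgroup.index_dvd_of_le (le_sup_right :
      (h33_dI ↥L S).range ≤ (powMonoidHom p : Multiplicative (h25_Div ↥L S) →* _).range ⊔
        (h33_dI ↥L S).range)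
    rw [h0] at this
    exact hD (Nat.eq_zero_of_zero_dvd this)
  have hfin₁ : (powMonoidHom p : (↥L)ˣ →* (↥L)ˣ).range.relIndex (h33_V (h33_dI ↥L S) p) ≠ 0 := by
    rw [hdelta]
    exact mul_ne_zero hE hcl
  have hfin₂ : (powMonoidHom p : (↥L)ˣ →* (↥L)ˣ).range.relIndex
      (h33_Vsplit (h33_dJ ↥L S) (h33_dI ↥L S) p) ≠ 0 := by
    intro h0
    have := Subgroup.relIndex_mul_relIndex _ _ _ hPV₂ hV₂V₁
    rw [h0, zero_mul] at this
    exact hfin₁ this.symm
  exact h33_finite_torsion_C (h33_dJ ↥L S) (h33_dI ↥L S) p hI (h33_Jtors_finite ↥L S p hp) hfin₂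

end Level

section Cofinal

/-- Levels containing a primitive `p`-th root of unity are cofinal among the `S`-levels
(all primes dividing `p` in `S`). -/
theorem h33_exists_level_zeta (S : Finset Nat.Primes) (p : ℕ) (hp : 0 < p)
    (hpS : ∀ q : Nat.Primes, (q : ℕ) ∣ p → q ∈ S)
    (L : IntermediateField ℚ Qb) (hL : h25_IsLevel S L) :
    ∃ L' : IntermediateField ℚ Qb, L ≤ L' ∧ h25_IsLevel S L' ∧
      ∃ ζ : ↥L', IsPrimitiveRoot ζ p := by
  have : NeZero p := ⟨hp.ne'⟩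
  obtain ⟨ζ, hζ⟩ := HasEnoughRootsOfUnity.exists_primitiveRoot Qb p
  have hζunr : (IntermediateField.adjoin ℚ {ζ}).IsUnramifiedOutside S :=
    h85_unram_rootOfUnity S hpS ζ hζ.pow_eq_one
  have hK₁unr := hL.1.sup hζunr
  have hFunr := h85_unram_normalClosure S (L ⊔ IntermediateField.adjoin ℚ {ζ}) hK₁unr
  have hle : L ⊔ IntermediateField.adjoin ℚ {ζ} ≤
      IntermediateField.normalClosure ℚ ↥(L ⊔ IntermediateField.adjoin ℚ {ζ}) Qb :=
    IntermediateField.le_normalClosure _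
  have hζmem : ζ ∈ IntermediateField.normalClosure ℚ ↥(L ⊔ IntermediateField.adjoin ℚ {ζ}) Qb :=
    hle ((le_sup_right : IntermediateField.adjoin ℚ {ζ} ≤ L ⊔ IntermediateField.adjoin ℚ {ζ})
      (IntermediateField.mem_adjoin_simple_self ℚ ζ))
  refine ⟨IntermediateField.normalClosure ℚ ↥(L ⊔ IntermediateField.adjoin ℚ {ζ}) Qb,
    le_trans le_sup_left hle, ⟨hFunr, ?_⟩, ⟨ζ, hζmem⟩, ?_⟩
  · have : FiniteDimensional ℚ
        (IntermediateField.normalClosure ℚ ↥(L ⊔ IntermediateField.adjoin ℚ {ζ}) Qb) := hFunr.1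
    have hN : Normal ℚ
        (IntermediateField.normalClosure ℚ ↥(L ⊔ IntermediateField.adjoin ℚ {ζ}) Qb) :=
      normalClosure.normal ℚ _ Qb
    exact ⟨⟩
  · exact IsPrimitiveRoot.of_map_of_injective (f := (IntermediateField.normalClosure ℚ
      ↥(L ⊔ IntermediateField.adjoin ℚ {ζ}) Qb).val) hζ Subtype.val_injective

end Cofinal

end Fermat.Agent.S55
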