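import Fermat.Agent.S55.h38_UnormCore
import Fermat.Agent.S55.h33_GlobKumSeq

/-!
# S55 / GLOB-UNORM: the level-form interface

* `h56_HypRecip S p` : (R1) RECIPROCITY at levels: for a level `L'` containing `ζ_p` and a nonzero
  integer `x` of `L'` lying in `V_split(L')`, the power-residue sum
  `∑_{w ∤ S} ord_w(c) • (x / w)_p` vanishes for every `c : L'ˣ` whose divisor outside `S` is
  prime to `x`  (= the hypothesis `hrec` of `h38_unorm_of_roots` with `S'` = the primes above `S`).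
* `h56_GlobUnorm S p` : GLOB-UNORM in the carrier, for all levels: norms of `p`-torsion classes
  from a suitable higher level come from the `p`-torsion of `J`.
-/

set_option autoImplicit false

namespace Fermat.Agent.S55

open NumberField IsDedekindDomain

local notation "Qb" => AlgebraicClosure ℚ

/-- (R1) RECIPROCITY, level form. -/
def h56_HypRecip (S : Finset Nat.Primes) (p : ℕ) : Prop :=
  ∀ (L' : IntermediateField ℚ Qb) [NumberField ↥L'], h25_IsLevel S L' →
    ∀ ζ : 𝓞 ↥L', IsPrimitiveRoot ζ p →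
    ∀ x : 𝓞 ↥L', x ≠ 0 →
      (∃ a ∈ h33_Vsplit (h33_dJ ↥L' S) (h33_dI ↥L' S) p, ((a : (↥L')ˣ) : ↥L') = (x : ↥L')) →
      ∀ c : (↥L')ˣ,
        (∀ w : HeightOneSpectrum (𝓞 ↥L'), ¬ h25_above ↥L' S w →
          w.valuationOfNeZero c ≠ 1 → x ∉ w.asIdeal) →
        ∑ᶠ w : {w : HeightOneSpectrum (𝓞 ↥L') // ¬ h25_above ↥L' S w},
          Multiplicative.toAdd (w.1.valuationOfNeZero c) • h38_symb p ζ w.1 x = 0

/-- GLOB-UNORM, carrier form (unlocalised, all levels). -/
def h56_GlobUnorm (S : Finset Nat.Primes) (p : ℕ) : Prop :=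
  ∀ (L : IntermediateField ℚ Qb) [NumberField ↥L], h25_IsLevel S L →
    ∃ (L' : IntermediateField ℚ Qb) (_ : NumberField ↥L') (h : L ≤ L'), h25_IsLevel S L' ∧
      ∀ c' : h25_C ↥L' S, c' ^ p = 1 → ∃ φ : h25_J ↥L S, φ ^ p = 1 ∧
        h33_relNorm S L L' c' = h33_ext S h (h25_mk ↥L S (φ, 1))

end Fermat.Agent.S55
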