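import Fermat.Agent.S55.h92_SplitNormG
import Fermat.Agent.S55.h10_LevelUnram

set_option autoImplicit false
set_option linter.style.haveILetI false

/-!
# S55 GLOB-UNORM (UC): 'J ⊆ norms' for levels (`IntermediateField ℚ Qbar`)

`L' ≤ E` intermediate fields of `Qbar/ℚ` (number fields), `Γ := ↥E ≃ₐ[↥L'] ↥E` for the inclusion
algebra `h10_inclAlgebra h`.  The results of `h92_SplitNormG` in this language:

* `h92_hJN_level` : one `V_split`-element `a` with a `p`-th root `β ∈ E`: the classes of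
  `J_{L'}` are relative norms from every subgroup `H' ⊇ Stab(β)` (hypothesis `hJN` of the
  type-level core of `hrec`);
* `h92_hJN_level_int` : the same with `ζ, x : 𝓞 ↥L'`;
* `h92_hJN_level_Vsplit` : every `H' ⊇ Gal(E / L'(V_split^{1/p}))`;
* `h92_hJN_level_ext` : the conclusion in the `h33_ext` spelling.
-/

open NumberField

namespace Fermat.Agent.S55

local notation "Qb" => AlgebraicClosure ℚ

section

variable (S : Finset Nat.Primes) (p : ℕ) [Fact p.Prime]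
variable {L' E : IntermediateField ℚ Qb} [NumberField ↥L'] [NumberField ↥E] (h : L' ≤ E)

omit [NumberField ↥L'] in
/-- `Gal(E/L')` is finite (inclusion algebra). -/
theorem h92_incl_finite :
    letI := h10_inclAlgebra h
    Finite (↥E ≃ₐ[↥L'] ↥E) := by
  letI := h10_inclAlgebra h
  haveI := h10_incl_isScalarTower h
  haveI : FiniteDimensional ↥L' ↥E := FiniteDimensional.right ℚ ↥L' ↥E
  infer_instance

/-- **(UC) 'J ⊆ norms', level form, one `V_split`-element.** -/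
theorem h92_hJN_level (ζ : ↥L') (hζ : IsPrimitiveRoot ζ p) (a : (↥L')ˣ)
    (ha : a ∈ h33_Vsplit (h33_dJ ↥L' S) (h33_dI ↥L' S) p) (β : ↥E) :
    letI := h10_inclAlgebra h
    β ^ p = algebraMap ↥L' ↥E ((a : (↥L')ˣ) : ↥L') →
    ∀ (φ : h25_J ↥L' S) (H' : Subgroup (↥E ≃ₐ[↥L'] ↥E)),
      (∀ τ : ↥E ≃ₐ[↥L'] ↥E, τ β = β → τ ∈ H') →
      h12_IsRelNorm H' (h2_PL.j (p := p)
        (Additive.ofMul (h25_Cmap S (algebraMap ↥L' ↥E) (h25_mk ↥L' S (φ, 1))))) := by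
  letI := h10_inclAlgebra h
  haveI := h92_incl_finite h
  intro hβ φ H' hH'
  obtain ⟨-, ρ, hρ⟩ := (h33_mem_Vsplit _ _ p a).1 ha
  exact h92_splitNormG S p ζ hζ a ρ hρ β hβ H' hH' φ

/-- **(UC) 'J ⊆ norms', level form, integral spelling** (`ζ, x : 𝓞 ↥L'`). -/
theorem h92_hJN_level_int (ζ : 𝓞 ↥L') (hζ : IsPrimitiveRoot ζ p) (x : 𝓞 ↥L')
    (hx : ∃ a ∈ h33_Vsplit (h33_dJ ↥L' S) (h33_dI ↥L' S) p, ((a : (↥L')ˣ) : ↥L') = (x : ↥L'))
    (β : ↥E) :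
    letI := h10_inclAlgebra h
    β ^ p = algebraMap ↥L' ↥E (x : ↥L') →
    ∀ (φ : h25_J ↥L' S) (H' : Subgroup (↥E ≃ₐ[↥L'] ↥E)),
      (∀ τ : ↥E ≃ₐ[↥L'] ↥E, τ β = β → τ ∈ H') →
      h12_IsRelNorm H' (h2_PL.j (p := p)
        (Additive.ofMul (h25_Cmap S (algebraMap ↥L' ↥E) (h25_mk ↥L' S (φ, 1))))) := by
  letI := h10_inclAlgebra h
  intro hβ
  obtain ⟨a, ha, hax⟩ := hx
  have hζ' : IsPrimitiveRoot ((ζ : 𝓞 ↥L') : ↥L') p :=
    hζ.map_of_injective (f := algebraMap (𝓞 ↥L') ↥L') (RingOfIntegers.coe_injective)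
  exact h92_hJN_level S p h (ζ : ↥L') hζ' a ha β (by rw [hax]; exact hβ)

/-- **(UC) 'J ⊆ norms', level form, all of `V_split`**: every subgroup
`H' ⊇ Gal(E / L'(V_split^{1/p}))`. -/
theorem h92_hJN_level_Vsplit (ζ : ↥L') (hζ : IsPrimitiveRoot ζ p) :
    letI := h10_inclAlgebra h
    ∀ (φ : h25_J ↥L' S) (H' : Subgroup (↥E ≃ₐ[↥L'] ↥E)),
      (∀ τ : ↥E ≃ₐ[↥L'] ↥E,
        (∀ a ∈ h33_Vsplit (h33_dJ ↥L' S) (h33_dI ↥L' S) p, ∀ β : ↥E,
          β ^ p = algebraMap ↥L' ↥E ((a : (↥L')ˣ) : ↥L') → τ β = β) → τ ∈ H') →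
      h12_IsRelNorm H' (h2_PL.j (p := p)
        (Additive.ofMul (h25_Cmap S (algebraMap ↥L' ↥E) (h25_mk ↥L' S (φ, 1))))) := by
  letI := h10_inclAlgebra h
  haveI := h92_incl_finite h
  intro φ H' hH'
  exact h92_splitNormG_Vsplit S p ζ hζ H' hH' φ

/-- The conclusion of `h92_hJN_level` in the `h33_ext` spelling. -/
theorem h92_hJN_level_ext (ζ : ↥L') (hζ : IsPrimitiveRoot ζ p) (a : (↥L')ˣ)
    (ha : a ∈ h33_Vsplit (h33_dJ ↥L' S) (h33_dI ↥L' S) p) (β : ↥E)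
    (hβ : β ^ p = IntermediateField.inclusion h ((a : (↥L')ˣ) : ↥L')) :
    letI := h10_inclAlgebra h
    ∀ (φ : h25_J ↥L' S) (H' : Subgroup (↥E ≃ₐ[↥L'] ↥E)),
      (∀ τ : ↥E ≃ₐ[↥L'] ↥E, τ β = β → τ ∈ H') →
      h12_IsRelNorm H' (h2_PL.j (p := p)
        (Additive.ofMul (h33_ext S h (h25_mk ↥L' S (φ, 1))))) := by
  letI := h10_inclAlgebra h
  exact h92_hJN_level S p h ζ hζ a ha β hβ

/-- **(UC) 'J ⊆ norms'** in the exact shape requested by the level wrapper of `hrec`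
(helper38, board #1876 (2)); the hypotheses `hL'`, `hE`, `H'.Normal` are not used. -/
theorem h92_J_norms (L' E : IntermediateField ℚ Qb) [NumberField ↥L'] [NumberField ↥E]
    (h : L' ≤ E) (_hL' : h25_IsLevel S L') (_hE : h25_IsLevel S E)
    (ζ : ↥L') (hζ : IsPrimitiveRoot ζ p) (a : (↥L')ˣ)
    (ha : a ∈ h33_Vsplit (h33_dJ ↥L' S) (h33_dI ↥L' S) p) (β : ↥E)
    (hβ : β ^ p = IntermediateField.inclusion h ((a : (↥L')ˣ) : ↥L')) :
    letI := h10_inclAlgebra h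
    ∀ H' : Subgroup (↥E ≃ₐ[↥L'] ↥E), H'.Normal →
      (∀ τ : ↥E ≃ₐ[↥L'] ↥E, τ β = β → τ ∈ H') →
      ∀ φ : h25_J ↥L' S, h12_IsRelNorm H' (h2_PL.j (p := p)
        (Additive.ofMul (h25_Cmap S (algebraMap ↥L' ↥E) (h25_mk ↥L' S (φ, 1))))) := by
  letI := h10_inclAlgebra h
  intro H' _ hH' φ
  exact h92_hJN_level S p h ζ hζ a ha β hβ φ H' hH'

end

end Fermat.Agent.S55
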