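import Fermat.Agent.S55.h97_RecipLevel
import Fermat.Agent.S55.h10_LevelUnram

/-!
# S55 / GLOB-UNORM, reciprocity step: the level `E` in the type language

Dictionary between the subgroup `h33_relGal L E ≤ Gal(E/ℚ)` and the type-level Galois group
`↥E ≃ₐ[↥L] ↥E` (for the inclusion algebra `h10_inclAlgebra h`, `h : L ≤ E`), and the level `E`
of `h97_recip_level'` with every conclusion also in the type language.

* `h97_restrictScalars_mem_relGal` : `a.restrictScalars ℚ ∈ h33_relGal L E`;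
* `h97_exists_restrictScalars_eq` : every `s ∈ h33_relGal L E` is `a.restrictScalars ℚ`;
* `h97_relGal_comm_type` : commutativity of `h33_relGal L E` gives commutativity of
  `↥E ≃ₐ[↥L] ↥E`;
* `h97_recip_level_type` : the level `E` (both languages).
-/

set_option autoImplicit false
set_option linter.style.haveILetI false

namespace Fermat.Agent.S55

local notation "Qb" => AlgebraicClosure ℚ

section Dict

variable {L E : IntermediateField ℚ Qb} (h : L ≤ E)

/-- A type-level automorphism of `E/L`, restricted to `ℚ`, fixes `L`. -/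
theorem h97_restrictScalars_mem_relGal :
    letI := h10_inclAlgebra h
    haveI := h10_incl_isScalarTower h
    ∀ a : ↥E ≃ₐ[↥L] ↥E, (a.restrictScalars ℚ : ↥E ≃ₐ[ℚ] ↥E) ∈ h33_relGal L E := by
  letI := h10_inclAlgebra h
  haveI := h10_incl_isScalarTower h
  intro a x hx
  have hx' : x = algebraMap ↥L ↥E ⟨(x : Qb), hx⟩ := Subtype.ext rfl
  rw [hx']
  exact a.commutes _

/-- Every element of `h33_relGal L E` comes from a type-level automorphism of `E/L`. -/
theorem h97_exists_restrictScalars_eq (s : ↥E ≃ₐ[ℚ] ↥E) (hs : s ∈ h33_relGal L E) :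
    letI := h10_inclAlgebra h
    haveI := h10_incl_isScalarTower h
    ∃ a : ↥E ≃ₐ[↥L] ↥E, (a.restrictScalars ℚ : ↥E ≃ₐ[ℚ] ↥E) = s := by
  letI := h10_inclAlgebra h
  haveI := h10_incl_isScalarTower h
  refine ⟨{ (s : ↥E ≃+* ↥E) with
    commutes' := fun r => hs (algebraMap ↥L ↥E r) r.2 }, ?_⟩
  ext x
  rfl

/-- Commutativity of `h33_relGal L E` gives commutativity of the type-level group
`↥E ≃ₐ[↥L] ↥E`. -/
theorem h97_relGal_comm_type
    (hcomm : ∀ s ∈ h33_relGal L E, ∀ t ∈ h33_relGal L E, s * t = t * s) :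
    letI := h10_inclAlgebra h
    ∀ a b : ↥E ≃ₐ[↥L] ↥E, a * b = b * a := by
  letI := h10_inclAlgebra h
  haveI := h10_incl_isScalarTower h
  intro a b
  have key := hcomm _ (h97_restrictScalars_mem_relGal h a) _ (h97_restrictScalars_mem_relGal h b)
  refine AlgEquiv.ext fun x => ?_
  exact DFunLike.congr_fun key x

end Dict

section Level

variable (S : Finset Nat.Primes) (p : ℕ) [Fact p.Prime]

/-- **RC-E / (UC), level half, both languages.**  For a level `L ∋ ζ_p` (`p` odd, `p ∈ S`) and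
`n`: a level `E ⊇ L(V_split^{1/p})` containing a `p`-th root of every `a ∈ V_split(L)` and a
primitive `p^(n+1)`-th root of unity, with `Gal(E/L)` commutative. -/
theorem h97_recip_level_type (hp2 : p ≠ 2)
    (hpS : (⟨p, (Fact.out : p.Prime)⟩ : Nat.Primes) ∈ S)
    (L : IntermediateField ℚ Qb) [NumberField ↥L] (hL : h25_IsLevel S L) {ζ : ↥L}
    (hζ : IsPrimitiveRoot ζ p) (n : ℕ) :
    ∃ (E : IntermediateField ℚ Qb) (h : L ≤ E), h25_IsLevel S E ∧
      h33_kummerLevel L p (h33_Vsplit (h33_dJ ↥L S) (h33_dI ↥L S) p) ≤ E ∧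
      (∀ a ∈ h33_Vsplit (h33_dJ ↥L S) (h33_dI ↥L S) p,
        ∃ β : ↥E, β ^ p = IntermediateField.inclusion h ((a : (↥L)ˣ) : ↥L)) ∧
      (∃ ξ : ↥E, IsPrimitiveRoot ξ (p ^ (n + 1))) ∧
      (∀ s ∈ h33_relGal L E, ∀ t ∈ h33_relGal L E, s * t = t * s) ∧
      (letI := h10_inclAlgebra h
       ∀ a b : ↥E ≃ₐ[↥L] ↥E, a * b = b * a) := by
  have hp : 0 < p := (Fact.out : p.Prime).pos
  obtain ⟨E, h, hE, hME, hroot, hξ, hcomm⟩ := h97_recip_level' S p hp2 hpS L hL hζ n
  refine ⟨E, h, hE, hME, fun a ha => ?_, hξ, hcomm, h97_relGal_comm_type h hcomm⟩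
  obtain ⟨α, hα⟩ := IsAlgClosed.exists_pow_nat_eq ((((a : (↥L)ˣ) : ↥L) : Qb)) hp
  exact ⟨⟨α, hroot a ha α hα⟩, Subtype.ext hα⟩

end Level

end Fermat.Agent.S55
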