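import Fermat.Agent.S55.h95_HrecCore
import Fermat.Agent.S55.h97_RecipLevelT
import Fermat.Agent.S55.h92_SplitNormLevel
import Fermat.Agent.S55.h56_UnormDefs
import Fermat.Agent.S55.h37_UnrDict

set_option autoImplicit false
set_option linter.style.haveILetI false

open IsDedekindDomain NumberField ExtCitation

namespace Fermat.Agent.S55

local notation "Qb" => AlgebraicClosure ℚ

/-- **(R1) RECIPROCITY at levels**, unconditional. -/
theorem h95_hypRecip (S : Finset Nat.Primes) (p : ℕ) [hp : Fact p.Prime] (hp2 : p ≠ 2)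
    (hpS : pPrime p ∈ S) : h56_HypRecip S p := by
  classical
  intro L' _ hL' ζ hζ x hx hxV c hc
  -- choose `n`
  obtain ⟨n, hn⟩ := h28_exists_level_FP3 S (⟨pPrime p, hpS⟩ : ↥S) (K := ↥L')
    (((h25_div ↥L' S c).support).image Subtype.val)
  -- the level `E`
  have hζ' : IsPrimitiveRoot ((ζ : 𝓞 ↥L') : ↥L') p :=
    hζ.map_of_injective (f := algebraMap (𝓞 ↥L') ↥L') RingOfIntegers.coe_injective
  obtain ⟨E, h, hE, -, hroot, ⟨ξ, hξ⟩, -, hcomm⟩ :=
    h97_recip_level_type S p hp2 hpS L' hL' hζ' n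
  obtain ⟨a, ha, hax⟩ := hxV
  obtain ⟨β, hβ⟩ := hroot a ha
  haveI : NumberField ↥E := h33_level_numberField hE
  letI := h10_inclAlgebra h
  haveI : IsGalois ℚ ↥E := hE.2
  haveI : IsGalois ↥L' ↥E := h10_incl_isGalois h
  have hβ' : β ^ p = algebraMap ↥L' ↥E (x : ↥L') := by rw [hβ, hax]; rfl
  refine h95_hrec_core p hp2 S hpS (h37_unramOutside_of_level S E hE) hcomm n ξ hξ ζ hζ x hx β hβ'
    (h92_hJN_level_int S p h ζ hζ x ⟨a, ha, hax⟩ β hβ') c hc (fun w hw hval => ?_)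
  refine hn n le_rfl w (Finset.mem_image.2 ⟨⟨w, hw⟩, ?_, rfl⟩)
  rw [Finsupp.mem_support_iff, h10_div_apply, Ne, neg_eq_zero]
  exact hval

end Fermat.Agent.S55
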