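import Mathlib

/-!
# S55, GLOB dictionary: embeddings of a number field into `PadicAlgCl q` and primes above `q`

* `h10_embPrime q j` : the prime `{x | ‖j x‖ < 1}` of `𝓞 K` attached to `j : K →+* PadicAlgCl q`;
  it lies above `q` (`h10_natCast_mem_embPrime`).
* `h10_embRam`, `h10_norm_emb_pow` : `‖j x‖ ^ e = q ^ (-ord_v x)`; `h10_norm_emb_le_one_iff`,
  `h10_norm_emb_eq_one_iff`.
* `h10_embPrime_comp_aut` : conjugate embeddings have the same prime;
  `h10_exists_aut_of_embPrime_eq` : embeddings with the same prime are conjugate under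
  `Gal(PadicAlgCl q / ℚ_[q])`;
  `h10_exists_emb_of_prime` : every prime above `q` occurs.
-/

set_option autoImplicit false

open NumberField IsDedekindDomain

namespace Fermat.Agent.S55

section Basic

variable (q : ℕ) [Fact q.Prime]

/-- Elements of `PadicAlgCl q` integral over `ℤ` have norm at most one. -/
theorem h10_norm_le_one_of_isIntegral {y : PadicAlgCl q} (hy : IsIntegral ℤ y) : ‖y‖ ≤ 1 := by
  have hy' : IsIntegral ℤ_[q] y := hy.tower_top
  rw [← PadicAlgCl.spectralNorm_eq, spectralNorm]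
  have hmin : minpoly ℚ_[q] y = (minpoly ℤ_[q] y).map (algebraMap ℤ_[q] ℚ_[q]) :=
    minpoly.isIntegrallyClosed_eq_field_fractions ℚ_[q] (PadicAlgCl q) hy'
  rw [spectralValue_le_one_iff (minpoly.monic hy'.tower_top)]
  intro n
  rw [hmin, Polynomial.coeff_map]
  exact PadicInt.norm_le_one _

end Basic


section Emb

variable (q : ℕ) [Fact q.Prime] {K : Type*} [Field K] [NumberField K]

omit [NumberField K] in
theorem h10_norm_emb_le_one (j : K →+* PadicAlgCl q) (x : 𝓞 K) : ‖j (x : K)‖ ≤ 1 := by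
  apply h10_norm_le_one_of_isIntegral
  have hx : IsIntegral ℤ (x : K) := x.2
  exact hx.map (j : K →+* PadicAlgCl q).toIntAlgHom

theorem h10_norm_natCast_q : ‖((q : ℕ) : PadicAlgCl q)‖ = (q : ℝ)⁻¹ := by
  rw [← map_natCast (algebraMap ℚ_[q] (PadicAlgCl q)), PadicAlgCl.norm_extends, Padic.norm_p]

/-- The ideal of `𝓞 K` of elements of norm `< 1` under the embedding `j`. -/
def h10_embIdeal (j : K →+* PadicAlgCl q) : Ideal (𝓞 K) where
  carrier := {x | ‖j (x : K)‖ < 1}
  add_mem' := by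
    intro a b ha hb
    change ‖j ((a + b : 𝓞 K) : K)‖ < 1
    have ha' : ‖j (a : K)‖ < 1 := ha
    have hb' : ‖j (b : K)‖ < 1 := hb
    have h := PadicAlgCl.isNonarchimedean q (j (a : K)) (j (b : K))
    have e : j ((a + b : 𝓞 K) : K) = j (a : K) + j (b : K) := by
      rw [← map_add]; rfl
    rw [e]
    exact lt_of_le_of_lt h (max_lt ha' hb')
  zero_mem' := by simp
  smul_mem' := by
    intro c x hx
    change ‖j ((c * x : 𝓞 K) : K)‖ < 1
    have hx' : ‖j (x : K)‖ < 1 := hx
    have e : j ((c * x : 𝓞 K) : K) = j (c : K) * j (x : K) := by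
      rw [← map_mul]; rfl
    rw [e, norm_mul]
    calc ‖j (c : K)‖ * ‖j (x : K)‖ ≤ 1 * ‖j (x : K)‖ :=
          mul_le_mul_of_nonneg_right (h10_norm_emb_le_one q j c) (norm_nonneg _)
      _ < 1 := by rw [one_mul]; exact hx'

theorem h10_mem_embIdeal (j : K →+* PadicAlgCl q) (x : 𝓞 K) :
    x ∈ h10_embIdeal q j ↔ ‖j (x : K)‖ < 1 := Iff.rfl

theorem h10_not_mem_embIdeal (j : K →+* PadicAlgCl q) (x : 𝓞 K) :
    x ∉ h10_embIdeal q j ↔ ‖j (x : K)‖ = 1 := by
  rw [h10_mem_embIdeal, not_lt]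
  exact ⟨fun h => le_antisymm (h10_norm_emb_le_one q j x) h, fun h => h.ge⟩

instance h10_embIdeal_isPrime (j : K →+* PadicAlgCl q) : (h10_embIdeal q j).IsPrime := by
  refine ⟨?_, ?_⟩
  · intro h
    have : (1 : 𝓞 K) ∈ h10_embIdeal q j := h ▸ Submodule.mem_top
    rw [h10_mem_embIdeal] at this
    simp at this
  · intro a b hab
    by_contra hcon
    rw [not_or, h10_not_mem_embIdeal, h10_not_mem_embIdeal] at hcon
    rw [h10_mem_embIdeal] at hab
    have e : j ((a * b : 𝓞 K) : K) = j (a : K) * j (b : K) := by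
      rw [← map_mul]; rfl
    rw [e, norm_mul, hcon.1, hcon.2, mul_one] at hab
    exact lt_irrefl _ hab

theorem h10_natCast_mem_embIdeal (j : K →+* PadicAlgCl q) :
    ((q : ℕ) : 𝓞 K) ∈ h10_embIdeal q j := by
  rw [h10_mem_embIdeal]
  have : j (((q : ℕ) : 𝓞 K) : K) = ((q : ℕ) : PadicAlgCl q) := by simp
  rw [this, h10_norm_natCast_q]
  have hq : (1 : ℝ) < q := by exact_mod_cast (Fact.out : q.Prime).one_lt
  exact inv_lt_one_of_one_lt₀ hq

theorem h10_embIdeal_ne_bot (j : K →+* PadicAlgCl q) : h10_embIdeal q j ≠ ⊥ := by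
  intro h
  have h1 := h10_natCast_mem_embIdeal q j
  rw [h, Ideal.mem_bot] at h1
  have hq : (q : 𝓞 K) ≠ 0 := by
    exact_mod_cast (Nat.cast_ne_zero (R := 𝓞 K)).mpr (Fact.out : q.Prime).ne_zero
  exact hq h1

/-- The prime of `𝓞 K` defined by an embedding `K → PadicAlgCl q`. -/
noncomputable def h10_embPrime (j : K →+* PadicAlgCl q) : HeightOneSpectrum (𝓞 K) :=
  ⟨h10_embIdeal q j, h10_embIdeal_isPrime q j, h10_embIdeal_ne_bot q j⟩

theorem h10_mem_embPrime (j : K →+* PadicAlgCl q) (x : 𝓞 K) :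
    x ∈ (h10_embPrime q j).asIdeal ↔ ‖j (x : K)‖ < 1 := Iff.rfl

theorem h10_natCast_mem_embPrime (j : K →+* PadicAlgCl q) :
    ((q : ℕ) : 𝓞 K) ∈ (h10_embPrime q j).asIdeal := h10_natCast_mem_embIdeal q j

end Emb

section Formula

variable (q : ℕ) [Fact q.Prime] {K : Type*} [Field K] [NumberField K]

theorem h10_embPrime_asIdeal (j : K →+* PadicAlgCl q) :
    (h10_embPrime q j).asIdeal = h10_embIdeal q j := rfl

/-- Elements of valuation one at the prime of `j` have norm one under `j`. -/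
theorem h10_norm_emb_eq_one (j : K →+* PadicAlgCl q) (y : K)
    (hy : (h10_embPrime q j).valuation K y = 1) : ‖j y‖ = 1 := by
  obtain ⟨n, d, hnd⟩ := (h10_embPrime q j).exists_primeCompl_mul_eq_of_integer y hy.le
  have hd : (d : 𝓞 K) ∉ h10_embIdeal q j := d.2
  have hvd : (h10_embPrime q j).valuation K (algebraMap (𝓞 K) K d) = 1 := by
    rw [HeightOneSpectrum.valuation_of_algebraMap,
      HeightOneSpectrum.intValuation_eq_one_iff_mem_primeCompl]
    exact d.2
  have hvn : (h10_embPrime q j).valuation K (algebraMap (𝓞 K) K n) = 1 := by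
    rw [← hnd, map_mul, hy, hvd, mul_one]
  have hn : n ∉ h10_embIdeal q j := by
    rw [HeightOneSpectrum.valuation_of_algebraMap,
      HeightOneSpectrum.intValuation_eq_one_iff_mem_primeCompl] at hvn
    exact hvn
  rw [h10_not_mem_embIdeal] at hd hn
  have h := congrArg (fun z => ‖j z‖) hnd
  simp only [map_mul, norm_mul] at h
  have e1 : algebraMap (𝓞 K) K (d : 𝓞 K) = ((d : 𝓞 K) : K) := rfl
  have e2 : algebraMap (𝓞 K) K n = (n : K) := rfl
  rw [e1, e2, hd, hn, mul_one] at h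
  exact h

/-- The ramification index of the prime of `j` over `q`, read off from the valuation of `q`. -/
noncomputable def h10_embRam (j : K →+* PadicAlgCl q) : ℕ :=
  (-(WithZero.log ((h10_embPrime q j).valuation K ((q : ℕ) : K)))).toNat

theorem h10_valuation_q_lt_one (j : K →+* PadicAlgCl q) :
    (h10_embPrime q j).valuation K ((q : ℕ) : K) < 1 := by
  have h := h10_natCast_mem_embIdeal q j
  have e : ((q : ℕ) : K) = algebraMap (𝓞 K) K ((q : ℕ) : 𝓞 K) := by simp
  rw [e, HeightOneSpectrum.valuation_lt_one_iff_mem]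
  exact h

theorem h10_q_ne_zero : ((q : ℕ) : K) ≠ 0 :=
  Nat.cast_ne_zero.mpr (Fact.out : q.Prime).ne_zero

theorem h10_embRam_spec (j : K →+* PadicAlgCl q) :
    (h10_embPrime q j).valuation K ((q : ℕ) : K) = WithZero.exp (-(h10_embRam q j : ℤ)) ∧
      0 < h10_embRam q j := by
  have hne : (h10_embPrime q j).valuation K ((q : ℕ) : K) ≠ 0 := by
    rw [Ne, Valuation.zero_iff]
    exact h10_q_ne_zero q
  have hlt := h10_valuation_q_lt_one q j
  rw [← WithZero.exp_log hne] at hlt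
  have hlog : WithZero.log ((h10_embPrime q j).valuation K ((q : ℕ) : K)) < 0 := by
    rw [← WithZero.exp_zero] at hlt
    exact WithZero.exp_lt_exp.mp hlt
  have hnat : ((h10_embRam q j : ℕ) : ℤ)
      = -(WithZero.log ((h10_embPrime q j).valuation K ((q : ℕ) : K))) := by
    rw [h10_embRam]
    exact Int.toNat_of_nonneg (by omega)
  refine ⟨?_, ?_⟩
  · rw [hnat, neg_neg, WithZero.exp_log hne]
  · have : (0 : ℤ) < (h10_embRam q j : ℤ) := by rw [hnat]; omega
    exact_mod_cast this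

/-- The norm under `j` is the normalised `v_j`-adic absolute value. -/
theorem h10_norm_emb_pow (j : K →+* PadicAlgCl q) (x : K) (hx : x ≠ 0) :
    ‖j x‖ ^ (h10_embRam q j) =
      (q : ℝ) ^ (WithZero.log ((h10_embPrime q j).valuation K x)) := by
  set v := h10_embPrime q j with hv
  set e := h10_embRam q j with he
  obtain ⟨hq, hepos⟩ := h10_embRam_spec q j
  have hvx : v.valuation K x ≠ 0 := by
    rw [Ne, Valuation.zero_iff]; exact hx
  set m := WithZero.log (v.valuation K x) with hm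
  have hvx' : v.valuation K x = WithZero.exp m := (WithZero.exp_log hvx).symm
  have hy : v.valuation K (x ^ e * ((q : ℕ) : K) ^ m) = 1 := by
    rw [map_mul, map_pow, map_zpow₀, hvx', hq, ← WithZero.exp_nsmul, ← WithZero.exp_zsmul,
      ← WithZero.exp_add, ← WithZero.exp_zero]
    congr 1
    simp only [nsmul_eq_mul, smul_eq_mul]
    ring
  have h1 := h10_norm_emb_eq_one q j _ hy
  rw [map_mul, map_pow, map_zpow₀, norm_mul, norm_pow, norm_zpow, map_natCast,
    h10_norm_natCast_q, inv_zpow] at h1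
  have hqpos : (0 : ℝ) < (q : ℝ) := by exact_mod_cast (Fact.out : q.Prime).pos
  have hqm : ((q : ℝ) ^ m) ≠ 0 := zpow_ne_zero _ hqpos.ne'
  field_simp at h1
  exact h1

end Formula

section Aut

variable (q : ℕ) [Fact q.Prime] {K : Type*} [Field K] [NumberField K]

/-- Automorphisms of `PadicAlgCl q` over `ℚ_[q]` are isometries. -/
theorem h10_norm_aut (τ : PadicAlgCl q ≃ₐ[ℚ_[q]] PadicAlgCl q) (y : PadicAlgCl q) :
    ‖τ y‖ = ‖y‖ := by
  rw [← PadicAlgCl.spectralNorm_eq, ← PadicAlgCl.spectralNorm_eq]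
  exact (spectralNorm_eq_of_equiv τ y).symm

theorem h10_embPrime_comp_aut (τ : PadicAlgCl q ≃ₐ[ℚ_[q]] PadicAlgCl q)
    (j : K →+* PadicAlgCl q) :
    h10_embPrime q ((τ : PadicAlgCl q →+* PadicAlgCl q).comp j) = h10_embPrime q j := by
  apply HeightOneSpectrum.ext
  ext x
  rw [h10_mem_embPrime, h10_mem_embPrime]
  have : ((τ : PadicAlgCl q →+* PadicAlgCl q).comp j) (x : K) = τ (j (x : K)) := rfl
  rw [this, h10_norm_aut]

theorem h10_embRam_congr (j j' : K →+* PadicAlgCl q)
    (h : h10_embPrime q j = h10_embPrime q j') : h10_embRam q j = h10_embRam q j' := by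
  unfold h10_embRam
  rw [h]

/-- Embeddings with the same prime induce the same absolute value. -/
theorem h10_norm_eq_of_embPrime_eq (j j' : K →+* PadicAlgCl q)
    (h : h10_embPrime q j = h10_embPrime q j') (x : K) : ‖j x‖ = ‖j' x‖ := by
  by_cases hx : x = 0
  · simp [hx]
  have h1 := h10_norm_emb_pow q j x hx
  have h2 := h10_norm_emb_pow q j' x hx
  rw [h10_embRam_congr q j j' h, h] at h1
  have hpos := (h10_embRam_spec q j').2
  exact (pow_left_inj₀ (norm_nonneg _) (norm_nonneg _) hpos.ne').mp (h1.trans h2.symm)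

end Aut

section Conj

variable (q : ℕ) [Fact q.Prime] {K : Type*} [Field K] [NumberField K]

/-- Evaluating a rational approximation of a polynomial over `ℚ_[q]`. -/
theorem h10_approx_aeval (g : Polynomial ℚ_[q]) (b : ℕ → ℚ) (δ : ℝ)
    (hb : ∀ i, ‖g.coeff i - (b i : ℚ_[q])‖ ≤ δ) (y : PadicAlgCl q) (M : ℝ) (hM1 : 1 ≤ M)
    (hyM : ‖y‖ ≤ M) :
    ‖(∑ i ∈ Finset.range (g.natDegree + 1), ((b i : ℚ) : PadicAlgCl q) * y ^ i)
        - Polynomial.aeval y g‖ ≤ (g.natDegree + 1 : ℕ) * (δ * M ^ g.natDegree) := by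
  rw [Polynomial.aeval_eq_sum_range, ← Finset.sum_sub_distrib]
  have hδ : 0 ≤ δ := le_trans (norm_nonneg _) (hb 0)
  calc ‖∑ i ∈ Finset.range (g.natDegree + 1),
          (((b i : ℚ) : PadicAlgCl q) * y ^ i - g.coeff i • y ^ i)‖
      ≤ ∑ i ∈ Finset.range (g.natDegree + 1),
          ‖((b i : ℚ) : PadicAlgCl q) * y ^ i - g.coeff i • y ^ i‖ := norm_sum_le _ _
    _ ≤ ∑ i ∈ Finset.range (g.natDegree + 1), δ * M ^ g.natDegree := by
        apply Finset.sum_le_sum
        intro i hi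
        have hi' : i ≤ g.natDegree := by
          have := Finset.mem_range.mp hi
          omega
        have e : ((b i : ℚ) : PadicAlgCl q) * y ^ i - g.coeff i • y ^ i
            = algebraMap ℚ_[q] (PadicAlgCl q) ((b i : ℚ_[q]) - g.coeff i) * y ^ i := by
          rw [Algebra.smul_def, map_sub, map_ratCast, sub_mul]
        rw [e, norm_mul, PadicAlgCl.norm_extends, norm_pow, norm_sub_rev]
        have h1 : ‖y‖ ^ i ≤ M ^ g.natDegree :=
          calc ‖y‖ ^ i ≤ M ^ i := pow_le_pow_left₀ (norm_nonneg _) hyM i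
            _ ≤ M ^ g.natDegree := pow_le_pow_right₀ hM1 hi'
        exact mul_le_mul (hb i) h1 (pow_nonneg (norm_nonneg _) _) hδ
    _ = (g.natDegree + 1 : ℕ) * (δ * M ^ g.natDegree) := by
        rw [Finset.sum_const, Finset.card_range, nsmul_eq_mul]

/-- Two embeddings with the same prime are conjugate under `Gal(PadicAlgCl q / ℚ_[q])`. -/
theorem h10_exists_aut_of_embPrime_eq (j j' : K →+* PadicAlgCl q)
    (h : h10_embPrime q j = h10_embPrime q j') :
    ∃ τ : PadicAlgCl q ≃ₐ[ℚ_[q]] PadicAlgCl q,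
      j' = (τ : PadicAlgCl q →+* PadicAlgCl q).comp j := by
  have hnorm : ∀ x : K, ‖j x‖ = ‖j' x‖ := h10_norm_eq_of_embPrime_eq q j j' h
  obtain ⟨θ, hθ⟩ := Field.exists_primitive_element ℚ K
  have hint : IsIntegral ℚ_[q] (j θ) := Algebra.IsIntegral.isIntegral _
  set g := minpoly ℚ_[q] (j θ) with hg
  have hroot : Polynomial.aeval (j' θ) g = 0 := by
    by_contra hne
    set c := ‖Polynomial.aeval (j' θ) g‖ with hc
    have hcpos : 0 < c := norm_pos_iff.mpr hne
    set M := max ‖j θ‖ 1 with hM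
    have hM1 : 1 ≤ M := le_max_right _ _
    have hMpos : 0 < M := lt_of_lt_of_le one_pos hM1
    have hyM : ‖j θ‖ ≤ M := le_max_left _ _
    have hyM' : ‖j' θ‖ ≤ M := by rw [← hnorm]; exact hyM
    set n := g.natDegree with hn
    have hden : 0 < 4 * ((n + 1 : ℕ) : ℝ) * M ^ n := by positivity
    set δ := c / (4 * ((n + 1 : ℕ) : ℝ) * M ^ n) with hδ
    have hδpos : 0 < δ := div_pos hcpos hden
    have hbound : ((n + 1 : ℕ) : ℝ) * (δ * M ^ n) = c / 4 := by
      rw [hδ]
      field_simp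
    choose b hb using fun i : ℕ => Padic.rat_dense q (g.coeff i) hδpos
    set x : K := ∑ i ∈ Finset.range (n + 1), ((b i : ℚ) : K) * θ ^ i with hx
    have hjx : ∀ j₀ : K →+* PadicAlgCl q,
        j₀ x = ∑ i ∈ Finset.range (n + 1), ((b i : ℚ) : PadicAlgCl q) * (j₀ θ) ^ i := by
      intro j₀
      rw [hx, map_sum]
      apply Finset.sum_congr rfl
      intro i _
      rw [map_mul, map_pow, map_ratCast]
    have h1 := h10_approx_aeval q g b δ (fun i => (hb i).le) (j θ) M hM1 hyM
    have h2 := h10_approx_aeval q g b δ (fun i => (hb i).le) (j' θ) M hM1 hyM'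
    rw [← hn, hbound, ← hjx] at h1 h2
    rw [hg, minpoly.aeval, sub_zero] at h1
    have h3 : c - ‖j' x‖ ≤ c / 4 := by
      have := norm_sub_norm_le (Polynomial.aeval (j' θ) g) (j' x)
      rw [norm_sub_rev] at this
      exact this.trans h2
    have h4 := hnorm x
    linarith
  have hconj : IsConjRoot ℚ_[q] (j' θ) (j θ) := by
    rw [isConjRoot_def]
    exact (minpoly.eq_of_irreducible_of_monic (minpoly.irreducible hint) hroot
      (minpoly.monic hint)).symm
  obtain ⟨τ, hτ⟩ := hconj.exists_algEquiv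
  refine ⟨τ, ?_⟩
  have hadj : Algebra.adjoin ℚ {θ} = ⊤ := by
    have h1 := IntermediateField.adjoin_simple_toSubalgebra_of_isAlgebraic
      (IsAlgebraic.of_finite ℚ θ)
    rw [hθ] at h1
    rw [← h1]
    rfl
  have key : (j'.toRatAlgHom) = (((τ : PadicAlgCl q →+* PadicAlgCl q).comp j).toRatAlgHom) := by
    apply AlgHom.ext_of_adjoin_eq_top hadj
    intro y hy
    rw [Set.mem_singleton_iff] at hy
    subst hy
    change j' y = τ (j y)
    exact hτ.symm
  ext y
  exact DFunLike.congr_fun key y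

end Conj

section Surj

variable (q : ℕ) [Fact q.Prime] {K : Type*} [Field K] [NumberField K]

/-- Every prime of `𝓞 K` above `q` comes from an embedding `K → PadicAlgCl q`. -/
theorem h10_exists_emb_of_prime (v : HeightOneSpectrum (𝓞 K))
    (hv : ((q : ℕ) : 𝓞 K) ∈ v.asIdeal) :
    ∃ j : K →+* PadicAlgCl q, h10_embPrime q j = v := by
  classical
  by_contra hcon
  rw [not_exists] at hcon
  obtain ⟨j₀⟩ : Nonempty (K →+* PadicAlgCl q) := inferInstance
  -- prime avoidance
  have hnot : ¬ ((v.asIdeal : Set (𝓞 K)) ⊆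
      ⋃ j ∈ ((Finset.univ : Finset (K →+* PadicAlgCl q)) : Set (K →+* PadicAlgCl q)),
        ((h10_embPrime q j).asIdeal : Set (𝓞 K))) := by
    rw [Ideal.subset_union_prime (f := fun j => (h10_embPrime q j).asIdeal) j₀ j₀
      (fun j _ _ _ => (h10_embPrime q j).isPrime)]
    rintro ⟨j, -, hle⟩
    apply hcon j
    apply HeightOneSpectrum.ext
    exact (v.isMaximal.eq_of_le (h10_embPrime q j).isPrime.ne_top hle).symm
  rw [Set.not_subset] at hnot
  obtain ⟨x, hxv, hx⟩ := hnot
  have hx1 : ∀ j : K →+* PadicAlgCl q, ‖j (x : K)‖ = 1 := by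
    intro j
    rw [← h10_not_mem_embIdeal]
    intro hmem
    apply hx
    simp only [Set.mem_iUnion]
    exact ⟨j, by simp, hmem⟩
  -- the norm of `x` is a `q`-adic unit
  have hprod := Algebra.norm_eq_prod_embeddings ℚ (PadicAlgCl q) (x : K)
  have hnormprod : ‖algebraMap ℚ (PadicAlgCl q) (Algebra.norm ℚ (x : K))‖ = 1 := by
    rw [hprod, norm_prod]
    apply Finset.prod_eq_one
    intro σ _
    exact hx1 (σ : K →+* PadicAlgCl q)
  set m : ℤ := Algebra.norm ℤ x with hm
  have hmq : Algebra.norm ℚ (x : K) = (m : ℚ) := (Algebra.coe_norm_int x).symm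
  rw [hmq] at hnormprod
  have e1 : algebraMap ℚ (PadicAlgCl q) (m : ℚ)
      = algebraMap ℚ_[q] (PadicAlgCl q) ((m : ℤ) : ℚ_[q]) := by
    simp
  rw [e1, PadicAlgCl.norm_extends, Padic.norm_intCast_eq_one_iff] at hnormprod
  -- but the norm lies in `v`
  have hmem : ((m.natAbs : ℕ) : 𝓞 K) ∈ v.asIdeal := by
    have h1 := Ideal.absNorm_mem (Ideal.span {x})
    rw [Ideal.absNorm_span_singleton] at h1
    have hle : Ideal.span {x} ≤ v.asIdeal := by
      rw [Ideal.span_singleton_le_iff_mem]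
      exact hxv
    exact hle h1
  have hcop : IsCoprime ((m.natAbs : ℕ) : ℤ) (q : ℤ) := by
    rw [Int.isCoprime_iff_gcd_eq_one] at hnormprod ⊢
    rw [← hnormprod]
    simp [Int.gcd, Int.natAbs_abs]
  obtain ⟨a, b, hab⟩ := hcop
  have h1 : ((a : ℤ) : 𝓞 K) * ((m.natAbs : ℕ) : 𝓞 K) + ((b : ℤ) : 𝓞 K) * ((q : ℕ) : 𝓞 K)
      = 1 := by
    have := congrArg (fun z : ℤ => (z : 𝓞 K)) hab
    simpa using this
  have h2 : (1 : 𝓞 K) ∈ v.asIdeal := by
    rw [← h1]
    exact v.asIdeal.add_mem (v.asIdeal.mul_mem_left _ hmem) (v.asIdeal.mul_mem_left _ hv)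
  exact v.isPrime.ne_top ((Ideal.eq_top_iff_one _).mpr h2)

end Surj

section Iff

variable (q : ℕ) [Fact q.Prime] {K : Type*} [Field K] [NumberField K]

theorem h10_norm_emb_le_one_iff (j : K →+* PadicAlgCl q) (x : K) :
    ‖j x‖ ≤ 1 ↔ (h10_embPrime q j).valuation K x ≤ 1 := by
  by_cases hx : x = 0
  · simp [hx]
  have hpow := h10_norm_emb_pow q j x hx
  have hepos := (h10_embRam_spec q j).2
  have hvx : (h10_embPrime q j).valuation K x ≠ 0 := by
    rw [Ne, Valuation.zero_iff]; exact hx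
  have hq1 : (1 : ℝ) < q := by exact_mod_cast (Fact.out : q.Prime).one_lt
  rw [← pow_le_one_iff_of_nonneg (norm_nonneg _) hepos.ne', hpow, zpow_le_one_iff_right₀ hq1]
  conv_rhs => rw [← WithZero.exp_log hvx, ← WithZero.exp_zero, WithZero.exp_le_exp]

theorem h10_norm_emb_eq_one_iff (j : K →+* PadicAlgCl q) (x : K) :
    ‖j x‖ = 1 ↔ (h10_embPrime q j).valuation K x = 1 := by
  constructor
  · intro h
    have hx : x ≠ 0 := by
      rintro rfl
      simp at h
    have h1 := (h10_norm_emb_le_one_iff q j x).mp h.le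
    have h2 := (h10_norm_emb_le_one_iff q j x⁻¹).mp (by rw [map_inv₀, norm_inv, h, inv_one])
    rw [map_inv₀] at h2
    have hvx : (h10_embPrime q j).valuation K x ≠ 0 := by
      rw [Ne, Valuation.zero_iff]; exact hx
    apply le_antisymm h1
    have := (inv_le_one₀ (zero_lt_iff.mpr hvx)).mp h2
    exact this
  · exact h10_norm_emb_eq_one q j x

end Iff


end Fermat.Agent.S55
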