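import Fermat.Agent.S55.h10_EmbPrimeOrb
import Fermat.Agent.S55.h28_SemilocJq

/-!
# S55, GLOB dictionary, part 3: the semi-local module `J_q(L)` in terms of primes

`h28_Jq_semilocal` (helper28) with its exponent (the number of `σ`-stable Galois orbits of
embeddings `L →+* PadicAlgCl q`) rewritten as the number of `σ`-fixed primes of `L` above `q`
(the exponent of the `T`-unit theorem `h92_sunits_index`).
-/

set_option autoImplicit false

open NumberField IsDedekindDomain

namespace Fermat.Agent.S55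

section Jq

variable (q : ℕ) [Fact q.Prime] {L : Type*} [Field L] [NumberField L]

attribute [local instance] h28_embAction

omit [NumberField L] in
theorem h10_toRingEquiv_pow {K : Type*} [Field K] [Algebra K L] (σ : L ≃ₐ[K] L) (n : ℕ)
    (x : L) : ((σ : L ≃+* L) ^ n) x = (σ ^ n) x := by
  induction n generalizing x with
  | zero => rfl
  | succ n ih =>
    rw [pow_succ, pow_succ, RingAut.mul_apply, ih, AlgEquiv.mul_apply]
    rfl

/-- The number of `σ`-stable Galois orbits of embeddings `L →+* PadicAlgCl q` (in the shape of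
`h28_Jq_semilocal`) is the number of `σ`-fixed primes of `L` above `q`. -/
theorem h10_card_stable_orbits_embPerm {K : Type*} [Field K] [Algebra K L] (σ : L ≃ₐ[K] L) :
    Nat.card {O : MulAction.orbitRel.Quotient (PadicAlgCl q ≃ₐ[ℚ_[q]] PadicAlgCl q)
        (L →+* PadicAlgCl q) //
          h28_orbMap (h28_embPerm q L (σ : L ≃+* L)) (h28_embPerm_comm q (σ : L ≃+* L)) O = O}
      = {w : HeightOneSpectrum (𝓞 L) |
          ((q : ℕ) : 𝓞 L) ∈ w.asIdeal ∧ h92_galPrime σ w = w}.ncard :=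
  h10_card_stable_orbits q (fun τ => τ) Function.surjective_id (fun _ _ => rfl) σ
    (h28_embPerm q L (σ : L ≃+* L)) (fun _ => rfl) (h28_embPerm_comm q (σ : L ≃+* L))

/-- **The semi-local module `J_q(L)` of a cyclic extension of prime degree, in terms of primes**:
`ker N = D J_q(L)` and `[J_q(L)^σ : N J_q(L)] = p ^ #{σ-fixed primes of L above q}`, given the
local class field axiom `hLOC`. -/
theorem h10_Jq_semilocal_primes {K : Type*} [Field K] [Algebra K L] {p : ℕ} (hp : p.Prime)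
    (σ : L ≃ₐ[K] L) (hσp : σ ^ p = 1) (hσ1 : σ ≠ 1)
    (hLOC : ∀ (K E : Type) [Field K] [Field E] [Algebra ℚ_[q] K] [Algebra ℚ_[q] E] [Algebra K E]
      [IsScalarTower ℚ_[q] K E] [FiniteDimensional ℚ_[q] E] [IsGalois K E]
      [IsCyclic (E ≃ₐ[K] E)],
      (Units.map (Algebra.norm K : E →* K)).range.index = Module.finrank K E) :
    h92_hq (h28_sN (PadicAlgCl q)ˣ (h28_embPerm q L (σ : L ≃+* L)) p)
        (h28_sD (PadicAlgCl q)ˣ (h28_embPerm q L (σ : L ≃+* L)))
        (h28_eqv (PadicAlgCl q ≃ₐ[ℚ_[q]] PadicAlgCl q) (L →+* PadicAlgCl q) (PadicAlgCl q)ˣ) = 1 ∧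
    h92_hq (h28_sD (PadicAlgCl q)ˣ (h28_embPerm q L (σ : L ≃+* L)))
        (h28_sN (PadicAlgCl q)ˣ (h28_embPerm q L (σ : L ≃+* L)) p)
        (h28_eqv (PadicAlgCl q ≃ₐ[ℚ_[q]] PadicAlgCl q) (L →+* PadicAlgCl q) (PadicAlgCl q)ˣ)
      = p ^ {w : HeightOneSpectrum (𝓞 L) |
          ((q : ℕ) : 𝓞 L) ∈ w.asIdeal ∧ h92_galPrime σ w = w}.ncard := by
  have hσp' : (σ : L ≃+* L) ^ p = 1 := by
    ext x
    rw [h10_toRingEquiv_pow, hσp]
    rfl
  have hσ1' : (σ : L ≃+* L) ≠ 1 := by
    intro h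
    apply hσ1
    ext x
    exact congrArg (fun f : L ≃+* L => f x) h
  have key := h28_Jq_semilocal q hp (σ : L ≃+* L) hσp' hσ1' hLOC
  rw [h10_card_stable_orbits_embPerm q σ] at key
  exact key

end Jq

end Fermat.Agent.S55
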