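import Fermat.Agent.S55.h10_RecipFP1
import Fermat.Agent.S55.h33_GlobKumDefs
import Fermat.Agent.S55.h46_SelmerFinite

/-!
# S55, GLOB-UNORM (R1), assembly helper: the divisor of an element in the class module

For `x : Kˣ` the diagonal element `(dJ x, div x)` is trivial in `C_K`, hence in `C_K ⊗ ℤ_(p)`

  `∑_w ord_w(x) • [w] = - [(dJ x, 0)]`.

In the shape needed for the reciprocity sum (`a_w = toAdd (w.valuationOfNeZero x) = - ord_w x`,
`c_w` = the class of the prime `w`, possibly extended to a bigger field `E`):

* `h10_divClass_div` : `h10_divClass p S K (h25_div K S x) = - j (mk (dJ x, 1))`;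
* `h10_div_apply` : `h25_div K S x w = - toAdd (w.1.valuationOfNeZero x)`;
* `h10_sum_primeClass` : `∑ w ∈ s, toAdd (w.valuationOfNeZero x) • c_w = j (ext (mk (dJ x, 1)))`
  for every finite set `s` of primes containing the support of `div x`.
-/

set_option autoImplicit false
set_option linter.unusedSectionVars false

open IsDedekindDomain NumberField
open scoped nonZeroDivisors

namespace Fermat.Agent.S55

noncomputable section

section RecipDiv

variable (p : ℕ) [Fact p.Prime] (S : Finset Nat.Primes) {K : Type*} [Field K] [NumberField K]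

/-- The prime-to-`S` divisor of `x` at `w`, in terms of `valuationOfNeZero`. -/
theorem h10_div_apply (x : Kˣ) (w : h25_Pl K S) :
    h25_div K S x w = -Multiplicative.toAdd (w.1.valuationOfNeZero x) := by
  unfold h25_div
  rw [h25_divIdeal_apply, h46_valuationOfNeZero_eq_count, toAdd_ofAdd, neg_neg]

/-- The class of the divisor of `x` is minus the class of its `J`-part. -/
theorem h10_divClass_div (x : Kˣ) :
    h10_divClass p S K (h25_div K S x)
      = -h2_PL.j (p := p) (Additive.ofMul (h25_mk K S (h33_dJ K S x, 1))) := by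
  rw [eq_neg_iff_add_eq_zero, h10_divClass_apply, ← map_add, ← ofMul_mul, ← map_mul]
  have h1 : ((1 : h25_J K S), Multiplicative.ofAdd (h25_div K S x)) * (h33_dJ K S x, 1)
      = h25_diag K S x := by
    rw [Prod.mk_mul_mk, one_mul, mul_one]
    rfl
  rw [h1, h25_mk_diag]
  exact map_zero _

/-- The divisor of `x` as a combination of primes, in `C_K ⊗ ℤ_(p)`. -/
theorem h10_sum_primeClass_base (x : Kˣ) (s : Finset (h25_Pl K S))
    (hs : (h25_div K S x).support ⊆ s) :
    ∑ w ∈ s, Multiplicative.toAdd (w.1.valuationOfNeZero x) •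
        h10_divClass p S K (Finsupp.single w 1)
      = h2_PL.j (p := p) (Additive.ofMul (h25_mk K S (h33_dJ K S x, 1))) := by
  classical
  have h1 : h25_div K S x = ∑ w ∈ s, Finsupp.single w (h25_div K S x w) := by
    ext v
    rw [Finsupp.finsetSum_apply]
    simp only [Finsupp.single_apply]
    rw [Finset.sum_ite_eq' s v]
    by_cases hv : v ∈ s
    · rw [if_pos hv]
    · rw [if_neg hv]
      by_contra hne
      exact hv (hs (Finsupp.mem_support_iff.2 hne))
  have h2 := h10_divClass_div p S x
  rw [h1, map_sum] at h2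
  rw [← neg_eq_iff_eq_neg] at h2
  rw [← h2, ← Finset.sum_neg_distrib]
  refine Finset.sum_congr rfl fun w _ => ?_
  have h3 : Finsupp.single w (h25_div K S x w)
      = (h25_div K S x w) • Finsupp.single w (1 : ℤ) := by
    rw [Finsupp.smul_single, smul_eq_mul, mul_one]
  rw [h3, map_zsmul, h10_div_apply, neg_smul, neg_neg]

variable {E : Type*} [Field E] [NumberField E]

/-- **The reciprocity sum is a `J`-class**: for `x : Kˣ`, a finite set `s` of primes of `K`
(not above `S`) containing the support of the divisor of `x`, and a field embedding `f : K → E`,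
`∑_{w ∈ s} toAdd (w.valuationOfNeZero x) • [w]_E = [(dJ x, 1)]_E` in `C_E ⊗ ℤ_(p)`. -/
theorem h10_sum_primeClass (f : K →+* E) (x : Kˣ) (s : Finset (h25_Pl K S))
    (hs : (h25_div K S x).support ⊆ s) :
    ∑ w ∈ s, Multiplicative.toAdd (w.1.valuationOfNeZero x) •
        h2_PL.j (p := p) (Additive.ofMul (h25_Cmap S f
          (h25_mk K S (1, Multiplicative.ofAdd (Finsupp.single w 1)))))
      = h2_PL.j (p := p) (Additive.ofMul (h25_Cmap S f (h25_mk K S (h33_dJ K S x, 1)))) := by
  have h := congrArg (h2_PL.map (p := p) (MonoidHom.toAdditive (h25_Cmap S f)))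
    (h10_sum_primeClass_base p S x s hs)
  rw [map_sum, h2_PL.map_j] at h
  rw [← show (MonoidHom.toAdditive (h25_Cmap S f)) (Additive.ofMul (h25_mk K S (h33_dJ K S x, 1)))
    = Additive.ofMul (h25_Cmap S f (h25_mk K S (h33_dJ K S x, 1))) from rfl, ← h]
  refine Finset.sum_congr rfl fun w _ => ?_
  rw [map_zsmul, h10_divClass_apply, h2_PL.map_j]
  rfl

end RecipDiv

end

end Fermat.Agent.S55
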