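import Fermat.Agent.S55.h28_GlobAct
import Fermat.Agent.S55.h81_GlobDescX
import Fermat.Agent.S55.h90_GlobCAct
import Fermat.Agent.S55.h12_Cup
import Fermat.Agent.S55.h2_PLoc

/-!
# S55, GLOB-UNORM (R1), Frobenius pairs: the class of a prime is a relative norm (FP1)

For a Galois extension `E/K` of number fields (types), unramified outside `S`, a prime `w` of `K`
not above `S`, a prime `W` of `E` above `w` and a subgroup `H` of `Gal(E/K)` containing the
decomposition group of `W`: the class of `w` in `C_E ⊗ ℤ_(p)` is a relative norm from `H`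
(`h12_IsRelNorm H`).  This is condition (FP1) of `h24_FrobPair` for the pair `([w], Frob_W)`:
if `Frob_W ∈ H` then the decomposition group `⟨Frob_W⟩` lies in `H`.

* `h10_divClass p S E : Div_E →+ C_E ⊗ ℤ_(p)`, equivariant (`h10_divClass_smul`);
* `h10_orbDiv S H W` : the sum of the primes in the `H`-orbit of `W`;
* `h10_sum_orbDiv` : `∑_{q ∈ G/H} q • orbDiv = ext [w]`;
* `h10_recip_fp1` : the statement.
-/

set_option autoImplicit false
set_option linter.unusedSectionVars false

open IsDedekindDomain NumberField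
open scoped nonZeroDivisors

namespace Fermat.Agent.S55

noncomputable section

/-! ### The class of a divisor in the localised class module -/

section DivClass

variable (p : ℕ) [Fact p.Prime] (S : Finset Nat.Primes) (E : Type*) [Field E] [NumberField E]

/-- The class of a divisor prime to `S` in `C_E ⊗ ℤ_(p)`. -/
def h10_divClass : h25_Div E S →+ h2_PL p (Additive (h25_C E S)) where
  toFun d := h2_PL.j (Additive.ofMul (h25_mk E S (1, Multiplicative.ofAdd d)))
  map_zero' := by
    have h1 : ((1 : h25_J E S), Multiplicative.ofAdd (0 : h25_Div E S)) = 1 := rfl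
    rw [h1, map_one]
    exact map_zero _
  map_add' a b := by
    have h1 : ((1 : h25_J E S), Multiplicative.ofAdd (a + b))
        = (1, Multiplicative.ofAdd a) * (1, Multiplicative.ofAdd b) := by
      rw [Prod.mk_mul_mk, one_mul, ofAdd_add]
    rw [h1, map_mul, ofMul_mul, map_add]

theorem h10_divClass_apply (d : h25_Div E S) :
    h10_divClass p S E d = h2_PL.j (Additive.ofMul (h25_mk E S (1, Multiplicative.ofAdd d))) :=
  rfl

variable {E}

/-- The class map is functorial for field embeddings. -/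
theorem h10_divClass_map {E' : Type*} [Field E'] [NumberField E'] (f : E →+* E')
    (d : h25_Div E S) :
    h2_PL.map (MonoidHom.toAdditive (h25_Cmap S f)) (h10_divClass p S E d)
      = h10_divClass p S E' (h25_Dmap S f d) := by
  rw [h10_divClass_apply, h2_PL.map_j, h10_divClass_apply]
  congr 1
  refine congrArg Additive.ofMul ?_
  have hX : h25_Xmap S f (1, Multiplicative.ofAdd d)
      = (1, Multiplicative.ofAdd (h25_Dmap S f d)) :=
    Prod.ext (map_one (h25_Jmap S f)) rfl
  exact (h66_Cmap_mk S f _).trans (congrArg (h25_mk E' S) hX)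

/-- The class map is Galois equivariant. -/
theorem h10_divClass_smul {K : Type*} [Field K] [Algebra K E] (σ : E ≃ₐ[K] E)
    (d : h25_Div E S) :
    σ • h10_divClass p S E d = h10_divClass p S E (h25_Dmap S (σ : E →+* E) d) := by
  rw [h10_divClass_apply, ← h2_PL.j_smul, h10_divClass_apply]
  congr 1
  refine congrArg Additive.ofMul ?_
  have hX : h25_Xmap S (σ : E →+* E) (1, Multiplicative.ofAdd d)
      = (1, Multiplicative.ofAdd (h25_Dmap S (σ : E →+* E) d)) :=
    Prod.ext (map_one (h25_Jmap S (σ : E →+* E))) rfl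
  exact (h66_Cmap_mk S (σ : E →+* E) _).trans (congrArg (h25_mk E S) hX)

end DivClass

/-! ### Orbit divisors -/

section Orb

variable {K : Type*} [Field K] [NumberField K] {E : Type*} [Field E] [NumberField E]
  [Algebra K E] (S : Finset Nat.Primes)

open Classical in
/-- The sum of the primes in the `H`-orbit of `W`. -/
def h10_orbDiv (H : Subgroup (E ≃ₐ[K] E)) (W : h25_Pl E S) : h25_Div E S :=
  Finsupp.ofSupportFinite
    (fun W' => if ∃ h ∈ H, W' = h28_plMap S h W then (1 : ℤ) else 0)
    (by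
      have hfin : (Set.range fun h : E ≃ₐ[K] E => h28_plMap S h W).Finite := Set.finite_range _
      refine hfin.subset ?_
      intro W' hW'
      rw [Function.mem_support] at hW'
      by_contra hcon
      apply hW'
      rw [if_neg]
      rintro ⟨h, -, rfl⟩
      exact hcon ⟨h, rfl⟩)

open Classical in
theorem h10_orbDiv_apply (H : Subgroup (E ≃ₐ[K] E)) (W W' : h25_Pl E S) :
    h10_orbDiv S H W W' = if ∃ h ∈ H, W' = h28_plMap S h W then (1 : ℤ) else 0 := rfl

/-- The orbit divisor is `H`-invariant. -/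
theorem h10_orbDiv_fixed (H : Subgroup (E ≃ₐ[K] E)) (W : h25_Pl E S) (h : E ≃ₐ[K] E)
    (hh : h ∈ H) : h25_Dmap S (h : E →+* E) (h10_orbDiv S H W) = h10_orbDiv S H W := by
  classical
  ext W'
  obtain ⟨v, rfl⟩ := h28_plMap_surjective S h W'
  rw [h28_Dmap_apply, h10_orbDiv_apply, h10_orbDiv_apply]
  congr 1
  rw [eq_iff_iff]
  constructor
  · rintro ⟨h', hh', rfl⟩
    exact ⟨h * h', H.mul_mem hh hh', (h28_plMap_mul S h h' W).symm⟩
  · rintro ⟨h', hh', hv⟩
    refine ⟨h⁻¹ * h', H.mul_mem (H.inv_mem hh) hh', ?_⟩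
    rw [h28_plMap_mul, ← hv, ← h28_plMap_mul, inv_mul_cancel, h28_plMap_one]

open Classical in
/-- `ext [w]` evaluated at a prime `W'` of `E`. -/
theorem h10_Dmap_single_apply (w : h25_Pl K S) (W' : h25_Pl E S) :
    h25_Dmap S (algebraMap K E) (Finsupp.single w 1) W'
      = if h81_underPl S (algebraMap K E) W' = w then
          (W'.1.asIdeal.ramificationIdx (𝓞 K) : ℤ) else 0 := by
  rw [h81_Dmap_apply, h81_count_algebraMap, Finsupp.single_apply]
  by_cases h : h81_underPl S (algebraMap K E) W' = w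
  · rw [if_pos h, if_pos h.symm, one_mul]
  · rw [if_neg h, if_neg (fun h' => h h'.symm), zero_mul]

/-- The prime under `σ W` is the prime under `W`. -/
theorem h10_underPl_plMap (σ : E ≃ₐ[K] E) (W : h25_Pl E S) :
    h81_underPl S (algebraMap K E) (h28_plMap S σ W) = h81_underPl S (algebraMap K E) W := by
  apply Subtype.ext
  show h81_under (algebraMap K E) (h92_galPrime σ W.1) = h81_under (algebraMap K E) W.1
  rw [h81_under_algebraMap, h81_under_algebraMap, h10_under_galPrime]

/-- Transitivity of the Galois action on the primes (not above `S`) over a given prime. -/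
theorem h10_exists_plMap_eq [IsGalois K E] (W W' : h25_Pl E S)
    (h : h81_underPl S (algebraMap K E) W' = h81_underPl S (algebraMap K E) W) :
    ∃ g : E ≃ₐ[K] E, W' = h28_plMap S g W := by
  have h1 : W.1.under (𝓞 K) = W'.1.under (𝓞 K) := by
    have h2 := congrArg Subtype.val h
    change h81_under (algebraMap K E) W'.1 = h81_under (algebraMap K E) W.1 at h2
    rw [h81_under_algebraMap, h81_under_algebraMap] at h2
    exact h2.symm
  obtain ⟨g, hg⟩ := h10_exists_galPrime_of_under_eq W.1 W'.1 h1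
  exact ⟨g, Subtype.ext hg⟩

/-- **Orbit sum** (transversal form): if `T` is a transversal of `H` in `Gal(E/K)`, the
decomposition group of `W` lies in `H` and the primes over `w` are unramified, then
`∑_{t ∈ T} t (∑_{W' ∈ H·W} [W']) = ext [w]`. -/
theorem h10_sum_orbDiv [IsGalois K E] (H : Subgroup (E ≃ₐ[K] E)) (W : h25_Pl E S)
    (hunr : ∀ W' : h25_Pl E S,
      h81_underPl S (algebraMap K E) W' = h81_underPl S (algebraMap K E) W →
        W'.1.asIdeal.ramificationIdx (𝓞 K) = 1)
    (hH : ∀ τ : E ≃ₐ[K] E, h28_plMap S τ W = W → τ ∈ H)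
    (T : Finset (E ≃ₐ[K] E)) (hT : ∀ g : E ≃ₐ[K] E, ∃! t, t ∈ T ∧ t⁻¹ * g ∈ H) :
    ∑ t ∈ T, h25_Dmap S ((t : E ≃ₐ[K] E) : E →+* E) (h10_orbDiv S H W)
      = h25_Dmap S (algebraMap K E) (Finsupp.single (h81_underPl S (algebraMap K E) W) 1) := by
  classical
  ext W'
  rw [Finsupp.finsetSum_apply, h10_Dmap_single_apply]
  have hterm : ∀ t : E ≃ₐ[K] E, h25_Dmap S ((t : E ≃ₐ[K] E) : E →+* E) (h10_orbDiv S H W) W'
      = if ∃ h ∈ H, h28_plMap S t⁻¹ W' = h28_plMap S h W then (1 : ℤ) else 0 := by
    intro t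
    have h1 := h28_Dmap_apply S t (h10_orbDiv S H W) (h28_plMap S t⁻¹ W')
    rw [← h28_plMap_mul, mul_inv_cancel, h28_plMap_one] at h1
    rw [h1, h10_orbDiv_apply]
  simp only [hterm]
  by_cases hu : h81_underPl S (algebraMap K E) W' = h81_underPl S (algebraMap K E) W
  · rw [if_pos hu, hunr W' hu, Nat.cast_one]
    obtain ⟨g, rfl⟩ := h10_exists_plMap_eq S W W' hu
    obtain ⟨t₀, ⟨ht₀T, ht₀⟩, huniq⟩ := hT g
    have hiff : ∀ t ∈ T, (∃ h ∈ H, h28_plMap S t⁻¹ (h28_plMap S g W) = h28_plMap S h W) ↔ t = t₀ := by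
      intro t htT
      constructor
      · rintro ⟨h, hh, he⟩
        apply huniq t ⟨htT, ?_⟩
        have h2 : h28_plMap S (h⁻¹ * (t⁻¹ * g)) W = W := by
          rw [h28_plMap_mul, h28_plMap_mul, he, ← h28_plMap_mul, inv_mul_cancel, h28_plMap_one]
        have h3 := H.mul_mem hh (hH _ h2)
        rwa [mul_inv_cancel_left] at h3
      · rintro rfl
        exact ⟨t⁻¹ * g, ht₀, (h28_plMap_mul S t⁻¹ g W).symm⟩
    rw [Finset.sum_congr rfl (fun t ht => if_congr (hiff t ht) rfl rfl), Finset.sum_ite_eq' T t₀,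
      if_pos ht₀T]
  · rw [if_neg hu]
    apply Finset.sum_eq_zero
    intro t _
    rw [if_neg]
    rintro ⟨h, -, he⟩
    apply hu
    have h2 := congrArg (h81_underPl S (algebraMap K E)) he
    rwa [h10_underPl_plMap, h10_underPl_plMap] at h2

end Orb

/-! ### FP1 -/

section FP1

variable {K : Type*} [Field K] [NumberField K] {E : Type*} [Field E] [NumberField E]
  [Algebra K E] [IsGalois K E] (S : Finset Nat.Primes) (p : ℕ) [Fact p.Prime]

/-- The class in `C_E ⊗ ℤ_(p)` of (the extension to `E` of) a prime `w` of `K` not above `S`. -/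
theorem h10_divClass_single (w : h25_Pl K S) :
    h10_divClass p S E (h25_Dmap S (algebraMap K E) (Finsupp.single w 1))
      = h2_PL.j (Additive.ofMul (h25_Cmap S (algebraMap K E)
          (h25_mk K S (1, Multiplicative.ofAdd (Finsupp.single w 1))))) := by
  rw [← h10_divClass_map, h10_divClass_apply, h2_PL.map_j]
  rfl

/-- **FP1, transversal form**: the class of `w` is the sum over a transversal `T` of `H` of the
translates of the (`H`-invariant) class of the `H`-orbit of `W`. -/
theorem h10_fp1_transversal (H : Subgroup (E ≃ₐ[K] E)) (W : h25_Pl E S)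
    (hunr : ∀ W' : h25_Pl E S,
      h81_underPl S (algebraMap K E) W' = h81_underPl S (algebraMap K E) W →
        W'.1.asIdeal.ramificationIdx (𝓞 K) = 1)
    (hH : ∀ τ : E ≃ₐ[K] E, h28_plMap S τ W = W → τ ∈ H)
    (T : Finset (E ≃ₐ[K] E)) (hT : ∀ g : E ≃ₐ[K] E, ∃! t, t ∈ T ∧ t⁻¹ * g ∈ H) :
    (∀ h ∈ H, h • h10_divClass p S E (h10_orbDiv S H W) = h10_divClass p S E (h10_orbDiv S H W)) ∧
    h2_PL.j (p := p) (Additive.ofMul (h25_Cmap S (algebraMap K E)
        (h25_mk K S (1, Multiplicative.ofAdd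
          (Finsupp.single (h81_underPl S (algebraMap K E) W) 1)))))
      = ∑ t ∈ T, t • h10_divClass p S E (h10_orbDiv S H W) := by
  refine ⟨fun h hh => ?_, ?_⟩
  · rw [h10_divClass_smul, h10_orbDiv_fixed S H W h hh]
  · rw [← h10_divClass_single, ← h10_sum_orbDiv S H W hunr hH T hT, map_sum]
    exact Finset.sum_congr rfl fun t _ => (h10_divClass_smul p S t _).symm

/-- **FP1** (`h24_FrobPair`, first condition, for the pair `([w], Frob_W)`): the class of a prime
`w` of `K` is a relative norm from every subgroup `H'` of `Gal(E/K)` containing the decomposition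
group of a prime `W` of `E` over `w` at which `E/K` is unramified. -/
theorem h10_fp1 (w : h25_Pl K S) (W : HeightOneSpectrum (𝓞 E))
    (hW : W.asIdeal.LiesOver w.1.asIdeal) (hunr : W.asIdeal.ramificationIdx (𝓞 K) = 1)
    (H' : Subgroup (E ≃ₐ[K] E)) (hH' : ∀ τ : E ≃ₐ[K] E, h92_galPrime τ W = W → τ ∈ H') :
    h12_IsRelNorm H' (h2_PL.j (p := p) (Additive.ofMul (h25_Cmap S (algebraMap K E)
      (h25_mk K S (1, Multiplicative.ofAdd (Finsupp.single w 1)))))) := by
  classical
  -- `W` as a place not above `S`, lying over `w`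
  have hund : h81_under (algebraMap K E) W = w.1 := by
    rw [h81_under_algebraMap]
    apply HeightOneSpectrum.ext
    exact hW.over.symm
  have hWS : ¬ h25_above E S W := by
    intro h
    apply w.2
    rw [← hund]
    exact (h81_above_under S _ W).2 h
  set Wp : h25_Pl E S := ⟨W, hWS⟩ with hWp
  have hundPl : h81_underPl S (algebraMap K E) Wp = w := Subtype.ext hund
  have hunr' : ∀ W' : h25_Pl E S,
      h81_underPl S (algebraMap K E) W' = h81_underPl S (algebraMap K E) Wp →
        W'.1.asIdeal.ramificationIdx (𝓞 K) = 1 := by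
    intro W' hW'
    obtain ⟨g, rfl⟩ := h10_exists_plMap_eq S Wp W' hW'
    show (h92_galPrime g W).asIdeal.ramificationIdx (𝓞 K) = 1
    rw [h92_galPrime_asIdeal, Ideal.ramificationIdx_smul]
    exact hunr
  have hH : ∀ τ : E ≃ₐ[K] E, h28_plMap S τ Wp = Wp → τ ∈ H' :=
    fun τ hτ => hH' τ (congrArg Subtype.val hτ)
  have : Fintype ((E ≃ₐ[K] E) ⧸ H') := Fintype.ofFinite _
  -- the transversal of the `Quotient.out`s
  have hinj : Function.Injective (fun q : (E ≃ₐ[K] E) ⧸ H' => (Quotient.out q : E ≃ₐ[K] E)) := by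
    intro a b hab
    have := congrArg (fun g : E ≃ₐ[K] E => (g : (E ≃ₐ[K] E) ⧸ H')) hab
    simpa using this
  have hT : ∀ g : E ≃ₐ[K] E, ∃! t, t ∈ Finset.univ.image
      (fun q : (E ≃ₐ[K] E) ⧸ H' => (Quotient.out q : E ≃ₐ[K] E)) ∧ t⁻¹ * g ∈ H' := by
    intro g
    refine ⟨Quotient.out (g : (E ≃ₐ[K] E) ⧸ H'), ⟨Finset.mem_image.2 ⟨_, Finset.mem_univ _, rfl⟩, ?_⟩,
      ?_⟩
    · rw [← QuotientGroup.eq]
      exact QuotientGroup.out_eq' _
    · rintro t ⟨ht, htg⟩
      obtain ⟨q, -, rfl⟩ := Finset.mem_image.1 ht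
      have hq : q = (g : (E ≃ₐ[K] E) ⧸ H') := by
        rw [← QuotientGroup.out_eq' q]
        exact QuotientGroup.eq.2 htg
      show Quotient.out q = Quotient.out (g : (E ≃ₐ[K] E) ⧸ H')
      rw [hq]
  obtain ⟨hfix, hsum⟩ := h10_fp1_transversal S p H' Wp hunr' hH _ hT
  refine ⟨h10_divClass p S E (h10_orbDiv S H' Wp), hfix, ?_⟩
  rw [hundPl] at hsum
  rw [hsum, Finset.sum_image (fun a _ b _ hab => hinj hab)]
  unfold h12_relNorm
  rw [finsum_eq_sum_of_fintype]

end FP1

end

end Fermat.Agent.S55
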