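import Fermat.Agent.S55.h12_AmbDefs

/-!
# S55, Tier 3 (GLOB-AMB), formal half: from the level-wise interface to the ambient interface

`h12_exists_ambient_of_levels` : `h12_LevFacts p S Γ π K C ι J ιJ k XX e zz` gives
`h72_PTAmbient p S CC JJ XX κ ev zz` for `CC = h56_Colim C ι`, `JJ q = h56_Colim (J q) (ιJ q)`
(`G_ℚ` acting through the `π L`), `κ q = colim (k q)`, `ev q = colim (e q)`.
-/

set_option autoImplicit false
set_option linter.unusedSectionVars false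
set_option linter.unusedVariables false
set_option linter.style.haveILetI false

open CategoryTheory Module groupCohomology ExtCitation

namespace Fermat.Agent.S55

local notation "GQ" => (AlgebraicClosure ℚ ≃ₐ[ℚ] AlgebraicClosure ℚ)

noncomputable section

/-! ### transport of 2-cocycles along an isomorphism of (group, module) pairs -/

section Transport

variable {Q Γ : Type*} [Group Q] [Group Γ] (qe : Q ≃* Γ) {A B : Type*} [AddCommGroup A]
  [AddCommGroup B] [DistribMulAction Q A] [DistribMulAction Γ B] (E : B ≃+ A)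
  (hE : ∀ (x : Q) (b : B), E (qe x • b) = x • E b)

include hE

theorem h12_tr_symm_smul (x : Q) (a : A) : E.symm (x • a) = qe x • E.symm a := by
  apply E.injective
  rw [AddEquiv.apply_symm_apply, hE, AddEquiv.apply_symm_apply]

theorem h12_tr_isCocycle₂ (z : Q × Q → A) (hz : IsCocycle₂ z) :
    IsCocycle₂ (fun x : Γ × Γ => E.symm (z (qe.symm x.1, qe.symm x.2))) := by
  intro g h j
  have h1 := congrArg E.symm (hz (qe.symm g) (qe.symm h) (qe.symm j))
  rw [map_add, map_add, h12_tr_symm_smul qe E hE, MulEquiv.apply_symm_apply, ← map_mul,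
    ← map_mul] at h1
  exact h1

theorem h12_tr_isCoboundary₂ (z : Q × Q → A) (hz : IsCoboundary₂ z) :
    IsCoboundary₂ (fun x : Γ × Γ => E.symm (z (qe.symm x.1, qe.symm x.2))) := by
  obtain ⟨w, hw⟩ := hz
  refine ⟨fun γ => E.symm (w (qe.symm γ)), fun g h => ?_⟩
  have h1 := congrArg E.symm (hw (qe.symm g) (qe.symm h))
  rw [map_add, map_sub, h12_tr_symm_smul qe E hE, MulEquiv.apply_symm_apply, ← map_mul] at h1
  exact h1

theorem h12_tr_isCoboundary₂_symm (z : Q × Q → A)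
    (hz : IsCoboundary₂ (fun x : Γ × Γ => E.symm (z (qe.symm x.1, qe.symm x.2)))) :
    IsCoboundary₂ z := by
  obtain ⟨w, hw⟩ := hz
  refine ⟨fun x => E (w (qe x)), fun g h => ?_⟩
  have h1 := congrArg E (hw (qe g) (qe h))
  simp only [map_add, map_sub, AddEquiv.apply_symm_apply, MulEquiv.symm_apply_apply] at h1
  rw [hE, ← map_mul] at h1
  exact h1

end Transport

/-! ### the two kinds of levels -/

section Lev

variable {S : Finset Nat.Primes}

/-- an `h72_Lev` as an `h56_Level`. -/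
def h12_lev56 (L : h72_Lev S) : h56_Level S := ⟨L.F, L.unr, L.gal⟩

/-- an `h56_Level` as an `h72_Lev`. -/
def h12_lev72 (L : h56_Level S) : h72_Lev S := ⟨L.1, L.2.1, L.2.2⟩

theorem h12_lev56_U (L : h72_Lev S) : (h12_lev56 L).U = L.U := rfl

theorem h12_lev72_U (L : h56_Level S) : (h12_lev72 L).U = L.U := rfl

end Lev

/-! ### a level system of `Γ L`-modules as a level system of `G_ℚ`-modules -/

section Sys

variable {S : Finset Nat.Primes} {Γ : h56_Level S → Type} [∀ L, Group (Γ L)]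
  (π : ∀ L, GQ →* Γ L) (K : h56_Level S → ∀ L' : h56_Level S, Subgroup (Γ L'))
  (M : h56_Level S → Type) [∀ L, AddCommGroup (M L)] [∀ L, DistribMulAction (Γ L) (M L)]
  [∀ L, DistribMulAction GQ (M L)]
  (ι : ∀ L L' : h56_Level S, L ≤ L' → M L →+ M L')
  (hπ : ∀ L, Function.Surjective (π L)) (hker : ∀ L, (π L).ker = L.U)
  (hK : ∀ (L L' : h56_Level S), L ≤ L' → ∀ g : GQ, π L' g ∈ K L L' ↔ g ∈ L.U)
  (hact : ∀ (L : h56_Level S) (g : GQ) (m : M L), g • m = π L g • m)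

include hker hact in
theorem h12_sys_fix : ∀ (L : h56_Level S), ∀ s ∈ L.U, ∀ c : M L, s • c = c := by
  intro L s hs c
  have h1 : π L s = 1 := MonoidHom.mem_ker.1 (by rw [hker]; exact hs)
  rw [hact, h1, one_smul]

include hπ hK hact in
theorem h12_sys_desc
    (hdesc : ∀ (L L' : h56_Level S) (h : L ≤ L') (c' : M L'),
      (∀ t ∈ K L L', t • c' = c') → c' ∈ (ι L L' h).range) :
    ∀ (L L' : h56_Level S) (h : L ≤ L') (c' : M L'), (∀ s ∈ L.U, s • c' = c') →
      c' ∈ (ι L L' h).range := by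
  intro L L' h c' hc'
  refine hdesc L L' h c' fun t ht => ?_
  obtain ⟨g, rfl⟩ := hπ L' t
  rw [← hact]
  exact hc' g ((hK L L' h g).1 ht)

include hπ hker in
theorem h12_finite_Γ (L : h56_Level S) : Finite (Γ L) :=
  Finite.of_surjective (fun x : GQ ⧸ L.U => h56_quotEquiv L.U (π L) (hπ L) (hker L) x)
    (MulEquiv.surjective _)

end Sys

/-! ### the ambient system -/

section Amb

variable {p : ℕ} [Fact p.Prime] {S : Finset Nat.Primes}
  {Γ : h56_Level S → Type} [∀ L, Group (Γ L)] {π : ∀ L, GQ →* Γ L}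
  {K : h56_Level S → ∀ L' : h56_Level S, Subgroup (Γ L')}
  {C : h56_Level S → Type} [∀ L, AddCommGroup (C L)] [∀ L, DistribMulAction (Γ L) (C L)]
  {ι : ∀ L L' : h56_Level S, L ≤ L' → C L →+ C L'}
  {J : ↥S → h56_Level S → Type} [∀ q L, AddCommGroup (J q L)]
  [∀ q L, DistribMulAction (Γ L) (J q L)]
  {ιJ : ∀ (q : ↥S) (L L' : h56_Level S), L ≤ L' → J q L →+ J q L'}
  {k : ∀ (q : ↥S) (L : h56_Level S), J q L →+ C L}
  {XX : ↥S → Type} [∀ q, AddCommGroup (XX q)]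
  [∀ q : ↥S, DistribMulAction (primeLocalGaloisGroup q.1) (XX q)]
  {e : ∀ (q : ↥S) (L : h56_Level S), J q L →+ XX q} {zz : ∀ q, XX q}
  [∀ L, DistribMulAction GQ (C L)] [∀ q L, DistribMulAction GQ (J q L)]
  [h56_IsLevelSys C ι] [h56_IsEquivSys GQ C ι]
  [∀ q, h56_IsLevelSys (J q) (ιJ q)] [∀ q, h56_IsEquivSys GQ (J q) (ιJ q)]
  (hF : h12_LevFacts p S Γ π K C ι J ιJ k XX e zz)
  (hactC : ∀ (L : h56_Level S) (g : GQ) (c : C L), g • c = π L g • c)
  (hactJ : ∀ (q : ↥S) (L : h56_Level S) (g : GQ) (y : J q L), g • y = π L g • y)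

/-- `κ q : JJ q →+ CC`. -/
def h12_κ (hF : h12_LevFacts p S Γ π K C ι J ιJ k XX e zz) (q : ↥S) :
    h56_Colim (J q) (ιJ q) →+ h56_Colim C ι :=
  h56_Colim.map (J q) (ιJ q) (k q) (fun L L' h y => hF.k_ι q L L' h y)

/-- `ev q : JJ q →+ XX q`. -/
def h12_ev (hF : h12_LevFacts p S Γ π K C ι J ιJ k XX e zz) (q : ↥S) :
    h56_Colim (J q) (ιJ q) →+ XX q :=
  h56_Colim.lift (J q) (ιJ q) (e q) (fun L L' h y => hF.e_ι q L L' h y)

theorem h12_κ_of (q : ↥S) (L : h56_Level S) (y : J q L) :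
    h12_κ hF q (h56_Colim.of (J q) (ιJ q) L y) = h56_Colim.of C ι L (k q L y) :=
  h56_Colim.map_of (J q) (ιJ q) (k q) _ L y

theorem h12_ev_of (q : ↥S) (L : h56_Level S) (y : J q L) :
    h12_ev hF q (h56_Colim.of (J q) (ιJ q) L y) = e q L y :=
  h56_Colim.lift_of (J q) (ιJ q) (e q) _ L y

/-- the level `L` class module as the `L.U`-invariants of `CC`. -/
def h12_EC (L : h56_Level S) : C L ≃+ h56_Inv L.U (h56_Colim C ι) :=
  h56_Colim.equivInv C ι h56_Level.U hF.ι_inj (h12_sys_fix π C hF.π_ker hactC)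
    (h12_sys_desc π K C ι hF.π_surj hF.K_mem hactC hF.ι_desc) L

/-- the level `L` semi-local module as the `L.U`-invariants of `JJ q`. -/
def h12_EJ (q : ↥S) (L : h56_Level S) : J q L ≃+ h56_Inv L.U (h56_Colim (J q) (ιJ q)) :=
  h56_Colim.equivInv (J q) (ιJ q) h56_Level.U (hF.ιJ_inj q) (h12_sys_fix π (J q) hF.π_ker (hactJ q))
    (h12_sys_desc π K (J q) (ιJ q) hF.π_surj hF.K_mem (hactJ q) (hF.ιJ_desc q)) L

theorem h12_EC_coe (L : h56_Level S) (c : C L) :
    ((h12_EC hF hactC L c : h56_Inv L.U (h56_Colim C ι)) : h56_Colim C ι) =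
      h56_Colim.of C ι L c := rfl

theorem h12_EJ_coe (q : ↥S) (L : h56_Level S) (y : J q L) :
    ((h12_EJ hF hactJ q L y : h56_Inv L.U (h56_Colim (J q) (ιJ q))) : h56_Colim (J q) (ιJ q)) =
      h56_Colim.of (J q) (ιJ q) L y := rfl

theorem h12_EC_smul (L : h56_Level S) (g : GQ) (c : C L) :
    h12_EC hF hactC L (π L g • c) = (g : GQ ⧸ L.U) • h12_EC hF hactC L c := by
  rw [← hactC]
  exact h56_Colim.equivInv_mk_smul C ι h56_Level.U _ _ _ L g c

theorem h12_EJ_smul (q : ↥S) (L : h56_Level S) (g : GQ) (y : J q L) :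
    h12_EJ hF hactJ q L (π L g • y) = (g : GQ ⧸ L.U) • h12_EJ hF hactJ q L y := by
  rw [← hactJ]
  exact h56_Colim.equivInv_mk_smul (J q) (ιJ q) h56_Level.U _ _ _ L g y

/-- `G_ℚ ⧸ L.U ≃* Γ L`. -/
def h12_qe (hF : h12_LevFacts p S Γ π K C ι J ιJ k XX e zz) (L : h56_Level S) :
    GQ ⧸ L.U ≃* Γ L :=
  h56_quotEquiv L.U (π L) (hF.π_surj L) (hF.π_ker L)

theorem h12_EC_qe (L : h56_Level S) (x : GQ ⧸ L.U) (c : C L) :
    h12_EC hF hactC L (h12_qe hF L x • c) = x • h12_EC hF hactC L c := by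
  induction x using QuotientGroup.induction_on with
  | H g => exact h12_EC_smul hF hactC L g c

theorem h12_EJ_qe (q : ↥S) (L : h56_Level S) (x : GQ ⧸ L.U) (y : J q L) :
    h12_EJ hF hactJ q L (h12_qe hF L x • y) = x • h12_EJ hF hactJ q L y := by
  induction x using QuotientGroup.induction_on with
  | H g => exact h12_EJ_smul hF hactJ q L g y

/-! #### smoothness -/

include hF hactC in
theorem h12_amb_cc_smooth (c : h56_Colim C ι) : ∃ L : h72_Lev S, ∀ s ∈ L.U, s • c = c := by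
  obtain ⟨L, -, hL⟩ := h56_Colim.exists_mem_Inv C ι h56_Level.U
    (h12_sys_fix π C hF.π_ker hactC) (Classical.arbitrary _) c
  exact ⟨h12_lev72 L, hL⟩

include hF hactJ in
theorem h12_amb_jj_smooth (q : ↥S) (y : h56_Colim (J q) (ιJ q)) :
    ∃ L : h72_Lev S, ∀ s ∈ L.U, s • y = y := by
  obtain ⟨L, -, hL⟩ := h56_Colim.exists_mem_Inv (J q) (ιJ q) h56_Level.U
    (h12_sys_fix π (J q) hF.π_ker (hactJ q)) (Classical.arbitrary _) y
  exact ⟨h12_lev72 L, hL⟩

/-! #### class formation -/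

include hF hactC in
theorem h12_amb_cc_class56 (L : h56_Level S) :
    IsPClassModule p (GQ ⧸ L.U) (h56_Inv L.U (h56_Colim C ι)) := by
  haveI := h12_finite_Γ π hF.π_surj hF.π_ker L
  exact h56_isPClassModule_transport (π L) (hF.π_surj L) (hF.π_ker L) (h12_EC hF hactC L)
    (h12_EC_smul hF hactC L) (hF.cf L)

include hF hactC in
theorem h12_amb_cc_class (L : h72_Lev S) :
    IsPClassModule p (GQ ⧸ L.U) (h56_Inv L.U (h56_Colim C ι)) :=
  h12_amb_cc_class56 hF hactC (h12_lev56 L)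

/-! #### existence mod `p`, finiteness -/

include hF hactC in
theorem h12_amb_cc_ex56 (L : h56_Level S) :
    ∃ (L' : h56_Level S) (h : L ≤ L'), ∀ c' : h56_Inv L'.U (h56_Colim C ι),
      ∃ c : h56_Inv L.U (h56_Colim C ι),
        ∑ᶠ s : (h56_quotMap (h56_Level.U_anti h)).ker, (s : GQ ⧸ L'.U) • c' =
          h56_invIncl (h56_Level.U_anti h) (p • c) := by
  obtain ⟨L', hLL', hex⟩ := hF.ex L
  refine ⟨L', hLL', fun c' => ?_⟩
  obtain ⟨c, hc⟩ := hex ((h12_EC hF hactC L').symm c')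
  refine ⟨h12_EC hF hactC L c, ?_⟩
  have h1 := h56_finsum_ker_transport (π L') (hF.π_surj L') (hF.π_ker L')
    (h56_Level.U_anti hLL') (h12_EC hF hactC L') (h12_EC_smul hF hactC L') (K L L')
    (hF.K_mem L L' hLL') ((h12_EC hF hactC L').symm c')
  rw [AddEquiv.apply_symm_apply] at h1
  rw [h1, hc, ← map_nsmul]
  exact (h56_Colim.invIncl_equivInv C ι h56_Level.U _ _ _ L L' hLL' (h56_Level.U_anti hLL')
    (p • c)).symm

include hF hactC in
theorem h12_amb_cc_fin56 (L : h56_Level S) :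
    Finite {c : h56_Colim C ι // (∀ s ∈ L.U, s • c = c) ∧ p • c = 0} := by
  haveI := hF.fin L
  have hmem : ∀ c : {c : h56_Colim C ι // (∀ s ∈ L.U, s • c = c) ∧ p • c = 0},
      p • (h12_EC hF hactC L).symm ⟨c.1, c.2.1⟩ = 0 := by
    intro c
    rw [← map_nsmul]
    have h0 : p • (⟨c.1, c.2.1⟩ : h56_Inv L.U (h56_Colim C ι)) = 0 := Subtype.ext c.2.2
    rw [h0, map_zero]
  refine Finite.of_injective
    (fun c : {c : h56_Colim C ι // (∀ s ∈ L.U, s • c = c) ∧ p • c = 0} =>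
      (⟨(h12_EC hF hactC L).symm ⟨c.1, c.2.1⟩, hmem c⟩ : {c : C L // p • c = 0})) ?_
  intro c d hcd
  have h0 : (h12_EC hF hactC L).symm ⟨c.1, c.2.1⟩ = (h12_EC hF hactC L).symm ⟨d.1, d.2.1⟩ :=
    congrArg Subtype.val hcd
  have h1 : (⟨c.1, c.2.1⟩ : h56_Inv L.U (h56_Colim C ι)) = ⟨d.1, d.2.1⟩ :=
    (h12_EC hF hactC L).symm.injective h0
  exact Subtype.ext (Subtype.mk.inj h1)

/-! #### `κ`, `ev` -/

include hactC hactJ in
theorem h12_amb_κ_smul (q : ↥S) (g : GQ) (y : h56_Colim (J q) (ιJ q)) :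
    h12_κ hF q (g • y) = g • h12_κ hF q y :=
  h56_Colim.map_smul (J q) (ιJ q) (k q) _ (fun L g y => by rw [hactJ, hactC, hF.k_smul]) g y

include hactJ in
theorem h12_amb_ev_smul (q : ↥S) (τ : primeLocalGaloisGroup q.1)
    (y : h56_Colim (J q) (ιJ q)) :
    h12_ev hF q (primeLocalToGlobal q.1 τ • y) = τ • h12_ev hF q y := by
  obtain ⟨L, a, rfl⟩ := h56_Colim.exists_of (J q) (ιJ q) y
  rw [← h56_Colim.of_smul, h12_ev_of, h12_ev_of, hactJ, hF.e_smul]

include hactJ in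
theorem h12_amb_ev_bij (q : ↥S) (φ : GQ → XX q)
    (h1 : ∀ (τ : primeLocalGaloisGroup q.1) (g : GQ),
      φ (primeLocalToGlobal q.1 τ * g) = τ • φ g)
    (h2 : ∃ L : h72_Lev S, ∀ g s, s ∈ L.U → φ (g * s) = φ g) :
    ∃! y : h56_Colim (J q) (ιJ q), ∀ g : GQ, h12_ev hF q (g • y) = φ g := by
  obtain ⟨L₀, hL₀⟩ := h2
  obtain ⟨a, ha, -⟩ := hF.e_bij q (h12_lev56 L₀) φ h1 hL₀
  refine ⟨h56_Colim.of (J q) (ιJ q) (h12_lev56 L₀) a, fun g => ?_, fun y hy => ?_⟩
  · rw [← h56_Colim.of_smul, h12_ev_of, hactJ]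
    exact ha g
  · obtain ⟨L, hL, b, rfl⟩ := h56_Colim.exists_of_ge (J q) (ιJ q) (h12_lev56 L₀) y
    have hφL : ∀ g s, s ∈ L.U → φ (g * s) = φ g :=
      fun g s hs => hL₀ g s (h56_Level.U_anti hL hs)
    obtain ⟨c, -, hc⟩ := hF.e_bij q L φ h1 hφL
    have e1 : b = c := hc b (fun g => by
      have h3 := hy g
      rwa [← h56_Colim.of_smul, h12_ev_of, hactJ] at h3)
    have e2 : ιJ q _ L hL a = c := hc _ (fun g => by
      rw [← hF.ιJ_smul, hF.e_ι]
      exact ha g)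
    rw [e1, ← e2, h56_Colim.of_ι]

/-! #### the Kummer sequence -/

theorem h12_exists_common (L₀ : h56_Level S) (y : ∀ q : ↥S, h56_Colim (J q) (ιJ q)) :
    ∃ (L : h56_Level S) (_ : L₀ ≤ L) (a : ∀ q : ↥S, J q L),
      ∀ q, h56_Colim.of (J q) (ιJ q) L (a q) = y q := by
  classical
  choose Lq aq haq using fun q => h56_Colim.exists_of (J q) (ιJ q) (y q)
  obtain ⟨L, hL⟩ := Finset.exists_le (Finset.univ.image Lq ∪ {L₀})
  have h0 : L₀ ≤ L := hL L₀ (by simp)
  have hq : ∀ q, Lq q ≤ L := fun q => hL (Lq q) (by simp)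
  exact ⟨L, h0, fun q => ιJ q (Lq q) L (hq q) (aq q), fun q => by rw [h56_Colim.of_ι, haq]⟩

include hactJ in
theorem h12_amb_kum_diag (y : ∀ q : ↥S, h56_Colim (J q) (ιJ q))
    (hy : ∀ (q : ↥S) (g : GQ),
      h12_ev hF q (g • y q) = (cycloChar p g : ZMod p).val • zz q) :
    ∑ q : ↥S, h12_κ hF q (y q) = 0 := by
  obtain ⟨L, -, a, ha⟩ := h12_exists_common (Classical.arbitrary _) y
  have h1 : ∑ q : ↥S, k q L (a q) = 0 := hF.kum_diag L a (fun q g => by
    rw [← hactJ, ← h12_ev_of hF, h56_Colim.of_smul, ha]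
    exact hy q g)
  calc ∑ q : ↥S, h12_κ hF q (y q) = ∑ q : ↥S, h56_Colim.of C ι L (k q L (a q)) :=
        Finset.sum_congr rfl (fun q _ => by rw [← ha q, h12_κ_of])
    _ = h56_Colim.of C ι L (∑ q : ↥S, k q L (a q)) := (map_sum _ _ _).symm
    _ = 0 := by rw [h1, map_zero]

include hactJ in
theorem h12_amb_kum_ker (y : ∀ q : ↥S, h56_Colim (J q) (ιJ q)) (hy : ∀ q, p • y q = 0)
    (hs : ∑ q : ↥S, h12_κ hF q (y q) = 0) :
    ∃ n : ℕ, ∀ (q : ↥S) (g : GQ),
      h12_ev hF q (g • y q) = (n * (cycloChar p g : ZMod p).val) • zz q := by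
  obtain ⟨L, -, a, ha⟩ := h12_exists_common (Classical.arbitrary _) y
  have h1 : ∀ q, p • a q = 0 := fun q => by
    apply h56_Colim.of_injective (J q) (ιJ q) (hF.ιJ_inj q) L
    rw [map_nsmul, ha, hy, map_zero]
  have h2 : ∑ q : ↥S, k q L (a q) = 0 := by
    apply h56_Colim.of_injective C ι hF.ι_inj L
    rw [map_sum, map_zero, ← hs]
    exact Finset.sum_congr rfl (fun q _ => by rw [← ha q, h12_κ_of])
  obtain ⟨n, hn⟩ := hF.kum_ker L a h1 h2
  refine ⟨n, fun q g => ?_⟩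
  rw [← ha q, ← h56_Colim.of_smul, h12_ev_of, hactJ]
  exact hn q g

theorem h12_amb_kum_cap (c : h56_Colim C ι) (hc : p • c = 0) :
    ∃ y : ∀ q : ↥S, h56_Colim (J q) (ιJ q),
      (∀ q, p • y q = 0) ∧ ∑ q : ↥S, h12_κ hF q (y q) = c := by
  obtain ⟨L, cL, rfl⟩ := h56_Colim.exists_of C ι c
  have h1 : p • cL = 0 := by
    apply h56_Colim.of_injective C ι hF.ι_inj L
    rw [map_nsmul, hc, map_zero]
  obtain ⟨L', h, y, hy, hsum⟩ := hF.kum_cap L cL h1
  refine ⟨fun q => h56_Colim.of (J q) (ιJ q) L' (y q),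
    fun q => by rw [← map_nsmul, hy, map_zero], ?_⟩
  calc ∑ q : ↥S, h12_κ hF q (h56_Colim.of (J q) (ιJ q) L' (y q))
      = ∑ q : ↥S, h56_Colim.of C ι L' (k q L' (y q)) :=
        Finset.sum_congr rfl (fun q _ => h12_κ_of hF q L' (y q))
    _ = h56_Colim.of C ι L' (∑ q : ↥S, k q L' (y q)) := (map_sum _ _ _).symm
    _ = h56_Colim.of C ι L cL := by rw [hsum, h56_Colim.of_ι]

/-! #### universal norms -/

include hactC hactJ in
theorem h12_amb_unorm56 (L : h56_Level S) :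
    ∃ (L' : h56_Level S) (h : L ≤ L'), ∀ c' : h56_Inv L'.U (h56_Colim C ι), p • c' = 0 →
      ∃ y : ∀ q : ↥S, h56_Colim (J q) (ιJ q), (∀ q, p • y q = 0) ∧
        (∀ q, ∀ s ∈ L.U, s • y q = y q) ∧
        ((∑ᶠ s : (h56_quotMap (h56_Level.U_anti h)).ker, (s : GQ ⧸ L'.U) • c' :
          h56_Inv L'.U (h56_Colim C ι)) :
          h56_Colim C ι) = ∑ q : ↥S, h12_κ hF q (y q) := by
  obtain ⟨L', hLL', hun⟩ := hF.unorm L
  refine ⟨L', hLL', fun c' hc' => ?_⟩
  have hb : p • (h12_EC hF hactC L').symm c' = 0 := by rw [← map_nsmul, hc', map_zero]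
  obtain ⟨y, hy, hsum⟩ := hun _ hb
  refine ⟨fun q => h56_Colim.of (J q) (ιJ q) L (y q),
    fun q => by rw [← map_nsmul, hy, map_zero],
    fun q => h56_Colim.of_mem_Inv (J q) (ιJ q) h56_Level.U
      (h12_sys_fix π (J q) hF.π_ker (hactJ q)) L (y q), ?_⟩
  have h1 := h56_finsum_ker_transport (π L') (hF.π_surj L') (hF.π_ker L')
    (h56_Level.U_anti hLL') (h12_EC hF hactC L') (h12_EC_smul hF hactC L') (K L L')
    (hF.K_mem L L' hLL') ((h12_EC hF hactC L').symm c')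
  rw [AddEquiv.apply_symm_apply] at h1
  rw [h1, hsum, h12_EC_coe, h56_Colim.of_ι, map_sum]
  exact Finset.sum_congr rfl (fun q _ => (h12_κ_of hF q L (y q)).symm)

/-! #### `β` -/

include hactC hactJ in
theorem h12_amb_beta56 (q : ↥S) (L : h56_Level S)
    (hκ : ∀ (g : GQ) (y : h56_Colim (J q) (ιJ q)), h12_κ hF q (g • y) = g • h12_κ hF q y)
    (z : (GQ ⧸ L.U) × (GQ ⧸ L.U) → h56_Inv L.U (h56_Colim (J q) (ιJ q))) (hz : IsCocycle₂ z)
    (hcob : IsCoboundary₂ (fun x => h56_Inv.map (U := L.U) (h12_κ hF q) hκ (z x))) :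
    ∃ m : ℕ, m.Coprime p ∧ IsCoboundary₂ (m • z) := by
  have hz'c := h12_tr_isCocycle₂ (h12_qe hF L) (h12_EJ hF hactJ q L) (h12_EJ_qe hF hactJ q L) z hz
  have hkey : ∀ a : h56_Inv L.U (h56_Colim (J q) (ιJ q)),
      (h12_EC hF hactC L).symm (h56_Inv.map (U := L.U) (h12_κ hF q) hκ a) =
        k q L ((h12_EJ hF hactJ q L).symm a) := by
    intro a
    apply (h12_EC hF hactC L).injective
    rw [AddEquiv.apply_symm_apply]
    apply Subtype.ext
    rw [h12_EC_coe, h56_Inv.coe_map, ← h12_κ_of hF, ← h12_EJ_coe hF hactJ,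
      AddEquiv.apply_symm_apply]
  have h1 := h12_tr_isCoboundary₂ (h12_qe hF L) (h12_EC hF hactC L) (h12_EC_qe hF hactC L) _ hcob
  have h2 : IsCoboundary₂ (fun x : Γ L × Γ L => k q L ((h12_EJ hF hactJ q L).symm
      (z ((h12_qe hF L).symm x.1, (h12_qe hF L).symm x.2)))) := by
    have h3 : (fun x : Γ L × Γ L => k q L ((h12_EJ hF hactJ q L).symm
        (z ((h12_qe hF L).symm x.1, (h12_qe hF L).symm x.2)))) =
        fun x : Γ L × Γ L => (h12_EC hF hactC L).symm (h56_Inv.map (U := L.U) (h12_κ hF q) hκ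
          (z ((h12_qe hF L).symm x.1, (h12_qe hF L).symm x.2))) :=
      funext fun x => (hkey _).symm
    rw [h3]
    exact h1
  obtain ⟨m, hm, hcobm⟩ := hF.beta q L _ hz'c h2
  refine ⟨m, hm, h12_tr_isCoboundary₂_symm (h12_qe hF L) (h12_EJ hF hactJ q L)
    (h12_EJ_qe hF hactJ q L) (m • z) ?_⟩
  have h4 : (fun x : Γ L × Γ L => (h12_EJ hF hactJ q L).symm
      ((m • z) ((h12_qe hF L).symm x.1, (h12_qe hF L).symm x.2))) =
      m • fun x : Γ L × Γ L => (h12_EJ hF hactJ q L).symm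
        (z ((h12_qe hF L).symm x.1, (h12_qe hF L).symm x.2)) := by
    funext x
    simp only [Pi.smul_apply, map_nsmul]
  rw [h4]
  exact hcobm

/-! #### assembly -/

include hactC hactJ in
theorem h12_ambient_of_levels_aux :
    h72_PTAmbient p S (h56_Colim C ι) (fun q => h56_Colim (J q) (ιJ q)) XX (h12_κ hF)
      (h12_ev hF) zz where
  cc_smooth := h12_amb_cc_smooth hF hactC
  cc_class := h12_amb_cc_class hF hactC
  cc_ex := fun L => by
    obtain ⟨L', h, H⟩ := h12_amb_cc_ex56 hF hactC (h12_lev56 L)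
    exact ⟨h12_lev72 L', h, H⟩
  cc_fin := fun L => h12_amb_cc_fin56 hF hactC (h12_lev56 L)
  jj_smooth := h12_amb_jj_smooth hF hactJ
  κ_smul := h12_amb_κ_smul hF hactC hactJ
  ev_smul := h12_amb_ev_smul hF hactJ
  ev_bij := h12_amb_ev_bij hF hactJ
  xx_tors := hF.xx_tors
  zz_tors := hF.zz_tors
  zz_ne := hF.zz_ne
  zz_smul := hF.zz_smul
  loc_dual := hF.loc_dual
  loc_inf := hF.loc_inf
  kum_diag := h12_amb_kum_diag hF hactJ
  kum_ker := h12_amb_kum_ker hF hactJ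
  kum_cap := h12_amb_kum_cap hF
  unorm := fun L => by
    obtain ⟨L', h, H⟩ := h12_amb_unorm56 hF hactC hactJ (h12_lev56 L)
    exact ⟨h12_lev72 L', h, H⟩
  beta := fun q L z hz hcob => h12_amb_beta56 hF hactC hactJ q (h12_lev56 L) _ z hz hcob

end Amb

/-! ### the theorem -/

section Final

variable {p : ℕ} [Fact p.Prime] {S : Finset Nat.Primes}
  {Γ : h56_Level S → Type} [∀ L, Group (Γ L)] {π : ∀ L, GQ →* Γ L}
  {K : h56_Level S → ∀ L' : h56_Level S, Subgroup (Γ L')}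
  {C : h56_Level S → Type} [∀ L, AddCommGroup (C L)] [∀ L, DistribMulAction (Γ L) (C L)]
  {ι : ∀ L L' : h56_Level S, L ≤ L' → C L →+ C L'}
  {J : ↥S → h56_Level S → Type} [∀ q L, AddCommGroup (J q L)]
  [∀ q L, DistribMulAction (Γ L) (J q L)]
  {ιJ : ∀ (q : ↥S) (L L' : h56_Level S), L ≤ L' → J q L →+ J q L'}
  {k : ∀ (q : ↥S) (L : h56_Level S), J q L →+ C L}
  {XX : ↥S → Type} [∀ q, AddCommGroup (XX q)]
  [∀ q : ↥S, DistribMulAction (primeLocalGaloisGroup q.1) (XX q)]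
  {e : ∀ (q : ↥S) (L : h56_Level S), J q L →+ XX q} {zz : ∀ q, XX q}

/-- **GLOB-AMB, formal half**: the level-wise interface gives the ambient interface
(with the same local modules `XX q` and the same `zz q`). -/
theorem h12_exists_ambient_of_levels
    (hF : h12_LevFacts p S Γ π K C ι J ιJ k XX e zz) :
    ∃ (CC : Type) (_ : AddCommGroup CC) (_ : DistribMulAction GQ CC)
      (JJ : ↥S → Type) (_ : ∀ q, AddCommGroup (JJ q)) (_ : ∀ q, DistribMulAction GQ (JJ q))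
      (κ : ∀ q, JJ q →+ CC) (ev : ∀ q, JJ q →+ XX q),
      h72_PTAmbient p S CC JJ XX κ ev zz := by
  letI : ∀ L, DistribMulAction GQ (C L) := fun L => DistribMulAction.compHom (C L) (π L)
  letI : ∀ q L, DistribMulAction GQ (J q L) :=
    fun q L => DistribMulAction.compHom (J q L) (π L)
  haveI : h56_IsLevelSys C ι := ⟨hF.ι_refl, hF.ι_trans⟩
  haveI : h56_IsEquivSys GQ C ι := ⟨fun L L' h g c => hF.ι_smul L L' h g c⟩
  haveI : ∀ q, h56_IsLevelSys (J q) (ιJ q) := fun q => ⟨hF.ιJ_refl q, hF.ιJ_trans q⟩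
  haveI : ∀ q, h56_IsEquivSys GQ (J q) (ιJ q) :=
    fun q => ⟨fun L L' h g y => hF.ιJ_smul q L L' h g y⟩
  exact ⟨h56_Colim C ι, inferInstance, inferInstance, fun q => h56_Colim (J q) (ιJ q),
    inferInstance, inferInstance, h12_κ hF, h12_ev hF,
    h12_ambient_of_levels_aux hF (fun _ _ _ => rfl) (fun _ _ _ _ => rfl)⟩

/-- The form of `glob_exists_ambient` (skeleton of the assembly layer). -/
theorem h12_glob_exists_ambient_of_levels
    (hF : h12_LevFacts p S Γ π K C ι J ιJ k XX e zz) :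
    ∃ (CC : Type) (_ : AddCommGroup CC) (_ : DistribMulAction GQ CC)
      (JJ : ↥S → Type) (_ : ∀ q, AddCommGroup (JJ q)) (_ : ∀ q, DistribMulAction GQ (JJ q))
      (XX : ↥S → Type) (_ : ∀ q, AddCommGroup (XX q))
      (_ : ∀ q : ↥S, DistribMulAction (primeLocalGaloisGroup q.1) (XX q))
      (κ : ∀ q, JJ q →+ CC) (ev : ∀ q, JJ q →+ XX q) (zz : ∀ q, XX q),
      h72_PTAmbient p S CC JJ XX κ ev zz := by
  obtain ⟨CC, i1, i2, JJ, i3, i4, κ, ev, h⟩ := h12_exists_ambient_of_levels hF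
  exact ⟨CC, i1, i2, JJ, i3, i4, XX, inferInstance, inferInstance, κ, ev, zz, h⟩

end Final

end

end Fermat.Agent.S55
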