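import Mathlib

/-!
# Rank form of the Herbrand quotient for a cyclic action of prime order

For a finitely generated abelian group `E` with an automorphism `s`, `s ^ p = 1` (`p` prime),
put `D = s - 1` and `N = 1 + s + ... + s^(p-1)`. If `a = rank (ker D)` (the rank of the fixed
points) and `rank E = a + (p - 1) * b`, then both `[ker D : N E]` and `[ker N : D E]` are finite and
`p ^ a * [ker N : D E] = p ^ b * [ker D : N E]`,
i.e. the Herbrand quotient `|H^0| / |H^1|` is `p ^ (a - b)`: it depends only on the two ranks.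
-/

namespace Fermat.Agent.S55

open Polynomial Finset Module

/-! ### Two polynomial identities -/

/-- `(X - 1)^(p-1) ≡ 1 + X + ... + X^(p-1)` modulo `p`. -/
theorem h12_poly_I1 (p : ℕ) (hp : p.Prime) :
    ∃ U : ℤ[X], (X - 1 : ℤ[X]) ^ (p - 1) = (∑ i ∈ range p, X ^ i) + C (p : ℤ) * U := by
  have := Fact.mk hp
  set q : ℤ[X] := (X - 1) ^ (p - 1) - ∑ i ∈ range p, X ^ i with hq
  have hmap : q.map (Int.castRingHom (ZMod p)) = 0 := by
    have h1 : q.map (Int.castRingHom (ZMod p)) * (X - 1) = 0 := by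
      have e1 : q.map (Int.castRingHom (ZMod p)) =
          (X - 1 : (ZMod p)[X]) ^ (p - 1) - ∑ i ∈ range p, X ^ i := by
        simp [hq, Polynomial.map_sub, Polynomial.map_pow, Polynomial.map_sum]
      rw [e1, sub_mul, geom_sum_mul, ← pow_succ, Nat.sub_add_cancel hp.one_le, sub_pow_char,
        one_pow, sub_self]
    rcases mul_eq_zero.mp h1 with h | h
    · exact h
    · exact absurd h (X_sub_C_ne_zero (1 : ZMod p))
  have hdvd : C (p : ℤ) ∣ q := by
    rw [C_dvd_iff_dvd_coeff]
    intro i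
    have := congrArg (fun f => f.coeff i) hmap
    simp only [coeff_map, coeff_zero, eq_intCast] at this
    exact (ZMod.intCast_zmod_eq_zero_iff_dvd _ p).mp this
  obtain ⟨U, hU⟩ := hdvd
  exact ⟨U, by rw [← hU, hq]; ring⟩

/-- `p` lies in the ideal generated by `(X - 1)^(p-1)` and `1 + X + ... + X^(p-1)`. -/
theorem h12_poly_I2 (p : ℕ) (hp : p.Prime) :
    ∃ W V : ℤ[X], C (p : ℤ) = (X - 1 : ℤ[X]) ^ (p - 1) * W + (∑ i ∈ range p, X ^ i) * V := by
  have := Fact.mk hp
  have hζ : IsPrimitiveRoot (Complex.exp (2 * Real.pi * Complex.I / p)) p :=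
    Complex.isPrimitiveRoot_exp p hp.ne_zero
  set ζ : ℂ := Complex.exp (2 * Real.pi * Complex.I / p) with hζdef
  obtain ⟨z, hz, hpz⟩ := hζ.self_sub_one_pow_dvd_order (Nat.sub_lt hp.pos one_pos)
  rw [Algebra.adjoin_singleton_eq_range_aeval] at hz
  obtain ⟨W, hW⟩ := hz
  have hroot : aeval ζ (C (p : ℤ) - (X - 1 : ℤ[X]) ^ (p - 1) * W) = 0 := by
    simp only [map_sub, map_mul, map_pow, aeval_X, map_one, aeval_C]
    have : (algebraMap ℤ ℂ) (p : ℤ) = (p : ℂ) := by simp
    rw [this, hpz]
    have hW' : (aeval ζ) W = z := hW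
    rw [hW']
    ring
  have hint : IsIntegral ℤ ζ := hζ.isIntegral hp.pos
  have hdvd := minpoly.isIntegrallyClosed_dvd hint hroot
  rw [← cyclotomic_eq_minpoly hζ hp.pos, cyclotomic_prime] at hdvd
  obtain ⟨V, hV⟩ := hdvd
  exact ⟨W, V, by rw [← hV]; ring⟩

/-! ### The cyclotomic determinant -/

/-- If `1 + σ + ... + σ^(p-1) = 0` on a free `ℤ`-module of finite rank `r`, then `σ - 1` is
injective and `|det (σ - 1)|^(p-1) = p^r`. -/
theorem h12_cyclo_det {p : ℕ} (hp : p.Prime) {Q : Type*} [AddCommGroup Q] [Module.Free ℤ Q]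
    [Module.Finite ℤ Q] (σ : Module.End ℤ Q) (hσ : ∑ i ∈ range p, σ ^ i = 0) :
    Function.Injective ⇑(σ - 1 : Module.End ℤ Q) ∧
      (LinearMap.det (σ - 1)).natAbs ^ (p - 1) = p ^ Module.finrank ℤ Q := by
  obtain ⟨U, hU⟩ := h12_poly_I1 p hp
  obtain ⟨W, V, hWV⟩ := h12_poly_I2 p hp
  have e1 := congrArg (aeval σ) hU
  have e2 := congrArg (aeval σ) hWV
  have e2' := congrArg (aeval σ) (show C (p : ℤ) = W * (X - 1 : ℤ[X]) ^ (p - 1) +
    (∑ i ∈ range p, X ^ i) * V by rw [hWV]; ring)
  simp only [map_pow, map_sub, aeval_X, map_one, map_add, map_sum, map_mul, aeval_C, hσ, zero_add,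
    zero_mul, add_zero] at e1 e2 e2'
  have hp1 : p - 1 = (p - 2) + 1 := by have := hp.two_le; omega
  have halg : (algebraMap ℤ (Module.End ℤ Q)) (p : ℤ) = (p : ℤ) • (1 : Module.End ℤ Q) := by
    rw [Algebra.algebraMap_eq_smul_one]
  constructor
  · rw [injective_iff_map_eq_zero]
    intro x hx
    have h1 : ((algebraMap ℤ (Module.End ℤ Q)) (p : ℤ)) x = 0 := by
      rw [e2', hp1, pow_succ, ← mul_assoc, Module.End.mul_apply, hx, map_zero]
    rw [halg, LinearMap.smul_apply, Module.End.one_apply] at h1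
    rcases smul_eq_zero.mp h1 with h | h
    · exact absurd h (by exact_mod_cast hp.ne_zero)
    · exact h
  · have d1 := congrArg LinearMap.det e1
    have d2 := congrArg LinearMap.det e2
    rw [map_pow, map_mul, halg, LinearMap.det_smul, map_one, mul_one] at d1
    rw [halg, LinearMap.det_smul, map_one, mul_one, map_mul, map_pow] at d2
    set r := Module.finrank ℤ Q
    set d := LinearMap.det (σ - 1)
    set u := LinearMap.det (aeval σ U)
    set w := LinearMap.det (aeval σ W)
    have hpr : ((p : ℤ) ^ r) ≠ 0 := pow_ne_zero _ (by exact_mod_cast hp.ne_zero)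
    have huw : u * w = 1 := by
      have : (p : ℤ) ^ r * (u * w) = (p : ℤ) ^ r * 1 := by
        rw [mul_one, ← mul_assoc, ← d1, ← d2]
      exact mul_left_cancel₀ hpr this
    have hu : u.natAbs = 1 := Int.natAbs_of_isUnit (IsUnit.of_mul_eq_one _ huw)
    have := congrArg Int.natAbs d1
    rw [Int.natAbs_pow, Int.natAbs_mul, Int.natAbs_pow, Int.natAbs_natCast, hu, mul_one] at this
    exact this

/-! ### Index of the range of an endomorphism of a finitely generated abelian group -/

/-- In a finite additive group, the index of the range of an endomorphism is the cardinality of its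
kernel. -/
theorem h12_index_range_of_finite {T : Type*} [AddCommGroup T] [Finite T] (ψ : T →+ T) :
    ψ.range.index = Nat.card ψ.ker := by
  have h1 : Nat.card ψ.range * ψ.range.index = Nat.card T := ψ.range.card_mul_index
  have h2 : Nat.card ψ.ker * ψ.ker.index = Nat.card T := ψ.ker.card_mul_index
  have h3 : ψ.ker.index = Nat.card ψ.range := by
    rw [AddSubgroup.index]
    exact Nat.card_congr (QuotientAddGroup.quotientKerEquivRange ψ).toEquiv
  have h4 : Nat.card ψ.range ≠ 0 := Nat.card_pos.ne'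
  rw [h3] at h2
  have : Nat.card ψ.range * ψ.range.index = Nat.card ψ.range * Nat.card ψ.ker := by
    rw [h1, ← h2, mul_comm]
  exact Nat.eq_of_mul_eq_mul_left (Nat.pos_of_ne_zero h4) this

open Submodule in
/-- Let `φ` be an endomorphism of a finitely generated abelian group `A` which is injective modulo
torsion. Then `ker φ` is finite and `[A : φ A] = |det φ̄| * |ker φ|`. -/
theorem h12_index_range {A : Type*} [AddCommGroup A] [Module.Finite ℤ A] (φ : A →ₗ[ℤ] A)
    (φbar : (A ⧸ torsion ℤ A) →ₗ[ℤ] (A ⧸ torsion ℤ A))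
    (hφ : ∀ a, φbar ((torsion ℤ A).mkQ a) = (torsion ℤ A).mkQ (φ a))
    (hinj : Function.Injective φbar) :
    Finite (LinearMap.ker φ) ∧
    (LinearMap.range φ).toAddSubgroup.index =
      (LinearMap.det φbar).natAbs * Nat.card (LinearMap.ker φ) := by
  have hTfin : Finite (torsion ℤ A) := Module.finite_of_fg_torsion _ (torsion_isTorsion)
  have hmem : ∀ x : A, x ∈ torsion ℤ A ↔ (torsion ℤ A).mkQ x = 0 := fun x => by
    rw [mkQ_apply, Submodule.Quotient.mk_eq_zero]
  -- elements mapped into the torsion lie in the torsion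
  have hpre : ∀ a : A, φ a ∈ torsion ℤ A → a ∈ torsion ℤ A := by
    intro a ha
    rw [hmem] at ha ⊢
    apply hinj
    rw [hφ, ha, map_zero]
  have hTinv : ∀ x ∈ torsion ℤ A, φ x ∈ torsion ℤ A := by
    intro x hx
    rw [hmem] at hx ⊢
    rw [← hφ, hx, map_zero]
  have hker : LinearMap.ker φ ≤ torsion ℤ A := fun x hx =>
    hpre x (by rw [LinearMap.mem_ker.mp hx]; exact (torsion ℤ A).zero_mem)
  have : Finite (LinearMap.ker φ) :=
    Finite.of_injective (Submodule.inclusion hker) (Submodule.inclusion_injective hker)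
  refine ⟨inferInstance, ?_⟩
  set R : AddSubgroup A := (LinearMap.range φ).toAddSubgroup with hR
  set Tg : AddSubgroup A := (torsion ℤ A).toAddSubgroup with hTg
  -- step 1
  have s1 : R.relIndex (R ⊔ Tg) * (R ⊔ Tg).index = R.index :=
    AddSubgroup.relIndex_mul_index le_sup_left
  -- step 2 : the index of `R ⊔ Tg` is the determinant
  have s2 : (R ⊔ Tg).index = (LinearMap.det φbar).natAbs := by
    have hcomap : R ⊔ Tg = (LinearMap.range φbar).toAddSubgroup.comap
        ((torsion ℤ A).mkQ : A →+ A ⧸ torsion ℤ A) := by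
      ext x
      simp only [AddSubgroup.mem_comap, Submodule.mem_toAddSubgroup, LinearMap.mem_range]
      constructor
      · intro hx
        obtain ⟨y, hy, t, ht, rfl⟩ := AddSubgroup.mem_sup.mp hx
        obtain ⟨a, rfl⟩ := hy
        refine ⟨(torsion ℤ A).mkQ a, ?_⟩
        have ht' : (torsion ℤ A).mkQ t = 0 := (hmem t).mp ht
        show φbar ((torsion ℤ A).mkQ a) = (torsion ℤ A).mkQ (φ a + t)
        rw [hφ, map_add, ht', add_zero]
      · rintro ⟨y, hy⟩
        obtain ⟨a, rfl⟩ := (torsion ℤ A).mkQ_surjective y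
        rw [hφ] at hy
        have hy' : (torsion ℤ A).mkQ (x - φ a) = 0 := by
          rw [map_sub, hy]; exact sub_self _
        refine AddSubgroup.mem_sup.mpr ⟨φ a, ⟨a, rfl⟩, x - φ a, (hmem _).mpr hy', by abel⟩
    rw [hcomap, AddSubgroup.index_comap_of_surjective _ ((torsion ℤ A).mkQ_surjective)]
    have := Submodule.natAbs_det_equiv (LinearMap.range φbar) (LinearEquiv.ofInjective φbar hinj)
    have e : (LinearMap.range φbar).subtype ∘ₗ
        AddMonoidHom.toIntLinearMap
          ((LinearEquiv.ofInjective φbar hinj : (A ⧸ torsion ℤ A) →+ _)) = φbar := by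
      ext x; rfl
    rw [e] at this
    rw [this]
    rfl
  -- step 3
  have s3 : R.relIndex (R ⊔ Tg) = R.relIndex Tg := AddSubgroup.relIndex_sup_left _ _
  -- step 4
  have s4 : R.relIndex Tg = Nat.card (LinearMap.ker φ) := by
    let ψ : torsion ℤ A →+ torsion ℤ A := (φ.restrict hTinv).toAddMonoidHom
    have e1 : R.addSubgroupOf Tg = ψ.range := by
      ext x
      simp only [AddSubgroup.mem_addSubgroupOf, AddMonoidHom.mem_range]
      constructor
      · rintro ⟨a, ha⟩
        have haT : a ∈ torsion ℤ A := hpre a (by rw [ha]; exact x.2)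
        exact ⟨⟨a, haT⟩, Subtype.ext ha⟩
      · rintro ⟨a, rfl⟩
        exact ⟨a, rfl⟩
    have e2 : Nat.card ψ.ker = Nat.card (LinearMap.ker φ) := by
      refine Nat.card_congr
        { toFun := fun t => ⟨(t.1 : A), by
            have := t.2
            rw [AddMonoidHom.mem_ker] at this
            exact LinearMap.mem_ker.mpr (congrArg Subtype.val this)⟩
          invFun := fun a => ⟨⟨a.1, hker a.2⟩, by
            rw [AddMonoidHom.mem_ker]
            exact Subtype.ext (LinearMap.mem_ker.mp a.2)⟩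
          left_inv := fun t => rfl
          right_inv := fun a => rfl }
    rw [AddSubgroup.relIndex]
    show (R.addSubgroupOf Tg).index = _
    rw [e1, h12_index_range_of_finite ψ, e2]
  rw [← s1, s3, s4, s2, mul_comm]

open Submodule in
/-- Relative version of `h12_index_range` for an invariant submodule. -/
theorem h12_relIndex_map {M : Type*} [AddCommGroup M] [Module.Finite ℤ M] (X : Submodule ℤ M)
    (φ : Module.End ℤ M) (h : ∀ x ∈ X, φ x ∈ X)
    (φbar : (X ⧸ torsion ℤ X) →ₗ[ℤ] (X ⧸ torsion ℤ X))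
    (hφ : ∀ x : X, φbar ((torsion ℤ X).mkQ x) = (torsion ℤ X).mkQ (φ.restrict h x))
    (hinj : Function.Injective φbar) :
    Finite (LinearMap.ker (φ.restrict h)) ∧
    (X.map φ).toAddSubgroup.relIndex X.toAddSubgroup =
      (LinearMap.det φbar).natAbs * Nat.card (LinearMap.ker (φ.restrict h)) := by
  obtain ⟨hfin, hidx⟩ := h12_index_range (φ.restrict h) φbar hφ hinj
  refine ⟨hfin, ?_⟩
  rw [← hidx]
  have e1 : (LinearMap.range (φ.restrict h)).toAddSubgroup =
      ((X.map φ).toAddSubgroup).comap X.subtype.toAddMonoidHom := by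
    ext x
    simp only [Submodule.mem_toAddSubgroup, LinearMap.mem_range, AddSubgroup.mem_comap,
      Submodule.mem_map]
    constructor
    · rintro ⟨y, rfl⟩
      exact ⟨y, y.2, rfl⟩
    · rintro ⟨y, hy, hyx⟩
      exact ⟨⟨y, hy⟩, Subtype.ext hyx⟩
  have e2 : X.subtype.toAddMonoidHom.range = X.toAddSubgroup := by
    ext x
    simp only [AddMonoidHom.mem_range, Submodule.mem_toAddSubgroup]
    constructor
    · rintro ⟨y, rfl⟩; exact y.2
    · intro hx; exact ⟨⟨x, hx⟩, rfl⟩
  rw [e1, AddSubgroup.index_comap, e2]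

open Submodule in
/-- Quotienting by the torsion does not change the rank. -/
theorem h12_finrank_quot_torsion (A : Type*) [AddCommGroup A] [Module.Finite ℤ A] :
    Module.finrank ℤ (A ⧸ torsion ℤ A) = Module.finrank ℤ A := by
  have h1 := (torsion ℤ A).finrank_quotient_add_finrank
  have h2 : Module.finrank ℤ (torsion ℤ A) = 0 :=
    Module.finrank_eq_zero_iff_isTorsion.mpr torsion_isTorsion
  omega

/-- Submodules `A ≤ B` with `n • B ≤ A` (`n ≠ 0`) have the same rank. -/
theorem h12_finrank_eq_of_smul_le {M : Type*} [AddCommGroup M] [Module.Finite ℤ M]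
    (A B : Submodule ℤ M) (hAB : A ≤ B) (n : ℤ) (hn : n ≠ 0) (h : ∀ b ∈ B, n • b ∈ A) :
    Module.finrank ℤ A = Module.finrank ℤ B := by
  refine le_antisymm (Submodule.finrank_mono hAB) ?_
  let f : B →ₗ[ℤ] A :=
    { toFun := fun b => ⟨n • (b : M), h b b.2⟩
      map_add' := fun x y => Subtype.ext (by simp [smul_add])
      map_smul' := fun c x => Subtype.ext (by simp [smul_comm n c]) }
  have h1 := (LinearMap.ker f).finrank_quotient_add_finrank
  have h2 := f.quotKerEquivRange.finrank_eq
  have h3 : Module.finrank ℤ (LinearMap.ker f) = 0 := by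
    rw [Module.finrank_eq_zero_iff_isTorsion]
    intro x
    refine ⟨⟨n, mem_nonZeroDivisors_of_ne_zero hn⟩, ?_⟩
    have hx := x.2
    rw [LinearMap.mem_ker] at hx
    have hx' : n • ((x : B) : M) = 0 := congrArg Subtype.val hx
    exact Subtype.ext (Subtype.ext hx')
  have h4 : Module.finrank ℤ (LinearMap.range f) ≤ Module.finrank ℤ A :=
    Submodule.finrank_le _
  omega

/-! ### Endomorphisms modulo torsion -/

open Submodule in
/-- The endomorphism of `A ⧸ torsion` induced by an endomorphism of `A`. -/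
noncomputable def h12_bar {A : Type*} [AddCommGroup A] (f : Module.End ℤ A) :
    Module.End ℤ (A ⧸ torsion ℤ A) :=
  (torsion ℤ A).mapQ (torsion ℤ A) f (by
    intro x hx
    rw [Submodule.mem_comap, mem_torsion_iff]
    rw [mem_torsion_iff] at hx
    obtain ⟨a, ha⟩ := hx
    refine ⟨a, ?_⟩
    have : (a : ℤ) • f x = 0 := by rw [← map_smul, show (a : ℤ) • x = 0 from ha, map_zero]
    exact this)

open Submodule in
theorem h12_bar_mk {A : Type*} [AddCommGroup A] (f : Module.End ℤ A) (a : A) :
    h12_bar f ((torsion ℤ A).mkQ a) = (torsion ℤ A).mkQ (f a) := rfl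

open Submodule in
theorem h12_bar_pow {A : Type*} [AddCommGroup A] (f : Module.End ℤ A) (i : ℕ) (a : A) :
    (h12_bar f ^ i) ((torsion ℤ A).mkQ a) = (torsion ℤ A).mkQ ((f ^ i) a) := by
  induction i generalizing a with
  | zero => simp
  | succ i ih => rw [pow_succ, Module.End.mul_apply, h12_bar_mk, ih, pow_succ, Module.End.mul_apply]

open Submodule in
theorem h12_bar_sum_pow {A : Type*} [AddCommGroup A] (f : Module.End ℤ A) (n : ℕ) (a : A) :
    (∑ i ∈ range n, h12_bar f ^ i) ((torsion ℤ A).mkQ a) =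
      (torsion ℤ A).mkQ ((∑ i ∈ range n, f ^ i) a) := by
  simp only [LinearMap.sum_apply, h12_bar_pow, map_sum]

/-! ### The additive Herbrand index theorem -/

/-- The kernel of a restricted endomorphism, as a subtype of the ambient module. -/
def h12_kerRestrictEquiv {M : Type*} [AddCommGroup M] (X : Submodule ℤ M)
    (φ : Module.End ℤ M) (h : ∀ x ∈ X, φ x ∈ X) :
    LinearMap.ker (φ.restrict h) ≃ {m : M // m ∈ X ∧ φ m = 0} where
  toFun := fun x => ⟨(x.1 : M), x.1.2, by
    have h1 := LinearMap.mem_ker.mp x.2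
    exact congrArg Subtype.val h1⟩
  invFun := fun m => ⟨⟨m.1, m.2.1⟩, by
    rw [LinearMap.mem_ker]
    exact Subtype.ext m.2.2⟩
  left_inv := fun x => rfl
  right_inv := fun m => rfl

/-- Index bookkeeping for two endomorphisms with `D ∘ N = 0 = N ∘ D`. -/
theorem h12_chain {M : Type*} [AddCommGroup M] (D N : M →+ M)
    (hD : D.range ≤ N.ker) (hN : N.range ≤ D.ker) :
    (N.ker.map D).relIndex N.ker = (N.ker ⊔ D.ker).index * D.range.relIndex N.ker ∧
    (D.ker.map N).relIndex D.ker = (N.ker ⊔ D.ker).index * N.range.relIndex D.ker := by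
  constructor
  · have h1 : (N.ker.map D).relIndex D.range = (N.ker ⊔ D.ker).index := by
      rw [AddMonoidHom.range_eq_map, AddSubgroup.relIndex_map_map, top_sup_eq,
        AddSubgroup.relIndex_top_right]
    rw [← h1]
    refine (AddSubgroup.relIndex_mul_relIndex _ _ _ ?_ hD).symm
    rw [AddMonoidHom.range_eq_map]; exact AddSubgroup.map_mono le_top
  · have h1 : (D.ker.map N).relIndex N.range = (N.ker ⊔ D.ker).index := by
      rw [AddMonoidHom.range_eq_map, AddSubgroup.relIndex_map_map, top_sup_eq,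
        AddSubgroup.relIndex_top_right, sup_comm]
    rw [← h1]
    refine (AddSubgroup.relIndex_mul_relIndex _ _ _ ?_ hN).symm
    rw [AddMonoidHom.range_eq_map]; exact AddSubgroup.map_mono le_top

open Submodule in
/-- The fixed part: `[Y : p Y] = p ^ rank Y * |Y[p]|`. -/
theorem h12_part_fix {p : ℕ} (hp : p.Prime) {M : Type*} [AddCommGroup M] [Module.Finite ℤ M]
    (Y : Submodule ℤ M) :
    Finite {m : M // m ∈ Y ∧ ((p : ℤ) • (1 : Module.End ℤ M)) m = 0} ∧
    (Y.map ((p : ℤ) • (1 : Module.End ℤ M))).toAddSubgroup.relIndex Y.toAddSubgroup =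
      p ^ Module.finrank ℤ Y *
        Nat.card {m : M // m ∈ Y ∧ ((p : ℤ) • (1 : Module.End ℤ M)) m = 0} := by
  have hp0 : (p : ℤ) ≠ 0 := by exact_mod_cast hp.ne_zero
  have hYP : ∀ y ∈ Y, ((p : ℤ) • (1 : Module.End ℤ M)) y ∈ Y := fun y hy => by
    rw [LinearMap.smul_apply, Module.End.one_apply]; exact Y.smul_mem _ hy
  have hPbar : ∀ y : Y, ((p : ℤ) • (1 : Module.End ℤ (Y ⧸ torsion ℤ Y))) ((torsion ℤ Y).mkQ y) =
      (torsion ℤ Y).mkQ ((((p : ℤ) • (1 : Module.End ℤ M)).restrict hYP) y) := by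
    intro y
    rw [LinearMap.smul_apply, Module.End.one_apply, ← map_smul]
    congr 1
  have hPinj : Function.Injective ((p : ℤ) • (1 : Module.End ℤ (Y ⧸ torsion ℤ Y))) := by
    rw [injective_iff_map_eq_zero]
    intro x hx
    rw [LinearMap.smul_apply, Module.End.one_apply] at hx
    rcases smul_eq_zero.mp hx with h | h
    · exact absurd h hp0
    · exact h
  obtain ⟨hfin, hidx⟩ := h12_relIndex_map Y ((p : ℤ) • 1) hYP _ hPbar hPinj
  have hdet : (LinearMap.det ((p : ℤ) • (1 : Module.End ℤ (Y ⧸ torsion ℤ Y)))).natAbs =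
      p ^ Module.finrank ℤ Y := by
    rw [LinearMap.det_smul, map_one, mul_one, Int.natAbs_pow, Int.natAbs_natCast,
      h12_finrank_quot_torsion]
  rw [hdet, Nat.card_congr (h12_kerRestrictEquiv Y _ hYP)] at hidx
  exact ⟨Finite.of_equiv _ (h12_kerRestrictEquiv Y _ hYP), hidx⟩

open Submodule in
/-- The norm-zero part: `[X : (σ - 1) X] = d * |ker|` with `d ^ (p - 1) = p ^ rank X`. -/
theorem h12_part_norm {p : ℕ} (hp : p.Prime) {M : Type*} [AddCommGroup M] [Module.Finite ℤ M]
    (X : Submodule ℤ M) (σ : Module.End ℤ M) (hσX : ∀ x ∈ X, σ x ∈ X)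
    (hsum : ∀ x ∈ X, (∑ i ∈ range p, σ ^ i) x = 0) :
    ∃ d : ℕ, d ^ (p - 1) = p ^ Module.finrank ℤ X ∧
      Finite {m : M // m ∈ X ∧ (σ - 1) m = 0} ∧
      (X.map (σ - 1)).toAddSubgroup.relIndex X.toAddSubgroup =
        d * Nat.card {m : M // m ∈ X ∧ (σ - 1) m = 0} := by
  have hDx : ∀ x, (σ - 1) x = σ x - x := fun x => by
    rw [LinearMap.sub_apply, Module.End.one_apply]
  have hXD : ∀ x ∈ X, (σ - 1) x ∈ X := fun x hx => by
    rw [hDx]; exact X.sub_mem (hσX x hx) hx
  have hpow : ∀ (i : ℕ) (x : X), ((((σ.restrict hσX) ^ i) x : X) : M) = (σ ^ i) (x : M) := by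
    intro i
    induction i with
    | zero => intro x; simp
    | succ i ih =>
      intro x
      rw [pow_succ, Module.End.mul_apply, ih, pow_succ, Module.End.mul_apply]
      rfl
  have hsumX : ∑ i ∈ range p, (σ.restrict hσX) ^ i = 0 := by
    ext x
    rw [LinearMap.sum_apply, LinearMap.zero_apply, Submodule.coe_sum, Submodule.coe_zero,
      Finset.sum_congr rfl fun i _ => hpow i x, ← LinearMap.sum_apply]
    exact hsum x x.2
  have hbar_sum : ∑ i ∈ range p, (h12_bar (σ.restrict hσX)) ^ i = 0 := by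
    refine LinearMap.ext fun x => ?_
    obtain ⟨y, rfl⟩ := (torsion ℤ X).mkQ_surjective x
    rw [h12_bar_sum_pow, hsumX, LinearMap.zero_apply, map_zero, LinearMap.zero_apply]
  obtain ⟨hDinj, hdetD⟩ := h12_cyclo_det hp (h12_bar (σ.restrict hσX)) hbar_sum
  have hDbar : ∀ x : X, (h12_bar (σ.restrict hσX) - 1) ((torsion ℤ X).mkQ x) =
      (torsion ℤ X).mkQ (((σ - 1).restrict hXD) x) := by
    intro x
    rw [LinearMap.sub_apply, h12_bar_mk, Module.End.one_apply, ← map_sub]
    congr 1
  obtain ⟨hfin, hidx⟩ := h12_relIndex_map X (σ - 1) hXD _ hDbar hDinj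
  rw [h12_finrank_quot_torsion] at hdetD
  rw [Nat.card_congr (h12_kerRestrictEquiv X _ hXD)] at hidx
  exact ⟨_, hdetD, Finite.of_equiv _ (h12_kerRestrictEquiv X _ hXD), hidx⟩

/-- **Herbrand quotient in rank form** (additive form). Let `M` be a finitely generated abelian
group with an endomorphism `s`, `s ^ p = 1` (`p` prime), `D = s - 1`, `N = 1 + s + ... + s^(p-1)`.
Then `rank M = rank (ker D) + (p - 1) * b` for some `b`, the indices `[ker D : N M]` and
`[ker N : D M]` are finite, and `p ^ rank (ker D) * [ker N : D M] = p ^ b * [ker D : N M]`. -/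
theorem h12_herbrand_rank_add {p : ℕ} (hp : p.Prime) {M : Type*} [AddCommGroup M]
    [Module.Finite ℤ M] (s D N : Module.End ℤ M) (hs : s ^ p = 1) (hD : D = s - 1)
    (hN : N = ∑ i ∈ range p, s ^ i) :
    ∃ b : ℕ, Module.finrank ℤ M = Module.finrank ℤ (LinearMap.ker D) + (p - 1) * b ∧
    (LinearMap.range N).toAddSubgroup.relIndex (LinearMap.ker D).toAddSubgroup ≠ 0 ∧
    (LinearMap.range D).toAddSubgroup.relIndex (LinearMap.ker N).toAddSubgroup ≠ 0 ∧
    p ^ Module.finrank ℤ (LinearMap.ker D) *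
        (LinearMap.range D).toAddSubgroup.relIndex (LinearMap.ker N).toAddSubgroup =
      p ^ b * (LinearMap.range N).toAddSubgroup.relIndex (LinearMap.ker D).toAddSubgroup := by
  have hDN : D * N = 0 := by rw [hD, hN, mul_geom_sum, hs, sub_self]
  have hND : N * D = 0 := by rw [hD, hN, geom_sum_mul, hs, sub_self]
  have hsN : s * N = N * s := by
    rw [hN, Finset.mul_sum, Finset.sum_mul]
    exact Finset.sum_congr rfl fun i _ => by rw [← pow_succ', ← pow_succ]
  have hDx : ∀ x, D x = s x - x := fun x => by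
    rw [hD, LinearMap.sub_apply, Module.End.one_apply]
  have hpow_fix : ∀ y, s y = y → ∀ i : ℕ, (s ^ i) y = y := by
    intro y hy i
    induction i with
    | zero => simp
    | succ i ih => rw [pow_succ, Module.End.mul_apply, hy, ih]
  have hN_fix : ∀ y, s y = y → N y = (p : ℤ) • y := by
    intro y hy
    rw [hN, LinearMap.sum_apply, Finset.sum_congr rfl fun i _ => hpow_fix y hy i,
      Finset.sum_const, Finset.card_range, natCast_zsmul]
  have hYmem : ∀ y, y ∈ LinearMap.ker D ↔ s y = y := by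
    intro y; rw [LinearMap.mem_ker, hDx, sub_eq_zero]
  have hXs : ∀ x ∈ LinearMap.ker N, s x ∈ LinearMap.ker N := fun x hx => by
    rw [LinearMap.mem_ker, ← Module.End.mul_apply, ← hsN, Module.End.mul_apply,
      LinearMap.mem_ker.mp hx, map_zero]
  have hrangeD : LinearMap.range D ≤ LinearMap.ker N := by
    rintro _ ⟨m, rfl⟩
    rw [LinearMap.mem_ker, ← Module.End.mul_apply, hND, LinearMap.zero_apply]
  have hrangeN : LinearMap.range N ≤ LinearMap.ker D := by
    rintro _ ⟨m, rfl⟩
    rw [LinearMap.mem_ker, ← Module.End.mul_apply, hDN, LinearMap.zero_apply]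
  have hp0 : (p : ℤ) ≠ 0 := by exact_mod_cast hp.ne_zero
  -- the two parts
  obtain ⟨hfinY, hidxY⟩ := h12_part_fix hp (LinearMap.ker D)
  obtain ⟨d, hd, hfinX, hidxX⟩ := h12_part_norm hp (LinearMap.ker N) s hXs
    (fun x hx => by rw [← hN]; exact LinearMap.mem_ker.mp hx)
  rw [← hD] at hidxX hfinX
  -- ranks
  have hrN : Module.finrank ℤ (LinearMap.range N) = Module.finrank ℤ (LinearMap.ker D) := by
    refine h12_finrank_eq_of_smul_le _ _ hrangeN (p : ℤ) hp0 fun b hb => ?_
    rw [← hN_fix b ((hYmem b).mp hb)]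
    exact LinearMap.mem_range_self _ b
  have hrX : Module.finrank ℤ M =
      Module.finrank ℤ (LinearMap.ker D) + Module.finrank ℤ (LinearMap.ker N) := by
    have h1 := (LinearMap.ker N).finrank_quotient_add_finrank
    have h2 := N.quotKerEquivRange.finrank_eq
    rw [h2, hrN] at h1
    exact h1.symm
  -- `d` is a power of `p`
  have hp1 : p - 1 ≠ 0 := Nat.sub_ne_zero_of_lt hp.one_lt
  obtain ⟨b, -, hb⟩ : ∃ b, b ≤ Module.finrank ℤ (LinearMap.ker N) ∧ d = p ^ b := by
    refine (Nat.dvd_prime_pow hp).mp ?_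
    rw [← hd]
    exact dvd_pow_self d hp1
  have hbX : Module.finrank ℤ (LinearMap.ker N) = (p - 1) * b := by
    rw [hb, ← pow_mul] at hd
    have := Nat.pow_right_injective hp.two_le hd
    rw [← this, mul_comm]
  -- the two kernels have the same cardinality
  have hcard : Nat.card {m : M // m ∈ LinearMap.ker N ∧ D m = 0} =
      Nat.card {m : M // m ∈ LinearMap.ker D ∧ ((p : ℤ) • (1 : Module.End ℤ M)) m = 0} :=
    Nat.card_congr (Equiv.subtypeEquivRight fun m => by
      rw [LinearMap.mem_ker, LinearMap.mem_ker, LinearMap.smul_apply, Module.End.one_apply]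
      constructor
      · rintro ⟨h1, h2⟩
        exact ⟨h2, by rw [← hN_fix m ((hYmem m).mp (LinearMap.mem_ker.mpr h2)), h1]⟩
      · rintro ⟨h1, h2⟩
        exact ⟨by rw [hN_fix m ((hYmem m).mp (LinearMap.mem_ker.mpr h1)), h2], h1⟩)
  have htpos : Nat.card {m : M // m ∈ LinearMap.ker D ∧ ((p : ℤ) • (1 : Module.End ℤ M)) m = 0}
      ≠ 0 := by
    haveI : Nonempty {m : M // m ∈ LinearMap.ker D ∧ ((p : ℤ) • (1 : Module.End ℤ M)) m = 0} :=
      ⟨⟨0, Submodule.zero_mem _, map_zero _⟩⟩
    exact Nat.card_pos.ne'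
  have hmapP : (LinearMap.ker D).map ((p : ℤ) • (1 : Module.End ℤ M)) =
      (LinearMap.ker D).map N := by
    ext x
    simp only [Submodule.mem_map]
    constructor
    · rintro ⟨y, hy, rfl⟩
      exact ⟨y, hy, by rw [hN_fix y ((hYmem y).mp hy), LinearMap.smul_apply, Module.End.one_apply]⟩
    · rintro ⟨y, hy, rfl⟩
      exact ⟨y, hy, by rw [hN_fix y ((hYmem y).mp hy), LinearMap.smul_apply, Module.End.one_apply]⟩
  rw [hmapP] at hidxY
  rw [hcard, hb] at hidxX
  -- index bookkeeping
  obtain ⟨hc1, hc2⟩ := h12_chain D.toAddMonoidHom N.toAddMonoidHom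
    (show (LinearMap.range D).toAddSubgroup ≤ (LinearMap.ker N).toAddSubgroup from hrangeD)
    (show (LinearMap.range N).toAddSubgroup ≤ (LinearMap.ker D).toAddSubgroup from hrangeN)
  have hc1' : ((LinearMap.ker N).map D).toAddSubgroup.relIndex (LinearMap.ker N).toAddSubgroup =
      (N.toAddMonoidHom.ker ⊔ D.toAddMonoidHom.ker).index *
        (LinearMap.range D).toAddSubgroup.relIndex (LinearMap.ker N).toAddSubgroup := hc1
  have hc2' : ((LinearMap.ker D).map N).toAddSubgroup.relIndex (LinearMap.ker D).toAddSubgroup =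
      (N.toAddMonoidHom.ker ⊔ D.toAddMonoidHom.ker).index *
        (LinearMap.range N).toAddSubgroup.relIndex (LinearMap.ker D).toAddSubgroup := hc2
  rw [hidxX] at hc1'
  rw [hidxY] at hc2'
  refine ⟨b, by rw [hrX, hbX], ?_⟩
  generalize Module.finrank ℤ (LinearMap.ker D) = a at hc2' ⊢
  generalize (N.toAddMonoidHom.ker ⊔ D.toAddMonoidHom.ker).index = c at hc1' hc2'
  generalize (LinearMap.range N).toAddSubgroup.relIndex (LinearMap.ker D).toAddSubgroup = A
    at hc2' ⊢
  generalize (LinearMap.range D).toAddSubgroup.relIndex (LinearMap.ker N).toAddSubgroup = B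
    at hc1' ⊢
  generalize Nat.card {m : M // m ∈ LinearMap.ker D ∧ ((p : ℤ) • (1 : Module.End ℤ M)) m = 0} = t
    at hc1' hc2' htpos
  have hcA : c * A ≠ 0 := by
    rw [← hc2']; exact mul_ne_zero (pow_ne_zero _ hp.ne_zero) htpos
  have hcB : c * B ≠ 0 := by
    rw [← hc1']; exact mul_ne_zero (pow_ne_zero _ hp.ne_zero) htpos
  have hc0 : c ≠ 0 := left_ne_zero_of_mul hcA
  refine ⟨right_ne_zero_of_mul hcA, right_ne_zero_of_mul hcB, ?_⟩
  have : c * (p ^ a * B) = c * (p ^ b * A) := by
    calc c * (p ^ a * B) = p ^ a * (c * B) := by ring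
      _ = p ^ a * (p ^ b * t) := by rw [hc1']
      _ = p ^ b * (p ^ a * t) := by ring
      _ = p ^ b * (c * A) := by rw [hc2']
      _ = c * (p ^ b * A) := by ring
  exact Nat.eq_of_mul_eq_mul_left (Nat.pos_of_ne_zero hc0) this

/-- `h12_herbrand_rank_add` with the two ranks given. -/
theorem h12_herbrand_rank_add' {p : ℕ} (hp : p.Prime) {M : Type*} [AddCommGroup M]
    [Module.Finite ℤ M] (s D N : Module.End ℤ M) (hs : s ^ p = 1) (hD : D = s - 1)
    (hN : N = ∑ i ∈ range p, s ^ i) (a b : ℕ)
    (hfix : Module.finrank ℤ (LinearMap.ker D) = a)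
    (hrank : Module.finrank ℤ M = a + (p - 1) * b) :
    (LinearMap.range N).toAddSubgroup.relIndex (LinearMap.ker D).toAddSubgroup ≠ 0 ∧
    (LinearMap.range D).toAddSubgroup.relIndex (LinearMap.ker N).toAddSubgroup ≠ 0 ∧
    p ^ a * (LinearMap.range D).toAddSubgroup.relIndex (LinearMap.ker N).toAddSubgroup =
      p ^ b * (LinearMap.range N).toAddSubgroup.relIndex (LinearMap.ker D).toAddSubgroup := by
  obtain ⟨b', hb', h1, h2, h3⟩ := h12_herbrand_rank_add hp s D N hs hD hN
  have hp1 : 0 < p - 1 := Nat.sub_pos_of_lt hp.one_lt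
  have hbb : b' = b := by
    rw [hfix, hrank] at hb'
    exact (Nat.eq_of_mul_eq_mul_left hp1 (Nat.add_left_cancel hb')).symm
  subst hbb
  rw [hfix] at h3
  exact ⟨h1, h2, h3⟩

/-! ### The multiplicative form -/

theorem h12_toAdd_pow {E : Type*} [CommGroup E] (s : E ≃* E) (i : ℕ) (u : Additive E) :
    (((MonoidHom.toAdditive s.toMonoidHom).toIntLinearMap : Module.End ℤ (Additive E)) ^ i) u =
      Additive.ofMul ((s ^ i) u.toMul) := by
  induction i generalizing u with
  | zero => simp
  | succ i ih =>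
    rw [pow_succ, Module.End.mul_apply, ih, pow_succ]
    rfl

/-- **Herbrand quotient in rank form** (multiplicative form). `E` a finitely generated abelian
group, `s` an automorphism with `s ^ p = 1` (`p` prime), `D u = s u / u`,
`N u = ∏_{i < p} s^i u`. If the fixed subgroup `D.ker` has rank `a` and `E` has rank
`a + (p - 1) * b`, then `[E^s : N E]` and `[ker N : D E]` are finite and
`p ^ a * [ker N : D E] = p ^ b * [E^s : N E]`. -/
theorem h12_herbrand_rank (p : ℕ) (hp : p.Prime) (E : Type*) [CommGroup E] [Group.FG E]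
    (s : E ≃* E) (hs : ∀ u, (s ^ p) u = u)
    (D N : E →* E) (hD : ∀ u, D u = s u / u)
    (hN : ∀ u, N u = ∏ i ∈ Finset.range p, (s ^ i) u) (a b : ℕ)
    (hfix : Module.finrank ℤ (Additive D.ker) = a)
    (hrank : Module.finrank ℤ (Additive E) = a + (p - 1) * b) :
    (N.range).relIndex D.ker ≠ 0 ∧ (D.range).relIndex N.ker ≠ 0 ∧
      p ^ a * (D.range).relIndex N.ker = p ^ b * (N.range).relIndex D.ker := by
  have : Module.Finite ℤ (Additive E) := by
    rw [Module.Finite.iff_addGroup_fg]
    exact AddGroup.fg_iff_mul_fg.mpr inferInstance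
  set sA : Module.End ℤ (Additive E) := (MonoidHom.toAdditive s.toMonoidHom).toIntLinearMap with hsA
  set DA : Module.End ℤ (Additive E) := (MonoidHom.toAdditive D).toIntLinearMap with hDA
  set NA : Module.End ℤ (Additive E) := (MonoidHom.toAdditive N).toIntLinearMap with hNA
  have h1 : sA ^ p = 1 := by
    refine LinearMap.ext fun u => ?_
    rw [hsA, h12_toAdd_pow, hs]
    rfl
  have h2 : DA = sA - 1 := by
    refine LinearMap.ext fun u => ?_
    change Additive.ofMul (D u.toMul) = Additive.ofMul (s u.toMul) - u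
    rw [hD]
    rfl
  have h3 : NA = ∑ i ∈ range p, sA ^ i := by
    refine LinearMap.ext fun u => ?_
    rw [LinearMap.sum_apply]
    simp only [hsA, h12_toAdd_pow]
    change Additive.ofMul (N u.toMul) = _
    rw [hN, ofMul_prod]
  have h4 : Module.finrank ℤ (LinearMap.ker DA) = a := by
    rw [← hfix]
    let e : Additive D.ker ≃+ LinearMap.ker DA :=
      { toFun := fun x => ⟨Additive.ofMul (x.toMul : E), by
          rw [LinearMap.mem_ker]
          have := x.toMul.2
          rw [MonoidHom.mem_ker] at this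
          change Additive.ofMul (D (x.toMul : E)) = 0
          rw [this]; rfl⟩
        invFun := fun y => Additive.ofMul ⟨(y : Additive E).toMul, by
          rw [MonoidHom.mem_ker]
          have := LinearMap.mem_ker.mp y.2
          exact congrArg Additive.toMul this⟩
        left_inv := fun x => rfl
        right_inv := fun y => rfl
        map_add' := fun x y => rfl }
    exact e.toIntLinearEquiv.finrank_eq.symm
  have key := h12_herbrand_rank_add' hp sA DA NA h1 h2 h3 a b h4 hrank
  have e1 : (LinearMap.range NA).toAddSubgroup = Subgroup.toAddSubgroup N.range := by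
    ext x; rfl
  have e2 : (LinearMap.ker DA).toAddSubgroup = Subgroup.toAddSubgroup D.ker := by
    ext x
    change DA x = 0 ↔ D (Additive.toMul x) = 1
    constructor
    · intro hx
      exact congrArg Additive.toMul hx
    · intro hx
      exact congrArg Additive.ofMul hx
  have e3 : (LinearMap.range DA).toAddSubgroup = Subgroup.toAddSubgroup D.range := by
    ext x; rfl
  have e4 : (LinearMap.ker NA).toAddSubgroup = Subgroup.toAddSubgroup N.ker := by
    ext x
    change NA x = 0 ↔ N (Additive.toMul x) = 1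
    constructor
    · intro hx
      exact congrArg Additive.toMul hx
    · intro hx
      exact congrArg Additive.ofMul hx
  rw [e1, e2, e3, e4, Subgroup.relIndex_toAddSubgroup, Subgroup.relIndex_toAddSubgroup] at key
  exact key

end Fermat.Agent.S55
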