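import Mathlib
import Fermat.Agent.S55.h72_AbsDefs
import Fermat.Agent.S55.h40_HDefs
import Fermat.Agent.S55.h40_InfRes
import Fermat.Agent.S55.h12_Cup
import Fermat.Agent.S55.h30_CFData
import Fermat.Agent.S55.h30_CFRel
import Fermat.Agent.S55.h70_CFCyc
import Fermat.Agent.S55.h70_CFCycAdapter

/-!
# S55, layer H: H-CFBUILD, the bridge between the cup-product criterion and the valuation

* `h70_ofAdd_mem_zpowers_iff`: membership in the subgroup of `ZMod N` generated by a divisor;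
* `h70_relNorm_eq_cycSum`: the relative norm `h12_relNorm` as a cyclic sum;
* `h70_isRelNorm_iff`: for `χ = deg mod p^m` and `H` with `f_H ∣ p^m`, `c ∈ C^H` is a norm from
  the layer `H ∩ ker χ` iff `w c ∈ p^m |H| V`;
* `h70_chi_res_iff`: the restriction to `H` of `(g, h) ↦ carry(χ g, χ h) • c` is a coboundary iff
  `w c ∈ p^m |H| V`;
* `h70_index_map_deg_dvd`: `f_H` divides the `p`-part of `[G : H]`.
-/

set_option autoImplicit false

open groupCohomology

namespace Fermat.Agent.S55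

section ZModAux

/-- Membership in the subgroup of `ZMod N` generated by a divisor of `N`. -/
theorem h70_ofAdd_mem_zpowers_iff (N d k : ℕ) [NeZero N] (hd : d ∣ N) :
    Multiplicative.ofAdd ((k : ℕ) : ZMod N) ∈
      Subgroup.zpowers (Multiplicative.ofAdd ((d : ℕ) : ZMod N)) ↔ d ∣ k := by
  constructor
  · intro h
    obtain ⟨z, hz⟩ := Subgroup.mem_zpowers_iff.mp h
    have h1 : z • ((d : ℕ) : ZMod N) = ((k : ℕ) : ZMod N) := by
      have := congrArg Multiplicative.toAdd hz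
      rwa [toAdd_zpow, toAdd_ofAdd, toAdd_ofAdd] at this
    have h2 : (((z * (d : ℤ) - (k : ℤ)) : ℤ) : ZMod N) = 0 := by
      push_cast
      rw [← h1, zsmul_eq_mul, sub_self]
    rw [ZMod.intCast_zmod_eq_zero_iff_dvd] at h2
    have h4 : (d : ℤ) ∣ z * d - k := (Int.natCast_dvd_natCast.mpr hd).trans h2
    have h5 : (d : ℤ) ∣ z * d := dvd_mul_left _ _
    have h6 : (d : ℤ) ∣ (k : ℤ) := by
      have := Int.dvd_sub h5 h4
      rwa [sub_sub_cancel] at this
    exact Int.natCast_dvd_natCast.mp h6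
  · rintro ⟨j, rfl⟩
    refine Subgroup.mem_zpowers_iff.mpr ⟨(j : ℤ), ?_⟩
    rw [zpow_natCast, ← ofAdd_nsmul, nsmul_eq_mul, Nat.cast_mul, mul_comm]

end ZModAux

section CycNorm

variable {H : Type*} [Group H] [Finite H] {C : Type*} [AddCommGroup C] [DistribMulAction H C]

omit [Finite H] in
/-- The relative norm as a cyclic sum, when the powers `σ^i`, `i < N`, represent the cosets. -/
theorem h70_relNorm_eq_cycSum (K : Subgroup H) (σ : H) (N : ℕ)
    (hbij : Function.Bijective (fun i : Fin N => (QuotientGroup.mk (σ ^ (i : ℕ)) : H ⧸ K)))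
    (b : C) (hb : ∀ k ∈ K, k • b = b) :
    h12_relNorm K b = ∑ i ∈ Finset.range N, σ ^ i • b := by
  rw [Finset.sum_range (fun i => σ ^ i • b), ← finsum_eq_sum_of_fintype]
  unfold h12_relNorm
  symm
  refine finsum_eq_of_bijective _ hbij (fun i => ?_)
  obtain ⟨h, hh⟩ := QuotientGroup.mk_out_eq_mul K (σ ^ (i : ℕ))
  rw [hh, mul_smul, hb _ h.2]

end CycNorm


section Bridge

variable {p : ℕ} [hp : Fact p.Prime] {G : Type*} [Group G] [Finite G]
  {C : Type*} [AddCommGroup C] [DistribMulAction G C] {n : ℕ}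
  {deg : G →* Multiplicative (ZMod (p ^ n))} {V : Type*} [AddCommGroup V] {w : C →+ V}

/-- The norm group of the layer `H ∩ ker χ` of a subgroup `H` (`χ = deg mod p^m`,
`f_H ∣ p^m`): `c ∈ C^H` is a norm from the layer iff `w c ∈ p^m |H| V`. -/
theorem h70_isRelNorm_iff (D : h30_CFData p deg w) {M : ℕ}
    (χ : G →* Multiplicative (ZMod M)) (m : ℕ) (hmn : m ≤ n)
    (hχ : χ.ker =
      (Subgroup.zpowers (Multiplicative.ofAdd ((p ^ m : ℕ) : ZMod (p ^ n)))).comap deg)
    (H : Subgroup G) (hH : (H.map deg).index ∣ p ^ m) (c : C) (hc : ∀ h ∈ H, h • c = c) :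
    h12_IsRelNorm (χ.comp H.subtype).ker c ↔ ∃ y : V, w c = (p ^ m * Nat.card H) • y := by
  have : NeZero (p ^ n) := ⟨pow_ne_zero _ hp.out.ne_zero⟩
  obtain ⟨e, he, hfe⟩ := (Nat.dvd_prime_pow hp.out).mp hH
  have hpa : p ^ (m - e) * (H.map deg).index = p ^ m := by
    rw [hfe, ← pow_add]; congr 1; omega
  have hS := h70_zmod_subgroup_eq_zpowers (p ^ n) (H.map deg)
  have hmem : Multiplicative.ofAdd (((H.map deg).index : ℕ) : ZMod (p ^ n)) ∈ H.map deg := by
    have h1 := Subgroup.pow_index_mem (H.map deg) (Multiplicative.ofAdd (1 : ZMod (p ^ n)))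
    rwa [← ofAdd_nsmul, nsmul_one] at h1
  obtain ⟨σ, hσ, hdeg⟩ := hmem
  have hgen : H.map deg = Subgroup.zpowers (deg σ) := by rw [hdeg]; exact hS
  have hcard : Nat.card (H.map deg) * (H.map deg).index = p ^ n := by
    rw [Subgroup.card_mul_index, Nat.card_congr Multiplicative.toAdd, Nat.card_zmod]
  have hf0 : 0 < (H.map deg).index := by
    rw [hfe]; exact pow_pos hp.out.pos _
  have hm' : p ^ (m - e) ∣ Nat.card (H.map deg) := by
    have h1 : p ^ (m - e) * (H.map deg).index ∣ Nat.card (H.map deg) * (H.map deg).index := by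
      rw [hpa, hcard]; exact pow_dvd_pow p hmn
    exact Nat.dvd_of_mul_dvd_mul_right hf0 h1
  have hlayer : (deg σ) ^ (p ^ (m - e))
      = Multiplicative.ofAdd ((p ^ m : ℕ) : ZMod (p ^ n)) := by
    rw [hdeg, ← ofAdd_nsmul, nsmul_eq_mul, ← Nat.cast_mul, hpa]
  have key := h70_cyc_norm D H σ hσ hgen (m - e) hm' c hc
  rw [hlayer] at key
  have hE : p ^ (m - e) * (Nat.card H * (H.map deg).index) = p ^ m * Nat.card H := by
    rw [← hpa]; ring
  rw [hE] at key
  rw [← key]
  have hKmem : ∀ h : H, h ∈ (χ.comp H.subtype).ker ↔ deg (h : G) ∈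
      Subgroup.zpowers (Multiplicative.ofAdd ((p ^ m : ℕ) : ZMod (p ^ n))) := by
    intro h
    rw [MonoidHom.mem_ker, MonoidHom.comp_apply, Subgroup.coe_subtype, ← MonoidHom.mem_ker, hχ,
      Subgroup.mem_comap]
  have hpow : ∀ k : ℕ, (⟨σ, hσ⟩ : H) ^ k ∈ (χ.comp H.subtype).ker ↔ p ^ (m - e) ∣ k := by
    intro k
    rw [hKmem]
    have h1 : deg (((⟨σ, hσ⟩ : H) ^ k : H) : G)
        = Multiplicative.ofAdd (((k * (H.map deg).index : ℕ) : ℕ) : ZMod (p ^ n)) := by
      rw [SubgroupClass.coe_pow, map_pow, hdeg, ← ofAdd_nsmul, nsmul_eq_mul, Nat.cast_mul]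
    rw [h1, h70_ofAdd_mem_zpowers_iff (p ^ n) (p ^ m) _ (pow_dvd_pow p hmn), ← hpa]
    exact Nat.mul_dvd_mul_iff_right hf0
  have hord : orderOf (QuotientGroup.mk (⟨σ, hσ⟩ : H) : H ⧸ (χ.comp H.subtype).ker)
      = p ^ (m - e) := by
    apply Nat.dvd_antisymm
    · apply orderOf_dvd_of_pow_eq_one
      rw [← QuotientGroup.mk_pow, QuotientGroup.eq_one_iff, hpow]
    · rw [← hpow, ← QuotientGroup.eq_one_iff, QuotientGroup.mk_pow]
      exact pow_orderOf_eq_one _
  have hbij : Function.Bijective (fun i : Fin (p ^ (m - e)) =>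
      (QuotientGroup.mk ((⟨σ, hσ⟩ : H) ^ (i : ℕ)) : H ⧸ (χ.comp H.subtype).ker)) := by
    constructor
    · intro i j hij
      have hij' : (QuotientGroup.mk (⟨σ, hσ⟩ : H) : H ⧸ (χ.comp H.subtype).ker) ^ (i : ℕ)
          = (QuotientGroup.mk (⟨σ, hσ⟩ : H) : H ⧸ (χ.comp H.subtype).ker) ^ (j : ℕ) := hij
      have := pow_injOn_Iio_orderOf (by simp [hord]) (by simp [hord]) hij'
      exact Fin.ext this
    · intro q
      induction q using QuotientGroup.induction_on with
      | H h =>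
        have h1 : deg (h : G) ∈ Subgroup.zpowers (deg σ) := by
          rw [← hgen]; exact Subgroup.mem_map_of_mem deg h.2
        obtain ⟨z, hz⟩ := Subgroup.mem_zpowers_iff.mp h1
        have h2 : (QuotientGroup.mk h : H ⧸ (χ.comp H.subtype).ker)
            = (QuotientGroup.mk (⟨σ, hσ⟩ : H) : H ⧸ (χ.comp H.subtype).ker) ^ z := by
          rw [← QuotientGroup.mk_zpow, QuotientGroup.eq, hKmem]
          have h3 : deg ((h⁻¹ * (⟨σ, hσ⟩ : H) ^ z : H) : G) = 1 := by
            rw [Subgroup.coe_mul, Subgroup.coe_inv, SubgroupClass.coe_zpow, map_mul, map_inv,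
              map_zpow, hz, inv_mul_cancel]
          rw [h3]; exact one_mem _
        have hpos : (0 : ℤ) < ((p ^ (m - e) : ℕ) : ℤ) := by
          exact_mod_cast pow_pos hp.out.pos _
        refine ⟨⟨(z % ((p ^ (m - e) : ℕ) : ℤ)).toNat, ?_⟩, ?_⟩
        · have h4 := Int.emod_lt_of_pos z hpos
          have h0 := Int.emod_nonneg z hpos.ne'
          omega
        · show (QuotientGroup.mk ((⟨σ, hσ⟩ : H) ^ ((z % ((p ^ (m - e) : ℕ) : ℤ)).toNat)) :
            H ⧸ (χ.comp H.subtype).ker) = QuotientGroup.mk h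
          rw [h2, QuotientGroup.mk_pow, ← zpow_natCast,
            Int.toNat_of_nonneg (Int.emod_nonneg z hpos.ne'), ← hord, zpow_mod_orderOf]
  have hnorm : ∀ b : C, (∀ k ∈ (χ.comp H.subtype).ker, k • b = b) →
      h12_relNorm (χ.comp H.subtype).ker b = ∑ i ∈ Finset.range (p ^ (m - e)), σ ^ i • b := by
    intro b hb
    rw [h70_relNorm_eq_cycSum _ (⟨σ, hσ⟩ : H) (p ^ (m - e)) hbij b hb]
    rfl
  constructor
  · rintro ⟨b, hb, hcb⟩
    refine ⟨b, fun h hh hdegh => hb ⟨h, hh⟩ ((hKmem ⟨h, hh⟩).mpr hdegh), ?_⟩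
    rw [hcb, hnorm b hb]
  · rintro ⟨b, hb, hcb⟩
    have hb' : ∀ k ∈ (χ.comp H.subtype).ker, k • b = b :=
      fun k hk => hb (k : G) k.2 ((hKmem k).mp hk)
    exact ⟨b, hb', by rw [hcb, hnorm b hb']⟩

/-- **Bridge.** For `χ = deg mod p^m` and a subgroup `H` with `f_H ∣ p^m`: the restriction to
`H` of the cup-product cocycle `(g, h) ↦ carry(χ g, χ h) • c` (`c ∈ C^H`) is a coboundary iff
`w c ∈ p^m |H| V`. -/
theorem h70_chi_res_iff (D : h30_CFData p deg w) {M : ℕ} [NeZero M]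
    (χ : G →* Multiplicative (ZMod M)) (m : ℕ) (hmn : m ≤ n)
    (hχ : χ.ker =
      (Subgroup.zpowers (Multiplicative.ofAdd ((p ^ m : ℕ) : ZMod (p ^ n)))).comap deg)
    (H : Subgroup G) (hH : (H.map deg).index ∣ p ^ m) (c : C) (hc : ∀ h ∈ H, h • c = c) :
    IsCoboundary₂ (fun x : H × H => h12_chiCocycle χ c ((x.1 : G), (x.2 : G))) ↔
      ∃ y : V, w c = (p ^ m * Nat.card H) • y := by
  rw [← h70_isRelNorm_iff D χ m hmn hχ H hH c hc]
  have hfun : (fun x : H × H => h12_chiCocycle χ c ((x.1 : G), (x.2 : G)))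
      = h12_chiCocycle (χ.comp H.subtype) c := rfl
  rw [hfun]
  constructor
  · intro h
    refine h12_chi_relNorm_of_coboundary (χ.comp H.subtype) ?_ c (fun g => hc g g.2) h
    intro u hu
    exact h30_H1_sub D.ploc D.CFA1 H _ u hu
  · exact h12_chi_coboundary_of_relNorm (χ.comp H.subtype) c

/-- `f_H = [deg G : deg H]` divides the `p`-part of the index of `H`. -/
theorem h70_index_map_deg_dvd (hsurj : Function.Surjective deg) (H : Subgroup G) :
    (H.map deg).index ∣ p ^ (H.index).factorization p := by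
  have : NeZero (p ^ n) := ⟨pow_ne_zero _ hp.out.ne_zero⟩
  have h1 : (H.map deg).index ∣ H.index := Subgroup.index_map_dvd H hsurj
  have h2 : (H.map deg).index ∣ p ^ n := by
    have h3 := Subgroup.card_mul_index (H.map deg)
    rw [Nat.card_congr Multiplicative.toAdd, Nat.card_zmod] at h3
    exact Dvd.intro_left _ h3
  obtain ⟨e, -, he⟩ := (Nat.dvd_prime_pow hp.out).mp h2
  rw [he] at h1 ⊢
  exact pow_dvd_pow p ((hp.out.pow_dvd_iff_le_factorization Subgroup.index_ne_zero_of_finite).mp h1)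

end Bridge

end Fermat.Agent.S55
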