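import Mathlib
import Fermat.Agent.S55.h72_AbsDefs

/-!
# S55 / H-COMAP (helper82): a `p`-class module restricts along an injective group homomorphism

If `φ : Γ →* G` is injective and `Γ` acts on the `G`-module `C` through `φ`, then a `p`-class
module structure for `G` gives one for `Γ` (subgroups of `G` as separate types).
-/

open groupCohomology

namespace Fermat.Agent.S55

theorem h82_classModule_comap {p : ℕ} [Fact p.Prime] {G Γ : Type*} [Group G] [Group Γ]
    (φ : Γ →* G) (hφ : Function.Injective φ) {C : Type*} [AddCommGroup C] [DistribMulAction G C]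
    [DistribMulAction Γ C] (hact : ∀ (γ : Γ) (c : C), γ • c = φ γ • c)
    (hC : IsPClassModule p G C) : IsPClassModule p Γ C := by
  -- transport along `e : H ≃* H.map φ`
  have he : ∀ (H : Subgroup Γ) (h : H),
      ((H.equivMapOfInjective φ hφ h : H.map φ) : G) = φ (h : Γ) := fun H h => rfl
  have he' : ∀ (H : Subgroup Γ) (g' : H.map φ),
      φ (((H.equivMapOfInjective φ hφ).symm g' : H) : Γ) = (g' : G) := by
    intro H g'
    rw [← he H, MulEquiv.apply_symm_apply]
  refine ⟨hC.ploc, ?_, ?_⟩
  · intro H f hf
    obtain ⟨x, hx⟩ := hC.h1 (H.map φ) (fun g' => f ((H.equivMapOfInjective φ hφ).symm g')) (by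
      intro g' h'
      show f ((H.equivMapOfInjective φ hφ).symm (g' * h'))
        = (g' : G) • f ((H.equivMapOfInjective φ hφ).symm h')
          + f ((H.equivMapOfInjective φ hφ).symm g')
      rw [map_mul, hf]
      show (((H.equivMapOfInjective φ hφ).symm g' : H) : Γ) • _ + _ = _
      rw [hact, he'])
    refine ⟨x, fun g => ?_⟩
    have h1 := hx (H.equivMapOfInjective φ hφ g)
    simp only [MulEquiv.symm_apply_apply] at h1
    rw [← h1]
    show (g : Γ) • x - x = φ (g : Γ) • x - x
    rw [hact]
  · obtain ⟨u', hu', hfund⟩ := hC.fund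
    refine ⟨fun x : Γ × Γ => u' (φ x.1, φ x.2), ?_, ?_⟩
    · intro g h j
      show u' (φ (g * h), φ j) + u' (φ g, φ h) = g • u' (φ h, φ j) + u' (φ g, φ (h * j))
      rw [map_mul, map_mul, hact]
      exact hu' (φ g) (φ h) (φ j)
    · intro H
      obtain ⟨hA, hB⟩ := hfund (H.map φ)
      constructor
      · intro f hf
        obtain ⟨k, x', hx'⟩ := hA (fun x : (H.map φ) × (H.map φ) =>
          f ((H.equivMapOfInjective φ hφ).symm x.1, (H.equivMapOfInjective φ hφ).symm x.2)) (by
          intro g' h' j'
          show f ((H.equivMapOfInjective φ hφ).symm (g' * h'), (H.equivMapOfInjective φ hφ).symm j')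
              + f ((H.equivMapOfInjective φ hφ).symm g', (H.equivMapOfInjective φ hφ).symm h')
            = (g' : G) • f ((H.equivMapOfInjective φ hφ).symm h',
                (H.equivMapOfInjective φ hφ).symm j')
              + f ((H.equivMapOfInjective φ hφ).symm g',
                (H.equivMapOfInjective φ hφ).symm (h' * j'))
          rw [map_mul, map_mul, hf]
          show (((H.equivMapOfInjective φ hφ).symm g' : H) : Γ) • _ + _ = _
          rw [hact, he'])
        refine ⟨k, fun g => x' (H.equivMapOfInjective φ hφ g), ?_⟩
        intro g h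
        have h1 := hx' (H.equivMapOfInjective φ hφ g) (H.equivMapOfInjective φ hφ h)
        simp only [Pi.sub_apply, Pi.smul_apply, MulEquiv.symm_apply_apply, he] at h1
        show (g : Γ) • x' (H.equivMapOfInjective φ hφ h)
            - x' (H.equivMapOfInjective φ hφ (g * h)) + x' (H.equivMapOfInjective φ hφ g)
          = f (g, h) - k • u' (φ (g : Γ), φ (h : Γ))
        rw [hact, map_mul, ← h1]
        rfl
      · intro k hk
        obtain ⟨x, hx⟩ := hk
        have hcard : Nat.card (H.map φ) = Nat.card H :=
          (Nat.card_congr (H.equivMapOfInjective φ hφ).toEquiv).symm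
        rw [← hcard]
        apply hB k
        refine ⟨fun g' => x ((H.equivMapOfInjective φ hφ).symm g'), ?_⟩
        intro g' h'
        have h1 := hx ((H.equivMapOfInjective φ hφ).symm g') ((H.equivMapOfInjective φ hφ).symm h')
        simp only [Pi.smul_apply, he'] at h1
        show (g' : G) • x ((H.equivMapOfInjective φ hφ).symm h')
            - x ((H.equivMapOfInjective φ hφ).symm (g' * h'))
            + x ((H.equivMapOfInjective φ hφ).symm g')
          = k • u' ((g' : G), (h' : G))
        rw [← h1, map_mul, ← he' H g', ← hact]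
        rfl

end Fermat.Agent.S55
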