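import Fermat.Agent.S55.h12_RecipGen
import Fermat.Agent.S55.h70_CFBridge
import Fermat.Agent.S55.h82_ClassComap

set_option autoImplicit false

/-!
# S55, layer H: H-RECIP-REL, reciprocity for Frobenius pairs from class-field data

`h12_recip_rel`: let `G` be a finite group, `C` a `p`-class module with class-field data
`h30_CFData p deg w` (`deg : G → ℤ/p^n`, `w : C → V`), and let `Γ → G` be an injective
homomorphism (`Γ` arbitrary, not necessarily abelian), `C` a `Γ`-module through it.  For a family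
of Frobenius pairs `(c i, σ i)`, `σ i ∈ Γ`:
* (FP1) `c i` is a norm from every subgroup of `Γ` containing `σ i`;
* (FP2) `w (c i) ≡ |Γ| · deg (σ i) · e` modulo `p^n |Γ| V`;
* (FP3) `deg (σ i) ≠ 1`;
a combination `Σ a_i c_i` is a norm from `ker χ` (`χ : Γ → ℤ/p`) iff `Σ a_i χ(σ_i) = 0`.

Auxiliary: transport of `h12_IsRelNorm` along an isomorphism (`h12_isRelNorm_equiv`), division of
a character with values in `ℤ/p^n` by the index of its image (`h12_divChar`).
-/

namespace Fermat.Agent.S55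

section Transfer

variable {Γ Γ' : Type*} [Group Γ] [Group Γ'] {C : Type*} [AddCommGroup C]
  [DistribMulAction Γ C] [DistribMulAction Γ' C]

/-- The relative norm does not depend on the group through which the action factors. -/
theorem h12_relNorm_equiv (f : Γ ≃* Γ') (hf : ∀ (γ : Γ) (c : C), γ • c = f γ • c)
    (H : Subgroup Γ) (H' : Subgroup Γ') (hH : ∀ γ : Γ, γ ∈ H ↔ f γ ∈ H') (c : C)
    (hc : ∀ h ∈ H, h • c = c) : h12_relNorm H c = h12_relNorm H' c := by
  have hc' : ∀ h ∈ H', h • c = c := by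
    intro h hh
    have h1 := hc (f.symm h) ((hH _).2 (by rwa [MulEquiv.apply_symm_apply]))
    rwa [hf, MulEquiv.apply_symm_apply] at h1
  let E : Γ ⧸ H → Γ' ⧸ H' := Quotient.map' f (by
    intro x y hxy
    rw [QuotientGroup.leftRel_apply] at hxy ⊢
    rw [← map_inv, ← map_mul]
    exact (hH _).1 hxy)
  have hE : ∀ γ : Γ, E (γ : Γ ⧸ H) = ((f γ : Γ') : Γ' ⧸ H') := fun γ => rfl
  have hbij : Function.Bijective E := by
    constructor
    · intro q1 q2
      induction q1 using QuotientGroup.induction_on with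
      | H g1 =>
        induction q2 using QuotientGroup.induction_on with
        | H g2 =>
          rw [hE, hE, QuotientGroup.eq, QuotientGroup.eq, ← map_inv, ← map_mul]
          exact (hH _).2
    · intro q
      induction q using QuotientGroup.induction_on with
      | H g => exact ⟨((f.symm g : Γ) : Γ ⧸ H), by rw [hE, MulEquiv.apply_symm_apply]⟩
  unfold h12_relNorm
  refine finsum_eq_of_bijective E hbij (fun q => ?_)
  induction q using QuotientGroup.induction_on with
  | H g => rw [hE, h12_out_smul H c hc g, h12_out_smul H' c hc' (f g), hf]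

/-- Being a relative norm does not depend on the group through which the action factors. -/
theorem h12_isRelNorm_equiv (f : Γ ≃* Γ') (hf : ∀ (γ : Γ) (c : C), γ • c = f γ • c)
    (H : Subgroup Γ) (H' : Subgroup Γ') (hH : ∀ γ : Γ, γ ∈ H ↔ f γ ∈ H') (c : C) :
    h12_IsRelNorm H c ↔ h12_IsRelNorm H' c := by
  have hfix : ∀ c' : C, (∀ h ∈ H, h • c' = c') ↔ (∀ h ∈ H', h • c' = c') := by
    intro c'
    constructor
    · intro hc h hh
      have h1 := hc (f.symm h) ((hH _).2 (by rwa [MulEquiv.apply_symm_apply]))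
      rwa [hf, MulEquiv.apply_symm_apply] at h1
    · intro hc h hh
      rw [hf]
      exact hc _ ((hH h).1 hh)
  constructor
  · rintro ⟨c', hc', rfl⟩
    exact ⟨c', (hfix c').1 hc', h12_relNorm_equiv f hf H H' hH c' hc'⟩
  · rintro ⟨c', hc', rfl⟩
    exact ⟨c', (hfix c').2 hc', (h12_relNorm_equiv f hf H H' hH c' ((hfix c').2 hc')).symm⟩

end Transfer

section DivChar

/-- A nontrivial character with values in `ℤ/p^n` is `p^a` times a surjective character with
values in `ℤ/p^(n-a)`, where `p^a` is the index of its image. -/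
theorem h12_divChar {p : ℕ} [Fact p.Prime] {Γ : Type*} [Group Γ] {n : ℕ}
    (d : Γ →* Multiplicative (ZMod (p ^ n))) (hd : ∃ g, d g ≠ 1) :
    ∃ a m : ℕ, m ≠ 0 ∧ a + m = n ∧ d.range.index = p ^ a ∧
      ∃ χ0 : Γ →* Multiplicative (ZMod (p ^ m)), Function.Surjective χ0 ∧
        ∀ g, (Multiplicative.toAdd (d g)).val = p ^ a * (Multiplicative.toAdd (χ0 g)).val := by
  have hp : p.Prime := Fact.out
  have : NeZero (p ^ n) := ⟨pow_ne_zero _ hp.ne_zero⟩
  have hcardT : Nat.card (Multiplicative (ZMod (p ^ n))) = p ^ n := by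
    rw [Nat.card_eq_fintype_card, Fintype.card_multiplicative, ZMod.card]
  have hci : Nat.card d.range * d.range.index = p ^ n := by
    rw [Subgroup.card_mul_index, hcardT]
  obtain ⟨a, ha, hidx⟩ := (Nat.dvd_prime_pow hp).1 (Dvd.intro_left _ hci)
  have hcard : Nat.card d.range = p ^ (n - a) := by
    have hci' : Nat.card d.range * p ^ a = p ^ n := by
      rw [← hidx]
      exact hci
    have h1 : Nat.card d.range * p ^ a = p ^ (n - a) * p ^ a := by
      rw [hci', ← pow_add, Nat.sub_add_cancel ha]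
    exact Nat.eq_of_mul_eq_mul_right (pow_pos hp.pos a) h1
  have hm : n - a ≠ 0 := by
    intro h0
    rw [h0, pow_zero] at hcard
    obtain ⟨g, hg⟩ := hd
    have hsub : Subsingleton d.range := (Nat.card_eq_one_iff_unique.1 hcard).1
    have h1 := Subsingleton.elim (⟨d g, g, rfl⟩ : d.range) 1
    exact hg (congrArg Subtype.val h1)
  refine ⟨a, n - a, hm, by omega, hidx, ?_⟩
  have : NeZero (p ^ (n - a)) := ⟨pow_ne_zero _ hp.ne_zero⟩
  have hpn : p ^ n = p ^ a * p ^ (n - a) := by rw [← pow_add]; congr 1; omega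
  have hdiv : ∀ g, p ^ a ∣ (Multiplicative.toAdd (d g)).val := by
    intro g
    have h1 : (⟨d g, g, rfl⟩ : d.range) ^ Nat.card d.range = 1 := pow_card_eq_one'
    have h2 : (d g) ^ (p ^ (n - a)) = 1 := by
      have h3 := congrArg Subtype.val h1
      rw [hcard] at h3
      exact h3
    have h3 := congrArg Multiplicative.toAdd h2
    rw [toAdd_pow, toAdd_one, nsmul_eq_mul] at h3
    have h4 : ((p ^ (n - a) * (Multiplicative.toAdd (d g)).val : ℕ) : ZMod (p ^ n)) = 0 := by
      rw [Nat.cast_mul, ZMod.natCast_zmod_val]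
      exact h3
    obtain ⟨t, ht⟩ := (ZMod.natCast_eq_zero_iff _ _).1 h4
    have h5 : p ^ (n - a) * (Multiplicative.toAdd (d g)).val = p ^ (n - a) * (p ^ a * t) :=
      ht.trans (by rw [hpn]; ring)
    exact ⟨t, Nat.eq_of_mul_eq_mul_left (pow_pos hp.pos _) h5⟩
  let χ0 : Γ →* Multiplicative (ZMod (p ^ (n - a))) :=
    MonoidHom.mk' (fun g => Multiplicative.ofAdd
      ((((Multiplicative.toAdd (d g)).val / p ^ a : ℕ) : ZMod (p ^ (n - a))))) (by
      intro g h
      obtain ⟨x, hx⟩ := hdiv g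
      obtain ⟨y, hy⟩ := hdiv h
      have hval : (Multiplicative.toAdd (d (g * h))).val = p ^ a * ((x + y) % p ^ (n - a)) := by
        rw [map_mul, toAdd_mul, ZMod.val_add, hx, hy, ← mul_add, hpn, Nat.mul_mod_mul_left]
      rw [← ofAdd_add, hval, hx, hy, Nat.mul_div_cancel_left _ (pow_pos hp.pos a),
        Nat.mul_div_cancel_left _ (pow_pos hp.pos a),
        Nat.mul_div_cancel_left _ (pow_pos hp.pos a), ZMod.natCast_mod, Nat.cast_add])
  have hval0 : ∀ g, (Multiplicative.toAdd (χ0 g)).val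
      = (Multiplicative.toAdd (d g)).val / p ^ a := by
    intro g
    show ((((Multiplicative.toAdd (d g)).val / p ^ a : ℕ) : ZMod (p ^ (n - a)))).val = _
    rw [ZMod.val_natCast]
    apply Nat.mod_eq_of_lt
    rw [Nat.div_lt_iff_lt_mul (pow_pos hp.pos a), mul_comm, ← hpn]
    exact ZMod.val_lt _
  have hval : ∀ g, (Multiplicative.toAdd (d g)).val
      = p ^ a * (Multiplicative.toAdd (χ0 g)).val := by
    intro g
    rw [hval0, Nat.mul_div_cancel' (hdiv g)]
  have hker : χ0.ker = d.ker := by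
    ext g
    rw [MonoidHom.mem_ker, MonoidHom.mem_ker]
    constructor
    · intro h
      have h1 : (Multiplicative.toAdd (d g)).val = 0 := by
        rw [hval, h, toAdd_one, ZMod.val_zero, mul_zero]
      exact (ZMod.val_eq_zero _).1 h1
    · intro h
      have h1 : (Multiplicative.toAdd (χ0 g)).val = 0 := by
        have h2 := hval g
        rw [h, toAdd_one, ZMod.val_zero] at h2
        rcases Nat.mul_eq_zero.1 h2.symm with h3 | h3
        · exact absurd h3 (pow_ne_zero _ hp.ne_zero)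
        · exact h3
      exact (ZMod.val_eq_zero _).1 h1
  have hrange : Nat.card χ0.range = p ^ (n - a) := by
    rw [← Subgroup.index_ker, hker, Subgroup.index_ker, hcard]
  have htop : χ0.range = ⊤ := by
    apply Subgroup.eq_top_of_card_eq
    rw [hrange, Nat.card_eq_fintype_card, Fintype.card_multiplicative, ZMod.card]
  exact ⟨χ0, MonoidHom.range_eq_top.1 htop, hval⟩

end DivChar

section RecipRel

open groupCohomology

/-- **H-RECIP-REL.** Reciprocity for Frobenius pairs from class-field data, relative to an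
injective homomorphism `φ : Γ → G` (no commutativity needed): a combination `Σ a_i c_i` of
Frobenius elements is a norm from `ker χ` iff `Σ a_i χ(σ_i) = 0`. -/
theorem h12_recip_rel_iff {p : ℕ} [Fact p.Prime] {G : Type*} [Group G] [Finite G] {C : Type*}
    [AddCommGroup C] [DistribMulAction G C] {n : ℕ}
    {deg : G →* Multiplicative (ZMod (p ^ n))} {V : Type*} [AddCommGroup V] {w : C →+ V}
    (D : h30_CFData p deg w) (hC : IsPClassModule p G C)
    (tfV : ∀ (k : ℕ) (x : V), k ≠ 0 → k • x = 0 → x = 0) (e : V)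
    (he : ∀ x : V, ∃ (k : ℤ) (y : V), x = k • e + p • y)
    {Γ : Type*} [Group Γ] [DistribMulAction Γ C] (φ : Γ →* G) (hφ : Function.Injective φ)
    (hact : ∀ (γ : Γ) (c : C), γ • c = φ γ • c)
    {ι : Type*} (s : Finset ι) (c : ι → C) (σ : ι → Γ) (a : ι → ℤ)
    (hFP1 : ∀ i ∈ s, ∀ H' : Subgroup Γ, σ i ∈ H' → h12_IsRelNorm H' (c i))
    (hFP2 : ∀ i ∈ s, ∃ y : V, w (c i) -
      (Nat.card Γ * (Multiplicative.toAdd (deg (φ (σ i)))).val) • e = (p ^ n * Nat.card Γ) • y)
    (hFP3 : ∀ i ∈ s, deg (φ (σ i)) ≠ 1) (χ : Γ →* Multiplicative (ZMod p)) :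
    h12_IsRelNorm χ.ker (∑ i ∈ s, a i • c i) ↔
      ∑ i ∈ s, a i • Multiplicative.toAdd (χ (σ i)) = 0 := by
  classical
  have hp : p.Prime := Fact.out
  have hfin : Finite Γ := Finite.of_injective φ hφ
  rcases s.eq_empty_or_nonempty with rfl | ⟨i0, hi0⟩
  · rw [Finset.sum_empty, Finset.sum_empty]
    exact ⟨fun _ => rfl, fun _ => ⟨0, fun h _ => smul_zero h, (h12_relNorm_zero _).symm⟩⟩
  obtain ⟨a', m, hm, ham, hidx, χ0, hχ0, hval⟩ :=
    h12_divChar (deg.comp φ) ⟨σ i0, hFP3 i0 hi0⟩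
  have hCΓ : IsPClassModule p Γ C := h82_classModule_comap φ hφ hact hC
  have hf : ∀ (γ : Γ) (x : C), γ • x = (MonoidHom.ofInjective hφ γ : φ.range) • x :=
    fun γ x => hact γ x
  have hcardH : Nat.card φ.range = Nat.card Γ :=
    (Nat.card_congr (MonoidHom.ofInjective hφ).toEquiv).symm
  have hmap : φ.range.map deg = (deg.comp φ).range := (MonoidHom.range_comp deg φ).symm
  have hpn : p ^ n = p ^ a' * p ^ m := by rw [← pow_add, ham]
  have hM : Nat.card Γ * p ^ a' ≠ 0 := mul_ne_zero Nat.card_pos.ne' (pow_ne_zero _ hp.ne_zero)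
  have hfixH : ∀ x : C, (∀ γ : Γ, γ • x = x) → ∀ h ∈ φ.range, h • x = x := by
    rintro x hx _ ⟨γ, rfl⟩
    rw [← hact]
    exact hx γ
  have hex : ∀ x : FixedPoints.addSubgroup Γ C,
      ∃ y : V, w (x : C) = (Nat.card Γ * p ^ a') • y := by
    intro x
    obtain ⟨y, hy⟩ := D.V1 φ.range (x : C) (hfixH _ (h12_fixedPt x))
    rw [hcardH, hmap, hidx] at hy
    exact ⟨y, hy⟩
  let v : FixedPoints.addSubgroup Γ C →+ V :=
    AddMonoidHom.mk' (fun x => Classical.choose (hex x)) (by
      intro x y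
      have hx := Classical.choose_spec (hex x)
      have hy := Classical.choose_spec (hex y)
      have hxy := Classical.choose_spec (hex (x + y))
      have h0 : (Nat.card Γ * p ^ a') • (Classical.choose (hex (x + y))
          - (Classical.choose (hex x) + Classical.choose (hex y))) = 0 := by
        rw [smul_sub, smul_add, ← hx, ← hy, ← hxy, AddSubgroup.coe_add, map_add, sub_self]
      exact sub_eq_zero.1 (tfV _ _ hM h0))
  have hv0 : ∀ x : FixedPoints.addSubgroup Γ C, w (x : C) = (Nat.card Γ * p ^ a') • v x :=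
    fun x => Classical.choose_spec (hex x)
  have hone : ∀ γ : Γ, χ0 γ = 1 ↔ deg (φ γ) = 1 := by
    intro γ
    constructor
    · intro h
      have h1 : (Multiplicative.toAdd (deg (φ γ))).val = 0 := by
        have h2 := hval γ
        rw [h, toAdd_one, ZMod.val_zero, mul_zero] at h2
        exact h2
      exact (ZMod.val_eq_zero _).1 h1
    · intro h
      have h1 : (Multiplicative.toAdd (χ0 γ)).val = 0 := by
        have h2 := hval γ
        rw [MonoidHom.comp_apply, h, toAdd_one, ZMod.val_zero] at h2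
        rcases Nat.mul_eq_zero.1 h2.symm with h3 | h3
        · exact absurd h3 (pow_ne_zero _ hp.ne_zero)
        · exact h3
      exact (ZMod.val_eq_zero _).1 h1
  have hker : ∀ γ : Γ, γ ∈ χ0.ker ↔
      MonoidHom.ofInjective hφ γ ∈ (deg.comp φ.range.subtype).ker := by
    intro γ
    rw [MonoidHom.mem_ker, MonoidHom.mem_ker]
    exact hone γ
  have hχ : deg.ker = (Subgroup.zpowers
      (Multiplicative.ofAdd ((p ^ n : ℕ) : ZMod (p ^ n)))).comap deg := by
    rw [ZMod.natCast_self, ofAdd_zero, Subgroup.zpowers_one_eq_bot]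
    rfl
  have hv : ∀ x : FixedPoints.addSubgroup Γ C,
      h12_IsRelNorm χ0.ker (x : C) ↔ ∃ y : V, v x = p ^ m • y := by
    intro x
    rw [h12_isRelNorm_equiv (MonoidHom.ofInjective hφ) hf χ0.ker
        (deg.comp φ.range.subtype).ker hker (x : C),
      h70_isRelNorm_iff D deg n le_rfl hχ φ.range
        (by rw [hmap, hidx]; exact pow_dvd_pow p (by omega)) (x : C)
        (hfixH _ (h12_fixedPt x)),
      hv0 x, hcardH]
    have e2 : p ^ n * Nat.card Γ = (Nat.card Γ * p ^ a') * p ^ m := by rw [hpn]; ring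
    rw [e2]
    constructor
    · rintro ⟨y, hy⟩
      refine ⟨y, ?_⟩
      have h0 : (Nat.card Γ * p ^ a') • (v x - p ^ m • y) = 0 := by
        rw [smul_sub, hy, mul_smul (Nat.card Γ * p ^ a') (p ^ m) y, sub_self]
      exact sub_eq_zero.1 (tfV _ _ hM h0)
    · rintro ⟨y, hy⟩
      exact ⟨y, by rw [hy, mul_smul (Nat.card Γ * p ^ a') (p ^ m) y]⟩
  have hV : ∀ x : V, ∃ (k : ℤ) (y : V), x = k • e + p ^ m • y := by
    have key : ∀ (j : ℕ) (x : V), ∃ (k : ℤ) (y : V), x = k • e + p ^ j • y := by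
      intro j
      induction j with
      | zero =>
        intro x
        exact ⟨0, x, by rw [zero_smul, zero_add, pow_zero, one_smul]⟩
      | succ j ih =>
        intro x
        obtain ⟨k, y, rfl⟩ := ih x
        obtain ⟨k', y', rfl⟩ := he y
        refine ⟨k + ((p ^ j : ℕ) : ℤ) * k', y', ?_⟩
        rw [add_smul, smul_add, pow_succ, mul_smul (p ^ j) p y', mul_smul, natCast_zsmul,
          add_assoc]
    exact key m
  have hfix : ∀ i ∈ s, ∀ γ : Γ, γ • c i = c i := fun i hi =>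
    (h12_isRelNorm_top (c i)).1 (hFP1 i hi ⊤ (Subgroup.mem_top _))
  let c' : ι → FixedPoints.addSubgroup Γ C := fun i =>
    if hi : i ∈ s then ⟨c i, (FixedPoints.mem_addSubgroup Γ C (c i)).2 (hfix i hi)⟩ else 0
  have hc' : ∀ i ∈ s, ((c' i : FixedPoints.addSubgroup Γ C) : C) = c i := by
    intro i hi
    simp only [c', dif_pos hi]
  have hFP : ∀ i ∈ s, h12_FrobPair p χ0 v e (c' i) (σ i) := by
    intro i hi
    refine ⟨?_, ?_, ?_⟩
    · intro H' hσ
      rw [hc' i hi]
      exact hFP1 i hi H' hσ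
    · obtain ⟨y, hy⟩ := hFP2 i hi
      refine ⟨y, ?_⟩
      have hval' : (Multiplicative.toAdd (deg (φ (σ i)))).val
          = p ^ a' * (Multiplicative.toAdd (χ0 (σ i))).val := hval (σ i)
      have e1 : Nat.card Γ * (p ^ a' * (Multiplicative.toAdd (χ0 (σ i))).val)
          = (Nat.card Γ * p ^ a') * (Multiplicative.toAdd (χ0 (σ i))).val := by ring
      have e2 : p ^ n * Nat.card Γ = (Nat.card Γ * p ^ a') * p ^ m := by rw [hpn]; ring
      rw [← hc' i hi, hv0, hval', e1, e2,
        mul_smul (Nat.card Γ * p ^ a') (Multiplicative.toAdd (χ0 (σ i))).val e,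
        mul_smul (Nat.card Γ * p ^ a') (p ^ m) y] at hy
      have h0 : (Nat.card Γ * p ^ a') • (v (c' i)
          - (Multiplicative.toAdd (χ0 (σ i))).val • e - p ^ m • y) = 0 := by
        rw [smul_sub, smul_sub, hy, sub_self]
      exact sub_eq_zero.1 (tfV _ _ hM h0)
    · intro h1
      exact hFP3 i hi ((hone (σ i)).1 h1)
  have key := h12_recipG_cor p hCΓ hm χ0 hχ0 v e hv hV s c' σ a hFP χ
  have hsum : ((∑ i ∈ s, a i • c' i : FixedPoints.addSubgroup Γ C) : C)
      = ∑ i ∈ s, a i • c i := by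
    rw [AddSubmonoidClass.coe_finsetSum]
    refine Finset.sum_congr rfl (fun i hi => ?_)
    rw [AddSubgroup.coe_zsmul, hc' i hi]
  rw [hsum] at key
  exact key

/-- **H-RECIP-REL**, the direction used for the reciprocity law: if `Σ a_i c_i` is a norm from
`ker χ`, then `Σ a_i χ(σ_i) = 0`. -/
theorem h12_recip_rel {p : ℕ} [Fact p.Prime] {G : Type*} [Group G] [Finite G] {C : Type*}
    [AddCommGroup C] [DistribMulAction G C] {n : ℕ}
    {deg : G →* Multiplicative (ZMod (p ^ n))} {V : Type*} [AddCommGroup V] {w : C →+ V}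
    (D : h30_CFData p deg w) (hC : IsPClassModule p G C)
    (tfV : ∀ (k : ℕ) (x : V), k ≠ 0 → k • x = 0 → x = 0) (e : V)
    (he : ∀ x : V, ∃ (k : ℤ) (y : V), x = k • e + p • y)
    {Γ : Type*} [Group Γ] [DistribMulAction Γ C] (φ : Γ →* G) (hφ : Function.Injective φ)
    (hact : ∀ (γ : Γ) (c : C), γ • c = φ γ • c)
    {ι : Type*} (s : Finset ι) (c : ι → C) (σ : ι → Γ) (a : ι → ℤ)
    (hFP1 : ∀ i ∈ s, ∀ H' : Subgroup Γ, σ i ∈ H' → h12_IsRelNorm H' (c i))
    (hFP2 : ∀ i ∈ s, ∃ y : V, w (c i) -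
      (Nat.card Γ * (Multiplicative.toAdd (deg (φ (σ i)))).val) • e = (p ^ n * Nat.card Γ) • y)
    (hFP3 : ∀ i ∈ s, deg (φ (σ i)) ≠ 1) (χ : Γ →* Multiplicative (ZMod p))
    (hnorm : h12_IsRelNorm χ.ker (∑ i ∈ s, a i • c i)) :
    ∑ i ∈ s, a i • Multiplicative.toAdd (χ (σ i)) = 0 :=
  (h12_recip_rel_iff D hC tfV e he φ hφ hact s c σ a hFP1 hFP2 hFP3 χ).1 hnorm

/-- **H-RECIP-REL** for a commutative `Γ`, in product form: `χ (∏ σ_i ^ a_i) = 1`. -/
theorem h12_recip_rel_comm {p : ℕ} [Fact p.Prime] {G : Type*} [Group G] [Finite G] {C : Type*}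
    [AddCommGroup C] [DistribMulAction G C] {n : ℕ}
    {deg : G →* Multiplicative (ZMod (p ^ n))} {V : Type*} [AddCommGroup V] {w : C →+ V}
    (D : h30_CFData p deg w) (hC : IsPClassModule p G C)
    (tfV : ∀ (k : ℕ) (x : V), k ≠ 0 → k • x = 0 → x = 0) (e : V)
    (he : ∀ x : V, ∃ (k : ℤ) (y : V), x = k • e + p • y)
    {Γ : Type*} [CommGroup Γ] [DistribMulAction Γ C] (φ : Γ →* G) (hφ : Function.Injective φ)
    (hact : ∀ (γ : Γ) (c : C), γ • c = φ γ • c)
    {ι : Type*} (s : Finset ι) (c : ι → C) (σ : ι → Γ) (a : ι → ℤ)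
    (hFP1 : ∀ i ∈ s, ∀ H' : Subgroup Γ, σ i ∈ H' → h12_IsRelNorm H' (c i))
    (hFP2 : ∀ i ∈ s, ∃ y : V, w (c i) -
      (Nat.card Γ * (Multiplicative.toAdd (deg (φ (σ i)))).val) • e = (p ^ n * Nat.card Γ) • y)
    (hFP3 : ∀ i ∈ s, deg (φ (σ i)) ≠ 1) (χ : Γ →* Multiplicative (ZMod p))
    (hnorm : h12_IsRelNorm χ.ker (∑ i ∈ s, a i • c i)) :
    χ (∏ i ∈ s, σ i ^ a i) = 1 := by
  have h := h12_recip_rel D hC tfV e he φ hφ hact s c σ a hFP1 hFP2 hFP3 χ hnorm
  apply Multiplicative.toAdd.injective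
  rw [map_prod, toAdd_prod, toAdd_one, ← h]
  refine Finset.sum_congr rfl (fun i _ => ?_)
  rw [map_zpow, toAdd_zpow]

end RecipRel

end Fermat.Agent.S55
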