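import Fermat.Agent.S55.h24_Recip

set_option autoImplicit false
set_option linter.unusedSectionVars false

/-!
# S55, layer H: abstract reciprocity for Frobenius pairs, ARBITRARY finite group

`h24_Recip.lean` (helper24, row H-RECIP) states reciprocity for a finite *abelian* group `G`.
The proof never uses commutativity; this file repeats it for an arbitrary finite group, with the
corollary in additive form (`Σ a_i • χ(σ_i) = 0` instead of `χ (∏ σ_i ^ a_i) = 1`).  The
arithmetic uses it for `G = Gal(F/K)`, `F` a Galois level, which need not be abelian.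
-/

open groupCohomology

namespace Fermat.Agent.S55

section Recip

variable (p : ℕ) [Fact p.Prime] {G : Type*} [Group G] [Finite G] {C : Type*}
  [AddCommGroup C] [DistribMulAction G C] {V : Type*} [AddCommGroup V]

/-- A Frobenius pair `(c, σ)`: `c` is a norm from every subgroup containing `σ`, its valuation
is `χ0 σ` modulo `p ^ n`, and `χ0 σ ≠ 1`. -/
def h12_FrobPair {n : ℕ} (χ0 : G →* Multiplicative (ZMod (p ^ n)))
    (v : FixedPoints.addSubgroup G C →+ V) (e : V) (c : FixedPoints.addSubgroup G C) (σ : G) :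
    Prop :=
  (∀ H : Subgroup G, σ ∈ H → h12_IsRelNorm H (c : C)) ∧
    (∃ w : V, v c - (Multiplicative.toAdd (χ0 σ)).val • e = p ^ n • w) ∧ χ0 σ ≠ 1

variable {p}

/-- The norm criterion for a `p`-class module. -/
theorem h12_crit (hC : IsPClassModule p G C) {m : ℕ} [NeZero m]
    (χ : G →* Multiplicative (ZMod m)) (c : C) (hc : ∀ g : G, g • c = c) :
    IsCoboundary₂ (h12_chiCocycle χ c) ↔ h12_IsRelNorm χ.ker c :=
  ⟨h12_chi_relNorm_of_coboundary χ (fun u hu => hC.h1 χ.ker u hu) c hc,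
    h12_chi_coboundary_of_relNorm χ c⟩

theorem h12_fixedPt (c : FixedPoints.addSubgroup G C) (g : G) : g • (c : C) = c :=
  (FixedPoints.mem_addSubgroup G C (c : C)).1 c.2 g

/-- `p` divides the order of the image of `χ0 ^ (p ^ (n - 1))` for a surjective `χ0`. -/
theorem h12_dvd_card_range {n : ℕ} (hn : n ≠ 0) (χ0 : G →* Multiplicative (ZMod (p ^ n)))
    (hχ0 : Function.Surjective χ0) : p ∣ Nat.card (χ0 ^ (p ^ (n - 1))).range := by
  have hp : p.Prime := Fact.out
  have : NeZero (p ^ n) := ⟨pow_ne_zero _ hp.ne_zero⟩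
  have hdvd : Nat.card (χ0 ^ (p ^ (n - 1))).range ∣ p ^ n := by
    have h := Subgroup.card_subgroup_dvd_card (χ0 ^ (p ^ (n - 1))).range
    have hcard : Nat.card (Multiplicative (ZMod (p ^ n))) = p ^ n := by
      rw [Nat.card_eq_fintype_card, Fintype.card_multiplicative, ZMod.card]
    rwa [hcard] at h
  obtain ⟨j, -, hj⟩ := (Nat.dvd_prime_pow hp).1 hdvd
  rcases Nat.eq_zero_or_pos j with h0 | hpos
  · exfalso
    rw [h0, pow_zero] at hj
    obtain ⟨g, hg⟩ := hχ0 (Multiplicative.ofAdd (1 : ZMod (p ^ n)))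
    have hmem : (χ0 ^ (p ^ (n - 1))) g ∈ (χ0 ^ (p ^ (n - 1))).range := ⟨g, rfl⟩
    have hone : (χ0 ^ (p ^ (n - 1))) g = 1 := by
      have hsub : Subsingleton (χ0 ^ (p ^ (n - 1))).range :=
        (Nat.card_eq_one_iff_unique.1 hj).1
      have := Subsingleton.elim (⟨_, hmem⟩ : (χ0 ^ (p ^ (n - 1))).range) 1
      exact congrArg Subtype.val this
    have h1 := congrArg Multiplicative.toAdd hone
    rw [h24_toAdd_pow, hg, toAdd_ofAdd, mul_one, toAdd_one, ZMod.natCast_eq_zero_iff] at h1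
    have hlt : p ^ (n - 1) < p ^ n := Nat.pow_lt_pow_right hp.one_lt (by omega)
    exact absurd (Nat.le_of_dvd (pow_pos hp.pos _) h1) (not_le.2 hlt)
  · rw [hj]
    exact dvd_pow_self p hpos.ne'

/-- **H-RECIP**, with the existence of non-norms (row H-CYCIDX) as a hypothesis. -/
theorem h12_recipG_of {n : ℕ}
    (hnn : ∀ χ : G →* Multiplicative (ZMod (p ^ n)), p ∣ Nat.card χ.range →
      ∃ c : C, (∀ g : G, g • c = c) ∧ ¬ h12_IsRelNorm χ.ker c)
    (hC : IsPClassModule p G C) (hn : n ≠ 0)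
    (χ0 : G →* Multiplicative (ZMod (p ^ n))) (hχ0 : Function.Surjective χ0)
    (v : FixedPoints.addSubgroup G C →+ V) (e : V)
    (hv : ∀ c : FixedPoints.addSubgroup G C,
      h12_IsRelNorm χ0.ker (c : C) ↔ ∃ w : V, v c = p ^ n • w)
    (hV : ∀ x : V, ∃ (k : ℤ) (w : V), x = k • e + p ^ n • w) :
    ∃ γ : G × G → C, IsCocycle₂ γ ∧ ¬ IsCoboundary₂ γ ∧ IsCoboundary₂ (p • γ) ∧
      ∀ (c : FixedPoints.addSubgroup G C) (σ : G), h12_FrobPair p χ0 v e c σ →
        ∀ χ : G →* Multiplicative (ZMod p),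
          IsCoboundary₂ (h12_chiCocycle χ (c : C) - (Multiplicative.toAdd (χ σ)).val • γ) := by
  have hp : p.Prime := Fact.out
  have hNZp : NeZero p := ⟨hp.ne_zero⟩
  have hNZ : NeZero (p ^ n) := ⟨pow_ne_zero _ hp.ne_zero⟩
  have hpn : p ^ n = p * p ^ (n - 1) := by
    rw [← pow_succ']
    congr 1
    omega
  have hN01 : ∀ c : C, h12_IsRelNorm χ0.ker c → h12_IsRelNorm (χ0 ^ (p ^ (n - 1))).ker c :=
    fun c hc => h12_isRelNorm_mono (h24_ker_le_ker_pow χ0 _) c hc
  -- Step 1: a fixed element that is not a norm for `χ1`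
  obtain ⟨c1, hc1fix, hc1⟩ := hnn (χ0 ^ (p ^ (n - 1))) (h12_dvd_card_range hn χ0 hχ0)
  let c1' : FixedPoints.addSubgroup G C :=
    ⟨c1, (FixedPoints.mem_addSubgroup G C c1).2 hc1fix⟩
  obtain ⟨a, w1, hw1⟩ := hV (v c1')
  have hpa : ¬ (p : ℤ) ∣ a := by
    rintro ⟨a2, rfl⟩
    apply hc1
    have h1 : h12_IsRelNorm χ0.ker ((p ^ (n - 1) • c1' : FixedPoints.addSubgroup G C) : C) := by
      rw [hv]
      refine ⟨a2 • e + p ^ (n - 1) • w1, ?_⟩
      rw [map_nsmul, hw1, hpn]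
      module
    have h2 : IsCoboundary₂ (h12_chiCocycle χ0 (p ^ (n - 1) • c1)) :=
      (h12_crit hC χ0 _ (h12_fixedPt (p ^ (n - 1) • c1'))).2 h1
    rw [h12_chiCocycle_nsmul] at h2
    have h3 : h24_Cohom (h12_chiCocycle (χ0 ^ (p ^ (n - 1))) c1)
        (p ^ (n - 1) • h12_chiCocycle χ0 c1) := h12_chiCocycle_pow χ0 (p ^ (n - 1)) c1 hc1fix
    exact (h12_crit hC _ c1 hc1fix).1 (h3.isCoboundary₂_iff.2 h2)
  -- the normalised element `c0` with `v c0 ≡ e`
  have hcop : IsCoprime ((p : ℤ) ^ n) a :=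
    IsCoprime.pow_left ((Nat.prime_iff_prime_int.1 hp).coprime_iff_not_dvd.2 hpa)
  obtain ⟨x, a', hxa⟩ := hcop
  let c0' : FixedPoints.addSubgroup G C := a' • c1'
  have hc0fix : ∀ g : G, g • (c0' : C) = c0' := h12_fixedPt c0'
  obtain ⟨w0, hw0⟩ : ∃ w0 : V, v c0' = e + p ^ n • w0 := by
    refine ⟨a' • w1 - x • e, ?_⟩
    have h1 : a' * a = 1 - x * (p : ℤ) ^ n := by linarith
    show v (a' • c1') = _
    rw [map_zsmul, hw1, smul_add, smul_smul, h1]
    module
  -- the class `γ`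
  refine ⟨p ^ (n - 1) • h12_chiCocycle χ0 (c0' : C), ?_, ?_, ?_, ?_⟩
  · rw [← h12_chiCocycle_nsmul]
    exact h12_chiCocycle_isCocycle₂ χ0 _ (h12_fixedPt (p ^ (n - 1) • c0'))
  · intro hγ
    have h3 : h24_Cohom (h12_chiCocycle (χ0 ^ (p ^ (n - 1))) (c0' : C))
        (p ^ (n - 1) • h12_chiCocycle χ0 (c0' : C)) :=
      h12_chiCocycle_pow χ0 (p ^ (n - 1)) (c0' : C) hc0fix
    have hc0N : h12_IsRelNorm (χ0 ^ (p ^ (n - 1))).ker (c0' : C) :=
      (h12_crit hC _ _ hc0fix).1 (h3.isCoboundary₂_iff.2 hγ)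
    have hdiff : h12_IsRelNorm χ0.ker ((c1' - a • c0' : FixedPoints.addSubgroup G C) : C) := by
      rw [hv]
      refine ⟨w1 - a • w0, ?_⟩
      rw [map_sub, map_zsmul, hw1, hw0]
      module
    apply hc1
    have hsum : c1 = ((c1' - a • c0' : FixedPoints.addSubgroup G C) : C) + a • (c0' : C) := by
      simp [c1']
    rw [hsum]
    exact (h12_relNormSubgroup C (χ0 ^ (p ^ (n - 1))).ker).add_mem
      ((h12_mem_relNormSubgroup _ _).2 (hN01 _ hdiff))
      ((h12_relNormSubgroup C (χ0 ^ (p ^ (n - 1))).ker).zsmul_mem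
        ((h12_mem_relNormSubgroup _ _).2 hc0N) a)
  · have h3 : h24_Cohom (h12_chiCocycle (χ0 ^ (p ^ n)) (c0' : C))
        (p ^ n • h12_chiCocycle χ0 (c0' : C)) := h12_chiCocycle_pow χ0 (p ^ n) (c0' : C) hc0fix
    rw [h24_pow_self, h12_chiCocycle_one] at h3
    have h4 : IsCoboundary₂ (p ^ n • h12_chiCocycle χ0 (c0' : C)) :=
      h24_cohom_zero_iff.1 h3.symm
    rw [smul_smul, ← hpn]
    exact h4
  · rintro c σ ⟨FP1, ⟨w, hw⟩, FP3⟩ χ
    have hcfix : ∀ g : G, g • (c : C) = c := h12_fixedPt c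
    -- `A`, `t`, `b`
    have hA0 : Multiplicative.toAdd (χ0 σ) ≠ 0 := fun h => FP3 (Multiplicative.toAdd.injective h)
    have hA : ¬ p ^ n ∣ (Multiplicative.toAdd (χ0 σ)).val := by
      intro h
      have hlt := ZMod.val_lt (Multiplicative.toAdd (χ0 σ))
      have hpos : 0 < (Multiplicative.toAdd (χ0 σ)).val :=
        Nat.pos_of_ne_zero (fun h0 => hA0 ((ZMod.val_eq_zero _).1 h0))
      exact absurd (Nat.le_of_dvd hpos h) (not_le.2 hlt)
    obtain ⟨b0, hb0⟩ := h24_exists_mul_eq p n hp _ hA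
    have hb : (((Multiplicative.toAdd (χ σ)).val * b0 * (Multiplicative.toAdd (χ0 σ)).val : ℕ) :
        ZMod (p ^ n)) = (((Multiplicative.toAdd (χ σ)).val * p ^ (n - 1) : ℕ) : ZMod (p ^ n)) := by
      rw [mul_assoc, Nat.cast_mul, hb0, ← Nat.cast_mul]
    have hwv : v c = (Multiplicative.toAdd (χ0 σ)).val • e + p ^ n • w := by
      rw [← hw]
      abel
    -- abbreviations
    generalize hAdef : (Multiplicative.toAdd (χ0 σ)).val = A at hb hwv
    generalize htdef : (Multiplicative.toAdd (χ σ)).val = t at hb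
    -- scale `χ` to `ZMod (p ^ n)`
    obtain ⟨χs, -, hχs⟩ := h12_exists_scale (m := p) (d := p ^ (n - 1)) (M := p ^ n) hpn.symm χ
    have hsc : h12_chiCocycle χs (c : C) = h12_chiCocycle χ (c : C) :=
      h12_chiCocycle_scale hpn.symm χ χs hχs (c : C)
    -- `ψ := χs * (χ0 ^ b)⁻¹` kills `σ`
    have hψσ : (χs * (χ0 ^ (t * b0))⁻¹) σ = 1 := by
      apply Multiplicative.toAdd.injective
      rw [MonoidHom.mul_apply, MonoidHom.inv_apply, toAdd_mul, toAdd_inv, h24_toAdd_pow,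
        toAdd_one, ← ZMod.natCast_zmod_val (Multiplicative.toAdd (χs σ)), hχs σ,
        ← ZMod.natCast_zmod_val (Multiplicative.toAdd (χ0 σ)), hAdef, htdef, ← Nat.cast_mul,
        hb, mul_comm t]
      exact add_neg_cancel _
    have hψ : IsCoboundary₂ (h12_chiCocycle (χs * (χ0 ^ (t * b0))⁻¹) (c : C)) :=
      (h12_crit hC _ _ hcfix).2 (FP1 _ (MonoidHom.mem_ker.2 hψσ))
    have hχs_eq : χs = (χs * (χ0 ^ (t * b0))⁻¹) * χ0 ^ (t * b0) := by
      rw [inv_mul_cancel_right]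
    -- `[c, χ] ~ b • [c, χ0]`
    have e1 : h24_Cohom (h12_chiCocycle χ (c : C))
        ((t * b0) • h12_chiCocycle χ0 (c : C)) := by
      rw [← hsc]
      have h1 : h24_Cohom (h12_chiCocycle χs (c : C))
          (h12_chiCocycle (χs * (χ0 ^ (t * b0))⁻¹) (c : C) +
            h12_chiCocycle (χ0 ^ (t * b0)) (c : C)) := by
        have := h12_chiCocycle_mul (χs * (χ0 ^ (t * b0))⁻¹) (χ0 ^ (t * b0)) (c : C) hcfix
        rw [← hχs_eq] at this
        exact this
      have h2 : h24_Cohom (h12_chiCocycle (χs * (χ0 ^ (t * b0))⁻¹) (c : C) +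
            h12_chiCocycle (χ0 ^ (t * b0)) (c : C))
          (0 + (t * b0) • h12_chiCocycle χ0 (c : C)) :=
        h24_Cohom.add (h24_cohom_zero_iff.2 hψ) (h12_chiCocycle_pow χ0 (t * b0) (c : C) hcfix)
      rw [zero_add] at h2
      exact h1.trans h2
    -- `b • [c, χ0] ~ (b * A) • [c0, χ0]`
    have e2 : h24_Cohom ((t * b0) • h12_chiCocycle χ0 (c : C))
        ((t * b0 * A) • h12_chiCocycle χ0 (c0' : C)) := by
      have hd : h12_IsRelNorm χ0.ker
          (((t * b0) • c - (t * b0 * A) • c0' : FixedPoints.addSubgroup G C) : C) := by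
        rw [hv]
        refine ⟨(t * b0) • w - (t * b0 * A) • w0, ?_⟩
        rw [map_sub, map_nsmul, map_nsmul, hwv, hw0]
        module
      have hd' := (h12_crit hC χ0 _ (h12_fixedPt _)).2 hd
      rw [AddSubgroup.coe_sub, AddSubgroup.coe_nsmul, AddSubgroup.coe_nsmul,
        h12_chiCocycle_sub, h12_chiCocycle_nsmul, h12_chiCocycle_nsmul] at hd'
      exact hd'
    -- `(b * A) • [c0, χ0] ~ t • γ`
    have e3 : h24_Cohom ((t * b0 * A) • h12_chiCocycle χ0 (c0' : C))
        (t • p ^ (n - 1) • h12_chiCocycle χ0 (c0' : C)) := by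
      have h1 : h24_Cohom (h12_chiCocycle (χ0 ^ (t * b0 * A)) (c0' : C))
          ((t * b0 * A) • h12_chiCocycle χ0 (c0' : C)) :=
        h12_chiCocycle_pow χ0 (t * b0 * A) (c0' : C) hc0fix
      have h2 : h24_Cohom (h12_chiCocycle (χ0 ^ (t * p ^ (n - 1))) (c0' : C))
          ((t * p ^ (n - 1)) • h12_chiCocycle χ0 (c0' : C)) :=
        h12_chiCocycle_pow χ0 (t * p ^ (n - 1)) (c0' : C) hc0fix
      rw [h24_pow_congr χ0 hb] at h1
      rw [mul_smul] at h2
      exact h1.symm.trans h2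
    exact (e1.trans e2).trans e3

/-- **H-RECIP**, corollary, with the existence of non-norms (row H-CYCIDX) as a hypothesis. -/
theorem h12_recipG_cor_of {n : ℕ}
    (hnn : ∀ χ : G →* Multiplicative (ZMod (p ^ n)), p ∣ Nat.card χ.range →
      ∃ c : C, (∀ g : G, g • c = c) ∧ ¬ h12_IsRelNorm χ.ker c)
    (hC : IsPClassModule p G C) (hn : n ≠ 0)
    (χ0 : G →* Multiplicative (ZMod (p ^ n))) (hχ0 : Function.Surjective χ0)
    (v : FixedPoints.addSubgroup G C →+ V) (e : V)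
    (hv : ∀ c : FixedPoints.addSubgroup G C,
      h12_IsRelNorm χ0.ker (c : C) ↔ ∃ w : V, v c = p ^ n • w)
    (hV : ∀ x : V, ∃ (k : ℤ) (w : V), x = k • e + p ^ n • w)
    {ι : Type*} (s : Finset ι) (c : ι → FixedPoints.addSubgroup G C) (σ : ι → G) (a : ι → ℤ)
    (hFP : ∀ i ∈ s, h12_FrobPair p χ0 v e (c i) (σ i)) (χ : G →* Multiplicative (ZMod p)) :
    h12_IsRelNorm χ.ker ((∑ i ∈ s, a i • c i : FixedPoints.addSubgroup G C) : C) ↔
      ∑ i ∈ s, a i • Multiplicative.toAdd (χ (σ i)) = 0 := by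
  classical
  have hp : p.Prime := Fact.out
  have hNZp : NeZero p := ⟨hp.ne_zero⟩
  obtain ⟨γ, -, hγn, hγp, hγ⟩ := h12_recipG_of hnn hC hn χ0 hχ0 v e hv hV
  -- (A) `[Σ a_i c_i, χ] ~ T • γ`
  have hA : ∀ s' : Finset ι, (∀ i ∈ s', h12_FrobPair p χ0 v e (c i) (σ i)) →
      h24_Cohom (h12_chiCocycle χ ((∑ i ∈ s', a i • c i : FixedPoints.addSubgroup G C) : C))
        ((∑ i ∈ s', a i * ((Multiplicative.toAdd (χ (σ i))).val : ℤ)) • γ) := by
    intro s'
    induction s' using Finset.induction_on with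
    | empty =>
      intro _
      rw [Finset.sum_empty, Finset.sum_empty, zero_smul, AddSubgroup.coe_zero,
        h12_chiCocycle_zero]
      exact h24_Cohom.refl 0
    | insert i s' hi ih =>
      intro h
      rw [Finset.sum_insert hi, Finset.sum_insert hi, add_smul, AddSubgroup.coe_add,
        AddSubgroup.coe_zsmul, h12_chiCocycle_add, h12_chiCocycle_zsmul, mul_smul,
        natCast_zsmul]
      exact h24_Cohom.add
        (h24_Cohom.zsmul (a i) (hγ (c i) (σ i) (h i (Finset.mem_insert_self i s')) χ))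
        (ih (fun j hj => h j (Finset.mem_insert_of_mem hj)))
  -- (D) the value of the sum
  have hD : ∀ s' : Finset ι, ∑ i ∈ s', a i • Multiplicative.toAdd (χ (σ i)) =
      ((∑ i ∈ s', a i * ((Multiplicative.toAdd (χ (σ i))).val : ℤ) : ℤ) : ZMod p) := by
    intro s'
    induction s' using Finset.induction_on with
    | empty =>
      rw [Finset.sum_empty, Finset.sum_empty, Int.cast_zero]
    | insert i s' hi ih =>
      rw [Finset.sum_insert hi, Finset.sum_insert hi, ih, Int.cast_add, Int.cast_mul,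
        Int.cast_natCast, ZMod.natCast_zmod_val, zsmul_eq_mul]
  have hA' := hA s hFP
  have hD' := hD s
  generalize (∑ i ∈ s, a i * ((Multiplicative.toAdd (χ (σ i))).val : ℤ)) = T at hA' hD'
  -- (C) `T • γ ~ 0 ↔ p ∣ T`
  have hCT : IsCoboundary₂ (T • γ) ↔ (p : ℤ) ∣ T := by
    constructor
    · intro h
      by_contra hdvd
      have hcop : IsCoprime (p : ℤ) T :=
        (Nat.prime_iff_prime_int.1 hp).coprime_iff_not_dvd.2 hdvd
      obtain ⟨x, y, hxy⟩ := hcop
      apply hγn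
      have hγeq : γ = x • (p • γ) + y • (T • γ) := by
        rw [← natCast_zsmul γ p, smul_smul, smul_smul, ← add_smul, hxy, one_smul]
      rw [hγeq]
      exact h40_isCoboundary₂_add (h24_isCoboundary₂_zsmul x hγp) (h24_isCoboundary₂_zsmul y h)
    · rintro ⟨k, hk⟩
      rw [hk, mul_comm, mul_smul, natCast_zsmul]
      exact h24_isCoboundary₂_zsmul k hγp
  rw [← h12_crit hC χ _ (h12_fixedPt _), hA'.isCoboundary₂_iff, hCT,
    ← ZMod.intCast_zmod_eq_zero_iff_dvd, ← hD']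

variable (p)

/-- **H-RECIP** (E4, full form): abstract reciprocity for Frobenius pairs.  There is a class
`γ` of order exactly `p` such that `[c, χ] = χ(σ) • γ` for every Frobenius pair `(c, σ)` and
every character `χ` of order dividing `p`. -/
theorem h12_recipG (hC : IsPClassModule p G C) {n : ℕ} (hn : n ≠ 0)
    (χ0 : G →* Multiplicative (ZMod (p ^ n))) (hχ0 : Function.Surjective χ0)
    (v : FixedPoints.addSubgroup G C →+ V) (e : V)
    (hv : ∀ c : FixedPoints.addSubgroup G C,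
      h12_IsRelNorm χ0.ker (c : C) ↔ ∃ w : V, v c = p ^ n • w)
    (hV : ∀ x : V, ∃ (k : ℤ) (w : V), x = k • e + p ^ n • w) :
    ∃ γ : G × G → C, IsCocycle₂ γ ∧ ¬ IsCoboundary₂ γ ∧ IsCoboundary₂ (p • γ) ∧
      ∀ (c : FixedPoints.addSubgroup G C) (σ : G), h12_FrobPair p χ0 v e c σ →
        ∀ χ : G →* Multiplicative (ZMod p),
          IsCoboundary₂ (h12_chiCocycle χ (c : C) - (Multiplicative.toAdd (χ σ)).val • γ) := by
  have hNZ : NeZero (p ^ n) := ⟨pow_ne_zero _ (Fact.out : p.Prime).ne_zero⟩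
  exact h12_recipG_of (fun χ hχ => h34_chi_exists_nonnorm hC χ hχ) hC hn χ0 hχ0 v e hv hV

/-- **H-RECIP**, corollary: a combination `Σ a_i c_i` of Frobenius elements is a norm for `χ`
iff `Σ a_i • χ(σ_i) = 0`. -/
theorem h12_recipG_cor (hC : IsPClassModule p G C) {n : ℕ} (hn : n ≠ 0)
    (χ0 : G →* Multiplicative (ZMod (p ^ n))) (hχ0 : Function.Surjective χ0)
    (v : FixedPoints.addSubgroup G C →+ V) (e : V)
    (hv : ∀ c : FixedPoints.addSubgroup G C,
      h12_IsRelNorm χ0.ker (c : C) ↔ ∃ w : V, v c = p ^ n • w)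
    (hV : ∀ x : V, ∃ (k : ℤ) (w : V), x = k • e + p ^ n • w)
    {ι : Type*} (s : Finset ι) (c : ι → FixedPoints.addSubgroup G C) (σ : ι → G) (a : ι → ℤ)
    (hFP : ∀ i ∈ s, h12_FrobPair p χ0 v e (c i) (σ i)) (χ : G →* Multiplicative (ZMod p)) :
    h12_IsRelNorm χ.ker ((∑ i ∈ s, a i • c i : FixedPoints.addSubgroup G C) : C) ↔
      ∑ i ∈ s, a i • Multiplicative.toAdd (χ (σ i)) = 0 := by
  have hNZ : NeZero (p ^ n) := ⟨pow_ne_zero _ (Fact.out : p.Prime).ne_zero⟩
  exact h12_recipG_cor_of (fun χ hχ => h34_chi_exists_nonnorm hC χ hχ) hC hn χ0 hχ0 v e hv hV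
    s c σ a hFP χ

end Recip

end Fermat.Agent.S55
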