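import Mathlib
import Fermat.Agent.S55.h25_GlobDefs
import Fermat.Agent.S55.h28_SemilocJq
import Fermat.Agent.S55.h10_DescEmb

/-!
# S55, GLOB-BETA: local norms are semilocal norms

For a number field `F` Galois over `ℚ`, an embedding `j₀ : F →+* PadicAlgCl q` and
`K = ℚ_q · j₀(F)` (`h28_locField q j₀`): every `x ∈ ℚ_qˣ` which is a norm from `Kˣ` is the
`Gal(F/ℚ)`-norm of an element of the semilocal module `h25_Jq F q`
(`h13_Jq_exists_norm`): there is an equivariant `φ` with `∏_σ φ (j ∘ σ) = x` for every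
embedding `j`.

Construction: `φ (τ ∘ j₀) = τ y` on the orbit of `j₀` (`N_{K/ℚ_q} y = x`), `φ = 1` on the other
orbits; `σ ↦ j ∘ σ` is a bijection from `Gal(F/ℚ)` to the embeddings, and the orbit of `j₀` is in
bijection with the `ℚ_q`-embeddings of `K`.
-/

set_option autoImplicit false

open NumberField

namespace Fermat.Agent.S55

section JNorm

variable (q : ℕ) [Fact q.Prime] {F : Type*} [Field F]

/-- The action of `Gal(PadicAlgCl q/ℚ_q)` on units. -/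
noncomputable def h13_galUnit (τ : PadicAlgCl q ≃ₐ[ℚ_[q]] PadicAlgCl q) :
    (PadicAlgCl q)ˣ →* (PadicAlgCl q)ˣ :=
  Units.map ((τ : PadicAlgCl q →+* PadicAlgCl q) : PadicAlgCl q →* PadicAlgCl q)

theorem h13_galUnit_coe (τ : PadicAlgCl q ≃ₐ[ℚ_[q]] PadicAlgCl q) (u : (PadicAlgCl q)ˣ) :
    ((h13_galUnit q τ u : (PadicAlgCl q)ˣ) : PadicAlgCl q) = τ (u : PadicAlgCl q) := rfl

open Classical in
/-- The function `τ ∘ j₀ ↦ τ y` on the orbit of `j₀`, `1` elsewhere. -/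
noncomputable def h13_orbFun (j₀ : F →+* PadicAlgCl q) (y : (PadicAlgCl q)ˣ) :
    (F →+* PadicAlgCl q) → (PadicAlgCl q)ˣ := fun j =>
  if h : ∃ τ : PadicAlgCl q ≃ₐ[ℚ_[q]] PadicAlgCl q,
      j = (τ : PadicAlgCl q →+* PadicAlgCl q).comp j₀ then
    h13_galUnit q (Classical.choose h) y
  else 1

/-- Two automorphisms with the same restriction to `j₀(F)` agree on `ℚ_q · j₀(F)`. -/
theorem h13_gal_eq_of_comp_eq (j₀ : F →+* PadicAlgCl q)
    (τ τ' : PadicAlgCl q ≃ₐ[ℚ_[q]] PadicAlgCl q)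
    (h : (τ : PadicAlgCl q →+* PadicAlgCl q).comp j₀ = (τ' : PadicAlgCl q →+* PadicAlgCl q).comp j₀)
    (y : PadicAlgCl q) (hy : y ∈ h28_locField q j₀) : τ y = τ' y := by
  have h1 : ∀ x, (τ⁻¹ * τ') (j₀ x) = j₀ x := by
    intro x
    have := congrArg (fun f : F →+* PadicAlgCl q => f x) h
    simp only [RingHom.coe_comp, Function.comp_apply] at this
    show τ⁻¹ (τ' (j₀ x)) = j₀ x
    have h2 : τ' (j₀ x) = τ (j₀ x) := this.symm
    rw [h2]
    exact τ.symm_apply_apply (j₀ x)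
  have h3 := (h28_stab_iff q j₀ (τ⁻¹ * τ')).mp h1
  rw [IntermediateField.mem_fixingSubgroup_iff] at h3
  have h4 : τ⁻¹ (τ' y) = y := h3 y hy
  have h5 := congrArg τ h4
  rw [← h5]
  exact τ.apply_symm_apply (τ' y)

theorem h13_orbFun_comp (j₀ : F →+* PadicAlgCl q) (y : (PadicAlgCl q)ˣ)
    (hy : (y : PadicAlgCl q) ∈ h28_locField q j₀) (τ : PadicAlgCl q ≃ₐ[ℚ_[q]] PadicAlgCl q) :
    h13_orbFun q j₀ y ((τ : PadicAlgCl q →+* PadicAlgCl q).comp j₀) = h13_galUnit q τ y := by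
  have h : ∃ τ' : PadicAlgCl q ≃ₐ[ℚ_[q]] PadicAlgCl q,
      (τ : PadicAlgCl q →+* PadicAlgCl q).comp j₀ = (τ' : PadicAlgCl q →+* PadicAlgCl q).comp j₀ :=
    ⟨τ, rfl⟩
  rw [h13_orbFun, dif_pos h]
  apply Units.ext
  rw [h13_galUnit_coe, h13_galUnit_coe]
  exact (h13_gal_eq_of_comp_eq q j₀ τ _ (Classical.choose_spec h) _ hy).symm

theorem h13_orbFun_of_not (j₀ : F →+* PadicAlgCl q) (y : (PadicAlgCl q)ˣ)
    (j : F →+* PadicAlgCl q)
    (h : ¬ ∃ τ : PadicAlgCl q ≃ₐ[ℚ_[q]] PadicAlgCl q,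
      j = (τ : PadicAlgCl q →+* PadicAlgCl q).comp j₀) :
    h13_orbFun q j₀ y j = 1 := by
  rw [h13_orbFun, dif_neg h]

/-- `h13_orbFun` is equivariant. -/
theorem h13_orbFun_equivariant (j₀ : F →+* PadicAlgCl q) (y : (PadicAlgCl q)ˣ)
    (hy : (y : PadicAlgCl q) ∈ h28_locField q j₀) (τ : PadicAlgCl q ≃ₐ[ℚ_[q]] PadicAlgCl q)
    (j : F →+* PadicAlgCl q) :
    ((h13_orbFun q j₀ y ((τ : PadicAlgCl q →+* PadicAlgCl q).comp j) : (PadicAlgCl q)ˣ) :
      PadicAlgCl q) = τ (h13_orbFun q j₀ y j) := by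
  by_cases h : ∃ τ₁ : PadicAlgCl q ≃ₐ[ℚ_[q]] PadicAlgCl q,
      j = (τ₁ : PadicAlgCl q →+* PadicAlgCl q).comp j₀
  · obtain ⟨τ₁, rfl⟩ := h
    have e : (τ : PadicAlgCl q →+* PadicAlgCl q).comp
        ((τ₁ : PadicAlgCl q →+* PadicAlgCl q).comp j₀)
        = ((τ * τ₁ : PadicAlgCl q ≃ₐ[ℚ_[q]] PadicAlgCl q) : PadicAlgCl q →+* PadicAlgCl q).comp j₀ := by
      ext x; rfl
    rw [e, h13_orbFun_comp q j₀ y hy, h13_orbFun_comp q j₀ y hy]
    rfl
  · have h' : ¬ ∃ τ₁ : PadicAlgCl q ≃ₐ[ℚ_[q]] PadicAlgCl q,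
        (τ : PadicAlgCl q →+* PadicAlgCl q).comp j = (τ₁ : PadicAlgCl q →+* PadicAlgCl q).comp j₀ := by
      rintro ⟨τ₁, h1⟩
      refine h ⟨τ⁻¹ * τ₁, ?_⟩
      ext x
      have := congrArg (fun f : F →+* PadicAlgCl q => τ⁻¹ (f x)) h1
      simp only [RingHom.coe_comp, Function.comp_apply] at this
      have h2 : τ⁻¹ (τ (j x)) = j x := τ.symm_apply_apply (j x)
      show j x = τ⁻¹ (τ₁ (j₀ x))
      rw [← h2]
      exact this
    rw [h13_orbFun_of_not q j₀ y _ h', h13_orbFun_of_not q j₀ y _ h]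
    simp

variable [NumberField F]

/-- **Local norms are semilocal norms.** -/
theorem h13_Jq_exists_norm [IsGalois ℚ F] (j₀ : F →+* PadicAlgCl q) (x : ℚ_[q]ˣ)
    (hx : x ∈ (Units.map (Algebra.norm ℚ_[q] : ↥(h28_locField q j₀) →* ℚ_[q])).range) :
    ∃ φ : h25_Jq F q, ∀ j : F →+* PadicAlgCl q,
      ∏ σ : F ≃ₐ[ℚ] F, (φ : (F →+* PadicAlgCl q) → (PadicAlgCl q)ˣ) (j.comp (σ : F →+* F))
        = Units.map (algebraMap ℚ_[q] (PadicAlgCl q) : ℚ_[q] →* PadicAlgCl q) x := by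
  classical
  obtain ⟨y, rfl⟩ := hx
  set y' : (PadicAlgCl q)ˣ :=
    Units.map (algebraMap (h28_locField q j₀) (PadicAlgCl q) :
      ↥(h28_locField q j₀) →* PadicAlgCl q) y with hy'def
  have hy' : (y' : PadicAlgCl q) ∈ h28_locField q j₀ := (y : ↥(h28_locField q j₀)).2
  refine ⟨⟨h13_orbFun q j₀ y', fun τ j => h13_orbFun_equivariant q j₀ y' hy' τ j⟩, fun j => ?_⟩
  show ∏ σ : F ≃ₐ[ℚ] F, h13_orbFun q j₀ y' (j.comp (σ : F →+* F)) = _
  -- step 1: `σ ↦ j ∘ σ` is a bijection onto the embeddings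
  have hbij : Function.Bijective (fun σ : F ≃ₐ[ℚ] F => j.comp (σ : F →+* F)) := by
    constructor
    · intro σ σ' h
      ext x
      have := congrArg (fun f : F →+* PadicAlgCl q => f x) h
      exact j.injective this
    · intro j'
      obtain ⟨g, hg⟩ := (h10_embRes_eq_iff (K := ℚ) j j').mp (Subsingleton.elim _ _)
      exact ⟨g, hg.symm⟩
  rw [Fintype.prod_bijective _ hbij (fun σ => h13_orbFun q j₀ y' (j.comp (σ : F →+* F)))
    (fun j' => h13_orbFun q j₀ y' j') (fun _ => rfl)]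
  -- step 2: the orbit of `j₀` = embeddings of the local field
  let e : (↥(h28_locField q j₀) →ₐ[ℚ_[q]] PadicAlgCl q) → (F →+* PadicAlgCl q) := fun ρ =>
    (ρ : ↥(h28_locField q j₀) →+* PadicAlgCl q).comp
      (j₀.codRestrict (h28_locField q j₀) (h28_range_le_locField q j₀))
  have he_apply : ∀ ρ x, e ρ x = ρ ⟨j₀ x, h28_range_le_locField q j₀ x⟩ := fun ρ x => rfl
  have he : Function.Injective e := by
    intro f f' h
    have h' : ∀ x, f ⟨j₀ x, h28_range_le_locField q j₀ x⟩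
        = f' ⟨j₀ x, h28_range_le_locField q j₀ x⟩ := fun x => by
      have := congrArg (fun g : F →+* PadicAlgCl q => g x) h
      simpa [he_apply] using this
    have key : ∀ (z : PadicAlgCl q) (hz : z ∈ IntermediateField.adjoin ℚ_[q] (Set.range j₀)),
        f ⟨z, hz⟩ = f' ⟨z, hz⟩ := by
      intro z hz
      refine IntermediateField.adjoin_induction ℚ_[q]
        (p := fun z hz => f ⟨z, hz⟩ = f' ⟨z, hz⟩) ?_ ?_ ?_ ?_ ?_ hz
      · rintro _ ⟨x, rfl⟩
        exact h' x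
      · intro c
        exact (f.commutes c).trans (f'.commutes c).symm
      · intro a b ha hb h1 h2
        have : (⟨a + b, add_mem ha hb⟩ : ↥(h28_locField q j₀)) = ⟨a, ha⟩ + ⟨b, hb⟩ := rfl
        rw [this, map_add, map_add, h1, h2]
      · intro a ha h1
        have : (⟨a⁻¹, inv_mem ha⟩ : ↥(h28_locField q j₀))
            = (⟨a, ha⟩ : ↥(h28_locField q j₀))⁻¹ := rfl
        rw [this, map_inv₀, map_inv₀, h1]
      · intro a b ha hb h1 h2
        have : (⟨a * b, mul_mem ha hb⟩ : ↥(h28_locField q j₀)) = ⟨a, ha⟩ * ⟨b, hb⟩ := rfl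
        rw [this, map_mul, map_mul, h1, h2]
    ext ⟨z, hz⟩
    exact key z hz
  -- every `ρ` is induced by an automorphism
  have hlift : ∀ ρ : ↥(h28_locField q j₀) →ₐ[ℚ_[q]] PadicAlgCl q,
      ∃ τ : PadicAlgCl q ≃ₐ[ℚ_[q]] PadicAlgCl q,
        ∀ z : ↥(h28_locField q j₀), τ (z : PadicAlgCl q) = ρ z := by
    intro ρ
    refine ⟨AlgEquiv.ofBijective (ρ.liftNormal (PadicAlgCl q))
      (Algebra.IsAlgebraic.algHom_bijective _), fun z => ?_⟩
    exact ρ.liftNormal_commutes (PadicAlgCl q) z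
  have hprod := Fintype.prod_of_injective e he
    (fun ρ => Units.map ((ρ : ↥(h28_locField q j₀) →+* PadicAlgCl q) :
      ↥(h28_locField q j₀) →* PadicAlgCl q) y)
    (fun j' => h13_orbFun q j₀ y' j')
    (by
      intro j' hj'
      apply h13_orbFun_of_not
      rintro ⟨τ, rfl⟩
      apply hj'
      refine ⟨((τ : PadicAlgCl q ≃ₐ[ℚ_[q]] PadicAlgCl q) :
        PadicAlgCl q →ₐ[ℚ_[q]] PadicAlgCl q).comp (h28_locField q j₀).val, ?_⟩
      ext x
      rfl)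
    (by
      intro ρ
      obtain ⟨τ, hτ⟩ := hlift ρ
      have e1 : e ρ = (τ : PadicAlgCl q →+* PadicAlgCl q).comp j₀ := by
        ext x
        rw [he_apply]
        exact (hτ ⟨j₀ x, h28_range_le_locField q j₀ x⟩).symm
      rw [e1, h13_orbFun_comp q j₀ y' hy']
      apply Units.ext
      rw [h13_galUnit_coe]
      exact (hτ (y : ↥(h28_locField q j₀))).symm)
  rw [← hprod]
  apply Units.ext
  rw [Units.coe_prod]
  simp only [Units.coe_map, MonoidHom.coe_coe]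
  exact (Algebra.norm_eq_prod_embeddings ℚ_[q] (PadicAlgCl q) (y : ↥(h28_locField q j₀))).symm

end JNorm

end Fermat.Agent.S55
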