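import Mathlib
import Fermat.Agent.S55.h25_GlobVal
import Fermat.Agent.S55.h66_GlobFunc
import Fermat.Agent.S55.h13_BetaNorm

/-!
# S55, GLOB-BETA: the arithmetic hypothesis `hnorm` (honest, multiplicative, instance-free)

`M` a number field Galois over `ℚ` of degree `p ^ n` (the application: the layer `Q_n` of the
cyclotomic `ℤ_p`-tower), `p = P ∈ S`, `q ∈ S`.  If `x ∈ J_q(M)` is `Gal(M/ℚ)`-invariant and its
class in `C_M` is the `Gal(M/ℚ)`-norm of a class `c`, then `x` is the norm of an element of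
`J_q(M)`:

* `x` is the constant function with value `t ∈ ℚ_qˣ`, `N_q x = t ^ (p ^ n)`;
* `w (x) = w (N c) = w (c) ^ (p ^ n)` and `w (c) ∈ U1 ^ (p ^ n)` (VAL-V1), while
  `w (x) = W (t) ^ (p ^ n)` with `W t = (v_p t)⁻¹` (`q = p`) or `(q^(p-1)) ^ (ord_q t)` (`q ≠ p`);
  as `U1` is torsion free, `W (t) ∈ U1 ^ (p ^ n)`;
* hence `t` is a local norm (hypothesis `hloc`: LOC-CYC for `q = p`, LOC-UNR for `q ≠ p`), and
  local norms are semilocal norms (`h13_Jq_exists_norm`).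

The inputs VAL-PRIN, VAL-INV, VAL-V1 are explicit hypotheses (`hprin`, `hinv`, `hV1`).
-/

set_option autoImplicit false

open NumberField

namespace Fermat.Agent.S55

section Const

variable (q : ℕ) [Fact q.Prime] {M : Type*} [Field M] [NumberField M]

/-- A `Gal(M/ℚ)`-invariant element of `J_q(M)` is a constant function with value in `ℚ_qˣ`. -/
theorem h13_Jq_invariant_const [IsGalois ℚ M] (x : h25_Jq M q)
    (hx : ∀ (σ : M ≃ₐ[ℚ] M) (j : M →+* PadicAlgCl q),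
      (x : (M →+* PadicAlgCl q) → (PadicAlgCl q)ˣ) (j.comp (σ : M →+* M))
        = (x : (M →+* PadicAlgCl q) → (PadicAlgCl q)ˣ) j) :
    ∃ t : ℚ_[q]ˣ, ∀ j : M →+* PadicAlgCl q,
      (x : (M →+* PadicAlgCl q) → (PadicAlgCl q)ˣ) j
        = Units.map (algebraMap ℚ_[q] (PadicAlgCl q) : ℚ_[q] →* PadicAlgCl q) t := by
  obtain ⟨j₀⟩ : Nonempty (M →+* PadicAlgCl q) :=
    ⟨((IsAlgClosed.lift : M →ₐ[ℚ] PadicAlgCl q) : M →+* PadicAlgCl q)⟩
  have hconst : ∀ j : M →+* PadicAlgCl q,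
      (x : (M →+* PadicAlgCl q) → (PadicAlgCl q)ˣ) j
        = (x : (M →+* PadicAlgCl q) → (PadicAlgCl q)ˣ) j₀ := by
    intro j
    obtain ⟨g, hg⟩ := (h10_embRes_eq_iff (K := ℚ) j₀ j).mp (Subsingleton.elim _ _)
    rw [hg]
    exact hx g j₀
  have hfix : ∀ τ : PadicAlgCl q ≃ₐ[ℚ_[q]] PadicAlgCl q,
      τ (((x : (M →+* PadicAlgCl q) → (PadicAlgCl q)ˣ) j₀ : (PadicAlgCl q)ˣ) : PadicAlgCl q)
        = (((x : (M →+* PadicAlgCl q) → (PadicAlgCl q)ˣ) j₀ : (PadicAlgCl q)ˣ) : PadicAlgCl q) := by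
    intro τ
    have h1 := x.2 τ j₀
    rw [← h1, hconst]
  obtain ⟨t₀, ht₀⟩ := (InfiniteGalois.mem_range_algebraMap_iff_fixed (k := ℚ_[q])
    (K := PadicAlgCl q) _).2 hfix
  have ht₀0 : t₀ ≠ 0 := by
    rintro rfl
    rw [map_zero] at ht₀
    exact (Units.ne_zero _) ht₀.symm
  refine ⟨Units.mk0 t₀ ht₀0, fun j => ?_⟩
  rw [hconst j]
  exact Units.ext ht₀.symm

/-- The local norm of a constant function. -/
theorem h13_Nq_const (x : h25_Jq M q) (t : ℚ_[q]ˣ)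
    (hxt : ∀ j : M →+* PadicAlgCl q, (x : (M →+* PadicAlgCl q) → (PadicAlgCl q)ˣ) j
      = Units.map (algebraMap ℚ_[q] (PadicAlgCl q) : ℚ_[q] →* PadicAlgCl q) t) :
    h25_Nq M q x = t ^ Module.finrank ℚ M := by
  apply Units.ext
  apply (algebraMap ℚ_[q] (PadicAlgCl q)).injective
  rw [h25_Nq_spec]
  have h1 : ∀ j : M →+* PadicAlgCl q,
      (((x : (M →+* PadicAlgCl q) → (PadicAlgCl q)ˣ) j : (PadicAlgCl q)ˣ) : PadicAlgCl q)
        = algebraMap ℚ_[q] (PadicAlgCl q) (t : ℚ_[q]) := by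
    intro j
    have := hxt j
    exact congrArg Units.val this
  rw [Finset.prod_congr rfl (fun j _ => h1 j), Finset.prod_const, Finset.card_univ,
    NumberField.Embeddings.card, Units.val_pow_eq_pow_val, map_pow]

end Const

section Core

variable {M : Type*} [Field M] [NumberField M] [IsGalois ℚ M] (S : Finset Nat.Primes) (P : S)

/-- `U1` is torsion free, subgroup form. -/
theorem h13_U1_pow_inj (hp2 : ((P : Nat.Primes) : ℕ) ≠ 2) (a b : h18_U1 ((P : Nat.Primes) : ℕ))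
    (m : ℕ) (hm : m ≠ 0) (h : a ^ m = b ^ m) : a = b := by
  have h1 : (a * b⁻¹) ^ m = 1 := by
    rw [mul_pow, inv_pow, h, mul_inv_cancel]
  have h2 : ((a * b⁻¹ : h18_U1 ((P : Nat.Primes) : ℕ)) : ℤ_[((P : Nat.Primes) : ℕ)]ˣ) = 1 := by
    apply h18_U1_pow_eq_one ((P : Nat.Primes) : ℕ) hp2 _ (a * b⁻¹).2 m hm
    have := congrArg (Subtype.val) h1
    simpa using this
  have h3 : a * b⁻¹ = 1 := Subtype.ext h2
  exact mul_inv_eq_one.mp h3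

/-- The value of `w` on a class which is a `Gal(M/ℚ)`-norm is a `(p^n · p^n)`-th power. -/
theorem h13_w_of_norm (n : ℕ)
    (hdeg : Module.finrank ℚ M = ((P : Nat.Primes) : ℕ) ^ n)
    (hprin : ∀ x : Mˣ, h25_w M S P (h25_diag M S x) = 1)
    (hinv : ∀ (σ : M ≃ₐ[ℚ] M) (y : h25_X M S),
      h25_w M S P (h25_Xmap S (σ : M →+* M) y) = h25_w M S P y)
    (hV1 : ∀ y : h25_X M S, ∃ u : h18_U1 ((P : Nat.Primes) : ℕ),
      u ^ (((P : Nat.Primes) : ℕ) ^ n) = h25_w M S P y)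
    (y₀ : h25_X M S) (c : h25_C M S)
    (hc : h25_mk M S y₀ = ∏ σ : M ≃ₐ[ℚ] M, h25_Cmap S (σ : M →+* M) c) :
    ∃ u : h18_U1 ((P : Nat.Primes) : ℕ),
      h25_w M S P y₀ = (u ^ (((P : Nat.Primes) : ℕ) ^ n)) ^ (((P : Nat.Primes) : ℕ) ^ n) := by
  obtain ⟨y, rfl⟩ := h25_mk_surjective M S c
  obtain ⟨u, hu⟩ := hV1 y
  refine ⟨u, ?_⟩
  have h1 : h25_wC M S P (h25_mk M S y₀) = h25_w M S P y₀ := h25_wC_mk_of M S P hprin y₀
  have h2 : ∀ σ : M ≃ₐ[ℚ] M, h25_wC M S P (h25_Cmap S (σ : M →+* M) (h25_mk M S y))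
      = h25_w M S P y := by
    intro σ
    rw [h66_Cmap_mk, h25_wC_mk_of M S P hprin, hinv]
  have hcard : Fintype.card (M ≃ₐ[ℚ] M) = ((P : Nat.Primes) : ℕ) ^ n := by
    rw [← hdeg, ← Nat.card_eq_fintype_card]
    exact IsGalois.card_aut_eq_finrank ℚ M
  rw [← h1, hc, map_prod, Finset.prod_congr rfl (fun σ _ => h2 σ), Finset.prod_const,
    Finset.card_univ, hcard, hu]

/-- **`hnorm`, honest form, `q = p`.** -/
theorem h13_hnorm_core_p (hp2 : ((P : Nat.Primes) : ℕ) ≠ 2) (n : ℕ)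
    (hdeg : Module.finrank ℚ M = ((P : Nat.Primes) : ℕ) ^ n)
    (hprin : ∀ x : Mˣ, h25_w M S P (h25_diag M S x) = 1)
    (hinv : ∀ (σ : M ≃ₐ[ℚ] M) (y : h25_X M S),
      h25_w M S P (h25_Xmap S (σ : M →+* M) y) = h25_w M S P y)
    (hV1 : ∀ y : h25_X M S, ∃ u : h18_U1 ((P : Nat.Primes) : ℕ),
      u ^ (((P : Nat.Primes) : ℕ) ^ n) = h25_w M S P y)
    (j₀ : M →+* PadicAlgCl ((P : Nat.Primes) : ℕ))
    (hloc : ∀ t : ℚ_[((P : Nat.Primes) : ℕ)]ˣ,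
      (∃ u : h18_U1 ((P : Nat.Primes) : ℕ),
        u ^ (((P : Nat.Primes) : ℕ) ^ n) = h18_vp ((P : Nat.Primes) : ℕ) t) →
      t ∈ (Units.map (Algebra.norm ℚ_[((P : Nat.Primes) : ℕ)] :
        ↥(h28_locField ((P : Nat.Primes) : ℕ) j₀) →* ℚ_[((P : Nat.Primes) : ℕ)])).range)
    (x : h25_Jq M ((P : Nat.Primes) : ℕ))
    (hx : ∀ (σ : M ≃ₐ[ℚ] M) (j : M →+* PadicAlgCl ((P : Nat.Primes) : ℕ)),
      (x : (M →+* PadicAlgCl ((P : Nat.Primes) : ℕ)) → (PadicAlgCl ((P : Nat.Primes) : ℕ))ˣ)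
        (j.comp (σ : M →+* M))
        = (x : (M →+* PadicAlgCl ((P : Nat.Primes) : ℕ)) → (PadicAlgCl ((P : Nat.Primes) : ℕ))ˣ) j)
    (c : h25_C M S)
    (hc : h25_mk M S ((Pi.mulSingle P x : h25_J M S), 1)
      = ∏ σ : M ≃ₐ[ℚ] M, h25_Cmap S (σ : M →+* M) c) :
    ∃ φ : h25_Jq M ((P : Nat.Primes) : ℕ), ∀ j : M →+* PadicAlgCl ((P : Nat.Primes) : ℕ),
      ∏ σ : M ≃ₐ[ℚ] M,
        (φ : (M →+* PadicAlgCl ((P : Nat.Primes) : ℕ)) → (PadicAlgCl ((P : Nat.Primes) : ℕ))ˣ)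
          (j.comp (σ : M →+* M))
        = (x : (M →+* PadicAlgCl ((P : Nat.Primes) : ℕ)) → (PadicAlgCl ((P : Nat.Primes) : ℕ))ˣ) j := by
  classical
  obtain ⟨t, ht⟩ := h13_Jq_invariant_const ((P : Nat.Primes) : ℕ) x hx
  obtain ⟨u, hu⟩ := h13_w_of_norm S P n hdeg hprin hinv hV1 _ c hc
  -- compute `w`
  have hw : h25_w M S P ((Pi.mulSingle P x : h25_J M S), 1)
      = ((h18_vp ((P : Nat.Primes) : ℕ) t)⁻¹) ^ (((P : Nat.Primes) : ℕ) ^ n) := by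
    rw [h25_w_apply]
    have h1 : h25_wP M S P (Pi.mulSingle P x : h25_J M S)
        = ((h18_vp ((P : Nat.Primes) : ℕ) t)⁻¹) ^ (((P : Nat.Primes) : ℕ) ^ n) := by
      rw [h25_wP_apply, Pi.mulSingle_eq_same, h13_Nq_const _ x t ht, hdeg, map_pow, inv_pow]
    have h2 : ∀ q' ∈ Finset.univ.filter (fun q' : S => q' ≠ P),
        h25_wq M S P q' (Pi.mulSingle P x : h25_J M S) = 1 := by
      intro q' hq'
      have hne : q' ≠ P := (Finset.mem_filter.mp hq').2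
      rw [h25_wq_apply, Pi.mulSingle_eq_of_ne hne, map_one, Units.val_one, Padic.valuation_one,
        zpow_zero]
    rw [h1, Finset.prod_eq_one h2]
    simp
  rw [hw] at hu
  have h3 : (h18_vp ((P : Nat.Primes) : ℕ) t)⁻¹ = u ^ (((P : Nat.Primes) : ℕ) ^ n) :=
    h13_U1_pow_inj S P hp2 _ _ _ (pow_ne_zero _ (Nat.Prime.ne_zero P.1.2)) hu
  have h4 : (u⁻¹) ^ (((P : Nat.Primes) : ℕ) ^ n) = h18_vp ((P : Nat.Primes) : ℕ) t := by
    rw [inv_pow, ← h3, inv_inv]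
  obtain ⟨φ, hφ⟩ := h13_Jq_exists_norm ((P : Nat.Primes) : ℕ) j₀ t (hloc t ⟨u⁻¹, h4⟩)
  exact ⟨φ, fun j => (hφ j).trans (ht j).symm⟩

/-- **`hnorm`, honest form, `q ≠ p`.** -/
theorem h13_hnorm_core_q (hp2 : ((P : Nat.Primes) : ℕ) ≠ 2) (n : ℕ)
    (hdeg : Module.finrank ℚ M = ((P : Nat.Primes) : ℕ) ^ n)
    (hprin : ∀ x : Mˣ, h25_w M S P (h25_diag M S x) = 1)
    (hinv : ∀ (σ : M ≃ₐ[ℚ] M) (y : h25_X M S),
      h25_w M S P (h25_Xmap S (σ : M →+* M) y) = h25_w M S P y)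
    (hV1 : ∀ y : h25_X M S, ∃ u : h18_U1 ((P : Nat.Primes) : ℕ),
      u ^ (((P : Nat.Primes) : ℕ) ^ n) = h25_w M S P y)
    (q : S) (hqP : q ≠ P)
    (j₀ : M →+* PadicAlgCl ((q : Nat.Primes) : ℕ))
    (hloc : ∀ t : ℚ_[((q : Nat.Primes) : ℕ)]ˣ,
      (∃ u : h18_U1 ((P : Nat.Primes) : ℕ),
        u ^ (((P : Nat.Primes) : ℕ) ^ n) =
          h18_natU1 ((P : Nat.Primes) : ℕ) ((q : Nat.Primes) : ℕ) ^
            Padic.valuation (t : ℚ_[((q : Nat.Primes) : ℕ)])) →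
      t ∈ (Units.map (Algebra.norm ℚ_[((q : Nat.Primes) : ℕ)] :
        ↥(h28_locField ((q : Nat.Primes) : ℕ) j₀) →* ℚ_[((q : Nat.Primes) : ℕ)])).range)
    (x : h25_Jq M ((q : Nat.Primes) : ℕ))
    (hx : ∀ (σ : M ≃ₐ[ℚ] M) (j : M →+* PadicAlgCl ((q : Nat.Primes) : ℕ)),
      (x : (M →+* PadicAlgCl ((q : Nat.Primes) : ℕ)) → (PadicAlgCl ((q : Nat.Primes) : ℕ))ˣ)
        (j.comp (σ : M →+* M))
        = (x : (M →+* PadicAlgCl ((q : Nat.Primes) : ℕ)) → (PadicAlgCl ((q : Nat.Primes) : ℕ))ˣ) j)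
    (c : h25_C M S)
    (hc : h25_mk M S ((Pi.mulSingle q x : h25_J M S), 1)
      = ∏ σ : M ≃ₐ[ℚ] M, h25_Cmap S (σ : M →+* M) c) :
    ∃ φ : h25_Jq M ((q : Nat.Primes) : ℕ), ∀ j : M →+* PadicAlgCl ((q : Nat.Primes) : ℕ),
      ∏ σ : M ≃ₐ[ℚ] M,
        (φ : (M →+* PadicAlgCl ((q : Nat.Primes) : ℕ)) → (PadicAlgCl ((q : Nat.Primes) : ℕ))ˣ)
          (j.comp (σ : M →+* M))
        = (x : (M →+* PadicAlgCl ((q : Nat.Primes) : ℕ)) → (PadicAlgCl ((q : Nat.Primes) : ℕ))ˣ) j := by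
  classical
  obtain ⟨t, ht⟩ := h13_Jq_invariant_const ((q : Nat.Primes) : ℕ) x hx
  obtain ⟨u, hu⟩ := h13_w_of_norm S P n hdeg hprin hinv hV1 _ c hc
  -- compute `w`
  have hw : h25_w M S P ((Pi.mulSingle q x : h25_J M S), 1)
      = (h18_natU1 ((P : Nat.Primes) : ℕ) ((q : Nat.Primes) : ℕ) ^
          Padic.valuation (t : ℚ_[((q : Nat.Primes) : ℕ)])) ^ (((P : Nat.Primes) : ℕ) ^ n) := by
    rw [h25_w_apply]
    have h1 : h25_wP M S P (Pi.mulSingle q x : h25_J M S) = 1 := by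
      rw [h25_wP_apply, Pi.mulSingle_eq_of_ne (Ne.symm hqP), map_one, map_one, inv_one]
    have h2 : ∏ q' ∈ Finset.univ.filter (fun q' : S => q' ≠ P),
        h25_wq M S P q' (Pi.mulSingle q x : h25_J M S)
        = h25_wq M S P q (Pi.mulSingle q x : h25_J M S) := by
      apply Finset.prod_eq_single q
      · intro q' _ hne
        rw [h25_wq_apply, Pi.mulSingle_eq_of_ne hne, map_one, Units.val_one, Padic.valuation_one,
          zpow_zero]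
      · intro hq
        exact absurd (Finset.mem_filter.mpr ⟨Finset.mem_univ q, hqP⟩) hq
    have h3 : h25_wq M S P q (Pi.mulSingle q x : h25_J M S)
        = (h18_natU1 ((P : Nat.Primes) : ℕ) ((q : Nat.Primes) : ℕ) ^
          Padic.valuation (t : ℚ_[((q : Nat.Primes) : ℕ)])) ^ (((P : Nat.Primes) : ℕ) ^ n) := by
      rw [h25_wq_apply, Pi.mulSingle_eq_same, h13_Nq_const _ x t ht, hdeg,
        Units.val_pow_eq_pow_val, Padic.valuation_pow, ← zpow_natCast, ← zpow_mul, mul_comm]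
    rw [h1, h2, h3]
    simp
  rw [hw] at hu
  have h3 : h18_natU1 ((P : Nat.Primes) : ℕ) ((q : Nat.Primes) : ℕ) ^
      Padic.valuation (t : ℚ_[((q : Nat.Primes) : ℕ)]) = u ^ (((P : Nat.Primes) : ℕ) ^ n) :=
    h13_U1_pow_inj S P hp2 _ _ _ (pow_ne_zero _ (Nat.Prime.ne_zero P.1.2)) hu
  obtain ⟨φ, hφ⟩ := h13_Jq_exists_norm ((q : Nat.Primes) : ℕ) j₀ t (hloc t ⟨u, h3.symm⟩)
  exact ⟨φ, fun j => (hφ j).trans (ht j).symm⟩

end Core

end Fermat.Agent.S55
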