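import Mathlib
import Fermat.Agent.S55.h2_PLoc
import Fermat.Agent.S55.h12_Cyclic

/-!
# S55, GLOB-BETA: the norm hypothesis `hnorm` passes to the `p`-localisation

* `h13_cycNorm_eq_sum` : for a finite group generated by `γ`, the cyclic norm
  `h12_cycNorm γ a = ∑_{i < orderOf γ} γ^i • a` is the sum over the whole group.
* `h13_hnorm_PL` : if, for honest `Γ`-modules `J₀ → C₀`, every `γ`-invariant `x : J₀` whose image
  is a `γ`-norm from `C₀` is a `γ`-norm from `J₀`, then the same holds for the localisations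
  `h2_PL p J₀ → h2_PL p C₀` (this is the hypothesis `hnorm` of `h13_beta_abs`/`h13_beta_coind`).
-/

set_option autoImplicit false

namespace Fermat.Agent.S55

section CycNorm

variable {Γ : Type*} [Group Γ] {A : Type*} [AddCommGroup A] [DistribMulAction Γ A]

theorem h13_cycNorm_nsmul (γ : Γ) (n : ℕ) (a : A) :
    h12_cycNorm γ (n • a) = n • h12_cycNorm γ a := by
  simp only [h12_cycNorm, Finset.smul_sum, smul_comm _ n]

theorem h13_cycNorm_map {B : Type*} [AddCommGroup B] [DistribMulAction Γ B] (f : A →+ B)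
    (hf : ∀ (g : Γ) (a : A), f (g • a) = g • f a) (γ : Γ) (a : A) :
    f (h12_cycNorm γ a) = h12_cycNorm γ (f a) := by
  simp only [h12_cycNorm, map_sum, hf]

/-- For a finite group generated by `γ`, the cyclic norm is the sum over the group. -/
theorem h13_cycNorm_eq_sum [Fintype Γ] (γ : Γ) (hγ : ∀ x : Γ, x ∈ Subgroup.zpowers γ) (a : A) :
    h12_cycNorm γ a = ∑ σ : Γ, σ • a := by
  classical
  unfold h12_cycNorm
  have himg : Finset.image (fun i => γ ^ i) (Finset.range (orderOf γ)) = Finset.univ := by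
    ext x
    simp only [Finset.mem_univ, iff_true]
    exact mem_zpowers_iff_mem_range_orderOf.1 (hγ x)
  rw [← himg, Finset.sum_image]
  intro i hi k hk h
  exact pow_injOn_Iio_orderOf (by simpa using hi) (by simpa using hk) h

end CycNorm

section Loc

variable {p : ℕ} [Fact p.Prime] {Γ : Type*} [Group Γ] [Finite Γ]
  {J₀ C₀ : Type*} [AddCommGroup J₀] [DistribMulAction Γ J₀] [AddCommGroup C₀]
  [DistribMulAction Γ C₀]

omit [Finite Γ] in
/-- `j` commutes with the cyclic norm. -/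
theorem h13_j_cycNorm (γ : Γ) (a : J₀) :
    h2_PL.j (p := p) (h12_cycNorm γ a) = h12_cycNorm γ (h2_PL.j (p := p) a) := by
  simp only [h12_cycNorm, map_sum, h2_PL.j_smul]

/-- **The hypothesis `hnorm` passes to the `p`-localisation.** -/
theorem h13_hnorm_PL (γ : Γ) (f₀ : J₀ →+ C₀)
    (h : ∀ x : J₀, γ • x = x → (∃ c : C₀, h12_cycNorm γ c = f₀ x) →
      ∃ b : J₀, h12_cycNorm γ b = x)
    (y : h2_PL p J₀) (hy : γ • y = y)
    (hc : ∃ c : h2_PL p C₀, h12_cycNorm γ c = h2_PL.map f₀ y) :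
    ∃ b : h2_PL p J₀, h12_cycNorm γ b = y := by
  -- `y` is fixed by the powers of `γ`
  have hfix : ∀ g ∈ Subgroup.zpowers γ, g • y = y := by
    intro g hg
    have : g ∈ MulAction.stabilizer Γ y := by
      have hle : Subgroup.zpowers γ ≤ MulAction.stabilizer Γ y := by
        rw [Subgroup.zpowers_le]
        exact hy
      exact hle hg
    exact this
  obtain ⟨m, hm, x, hx, hmx⟩ := h2_PL.exists_smul_eq_j_of_fixed (Subgroup.zpowers γ) y hfix
  obtain ⟨c, hc⟩ := hc
  obtain ⟨m', hm', c₀, hc₀⟩ := h2_PL.exists_smul_eq_j c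
  -- the honest equation up to a factor prime to `p`
  have h1 : h2_PL.j (p := p) (f₀ (m' • x) - h12_cycNorm γ (m • c₀)) = 0 := by
    have e1 : h2_PL.j (p := p) (f₀ (m' • x)) = m' • h2_PL.map f₀ (m • y) := by
      rw [hmx, h2_PL.map_j, map_nsmul, map_nsmul]
    have e2 : h2_PL.j (p := p) (h12_cycNorm γ (m • c₀)) = m' • h2_PL.map f₀ (m • y) := by
      rw [h13_j_cycNorm, map_nsmul, ← hc₀, map_nsmul, ← hc, h13_cycNorm_nsmul, h13_cycNorm_nsmul,
        smul_comm m m']
    rw [map_sub, e1, e2, sub_self]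
  obtain ⟨m'', hm'', h2⟩ := (h2_PL.j_eq_zero_iff _).1 h1
  have h3 : f₀ ((m'' * m') • x) = h12_cycNorm γ ((m'' * m) • c₀) := by
    rw [smul_sub, sub_eq_zero] at h2
    rw [mul_smul, map_nsmul, h2, mul_smul]
    simp only [h13_cycNorm_nsmul]
  have hx' : γ • ((m'' * m') • x) = (m'' * m') • x := by
    rw [smul_comm, hx γ (Subgroup.mem_zpowers γ)]
  obtain ⟨b₀, hb₀⟩ := h _ hx' ⟨_, h3.symm⟩
  have hcop : (m'' * m' * m).Coprime p := Nat.Coprime.mul_left (Nat.Coprime.mul_left hm'' hm') hm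
  obtain ⟨b, hb⟩ := h2_PL.smul_surjective (p := p) (C := J₀) _ hcop (h2_PL.j b₀)
  refine ⟨b, ?_⟩
  apply h2_PL.smul_injective (p := p) (C := J₀) _ hcop
  show (m'' * m' * m) • h12_cycNorm γ b = (m'' * m' * m) • y
  have hb' : (m'' * m' * m) • b = h2_PL.j b₀ := hb
  rw [← h13_cycNorm_nsmul, hb', ← h13_j_cycNorm, hb₀, map_nsmul, ← hmx, ← mul_smul]

end Loc

end Fermat.Agent.S55
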