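import Fermat.Agent.S55.h18_U1
import Fermat.Agent.S55.h57_LocalNormIndex

/-!
# LOC-6 / LOC-CYC, unconditional: norm groups of `ℚ_[p](ζ_{p^m})` and of its layers (`p` odd)

* `h18_cyclotomic_norm_range_iff` : `x ∈ N(ℚ_[p](ζ_{p^m})ˣ) ↔ x = p ^ k * (1 + p ^ m * a)`.
* `h18_layer_norm_range_iff` : for `ℚ_[p] ⊆ B ⊆ ℚ_[p](ζ_{p^m})` with `[B : ℚ_[p]] = p ^ n`:
  `x ∈ N(Bˣ) ↔ x = p ^ k * u`, `u ∈ ℤ_[p]ˣ`, `u ^ (p - 1) ≡ 1 mod p ^ (n + 1)`.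
* `h18_layer_norm_range_iff_vp` : the same as `v_p x ∈ U1 ^ (p ^ n)`.
-/

namespace Fermat.Agent.S55

variable (p : ℕ) [Fact p.Prime]

/-- LOC-1 for a layer `B` of a `p`-power cyclotomic extension of `ℚ_[p]`. -/
theorem h18_layer_norm_index (hp : p ≠ 2) (m : ℕ) (K : Type*) [Field K]
    [Algebra ℚ_[p] K] [IsCyclotomicExtension {p ^ m} ℚ_[p] K]
    (B : Type*) [Field B] [Algebra ℚ_[p] B] [Algebra B K] [IsScalarTower ℚ_[p] B K] :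
    (Units.map (Algebra.norm ℚ_[p] : B →* ℚ_[p])).range.index = Module.finrank ℚ_[p] B := by
  obtain ⟨hG, hC⟩ := h18_layer_isCyclic p hp m K B
  have := IsCyclotomicExtension.finiteDimensional {p ^ m} ℚ_[p] K
  have hfin : FiniteDimensional ℚ_[p] B := FiniteDimensional.left ℚ_[p] B K
  exact h57_local_norm_index p ℚ_[p] B

/-- The norm group of a layer `B` of degree `p ^ n`. -/
theorem h18_layer_norm_range_eq (hp : p ≠ 2) (m : ℕ) (hm : m ≠ 0) (K : Type*) [Field K]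
    [Algebra ℚ_[p] K] [IsCyclotomicExtension {p ^ m} ℚ_[p] K]
    (B : Type*) [Field B] [Algebra ℚ_[p] B] [Algebra B K] [IsScalarTower ℚ_[p] B K]
    (n : ℕ) (hB : Module.finrank ℚ_[p] B = p ^ n) :
    (Units.map (Algebra.norm ℚ_[p] : B →* ℚ_[p])).range = h18_layerNormGroup p n :=
  h18_layer_norm_range_eq_of_index p hp m hm K B n hB (h18_layer_norm_index p hp m K B)

theorem h18_layer_norm_range_iff (hp : p ≠ 2) (m : ℕ) (hm : m ≠ 0) (K : Type*) [Field K]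
    [Algebra ℚ_[p] K] [IsCyclotomicExtension {p ^ m} ℚ_[p] K]
    (B : Type*) [Field B] [Algebra ℚ_[p] B] [Algebra B K] [IsScalarTower ℚ_[p] B K]
    (n : ℕ) (hB : Module.finrank ℚ_[p] B = p ^ n) (x : ℚ_[p]ˣ) :
    x ∈ (Units.map (Algebra.norm ℚ_[p] : B →* ℚ_[p])).range ↔
      ∃ (k : ℤ) (u : ℤ_[p]ˣ), (p : ℤ_[p]) ^ (n + 1) ∣ (u : ℤ_[p]) ^ (p - 1) - 1 ∧
        (x : ℚ_[p]) = (p : ℚ_[p]) ^ k * ((u : ℤ_[p]) : ℚ_[p]) :=
  h18_layer_norm_range_of_index p hp m hm K B n hB (h18_layer_norm_index p hp m K B) x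

theorem h18_layer_norm_range_iff_vp (hp : p ≠ 2) (m : ℕ) (hm : m ≠ 0) (K : Type*) [Field K]
    [Algebra ℚ_[p] K] [IsCyclotomicExtension {p ^ m} ℚ_[p] K]
    (B : Type*) [Field B] [Algebra ℚ_[p] B] [Algebra B K] [IsScalarTower ℚ_[p] B K]
    (n : ℕ) (hB : Module.finrank ℚ_[p] B = p ^ n) (x : ℚ_[p]ˣ) :
    x ∈ (Units.map (Algebra.norm ℚ_[p] : B →* ℚ_[p])).range ↔
      ∃ y : h18_U1 p, y ^ (p ^ n) = h18_vp p x := by
  rw [h18_layer_norm_range_eq p hp m hm K B n hB, h18_mem_layerNormGroup_iff_vp p hp]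

/-- The norm group of `ℚ_[p](ζ_{p^m})` is `⟨p⟩ × (1 + p ^ m ℤ_p)`. -/
theorem h18_cyclotomic_norm_range_eq (hp : p ≠ 2) (m : ℕ) (hm : m ≠ 0) (K : Type*) [Field K]
    [Algebra ℚ_[p] K] [IsCyclotomicExtension {p ^ m} ℚ_[p] K] :
    (Units.map (Algebra.norm ℚ_[p] : K →* ℚ_[p])).range = h32_cycNormGroup p m :=
  h32_cyclotomic_norm_range_eq_of_index p hp m hm K (h18_layer_norm_index p hp m K K)

theorem h18_cyclotomic_norm_range_iff (hp : p ≠ 2) (m : ℕ) (hm : m ≠ 0) (K : Type*) [Field K]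
    [Algebra ℚ_[p] K] [IsCyclotomicExtension {p ^ m} ℚ_[p] K] (x : ℚ_[p]ˣ) :
    x ∈ (Units.map (Algebra.norm ℚ_[p] : K →* ℚ_[p])).range ↔
      ∃ (k : ℤ) (u : ℤ_[p]),
        (x : ℚ_[p]) = (p : ℚ_[p]) ^ k * (1 + (p : ℚ_[p]) ^ m * (u : ℚ_[p])) :=
  h32_cyclotomic_norm_range_of_index p hp m hm K (h18_layer_norm_index p hp m K K) x

end Fermat.Agent.S55
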