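import Mathlib

/-!
# GLOB-VAL, arithmetic core (VAL-A): norms of primes in layers of the cyclotomic tower

If `K = ℚ(ζ_{p^(a+1)})`, `F ⊆ K` with `[K : F] < p` (e.g. `F` the layer of degree `p ^ a`),
and `P` is a prime of `F` not above `p`, then `N(P) ^ (p - 1) ≡ 1 mod p ^ (a + 1)`.
-/

set_option linter.deprecated false

namespace Fermat.Agent.S55

open NumberField Ideal

/-- A nonzero prime of a number field lies over a rational prime. -/
theorem h18_exists_liesOver_prime (F : Type*) [Field F] [NumberField F] (P : Ideal (𝓞 F))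
    [P.IsPrime] (hP0 : P ≠ ⊥) :
    ∃ l : ℕ, l.Prime ∧ P.LiesOver (Ideal.span {(l : ℤ)}) := by
  have hprime : (P.under ℤ).IsPrime := inferInstance
  have hne : P.under ℤ ≠ ⊥ := Ideal.under_ne_bot ℤ hP0
  obtain ⟨g, hg⟩ : ∃ g : ℤ, P.under ℤ = Ideal.span {g} :=
    ⟨_, (Submodule.IsPrincipal.span_singleton_generator (P.under ℤ)).symm⟩
  have hg0 : g ≠ 0 := by
    rintro rfl
    apply hne
    rw [hg]; simp
  have hgp : Prime g := by
    rw [hg] at hprime
    exact (Ideal.span_singleton_prime hg0).1 hprime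
  refine ⟨g.natAbs, Int.prime_iff_natAbs_prime.1 hgp, ⟨?_⟩⟩
  rw [Int.span_natAbs, hg]

/-- In a cyclic group situation: `x ^ f = 1` in `(ZMod (p ^ (a + 1)))ˣ` with `0 < f < p`
implies `x ^ (p - 1) = 1`. -/
theorem h18_pow_pred_eq_one_of_pow_lt (p : ℕ) [Fact p.Prime] (a : ℕ)
    (x : (ZMod (p ^ (a + 1)))ˣ) (f : ℕ) (hf0 : 0 < f) (hfp : f < p) (hx : x ^ f = 1) :
    x ^ (p - 1) = 1 := by
  have hpp : p.Prime := Fact.out
  have : NeZero (p ^ (a + 1)) := ⟨pow_ne_zero _ hpp.ne_zero⟩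
  have hd1 : orderOf x ∣ f := orderOf_dvd_of_pow_eq_one hx
  have hd2 : orderOf x ∣ p ^ a * (p - 1) := by
    have := orderOf_dvd_card (x := x)
    rwa [ZMod.card_units_eq_totient, Nat.totient_prime_pow_succ hpp] at this
  have hcop : Nat.Coprime (orderOf x) (p ^ a) := by
    apply Nat.Coprime.pow_right
    rw [Nat.coprime_comm, Nat.Prime.coprime_iff_not_dvd hpp]
    intro hdvd
    have h1 : p ≤ orderOf x := Nat.le_of_dvd (orderOf_pos x) hdvd
    have h2 : orderOf x ≤ f := Nat.le_of_dvd hf0 hd1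
    omega
  have hd3 : orderOf x ∣ p - 1 := hcop.dvd_of_dvd_mul_left hd2
  exact orderOf_dvd_iff_pow_eq_one.1 hd3

variable (p : ℕ) [Fact p.Prime]

theorem h18_absNorm_pow_pred_modEq (a : ℕ) (K : Type*) [Field K] [NumberField K]
    [IsCyclotomicExtension {p ^ (a + 1)} ℚ K] (F : Type*) [Field F] [NumberField F]
    [Algebra F K] (hFK : Module.finrank F K < p) (P : Ideal (𝓞 F)) [P.IsPrime] (hP0 : P ≠ ⊥)
    (hPp : (p : 𝓞 F) ∉ P) :
    (Ideal.absNorm P) ^ (p - 1) ≡ 1 [MOD p ^ (a + 1)] := by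
  have hpp : p.Prime := Fact.out
  have : NeZero (p ^ (a + 1)) := ⟨pow_ne_zero _ hpp.ne_zero⟩
  obtain ⟨l, hl, hPl⟩ := h18_exists_liesOver_prime F P hP0
  have : Fact l.Prime := ⟨hl⟩
  have hlp : l ≠ p := by
    rintro rfl
    apply hPp
    have h1 : ((l : ℤ)) ∈ P.under ℤ := by
      rw [← hPl.over]; exact Ideal.mem_span_singleton_self _
    have h2 := Ideal.mem_comap.1 h1
    simpa using h2
  have hPmax : P.IsMaximal := Ring.DimensionLEOne.maximalOfPrime hP0 inferInstance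
  obtain ⟨Q, hQmax, hQP⟩ := Ideal.exists_maximal_ideal_liesOver_of_isIntegral (S := 𝓞 K) P
  have hQl : Q.LiesOver (Ideal.span {(l : ℤ)}) := Ideal.LiesOver.trans Q P _
  have hQprime : Q.IsPrime := hQmax.isPrime
  -- norm of `Q`
  have hnd : ¬ l ∣ p ^ (a + 1) := by
    intro h
    exact hlp ((Nat.prime_dvd_prime_iff_eq hl hpp).1 (hl.dvd_of_dvd_pow h))
  have hf := IsCyclotomicExtension.Rat.inertiaDeg_eq_of_not_dvd l K Q hnd
  have hlmax : (Ideal.span {(l : ℤ)}).IsMaximal :=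
    Int.ideal_span_isMaximal_of_prime l
  have hNQ : Ideal.absNorm Q = l ^ orderOf (l : ZMod (p ^ (a + 1))) := by
    rw [Ideal.absNorm_eq_pow_inertiaDeg' Q hl, Ideal.inertiaDeg'_eq_inertiaDeg, hf]
  have hNQ1 : ((Ideal.absNorm Q : ℕ) : ZMod (p ^ (a + 1))) = 1 := by
    rw [hNQ, Nat.cast_pow, pow_orderOf_eq_one]
  -- norm of `Q` as a power of the norm of `P`
  have hNQP : Ideal.absNorm Q = Ideal.absNorm P ^ (P.inertiaDeg' Q) :=
    Ideal.absNorm_eq_pow_inertiaDeg'_of_liesOver Q P inferInstance hP0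
  have hf0 : 0 < P.inertiaDeg' Q := Ideal.inertiaDeg'_pos P Q
  have hnz : NoZeroSMulDivisors (𝓞 F) (𝓞 K) := ⟨fun {c x} h => by
    rw [Algebra.smul_def, mul_eq_zero] at h
    rcases h with h | h
    · left
      exact (FaithfulSMul.algebraMap_injective (𝓞 F) (𝓞 K)) (by rw [h, map_zero])
    · right; exact h⟩
  have hfle : P.inertiaDeg' Q ≤ Module.finrank F K := Ideal.inertiaDeg_le_finrank (𝓞 K) F K Q hP0
  -- the norm of `P` is prime to `p`
  have hNP : Ideal.absNorm P = l ^ ((Ideal.span {(l : ℤ)}).inertiaDeg' P) :=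
    Ideal.absNorm_eq_pow_inertiaDeg' P hl
  have hcop : (Ideal.absNorm P).Coprime (p ^ (a + 1)) := by
    rw [hNP]
    exact Nat.Coprime.pow _ _ ((Nat.coprime_primes hl hpp).2 hlp)
  have hx : (ZMod.unitOfCoprime _ hcop) ^ (P.inertiaDeg' Q) = 1 := by
    apply Units.ext
    rw [Units.val_pow_eq_pow_val, ZMod.coe_unitOfCoprime, Units.val_one, ← Nat.cast_pow,
      ← hNQP, hNQ1]
  have key := h18_pow_pred_eq_one_of_pow_lt p a _ _ hf0 (lt_of_le_of_lt hfle hFK) hx
  have key' := congrArg (fun u : (ZMod (p ^ (a + 1)))ˣ => (u : ZMod (p ^ (a + 1)))) key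
  simp only [Units.val_pow_eq_pow_val, ZMod.coe_unitOfCoprime, Units.val_one] at key'
  rw [← ZMod.natCast_eq_natCast_iff]
  push_cast
  exact key'

end Fermat.Agent.S55
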