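import Fermat.Agent.S55.h13_CycTower
import Fermat.Agent.S55.h18_ValA
import Fermat.Agent.S55.h18_ValB

/-!
# GLOB-VAL: the arithmetic cores (VAL-A), (VAL-B) for the layers of helper13's cyclotomic tower,
and the dictionary GLOB-DEG

Levels are abstract number fields `F` (types) with an embedding `ι : F →+* Qbar`
(`Qbar = AlgebraicClosure ℚ`), as in the carrier `h25_GlobDefs`.  "`Q_a ⊆ ι F`" is expressed in
group form: every `σ ∈ Gal(Qbar/ℚ)` fixing `ι F` pointwise satisfies `h13_psi p a σ = 1`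
(`h18_Qn_le_iff` translates to the field form `∀ x ∈ h13_Qn p a, ∃ y, ι y = x`).

* `h18_Qn_absNorm_pow_pred_modEq` (for V1): if `Q_a ⊆ ι F`, every prime `P ∤ p` of `F` has
  `N(P) ^ (p - 1) ≡ 1 mod p ^ (a + 1)`.
* `h18_Qn_exists_prime_not_modEq` (for V2): if `Q_a ⊆ ι F` but `Q_{a+1} ⊄ ι F`, there is a prime
  `P ∤ p` of `F` outside any given finite set with `N(P) ^ (p - 1) ≢ 1 mod p ^ (a + 2)`.
* `h18_deg_index` (GLOB-DEG): for a subgroup `HH` of `Gal(Qbar/ℚ)` whose image under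
  `h13_deg p hp2 n` has index `p ^ a`: `ψ_a = 1` on `HH`, and (if `a < n`) `ψ_{a+1} ≠ 1` somewhere
  on `HH`; `h18_deg_index_exists`: the index is always `p ^ a` with `a ≤ n`.
* `h18_psi_eq_one_iff` : `ψ_a σ = 1 ↔ p ^ a ∣ deg_n σ` (`a ≤ n`).
-/

namespace Fermat.Agent.S55

open NumberField IntermediateField

local notation "Qbar" => AlgebraicClosure ℚ


local instance h18_isAlgebraicQbar : Algebra.IsAlgebraic ℚ (AlgebraicClosure ℚ) :=
  AlgebraicClosure.isAlgebraic ℚ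
local instance h18_isAlgClosureQbar : IsAlgClosure ℚ (AlgebraicClosure ℚ) :=
  ⟨inferInstance, inferInstance⟩
local instance h18_normalQbar : Normal ℚ (AlgebraicClosure ℚ) :=
  IsAlgClosure.normal ℚ (AlgebraicClosure ℚ)
local instance h18_isGaloisQbar : IsGalois ℚ (AlgebraicClosure ℚ) := ⟨⟩


variable (p : ℕ) [Fact p.Prime]

/-- VAL-A in a tower. -/
theorem h18_absNorm_pow_pred_modEq_tower (a : ℕ) (K : Type*) [Field K] [NumberField K]
    [IsCyclotomicExtension {p ^ (a + 1)} ℚ K] (F₀ : Type*) [Field F₀] [NumberField F₀]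
    [Algebra F₀ K] (hFK : Module.finrank F₀ K < p) (F : Type*) [Field F] [NumberField F]
    [Algebra F₀ F] (P : Ideal (𝓞 F)) [P.IsPrime] (hP0 : P ≠ ⊥) (hPp : (p : 𝓞 F) ∉ P) :
    (Ideal.absNorm P) ^ (p - 1) ≡ 1 [MOD p ^ (a + 1)] := by
  have hP₀0 : P.under (𝓞 F₀) ≠ ⊥ := by
    intro h
    exact hP0 (Ideal.eq_bot_of_comap_eq_bot h)
  have hP₀p : (p : 𝓞 F₀) ∉ P.under (𝓞 F₀) := by
    intro h
    apply hPp
    rw [Ideal.under_def, Ideal.mem_comap, map_natCast] at h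
    exact h
  have h := h18_absNorm_pow_pred_modEq p a K F₀ hFK (P.under (𝓞 F₀)) hP₀0 hP₀p
  have hN : Ideal.absNorm P = Ideal.absNorm (P.under (𝓞 F₀)) ^ ((P.under (𝓞 F₀)).inertiaDeg' P) :=
    Ideal.absNorm_eq_pow_inertiaDeg'_of_liesOver P (P.under (𝓞 F₀)) inferInstance hP₀0
  rw [hN, ← pow_mul, mul_comm, pow_mul]
  exact (h.pow _).trans (by rw [one_pow])

/-- A ring hom into the range of an injective one lifts. -/
noncomputable def h18_liftHom {A B C : Type*} [Field A] [Field B] [Field C] (ι : B →+* C)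
    (f : A →+* C) (h : ∀ x, ∃ y, ι y = f x) : A →+* B where
  toFun x := Classical.choose (h x)
  map_one' := ι.injective ((Classical.choose_spec (h 1)).trans (by rw [map_one, map_one]))
  map_mul' x y := ι.injective ((Classical.choose_spec (h (x * y))).trans (by
    rw [map_mul ι, Classical.choose_spec (h x), Classical.choose_spec (h y), map_mul f]))
  map_zero' := ι.injective ((Classical.choose_spec (h 0)).trans (by rw [map_zero, map_zero]))
  map_add' x y := ι.injective ((Classical.choose_spec (h (x + y))).trans (by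
    rw [map_add ι, Classical.choose_spec (h x), Classical.choose_spec (h y), map_add f]))

theorem h18_liftHom_spec {A B C : Type*} [Field A] [Field B] [Field C] (ι : B →+* C)
    (f : A →+* C) (h : ∀ x, ∃ y, ι y = f x) (x : A) : ι (h18_liftHom ι f h x) = f x :=
  Classical.choose_spec (h x)



/-- `Q_a ⊆ ι F` in field form and in group form. -/
theorem h18_Qn_le_iff (a : ℕ) (F : Type*) [Field F] [CharZero F] (ι : F →+* Qbar) :
    (∀ x ∈ h13_Qn p a, ∃ y : F, ι y = x) ↔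
      ∀ σ : Qbar ≃ₐ[ℚ] Qbar, (∀ y : F, σ (ι y) = ι y) → h13_psi p a σ = 1 := by
  constructor
  · intro h σ hσ
    have h1 : σ ∈ (h13_Qn p a).fixingSubgroup := by
      rw [IntermediateField.mem_fixingSubgroup_iff]
      intro x hx
      obtain ⟨y, rfl⟩ := h x hx
      exact hσ y
    rw [h13_Qn_fixingSubgroup] at h1
    exact h1
  · intro h x hx
    have hE : (ι.toRatAlgHom.fieldRange).fixingSubgroup ≤ (h13_psi p a).ker := by
      intro σ hσ
      rw [IntermediateField.mem_fixingSubgroup_iff] at hσ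
      rw [MonoidHom.mem_ker]
      exact h σ (fun y => hσ (ι y) ⟨y, rfl⟩)
    have h2 : IntermediateField.fixedField (h13_psi p a).ker ≤
        IntermediateField.fixedField (ι.toRatAlgHom.fieldRange).fixingSubgroup :=
      IntermediateField.fixedField_antitone hE
    rw [InfiniteGalois.fixedField_fixingSubgroup] at h2
    obtain ⟨y, hy⟩ := h2 hx
    exact ⟨y, hy⟩

theorem h18_Qn_absNorm_pow_pred_modEq' (hp2 : p ≠ 2) (a : ℕ) (F : Type*) [Field F]
    [NumberField F] (ι : F →+* Qbar) (hQ : ∀ x ∈ h13_Qn p a, ∃ y : F, ι y = x)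
    (P : Ideal (𝓞 F)) [P.IsPrime] (hP0 : P ≠ ⊥) (hPp : (p : 𝓞 F) ∉ P) :
    (Ideal.absNorm P) ^ (p - 1) ≡ 1 [MOD p ^ (a + 1)] := by
  have hpp : p.Prime := Fact.out
  obtain ⟨ζ, hζ⟩ := HasEnoughRootsOfUnity.exists_primitiveRoot Qbar (p ^ (a + 1))
  have hle := h13_Qn_le_adjoin p a hζ
  haveI : FiniteDimensional ℚ (h13_Qn p a) := h13_Qn_finiteDimensional p hp2 a
  haveI : NumberField (h13_Qn p a) :=
    { to_charZero := inferInstance, to_finiteDimensional := inferInstance }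
  haveI : FiniteDimensional ℚ ℚ⟮ζ⟯ :=
    IntermediateField.adjoin.finiteDimensional (Algebra.IsIntegral.isIntegral ζ)
  haveI : NumberField ℚ⟮ζ⟯ :=
    { to_charZero := inferInstance, to_finiteDimensional := inferInstance }
  haveI : NeZero (p ^ (a + 1)) := ⟨pow_ne_zero _ hpp.ne_zero⟩
  haveI : IsCyclotomicExtension {p ^ (a + 1)} ℚ ℚ⟮ζ⟯ :=
    hζ.intermediateField_adjoin_isCyclotomicExtension ℚ
  letI : Algebra (h13_Qn p a) ℚ⟮ζ⟯ := (IntermediateField.inclusion hle).toRingHom.toAlgebra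
  have hfin : Module.finrank (h13_Qn p a) ℚ⟮ζ⟯ < p := by
    have h1 : Module.finrank ℚ (h13_Qn p a) * Module.finrank (h13_Qn p a) ℚ⟮ζ⟯ =
        Module.finrank ℚ ℚ⟮ζ⟯ := Module.finrank_mul_finrank ℚ _ _
    have h2 : Module.finrank ℚ ℚ⟮ζ⟯ = (p ^ (a + 1)).totient :=
      IsCyclotomicExtension.finrank ℚ⟮ζ⟯
        (Polynomial.cyclotomic.irreducible_rat (pow_pos hpp.pos _))
    rw [h13_Qn_finrank p hp2, h2, Nat.totient_prime_pow_succ hpp] at h1
    have h3 := Nat.eq_of_mul_eq_mul_left (pow_pos hpp.pos a) h1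
    have := hpp.one_lt
    omega
  letI : Algebra (h13_Qn p a) F :=
    (h18_liftHom ι (algebraMap (h13_Qn p a) Qbar) (fun x => hQ x x.2)).toAlgebra
  exact h18_absNorm_pow_pred_modEq_tower p a ℚ⟮ζ⟯ (h13_Qn p a) hfin F P hP0 hPp

theorem h18_Qn_absNorm_pow_pred_modEq (hp2 : p ≠ 2) (a : ℕ) (F : Type*) [Field F]
    [NumberField F] (ι : F →+* Qbar)
    (h1 : ∀ σ : Qbar ≃ₐ[ℚ] Qbar, (∀ y : F, σ (ι y) = ι y) → h13_psi p a σ = 1)
    (P : Ideal (𝓞 F)) [P.IsPrime] (hP0 : P ≠ ⊥) (hPp : (p : 𝓞 F) ∉ P) :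
    (Ideal.absNorm P) ^ (p - 1) ≡ 1 [MOD p ^ (a + 1)] :=
  h18_Qn_absNorm_pow_pred_modEq' p hp2 a F ι ((h18_Qn_le_iff p a F ι).mpr h1) P hP0 hPp


section Core

variable (F : Type*) [Field F] [NumberField F] [Algebra F Qbar]

theorem h18_isScalarTower_rat : IsScalarTower ℚ F Qbar :=
  IsScalarTower.of_algebraMap_eq (fun x => by simp)

theorem h18_normal_over : Normal F Qbar := by
  haveI := h18_isScalarTower_rat F
  exact Normal.tower_top_of_normal ℚ F Qbar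

/-- Lift of an automorphism of `F(ζ)/F` to `Qbar/ℚ`. -/
theorem h18_exists_lift (M : IntermediateField F Qbar) [Normal F M] (σ : M ≃ₐ[F] M) :
    ∃ τ : Qbar ≃ₐ[ℚ] Qbar, (∀ y : F, τ (algebraMap F Qbar y) = algebraMap F Qbar y) ∧
      ∀ x : M, τ (x : Qbar) = (σ x : Qbar) := by
  haveI := h18_isScalarTower_rat F
  haveI := h18_normal_over F
  refine ⟨(σ.liftNormal Qbar).restrictScalars ℚ, fun y => ?_, fun x => ?_⟩
  · exact (σ.liftNormal Qbar).commutes y
  · exact σ.liftNormal_commutes Qbar x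

omit [NumberField F] in
/-- Restriction of an automorphism of `Qbar/ℚ` fixing `F` to a normal `M/F`. -/
theorem h18_exists_restrict (M : IntermediateField F Qbar) [Normal F M] (τ : Qbar ≃ₐ[ℚ] Qbar)
    (hτ : ∀ y : F, τ (algebraMap F Qbar y) = algebraMap F Qbar y) :
    ∃ σ : M ≃ₐ[F] M, ∀ x : M, (σ x : Qbar) = τ (x : Qbar) := by
  refine ⟨(AlgEquiv.ofRingEquiv (f := τ.toRingEquiv) hτ).restrictNormal M, fun x => ?_⟩
  exact (AlgEquiv.ofRingEquiv (f := τ.toRingEquiv) hτ).restrictNormal_commutes M x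

end Core


/-- The kernel of the reduction `(ℤ/p^(a+2))ˣ → (ℤ/p^(a+1))ˣ` has order `p`. -/
theorem h18_card_ker_unitsMap (a : ℕ) :
    Nat.card (ZMod.unitsMap (pow_dvd_pow p (Nat.le_succ (a + 1)))).ker = p := by
  have hpp : p.Prime := Fact.out
  haveI : NeZero (p ^ (a + 1)) := ⟨pow_ne_zero _ hpp.ne_zero⟩
  haveI : NeZero (p ^ (a + 1 + 1)) := ⟨pow_ne_zero _ hpp.ne_zero⟩
  have hsurj := ZMod.unitsMap_surjective (pow_dvd_pow p (Nat.le_succ (a + 1)))
  have h1 := Subgroup.card_mul_index (ZMod.unitsMap (pow_dvd_pow p (Nat.le_succ (a + 1)))).ker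
  rw [Subgroup.index_ker, MonoidHom.range_eq_top.mpr hsurj, Subgroup.card_top,
    h13_card_units_zmod_pow p a, h13_card_units_zmod_pow p (a + 1)] at h1
  have hpos : 0 < p ^ a * (p - 1) :=
    Nat.mul_pos (pow_pos hpp.pos a) (Nat.sub_pos_of_lt hpp.one_lt)
  have h2 : Nat.card (ZMod.unitsMap (pow_dvd_pow p (Nat.le_succ (a + 1)))).ker *
      (p ^ a * (p - 1)) = p * (p ^ a * (p - 1)) := by
    rw [h1]; ring
  exact Nat.eq_of_mul_eq_mul_right hpos h2

section Core2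

variable (F : Type*) [Field F] [NumberField F] [Algebra F Qbar]

theorem h18_numberField_adjoin (ζ : Qbar) : NumberField (IntermediateField.adjoin F {ζ}) := by
  haveI := h18_isScalarTower_rat F
  haveI : Algebra.IsAlgebraic F Qbar := Algebra.IsAlgebraic.tower_top (K := ℚ) F
  haveI : FiniteDimensional F (IntermediateField.adjoin F {ζ}) :=
    IntermediateField.adjoin.finiteDimensional (Algebra.IsIntegral.isIntegral ζ)
  haveI : FiniteDimensional ℚ (IntermediateField.adjoin F {ζ}) :=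
    Module.Finite.trans F _
  exact { to_charZero := inferInstance, to_finiteDimensional := inferInstance }

omit [NumberField F] in
/-- The automorphism character of `F(ζ)/F` agrees with the cyclotomic character of any lift. -/
theorem h18_autToPow_eq (N : ℕ) (M : IntermediateField F Qbar) (ζ : M)
    (hζ : IsPrimitiveRoot ζ (p ^ N)) (σ : M ≃ₐ[F] M) (τ : Qbar ≃ₐ[ℚ] Qbar)
    (hτ : ∀ x : M, τ (x : Qbar) = (σ x : Qbar)) :
    haveI : NeZero (p ^ N) := ⟨pow_ne_zero _ (Fact.out : p.Prime).ne_zero⟩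
    hζ.autToPow F σ = h13_chiN p N τ := by
  haveI : NeZero (p ^ N) := ⟨pow_ne_zero _ (Fact.out : p.Prime).ne_zero⟩
  have hζ' : IsPrimitiveRoot (ζ : Qbar) (p ^ N) := IsPrimitiveRoot.coe_submonoidClass_iff.mpr hζ
  have h1 := hζ.autToPow_spec F σ
  have h2 := h13_chiN_spec p N τ (ζ : Qbar) hζ'.pow_eq_one
  rw [hτ ζ, ← h1] at h2
  have h3 : (ζ : Qbar) ^ ((hζ.autToPow F σ : (ZMod (p ^ N))ˣ) : ZMod (p ^ N)).val =
      (ζ : Qbar) ^ ((h13_chiN p N τ : (ZMod (p ^ N))ˣ) : ZMod (p ^ N)).val := by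
    rw [← h2]
    rfl
  have h4 := hζ'.pow_inj (ZMod.val_lt _) (ZMod.val_lt _) h3
  exact Units.ext (ZMod.val_injective _ h4)

end Core2


section Core3

variable (F : Type*) [Field F] [NumberField F] [Algebra F Qbar]

theorem h18_core_exists_prime (a : ℕ)
    (h1 : ∀ τ : Qbar ≃ₐ[ℚ] Qbar,
      (∀ y : F, τ (algebraMap F Qbar y) = algebraMap F Qbar y) → h13_psi p a τ = 1)
    (h2 : ∃ τ : Qbar ≃ₐ[ℚ] Qbar,
      (∀ y : F, τ (algebraMap F Qbar y) = algebraMap F Qbar y) ∧ h13_psi p (a + 1) τ ≠ 1)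
    (T : Set (Ideal (𝓞 F))) (hT : T.Finite) :
    ∃ P : Ideal (𝓞 F), P.IsPrime ∧ P ≠ ⊥ ∧ P ∉ T ∧ (p : 𝓞 F) ∉ P ∧
      ¬ (Ideal.absNorm P) ^ (p - 1) ≡ 1 [MOD p ^ (a + 1 + 1)] := by
  have hpp : p.Prime := Fact.out
  haveI : NeZero (p ^ (a + 1 + 1)) := ⟨pow_ne_zero _ hpp.ne_zero⟩
  obtain ⟨ζ, hζ⟩ := HasEnoughRootsOfUnity.exists_primitiveRoot Qbar (p ^ (a + 1 + 1))
  haveI := h18_isScalarTower_rat F
  haveI : Algebra.IsAlgebraic F Qbar := Algebra.IsAlgebraic.tower_top (K := ℚ) F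
  haveI : NumberField (IntermediateField.adjoin F {ζ}) := h18_numberField_adjoin F ζ
  haveI : IsCyclotomicExtension {p ^ (a + 1 + 1)} F (IntermediateField.adjoin F {ζ}) :=
    hζ.intermediateField_adjoin_isCyclotomicExtension F
  haveI : IsGalois F (IntermediateField.adjoin F {ζ}) :=
    IsCyclotomicExtension.isGalois {p ^ (a + 1 + 1)} F (IntermediateField.adjoin F {ζ})
  obtain ⟨ζM, hζMdef⟩ : ∃ z : IntermediateField.adjoin F {ζ}, (z : Qbar) = ζ :=
    ⟨⟨ζ, IntermediateField.mem_adjoin_simple_self F ζ⟩, rfl⟩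
  have hζM : IsPrimitiveRoot ζM (p ^ (a + 1 + 1)) :=
    IsPrimitiveRoot.coe_submonoidClass_iff.mp (by rw [hζMdef]; exact hζ)
  obtain ⟨ψM, hψM⟩ : ∃ f : ((IntermediateField.adjoin F {ζ}) ≃ₐ[F] (IntermediateField.adjoin F {ζ}))
      →* (ZMod (p ^ (a + 1 + 1)))ˣ, ∀ σ, f σ = hζM.autToPow F σ ^ (p - 1) :=
    ⟨(powMonoidHom (p - 1)).comp (hζM.autToPow F), fun σ => rfl⟩
  haveI : FiniteDimensional ℚ (IntermediateField.fixedField ψM.ker) := Module.Finite.trans F _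
  haveI : NumberField (IntermediateField.fixedField ψM.ker) :=
    { to_charZero := inferInstance, to_finiteDimensional := inferInstance }
  have hle : ψM.range ≤ (ZMod.unitsMap (pow_dvd_pow p (Nat.le_succ (a + 1)))).ker := by
    rintro _ ⟨σ, rfl⟩
    obtain ⟨τ, hτF, hτM⟩ := h18_exists_lift F _ σ
    have e := h18_autToPow_eq p F (a + 1 + 1) _ ζM hζM σ τ hτM
    rw [MonoidHom.mem_ker, hψM, e, map_pow]
    have h3 := h1 τ hτF
    rw [h13_psi_apply] at h3
    have h4 : ZMod.unitsMap (pow_dvd_pow p (Nat.le_succ (a + 1))) (h13_chiN p (a + 1 + 1) τ) =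
        h13_chiN p (a + 1) τ := by
      apply Units.ext
      rw [ZMod.unitsMap_def, Units.coe_map]
      exact h13_chiN_succ p (a + 1) τ
    rw [h4, h3]
  have hne : ψM.range ≠ ⊥ := by
    obtain ⟨τ, hτF, hτ⟩ := h2
    obtain ⟨σ, hσ⟩ := h18_exists_restrict F (IntermediateField.adjoin F {ζ}) τ hτF
    have e := h18_autToPow_eq p F (a + 1 + 1) _ ζM hζM σ τ (fun x => (hσ x).symm)
    intro hbot
    have hmem : ψM σ ∈ ψM.range := ⟨σ, rfl⟩
    rw [hbot, Subgroup.mem_bot, hψM, e] at hmem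
    apply hτ
    rw [h13_psi_apply]
    exact hmem
  have hcard : Nat.card ψM.range = p := by
    have hdvd := Subgroup.card_dvd_of_le hle
    rw [h18_card_ker_unitsMap p a] at hdvd
    rcases (Nat.dvd_prime hpp).mp hdvd with h | h
    · exact absurd (Subgroup.eq_bot_of_card_eq _ h) hne
    · exact h
  have hdeg : Module.finrank F (IntermediateField.fixedField ψM.ker) = p := by
    rw [IntermediateField.finrank_eq_fixingSubgroup_index,
      IntermediateField.fixingSubgroup_fixedField, Subgroup.index_ker, hcard]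
  have hfix : ∀ (σ : (IntermediateField.adjoin F {ζ}) ≃ₐ[F] (IntermediateField.adjoin F {ζ}))
      (t : ℕ), σ ζM = ζM ^ t → t ^ (p - 1) ≡ 1 [MOD p ^ (a + 1 + 1)] →
      ∀ x : IntermediateField.fixedField ψM.ker,
        σ (algebraMap (IntermediateField.fixedField ψM.ker) (IntermediateField.adjoin F {ζ}) x) =
          algebraMap (IntermediateField.fixedField ψM.ker) (IntermediateField.adjoin F {ζ}) x := by
    intro σ t hσt ht x
    have hσmem : σ ∈ ψM.ker := by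
      rw [MonoidHom.mem_ker, hψM]
      have h3 := hζM.autToPow_spec F σ
      rw [hσt, pow_eq_pow_mod t hζM.pow_eq_one] at h3
      have h4 := hζM.pow_inj (ZMod.val_lt _) (Nat.mod_lt _ (pow_pos hpp.pos _)) h3
      have h5 : ((hζM.autToPow F σ : (ZMod (p ^ (a + 1 + 1)))ˣ) : ZMod (p ^ (a + 1 + 1))) =
          (t : ZMod (p ^ (a + 1 + 1))) := by
        rw [← ZMod.natCast_zmod_val ((hζM.autToPow F σ : (ZMod (p ^ (a + 1 + 1)))ˣ) :
          ZMod (p ^ (a + 1 + 1))), h4, ZMod.natCast_mod]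
      apply Units.ext
      rw [Units.val_pow_eq_pow_val, h5, Units.val_one, ← Nat.cast_pow]
      have h6 := (ZMod.natCast_eq_natCast_iff _ _ _).mpr ht
      rw [h6, Nat.cast_one]
    exact x.2 ⟨σ, hσmem⟩
  exact h18_exists_prime_absNorm_pow_not_modEq p (a + 1 + 1) F
    (IntermediateField.fixedField ψM.ker) (IntermediateField.adjoin F {ζ}) hdeg ζM hζM hfix T hT

end Core3


theorem h18_Qn_exists_prime_not_modEq (a : ℕ) (F : Type*) [Field F] [NumberField F]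
    (ι : F →+* Qbar)
    (h1 : ∀ σ : Qbar ≃ₐ[ℚ] Qbar, (∀ y : F, σ (ι y) = ι y) → h13_psi p a σ = 1)
    (h2 : ∃ σ : Qbar ≃ₐ[ℚ] Qbar, (∀ y : F, σ (ι y) = ι y) ∧ h13_psi p (a + 1) σ ≠ 1)
    (T : Set (Ideal (𝓞 F))) (hT : T.Finite) :
    ∃ P : Ideal (𝓞 F), P.IsPrime ∧ P ≠ ⊥ ∧ P ∉ T ∧ (p : 𝓞 F) ∉ P ∧
      ¬ (Ideal.absNorm P) ^ (p - 1) ≡ 1 [MOD p ^ (a + 2)] := by
  letI : Algebra F Qbar := ι.toAlgebra
  exact h18_core_exists_prime p F a h1 h2 T hT

theorem h18_Qn_exists_prime_not_modEq' (a : ℕ) (F : Type*) [Field F] [NumberField F]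
    (ι : F →+* Qbar) (hQ : ∀ x ∈ h13_Qn p a, ∃ y : F, ι y = x)
    (hQ' : ¬ ∀ x ∈ h13_Qn p (a + 1), ∃ y : F, ι y = x)
    (T : Set (Ideal (𝓞 F))) (hT : T.Finite) :
    ∃ P : Ideal (𝓞 F), P.IsPrime ∧ P ≠ ⊥ ∧ P ∉ T ∧ (p : 𝓞 F) ∉ P ∧
      ¬ (Ideal.absNorm P) ^ (p - 1) ≡ 1 [MOD p ^ (a + 2)] := by
  have h1 := (h18_Qn_le_iff p a F ι).mp hQ
  have h2 : ∃ σ : Qbar ≃ₐ[ℚ] Qbar, (∀ y : F, σ (ι y) = ι y) ∧ h13_psi p (a + 1) σ ≠ 1 := by
    by_contra hcon
    apply hQ'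
    rw [h18_Qn_le_iff p (a + 1) F ι]
    intro σ hσ
    by_contra hne
    exact hcon ⟨σ, hσ, hne⟩
  exact h18_Qn_exists_prime_not_modEq p a F ι h1 h2 T hT

/-! ### GLOB-DEG -/

local instance h18_neZero_pow (N : ℕ) : NeZero (p ^ N) :=
  ⟨pow_ne_zero _ (Fact.out : p.Prime).ne_zero⟩

theorem h18_chiN_castHom {N N' : ℕ} (h : N ≤ N') (σ : Qbar ≃ₐ[ℚ] Qbar) :
    ZMod.castHom (pow_dvd_pow p h) (ZMod (p ^ N))
        ((h13_chiN p N' σ : (ZMod (p ^ N'))ˣ) : ZMod (p ^ N')) =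
      ((h13_chiN p N σ : (ZMod (p ^ N))ˣ) : ZMod (p ^ N)) := by
  set a := ((h13_chiN p N' σ : (ZMod (p ^ N'))ˣ) : ZMod (p ^ N')).val with ha
  have h1 : ∀ ζ : Qbar, ζ ^ p ^ N = 1 → σ ζ = ζ ^ a := by
    intro ζ hζ
    apply h13_chiN_spec p N' σ ζ
    obtain ⟨k, rfl⟩ := Nat.exists_eq_add_of_le h
    rw [pow_add, pow_mul, hζ, one_pow]
  rw [h13_chiN_eq p N σ a h1, ha, ZMod.natCast_val, ZMod.castHom_apply]

theorem h18_psi_unitsMap {a n : ℕ} (h : a ≤ n) (σ : Qbar ≃ₐ[ℚ] Qbar) :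
    ZMod.unitsMap (pow_dvd_pow p (Nat.succ_le_succ h)) (h13_psi p n σ) = h13_psi p a σ := by
  rw [h13_psi_apply, h13_psi_apply, map_pow]
  congr 1
  apply Units.ext
  rw [ZMod.unitsMap_def, Units.coe_map]
  exact h18_chiN_castHom p (Nat.succ_le_succ h) σ

omit [Fact p.Prime] in
theorem h18_gen_unitsMap {a n : ℕ} (h : a ≤ n) :
    ZMod.unitsMap (pow_dvd_pow p (Nat.succ_le_succ h)) (h13_gen p n) = h13_gen p a := by
  apply Units.ext
  rw [ZMod.unitsMap_def, Units.coe_map, h13_gen_coe, h13_gen_coe]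
  show ZMod.castHom (pow_dvd_pow p (Nat.succ_le_succ h)) (ZMod (p ^ (a + 1)))
    (1 + (p : ZMod (p ^ (n + 1)))) = 1 + (p : ZMod (p ^ (a + 1)))
  rw [map_add, map_one, map_natCast]

/-- `ψ_a σ = (1 + p) ^ (deg_n σ)` for `a ≤ n`. -/
theorem h18_psi_eq_gen_pow (hp2 : p ≠ 2) {a n : ℕ} (h : a ≤ n) (σ : Qbar ≃ₐ[ℚ] Qbar) :
    h13_psi p a σ = h13_gen p a ^ (Multiplicative.toAdd (h13_deg p hp2 n σ)).val := by
  rw [← h18_psi_unitsMap p h σ, h13_deg_spec p hp2 n σ, map_pow, h18_gen_unitsMap p h]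

/-- `ψ_a σ = 1` iff `p ^ a ∣ deg_n σ` (`a ≤ n`). -/
theorem h18_psi_eq_one_iff (hp2 : p ≠ 2) {a n : ℕ} (h : a ≤ n) (σ : Qbar ≃ₐ[ℚ] Qbar) :
    h13_psi p a σ = 1 ↔ p ^ a ∣ (Multiplicative.toAdd (h13_deg p hp2 n σ)).val := by
  rw [h18_psi_eq_gen_pow p hp2 h σ, ← h13_orderOf_gen p hp2 a, orderOf_dvd_iff_pow_eq_one]


/-- The index of the image of a subgroup under the degree map is a power of `p`. -/
theorem h18_deg_index_exists (hp2 : p ≠ 2) (n : ℕ) (HH : Subgroup (Qbar ≃ₐ[ℚ] Qbar)) :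
    ∃ a ≤ n, (HH.map (h13_deg p hp2 n)).index = p ^ a := by
  have hpp : p.Prime := Fact.out
  have h1 : (HH.map (h13_deg p hp2 n)).index ∣ Nat.card (Multiplicative (ZMod (p ^ n))) :=
    Subgroup.index_dvd_card _
  rw [Nat.card_eq_fintype_card, Fintype.card_multiplicative, ZMod.card] at h1
  exact (Nat.dvd_prime_pow hpp).mp h1

/-- **GLOB-DEG**: if the image of `HH` under `deg_n` has index `p ^ a`, then `HH` acts trivially
on `Q_a` (`ψ_a = 1` on `HH`) and, if `a < n`, not trivially on `Q_{a+1}`. -/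
theorem h18_deg_index (hp2 : p ≠ 2) (n a : ℕ) (HH : Subgroup (Qbar ≃ₐ[ℚ] Qbar))
    (hidx : (HH.map (h13_deg p hp2 n)).index = p ^ a) :
    a ≤ n ∧ (∀ σ ∈ HH, h13_psi p a σ = 1) ∧
      (a < n → ∃ σ ∈ HH, h13_psi p (a + 1) σ ≠ 1) ∧
      (HH.map (h13_deg p hp2 n) ≠ ⊥ → a < n) := by
  have hpp : p.Prime := Fact.out
  have han : a ≤ n := by
    obtain ⟨a', ha', h⟩ := h18_deg_index_exists p hp2 n HH
    rw [hidx] at h
    rw [Nat.pow_right_injective hpp.two_le h]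
    exact ha'
  have hcard : Nat.card (HH.map (h13_deg p hp2 n)) = p ^ (n - a) := by
    have h1 := Subgroup.card_mul_index (HH.map (h13_deg p hp2 n))
    rw [hidx, Nat.card_eq_fintype_card (α := Multiplicative (ZMod (p ^ n))),
      Fintype.card_multiplicative, ZMod.card] at h1
    have h2 : p ^ n = p ^ (n - a) * p ^ a := by rw [← pow_add, Nat.sub_add_cancel han]
    exact Nat.eq_of_mul_eq_mul_right (pow_pos hpp.pos a) (h1.trans h2)
  refine ⟨han, ?_, ?_, ?_⟩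
  · intro σ hσ
    rw [h18_psi_eq_one_iff p hp2 han σ]
    have hd : h13_deg p hp2 n σ ∈ HH.map (h13_deg p hp2 n) := ⟨σ, hσ, rfl⟩
    have h1 : (h13_deg p hp2 n σ) ^ Nat.card (HH.map (h13_deg p hp2 n)) = 1 := by
      have h := pow_card_eq_one' (G := HH.map (h13_deg p hp2 n)) (x := ⟨_, hd⟩)
      exact congrArg Subtype.val h
    rw [hcard] at h1
    have h2 : (p ^ (n - a)) • Multiplicative.toAdd (h13_deg p hp2 n σ) = 0 := by
      rw [← toAdd_pow, h1]
      rfl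
    rw [nsmul_eq_mul, ← ZMod.natCast_zmod_val (Multiplicative.toAdd (h13_deg p hp2 n σ)),
      ← Nat.cast_mul, ZMod.natCast_eq_zero_iff] at h2
    have h3 : p ^ n = p ^ (n - a) * p ^ a := by rw [← pow_add, Nat.sub_add_cancel han]
    exact Nat.dvd_of_mul_dvd_mul_left (pow_pos hpp.pos _) ((dvd_of_eq h3.symm).trans h2)
  · intro hlt
    by_contra hcon
    have hall : ∀ σ ∈ HH, h13_psi p (a + 1) σ = 1 := by
      intro σ hσ
      by_contra hne
      exact hcon ⟨σ, hσ, hne⟩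
    have hdvd : p ^ (a + 1) ∣ p ^ n := pow_dvd_pow p hlt
    have hle : HH.map (h13_deg p hp2 n) ≤
        (AddMonoidHom.toMultiplicative
          (ZMod.castHom hdvd (ZMod (p ^ (a + 1)))).toAddMonoidHom).ker := by
      rintro _ ⟨σ, hσ, rfl⟩
      rw [MonoidHom.mem_ker]
      have h1 := (h18_psi_eq_one_iff p hp2 (Nat.succ_le_of_lt hlt) σ).mp (hall σ hσ)
      show Multiplicative.ofAdd (ZMod.castHom hdvd (ZMod (p ^ (a + 1)))
        (Multiplicative.toAdd (h13_deg p hp2 n σ))) = 1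
      rw [ZMod.castHom_apply, ← ZMod.natCast_val, (ZMod.natCast_eq_zero_iff _ _).mpr h1]
      rfl
    have hsurj : Function.Surjective (AddMonoidHom.toMultiplicative
        (ZMod.castHom hdvd (ZMod (p ^ (a + 1)))).toAddMonoidHom) := by
      intro y
      obtain ⟨x, hx⟩ := ZMod.castHom_surjective hdvd (Multiplicative.toAdd y)
      exact ⟨Multiplicative.ofAdd x, congrArg Multiplicative.ofAdd hx⟩
    have h2 := Subgroup.index_dvd_of_le hle
    rw [Subgroup.index_ker, MonoidHom.range_eq_top.mpr hsurj, Subgroup.card_top,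
      Nat.card_eq_fintype_card, Fintype.card_multiplicative, ZMod.card, hidx] at h2
    have h3 := (Nat.pow_dvd_pow_iff_le_right hpp.one_lt).mp h2
    omega
  · intro hne
    by_contra hnlt
    have hna : a = n := le_antisymm han (not_lt.mp hnlt)
    rw [hna, Nat.sub_self, pow_zero] at hcard
    exact hne (Subgroup.eq_bot_of_card_eq _ hcard)

end Fermat.Agent.S55
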