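import Mathlib
import Fermat.Agent.S55.h25_GlobVal
import Fermat.Agent.S55.h35_WeakApprox
import Fermat.Agent.S55.h10_ValPrin

/-!
# S55, GLOB-VAL, row VAL-V1: the valuation `w` and weak approximation

If `N(v)^(p-1) ≡ 1 mod p^(a+1)` for all primes `v` of `K` not above `S`, then every value of
`w_K : X_K → U1 = 1 + pℤ_p` is a `p^a`-th power (`h21_w_V1`).

Proof: by weak approximation (`h35_weak_approx_units`) and `w ∘ diag = 1` (`h10_w_diag`) one may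
assume that all local components at the primes of `S` are close to `1`; then the components of
`w` at `q ≠ p` are trivial, the component at `p` is `≡ 1 mod p^(a+1)`, and the divisor component
is a `p^a`-th power by hypothesis.
-/

set_option autoImplicit false

open IsDedekindDomain NumberField

namespace Fermat.Agent.S55

noncomputable section

section Ultra

variable {F : Type*} [NormedField F] [IsUltrametricDist F]

/-- In an ultrametric normed field, `‖y - 1‖ < 1` implies `‖y‖ = 1`. -/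
theorem h21_norm_eq_one_of_sub_one_lt (y : F) (h : ‖y - 1‖ < 1) : ‖y‖ = 1 := by
  have h1 : ‖y - 1‖ ≠ ‖(1 : F)‖ := by rw [norm_one]; exact h.ne
  have h2 := IsUltrametricDist.norm_add_eq_max_of_norm_ne_norm h1
  rw [sub_add_cancel, norm_one, max_eq_right h.le] at h2
  exact h2

/-- In an ultrametric normed field, a finite product of elements `ε`-close to `1` (`ε ≤ 1`) is
`ε`-close to `1`. -/
theorem h21_norm_prod_sub_one_lt {ι : Type*} (s : Finset ι) (y : ι → F) (ε : ℝ) (hε : 0 < ε)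
    (hε1 : ε ≤ 1) (h : ∀ i ∈ s, ‖y i - 1‖ < ε) : ‖∏ i ∈ s, y i - 1‖ < ε := by
  classical
  induction s using Finset.induction_on with
  | empty => simpa using hε
  | insert b s hb ih =>
    rw [Finset.prod_insert hb]
    have hR : ‖∏ i ∈ s, y i - 1‖ < ε := ih (fun i hi => h i (Finset.mem_insert_of_mem hi))
    have hR1 : ‖∏ i ∈ s, y i‖ = 1 := h21_norm_eq_one_of_sub_one_lt _ (lt_of_lt_of_le hR hε1)
    have hb' : ‖y b - 1‖ < ε := h b (Finset.mem_insert_self b s)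
    have e : y b * ∏ i ∈ s, y i - 1 = (y b - 1) * ∏ i ∈ s, y i + (∏ i ∈ s, y i - 1) := by ring
    rw [e]
    refine lt_of_le_of_lt (IsUltrametricDist.norm_add_le_max _ _) (max_lt ?_ hR)
    rw [norm_mul, hR1, mul_one]
    exact hb'

end Ultra

section PowSub

variable (p : ℕ) [Fact p.Prime]

/-- The subgroup of `p^a`-th powers in `U1`. -/
def h21_powSub (a : ℕ) : Subgroup (h18_U1 p) := (powMonoidHom (p ^ a) : h18_U1 p →* h18_U1 p).range

theorem h21_mem_powSub_iff (a : ℕ) (y : h18_U1 p) :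
    y ∈ h21_powSub p a ↔ ∃ z : h18_U1 p, z ^ (p ^ a) = y := by
  rw [h21_powSub, MonoidHom.mem_range]
  rfl

/-- A unit of `ℚ_p` which is `≡ 1 mod p^(a+1)` has `v_p`-value a `p^a`-th power. -/
theorem h21_vp_mem_powSub (hp : p ≠ 2) (a : ℕ) (x : ℚ_[p]ˣ)
    (hx : ‖(x : ℚ_[p]) - 1‖ ≤ (p : ℝ) ^ (-((a + 1 : ℕ) : ℤ))) :
    h18_vp p x ∈ h21_powSub p a := by
  have hpp : p.Prime := Fact.out
  have hp1 : (1 : ℝ) < p := by exact_mod_cast hpp.one_lt
  have hlt1 : (p : ℝ) ^ (-((a + 1 : ℕ) : ℤ)) < 1 := by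
    rw [zpow_neg, zpow_natCast]
    exact inv_lt_one_of_one_lt₀ (one_lt_pow₀ hp1 (Nat.succ_ne_zero a))
  have hnorm : ‖(x : ℚ_[p])‖ = 1 := h21_norm_eq_one_of_sub_one_lt _ (lt_of_le_of_lt hx hlt1)
  let z : ℤ_[p] := ⟨(x : ℚ_[p]), hnorm.le⟩
  have hz : IsUnit z := PadicInt.isUnit_iff.mpr hnorm
  have hzu : ((hz.unit : ℤ_[p]ˣ) : ℤ_[p]) = z := IsUnit.unit_spec hz
  have hvp : ((h18_vp p x : h18_U1 p) : ℤ_[p]ˣ) = hz.unit ^ (p - 1) :=
    h18_vp_of_eq p x 0 hz.unit (by rw [zpow_zero, one_mul, hzu])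
  have hdvd : (p : ℤ_[p]) ^ (a + 1) ∣ z - 1 := by
    rw [← Ideal.mem_span_singleton, ← PadicInt.norm_le_pow_iff_mem_span_pow]
    exact hx
  have hdvd2 : (p : ℤ_[p]) ^ (a + 1) ∣ (((h18_vp p x : h18_U1 p) : ℤ_[p]ˣ) : ℤ_[p]) - 1 := by
    rw [hvp, Units.val_pow_eq_pow_val, hzu]
    exact hdvd.trans (sub_one_dvd_pow_sub_one z (p - 1))
  obtain ⟨y, hy, hyp⟩ := (h18_U1_pow_iff p hp a _).mpr hdvd2
  rw [h21_mem_powSub_iff]
  exact ⟨⟨y, hy⟩, Subtype.ext hyp⟩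

end PowSub

section V1

variable (K : Type*) [Field K] [NumberField K] (S : Finset Nat.Primes) (P : S)

/-- The divisor component of `w` takes values in the `p^a`-th powers. -/
theorem h21_wD_mem (hp2 : ((P : Nat.Primes) : ℕ) ≠ 2) (a : ℕ)
    (hF : ∀ v : h25_Pl K S, Ideal.absNorm v.1.asIdeal ^ (((P : Nat.Primes) : ℕ) - 1) ≡ 1
      [MOD ((P : Nat.Primes) : ℕ) ^ (a + 1)])
    (d : Multiplicative (h25_Div K S)) :
    h25_wD K S P d ∈ h21_powSub ((P : Nat.Primes) : ℕ) a := by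
  classical
  have e : d = Multiplicative.ofAdd (Multiplicative.toAdd d) := rfl
  rw [e, h25_wD_apply]
  refine Subgroup.prod_mem _ (fun v _ => Subgroup.zpow_mem _ ?_ _)
  rw [h21_mem_powSub_iff]
  exact (h18_natU1_pow_iff _ hp2 a (h10_not_dvd_absNorm K S P v)).mpr (hF v)

/-- The component of `w` at `q ∈ S` is trivial on elements close to `1` at `q`. -/
theorem h21_wq_eq_one (q : S) (φ : h25_J K S)
    (h : ∀ j : K →+* PadicAlgCl ((q : Nat.Primes) : ℕ),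
      ‖(((φ q).1 j : (PadicAlgCl ((q : Nat.Primes) : ℕ))ˣ) : PadicAlgCl ((q : Nat.Primes) : ℕ))
        - 1‖ < 1) :
    h25_wq K S P q φ = 1 := by
  rw [h25_wq_apply]
  have hN : ‖((h25_Nq K ((q : Nat.Primes) : ℕ) (φ q) : ℚ_[((q : Nat.Primes) : ℕ)]ˣ) :
      ℚ_[((q : Nat.Primes) : ℕ)])‖ = 1 := by
    rw [← PadicAlgCl.norm_extends, h25_Nq_spec, norm_prod]
    exact Finset.prod_eq_one (fun j _ => h21_norm_eq_one_of_sub_one_lt _ (h j))
  have h1 := Padic.norm_eq_zpow_neg_valuation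
    (Units.ne_zero (h25_Nq K ((q : Nat.Primes) : ℕ) (φ q)))
  rw [hN] at h1
  have hq1 : ((((q : Nat.Primes) : ℕ) : ℝ)) ≠ 1 := by
    exact_mod_cast q.1.2.one_lt.ne'
  have h2 := (zpow_eq_one_iff_right₀ (Nat.cast_nonneg _) hq1).mp h1.symm
  rw [neg_eq_zero] at h2
  rw [h2, zpow_zero]

/-- The component of `w` at `p = P` is a `p^a`-th power on elements `p^(-(a+1))`-close to `1`
at `p`. -/
theorem h21_wP_mem (hp2 : ((P : Nat.Primes) : ℕ) ≠ 2) (a : ℕ) (φ : h25_J K S)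
    (h : ∀ j : K →+* PadicAlgCl ((P : Nat.Primes) : ℕ),
      ‖(((φ P).1 j : (PadicAlgCl ((P : Nat.Primes) : ℕ))ˣ) : PadicAlgCl ((P : Nat.Primes) : ℕ))
        - 1‖ < (((P : Nat.Primes) : ℕ) : ℝ) ^ (-((a + 1 : ℕ) : ℤ))) :
    h25_wP K S P φ ∈ h21_powSub ((P : Nat.Primes) : ℕ) a := by
  rw [h25_wP_apply]
  refine Subgroup.inv_mem _ (h21_vp_mem_powSub _ hp2 a _ ?_)
  have hp1 : (1 : ℝ) < (((P : Nat.Primes) : ℕ) : ℝ) := by exact_mod_cast P.1.2.one_lt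
  have hε : (0 : ℝ) < (((P : Nat.Primes) : ℕ) : ℝ) ^ (-((a + 1 : ℕ) : ℤ)) :=
    zpow_pos (by linarith) _
  have hε1 : (((P : Nat.Primes) : ℕ) : ℝ) ^ (-((a + 1 : ℕ) : ℤ)) ≤ 1 := by
    rw [zpow_neg, zpow_natCast]
    exact (inv_lt_one_of_one_lt₀ (one_lt_pow₀ hp1 (Nat.succ_ne_zero a))).le
  have key := h21_norm_prod_sub_one_lt Finset.univ
    (fun j : K →+* PadicAlgCl ((P : Nat.Primes) : ℕ) =>
      (((φ P).1 j : (PadicAlgCl ((P : Nat.Primes) : ℕ))ˣ) : PadicAlgCl ((P : Nat.Primes) : ℕ)))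
    _ hε hε1 (fun j _ => h j)
  rw [← h25_Nq_spec] at key
  have e : algebraMap ℚ_[((P : Nat.Primes) : ℕ)] (PadicAlgCl ((P : Nat.Primes) : ℕ))
      ((h25_Nq K ((P : Nat.Primes) : ℕ) (φ P) : ℚ_[((P : Nat.Primes) : ℕ)]ˣ) :
        ℚ_[((P : Nat.Primes) : ℕ)]) - 1 =
      algebraMap ℚ_[((P : Nat.Primes) : ℕ)] (PadicAlgCl ((P : Nat.Primes) : ℕ))
        (((h25_Nq K ((P : Nat.Primes) : ℕ) (φ P) : ℚ_[((P : Nat.Primes) : ℕ)]ˣ) :
          ℚ_[((P : Nat.Primes) : ℕ)]) - 1) := by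
    rw [map_sub, map_one]
  rw [e, PadicAlgCl.norm_extends] at key
  exact key.le

/-- **VAL-V1**: if `N(v)^(p-1) ≡ 1 mod p^(a+1)` for all primes `v` of `K` not above `S`, then
every value of `w_K` is a `p^a`-th power in `U1`. -/
theorem h21_w_V1 (hp2 : ((P : Nat.Primes) : ℕ) ≠ 2) (a : ℕ)
    (hF : ∀ v : h25_Pl K S, Ideal.absNorm v.1.asIdeal ^ (((P : Nat.Primes) : ℕ) - 1) ≡ 1
      [MOD ((P : Nat.Primes) : ℕ) ^ (a + 1)])
    (x : h25_X K S) :
    ∃ y : h18_U1 ((P : Nat.Primes) : ℕ), y ^ (((P : Nat.Primes) : ℕ) ^ a) = h25_w K S P x := by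
  classical
  rw [← h21_mem_powSub_iff]
  have hp1 : (1 : ℝ) < (((P : Nat.Primes) : ℕ) : ℝ) := by exact_mod_cast P.1.2.one_lt
  have hε : (0 : ℝ) < (((P : Nat.Primes) : ℕ) : ℝ) ^ (-((a + 1 : ℕ) : ℤ)) :=
    zpow_pos (by linarith) _
  have hε1 : (((P : Nat.Primes) : ℕ) : ℝ) ^ (-((a + 1 : ℕ) : ℤ)) < 1 := by
    rw [zpow_neg, zpow_natCast]
    exact inv_lt_one_of_one_lt₀ (one_lt_pow₀ hp1 (Nat.succ_ne_zero a))
  -- weak approximation
  obtain ⟨u, hu0, hu⟩ := h35_weak_approx_units K (fun i : S => ((i : Nat.Primes) : ℕ))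
    (fun i i' h => Subtype.ext (Subtype.ext h))
    (fun i j => (((x.1 i).1 j : (PadicAlgCl ((i : Nat.Primes) : ℕ))ˣ) :
      PadicAlgCl ((i : Nat.Primes) : ℕ)))
    (fun i σ j => (x.1 i).2 σ j) (fun i j => Units.ne_zero _) _ hε
  let uu : Kˣ := Units.mk0 u hu0
  let x' : h25_X K S := x * (h25_diag K S uu)⁻¹
  have hw : h25_w K S P x = h25_w K S P x' := by
    simp only [x', map_mul, map_inv, h10_w_diag K S P hp2, inv_one, mul_one]
  have hx' : ∀ (q : S) (j : K →+* PadicAlgCl ((q : Nat.Primes) : ℕ)),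
      (((x'.1 q).1 j : (PadicAlgCl ((q : Nat.Primes) : ℕ))ˣ) : PadicAlgCl ((q : Nat.Primes) : ℕ))
        = (((x.1 q).1 j : (PadicAlgCl ((q : Nat.Primes) : ℕ))ˣ) :
            PadicAlgCl ((q : Nat.Primes) : ℕ)) / j u := by
    intro q j
    show (((x.1 q).1 j * (Units.map (j : K →* PadicAlgCl ((q : Nat.Primes) : ℕ)) uu)⁻¹ :
      (PadicAlgCl ((q : Nat.Primes) : ℕ))ˣ) : PadicAlgCl ((q : Nat.Primes) : ℕ)) = _
    rw [Units.val_mul, Units.val_inv_eq_inv_val, div_eq_mul_inv]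
    rfl
  rw [hw, h25_w_apply]
  refine Subgroup.mul_mem _ (Subgroup.mul_mem _ ?_ (Subgroup.prod_mem _ ?_)) ?_
  · refine h21_wP_mem K S P hp2 a x'.1 (fun j => ?_)
    rw [hx']
    exact hu P j
  · intro q _
    rw [h21_wq_eq_one K S P q x'.1 (fun j => ?_)]
    · exact Subgroup.one_mem _
    · rw [hx']
      exact lt_trans (hu q j) hε1
  · exact h21_wD_mem K S P hp2 a hF x'.2

end V1

end

end Fermat.Agent.S55
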