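import Mathlib

/-!
# S55 / LOC-ORD (helper63): normalized valuation and `e`, `f` bookkeeping for finite extensions
of `ℚ_[q]`, defined purely algebraically through the norm to `ℚ_[q]`.

Carrier convention (same as `h57_local_norm_index`): `K` any field with `[Algebra ℚ_[q] K]`
and `[FiniteDimensional ℚ_[q] K]`.
-/

namespace Fermat.Agent.S55

variable (q : ℕ) [Fact q.Prime]

section abs

variable (K : Type*) [Field K] [Algebra ℚ_[q] K]

/-- raw order `v_q (N_{K/ℚ_q} x)`. -/
noncomputable def h63_rawOrd (x : Kˣ) : ℤ :=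
  Padic.valuation (Algebra.norm ℚ_[q] (x : K))

variable {K} in
theorem h63_norm_unit_ne_zero (x : Kˣ) : Algebra.norm ℚ_[q] (x : K) ≠ 0 := by
  have h : Algebra.norm ℚ_[q] (x : K) * Algebra.norm ℚ_[q] ((x⁻¹ : Kˣ) : K) = 1 := by
    rw [← map_mul]; simp
  exact left_ne_zero_of_mul_eq_one h

theorem h63_rawOrd_one : h63_rawOrd q K 1 = 0 := by
  simp [h63_rawOrd]

variable {K} in
theorem h63_rawOrd_mul (x y : Kˣ) :
    h63_rawOrd q K (x * y) = h63_rawOrd q K x + h63_rawOrd q K y := by
  simp only [h63_rawOrd, Units.val_mul, map_mul]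
  exact Padic.valuation_mul (h63_norm_unit_ne_zero q x) (h63_norm_unit_ne_zero q y)

/-- raw order as a homomorphism. -/
noncomputable def h63_rawOrdHom : Additive Kˣ →+ ℤ where
  toFun x := h63_rawOrd q K (Additive.toMul x)
  map_zero' := h63_rawOrd_one q K
  map_add' x y := h63_rawOrd_mul q (Additive.toMul x) (Additive.toMul y)

/-- absolute residue degree `f(K/ℚ_q)`: the index in `ℤ` of the image of `v_q ∘ N`. -/
noncomputable def h63_resDeg : ℕ := (h63_rawOrdHom q K).range.index

/-- normalized order `ord_K : Kˣ → ℤ`. -/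
noncomputable def h63_ord (x : Kˣ) : ℤ := h63_rawOrd q K x / (h63_resDeg q K : ℤ)

/-- absolute ramification index `e(K/ℚ_q)`. -/
noncomputable def h63_ramIdx : ℕ := Module.finrank ℚ_[q] K / h63_resDeg q K

end abs

section fin

set_option linter.unusedSectionVars false

variable (K : Type*) [Field K] [Algebra ℚ_[q] K] [FiniteDimensional ℚ_[q] K]

theorem h63_rawOrd_algebraMap (x : ℚ_[q]ˣ) :
    h63_rawOrd q K (Units.map (algebraMap ℚ_[q] K).toMonoidHom x)
      = Module.finrank ℚ_[q] K * Padic.valuation (x : ℚ_[q]) := by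
  simp [h63_rawOrd, Algebra.norm_algebraMap, Padic.valuation_pow]

theorem h63_exists_gen :
    ∃ d : ℕ, 0 < d ∧ (h63_rawOrdHom q K).range = AddSubgroup.zmultiples (d : ℤ) := by
  obtain ⟨a, ha⟩ := Int.subgroup_cyclic (h63_rawOrdHom q K).range
  rw [← AddSubgroup.zmultiples_eq_closure, ← Int.zmultiples_natAbs] at ha
  refine ⟨a.natAbs, ?_, ha⟩
  rcases Nat.eq_zero_or_pos a.natAbs with h0 | h0
  · exfalso
    rw [h0] at ha
    have hq0 : (q : ℚ_[q]) ≠ 0 := by exact_mod_cast (Fact.out : q.Prime).ne_zero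
    have hmem : (Module.finrank ℚ_[q] K : ℤ) ∈ (h63_rawOrdHom q K).range := by
      refine ⟨Additive.ofMul (Units.map (algebraMap ℚ_[q] K).toMonoidHom (Units.mk0 _ hq0)), ?_⟩
      have h := h63_rawOrd_algebraMap q K (Units.mk0 _ hq0)
      simp only [Units.val_mk0, Padic.valuation_p, mul_one] at h
      exact h
    rw [ha] at hmem
    simp at hmem
    exact (Module.finrank_pos (R := ℚ_[q]) (M := K)).ne' hmem
  · exact h0

theorem h63_range_eq :
    (h63_rawOrdHom q K).range = AddSubgroup.zmultiples (h63_resDeg q K : ℤ) := by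
  obtain ⟨d, hd, h⟩ := h63_exists_gen q K
  have : h63_resDeg q K = d := by
    unfold h63_resDeg
    rw [h, Int.index_zmultiples]
    simp
  rw [this, h]

theorem h63_resDeg_pos : 0 < h63_resDeg q K := by
  obtain ⟨d, hd, h⟩ := h63_exists_gen q K
  have : h63_resDeg q K = d := by
    unfold h63_resDeg
    rw [h, Int.index_zmultiples]
    simp
  rw [this]; exact hd

variable {K} in
theorem h63_resDeg_dvd_rawOrd (x : Kˣ) : (h63_resDeg q K : ℤ) ∣ h63_rawOrd q K x := by
  have hmem : h63_rawOrd q K x ∈ (h63_rawOrdHom q K).range := ⟨Additive.ofMul x, rfl⟩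
  rw [h63_range_eq, Int.mem_zmultiples_iff] at hmem
  exact hmem

variable {K} in
/-- `v_q (N x) = f · ord x`. -/
theorem h63_rawOrd_eq (x : Kˣ) :
    h63_rawOrd q K x = (h63_resDeg q K : ℤ) * h63_ord q K x := by
  unfold h63_ord
  rw [Int.mul_ediv_cancel' (h63_resDeg_dvd_rawOrd q x)]

theorem h63_resDeg_ne_zero' : (h63_resDeg q K : ℤ) ≠ 0 := by
  exact_mod_cast (h63_resDeg_pos q K).ne'

theorem h63_ord_one : h63_ord q K 1 = 0 := by
  simp [h63_ord, h63_rawOrd_one]

variable {K} in
theorem h63_ord_mul (x y : Kˣ) : h63_ord q K (x * y) = h63_ord q K x + h63_ord q K y := by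
  have h := h63_rawOrd_mul q x y
  rw [h63_rawOrd_eq, h63_rawOrd_eq, h63_rawOrd_eq, ← mul_add] at h
  exact mul_left_cancel₀ (h63_resDeg_ne_zero' q K) h

/-- the normalized order as a monoid hom. -/
noncomputable def h63_ordHom : Kˣ →* Multiplicative ℤ where
  toFun x := Multiplicative.ofAdd (h63_ord q K x)
  map_one' := by simp [h63_ord_one]
  map_mul' x y := by simp [h63_ord_mul, ofAdd_add]

variable {K} in
theorem h63_ordHom_apply (x : Kˣ) : h63_ordHom q K x = Multiplicative.ofAdd (h63_ord q K x) := rfl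

variable {K} in
theorem h63_ord_inv (x : Kˣ) : h63_ord q K x⁻¹ = - h63_ord q K x := by
  have h := h63_ord_mul q x x⁻¹
  rw [mul_inv_cancel, h63_ord_one] at h
  linarith

variable {K} in
theorem h63_ord_pow (x : Kˣ) (n : ℕ) : h63_ord q K (x ^ n) = n * h63_ord q K x := by
  induction n with
  | zero => simp [h63_ord_one]
  | succ n ih => rw [pow_succ, h63_ord_mul, ih]; push_cast; ring

variable {K} in
theorem h63_ord_zpow (x : Kˣ) (n : ℤ) : h63_ord q K (x ^ n) = n * h63_ord q K x := by
  cases n with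
  | ofNat n => simpa using h63_ord_pow q x n
  | negSucc n =>
    rw [zpow_negSucc, h63_ord_inv, h63_ord_pow]
    push_cast [Int.negSucc_eq]; ring

theorem h63_exists_ord_eq_one : ∃ π : Kˣ, h63_ord q K π = 1 := by
  have hmem : (h63_resDeg q K : ℤ) ∈ (h63_rawOrdHom q K).range := by
    rw [h63_range_eq]; exact AddSubgroup.mem_zmultiples _
  obtain ⟨x, hx⟩ := hmem
  refine ⟨Additive.toMul x, ?_⟩
  change h63_rawOrd q K (Additive.toMul x) = _ at hx
  rw [h63_rawOrd_eq] at hx
  have := mul_left_cancel₀ (h63_resDeg_ne_zero' q K) (hx.trans (mul_one _).symm)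
  exact this

theorem h63_ord_surjective : Function.Surjective (h63_ord q K) := by
  obtain ⟨π, hπ⟩ := h63_exists_ord_eq_one q K
  intro n
  exact ⟨π ^ n, by rw [h63_ord_zpow, hπ, mul_one]⟩

/-- `f ∣ n`. -/
theorem h63_resDeg_dvd_finrank : h63_resDeg q K ∣ Module.finrank ℚ_[q] K := by
  have hq0 : (q : ℚ_[q]) ≠ 0 := by exact_mod_cast (Fact.out : q.Prime).ne_zero
  have h := h63_resDeg_dvd_rawOrd q (Units.map (algebraMap ℚ_[q] K).toMonoidHom (Units.mk0 _ hq0))
  rw [h63_rawOrd_algebraMap] at h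
  simp only [Units.val_mk0, Padic.valuation_p, mul_one] at h
  exact_mod_cast h

/-- `e · f = n`. -/
theorem h63_ramIdx_mul_resDeg :
    h63_ramIdx q K * h63_resDeg q K = Module.finrank ℚ_[q] K :=
  Nat.div_mul_cancel (h63_resDeg_dvd_finrank q K)

theorem h63_ramIdx_pos : 0 < h63_ramIdx q K := by
  have h := h63_ramIdx_mul_resDeg q K
  have hn : 0 < Module.finrank ℚ_[q] K := Module.finrank_pos
  rcases Nat.eq_zero_or_pos (h63_ramIdx q K) with h0 | h0
  · rw [h0, zero_mul] at h; omega
  · exact h0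

/-- `ord_K x = e · v_q x` for `x ∈ ℚ_q`. -/
theorem h63_ord_algebraMap (x : ℚ_[q]ˣ) :
    h63_ord q K (Units.map (algebraMap ℚ_[q] K).toMonoidHom x)
      = h63_ramIdx q K * Padic.valuation (x : ℚ_[q]) := by
  have h := h63_rawOrd_algebraMap q K x
  rw [h63_rawOrd_eq, ← h63_ramIdx_mul_resDeg q K] at h
  push_cast at h
  have h2 : (h63_resDeg q K : ℤ) * h63_ord q K (Units.map (algebraMap ℚ_[q] K).toMonoidHom x)
      = (h63_resDeg q K : ℤ) * ((h63_ramIdx q K : ℤ) * Padic.valuation (x : ℚ_[q])) := by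
    rw [h]; ring
  exact mul_left_cancel₀ (h63_resDeg_ne_zero' q K) h2

end fin

section rel

variable (K L : Type*) [Field K] [Field L] [Algebra ℚ_[q] K] [Algebra ℚ_[q] L] [Algebra K L]
  [IsScalarTower ℚ_[q] K L] [FiniteDimensional ℚ_[q] L]

omit [FiniteDimensional ℚ_[q] L] in
variable {L} in
theorem h63_rawOrd_norm (y : Lˣ) :
    h63_rawOrd q K (Units.map (Algebra.norm K : L →* K) y) = h63_rawOrd q L y := by
  simp only [h63_rawOrd, Units.coe_map]
  rw [Algebra.norm_norm]

/-- relative residue degree. -/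
noncomputable def h63_relResDeg : ℕ := h63_resDeg q L / h63_resDeg q K

/-- relative ramification index. -/
noncomputable def h63_relRamIdx : ℕ := h63_ramIdx q L / h63_ramIdx q K

theorem h63_resDeg_dvd : h63_resDeg q K ∣ h63_resDeg q L := by
  have : FiniteDimensional ℚ_[q] K := FiniteDimensional.left ℚ_[q] K L
  obtain ⟨π, hπ⟩ := h63_exists_ord_eq_one q L
  have h1 := h63_rawOrd_norm q K π
  rw [h63_rawOrd_eq, h63_rawOrd_eq, hπ, mul_one] at h1
  exact_mod_cast Dvd.intro _ h1

theorem h63_relResDeg_mul : h63_relResDeg q K L * h63_resDeg q K = h63_resDeg q L :=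
  Nat.div_mul_cancel (h63_resDeg_dvd q K L)

variable {L} in
/-- `ord_K (N_{L/K} y) = f(L/K) · ord_L y`. -/
theorem h63_ord_norm (y : Lˣ) :
    h63_ord q K (Units.map (Algebra.norm K : L →* K) y)
      = h63_relResDeg q K L * h63_ord q L y := by
  have : FiniteDimensional ℚ_[q] K := FiniteDimensional.left ℚ_[q] K L
  have h1 := h63_rawOrd_norm q K y
  rw [h63_rawOrd_eq, h63_rawOrd_eq, ← h63_relResDeg_mul q K L] at h1
  push_cast at h1
  have h2 : (h63_resDeg q K : ℤ) * h63_ord q K (Units.map (Algebra.norm K : L →* K) y)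
      = (h63_resDeg q K : ℤ) * ((h63_relResDeg q K L : ℤ) * h63_ord q L y) := by
    rw [h1]; ring
  exact mul_left_cancel₀ (h63_resDeg_ne_zero' q K) h2

variable {K} in
theorem h63_rawOrd_map (x : Kˣ) :
    h63_rawOrd q L (Units.map (algebraMap K L).toMonoidHom x)
      = Module.finrank K L * h63_rawOrd q K x := by
  have : FiniteDimensional ℚ_[q] K := FiniteDimensional.left ℚ_[q] K L
  have : FiniteDimensional K L := FiniteDimensional.right ℚ_[q] K L
  have h1 := h63_rawOrd_norm q K (Units.map (algebraMap K L).toMonoidHom x)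
  rw [← h1]
  have : Units.map (Algebra.norm K : L →* K) (Units.map (algebraMap K L).toMonoidHom x)
      = x ^ Module.finrank K L := by
    ext
    simp [Algebra.norm_algebraMap]
  rw [this]
  have h3 : ∀ n : ℕ, h63_rawOrd q K (x ^ n) = n * h63_rawOrd q K x := by
    intro n
    rw [h63_rawOrd_eq, h63_rawOrd_eq, h63_ord_pow]; ring
  exact h3 _

theorem h63_finrank_mul :
    Module.finrank ℚ_[q] K * Module.finrank K L = Module.finrank ℚ_[q] L := by
  have : FiniteDimensional ℚ_[q] K := FiniteDimensional.left ℚ_[q] K L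
  have : FiniteDimensional K L := FiniteDimensional.right ℚ_[q] K L
  exact Module.finrank_mul_finrank ℚ_[q] K L

variable {K} in
/-- `f(L) · ord_L x = [L:K] · f(K) · ord_K x` for `x ∈ K`. -/
theorem h63_ord_map_aux (x : Kˣ) :
    (h63_resDeg q L : ℤ) * h63_ord q L (Units.map (algebraMap K L).toMonoidHom x)
      = Module.finrank K L * ((h63_resDeg q K : ℤ) * h63_ord q K x) := by
  have : FiniteDimensional ℚ_[q] K := FiniteDimensional.left ℚ_[q] K L
  have h := h63_rawOrd_map q L x
  rw [h63_rawOrd_eq, h63_rawOrd_eq] at h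
  exact h

/-- `f(L/K) ∣ [L:K]`. -/
theorem h63_relResDeg_dvd_finrank : h63_relResDeg q K L ∣ Module.finrank K L := by
  have : FiniteDimensional ℚ_[q] K := FiniteDimensional.left ℚ_[q] K L
  obtain ⟨π, hπ⟩ := h63_exists_ord_eq_one q K
  have h := h63_ord_map_aux q L π
  rw [hπ, mul_one, ← h63_relResDeg_mul q K L] at h
  push_cast at h
  have h2 : (h63_resDeg q K : ℤ) * ((h63_relResDeg q K L : ℤ) *
      h63_ord q L (Units.map (algebraMap K L).toMonoidHom π))
      = (h63_resDeg q K : ℤ) * (Module.finrank K L : ℤ) := by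
    linear_combination h
  have h3 := mul_left_cancel₀ (h63_resDeg_ne_zero' q K) h2
  exact_mod_cast Dvd.intro _ h3

/-- relative ramification index, second form: `[L:K] / f(L/K)`. -/
theorem h63_relRamIdx_eq :
    h63_relRamIdx q K L = Module.finrank K L / h63_relResDeg q K L := by
  have : FiniteDimensional ℚ_[q] K := FiniteDimensional.left ℚ_[q] K L
  have hfK := h63_resDeg_pos q K
  have hfL := h63_resDeg_pos q L
  have heK := h63_ramIdx_pos q K
  have h1 := h63_ramIdx_mul_resDeg q K
  have h2 := h63_ramIdx_mul_resDeg q L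
  have h3 := h63_finrank_mul q K L
  have h4 := h63_relResDeg_mul q K L
  obtain ⟨c, hc⟩ := h63_relResDeg_dvd_finrank q K L
  have hr : 0 < h63_relResDeg q K L := by
    rcases Nat.eq_zero_or_pos (h63_relResDeg q K L) with h0 | h0
    · rw [h0, zero_mul] at h4; omega
    · exact h0
  rw [hc, Nat.mul_div_cancel_left _ hr]
  unfold h63_relRamIdx
  -- e_L * f_L = n_L = n_K * [L:K] = e_K f_K * r * c, f_L = r f_K  ⇒ e_L = e_K * c
  have : h63_ramIdx q L = h63_ramIdx q K * c := by
    have h5 : h63_ramIdx q L * (h63_relResDeg q K L * h63_resDeg q K)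
        = (h63_ramIdx q K * c) * (h63_relResDeg q K L * h63_resDeg q K) := by
      calc h63_ramIdx q L * (h63_relResDeg q K L * h63_resDeg q K)
          = h63_ramIdx q L * h63_resDeg q L := by rw [h4]
        _ = Module.finrank ℚ_[q] L := h2
        _ = Module.finrank ℚ_[q] K * Module.finrank K L := h3.symm
        _ = (h63_ramIdx q K * h63_resDeg q K) * (h63_relResDeg q K L * c) := by rw [h1, hc]
        _ = (h63_ramIdx q K * c) * (h63_relResDeg q K L * h63_resDeg q K) := by ring
    exact Nat.eq_of_mul_eq_mul_right (Nat.mul_pos hr hfK) h5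
  rw [this, Nat.mul_div_cancel_left _ heK]

/-- `e(L/K) · f(L/K) = [L:K]`. -/
theorem h63_relRamIdx_mul_relResDeg :
    h63_relRamIdx q K L * h63_relResDeg q K L = Module.finrank K L := by
  rw [h63_relRamIdx_eq]
  exact Nat.div_mul_cancel (h63_relResDeg_dvd_finrank q K L)

variable {K} in
/-- `ord_L x = e(L/K) · ord_K x` for `x ∈ K`. -/
theorem h63_ord_map (x : Kˣ) :
    h63_ord q L (Units.map (algebraMap K L).toMonoidHom x)
      = h63_relRamIdx q K L * h63_ord q K x := by
  have : FiniteDimensional ℚ_[q] K := FiniteDimensional.left ℚ_[q] K L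
  have h := h63_ord_map_aux q L x
  rw [← h63_relRamIdx_mul_relResDeg q K L, ← h63_relResDeg_mul q K L] at h
  push_cast at h
  have hr : (h63_relResDeg q K L : ℤ) ≠ 0 := by
    have h4 := h63_relResDeg_mul q K L
    have hfL := h63_resDeg_pos q L
    intro h0
    have : h63_relResDeg q K L = 0 := by exact_mod_cast h0
    rw [this, zero_mul] at h4; omega
  have h2 : ((h63_relResDeg q K L : ℤ) * (h63_resDeg q K : ℤ)) *
      h63_ord q L (Units.map (algebraMap K L).toMonoidHom x)
      = ((h63_relResDeg q K L : ℤ) * (h63_resDeg q K : ℤ)) *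
        ((h63_relRamIdx q K L : ℤ) * h63_ord q K x) := by
    rw [h]; ring
  exact mul_left_cancel₀ (mul_ne_zero hr (h63_resDeg_ne_zero' q K)) h2

end rel

section equiv

variable {K K' : Type*} [Field K] [Field K'] [Algebra ℚ_[q] K] [Algebra ℚ_[q] K']

theorem h63_rawOrd_algEquiv (e : K ≃ₐ[ℚ_[q]] K') (x : Kˣ) :
    h63_rawOrd q K' (Units.map (e : K →* K') x) = h63_rawOrd q K x := by
  simp only [h63_rawOrd, Units.coe_map, MonoidHom.coe_coe]
  rw [Algebra.norm_eq_of_algEquiv]

theorem h63_resDeg_algEquiv (e : K ≃ₐ[ℚ_[q]] K') : h63_resDeg q K' = h63_resDeg q K := by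
  unfold h63_resDeg
  congr 1
  ext n
  constructor
  · rintro ⟨x, rfl⟩
    refine ⟨Additive.ofMul (Units.map (e.symm : K' →* K) (Additive.toMul x)), ?_⟩
    exact h63_rawOrd_algEquiv q e.symm _
  · rintro ⟨x, rfl⟩
    refine ⟨Additive.ofMul (Units.map (e : K →* K') (Additive.toMul x)), ?_⟩
    exact h63_rawOrd_algEquiv q e _

/-- `ord` is invariant under `ℚ_q`-isomorphisms (in particular under `Gal(L/K)`). -/
theorem h63_ord_algEquiv (e : K ≃ₐ[ℚ_[q]] K') (x : Kˣ) :
    h63_ord q K' (Units.map (e : K →* K') x) = h63_ord q K x := by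
  unfold h63_ord
  rw [h63_rawOrd_algEquiv, h63_resDeg_algEquiv q e]

end equiv

end Fermat.Agent.S55
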