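import Fermat.Agent.S55.h63_LocBase

/-!
# S55 / LOC (helper63): tower lemmas for `f`, `e`; the base field `ℚ_[q]`; unramified towers.
-/

namespace Fermat.Agent.S55

variable (q : ℕ) [Fact q.Prime]

section self

theorem h63_rawOrd_self (x : ℚ_[q]ˣ) : h63_rawOrd q ℚ_[q] x = Padic.valuation (x : ℚ_[q]) := by
  simp [h63_rawOrd, Algebra.norm_self]

theorem h63_resDeg_self : h63_resDeg q ℚ_[q] = 1 := by
  unfold h63_resDeg
  have : (h63_rawOrdHom q ℚ_[q]).range = ⊤ := by
    rw [eq_top_iff]
    intro n _
    have hq0 : (q : ℚ_[q]) ≠ 0 := by exact_mod_cast (Fact.out : q.Prime).ne_zero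
    refine ⟨Additive.ofMul ((Units.mk0 _ hq0) ^ n), ?_⟩
    change h63_rawOrd q ℚ_[q] ((Units.mk0 _ hq0) ^ n) = n
    rw [h63_rawOrd_self]
    simp [Padic.valuation_zpow]
  rw [this]
  simp

theorem h63_ord_self (x : ℚ_[q]ˣ) : h63_ord q ℚ_[q] x = Padic.valuation (x : ℚ_[q]) := by
  unfold h63_ord
  rw [h63_resDeg_self, h63_rawOrd_self]
  simp

theorem h63_resCard_self : h63_resCard q ℚ_[q] = q := by
  simp [h63_resCard, h63_resDeg_self]

theorem h63_ramIdx_self : h63_ramIdx q ℚ_[q] = 1 := by
  simp [h63_ramIdx, h63_resDeg_self]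

end self

section base

set_option linter.unusedSectionVars false

variable (K : Type*) [Field K] [Algebra ℚ_[q] K] [FiniteDimensional ℚ_[q] K]

theorem h63_relResDeg_base : h63_relResDeg q ℚ_[q] K = h63_resDeg q K := by
  simp [h63_relResDeg, h63_resDeg_self]

theorem h63_relRamIdx_base : h63_relRamIdx q ℚ_[q] K = h63_ramIdx q K := by
  simp [h63_relRamIdx, h63_ramIdx_self]

theorem h63_relResDeg_self : h63_relResDeg q K K = 1 := by
  unfold h63_relResDeg
  exact Nat.div_self (h63_resDeg_pos q K)

end base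

section tower

set_option linter.unusedSectionVars false

variable (K L M : Type*) [Field K] [Field L] [Field M] [Algebra ℚ_[q] K] [Algebra ℚ_[q] L]
  [Algebra ℚ_[q] M] [Algebra K L] [Algebra L M] [Algebra K M] [IsScalarTower ℚ_[q] K L]
  [IsScalarTower ℚ_[q] L M] [IsScalarTower ℚ_[q] K M] [IsScalarTower K L M]
  [FiniteDimensional ℚ_[q] M]

omit [Algebra K M] [IsScalarTower ℚ_[q] K M] [IsScalarTower K L M] in
theorem h63_relResDeg_pos : 0 < h63_relResDeg q L M := by
  have : FiniteDimensional ℚ_[q] L := FiniteDimensional.left ℚ_[q] L M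
  have h4 := h63_relResDeg_mul q L M
  have hfL := h63_resDeg_pos q M
  rcases Nat.eq_zero_or_pos (h63_relResDeg q L M) with h0 | h0
  · rw [h0, zero_mul] at h4; omega
  · exact h0

/-- `f(M/K) = f(L/K) · f(M/L)`. -/
theorem h63_relResDeg_tower :
    h63_relResDeg q K M = h63_relResDeg q K L * h63_relResDeg q L M := by
  have hL : FiniteDimensional ℚ_[q] L := FiniteDimensional.left ℚ_[q] L M
  have hK : FiniteDimensional ℚ_[q] K := FiniteDimensional.left ℚ_[q] K M
  have h1 := h63_relResDeg_mul q K M
  have h2 := h63_relResDeg_mul q L M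
  have h3 := h63_relResDeg_mul q K L
  have hpos := h63_resDeg_pos q K
  have : h63_relResDeg q K M * h63_resDeg q K
      = (h63_relResDeg q K L * h63_relResDeg q L M) * h63_resDeg q K := by
    rw [h1, ← h2, ← h3]; ring
  exact Nat.eq_of_mul_eq_mul_right hpos this

/-- `Q_M = Q_L ^ f(M/L)`. -/
theorem h63_resCard_eq_pow : h63_resCard q M = h63_resCard q L ^ h63_relResDeg q L M := by
  have hL : FiniteDimensional ℚ_[q] L := FiniteDimensional.left ℚ_[q] L M
  unfold h63_resCard
  rw [← pow_mul, mul_comm, h63_relResDeg_mul]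

/-- A subextension and a quotient of an unramified extension are unramified. -/
theorem h63_unram_of_tower (h : h63_relResDeg q K M = Module.finrank K M) :
    h63_relResDeg q K L = Module.finrank K L ∧ h63_relResDeg q L M = Module.finrank L M := by
  have hL : FiniteDimensional ℚ_[q] L := FiniteDimensional.left ℚ_[q] L M
  have hK : FiniteDimensional ℚ_[q] K := FiniteDimensional.left ℚ_[q] K M
  have hKL : FiniteDimensional K L := FiniteDimensional.right ℚ_[q] K L
  have hLM : FiniteDimensional L M := FiniteDimensional.right ℚ_[q] L M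
  have ht := h63_relResDeg_tower q K L M
  have hd := Module.finrank_mul_finrank K L M
  have h1 := Nat.le_of_dvd Module.finrank_pos (h63_relResDeg_dvd_finrank q K L)
  have h2 := Nat.le_of_dvd Module.finrank_pos (h63_relResDeg_dvd_finrank q L M)
  have hp1 := h63_relResDeg_pos q K L
  have hp2 := h63_relResDeg_pos q L M
  rw [ht, ← hd] at h
  constructor
  · by_contra hne
    have hlt : h63_relResDeg q K L < Module.finrank K L := lt_of_le_of_ne h1 hne
    have := Nat.mul_lt_mul_of_lt_of_le hlt h2 (Module.finrank_pos (R := L) (M := M))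
    omega
  · by_contra hne
    have hlt : h63_relResDeg q L M < Module.finrank L M := lt_of_le_of_ne h2 hne
    have := Nat.mul_lt_mul_of_le_of_lt h1 hlt (Module.finrank_pos (R := K) (M := L))
    omega

end tower

end Fermat.Agent.S55
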