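import Mathlib
import Fermat.Agent.S55.h63_LocOrd
import Fermat.Agent.S55.h63_LocBase
import Fermat.Agent.S55.h63_LocTower

set_option autoImplicit false

/-!
# S55, LOC-UNR-6: subfields of `ℚ_q(μ_{p^k})`, `q ≠ p` (helper24)

A subfield `B` of a `p^k`-cyclotomic extension `E` of `ℚ_q` (`q ≠ p`) is Galois over `ℚ_q` with
cyclic group, unramified, and its norm group is `{x | [B : ℚ_q] ∣ v_q x}`.

`h24_cycQ_layer_of` proves this from the two local inputs that are separate rows of the local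
layer, instantiated at `ℚ_q`:

* (LOC-UNR-2) `E / ℚ_q` is unramified and its Galois group is generated by one element;
* (LOC-UNR-5) the norm group of an unramified cyclic extension `B / ℚ_q`.
-/

namespace Fermat.Agent.S55

variable (q : ℕ) [Fact q.Prime]

/-- A subextension of an extension with cyclic Galois group has cyclic Galois group. -/
theorem h24_isCyclic_tower_bot (K B E : Type*) [Field K] [Field B] [Field E] [Algebra K B]
    [Algebra K E] [Algebra B E] [IsScalarTower K B E] [Normal K B] [Normal K E]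
    (h : ∃ φ : E ≃ₐ[K] E, ∀ σ : E ≃ₐ[K] E, σ ∈ Subgroup.zpowers φ) :
    IsCyclic (B ≃ₐ[K] B) := by
  have : IsCyclic (E ≃ₐ[K] E) := ⟨h⟩
  exact isCyclic_of_surjective (AlgEquiv.restrictNormalHom (F := K) (K₁ := E) B)
    (AlgEquiv.restrictNormalHom_surjective E)

/-- **LOC-UNR-6**, from LOC-UNR-2 for `E / ℚ_q` and LOC-UNR-5 for `B / ℚ_q`. -/
theorem h24_cycQ_layer_of (p : ℕ) [Fact p.Prime] (k : ℕ) (E : Type*) [Field E]
    [Algebra ℚ_[q] E] [IsCyclotomicExtension {p ^ k} ℚ_[q] E] (B : Type*) [Field B]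
    [Algebra ℚ_[q] B] [Algebra B E] [IsScalarTower ℚ_[q] B E]
    (hunrE : h63_relResDeg q ℚ_[q] E = Module.finrank ℚ_[q] E)
    (hcycE : ∃ φ : E ≃ₐ[ℚ_[q]] E, ∀ σ : E ≃ₐ[ℚ_[q]] E, σ ∈ Subgroup.zpowers φ)
    (hnorm : ∀ [IsGalois ℚ_[q] B] [IsCyclic (B ≃ₐ[ℚ_[q]] B)],
      h63_relResDeg q ℚ_[q] B = Module.finrank ℚ_[q] B → ∀ x : ℚ_[q]ˣ,
        x ∈ (Units.map (Algebra.norm ℚ_[q] : B →* ℚ_[q])).range ↔
          (Module.finrank ℚ_[q] B : ℤ) ∣ h63_ord q ℚ_[q] x) :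
    IsGalois ℚ_[q] B ∧ IsCyclic (B ≃ₐ[ℚ_[q]] B) ∧
      h63_resDeg q B = Module.finrank ℚ_[q] B ∧
      ∀ x : ℚ_[q]ˣ, x ∈ (Units.map (Algebra.norm ℚ_[q] : B →* ℚ_[q])).range ↔
        (Module.finrank ℚ_[q] B : ℤ) ∣ Padic.valuation (x : ℚ_[q]) := by
  have hp : p.Prime := Fact.out
  have : NeZero (p ^ k) := ⟨pow_ne_zero _ hp.ne_zero⟩
  have : FiniteDimensional ℚ_[q] E := IsCyclotomicExtension.finiteDimensional {p ^ k} ℚ_[q] E
  have hab : IsAbelianGalois ℚ_[q] E := IsCyclotomicExtension.isAbelianGalois {p ^ k} ℚ_[q] E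
  have habB : IsAbelianGalois ℚ_[q] B := IsAbelianGalois.tower_bot ℚ_[q] B E
  have hgalB : IsGalois ℚ_[q] B := habB.toIsGalois
  have hgalE : IsGalois ℚ_[q] E := hab.toIsGalois
  have hcycB : IsCyclic (B ≃ₐ[ℚ_[q]] B) := h24_isCyclic_tower_bot ℚ_[q] B E hcycE
  have : FiniteDimensional ℚ_[q] B := FiniteDimensional.left ℚ_[q] B E
  have hunrB : h63_relResDeg q ℚ_[q] B = Module.finrank ℚ_[q] B :=
    (h63_unram_of_tower q ℚ_[q] B E hunrE).1
  refine ⟨hgalB, hcycB, ?_, fun x => ?_⟩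
  · rw [← h63_relResDeg_base q B]
    exact hunrB
  · rw [hnorm hunrB x, h63_ord_self]

end Fermat.Agent.S55
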