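import Fermat.Agent.S55.h63_LocUnrNorm
import Fermat.Agent.S55.h57_LocalNormIndex

/-!
# S55 / LOC-UNR-5 (helper63), unconditional form: the norm group of an unramified cyclic
extension `L/K` of finite extensions of `ℚ_q` is `{x | [L:K] ∣ ord x}`.
-/

namespace Fermat.Agent.S55

/-- LOC-UNR-5: for an unramified cyclic extension, `x` is a norm iff `[L:K] ∣ ord_K x`. -/
theorem h63_unr_norm_range (q : ℕ) [Fact q.Prime] (K L : Type*) [Field K] [Field L]
    [Algebra ℚ_[q] K] [Algebra ℚ_[q] L] [Algebra K L] [IsScalarTower ℚ_[q] K L]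
    [FiniteDimensional ℚ_[q] L] [IsGalois K L] [IsCyclic (L ≃ₐ[K] L)]
    (hunr : h63_relResDeg q K L = Module.finrank K L) (x : Kˣ) :
    x ∈ (Units.map (Algebra.norm K : L →* K)).range ↔
      (Module.finrank K L : ℤ) ∣ h63_ord q K x :=
  h63_unr_norm_range_of_index q K L hunr (h57_local_norm_index q K L) x

/-- Units (`ord = 0`) are norms from an unramified cyclic extension. -/
theorem h63_unr_unit_mem_norm_range (q : ℕ) [Fact q.Prime] (K L : Type*) [Field K] [Field L]
    [Algebra ℚ_[q] K] [Algebra ℚ_[q] L] [Algebra K L] [IsScalarTower ℚ_[q] K L]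
    [FiniteDimensional ℚ_[q] L] [IsGalois K L] [IsCyclic (L ≃ₐ[K] L)]
    (hunr : h63_relResDeg q K L = Module.finrank K L) (x : Kˣ) (hx : h63_ord q K x = 0) :
    x ∈ (Units.map (Algebra.norm K : L →* K)).range := by
  rw [h63_unr_norm_range q K L hunr, hx]
  exact dvd_zero _

end Fermat.Agent.S55
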