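import Fermat.Agent.S55.h63_LocBase

/-!
# S55 / LOC-RES (helper69): the residue field of `h63_O q K` has `q ^ f(K/ℚ_q)` elements

`h63_O q K` is the integral closure of `ℤ_[q]` in `K`, hence a free `ℤ_[q]`-module of rank
`n = [K:ℚ_q]` and a Dedekind domain; `|O/qO| = q^n`, `qO = 𝔪^e` with `e = h63_ramIdx q K`,
`|O/𝔪^e| = |O/𝔪|^e` and `e · f = n`.
-/

namespace Fermat.Agent.S55

open Polynomial

variable (q : ℕ) [Fact q.Prime]

section resfield

set_option linter.unusedSectionVars false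

variable (K : Type*) [Field K] [Algebra ℚ_[q] K] [FiniteDimensional ℚ_[q] K]

/-- the `ℤ_[q]`-algebra structure on `K` (local use only). -/
@[reducible] noncomputable def h69_algK : Algebra ℤ_[q] K :=
  ((algebraMap ℚ_[q] K).comp (algebraMap ℤ_[q] ℚ_[q])).toAlgebra

attribute [local instance] h69_algK

theorem h69_algebraMap_K (a : ℤ_[q]) :
    algebraMap ℤ_[q] K a = algebraMap ℚ_[q] K (a : ℚ_[q]) := rfl

local instance h69_towerK : IsScalarTower ℤ_[q] ℚ_[q] K :=
  IsScalarTower.of_algebraMap_eq (fun _ => rfl)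

theorem h69_algebraMap_mem_O (a : ℤ_[q]) : algebraMap ℤ_[q] K a ∈ h63_O q K := by
  change spectralNorm ℚ_[q] K (algebraMap ℚ_[q] K (a : ℚ_[q])) ≤ 1
  rw [spectralNorm_extends]
  exact a.2

/-- the `ℤ_[q]`-algebra structure on `O_K` (local use only). -/
@[reducible] noncomputable def h69_algO : Algebra ℤ_[q] (h63_O q K) :=
  ((algebraMap ℤ_[q] K).codRestrict (h63_O q K).toSubring (h69_algebraMap_mem_O q K)).toAlgebra

attribute [local instance] h69_algO

local instance h69_towerO : IsScalarTower ℤ_[q] (h63_O q K) K :=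
  IsScalarTower.of_algebraMap_eq (fun _ => rfl)

variable {K} in
/-- integral elements have spectral norm `≤ 1`. -/
theorem h69_spectralNorm_le_one_of_isIntegral {x : K} (hx : IsIntegral ℤ_[q] x) :
    spectralNorm ℚ_[q] K x ≤ 1 := by
  have h1 : minpoly ℚ_[q] x = (minpoly ℤ_[q] x).map (algebraMap ℤ_[q] ℚ_[q]) :=
    minpoly.isIntegrallyClosed_eq_field_fractions' ℚ_[q] hx
  unfold spectralNorm
  rw [spectralValue_le_one_iff (minpoly.monic (Algebra.IsIntegral.isIntegral x)), h1]
  intro n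
  rw [coeff_map]
  exact ((minpoly ℤ_[q] x).coeff n).2

variable {K} in
/-- elements of spectral norm `≤ 1` are integral over `ℤ_[q]`. -/
theorem h69_isIntegral_of_spectralNorm_le_one {x : K} (hx : spectralNorm ℚ_[q] K x ≤ 1) :
    IsIntegral ℤ_[q] x := by
  have hint : IsIntegral ℚ_[q] x := Algebra.IsIntegral.isIntegral x
  have hmon := minpoly.monic hint
  unfold spectralNorm at hx
  rw [spectralValue_le_one_iff hmon] at hx
  -- lift the minimal polynomial to `ℤ_[q][X]`
  have hlift : minpoly ℚ_[q] x ∈ Polynomial.lifts (algebraMap ℤ_[q] ℚ_[q]) := by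
    rw [Polynomial.lifts_iff_coeff_lifts]
    intro n
    exact ⟨⟨(minpoly ℚ_[q] x).coeff n, hx n⟩, rfl⟩
  obtain ⟨P, hP, -, hPmon⟩ := Polynomial.lifts_and_degree_eq_and_monic hlift hmon
  refine ⟨P, hPmon, ?_⟩
  have h2 : Polynomial.aeval x (P.map (algebraMap ℤ_[q] ℚ_[q])) = 0 := by
    rw [hP]; exact minpoly.aeval _ _
  rw [Polynomial.aeval_map_algebraMap] at h2
  exact h2

/-- `O_K` is the integral closure of `ℤ_[q]` in `K`. -/
theorem h69_isIntegralClosure : IsIntegralClosure (h63_O q K) ℤ_[q] K where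
  algebraMap_injective := Subtype.val_injective
  isIntegral_iff := by
    intro x
    constructor
    · intro hx
      exact ⟨⟨x, h69_spectralNorm_le_one_of_isIntegral q hx⟩, rfl⟩
    · rintro ⟨y, rfl⟩
      exact h69_isIntegral_of_spectralNorm_le_one q y.2

/-- `|O_K / q O_K| = q ^ [K:ℚ_q]`. -/
theorem h69_cardQuot_span_q :
    Submodule.cardQuot (Ideal.span {(q : h63_O q K)}) = q ^ Module.finrank ℚ_[q] K := by
  have := h69_isIntegralClosure q K
  have : Module.IsTorsionFree ℤ_[q] K := .trans_faithfulSMul ℤ_[q] ℚ_[q] K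
  have : Module.Free ℤ_[q] (h63_O q K) := IsIntegralClosure.module_free ℤ_[q] ℚ_[q] K (h63_O q K)
  have : Module.Finite ℤ_[q] (h63_O q K) := IsIntegralClosure.finite ℤ_[q] ℚ_[q] K (h63_O q K)
  have hrank : Module.finrank ℤ_[q] (h63_O q K) = Module.finrank ℚ_[q] K :=
    IsIntegralClosure.rank ℤ_[q] ℚ_[q] K (h63_O q K)
  let b := Module.finBasis ℤ_[q] (h63_O q K)
  let φ : (h63_O q K) →+ (Fin (Module.finrank ℤ_[q] (h63_O q K)) → ZMod q) :=
    ((PadicInt.toZMod (p := q)).toAddMonoidHom.compLeft _).comp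
      (b.equivFun : (h63_O q K) →ₗ[ℤ_[q]] _).toAddMonoidHom
  have hφ : ∀ x i, φ x i = PadicInt.toZMod (b.equivFun x i) := fun x i => rfl
  have hsurj : Function.Surjective φ := by
    intro y
    have h1 : ∀ i, ∃ c : ℤ_[q], PadicInt.toZMod c = y i :=
      fun i => ZMod.ringHom_surjective PadicInt.toZMod (y i)
    choose c hc using h1
    refine ⟨b.equivFun.symm c, ?_⟩
    funext i
    rw [hφ, LinearEquiv.apply_symm_apply, hc]
  have hqO : ((q : ℤ_[q]) : ℤ_[q]) • (1 : h63_O q K) = (q : h63_O q K) := by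
    rw [Algebra.smul_def, mul_one, map_natCast]
  have hker : φ.ker = (Ideal.span {(q : h63_O q K)}).toAddSubgroup := by
    ext x
    rw [AddMonoidHom.mem_ker, Submodule.mem_toAddSubgroup, Ideal.mem_span_singleton']
    constructor
    · intro hx
      have h1 : ∀ i, ∃ c : ℤ_[q], b.equivFun x i = (q : ℤ_[q]) * c := by
        intro i
        have h2 : PadicInt.toZMod (b.equivFun x i) = 0 := by
          rw [← hφ, hx]; rfl
        have h3 : b.equivFun x i ∈ IsLocalRing.maximalIdeal ℤ_[q] := by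
          rw [← PadicInt.ker_toZMod]; exact h2
        rw [PadicInt.maximalIdeal_eq_span_p, Ideal.mem_span_singleton'] at h3
        obtain ⟨c, hc⟩ := h3
        exact ⟨c, by rw [← hc, mul_comm]⟩
      choose c hc using h1
      refine ⟨b.equivFun.symm c, ?_⟩
      apply b.equivFun.injective
      have h4 : b.equivFun.symm c * (q : h63_O q K) = (q : ℤ_[q]) • b.equivFun.symm c := by
        rw [Algebra.smul_def, map_natCast, mul_comm]
      rw [h4, map_smul, LinearEquiv.apply_symm_apply]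
      funext i
      rw [Pi.smul_apply, smul_eq_mul, hc]
    · rintro ⟨y, rfl⟩
      funext i
      have h4 : y * (q : h63_O q K) = (q : ℤ_[q]) • y := by
        rw [Algebra.smul_def, map_natCast, mul_comm]
      rw [hφ, h4, map_smul, Pi.smul_apply, smul_eq_mul, map_mul, map_natCast]
      simp
  rw [Submodule.cardQuot, ← hker, AddSubgroup.index_ker, AddMonoidHom.range_eq_top.mpr hsurj]
  rw [Nat.card_congr (AddSubgroup.topEquiv (G := Fin (Module.finrank ℤ_[q] (h63_O q K)) → ZMod q)).toEquiv]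
  rw [Nat.card_fun, Nat.card_fin, Nat.card_zmod, hrank]

variable {K} in
/-- the maximal ideal of `O_K` is generated by any element of order `1`. -/
theorem h69_maximalIdeal_eq_span (π : Kˣ) (hπ : h63_ord q K π = 1)
    (hπO : (π : K) ∈ h63_O q K) :
    IsLocalRing.maximalIdeal (h63_O q K) = Ideal.span {(⟨(π : K), hπO⟩ : h63_O q K)} := by
  ext x
  rw [Ideal.mem_span_singleton']
  constructor
  · intro hx
    by_cases hx0 : x = 0
    · exact ⟨0, by rw [hx0, zero_mul]⟩
    have hxK : (x : K) ≠ 0 := fun h => hx0 (Subtype.ext h)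
    have hnon : (x : K) ∈ (h63_O q K).nonunits :=
      (ValuationSubring.mem_nonunits_iff_exists_mem_maximalIdeal).2 ⟨x.2, hx⟩
    have hpos : 0 < h63_ord q K (Units.mk0 (x : K) hxK) := by
      have := (h63_mem_nonunits_iff q (Units.mk0 (x : K) hxK)).1
      exact this (by simpa using hnon)
    have hy : ((Units.mk0 (x : K) hxK * π⁻¹ : Kˣ) : K) ∈ h63_O q K := by
      rw [h63_mem_O_iff, h63_ord_mul, h63_ord_inv, hπ]; omega
    refine ⟨⟨_, hy⟩, ?_⟩
    apply Subtype.ext
    change ((Units.mk0 (x : K) hxK * π⁻¹ : Kˣ) : K) * (π : K) = (x : K)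
    rw [← Units.val_mul, inv_mul_cancel_right, Units.val_mk0]
  · rintro ⟨y, rfl⟩
    refine Ideal.mul_mem_left _ _ ?_
    have hnon : (π : K) ∈ (h63_O q K).nonunits := by
      rw [h63_mem_nonunits_iff, hπ]; exact one_pos
    obtain ⟨h1, h2⟩ := (ValuationSubring.mem_nonunits_iff_exists_mem_maximalIdeal).1 hnon
    exact h2

/-- `q O_K = 𝔪 ^ e`. -/
theorem h69_span_q_eq_pow :
    Ideal.span {(q : h63_O q K)} = IsLocalRing.maximalIdeal (h63_O q K) ^ h63_ramIdx q K := by
  obtain ⟨π, hπ⟩ := h63_exists_ord_eq_one q K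
  have hπO : (π : K) ∈ h63_O q K := by rw [h63_mem_O_iff, hπ]; exact zero_le_one
  rw [h69_maximalIdeal_eq_span q π hπ hπO, Ideal.span_singleton_pow]
  have hq0 : (q : ℚ_[q]) ≠ 0 := by exact_mod_cast (Fact.out : q.Prime).ne_zero
  set Q : Kˣ := Units.map (algebraMap ℚ_[q] K).toMonoidHom (Units.mk0 _ hq0) with hQ
  have hQval : (Q : K) = (q : K) := by simp [hQ]
  have hordQ : h63_ord q K Q = h63_ramIdx q K := by
    rw [hQ, h63_ord_algebraMap]
    simp
  -- the unit `u = q / π ^ e`
  set u : Kˣ := Q * (π ^ h63_ramIdx q K)⁻¹ with hu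
  have hordu : h63_ord q K u = 0 := by
    rw [hu, h63_ord_mul, h63_ord_inv, h63_ord_pow, hordQ, hπ]; ring
  have huO : (u : K) ∈ h63_O q K := by rw [h63_mem_O_iff, hordu]
  have huO' : ((u⁻¹ : Kˣ) : K) ∈ h63_O q K := by rw [h63_mem_O_iff, h63_ord_inv, hordu]; simp
  have hunit : IsUnit (⟨(u : K), huO⟩ : h63_O q K) := by
    refine ⟨⟨⟨(u : K), huO⟩, ⟨((u⁻¹ : Kˣ) : K), huO'⟩, ?_, ?_⟩, rfl⟩
    · ext; simp
    · ext; simp
  have hqeq : (q : h63_O q K) = (⟨(π : K), hπO⟩ : h63_O q K) ^ h63_ramIdx q K * ⟨(u : K), huO⟩ := by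
    apply Subtype.ext
    push_cast
    change (q : K) = (π : K) ^ h63_ramIdx q K * (u : K)
    rw [hu, Units.val_mul, hQval, Units.val_inv_eq_inv_val, Units.val_pow_eq_pow_val]
    field_simp
  rw [hqeq]
  exact Ideal.span_singleton_mul_right_unit hunit _

/-- `O_K` is a Dedekind domain. -/
theorem h69_isDedekindDomain : IsDedekindDomain (h63_O q K) := by
  have hIC := h69_isIntegralClosure q K
  exact IsIntegralClosure.isDedekindDomain ℤ_[q] ℚ_[q] K (h63_O q K)

/-- the maximal ideal of `O_K` is nonzero. -/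
theorem h69_maximalIdeal_ne_bot : IsLocalRing.maximalIdeal (h63_O q K) ≠ ⊥ := by
  obtain ⟨π, hπ⟩ := h63_exists_ord_eq_one q K
  have hπO : (π : K) ∈ h63_O q K := by rw [h63_mem_O_iff, hπ]; exact zero_le_one
  rw [h69_maximalIdeal_eq_span q π hπ hπO]
  intro h
  rw [Ideal.span_singleton_eq_bot] at h
  exact π.ne_zero (congrArg Subtype.val h)

/-- **LOC-RES**: the residue field of `O_K` has `q ^ f(K/ℚ_q)` elements. -/
theorem h69_resField_card :
    Nat.card (IsLocalRing.ResidueField (h63_O q K)) = h63_resCard q K := by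
  have hDed : IsDedekindDomain (h63_O q K) := h69_isDedekindDomain q K
  have hne := h69_maximalIdeal_ne_bot q K
  have h1 := h69_cardQuot_span_q q K
  rw [h69_span_q_eq_pow, cardQuot_pow_of_prime hne, ← h63_ramIdx_mul_resDeg q K,
    mul_comm, pow_mul] at h1
  have h2 : Submodule.cardQuot (IsLocalRing.maximalIdeal (h63_O q K)) = q ^ h63_resDeg q K :=
    Nat.pow_left_injective (h63_ramIdx_pos q K).ne' h1
  exact h2

/-- `|O_K / 𝔪^k| = Q_K ^ k`. -/
theorem h69_cardQuot_maximalIdeal_pow (k : ℕ) :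
    Nat.card (h63_O q K ⧸ IsLocalRing.maximalIdeal (h63_O q K) ^ k) = h63_resCard q K ^ k := by
  have hDed : IsDedekindDomain (h63_O q K) := h69_isDedekindDomain q K
  have h := cardQuot_pow_of_prime (P := IsLocalRing.maximalIdeal (h63_O q K))
    (h69_maximalIdeal_ne_bot q K) (i := k)
  rw [Submodule.cardQuot_apply, Submodule.cardQuot_apply] at h
  rw [h]
  congr 1
  exact h69_resField_card q K

/-- the residue field of `O_K` is finite. -/
theorem h69_resField_finite : Finite (IsLocalRing.ResidueField (h63_O q K)) := by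
  apply Nat.finite_of_card_ne_zero
  rw [h69_resField_card]
  exact pow_ne_zero _ (Fact.out : q.Prime).ne_zero

/-- units of `O_K` are `(Q_K - 1)`-th roots of unity modulo the maximal ideal. -/
theorem h69_pow_resCard_sub_one (x : K) (hx : x ∈ h63_O q K) (hxu : x ∉ (h63_O q K).nonunits) :
    x ^ (h63_resCard q K - 1) - 1 ∈ (h63_O q K).nonunits := by
  have hfin := h69_resField_finite q K
  rw [ValuationSubring.mem_nonunits_iff_exists_mem_maximalIdeal]
  have hmem : x ^ (h63_resCard q K - 1) - 1 ∈ h63_O q K :=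
    sub_mem (pow_mem hx _) (one_mem _)
  refine ⟨hmem, ?_⟩
  have hres : IsLocalRing.residue (h63_O q K) ⟨x, hx⟩ ≠ 0 := by
    intro h0
    apply hxu
    rw [ValuationSubring.mem_nonunits_iff_exists_mem_maximalIdeal]
    exact ⟨hx, (IsLocalRing.residue_eq_zero_iff _).1 h0⟩
  have hpow : (Units.mk0 _ hres) ^ (h63_resCard q K - 1) = 1 := by
    have hc : Nat.card (IsLocalRing.ResidueField (h63_O q K))ˣ = h63_resCard q K - 1 := by
      rw [Nat.card_units, h69_resField_card]
    rw [← hc]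
    exact pow_card_eq_one'
  have hpow' : (IsLocalRing.residue (h63_O q K) ⟨x, hx⟩) ^ (h63_resCard q K - 1) = 1 := by
    have := congrArg Units.val hpow
    simpa using this
  rw [← IsLocalRing.residue_eq_zero_iff]
  have hsub : (⟨x ^ (h63_resCard q K - 1) - 1, hmem⟩ : h63_O q K)
      = (⟨x, hx⟩ : h63_O q K) ^ (h63_resCard q K - 1) - 1 := by
    apply Subtype.ext
    simp
  rw [hsub, map_sub, map_pow, hpow', map_one, sub_self]

end resfield

end Fermat.Agent.S55
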