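import Fermat.Agent.S55.h63_LocBase
import Fermat.Agent.S55.h69_LocRes
import Fermat.Agent.S55.h6_LocTeich

/-!
# S55 / LOC-UNR-2 (helper66): prime-to-`q` cyclotomic extensions of finite extensions of `ℚ_q`

For `K ⊆ L` finite over `ℚ_[q]` with `L = K(μ_m)`, `m` prime to `q`:
`[L:K] = f(L/K) = ` order of `Q_K` modulo `m`, `Gal(L/K)` is cyclic, generated by the
Frobenius `ζ ↦ ζ ^ Q_K`.

`h66_cyc_core` is conditional on the statements of the rows LOC-RES (residue field cardinality,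
for `K` and `L`) and LOC-UNR-1 (a) (`ζ - 1` is a unit for a prime-to-`q` root of unity `ζ ≠ 1`),
taken as explicit hypotheses; the exports `h66_cyc_finrank`, `h66_cyc_unram`, `h66_cyc_frob`
are unconditional (they use `h69_resField_card` and `h6_root_sub_one`).
-/

set_option autoImplicit false
set_option linter.style.haveILetI false

namespace Fermat.Agent.S55

open Polynomial

section gen

variable {F : Type*} [Field F] (A : ValuationSubring F)

/-- roots of unity lie in every valuation subring. -/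
theorem h66_root_mem (x : F) (n : ℕ) (hn : n ≠ 0) (hx : x ^ n = 1) : x ∈ A := by
  rcases A.mem_or_inv_mem x with h | h
  · exact h
  · have h2 : x ^ (n - 1) * x = 1 := by
      rw [← pow_succ, Nat.sub_add_cancel (Nat.pos_of_ne_zero hn), hx]
    have h1 : x = x⁻¹ ^ (n - 1) := by
      rw [inv_pow]
      exact eq_inv_of_mul_eq_one_right h2
    rw [h1]
    exact pow_mem h _

/-- equality of residues in terms of the nonunits. -/
theorem h66_residue_eq_iff (a b : A) :
    IsLocalRing.residue A a = IsLocalRing.residue A b ↔ ((a : F) - (b : F)) ∈ A.nonunits := by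
  rw [← sub_eq_zero, ← map_sub, IsLocalRing.residue_eq_zero_iff,
    ValuationSubring.mem_nonunits_iff_exists_mem_maximalIdeal]
  constructor
  · intro h
    exact ⟨(a - b).2, h⟩
  · rintro ⟨_, h2⟩
    exact h2

end gen

variable (q : ℕ) [Fact q.Prime]

section core

set_option linter.unusedSectionVars false

variable (K L : Type*) [Field K] [Field L] [Algebra ℚ_[q] K] [Algebra ℚ_[q] L] [Algebra K L]
  [IsScalarTower ℚ_[q] K L] [FiniteDimensional ℚ_[q] K] [FiniteDimensional ℚ_[q] L]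

/-- `x ∈ O_K ↔ x ∈ O_L`. -/
theorem h66_mem_O_map (x : K) : algebraMap K L x ∈ h63_O q L ↔ x ∈ h63_O q K := by
  rw [h63_mem_O_iff_spectralNorm, h63_mem_O_iff_spectralNorm,
    spectralNorm.eq_of_tower (K := ℚ_[q]) (L := L) x]

theorem h66_map_mem_nonunits (x : K) (hx : x ∈ (h63_O q K).nonunits) :
    algebraMap K L x ∈ (h63_O q L).nonunits := by
  rw [ValuationSubring.mem_nonunits_iff_or] at hx ⊢
  rcases hx with rfl | hx
  · left; simp
  · right
    rw [← map_inv₀, h66_mem_O_map]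
    exact hx

/-- the inclusion `O_K → O_L`. -/
noncomputable def h66_incl : h63_O q K →+* h63_O q L :=
  (algebraMap K L).restrict (h63_O q K) (h63_O q L) (fun x hx => (h66_mem_O_map q K L x).2 hx)

theorem h66_incl_coe (x : h63_O q K) :
    ((h66_incl q K L x : h63_O q L) : L) = algebraMap K L (x : K) := rfl

theorem h66_incl_mem_maximalIdeal (a : h63_O q K)
    (ha : a ∈ IsLocalRing.maximalIdeal (h63_O q K)) :
    h66_incl q K L a ∈ IsLocalRing.maximalIdeal (h63_O q L) := by
  have h1 : (a : K) ∈ (h63_O q K).nonunits :=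
    ValuationSubring.mem_nonunits_iff_exists_mem_maximalIdeal.2 ⟨a.2, ha⟩
  have h2 := h66_map_mem_nonunits q K L _ h1
  obtain ⟨_, h4⟩ := ValuationSubring.mem_nonunits_iff_exists_mem_maximalIdeal.1 h2
  exact h4

/-- the induced map of residue fields. -/
noncomputable def h66_resMap :
    IsLocalRing.ResidueField (h63_O q K) →+* IsLocalRing.ResidueField (h63_O q L) :=
  Ideal.Quotient.lift _ ((IsLocalRing.residue (h63_O q L)).comp (h66_incl q K L)) (by
    intro a ha
    rw [RingHom.comp_apply, IsLocalRing.residue_eq_zero_iff]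
    exact h66_incl_mem_maximalIdeal q K L a ha)

theorem h66_resMap_residue (x : h63_O q K) :
    h66_resMap q K L (IsLocalRing.residue _ x) = IsLocalRing.residue _ (h66_incl q K L x) :=
  rfl

theorem h66_aut_mem_O (σ : L ≃ₐ[K] L) (x : L) : σ x ∈ h63_O q L ↔ x ∈ h63_O q L :=
  h63_mem_O_algEquiv q (σ.restrictScalars ℚ_[q]) x

/-- the automorphism of `O_L` induced by `σ ∈ Gal(L/K)`. -/
noncomputable def h66_autO (σ : L ≃ₐ[K] L) : h63_O q L →+* h63_O q L :=
  (σ : L →+* L).restrict (h63_O q L) (h63_O q L) (fun x hx => (h66_aut_mem_O q K L σ x).2 hx)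

theorem h66_autO_coe (σ : L ≃ₐ[K] L) (x : h63_O q L) :
    ((h66_autO q K L σ x : h63_O q L) : L) = σ (x : L) := rfl

theorem h66_autO_mem_maximalIdeal (σ : L ≃ₐ[K] L) (x : h63_O q L)
    (hx : x ∈ IsLocalRing.maximalIdeal (h63_O q L)) :
    h66_autO q K L σ x ∈ IsLocalRing.maximalIdeal (h63_O q L) := by
  have h1 : (x : L) ∈ (h63_O q L).nonunits :=
    ValuationSubring.mem_nonunits_iff_exists_mem_maximalIdeal.2 ⟨x.2, hx⟩
  have h2 : σ (x : L) ∈ (h63_O q L).nonunits := by
    rw [ValuationSubring.mem_nonunits_iff_or] at h1 ⊢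
    rcases h1 with h1 | h1
    · left; rw [h1, map_zero]
    · right; rw [← map_inv₀, h66_aut_mem_O]; exact h1
  obtain ⟨_, h4⟩ := ValuationSubring.mem_nonunits_iff_exists_mem_maximalIdeal.1 h2
  exact h4

theorem h66_autO_comp_incl (σ : L ≃ₐ[K] L) :
    (h66_autO q K L σ).comp (h66_incl q K L) = h66_incl q K L := by
  ext x
  change σ (algebraMap K L (x : K)) = algebraMap K L (x : K)
  exact σ.commutes _

/-- two `m`-th roots of unity with the same residue are equal. -/
theorem h66_root_inj (m : ℕ) (hm0 : m ≠ 0)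
    (hroot : ∀ ζ : L, ζ ^ m = 1 → ζ ≠ 1 → ζ - 1 ∉ (h63_O q L).nonunits)
    (a b : h63_O q L) (ha : (a : L) ^ m = 1) (hb : (b : L) ^ m = 1)
    (hab : IsLocalRing.residue (h63_O q L) a = IsLocalRing.residue (h63_O q L) b) : a = b := by
  by_contra hne
  have h2 : (b : L) ^ (m - 1) * (b : L) = 1 := by
    rw [← pow_succ, Nat.sub_add_cancel (Nat.pos_of_ne_zero hm0), hb]
  have h1 : (a : L) * (b : L) ^ (m - 1) ≠ 1 := by
    intro h
    apply hne
    have : (a : L) = (b : L) := by
      calc (a : L) = a * ((b : L) ^ (m - 1) * b) := by rw [h2, mul_one]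
        _ = (a * (b : L) ^ (m - 1)) * b := by ring
        _ = b := by rw [h, one_mul]
    exact Subtype.ext this
  have h3 : ((a : L) * (b : L) ^ (m - 1)) ^ m = 1 := by
    rw [mul_pow, ha, one_mul, ← pow_mul, mul_comm, pow_mul, hb, one_pow]
  apply hroot _ h3 h1
  have h5 : IsLocalRing.residue (h63_O q L) (a * b ^ (m - 1))
      = IsLocalRing.residue (h63_O q L) 1 := by
    rw [map_mul, hab, ← map_mul]
    congr 1
    apply Subtype.ext
    push_cast
    rw [mul_comm]
    exact h2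
  have h6 := (h66_residue_eq_iff (h63_O q L) _ _).1 h5
  simpa using h6

/-- elements of the residue field of `L` fixed by `x ↦ x ^ Q_K` come from `K`. -/
theorem h66_fixed_mem_range
    (hresK : Nat.card (IsLocalRing.ResidueField (h63_O q K)) = h63_resCard q K)
    (c : IsLocalRing.ResidueField (h63_O q L)) (hc : c ^ h63_resCard q K = c) :
    c ∈ Set.range (h66_resMap q K L) := by
  classical
  have hq : q.Prime := Fact.out
  have hQ1 : 1 < h63_resCard q K := Nat.one_lt_pow (h63_resDeg_pos q K).ne' hq.one_lt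
  have hfin : Finite (IsLocalRing.ResidueField (h63_O q K)) :=
    Nat.finite_of_card_ne_zero (by rw [hresK]; omega)
  letI : Fintype (IsLocalRing.ResidueField (h63_O q K)) := Fintype.ofFinite _
  have hcard : Fintype.card (IsLocalRing.ResidueField (h63_O q K)) = h63_resCard q K := by
    rw [← Nat.card_eq_fintype_card, hresK]
  obtain ⟨P, hP⟩ : ∃ P : (IsLocalRing.ResidueField (h63_O q L))[X],
      P = X ^ h63_resCard q K - X := ⟨_, rfl⟩
  have hP0 : P ≠ 0 := hP ▸ FiniteField.X_pow_card_sub_X_ne_zero _ hQ1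
  have hPdeg : P.natDegree = h63_resCard q K :=
    hP ▸ FiniteField.X_pow_card_sub_X_natDegree_eq _ hQ1
  have hmem : ∀ x : IsLocalRing.ResidueField (h63_O q L),
      x ∈ (↑P.roots.toFinset : Set (IsLocalRing.ResidueField (h63_O q L)))
        ↔ x ^ h63_resCard q K = x := by
    intro x
    rw [Finset.mem_coe, Multiset.mem_toFinset, mem_roots hP0, IsRoot.def, hP, eval_sub, eval_pow,
      eval_X, sub_eq_zero]
  have hsub : Set.range (h66_resMap q K L)
      ⊆ (↑P.roots.toFinset : Set (IsLocalRing.ResidueField (h63_O q L))) := by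
    rintro _ ⟨t, rfl⟩
    rw [hmem, ← map_pow, ← hcard, FiniteField.pow_card]
  have hncard : (Set.range (h66_resMap q K L)).ncard = h63_resCard q K := by
    rw [← Set.image_univ, Set.ncard_image_of_injective _ (h66_resMap q K L).injective,
      Set.ncard_univ, hresK]
  have hle : (↑P.roots.toFinset : Set (IsLocalRing.ResidueField (h63_O q L))).ncard
      ≤ (Set.range (h66_resMap q K L)).ncard := by
    rw [hncard, Set.ncard_coe_finset]
    calc P.roots.toFinset.card ≤ Multiset.card P.roots := Multiset.toFinset_card_le _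
      _ ≤ P.natDegree := card_roots' P
      _ = h63_resCard q K := hPdeg
  have heq := Set.eq_of_subset_of_ncard_le hsub hle (Finset.finite_toSet _)
  rw [heq, hmem]
  exact hc

/-- the residue of a primitive `m`-th root of unity has order `m`. -/
theorem h66_orderOf_residue (m : ℕ) (hm0 : m ≠ 0)
    (hroot : ∀ ζ : L, ζ ^ m = 1 → ζ ≠ 1 → ζ - 1 ∉ (h63_O q L).nonunits)
    (ζ : h63_O q L) (hζ : IsPrimitiveRoot (ζ : L) m) :
    orderOf (IsLocalRing.residue (h63_O q L) ζ) = m := by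
  rw [orderOf_eq_iff (Nat.pos_of_ne_zero hm0)]
  have hζm : ζ ^ m = 1 := Subtype.ext (by push_cast; exact hζ.pow_eq_one)
  refine ⟨by rw [← map_pow, hζm, map_one], fun j hj hj0 h => ?_⟩
  rw [← map_pow, ← map_one (IsLocalRing.residue (h63_O q L))] at h
  have h1 := h66_root_inj q L m hm0 hroot (ζ ^ j) 1
    (by push_cast; rw [← pow_mul, mul_comm, pow_mul, hζ.pow_eq_one, one_pow]) (by simp) h
  have h2 : (ζ : L) ^ j = 1 := by
    have := congrArg (Subtype.val) h1
    simpa using this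
  exact hζ.pow_ne_one_of_pos_of_lt hj0.ne' hj h2

/-- LOWER: `m ∣ Q_L - 1`. -/
theorem h66_dvd_card_sub_one (m : ℕ) (hm0 : m ≠ 0)
    (hroot : ∀ ζ : L, ζ ^ m = 1 → ζ ≠ 1 → ζ - 1 ∉ (h63_O q L).nonunits)
    (hresL : Nat.card (IsLocalRing.ResidueField (h63_O q L)) = h63_resCard q L)
    (ζ : h63_O q L) (hζ : IsPrimitiveRoot (ζ : L) m) : m ∣ h63_resCard q L - 1 := by
  have hq : q.Prime := Fact.out
  have hfin : Finite (IsLocalRing.ResidueField (h63_O q L)) :=
    Nat.finite_of_card_ne_zero (by rw [hresL]; exact (pow_pos hq.pos _).ne')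
  have hord := h66_orderOf_residue q L m hm0 hroot ζ hζ
  have hpow : IsLocalRing.residue (h63_O q L) ζ ^ m = 1 := by
    rw [← hord]; exact pow_orderOf_eq_one _
  have hu : orderOf (Units.ofPowEqOne _ m hpow hm0) = m := by
    rw [← orderOf_units, Units.val_ofPowEqOne, hord]
  rw [← hresL, ← Nat.card_units, ← hu]
  exact orderOf_dvd_natCard _

/-- UPPER: every `σ ∈ Gal(L/K)` acts on a primitive `m`-th root of unity by a power of
`ζ ↦ ζ ^ Q_K`. -/
theorem h66_aut_root (m : ℕ) (hm : m.Coprime q)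
    (hresK : Nat.card (IsLocalRing.ResidueField (h63_O q K)) = h63_resCard q K)
    (hresL : Nat.card (IsLocalRing.ResidueField (h63_O q L)) = h63_resCard q L)
    (hroot : ∀ ζ : L, ζ ^ m = 1 → ζ ≠ 1 → ζ - 1 ∉ (h63_O q L).nonunits)
    (ζ : L) (hζ : IsPrimitiveRoot ζ m) (σ : L ≃ₐ[K] L) :
    ∃ i : ℕ, σ ζ = ζ ^ (h63_resCard q K ^ i) := by
  classical
  have hq : q.Prime := Fact.out
  have hm0 : m ≠ 0 := by
    rintro rfl
    rw [Nat.coprime_zero_left] at hm
    exact hq.ne_one hm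
  have hζO : ζ ∈ h63_O q L := h66_root_mem _ ζ m hm0 hζ.pow_eq_one
  have hord : orderOf (IsLocalRing.residue (h63_O q L) ⟨ζ, hζO⟩) = m :=
    h66_orderOf_residue q L m hm0 hroot ⟨ζ, hζO⟩ hζ
  -- characteristic of the residue field
  have hfin : Finite (IsLocalRing.ResidueField (h63_O q L)) :=
    Nat.finite_of_card_ne_zero (by rw [hresL]; exact (pow_pos hq.pos _).ne')
  letI : Fintype (IsLocalRing.ResidueField (h63_O q L)) := Fintype.ofFinite _
  have hq0 : (q : IsLocalRing.ResidueField (h63_O q L)) = 0 := by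
    have h1 : ((Fintype.card (IsLocalRing.ResidueField (h63_O q L)) : ℕ) :
        IsLocalRing.ResidueField (h63_O q L)) = 0 := Nat.cast_card_eq_zero _
    rw [← Nat.card_eq_fintype_card, hresL] at h1
    unfold h63_resCard at h1
    rw [Nat.cast_pow] at h1
    exact (pow_eq_zero_iff (h63_resDeg_pos q L).ne').1 h1
  haveI : CharP (IsLocalRing.ResidueField (h63_O q L)) q :=
    (CharP.charP_iff_prime_eq_zero hq).2 hq0
  obtain ⟨ψ, hψ⟩ : ∃ ψ : IsLocalRing.ResidueField (h63_O q L) →+*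
      IsLocalRing.ResidueField (h63_O q L), ∀ x, ψ x = x ^ h63_resCard q K :=
    ⟨iterateFrobenius _ q (h63_resDeg q K), fun x => rfl⟩
  -- the order of `Q_K` modulo `m`
  have hcop : (h63_resCard q K).Coprime m := by
    unfold h63_resCard
    exact Nat.Coprime.pow_left _ hm.symm
  obtain ⟨r, hr⟩ : ∃ r, r = orderOf ((h63_resCard q K : ℕ) : ZMod m) := ⟨_, rfl⟩
  have hrpos : 0 < r := by
    haveI : NeZero m := ⟨hm0⟩
    rw [hr, ← ZMod.coe_unitOfCoprime _ hcop, orderOf_units]
    exact orderOf_pos _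
  have hQr : h63_resCard q K ^ r ≡ 1 [MOD m] := by
    have : ((h63_resCard q K ^ r : ℕ) : ZMod m) = ((1 : ℕ) : ZMod m) := by
      push_cast
      rw [hr]
      exact pow_orderOf_eq_one _
    exact (ZMod.natCast_eq_natCast_iff _ _ _).1 this
  -- the polynomial `∏ (X - ζ̄ ^ Q^i)`
  obtain ⟨g, hg⟩ : ∃ g : ℕ → (IsLocalRing.ResidueField (h63_O q L))[X], ∀ i, g i =
      X - C (IsLocalRing.residue (h63_O q L) ⟨ζ, hζO⟩ ^ (h63_resCard q K ^ i)) := ⟨_, fun i => rfl⟩
  have hgmap : ∀ i, (g i).map ψ = g (i + 1) := by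
    intro i
    rw [hg, hg, Polynomial.map_sub, map_X, map_C, hψ, ← pow_mul, ← pow_succ]
  have hgr : g r = g 0 := by
    rw [hg, hg]
    congr 2
    have hpos : 1 ≤ h63_resCard q K ^ r := Nat.one_le_pow _ _ (by unfold h63_resCard; exact pow_pos hq.pos _)
    obtain ⟨t, ht⟩ := (Nat.modEq_iff_dvd' hpos).1 hQr.symm
    have hQrt : h63_resCard q K ^ r = m * t + 1 := by omega
    have hxm : IsLocalRing.residue (h63_O q L) ⟨ζ, hζO⟩ ^ m = 1 := by
      rw [← hord]; exact pow_orderOf_eq_one _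
    rw [hQrt, pow_add, pow_mul, hxm, one_pow, one_mul, pow_zero]
  obtain ⟨P, hP⟩ : ∃ P : (IsLocalRing.ResidueField (h63_O q L))[X],
      P = ∏ i ∈ Finset.range r, g i := ⟨_, rfl⟩
  have hPmap : P.map ψ = P := by
    rw [hP, Polynomial.map_prod]
    simp only [hgmap]
    have h1 := Finset.prod_range_succ' g r
    have h2 := Finset.prod_range_succ g r
    rw [h1, hgr] at h2
    have hg0 : g 0 ≠ 0 := by rw [hg]; exact X_sub_C_ne_zero _
    exact mul_right_cancel₀ hg0 h2
  have hρ : ∀ n, P.coeff n ∈ Set.range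
      ((IsLocalRing.residue (h63_O q L)).comp (h66_incl q K L)) := by
    intro n
    have h1 : P.coeff n ∈ Set.range (h66_resMap q K L) := by
      apply h66_fixed_mem_range q K L hresK
      rw [← hψ, ← coeff_map, hPmap]
    obtain ⟨t, ht⟩ := h1
    obtain ⟨x, rfl⟩ := IsLocalRing.residue_surjective t
    exact ⟨x, by rw [← ht]; rfl⟩
  obtain ⟨h0, hh0⟩ := (mem_lifts _).1 ((lifts_iff_coeff_lifts _).2 hρ)
  obtain ⟨H, hH⟩ : ∃ H : (h63_O q L)[X], H = h0.map (h66_incl q K L) := ⟨_, rfl⟩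
  have hHres : H.map (IsLocalRing.residue (h63_O q L)) = P := by
    rw [hH, Polynomial.map_map]; exact hh0
  have hHσ : H.map (h66_autO q K L σ) = H := by
    rw [hH, Polynomial.map_map, h66_autO_comp_incl]
  have hev : ∀ y : h63_O q L, IsLocalRing.residue (h63_O q L) (H.eval y)
      = P.eval (IsLocalRing.residue (h63_O q L) y) := by
    intro y
    rw [← hHres, eval_map, eval₂_at_apply]
  have h1 : H.eval ⟨ζ, hζO⟩ ∈ IsLocalRing.maximalIdeal (h63_O q L) := by
    rw [← IsLocalRing.residue_eq_zero_iff, hev, hP, eval_prod]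
    apply Finset.prod_eq_zero (Finset.mem_range.2 hrpos)
    rw [hg, eval_sub, eval_X, eval_C, pow_zero, pow_one, sub_self]
  have h2 := h66_autO_mem_maximalIdeal q K L σ _ h1
  have h3 : h66_autO q K L σ (H.eval ⟨ζ, hζO⟩) = H.eval (h66_autO q K L σ ⟨ζ, hζO⟩) := by
    conv_rhs => rw [← hHσ]
    rw [eval_map, eval₂_at_apply]
  rw [h3, ← IsLocalRing.residue_eq_zero_iff, hev, hP, eval_prod] at h2
  obtain ⟨i, _, hi0⟩ := Finset.prod_eq_zero_iff.1 h2
  rw [hg, eval_sub, eval_X, eval_C, sub_eq_zero, ← map_pow] at hi0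
  refine ⟨i, ?_⟩
  have hζm : ((⟨ζ, hζO⟩ : h63_O q L) : L) ^ m = 1 := hζ.pow_eq_one
  have h4 := h66_root_inj q L m hm0 hroot _ _
    (by rw [h66_autO_coe, ← map_pow, hζm, map_one])
    (by push_cast; rw [← pow_mul, mul_comm, pow_mul, hζ.pow_eq_one, one_pow]) hi0
  have h5 := congrArg Subtype.val h4
  simpa [h66_autO_coe] using h5

omit [Fact q.Prime] in
/-- exponents of a primitive root are determined modulo its order. -/
theorem h66_pow_eq_pow_cast {F : Type*} [Field F] {ζ : F} {m : ℕ} (hm0 : m ≠ 0)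
    (hζ : IsPrimitiveRoot ζ m) (a b : ℕ) (h : ζ ^ a = ζ ^ b) : (a : ZMod m) = (b : ZMod m) := by
  have hζ0 : ζ ≠ 0 := hζ.ne_zero hm0
  have hz : ζ ^ ((a : ℤ) - b) = 1 := by
    rw [zpow_sub₀ hζ0, zpow_natCast, zpow_natCast, h, div_self (pow_ne_zero _ hζ0)]
  have h1 := (hζ.zpow_eq_one_iff_dvd _).1 hz
  have h2 := (ZMod.intCast_eq_intCast_iff_dvd_sub (b : ℤ) (a : ℤ) m).2 h1
  simpa using h2.symm

/-- LOC-UNR-2, all three statements, conditional on LOC-RES (for `K` and `L`) and
LOC-UNR-1 (a) (for `L`). -/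
theorem h66_cyc_core (m : ℕ) (hm : m.Coprime q) [IsCyclotomicExtension {m} K L]
    (hresK : Nat.card (IsLocalRing.ResidueField (h63_O q K)) = h63_resCard q K)
    (hresL : Nat.card (IsLocalRing.ResidueField (h63_O q L)) = h63_resCard q L)
    (hroot : ∀ ζ : L, ζ ^ m = 1 → ζ ≠ 1 → ζ - 1 ∉ (h63_O q L).nonunits) :
    Module.finrank K L = orderOf ((h63_resCard q K : ℕ) : ZMod m) ∧
    h63_relResDeg q K L = Module.finrank K L ∧
    ∃ φ : L ≃ₐ[K] L, (∀ ζ : L, ζ ^ m = 1 → φ ζ = ζ ^ h63_resCard q K) ∧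
      ∀ σ : L ≃ₐ[K] L, σ ∈ Subgroup.zpowers φ := by
  classical
  have hq : q.Prime := Fact.out
  have hm0 : m ≠ 0 := by
    rintro rfl
    rw [Nat.coprime_zero_left] at hm
    exact hq.ne_one hm
  haveI : NeZero m := ⟨hm0⟩
  haveI : FiniteDimensional K L := FiniteDimensional.right ℚ_[q] K L
  haveI : IsGalois K L := IsCyclotomicExtension.isGalois {m} K L
  obtain ⟨ζ, hζ⟩ := IsCyclotomicExtension.exists_isPrimitiveRoot K L (Set.mem_singleton m) hm0
  have hζO : ζ ∈ h63_O q L := h66_root_mem _ ζ m hm0 hζ.pow_eq_one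
  have hcop : (h63_resCard q K).Coprime m := by
    unfold h63_resCard
    exact Nat.Coprime.pow_left _ hm.symm
  obtain ⟨u, hucoe⟩ : ∃ u : (ZMod m)ˣ, (u : ZMod m) = ((h63_resCard q K : ℕ) : ZMod m) :=
    ⟨ZMod.unitOfCoprime _ hcop, ZMod.coe_unitOfCoprime _ hcop⟩
  have hordu : orderOf u = orderOf ((h63_resCard q K : ℕ) : ZMod m) := by
    rw [← hucoe, orderOf_units]
  -- LOWER
  have hlow : orderOf u ∣ h63_relResDeg q K L := by
    rw [hordu]
    apply orderOf_dvd_of_pow_eq_one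
    have hdvd := h66_dvd_card_sub_one q L m hm0 hroot hresL ⟨ζ, hζO⟩ hζ
    have hQL : h63_resCard q L = h63_resCard q K ^ h63_relResDeg q K L := by
      unfold h63_resCard
      rw [← pow_mul, mul_comm, h63_relResDeg_mul]
    rw [hQL] at hdvd
    have h1 : ((h63_resCard q K ^ h63_relResDeg q K L - 1 : ℕ) : ZMod m) = 0 :=
      (ZMod.natCast_eq_zero_iff _ _).2 hdvd
    rw [Nat.cast_sub (Nat.one_le_pow _ _ (by unfold h63_resCard; exact pow_pos hq.pos _)),
      Nat.cast_pow, Nat.cast_one, sub_eq_zero] at h1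
    exact h1
  -- UPPER
  have hup : ∀ σ : L ≃ₐ[K] L, hζ.autToPow K σ ∈ Subgroup.zpowers u := by
    intro σ
    obtain ⟨i, hi⟩ := h66_aut_root q K L m hm hresK hresL hroot ζ hζ σ
    have h1 := hζ.autToPow_spec K σ
    rw [hi] at h1
    have h2 := h66_pow_eq_pow_cast hm0 hζ _ _ h1
    rw [ZMod.natCast_zmod_val, Nat.cast_pow, ← hucoe, ← Units.val_pow_eq_pow_val] at h2
    rw [Units.ext h2]
    exact pow_mem (Subgroup.mem_zpowers u) i
  have hinjG : Function.Injective (hζ.autToPow K) := hζ.autToPow_injective K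
  have hcardG : Nat.card (L ≃ₐ[K] L) = Module.finrank K L := IsGalois.card_aut_eq_finrank K L
  have hinj' : Function.Injective
      (fun σ : L ≃ₐ[K] L => (⟨hζ.autToPow K σ, hup σ⟩ : Subgroup.zpowers u)) :=
    fun σ τ h => hinjG (Subtype.ext_iff.1 h)
  have hle : Module.finrank K L ≤ orderOf u := by
    rw [← hcardG, ← Nat.card_zpowers u]
    exact Nat.card_le_card_of_injective _ hinj'
  have hfn : h63_relResDeg q K L ∣ Module.finrank K L := h63_relResDeg_dvd_finrank q K L
  have hnpos : 0 < Module.finrank K L := Module.finrank_pos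
  have hfpos : 0 < h63_relResDeg q K L := Nat.pos_of_dvd_of_pos hfn hnpos
  have h1 : orderOf u ≤ h63_relResDeg q K L := Nat.le_of_dvd hfpos hlow
  have h2 : h63_relResDeg q K L ≤ Module.finrank K L := Nat.le_of_dvd hnpos hfn
  have hn : Module.finrank K L = orderOf u := by omega
  have hf : h63_relResDeg q K L = Module.finrank K L := by omega
  refine ⟨by rw [hn, hordu], hf, ?_⟩
  -- Frobenius
  have hbij : Function.Bijective
      (fun σ : L ≃ₐ[K] L => (⟨hζ.autToPow K σ, hup σ⟩ : Subgroup.zpowers u)) := by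
    refine Function.Injective.bijective_of_nat_card_le hinj' ?_
    rw [Nat.card_zpowers, hcardG, hn]
  obtain ⟨φ, hφ⟩ := hbij.2 ⟨u, Subgroup.mem_zpowers u⟩
  have hφu : hζ.autToPow K φ = u := congrArg Subtype.val hφ
  refine ⟨φ, ?_, ?_⟩
  · intro ξ hξ
    obtain ⟨j, _, rfl⟩ := hζ.eq_pow_of_pow_eq_one hξ
    have h3 := hζ.autToPow_spec K φ
    rw [hφu, hucoe, ZMod.val_natCast] at h3
    have h4 : ζ ^ (h63_resCard q K % m) = ζ ^ h63_resCard q K := by
      have h := pow_mod_orderOf ζ (h63_resCard q K)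
      rwa [← hζ.eq_orderOf] at h
    rw [map_pow, ← h3, h4, ← pow_mul, ← pow_mul, mul_comm]
  · intro σ
    obtain ⟨z, hz⟩ := Subgroup.mem_zpowers_iff.1 (hup σ)
    rw [← hφu, ← map_zpow] at hz
    rw [← hinjG hz]
    exact Subgroup.zpow_mem_zpowers φ z

end core

section exports

/-- **LOC-UNR-2 (a)**: `[K(μ_m) : K]` is the order of `Q_K` modulo `m` (`m` prime to `q`). -/
theorem h66_cyc_finrank (K L : Type*) [Field K] [Field L] [Algebra ℚ_[q] K] [Algebra ℚ_[q] L]
    [Algebra K L] [IsScalarTower ℚ_[q] K L] [FiniteDimensional ℚ_[q] L] (m : ℕ)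
    (hm : m.Coprime q) [IsCyclotomicExtension {m} K L] :
    Module.finrank K L = orderOf ((h63_resCard q K : ℕ) : ZMod m) := by
  haveI : FiniteDimensional ℚ_[q] K := FiniteDimensional.left ℚ_[q] K L
  exact (h66_cyc_core q K L m hm (h69_resField_card q K) (h69_resField_card q L)
    (h6_root_sub_one q L m hm)).1

/-- **LOC-UNR-2 (b)**: `K(μ_m)/K` is unramified (`m` prime to `q`): `f(L/K) = [L:K]`. -/
theorem h66_cyc_unram (K L : Type*) [Field K] [Field L] [Algebra ℚ_[q] K] [Algebra ℚ_[q] L]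
    [Algebra K L] [IsScalarTower ℚ_[q] K L] [FiniteDimensional ℚ_[q] L] (m : ℕ)
    (hm : m.Coprime q) [IsCyclotomicExtension {m} K L] :
    h63_relResDeg q K L = Module.finrank K L := by
  haveI : FiniteDimensional ℚ_[q] K := FiniteDimensional.left ℚ_[q] K L
  exact (h66_cyc_core q K L m hm (h69_resField_card q K) (h69_resField_card q L)
    (h6_root_sub_one q L m hm)).2.1

/-- **LOC-UNR-2 (c)**: `Gal(K(μ_m)/K)` is cyclic, generated by the Frobenius `ζ ↦ ζ ^ Q_K`. -/
theorem h66_cyc_frob (K L : Type*) [Field K] [Field L] [Algebra ℚ_[q] K] [Algebra ℚ_[q] L]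
    [Algebra K L] [IsScalarTower ℚ_[q] K L] [FiniteDimensional ℚ_[q] L] (m : ℕ)
    (hm : m.Coprime q) [IsCyclotomicExtension {m} K L] :
    ∃ φ : L ≃ₐ[K] L, (∀ ζ : L, ζ ^ m = 1 → φ ζ = ζ ^ h63_resCard q K) ∧
      ∀ σ : L ≃ₐ[K] L, σ ∈ Subgroup.zpowers φ := by
  haveI : FiniteDimensional ℚ_[q] K := FiniteDimensional.left ℚ_[q] K L
  exact (h66_cyc_core q K L m hm (h69_resField_card q K) (h69_resField_card q L)
    (h6_root_sub_one q L m hm)).2.2

end exports

end Fermat.Agent.S55
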