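import Mathlib
import Fermat.Agent.S55.h24_LocCycQ
import Fermat.Agent.S55.h66_LocCycUnr
import Fermat.Agent.S55.h63_LocUnrNormFinal

set_option autoImplicit false

/-!
# S55, LOC-UNR-6, unconditional form (helper24)

A subfield `B` of a `p^k`-cyclotomic extension `E` of `ℚ_q` (`q ≠ p`) is Galois over `ℚ_q` with
cyclic group, unramified, and its norm group is `{x | [B : ℚ_q] ∣ v_q x}`.

This is `h24_cycQ_layer_of` with its three hypotheses discharged by LOC-UNR-2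
(`h66_cyc_unram`, `h66_cyc_frob`) and LOC-UNR-5 (`h63_unr_norm_range`).
-/

namespace Fermat.Agent.S55

variable (q : ℕ) [Fact q.Prime]

/-- **LOC-UNR-6**: a subfield `B` of `ℚ_q(μ_{p^k})`, `q ≠ p`, is Galois over `ℚ_q` with cyclic
group, unramified, and `x ∈ N(Bˣ) ↔ [B : ℚ_q] ∣ v_q x`. -/
theorem h24_cycQ_layer (p : ℕ) [Fact p.Prime] (hqp : q ≠ p) (k : ℕ) (E : Type*) [Field E]
    [Algebra ℚ_[q] E] [IsCyclotomicExtension {p ^ k} ℚ_[q] E] (B : Type*) [Field B]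
    [Algebra ℚ_[q] B] [Algebra B E] [IsScalarTower ℚ_[q] B E] :
    IsGalois ℚ_[q] B ∧ IsCyclic (B ≃ₐ[ℚ_[q]] B) ∧
      h63_resDeg q B = Module.finrank ℚ_[q] B ∧
      ∀ x : ℚ_[q]ˣ, x ∈ (Units.map (Algebra.norm ℚ_[q] : B →* ℚ_[q])).range ↔
        (Module.finrank ℚ_[q] B : ℤ) ∣ Padic.valuation (x : ℚ_[q]) := by
  have hp : p.Prime := Fact.out
  have hq : q.Prime := Fact.out
  have : NeZero (p ^ k) := ⟨pow_ne_zero _ hp.ne_zero⟩
  have hfdE : FiniteDimensional ℚ_[q] E :=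
    IsCyclotomicExtension.finiteDimensional {p ^ k} ℚ_[q] E
  have hfdB : FiniteDimensional ℚ_[q] B := FiniteDimensional.left ℚ_[q] B E
  have hcop : (p ^ k).Coprime q :=
    Nat.Coprime.pow_left k ((Nat.coprime_primes hp hq).2 (Ne.symm hqp))
  have hunrE : h63_relResDeg q ℚ_[q] E = Module.finrank ℚ_[q] E :=
    h66_cyc_unram q ℚ_[q] E (p ^ k) hcop
  have hcycE : ∃ φ : E ≃ₐ[ℚ_[q]] E, ∀ σ : E ≃ₐ[ℚ_[q]] E, σ ∈ Subgroup.zpowers φ := by
    obtain ⟨φ, -, hφ⟩ := h66_cyc_frob q ℚ_[q] E (p ^ k) hcop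
    exact ⟨φ, hφ⟩
  refine h24_cycQ_layer_of q p k E B hunrE hcycE ?_
  intro hgal hcyc hunrB x
  exact h63_unr_norm_range q ℚ_[q] B hunrB x

end Fermat.Agent.S55
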