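import Mathlib
import Fermat.Agent.S55.h25_GlobVal
import Fermat.Agent.S55.h66_GlobFunc2
import Fermat.Agent.S55.h10_NormPF

/-!
# S55 / GLOB-VAL, rows VAL-EXT and VAL-INV (helper84)

For number fields `L/K`, a finite set `S` of rational primes and `P ∈ S`:

* `h84_w_ext` : `h25_w L S P (h25_Xmap S (algebraMap K L) x) = h25_w K S P x ^ [L:K]`;
* `h84_w_inv` : `h25_w L S P (h25_Xmap S σ x) = h25_w L S P x` for a field automorphism `σ` of `L`.

Ingredients: every embedding of `K` into an algebraically closed field has exactly `[L:K]`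
extensions to `L` (`h84_card_fibre_res`, `h84_prod_comp_algebraMap`), and the divisor part of `w`
on the divisor of an integral ideal prime to `S` is the class of its absolute norm
(`h84_wD_divIdeal`).
-/

set_option autoImplicit false

open IsDedekindDomain NumberField
open scoped nonZeroDivisors

namespace Fermat.Agent.S55

noncomputable section

section Emb

variable {K L Ω : Type*} [Field K] [Field L] [Algebra K L] [Field Ω]

/-- Every embedding of `K` into an algebraically closed field has exactly `[L:K]` extensions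
to a finite separable extension `L`. -/
theorem h84_card_fibre_res [FiniteDimensional K L] [Algebra.IsSeparable K L] [IsAlgClosed Ω]
    (j : K →+* Ω) :
    Nat.card {j' : L →+* Ω // j'.comp (algebraMap K L) = j} = Module.finrank K L := by
  let _ : Algebra K Ω := j.toAlgebra
  let e : {j' : L →+* Ω // j'.comp (algebraMap K L) = j} ≃ (L →ₐ[K] Ω) :=
    { toFun := fun j' =>
        { (j'.1 : L →+* Ω) with
          commutes' := fun x => congrArg (fun g : K →+* Ω => g x) j'.2 }
      invFun := fun g => ⟨g.toRingHom, RingHom.ext fun x => g.commutes x⟩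
      left_inv := fun j' => Subtype.ext (RingHom.ext fun _ => rfl)
      right_inv := fun g => AlgHom.ext fun _ => rfl }
  rw [Nat.card_congr e, Nat.card_eq_fintype_card, AlgHom.card]

/-- A product over the embeddings of `L` of a function of the restriction to `K`. -/
theorem h84_prod_comp_algebraMap [FiniteDimensional K L] [Algebra.IsSeparable K L] [IsAlgClosed Ω]
    [Fintype (K →+* Ω)] [Fintype (L →+* Ω)] {M : Type*} [CommMonoid M] (g : (K →+* Ω) → M) :
    ∏ j' : L →+* Ω, g (j'.comp (algebraMap K L)) = ∏ j : K →+* Ω, g j ^ Module.finrank K L := by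
  classical
  rw [← Fintype.prod_fiberwise (fun j' : L →+* Ω => j'.comp (algebraMap K L))
    (fun j' : L →+* Ω => g (j'.comp (algebraMap K L)))]
  refine Finset.prod_congr rfl fun j _ => ?_
  have h1 : ∀ i : {j' : L →+* Ω // j'.comp (algebraMap K L) = j},
      g ((i : L →+* Ω).comp (algebraMap K L)) = g j := fun i => by rw [i.2]
  rw [Finset.prod_congr rfl (fun i _ => h1 i), Finset.prod_const, Finset.card_univ,
    ← Nat.card_eq_fintype_card, h84_card_fibre_res]

end Emb

section Norm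

variable {K : Type*} [Field K] [NumberField K] {L : Type*} [Field L] [NumberField L] [Algebra K L]

/-- `N_q (φ ∘ res) = (N_q φ) ^ [L:K]`. -/
theorem h84_Nq_ext (q : ℕ) [Fact q.Prime] (φ : h25_Jq K q) (ψ : h25_Jq L q)
    (h : ∀ j' : L →+* PadicAlgCl q, ψ.1 j' = φ.1 (j'.comp (algebraMap K L))) :
    h25_Nq L q ψ = h25_Nq K q φ ^ Module.finrank K L := by
  apply Units.ext
  apply (algebraMap ℚ_[q] (PadicAlgCl q)).injective
  rw [h25_Nq_spec, Units.val_pow_eq_pow_val, map_pow, h25_Nq_spec]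
  have h1 : ∀ j' : L →+* PadicAlgCl q, ((ψ.1 j' : (PadicAlgCl q)ˣ) : PadicAlgCl q) =
      (fun j : K →+* PadicAlgCl q => ((φ.1 j : (PadicAlgCl q)ˣ) : PadicAlgCl q))
        (j'.comp (algebraMap K L)) := fun j' => by rw [h j']
  rw [Finset.prod_congr rfl (fun j' _ => h1 j')]
  exact (h84_prod_comp_algebraMap (K := K) (L := L) (Ω := PadicAlgCl q)
    (fun j : K →+* PadicAlgCl q => ((φ.1 j : (PadicAlgCl q)ˣ) : PadicAlgCl q))).trans
      (Finset.prod_pow _ _ _)

/-- `N_q (φ ∘ σ) = N_q φ` for an automorphism `σ`. -/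
theorem h84_Nq_inv (q : ℕ) [Fact q.Prime] (σ : L ≃+* L) (φ ψ : h25_Jq L q)
    (h : ∀ j' : L →+* PadicAlgCl q, ψ.1 j' = φ.1 (j'.comp (σ : L →+* L))) :
    h25_Nq L q ψ = h25_Nq L q φ := by
  apply Units.ext
  apply (algebraMap ℚ_[q] (PadicAlgCl q)).injective
  rw [h25_Nq_spec, h25_Nq_spec]
  let e : (L →+* PadicAlgCl q) ≃ (L →+* PadicAlgCl q) :=
    { toFun := fun j => j.comp (σ : L →+* L)
      invFun := fun j => j.comp (σ.symm : L →+* L)
      left_inv := fun j => by ext x; simp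
      right_inv := fun j => by ext x; simp }
  exact Fintype.prod_equiv e _ _ (fun j => by rw [h j]; rfl)

theorem h84_ordN_ext (q : ℕ) [Fact q.Prime] (φ : h25_Jq K q) (ψ : h25_Jq L q)
    (h : ∀ j' : L →+* PadicAlgCl q, ψ.1 j' = φ.1 (j'.comp (algebraMap K L))) :
    h25_ordN L q ψ = h25_ordN K q φ ^ Module.finrank K L := by
  rw [← map_pow]
  show Multiplicative.ofAdd (Padic.valuation ((h25_Nq L q ψ : ℚ_[q]ˣ) : ℚ_[q])) =
    Multiplicative.ofAdd (Padic.valuation
      ((h25_Nq K q (φ ^ Module.finrank K L) : ℚ_[q]ˣ) : ℚ_[q]))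
  rw [h84_Nq_ext q φ ψ h, map_pow]

theorem h84_ordN_inv (q : ℕ) [Fact q.Prime] (σ : L ≃+* L) (φ ψ : h25_Jq L q)
    (h : ∀ j' : L →+* PadicAlgCl q, ψ.1 j' = φ.1 (j'.comp (σ : L →+* L))) :
    h25_ordN L q ψ = h25_ordN L q φ := by
  show Multiplicative.ofAdd (Padic.valuation ((h25_Nq L q ψ : ℚ_[q]ˣ) : ℚ_[q])) =
    Multiplicative.ofAdd (Padic.valuation ((h25_Nq L q φ : ℚ_[q]ˣ) : ℚ_[q]))
  rw [h84_Nq_inv q σ φ ψ h]

end Norm

section Div

variable {K : Type*} [Field K] [NumberField K] {K' : Type*} [Field K'] [NumberField K']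
variable (S : Finset Nat.Primes) (P : S)

/-- A prime not above `S` has norm prime to `p = P ∈ S`. -/
theorem h84_not_dvd_absNorm (v : h25_Pl K S) :
    ¬ ((P : Nat.Primes) : ℕ) ∣ Ideal.absNorm v.1.asIdeal := by
  intro h
  have : Fact (((P : Nat.Primes) : ℕ)).Prime := ⟨(P : Nat.Primes).2⟩
  exact v.2 ⟨P, P.2, h10_natCast_mem_of_dvd_absNorm K _ v.1 h⟩

/-- The divisor part of `w` on the divisor of an integral ideal prime to `S` is the class of
the absolute norm of the ideal. -/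
theorem h84_wD_divIdeal (I : Ideal (𝓞 K)) (hI : I ≠ ⊥)
    (hS : ∀ v : HeightOneSpectrum (𝓞 K), I ≤ v.asIdeal → ¬ h25_above K S v) :
    ¬ ((P : Nat.Primes) : ℕ) ∣ Ideal.absNorm I ∧
    h25_wD K S P (Multiplicative.ofAdd (h25_divIdeal K S (I : FractionalIdeal (𝓞 K)⁰ K))) =
      h18_natU1 ((P : Nat.Primes) : ℕ) (Ideal.absNorm I) := by
  have : Fact (((P : Nat.Primes) : ℕ)).Prime := ⟨(P : Nat.Primes).2⟩
  induction I using UniqueFactorizationMonoid.induction_on_prime with
  | h₁ => exact absurd rfl hI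
  | h₂ I hu =>
    have h1 : I = ⊤ := Ideal.isUnit_iff.1 hu
    subst h1
    have e1 : ((⊤ : Ideal (𝓞 K)) : FractionalIdeal (𝓞 K)⁰ K) = 1 := FractionalIdeal.coeIdeal_top _
    rw [e1, h25_divIdeal_one, Ideal.absNorm_top, h18_natU1_one]
    refine ⟨?_, ?_⟩
    · intro h
      exact (P : Nat.Primes).2.one_lt.ne' (Nat.dvd_one.1 h)
    · rw [ofAdd_zero, map_one]
  | h₃ a p ha hp ih =>
    have hp0 : p ≠ ⊥ := hp.ne_zero
    have ha0 : a ≠ ⊥ := ha
    have hpp : p.IsPrime := (Ideal.prime_iff_isPrime hp0).1 hp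
    let v : HeightOneSpectrum (𝓞 K) := ⟨p, hpp, hp0⟩
    have hv : ¬ h25_above K S v := hS v Ideal.mul_le_left
    obtain ⟨iha1, iha2⟩ := ih ha0 (fun u hu => hS u (le_trans Ideal.mul_le_right hu))
    have hpn : ¬ ((P : Nat.Primes) : ℕ) ∣ Ideal.absNorm p := h84_not_dvd_absNorm S P ⟨v, hv⟩
    have hd : h25_divIdeal K S (p : FractionalIdeal (𝓞 K)⁰ K) = Finsupp.single ⟨v, hv⟩ 1 :=
      h66_divIdeal_prime S ⟨v, hv⟩
    refine ⟨?_, ?_⟩
    · rw [map_mul]
      intro h
      exact ((P : Nat.Primes).2.dvd_mul.1 h).elim hpn iha1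
    · rw [FractionalIdeal.coeIdeal_mul,
        h25_divIdeal_mul K S (FractionalIdeal.coeIdeal_ne_zero.2 hp0)
          (FractionalIdeal.coeIdeal_ne_zero.2 ha0), ofAdd_add, map_mul, iha2, hd,
        h25_wD_single, zpow_one, map_mul, h18_natU1_mul _ hpn iha1]

omit [NumberField K'] in
/-- Primes of `K'` dividing the extension of a prime of `K` not above `S` are not above `S`. -/
theorem h84_not_above_of_map_le (f : K →+* K') (v : h25_Pl K S) (w : HeightOneSpectrum (𝓞 K'))
    (hw : Ideal.map (RingOfIntegers.mapRingHom f) v.1.asIdeal ≤ w.asIdeal) :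
    ¬ h25_above K' S w := by
  rintro ⟨q, hq, hmem⟩
  apply v.2
  refine ⟨q, hq, ?_⟩
  have hle : v.1.asIdeal ≤ Ideal.comap (RingOfIntegers.mapRingHom f) w.asIdeal :=
    Ideal.map_le_iff_le_comap.1 hw
  have hne : Ideal.comap (RingOfIntegers.mapRingHom f) w.asIdeal ≠ ⊤ :=
    Ideal.comap_ne_top _ w.isPrime.ne_top
  have heq : v.1.asIdeal = Ideal.comap (RingOfIntegers.mapRingHom f) w.asIdeal :=
    v.1.isMaximal.eq_of_le hne hle
  rw [heq, Ideal.mem_comap, map_natCast]
  exact hmem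

/-- The divisor part of `w` on the extension of a prime. -/
theorem h84_wD_Dmap_single (f : K →+* K') (v : h25_Pl K S) (m : ℤ) :
    h25_wD K' S P (Multiplicative.ofAdd (h25_Dmap S f (Finsupp.single v m))) =
      h18_natU1 ((P : Nat.Primes) : ℕ)
        (Ideal.absNorm (Ideal.map (RingOfIntegers.mapRingHom f) v.1.asIdeal)) ^ m := by
  have hne : Ideal.map (RingOfIntegers.mapRingHom f) v.1.asIdeal ≠ ⊥ := by
    rw [Ne, Ideal.map_eq_bot_iff_of_injective (h66_mapRingHom_injective f)]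
    exact v.1.ne_bot
  rw [h66_Dmap_single, ofAdd_zsmul, map_zpow,
    (h84_wD_divIdeal S P _ hne (fun w hw => h84_not_above_of_map_le S f v w hw)).2]

end Div

section Main

variable {K : Type*} [Field K] [NumberField K] {L : Type*} [Field L] [NumberField L] [Algebra K L]
  (S : Finset Nat.Primes) (P : S)

theorem h84_absNorm_map_algebraMap (I : Ideal (𝓞 K)) :
    Ideal.absNorm (Ideal.map (RingOfIntegers.mapRingHom (algebraMap K L)) I) =
      Ideal.absNorm I ^ Module.finrank K L := by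
  have h : RingOfIntegers.mapRingHom (algebraMap K L) = algebraMap (𝓞 K) (𝓞 L) := rfl
  rw [h, Ideal.absNorm_algebraMap, IsFractionRing.finrank_eq (𝓞 K) K (𝓞 L) L]

theorem h84_absNorm_map_ringEquiv (σ : L ≃+* L) (I : Ideal (𝓞 L)) :
    Ideal.absNorm (Ideal.map (RingOfIntegers.mapRingHom (σ : L →+* L)) I) = Ideal.absNorm I := by
  have h : RingOfIntegers.mapRingHom (σ : L →+* L) =
      ((RingOfIntegers.mapRingEquiv σ : 𝓞 L ≃+* 𝓞 L) : 𝓞 L →+* 𝓞 L) := rfl
  rw [h, Ideal.absNorm_apply, Ideal.absNorm_apply, Submodule.cardQuot_apply,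
    Submodule.cardQuot_apply]
  exact Nat.card_congr (Ideal.quotientEquiv I _ (RingOfIntegers.mapRingEquiv σ) rfl).toEquiv.symm

/-- the divisor part of VAL-EXT. -/
theorem h84_wD_ext (d : h25_Div K S) :
    h25_wD L S P (Multiplicative.ofAdd (h25_Dmap S (algebraMap K L) d)) =
      h25_wD K S P (Multiplicative.ofAdd d) ^ Module.finrank K L := by
  have : Fact (((P : Nat.Primes) : ℕ)).Prime := ⟨(P : Nat.Primes).2⟩
  induction d using Finsupp.induction_linear with
  | zero => simp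
  | add d d' hd hd' => rw [map_add, ofAdd_add, map_mul, hd, hd', ofAdd_add, map_mul, mul_pow]
  | single v m =>
    rw [h84_wD_Dmap_single, h84_absNorm_map_algebraMap,
      h18_natU1_pow _ (h84_not_dvd_absNorm S P v), h25_wD_single, ← zpow_natCast, ← zpow_natCast,
      ← zpow_mul, ← zpow_mul, mul_comm]

/-- the divisor part of VAL-INV. -/
theorem h84_wD_inv (σ : L ≃+* L) (d : h25_Div L S) :
    h25_wD L S P (Multiplicative.ofAdd (h25_Dmap S (σ : L →+* L) d)) =
      h25_wD L S P (Multiplicative.ofAdd d) := by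
  induction d using Finsupp.induction_linear with
  | zero => simp
  | add d d' hd hd' => rw [map_add, ofAdd_add, map_mul, hd, hd', ofAdd_add, map_mul]
  | single v m => rw [h84_wD_Dmap_single, h84_absNorm_map_ringEquiv, h25_wD_single]

/-- **VAL-EXT**: `w_L (ext x) = w_K (x) ^ [L:K]`. -/
theorem h84_w_ext (x : h25_X K S) :
    h25_w L S P (h25_Xmap S (algebraMap K L) x) = h25_w K S P x ^ Module.finrank K L := by
  classical
  rw [h25_w_apply, h25_w_apply, mul_pow, mul_pow, ← Finset.prod_pow]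
  have hP : h25_wP L S P (h25_Xmap S (algebraMap K L) x).1 =
      h25_wP K S P x.1 ^ Module.finrank K L := by
    rw [h25_wP_apply, h25_wP_apply,
      h84_Nq_ext ((P : Nat.Primes) : ℕ) (x.1 P) ((h25_Xmap S (algebraMap K L) x).1 P)
        (fun _ => rfl), map_pow, inv_pow]
  have hq : ∀ q : S, h25_wq L S P q (h25_Xmap S (algebraMap K L) x).1 =
      h25_wq K S P q x.1 ^ Module.finrank K L := by
    intro q
    show zpowersHom (h18_U1 ((P : Nat.Primes) : ℕ))
        (h18_natU1 ((P : Nat.Primes) : ℕ) ((q : Nat.Primes) : ℕ))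
        (h25_ordN L ((q : Nat.Primes) : ℕ) ((h25_Xmap S (algebraMap K L) x).1 q)) =
      zpowersHom (h18_U1 ((P : Nat.Primes) : ℕ))
        (h18_natU1 ((P : Nat.Primes) : ℕ) ((q : Nat.Primes) : ℕ))
        (h25_ordN K ((q : Nat.Primes) : ℕ) (x.1 q)) ^ Module.finrank K L
    rw [h84_ordN_ext ((q : Nat.Primes) : ℕ) (x.1 q) ((h25_Xmap S (algebraMap K L) x).1 q)
      (fun _ => rfl), map_pow]
  have hD : h25_wD L S P (h25_Xmap S (algebraMap K L) x).2 =
      h25_wD K S P x.2 ^ Module.finrank K L :=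
    h84_wD_ext S P (Multiplicative.toAdd x.2)
  rw [hP, hD, Finset.prod_congr rfl (fun q _ => hq q)]

/-- **VAL-INV**: `w_L (σ x) = w_L (x)`. -/
theorem h84_w_inv (σ : L ≃+* L) (x : h25_X L S) :
    h25_w L S P (h25_Xmap S (σ : L →+* L) x) = h25_w L S P x := by
  classical
  rw [h25_w_apply, h25_w_apply]
  have hP : h25_wP L S P (h25_Xmap S (σ : L →+* L) x).1 = h25_wP L S P x.1 := by
    rw [h25_wP_apply, h25_wP_apply,
      h84_Nq_inv ((P : Nat.Primes) : ℕ) σ (x.1 P) ((h25_Xmap S (σ : L →+* L) x).1 P)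
        (fun _ => rfl)]
  have hq : ∀ q : S, h25_wq L S P q (h25_Xmap S (σ : L →+* L) x).1 = h25_wq L S P q x.1 := by
    intro q
    show zpowersHom (h18_U1 ((P : Nat.Primes) : ℕ))
        (h18_natU1 ((P : Nat.Primes) : ℕ) ((q : Nat.Primes) : ℕ))
        (h25_ordN L ((q : Nat.Primes) : ℕ) ((h25_Xmap S (σ : L →+* L) x).1 q)) =
      zpowersHom (h18_U1 ((P : Nat.Primes) : ℕ))
        (h18_natU1 ((P : Nat.Primes) : ℕ) ((q : Nat.Primes) : ℕ))
        (h25_ordN L ((q : Nat.Primes) : ℕ) (x.1 q))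
    rw [h84_ordN_inv ((q : Nat.Primes) : ℕ) σ (x.1 q) ((h25_Xmap S (σ : L →+* L) x).1 q)
      (fun _ => rfl)]
  have hD : h25_wD L S P (h25_Xmap S (σ : L →+* L) x).2 = h25_wD L S P x.2 :=
    h84_wD_inv S P σ (Multiplicative.toAdd x.2)
  rw [hP, hD, Finset.prod_congr rfl (fun q _ => hq q)]

/-- C-level form of VAL-EXT, given VAL-PRIN for `K` and `L`. -/
theorem h84_wC_ext_of (hK : ∀ x : Kˣ, h25_w K S P (h25_diag K S x) = 1)
    (hL : ∀ x : Lˣ, h25_w L S P (h25_diag L S x) = 1) (c : h25_C K S) :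
    h25_wC L S P (h25_Cmap S (algebraMap K L) c) = h25_wC K S P c ^ Module.finrank K L := by
  obtain ⟨x, rfl⟩ := h25_mk_surjective K S c
  rw [h66_Cmap_mk, h25_wC_mk_of L S P hL, h25_wC_mk_of K S P hK, h84_w_ext]

/-- C-level form of VAL-INV, given VAL-PRIN for `L`. -/
theorem h84_wC_inv_of (hL : ∀ x : Lˣ, h25_w L S P (h25_diag L S x) = 1) (σ : L ≃+* L)
    (c : h25_C L S) : h25_wC L S P (h25_Cmap S (σ : L →+* L) c) = h25_wC L S P c := by
  obtain ⟨x, rfl⟩ := h25_mk_surjective L S c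
  rw [h66_Cmap_mk, h25_wC_mk_of L S P hL, h25_wC_mk_of L S P hL, h84_w_inv]

end Main

end

end Fermat.Agent.S55
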