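import Mathlib
import Fermat.Agent.S55.h13_CycTower
import Fermat.Agent.S55.h13_BetaLoc
import Fermat.Agent.S55.h13_BetaHnorm
import Fermat.Agent.S55.h4_JqCoind
import Fermat.Agent.S55.h6_LocalLevels
import Fermat.Agent.S55.h10_ValPrin
import Fermat.Agent.S55.h84_ValExt
import Fermat.Agent.S55.h21_ValV1
import Fermat.Agent.S55.h18_ValQn
import Fermat.Agent.S55.h18_CycPFinal
import Fermat.Agent.S55.h24_LocCycQFinal
import Fermat.Agent.S55.h90_GlobCAct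
import Fermat.Agent.S55.h63_LocClass
import Fermat.Agent.S55.h56_GalLevels
import Fermat.Agent.S55.h97_GalLevel

/-!
# S55, GLOB-BETA: the cyclic levels `Q_n` (hypothesis `hcyc` of `h4_beta_of_levels`)

For the layers `Q_n = h13_Qn p n` of the cyclotomic `ℤ_p`-extension of `ℚ` (`p = P ∈ S` odd) and
`q ∈ S`:

* the local field `ℚ_q · Q_n` lies in `ℚ_q(ζ_{p^(n+1)})`, its degree is the local index of
  `h13_CycTower`; the local norm criteria `h13_hloc_p` (`q = p`), `h13_hloc_q` (`q ≠ p`);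
* the honest hypothesis `hnorm` at `Q_n` (`h13_hnorm_Qn`), its additive/localised form;
* `h13_hcyc`: the complete hypothesis `hcyc` of `h4_beta_of_levels` for the concrete carrier.
-/

set_option autoImplicit false
set_option linter.unusedSectionVars false
set_option linter.unusedVariables false
set_option linter.style.haveILetI false

open NumberField IntermediateField

namespace Fermat.Agent.S55

local notation "Qbar" => AlgebraicClosure ℚ

local instance h13_isAlgebraicQbar'' : Algebra.IsAlgebraic ℚ (AlgebraicClosure ℚ) :=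
  AlgebraicClosure.isAlgebraic ℚ
local instance h13_isAlgClosureQbar'' : IsAlgClosure ℚ (AlgebraicClosure ℚ) :=
  ⟨inferInstance, inferInstance⟩
local instance h13_normalQbar'' : Normal ℚ (AlgebraicClosure ℚ) :=
  IsAlgClosure.normal ℚ (AlgebraicClosure ℚ)
local instance h13_isGaloisQbar'' : IsGalois ℚ (AlgebraicClosure ℚ) := ⟨⟩

/-! ### The local field of a subfield of `Qbar` -/

section Local

variable (q : ℕ) [Fact q.Prime]

/-- The restriction to a subfield `F` of `Qbar` of the fixed embedding `Qbar → PadicAlgCl q`. -/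
noncomputable def h13_emb (F : IntermediateField ℚ Qbar) : ↥F →+* PadicAlgCl q :=
  ((padicEmbedding q : Qbar →ₐ[ℚ] PadicAlgCl q) : Qbar →+* PadicAlgCl q).comp
    (algebraMap ↥F Qbar)

theorem h13_emb_apply (F : IntermediateField ℚ Qbar) (x : ↥F) :
    h13_emb q F x = padicEmbedding q (x : Qbar) := rfl

theorem h13_locField_eq (F : IntermediateField ℚ Qbar) :
    h28_locField q (h13_emb q F) = h6_localField q F := by
  unfold h28_locField h6_localField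
  congr 1
  ext y
  constructor
  · rintro ⟨x, rfl⟩
    exact ⟨x, x.2, rfl⟩
  · rintro ⟨x, hx, rfl⟩
    exact ⟨⟨x, hx⟩, rfl⟩

theorem h13_isGalois_padicAlgCl : IsGalois ℚ_[q] (PadicAlgCl q) :=
  { to_isSeparable := inferInstance
    to_normal := IsAlgClosure.normal ℚ_[q] (PadicAlgCl q) }

/-- The degree of the local field is the index of the local stabiliser. -/
theorem h13_finrank_localField (F : IntermediateField ℚ Qbar) [FiniteDimensional ℚ F] :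
    Module.finrank ℚ_[q] ↥(h6_localField q F) =
      ((F.fixingSubgroup).comap (localGaloisToGlobal q)).index := by
  have hgal : IsGalois ℚ_[q] (PadicAlgCl q) := h13_isGalois_padicAlgCl q
  rw [h6_comap_fixingSubgroup]
  exact IntermediateField.finrank_eq_fixingSubgroup_index (PadicAlgCl q) (h6_localField q F)

/-- `ℚ_q · ℚ(z) ⊆ ℚ_q(z)`. -/
theorem h13_localField_adjoin_le (z : Qbar) :
    h6_localField q ℚ⟮z⟯ ≤ ℚ_[q]⟮padicEmbedding q z⟯ := by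
  have htower : IsScalarTower ℚ ℚ_[q] (PadicAlgCl q) :=
    IsScalarTower.of_algebraMap_eq' (Subsingleton.elim _ _)
  have h1 : ℚ⟮z⟯ ≤ ((ℚ_[q]⟮padicEmbedding q z⟯).restrictScalars ℚ).comap (padicEmbedding q) := by
    rw [IntermediateField.adjoin_simple_le_iff]
    exact mem_adjoin_simple_self ℚ_[q] _
  rw [h6_localField, IntermediateField.adjoin_le_iff]
  rintro _ ⟨x, hx, rfl⟩
  exact h1 hx

end Local

section Qn

variable (p : ℕ) [Fact p.Prime] (q : ℕ) [Fact q.Prime]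

/-- `ℚ_q · Q_n ⊆ ℚ_q(ζ_{p^(n+1)})`. -/
theorem h13_localField_Qn_le (n : ℕ) {z : Qbar} (hz : IsPrimitiveRoot z (p ^ (n + 1))) :
    h6_localField q (h13_Qn p n) ≤ ℚ_[q]⟮padicEmbedding q z⟯ :=
  (h6_localField_mono q (h13_Qn_le_adjoin p n hz)).trans (h13_localField_adjoin_le q z)

/-- **Local norm criterion at `q = p`** (LOC-CYC): `t ∈ ℚ_pˣ` with `v_p t ∈ U1 ^ (p ^ n)` is a
norm from `ℚ_p · Q_n`. -/
theorem h13_hloc_p (hp2 : p ≠ 2) (n : ℕ) (t : ℚ_[p]ˣ)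
    (h : ∃ u : h18_U1 p, u ^ (p ^ n) = h18_vp p t) :
    t ∈ (Units.map (Algebra.norm ℚ_[p] : ↥(h6_localField p (h13_Qn p n)) →* ℚ_[p])).range := by
  have hp : p.Prime := Fact.out
  obtain ⟨z, hz⟩ := HasEnoughRootsOfUnity.exists_primitiveRoot Qbar (p ^ (n + 1))
  have hne : NeZero (p ^ (n + 1)) := ⟨pow_ne_zero _ hp.ne_zero⟩
  have hz' : IsPrimitiveRoot (padicEmbedding p z) (p ^ (n + 1)) :=
    hz.map_of_injective (padicEmbedding p).injective
  have hcyc : IsCyclotomicExtension {p ^ (n + 1)} ℚ_[p] ↥(ℚ_[p]⟮padicEmbedding p z⟯) :=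
    hz'.intermediateField_adjoin_isCyclotomicExtension ℚ_[p]
  have hle := h13_localField_Qn_le p p n hz
  letI : Algebra ↥(h6_localField p (h13_Qn p n)) ↥(ℚ_[p]⟮padicEmbedding p z⟯) :=
    (IntermediateField.inclusion hle).toRingHom.toAlgebra
  haveI : IsScalarTower ℚ_[p] ↥(h6_localField p (h13_Qn p n)) ↥(ℚ_[p]⟮padicEmbedding p z⟯) :=
    IsScalarTower.of_algebraMap_eq (fun x => rfl)
  haveI : FiniteDimensional ℚ ↥(h13_Qn p n) := h13_Qn_finiteDimensional p hp2 n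
  have hB : Module.finrank ℚ_[p] ↥(h6_localField p (h13_Qn p n)) = p ^ n := by
    rw [h13_finrank_localField, h13_Qn_local_index_self p hp2 n]
  exact (h18_layer_norm_range_iff_vp p hp2 (n + 1) (Nat.succ_ne_zero n)
    ↥(ℚ_[p]⟮padicEmbedding p z⟯) ↥(h6_localField p (h13_Qn p n)) n hB t).2 h

/-- If `(q^(p-1))^v ∈ U1^(p^n)` then the order of `q^(p-1)` modulo `p^(n+1)` divides `v`. -/
theorem h13_orderOf_dvd_of_natU1 (hp2 : p ≠ 2) (hqp : q ≠ p) (n : ℕ) (v : ℤ)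
    (h : ∃ u : h18_U1 p, u ^ (p ^ n) = h18_natU1 p q ^ v) :
    (orderOf (ZMod.unitOfCoprime q (h13_coprime_of_ne p q hqp (n + 1)) ^ (p - 1)) : ℤ) ∣ v := by
  have hp : p.Prime := Fact.out
  have hq : q.Prime := Fact.out
  have hpq : ¬ p ∣ q := fun hd => hqp ((Nat.prime_dvd_prime_iff_eq hp hq).mp hd).symm
  -- pass to `k = |v|`
  obtain ⟨u, hu⟩ := h
  have hk : ∃ u' : h18_U1 p, u' ^ (p ^ n) = h18_natU1 p q ^ v.natAbs := by
    rcases Int.natAbs_eq v with hv | hv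
    · refine ⟨u, ?_⟩
      rw [hu]
      conv_lhs => rw [hv]
      rw [zpow_natCast]
    · refine ⟨u⁻¹, ?_⟩
      rw [inv_pow, hu]
      conv_lhs => rw [hv]
      rw [zpow_neg, inv_inv, zpow_natCast]
  rw [← h18_natU1_pow p hpq] at hk
  have hpqk : ¬ p ∣ q ^ v.natAbs := fun hd => hpq (hp.dvd_of_dvd_pow hd)
  have hmod := (h18_natU1_pow_iff p hp2 n hpqk).1 hk
  have h1 : (ZMod.unitOfCoprime q (h13_coprime_of_ne p q hqp (n + 1)) ^ (p - 1)) ^ v.natAbs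
      = 1 := by
    apply Units.ext
    rw [Units.val_pow_eq_pow_val, Units.val_pow_eq_pow_val, ZMod.coe_unitOfCoprime,
      Units.val_one]
    have h2 := (ZMod.natCast_eq_natCast_iff _ _ _).2 hmod
    push_cast at h2
    rw [← pow_mul, mul_comm, pow_mul]
    exact h2
  have h3 := orderOf_dvd_of_pow_eq_one h1
  exact Int.dvd_natAbs.mp (Int.natCast_dvd_natCast.mpr h3)

/-- **Local norm criterion at `q ≠ p`** (LOC-UNR): `t ∈ ℚ_qˣ` with
`(q^(p-1))^(ord_q t) ∈ U1 ^ (p ^ n)` is a norm from `ℚ_q · Q_n`. -/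
theorem h13_hloc_q (hp2 : p ≠ 2) (hqp : q ≠ p) (n : ℕ) (t : ℚ_[q]ˣ)
    (h : ∃ u : h18_U1 p, u ^ (p ^ n) = h18_natU1 p q ^ Padic.valuation (t : ℚ_[q])) :
    t ∈ (Units.map (Algebra.norm ℚ_[q] : ↥(h6_localField q (h13_Qn p n)) →* ℚ_[q])).range := by
  have hp : p.Prime := Fact.out
  obtain ⟨z, hz⟩ := HasEnoughRootsOfUnity.exists_primitiveRoot Qbar (p ^ (n + 1))
  have hne : NeZero (p ^ (n + 1)) := ⟨pow_ne_zero _ hp.ne_zero⟩
  have hz' : IsPrimitiveRoot (padicEmbedding q z) (p ^ (n + 1)) :=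
    hz.map_of_injective (padicEmbedding q).injective
  have hcyc : IsCyclotomicExtension {p ^ (n + 1)} ℚ_[q] ↥(ℚ_[q]⟮padicEmbedding q z⟯) :=
    hz'.intermediateField_adjoin_isCyclotomicExtension ℚ_[q]
  have hle := h13_localField_Qn_le p q n hz
  letI : Algebra ↥(h6_localField q (h13_Qn p n)) ↥(ℚ_[q]⟮padicEmbedding q z⟯) :=
    (IntermediateField.inclusion hle).toRingHom.toAlgebra
  haveI : IsScalarTower ℚ_[q] ↥(h6_localField q (h13_Qn p n)) ↥(ℚ_[q]⟮padicEmbedding q z⟯) :=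
    IsScalarTower.of_algebraMap_eq (fun x => rfl)
  haveI : FiniteDimensional ℚ ↥(h13_Qn p n) := h13_Qn_finiteDimensional p hp2 n
  have hB : Module.finrank ℚ_[q] ↥(h6_localField q (h13_Qn p n)) =
      orderOf (ZMod.unitOfCoprime q (h13_coprime_of_ne p q hqp (n + 1)) ^ (p - 1)) := by
    rw [h13_finrank_localField, h13_Qn_local_index_eq p q hqp n]
  rw [(h24_cycQ_layer q p hqp (n + 1) ↥(ℚ_[q]⟮padicEmbedding q z⟯)
    ↥(h6_localField q (h13_Qn p n))).2.2.2 t, hB]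
  exact h13_orderOf_dvd_of_natU1 p q hp2 hqp n _ h

end Qn

/-! ### `Gal(Q_n/ℚ)` is cyclic -/

section Cyc

variable (p : ℕ) [Fact p.Prime]

theorem h13_Qn_exists_gen (hp2 : p ≠ 2) (n : ℕ) (F : IntermediateField ℚ Qbar)
    (hF : F = h13_Qn p n) [IsGalois ℚ ↥F] :
    ∃ γ : ↥F ≃ₐ[ℚ] ↥F, ∀ x : ↥F ≃ₐ[ℚ] ↥F, x ∈ Subgroup.zpowers γ := by
  subst hF
  have hsurj := h13_deg_surjective p hp2 n
  have hres : Function.Surjective (h97_π (h13_Qn p n)) := h97_π_surjective (h13_Qn p n)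
  have hker : (h13_deg p hp2 n).ker ≤ (h97_π (h13_Qn p n)).ker := by
    rw [h13_deg_ker, h97_π_ker]
  let f : Multiplicative (ZMod (p ^ n)) →* (↥(h13_Qn p n) ≃ₐ[ℚ] ↥(h13_Qn p n)) :=
    (h13_deg p hp2 n).liftOfRightInverse (Function.surjInv hsurj)
      (Function.rightInverse_surjInv hsurj) ⟨h97_π (h13_Qn p n), hker⟩
  have hf : ∀ g, f (h13_deg p hp2 n g) = h97_π (h13_Qn p n) g := fun g =>
    MonoidHom.liftOfRightInverse_comp_apply _ _ _ ⟨_, hker⟩ g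
  have hfs : Function.Surjective f := fun x => by
    obtain ⟨g, rfl⟩ := hres x
    exact ⟨_, hf g⟩
  have hcyc : IsCyclic (↥(h13_Qn p n) ≃ₐ[ℚ] ↥(h13_Qn p n)) := isCyclic_of_surjective f hfs
  exact hcyc.exists_generator

theorem h13_psi_eq_one_of_fix (n : ℕ) (σ : Qbar ≃ₐ[ℚ] Qbar)
    (h : ∀ y : ↥(h13_Qn p n), σ (algebraMap ↥(h13_Qn p n) Qbar y) =
      algebraMap ↥(h13_Qn p n) Qbar y) : h13_psi p n σ = 1 := by
  have h1 : σ ∈ (h13_Qn p n).fixingSubgroup :=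
    (IntermediateField.mem_fixingSubgroup_iff _ _).2 (fun x hx => h ⟨x, hx⟩)
  rw [h13_Qn_fixingSubgroup] at h1
  exact h1

end Cyc

/-! ### The hypothesis `hnorm` at `Q_n` -/

section Hnorm

variable (S : Finset Nat.Primes) (P : S)

/-- **`hnorm` at `Q_n`, honest multiplicative form.** -/
theorem h13_hnorm_Qn (hp2 : ((P : Nat.Primes) : ℕ) ≠ 2) (q : S) (n : ℕ)
    (F : IntermediateField ℚ Qbar) (hF : F = h13_Qn ((P : Nat.Primes) : ℕ) n)
    [NumberField ↥F] [IsGalois ℚ ↥F]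
    (x : h25_Jq ↥F ((q : Nat.Primes) : ℕ))
    (hx : ∀ (σ : ↥F ≃ₐ[ℚ] ↥F) (j : ↥F →+* PadicAlgCl ((q : Nat.Primes) : ℕ)),
      (x : (↥F →+* PadicAlgCl ((q : Nat.Primes) : ℕ)) → (PadicAlgCl ((q : Nat.Primes) : ℕ))ˣ)
        (j.comp (σ : ↥F →+* ↥F))
        = (x : (↥F →+* PadicAlgCl ((q : Nat.Primes) : ℕ)) → (PadicAlgCl ((q : Nat.Primes) : ℕ))ˣ) j)
    (c : h25_C ↥F S)
    (hc : h25_mk ↥F S ((Pi.mulSingle q x : h25_J ↥F S), 1)
      = ∏ σ : ↥F ≃ₐ[ℚ] ↥F, h25_Cmap S (σ : ↥F →+* ↥F) c) :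
    ∃ φ : h25_Jq ↥F ((q : Nat.Primes) : ℕ), ∀ j : ↥F →+* PadicAlgCl ((q : Nat.Primes) : ℕ),
      ∏ σ : ↥F ≃ₐ[ℚ] ↥F,
        (φ : (↥F →+* PadicAlgCl ((q : Nat.Primes) : ℕ)) → (PadicAlgCl ((q : Nat.Primes) : ℕ))ˣ)
          (j.comp (σ : ↥F →+* ↥F))
        = (x : (↥F →+* PadicAlgCl ((q : Nat.Primes) : ℕ)) → (PadicAlgCl ((q : Nat.Primes) : ℕ))ˣ) j := by
  subst hF
  have hdeg : Module.finrank ℚ ↥(h13_Qn ((P : Nat.Primes) : ℕ) n) = ((P : Nat.Primes) : ℕ) ^ n :=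
    h13_Qn_finrank _ hp2 n
  have hprin := h10_w_diag ↥(h13_Qn ((P : Nat.Primes) : ℕ) n) S P hp2
  have hinv : ∀ (σ : ↥(h13_Qn ((P : Nat.Primes) : ℕ) n) ≃ₐ[ℚ] ↥(h13_Qn ((P : Nat.Primes) : ℕ) n))
      (y : h25_X ↥(h13_Qn ((P : Nat.Primes) : ℕ) n) S),
      h25_w ↥(h13_Qn ((P : Nat.Primes) : ℕ) n) S P
        (h25_Xmap S (σ : ↥(h13_Qn ((P : Nat.Primes) : ℕ) n) →+* ↥(h13_Qn ((P : Nat.Primes) : ℕ) n)) y)
        = h25_w ↥(h13_Qn ((P : Nat.Primes) : ℕ) n) S P y := fun σ y =>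
    h84_w_inv S P σ.toRingEquiv y
  have hFm : ∀ v : h25_Pl ↥(h13_Qn ((P : Nat.Primes) : ℕ) n) S,
      Ideal.absNorm v.1.asIdeal ^ (((P : Nat.Primes) : ℕ) - 1) ≡ 1
        [MOD ((P : Nat.Primes) : ℕ) ^ (n + 1)] := by
    intro v
    exact h18_Qn_absNorm_pow_pred_modEq ((P : Nat.Primes) : ℕ) hp2 n
      ↥(h13_Qn ((P : Nat.Primes) : ℕ) n) (algebraMap ↥(h13_Qn ((P : Nat.Primes) : ℕ) n) Qbar)
      (fun σ h => h13_psi_eq_one_of_fix _ n σ h) v.1.asIdeal v.1.ne_bot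
      (fun h => v.2 ⟨P.1, P.2, h⟩)
  have hV1 := h21_w_V1 ↥(h13_Qn ((P : Nat.Primes) : ℕ) n) S P hp2 n hFm
  by_cases hqP : q = P
  · subst hqP
    refine h13_hnorm_core_p S q hp2 n hdeg hprin hinv hV1
      (h13_emb ((q : Nat.Primes) : ℕ) (h13_Qn ((q : Nat.Primes) : ℕ) n)) ?_ x hx c hc
    intro t ht
    rw [h13_locField_eq]
    exact h13_hloc_p _ hp2 n t ht
  · have hqp : ((q : Nat.Primes) : ℕ) ≠ ((P : Nat.Primes) : ℕ) := fun h =>
      hqP (Subtype.ext (Subtype.ext h))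
    refine h13_hnorm_core_q S P hp2 n hdeg hprin hinv hV1 q hqP
      (h13_emb ((q : Nat.Primes) : ℕ) (h13_Qn ((P : Nat.Primes) : ℕ) n)) ?_ x hx c hc
    intro t ht
    rw [h13_locField_eq]
    exact h13_hloc_q _ _ hp2 hqp n t ht

/-- **`hnorm` at `Q_n`, additive form** with the Galois actions `h4_JqAct`, `h90_CAct`. -/
theorem h13_hnorm_Qn_add (hp2 : ((P : Nat.Primes) : ℕ) ≠ 2) (q : S) (n : ℕ)
    (F : IntermediateField ℚ Qbar) (hF : F = h13_Qn ((P : Nat.Primes) : ℕ) n)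
    [NumberField ↥F] [IsGalois ℚ ↥F]
    (k₀ : Additive (h25_Jq ↥F ((q : Nat.Primes) : ℕ)) →+ Additive (h25_C ↥F S))
    (hk₀ : ∀ y : Additive (h25_Jq ↥F ((q : Nat.Primes) : ℕ)),
      Additive.toMul (k₀ y) = h25_mk ↥F S ((Pi.mulSingle q (Additive.toMul y) : h25_J ↥F S), 1))
    (γ : ↥F ≃ₐ[ℚ] ↥F) (hγ : ∀ x : ↥F ≃ₐ[ℚ] ↥F, x ∈ Subgroup.zpowers γ)
    (j : Additive (h25_Jq ↥F ((q : Nat.Primes) : ℕ))) (hj : γ • j = j)
    (hc : ∃ c : Additive (h25_C ↥F S), h12_cycNorm γ c = k₀ j) :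
    ∃ b : Additive (h25_Jq ↥F ((q : Nat.Primes) : ℕ)), h12_cycNorm γ b = j := by
  classical
  obtain ⟨c, hc⟩ := hc
  have hfix : ∀ σ : ↥F ≃ₐ[ℚ] ↥F, σ • j = j := by
    intro σ
    have hle : Subgroup.zpowers γ ≤ MulAction.stabilizer (↥F ≃ₐ[ℚ] ↥F) j := by
      rw [Subgroup.zpowers_le]
      exact hj
    exact hle (hγ σ)
  have hx : ∀ (σ : ↥F ≃ₐ[ℚ] ↥F) (i : ↥F →+* PadicAlgCl ((q : Nat.Primes) : ℕ)),
      (Additive.toMul j).1 (i.comp (σ : ↥F →+* ↥F)) = (Additive.toMul j).1 i := by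
    intro σ i
    exact congrArg (fun y : Additive (h25_Jq ↥F ((q : Nat.Primes) : ℕ)) =>
      (Additive.toMul y).1 i) (hfix σ)
  rw [h13_cycNorm_eq_sum γ hγ] at hc
  have hc' : h25_mk ↥F S ((Pi.mulSingle q (Additive.toMul j) : h25_J ↥F S), 1)
      = ∏ σ : ↥F ≃ₐ[ℚ] ↥F, h25_Cmap S (σ : ↥F →+* ↥F) (Additive.toMul c) := by
    rw [← hk₀, ← hc, toMul_sum]
    rfl
  obtain ⟨φ, hφ⟩ := h13_hnorm_Qn S P hp2 q n F hF (Additive.toMul j) hx (Additive.toMul c) hc'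
  refine ⟨Additive.ofMul φ, ?_⟩
  rw [h13_cycNorm_eq_sum γ hγ]
  apply Additive.toMul.injective
  rw [toMul_sum]
  apply Subtype.ext
  funext i
  rw [Subgroup.val_finsetProd, Finset.prod_apply]
  exact hφ i

/-- **The hypothesis `hcyc` of `h4_beta_of_levels`, concrete carrier**: for every `n` there is a
layer `F = Q_n'` of the cyclotomic `ℤ_p`-tower, with `Gal(F/ℚ) = ⟨γ⟩`, at which `hnorm` holds
for the `p`-localised modules and `J_q(F) ⊗ ℤ_(p)` is coinduced from a `p`-class module of a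
subgroup `D` with `p^n ∣ |D|`. -/
theorem h13_hcyc (hp2 : ((P : Nat.Primes) : ℕ) ≠ 2) (q : S) (n : ℕ) :
    ∃ n' : ℕ, ∀ (F : IntermediateField ℚ Qbar), F = h13_Qn ((P : Nat.Primes) : ℕ) n' →
      ∀ [NumberField ↥F] [IsGalois ℚ ↥F]
        (k₀ : Additive (h25_Jq ↥F ((q : Nat.Primes) : ℕ)) →+ Additive (h25_C ↥F S)),
        (∀ y : Additive (h25_Jq ↥F ((q : Nat.Primes) : ℕ)),
          Additive.toMul (k₀ y) =
            h25_mk ↥F S ((Pi.mulSingle q (Additive.toMul y) : h25_J ↥F S), 1)) →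
        ∃ γ : ↥F ≃ₐ[ℚ] ↥F, (∀ x : ↥F ≃ₐ[ℚ] ↥F, x ∈ Subgroup.zpowers γ) ∧
          (∀ j : h2_PL ((P : Nat.Primes) : ℕ) (Additive (h25_Jq ↥F ((q : Nat.Primes) : ℕ))),
            γ • j = j →
            (∃ c : h2_PL ((P : Nat.Primes) : ℕ) (Additive (h25_C ↥F S)),
              h12_cycNorm γ c = h2_PL.map k₀ j) →
            ∃ b : h2_PL ((P : Nat.Primes) : ℕ) (Additive (h25_Jq ↥F ((q : Nat.Primes) : ℕ))),
              h12_cycNorm γ b = j) ∧
          ∃ (D : Subgroup (↥F ≃ₐ[ℚ] ↥F)) (X : Type) (_ : AddCommGroup X)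
            (_ : DistribMulAction D X)
            (ev : h2_PL ((P : Nat.Primes) : ℕ) (Additive (h25_Jq ↥F ((q : Nat.Primes) : ℕ))) →+ X),
            (∀ (d : D) (y : h2_PL ((P : Nat.Primes) : ℕ)
                (Additive (h25_Jq ↥F ((q : Nat.Primes) : ℕ)))),
              ev ((d : ↥F ≃ₐ[ℚ] ↥F) • y) = d • ev y) ∧
            (∀ φ : (↥F ≃ₐ[ℚ] ↥F) → X,
              (∀ (d : D) (g : ↥F ≃ₐ[ℚ] ↥F), φ ((d : ↥F ≃ₐ[ℚ] ↥F) * g) = d • φ g) →
              ∃! y : h2_PL ((P : Nat.Primes) : ℕ) (Additive (h25_Jq ↥F ((q : Nat.Primes) : ℕ))),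
                ∀ g : ↥F ≃ₐ[ℚ] ↥F, ev (g • y) = φ g) ∧
            IsPClassModule ((P : Nat.Primes) : ℕ) D X ∧
            n ≤ (Nat.card D).factorization ((P : Nat.Primes) : ℕ) := by
  have hp : (((P : Nat.Primes) : ℕ)).Prime := P.1.2
  obtain ⟨n₀, hn₀⟩ := h13_Qn_local_index_dvd ((P : Nat.Primes) : ℕ) ((q : Nat.Primes) : ℕ) hp2 n
  refine ⟨n₀, ?_⟩
  intro F hF _ _ k₀ hk₀
  obtain ⟨γ, hγ⟩ := h13_Qn_exists_gen ((P : Nat.Primes) : ℕ) hp2 n₀ F hF
  refine ⟨γ, hγ, fun j hj hc => h13_hnorm_PL γ k₀ (fun x hx hcx =>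
    h13_hnorm_Qn_add S P hp2 q n₀ F hF k₀ hk₀ γ hγ x hx hcx) j hj hc, ?_⟩
  haveI : FiniteDimensional ℚ_[((q : Nat.Primes) : ℕ)]
      ↥(h84_localField (h13_emb ((q : Nat.Primes) : ℕ) F)) :=
    h28_locField_finite ((q : Nat.Primes) : ℕ) (h13_emb ((q : Nat.Primes) : ℕ) F)
  refine ⟨h4_dec ((q : Nat.Primes) : ℕ) (h13_emb ((q : Nat.Primes) : ℕ) F),
    h2_PL ((P : Nat.Primes) : ℕ) (h4_LocX ((q : Nat.Primes) : ℕ) (h13_emb ((q : Nat.Primes) : ℕ) F)),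
    inferInstance, inferInstance,
    h2_PL.map (h4_JqEv ((q : Nat.Primes) : ℕ) (h13_emb ((q : Nat.Primes) : ℕ) F)),
    (h4_JqEv_PL ((q : Nat.Primes) : ℕ) (h13_emb ((q : Nat.Primes) : ℕ) F)).1,
    (h4_JqEv_PL ((q : Nat.Primes) : ℕ) (h13_emb ((q : Nat.Primes) : ℕ) F)).2,
    h4_locX_class ((q : Nat.Primes) : ℕ) (h13_emb ((q : Nat.Primes) : ℕ) F)
      (h63_local_classModule ((q : Nat.Primes) : ℕ) ((P : Nat.Primes) : ℕ) _), ?_⟩
  -- the order of the decomposition group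
  have hcard : Nat.card (h4_dec ((q : Nat.Primes) : ℕ) (h13_emb ((q : Nat.Primes) : ℕ) F)) =
      ((F.fixingSubgroup).comap (localGaloisToGlobal ((q : Nat.Primes) : ℕ))).index := by
    rw [h4_card_dec]
    have h1 : h84_localField (h13_emb ((q : Nat.Primes) : ℕ) F) =
        h6_localField ((q : Nat.Primes) : ℕ) F := h13_locField_eq ((q : Nat.Primes) : ℕ) F
    rw [h1]
    exact h13_finrank_localField ((q : Nat.Primes) : ℕ) F
  have hdvd : ((P : Nat.Primes) : ℕ) ^ n ∣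
      Nat.card (h4_dec ((q : Nat.Primes) : ℕ) (h13_emb ((q : Nat.Primes) : ℕ) F)) := by
    rw [hcard, hF]
    exact hn₀ n₀ le_rfl
  have hne : Nat.card (h4_dec ((q : Nat.Primes) : ℕ) (h13_emb ((q : Nat.Primes) : ℕ) F)) ≠ 0 :=
    Nat.card_pos.ne'
  exact (hp.pow_dvd_iff_le_factorization hne).1 hdvd

end Hnorm

/-! ### The level form -/

section Level

variable (p : ℕ) [Fact p.Prime] (S : Finset Nat.Primes)

/-- The layer `Q_n` as a Galois `S`-level (`p ∈ S`). -/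
noncomputable def h13_QnLevel (hpS : ExtCitation.pPrime p ∈ S) (n : ℕ) : h56_Level S :=
  ⟨h13_Qn p n, h13_Qn_isUnramifiedOutside p S hpS n, h13_Qn_isGalois p n⟩

theorem h13_QnLevel_field (hpS : ExtCitation.pPrime p ∈ S) (n : ℕ) :
    (h13_QnLevel p S hpS n).field = h13_Qn p n := rfl

/-- **`hcyc`, level form**: the statement of `h13_hcyc` for a level `M : h56_Level S` and the
prime `p` (`pPrime p ∈ S`). -/
theorem h13_hcyc_level (hp2 : p ≠ 2) (hpS : ExtCitation.pPrime p ∈ S) (q : S) (n : ℕ) :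
    ∃ M : h56_Level S, ∀ [NumberField ↥M.field] [IsGalois ℚ ↥M.field]
        (k₀ : Additive (h25_Jq ↥M.field ((q : Nat.Primes) : ℕ)) →+ Additive (h25_C ↥M.field S)),
        (∀ y : Additive (h25_Jq ↥M.field ((q : Nat.Primes) : ℕ)),
          Additive.toMul (k₀ y) =
            h25_mk ↥M.field S ((Pi.mulSingle q (Additive.toMul y) : h25_J ↥M.field S), 1)) →
        ∃ γ : ↥M.field ≃ₐ[ℚ] ↥M.field, (∀ x : ↥M.field ≃ₐ[ℚ] ↥M.field, x ∈ Subgroup.zpowers γ) ∧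
          (∀ j : h2_PL p (Additive (h25_Jq ↥M.field ((q : Nat.Primes) : ℕ))),
            γ • j = j →
            (∃ c : h2_PL p (Additive (h25_C ↥M.field S)),
              h12_cycNorm γ c = h2_PL.map k₀ j) →
            ∃ b : h2_PL p (Additive (h25_Jq ↥M.field ((q : Nat.Primes) : ℕ))),
              h12_cycNorm γ b = j) ∧
          ∃ (D : Subgroup (↥M.field ≃ₐ[ℚ] ↥M.field)) (X : Type) (_ : AddCommGroup X)
            (_ : DistribMulAction D X)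
            (ev : h2_PL p (Additive (h25_Jq ↥M.field ((q : Nat.Primes) : ℕ))) →+ X),
            (∀ (d : D) (y : h2_PL p (Additive (h25_Jq ↥M.field ((q : Nat.Primes) : ℕ)))),
              ev ((d : ↥M.field ≃ₐ[ℚ] ↥M.field) • y) = d • ev y) ∧
            (∀ φ : (↥M.field ≃ₐ[ℚ] ↥M.field) → X,
              (∀ (d : D) (g : ↥M.field ≃ₐ[ℚ] ↥M.field),
                φ ((d : ↥M.field ≃ₐ[ℚ] ↥M.field) * g) = d • φ g) →
              ∃! y : h2_PL p (Additive (h25_Jq ↥M.field ((q : Nat.Primes) : ℕ))),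
                ∀ g : ↥M.field ≃ₐ[ℚ] ↥M.field, ev (g • y) = φ g) ∧
            IsPClassModule p D X ∧ n ≤ (Nat.card D).factorization p := by
  obtain ⟨n', h⟩ := h13_hcyc S ⟨ExtCitation.pPrime p, hpS⟩ hp2 q n
  refine ⟨h13_QnLevel p S hpS n', ?_⟩
  intro _ _ k₀ hk₀
  exact h (h13_QnLevel p S hpS n').field rfl k₀ hk₀

end Level

end Fermat.Agent.S55
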