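import Fermat.Agent.S55.h18_CycPField

/-!
# LOC-6 (bridge): the degree of a layer of `ℚ_[p](ζ_{p^(a+1)})`

If `ℚ_[p] ⊆ B ⊆ K = ℚ_[p](ζ_{p^(a+1)})`, `[B : ℚ_[p]] ≤ p ^ a` and `[K : B] ≤ p - 1`
(e.g. `K = B(ζ_p)`), then `[B : ℚ_[p]] = p ^ a` and `[K : B] = p - 1`.
This is how "the completion at `p` of the `a`-th layer of the cyclotomic `ℤ_p`-extension has
degree `p ^ a`" is obtained from the global degree bound.
-/

namespace Fermat.Agent.S55

open Polynomial

variable (p : ℕ) [Fact p.Prime]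

theorem h18_layer_finrank_eq (a : ℕ) (K : Type*) [Field K] [Algebra ℚ_[p] K]
    [IsCyclotomicExtension {p ^ (a + 1)} ℚ_[p] K]
    (B : Type*) [Field B] [Algebra ℚ_[p] B] [Algebra B K] [IsScalarTower ℚ_[p] B K]
    (hle : Module.finrank ℚ_[p] B ≤ p ^ a) (hK : Module.finrank B K ≤ p - 1) :
    Module.finrank ℚ_[p] B = p ^ a ∧ Module.finrank B K = p - 1 := by
  have hpp : p.Prime := Fact.out
  have hfin := IsCyclotomicExtension.finiteDimensional {p ^ (a + 1)} ℚ_[p] K
  have hfinB : FiniteDimensional ℚ_[p] B := FiniteDimensional.left ℚ_[p] B K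
  have hfinBK : FiniteDimensional B K := FiniteDimensional.right ℚ_[p] B K
  have hmul := Module.finrank_mul_finrank ℚ_[p] B K
  rw [h18_cyclotomic_finrank_padic p (a + 1) K, Nat.totient_prime_pow_succ hpp] at hmul
  have hpos : 0 < p ^ a := pow_pos hpp.pos _
  have hp1 : 0 < p - 1 := Nat.sub_pos_of_lt hpp.one_lt
  have h1 : Module.finrank ℚ_[p] B = p ^ a := by
    by_contra hne
    have hlt : Module.finrank ℚ_[p] B < p ^ a := lt_of_le_of_ne hle hne
    have : Module.finrank ℚ_[p] B * Module.finrank B K < p ^ a * (p - 1) :=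
      calc Module.finrank ℚ_[p] B * Module.finrank B K
          ≤ Module.finrank ℚ_[p] B * (p - 1) := Nat.mul_le_mul_left _ hK
        _ < p ^ a * (p - 1) := Nat.mul_lt_mul_of_pos_right hlt hp1
    omega
  refine ⟨h1, ?_⟩
  rw [h1] at hmul
  exact Nat.eq_of_mul_eq_mul_left hpos hmul

/-- If `K = B(ζ')` with `ζ'` a primitive `p`-th root of unity then `[K : B] ≤ p - 1`. -/
theorem h18_finrank_le_of_adjoin_primitiveRoot {B K : Type*} [Field B] [Field K] [Algebra B K]
    (ζ' : K) (hζ' : IsPrimitiveRoot ζ' p) (hgen : IntermediateField.adjoin B {ζ'} = ⊤) :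
    Module.finrank B K ≤ p - 1 := by
  have hpp : p.Prime := Fact.out
  have hint : IsIntegral B ζ' := hζ'.isIntegral hpp.pos |>.tower_top
  have h1 : Module.finrank B K = (minpoly B ζ').natDegree := by
    rw [← IntermediateField.adjoin.finrank hint, hgen, IntermediateField.finrank_top']
  rw [h1]
  have hroot : aeval ζ' (cyclotomic p B) = 0 := by
    have hne0 : NeZero p := ⟨hpp.ne_zero⟩
    have hne : NeZero ((p : ℕ) : K) := hζ'.neZero'
    rw [aeval_def, eval₂_eq_eval_map, map_cyclotomic]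
    exact (isRoot_cyclotomic_iff.2 hζ')
  have hdvd := minpoly.dvd B ζ' hroot
  have hle := natDegree_le_of_dvd hdvd (cyclotomic_ne_zero p B)
  rw [natDegree_cyclotomic, Nat.totient_prime hpp] at hle
  exact hle

/-- Combined form: `K = B(ζ_p)` and `[B : ℚ_[p]] ≤ p ^ a` give `[B : ℚ_[p]] = p ^ a`. -/
theorem h18_layer_finrank_eq_of_adjoin (a : ℕ) (K : Type*) [Field K] [Algebra ℚ_[p] K]
    [IsCyclotomicExtension {p ^ (a + 1)} ℚ_[p] K]
    (B : Type*) [Field B] [Algebra ℚ_[p] B] [Algebra B K] [IsScalarTower ℚ_[p] B K]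
    (hle : Module.finrank ℚ_[p] B ≤ p ^ a)
    (ζ' : K) (hζ' : IsPrimitiveRoot ζ' p) (hgen : IntermediateField.adjoin B {ζ'} = ⊤) :
    Module.finrank ℚ_[p] B = p ^ a :=
  (h18_layer_finrank_eq p a K B hle
    (h18_finrank_le_of_adjoin_primitiveRoot p ζ' hζ' hgen)).1

end Fermat.Agent.S55
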