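import Fermat.Agent.S55.h13_CycTower
import Fermat.Agent.S55.h18_CycPFinal
import Fermat.Agent.S55.h18_CycPDegree
import Fermat.Agent.S55.h28_SemilocJq

/-!
# GLOB-BETA, the local input `hloc` at `q = p` for the layers `Q_n` of the cyclotomic tower

For an arbitrary embedding `j₀ : Q_n →+* PadicAlgCl q` (`Q_n = h13_Qn p n`):

* `h18_exists_local_gen` : there are a primitive `p^(n+1)`-th root of unity `ζ''` of the target
  and a monic `f ∈ Q_n[X]` of degree `≤ p - 1` with `f(ζ) = 0`, `j₀(f)(ζ'') = 0`, and the transfer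
  property "`h(ζ) = 0 ⟹ j₀(h)(ζ'') = 0`" for `h ∈ Q_n[X]` (`ζ` a fixed primitive root in `Qbar`);
* `h18_locField_le` : `ℚ_q · j₀(Q_n) ⊆ ℚ_q(ζ'')`;  `h18_finrank_top_le` : the index is `≤ p - 1`;
* `h18_finrank_locField_le` : `[ℚ_q · j(M) : ℚ_q] ≤ [M : ℚ]` for any number field `M`;
* `h18_finrank_locField_Qn` : `[ℚ_p · j₀(Q_n) : ℚ_p] = p ^ n` (total ramification at `p`);
* `h18_hloc_p` : `t ∈ ℚ_pˣ` with `v_p(t) ∈ U1 ^ (p ^ n)` is a norm from `ℚ_p · j₀(Q_n)`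
  (verbatim the hypothesis `hloc` of `h13_hnorm_core_p` for `M = Q_n`).
-/

namespace Fermat.Agent.S55

open Polynomial IntermediateField

local notation "Qbar" => AlgebraicClosure ℚ

local instance h18_bl_isAlgebraicQbar : Algebra.IsAlgebraic ℚ (AlgebraicClosure ℚ) :=
  AlgebraicClosure.isAlgebraic ℚ

variable (p : ℕ) [Fact p.Prime]

/-- Elements of `ℚ(ζ)` are polynomials in `ζ`. -/
theorem h18_exists_aeval_of_mem_adjoin {E : Type*} [Field E] [Algebra ℚ E] (ζ : E)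
    (hζ : IsIntegral ℚ ζ) (x : E) (hx : x ∈ ℚ⟮ζ⟯) : ∃ g : ℚ[X], x = aeval ζ g := by
  have h1 : x ∈ (ℚ⟮ζ⟯).toSubalgebra := hx
  rw [IntermediateField.adjoin_simple_toSubalgebra_of_isAlgebraic hζ.isAlgebraic,
    Algebra.adjoin_singleton_eq_range_aeval] at h1
  obtain ⟨g, hg⟩ := h1
  exact ⟨g, hg.symm⟩

/-- **Local generator.** For an embedding `j₀` of the layer `Q_n` into an algebraically closed
field `Ω` of characteristic zero there is a primitive `p^(n+1)`-th root of unity `ζ''` of `Ω`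
such that `j₀ (g ζ) = g ζ''` for all `g ∈ ℚ[X]` with `g ζ ∈ Q_n`, together with a monic
polynomial over `Q_n` of degree `≤ p - 1` killing `ζ` whose image kills `ζ''`. -/
theorem h18_exists_local_gen (hp2 : p ≠ 2) (n : ℕ) {Ω : Type*} [Field Ω] [CharZero Ω]
    [IsAlgClosed Ω] (j₀ : ↥(h13_Qn p n) →+* Ω) (ζ : Qbar)
    (hζ : IsPrimitiveRoot ζ (p ^ (n + 1))) :
    ∃ (ζ'' : Ω) (f : (↥(h13_Qn p n))[X]), IsPrimitiveRoot ζ'' (p ^ (n + 1)) ∧
      f.Monic ∧ f.natDegree ≤ p - 1 ∧ eval ζ'' (f.map j₀) = 0 ∧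
      ∀ (h : (↥(h13_Qn p n))[X]), eval₂ (algebraMap ↥(h13_Qn p n) Qbar) ζ h = 0 →
        eval ζ'' (h.map j₀) = 0 := by
  have hpp : p.Prime := Fact.out
  have hle := h13_Qn_le_adjoin p n hζ
  haveI : FiniteDimensional ℚ (h13_Qn p n) := h13_Qn_finiteDimensional p hp2 n
  haveI : FiniteDimensional ℚ ℚ⟮ζ⟯ :=
    IntermediateField.adjoin.finiteDimensional (Algebra.IsIntegral.isIntegral ζ)
  haveI : NumberField ℚ⟮ζ⟯ :=
    { to_charZero := inferInstance, to_finiteDimensional := inferInstance }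
  haveI : NeZero (p ^ (n + 1)) := ⟨pow_ne_zero _ hpp.ne_zero⟩
  haveI : IsCyclotomicExtension {p ^ (n + 1)} ℚ ℚ⟮ζ⟯ :=
    hζ.intermediateField_adjoin_isCyclotomicExtension ℚ
  letI : Algebra (h13_Qn p n) ℚ⟮ζ⟯ := (IntermediateField.inclusion hle).toRingHom.toAlgebra
  have hfin : Module.finrank (h13_Qn p n) ℚ⟮ζ⟯ = p - 1 := by
    have h1 : Module.finrank ℚ (h13_Qn p n) * Module.finrank (h13_Qn p n) ℚ⟮ζ⟯ =
        Module.finrank ℚ ℚ⟮ζ⟯ := Module.finrank_mul_finrank ℚ _ _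
    have h2 : Module.finrank ℚ ℚ⟮ζ⟯ = (p ^ (n + 1)).totient :=
      IsCyclotomicExtension.finrank ℚ⟮ζ⟯
        (Polynomial.cyclotomic.irreducible_rat (pow_pos hpp.pos _))
    rw [h13_Qn_finrank p hp2, h2, Nat.totient_prime_pow_succ hpp] at h1
    exact Nat.eq_of_mul_eq_mul_left (pow_pos hpp.pos n) h1
  haveI : FiniteDimensional (h13_Qn p n) ℚ⟮ζ⟯ := FiniteDimensional.right ℚ _ _
  -- the generator and its minimal polynomial over `Q_n`
  set ζK : ℚ⟮ζ⟯ := ⟨ζ, mem_adjoin_simple_self ℚ ζ⟩ with hζK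
  have hint : IsIntegral (h13_Qn p n) ζK := Algebra.IsIntegral.isIntegral ζK
  set f := minpoly (h13_Qn p n) ζK with hf
  have hmonic : f.Monic := minpoly.monic hint
  have hdeg : f.natDegree ≤ p - 1 := by
    rw [← hfin]
    exact minpoly.natDegree_le ζK
  -- evaluation in `Qbar` versus evaluation in `ℚ(ζ)`
  have hev : ∀ h : (↥(h13_Qn p n))[X],
      eval₂ (algebraMap ↥(h13_Qn p n) Qbar) ζ h = ((aeval ζK h : ℚ⟮ζ⟯) : Qbar) := by
    intro h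
    have h1 := Polynomial.hom_eval₂ h (algebraMap ↥(h13_Qn p n) ↥ℚ⟮ζ⟯) (ℚ⟮ζ⟯).val.toRingHom ζK
    rw [aeval_def]
    exact h1.symm
  have hFdeg : (f.map j₀).degree ≠ 0 := by
    rw [Polynomial.degree_map]
    exact (minpoly.degree_pos hint).ne'
  obtain ⟨ζ'', hroot⟩ := IsAlgClosed.exists_root (f.map j₀) hFdeg
  have hT : ∀ (h : (↥(h13_Qn p n))[X]), eval₂ (algebraMap ↥(h13_Qn p n) Qbar) ζ h = 0 →
      eval ζ'' (h.map j₀) = 0 := by
    intro h hh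
    rw [hev] at hh
    have h0 : aeval ζK h = 0 := Subtype.ext hh
    obtain ⟨c, hc⟩ := minpoly.dvd (h13_Qn p n) ζK h0
    rw [hc, Polynomial.map_mul, eval_mul, hroot.eq_zero, zero_mul]
  refine ⟨ζ'', f, ?_, hmonic, hdeg, hroot, hT⟩
  -- `ζ''` is a primitive root
  have h1 := hT (cyclotomic (p ^ (n + 1)) ↥(h13_Qn p n)) (by
    rw [← Polynomial.eval_map, map_cyclotomic]
    exact (isRoot_cyclotomic_iff.2 hζ))
  rw [map_cyclotomic] at h1
  haveI : NeZero ((p ^ (n + 1) : ℕ) : Ω) := ⟨by exact_mod_cast pow_ne_zero _ hpp.ne_zero⟩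
  exact isRoot_cyclotomic_iff.1 h1


/-- Consequence of the transfer property: `j₀ (g ζ) = g ζ''`. -/
theorem h18_local_gen_aeval (n : ℕ) {Ω : Type*} [Field Ω] [CharZero Ω]
    (j₀ : ↥(h13_Qn p n) →+* Ω) (ζ : Qbar) (ζ'' : Ω)
    (hT : ∀ (h : (↥(h13_Qn p n))[X]), eval₂ (algebraMap ↥(h13_Qn p n) Qbar) ζ h = 0 →
      eval ζ'' (h.map j₀) = 0)
    (x : ↥(h13_Qn p n)) (g : ℚ[X]) (hx : (x : Qbar) = aeval ζ g) : j₀ x = aeval ζ'' g := by
  have h1 := hT (C x - g.map (algebraMap ℚ ↥(h13_Qn p n))) (by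
    rw [eval₂_sub, eval₂_C, eval₂_map, ← IsScalarTower.algebraMap_eq, ← aeval_def, ← hx]
    exact sub_self _)
  rw [Polynomial.map_sub, map_C, Polynomial.map_map, eval_sub, eval_C, eval_map] at h1
  have h2 : j₀.comp (algebraMap ℚ ↥(h13_Qn p n)) = algebraMap ℚ Ω := Subsingleton.elim _ _
  rw [h2, ← aeval_def] at h1
  exact sub_eq_zero.mp h1

section Loc

variable (q : ℕ) [Fact q.Prime]

/-- `ℚ_q · j₀(Q_n) ⊆ ℚ_q(ζ'')`. -/
theorem h18_locField_le (n : ℕ) (j₀ : ↥(h13_Qn p n) →+* PadicAlgCl q) (ζ : Qbar)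
    (hζ : IsPrimitiveRoot ζ (p ^ (n + 1))) (ζ'' : PadicAlgCl q)
    (hT : ∀ (h : (↥(h13_Qn p n))[X]), eval₂ (algebraMap ↥(h13_Qn p n) Qbar) ζ h = 0 →
      eval ζ'' (h.map j₀) = 0) :
    h28_locField q j₀ ≤ ℚ_[q]⟮ζ''⟯ := by
  unfold h28_locField
  rw [IntermediateField.adjoin_le_iff]
  rintro _ ⟨x, rfl⟩
  obtain ⟨g, hg⟩ := h18_exists_aeval_of_mem_adjoin ζ (Algebra.IsIntegral.isIntegral ζ) (x : Qbar)
    (h13_Qn_le_adjoin p n hζ x.2)
  rw [SetLike.mem_coe, h18_local_gen_aeval p n j₀ ζ ζ'' hT x g hg,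
    ← Polynomial.aeval_map_algebraMap ℚ_[q]]
  exact (IntermediateField.algebra_adjoin_le_adjoin ℚ_[q] _)
    (Polynomial.aeval_mem_adjoin_singleton ℚ_[q] ζ'')


/-- `[ℚ_q(ζ'') : ℚ_q · j₀(Q_n)] ≤ p - 1`. -/
theorem h18_finrank_top_le (n : ℕ) (j₀ : ↥(h13_Qn p n) →+* PadicAlgCl q) (ζ'' : PadicAlgCl q)
    (hBK : h28_locField q j₀ ≤ ℚ_[q]⟮ζ''⟯) (f : (↥(h13_Qn p n))[X]) (hmonic : f.Monic)
    (hdeg : f.natDegree ≤ p - 1) (hroot : eval ζ'' (f.map j₀) = 0) :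
    letI : Algebra ↥(h28_locField q j₀) ↥(ℚ_[q]⟮ζ''⟯) :=
      (IntermediateField.inclusion hBK).toRingHom.toAlgebra
    Module.finrank ↥(h28_locField q j₀) ↥(ℚ_[q]⟮ζ''⟯) ≤ p - 1 := by
  letI : Algebra ↥(h28_locField q j₀) ↥(ℚ_[q]⟮ζ''⟯) :=
    (IntermediateField.inclusion hBK).toRingHom.toAlgebra
  haveI : IsScalarTower ℚ_[q] ↥(h28_locField q j₀) ↥(ℚ_[q]⟮ζ''⟯) :=
    IsScalarTower.of_algebraMap_eq (fun x => rfl)
  have hint'' : IsIntegral ℚ_[q] ζ'' := Algebra.IsIntegral.isIntegral ζ''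
  haveI : FiniteDimensional ℚ_[q] ↥(ℚ_[q]⟮ζ''⟯) :=
    IntermediateField.adjoin.finiteDimensional hint''
  haveI : FiniteDimensional ↥(h28_locField q j₀) ↥(ℚ_[q]⟮ζ''⟯) :=
    FiniteDimensional.right ℚ_[q] _ _
  have hgen0 : IntermediateField.adjoin ℚ_[q]
      {(IntermediateField.AdjoinSimple.gen ℚ_[q] ζ'' : ↥(ℚ_[q]⟮ζ''⟯))} = ⊤ := by
    apply IntermediateField.adjoin_eq_top_of_algebra
    exact (IntermediateField.adjoin.powerBasis hint'').adjoin_gen_eq_top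
  have hgen : IntermediateField.adjoin ↥(h28_locField q j₀)
      {(IntermediateField.AdjoinSimple.gen ℚ_[q] ζ'' : ↥(ℚ_[q]⟮ζ''⟯))} = ⊤ :=
    IntermediateField.adjoin_eq_top_of_adjoin_eq_top ℚ_[q] hgen0
  have hintg : IsIntegral ↥(h28_locField q j₀)
      (IntermediateField.AdjoinSimple.gen ℚ_[q] ζ'' : ↥(ℚ_[q]⟮ζ''⟯)) :=
    Algebra.IsIntegral.isIntegral _
  have h1 : Module.finrank ↥(h28_locField q j₀) ↥(ℚ_[q]⟮ζ''⟯) =
      (minpoly ↥(h28_locField q j₀)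
        (IntermediateField.AdjoinSimple.gen ℚ_[q] ζ'' : ↥(ℚ_[q]⟮ζ''⟯))).natDegree := by
    rw [← IntermediateField.adjoin.finrank hintg, hgen, IntermediateField.finrank_top']
  rw [h1]
  -- the image of `f` kills the generator
  have hrootK : aeval (IntermediateField.AdjoinSimple.gen ℚ_[q] ζ'' : ↥(ℚ_[q]⟮ζ''⟯))
      (f.map (j₀.codRestrict (h28_locField q j₀) (h28_range_le_locField q j₀))) = 0 := by
    apply Subtype.ext
    have h2 := Polynomial.hom_eval₂ f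
      ((algebraMap ↥(h28_locField q j₀) ↥(ℚ_[q]⟮ζ''⟯)).comp
        (j₀.codRestrict (h28_locField q j₀) (h28_range_le_locField q j₀)))
      (ℚ_[q]⟮ζ''⟯).val.toRingHom (IntermediateField.AdjoinSimple.gen ℚ_[q] ζ'')
    rw [aeval_def, eval₂_map]
    refine h2.trans ?_
    have h3 : (ℚ_[q]⟮ζ''⟯).val.toRingHom.comp
        ((algebraMap ↥(h28_locField q j₀) ↥(ℚ_[q]⟮ζ''⟯)).comp
          (j₀.codRestrict (h28_locField q j₀) (h28_range_le_locField q j₀))) = j₀ := by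
      ext x
      rfl
    rw [h3]
    have h4 : (ℚ_[q]⟮ζ''⟯).val.toRingHom (IntermediateField.AdjoinSimple.gen ℚ_[q] ζ'') = ζ'' :=
      rfl
    rw [h4, ← eval_map, hroot]
    rfl
  have hmonic' : (f.map (j₀.codRestrict (h28_locField q j₀)
      (h28_range_le_locField q j₀))).Monic := hmonic.map _
  have hle := natDegree_le_of_dvd (minpoly.dvd _ _ hrootK) hmonic'.ne_zero
  rw [hmonic.natDegree_map] at hle
  exact hle.trans hdeg

/-- `[ℚ_q · j(M) : ℚ_q] ≤ [M : ℚ]`. -/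
theorem h18_finrank_locField_le {M : Type*} [Field M] [CharZero M] [FiniteDimensional ℚ M]
    (j : M →+* PadicAlgCl q) :
    Module.finrank ℚ_[q] ↥(h28_locField q j) ≤ Module.finrank ℚ M := by
  obtain ⟨θ, hθ⟩ := Field.exists_primitive_element ℚ M
  have hintθ : IsIntegral ℚ θ := Algebra.IsIntegral.isIntegral θ
  have hcomp : j.comp (algebraMap ℚ M) = algebraMap ℚ (PadicAlgCl q) := Subsingleton.elim _ _
  have hjg : ∀ g : ℚ[X], j (aeval θ g) = aeval (j θ) g := by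
    intro g
    rw [aeval_def, aeval_def, Polynomial.hom_eval₂, hcomp]
  have hint : IsIntegral ℚ_[q] (j θ) := Algebra.IsIntegral.isIntegral _
  haveI : FiniteDimensional ℚ_[q] ↥(ℚ_[q]⟮j θ⟯) := IntermediateField.adjoin.finiteDimensional hint
  have hle : h28_locField q j ≤ ℚ_[q]⟮j θ⟯ := by
    unfold h28_locField
    rw [IntermediateField.adjoin_le_iff]
    rintro _ ⟨x, rfl⟩
    obtain ⟨g, hg⟩ := h18_exists_aeval_of_mem_adjoin θ hintθ x (by rw [hθ]; trivial)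
    rw [SetLike.mem_coe, hg, hjg, ← Polynomial.aeval_map_algebraMap ℚ_[q]]
    exact (IntermediateField.algebra_adjoin_le_adjoin ℚ_[q] _)
      (Polynomial.aeval_mem_adjoin_singleton ℚ_[q] (j θ))
  refine (IntermediateField.finrank_le_of_le_right hle).trans ?_
  rw [IntermediateField.adjoin.finrank hint]
  have hroot : aeval (j θ) ((minpoly ℚ θ).map (algebraMap ℚ ℚ_[q])) = 0 := by
    rw [Polynomial.aeval_map_algebraMap, ← hjg, minpoly.aeval, map_zero]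
  have hle2 := natDegree_le_of_dvd (minpoly.dvd _ _ hroot)
    (((minpoly.monic hintθ).map _).ne_zero)
  rw [(minpoly.monic hintθ).natDegree_map] at hle2
  refine hle2.trans ?_
  rw [← IntermediateField.adjoin.finrank hintθ, hθ, IntermediateField.finrank_top']

end Loc

/-- **`[ℚ_p · j₀(Q_n) : ℚ_p] = p ^ n`** for every embedding `j₀` (the layer is totally ramified
at `p`). -/
theorem h18_finrank_locField_Qn (hp2 : p ≠ 2) (n : ℕ) (j₀ : ↥(h13_Qn p n) →+* PadicAlgCl p) :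
    Module.finrank ℚ_[p] ↥(h28_locField p j₀) = p ^ n := by
  have hpp : p.Prime := Fact.out
  obtain ⟨ζ, hζ⟩ := HasEnoughRootsOfUnity.exists_primitiveRoot Qbar (p ^ (n + 1))
  obtain ⟨ζ'', f, hζ'', hmonic, hdeg, hroot, hT⟩ := h18_exists_local_gen p hp2 n j₀ ζ hζ
  have hBK := h18_locField_le p p n j₀ ζ hζ ζ'' hT
  letI : Algebra ↥(h28_locField p j₀) ↥(ℚ_[p]⟮ζ''⟯) :=
    (IntermediateField.inclusion hBK).toRingHom.toAlgebra
  haveI : IsScalarTower ℚ_[p] ↥(h28_locField p j₀) ↥(ℚ_[p]⟮ζ''⟯) :=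
    IsScalarTower.of_algebraMap_eq (fun x => rfl)
  haveI : NeZero (p ^ (n + 1)) := ⟨pow_ne_zero _ hpp.ne_zero⟩
  haveI : IsCyclotomicExtension {p ^ (n + 1)} ℚ_[p] ↥(ℚ_[p]⟮ζ''⟯) :=
    hζ''.intermediateField_adjoin_isCyclotomicExtension ℚ_[p]
  have hK := h18_finrank_top_le p p n j₀ ζ'' hBK f hmonic hdeg hroot
  haveI : FiniteDimensional ℚ (h13_Qn p n) := h13_Qn_finiteDimensional p hp2 n
  have hle : Module.finrank ℚ_[p] ↥(h28_locField p j₀) ≤ p ^ n :=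
    (h18_finrank_locField_le p j₀).trans_eq (h13_Qn_finrank p hp2 n)
  exact (h18_layer_finrank_eq p n ↥(ℚ_[p]⟮ζ''⟯) ↥(h28_locField p j₀) hle hK).1

/-- **(HL-p)**: the hypothesis `hloc` of `h13_hnorm_core_p` at `M = Q_n`. -/
theorem h18_hloc_p (hp2 : p ≠ 2) (n : ℕ) (j₀ : ↥(h13_Qn p n) →+* PadicAlgCl p) (t : ℚ_[p]ˣ)
    (ht : ∃ u : h18_U1 p, u ^ (p ^ n) = h18_vp p t) :
    t ∈ (Units.map (Algebra.norm ℚ_[p] : ↥(h28_locField p j₀) →* ℚ_[p])).range := by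
  have hpp : p.Prime := Fact.out
  obtain ⟨ζ, hζ⟩ := HasEnoughRootsOfUnity.exists_primitiveRoot Qbar (p ^ (n + 1))
  obtain ⟨ζ'', f, hζ'', hmonic, hdeg, hroot, hT⟩ := h18_exists_local_gen p hp2 n j₀ ζ hζ
  have hBK := h18_locField_le p p n j₀ ζ hζ ζ'' hT
  letI : Algebra ↥(h28_locField p j₀) ↥(ℚ_[p]⟮ζ''⟯) :=
    (IntermediateField.inclusion hBK).toRingHom.toAlgebra
  haveI : IsScalarTower ℚ_[p] ↥(h28_locField p j₀) ↥(ℚ_[p]⟮ζ''⟯) :=
    IsScalarTower.of_algebraMap_eq (fun x => rfl)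
  haveI : NeZero (p ^ (n + 1)) := ⟨pow_ne_zero _ hpp.ne_zero⟩
  haveI : IsCyclotomicExtension {p ^ (n + 1)} ℚ_[p] ↥(ℚ_[p]⟮ζ''⟯) :=
    hζ''.intermediateField_adjoin_isCyclotomicExtension ℚ_[p]
  have hB := h18_finrank_locField_Qn p hp2 n j₀
  exact (h18_layer_norm_range_iff_vp p hp2 (n + 1) (Nat.succ_ne_zero n) ↥(ℚ_[p]⟮ζ''⟯)
    ↥(h28_locField p j₀) n hB t).mpr ht

end Fermat.Agent.S55
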