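import Fermat.Agent.S55.h18_BetaLoc
import Fermat.Agent.S55.h18_ValPF
import Fermat.Agent.S55.h24_LocCycQFinal
import Fermat.Agent.S55.h63_LocTower

/-!
# GLOB-BETA, the local input `hloc` at `q ≠ p` for the layers `Q_n` of the cyclotomic tower

For an arbitrary embedding `j₀ : Q_n →+* PadicAlgCl q`, `q ≠ p` (`Q_n = h13_Qn p n`):

* `h18_aeval_pow_eq` : if `t ^ (p - 1) ≡ 1 mod p ^ (n + 1)` then `g(ζ ^ t) = g(ζ)` for
  `g ∈ ℚ[X]` with `g(ζ) ∈ Q_n`;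
* `h18_finrank_locField_dvd` : the local degree `[ℚ_q · j₀(Q_n) : ℚ_q]` divides every `k` with
  `(q ^ k) ^ (p - 1) ≡ 1 mod p ^ (n + 1)` (a power of the Frobenius of `ℚ_q(ζ'')` fixing
  `j₀(Q_n)`);
* `h18_locField_norm_range` : `x` is a norm from `ℚ_q · j₀(Q_n)` iff the local degree divides
  `v_q x` (helper24's `h24_cycQ_layer`);
* `h18_hloc_q` : verbatim the hypothesis `hloc` of `h13_hnorm_core_q` for `M = Q_n`.
-/

namespace Fermat.Agent.S55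

open Polynomial IntermediateField

local notation "Qbar" => AlgebraicClosure ℚ

local instance h18_blq_isAlgebraicQbar : Algebra.IsAlgebraic ℚ (AlgebraicClosure ℚ) :=
  AlgebraicClosure.isAlgebraic ℚ

variable (p : ℕ) [Fact p.Prime]

/-- Ring homs commute with the evaluation of rational polynomials. -/
theorem h18_ringHom_aeval_rat {A B : Type*} [Field A] [Algebra ℚ A] [Field B] [Algebra ℚ B]
    (τ : A →+* B) (z : A) (g : ℚ[X]) : τ (aeval z g) = aeval (τ z) g := by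
  rw [aeval_def, aeval_def, Polynomial.hom_eval₂]
  congr 1
  exact Subsingleton.elim _ _

/-- Transfer for rational polynomials: `G(ζ) = 0 ⟹ G(ζ'') = 0`. -/
theorem h18_local_gen_rat (n : ℕ) {Ω : Type*} [Field Ω] [CharZero Ω]
    (j₀ : ↥(h13_Qn p n) →+* Ω) (ζ : Qbar) (ζ'' : Ω)
    (hT : ∀ (h : (↥(h13_Qn p n))[X]), eval₂ (algebraMap ↥(h13_Qn p n) Qbar) ζ h = 0 →
      eval ζ'' (h.map j₀) = 0)
    (G : ℚ[X]) (hG : aeval ζ G = 0) : aeval ζ'' G = 0 := by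
  have h1 := hT (G.map (algebraMap ℚ ↥(h13_Qn p n))) (by
    rw [eval₂_map, ← IsScalarTower.algebraMap_eq, ← aeval_def, hG])
  rw [Polynomial.map_map, eval_map] at h1
  have h2 : j₀.comp (algebraMap ℚ ↥(h13_Qn p n)) = algebraMap ℚ Ω := Subsingleton.elim _ _
  rw [h2, ← aeval_def] at h1
  exact h1

/-- If `t ^ (p - 1) ≡ 1 mod p ^ (n + 1)` then `g(ζ ^ t) = g(ζ)` whenever `g(ζ) ∈ Q_n`. -/
theorem h18_aeval_pow_eq (n : ℕ) (ζ : Qbar) (hζ : IsPrimitiveRoot ζ (p ^ (n + 1))) (t : ℕ)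
    (ht : t ^ (p - 1) ≡ 1 [MOD p ^ (n + 1)]) (g : ℚ[X]) (hg : aeval ζ g ∈ h13_Qn p n) :
    aeval (ζ ^ t) g = aeval ζ g := by
  have hpp : p.Prime := Fact.out
  haveI : NeZero (p ^ (n + 1)) := ⟨pow_ne_zero _ hpp.ne_zero⟩
  have hcop : t.Coprime (p ^ (n + 1)) := by
    apply Nat.Coprime.pow_right
    rw [Nat.coprime_comm, Nat.Prime.coprime_iff_not_dvd hpp]
    intro hdvd
    have h1 : p ∣ t ^ (p - 1) := dvd_pow hdvd (Nat.sub_pos_of_lt hpp.one_lt).ne'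
    have h2 : t ^ (p - 1) ≡ 1 [MOD p] := ht.of_dvd (dvd_pow_self p (Nat.succ_ne_zero n))
    have h3 : 0 ≡ 1 [MOD p] := ((Nat.modEq_zero_iff_dvd.mpr h1).symm).trans h2
    have h4 : p ∣ 1 := (Nat.modEq_zero_iff_dvd.mp h3.symm)
    exact hpp.one_lt.ne' (Nat.dvd_one.mp h4)
  obtain ⟨σ, hσ⟩ := h13_chiN_surjective p (n + 1) (ZMod.unitOfCoprime t hcop)
  have hσζ : σ ζ = ζ ^ t := by
    rw [h13_chiN_spec p (n + 1) σ ζ hζ.pow_eq_one, hσ, ZMod.coe_unitOfCoprime, ZMod.val_natCast,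
      ← pow_eq_pow_mod _ hζ.pow_eq_one]
  have hfix : σ ∈ (h13_Qn p n).fixingSubgroup := by
    rw [h13_mem_Qn_fixingSubgroup_iff, hσ]
    apply Units.ext
    rw [Units.val_pow_eq_pow_val, ZMod.coe_unitOfCoprime, Units.val_one, ← Nat.cast_pow,
      (ZMod.natCast_eq_natCast_iff _ _ _).mpr ht, Nat.cast_one]
  have h1 : σ (aeval ζ g) = aeval ζ g := by
    rw [IntermediateField.mem_fixingSubgroup_iff] at hfix
    exact hfix _ hg
  rw [← hσζ, ← h1, Polynomial.aeval_algHom_apply]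


section LocQ

variable (q : ℕ) [Fact q.Prime]

/-- An automorphism of `PadicAlgCl q` over `ℚ_q` fixing `j₀(M)` pointwise fixes `ℚ_q · j₀(M)`. -/
theorem h18_fix_locField {M : Type*} [Field M] (j₀ : M →+* PadicAlgCl q)
    (τ : PadicAlgCl q ≃ₐ[ℚ_[q]] PadicAlgCl q) (hτ : ∀ x : M, τ (j₀ x) = j₀ x)
    (y : PadicAlgCl q) (hy : y ∈ h28_locField q j₀) : τ y = y := by
  unfold h28_locField at hy
  induction hy using IntermediateField.adjoin_induction with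
  | mem x hx =>
    obtain ⟨z, rfl⟩ := hx
    exact hτ z
  | algebraMap x => exact τ.commutes x
  | add x y _ _ hx hy => rw [map_add, hx, hy]
  | inv x _ hx => rw [map_inv₀, hx]
  | mul x y _ _ hx hy => rw [map_mul, hx, hy]

/-- **The local degree of `Q_n` at `q ≠ p` divides every `k` with
`(q ^ k) ^ (p - 1) ≡ 1 mod p ^ (n + 1)`.** -/
theorem h18_finrank_locField_dvd (hp2 : p ≠ 2) (hqp : q ≠ p) (n : ℕ)
    (j₀ : ↥(h13_Qn p n) →+* PadicAlgCl q) (k : ℕ)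
    (hk : (q ^ k) ^ (p - 1) ≡ 1 [MOD p ^ (n + 1)]) :
    Module.finrank ℚ_[q] ↥(h28_locField q j₀) ∣ k := by
  have hpp : p.Prime := Fact.out
  have hqq : q.Prime := Fact.out
  obtain ⟨ζ, hζ⟩ := HasEnoughRootsOfUnity.exists_primitiveRoot Qbar (p ^ (n + 1))
  obtain ⟨ζ'', f, hζ'', hmonic, hdeg, hroot, hT⟩ := h18_exists_local_gen p hp2 n j₀ ζ hζ
  have hBK := h18_locField_le p q n j₀ ζ hζ ζ'' hT
  letI : Algebra ↥(h28_locField q j₀) ↥(ℚ_[q]⟮ζ''⟯) :=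
    (IntermediateField.inclusion hBK).toRingHom.toAlgebra
  haveI : IsScalarTower ℚ_[q] ↥(h28_locField q j₀) ↥(ℚ_[q]⟮ζ''⟯) :=
    IsScalarTower.of_algebraMap_eq (fun x => rfl)
  haveI : NeZero (p ^ (n + 1)) := ⟨pow_ne_zero _ hpp.ne_zero⟩
  haveI : IsCyclotomicExtension {p ^ (n + 1)} ℚ_[q] ↥(ℚ_[q]⟮ζ''⟯) :=
    hζ''.intermediateField_adjoin_isCyclotomicExtension ℚ_[q]
  haveI : FiniteDimensional ℚ_[q] ↥(ℚ_[q]⟮ζ''⟯) :=
    IntermediateField.adjoin.finiteDimensional (Algebra.IsIntegral.isIntegral ζ'')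
  haveI : IsGalois ℚ_[q] ↥(ℚ_[q]⟮ζ''⟯) :=
    IsCyclotomicExtension.isGalois {p ^ (n + 1)} ℚ_[q] ↥(ℚ_[q]⟮ζ''⟯)
  obtain ⟨hgalB, -, -, -⟩ := h24_cycQ_layer q p hqp (n + 1) ↥(ℚ_[q]⟮ζ''⟯) ↥(h28_locField q j₀)
  haveI : FiniteDimensional ℚ_[q] ↥(h28_locField q j₀) :=
    FiniteDimensional.left ℚ_[q] _ ↥(ℚ_[q]⟮ζ''⟯)
  have hcop : (p ^ (n + 1)).Coprime q :=
    Nat.Coprime.pow_left _ ((Nat.coprime_primes hpp hqq).2 (Ne.symm hqp))
  obtain ⟨φ, hφ, hgen⟩ := h66_cyc_frob q ℚ_[q] ↥(ℚ_[q]⟮ζ''⟯) (p ^ (n + 1)) hcop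
  rw [h63_resCard_self] at hφ
  -- `φ ^ k` acts on roots of unity by `ζ ↦ ζ ^ (q ^ k)`
  have hφk : ∀ (i : ℕ) (z : ↥(ℚ_[q]⟮ζ''⟯)), z ^ (p ^ (n + 1)) = 1 → (φ ^ i) z = z ^ (q ^ i) := by
    intro i
    induction i with
    | zero => intro z _; simp
    | succ i ih =>
      intro z hz
      rw [pow_succ', AlgEquiv.mul_apply, ih z hz, hφ _ (by rw [← pow_mul, mul_comm, pow_mul, hz,
        one_pow]), ← pow_mul, ← pow_succ]
  -- lift `φ ^ k` to the algebraic closure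
  haveI : Normal ℚ_[q] (PadicAlgCl q) := IsAlgClosure.normal ℚ_[q] (PadicAlgCl q)
  have hτζ : ((φ ^ k).liftNormal (PadicAlgCl q)) ζ'' = ζ'' ^ (q ^ k) := by
    have h1 := (φ ^ k).liftNormal_commutes (PadicAlgCl q)
      (IntermediateField.AdjoinSimple.gen ℚ_[q] ζ'')
    have h2 := hφk k (IntermediateField.AdjoinSimple.gen ℚ_[q] ζ'') (by
      apply Subtype.ext
      exact hζ''.pow_eq_one)
    rw [h2] at h1
    exact h1
  have hτfix : ∀ x : ↥(h13_Qn p n), ((φ ^ k).liftNormal (PadicAlgCl q)) (j₀ x) = j₀ x := by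
    intro x
    obtain ⟨g, hg⟩ := h18_exists_aeval_of_mem_adjoin ζ (Algebra.IsIntegral.isIntegral ζ)
      (x : Qbar) (h13_Qn_le_adjoin p n hζ x.2)
    have h0 := h18_ringHom_aeval_rat
      (((φ ^ k).liftNormal (PadicAlgCl q) : PadicAlgCl q ≃ₐ[ℚ_[q]] PadicAlgCl q) :
        PadicAlgCl q →+* PadicAlgCl q) ζ'' g
    rw [h18_local_gen_aeval p n j₀ ζ ζ'' hT x g hg]
    refine h0.trans ?_
    have h0' : (((φ ^ k).liftNormal (PadicAlgCl q) : PadicAlgCl q ≃ₐ[ℚ_[q]] PadicAlgCl q) :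
        PadicAlgCl q →+* PadicAlgCl q) ζ'' = ζ'' ^ (q ^ k) := hτζ
    rw [h0']
    have h3 : aeval ζ (g.comp (X ^ (q ^ k)) - g) = 0 := by
      rw [map_sub, Polynomial.aeval_comp, map_pow, aeval_X,
        h18_aeval_pow_eq p n ζ hζ (q ^ k) hk g (by rw [← hg]; exact x.2), sub_self]
    have h4 := h18_local_gen_rat p n j₀ ζ ζ'' hT _ h3
    rw [map_sub, Polynomial.aeval_comp, map_pow, aeval_X] at h4
    exact sub_eq_zero.mp h4
  -- hence `φ ^ k` restricts to the identity of `B`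
  have hres : (φ ^ k).restrictNormal ↥(h28_locField q j₀) = 1 := by
    ext b
    have h6 := AlgEquiv.restrictNormal_commutes (φ ^ k) ↥(h28_locField q j₀) b
    have h5 := (φ ^ k).liftNormal_commutes (PadicAlgCl q)
      (algebraMap ↥(h28_locField q j₀) ↥(ℚ_[q]⟮ζ''⟯) b)
    have h7 : ((((φ ^ k).restrictNormal ↥(h28_locField q j₀)) b : ↥(h28_locField q j₀)) :
        PadicAlgCl q) = ((algebraMap ↥(h28_locField q j₀) ↥(ℚ_[q]⟮ζ''⟯)
          (((φ ^ k).restrictNormal ↥(h28_locField q j₀)) b) : ↥(ℚ_[q]⟮ζ''⟯)) : PadicAlgCl q) := rfl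
    rw [h7, h6]
    exact h5.symm.trans (h18_fix_locField q j₀ _ hτfix _ b.2)
  -- the restriction of `φ` generates `Gal(B/ℚ_q)`
  have hgenB : ∀ σ : ↥(h28_locField q j₀) ≃ₐ[ℚ_[q]] ↥(h28_locField q j₀),
      σ ∈ Subgroup.zpowers (AlgEquiv.restrictNormalHom ↥(h28_locField q j₀) φ) := by
    intro σ
    obtain ⟨σ', rfl⟩ := AlgEquiv.restrictNormalHom_surjective (F := ℚ_[q])
      (K₁ := ↥(h28_locField q j₀)) ↥(ℚ_[q]⟮ζ''⟯) σ
    obtain ⟨i, rfl⟩ := Subgroup.mem_zpowers_iff.mp (hgen σ')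
    rw [map_zpow]
    exact Subgroup.zpow_mem_zpowers _ i
  have hord : orderOf (AlgEquiv.restrictNormalHom ↥(h28_locField q j₀) φ) =
      Module.finrank ℚ_[q] ↥(h28_locField q j₀) := by
    rw [orderOf_eq_card_of_forall_mem_zpowers hgenB, IsGalois.card_aut_eq_finrank]
  rw [← hord]
  apply orderOf_dvd_of_pow_eq_one
  rw [← map_pow]
  exact hres


/-- The norm group of `ℚ_q · j₀(Q_n)`, `q ≠ p`: `x` is a norm iff the local degree divides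
`v_q x`. -/
theorem h18_locField_norm_range (hp2 : p ≠ 2) (hqp : q ≠ p) (n : ℕ)
    (j₀ : ↥(h13_Qn p n) →+* PadicAlgCl q) (x : ℚ_[q]ˣ) :
    x ∈ (Units.map (Algebra.norm ℚ_[q] : ↥(h28_locField q j₀) →* ℚ_[q])).range ↔
      (Module.finrank ℚ_[q] ↥(h28_locField q j₀) : ℤ) ∣ Padic.valuation (x : ℚ_[q]) := by
  have hpp : p.Prime := Fact.out
  obtain ⟨ζ, hζ⟩ := HasEnoughRootsOfUnity.exists_primitiveRoot Qbar (p ^ (n + 1))
  obtain ⟨ζ'', f, hζ'', hmonic, hdeg, hroot, hT⟩ := h18_exists_local_gen p hp2 n j₀ ζ hζ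
  have hBK := h18_locField_le p q n j₀ ζ hζ ζ'' hT
  letI : Algebra ↥(h28_locField q j₀) ↥(ℚ_[q]⟮ζ''⟯) :=
    (IntermediateField.inclusion hBK).toRingHom.toAlgebra
  haveI : IsScalarTower ℚ_[q] ↥(h28_locField q j₀) ↥(ℚ_[q]⟮ζ''⟯) :=
    IsScalarTower.of_algebraMap_eq (fun x => rfl)
  haveI : NeZero (p ^ (n + 1)) := ⟨pow_ne_zero _ hpp.ne_zero⟩
  haveI : IsCyclotomicExtension {p ^ (n + 1)} ℚ_[q] ↥(ℚ_[q]⟮ζ''⟯) :=
    hζ''.intermediateField_adjoin_isCyclotomicExtension ℚ_[q]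
  exact (h24_cycQ_layer q p hqp (n + 1) ↥(ℚ_[q]⟮ζ''⟯) ↥(h28_locField q j₀)).2.2.2 x

/-- **(HL-q)**: the hypothesis `hloc` of `h13_hnorm_core_q` at `M = Q_n`. -/
theorem h18_hloc_q (hp2 : p ≠ 2) (n : ℕ) (hqp : q ≠ p)
    (j₀ : ↥(h13_Qn p n) →+* PadicAlgCl q) (t : ℚ_[q]ˣ)
    (ht : ∃ u : h18_U1 p, u ^ (p ^ n) = h18_natU1 p q ^ Padic.valuation (t : ℚ_[q])) :
    t ∈ (Units.map (Algebra.norm ℚ_[q] : ↥(h28_locField q j₀) →* ℚ_[q])).range := by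
  have hpp : p.Prime := Fact.out
  have hqq : q.Prime := Fact.out
  have hpq : ¬ p ∣ q := fun h => hqp ((Nat.prime_dvd_prime_iff_eq hpp hqq).mp h).symm
  obtain ⟨u, hu⟩ := ht
  have hk : ∃ u' : h18_U1 p, u' ^ (p ^ n) =
      h18_natU1 p q ^ (Padic.valuation (t : ℚ_[q])).natAbs := by
    rcases Int.natAbs_eq (Padic.valuation (t : ℚ_[q])) with h | h
    · refine ⟨u, ?_⟩
      rw [hu]
      conv_lhs => rw [h]
      rw [zpow_natCast]
    · refine ⟨u⁻¹, ?_⟩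
      rw [inv_pow, hu]
      conv_lhs => rw [h]
      rw [zpow_neg, zpow_natCast, inv_inv]
  obtain ⟨u', hu'⟩ := hk
  rw [← h18_natU1_pow p hpq] at hu'
  have hpqk : ¬ p ∣ q ^ (Padic.valuation (t : ℚ_[q])).natAbs :=
    fun h => hpq (hpp.dvd_of_dvd_pow h)
  have hmod := (h18_natU1_pow_iff p hp2 n hpqk).mp ⟨u', hu'⟩
  have hdvd := h18_finrank_locField_dvd p q hp2 hqp n j₀ _ hmod
  rw [h18_locField_norm_range p q hp2 hqp n j₀ t]
  exact Int.dvd_natAbs.mp (Int.natCast_dvd_natCast.mpr hdvd)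

end LocQ

end Fermat.Agent.S55
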