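import Mathlib

/-!
# LOC-6a (field side): the `p`-power cyclotomic extensions of `ℚ_[p]`

* `h18_cyclotomic_irreducible_padic` : `cyclotomic (p ^ m) ℚ_[p]` is irreducible (Eisenstein).
* `h18_cyclotomic_finrank_padic`, `h18_cyclotomic_isCyclic_padic`.
* `h18_cyclotomic_norm_p` : `p` is a norm from `ℚ_[p](ζ_{p^m})`.
* `h18_cyclotomic_norm_algebraMap`.
-/

namespace Fermat.Agent.S55

open Polynomial

variable (p : ℕ) [Fact p.Prime]

/-- Eisenstein at `p` over `ℤ_[p]` for the shifted prime power cyclotomic polynomial. -/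
theorem h18_cyclotomic_comp_isEisensteinAt_padicInt (n : ℕ) :
    ((cyclotomic (p ^ (n + 1)) ℤ_[p]).comp (X + 1)).IsEisensteinAt
      (Ideal.span {(p : ℤ_[p])}) := by
  have h := cyclotomic_prime_pow_comp_X_add_one_isEisensteinAt p n
  have hmap : (cyclotomic (p ^ (n + 1)) ℤ_[p]).comp (X + 1) =
      (((cyclotomic (p ^ (n + 1)) ℤ).comp (X + 1))).map (Int.castRingHom ℤ_[p]) := by
    rw [map_comp, map_cyclotomic]; simp
  have hmonic : ((cyclotomic (p ^ (n + 1)) ℤ).comp (X + 1)).Monic := by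
    rw [show (X + 1 : ℤ[X]) = X + C 1 by simp]
    refine (cyclotomic.monic _ ℤ).comp (monic_X_add_C 1) fun h => ?_
    rw [natDegree_X_add_C] at h
    exact zero_ne_one h.symm
  rw [hmap]
  refine Monic.isEisensteinAt_of_mem_of_notMem (hmonic.map _) ?_ ?_ ?_
  · rw [← PadicInt.maximalIdeal_eq_span_p]
    exact Ideal.IsPrime.ne_top inferInstance
  · intro i hi
    rw [hmonic.natDegree_map] at hi
    have := h.mem hi
    rw [Ideal.submodule_span_eq, Ideal.mem_span_singleton] at this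
    rw [coeff_map, Ideal.mem_span_singleton]
    obtain ⟨c, hc⟩ := this
    exact ⟨(c : ℤ_[p]), by rw [hc]; simp⟩
  · have := h.notMem
    rw [Ideal.submodule_span_eq, Ideal.span_singleton_pow, Ideal.mem_span_singleton] at this
    rw [coeff_map, Ideal.span_singleton_pow, Ideal.mem_span_singleton]
    intro hdvd
    apply this
    have := (PadicInt.pow_p_dvd_int_iff (p := p) 2 _).1 (by exact_mod_cast hdvd)
    exact_mod_cast this

theorem h18_cyclotomic_irreducible_padicInt (n : ℕ) :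
    Irreducible (cyclotomic (p ^ (n + 1)) ℤ_[p]) := by
  have hE := h18_cyclotomic_comp_isEisensteinAt_padicInt p n
  have hmonic : ((cyclotomic (p ^ (n + 1)) ℤ_[p]).comp (X + 1)).Monic := by
    rw [show (X + 1 : ℤ_[p][X]) = X + C 1 by simp]
    refine (cyclotomic.monic _ _).comp (monic_X_add_C 1) fun h => ?_
    rw [natDegree_X_add_C] at h
    exact zero_ne_one h.symm
  have hprime : (Ideal.span {(p : ℤ_[p])}).IsPrime := by
    rw [← PadicInt.maximalIdeal_eq_span_p]; infer_instance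
  have hdeg : 0 < ((cyclotomic (p ^ (n + 1)) ℤ_[p]).comp (X + 1)).natDegree := by
    rw [natDegree_comp, show (X + 1 : ℤ_[p][X]) = X + C 1 by simp, natDegree_X_add_C, mul_one,
      natDegree_cyclotomic]
    exact Nat.totient_pos.2 (pow_pos (Fact.out : p.Prime).pos _)
  have hirr := hE.irreducible hprime hmonic.isPrimitive hdeg
  have : (cyclotomic (p ^ (n + 1)) ℤ_[p]).comp (X + 1) =
      algEquivAevalXAddC (1 : ℤ_[p]) (cyclotomic (p ^ (n + 1)) ℤ_[p]) := by
    simp [algEquivAevalXAddC, aeval_def, eval₂_eq_eval_map, comp]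
  rw [this] at hirr
  exact (MulEquiv.irreducible_iff (algEquivAevalXAddC (1 : ℤ_[p]))).1 hirr

/-- The `p ^ m`-th cyclotomic polynomial is irreducible over `ℚ_[p]`. -/
theorem h18_cyclotomic_irreducible_padic (m : ℕ) :
    Irreducible (cyclotomic (p ^ m) ℚ_[p]) := by
  rcases m with _ | n
  · rw [pow_zero, cyclotomic_one]
    exact irreducible_X_sub_C 1
  · have h := h18_cyclotomic_irreducible_padicInt p n
    rw [← map_cyclotomic (p ^ (n + 1)) (algebraMap ℤ_[p] ℚ_[p])]
    exact ((cyclotomic.monic _ ℤ_[p]).irreducible_iff_irreducible_map_fraction_map).1 h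

theorem h18_cyclotomic_finrank_padic (m : ℕ) (K : Type*) [Field K] [Algebra ℚ_[p] K]
    [IsCyclotomicExtension {p ^ m} ℚ_[p] K] :
    Module.finrank ℚ_[p] K = (p ^ m).totient :=
  IsCyclotomicExtension.finrank K (h18_cyclotomic_irreducible_padic p m)

theorem h18_cyclotomic_isCyclic_padic (hp : p ≠ 2) (m : ℕ) (K : Type*) [Field K]
    [Algebra ℚ_[p] K] [IsCyclotomicExtension {p ^ m} ℚ_[p] K] :
    IsGalois ℚ_[p] K ∧ IsCyclic (K ≃ₐ[ℚ_[p]] K) := by
  refine ⟨IsCyclotomicExtension.isGalois {p ^ m} ℚ_[p] K, ?_⟩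
  have e := IsCyclotomicExtension.autEquivPow K (h18_cyclotomic_irreducible_padic p m)
  have := ZMod.isCyclic_units_of_prime_pow p Fact.out hp m
  exact isCyclic_of_surjective e.symm.toMonoidHom e.symm.surjective

theorem h18_cyclotomic_norm_algebraMap (m : ℕ) (K : Type*) [Field K] [Algebra ℚ_[p] K]
    [IsCyclotomicExtension {p ^ m} ℚ_[p] K] (y : ℚ_[p]) :
    Algebra.norm ℚ_[p] (algebraMap ℚ_[p] K y) = y ^ (p ^ m).totient := by
  rw [Algebra.norm_algebraMap, h18_cyclotomic_finrank_padic p m K]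

/-- `p` is a norm from `ℚ_[p](ζ_{p^m})`, `p` odd, `m ≥ 1`: `N(ζ - 1) = p`. -/
theorem h18_cyclotomic_norm_p (hp : p ≠ 2) (m : ℕ) (hm : m ≠ 0) (K : Type*) [Field K]
    [Algebra ℚ_[p] K] [IsCyclotomicExtension {p ^ m} ℚ_[p] K] :
    ∃ y : Kˣ, Algebra.norm ℚ_[p] (y : K) = (p : ℚ_[p]) := by
  have hpp : (p : ℕ).Prime := Fact.out
  have hne : NeZero (p ^ m : ℕ) := ⟨pow_ne_zero _ hpp.ne_zero⟩
  obtain ⟨ζ, hζ⟩ := IsCyclotomicExtension.exists_isPrimitiveRoot ℚ_[p] K
    (Set.mem_singleton (p ^ m)) (NeZero.ne _)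
  have hpm2 : p ^ m ≠ 2 := by
    intro h
    have : p ∣ 2 := by rw [← h]; exact dvd_pow_self p hm
    exact hp ((Nat.prime_dvd_prime_iff_eq hpp Nat.prime_two).1 this)
  have hnorm := hζ.sub_one_norm_isPrimePow (K := ℚ_[p])
    (hpp.isPrimePow.pow hm) (h18_cyclotomic_irreducible_padic p m) hpm2
  have hminFac : (p ^ m).minFac = p := by
    rw [Nat.pow_minFac hm, hpp.minFac_eq]
  rw [hminFac] at hnorm
  have hy0 : ζ - 1 ≠ 0 := by
    intro h0
    have := IsCyclotomicExtension.finiteDimensional {p ^ m} ℚ_[p] K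
    rw [h0, Algebra.norm_zero] at hnorm
    exact (Nat.cast_ne_zero.2 hpp.ne_zero) hnorm.symm
  exact ⟨Units.mk0 _ hy0, hnorm⟩

end Fermat.Agent.S55
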