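import Fermat.Agent.S55.h18_CycPField

/-!
# LOC-6 (layers): subfields of the `p`-power cyclotomic extensions of `ℚ_[p]`

`K` is a `p ^ m`-th cyclotomic extension of `ℚ_[p]` and `B` is any field between `ℚ_[p]` and `K`
(given by a scalar tower `ℚ_[p] → B → K`).

* `h18_layer_isCyclic` : `B/ℚ_[p]` is Galois with cyclic group (`p` odd).
* `h18_layer_norm_p` : `p` is a norm from `B`.
* `h18_layer_norm_algebraMap` : `N (y) = y ^ [B : ℚ_[p]]` for `y ∈ ℚ_[p]`.
-/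

namespace Fermat.Agent.S55

variable (p : ℕ) [Fact p.Prime]

theorem h18_layer_isCyclic (hp : p ≠ 2) (m : ℕ) (K : Type*) [Field K]
    [Algebra ℚ_[p] K] [IsCyclotomicExtension {p ^ m} ℚ_[p] K]
    (B : Type*) [Field B] [Algebra ℚ_[p] B] [Algebra B K] [IsScalarTower ℚ_[p] B K] :
    IsGalois ℚ_[p] B ∧ IsCyclic (B ≃ₐ[ℚ_[p]] B) := by
  have hab : IsAbelianGalois ℚ_[p] K := IsCyclotomicExtension.isAbelianGalois {p ^ m} ℚ_[p] K
  have habB : IsAbelianGalois ℚ_[p] B := IsAbelianGalois.tower_bot ℚ_[p] B K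
  have hG : IsGalois ℚ_[p] B := habB.toIsGalois
  refine ⟨hG, ?_⟩
  have hcyc := (h18_cyclotomic_isCyclic_padic p hp m K).2
  exact isCyclic_of_surjective (AlgEquiv.restrictNormalHom (F := ℚ_[p]) (K₁ := K) B)
    (AlgEquiv.restrictNormalHom_surjective K)

theorem h18_layer_norm_p (hp : p ≠ 2) (m : ℕ) (hm : m ≠ 0) (K : Type*) [Field K]
    [Algebra ℚ_[p] K] [IsCyclotomicExtension {p ^ m} ℚ_[p] K]
    (B : Type*) [Field B] [Algebra ℚ_[p] B] [Algebra B K] [IsScalarTower ℚ_[p] B K] :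
    ∃ y : Bˣ, Algebra.norm ℚ_[p] (y : B) = (p : ℚ_[p]) := by
  obtain ⟨y, hy⟩ := h18_cyclotomic_norm_p p hp m hm K
  have h := Algebra.norm_norm (R := ℚ_[p]) (S := B) (a := (y : K))
  rw [hy] at h
  have hne : Algebra.norm B (y : K) ≠ 0 := by
    intro h0
    rw [h0] at h
    have := IsCyclotomicExtension.finiteDimensional {p ^ m} ℚ_[p] K
    have hfin : FiniteDimensional ℚ_[p] B :=
      FiniteDimensional.left ℚ_[p] B K
    rw [Algebra.norm_zero] at h
    exact (Nat.cast_ne_zero.2 (Fact.out : p.Prime).ne_zero) h.symm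
  exact ⟨Units.mk0 _ hne, h⟩

theorem h18_layer_norm_algebraMap (B : Type*) [Field B] [Algebra ℚ_[p] B] (y : ℚ_[p]) :
    Algebra.norm ℚ_[p] (algebraMap ℚ_[p] B y) = y ^ Module.finrank ℚ_[p] B :=
  Algebra.norm_algebraMap y

end Fermat.Agent.S55
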