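/-
S55 / LOC-6 (helper32): the local cyclotomic field `ℚ_p(ζ_{p^m})`.

* `h32_cyclotomic_irreducible_padic` : `Φ_{p^m}` is irreducible over `ℚ_p` (Eisenstein + Gauss).
* `h32_cyclotomic_finrank_padic`, `h32_cyclotomic_isCyclic_padic` : degree `φ(p^m)`, Galois, cyclic (p odd).
* `h32_padic_unit_pow_totient` : `1 + p^(m+1) ℤ_p ⊆ (ℤ_p^×)^{φ(p^(m+1))}` (p odd; Hensel).
* `h32_cycNormGroup p m` : the subgroup `⟨p⟩ × (1 + p^m ℤ_p)` of `ℚ_p^×`, of index `≤ φ(p^m)`.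
* `h32_cyclotomic_norm_range_eq_of_index` / `h32_cyclotomic_norm_range_of_index` :
  the norm group of `ℚ_p(ζ_{p^m})` is `⟨p⟩ × (1 + p^m ℤ_p)`, given the local norm index
  `[ℚ_p^× : N K^×] = [K : ℚ_p]` of the cyclic extension `K/ℚ_p` (LOC-1) as a hypothesis.
-/
import Mathlib

set_option autoImplicit false

open Polynomial

namespace Fermat.Agent.S55

/-- Eisenstein at `p` over `ℤ_p` for `Φ_{p^(n+1)}(X+1)`. -/
theorem h32_cyclotomic_comp_isEisensteinAt (p : ℕ) [hp : Fact p.Prime] (n : ℕ) :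
    ((cyclotomic (p ^ (n + 1)) ℤ_[p]).comp (X + 1)).IsEisensteinAt
      (Ideal.span {(p : ℤ_[p])}) := by
  have hE := cyclotomic_prime_pow_comp_X_add_one_isEisensteinAt (p := p) n
  have hmap : (cyclotomic (p ^ (n + 1)) ℤ_[p]).comp (X + 1) =
      (((cyclotomic (p ^ (n + 1)) ℤ).comp (X + 1)).map (Int.castRingHom ℤ_[p])) := by
    rw [map_comp, map_cyclotomic, Polynomial.map_add, map_X, Polynomial.map_one]
  have hmonic : ((cyclotomic (p ^ (n + 1)) ℤ).comp (X + 1)).Monic := by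
    rw [show (X + 1 : ℤ[X]) = X + C 1 by simp]
    refine (cyclotomic.monic _ ℤ).comp (monic_X_add_C 1) fun h => ?_
    rw [natDegree_X_add_C] at h
    exact zero_ne_one h.symm
  rw [hmap]
  refine Monic.isEisensteinAt_of_mem_of_notMem (hmonic.map _) ?_ ?_ ?_
  · exact (Ideal.IsPrime.ne_top <| (Ideal.span_singleton_prime
      (mod_cast hp.out.ne_zero)).2 PadicInt.prime_p)
  · intro i hi
    rw [hmonic.natDegree_map] at hi
    have := hE.mem hi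
    rw [Ideal.submodule_span_eq, Ideal.mem_span_singleton] at this
    rw [coeff_map, Ideal.mem_span_singleton]
    obtain ⟨c, hc⟩ := this
    exact ⟨(c : ℤ_[p]), by rw [hc]; simp⟩
  · rw [coeff_map]
    have h0 : ((cyclotomic (p ^ (n + 1)) ℤ).comp (X + 1)).coeff 0 = p := by
      rw [coeff_zero_eq_eval_zero, eval_comp, eval_add, eval_X, eval_one, zero_add,
        eval_one_cyclotomic_prime_pow]
    rw [h0, Ideal.span_singleton_pow, Ideal.mem_span_singleton]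
    simp only [eq_intCast, Int.cast_natCast]
    intro h
    have h1 : ‖(p : ℤ_[p])‖ ≤ ‖(p : ℤ_[p]) ^ 2‖ := by
      obtain ⟨c, hc⟩ := h
      calc ‖(p : ℤ_[p])‖ = ‖(p : ℤ_[p]) ^ 2‖ * ‖c‖ := by rw [← norm_mul, ← hc]
        _ ≤ ‖(p : ℤ_[p]) ^ 2‖ * 1 :=
          mul_le_mul_of_nonneg_left (PadicInt.norm_le_one c) (norm_nonneg _)
        _ = ‖(p : ℤ_[p]) ^ 2‖ := mul_one _
    rw [norm_pow, PadicInt.norm_p] at h1
    have hp1 : (1 : ℝ) < p := by exact_mod_cast hp.out.one_lt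
    have hpos : (0 : ℝ) < (p : ℝ)⁻¹ := by positivity
    have hlt : ((p : ℝ)⁻¹) ^ 2 < (p : ℝ)⁻¹ := by
      have : (p : ℝ)⁻¹ < 1 := inv_lt_one_of_one_lt₀ hp1
      nlinarith
    linarith

/-- the cyclotomic polynomial `Φ_{p^m}` is irreducible over `ℤ_p` -/
theorem h32_cyclotomic_irreducible_padicInt (p : ℕ) [hp : Fact p.Prime] (m : ℕ) :
    Irreducible (cyclotomic (p ^ m) ℤ_[p]) := by
  rcases m with _ | n
  · rw [pow_zero, cyclotomic_one]
    exact irreducible_X_sub_C 1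
  · have hE := h32_cyclotomic_comp_isEisensteinAt p n
    have hmonic : ((cyclotomic (p ^ (n + 1)) ℤ_[p]).comp (X + 1)).Monic := by
      rw [show (X + 1 : ℤ_[p][X]) = X + C 1 by simp]
      refine (cyclotomic.monic _ _).comp (monic_X_add_C 1) fun h => ?_
      rw [natDegree_X_add_C] at h
      exact zero_ne_one h.symm
    have hirr : Irreducible ((cyclotomic (p ^ (n + 1)) ℤ_[p]).comp (X + 1)) := by
      refine hE.irreducible ((Ideal.span_singleton_prime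
        (mod_cast hp.out.ne_zero)).2 PadicInt.prime_p) hmonic.isPrimitive ?_
      rw [show (X + 1 : ℤ_[p][X]) = X + C 1 by simp, natDegree_comp, natDegree_X_add_C, mul_one,
        natDegree_cyclotomic]
      exact Nat.totient_pos.2 (pow_pos hp.out.pos _)
    have key : (cyclotomic (p ^ (n + 1)) ℤ_[p]).comp (X + 1) =
        (Polynomial.algEquivAevalXAddC (1 : ℤ_[p])) (cyclotomic (p ^ (n + 1)) ℤ_[p]) := by
      simp [Polynomial.algEquivAevalXAddC, Polynomial.comp, Polynomial.aeval_def]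
    rw [key] at hirr
    exact (MulEquiv.irreducible_iff (Polynomial.algEquivAevalXAddC (1 : ℤ_[p])).toMulEquiv).1 hirr

/-- the cyclotomic polynomial `Φ_{p^m}` is irreducible over `ℚ_p` -/
theorem h32_cyclotomic_irreducible_padic (p : ℕ) [Fact p.Prime] (m : ℕ) :
    Irreducible (cyclotomic (p ^ m) ℚ_[p]) := by
  have h := h32_cyclotomic_irreducible_padicInt p m
  rw [← map_cyclotomic (p ^ m) (algebraMap ℤ_[p] ℚ_[p])]
  exact ((cyclotomic.monic (p ^ m) ℤ_[p]).irreducible_iff_irreducible_map_fraction_map).1 h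

theorem h32_cyclotomic_finrank_padic (p : ℕ) [Fact p.Prime] (m : ℕ)
    (K : Type*) [Field K] [Algebra ℚ_[p] K] [IsCyclotomicExtension {p ^ m} ℚ_[p] K] :
    Module.finrank ℚ_[p] K = (p ^ m).totient :=
  IsCyclotomicExtension.finrank K (h32_cyclotomic_irreducible_padic p m)

theorem h32_cyclotomic_isGalois_padic (p : ℕ) [Fact p.Prime] (m : ℕ)
    (K : Type*) [Field K] [Algebra ℚ_[p] K] [IsCyclotomicExtension {p ^ m} ℚ_[p] K] :
    IsGalois ℚ_[p] K :=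
  IsCyclotomicExtension.isGalois {p ^ m} ℚ_[p] K

theorem h32_cyclotomic_isCyclic_padic (p : ℕ) [hp : Fact p.Prime] (hp2 : p ≠ 2) (m : ℕ)
    (K : Type*) [Field K] [Algebra ℚ_[p] K] [IsCyclotomicExtension {p ^ m} ℚ_[p] K] :
    IsGalois ℚ_[p] K ∧ IsCyclic (K ≃ₐ[ℚ_[p]] K) := by
  refine ⟨h32_cyclotomic_isGalois_padic p m K, ?_⟩
  have : NeZero (p ^ m) := ⟨pow_ne_zero _ hp.out.ne_zero⟩
  have := ZMod.isCyclic_units_of_prime_pow p hp.out hp2 m
  exact isCyclic_of_surjective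
    (IsCyclotomicExtension.autEquivPow K (h32_cyclotomic_irreducible_padic p m)).symm
    (MulEquiv.surjective _)

/-- binomial expansion of `(1+t)^p` to second order -/
theorem h32_one_add_pow_prime {R : Type*} [CommRing R] (p : ℕ) (hp : p.Prime) (t : R) :
    ∃ c : R, (1 + t) ^ p = 1 + p * t + p * t ^ 2 * c + t ^ p := by
  refine ⟨∑ k ∈ Finset.Ioo 1 p, t ^ (k - 2) * ((p.choose k / p : ℕ) : R), ?_⟩
  have h := add_pow_prime_eq' hp t (1 : R)
  have hIoo : Finset.Ioo 0 p = insert 1 (Finset.Ioo 1 p) := by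
    ext k
    simp only [Finset.mem_Ioo, Finset.mem_insert]
    have := hp.two_le
    omega
  rw [hIoo, Finset.sum_insert (by simp)] at h
  have h1 : (p.choose 1 / p : ℕ) = 1 := by
    rw [Nat.choose_one_right, Nat.div_self hp.pos]
  have h2 : ∑ k ∈ Finset.Ioo 1 p, t ^ k * (1 : R) ^ (p - k) * ((p.choose k / p : ℕ) : R) =
      t ^ 2 * ∑ k ∈ Finset.Ioo 1 p, t ^ (k - 2) * ((p.choose k / p : ℕ) : R) := by
    rw [Finset.mul_sum]
    refine Finset.sum_congr rfl fun k hk => ?_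
    have hk2 : 2 ≤ k := by
      have := (Finset.mem_Ioo.1 hk).1
      omega
    rw [one_pow, mul_one, ← mul_assoc, ← pow_add, Nat.add_sub_cancel' hk2]
  rw [h2, h1] at h
  rw [add_comm 1 t, h]
  simp only [one_pow, pow_one, mul_one, Nat.cast_one]
  ring

variable (p : ℕ) [hp : Fact p.Prime]

/-- `‖(1+t)^p - 1‖ = ‖t‖ / p` for `t ∈ p ℤ_p`, `p` odd -/
theorem h32_norm_one_add_pow_sub_one (hp2 : p ≠ 2) (t : ℤ_[p]) (ht : ‖t‖ < 1) :
    ‖(1 + t) ^ p - 1‖ = ‖t‖ * (p : ℝ)⁻¹ := by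
  obtain ⟨c, hc⟩ := h32_one_add_pow_prime p hp.out t
  by_cases ht0 : t = 0
  · simp [ht0]
  have hp1 : (1 : ℝ) < p := by exact_mod_cast hp.out.one_lt
  have hpinv : (p : ℝ)⁻¹ < 1 := inv_lt_one_of_one_lt₀ hp1
  have hpos : (0 : ℝ) < (p : ℝ)⁻¹ := by positivity
  have htpos : 0 < ‖t‖ := norm_pos_iff.2 ht0
  have htle : ‖t‖ ≤ (p : ℝ)⁻¹ := by
    have := (PadicInt.norm_lt_one_iff_dvd t).1 ht
    obtain ⟨s, rfl⟩ := this
    rw [norm_mul, PadicInt.norm_p]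
    exact mul_le_of_le_one_right hpos.le (PadicInt.norm_le_one s)
  have e1 : (1 + t) ^ p - 1 = (p : ℤ_[p]) * t * (1 + t * c) + t ^ p := by
    rw [hc]; ring
  have hu : ‖1 + t * c‖ = 1 := by
    have hlt : ‖t * c‖ < ‖(1 : ℤ_[p])‖ := by
      rw [norm_mul, norm_one]
      calc ‖t‖ * ‖c‖ ≤ ‖t‖ * 1 := mul_le_mul_of_nonneg_left (PadicInt.norm_le_one c) htpos.le
        _ < 1 := by rwa [mul_one]
    rw [PadicInt.norm_add_eq_max_of_ne (ne_of_gt hlt), max_eq_left hlt.le, norm_one]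
  have hA : ‖(p : ℤ_[p]) * t * (1 + t * c)‖ = ‖t‖ * (p : ℝ)⁻¹ := by
    rw [norm_mul, norm_mul, hu, PadicInt.norm_p, mul_one, mul_comm]
  have hB : ‖t ^ p‖ < ‖t‖ * (p : ℝ)⁻¹ := by
    rw [norm_pow]
    have h3 : 3 ≤ p := by
      have := hp.out.two_le
      omega
    calc ‖t‖ ^ p ≤ ‖t‖ ^ 3 := pow_le_pow_of_le_one htpos.le ht.le h3
      _ = ‖t‖ * (‖t‖ * ‖t‖) := by ring
      _ ≤ ‖t‖ * ((p : ℝ)⁻¹ * (p : ℝ)⁻¹) := by
          apply mul_le_mul_of_nonneg_left _ htpos.le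
          exact mul_le_mul htle htle htpos.le hpos.le
      _ < ‖t‖ * (p : ℝ)⁻¹ := by
          apply mul_lt_mul_of_pos_left _ htpos
          nlinarith
  rw [e1, PadicInt.norm_add_eq_max_of_ne (by rw [hA]; exact ne_of_gt hB), hA,
    max_eq_left hB.le]

/-- `p`-th roots of elements of `1 + p^2 ℤ_p` (`p` odd) -/
theorem h32_exists_pth_root (hp2 : p ≠ 2) (y : ℤ_[p]) (hy : ‖y - 1‖ ≤ (p : ℝ)⁻¹ * (p : ℝ)⁻¹) :
    ∃ z : ℤ_[p], z ^ p = y ∧ ‖z - 1‖ = ‖y - 1‖ * p := by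
  have hp1 : (1 : ℝ) < p := by exact_mod_cast hp.out.one_lt
  have hp0 : (0 : ℝ) < p := by linarith
  have hpinv : (p : ℝ)⁻¹ < 1 := inv_lt_one_of_one_lt₀ hp1
  have hpos : (0 : ℝ) < (p : ℝ)⁻¹ := by positivity
  have h3 : 3 ≤ p := by
    have := hp.out.two_le
    omega
  -- y - 1 = p * s
  have hlt1 : ‖y - 1‖ < 1 := by nlinarith
  obtain ⟨s, hs⟩ := (PadicInt.norm_lt_one_iff_dvd (y - 1)).1 hlt1
  have hsn : ‖s‖ ≤ (p : ℝ)⁻¹ := by
    have : ‖y - 1‖ = (p : ℝ)⁻¹ * ‖s‖ := by rw [hs, norm_mul, PadicInt.norm_p]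
    rw [this] at hy
    exact le_of_mul_le_mul_left hy hpos
  have hsn1 : ‖s‖ < 1 := lt_of_le_of_lt hsn hpinv
  obtain ⟨c, hc⟩ := h32_one_add_pow_prime p hp.out s
  set F : ℤ_[p][X] := X ^ p - C y with hF
  have hFa : aeval (1 + s) F = (p : ℤ_[p]) * s ^ 2 * c + s ^ p := by
    simp only [hF, map_sub, map_pow, aeval_X, aeval_C, Algebra.algebraMap_self, RingHom.id_apply]
    rw [hc]
    have : y = 1 + p * s := by rw [← hs]; ring
    rw [this]; ring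
  have hFd : aeval (1 + s) (derivative F) = (p : ℤ_[p]) * (1 + s) ^ (p - 1) := by
    simp only [hF, derivative_sub, derivative_X_pow, derivative_C, sub_zero, map_mul, map_pow,
      aeval_X, map_natCast]
  have hnorm_a : ‖(1 + s : ℤ_[p])‖ = 1 := by
    have hlt : ‖s‖ < ‖(1 : ℤ_[p])‖ := by rwa [norm_one]
    rw [add_comm, PadicInt.norm_add_eq_max_of_ne (ne_of_lt hlt), max_eq_right hlt.le, norm_one]
  have hFdn : ‖aeval (1 + s) (derivative F)‖ = (p : ℝ)⁻¹ := by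
    rw [hFd, norm_mul, norm_pow, hnorm_a, one_pow, mul_one, PadicInt.norm_p]
  have hFan : ‖aeval (1 + s) F‖ ≤ (p : ℝ)⁻¹ ^ 3 := by
    rw [hFa]
    refine le_trans (PadicInt.nonarchimedean _ _) (max_le ?_ ?_)
    · rw [norm_mul, norm_mul, norm_pow, PadicInt.norm_p]
      calc (p : ℝ)⁻¹ * ‖s‖ ^ 2 * ‖c‖ ≤ (p : ℝ)⁻¹ * ((p : ℝ)⁻¹) ^ 2 * 1 := by
            apply mul_le_mul _ (PadicInt.norm_le_one c) (norm_nonneg _) (by positivity)
            apply mul_le_mul_of_nonneg_left _ hpos.le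
            exact pow_le_pow_left₀ (norm_nonneg _) hsn 2
        _ = (p : ℝ)⁻¹ ^ 3 := by ring
    · rw [norm_pow]
      calc ‖s‖ ^ p ≤ ‖s‖ ^ 3 := pow_le_pow_of_le_one (norm_nonneg _) hsn1.le h3
        _ ≤ (p : ℝ)⁻¹ ^ 3 := pow_le_pow_left₀ (norm_nonneg _) hsn 3
  have hH : ‖aeval (1 + s) F‖ < ‖aeval (1 + s) (derivative F)‖ ^ 2 := by
    rw [hFdn]
    refine lt_of_le_of_lt hFan ?_
    have : (p : ℝ)⁻¹ ^ 3 = (p : ℝ)⁻¹ ^ 2 * (p : ℝ)⁻¹ := by ring
    rw [this]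
    have h2pos : (0 : ℝ) < (p : ℝ)⁻¹ ^ 2 := by positivity
    nlinarith
  obtain ⟨z, hz0, hz1, -, -⟩ := hensels_lemma hH
  have hzp : z ^ p = y := by
    simp only [hF, map_sub, map_pow, aeval_X, aeval_C, Algebra.algebraMap_self,
      RingHom.id_apply] at hz0
    exact sub_eq_zero.1 hz0
  refine ⟨z, hzp, ?_⟩
  rw [hFdn] at hz1
  have hz1' : ‖z - 1‖ < 1 := by
    have : z - 1 = (z - (1 + s)) + s := by ring
    rw [this]
    exact PadicInt.norm_lt_one_add (lt_trans hz1 hpinv) hsn1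
  have key := h32_norm_one_add_pow_sub_one p hp2 (z - 1) hz1'
  rw [show (1 + (z - 1)) = z by ring, hzp] at key
  rw [key, mul_assoc, inv_mul_cancel₀ hp0.ne', mul_one]

/-- `(p-1)`-th roots of elements of `1 + p ℤ_p` -/
theorem h32_exists_pred_root (y : ℤ_[p]) (hy : ‖y - 1‖ < 1) :
    ∃ z : ℤ_[p], z ^ (p - 1) = y ∧ ‖z - 1‖ < 1 := by
  set F : ℤ_[p][X] := X ^ (p - 1) - C y with hF
  have hFa : aeval (1 : ℤ_[p]) F = 1 - y := by
    simp [hF]
  have hFd : aeval (1 : ℤ_[p]) (derivative F) = ((p - 1 : ℕ) : ℤ_[p]) := by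
    simp only [hF, derivative_sub, derivative_X_pow, derivative_C, sub_zero, map_mul, map_pow,
      aeval_X, one_pow, mul_one, map_natCast]
  have hcop : p.Coprime (p - 1) := by
    have := hp.out.one_lt
    rw [Nat.coprime_comm]
    have h : (p - 1).Coprime (p - 1 + 1) := by simp
    rwa [Nat.sub_add_cancel this.le] at h
  have hFdn : ‖aeval (1 : ℤ_[p]) (derivative F)‖ = 1 := by
    rw [hFd]
    exact PadicInt.norm_natCast_eq_one_iff.2 hcop
  have hH : ‖aeval (1 : ℤ_[p]) F‖ < ‖aeval (1 : ℤ_[p]) (derivative F)‖ ^ 2 := by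
    rw [hFdn, hFa, one_pow, norm_sub_rev]
    exact hy
  obtain ⟨z, hz0, hz1, -, -⟩ := hensels_lemma hH
  refine ⟨z, ?_, ?_⟩
  · simp only [hF, map_sub, map_pow, aeval_X, aeval_C, Algebra.algebraMap_self,
      RingHom.id_apply] at hz0
    exact sub_eq_zero.1 hz0
  · rwa [hFdn] at hz1

/-- iterated `p`-th roots -/
theorem h32_exists_ppow_root (hp2 : p ≠ 2) (m : ℕ) (y : ℤ_[p])
    (hy : ‖y - 1‖ ≤ (p : ℝ)⁻¹ ^ (m + 1)) :
    ∃ z : ℤ_[p], z ^ (p ^ m) = y ∧ ‖z - 1‖ ≤ (p : ℝ)⁻¹ := by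
  have hp1 : (1 : ℝ) < p := by exact_mod_cast hp.out.one_lt
  have hp0 : (0 : ℝ) < p := by linarith
  have hpinv : (p : ℝ)⁻¹ < 1 := inv_lt_one_of_one_lt₀ hp1
  have hpos : (0 : ℝ) < (p : ℝ)⁻¹ := by positivity
  induction m generalizing y with
  | zero => exact ⟨y, by simp, by simpa using hy⟩
  | succ m ih =>
    have h2 : ‖y - 1‖ ≤ (p : ℝ)⁻¹ * (p : ℝ)⁻¹ := by
      refine le_trans hy ?_
      have : (p : ℝ)⁻¹ ^ (m + 1 + 1) = (p : ℝ)⁻¹ ^ m * ((p : ℝ)⁻¹ * (p : ℝ)⁻¹) := by ring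
      rw [this]
      exact mul_le_of_le_one_left (by positivity) (pow_le_one₀ hpos.le hpinv.le)
    obtain ⟨z₁, hz₁, hn₁⟩ := h32_exists_pth_root p hp2 y h2
    have h3 : ‖z₁ - 1‖ ≤ (p : ℝ)⁻¹ ^ (m + 1) := by
      rw [hn₁]
      calc ‖y - 1‖ * p ≤ (p : ℝ)⁻¹ ^ (m + 1 + 1) * p := mul_le_mul_of_nonneg_right hy hp0.le
        _ = (p : ℝ)⁻¹ ^ (m + 1) := by
          rw [pow_succ (p : ℝ)⁻¹ (m + 1), mul_assoc, inv_mul_cancel₀ hp0.ne', mul_one]
    obtain ⟨z, hz, hn⟩ := ih z₁ h3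
    exact ⟨z, by rw [pow_succ, pow_mul, hz, hz₁], hn⟩

/-- `1 + p^(m+1) ℤ_p ⊆ (ℤ_p^×)^{φ(p^(m+1))}` for `p` odd. -/
theorem h32_padic_unit_pow_totient (hp2 : p ≠ 2) (m : ℕ) (u : ℤ_[p]) :
    ∃ y : ℤ_[p]ˣ, ((y : ℤ_[p]) ^ (p ^ (m + 1)).totient) = 1 + (p : ℤ_[p]) ^ (m + 1) * u := by
  have hp1 : (1 : ℝ) < p := by exact_mod_cast hp.out.one_lt
  have hpinv : (p : ℝ)⁻¹ < 1 := inv_lt_one_of_one_lt₀ hp1
  have hpos : (0 : ℝ) < (p : ℝ)⁻¹ := by positivity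
  have h1 : ‖(1 + (p : ℤ_[p]) ^ (m + 1) * u) - 1‖ ≤ (p : ℝ)⁻¹ ^ (m + 1) := by
    rw [add_sub_cancel_left, norm_mul, norm_pow, PadicInt.norm_p]
    exact mul_le_of_le_one_right (by positivity) (PadicInt.norm_le_one u)
  obtain ⟨z, hz, hzn⟩ := h32_exists_ppow_root p hp2 m _ h1
  obtain ⟨w, hw, hwn⟩ := h32_exists_pred_root p z (lt_of_le_of_lt hzn hpinv)
  have hwu : IsUnit w := by
    rw [PadicInt.isUnit_iff]
    have hlt : ‖w - 1‖ < ‖(1 : ℤ_[p])‖ := by rwa [norm_one]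
    have : w = (w - 1) + 1 := by ring
    rw [this, PadicInt.norm_add_eq_max_of_ne (ne_of_lt hlt), max_eq_right hlt.le, norm_one]
  refine ⟨hwu.unit, ?_⟩
  rw [IsUnit.unit_spec, Nat.totient_prime_pow_succ hp.out, mul_comm, pow_mul, hw, hz]

/-- the unit part `x * p^(-v(x))` of a nonzero `p`-adic number, as a `p`-adic integer -/
noncomputable def h32_unitPart (x : ℚ_[p]ˣ) : ℤ_[p] :=
  ⟨(x : ℚ_[p]) * (p : ℚ_[p]) ^ (-(x : ℚ_[p]).valuation), by
    rw [norm_mul, Padic.norm_p_zpow, Padic.norm_eq_zpow_neg_valuation x.ne_zero, neg_neg,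
      ← zpow_add₀ (by exact_mod_cast hp.out.ne_zero), neg_add_cancel, zpow_zero]⟩

theorem h32_unitPart_coe (x : ℚ_[p]ˣ) :
    ((h32_unitPart p x : ℤ_[p]) : ℚ_[p]) = (x : ℚ_[p]) * (p : ℚ_[p]) ^ (-(x : ℚ_[p]).valuation) :=
  rfl

theorem h32_unitPart_one : h32_unitPart p 1 = 1 := by
  apply Subtype.ext
  rw [h32_unitPart_coe]
  simp [Padic.valuation_one]

theorem h32_unitPart_mul (x y : ℚ_[p]ˣ) :
    h32_unitPart p (x * y) = h32_unitPart p x * h32_unitPart p y := by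
  apply Subtype.ext
  have hp0 : (p : ℚ_[p]) ≠ 0 := by exact_mod_cast hp.out.ne_zero
  rw [PadicInt.coe_mul, h32_unitPart_coe, h32_unitPart_coe, h32_unitPart_coe, Units.val_mul,
    Padic.valuation_mul x.ne_zero y.ne_zero, neg_add, zpow_add₀ hp0]
  ring

theorem h32_eq_unitPart (x : ℚ_[p]ˣ) :
    (x : ℚ_[p]) = (p : ℚ_[p]) ^ ((x : ℚ_[p]).valuation) * ((h32_unitPart p x : ℤ_[p]) : ℚ_[p]) := by
  have hp0 : (p : ℚ_[p]) ≠ 0 := by exact_mod_cast hp.out.ne_zero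
  rw [h32_unitPart_coe, mul_comm, mul_assoc, ← zpow_add₀ hp0, neg_add_cancel, zpow_zero, mul_one]

/-- unit part of `p^k * v` for a unit `v` of `ℤ_p` -/
theorem h32_unitPart_of_eq (x : ℚ_[p]ˣ) (k : ℤ) (v : ℤ_[p]) (hv : ‖v‖ = 1)
    (hx : (x : ℚ_[p]) = (p : ℚ_[p]) ^ k * (v : ℚ_[p])) : h32_unitPart p x = v := by
  have hp0 : (p : ℚ_[p]) ≠ 0 := by exact_mod_cast hp.out.ne_zero
  have hp1 : (1 : ℝ) < p := by exact_mod_cast hp.out.one_lt
  have hval : (x : ℚ_[p]).valuation = k := by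
    have h1 : ‖(x : ℚ_[p])‖ = (p : ℝ) ^ (-k) := by
      rw [hx, norm_mul, Padic.norm_p_zpow, ← PadicInt.norm_def, hv, mul_one]
    rw [Padic.norm_eq_zpow_neg_valuation x.ne_zero] at h1
    have := zpow_right_injective₀ (by positivity : (0 : ℝ) < p) (ne_of_gt hp1) h1
    simpa using this
  apply Subtype.ext
  rw [h32_unitPart_coe, hval, hx, mul_comm, ← mul_assoc, ← zpow_add₀ hp0, neg_add_cancel,
    zpow_zero, one_mul]

/-- "unit part modulo `p^m`" as a monoid hom `ℚ_p^× → ZMod (p^m)` -/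
noncomputable def h32_unitResidue (m : ℕ) : ℚ_[p]ˣ →* ZMod (p ^ m) where
  toFun x := PadicInt.toZModPow m (h32_unitPart p x)
  map_one' := by rw [h32_unitPart_one, map_one]
  map_mul' x y := by rw [h32_unitPart_mul, map_mul]

theorem h32_unitResidue_eq_one_iff (m : ℕ) (hm : m ≠ 0) (x : ℚ_[p]ˣ) :
    h32_unitResidue p m x = 1 ↔
      ∃ (k : ℤ) (u : ℤ_[p]), (x : ℚ_[p]) = (p : ℚ_[p]) ^ k * (1 + (p : ℚ_[p]) ^ m * (u : ℚ_[p])) := by
  have hp1 : (1 : ℝ) < p := by exact_mod_cast hp.out.one_lt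
  have hpinv : (p : ℝ)⁻¹ < 1 := inv_lt_one_of_one_lt₀ hp1
  have hkey : ∀ v : ℤ_[p], PadicInt.toZModPow m v = 1 ↔ ∃ u : ℤ_[p], v = 1 + (p : ℤ_[p]) ^ m * u := by
    intro v
    rw [← sub_eq_zero, ← map_one (PadicInt.toZModPow m), ← map_sub, ← RingHom.mem_ker,
      PadicInt.ker_toZModPow, Ideal.mem_span_singleton]
    constructor
    · rintro ⟨u, hu⟩
      exact ⟨u, by rw [← hu]; ring⟩
    · rintro ⟨u, hu⟩
      exact ⟨u, by rw [hu]; ring⟩
  constructor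
  · intro h
    obtain ⟨u, hu⟩ := (hkey _).1 h
    refine ⟨(x : ℚ_[p]).valuation, u, ?_⟩
    have := h32_eq_unitPart p x
    rw [hu] at this
    refine this.trans ?_
    push_cast
    ring
  · rintro ⟨k, u, hx⟩
    have hv : ‖(1 + (p : ℤ_[p]) ^ m * u : ℤ_[p])‖ = 1 := by
      have hlt : ‖(p : ℤ_[p]) ^ m * u‖ < ‖(1 : ℤ_[p])‖ := by
        rw [norm_one, norm_mul, norm_pow, PadicInt.norm_p]
        calc (p : ℝ)⁻¹ ^ m * ‖u‖ ≤ (p : ℝ)⁻¹ ^ m * 1 :=
              mul_le_mul_of_nonneg_left (PadicInt.norm_le_one u) (by positivity)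
          _ < 1 := by
              rw [mul_one]
              exact pow_lt_one₀ (by positivity) hpinv hm
      rw [add_comm, PadicInt.norm_add_eq_max_of_ne (ne_of_lt hlt), max_eq_right hlt.le, norm_one]
    have := h32_unitPart_of_eq p x k (1 + (p : ℤ_[p]) ^ m * u) hv (by rw [hx]; push_cast; ring)
    change PadicInt.toZModPow m (h32_unitPart p x) = 1
    rw [this]
    exact (hkey _).2 ⟨u, rfl⟩

/-- the subgroup `⟨p⟩ × (1 + p^m ℤ_p)` of `ℚ_p^×` -/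
noncomputable def h32_cycNormGroup (m : ℕ) : Subgroup ℚ_[p]ˣ :=
  (h32_unitResidue p m).toHomUnits.ker

theorem h32_mem_cycNormGroup_iff (m : ℕ) (hm : m ≠ 0) (x : ℚ_[p]ˣ) :
    x ∈ h32_cycNormGroup p m ↔
      ∃ (k : ℤ) (u : ℤ_[p]), (x : ℚ_[p]) = (p : ℚ_[p]) ^ k * (1 + (p : ℚ_[p]) ^ m * (u : ℚ_[p])) := by
  rw [← h32_unitResidue_eq_one_iff p m hm, h32_cycNormGroup, MonoidHom.mem_ker, Units.ext_iff,
    MonoidHom.coe_toHomUnits, Units.val_one]

theorem h32_cycNormGroup_index_le (m : ℕ) :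
    (h32_cycNormGroup p m).index ≠ 0 ∧ (h32_cycNormGroup p m).index ≤ (p ^ m).totient := by
  have : NeZero (p ^ m) := ⟨pow_ne_zero _ hp.out.ne_zero⟩
  rw [h32_cycNormGroup, Subgroup.index_ker]
  constructor
  · exact Nat.card_pos.ne'
  · calc Nat.card (h32_unitResidue p m).toHomUnits.range
        ≤ Nat.card (ZMod (p ^ m))ˣ := Nat.card_le_card_of_injective _ Subtype.val_injective
      _ = (p ^ m).totient := by
        rw [Nat.card_eq_fintype_card, ZMod.card_units_eq_totient]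

/-- `p` is a norm from `ℚ_p(ζ_{p^m})` (`p` odd, `m ≥ 1`). -/
theorem h32_p_mem_norm_range (hp2 : p ≠ 2) (m : ℕ) (hm : m ≠ 0)
    (K : Type*) [Field K] [Algebra ℚ_[p] K] [IsCyclotomicExtension {p ^ m} ℚ_[p] K] :
    ∃ z : Kˣ, Algebra.norm ℚ_[p] (z : K) = (p : ℚ_[p]) := by
  obtain ⟨k, rfl⟩ := Nat.exists_eq_succ_of_ne_zero hm
  have : NeZero (p ^ (k + 1)) := ⟨pow_ne_zero _ hp.out.ne_zero⟩
  have hζ := IsCyclotomicExtension.zeta_spec (p ^ (k + 1)) ℚ_[p] K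
  have hne : IsCyclotomicExtension.zeta (p ^ (k + 1)) ℚ_[p] K - 1 ≠ 0 := by
    rw [sub_ne_zero]
    exact hζ.ne_one (Nat.one_lt_pow (Nat.succ_ne_zero k) hp.out.one_lt)
  refine ⟨Units.mk0 _ hne, ?_⟩
  rw [Units.val_mk0]
  exact hζ.norm_sub_one_of_prime_ne_two (h32_cyclotomic_irreducible_padic p (k + 1)) hp2

/-- LOC-6 (conditional on the local norm index for the cyclic extension `K/ℚ_p`):
the norm group of `ℚ_p(ζ_{p^m})` is `⟨p⟩ × (1 + p^m ℤ_p)`. -/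
theorem h32_cyclotomic_norm_range_eq_of_index (hp2 : p ≠ 2) (m : ℕ) (hm : m ≠ 0)
    (K : Type*) [Field K] [Algebra ℚ_[p] K] [IsCyclotomicExtension {p ^ m} ℚ_[p] K]
    (hidx : (Units.map (Algebra.norm ℚ_[p] : K →* ℚ_[p])).range.index =
      Module.finrank ℚ_[p] K) :
    (Units.map (Algebra.norm ℚ_[p] : K →* ℚ_[p])).range = h32_cycNormGroup p m := by
  have hfin := h32_cyclotomic_finrank_padic p m K
  have hp0 : (p : ℚ_[p]) ≠ 0 := by exact_mod_cast hp.out.ne_zero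
  -- the subgroup is contained in the norm group
  have hle : h32_cycNormGroup p m ≤ (Units.map (Algebra.norm ℚ_[p] : K →* ℚ_[p])).range := by
    intro x hx
    obtain ⟨k, u, hxe⟩ := (h32_mem_cycNormGroup_iff p m hm x).1 hx
    -- `p` is a norm
    obtain ⟨z, hz⟩ := h32_p_mem_norm_range p hp2 m hm K
    have hP : Units.mk0 (p : ℚ_[p]) hp0 ∈ (Units.map (Algebra.norm ℚ_[p] : K →* ℚ_[p])).range :=
      ⟨z, Units.ext (by simpa using hz)⟩
    -- `1 + p^m u` is a norm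
    obtain ⟨j, rfl⟩ := Nat.exists_eq_succ_of_ne_zero hm
    obtain ⟨y, hy⟩ := h32_padic_unit_pow_totient p hp2 j u
    have hy' : ((y : ℤ_[p]) : ℚ_[p]) ^ (p ^ (j + 1)).totient =
        1 + (p : ℚ_[p]) ^ (j + 1) * (u : ℚ_[p]) := by
      have := congrArg (fun t : ℤ_[p] => (t : ℚ_[p])) hy
      simpa using this
    have hyne : ((y : ℤ_[p]) : ℚ_[p]) ≠ 0 := by
      intro h0
      have : ‖((y : ℤ_[p]) : ℚ_[p])‖ = 1 := by
        rw [← PadicInt.norm_def]; exact PadicInt.norm_units y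
      rw [h0, norm_zero] at this
      exact zero_ne_one this
    have hV : Units.mk0 (((y : ℤ_[p]) : ℚ_[p]) ^ (p ^ (j + 1)).totient) (pow_ne_zero _ hyne) ∈
        (Units.map (Algebra.norm ℚ_[p] : K →* ℚ_[p])).range := by
      refine ⟨Units.map (algebraMap ℚ_[p] K : ℚ_[p] →* K) (Units.mk0 _ hyne), Units.ext ?_⟩
      simp only [Units.coe_map, MonoidHom.coe_coe, Units.val_mk0]
      rw [Algebra.norm_algebraMap, hfin]
    have hxeq : x = Units.mk0 (p : ℚ_[p]) hp0 ^ k *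
        Units.mk0 (((y : ℤ_[p]) : ℚ_[p]) ^ (p ^ (j + 1)).totient) (pow_ne_zero _ hyne) := by
      apply Units.ext
      rw [Units.val_mul, Units.val_zpow_eq_zpow_val, Units.val_mk0, Units.val_mk0, hy', hxe]
    rw [hxeq]
    exact mul_mem (zpow_mem hP k) hV
  -- index comparison
  obtain ⟨h0, h1⟩ := h32_cycNormGroup_index_le p m
  have hmul := Subgroup.relIndex_mul_index hle
  rw [hidx, hfin] at hmul
  have hpos : 0 < (p ^ m).totient := Nat.totient_pos.2 (pow_pos hp.out.pos _)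
  have hrel : (h32_cycNormGroup p m).relIndex
      (Units.map (Algebra.norm ℚ_[p] : K →* ℚ_[p])).range = 1 := by
    have hne : (h32_cycNormGroup p m).relIndex
        (Units.map (Algebra.norm ℚ_[p] : K →* ℚ_[p])).range ≠ 0 := by
      intro h
      rw [h, zero_mul] at hmul
      exact h0 hmul.symm
    rw [← hmul] at h1
    by_contra hcon
    have h2 : 2 ≤ (h32_cycNormGroup p m).relIndex
        (Units.map (Algebra.norm ℚ_[p] : K →* ℚ_[p])).range := by omega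
    nlinarith
  exact le_antisymm (Subgroup.relIndex_eq_one.1 hrel) hle

/-- LOC-6, membership form. -/
theorem h32_cyclotomic_norm_range_of_index (hp2 : p ≠ 2) (m : ℕ) (hm : m ≠ 0)
    (K : Type*) [Field K] [Algebra ℚ_[p] K] [IsCyclotomicExtension {p ^ m} ℚ_[p] K]
    (hidx : (Units.map (Algebra.norm ℚ_[p] : K →* ℚ_[p])).range.index =
      Module.finrank ℚ_[p] K) (x : ℚ_[p]ˣ) :
    x ∈ (Units.map (Algebra.norm ℚ_[p] : K →* ℚ_[p])).range ↔
      ∃ (k : ℤ) (u : ℤ_[p]), (x : ℚ_[p]) = (p : ℚ_[p]) ^ k * (1 + (p : ℚ_[p]) ^ m * (u : ℚ_[p])) := by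
  rw [h32_cyclotomic_norm_range_eq_of_index p hp2 m hm K hidx, h32_mem_cycNormGroup_iff p m hm]

end Fermat.Agent.S55
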