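import Fermat.Agent.S55.h18_CycPNorm
import Fermat.Agent.S55.h32_CycNorm

/-!
# LOC-6 (layer version): the norm group of a layer `B` of degree `p ^ n` inside
`ℚ_[p](ζ_{p^m})`, `p` odd

`h18_layerNormGroup p n = { p ^ k * u | u ∈ ℤ_[p]ˣ, u ^ (p - 1) ≡ 1 mod p ^ (n + 1) }`
(`= ⟨p⟩ × μ_{p-1} × (1 + p ^ (n + 1) ℤ_p)`), defined as the kernel of the character
`x = p ^ k * u ↦ (u mod p ^ (n + 1)) ^ (p - 1)`.

* `h18_layerNormGroup_le_norm_range` : it consists of norms from `Bˣ` (no class field theory).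
* `h18_layer_norm_range_eq_of_index` : equality, given the norm index `= [B : ℚ_[p]]` (LOC-1).
-/

namespace Fermat.Agent.S55

variable (p : ℕ) [Fact p.Prime]

/-- The layer character `x = p ^ k * u ↦ (u mod p ^ (n + 1)) ^ (p - 1)`. -/
noncomputable def h18_layerChar (n : ℕ) : ℚ_[p]ˣ →* (ZMod (p ^ (n + 1)))ˣ :=
  (powMonoidHom (p - 1)).comp (h32_unitResidue p (n + 1)).toHomUnits

/-- The subgroup `⟨p⟩ × μ_{p-1} × (1 + p ^ (n + 1) ℤ_p)` of `ℚ_[p]ˣ`. -/
noncomputable def h18_layerNormGroup (n : ℕ) : Subgroup ℚ_[p]ˣ := (h18_layerChar p n).ker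

theorem h18_norm_unitPart (x : ℚ_[p]ˣ) : ‖h32_unitPart p x‖ = 1 := by
  have hp0 : (p : ℝ) ≠ 0 := by exact_mod_cast (Fact.out : p.Prime).ne_zero
  rw [PadicInt.norm_def, h32_unitPart_coe, norm_mul, Padic.norm_p_zpow,
    Padic.norm_eq_zpow_neg_valuation x.ne_zero, neg_neg, ← zpow_add₀ hp0, neg_add_cancel,
    zpow_zero]

theorem h18_layerChar_eq_one_iff (n : ℕ) (x : ℚ_[p]ˣ) :
    h18_layerChar p n x = 1 ↔
      (p : ℤ_[p]) ^ (n + 1) ∣ (h32_unitPart p x) ^ (p - 1) - 1 := by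
  rw [h18_layerChar, MonoidHom.comp_apply, powMonoidHom_apply, Units.ext_iff,
    Units.val_pow_eq_pow_val, MonoidHom.coe_toHomUnits, Units.val_one]
  change (PadicInt.toZModPow (n + 1) (h32_unitPart p x)) ^ (p - 1) = 1 ↔ _
  rw [← map_pow, ← sub_eq_zero, ← map_one (PadicInt.toZModPow (n + 1)), ← map_sub,
    ← RingHom.mem_ker, PadicInt.ker_toZModPow, Ideal.mem_span_singleton]

theorem h18_mem_layerNormGroup_iff (n : ℕ) (x : ℚ_[p]ˣ) :
    x ∈ h18_layerNormGroup p n ↔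
      ∃ (k : ℤ) (u : ℤ_[p]ˣ), (p : ℤ_[p]) ^ (n + 1) ∣ (u : ℤ_[p]) ^ (p - 1) - 1 ∧
        (x : ℚ_[p]) = (p : ℚ_[p]) ^ k * ((u : ℤ_[p]) : ℚ_[p]) := by
  rw [h18_layerNormGroup, MonoidHom.mem_ker, h18_layerChar_eq_one_iff]
  constructor
  · intro h
    have hu : IsUnit (h32_unitPart p x) := PadicInt.isUnit_iff.2 (h18_norm_unitPart p x)
    refine ⟨(x : ℚ_[p]).valuation, hu.unit, ?_, ?_⟩
    · rw [IsUnit.unit_spec]; exact h
    · rw [IsUnit.unit_spec]; exact h32_eq_unitPart p x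
  · rintro ⟨k, u, hu, hx⟩
    rw [h32_unitPart_of_eq p x k (u : ℤ_[p]) (PadicInt.norm_units u) hx]
    exact hu

theorem h18_layerNormGroup_index_le (hp : p ≠ 2) (n : ℕ) :
    (h18_layerNormGroup p n).index ≠ 0 ∧ (h18_layerNormGroup p n).index ≤ p ^ n := by
  have hpp : p.Prime := Fact.out
  have : NeZero (p ^ (n + 1)) := ⟨pow_ne_zero _ hpp.ne_zero⟩
  have hcyc : IsCyclic (ZMod (p ^ (n + 1)))ˣ := ZMod.isCyclic_units_of_prime_pow p hpp hp (n + 1)
  rw [h18_layerNormGroup, Subgroup.index_ker]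
  refine ⟨Nat.card_pos.ne', ?_⟩
  have hle : (h18_layerChar p n).range ≤
      (powMonoidHom (p - 1) : (ZMod (p ^ (n + 1)))ˣ →* (ZMod (p ^ (n + 1)))ˣ).range := by
    rintro _ ⟨x, rfl⟩
    exact ⟨(h32_unitResidue p (n + 1)).toHomUnits x, rfl⟩
  have hcard : Nat.card (ZMod (p ^ (n + 1)))ˣ = p ^ n * (p - 1) := by
    rw [Nat.card_eq_fintype_card, ZMod.card_units_eq_totient, Nat.totient_prime_pow_succ hpp]
  calc Nat.card (h18_layerChar p n).range
      ≤ Nat.card (powMonoidHom (p - 1) :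
          (ZMod (p ^ (n + 1)))ˣ →* (ZMod (p ^ (n + 1)))ˣ).range :=
        Subgroup.card_le_of_le hle
    _ = p ^ n := by
        rw [IsCyclic.card_powMonoidHom_range, hcard, Nat.gcd_eq_right (dvd_mul_left _ _),
          Nat.mul_div_cancel _ (Nat.sub_pos_of_lt hpp.one_lt)]

/-- The explicit group consists of norms from `Bˣ` (no class field theory needed). -/
theorem h18_layerNormGroup_le_norm_range (hp : p ≠ 2) (m : ℕ) (hm : m ≠ 0) (K : Type*) [Field K]
    [Algebra ℚ_[p] K] [IsCyclotomicExtension {p ^ m} ℚ_[p] K]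
    (B : Type*) [Field B] [Algebra ℚ_[p] B] [Algebra B K] [IsScalarTower ℚ_[p] B K]
    (n : ℕ) (hB : Module.finrank ℚ_[p] B = p ^ n) :
    h18_layerNormGroup p n ≤ (Units.map (Algebra.norm ℚ_[p] : B →* ℚ_[p])).range := fun x hx =>
  h18_layer_mem_norm_range p hp m hm K B n hB x ((h18_mem_layerNormGroup_iff p n x).1 hx)

/-- LOC-6, layer version, conditional on the local norm index (LOC-1) for `B/ℚ_[p]`. -/
theorem h18_layer_norm_range_eq_of_index (hp : p ≠ 2) (m : ℕ) (hm : m ≠ 0) (K : Type*) [Field K]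
    [Algebra ℚ_[p] K] [IsCyclotomicExtension {p ^ m} ℚ_[p] K]
    (B : Type*) [Field B] [Algebra ℚ_[p] B] [Algebra B K] [IsScalarTower ℚ_[p] B K]
    (n : ℕ) (hB : Module.finrank ℚ_[p] B = p ^ n)
    (hidx : (Units.map (Algebra.norm ℚ_[p] : B →* ℚ_[p])).range.index =
      Module.finrank ℚ_[p] B) :
    (Units.map (Algebra.norm ℚ_[p] : B →* ℚ_[p])).range = h18_layerNormGroup p n := by
  have hpp : p.Prime := Fact.out
  have hle := h18_layerNormGroup_le_norm_range p hp m hm K B n hB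
  obtain ⟨h0, h1⟩ := h18_layerNormGroup_index_le p hp n
  have hmul := Subgroup.relIndex_mul_index hle
  rw [hidx, hB] at hmul
  have hpos : 0 < p ^ n := pow_pos hpp.pos _
  have hrel : (h18_layerNormGroup p n).relIndex
      (Units.map (Algebra.norm ℚ_[p] : B →* ℚ_[p])).range = 1 := by
    have hne : (h18_layerNormGroup p n).relIndex
        (Units.map (Algebra.norm ℚ_[p] : B →* ℚ_[p])).range ≠ 0 := by
      intro h
      rw [h, zero_mul] at hmul
      exact h0 hmul.symm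
    rw [← hmul] at h1
    by_contra hcon
    have h2 : 2 ≤ (h18_layerNormGroup p n).relIndex
        (Units.map (Algebra.norm ℚ_[p] : B →* ℚ_[p])).range := by omega
    nlinarith
  exact le_antisymm (Subgroup.relIndex_eq_one.1 hrel) hle

/-- LOC-6, layer version, membership form. -/
theorem h18_layer_norm_range_of_index (hp : p ≠ 2) (m : ℕ) (hm : m ≠ 0) (K : Type*) [Field K]
    [Algebra ℚ_[p] K] [IsCyclotomicExtension {p ^ m} ℚ_[p] K]
    (B : Type*) [Field B] [Algebra ℚ_[p] B] [Algebra B K] [IsScalarTower ℚ_[p] B K]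
    (n : ℕ) (hB : Module.finrank ℚ_[p] B = p ^ n)
    (hidx : (Units.map (Algebra.norm ℚ_[p] : B →* ℚ_[p])).range.index =
      Module.finrank ℚ_[p] B) (x : ℚ_[p]ˣ) :
    x ∈ (Units.map (Algebra.norm ℚ_[p] : B →* ℚ_[p])).range ↔
      ∃ (k : ℤ) (u : ℤ_[p]ˣ), (p : ℤ_[p]) ^ (n + 1) ∣ (u : ℤ_[p]) ^ (p - 1) - 1 ∧
        (x : ℚ_[p]) = (p : ℚ_[p]) ^ k * ((u : ℤ_[p]) : ℚ_[p]) := by
  rw [h18_layer_norm_range_eq_of_index p hp m hm K B n hB hidx, h18_mem_layerNormGroup_iff]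

end Fermat.Agent.S55
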