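import Mathlib

/-!
# LOC-6 (unit side): `p`-power roots of principal units of `ℤ_[p]`, `p` odd

* `h18_exists_pow_p_pow_eq` : `u ≡ 1 mod p ^ (n + 1)` ⟹ `u = y ^ (p ^ n)` with `y ≡ 1 mod p`.
* `h18_exists_pow_totient_eq` : `u ≡ 1 mod p ^ m`, `m ≥ 1` ⟹ `u = y ^ φ(p ^ m)`, `y` a unit.
* `h18_exists_pow_p_pow_eq_of_pow_pred` : a unit `x` with `x ^ (p - 1) ≡ 1 mod p ^ (n + 1)`
  is a `p ^ n`-th power of a unit.
-/

namespace Fermat.Agent.S55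

open Polynomial

variable (p : ℕ) [Fact p.Prime]

/-- For `p` odd, `∑_{i<p} (1 + p t)^i = p * (1 + p * r)`. -/
theorem h18_geom_sum_one_add (hp : p ≠ 2) (t : ℤ_[p]) :
    ∃ r : ℤ_[p], ∑ i ∈ Finset.range p, (1 + (p : ℤ_[p]) * t) ^ i = p * (1 + p * r) := by
  have hodd : Odd p := (Fact.out : p.Prime).odd_of_ne_two hp
  have h := odd_sq_dvd_geom_sum₂_sub (R := ℤ_[p]) (1 : ℤ_[p]) t hodd
  simp only [one_pow, mul_one] at h
  obtain ⟨r, hr⟩ := h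
  exact ⟨r, by linear_combination hr⟩

/-- For `p` odd, `(1 + p t)^p - 1 = p * (p t) * (1 + p r)`. -/
theorem h18_pow_p_sub_one (hp : p ≠ 2) (t : ℤ_[p]) :
    ∃ r : ℤ_[p], (1 + (p : ℤ_[p]) * t) ^ p - 1 = p * (p * t) * (1 + p * r) := by
  obtain ⟨r, hr⟩ := h18_geom_sum_one_add p hp t
  refine ⟨r, ?_⟩
  have := geom_sum_mul (1 + (p : ℤ_[p]) * t) p
  rw [hr] at this
  linear_combination (-1 : ℤ_[p]) * this

theorem h18_isUnit_one_add_p_mul (r : ℤ_[p]) : IsUnit (1 + (p : ℤ_[p]) * r) := by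
  rw [PadicInt.isUnit_iff]
  have h1 : ‖(p : ℤ_[p]) * r‖ < 1 := by
    rw [PadicInt.norm_lt_one_iff_dvd]; exact dvd_mul_right _ _
  have h2 : ‖(1 : ℤ_[p])‖ = 1 := norm_one
  have := PadicInt.norm_add_eq_max_of_ne (p := p) (q := (1 : ℤ_[p])) (r := (p : ℤ_[p]) * r)
    (by rw [h2]; exact h1.ne')
  rw [this, h2]
  exact max_eq_left h1.le

theorem h18_p_ne_zero : (p : ℤ_[p]) ≠ 0 := by
  exact_mod_cast (Fact.out : p.Prime).ne_zero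

/-- (K) If `z ≡ 1 mod p` and `z ^ p ≡ 1 mod p ^ (j + 1)` then `z ≡ 1 mod p ^ j` (`p` odd). -/
theorem h18_dvd_sub_one_of_pow_p (hp : p ≠ 2) (j : ℕ) (z : ℤ_[p])
    (hz : (p : ℤ_[p]) ∣ z - 1) (hzp : (p : ℤ_[p]) ^ (j + 1) ∣ z ^ p - 1) :
    (p : ℤ_[p]) ^ j ∣ z - 1 := by
  obtain ⟨t, ht⟩ := hz
  have hz' : z = 1 + (p : ℤ_[p]) * t := by linear_combination ht
  obtain ⟨r, hr⟩ := h18_pow_p_sub_one p hp t
  rw [hz', hr] at hzp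
  have hu := h18_isUnit_one_add_p_mul p r
  rw [pow_succ', mul_assoc] at hzp
  have h1 := (mul_dvd_mul_iff_left (h18_p_ne_zero p)).1 hzp
  have h2 := (hu.dvd_mul_right).1 h1
  rw [hz']
  simpa using h2

/-- (R) `u ≡ 1 mod p ^ 2` is a `p`-th power of some `y ≡ 1 mod p` (`p` odd). -/
theorem h18_exists_pow_p_eq (hp : p ≠ 2) (u : ℤ_[p]) (hu : (p : ℤ_[p]) ^ 2 ∣ u - 1) :
    ∃ y : ℤ_[p], (p : ℤ_[p]) ∣ y - 1 ∧ y ^ p = u := by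
  have hpp : p.Prime := Fact.out
  obtain ⟨c, hc⟩ := hu
  obtain ⟨r, hr⟩ := h18_pow_p_sub_one p hp c
  set a : ℤ_[p] := 1 + (p : ℤ_[p]) * c with ha
  have hau : a ^ p - u = (p : ℤ_[p]) ^ 3 * (c * r) := by
    linear_combination hr - hc
  have haunit : ‖a‖ = 1 := PadicInt.isUnit_iff.1 (h18_isUnit_one_add_p_mul p c)
  let F : ℤ_[p][X] := X ^ p - C u
  have hF : aeval a F = a ^ p - u := by simp [F]
  have hF' : aeval a (derivative F) = (p : ℤ_[p]) * a ^ (p - 1) := by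
    simp [F, derivative_X_pow]
  have hp1 : (1 : ℝ) < p := by exact_mod_cast hpp.one_lt
  have hp0 : (0 : ℝ) < p := by positivity
  have hnF' : ‖aeval a (derivative F)‖ = (p : ℝ)⁻¹ := by
    rw [hF', norm_mul, norm_pow, haunit, one_pow, mul_one, PadicInt.norm_p]
  have hnorm : ‖aeval a F‖ < ‖aeval a (derivative F)‖ ^ 2 := by
    rw [hnF', hF, hau, norm_mul, norm_pow, PadicInt.norm_p]
    have hle : ‖c * r‖ ≤ 1 := PadicInt.norm_le_one _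
    have h3 : ((p : ℝ)⁻¹) ^ 3 < ((p : ℝ)⁻¹) ^ 2 := by
      have hinv0 : (0 : ℝ) < (p : ℝ)⁻¹ := inv_pos.2 hp0
      have hinv1 : (p : ℝ)⁻¹ < 1 := inv_lt_one_of_one_lt₀ hp1
      exact pow_lt_pow_right_of_lt_one₀ hinv0 hinv1 (by norm_num)
    calc ((p : ℝ)⁻¹) ^ 3 * ‖c * r‖ ≤ ((p : ℝ)⁻¹) ^ 3 * 1 := by
          apply mul_le_mul_of_nonneg_left hle (by positivity)
      _ < ((p : ℝ)⁻¹) ^ 2 := by rw [mul_one]; exact h3
  obtain ⟨z, hz0, hza, -, -⟩ := hensels_lemma hnorm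
  refine ⟨z, ?_, ?_⟩
  · have h1 : ‖z - a‖ < 1 := by
      rw [hnF'] at hza
      exact hza.trans (inv_lt_one_of_one_lt₀ hp1)
    rw [PadicInt.norm_lt_one_iff_dvd] at h1
    have h2 : (p : ℤ_[p]) ∣ a - 1 := ⟨c, by rw [ha]; ring⟩
    have := dvd_add h1 h2
    simpa using this
  · have : aeval z F = z ^ p - u := by simp [F]
    rw [this] at hz0
    exact sub_eq_zero.1 hz0

/-- (U) `u ≡ 1 mod p ^ (n + 1)` is a `p ^ n`-th power of some `y ≡ 1 mod p` (`p` odd). -/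
theorem h18_exists_pow_p_pow_eq (hp : p ≠ 2) (n : ℕ) (u : ℤ_[p])
    (hu : (p : ℤ_[p]) ^ (n + 1) ∣ u - 1) :
    ∃ y : ℤ_[p], (p : ℤ_[p]) ∣ y - 1 ∧ y ^ (p ^ n) = u := by
  induction n generalizing u with
  | zero => exact ⟨u, by simpa using hu, by simp⟩
  | succ n ih =>
    have h2 : (p : ℤ_[p]) ^ 2 ∣ u - 1 := (pow_dvd_pow _ (by omega)).trans hu
    obtain ⟨y₁, hy₁, hy₁p⟩ := h18_exists_pow_p_eq p hp u h2
    have h3 : (p : ℤ_[p]) ^ (n + 1) ∣ y₁ - 1 :=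
      h18_dvd_sub_one_of_pow_p p hp (n + 1) y₁ hy₁ (by rw [hy₁p]; exact hu)
    obtain ⟨y, hy, hyp⟩ := ih y₁ h3
    exact ⟨y, hy, by rw [pow_succ, pow_mul, hyp, hy₁p]⟩

/-- (P) every `y₀ ≡ 1 mod p` is a `(p - 1)`-th power of some `y ≡ 1 mod p`. -/
theorem h18_exists_pow_pred_eq (y₀ : ℤ_[p]) (hy₀ : (p : ℤ_[p]) ∣ y₀ - 1) :
    ∃ y : ℤ_[p], (p : ℤ_[p]) ∣ y - 1 ∧ y ^ (p - 1) = y₀ := by
  have hpp : p.Prime := Fact.out
  let F : ℤ_[p][X] := X ^ (p - 1) - C y₀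
  have hF : aeval (1 : ℤ_[p]) F = 1 - y₀ := by simp [F]
  have hF' : aeval (1 : ℤ_[p]) (derivative F) = ((p - 1 : ℕ) : ℤ_[p]) := by
    simp [F, derivative_X_pow]
  have hnF' : ‖aeval (1 : ℤ_[p]) (derivative F)‖ = 1 := by
    rw [hF']; exact PadicInt.norm_natCast_p_sub_one
  have hnorm : ‖aeval (1 : ℤ_[p]) F‖ < ‖aeval (1 : ℤ_[p]) (derivative F)‖ ^ 2 := by
    rw [hnF', hF, one_pow, PadicInt.norm_lt_one_iff_dvd]
    have := dvd_neg.2 hy₀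
    simpa using this
  obtain ⟨z, hz0, hza, -, -⟩ := hensels_lemma hnorm
  refine ⟨z, ?_, ?_⟩
  · rw [hnF', PadicInt.norm_lt_one_iff_dvd] at hza
    exact hza
  · have : aeval z F = z ^ (p - 1) - y₀ := by simp [F]
    rw [this] at hz0
    exact sub_eq_zero.1 hz0

theorem h18_isUnit_of_dvd_sub_one (y : ℤ_[p]) (hy : (p : ℤ_[p]) ∣ y - 1) : IsUnit y := by
  obtain ⟨t, ht⟩ := hy
  have : y = 1 + (p : ℤ_[p]) * t := by linear_combination ht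
  rw [this]
  exact h18_isUnit_one_add_p_mul p t

/-- (T) `u ≡ 1 mod p ^ m` (`m ≥ 1`, `p` odd) is a `φ(p ^ m)`-th power of a unit. -/
theorem h18_exists_pow_totient_eq (hp : p ≠ 2) (m : ℕ) (hm : m ≠ 0) (u : ℤ_[p])
    (hu : (p : ℤ_[p]) ^ m ∣ u - 1) :
    ∃ y : ℤ_[p]ˣ, (y : ℤ_[p]) ^ (p ^ m).totient = u := by
  have hpp : p.Prime := Fact.out
  obtain ⟨n, rfl⟩ := Nat.exists_eq_succ_of_ne_zero hm
  obtain ⟨y₀, hy₀, hy₀p⟩ := h18_exists_pow_p_pow_eq p hp n u hu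
  obtain ⟨y, hy, hyp⟩ := h18_exists_pow_pred_eq p y₀ hy₀
  refine ⟨(h18_isUnit_of_dvd_sub_one p y hy).unit, ?_⟩
  rw [IsUnit.unit_spec, Nat.totient_prime_pow hpp (Nat.succ_pos n), Nat.succ_sub_one,
    mul_comm, pow_mul, hyp, hy₀p]

/-- (L) a unit `x` of `ℤ_[p]` with `x ^ (p - 1) ≡ 1 mod p ^ (n + 1)` is a `p ^ n`-th power
of a unit (`p` odd). -/
theorem h18_exists_pow_p_pow_eq_of_pow_pred (hp : p ≠ 2) (n : ℕ) (x : ℤ_[p]ˣ)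
    (hx : (p : ℤ_[p]) ^ (n + 1) ∣ (x : ℤ_[p]) ^ (p - 1) - 1) :
    ∃ y : ℤ_[p]ˣ, y ^ (p ^ n) = x := by
  have hpp : p.Prime := Fact.out
  obtain ⟨z, hz, hzp⟩ := h18_exists_pow_p_pow_eq p hp n _ hx
  let zu : ℤ_[p]ˣ := (h18_isUnit_of_dvd_sub_one p z hz).unit
  have hzu : zu ^ (p ^ n) = x ^ (p - 1) := by
    apply Units.ext
    rw [Units.val_pow_eq_pow_val, Units.val_pow_eq_pow_val, IsUnit.unit_spec, hzp]
  -- Bezout: `p ^ n * A + (p - 1) * B = 1`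
  have hcop : Nat.Coprime (p ^ n) (p - 1) := by
    apply Nat.Coprime.pow_left
    rw [Nat.Prime.coprime_iff_not_dvd hpp]
    exact Nat.not_dvd_of_pos_of_lt (Nat.sub_pos_of_lt hpp.one_lt) (Nat.sub_lt hpp.pos one_pos)
  have hbez := Nat.gcd_eq_gcd_ab (p ^ n) (p - 1)
  rw [hcop.gcd_eq_one] at hbez
  set A := Nat.gcdA (p ^ n) (p - 1) with hA
  set B := Nat.gcdB (p ^ n) (p - 1) with hB
  refine ⟨x ^ A * zu ^ B, ?_⟩
  have h1 : (x ^ A * zu ^ B) ^ (p ^ n) = x ^ (((p ^ n : ℕ) : ℤ) * A + ((p - 1 : ℕ) : ℤ) * B) := by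
    rw [mul_pow, ← zpow_natCast (x ^ A), ← zpow_mul, ← zpow_natCast (zu ^ B), ← zpow_mul,
      mul_comm B, zpow_mul zu, zpow_natCast zu, hzu, ← zpow_natCast x (p - 1), ← zpow_mul,
      zpow_add, mul_comm A]
  rw [h1, ← hbez]
  simp

end Fermat.Agent.S55
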