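import Fermat.Agent.S55.h18_CycPLayer
import Fermat.Agent.S55.h18_CycPUnits

/-!
# LOC-6: explicit norms from the `p`-power cyclotomic extensions of `ℚ_[p]` and their layers
(the inclusions which need no class field theory), `p` odd.

* `h18_cyclotomic_mem_norm_range` : every `p ^ k * (1 + p ^ m * a)` is a norm from
  `ℚ_[p](ζ_{p^m})ˣ`.
* `h18_layer_mem_norm_range` : if `ℚ_[p] ⊆ B ⊆ ℚ_[p](ζ_{p^m})` and `[B : ℚ_[p]] = p ^ n`, every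
  `p ^ k * u`, `u` a unit of `ℤ_[p]` with `u ^ (p - 1) ≡ 1 mod p ^ (n + 1)`, is a norm from `Bˣ`.
-/

namespace Fermat.Agent.S55

variable (p : ℕ) [Fact p.Prime]

/-- General principle: if `p` is a norm from `Bˣ` and `u = w ^ [B : ℚ_[p]]`, then `p ^ k * u` is
a norm from `Bˣ`. -/
theorem h18_mem_norm_range_of_pow (B : Type*) [Field B] [Algebra ℚ_[p] B]
    (hpn : ∃ y : Bˣ, Algebra.norm ℚ_[p] (y : B) = (p : ℚ_[p]))
    (x : ℚ_[p]ˣ) (k : ℤ) (w : ℚ_[p]ˣ)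
    (hx : (x : ℚ_[p]) = (p : ℚ_[p]) ^ k * (w : ℚ_[p]) ^ Module.finrank ℚ_[p] B) :
    x ∈ (Units.map (Algebra.norm ℚ_[p] : B →* ℚ_[p])).range := by
  obtain ⟨y₁, hy₁⟩ := hpn
  refine ⟨y₁ ^ k * Units.map (algebraMap ℚ_[p] B : ℚ_[p] →* B) w, ?_⟩
  apply Units.ext
  rw [map_mul, map_zpow, Units.val_mul, Units.val_zpow_eq_zpow_val, Units.coe_map,
    Units.coe_map, Units.coe_map, hx]
  simp only [MonoidHom.coe_coe]
  rw [hy₁, Algebra.norm_algebraMap]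

theorem h18_cyclotomic_mem_norm_range (hp : p ≠ 2) (m : ℕ) (hm : m ≠ 0) (K : Type*) [Field K]
    [Algebra ℚ_[p] K] [IsCyclotomicExtension {p ^ m} ℚ_[p] K] (x : ℚ_[p]ˣ)
    (h : ∃ (k : ℤ) (a : ℤ_[p]),
      (x : ℚ_[p]) = (p : ℚ_[p]) ^ k * (1 + (p : ℚ_[p]) ^ m * (a : ℚ_[p]))) :
    x ∈ (Units.map (Algebra.norm ℚ_[p] : K →* ℚ_[p])).range := by
  obtain ⟨k, a, hx⟩ := h
  obtain ⟨w, hw⟩ := h18_exists_pow_totient_eq p hp m hm (1 + (p : ℤ_[p]) ^ m * a)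
    ⟨a, by ring⟩
  refine h18_mem_norm_range_of_pow p K (h18_cyclotomic_norm_p p hp m hm K) x k
    (Units.map (PadicInt.Coe.ringHom : ℤ_[p] →+* ℚ_[p]).toMonoidHom w) ?_
  rw [hx, h18_cyclotomic_finrank_padic p m K]
  congr 1
  have := congrArg (fun z : ℤ_[p] => (z : ℚ_[p])) hw
  simp only [PadicInt.coe_pow, PadicInt.coe_add, PadicInt.coe_one, PadicInt.coe_mul,
    PadicInt.coe_natCast] at this
  rw [← this]
  rfl

theorem h18_layer_mem_norm_range (hp : p ≠ 2) (m : ℕ) (hm : m ≠ 0) (K : Type*) [Field K]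
    [Algebra ℚ_[p] K] [IsCyclotomicExtension {p ^ m} ℚ_[p] K]
    (B : Type*) [Field B] [Algebra ℚ_[p] B] [Algebra B K] [IsScalarTower ℚ_[p] B K]
    (n : ℕ) (hB : Module.finrank ℚ_[p] B = p ^ n) (x : ℚ_[p]ˣ)
    (h : ∃ (k : ℤ) (u : ℤ_[p]ˣ), (p : ℤ_[p]) ^ (n + 1) ∣ (u : ℤ_[p]) ^ (p - 1) - 1 ∧
      (x : ℚ_[p]) = (p : ℚ_[p]) ^ k * ((u : ℤ_[p]) : ℚ_[p])) :
    x ∈ (Units.map (Algebra.norm ℚ_[p] : B →* ℚ_[p])).range := by
  obtain ⟨k, u, hu, hx⟩ := h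
  obtain ⟨w, hw⟩ := h18_exists_pow_p_pow_eq_of_pow_pred p hp n u hu
  refine h18_mem_norm_range_of_pow p B (h18_layer_norm_p p hp m hm K B) x k
    (Units.map (PadicInt.Coe.ringHom : ℤ_[p] →+* ℚ_[p]).toMonoidHom w) ?_
  rw [hx, hB, ← hw]
  simp

end Fermat.Agent.S55
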