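import Fermat.Agent.S55.h18_CycPLayerNorm

/-!
# LOC-6 export form for GLOB-VAL / H-CFBUILD: the group `U1 = 1 + p ℤ_p` (`p` odd)

* `h18_U1 p : Subgroup ℤ_[p]ˣ` : principal units.
* `h18_U1_pow_iff` : `u ∈ U1 ^ (p ^ a)` iff `u ≡ 1 mod p ^ (a + 1)`.
* `h18_U1_torsionFree` : `y ∈ U1`, `y ^ p = 1` ⟹ `y = 1`.
* `h18_vp p : ℚ_[p]ˣ →* h18_U1 p`, `x = p ^ k * u ↦ u ^ (p - 1)` : the `p`-component of the
  valuation `v` of GLOB-SPEC [VAL].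
* `h18_mem_layerNormGroup_iff_vp` : `x ∈ h18_layerNormGroup p n ↔ h18_vp p x ∈ U1 ^ (p ^ n)`.
-/

namespace Fermat.Agent.S55

variable (p : ℕ) [Fact p.Prime]

/-- The principal units `1 + p ℤ_p` as a subgroup of `ℤ_[p]ˣ`. -/
def h18_U1 : Subgroup ℤ_[p]ˣ where
  carrier := {u | (p : ℤ_[p]) ∣ (u : ℤ_[p]) - 1}
  one_mem' := by simp
  mul_mem' := by
    intro a b ha hb
    simp only [Set.mem_ofPred_eq, Units.val_mul] at ha hb ⊢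
    have : (a : ℤ_[p]) * b - 1 = (a - 1) * b + (b - 1) := by ring
    rw [this]
    exact dvd_add (Dvd.dvd.mul_right ha _) hb
  inv_mem' := by
    intro a ha
    simp only [Set.mem_ofPred_eq] at ha ⊢
    have : ((a⁻¹ : ℤ_[p]ˣ) : ℤ_[p]) - 1 = -(((a⁻¹ : ℤ_[p]ˣ) : ℤ_[p]) * ((a : ℤ_[p]) - 1)) := by
      rw [mul_sub, mul_one, Units.inv_mul]; ring
    rw [this]
    exact (Dvd.dvd.mul_left ha _).neg_right

theorem h18_mem_U1_iff (u : ℤ_[p]ˣ) : u ∈ h18_U1 p ↔ (p : ℤ_[p]) ∣ (u : ℤ_[p]) - 1 := Iff.rfl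

/-- `y ≡ 1 mod p` implies `y ^ (p ^ a) ≡ 1 mod p ^ (a + 1)`. -/
theorem h18_pow_p_pow_sub_one_dvd (a : ℕ) (y : ℤ_[p]) (hy : (p : ℤ_[p]) ∣ y - 1) :
    (p : ℤ_[p]) ^ (a + 1) ∣ y ^ (p ^ a) - 1 := by
  have := dvd_sub_pow_of_dvd_sub (R := ℤ_[p]) (p := p) (a := y) (b := 1) hy a
  simpa using this

/-- `U1 ^ (p ^ a) = 1 + p ^ (a + 1) ℤ_p` (`p` odd). -/
theorem h18_U1_pow_iff (hp : p ≠ 2) (a : ℕ) (u : ℤ_[p]ˣ) :
    (∃ y ∈ h18_U1 p, y ^ (p ^ a) = u) ↔ (p : ℤ_[p]) ^ (a + 1) ∣ (u : ℤ_[p]) - 1 := by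
  constructor
  · rintro ⟨y, hy, rfl⟩
    rw [Units.val_pow_eq_pow_val]
    exact h18_pow_p_pow_sub_one_dvd p a y hy
  · intro hu
    obtain ⟨y, hy, hyp⟩ := h18_exists_pow_p_pow_eq p hp a (u : ℤ_[p]) hu
    refine ⟨(h18_isUnit_of_dvd_sub_one p y hy).unit, ?_, ?_⟩
    · rw [h18_mem_U1_iff, IsUnit.unit_spec]; exact hy
    · apply Units.ext
      rw [Units.val_pow_eq_pow_val, IsUnit.unit_spec, hyp]

/-- `U1` has no `p`-torsion (`p` odd). -/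
theorem h18_U1_torsionFree (hp : p ≠ 2) (y : ℤ_[p]ˣ) (hy : y ∈ h18_U1 p) (hyp : y ^ p = 1) :
    y = 1 := by
  have hpp : p.Prime := Fact.out
  have hyp' : (y : ℤ_[p]) ^ p = 1 := by
    rw [← Units.val_pow_eq_pow_val, hyp, Units.val_one]
  have hall : ∀ j : ℕ, (p : ℤ_[p]) ^ j ∣ (y : ℤ_[p]) - 1 := fun j =>
    h18_dvd_sub_one_of_pow_p p hp j (y : ℤ_[p]) hy (by rw [hyp', sub_self]; exact dvd_zero _)
  have h0 : (y : ℤ_[p]) - 1 = 0 := by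
    by_contra hne
    have hnorm : ∀ j : ℕ, ‖(y : ℤ_[p]) - 1‖ ≤ (p : ℝ) ^ (-(j : ℤ)) := fun j => by
      rw [PadicInt.norm_le_pow_iff_mem_span_pow, Ideal.mem_span_singleton]
      exact hall j
    have hpos : 0 < ‖(y : ℤ_[p]) - 1‖ := norm_pos_iff.2 hne
    have hp1 : (1 : ℝ) < p := by exact_mod_cast hpp.one_lt
    obtain ⟨j, hj⟩ := exists_pow_lt_of_lt_one hpos (inv_lt_one_of_one_lt₀ hp1)
    have := hnorm j
    rw [zpow_neg, zpow_natCast, ← inv_pow] at this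
    exact absurd hj (not_lt.2 this)
  exact Units.ext (by rw [Units.val_one]; exact sub_eq_zero.1 h0)

/-- Fermat: `u ^ (p - 1) ∈ U1` for every unit `u` of `ℤ_[p]`. -/
theorem h18_pow_pred_mem_U1 (u : ℤ_[p]ˣ) : u ^ (p - 1) ∈ h18_U1 p := by
  rw [h18_mem_U1_iff, Units.val_pow_eq_pow_val]
  have hne : PadicInt.toZMod (u : ℤ_[p]) ≠ 0 := by
    intro h0
    have hmem : (u : ℤ_[p]) ∈ RingHom.ker (PadicInt.toZMod (p := p)) := h0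
    rw [PadicInt.ker_toZMod] at hmem
    exact (IsLocalRing.mem_maximalIdeal _).1 hmem u.isUnit
  have h1 : PadicInt.toZMod ((u : ℤ_[p]) ^ (p - 1) - 1) = 0 := by
    rw [map_sub, map_pow, map_one, ZMod.pow_card_sub_one_eq_one hne, sub_self]
  have hmem : (u : ℤ_[p]) ^ (p - 1) - 1 ∈ RingHom.ker (PadicInt.toZMod (p := p)) := h1
  rw [PadicInt.ker_toZMod, PadicInt.maximalIdeal_eq_span_p, Ideal.mem_span_singleton] at hmem
  exact hmem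

/-- The unit part of `x : ℚ_[p]ˣ` as a unit of `ℤ_[p]`, as a group homomorphism. -/
noncomputable def h18_unitPartHom : ℚ_[p]ˣ →* ℤ_[p]ˣ :=
  MonoidHom.toHomUnits
    { toFun := fun x => h32_unitPart p x
      map_one' := h32_unitPart_one p
      map_mul' := h32_unitPart_mul p }

theorem h18_unitPartHom_coe (x : ℚ_[p]ˣ) :
    ((h18_unitPartHom p x : ℤ_[p]ˣ) : ℤ_[p]) = h32_unitPart p x := rfl

/-- The `p`-component of the valuation `v` of GLOB-SPEC [VAL]: `x = p ^ k * u ↦ u ^ (p - 1)`,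
with values in `U1 = 1 + p ℤ_p`. -/
noncomputable def h18_vp : ℚ_[p]ˣ →* h18_U1 p :=
  ((powMonoidHom (p - 1)).comp (h18_unitPartHom p)).codRestrict (h18_U1 p)
    (fun _ => h18_pow_pred_mem_U1 p _)

theorem h18_vp_coe (x : ℚ_[p]ˣ) :
    (((h18_vp p x : h18_U1 p) : ℤ_[p]ˣ) : ℤ_[p]) = (h32_unitPart p x) ^ (p - 1) := rfl

/-- `x ∈ ⟨p⟩ × μ_{p-1} × (1 + p ^ (n + 1) ℤ_p)` iff `v_p x ∈ U1 ^ (p ^ n)`. -/
theorem h18_mem_layerNormGroup_iff_vp (hp : p ≠ 2) (n : ℕ) (x : ℚ_[p]ˣ) :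
    x ∈ h18_layerNormGroup p n ↔ ∃ y : h18_U1 p, y ^ (p ^ n) = h18_vp p x := by
  rw [h18_layerNormGroup, MonoidHom.mem_ker, h18_layerChar_eq_one_iff]
  have key := h18_U1_pow_iff p hp n ((h18_vp p x : h18_U1 p) : ℤ_[p]ˣ)
  rw [h18_vp_coe] at key
  rw [← key]
  constructor
  · rintro ⟨y, hy, hyp⟩
    exact ⟨⟨y, hy⟩, Subtype.ext hyp⟩
  · rintro ⟨y, hyp⟩
    exact ⟨y, y.2, by rw [← hyp]; rfl⟩

end Fermat.Agent.S55
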