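import Mathlib
import Fermat.Agent.S55.h72_AbsDefs

/-!
# S55, layer H: the abstract duality theorem (ADT) from Tate-Nakayama in degrees (0,2)

For `π : G' ↠ G`, a `G`-module `M` killed by `p` and an additive surjection `red : L₀ → M` with
kernel `p • L₀`, the *lattice cover* of `M` is

`W' = h21_W π red = {φ : G' → L₀ | ∃ m, ∀ g, red (φ g) = π g • m}`, `(σ • φ) g = φ (g * σ)`.

`h21_adt_D1_of_TN` and `h21_adt_D2_of_TN` prove the two statements `adt_D1`, `adt_D2` of the
project README from the Tate-Nakayama statements (R), (L) for the `G'`-module `W'` (taken as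
hypotheses) and a lifting property of `L₀` (additive maps `L₀ → ι (p • C)` lift through `p`).
-/

set_option autoImplicit false

open groupCohomology

namespace Fermat.Agent.S55

section Cover

variable {G' G : Type*} [Group G'] [Group G]
variable {L₀ M : Type*} [AddCommGroup L₀] [AddCommGroup M] [DistribMulAction G M]

/-- The lattice cover `W'` of the `G`-module `M` along `π : G' → G` and `red : L₀ → M`:
functions `φ : G' → L₀` whose reduction is an orbit map `g ↦ π g • m`. -/
def h21_W (π : G' →* G) (red : L₀ →+ M) : AddSubgroup (G' → L₀) where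
  carrier := {φ | ∃ m : M, ∀ g, red (φ g) = π g • m}
  add_mem' := by
    rintro φ ψ ⟨m, hm⟩ ⟨m', hm'⟩
    exact ⟨m + m', fun g => by simp [hm g, hm' g]⟩
  zero_mem' := ⟨0, fun g => by simp⟩
  neg_mem' := by
    rintro φ ⟨m, hm⟩
    exact ⟨-m, fun g => by simp [hm g]⟩

variable (π : G' →* G) (red : L₀ →+ M)

/-- `G'` acts on the cover by right translation. -/
instance h21_W_smul : SMul G' (h21_W π red) where
  smul σ φ := ⟨fun g => φ.1 (g * σ), by
    obtain ⟨m, hm⟩ := φ.2
    exact ⟨π σ • m, fun g => by rw [hm, map_mul, mul_smul]⟩⟩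

@[simp] lemma h21_W_smul_apply (σ : G') (φ : h21_W π red) (g : G') :
    (σ • φ).1 g = φ.1 (g * σ) := rfl

instance h21_W_action : DistribMulAction G' (h21_W π red) where
  one_smul φ := Subtype.ext (funext fun g => by simp)
  mul_smul σ τ φ := Subtype.ext (funext fun g => by simp [mul_assoc])
  smul_zero σ := rfl
  smul_add σ φ ψ := rfl

/-- The projection `W' → M`, `φ ↦ red (φ 1)`. -/
def h21_q : h21_W π red →+ M where
  toFun φ := red (φ.1 1)
  map_zero' := by simp
  map_add' φ ψ := by simp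

lemma h21_q_spec (φ : h21_W π red) (g : G') : red (φ.1 g) = π g • h21_q π red φ := by
  obtain ⟨m, hm⟩ := φ.2
  have h1 : red (φ.1 1) = m := by rw [hm, map_one, one_smul]
  show red (φ.1 g) = π g • red (φ.1 1)
  rw [h1, hm]

lemma h21_q_smul (σ : G') (φ : h21_W π red) :
    h21_q π red (σ • φ) = π σ • h21_q π red φ := by
  show red ((σ • φ).1 1) = _
  rw [h21_W_smul_apply, one_mul, h21_q_spec]

/-- Inflation: functions on `G` give functions on `G'`. -/
def h21_infl : h21_W (MonoidHom.id G) red →+ h21_W π red where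
  toFun ψ := ⟨fun g => ψ.1 (π g), by
    obtain ⟨m, hm⟩ := ψ.2
    exact ⟨m, fun g => hm (π g)⟩⟩
  map_zero' := rfl
  map_add' ψ ψ' := rfl

@[simp] lemma h21_infl_apply (ψ : h21_W (MonoidHom.id G) red) (g : G') :
    (h21_infl π red ψ).1 g = ψ.1 (π g) := rfl

lemma h21_infl_smul (σ : G') (ψ : h21_W (MonoidHom.id G) red) :
    h21_infl π red (π σ • ψ) = σ • h21_infl π red ψ := by
  apply Subtype.ext; funext g
  simp [map_mul]

lemma h21_q_infl (ψ : h21_W (MonoidHom.id G) red) :
    h21_q π red (h21_infl π red ψ) = h21_q (MonoidHom.id G) red ψ := by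
  show red (ψ.1 (π 1)) = red (ψ.1 1)
  rw [map_one]

variable (p : ℕ) (hpM : ∀ m : M, p • m = 0)

open Classical in
/-- `δ v`: the function supported at `1` with value `p • v`. -/
noncomputable def h21_delta : L₀ →+ h21_W π red where
  toFun v := ⟨fun g => if g = 1 then p • v else 0, ⟨0, fun g => by
    show red (if g = 1 then p • v else 0) = π g • 0
    split_ifs
    · rw [map_nsmul, hpM, smul_zero]
    · rw [map_zero, smul_zero]⟩⟩
  map_zero' := by
    apply Subtype.ext; funext g; simp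
  map_add' v w := by
    apply Subtype.ext; funext g
    show (if g = 1 then p • (v + w) else 0)
      = (if g = 1 then p • v else 0) + (if g = 1 then p • w else 0)
    split_ifs <;> simp

open Classical in
lemma h21_delta_apply (v : L₀) (g : G') :
    (h21_delta π red p hpM v).1 g = if g = 1 then p • v else 0 := rfl

/-- `ψ ↦ p • ψ`, with values in the cover over `G`. -/
def h21_pfun : (G → L₀) →+ h21_W (MonoidHom.id G) red where
  toFun ψ := ⟨fun x => p • ψ x, ⟨0, fun x => by rw [map_nsmul, hpM, smul_zero]⟩⟩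
  map_zero' := by apply Subtype.ext; funext x; simp
  map_add' ψ ψ' := by apply Subtype.ext; funext x; simp

@[simp] lemma h21_pfun_apply (ψ : G → L₀) (x : G) :
    (h21_pfun red p hpM ψ).1 x = p • ψ x := rfl


lemma h21_infl_pfun [Fintype G'] (ψ : G → L₀) :
    h21_infl π red (h21_pfun red p hpM ψ)
      = ∑ g : G', g⁻¹ • h21_delta π red p hpM (ψ (π g)) := by
  classical
  apply Subtype.ext; funext x
  rw [AddSubgroup.val_finsetSum, Finset.sum_apply]
  have key : ∀ g : G', (g⁻¹ • h21_delta π red p hpM (ψ (π g))).1 x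
      = if g = x then p • ψ (π g) else 0 := by
    intro g
    rw [h21_W_smul_apply, h21_delta_apply]
    by_cases h : g = x
    · subst h; simp
    · rw [if_neg h, if_neg]
      intro h'
      apply h
      rw [mul_inv_eq_one] at h'
      exact h'.symm
  simp only [key, h21_infl_apply, h21_pfun_apply]
  simp

end Cover

section Aux

variable {G' G : Type*} [Group G'] [Group G]
variable {L₀ C C' : Type*} [AddCommGroup L₀] [AddCommGroup C] [DistribMulAction G C]
  [AddCommGroup C'] [DistribMulAction G' C']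

/-- The `G`-equivariant map `(G → L₀) → C`, `ψ ↦ ∑ x, x⁻¹ • c₀ (ψ x)`, attached to
`c₀ : L₀ → C` (source with the right translation action). -/
noncomputable def h21_G0 [Fintype G] (c₀ : L₀ →+ C) : (G → L₀) →+ C where
  toFun ψ := ∑ x : G, x⁻¹ • c₀ (ψ x)
  map_zero' := by simp
  map_add' ψ ψ' := by simp [Finset.sum_add_distrib]

lemma h21_G0_apply [Fintype G] (c₀ : L₀ →+ C) (ψ : G → L₀) :
    h21_G0 c₀ ψ = ∑ x : G, x⁻¹ • c₀ (ψ x) := rfl

lemma h21_G0_translate [Fintype G] (c₀ : L₀ →+ C) (σ : G) (ψ : G → L₀) :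
    h21_G0 c₀ (fun x => ψ (x * σ)) = σ • h21_G0 c₀ ψ := by
  rw [h21_G0_apply, h21_G0_apply, Finset.smul_sum]
  refine Fintype.sum_equiv (Equiv.mulRight σ) _ _ (fun x => ?_)
  simp [smul_smul, mul_inv_rev]

/-- Sum over a fibre of `π` of `g⁻¹ • c'`, in terms of the norm over `ker π`. -/
lemma h21_fiber_sum [Fintype G'] [DecidableEq G] (π : G' →* G) (ι : C →+ C')
    (hιeq : ∀ (g : G') (c : C), ι (π g • c) = g • ι c)
    (x : G) (g₀ : G') (hg₀ : π g₀ = x) (c' : C') (c : C)
    (hc : ∑ᶠ s : π.ker, (s : G') • c' = ι c) :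
    ∑ g ∈ Finset.univ.filter (fun g => π g = x), g⁻¹ • c' = ι (x⁻¹ • c) := by
  classical
  have : Fintype π.ker := Fintype.ofFinite _
  symm
  calc ι (x⁻¹ • c) = g₀⁻¹ • ι c := by rw [← hιeq, map_inv, hg₀]
    _ = ∑ s : π.ker, (g₀⁻¹ * (s : G')) • c' := by
        rw [← hc, finsum_eq_sum_of_fintype, Finset.smul_sum]
        simp [mul_smul]
    _ = ∑ g ∈ Finset.univ.filter (fun g => π g = x), g⁻¹ • c' := by
        refine Finset.sum_bij (fun s _ => (s : G')⁻¹ * g₀) ?_ ?_ ?_ ?_
        · intro s _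
          simp only [Finset.mem_filter, Finset.mem_univ, true_and]
          rw [map_mul, map_inv, MonoidHom.mem_ker.1 s.2, inv_one, one_mul, hg₀]
        · intro s _ s' _ h
          have h2 : (s : G')⁻¹ = (s' : G')⁻¹ := mul_right_cancel h
          exact Subtype.ext (inv_injective h2)
        · intro g hg
          simp only [Finset.mem_filter, Finset.mem_univ, true_and] at hg
          refine ⟨⟨g₀ * g⁻¹, ?_⟩, Finset.mem_univ _, ?_⟩
          · rw [MonoidHom.mem_ker, map_mul, map_inv, hg, hg₀, mul_inv_cancel]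
          · simp
        · intro s _
          simp [mul_inv_rev]

/-- The norm over the normal subgroup `ker π` commutes with the action of `G'`. -/
lemma h21_smul_ker_sum (π : G' →* G) [Fintype π.ker] (σ : G') (c : C') :
    σ • ∑ s : π.ker, (s : G') • c = ∑ s : π.ker, (s : G') • σ • c := by
  rw [Finset.smul_sum]
  refine Fintype.sum_equiv (MulAut.conjNormal σ : π.ker ≃* π.ker).toEquiv _ _ (fun s => ?_)
  rw [smul_smul, smul_smul]
  congr 1
  simp [MulAut.conjNormal_apply]

/-- Sum over a fibre of `π` as a sum over `ker π`. -/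
lemma h21_fiber_sum' [Fintype G'] [DecidableEq G] (π : G' →* G) [Fintype π.ker]
    {A : Type*} [AddCommMonoid A] (φ : G' → A) (x : G) (g₀ : G') (hg₀ : π g₀ = x) :
    ∑ g ∈ Finset.univ.filter (fun g => π g = x), φ g = ∑ s : π.ker, φ (g₀ * s) := by
  symm
  refine Finset.sum_bij (fun s _ => g₀ * (s : G')) ?_ ?_ ?_ ?_
  · intro s _
    simp [hg₀, MonoidHom.mem_ker.1 s.2]
  · intro s _ s' _ h
    exact Subtype.ext (mul_left_cancel h)
  · intro g hg
    simp only [Finset.mem_filter, Finset.mem_univ, true_and] at hg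
    exact ⟨⟨g₀⁻¹ * g, by rw [MonoidHom.mem_ker, map_mul, map_inv, hg, hg₀, inv_mul_cancel]⟩,
      Finset.mem_univ _, by simp⟩
  · intro s _
    rfl

end Aux

section Main

/-- **ADT (D1) from Tate-Nakayama (R)** for the lattice cover `W' = h21_W π red`. -/
theorem h21_adt_D1_of_TN {p : ℕ} {G' G : Type*} [Group G'] [Group G] [Finite G']
    (π : G' →* G) (hπ : Function.Surjective π)
    {C' C : Type*} [AddCommGroup C'] [DistribMulAction G' C'] [AddCommGroup C]
    [DistribMulAction G C]
    (ι : C →+ C') (hι : Function.Injective ι)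
    (hιeq : ∀ (g : G') (c : C), ι (π g • c) = g • ι c)
    (hιfix : ∀ c' : C', (∀ s ∈ π.ker, s • c' = c') → c' ∈ ι.range)
    (hnorm : ∀ c' : C', ∃ c : C, ∑ᶠ s : π.ker, (s : G') • c' = ι (p • c))
    {M : Type*} [AddCommGroup M] [DistribMulAction G M] (hpM : ∀ m : M, p • m = 0)
    {L₀ : Type*} [AddCommGroup L₀] (red : L₀ →+ M) (hred : Function.Surjective red)
    (hker : ∀ v : L₀, red v = 0 → ∃ w : L₀, v = p • w)
    (hlift : ∀ a : L₀ →+ C', (∀ v, ∃ c : C, a v = ι (p • c)) →
      ∃ c₀ : L₀ →+ C, ∀ v, a v = ι (p • c₀ v))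
    (hTN : ∀ z : G' × G' → h21_W π red, IsCocycle₂ z →
      (∀ F : h21_W π red →+ C', (∀ (g : G') (w : h21_W π red), F (g • w) = g • F w) →
        IsCoboundary₂ (fun x : G' × G' => F (z x))) → IsCoboundary₂ z)
    (y : G × G → M) (hy : IsCocycle₂ y)
    (hperp : ∀ f : M →+ C, (∀ (g : G) (m : M), f (g • m) = g • f m) →
      IsCoboundary₂ (fun x : G' × G' => ι (f (y (π x.1, π x.2))))) :
    IsCoboundary₂Via π (fun x : G' × G' => y (π x.1, π x.2)) := by
  classical
  have : Fintype G' := Fintype.ofFinite G'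
  have : Finite G := Finite.of_surjective π hπ
  have : Fintype G := Fintype.ofFinite G
  let s₀ : M → L₀ := Function.surjInv hred
  have hs₀ : ∀ m, red (s₀ m) = m := Function.surjInv_eq hred
  -- the cochain `t` and the lifted cocycle `ψ` over `G`
  let t : G → G → L₀ := fun g x => s₀ (y (x, g))
  have hψred : ∀ g h x : G, red (t h (x * g) - t (g * h) x + t g x) = x • y (g, h) := by
    intro g h x
    simp only [t, map_add, map_sub, hs₀]
    rw [sub_add_eq_add_sub, hy x g h, add_sub_cancel_right]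
  let ψ : G → G → h21_W (MonoidHom.id G) red := fun g h =>
    ⟨fun x => t h (x * g) - t (g * h) x + t g x, ⟨y (g, h), fun x => hψred g h x⟩⟩
  have hqψ : ∀ g h, h21_q (MonoidHom.id G) red (ψ g h) = y (g, h) := by
    intro g h
    show red (t h (1 * g) - t (g * h) 1 + t g 1) = y (g, h)
    rw [hψred, one_smul]
  have hψcoc : ∀ g h j : G, ψ (g * h) j + ψ g h = g • ψ h j + ψ g (h * j) := by
    intro g h j
    apply Subtype.ext; funext x
    show (t j (x * (g * h)) - t (g * h * j) x + t (g * h) x)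
        + (t h (x * g) - t (g * h) x + t g x)
      = (t j (x * g * h) - t (h * j) (x * g) + t h (x * g))
        + (t (h * j) (x * g) - t (g * (h * j)) x + t g x)
    simp only [mul_assoc]
    abel
  let y' : G' × G' → h21_W π red := fun x => h21_infl π red (ψ (π x.1) (π x.2))
  have hy' : IsCocycle₂ y' := by
    intro g h j
    show h21_infl π red (ψ (π (g * h)) (π j)) + h21_infl π red (ψ (π g) (π h))
      = g • h21_infl π red (ψ (π h) (π j)) + h21_infl π red (ψ (π g) (π (h * j)))
    rw [← h21_infl_smul, ← map_add, ← map_add, map_mul, map_mul, hψcoc]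
  have hcob : IsCoboundary₂ y' := by
    refine hTN y' hy' (fun F hF => ?_)
    -- the norm map `a` and its lift `c₀`
    have : Fintype π.ker := Fintype.ofFinite _
    let a : L₀ →+ C' := ∑ s : π.ker,
      (DistribSMul.toAddMonoidHom C' (s : G')).comp (F.comp (h21_delta π red p hpM))
    have ha : ∀ v, a v = ∑ᶠ s : π.ker, (s : G') • F (h21_delta π red p hpM v) := by
      intro v
      rw [finsum_eq_sum_of_fintype]
      simp [a, AddMonoidHom.finsetSum_apply]
    obtain ⟨c₀, hc₀⟩ := hlift a (fun v => by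
      obtain ⟨c, hc⟩ := hnorm (F (h21_delta π red p hpM v))
      exact ⟨c, by rw [ha, hc]⟩)
    let G₀ : (G → L₀) →+ C := h21_G0 c₀
    -- `F ∘ infl` on multiples of `p`
    have hP : ∀ ψ₁ : G → L₀,
        F (h21_infl π red (h21_pfun red p hpM ψ₁)) = ι (G₀ (fun x => p • ψ₁ x)) := by
      intro ψ₁
      rw [h21_infl_pfun, map_sum]
      have h1 : ∀ g : G', F (g⁻¹ • h21_delta π red p hpM (ψ₁ (π g)))
          = g⁻¹ • F (h21_delta π red p hpM (ψ₁ (π g))) := fun g => hF _ _
      simp only [h1]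
      rw [← Finset.sum_fiberwise Finset.univ (fun g : G' => π g)
        (fun g => g⁻¹ • F (h21_delta π red p hpM (ψ₁ (π g))))]
      show _ = ι (h21_G0 c₀ (fun x => p • ψ₁ x))
      rw [h21_G0_apply, map_sum]
      refine Finset.sum_congr rfl (fun x _ => ?_)
      obtain ⟨g₀, hg₀⟩ := hπ x
      have h2 : ∑ g ∈ Finset.univ.filter (fun g => π g = x),
            g⁻¹ • F (h21_delta π red p hpM (ψ₁ (π g)))
          = ∑ g ∈ Finset.univ.filter (fun g => π g = x),
            g⁻¹ • F (h21_delta π red p hpM (ψ₁ x)) := by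
        refine Finset.sum_congr rfl (fun g hg => ?_)
        rw [(Finset.mem_filter.1 hg).2]
      rw [h2, h21_fiber_sum π ι hιeq x g₀ hg₀ (F (h21_delta π red p hpM (ψ₁ x)))
        (p • c₀ (ψ₁ x)) (by rw [← ha, hc₀]), map_nsmul]
    -- `F ∘ infl` lands in the range of `ι`
    have hΦ : ∀ w : h21_W (MonoidHom.id G) red, ∃ c : C, ι c = F (h21_infl π red w) := by
      intro w
      obtain ⟨c, hc⟩ := hιfix (F (h21_infl π red w)) (fun s hs => by
        rw [← hF, ← h21_infl_smul, MonoidHom.mem_ker.1 hs, one_smul])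
      exact ⟨c, hc⟩
    choose Φ hΦ using hΦ
    let D : h21_W (MonoidHom.id G) red → C := fun w => Φ w - G₀ w.1
    have hD_add : ∀ w w', D (w + w') = D w + D w' := by
      intro w w'
      have : Φ (w + w') = Φ w + Φ w' :=
        hι (by rw [hΦ, (h21_infl π red).map_add, F.map_add, ι.map_add, hΦ, hΦ])
      simp only [D, this, AddSubgroup.coe_add, map_add]
      abel
    have hD_smul : ∀ (x : G) w, D (x • w) = x • D w := by
      intro x w
      obtain ⟨g, rfl⟩ := hπ x
      have : Φ (π g • w) = π g • Φ w := hι (by rw [hΦ, h21_infl_smul, hF, ← hΦ, hιeq])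
      simp only [D, this, smul_sub]
      congr 1
      exact h21_G0_translate c₀ (π g) w.1
    have hD_p : ∀ ψ₁ : G → L₀, D (h21_pfun red p hpM ψ₁) = 0 := by
      intro ψ₁
      have : Φ (h21_pfun red p hpM ψ₁) = G₀ (fun x => p • ψ₁ x) := hι (by rw [hΦ, hP])
      simp only [D, this]
      exact sub_self _
    have hD_q : ∀ w w', h21_q (MonoidHom.id G) red w = h21_q (MonoidHom.id G) red w' →
        D w = D w' := by
      intro w w' h
      have h1 : ∀ x : G, ∃ v : L₀, w.1 x - w'.1 x = p • v := fun x => hker _ (by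
        rw [map_sub, h21_q_spec, h21_q_spec, h, sub_self])
      choose ψ₁ hψ₁ using h1
      have h2 : w - w' = h21_pfun red p hpM ψ₁ := by
        apply Subtype.ext; funext x
        exact hψ₁ x
      have h3 : D (w - w') = 0 := by rw [h2, hD_p]
      have h4 : D w = D (w - w') + D w' := by rw [← hD_add, sub_add_cancel]
      rw [h4, h3, zero_add]
    let wm : M → h21_W (MonoidHom.id G) red := fun m =>
      ⟨fun x => s₀ (x • m), ⟨m, fun x => hs₀ _⟩⟩
    have hwm : ∀ m, h21_q (MonoidHom.id G) red (wm m) = m := fun m => by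
      show red (s₀ ((1 : G) • m)) = m
      rw [hs₀, one_smul]
    let f : M →+ C := AddMonoidHom.mk' (fun m => D (wm m)) (fun m m' => by
      rw [← hD_add]
      exact hD_q _ _ (by rw [map_add, hwm, hwm, hwm]))
    have hf : ∀ (x : G) (m : M), f (x • m) = x • f m := by
      intro x m
      show D (wm (x • m)) = x • D (wm m)
      rw [← hD_smul]
      refine hD_q _ _ ?_
      rw [hwm, h21_q_smul, hwm]
      rfl
    have hΦf : ∀ w, Φ w = f (h21_q (MonoidHom.id G) red w) + G₀ w.1 := by
      intro w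
      have : D w = D (wm (h21_q (MonoidHom.id G) red w)) := hD_q _ _ (by rw [hwm])
      show Φ w = D (wm _) + G₀ w.1
      rw [← this]
      simp [D]
    obtain ⟨γ, hγ⟩ := hperp f hf
    refine ⟨fun g => γ g + ι (G₀ (t (π g))), fun g h => ?_⟩
    have e1 : F (y' (g, h)) = ι (f (y (π g, π h))) + ι (G₀ (ψ (π g) (π h)).1) := by
      show F (h21_infl π red (ψ (π g) (π h))) = _
      rw [← hΦ, hΦf, map_add, hqψ]
    have e2 : G₀ (ψ (π g) (π h)).1
        = π g • G₀ (t (π h)) - G₀ (t (π g * π h)) + G₀ (t (π g)) := by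
      have e3 : (ψ (π g) (π h)).1
          = (fun x => t (π h) (x * π g)) - t (π g * π h) + t (π g) := rfl
      rw [e3, map_add, map_sub]
      congr 2
      exact h21_G0_translate c₀ (π g) (t (π h))
    show g • (γ h + ι (G₀ (t (π h)))) - (γ (g * h) + ι (G₀ (t (π (g * h)))))
      + (γ g + ι (G₀ (t (π g)))) = F (y' (g, h))
    have hγ' : g • γ h - γ (g * h) + γ g = ι (f (y (π g, π h))) := hγ g h
    rw [e1, e2, ← hγ', map_add, map_sub, hιeq, map_mul, smul_add]
    abel
  obtain ⟨x', hx'⟩ := hcob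
  refine ⟨fun g => h21_q π red (x' g), fun g h => ?_⟩
  have h1 := congrArg (h21_q π red) (hx' g h)
  rw [map_add, map_sub, h21_q_smul] at h1
  rw [h1]
  show h21_q π red (h21_infl π red (ψ (π g) (π h))) = y (π g, π h)
  rw [h21_q_infl, hqψ]

/-- **ADT (D2) from Tate-Nakayama (L)** for the lattice cover `W' = h21_W π red`. -/
theorem h21_adt_D2_of_TN {p : ℕ} {G' G : Type*} [Group G'] [Group G] [Finite G']
    (π : G' →* G) (hπ : Function.Surjective π)
    {C' C : Type*} [AddCommGroup C'] [DistribMulAction G' C'] [AddCommGroup C]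
    [DistribMulAction G C]
    (ι : C →+ C') (hι : Function.Injective ι)
    (hιeq : ∀ (g : G') (c : C), ι (π g • c) = g • ι c)
    (hnorm : ∀ c' : C', ∃ c : C, ∑ᶠ s : π.ker, (s : G') • c' = ι (p • c))
    {M : Type*} [AddCommGroup M] [DistribMulAction G M] (hpM : ∀ m : M, p • m = 0)
    {L₀ : Type*} [AddCommGroup L₀] (red : L₀ →+ M) (hred : Function.Surjective red)
    (hker : ∀ v : L₀, red v = 0 → ∃ w : L₀, v = p • w)
    (hlift : ∀ a : L₀ →+ C', (∀ v, ∃ c : C, a v = ι (p • c)) →
      ∃ c₀ : L₀ →+ C, ∀ v, a v = ι (p • c₀ v))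
    (hTN : ∀ F : h21_W π red →+ C', (∀ (g : G') (w : h21_W π red), F (g • w) = g • F w) →
      (∀ z : G' × G' → h21_W π red, IsCocycle₂ z →
        IsCoboundary₂ (fun x : G' × G' => F (z x))) →
      ∃ h' : h21_W π red →+ C', ∀ w, F w = ∑ᶠ g : G', g • h' (g⁻¹ • w))
    (f : M →+ C) (hf : ∀ (g : G) (m : M), f (g • m) = g • f m)
    (hperp : ∀ y' : G' × G' → M, IsCocycle₂Via π y' →
      IsCoboundary₂ (fun x : G' × G' => ι (f (y' x)))) :
    ∃ h : M →+ C, ∀ m : M, f m = ∑ᶠ g : G, g • h (g⁻¹ • m) := by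
  classical
  have : Fintype G' := Fintype.ofFinite G'
  have : Finite G := Finite.of_surjective π hπ
  have : Fintype G := Fintype.ofFinite G
  have : Fintype π.ker := Fintype.ofFinite _
  let s₀ : M → L₀ := Function.surjInv hred
  have hs₀ : ∀ m, red (s₀ m) = m := Function.surjInv_eq hred
  -- the map `F = ι ∘ f ∘ q` and Tate-Nakayama (L)
  let F : h21_W π red →+ C' := ι.comp (f.comp (h21_q π red))
  have hFdef : ∀ w, F w = ι (f (h21_q π red w)) := fun w => rfl
  have hF : ∀ (g : G') (w : h21_W π red), F (g • w) = g • F w := by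
    intro g w
    rw [hFdef, hFdef, h21_q_smul, hf, hιeq]
  obtain ⟨h', hh'⟩ := hTN F hF (fun z hz => by
    refine hperp (fun x => h21_q π red (z x)) (fun g h j => ?_)
    have h1 := congrArg (h21_q π red) (hz g h j)
    rw [map_add, map_add, h21_q_smul] at h1
    exact h1)
  have hh'' : ∀ w, F w = ∑ g : G', g • h' (g⁻¹ • w) := fun w => by
    rw [hh', finsum_eq_sum_of_fintype]
  -- the norm over `ker π`
  let N : C' →+ C' := ∑ s : π.ker, DistribSMul.toAddMonoidHom C' (s : G')
  have hN : ∀ c, N c = ∑ s : π.ker, (s : G') • c := fun c => by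
    simp [N, AddMonoidHom.finsetSum_apply]
  have hNrange : ∀ c', ∃ c : C, N c' = ι (p • c) := fun c' => by
    obtain ⟨c, hc⟩ := hnorm c'
    exact ⟨c, by rw [hN, ← hc, finsum_eq_sum_of_fintype]⟩
  have hNsmul : ∀ (σ : G') c, σ • N c = N (σ • c) := fun σ c => by
    rw [hN, hN, h21_smul_ker_sum]
  -- the components of `h'` on the functions supported at one point, and their lifts
  let a : G' → L₀ →+ C' := fun σ => N.comp (h'.comp
    ((DistribSMul.toAddMonoidHom (h21_W π red) σ⁻¹).comp (h21_delta π red p hpM)))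
  have ha : ∀ σ v, a σ v = N (h' (σ⁻¹ • h21_delta π red p hpM v)) := fun σ v => rfl
  have he : ∀ σ, ∃ e : L₀ →+ C, ∀ v, a σ v = ι (p • e v) := fun σ =>
    hlift (a σ) (fun v => hNrange _)
  choose e he using he
  -- the correction term
  let E : (G → L₀) →+ C := ∑ σ : G',
    ((DistribSMul.toAddMonoidHom C (π σ)).comp
        ((e σ).comp (Pi.evalAddMonoidHom (fun _ : G => L₀) 1))
      - (e σ).comp (Pi.evalAddMonoidHom (fun _ : G => L₀) (π σ)))
  have hE : ∀ ψ : G → L₀, E ψ = ∑ σ : G', (π σ • e σ (ψ 1) - e σ (ψ (π σ))) := fun ψ => by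
    simp [E, AddMonoidHom.finsetSum_apply]
  let H : h21_W (MonoidHom.id G) red →+ C' :=
    N.comp (h'.comp (h21_infl π red)) + ι.comp (E.comp (AddSubgroup.subtype _))
  have hH : ∀ w, H w = N (h' (h21_infl π red w)) + ι (E w.1) := fun w => rfl
  -- `H` kills the multiples of `p`
  have hHp : ∀ ψ₁ : G → L₀, H (h21_pfun red p hpM ψ₁) = 0 := by
    intro ψ₁
    rw [hH, h21_infl_pfun, map_sum, map_sum]
    have h1 : ∀ g : G', N (h' (g⁻¹ • h21_delta π red p hpM (ψ₁ (π g))))
        = ι (p • e g (ψ₁ (π g))) := fun g => by rw [← ha, he]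
    simp only [h1]
    rw [hE, map_sum]
    have h2 : ∀ σ : G', ι (π σ • e σ ((h21_pfun red p hpM ψ₁).1 1)
          - e σ ((h21_pfun red p hpM ψ₁).1 (π σ)))
        = σ • a σ (ψ₁ 1) - ι (p • e σ (ψ₁ (π σ))) := fun σ => by
      rw [map_sub, hιeq, h21_pfun_apply, h21_pfun_apply, map_nsmul (e σ), map_nsmul (e σ),
        ← he σ (ψ₁ 1)]
    simp only [h2]
    rw [Finset.sum_sub_distrib, add_sub_cancel]
    have h3 : ∀ σ : G', σ • a σ (ψ₁ 1)
        = N (σ • h' (σ⁻¹ • h21_delta π red p hpM (ψ₁ 1))) := fun σ => by rw [ha, hNsmul]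
    simp only [h3]
    rw [← map_sum, ← hh'', hFdef]
    have h4 : h21_q π red (h21_delta π red p hpM (ψ₁ 1)) = 0 := by
      show red ((h21_delta π red p hpM (ψ₁ 1)).1 1) = 0
      rw [h21_delta_apply, if_pos rfl, map_nsmul, hpM]
    rw [h4, map_zero, map_zero, map_zero]
  -- `H` has values in the range of `ι`
  have hHr : ∀ w, ∃ c : C, H w = ι c := fun w => by
    obtain ⟨c, hc⟩ := hNrange (h' (h21_infl π red w))
    exact ⟨p • c + E w.1, by rw [hH, hc, map_add]⟩
  choose H₀ hH₀ using hHr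
  have hH₀_add : ∀ w w', H₀ (w + w') = H₀ w + H₀ w' := fun w w' =>
    hι (by rw [← hH₀, map_add, ι.map_add, hH₀, hH₀])
  have hH₀_p : ∀ ψ₁ : G → L₀, H₀ (h21_pfun red p hpM ψ₁) = 0 := fun ψ₁ =>
    hι (by rw [← hH₀, hHp, map_zero])
  have hH₀_q : ∀ w w', h21_q (MonoidHom.id G) red w = h21_q (MonoidHom.id G) red w' →
      H₀ w = H₀ w' := by
    intro w w' h
    have h1 : ∀ x : G, ∃ v : L₀, w.1 x - w'.1 x = p • v := fun x => hker _ (by
      rw [map_sub, h21_q_spec, h21_q_spec, h, sub_self])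
    choose ψ₁ hψ₁ using h1
    have h2 : w - w' = h21_pfun red p hpM ψ₁ := by
      apply Subtype.ext; funext x
      exact hψ₁ x
    have h3 : H₀ (w - w') = 0 := by rw [h2, hH₀_p]
    have h4 : H₀ w = H₀ (w - w') + H₀ w' := by rw [← hH₀_add, sub_add_cancel]
    rw [h4, h3, zero_add]
  -- the correction term has norm zero
  have hEzero : ∀ ψ : G → L₀, ∑ x : G, x • E (fun g => ψ (g * x⁻¹)) = 0 := by
    intro ψ
    simp only [hE, Finset.smul_sum, smul_sub, smul_smul]
    rw [Finset.sum_comm]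
    refine Finset.sum_eq_zero (fun σ _ => ?_)
    rw [Finset.sum_sub_distrib, sub_eq_zero]
    refine Fintype.sum_equiv (Equiv.mulRight (π σ)) _ _ (fun x => ?_)
    simp
  -- the norm identity for `H₀`
  choose lift hlift' using hπ
  have hmain : ∀ w : h21_W (MonoidHom.id G) red,
      ∑ x : G, x • H₀ (x⁻¹ • w) = f (h21_q (MonoidHom.id G) red w) := by
    intro w
    apply hι
    rw [map_sum]
    have h1 : ∀ x : G, ι (x • H₀ (x⁻¹ • w))
        = lift x • N (h' (h21_infl π red (x⁻¹ • w))) + ι (x • E (fun g => w.1 (g * x⁻¹))) := by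
      intro x
      have h2 : ι (x • H₀ (x⁻¹ • w)) = lift x • H (x⁻¹ • w) := by
        rw [hH₀, ← hιeq, hlift']
      rw [h2, hH, smul_add, ← hιeq, hlift']
      rfl
    simp only [h1]
    rw [Finset.sum_add_distrib, ← map_sum, hEzero, map_zero, add_zero]
    -- the sum over `G` of the norms is the sum over `G'`
    have h3 : F (h21_infl π red w) = ι (f (h21_q (MonoidHom.id G) red w)) := by
      rw [hFdef, h21_q_infl]
    rw [← h3, hh'', ← Finset.sum_fiberwise Finset.univ (fun g : G' => π g)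
      (fun g => g • h' (g⁻¹ • h21_infl π red w))]
    refine Finset.sum_congr rfl (fun x _ => ?_)
    rw [h21_fiber_sum' π _ x (lift x) (hlift' x), hN, Finset.smul_sum]
    refine Finset.sum_congr rfl (fun s _ => ?_)
    have h4 : (lift x * (s : G'))⁻¹ • h21_infl π red w = h21_infl π red (x⁻¹ • w) := by
      rw [← h21_infl_smul, map_inv, map_mul, hlift', MonoidHom.mem_ker.1 s.2, mul_one]
    rw [h4, mul_smul]
  -- the map `h̄`
  let wm : M → h21_W (MonoidHom.id G) red := fun m =>
    ⟨fun x => s₀ (x • m), ⟨m, fun x => hs₀ _⟩⟩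
  have hwm : ∀ m, h21_q (MonoidHom.id G) red (wm m) = m := fun m => by
    show red (s₀ ((1 : G) • m)) = m
    rw [hs₀, one_smul]
  let hbar : M →+ C := AddMonoidHom.mk' (fun m => H₀ (wm m)) (fun m m' => by
    rw [← hH₀_add]
    exact hH₀_q _ _ (by rw [map_add, hwm, hwm, hwm]))
  refine ⟨hbar, fun m => ?_⟩
  rw [finsum_eq_sum_of_fintype]
  have h5 : ∀ g : G, hbar (g⁻¹ • m) = H₀ (g⁻¹ • wm m) := by
    intro g
    show H₀ (wm (g⁻¹ • m)) = H₀ (g⁻¹ • wm m)
    refine hH₀_q _ _ ?_
    rw [hwm, h21_q_smul, hwm]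
    rfl
  simp only [h5]
  rw [hmain, hwm]

end Main

end Fermat.Agent.S55
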