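/-
S55 layer H, row H-WP (helper41): trace-one endomorphisms ("weakly projective" modules).

* coinduced modules are WP (`h41_wp_of_isCoind`, `h41_wp_coind`);
* `Hom` into a WP module is WP (`h41_wp_hom`);
* WP restricts to subgroups (`h41_wp_subgroup`) and ascends from a subgroup whose index acts
  bijectively (`h41_wp_of_index`);
* WP modules are acyclic in degrees `0^, 1, 2, 3` (`h41_wp_H0`, `h41_wp_H1`, `h41_wp_H2`,
  `h41_wp_H3`), by the explicit contracting homotopy
  `(s f)(g₁, …) = Σ_t t⁻¹ • π (f (t, g₁, …))`.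
-/
import Mathlib
import Fermat.Agent.S55.h72_AbsDefs
import Fermat.Agent.S55.h40_HDefs

set_option autoImplicit false

namespace Fermat.Agent.S55

open groupCohomology

section WP

variable {G : Type*} [Group G] [Finite G] {A B : Type*} [AddCommGroup A] [AddCommGroup B]
  [DistribMulAction G A] [DistribMulAction G B]

omit [Finite G] in
/-- Finset form of the trace-one property. -/
lemma h41_wp_sum [Fintype G] {π : B →+ B} (hπ : ∀ b : B, ∑ᶠ g : G, g • π (g⁻¹ • b) = b)
    (b : B) : ∑ g : G, g • π (g⁻¹ • b) = b := by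
  rw [← finsum_eq_sum_of_fintype]
  exact hπ b

/-- Finset form of the trace-one property, summed over inverses. -/
lemma h41_wp_sum_inv [Fintype G] {π : B →+ B} (hπ : ∀ b : B, ∑ᶠ g : G, g • π (g⁻¹ • b) = b)
    (b : B) : ∑ g : G, g⁻¹ • π (g • b) = b := by
  have h2 := Equiv.sum_comp (Equiv.inv G) (fun g : G => g • π (g⁻¹ • b))
  rw [h41_wp_sum hπ b] at h2
  calc ∑ g : G, g⁻¹ • π (g • b)
      = ∑ i : G, (Equiv.inv G i) • π ((Equiv.inv G i)⁻¹ • b) :=
        Finset.sum_congr rfl (fun g _ => by simp only [Equiv.inv_apply, inv_inv])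
    _ = b := h2

/-- Evaluation of a coinduced function, as an additive map. -/
def h41_coindEval (G : Type*) {V : Type*} [AddCommGroup V] (x : G) : h40_Coind G V →+ V where
  toFun φ := φ x
  map_zero' := rfl
  map_add' _ _ := rfl

/-- Evaluation of an element of `h40_Hom A B`, as an additive map. -/
def h41_homEval (a : A) : h40_Hom A B →+ B where
  toFun φ := φ a
  map_zero' := rfl
  map_add' _ _ := rfl

/-- WP transports along equivariant additive equivalences. -/
theorem h41_wp_of_addEquiv {B' : Type*} [AddCommGroup B'] [DistribMulAction G B']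
    (e : B ≃+ B') (he : ∀ (g : G) (b : B), e (g • b) = g • e b) (h : h40_IsWP G B') :
    h40_IsWP G B := by
  classical
  have := Fintype.ofFinite G
  obtain ⟨π, hπ⟩ := h
  refine ⟨(e.symm.toAddMonoidHom.comp π).comp e.toAddMonoidHom, fun b => ?_⟩
  rw [finsum_eq_sum_of_fintype]
  apply e.injective
  rw [map_sum]
  calc ∑ g : G, e (g • ((e.symm.toAddMonoidHom.comp π).comp e.toAddMonoidHom) (g⁻¹ • b))
      = ∑ g : G, g • π (g⁻¹ • e b) := by
        refine Finset.sum_congr rfl fun g _ => ?_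
        rw [he]
        show g • e (e.symm (π (e (g⁻¹ • b)))) = _
        rw [e.apply_symm_apply, he]
    _ = e b := h41_wp_sum hπ (e b)

lemma h41_delta_zero (G : Type*) {V : Type*} [One G] [AddCommGroup V] :
    h40_delta G (0 : V) = 0 := by
  ext x
  by_cases hx : x = 1
  · subst hx; exact h40_delta_apply_one G _
  · exact h40_delta_apply_of_ne G _ hx

lemma h41_delta_add (G : Type*) {V : Type*} [One G] [AddCommGroup V] (v w : V) :
    h40_delta G (v + w) = h40_delta G v + h40_delta G w := by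
  ext x
  by_cases hx : x = 1
  · subst hx
    rw [h40_Coind.add_apply, h40_delta_apply_one, h40_delta_apply_one, h40_delta_apply_one]
  · rw [h40_Coind.add_apply, h40_delta_apply_of_ne G _ hx, h40_delta_apply_of_ne G _ hx,
      h40_delta_apply_of_ne G _ hx, add_zero]

theorem h41_wp_coind (V : Type*) [AddCommGroup V] : h40_IsWP G (h40_Coind G V) := by
  classical
  have := Fintype.ofFinite G
  refine ⟨{ toFun := fun φ => h40_delta G (φ 1), map_zero' := h41_delta_zero G,
            map_add' := fun φ ψ => h41_delta_add G (φ 1) (ψ 1) }, fun φ => ?_⟩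
  rw [finsum_eq_sum_of_fintype]
  ext x
  show h41_coindEval G x (∑ g : G, g • _) = φ x
  rw [map_sum]
  rw [Finset.sum_eq_single x⁻¹]
  · show h40_delta G ((x⁻¹⁻¹ • φ) 1) (x * x⁻¹) = φ x
    rw [mul_inv_cancel, h40_delta_apply_one, h40_Coind.smul_apply, inv_inv, one_mul]
  · intro g _ hg
    show h40_delta G ((g⁻¹ • φ) 1) (x * g) = 0
    apply h40_delta_apply_of_ne
    intro h
    exact hg (eq_inv_of_mul_eq_one_right h)
  · intro h
    exact absurd (Finset.mem_univ _) h

theorem h41_wp_of_isCoind (h : h40_IsCoind G B) : h40_IsWP G B := by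
  obtain ⟨V, _, e, he⟩ := h
  exact h41_wp_of_addEquiv (B' := h40_Coind G V) e (fun g b => funext fun x => he g b x)
    (h41_wp_coind V)

theorem h41_wp_hom (h : h40_IsWP G B) : h40_IsWP G (h40_Hom A B) := by
  classical
  have := Fintype.ofFinite G
  obtain ⟨π, hπ⟩ := h
  refine ⟨{ toFun := fun φ => h40_Hom.mk (π.comp (h40_Hom.toHom φ))
            map_zero' := ?_, map_add' := ?_ }, fun φ => ?_⟩
  · ext a
    show π ((0 : h40_Hom A B) a) = 0
    rw [h40_Hom.zero_apply, map_zero]
  · intro φ ψ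
    ext a
    show π ((φ + ψ) a) = π (φ a) + π (ψ a)
    rw [h40_Hom.add_apply, map_add]
  · rw [finsum_eq_sum_of_fintype]
    ext a
    show h41_homEval a (∑ g : G, g • _) = φ a
    rw [map_sum]
    calc ∑ g : G, h41_homEval a (g • (h40_Hom.mk (π.comp (h40_Hom.toHom (g⁻¹ • φ)))))
        = ∑ g : G, g • π (g⁻¹ • φ a) := by
          refine Finset.sum_congr rfl fun g _ => ?_
          show g • π ((g⁻¹ • φ) (g⁻¹ • a)) = _
          rw [h40_Hom.smul_apply, inv_inv, smul_inv_smul]
      _ = φ a := h41_wp_sum hπ (φ a)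

omit [Finite G] in
/-- A right transversal of `H` gives a bijection `H × T ≃ G`. -/
lemma h41_bij_right (H : Subgroup G) {T : Set G} (hT : Subgroup.IsComplement (H : Set G) T) :
    Function.Bijective (fun x : H × T => (x.1 : G) * (x.2 : G)) := by
  constructor
  · rintro ⟨h, t⟩ ⟨h', t'⟩ heq
    have h1 := hT.1 (a₁ := ((⟨h.1, SetLike.mem_coe.mpr h.2⟩ : (H : Set G)), t))
      (a₂ := ((⟨h'.1, SetLike.mem_coe.mpr h'.2⟩ : (H : Set G)), t')) heq
    have h2 := congrArg Prod.fst h1
    have h3 := congrArg Prod.snd h1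
    have h4 : (h : G) = (h' : G) := congrArg Subtype.val h2
    exact Prod.ext (Subtype.ext h4) h3
  · intro g
    obtain ⟨⟨⟨h, hh⟩, t⟩, hx⟩ := hT.2 g
    exact ⟨(⟨h, SetLike.mem_coe.mp hh⟩, t), hx⟩

omit [Finite G] in
/-- A left transversal of `P` gives a bijection `T × P ≃ G`. -/
lemma h41_bij_left (P : Subgroup G) {T : Set G} (hT : Subgroup.IsComplement T (P : Set G)) :
    Function.Bijective (fun x : T × P => (x.1 : G) * (x.2 : G)) := by
  constructor
  · rintro ⟨t, h⟩ ⟨t', h'⟩ heq
    have h1 := hT.1 (a₁ := (t, (⟨h.1, SetLike.mem_coe.mpr h.2⟩ : (P : Set G))))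
      (a₂ := (t', (⟨h'.1, SetLike.mem_coe.mpr h'.2⟩ : (P : Set G)))) heq
    have h2 := congrArg Prod.fst h1
    have h3 := congrArg Prod.snd h1
    have h4 : (h : G) = (h' : G) := congrArg Subtype.val h3
    exact Prod.ext h2 (Subtype.ext h4)
  · intro g
    obtain ⟨⟨t, ⟨h, hh⟩⟩, hx⟩ := hT.2 g
    exact ⟨(t, ⟨h, SetLike.mem_coe.mp hh⟩), hx⟩

theorem h41_wp_subgroup (h : h40_IsWP G B) (H : Subgroup G) : h40_IsWP H B := by
  classical
  have := Fintype.ofFinite G
  obtain ⟨π, hπ⟩ := h
  obtain ⟨T, hT, -⟩ := H.exists_isComplement_right 1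
  have : Fintype T := Fintype.ofFinite T
  have : Fintype H := Fintype.ofFinite H
  have hbij := h41_bij_right H hT
  let πH : B →+ B :=
    { toFun := fun c => ∑ t : T, (t : G) • π ((t : G)⁻¹ • c)
      map_zero' := by simp only [smul_zero, map_zero, Finset.sum_const_zero]
      map_add' := fun c c' => by simp only [smul_add, map_add, Finset.sum_add_distrib] }
  have key : ∀ c : B, πH c = ∑ t : T, (t : G) • π ((t : G)⁻¹ • c) := fun c => rfl
  refine ⟨πH, fun b => ?_⟩
  rw [finsum_eq_sum_of_fintype]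
  calc ∑ h : H, h • πH (h⁻¹ • b)
      = ∑ h : H, ∑ t : T, ((h : G) * (t : G)) • π (((h : G) * (t : G))⁻¹ • b) := by
        refine Finset.sum_congr rfl fun h _ => ?_
        rw [key, Finset.smul_sum]
        refine Finset.sum_congr rfl fun t _ => ?_
        rw [mul_inv_rev, mul_smul, mul_smul]
        rfl
    _ = ∑ x : H × T, ((x.1 : G) * (x.2 : G)) • π (((x.1 : G) * (x.2 : G))⁻¹ • b) :=
        (Fintype.sum_prod_type
          (fun x : H × T => ((x.1 : G) * (x.2 : G)) • π (((x.1 : G) * (x.2 : G))⁻¹ • b))).symm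
    _ = ∑ g : G, g • π (g⁻¹ • b) :=
        Equiv.sum_comp (Equiv.ofBijective _ hbij) (fun g : G => g • π (g⁻¹ • b))
    _ = b := h41_wp_sum hπ b

theorem h41_wp_of_index (P : Subgroup G)
    (hidx : Function.Bijective (fun b : B => P.index • b)) (h : h40_IsWP P B) :
    h40_IsWP G B := by
  classical
  have := Fintype.ofFinite G
  obtain ⟨π, hπ⟩ := h
  obtain ⟨T, hT, -⟩ := P.exists_isComplement_left 1
  have : Fintype T := Fintype.ofFinite T
  have : Fintype P := Fintype.ofFinite P
  have hbij := h41_bij_left P hT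
  have hcard : Fintype.card T = P.index := by
    rw [← Nat.card_eq_fintype_card]; exact hT.card_left
  let m : B ≃+ B := AddEquiv.ofBijective (nsmulAddMonoidHom P.index) hidx
  have hm : ∀ c : B, m c = P.index • c := fun c => rfl
  have hmg : ∀ (g : G) (c : B), m (g • c) = g • m c := by
    intro g c
    rw [hm, hm]
    exact (map_nsmul (DistribSMul.toAddMonoidHom B g) P.index c).symm
  have hπ' : ∀ c : B, ∑ x : P, (x : G) • π ((x : G)⁻¹ • c) = c := by
    intro c
    have := hπ c
    rw [finsum_eq_sum_of_fintype] at this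
    exact this
  refine ⟨m.symm.toAddMonoidHom.comp π, fun b => ?_⟩
  rw [finsum_eq_sum_of_fintype]
  apply m.injective
  rw [map_sum]
  calc ∑ g : G, m (g • (m.symm.toAddMonoidHom.comp π) (g⁻¹ • b))
      = ∑ g : G, g • π (g⁻¹ • b) := by
        refine Finset.sum_congr rfl fun g _ => ?_
        rw [hmg]
        show g • m (m.symm (π (g⁻¹ • b))) = _
        rw [m.apply_symm_apply]
    _ = ∑ x : T × P, ((x.1 : G) * (x.2 : G)) • π (((x.1 : G) * (x.2 : G))⁻¹ • b) :=
        (Equiv.sum_comp (Equiv.ofBijective _ hbij) (fun g : G => g • π (g⁻¹ • b))).symm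
    _ = ∑ t : T, ∑ x : P, ((t : G) * (x : G)) • π (((t : G) * (x : G))⁻¹ • b) :=
        Fintype.sum_prod_type
          (fun x : T × P => ((x.1 : G) * (x.2 : G)) • π (((x.1 : G) * (x.2 : G))⁻¹ • b))
    _ = ∑ t : T, b := by
        refine Finset.sum_congr rfl fun t _ => ?_
        calc ∑ x : P, ((t : G) * (x : G)) • π (((t : G) * (x : G))⁻¹ • b)
            = ∑ x : P, (t : G) • ((x : G) • π ((x : G)⁻¹ • ((t : G)⁻¹ • b))) := by
              refine Finset.sum_congr rfl fun x _ => ?_
              rw [mul_inv_rev, mul_smul, mul_smul]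
          _ = (t : G) • ∑ x : P, (x : G) • π ((x : G)⁻¹ • ((t : G)⁻¹ • b)) :=
              Finset.smul_sum.symm
          _ = b := by rw [hπ', smul_inv_smul]
    _ = m b := by
        rw [Finset.sum_const, Finset.card_univ, hcard, hm]

theorem h41_wp_H0 (h : h40_IsWP G B) (b : B) (hb : ∀ g : G, g • b = b) :
    ∃ b' : B, b = ∑ᶠ g : G, g • b' := by
  obtain ⟨π, hπ⟩ := h
  refine ⟨π b, ?_⟩
  have h1 := hπ b
  rw [finsum_congr (fun g : G => by rw [hb g⁻¹])] at h1
  exact h1.symm

/-- The contracting homotopy operator `c ↦ Σ_t t⁻¹ • π (c t)`. -/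
noncomputable def h41_S [Fintype G] (π : B →+ B) (c : G → B) : B := ∑ t : G, t⁻¹ • π (c t)

omit [Finite G] in
lemma h41_S_add [Fintype G] (π : B →+ B) (c c' : G → B) :
    h41_S π (fun t => c t + c' t) = h41_S π c + h41_S π c' := by
  simp only [h41_S, map_add, smul_add, Finset.sum_add_distrib]

omit [Finite G] in
lemma h41_S_sub [Fintype G] (π : B →+ B) (c c' : G → B) :
    h41_S π (fun t => c t - c' t) = h41_S π c - h41_S π c' := by
  simp only [h41_S, map_sub, smul_sub, Finset.sum_sub_distrib]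

lemma h41_S_smul_const [Fintype G] {π : B →+ B}
    (hπ : ∀ b : B, ∑ᶠ g : G, g • π (g⁻¹ • b) = b) (b : B) :
    h41_S π (fun t : G => t • b) = b :=
  h41_wp_sum_inv hπ b

omit [Finite G] in
lemma h41_smul_S [Fintype G] (π : B →+ B) (g : G) (c : G → B) :
    g • h41_S π c = h41_S π (fun s => c (s * g)) := by
  unfold h41_S
  calc g • ∑ t : G, t⁻¹ • π (c t) = ∑ t : G, g • t⁻¹ • π (c t) := Finset.smul_sum
    _ = ∑ s : G, g • (s * g)⁻¹ • π (c (s * g)) :=
        (Equiv.sum_comp (Equiv.mulRight g) (fun t : G => g • t⁻¹ • π (c t))).symm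
    _ = ∑ s : G, s⁻¹ • π (c (s * g)) := by
        refine Finset.sum_congr rfl fun s _ => ?_
        rw [smul_smul, mul_inv_rev, mul_inv_cancel_left]

theorem h41_wp_H1 (h : h40_IsWP G B) (f : G → B) (hf : IsCocycle₁ f) : IsCoboundary₁ f := by
  classical
  have := Fintype.ofFinite G
  obtain ⟨π, hπ⟩ := h
  refine ⟨h41_S π f, fun g => ?_⟩
  rw [h41_smul_S]
  have h1 : (fun s : G => f (s * g)) = fun s => s • f g + f s := funext fun s => hf s g
  rw [h1, h41_S_add, h41_S_smul_const hπ]
  abel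

theorem h41_wp_H2 (h : h40_IsWP G B) (f : G × G → B) (hf : IsCocycle₂ f) :
    IsCoboundary₂ f := by
  classical
  have := Fintype.ofFinite G
  obtain ⟨π, hπ⟩ := h
  refine ⟨fun h => h41_S π (fun t => f (t, h)), fun g h => ?_⟩
  show g • h41_S π (fun t => f (t, h)) - h41_S π (fun t => f (t, g * h))
    + h41_S π (fun t => f (t, g)) = f (g, h)
  rw [h41_smul_S]
  have h1 : (fun s : G => f (s * g, h)) = fun s => s • f (g, h) + f (s, g * h) - f (s, g) :=
    funext fun s => by
      have := hf s g h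
      rw [eq_sub_iff_add_eq]
      exact this
  rw [h1, h41_S_sub, h41_S_add, h41_S_smul_const hπ]
  abel

theorem h41_wp_H3 (h : h40_IsWP G B) (f : G × G × G → B) (hf : h40_IsCocycle₃ f) :
    h40_IsCoboundary₃ f := by
  classical
  have := Fintype.ofFinite G
  obtain ⟨π, hπ⟩ := h
  refine ⟨fun x => h41_S π (fun t => f (t, x.1, x.2)), fun g h j => ?_⟩
  show g • h41_S π (fun t => f (t, h, j)) - h41_S π (fun t => f (t, g * h, j))
    + h41_S π (fun t => f (t, g, h * j)) - h41_S π (fun t => f (t, g, h)) = f (g, h, j)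
  rw [h41_smul_S]
  have h1 : (fun s : G => f (s * g, h, j))
      = fun s => s • f (g, h, j) + f (s, g * h, j) + f (s, g, h) - f (s, g, h * j) :=
    funext fun s => by
      have := hf s g h j
      rw [eq_sub_iff_add_eq]
      exact this
  rw [h1, h41_S_sub, h41_S_add, h41_S_add, h41_S_smul_const hπ]
  abel

end WP

end Fermat.Agent.S55
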