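import Mathlib
import Fermat.Agent.S55.h72_AbsDefs
import Fermat.Agent.S55.h40_HDefs

set_option autoImplicit false

/-!
# S55, layer H, row H-LAMMOD (helper24)

The `Z_(p)`-module structure on a `p`-local additive group (`h24_lamModule`, a `def`, never an
instance), its compatibility with additive maps, and the closure properties of `h40_IsPLocal`.
-/

namespace Fermat.Agent.S55

open groupCohomology

section LAMMOD

variable {p : ℕ} [Fact p.Prime] {C C' : Type*} [AddCommGroup C] [AddCommGroup C']

/-- An integer outside `(p)` acts bijectively on a `p`-local group. -/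
theorem h24_int_smul_bijective (hC : h40_IsPLocal p C) (s : ℤ)
    (hs : s ∈ (Ideal.span {(p : ℤ)}).primeCompl) : Function.Bijective (fun c : C => s • c) := by
  have hp : p.Prime := Fact.out
  have hnd : ¬ (p : ℤ) ∣ s := fun h => hs (Ideal.mem_span_singleton.2 h)
  have hcop : (s.natAbs).Coprime p := by
    rw [Nat.coprime_comm, hp.coprime_iff_not_dvd]
    intro h
    exact hnd (Int.natCast_dvd.2 h)
  have hb := hC s.natAbs hcop
  rcases Int.natAbs_eq s with h | h
  · have : (fun c : C => s • c) = fun c : C => s.natAbs • c := by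
      funext c
      conv_lhs => rw [h]
      exact natCast_zsmul c _
    rw [this]
    exact hb
  · have : (fun c : C => s • c) = fun c : C => -(s.natAbs • c) := by
      funext c
      conv_lhs => rw [h]
      rw [neg_smul, natCast_zsmul]
    rw [this]
    exact (neg_involutive (G := C)).bijective.comp hb

/-- The integers outside `(p)` become units of the centre of `End C` for a `p`-local group
`C`. -/
theorem h24_isUnit_intCast (hC : h40_IsPLocal p C)
    (s : (Ideal.span {(p : ℤ)}).primeCompl) :
    IsUnit (Int.castRingHom (Subring.center (Module.End ℤ C)) (s : ℤ)) := by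
  have hb := h24_int_smul_bijective hC (s : ℤ) s.2
  -- the inverse endomorphism
  let e : C ≃+ C := AddEquiv.ofBijective (zsmulAddGroupHom (s : ℤ)) hb
  let g : Module.End ℤ C := e.symm.toAddMonoidHom.toIntLinearMap
  have hfg : ∀ c : C, (s : ℤ) • g c = c := fun c => e.apply_symm_apply c
  have hgf : ∀ c : C, g ((s : ℤ) • c) = c := fun c => e.symm_apply_apply c
  have hg : g ∈ Subring.center (Module.End ℤ C) := by
    rw [Subring.mem_center_iff]
    intro h
    ext c
    simp only [Module.End.mul_apply]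
    -- `h (g c) = g (h c)`
    apply hb.1
    simp only []
    rw [hfg, ← map_zsmul h, hfg]
  refine IsUnit.of_mul_eq_one (⟨g, hg⟩ : Subring.center (Module.End ℤ C)) ?_
  apply Subtype.ext
  ext c
  simp only [eq_intCast, Subring.coe_mul, Subring.coe_intCast, Subring.coe_one,
    Module.End.mul_apply, Module.End.one_apply, Module.End.intCast_apply]
  exact hfg c

/-- The ring homomorphism `Z_(p) → End C` of a `p`-local group `C`. -/
noncomputable def h24_lamHom (hC : h40_IsPLocal p C) : h40_Lam p →+* Module.End ℤ C :=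
  (Subring.center (Module.End ℤ C)).subtype.comp
    (IsLocalization.lift (M := (Ideal.span {(p : ℤ)}).primeCompl) (S := h40_Lam p)
      (g := Int.castRingHom (Subring.center (Module.End ℤ C))) (h24_isUnit_intCast hC))

/-- The `Z_(p)`-module structure on a `p`-local additive group. -/
@[reducible] noncomputable def h24_lamModule (hC : h40_IsPLocal p C) : Module (h40_Lam p) C :=
  Module.compHom C (h24_lamHom hC)

theorem h24_lam_smul_def (hC : h40_IsPLocal p C) (l : h40_Lam p) (c : C) :
    letI := h24_lamModule hC; l • c = h24_lamHom hC l c := rfl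

theorem h24_lamHom_algebraMap (hC : h40_IsPLocal p C) (a : ℤ) (c : C) :
    h24_lamHom hC (algebraMap ℤ (h40_Lam p) a) c = a • c := by
  unfold h24_lamHom
  rw [RingHom.comp_apply, IsLocalization.lift_eq]
  simp

theorem h24_lam_intCast_smul (hC : h40_IsPLocal p C) (a : ℤ) (c : C) :
    letI := h24_lamModule hC; (a : h40_Lam p) • c = a • c := by
  rw [h24_lam_smul_def, ← eq_intCast (algebraMap ℤ (h40_Lam p)) a, h24_lamHom_algebraMap]

theorem h24_lam_natCast_smul (hC : h40_IsPLocal p C) (n : ℕ) (c : C) :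
    letI := h24_lamModule hC; (n : h40_Lam p) • c = n • c := by
  have h := h24_lam_intCast_smul hC (n : ℤ) c
  rw [Int.cast_natCast, natCast_zsmul] at h
  exact h

/-- Every element of `Z_(p)` is a fraction `a / s`. -/
theorem h24_lam_exists_frac (l : h40_Lam p) :
    ∃ (a : ℤ) (s : ℤ), s ∈ (Ideal.span {(p : ℤ)}).primeCompl ∧
      l * algebraMap ℤ (h40_Lam p) s = algebraMap ℤ (h40_Lam p) a := by
  obtain ⟨x, hx⟩ := IsLocalization.surj (Ideal.span {(p : ℤ)}).primeCompl l
  exact ⟨x.1, (x.2 : ℤ), x.2.2, hx⟩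

theorem h24_lamHom_frac (hC : h40_IsPLocal p C) (l : h40_Lam p) (a s : ℤ)
    (h : l * algebraMap ℤ (h40_Lam p) s = algebraMap ℤ (h40_Lam p) a) (d : C) :
    h24_lamHom hC l (s • d) = a • d := by
  have h1 := congrArg (fun x => h24_lamHom hC x d) h
  simp only [map_mul, Module.End.mul_apply] at h1
  rw [h24_lamHom_algebraMap, h24_lamHom_algebraMap] at h1
  exact h1

theorem h24_lam_map_smul (hC : h40_IsPLocal p C) (hC' : h40_IsPLocal p C') (f : C →+ C')
    (l : h40_Lam p) (c : C) :
    letI := h24_lamModule hC; letI := h24_lamModule hC'; f (l • c) = l • f c := by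
  rw [h24_lam_smul_def, h24_lam_smul_def]
  obtain ⟨a, s, hs, hl⟩ := h24_lam_exists_frac l
  obtain ⟨d, rfl⟩ := (h24_int_smul_bijective hC s hs).2 c
  simp only []
  rw [h24_lamHom_frac hC l a s hl d, map_zsmul, map_zsmul, h24_lamHom_frac hC' l a s hl (f d)]

theorem h24_isPLocal_lam : h40_IsPLocal p (h40_Lam p) := by
  intro m hm
  have hp : p.Prime := Fact.out
  have hmem : (m : ℤ) ∈ (Ideal.span {(p : ℤ)}).primeCompl := by
    intro h
    have h0 : (m : ℤ) ∈ Ideal.span {(p : ℤ)} := h
    rw [Ideal.mem_span_singleton] at h0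
    have h' : p ∣ m := Int.natCast_dvd_natCast.1 h0
    have := Nat.Coprime.eq_one_of_dvd hm.symm h'
    exact hp.one_lt.ne' this
  have hu : IsUnit (algebraMap ℤ (h40_Lam p) (m : ℤ)) :=
    IsLocalization.map_units (h40_Lam p) (⟨(m : ℤ), hmem⟩ : (Ideal.span {(p : ℤ)}).primeCompl)
  have : (fun c : h40_Lam p => m • c) = fun c => algebraMap ℤ (h40_Lam p) (m : ℤ) * c := by
    funext c
    rw [nsmul_eq_mul]
    simp
  rw [this]
  exact hu.unit.mulLeft_bijective

theorem h24_isPLocal_pi {ι : Type*} (hC : h40_IsPLocal p C) : h40_IsPLocal p (ι → C) := by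
  intro m hm
  constructor
  · intro φ ψ h
    funext i
    exact (hC m hm).1 (congrFun h i)
  · intro ψ
    choose φ hφ using fun i => (hC m hm).2 (ψ i)
    exact ⟨φ, funext hφ⟩

theorem h24_isPLocal_of_addEquiv (e : C ≃+ C') (hC' : h40_IsPLocal p C') : h40_IsPLocal p C := by
  intro m hm
  constructor
  · intro x y h
    apply e.injective
    apply (hC' m hm).1
    simp only []
    rw [← map_nsmul, ← map_nsmul]
    exact congrArg e h
  · intro y
    obtain ⟨x', hx'⟩ := (hC' m hm).2 (e y)
    refine ⟨e.symm x', ?_⟩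
    apply e.injective
    simp only []
    rw [map_nsmul, AddEquiv.apply_symm_apply]
    exact hx'

theorem h24_isPLocal_of_lattice (h : h40_IsLattice p C) : h40_IsPLocal p C := by
  obtain ⟨d, ⟨e⟩⟩ := h
  exact h24_isPLocal_of_addEquiv e (h24_isPLocal_pi h24_isPLocal_lam)

theorem h24_isPLocal_prod (hC : h40_IsPLocal p C) (hC' : h40_IsPLocal p C') :
    h40_IsPLocal p (C × C') := by
  intro m hm
  constructor
  · rintro ⟨x, x'⟩ ⟨y, y'⟩ h
    have h1 : m • x = m • y := congrArg Prod.fst h
    have h2 : m • x' = m • y' := congrArg Prod.snd h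
    exact Prod.ext ((hC m hm).1 h1) ((hC' m hm).1 h2)
  · rintro ⟨y, y'⟩
    obtain ⟨x, hx⟩ := (hC m hm).2 y
    obtain ⟨x', hx'⟩ := (hC' m hm).2 y'
    exact ⟨(x, x'), Prod.ext hx hx'⟩

theorem h24_isPLocal_addMonoidHom (hC' : h40_IsPLocal p C') : h40_IsPLocal p (C →+ C') := by
  intro m hm
  constructor
  · intro φ ψ h
    ext a
    apply (hC' m hm).1
    exact DFunLike.congr_fun h a
  · intro ψ
    let e : C' ≃+ C' := AddEquiv.ofBijective (nsmulAddMonoidHom m) (hC' m hm)
    refine ⟨e.symm.toAddMonoidHom.comp ψ, ?_⟩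
    ext a
    show m • e.symm (ψ a) = ψ a
    exact e.apply_symm_apply (ψ a)

theorem h24_isPLocal_hom (hC' : h40_IsPLocal p C') : h40_IsPLocal p (h40_Hom C C') :=
  h24_isPLocal_addMonoidHom (C := C) hC'

theorem h24_isPLocal_coind (G : Type*) (hC : h40_IsPLocal p C) :
    h40_IsPLocal p (h40_Coind G C) :=
  h24_isPLocal_pi (ι := G) hC

theorem h24_isPLocal_ker (hC : h40_IsPLocal p C) (hC' : h40_IsPLocal p C') (f : C →+ C') :
    h40_IsPLocal p f.ker := by
  intro m hm
  constructor
  · intro x y h
    apply Subtype.ext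
    apply (hC m hm).1
    exact congrArg Subtype.val h
  · intro y
    obtain ⟨x, hx⟩ := (hC m hm).2 (y : C)
    have hx' : m • x = (y : C) := hx
    have hx0 : f x = 0 := by
      apply (hC' m hm).1
      show m • f x = m • (0 : C')
      rw [← map_nsmul, hx', nsmul_zero]
      exact y.2
    exact ⟨⟨x, hx0⟩, Subtype.ext hx'⟩

theorem h24_isPLocal_of_surjective (hC : h40_IsPLocal p C) (f : C →+ C')
    (hf : Function.Surjective f) (hker : h40_IsPLocal p f.ker) : h40_IsPLocal p C' := by
  intro m hm
  constructor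
  · intro x y h
    obtain ⟨a, rfl⟩ := hf x
    obtain ⟨b, rfl⟩ := hf y
    simp only [← map_nsmul] at h
    have hmem : m • (a - b) ∈ f.ker := by
      rw [AddMonoidHom.mem_ker, nsmul_sub, map_sub, h, sub_self]
    obtain ⟨k, hk⟩ := (hker m hm).2 ⟨m • (a - b), hmem⟩
    have hk' : m • (k : C) = m • (a - b) := congrArg Subtype.val hk
    have hab : (k : C) = a - b := (hC m hm).1 hk'
    have : f (a - b) = 0 := by rw [← hab]; exact k.2
    rw [map_sub, sub_eq_zero] at this
    exact this
  · intro y
    obtain ⟨a, rfl⟩ := hf y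
    obtain ⟨b, hb⟩ := (hC m hm).2 a
    have hb' : m • b = a := hb
    refine ⟨f b, ?_⟩
    show m • f b = f a
    rw [← map_nsmul, hb']

end LAMMOD

end Fermat.Agent.S55
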