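/-
S55 layer H, row H-SPLIT-A (helper74): construction of the splitting module of a 2-cocycle.

`D := C × I`, `I := ker (h40_aug G (h40_Lam p))`, with the twisted action
`σ • (c, x) = (σ • c + θ σ x, σ • x)`, `θ σ x = Σ_y x y • w' (σ, y⁻¹)`, where `w'` is the
normalised cocycle `w' (g, h) = w (g, h) - g • w (1, 1)`.
-/
import Mathlib
import Fermat.Agent.S55.h72_AbsDefs
import Fermat.Agent.S55.h40_HDefs
import Fermat.Agent.S55.h24_LamMod

set_option autoImplicit false

namespace Fermat.Agent.S55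

open groupCohomology

universe u v

section Core

variable {p : ℕ} [Fact p.Prime] {G : Type u} [Group G] [Fintype G] {C : Type v}
  [AddCommGroup C] [DistribMulAction G C]

/-- The normalised cocycle `w' (g, h) = w (g, h) - g • w (1, 1)`. -/
def h74_nrm (w : G × G → C) : G × G → C := fun x => w x - x.1 • w (1, 1)

omit [Fintype G] in
lemma h74_nrm_apply (w : G × G → C) (g h : G) :
    h74_nrm w (g, h) = w (g, h) - g • w (1, 1) := rfl

omit [Fintype G] in
lemma h74_nrm_cocycle {w : G × G → C} (hw : IsCocycle₂ w) (g h j : G) :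
    h74_nrm w (g * h, j) + h74_nrm w (g, h) = g • h74_nrm w (h, j) + h74_nrm w (g, h * j) := by
  have h2 := hw g h j
  simp only [h74_nrm_apply, mul_smul, smul_sub]
  rw [← sub_eq_zero] at h2 ⊢
  rw [← h2]
  abel

omit [Fintype G] in
lemma h74_nrm_one_fst {w : G × G → C} (hw : IsCocycle₂ w) (h : G) : h74_nrm w (1, h) = 0 := by
  rw [h74_nrm_apply, map_one_fst_of_isCocycle₂ hw h, one_smul, sub_self]

omit [Fintype G] in
lemma h74_nrm_one_snd {w : G × G → C} (hw : IsCocycle₂ w) (g : G) : h74_nrm w (g, 1) = 0 := by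
  rw [h74_nrm_apply, map_one_snd_of_isCocycle₂ hw g, sub_self]

/-- The underlying plain function of an element of `h40_Coind`. -/
def h74_fn (x : h40_Coind G (h40_Lam p)) : G → h40_Lam p := fun y => x y

omit [Fintype G] [Group G] in
lemma h74_fn_apply (x : h40_Coind G (h40_Lam p)) (y : G) : h74_fn x y = x y := rfl

omit [Fintype G] [Group G] in
lemma h74_fn_add (x x' : h40_Coind G (h40_Lam p)) : h74_fn (x + x') = h74_fn x + h74_fn x' := rfl

omit [Fintype G] [Group G] in
lemma h74_fn_sub (x x' : h40_Coind G (h40_Lam p)) : h74_fn (x - x') = h74_fn x - h74_fn x' := rfl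

omit [Fintype G] [Group G] in
lemma h74_fn_zero : h74_fn (0 : h40_Coind G (h40_Lam p)) = 0 := rfl

omit [Fintype G] in
lemma h74_fn_smul (σ : G) (x : h40_Coind G (h40_Lam p)) :
    h74_fn (σ • x) = fun y => h74_fn x (y * σ) := rfl

omit [Fintype G] in
lemma h74_fn_delta [DecidableEq G] :
    h74_fn (h40_delta G (1 : h40_Lam p)) = fun y => if y = 1 then 1 else 0 := by
  funext y
  by_cases hy : y = 1
  · subst hy
    rw [if_pos rfl]
    exact h40_delta_apply_one G _
  · rw [if_neg hy]
    exact h40_delta_apply_of_ne G _ hy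

omit [Group G] in
lemma h74_aug_eq (x : h40_Coind G (h40_Lam p)) :
    h40_aug G (h40_Lam p) x = ∑ y : G, h74_fn x y :=
  (h40_aug_apply G _ x).trans (finsum_eq_sum_of_fintype _)

lemma h74_aug_smul (σ : G) (x : h40_Coind G (h40_Lam p)) :
    h40_aug G (h40_Lam p) (σ • x) = h40_aug G (h40_Lam p) x := by
  rw [h74_aug_eq, h74_aug_eq, h74_fn_smul]
  exact Fintype.sum_equiv (Equiv.mulRight σ) _ _ (fun y => rfl)

lemma h74_aug_delta : h40_aug G (h40_Lam p) (h40_delta G (1 : h40_Lam p)) = 1 := by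
  classical
  rw [h74_aug_eq, h74_fn_delta]
  simp

variable [Module (h40_Lam p) C]

/-- `θ σ f = Σ_y f y • w' (σ, y⁻¹)`. -/
noncomputable def h74_theta (w : G × G → C) (σ : G) (f : G → h40_Lam p) : C :=
  ∑ y : G, f y • h74_nrm w (σ, y⁻¹)

lemma h74_theta_zero (w : G × G → C) (σ : G) :
    h74_theta w σ (0 : G → h40_Lam p) = 0 := by
  simp [h74_theta]

lemma h74_theta_add (w : G × G → C) (σ : G) (f f' : G → h40_Lam p) :
    h74_theta w σ (f + f') = h74_theta w σ f + h74_theta w σ f' := by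
  simp [h74_theta, add_smul, Finset.sum_add_distrib]

lemma h74_theta_sub (w : G × G → C) (σ : G) (f f' : G → h40_Lam p) :
    h74_theta w σ (f - f') = h74_theta w σ f - h74_theta w σ f' := by
  simp [h74_theta, sub_smul, Finset.sum_sub_distrib]

lemma h74_theta_one {w : G × G → C} (hw : IsCocycle₂ w) (f : G → h40_Lam p) :
    h74_theta w 1 f = 0 := by
  simp [h74_theta, h74_nrm_one_fst hw]

lemma h74_theta_mul
    (hcomm : ∀ (g : G) (l : h40_Lam p) (c : C), g • (l • c) = l • (g • c))
    {w : G × G → C} (hw : IsCocycle₂ w) (σ τ : G) (f : G → h40_Lam p)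
    (hf : ∑ y : G, f y = 0) :
    h74_theta w (σ * τ) f = σ • h74_theta w τ f + h74_theta w σ (fun y => f (y * τ)) := by
  have h1 : σ • h74_theta w τ f = ∑ y : G, f y • (σ • h74_nrm w (τ, y⁻¹)) := by
    unfold h74_theta
    rw [Finset.smul_sum]
    exact Finset.sum_congr rfl (fun y _ => hcomm σ _ _)
  have h2 : h74_theta w σ (fun y => f (y * τ)) = ∑ y : G, f y • h74_nrm w (σ, τ * y⁻¹) := by
    unfold h74_theta
    refine Fintype.sum_equiv (Equiv.mulRight τ) _ _ (fun y => ?_)
    show f (y * τ) • h74_nrm w (σ, y⁻¹) = f (y * τ) • h74_nrm w (σ, τ * (y * τ)⁻¹)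
    rw [mul_inv_rev, mul_inv_cancel_left]
  have h3 : (∑ y : G, f y) • h74_nrm w (σ, τ) = 0 := by
    rw [hf, zero_smul]
  have h4 : h74_theta w (σ * τ) f =
      h74_theta w (σ * τ) f + (∑ y : G, f y) • h74_nrm w (σ, τ) := by rw [h3, add_zero]
  rw [h1, h2, ← Finset.sum_add_distrib, h4]
  unfold h74_theta
  rw [Finset.sum_smul, ← Finset.sum_add_distrib]
  refine Finset.sum_congr rfl (fun y _ => ?_)
  rw [← smul_add, ← smul_add, h74_nrm_cocycle hw]

lemma h74_theta_ind [DecidableEq G] (w : G × G → C) (g h : G) :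
    h74_theta w g (fun y => if y * h = 1 then (1 : h40_Lam p) else 0) = h74_nrm w (g, h) := by
  unfold h74_theta
  rw [Finset.sum_eq_single h⁻¹]
  · beta_reduce
    rw [if_pos (inv_mul_cancel h), one_smul, inv_inv]
  · intro y _ hy
    beta_reduce
    rw [if_neg, zero_smul]
    intro hyh
    exact hy (eq_inv_of_mul_eq_one_left hyh)
  · intro hh
    exact absurd (Finset.mem_univ _) hh

/-- The `G`-action on `I = ker (h40_aug G (h40_Lam p))`. -/
noncomputable def h74_Ismul (σ : G) (x : (h40_aug G (h40_Lam p)).ker) :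
    (h40_aug G (h40_Lam p)).ker :=
  ⟨σ • (x : h40_Coind G (h40_Lam p)), by
    rw [AddMonoidHom.mem_ker, h74_aug_smul]; exact AddMonoidHom.mem_ker.mp x.2⟩

lemma h74_Ismul_coe (σ : G) (x : (h40_aug G (h40_Lam p)).ker) :
    ((h74_Ismul σ x : (h40_aug G (h40_Lam p)).ker) : h40_Coind G (h40_Lam p)) =
      σ • (x : h40_Coind G (h40_Lam p)) := rfl

/-- The twisted action on `C × I`. -/
noncomputable def h74_act (w : G × G → C) (σ : G) (d : C × (h40_aug G (h40_Lam p)).ker) :
    C × (h40_aug G (h40_Lam p)).ker :=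
  (σ • d.1 + h74_theta w σ (h74_fn (d.2 : h40_Coind G (h40_Lam p))), h74_Ismul σ d.2)

lemma h74_act_fst (w : G × G → C) (σ : G) (d : C × (h40_aug G (h40_Lam p)).ker) :
    (h74_act w σ d).1 = σ • d.1 + h74_theta w σ (h74_fn (d.2 : h40_Coind G (h40_Lam p))) := rfl

lemma h74_act_snd (w : G × G → C) (σ : G) (d : C × (h40_aug G (h40_Lam p)).ker) :
    ((h74_act w σ d).2 : h40_Coind G (h40_Lam p)) = σ • (d.2 : h40_Coind G (h40_Lam p)) := rfl

omit [Group G] in
lemma h74_sum_fn_ker (x : (h40_aug G (h40_Lam p)).ker) :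
    ∑ y : G, h74_fn (x : h40_Coind G (h40_Lam p)) y = 0 := by
  rw [← h74_aug_eq]; exact AddMonoidHom.mem_ker.mp x.2

/-- The twisted `G`-module structure on `C × I`. -/
@[reducible] noncomputable def h74_dma
    (hcomm : ∀ (g : G) (l : h40_Lam p) (c : C), g • (l • c) = l • (g • c))
    {w : G × G → C} (hw : IsCocycle₂ w) :
    DistribMulAction G (C × (h40_aug G (h40_Lam p)).ker) where
  smul := h74_act w
  one_smul d := by
    show h74_act w 1 d = d
    refine Prod.ext ?_ (Subtype.ext ?_)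
    · rw [h74_act_fst, one_smul, h74_theta_one hw, add_zero]
    · rw [h74_act_snd, one_smul]
  mul_smul σ τ d := by
    show h74_act w (σ * τ) d = h74_act w σ (h74_act w τ d)
    refine Prod.ext ?_ (Subtype.ext ?_)
    · rw [h74_act_fst, h74_act_fst, h74_act_fst, h74_act_snd, smul_add, mul_smul,
        h74_theta_mul hcomm hw σ τ _ (h74_sum_fn_ker d.2), h74_fn_smul, add_assoc]
    · rw [h74_act_snd, h74_act_snd, h74_act_snd, mul_smul]
  smul_zero σ := by
    show h74_act w σ 0 = 0
    refine Prod.ext ?_ (Subtype.ext ?_)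
    · rw [h74_act_fst]
      show σ • (0 : C) + h74_theta w σ (h74_fn (0 : h40_Coind G (h40_Lam p))) = 0
      rw [smul_zero, h74_fn_zero, h74_theta_zero, add_zero]
    · rw [h74_act_snd]
      show σ • (0 : h40_Coind G (h40_Lam p)) = 0
      rw [smul_zero]
  smul_add σ d d' := by
    show h74_act w σ (d + d') = h74_act w σ d + h74_act w σ d'
    refine Prod.ext ?_ (Subtype.ext ?_)
    · show σ • (d.1 + d'.1) + h74_theta w σ (h74_fn
          ((d.2 : h40_Coind G (h40_Lam p)) + (d'.2 : h40_Coind G (h40_Lam p)))) =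
        (σ • d.1 + h74_theta w σ (h74_fn (d.2 : h40_Coind G (h40_Lam p)))) +
        (σ • d'.1 + h74_theta w σ (h74_fn (d'.2 : h40_Coind G (h40_Lam p))))
      rw [smul_add, h74_fn_add, h74_theta_add]
      abel
    · show σ • ((d.2 : h40_Coind G (h40_Lam p)) + (d'.2 : h40_Coind G (h40_Lam p))) =
        σ • (d.2 : h40_Coind G (h40_Lam p)) + σ • (d'.2 : h40_Coind G (h40_Lam p))
      rw [smul_add]

omit [Fintype G] [Group G] in
lemma h74_fn_nsmul (m : ℕ) (x : h40_Coind G (h40_Lam p)) : h74_fn (m • x) = m • h74_fn x := rfl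

omit [Fintype G] in
lemma h74_fn_smul_delta [DecidableEq G] (h : G) :
    h74_fn (h • h40_delta G (1 : h40_Lam p)) = fun y => if y * h = 1 then 1 else 0 := by
  rw [h74_fn_smul, h74_fn_delta]

lemma h74_theta_ind_one [DecidableEq G] {w : G × G → C} (hw : IsCocycle₂ w) (g : G) :
    h74_theta w g (fun y => if y = 1 then (1 : h40_Lam p) else 0) = 0 := by
  have h1 := h74_theta_ind (p := p) w g 1
  rw [h74_nrm_one_snd hw] at h1
  rw [← h1]
  congr 1
  funext y
  rw [mul_one]

omit [Fintype G] [Group G] in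
lemma h74_unit_of_coprime (m : ℕ) (hm : m.Coprime p) :
    ∃ v : h40_Lam p, (m : h40_Lam p) * v = 1 := by
  have hmp : (m : ℤ) ∈ (Ideal.span {(p : ℤ)}).primeCompl := by
    show (m : ℤ) ∉ Ideal.span {(p : ℤ)}
    rw [Ideal.mem_span_singleton]
    intro hdvd
    have h0 : p ∣ m := by exact_mod_cast hdvd
    have h1 : p ∣ Nat.gcd m p := Nat.dvd_gcd h0 dvd_rfl
    rw [hm] at h1
    exact (Fact.out : p.Prime).one_lt.ne' (Nat.dvd_one.mp h1)
  have hu := IsLocalization.map_units (h40_Lam p) (⟨(m : ℤ), hmp⟩ : (Ideal.span {(p : ℤ)}).primeCompl)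
  obtain ⟨v, hv⟩ := hu.exists_right_inv
  refine ⟨v, ?_⟩
  rw [← hv]
  congr 1
  simp

/-- **H-SPLIT-A**, core form: the splitting module of a 2-cocycle `w`, for a `p`-local
module `C` carrying a `Z_(p)`-module structure commuting with the group action. -/
theorem h74_splitA_core
    (hcomm : ∀ (g : G) (l : h40_Lam p) (c : C), g • (l • c) = l • (g • c))
    (hploc : h40_IsPLocal p C) (w : G × G → C) (hw : IsCocycle₂ w) :
    ∃ (D : Type (max u v)) (_ : AddCommGroup D) (_ : DistribMulAction G D) (i : C →+ D)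
      (q : D →+ h40_Coind G (h40_Lam p)),
      h40_IsPLocal p D ∧ Function.Injective i ∧ (∀ (g : G) (c : C), i (g • c) = g • i c) ∧
      (∀ (g : G) (d : D), q (g • d) = g • q d) ∧ (∀ d : D, q d = 0 ↔ d ∈ i.range) ∧
      (∀ φ : h40_Coind G (h40_Lam p), h40_aug G (h40_Lam p) φ = 0 ↔ φ ∈ q.range) ∧
      (∃ b : G → D, (∀ g : G, q (b g) = g • h40_delta G (1 : h40_Lam p) - h40_delta G 1) ∧
        ∀ g h : G, i (w (g, h)) = g • b h - b (g * h) + b g) := by
  classical
  let inst : DistribMulAction G (C × (h40_aug G (h40_Lam p)).ker) := h74_dma hcomm hw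
  have hsmul : ∀ (g : G) (d : C × (h40_aug G (h40_Lam p)).ker), g • d = h74_act w g d :=
    fun _ _ => rfl
  refine ⟨C × (h40_aug G (h40_Lam p)).ker, inferInstance, inst,
    AddMonoidHom.inl C _, (AddSubgroup.subtype _).comp (AddMonoidHom.snd C _),
    ?_, ?_, ?_, ?_, ?_, ?_, ?_⟩
  · -- `p`-local
    intro m hm
    obtain ⟨v, hv⟩ := h74_unit_of_coprime (p := p) m hm
    constructor
    · intro d d' hdd
      have hdd' : m • d = m • d' := hdd
      refine Prod.ext ?_ (Subtype.ext ?_)
      · exact (hploc m hm).1 (congrArg Prod.fst hdd')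
      · have h2 : m • (d.2 : h40_Coind G (h40_Lam p)) = m • (d'.2 : h40_Coind G (h40_Lam p)) :=
          congrArg (fun e : C × (h40_aug G (h40_Lam p)).ker => (e.2 : h40_Coind G (h40_Lam p))) hdd'
        refine h40_Coind.ext (fun y => ?_)
        have h3 : m • h74_fn (d.2 : h40_Coind G (h40_Lam p)) y =
            m • h74_fn (d'.2 : h40_Coind G (h40_Lam p)) y := congrFun (congrArg h74_fn h2) y
        rw [nsmul_eq_mul, nsmul_eq_mul] at h3
        have h4 := congrArg (fun t => v * t) h3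
        simp only [← mul_assoc, mul_comm v (m : h40_Lam p), hv, one_mul] at h4
        exact h4
    · intro d
      obtain ⟨c', hc'⟩ := (hploc m hm).2 d.1
      have hx : h40_Coind.mk (fun y => v * h74_fn (d.2 : h40_Coind G (h40_Lam p)) y) ∈
          (h40_aug G (h40_Lam p)).ker := by
        rw [AddMonoidHom.mem_ker, h74_aug_eq]
        show ∑ y : G, v * h74_fn (d.2 : h40_Coind G (h40_Lam p)) y = 0
        rw [← Finset.mul_sum, h74_sum_fn_ker, mul_zero]
      refine ⟨(c', ⟨_, hx⟩), ?_⟩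
      refine Prod.ext hc' (Subtype.ext ?_)
      refine h40_Coind.ext (fun y => ?_)
      show m • (v * h74_fn (d.2 : h40_Coind G (h40_Lam p)) y) = _
      rw [nsmul_eq_mul, ← mul_assoc, hv, one_mul]
      rfl
  · intro c c' h
    exact congrArg Prod.fst h
  · intro g c
    rw [hsmul]
    refine Prod.ext ?_ (Subtype.ext ?_)
    · show g • c = g • c + h74_theta w g (h74_fn (0 : h40_Coind G (h40_Lam p)))
      rw [h74_fn_zero, h74_theta_zero, add_zero]
    · show (0 : h40_Coind G (h40_Lam p)) = g • (0 : h40_Coind G (h40_Lam p))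
      rw [smul_zero]
  · intro g d
    rw [hsmul]
    rfl
  · intro d
    constructor
    · intro hd
      refine ⟨d.1, Prod.ext rfl (Subtype.ext ?_)⟩
      exact hd.symm
    · rintro ⟨c, rfl⟩
      rfl
  · intro φ
    constructor
    · intro hφ
      exact ⟨(0, ⟨φ, AddMonoidHom.mem_ker.mpr hφ⟩), rfl⟩
    · rintro ⟨d, rfl⟩
      exact AddMonoidHom.mem_ker.mp d.2.2
  · have hδ : ∀ g : G, g • h40_delta G (1 : h40_Lam p) - h40_delta G 1 ∈
        (h40_aug G (h40_Lam p)).ker := by
      intro g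
      rw [AddMonoidHom.mem_ker, map_sub, h74_aug_smul, sub_self]
    refine ⟨fun g => (w (1, 1), ⟨g • h40_delta G (1 : h40_Lam p) - h40_delta G 1, hδ g⟩),
      fun g => rfl, ?_⟩
    intro g h
    rw [hsmul]
    refine Prod.ext ?_ (Subtype.ext ?_)
    · show w (g, h) = (g • w (1, 1) + h74_theta w g (h74_fn
          (h • h40_delta G (1 : h40_Lam p) - h40_delta G 1))) - w (1, 1) + w (1, 1)
      rw [h74_fn_sub, h74_theta_sub, h74_fn_smul_delta, h74_fn_delta, h74_theta_ind,
        h74_theta_ind_one hw, h74_nrm_apply]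
      abel
    · show (0 : h40_Coind G (h40_Lam p)) =
        g • (h • h40_delta G (1 : h40_Lam p) - h40_delta G 1) -
          ((g * h) • h40_delta G (1 : h40_Lam p) - h40_delta G 1) +
          (g • h40_delta G (1 : h40_Lam p) - h40_delta G 1)
      rw [smul_sub, mul_smul]
      abel

end Core

/-- **H-SPLIT-A** (row 241): the splitting module of a 2-cocycle `w` with values in a
`p`-local `G`-module `C`: an extension `0 → C → D → I → 0` of the augmentation ideal
`I = ker (Z_(p)[G] → Z_(p))` by `C` whose class is `w` (`b` lifts the canonical 1-cocycle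
`g ↦ g • δ₁ - δ₁` of `I` and has coboundary `i ∘ w`). -/
theorem h74_splitA {p : ℕ} [Fact p.Prime] {G : Type u} [Group G] [Finite G] {C : Type v}
    [AddCommGroup C] [DistribMulAction G C] (hploc : h40_IsPLocal p C)
    (w : G × G → C) (hw : IsCocycle₂ w) :
    ∃ (D : Type (max u v)) (_ : AddCommGroup D) (_ : DistribMulAction G D) (i : C →+ D)
      (q : D →+ h40_Coind G (h40_Lam p)),
      h40_IsPLocal p D ∧ Function.Injective i ∧ (∀ (g : G) (c : C), i (g • c) = g • i c) ∧
      (∀ (g : G) (d : D), q (g • d) = g • q d) ∧ (∀ d : D, q d = 0 ↔ d ∈ i.range) ∧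
      (∀ φ : h40_Coind G (h40_Lam p), h40_aug G (h40_Lam p) φ = 0 ↔ φ ∈ q.range) ∧
      (∃ b : G → D, (∀ g : G, q (b g) = g • h40_delta G (1 : h40_Lam p) - h40_delta G 1) ∧
        ∀ g h : G, i (w (g, h)) = g • b h - b (g * h) + b g) := by
  cases nonempty_fintype G
  let _ : Module (h40_Lam p) C := h24_lamModule hploc
  exact h74_splitA_core
    (fun g l c => h24_lam_map_smul hploc hploc (DistribSMul.toAddMonoidHom C g) l c)
    hploc w hw

end Fermat.Agent.S55
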