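/-
S55 layer H (helper88), row H-SPLIT-B: acyclicity of an abstract splitting module.

Given an abstract splitting module `0 → C → D → I_G ⊗ Z_(p) → 0` of a 2-cocycle `w`
(presented through `i`, `q`, the cochain `b`, and the augmentation ideal as the kernel of
`h40_aug` on `h40_Coind G (h40_Lam p)`), a subgroup `H` for which `H^1(H, C) = 0`,
`H^2(H, C)` is generated by the restriction of `w`, and that restriction has order divisible
by the `p`-part of `|H|`, has `H^1(H, D) = 0 = H^2(H, D)`.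

Main statement: `h88_splitB` (verbatim from the row).  The two halves are
`h88_splitB₁` and `h88_splitB₂`.
-/
import Mathlib
import Fermat.Agent.S55.h72_AbsDefs
import Fermat.Agent.S55.h40_HDefs

set_option autoImplicit false

namespace Fermat.Agent.S55

open groupCohomology

/-! ### Arithmetic in `Z_(p)` -/

section Lam

variable {p : ℕ} [Fact p.Prime]

lemma h88_lam_algebraMap_injective : Function.Injective (algebraMap ℤ (h40_Lam p)) :=
  IsLocalization.injective (h40_Lam p)
    (Ideal.primeCompl_le_nonZeroDivisors (Ideal.span {(p : ℤ)}))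

/-- `Z_(p)` has no additive torsion. -/
lemma h88_lam_nsmul_eq_zero {n : ℕ} (hn : n ≠ 0) {x : h40_Lam p} (h : n • x = 0) : x = 0 := by
  rw [nsmul_eq_mul] at h
  rcases mul_eq_zero.1 h with h | h
  · exfalso
    have h2 : algebraMap ℤ (h40_Lam p) (n : ℤ) = algebraMap ℤ (h40_Lam p) 0 := by
      rw [map_zero, eq_intCast, Int.cast_natCast]
      exact h
    exact hn (by exact_mod_cast h88_lam_algebraMap_injective h2)
  · exact h

/-- Clearing the denominator of an element of `Z_(p)` by a natural number prime to `p`. -/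
lemma h88_lam_exists_clear (x : h40_Lam p) :
    ∃ (s : ℕ) (a : ℤ), s.Coprime p ∧ s • x = a • (1 : h40_Lam p) := by
  obtain ⟨⟨a, t⟩, ht⟩ := IsLocalization.surj (Ideal.span {(p : ℤ)}).primeCompl x
  have htp : ¬ (p : ℤ) ∣ (t : ℤ) := by
    have h1 := t.2
    rwa [Ideal.mem_primeCompl_iff, Ideal.mem_span_singleton] at h1
  have hcop : (t : ℤ).natAbs.Coprime p := by
    rw [Nat.coprime_comm, (Fact.out : p.Prime).coprime_iff_not_dvd]
    intro h
    exact htp (Int.natCast_dvd.2 h)
  have ht' : x * ((t : ℤ) : h40_Lam p) = (a : h40_Lam p) := by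
    simpa only [eq_intCast] using ht
  rcases Int.natAbs_eq (t : ℤ) with h | h
  · refine ⟨_, a, hcop, ?_⟩
    rw [nsmul_eq_mul, zsmul_eq_mul, mul_one, mul_comm, ← ht']
    congr 1
    conv_rhs => rw [h]
    rw [Int.cast_natCast]
  · refine ⟨_, -a, hcop, ?_⟩
    rw [nsmul_eq_mul, zsmul_eq_mul, mul_one, mul_comm, Int.cast_neg, ← ht', ← mul_neg]
    congr 1
    conv_rhs => rw [h]
    rw [Int.cast_neg, Int.cast_natCast, neg_neg]

end Lam

/-! ### The augmentation -/

section Aug

variable {G : Type*} [Group G] [Finite G] {V : Type*} [AddCommGroup V]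

lemma h88_aug_smul (σ : G) (φ : h40_Coind G V) : h40_aug G V (σ • φ) = h40_aug G V φ := by
  rw [h40_aug_apply, h40_aug_apply]
  exact finsum_comp_equiv (Equiv.mulRight σ) (f := fun x => φ x)

lemma h88_aug_delta (v : V) : h40_aug G V (h40_delta G v) = v := by
  rw [h40_aug_apply, finsum_eq_single _ (1 : G) (fun x hx => h40_delta_apply_of_ne G v hx),
    h40_delta_apply_one]

end Aug

/-! ### Degree 2 -/

/-- `H^2(H, D) = 0` for an abstract splitting module `D`. -/
theorem h88_splitB₂ {p : ℕ} [Fact p.Prime] {G : Type*} [Group G] [Finite G] {C D : Type*}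
    [AddCommGroup C] [DistribMulAction G C] [AddCommGroup D] [DistribMulAction G D]
    (w : G × G → C) (i : C →+ D) (q : D →+ h40_Coind G (h40_Lam p))
    (hi : Function.Injective i) (hiG : ∀ (g : G) (c : C), i (g • c) = g • i c)
    (hqG : ∀ (g : G) (d : D), q (g • d) = g • q d) (hex : ∀ d : D, q d = 0 ↔ d ∈ i.range)
    (hrange : ∀ φ : h40_Coind G (h40_Lam p), h40_aug G (h40_Lam p) φ = 0 ↔ φ ∈ q.range)
    (b : G → D)
    (hbw : ∀ g h : G, i (w (g, h)) = g • b h - b (g * h) + b g)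
    (H : Subgroup G)
    (hW2 : ∀ f : H × H → h40_Coind G (h40_Lam p), IsCocycle₂ f → IsCoboundary₂ f)
    (hgen : ∀ f : H × H → C, IsCocycle₂ f →
      ∃ k : ℕ, IsCoboundary₂ (f - k • fun x : H × H => w ((x.1 : G), (x.2 : G))))
    (f : H × H → D) (hf : IsCocycle₂ f) : IsCoboundary₂ f := by
  have hεq : ∀ d : D, h40_aug G (h40_Lam p) (q d) = 0 := fun d => (hrange _).2 ⟨d, rfl⟩
  have hqH : ∀ (g : H) (d : D), q (g • d) = g • q d := fun g d => hqG (g : G) d
  have hiH : ∀ (g : H) (c : C), i (g • c) = g • i c := fun g c => hiG (g : G) c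
  have hbwH : ∀ g h : H, i (w ((g : G), (h : G))) = g • b h - b ((g * h : H) : G) + b g :=
    fun g h => hbw g h
  -- `q ∘ f` is a 2-cocycle with values in the coinduced module, hence a coboundary
  have hqf : IsCocycle₂ (fun x : H × H => q (f x)) := by
    intro g h j
    have h1 := congrArg q (hf g h j)
    simpa only [map_add, hqH] using h1
  obtain ⟨ξ, hξ⟩ := hW2 _ hqf
  have hξ' : ∀ g h : H, q (f (g, h)) = g • ξ h - ξ (g * h) + ξ g := fun g h => (hξ g h).symm
  -- `ε ∘ ξ` is additive, hence zero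
  have hθ : ∀ g h : H, h40_aug G (h40_Lam p) (ξ (g * h)) =
      h40_aug G (h40_Lam p) (ξ g) + h40_aug G (h40_Lam p) (ξ h) := by
    intro g h
    have h1 := hεq (f (g, h))
    rw [hξ', map_add, map_sub, show g • ξ h = (g : G) • ξ h from rfl, h88_aug_smul] at h1
    linear_combination (-1 : h40_Lam p) * h1
  have hθ1 : h40_aug G (h40_Lam p) (ξ 1) = 0 := by
    have h1 := hθ 1 1
    rw [mul_one] at h1
    linear_combination (-1 : h40_Lam p) * h1
  have hθpow : ∀ (h : H) (n : ℕ), h40_aug G (h40_Lam p) (ξ (h ^ n)) =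
      n • h40_aug G (h40_Lam p) (ξ h) := by
    intro h n
    induction n with
    | zero => rw [pow_zero, zero_smul, hθ1]
    | succ n ih => rw [pow_succ, hθ, ih, succ_nsmul]
  have hθ0 : ∀ h : H, h40_aug G (h40_Lam p) (ξ h) = 0 := fun h =>
    h88_lam_nsmul_eq_zero (Nat.card_pos (α := H)).ne' (by rw [← hθpow, pow_card_eq_one', hθ1])
  -- lift `ξ` to `D`
  have hlift : ∀ h : H, ∃ d : D, q d = ξ h := fun h => (hrange _).1 (hθ0 h)
  choose ξ₁ hξ₁ using hlift
  -- correct `f` by `d¹ ξ₁`; the result comes from `C`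
  have hy : ∀ g h : H, ∃ c : C, i c = f (g, h) - (g • ξ₁ h - ξ₁ (g * h) + ξ₁ g) := by
    intro g h
    refine (hex _).1 ?_
    rw [map_sub, map_add, map_sub, hqH, hξ₁, hξ₁, hξ₁, hξ', sub_self]
  choose y hy using hy
  have hycoc : IsCocycle₂ (fun x : H × H => y x.1 x.2) := by
    intro g h j
    apply hi
    show i (y (g * h) j + y g h) = i (g • y h j + y g (h * j))
    rw [map_add, map_add, hiH, hy, hy, hy, hy]
    have h1 := hf g h j
    simp only [smul_sub, smul_add, mul_smul, mul_assoc]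
    rw [← sub_eq_zero] at h1 ⊢
    rw [← h1]
    abel
  obtain ⟨k, c, hc⟩ := hgen _ hycoc
  have hc' : ∀ g h : H, g • c h - c (g * h) + c g = y g h - k • w ((g : G), (h : G)) :=
    fun g h => hc g h
  refine ⟨fun h => ξ₁ h + k • b h + i (c h), fun g h => ?_⟩
  have h1 := congrArg i (hc' g h)
  rw [map_add, map_sub, map_sub, hiH, hy, map_nsmul, hbwH] at h1
  show g • (ξ₁ h + k • b h + i (c h)) - (ξ₁ (g * h) + k • b ((g * h : H) : G) + i (c (g * h)))
    + (ξ₁ g + k • b g + i (c g)) = f (g, h)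
  rw [eq_sub_iff_add_eq, eq_sub_iff_add_eq] at h1
  rw [← h1]
  simp only [smul_sub, smul_add, smul_comm g k]
  abel

/-! ### Degree 1 -/

/-- The norm element: some `d₂ : D` with `h • q d₂ - q d₂ = |H| • (h • δ₁ - δ₁)` for `h ∈ H`. -/
lemma h88_exists_norm_elt {p : ℕ} [Fact p.Prime] {G : Type*} [Group G] [Finite G] {D : Type*}
    [AddCommGroup D] (q : D →+ h40_Coind G (h40_Lam p))
    (hrange : ∀ φ : h40_Coind G (h40_Lam p), h40_aug G (h40_Lam p) φ = 0 ↔ φ ∈ q.range)
    (H : Subgroup G) :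
    ∃ d₂ : D, ∀ h : H, h • q d₂ - q d₂ =
      Nat.card H • (h • h40_delta G (1 : h40_Lam p) - h40_delta G 1) := by
  classical
  let _ : Fintype H := Fintype.ofFinite H
  obtain ⟨δ, hδ⟩ : ∃ δ : h40_Coind G (h40_Lam p), δ = h40_delta G 1 := ⟨_, rfl⟩
  rw [← hδ]
  obtain ⟨N, hN⟩ : ∃ N : h40_Coind G (h40_Lam p), N = ∑ k : H, k • δ := ⟨_, rfl⟩
  have hNinv : ∀ h : H, h • N = N := by
    intro h
    rw [hN, Finset.smul_sum]
    simp only [← mul_smul]
    exact Equiv.sum_comp (Equiv.mulLeft h) (fun k => k • δ)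
  have hεδ : ∀ k : H, h40_aug G (h40_Lam p) (k • δ) = 1 := fun k => by
    rw [show k • δ = (k : G) • δ from rfl, h88_aug_smul, hδ, h88_aug_delta]
  have hεN : h40_aug G (h40_Lam p) N = Nat.card H • (1 : h40_Lam p) := by
    rw [hN, map_sum, Finset.sum_congr rfl (fun k _ => hεδ k), Finset.sum_const, Finset.card_univ,
      Nat.card_eq_fintype_card]
  obtain ⟨d₂, hd₂⟩ := (hrange (Nat.card H • δ - N)).1
    (by rw [map_sub, map_nsmul, hεN, hδ, h88_aug_delta, sub_self])
  refine ⟨d₂, fun h => ?_⟩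
  rw [hd₂, smul_sub, hNinv, smul_comm h, smul_sub]
  abel

/-- `H^1(H, D) = 0` for an abstract splitting module `D`. -/
theorem h88_splitB₁ {p : ℕ} [Fact p.Prime] {G : Type*} [Group G] [Finite G] {C D : Type*}
    [AddCommGroup C] [DistribMulAction G C] [AddCommGroup D] [DistribMulAction G D]
    (hD : h40_IsPLocal p D) (w : G × G → C) (i : C →+ D) (q : D →+ h40_Coind G (h40_Lam p))
    (hi : Function.Injective i) (hiG : ∀ (g : G) (c : C), i (g • c) = g • i c)
    (hqG : ∀ (g : G) (d : D), q (g • d) = g • q d) (hex : ∀ d : D, q d = 0 ↔ d ∈ i.range)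
    (hrange : ∀ φ : h40_Coind G (h40_Lam p), h40_aug G (h40_Lam p) φ = 0 ↔ φ ∈ q.range)
    (b : G → D) (hb : ∀ g : G, q (b g) = g • h40_delta G (1 : h40_Lam p) - h40_delta G 1)
    (hbw : ∀ g h : G, i (w (g, h)) = g • b h - b (g * h) + b g)
    (H : Subgroup G)
    (hW1 : ∀ f : H → h40_Coind G (h40_Lam p), IsCocycle₁ f → IsCoboundary₁ f)
    (hH1 : ∀ f : H → C, IsCocycle₁ f → IsCoboundary₁ f)
    (hord : ∀ k : ℕ, IsCoboundary₂ (k • fun x : H × H => w ((x.1 : G), (x.2 : G))) →
      p ^ ((Nat.card H).factorization p) ∣ k)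
    (f : H → D) (hf : IsCocycle₁ f) : IsCoboundary₁ f := by
  obtain ⟨d₂, hd₂⟩ := h88_exists_norm_elt q hrange H
  obtain ⟨δ, hδ⟩ : ∃ δ : h40_Coind G (h40_Lam p), δ = h40_delta G 1 := ⟨_, rfl⟩
  rw [← hδ] at hd₂
  have hεδ : h40_aug G (h40_Lam p) δ = 1 := by rw [hδ, h88_aug_delta]
  have hqH : ∀ (g : H) (d : D), q (g • d) = g • q d := fun g d => hqG (g : G) d
  have hiH : ∀ (g : H) (c : C), i (g • c) = g • i c := fun g c => hiG (g : G) c
  have hbH : ∀ g : H, q (b g) = g • δ - δ := fun g => by rw [hδ]; exact hb (g : G)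
  have hbwH : ∀ g h : H, i (w ((g : G), (h : G))) = g • b h - b ((g * h : H) : G) + b g :=
    fun g h => hbw g h
  -- `q ∘ f` is a 1-cocycle with values in the coinduced module, hence a coboundary
  have hqf : IsCocycle₁ (fun h : H => q (f h)) := by
    intro g h
    have h1 := congrArg q (hf g h)
    simpa only [map_add, hqH] using h1
  obtain ⟨x, hx⟩ := hW1 _ hqf
  have hx' : ∀ h : H, q (f h) = h • x - x := fun h => (hx h).symm
  -- clear the denominator of `ε x`
  obtain ⟨s, a, hs, hsa⟩ := h88_lam_exists_clear (h40_aug G (h40_Lam p) x)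
  have hx₁ : h40_aug G (h40_Lam p) (s • x - a • δ) = 0 := by
    rw [map_sub, map_nsmul, map_zsmul, hsa, hεδ, sub_self]
  obtain ⟨d₁, hd₁⟩ := (hrange _).1 hx₁
  -- first correction: `s • f - d⁰ d₁ - a • b` comes from `C`
  have h1 : ∀ h : H, ∃ c : C, i c = s • f h - (h • d₁ - d₁) - a • b h := by
    intro h
    refine (hex _).1 ?_
    rw [map_sub, map_sub, map_nsmul, map_sub, map_zsmul, hqH, hd₁, hbH, hx']
    simp only [smul_sub, smul_comm h s, smul_comm h a]
    abel
  choose c hc using h1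
  have hcw : ∀ g h : H, g • c h - c (g * h) + c g = -(a • w ((g : G), (h : G))) := by
    intro g h
    apply hi
    rw [map_add, map_sub, hiH, hc, hc, hc, map_neg, map_zsmul, hbwH, hf g h]
    simp only [smul_sub, smul_add, mul_smul, smul_comm g s, smul_comm g a]
    abel
  -- so `|a| • w` restricted to `H` is a coboundary and `p ^ v ∣ a`
  have hcob : IsCoboundary₂ (a.natAbs • fun x : H × H => w ((x.1 : G), (x.2 : G))) := by
    rcases Int.natAbs_eq a with h | h
    · refine ⟨fun h => -c h, fun g h' => ?_⟩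
      have h2 := hcw g h'
      rw [h, natCast_zsmul] at h2
      show g • (-c h') - (-c (g * h')) + (-c g) = a.natAbs • w ((g : G), (h' : G))
      rw [← neg_neg (a.natAbs • w ((g : G), (h' : G))), ← h2, smul_neg]
      abel
    · refine ⟨c, fun g h' => ?_⟩
      have h2 := hcw g h'
      rw [h, neg_smul, neg_neg, natCast_zsmul] at h2
      exact h2
  have hdvd : p ^ ((Nat.card H).factorization p) ∣ a.natAbs := hord _ hcob
  obtain ⟨v, hv⟩ : ∃ v : ℕ, v = (Nat.card H).factorization p := ⟨_, rfl⟩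
  rw [← hv] at hdvd
  obtain ⟨a', ha'⟩ : ((p ^ v : ℕ) : ℤ) ∣ a := Int.natCast_dvd.2 hdvd
  obtain ⟨m, hm⟩ : ∃ m : ℕ, m = Nat.card H / p ^ v := ⟨_, rfl⟩
  have hcard : Nat.card H = p ^ v * m := by
    rw [hm, hv]; exact (Nat.ordProj_mul_ordCompl_eq_self _ _).symm
  have hmp : m.Coprime p := by
    rw [hm, hv]
    exact (Nat.coprime_ordCompl Fact.out (Nat.card_pos (α := H)).ne').symm
  -- second correction
  obtain ⟨e, he⟩ : ∃ e : D, e = m • d₁ + a' • d₂ := ⟨_, rfl⟩
  have h2 : ∀ h : H, ∃ c : C, i c = (s * m) • f h - (h • e - e) := by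
    intro h
    refine (hex _).1 ?_
    have e1 : h • q d₁ - q d₁ = s • (h • x - x) - a • (h • δ - δ) := by
      rw [hd₁]
      simp only [smul_sub, smul_comm h s, smul_comm h a]
      abel
    have e2 := hd₂ h
    have e3 : q ((s * m) • f h - (h • e - e)) = (s * m) • (h • x - x) - m • (h • q d₁ - q d₁)
        - a' • (h • q d₂ - q d₂) := by
      rw [map_sub, map_nsmul, hx', map_sub, hqH, he, map_add, map_nsmul, map_zsmul, smul_add,
        smul_comm h m, smul_comm h a']
      simp only [smul_sub]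
      abel
    rw [e3, e1, e2, hcard, ha']
    generalize h • x - x = X
    generalize h • δ - δ = Δ
    push_cast
    module
  choose c₂ hc₂ using h2
  have hc₂coc : IsCocycle₁ c₂ := by
    intro g h
    apply hi
    rw [map_add, hiH, hc₂, hc₂, hc₂, hf g h]
    simp only [smul_sub, smul_add, mul_smul, smul_comm g s, smul_comm g m]
    abel
  obtain ⟨c₀, hc₀⟩ := hH1 c₂ hc₂coc
  -- divide by `s * m`
  have hsm : (s * m).Coprime p := Nat.Coprime.mul_left hs hmp
  obtain ⟨e', he'⟩ := (hD _ hsm).2 (e + i c₀)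
  have he'' : (s * m) • e' = e + i c₀ := he'
  refine ⟨e', fun h => (hD _ hsm).1 ?_⟩
  show (s * m) • (h • e' - e') = (s * m) • f h
  have h3 := hc₂ h
  rw [← hc₀ h, map_sub, hiH] at h3
  rw [smul_sub, ← smul_comm h (s * m), he'', smul_add, ← eq_sub_iff_add_eq.1 h3]
  abel

/-! ### The row statement -/

/-- **H-SPLIT-B**: acyclicity (in degrees 1 and 2, for the subgroup `H`) of an abstract
splitting module `D` of the 2-cocycle `w`. -/
theorem h88_splitB {p : ℕ} [Fact p.Prime] {G : Type*} [Group G] [Finite G] {C D : Type*}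
    [AddCommGroup C] [DistribMulAction G C] [AddCommGroup D] [DistribMulAction G D]
    (hD : h40_IsPLocal p D) (w : G × G → C) (i : C →+ D) (q : D →+ h40_Coind G (h40_Lam p))
    (hi : Function.Injective i) (hiG : ∀ (g : G) (c : C), i (g • c) = g • i c)
    (hqG : ∀ (g : G) (d : D), q (g • d) = g • q d) (hex : ∀ d : D, q d = 0 ↔ d ∈ i.range)
    (hrange : ∀ φ : h40_Coind G (h40_Lam p), h40_aug G (h40_Lam p) φ = 0 ↔ φ ∈ q.range)
    (b : G → D) (hb : ∀ g : G, q (b g) = g • h40_delta G (1 : h40_Lam p) - h40_delta G 1)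
    (hbw : ∀ g h : G, i (w (g, h)) = g • b h - b (g * h) + b g)
    (H : Subgroup G)
    (hW1 : ∀ f : H → h40_Coind G (h40_Lam p), IsCocycle₁ f → IsCoboundary₁ f)
    (hW2 : ∀ f : H × H → h40_Coind G (h40_Lam p), IsCocycle₂ f → IsCoboundary₂ f)
    (hH1 : ∀ f : H → C, IsCocycle₁ f → IsCoboundary₁ f)
    (hgen : ∀ f : H × H → C, IsCocycle₂ f →
      ∃ k : ℕ, IsCoboundary₂ (f - k • fun x : H × H => w ((x.1 : G), (x.2 : G))))
    (hord : ∀ k : ℕ, IsCoboundary₂ (k • fun x : H × H => w ((x.1 : G), (x.2 : G))) →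
      p ^ ((Nat.card H).factorization p) ∣ k) :
    (∀ f : H → D, IsCocycle₁ f → IsCoboundary₁ f) ∧
    (∀ f : H × H → D, IsCocycle₂ f → IsCoboundary₂ f) :=
  ⟨fun f hf => h88_splitB₁ hD w i q hi hiG hqG hex hrange b hb hbw H hW1 hH1 hord f hf,
    fun f hf => h88_splitB₂ w i q hi hiG hqG hex hrange b hbw H hW2 hgen f hf⟩

end Fermat.Agent.S55
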