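/-
S55 layer H, row 229 (H-SPLIT, glue; helper40): the splitting module of a 2-cocycle with its
acyclicity, assembled from
* `h74_splitA` (row 241, construction of `0 → C → D → Coind G Λ → Λ → 0`),
* `h88_splitB` (row 240, `H¹(H, D) = H²(H, D) = 0` for every subgroup `H` over which the class
  of `w` generates `H²(H, C)` with the right order and `H¹(H, C) = 0`),
* `h41_WP` (coinduced modules are acyclic over every subgroup).

`h40_split`: the row statement.  `h40_split_of_class`: the form consumed by Tate–Nakayama, for a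
`p`-class module `C` (fundamental class `u`, splitting module `D` acyclic over ALL subgroups).
-/
import Mathlib
import Fermat.Agent.S55.h72_AbsDefs
import Fermat.Agent.S55.h40_HDefs
import Fermat.Agent.S55.h41_WP
import Fermat.Agent.S55.h74_SplitA
import Fermat.Agent.S55.h88_SplitB

set_option autoImplicit false
namespace Fermat.Agent.S55
open groupCohomology

universe u v

theorem h40_split {p : ℕ} [Fact p.Prime] {G : Type u} [Group G] [Finite G] {C : Type v}
    [AddCommGroup C] [DistribMulAction G C] (hploc : h40_IsPLocal p C)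
    (w : G × G → C) (hw : IsCocycle₂ w) :
    ∃ (D : Type (max u v)) (_ : AddCommGroup D) (_ : DistribMulAction G D) (i : C →+ D)
      (q : D →+ h40_Coind G (h40_Lam p)),
      h40_IsPLocal p D ∧ Function.Injective i ∧ (∀ (g : G) (c : C), i (g • c) = g • i c) ∧
      (∀ (g : G) (d : D), q (g • d) = g • q d) ∧ (∀ d : D, q d = 0 ↔ d ∈ i.range) ∧
      (∀ φ : h40_Coind G (h40_Lam p), h40_aug G (h40_Lam p) φ = 0 ↔ φ ∈ q.range) ∧
      (∃ b : G → D, (∀ g : G, q (b g) = g • h40_delta G (1 : h40_Lam p) - h40_delta G 1) ∧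
        ∀ g h : G, i (w (g, h)) = g • b h - b (g * h) + b g) ∧
      (∀ H : Subgroup G, (∀ f : H → C, IsCocycle₁ f → IsCoboundary₁ f) →
        (∀ f : H × H → C, IsCocycle₂ f →
          ∃ k : ℕ, IsCoboundary₂ (f - k • fun x : H × H => w ((x.1 : G), (x.2 : G)))) →
        (∀ k : ℕ, IsCoboundary₂ (k • fun x : H × H => w ((x.1 : G), (x.2 : G))) →
          p ^ ((Nat.card H).factorization p) ∣ k) →
        (∀ f : H → D, IsCocycle₁ f → IsCoboundary₁ f) ∧
        (∀ f : H × H → D, IsCocycle₂ f → IsCoboundary₂ f)) := by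
  obtain ⟨D, iD1, iD2, i, q, hD, hi, hiG, hqG, hex, hrange, b, hb, hbw⟩ := h74_splitA hploc w hw
  refine ⟨D, iD1, iD2, i, q, hD, hi, hiG, hqG, hex, hrange, ⟨b, hb, hbw⟩, ?_⟩
  intro H hH1 hgen hord
  have hWP : h40_IsWP H (h40_Coind G (h40_Lam p)) := h41_wp_subgroup (h41_wp_coind _) H
  exact h88_splitB hD w i q hi hiG hqG hex hrange b hb hbw H
    (fun f hf => h41_wp_H1 hWP f hf) (fun f hf => h41_wp_H2 hWP f hf) hH1 hgen hord

/-- the (SPLIT) input of TN in helper52's shape -/
theorem h40_split_of_class {p : ℕ} [Fact p.Prime] {G : Type u} [Group G] [Finite G]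
    {C : Type v} [AddCommGroup C] [DistribMulAction G C] (hC : IsPClassModule p G C) :
    ∃ u : G × G → C, IsCocycle₂ u ∧ (∀ H : Subgroup G,
      (∀ f : H × H → C, IsCocycle₂Via H.subtype f →
        ∃ k : ℕ, IsCoboundary₂Via H.subtype
          (f - k • fun x : H × H => u ((x.1 : G), (x.2 : G)))) ∧
      (∀ k : ℕ, IsCoboundary₂Via H.subtype (k • fun x : H × H => u ((x.1 : G), (x.2 : G))) →
        p ^ ((Nat.card H).factorization p) ∣ k)) ∧
    ∃ (D : Type (max u v)) (_ : AddCommGroup D) (_ : DistribMulAction G D) (i : C →+ D)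
      (q : D →+ h40_Coind G (h40_Lam p)),
      h40_IsPLocal p D ∧ Function.Injective i ∧ (∀ (g : G) (c : C), i (g • c) = g • i c) ∧
      (∀ (g : G) (d : D), q (g • d) = g • q d) ∧ (∀ d : D, q d = 0 ↔ d ∈ i.range) ∧
      (∀ φ : h40_Coind G (h40_Lam p), h40_aug G (h40_Lam p) φ = 0 ↔ φ ∈ q.range) ∧
      (∃ b : G → D, (∀ g : G, q (b g) = g • h40_delta G (1 : h40_Lam p) - h40_delta G 1) ∧
        ∀ g h : G, i (u (g, h)) = g • b h - b (g * h) + b g) ∧
      (∀ H : Subgroup G, (∀ f : H → D, IsCocycle₁ f → IsCoboundary₁ f) ∧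
        (∀ f : H × H → D, IsCocycle₂ f → IsCoboundary₂ f)) := by
  obtain ⟨u, hu, hfund⟩ := hC.fund
  refine ⟨u, hu, hfund, ?_⟩
  obtain ⟨D, iD1, iD2, i, q, hD, hi, hiG, hqG, hex, hrange, hb, hacyc⟩ := h40_split hC.ploc u hu
  refine ⟨D, iD1, iD2, i, q, hD, hi, hiG, hqG, hex, hrange, hb, fun H => ?_⟩
  exact hacyc H (fun f hf => hC.h1 H f hf) (hfund H).1 (hfund H).2

/-- The order statement of a fundamental class over `G` itself (from the `H = ⊤` instance of
`IsPClassModule.fund`). -/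
theorem h40_fund_order_top {p : ℕ} {G : Type u} [Group G] {C : Type v}
    [AddCommGroup C] [DistribMulAction G C] (u : G × G → C)
    (hord : ∀ k : ℕ, IsCoboundary₂Via (⊤ : Subgroup G).subtype
        (k • fun x : (⊤ : Subgroup G) × (⊤ : Subgroup G) => u ((x.1 : G), (x.2 : G))) →
      p ^ ((Nat.card (⊤ : Subgroup G)).factorization p) ∣ k)
    (k : ℕ) (hk : IsCoboundary₂ (k • u)) : p ^ ((Nat.card G).factorization p) ∣ k := by
  have h := hord k (by
    obtain ⟨x, hx⟩ := hk
    exact ⟨fun g => x (g : G), fun g h => hx (g : G) (h : G)⟩)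
  rwa [Subgroup.card_top] at h

/-- The generation statement of a fundamental class over `G` itself. -/
theorem h40_fund_gen_top {G : Type u} [Group G] {C : Type v}
    [AddCommGroup C] [DistribMulAction G C] (u : G × G → C)
    (hgen : ∀ f : (⊤ : Subgroup G) × (⊤ : Subgroup G) → C,
      IsCocycle₂Via (⊤ : Subgroup G).subtype f →
      ∃ k : ℕ, IsCoboundary₂Via (⊤ : Subgroup G).subtype
        (f - k • fun x : (⊤ : Subgroup G) × (⊤ : Subgroup G) => u ((x.1 : G), (x.2 : G))))
    (f : G × G → C) (hf : IsCocycle₂ f) : ∃ k : ℕ, IsCoboundary₂ (f - k • u) := by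
  obtain ⟨k, x, hx⟩ := hgen (fun y => f ((y.1 : G), (y.2 : G))) (fun g h j => hf (g : G) h j)
  exact ⟨k, fun g => x ⟨g, Subgroup.mem_top g⟩,
    fun g h => hx ⟨g, Subgroup.mem_top g⟩ ⟨h, Subgroup.mem_top h⟩⟩

/-- The (SPLIT) input of Tate–Nakayama with the order/generation of the fundamental class stated
over `G` itself (plain predicates), ready for `h52_tn_L_core` / `h62_tn_R_of_split`. -/
theorem h40_split_tn {p : ℕ} [Fact p.Prime] {G : Type u} [Group G] [Finite G]
    {C : Type v} [AddCommGroup C] [DistribMulAction G C] (hC : IsPClassModule p G C) :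
    ∃ u : G × G → C, IsCocycle₂ u ∧
      (∀ k : ℕ, IsCoboundary₂ (k • u) → p ^ ((Nat.card G).factorization p) ∣ k) ∧
      (∀ f : G × G → C, IsCocycle₂ f → ∃ k : ℕ, IsCoboundary₂ (f - k • u)) ∧
    ∃ (D : Type (max u v)) (_ : AddCommGroup D) (_ : DistribMulAction G D) (i : C →+ D)
      (q : D →+ h40_Coind G (h40_Lam p)),
      h40_IsPLocal p D ∧ Function.Injective i ∧ (∀ (g : G) (c : C), i (g • c) = g • i c) ∧
      (∀ (g : G) (d : D), q (g • d) = g • q d) ∧ (∀ d : D, q d = 0 ↔ d ∈ i.range) ∧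
      (∀ φ : h40_Coind G (h40_Lam p), h40_aug G (h40_Lam p) φ = 0 ↔ φ ∈ q.range) ∧
      (∃ b : G → D, (∀ g : G, q (b g) = g • h40_delta G (1 : h40_Lam p) - h40_delta G 1) ∧
        ∀ g h : G, i (u (g, h)) = g • b h - b (g * h) + b g) ∧
      (∀ H : Subgroup G, (∀ f : H → D, IsCocycle₁ f → IsCoboundary₁ f) ∧
        (∀ f : H × H → D, IsCocycle₂ f → IsCoboundary₂ f)) := by
  obtain ⟨u, hu, hfund, hD⟩ := h40_split_of_class hC
  exact ⟨u, hu, h40_fund_order_top u (hfund ⊤).2, h40_fund_gen_top u (hfund ⊤).1, hD⟩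

end Fermat.Agent.S55
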