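/-
S55 layer H, row H-TN (helper52): dimension shifting by hand.

For a `G`-module `V` (finite group `G`) we use the exact sequence
`0 → V → h40_Coind G V → h52_Sh G V → 0`, where `j v = (x ↦ x • v)` and the shifted module
`h52_Sh G V` is modelled on the functions vanishing at `1` (so that it is visibly `ℤ`-free when
`V` is), with the twisted action `(σ ⋆ φ) x = φ (x * σ) - x • φ σ`.

Main exports:
* `h52_shortExact : h40_ShortExact G (h52_j G V) (h52_q G V)`;
* `h52_shift₁ : h40_Conn₁ j q z y → (IsCoboundary₂ y ↔ IsCoboundary₁ z)`;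
* `h52_shift₀ : h40_Conn₀ j q n z → (IsCoboundary₁ z ↔ ∃ n', n = ∑ᶠ g, g • n')`;
* existence of the shifted classes in both directions;
* `G`-maps out of coinduced modules.
-/
import Mathlib
import Fermat.Agent.S55.h72_AbsDefs
import Fermat.Agent.S55.h40_HDefs

set_option autoImplicit false

namespace Fermat.Agent.S55

open groupCohomology

/-! ### The maps `δ`, `ev₁`, `j` -/

section Basic

variable (G : Type*) [Group G] (V : Type*) [AddCommGroup V]

/-- `v ↦ δ_v` (the function supported at `1` with value `v`) as an additive map. -/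
noncomputable def h52_delta : V →+ h40_Coind G V where
  toFun v := h40_delta G v
  map_zero' := by
    ext x
    by_cases hx : x = 1
    · subst hx; rw [h40_delta_apply_one]; rfl
    · rw [h40_delta_apply_of_ne G _ hx]; rfl
  map_add' v w := by
    ext x
    by_cases hx : x = 1
    · subst hx
      rw [h40_Coind.add_apply, h40_delta_apply_one, h40_delta_apply_one, h40_delta_apply_one]
    · rw [h40_Coind.add_apply, h40_delta_apply_of_ne G _ hx, h40_delta_apply_of_ne G _ hx,
        h40_delta_apply_of_ne G _ hx, add_zero]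

lemma h52_delta_apply_one (v : V) : h52_delta G V v 1 = v := h40_delta_apply_one G v

lemma h52_delta_apply_of_ne (v : V) {x : G} (hx : x ≠ 1) : h52_delta G V v x = 0 :=
  h40_delta_apply_of_ne G v hx

/-- Evaluation at `1`. -/
def h52_ev : h40_Coind G V →+ V where
  toFun φ := φ 1
  map_zero' := rfl
  map_add' _ _ := rfl

lemma h52_ev_apply (φ : h40_Coind G V) : h52_ev G V φ = φ 1 := rfl

lemma h52_ev_delta (v : V) : h52_ev G V (h52_delta G V v) = v := h52_delta_apply_one G V v

variable [DistribMulAction G V]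

/-- The embedding `V → Coind G V`, `v ↦ (x ↦ x • v)`. -/
def h52_j : V →+ h40_Coind G V where
  toFun v := h40_Coind.mk (fun x => x • v)
  map_zero' := by ext x; show x • (0 : V) = 0; rw [smul_zero]
  map_add' v w := by ext x; show x • (v + w) = x • v + x • w; rw [smul_add]

lemma h52_j_apply (v : V) (x : G) : h52_j G V v x = x • v := rfl

lemma h52_j_smul (g : G) (v : V) : h52_j G V (g • v) = g • h52_j G V v := by
  ext x
  show x • g • v = (x * g) • v
  rw [mul_smul]

lemma h52_ev_j (v : V) : h52_ev G V (h52_j G V v) = v := by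
  show (1 : G) • v = v
  rw [one_smul]

lemma h52_j_injective : Function.Injective (h52_j G V) := fun v w h => by
  have := congrArg (h52_ev G V) h
  rwa [h52_ev_j, h52_ev_j] at this

end Basic

/-! ### The shifted module -/

section Sh

variable (G : Type*) [Group G] (V : Type*) [AddCommGroup V]

/-- The shifted module `Coind G V / V`, modelled on the functions vanishing at `1`. -/
def h52_Sh : Type _ := ↥(h52_ev G V).ker

instance : AddCommGroup (h52_Sh G V) := inferInstanceAs (AddCommGroup ↥(h52_ev G V).ker)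

/-- The underlying function of an element of the shifted module (additive, not equivariant). -/
def h52_incl : h52_Sh G V →+ h40_Coind G V := (h52_ev G V).ker.subtype

variable {G V}

lemma h52_incl_one (s : h52_Sh G V) : h52_incl G V s 1 = 0 := s.2

lemma h52_incl_injective : Function.Injective (h52_incl G V) := Subtype.val_injective

@[ext] lemma h52_Sh.ext {s t : h52_Sh G V} (h : ∀ x, h52_incl G V s x = h52_incl G V t x) :
    s = t := h52_incl_injective (h40_Coind.ext h)

/-- Constructor. -/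
def h52_Sh.mk (φ : h40_Coind G V) (h : φ 1 = 0) : h52_Sh G V := ⟨φ, h⟩

lemma h52_incl_mk (φ : h40_Coind G V) (h : φ 1 = 0) : h52_incl G V (h52_Sh.mk φ h) = φ := rfl

variable [DistribMulAction G V]

instance : DistribMulAction G (h52_Sh G V) where
  smul σ s := h52_Sh.mk (h40_Coind.mk fun x => h52_incl G V s (x * σ) - x • h52_incl G V s σ) (by
    show h52_incl G V s (1 * σ) - (1 : G) • h52_incl G V s σ = 0
    rw [one_mul, one_smul, sub_self])
  one_smul s := h52_Sh.ext fun x => by
    show h52_incl G V s (x * 1) - x • h52_incl G V s 1 = h52_incl G V s x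
    rw [mul_one, h52_incl_one, smul_zero, sub_zero]
  mul_smul σ τ s := h52_Sh.ext fun x => by
    show h52_incl G V s (x * (σ * τ)) - x • h52_incl G V s (σ * τ) =
      (h52_incl G V s (x * σ * τ) - (x * σ) • h52_incl G V s τ) -
        x • (h52_incl G V s (σ * τ) - σ • h52_incl G V s τ)
    rw [smul_sub, mul_smul, mul_assoc]
    abel
  smul_zero σ := h52_Sh.ext fun x => by
    show (0 : V) - x • (0 : V) = 0
    rw [smul_zero, sub_zero]
  smul_add σ s t := h52_Sh.ext fun x => by
    show (h52_incl G V s (x * σ) + h52_incl G V t (x * σ)) -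
        x • (h52_incl G V s σ + h52_incl G V t σ) =
      (h52_incl G V s (x * σ) - x • h52_incl G V s σ) +
        (h52_incl G V t (x * σ) - x • h52_incl G V t σ)
    rw [smul_add]
    abel

lemma h52_incl_smul (σ : G) (s : h52_Sh G V) (x : G) :
    h52_incl G V (σ • s) x = h52_incl G V s (x * σ) - x • h52_incl G V s σ := rfl

variable (G V)

/-- The projection `Coind G V → Sh G V`, `φ ↦ φ - j (φ 1)`. -/
def h52_q : h40_Coind G V →+ h52_Sh G V where
  toFun φ := h52_Sh.mk (φ - h52_j G V (φ 1)) (by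
    show φ 1 - (1 : G) • φ 1 = 0
    rw [one_smul, sub_self])
  map_zero' := h52_Sh.ext fun x => by
    show (0 : V) - x • (0 : V) = 0
    rw [smul_zero, sub_zero]
  map_add' φ ψ := h52_Sh.ext fun x => by
    show (φ x + ψ x) - x • (φ 1 + ψ 1) = (φ x - x • φ 1) + (ψ x - x • ψ 1)
    rw [smul_add]
    abel

variable {G V}

lemma h52_incl_q (φ : h40_Coind G V) (x : G) : h52_incl G V (h52_q G V φ) x = φ x - x • φ 1 := rfl

lemma h52_incl_q' (φ : h40_Coind G V) :
    h52_incl G V (h52_q G V φ) = φ - h52_j G V (h52_ev G V φ) := rfl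

lemma h52_q_incl (s : h52_Sh G V) : h52_q G V (h52_incl G V s) = s := h52_Sh.ext fun x => by
  rw [h52_incl_q, h52_incl_one, smul_zero, sub_zero]

lemma h52_q_smul (g : G) (φ : h40_Coind G V) : h52_q G V (g • φ) = g • h52_q G V φ :=
  h52_Sh.ext fun x => by
    rw [h52_incl_smul, h52_incl_q, h52_incl_q, h52_incl_q]
    show φ (x * g) - x • φ (1 * g) = φ (x * g) - (x * g) • φ 1 - x • (φ g - g • φ 1)
    rw [one_mul, smul_sub, mul_smul]
    abel

lemma h52_q_j (v : V) : h52_q G V (h52_j G V v) = 0 := h52_Sh.ext fun x => by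
  rw [h52_incl_q]
  show x • v - x • (1 : G) • v = 0
  rw [one_smul, sub_self]

lemma h52_q_surjective : Function.Surjective (h52_q G V) := fun s => ⟨_, h52_q_incl s⟩

lemma h52_q_eq_zero_iff (φ : h40_Coind G V) : h52_q G V φ = 0 ↔ φ ∈ (h52_j G V).range := by
  constructor
  · intro h
    refine ⟨φ 1, ?_⟩
    have h2 := congrArg (h52_incl G V) h
    rw [h52_incl_q', map_zero, sub_eq_zero] at h2
    exact h2.symm
  · rintro ⟨v, rfl⟩
    exact h52_q_j v

variable (G V)

/-- The shift sequence `0 → V → Coind G V → Sh G V → 0` is short exact. -/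
theorem h52_shortExact : h40_ShortExact G (h52_j G V) (h52_q G V) where
  inj := h52_j_injective G V
  surj := h52_q_surjective
  exact := h52_q_eq_zero_iff
  i_smul := h52_j_smul G V
  q_smul := h52_q_smul

end Sh

/-! ### Freeness of the shifted module -/

section Free

variable (G : Type*) [Group G] (V : Type*) [AddCommGroup V]

/-- `Sh G V ≃+ ({x // x ≠ 1} → V)`. -/
noncomputable def h52_shEquiv : h52_Sh G V ≃+ ({x : G // x ≠ 1} → V) := by
  classical
  exact
  { toFun := fun s x => h52_incl G V s x.1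
    invFun := fun ψ => h52_Sh.mk (h40_Coind.mk fun x => if h : x = 1 then 0 else ψ ⟨x, h⟩) (by
      show (if h : (1 : G) = 1 then (0 : V) else ψ ⟨1, h⟩) = 0
      rw [dif_pos rfl])
    left_inv := fun s => h52_Sh.ext fun x => by
      show (if h : x = 1 then (0 : V) else h52_incl G V s x) = h52_incl G V s x
      by_cases hx : x = 1
      · rw [dif_pos hx, hx, h52_incl_one]
      · rw [dif_neg hx]
    right_inv := fun ψ => funext fun x => by
      show (if h : x.1 = 1 then (0 : V) else ψ ⟨x.1, h⟩) = ψ x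
      rw [dif_neg x.2]
    map_add' := fun s t => rfl }

instance h52_sh_free [Finite G] [Module.Free ℤ V] : Module.Free ℤ (h52_Sh G V) :=
  Module.Free.of_equiv (h52_shEquiv G V).symm.toIntLinearEquiv

instance h52_sh_finite [Finite G] [Module.Finite ℤ V] : Module.Finite ℤ (h52_Sh G V) :=
  Module.Finite.equiv (h52_shEquiv G V).symm.toIntLinearEquiv

end Free

/-! ### Norms -/

section Norm

variable {G : Type*} [Group G] [Finite G] {A B : Type*} [AddCommGroup A] [AddCommGroup B]
  [DistribMulAction G A] [DistribMulAction G B]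

lemma h52_smul_norm (g : G) (b : A) : g • ∑ᶠ h : G, h • b = ∑ᶠ h : G, h • b := by
  rw [smul_finsum' g (Set.toFinite _)]
  rw [← finsum_comp_equiv (Equiv.mulLeft g) (f := fun h : G => h • b)]
  refine finsum_congr fun h => ?_
  show g • h • b = (g * h) • b
  rw [mul_smul]

lemma h52_map_norm (q : A →+ B) (hq : ∀ (g : G) (a : A), q (g • a) = g • q a) (a : A) :
    q (∑ᶠ g : G, g • a) = ∑ᶠ g : G, g • q a := by
  rw [q.map_finsum (Set.toFinite _)]
  exact finsum_congr fun g => hq g a

end Norm

/-! ### Connecting relations: generic diagram chases -/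

section Conn

variable {G : Type*} [Group G] {A B C : Type*} [AddCommGroup A] [AddCommGroup B] [AddCommGroup C]
  [DistribMulAction G A] [DistribMulAction G B] [DistribMulAction G C] {i : A →+ B} {q : B →+ C}

lemma h52_q_i (h : h40_ShortExact G i q) (a : A) : q (i a) = 0 := (h.exact _).2 ⟨a, rfl⟩

lemma h52_conn₁_of_cob (h : h40_ShortExact G i q) {z : G → C} (hz : IsCoboundary₁ z)
    {y : G × G → A} (hy : h40_Conn₁ i q z y) : IsCoboundary₂ y := by
  obtain ⟨c', hc'⟩ := hz
  obtain ⟨b, hb, hby⟩ := hy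
  obtain ⟨β, rfl⟩ := h.surj c'
  have hx : ∀ g, ∃ x : A, i x = b g - (g • β - β) := fun g => by
    have h0 : q (b g - (g • β - β)) = 0 := by
      rw [map_sub, map_sub, h.q_smul, hb, hc', sub_self]
    exact (h.exact _).1 h0
  choose x hx using hx
  refine ⟨x, fun g k => h.inj ?_⟩
  rw [hby, map_add, map_sub, h.i_smul, hx, hx, hx, smul_sub, smul_sub, mul_smul]
  abel

lemma h52_conn₁_cob_of_H1 (h : h40_ShortExact G i q)
    (hB : ∀ f : G → B, IsCocycle₁ f → IsCoboundary₁ f) {z : G → C}
    {y : G × G → A} (hy : h40_Conn₁ i q z y) (hy2 : IsCoboundary₂ y) : IsCoboundary₁ z := by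
  obtain ⟨x, hx⟩ := hy2
  obtain ⟨b, hb, hby⟩ := hy
  have hcoc : IsCocycle₁ (fun g => b g - i (x g)) := fun g k => by
    have h1 := hby g k
    rw [← hx g k, map_add, map_sub, h.i_smul] at h1
    show b (g * k) - i (x (g * k)) = g • (b k - i (x k)) + (b g - i (x g))
    rw [smul_sub]
    have h2 : b (g * k) - i (x (g * k)) - (g • b k - g • i (x k) + (b g - i (x g))) =
        (g • i (x k) - i (x (g * k)) + i (x g)) - (g • b k - b (g * k) + b g) := by abel
    rw [← sub_eq_zero, h2, h1, sub_self]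
  obtain ⟨β, hβ⟩ := hB _ hcoc
  refine ⟨q β, fun g => ?_⟩
  have h3 : q (g • β - β) = q (b g - i (x g)) := congrArg q (hβ g)
  rw [map_sub, map_sub, h.q_smul, h52_q_i h, sub_zero, hb] at h3
  exact h3

lemma h52_conn₁_exists (h : h40_ShortExact G i q) (z : G → C) (hz : IsCocycle₁ z) :
    ∃ y : G × G → A, IsCocycle₂ y ∧ h40_Conn₁ i q z y := by
  have hb : ∀ g, ∃ b : B, q b = z g := fun g => h.surj (z g)
  choose b hb using hb
  have hy : ∀ x : G × G, ∃ a : A, i a = x.1 • b x.2 - b (x.1 * x.2) + b x.1 := fun x => by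
    have h0 : q (x.1 • b x.2 - b (x.1 * x.2) + b x.1) = 0 := by
      rw [map_add, map_sub, h.q_smul, hb, hb, hb, hz x.1 x.2]
      abel
    exact (h.exact _).1 h0
  choose y hy using hy
  refine ⟨y, fun g k l => h.inj ?_, b, hb, fun g k => hy (g, k)⟩
  rw [map_add, map_add, h.i_smul, hy, hy, hy, hy]
  show (g * k) • b l - b (g * k * l) + b (g * k) + (g • b k - b (g * k) + b g) =
    g • (k • b l - b (k * l) + b k) + (g • b (k * l) - b (g * (k * l)) + b g)
  rw [smul_add, smul_sub, mul_smul, mul_assoc]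
  abel

omit [DistribMulAction G A] [DistribMulAction G C] in
lemma h52_conn₁_nsmul {z : G → C} {y : G × G → A} (hy : h40_Conn₁ i q z y) (m : ℕ) :
    h40_Conn₁ i q (m • z) (m • y) := by
  obtain ⟨b, hb, hby⟩ := hy
  refine ⟨m • b, fun g => ?_, fun g k => ?_⟩
  · show q (m • b g) = m • z g
    rw [map_nsmul, hb]
  · show i (m • y (g, k)) = g • (m • b k) - m • b (g * k) + m • b g
    rw [map_nsmul, hby, smul_comm g m (b k), nsmul_add, nsmul_sub]

lemma h52_conn₀_of_norm [Finite G] (h : h40_ShortExact G i q) {n : C} {z : G → A}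
    (hz : h40_Conn₀ i q n z) (hn : ∃ n' : C, n = ∑ᶠ g : G, g • n') : IsCoboundary₁ z := by
  obtain ⟨n', rfl⟩ := hn
  obtain ⟨b, hb, hbz⟩ := hz
  obtain ⟨β', rfl⟩ := h.surj n'
  have h0 : q (b - ∑ᶠ g : G, g • β') = 0 := by
    rw [map_sub, hb, h52_map_norm q h.q_smul, sub_self]
  obtain ⟨x, hx⟩ := (h.exact _).1 h0
  refine ⟨x, fun g => h.inj ?_⟩
  rw [map_sub, h.i_smul, hx, hbz, smul_sub, h52_smul_norm]
  abel

lemma h52_conn₀_norm_of_cob [Finite G] (h : h40_ShortExact G i q)
    (hB : ∀ b : B, (∀ g : G, g • b = b) → ∃ b' : B, b = ∑ᶠ g : G, g • b') {n : C} {z : G → A}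
    (hz : h40_Conn₀ i q n z) (hz2 : IsCoboundary₁ z) : ∃ n' : C, n = ∑ᶠ g : G, g • n' := by
  obtain ⟨x, hx⟩ := hz2
  obtain ⟨b, hb, hbz⟩ := hz
  have hinv : ∀ g : G, g • (b - i x) = b - i x := fun g => by
    have h1 := hbz g
    rw [← hx g, map_sub, h.i_smul] at h1
    rw [smul_sub]
    have h2 : g • b - g • i x - (b - i x) = (g • b - b) - (g • i x - i x) := by abel
    rw [← sub_eq_zero, h2, h1, sub_self]
  obtain ⟨b', hb'⟩ := hB _ hinv
  refine ⟨q b', ?_⟩
  rw [← h52_map_norm q h.q_smul, ← hb', map_sub, h52_q_i h, sub_zero, hb]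

lemma h52_conn₀_exists (h : h40_ShortExact G i q) (n : C) (hn : ∀ g : G, g • n = n) :
    ∃ z : G → A, IsCocycle₁ z ∧ h40_Conn₀ i q n z := by
  obtain ⟨b, rfl⟩ := h.surj n
  have hz : ∀ g : G, ∃ a : A, i a = g • b - b := fun g => by
    have h0 : q (g • b - b) = 0 := by rw [map_sub, h.q_smul, hn, sub_self]
    exact (h.exact _).1 h0
  choose z hz using hz
  refine ⟨z, fun g k => h.inj ?_, b, rfl, hz⟩
  rw [map_add, h.i_smul, hz, hz, hz, smul_sub, mul_smul]
  abel

omit [DistribMulAction G A] [DistribMulAction G C] in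
lemma h52_conn₀_nsmul {n : C} {z : G → A} (hz : h40_Conn₀ i q n z) (m : ℕ) :
    h40_Conn₀ i q (m • n) (m • z) := by
  obtain ⟨b, hb, hbz⟩ := hz
  refine ⟨m • b, ?_, fun g => ?_⟩
  · rw [map_nsmul, hb]
  · show i (m • z g) = g • (m • b) - m • b
    rw [map_nsmul, hbz, smul_comm g m b, nsmul_sub]

end Conn

/-! ### Coinduced modules: `H¹ = 0`, invariants are norms, shifting -/

section Coind

variable {G : Type*} [Group G] {V : Type*} [AddCommGroup V]

/-- Evaluation at a point, as an additive map. -/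
def h52_evAt (x : G) : h40_Coind G V →+ V where
  toFun φ := φ x
  map_zero' := rfl
  map_add' _ _ := rfl

omit [Group G] in
lemma h52_evAt_apply (x : G) (φ : h40_Coind G V) : h52_evAt x φ = φ x := rfl

omit [Group G] in
lemma h52_finsum_apply [Finite G] {ι : Type*} [Finite ι] (f : ι → h40_Coind G V) (x : G) :
    (∑ᶠ k : ι, f k) x = ∑ᶠ k : ι, f k x := by
  show h52_evAt x (∑ᶠ k : ι, f k) = ∑ᶠ k : ι, h52_evAt x (f k)
  exact AddMonoidHom.map_finsum (h52_evAt (G := G) (V := V) x) (Set.toFinite _)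

theorem h52_coind_H1 (f : G → h40_Coind G V) (hf : IsCocycle₁ f) : IsCoboundary₁ f := by
  refine ⟨h40_Coind.mk fun x => f x 1, fun g => h40_Coind.ext fun x => ?_⟩
  show f (x * g) 1 - f x 1 = f g x
  rw [hf x g]
  show f g (1 * x) + f x 1 - f x 1 = f g x
  rw [one_mul, add_sub_cancel_right]

theorem h52_coind_H0 [Finite G] (φ : h40_Coind G V) (hφ : ∀ g : G, g • φ = φ) :
    ∃ φ' : h40_Coind G V, φ = ∑ᶠ g : G, g • φ' := by
  refine ⟨h52_delta G V (φ 1), h40_Coind.ext fun x => ?_⟩
  rw [h52_finsum_apply]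
  rw [finsum_eq_single (fun g : G => (g • h52_delta G V (φ 1)) x) x⁻¹]
  · show φ x = h52_delta G V (φ 1) (x * x⁻¹)
    rw [mul_inv_cancel, h52_delta_apply_one]
    have h1 := congrArg (fun ψ : h40_Coind G V => ψ 1) (hφ x)
    simp only [h40_Coind.smul_apply, one_mul] at h1
    exact h1
  · intro g hg
    show h52_delta G V (φ 1) (x * g) = 0
    refine h52_delta_apply_of_ne G V _ fun h => hg ?_
    exact (inv_eq_of_mul_eq_one_right h).symm

/-- Decomposition of a function into translated delta functions. -/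
lemma h52_coind_decomp [Finite G] (φ : h40_Coind G V) :
    φ = ∑ᶠ x : G, x⁻¹ • h52_delta G V (φ x) := by
  refine h40_Coind.ext fun y => ?_
  rw [h52_finsum_apply]
  rw [finsum_eq_single (fun x : G => (x⁻¹ • h52_delta G V (φ x)) y) y]
  · show φ y = h52_delta G V (φ y) (y * y⁻¹)
    rw [mul_inv_cancel, h52_delta_apply_one]
  · intro x hx
    show h52_delta G V (φ x) (y * x⁻¹) = 0
    refine h52_delta_apply_of_ne G V _ fun h => hx ?_
    exact (mul_inv_eq_one.1 h).symm

variable [DistribMulAction G V]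

/-- Shifting in degree `2 → 1`. -/
theorem h52_shift₁ {z : G → h52_Sh G V} {y : G × G → V}
    (h : h40_Conn₁ (h52_j G V) (h52_q G V) z y) : IsCoboundary₂ y ↔ IsCoboundary₁ z :=
  ⟨h52_conn₁_cob_of_H1 (h52_shortExact G V) h52_coind_H1 h,
    fun hz => h52_conn₁_of_cob (h52_shortExact G V) hz h⟩

/-- Shifting in degree `1 → 0`. -/
theorem h52_shift₀ [Finite G] {n : h52_Sh G V} {z : G → V}
    (h : h40_Conn₀ (h52_j G V) (h52_q G V) n z) :
    IsCoboundary₁ z ↔ ∃ n' : h52_Sh G V, n = ∑ᶠ g : G, g • n' :=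
  ⟨h52_conn₀_norm_of_cob (h52_shortExact G V) h52_coind_H0 h,
    fun hn => h52_conn₀_of_norm (h52_shortExact G V) h hn⟩

/-- Every 2-cocycle of `V` is the connecting image of a 1-cocycle of the shifted module. -/
theorem h52_exists_conn₁ (y : G × G → V) (hy : IsCocycle₂ y) :
    ∃ z : G → h52_Sh G V, IsCocycle₁ z ∧ h40_Conn₁ (h52_j G V) (h52_q G V) z y := by
  let b : G → h40_Coind G V := fun g => h40_Coind.mk fun x => y (x, g)
  have hb : ∀ g k : G, h52_j G V (y (g, k)) = g • b k - b (g * k) + b g := fun g k =>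
    h40_Coind.ext fun x => by
      show x • y (g, k) = y (x * g, k) - y (x, g * k) + y (x, g)
      have h1 := hy x g k
      rw [eq_sub_of_add_eq h1.symm]
      abel
  refine ⟨fun g => h52_q G V (b g), fun g k => ?_, b, fun g => rfl, hb⟩
  have h2 := congrArg (h52_q G V) (hb g k)
  rw [h52_q_j, map_add, map_sub, h52_q_smul] at h2
  show h52_q G V (b (g * k)) = g • h52_q G V (b k) + h52_q G V (b g)
  rw [← sub_eq_zero]
  rw [← neg_eq_zero]
  rw [h2]
  abel

/-- Every 1-cocycle of `V` is the connecting image of an invariant of the shifted module. -/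
theorem h52_exists_conn₀ (z : G → V) (hz : IsCocycle₁ z) :
    ∃ n : h52_Sh G V, (∀ g : G, g • n = n) ∧ h40_Conn₀ (h52_j G V) (h52_q G V) n z := by
  let b : h40_Coind G V := h40_Coind.mk z
  have hb : ∀ g : G, h52_j G V (z g) = g • b - b := fun g => h40_Coind.ext fun x => by
    show x • z g = z (x * g) - z x
    rw [hz x g, add_sub_cancel_right]
  refine ⟨h52_q G V b, fun g => ?_, b, rfl, hb⟩
  have h2 := congrArg (h52_q G V) (hb g)
  rw [h52_q_j, map_sub, h52_q_smul] at h2
  exact (sub_eq_zero.1 h2.symm)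

end Coind

/-! ### `G`-maps out of coinduced modules, lifting, extension, factorisation -/

section Maps

variable {G : Type*} [Group G] [Finite G] {V : Type*} [AddCommGroup V]
  {E : Type*} [AddCommGroup E] [DistribMulAction G E]

/-- The `G`-map `Coind G V → E` attached to an additive map `k : V → E`:
`φ ↦ Σ_x x⁻¹ • k (φ x)`. -/
noncomputable def h52_coindMap (k : V →+ E) : h40_Coind G V →+ E where
  toFun φ := ∑ᶠ x : G, x⁻¹ • k (φ x)
  map_zero' := by
    have h0 : ∀ x : G, x⁻¹ • k ((0 : h40_Coind G V) x) = 0 := fun x => by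
      rw [h40_Coind.zero_apply, map_zero, smul_zero]
    rw [finsum_congr h0, finsum_zero]
  map_add' φ ψ := by
    rw [← finsum_add_distrib (Set.toFinite _) (Set.toFinite _)]
    refine finsum_congr fun x => ?_
    rw [h40_Coind.add_apply, map_add, smul_add]

lemma h52_coindMap_apply (k : V →+ E) (φ : h40_Coind G V) :
    h52_coindMap k φ = ∑ᶠ x : G, x⁻¹ • k (φ x) := rfl

lemma h52_coindMap_smul (k : V →+ E) (g : G) (φ : h40_Coind G V) :
    h52_coindMap k (g • φ) = g • h52_coindMap k φ := by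
  rw [h52_coindMap_apply, h52_coindMap_apply, smul_finsum' g (Set.toFinite _)]
  rw [← finsum_comp_equiv (Equiv.mulRight g) (f := fun x : G => g • x⁻¹ • k (φ x))]
  refine finsum_congr fun x => ?_
  show x⁻¹ • k (φ (x * g)) = g • (x * g)⁻¹ • k (φ (x * g))
  rw [smul_smul, mul_inv_rev, mul_inv_cancel_left]

lemma h52_coindMap_delta (k : V →+ E) (v : V) : h52_coindMap k (h52_delta G V v) = k v := by
  rw [h52_coindMap_apply, finsum_eq_single _ 1]
  · rw [inv_one, one_smul, h52_delta_apply_one]
  · intro x hx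
    rw [h52_delta_apply_of_ne G V v hx, map_zero, smul_zero]

/-- `G`-maps out of a coinduced module are determined by their values on delta functions. -/
theorem h52_coind_map_eq (Ψ : h40_Coind G V →+ E)
    (hΨ : ∀ (g : G) (φ : h40_Coind G V), Ψ (g • φ) = g • Ψ φ) (φ : h40_Coind G V) :
    Ψ φ = ∑ᶠ x : G, x⁻¹ • Ψ (h52_delta G V (φ x)) := by
  conv_lhs => rw [h52_coind_decomp φ]
  rw [Ψ.map_finsum (Set.toFinite _)]
  exact finsum_congr fun x => hΨ _ _

/-- Additive maps out of a `ℤ`-free group lift along additive maps whose range contains the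
image. -/
theorem h52_free_lift [Module.Free ℤ V] {D : Type*} [AddCommGroup D] (q : D →+ E) (ψ : V →+ E)
    (h : ∀ v, ψ v ∈ q.range) : ∃ ψ' : V →+ D, ∀ v, q (ψ' v) = ψ v := by
  let b := Module.Free.chooseBasis ℤ V
  have hd : ∀ i, ∃ d : D, q d = ψ (b i) := fun i => h (b i)
  choose d hd using hd
  let L : V →ₗ[ℤ] D := b.constr ℤ d
  have hL : q.toIntLinearMap.comp L = ψ.toIntLinearMap := b.ext fun i => by
    show q (L (b i)) = ψ (b i)
    rw [show L (b i) = d i from b.constr_basis ℤ d i, hd]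
  exact ⟨L.toAddMonoidHom, fun v => LinearMap.congr_fun hL v⟩

/-- Lifting `G`-maps out of a coinduced `ℤ`-free module along a `G`-map whose range contains the
image. -/
theorem h52_coind_lift [Module.Free ℤ V] {D : Type*} [AddCommGroup D] [DistribMulAction G D]
    (qD : D →+ E) (hqG : ∀ (g : G) (d : D), qD (g • d) = g • qD d)
    (W : h40_Coind G V →+ E) (hW : ∀ (g : G) (φ : h40_Coind G V), W (g • φ) = g • W φ)
    (hrange : ∀ φ, W φ ∈ qD.range) :
    ∃ Ψ : h40_Coind G V →+ D, (∀ (g : G) (φ : h40_Coind G V), Ψ (g • φ) = g • Ψ φ) ∧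
      ∀ φ, qD (Ψ φ) = W φ := by
  obtain ⟨k, hk⟩ := h52_free_lift qD (W.comp (h52_delta G V)) fun v => hrange _
  refine ⟨h52_coindMap k, h52_coindMap_smul k, fun φ => ?_⟩
  rw [h52_coindMap_apply, qD.map_finsum (Set.toFinite _), h52_coind_map_eq W hW φ]
  refine finsum_congr fun x => ?_
  rw [hqG, hk]
  rfl

end Maps

section Factor

variable {G : Type*} [Group G] {V : Type*} [AddCommGroup V] [DistribMulAction G V]
  {E : Type*} [AddCommGroup E]

/-- Additive maps out of `Coind G V` killing `j V` factor through the shifted module. -/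
theorem h52_factor (F : h40_Coind G V →+ E) (hF : ∀ v, F (h52_j G V v) = 0) :
    ∃ F' : h52_Sh G V →+ E, ∀ φ, F' (h52_q G V φ) = F φ := by
  refine ⟨F.comp (h52_incl G V), fun φ => ?_⟩
  show F (h52_incl G V (h52_q G V φ)) = F φ
  rw [h52_incl_q', map_sub, hF, sub_zero]

omit [DistribMulAction G V] in
/-- Additive maps with values in the range of an injective map factor through it. -/
theorem h52_factor_inj {C D : Type*} [AddCommGroup C] [AddCommGroup D] (i : C →+ D)
    (hi : Function.Injective i) (F : V →+ D) (hF : ∀ v, F v ∈ i.range) :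
    ∃ f : V →+ C, ∀ v, i (f v) = F v := by
  choose f hf using hF
  refine ⟨⟨⟨f, hi ?_⟩, fun v w => hi ?_⟩, hf⟩
  · rw [hf, map_zero, map_zero]
  · rw [map_add, hf, hf, hf, map_add]

/-- Extension of `G`-maps from `V` to `Coind G V`: the obstruction lies in
`H¹(G, Hom(Sh G V, D))`. -/
theorem h52_extend {D : Type*} [AddCommGroup D] [DistribMulAction G D]
    (hH1 : ∀ c : G → h40_Hom (h52_Sh G V) D, IsCocycle₁ c → IsCoboundary₁ c)
    (f : V →+ D) (hf : ∀ (g : G) (v : V), f (g • v) = g • f v) :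
    ∃ F : h40_Coind G V →+ D, (∀ (g : G) (φ : h40_Coind G V), F (g • φ) = g • F φ) ∧
      ∀ v, F (h52_j G V v) = f v := by
  -- the obstruction cocycle `c g = (s ↦ g • f (s g⁻¹))`
  let c : G → h40_Hom (h52_Sh G V) D := fun g => h40_Hom.mk
    { toFun := fun s => g • f (h52_incl G V s g⁻¹)
      map_zero' := by rw [map_zero, h40_Coind.zero_apply, map_zero, smul_zero]
      map_add' := fun s t => by rw [map_add, h40_Coind.add_apply, map_add, smul_add] }
  have hc : ∀ (g : G) (s : h52_Sh G V), c g s = g • f (h52_incl G V s g⁻¹) := fun g s => rfl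
  have hcoc : IsCocycle₁ c := fun g k => h40_Hom.ext fun s => by
    rw [h40_Hom.add_apply, h40_Hom.smul_apply, hc, hc, hc, h52_incl_smul, map_sub, smul_sub,
      smul_sub, hf, smul_smul, smul_smul, smul_smul, mul_inv_rev, mul_inv_cancel_right]
    abel
  obtain ⟨χ, hχ⟩ := hH1 c hcoc
  have hχ' : ∀ (g : G) (s : h52_Sh G V), g • χ (g⁻¹ • s) - χ s = g • f (h52_incl G V s g⁻¹) :=
    fun g s => by
      have h1 := congrArg (fun ψ : h40_Hom (h52_Sh G V) D => ψ s) (hχ g)
      simpa only [h40_Hom.sub_apply, h40_Hom.smul_apply, hc] using h1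
  refine ⟨f.comp (h52_ev G V) - (h40_Hom.toHom χ).comp (h52_q G V), fun g φ => ?_, fun v => ?_⟩
  · show f ((g • φ) 1) - χ (h52_q G V (g • φ)) = g • (f (φ 1) - χ (h52_q G V φ))
    have h2 := hχ' g (g • h52_q G V φ)
    have e1 : (g • φ) g⁻¹ = φ 1 := by rw [h40_Coind.smul_apply, inv_mul_cancel]
    have e2 : (g • φ) 1 = φ g := by rw [h40_Coind.smul_apply, one_mul]
    rw [inv_smul_smul, ← h52_q_smul, h52_incl_q, e1, e2, map_sub, smul_sub, hf,
      smul_inv_smul] at h2
    rw [e2, smul_sub]
    have h3 : f (φ g) - χ (h52_q G V (g • φ)) - (g • f (φ 1) - g • χ (h52_q G V φ)) =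
        (g • χ (h52_q G V φ) - χ (h52_q G V (g • φ))) - (g • f (φ 1) - f (φ g)) := by abel
    rw [← sub_eq_zero, h3, h2, sub_self]
  · show f (h52_j G V v 1) - χ (h52_q G V (h52_j G V v)) = f v
    rw [h52_q_j, h40_Hom.map_zero', sub_zero, h52_j_apply, one_smul]

end Factor

end Fermat.Agent.S55
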