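/-
S55 layer H, row H-TN (helper52): the chase lemma `h52_dd` ("δδ is well defined") and small
tools (post-composition on coinduced modules, norms of additive maps, augmentation lemmas,
multiples of coboundaries).
-/
import Mathlib
import Fermat.Agent.S55.h72_AbsDefs
import Fermat.Agent.S55.h40_HDefs
import Fermat.Agent.S55.h52_TNShift

set_option autoImplicit false

namespace Fermat.Agent.S55

open groupCohomology

/-! ### Multiples of coboundaries -/

section Mult

variable {G : Type*} [Group G] {A : Type*} [AddCommGroup A] [DistribMulAction G A]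

lemma h52_isCoboundary₂_nsmul {f : G × G → A} (hf : IsCoboundary₂ f) (m : ℕ) :
    IsCoboundary₂ (m • f) := by
  obtain ⟨x, hx⟩ := hf
  refine ⟨m • x, fun g h => ?_⟩
  show g • (m • x h) - m • x (g * h) + m • x g = m • f (g, h)
  rw [← hx, smul_comm g m (x h), nsmul_add, nsmul_sub]

lemma h52_isCoboundary₂_zsmul {f : G × G → A} (hf : IsCoboundary₂ f) (m : ℤ) :
    IsCoboundary₂ (m • f) := by
  obtain ⟨x, hx⟩ := hf
  refine ⟨m • x, fun g h => ?_⟩
  show g • (m • x h) - m • x (g * h) + m • x g = m • f (g, h)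
  rw [← hx, smul_comm g m (x h), zsmul_add, zsmul_sub]

lemma h52_isCoboundary₂_sub {f f' : G × G → A} (hf : IsCoboundary₂ f) (hf' : IsCoboundary₂ f') :
    IsCoboundary₂ (f - f') := by
  obtain ⟨x, hx⟩ := hf
  obtain ⟨x', hx'⟩ := hf'
  refine ⟨x - x', fun g h => ?_⟩
  show g • (x h - x' h) - (x (g * h) - x' (g * h)) + (x g - x' g) = f (g, h) - f' (g, h)
  rw [← hx, ← hx', smul_sub]
  abel

/-- If `p^v` divides every natural `k` with `k • u` a coboundary, the same holds for integers. -/
lemma h52_int_dvd_of_cob {u : G × G → A} {P : ℕ}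
    (hu : ∀ k : ℕ, IsCoboundary₂ (k • u) → P ∣ k) (a : ℤ) (ha : IsCoboundary₂ (a • u)) :
    (P : ℤ) ∣ a := by
  rw [Int.natCast_dvd]
  apply hu
  rcases Int.natAbs_eq a with h | h
  · have h1 : a.natAbs • u = a • u := by
      conv_rhs => rw [h]
      rw [natCast_zsmul]
    rw [h1]
    exact ha
  · have h1 : a.natAbs • u = (-1 : ℤ) • (a • u) := by
      conv_rhs => rw [h]
      rw [neg_smul, neg_smul, one_smul, neg_neg, natCast_zsmul]
    rw [h1]
    exact h52_isCoboundary₂_zsmul ha _

end Mult

/-! ### Post-composition, augmentation, norms of additive maps -/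

section Post

variable (G : Type*) {V R : Type*} [AddCommGroup V] [AddCommGroup R]

/-- Post-composition with an additive map on coinduced modules. -/
def h52_post (k : V →+ R) : h40_Coind G V →+ h40_Coind G R where
  toFun a := h40_Coind.mk fun x => k (a x)
  map_zero' := h40_Coind.ext fun x => by
    show k ((0 : h40_Coind G V) x) = 0
    rw [h40_Coind.zero_apply, map_zero]
  map_add' a a' := h40_Coind.ext fun x => by
    show k ((a + a') x) = k (a x) + k (a' x)
    rw [h40_Coind.add_apply, map_add]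

variable {G}

lemma h52_post_apply (k : V →+ R) (a : h40_Coind G V) (x : G) : h52_post G k a x = k (a x) := rfl

lemma h52_post_smul [Monoid G] (k : V →+ R) (g : G) (a : h40_Coind G V) :
    h52_post G k (g • a) = g • h52_post G k a := rfl

lemma h52_aug_post [Finite G] (k : V →+ R) (a : h40_Coind G V) :
    h40_aug G R (h52_post G k a) = ∑ᶠ x : G, k (a x) := rfl

lemma h52_aug_smul [Group G] [Finite G] (g : G) (a : h40_Coind G R) :
    h40_aug G R (g • a) = h40_aug G R a := by
  rw [h40_aug_apply, h40_aug_apply]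
  exact finsum_comp_equiv (Equiv.mulRight g) (f := fun x : G => a x)

lemma h52_aug_delta [Group G] [Finite G] (r : R) : h40_aug G R (h52_delta G R r) = r := by
  rw [h40_aug_apply, finsum_eq_single _ 1]
  · exact h52_delta_apply_one G R r
  · intro x hx
    exact h52_delta_apply_of_ne G R r hx

end Post

section NormHom

variable {G : Type*} [Group G] [Finite G] {A B : Type*} [AddCommGroup A] [AddCommGroup B]
  [DistribMulAction G A] [DistribMulAction G B]

/-- The norm of an additive map `k : A →+ B`: `a ↦ Σ_g g • k (g⁻¹ • a)`. -/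
noncomputable def h52_normHom (k : A →+ B) : A →+ B where
  toFun a := ∑ᶠ g : G, g • k (g⁻¹ • a)
  map_zero' := by
    have h0 : ∀ g : G, g • k (g⁻¹ • (0 : A)) = 0 := fun g => by
      rw [smul_zero, map_zero, smul_zero]
    rw [finsum_congr h0, finsum_zero]
  map_add' a a' := by
    rw [← finsum_add_distrib (Set.toFinite _) (Set.toFinite _)]
    refine finsum_congr fun g => ?_
    rw [smul_add, map_add, smul_add]

lemma h52_normHom_apply (k : A →+ B) (a : A) :
    h52_normHom (G := G) k a = ∑ᶠ g : G, g • k (g⁻¹ • a) := rfl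

lemma h52_normHom_smul (k : A →+ B) (g : G) (a : A) :
    h52_normHom (G := G) k (g • a) = g • h52_normHom (G := G) k a := by
  rw [h52_normHom_apply, h52_normHom_apply, smul_finsum' g (Set.toFinite _)]
  rw [← finsum_comp_equiv (Equiv.mulLeft g) (f := fun h : G => h • k (h⁻¹ • g • a))]
  refine finsum_congr fun h => ?_
  show (g * h) • k ((g * h)⁻¹ • g • a) = g • h • k (h⁻¹ • a)
  rw [mul_smul, mul_inv_rev, mul_smul, inv_smul_smul]

end NormHom

/-! ### The chase lemma -/

section DD

variable {G : Type*} [Group G] [Finite G] {C D R : Type*} [AddCommGroup C] [DistribMulAction G C]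
  [AddCommGroup D] [DistribMulAction G D] [AddCommGroup R]

/-- "`δδ` is well defined": for `0 → C → D → Coind G R → R → 0` (exact at `D` and at
`Coind G R`), two elements of `Coind G R` with the same augmentation have cohomologous iterated
connecting images. -/
theorem h52_dd (i : C →+ D) (q : D →+ h40_Coind G R) (hi : Function.Injective i)
    (hiG : ∀ (g : G) (c : C), i (g • c) = g • i c)
    (hqG : ∀ (g : G) (d : D), q (g • d) = g • q d) (hex : ∀ d : D, q d = 0 ↔ d ∈ i.range)
    (hrange : ∀ φ : h40_Coind G R, h40_aug G R φ = 0 → φ ∈ q.range)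
    (B₁ B₂ : h40_Coind G R) (Z₁ Z₂ : G → D) (y₁ y₂ : G × G → C)
    (h₁ : ∀ g, q (Z₁ g) = g • B₁ - B₁)
    (h₁' : ∀ g h, i (y₁ (g, h)) = g • Z₁ h - Z₁ (g * h) + Z₁ g)
    (h₂ : ∀ g, q (Z₂ g) = g • B₂ - B₂)
    (h₂' : ∀ g h, i (y₂ (g, h)) = g • Z₂ h - Z₂ (g * h) + Z₂ g)
    (hB : h40_aug G R B₁ = h40_aug G R B₂) : IsCoboundary₂ (y₁ - y₂) := by
  have h0 : h40_aug G R (B₁ - B₂) = 0 := by rw [map_sub, hB, sub_self]
  obtain ⟨d, hd⟩ := hrange _ h0
  have hw : ∀ g, ∃ w : C, i w = Z₁ g - Z₂ g - (g • d - d) := fun g => by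
    refine (hex _).1 ?_
    rw [map_sub, map_sub, map_sub, hqG, h₁, h₂, hd, smul_sub]
    abel
  choose w hw using hw
  refine ⟨w, fun g h => hi ?_⟩
  rw [map_add, map_sub, hiG, hw, hw, hw]
  show _ = i (y₁ (g, h) - y₂ (g, h))
  rw [map_sub, h₁', h₂', smul_sub, smul_sub, smul_sub, mul_smul]
  abel

end DD

end Fermat.Agent.S55
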