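/-
S55 layer H, row H-TN (helper52): Tate–Nakayama, left kernel, from the splitting data.

`h52_tn_L_core`: for a sequence `0 → C → D → Coind G R → R → 0` with `δδ(aug b₀) = [u]`, where
`u` has order divisible by `p^v`, a `G`-map `f : N → C` killing `H²(G, N)` is a norm, provided
* `H¹(G, Hom(Sh N, D)) = 0` (cohomological triviality, `hH1`);
* the lattice duality for `R`-valued functionals on the double shift `Sh (Sh N)` (`hlat`);
* every element of `R` is a prime-to-`p` fraction of an integer multiple of `aug b₀` (`hint`).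
-/
import Mathlib
import Fermat.Agent.S55.h72_AbsDefs
import Fermat.Agent.S55.h40_HDefs
import Fermat.Agent.S55.h52_TNShift
import Fermat.Agent.S55.h52_TNCore

set_option autoImplicit false

namespace Fermat.Agent.S55

open groupCohomology

theorem h52_tn_L_core {p v : ℕ} {G : Type*} [Group G] [Finite G]
    {C : Type*} [AddCommGroup C] [DistribMulAction G C]
    (u : G × G → C) (hu : ∀ k : ℕ, IsCoboundary₂ (k • u) → p ^ v ∣ k)
    {D : Type*} [AddCommGroup D] [DistribMulAction G D] {R : Type*} [AddCommGroup R]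
    (i : C →+ D) (q : D →+ h40_Coind G R) (hi : Function.Injective i)
    (hiG : ∀ (g : G) (c : C), i (g • c) = g • i c)
    (hqG : ∀ (g : G) (d : D), q (g • d) = g • q d) (hex : ∀ d : D, q d = 0 ↔ d ∈ i.range)
    (hrange : ∀ φ : h40_Coind G R, h40_aug G R φ = 0 ↔ φ ∈ q.range)
    (b₀ : h40_Coind G R) (b : G → D) (hb : ∀ g : G, q (b g) = g • b₀ - b₀)
    (hbu : ∀ g h : G, i (u (g, h)) = g • b h - b (g * h) + b g)
    {N : Type*} [AddCommGroup N] [DistribMulAction G N] [Module.Free ℤ N]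
    (hH1 : ∀ c : G → h40_Hom (h52_Sh G N) D, IsCocycle₁ c → IsCoboundary₁ c)
    (hint : ∀ r : R, ∃ m : ℕ, m.Coprime p ∧ ∃ a : ℤ, m • r = a • h40_aug G R b₀)
    (hlat : ∀ ψ : h52_Sh G (h52_Sh G N) →+ R,
      (∀ (g : G) (x : h52_Sh G (h52_Sh G N)), ψ (g • x) = ψ x) →
      (∀ a : h52_Sh G (h52_Sh G N), (∀ g : G, g • a = a) →
        ∃ m : ℕ, m.Coprime p ∧ ∃ k : ℤ, m • ψ a = ((p : ℤ) ^ v * k) • h40_aug G R b₀) →
      ∃ ψ₀ : h52_Sh G (h52_Sh G N) →+ R, ∀ x, ψ x = ∑ᶠ g : G, ψ₀ (g⁻¹ • x))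
    (f : N →+ C) (hf : ∀ (g : G) (n : N), f (g • n) = g • f n)
    (hperp : ∀ y : G × G → N, IsCocycle₂ y → IsCoboundary₂ (fun x : G × G => f (y x))) :
    ∃ h : N →+ C, ∀ n, f n = ∑ᶠ g : G, g • h (g⁻¹ • n) := by
  -- Step 1: extend `i ∘ f` to a `G`-map `Φ₁ : Coind G N → D`
  obtain ⟨Φ₁, hΦ₁G, hΦ₁j⟩ := h52_extend hH1 (i.comp f) (fun g n => by
    show i (f (g • n)) = g • i (f n)
    rw [hf, hiG])
  have hΦ₁j' : ∀ n, Φ₁ (h52_j G N n) = i (f n) := hΦ₁j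
  -- Step 2: the induced map `Φ₂' : Sh N → Coind G R`
  obtain ⟨Φ₂', hΦ₂'⟩ := h52_factor (q.comp Φ₁) (fun n => by
    show q (Φ₁ (h52_j G N n)) = 0
    rw [hΦ₁j']
    exact (hex _).2 ⟨_, rfl⟩)
  have hΦ₂'q : ∀ a, Φ₂' (h52_q G N a) = q (Φ₁ a) := hΦ₂'
  have hΦ₂'G : ∀ (g : G) (s : h52_Sh G N), Φ₂' (g • s) = g • Φ₂' s := fun g s => by
    obtain ⟨a, rfl⟩ := h52_q_surjective s
    rw [← h52_q_smul, hΦ₂'q, hΦ₂'q, hΦ₁G, hqG]
  have hΦ₂'aug : ∀ s : h52_Sh G N, h40_aug G R (Φ₂' s) = 0 := fun s => by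
    obtain ⟨a, rfl⟩ := h52_q_surjective s
    rw [hΦ₂'q]
    exact (hrange _).2 ⟨_, rfl⟩
  -- Step 3: extend `Φ₂'` to `Φ₂ : Coind G (Sh N) → Coind G R`
  let Φ₂ : h40_Coind G (h52_Sh G N) →+ h40_Coind G R := h52_post G ((h52_ev G R).comp Φ₂')
  have hΦ₂G : ∀ (g : G) (a : h40_Coind G (h52_Sh G N)), Φ₂ (g • a) = g • Φ₂ a :=
    fun g a => h52_post_smul _ g a
  have hΦ₂j : ∀ s : h52_Sh G N, Φ₂ (h52_j G (h52_Sh G N) s) = Φ₂' s := fun s =>
    h40_Coind.ext fun x => by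
      show (Φ₂' (x • s)) 1 = Φ₂' s x
      rw [hΦ₂'G]
      show Φ₂' s (1 * x) = Φ₂' s x
      rw [one_mul]
  -- Step 4: the induced invariant functional `φ : Sh (Sh N) → R`
  obtain ⟨φ, hφ⟩ := h52_factor ((h40_aug G R).comp Φ₂) (fun s => by
    show h40_aug G R (Φ₂ (h52_j G (h52_Sh G N) s)) = 0
    rw [hΦ₂j, hΦ₂'aug])
  have hφq : ∀ a, φ (h52_q G (h52_Sh G N) a) = h40_aug G R (Φ₂ a) := hφ
  have hφG : ∀ (g : G) (x : h52_Sh G (h52_Sh G N)), φ (g • x) = φ x := fun g x => by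
    obtain ⟨a, rfl⟩ := h52_q_surjective x
    rw [← h52_q_smul, hφq, hφq, hΦ₂G, h52_aug_smul]
  -- Step 5: divisibility of `φ` on invariants
  have hdiv : ∀ a : h52_Sh G (h52_Sh G N), (∀ g : G, g • a = a) →
      ∃ m : ℕ, m.Coprime p ∧ ∃ k : ℤ, m • φ a = ((p : ℤ) ^ v * k) • h40_aug G R b₀ := by
    intro n₃ hn₃
    obtain ⟨z, hz, hnz⟩ := h52_conn₀_exists (h52_shortExact G (h52_Sh G N)) n₃ hn₃
    obtain ⟨y, hy, hzy⟩ := h52_conn₁_exists (h52_shortExact G N) z hz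
    obtain ⟨ψ, hψ, hψz⟩ := hnz
    obtain ⟨c, hc, hcy⟩ := hzy
    obtain ⟨m, hm, a, ha⟩ := hint (φ n₃)
    have hB : h40_aug G R (Φ₂ ψ) = φ n₃ := by rw [← hψ, hφq]
    have hZ : ∀ g, q (Φ₁ (c g)) = g • Φ₂ ψ - Φ₂ ψ := fun g => by
      rw [← hΦ₂'q, hc, ← hΦ₂j, hψz, map_sub, hΦ₂G]
    have hY : ∀ g h, i (f (y (g, h))) = g • Φ₁ (c h) - Φ₁ (c (g * h)) + Φ₁ (c g) := fun g h => by
      rw [← hΦ₁j', hcy, map_add, map_sub, hΦ₁G]
    have hdd : IsCoboundary₂ ((m • fun x : G × G => f (y x)) - a • u) := by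
      refine h52_dd i q hi hiG hqG hex (fun φ h => (hrange φ).1 h) (m • Φ₂ ψ) (a • b₀)
        (fun g => m • Φ₁ (c g)) (fun g => a • b g) _ _ (fun g => ?_) (fun g h => ?_)
        (fun g => ?_) (fun g h => ?_) ?_
      · rw [map_nsmul, hZ, smul_comm g m (Φ₂ ψ), nsmul_sub]
      · show i (m • f (y (g, h))) = g • (m • Φ₁ (c h)) - m • Φ₁ (c (g * h)) + m • Φ₁ (c g)
        rw [map_nsmul, hY, smul_comm g m (Φ₁ (c h)), nsmul_add, nsmul_sub]
      · rw [map_zsmul, hb, smul_comm g a b₀, zsmul_sub]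
      · show i (a • u (g, h)) = g • (a • b h) - a • b (g * h) + a • b g
        rw [map_zsmul, hbu, smul_comm g a (b h), zsmul_add, zsmul_sub]
      · rw [map_nsmul, hB, ha, map_zsmul]
    have hmfy : IsCoboundary₂ (m • fun x : G × G => f (y x)) :=
      h52_isCoboundary₂_nsmul (hperp y hy) m
    have hau : IsCoboundary₂ (a • u) := by
      have h1 := h52_isCoboundary₂_sub hmfy hdd
      rwa [sub_sub_cancel] at h1
    obtain ⟨k, rfl⟩ := h52_int_dvd_of_cob hu a hau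
    refine ⟨m, hm, k, ?_⟩
    rw [ha]
    push_cast
    rfl
  -- Step 6: lattice duality
  obtain ⟨φ₀, hφ₀⟩ := hlat φ hφG hdiv
  -- Step 7: the corrected map `Ξ : Coind G (Sh N) → Coind G R` with values in the kernel of `aug`
  let T : h40_Coind G (h52_Sh G N) →+ h40_Coind G R :=
    h52_normHom (G := G) ((h52_delta G R).comp (φ₀.comp (h52_q G (h52_Sh G N))))
  have hT : ∀ a, T a = ∑ᶠ g : G, g • h52_delta G R (φ₀ (h52_q G (h52_Sh G N) (g⁻¹ • a))) :=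
    fun a => rfl
  have hΞG : ∀ (g : G) (a : h40_Coind G (h52_Sh G N)), (Φ₂ - T) (g • a) = g • (Φ₂ - T) a :=
    fun g a => by
      rw [AddMonoidHom.sub_apply, AddMonoidHom.sub_apply, hΦ₂G, smul_sub]
      congr 1
      exact h52_normHom_smul _ g a
  have hΞaug : ∀ a, h40_aug G R ((Φ₂ - T) a) = 0 := fun a => by
    rw [AddMonoidHom.sub_apply, map_sub, hT, (h40_aug G R).map_finsum (Set.toFinite _),
      ← hφq, hφ₀, sub_eq_zero]
    refine finsum_congr fun g => ?_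
    rw [h52_aug_smul, h52_aug_delta, h52_q_smul]
  have hΞj : ∀ s : h52_Sh G N, (Φ₂ - T) (h52_j G (h52_Sh G N) s) = Φ₂' s := fun s => by
    have h0 : ∀ g : G, g • h52_delta G R
        (φ₀ (h52_q G (h52_Sh G N) (g⁻¹ • h52_j G (h52_Sh G N) s))) = 0 := fun g => by
      rw [← h52_j_smul, h52_q_j, map_zero, map_zero, smul_zero]
    rw [AddMonoidHom.sub_apply, hΦ₂j, hT, finsum_congr h0, finsum_zero, sub_zero]
  -- Step 8: lift `Ξ` to `D`
  obtain ⟨Ξ', hΞ'G, hΞ'⟩ := h52_coind_lift q hqG (Φ₂ - T) hΞG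
    (fun a => (hrange _).1 (hΞaug a))
  -- Step 9: the corrected extension has values in `C`
  let Θ' : h40_Coind G N →+ D :=
    Φ₁ - Ξ'.comp ((h52_j G (h52_Sh G N)).comp (h52_q G N))
  have hΘ' : ∀ a, Θ' a = Φ₁ a - Ξ' (h52_j G (h52_Sh G N) (h52_q G N a)) := fun a => rfl
  have hΘ'G : ∀ (g : G) (a : h40_Coind G N), Θ' (g • a) = g • Θ' a := fun g a => by
    rw [hΘ', hΘ', hΦ₁G, h52_q_smul, h52_j_smul, hΞ'G, smul_sub]
  have hΘ'q : ∀ a, q (Θ' a) = 0 := fun a => by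
    rw [hΘ', map_sub, hΞ', hΞj, hΦ₂'q, sub_self]
  obtain ⟨Θ, hΘ⟩ := h52_factor_inj i hi Θ' (fun a => (hex _).1 (hΘ'q a))
  have hΘG : ∀ (g : G) (a : h40_Coind G N), Θ (g • a) = g • Θ a := fun g a => hi (by
    rw [hΘ, hiG, hΘ, hΘ'G])
  have hΘj : ∀ n, Θ (h52_j G N n) = f n := fun n => hi (by
    rw [hΘ, hΘ', h52_q_j, map_zero, map_zero, sub_zero, hΦ₁j'])
  -- Step 10: `f` is the norm of `Θ ∘ δ`
  refine ⟨Θ.comp (h52_delta G N), fun n => ?_⟩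
  rw [← hΘj, h52_coind_map_eq Θ hΘG (h52_j G N n)]
  rw [← finsum_comp_equiv (Equiv.inv G)
    (f := fun x : G => x⁻¹ • Θ (h52_delta G N (h52_j G N n x)))]
  refine finsum_congr fun g => ?_
  show (g⁻¹)⁻¹ • Θ (h52_delta G N (g⁻¹ • n)) = g • Θ (h52_delta G N (g⁻¹ • n))
  rw [inv_inv]

end Fermat.Agent.S55
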