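import Mathlib

/-!
# S55, layer H: lattice `Ĥ⁰`-duality (row H-LATDUAL)

`R` a principal ideal domain, `G` a finite group acting `R`-linearly on a finitely generated free
`R`-module `A` (a "lattice"), `|G| ≠ 0` in `R`.

* `h62_latDual_elt` : an invariant element which is not a norm is detected by an invariant
  functional modulo `|G|`;
* `h62_latDual_fun` : an invariant functional which is not a norm functional is detected by an
  invariant element modulo `|G|`;
* `h62_latDual_card` : `[A^G : N A] = [(A^*)^G : N (A^*)]` (index form);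
* `h62_latDual_elt'`, `h62_latDual_fun'` : the same for `[Finite G]` with `finsum`/`Nat.card`.

Also exported: `h62_normLin` (the norm as a linear map), `h62_invSub` (invariants as a
submodule), `h62_exists_proj` (the invariants are a direct summand).
-/

set_option autoImplicit false

namespace Fermat.Agent.S55

open Module

section
variable {R : Type*} [CommRing R] [IsDomain R] [IsPrincipalIdealRing R]
variable {G : Type*} [Group G] [Fintype G]
variable {A : Type*} [AddCommGroup A] [Module R A] [Module.Free R A] [Module.Finite R A]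
variable [DistribMulAction G A] [SMulCommClass G R A]

variable (R G A) in
/-- The norm `x ↦ ∑ g, g • x` as an `R`-linear map. -/
noncomputable def h62_normLin : A →ₗ[R] A := ∑ g : G, DistribSMul.toLinearMap R A g

omit [IsDomain R] [IsPrincipalIdealRing R] [Module.Free R A] [Module.Finite R A] in
lemma h62_normLin_apply (x : A) : h62_normLin R G A x = ∑ g : G, g • x := by
  simp [h62_normLin, LinearMap.sum_apply]

omit [IsDomain R] [IsPrincipalIdealRing R] [Module.Free R A] [Module.Finite R A] in
lemma h62_normLin_smul (g : G) (x : A) : h62_normLin R G A (g • x) = h62_normLin R G A x := by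
  rw [h62_normLin_apply, h62_normLin_apply]
  exact Fintype.sum_equiv (Equiv.mulRight g) _ _ (fun g' => by simp [mul_smul])

omit [IsDomain R] [IsPrincipalIdealRing R] [Module.Free R A] [Module.Finite R A] in
lemma h62_smul_normLin (g : G) (x : A) : g • h62_normLin R G A x = h62_normLin R G A x := by
  rw [h62_normLin_apply, Finset.smul_sum]
  exact Fintype.sum_equiv (Equiv.mulLeft g) _ _ (fun g' => by simp [mul_smul])

omit [IsDomain R] [IsPrincipalIdealRing R] [Module.Free R A] [Module.Finite R A] in
lemma h62_normLin_of_inv {a : A} (ha : ∀ g : G, g • a = a) :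
    h62_normLin R G A a = (Fintype.card G : R) • a := by
  rw [h62_normLin_apply]
  simp [ha, Finset.sum_const, Finset.card_univ, Nat.cast_smul_eq_nsmul]

variable (R G A) in
/-- The invariants as an `R`-submodule. -/
def h62_invSub : Submodule R A where
  carrier := {a | ∀ g : G, g • a = a}
  zero_mem' := fun g => smul_zero g
  add_mem' := fun ha hb g => by rw [smul_add, ha g, hb g]
  smul_mem' := fun c a ha g => by rw [smul_comm, ha g]

omit [IsDomain R] [IsPrincipalIdealRing R] [Module.Free R A] [Module.Finite R A] [Fintype G] in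
lemma h62_mem_invSub {a : A} : a ∈ h62_invSub R G A ↔ ∀ g : G, g • a = a := Iff.rfl

omit [IsDomain R] [IsPrincipalIdealRing R] [Module.Free R A] [Module.Finite R A] in
/-- An invariant functional satisfies `φ (N y) = |G| * φ y`. -/
lemma h62_inv_fun_norm (φ : A →ₗ[R] R) (hφ : ∀ (g : G) (x : A), φ (g • x) = φ x) (y : A) :
    φ (h62_normLin R G A y) = (Fintype.card G : R) * φ y := by
  rw [h62_normLin_apply, map_sum]
  simp [hφ, Finset.sum_const, Finset.card_univ]

/-- LATTICE DUALITY (a): an invariant element which is not a norm is detected by an invariant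
functional modulo `|G|`. -/
theorem h62_latDual_elt (hG : (Fintype.card G : R) ≠ 0) (a : A) (ha : ∀ g : G, g • a = a)
    (hN : ∀ b : A, ∑ g : G, g • b ≠ a) :
    ∃ φ : A →ₗ[R] R, (∀ (g : G) (x : A), φ (g • x) = φ x) ∧ ¬ (Fintype.card G : R) ∣ φ a := by
  by_contra hcon
  push Not at hcon
  let L0 : Submodule R A := LinearMap.range (h62_normLin R G A)
  let b := Module.Free.chooseBasis R L0
  let Nr : A →ₗ[R] L0 := (h62_normLin R G A).rangeRestrict
  have hNr : ∀ x, (Nr x : A) = h62_normLin R G A x := fun x => rfl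
  have hdiv : ∀ i, (Fintype.card G : R) ∣ b.repr (Nr a) i := by
    intro i
    have h1 := hcon ((b.coord i) ∘ₗ Nr) (fun g x => by
      have : Nr (g • x) = Nr x := Subtype.ext (by rw [hNr, hNr, h62_normLin_smul])
      simp [this])
    simpa using h1
  choose d hd using hdiv
  have hNa : (Nr a : A) = (Fintype.card G : R) • a := by rw [hNr]; exact h62_normLin_of_inv ha
  have key : (Fintype.card G : R) • (∑ i, d i • (b i : A)) = (Fintype.card G : R) • a := by
    rw [← hNa]
    have h3 := congrArg (Subtype.val) (b.sum_repr (Nr a))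
    rw [← h3]
    simp only [Submodule.coe_sum, Submodule.coe_smul, Finset.smul_sum]
    refine Finset.sum_congr rfl (fun i _ => ?_)
    rw [hd i, mul_smul]
  have hinj : Function.Injective (fun x : A => (Fintype.card G : R) • x) :=
    smul_right_injective A hG
  have haeq : a = ∑ i, d i • (b i : A) := (hinj key).symm
  have haL : a ∈ L0 := by
    rw [haeq]
    exact Submodule.sum_mem _ (fun i _ => Submodule.smul_mem _ _ (b i).2)
  obtain ⟨b', hb'⟩ := haL
  exact hN b' (by rw [← h62_normLin_apply (R := R)]; exact hb')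

omit [Fintype G] in
/-- The invariants are a direct summand: there is an `R`-linear projection onto them. -/
lemma h62_exists_proj :
    ∃ π : A →ₗ[R] h62_invSub R G A, ∀ x : h62_invSub R G A, π (x : A) = x := by
  let Λ := h62_invSub R G A
  have htf : Module.IsTorsionFree R (A ⧸ Λ) := by
    refine Module.IsTorsionFree.of_smul_eq_zero (fun r m h => ?_)
    by_cases hr : r = 0
    · exact Or.inl hr
    right
    obtain ⟨x, rfl⟩ := Submodule.Quotient.mk_surjective Λ m
    rw [← Submodule.Quotient.mk_smul, Submodule.Quotient.mk_eq_zero] at h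
    rw [Submodule.Quotient.mk_eq_zero]
    intro g
    have h1 := h g
    rw [smul_comm] at h1
    exact smul_right_injective A hr h1
  have hfree : Module.Free R (A ⧸ Λ) := inferInstance
  obtain ⟨s, hs⟩ := Module.projective_lifting_property Λ.mkQ (LinearMap.id : (A ⧸ Λ) →ₗ[R] _)
    (Submodule.mkQ_surjective Λ)
  let f : A →ₗ[R] A := LinearMap.id - s ∘ₗ Λ.mkQ
  have hf : ∀ x : A, f x = x - s (Λ.mkQ x) := fun x => rfl
  have hmem : ∀ x : A, f x ∈ Λ := by
    intro x
    rw [← Submodule.Quotient.mk_eq_zero Λ, hf, Submodule.Quotient.mk_sub]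
    have := LinearMap.congr_fun hs (Λ.mkQ x)
    simp only [LinearMap.comp_apply, LinearMap.id_apply, Submodule.mkQ_apply] at this
    rw [Submodule.mkQ_apply, this, sub_self]
  refine ⟨f.codRestrict Λ hmem, fun x => ?_⟩
  apply Subtype.ext
  have hx : Λ.mkQ (x : A) = 0 := by
    rw [Submodule.mkQ_apply, Submodule.Quotient.mk_eq_zero]; exact x.2
  simp [hf, hx]

/-- LATTICE DUALITY (b): an invariant functional which is not a norm (`x ↦ ∑ g, ψ (g • x)`) is
detected by an invariant element modulo `|G|`. -/
theorem h62_latDual_fun (hG : (Fintype.card G : R) ≠ 0) (φ : A →ₗ[R] R)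
    (hφ : ∀ (g : G) (x : A), φ (g • x) = φ x)
    (hN : ∀ ψ : A →ₗ[R] R, ∃ x : A, ∑ g : G, ψ (g • x) ≠ φ x) :
    ∃ a : A, (∀ g : G, g • a = a) ∧ ¬ (Fintype.card G : R) ∣ φ a := by
  by_contra hcon
  push Not at hcon
  have h1 : ∀ x : h62_invSub R G A, ∃ t : R, φ (x : A) = (Fintype.card G : R) * t :=
    fun x => hcon x x.2
  choose t ht using h1
  let θ : h62_invSub R G A →ₗ[R] R :=
    { toFun := t
      map_add' := fun x y => by
        apply mul_left_cancel₀ hG
        rw [mul_add, ← ht, ← ht, ← ht]; simp
      map_smul' := fun c x => by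
        apply mul_left_cancel₀ hG
        rw [← ht, RingHom.id_apply, smul_eq_mul, mul_left_comm, ← ht]; simp }
  obtain ⟨π, hπ⟩ := h62_exists_proj (R := R) (G := G) (A := A)
  obtain ⟨x, hx⟩ := hN (θ ∘ₗ π)
  apply hx
  have hmem : h62_normLin R G A x ∈ h62_invSub R G A := fun g => h62_smul_normLin g x
  have h2 : ∑ g : G, (θ ∘ₗ π) (g • x) = t ⟨h62_normLin R G A x, hmem⟩ := by
    rw [← map_sum, ← h62_normLin_apply (R := R)]
    have := hπ ⟨h62_normLin R G A x, hmem⟩
    simp only [LinearMap.comp_apply]
    rw [this]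
    rfl
  rw [h2]
  apply mul_left_cancel₀ hG
  rw [← ht, h62_inv_fun_norm φ hφ]

variable (G A) in
/-- The invariants `A^G` as an additive subgroup. -/
def h62_invs : AddSubgroup A where
  carrier := {a | ∀ g : G, g • a = a}
  zero_mem' := fun g => smul_zero g
  add_mem' := fun ha hb g => by rw [smul_add, ha g, hb g]
  neg_mem' := fun ha g => by rw [smul_neg, ha g]

variable (G A) in
/-- The norms `N_G A` as an additive subgroup. -/
def h62_norms : AddSubgroup A :=
  AddMonoidHom.range
    ({ toFun := fun b => ∑ g : G, g • b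
       map_zero' := by simp
       map_add' := fun x y => by simp [smul_add, Finset.sum_add_distrib] } : A →+ A)

variable (R G A) in
/-- The invariant functionals. -/
def h62_invFun : AddSubgroup (A →ₗ[R] R) where
  carrier := {φ | ∀ (g : G) (x : A), φ (g • x) = φ x}
  zero_mem' := fun g x => by simp
  add_mem' := fun ha hb g x => by simp [ha g x, hb g x]
  neg_mem' := fun ha g x => by simp [ha g x]

variable (R G A) in
/-- The norm functionals `x ↦ ∑ g, ψ (g • x)`. -/
def h62_normFun : AddSubgroup (A →ₗ[R] R) :=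
  AddMonoidHom.range
    ({ toFun := fun ψ => ∑ g : G, ψ ∘ₗ (DistribSMul.toLinearMap R A g)
       map_zero' := by simp
       map_add' := fun x y => by simp [LinearMap.add_comp, Finset.sum_add_distrib] } :
      (A →ₗ[R] R) →+ (A →ₗ[R] R))

omit [IsDomain R] [IsPrincipalIdealRing R] [Module.Free R A] [Module.Finite R A] [Fintype G] in
lemma h62_mem_invs {a : A} : a ∈ h62_invs G A ↔ ∀ g : G, g • a = a := Iff.rfl

omit [IsDomain R] [IsPrincipalIdealRing R] [Module.Free R A] [Module.Finite R A] in
lemma h62_mem_norms {a : A} : a ∈ h62_norms G A ↔ ∃ b : A, ∑ g : G, g • b = a := Iff.rfl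

omit [IsDomain R] [IsPrincipalIdealRing R] [Module.Free R A] [Module.Finite R A] [Fintype G]
  [SMulCommClass G R A] in
lemma h62_mem_invFun {φ : A →ₗ[R] R} :
    φ ∈ h62_invFun R G A ↔ ∀ (g : G) (x : A), φ (g • x) = φ x := Iff.rfl

omit [IsDomain R] [IsPrincipalIdealRing R] [Module.Free R A] [Module.Finite R A] in
lemma h62_mem_normFun {φ : A →ₗ[R] R} :
    φ ∈ h62_normFun R G A ↔ ∃ ψ : A →ₗ[R] R, ∀ x : A, φ x = ψ (h62_normLin R G A x) := by
  constructor
  · rintro ⟨ψ, rfl⟩
    refine ⟨ψ, fun x => ?_⟩
    simp [h62_normLin_apply, LinearMap.sum_apply]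
  · rintro ⟨ψ, hψ⟩
    refine ⟨ψ, ?_⟩
    ext x
    simp [hψ, h62_normLin_apply, LinearMap.sum_apply]

/-- LATTICE DUALITY (c): `|Ĥ⁰(G, A)| = |Ĥ⁰(G, A^*)|` (as indices; both sides are `0` if
infinite). -/
theorem h62_latDual_card (hG : (Fintype.card G : R) ≠ 0) :
    (h62_norms G A).relIndex (h62_invs G A) =
      (h62_normFun R G A).relIndex (h62_invFun R G A) := by
  classical
  let Λ := h62_invSub R G A
  let Nr : A →ₗ[R] Λ := (h62_normLin R G A).codRestrict Λ (fun x g => h62_smul_normLin g x)
  have hNr : ∀ x, (Nr x : A) = h62_normLin R G A x := fun x => rfl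
  have hNr_smul : ∀ (g : G) (x : A), Nr (g • x) = Nr x := fun g x =>
    Subtype.ext (by rw [hNr, hNr, h62_normLin_smul])
  let L0 : Submodule R Λ := LinearMap.range Nr
  let b := Module.Free.chooseBasis R Λ
  have hrank : Module.finrank R L0 = Module.finrank R Λ := by
    apply le_antisymm (Submodule.finrank_le L0)
    let f : Λ →ₗ[R] L0 := Nr.rangeRestrict ∘ₗ Λ.subtype
    apply LinearMap.finrank_le_finrank_of_injective (f := f)
    intro x y hxy
    have h1 : (Nr (x : A) : A) = (Nr (y : A) : A) :=
      congrArg (fun z : L0 => ((z : Λ) : A)) hxy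
    rw [hNr, hNr, h62_normLin_of_inv x.2, h62_normLin_of_inv y.2] at h1
    exact Subtype.ext (smul_right_injective A hG h1)
  let b' := Submodule.smithNormalFormTopBasis b hrank
  let ab := Submodule.smithNormalFormBotBasis b hrank
  let a := Submodule.smithNormalFormCoeffs b hrank
  have hab : ∀ i, (ab i : Λ) = a i • b' i := Submodule.smithNormalFormBotBasis_def b hrank
  -- membership criterion for `L0`
  have mem_iff : ∀ x : Λ, x ∈ L0 ↔ ∀ i, a i ∣ b'.repr x i := by
    intro x
    rw [ab.mem_submodule_iff']
    have hrepr : ∀ (c : _ → R) (i), b'.repr (∑ j, c j • (ab j : Λ)) i = a i * c i := by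
      intro c i
      simp only [hab, ← mul_smul, b'.repr_sum_self, mul_comm]
    constructor
    · rintro ⟨c, rfl⟩ i
      exact ⟨c i, hrepr c i⟩
    · intro ha
      choose c hc using ha
      exact ⟨c, b'.ext_elem fun i => (hc i).trans (hrepr c i).symm⟩
  -- the common model
  let D : AddSubgroup (Module.Free.ChooseBasisIndex R Λ → R) :=
    { carrier := {c | ∀ i, a i ∣ c i}
      zero_mem' := fun i => dvd_zero _
      add_mem' := fun hx hy i => dvd_add (hx i) (hy i)
      neg_mem' := fun hx i => (dvd_neg).2 (hx i) }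
  have hL : (h62_norms G A).relIndex (h62_invs G A) = D.index := by
    let e0 : ↥(h62_invs G A) ≃+ Λ :=
      { toFun := fun x => ⟨x.1, x.2⟩
        invFun := fun y => ⟨y.1, y.2⟩
        left_inv := fun x => rfl
        right_inv := fun y => rfl
        map_add' := fun x y => rfl }
    let e1 : ↥(h62_invs G A) ≃+ (Module.Free.ChooseBasisIndex R Λ → R) :=
      e0.trans b'.equivFun.toAddEquiv
    have hmap : ((h62_norms G A).addSubgroupOf (h62_invs G A)).map (e1 : _ →+ _) = D := by
      ext c
      simp only [AddSubgroup.mem_map, AddSubgroup.mem_addSubgroupOf]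
      constructor
      · rintro ⟨x, hx, rfl⟩ i
        obtain ⟨y, hy⟩ := hx
        have hxL : e0 x ∈ L0 := ⟨y, Subtype.ext (by rw [hNr, h62_normLin_apply]; exact hy)⟩
        exact (mem_iff (e0 x)).1 hxL i
      · intro hc
        have hc' : ∀ i, a i ∣ c i := hc
        have hxL : b'.equivFun.symm c ∈ L0 := by
          rw [mem_iff]; intro i
          have : b'.repr (b'.equivFun.symm c) i = c i := by
            rw [← Module.Basis.equivFun_apply, LinearEquiv.apply_symm_apply]
          rw [this]; exact hc' i
        obtain ⟨y, hy⟩ := hxL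
        refine ⟨e0.symm (b'.equivFun.symm c), ⟨y, ?_⟩, ?_⟩
        · have := congrArg (Subtype.val) hy
          rw [hNr, h62_normLin_apply] at this
          exact this
        · show b'.equivFun (e0 (e0.symm (b'.equivFun.symm c))) = c
          rw [AddEquiv.apply_symm_apply, LinearEquiv.apply_symm_apply]
    rw [AddSubgroup.relIndex, ← hmap, AddSubgroup.index_map_equiv]
  have hR : (h62_normFun R G A).relIndex (h62_invFun R G A) = D.index := by
    -- preimages under the norm of the basis `ab`
    have hex : ∀ i, ∃ x : A, Nr x = (ab i : Λ) := fun i => (ab i).2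
    choose xs hxs using hex
    -- an invariant functional is determined by its values on `xs`
    have hdet : ∀ φ : A →ₗ[R] R, (∀ (g : G) (x : A), φ (g • x) = φ x) → ∀ x : A,
        φ x = ∑ i, ab.repr (Nr.rangeRestrict x) i * φ (xs i) := by
      intro φ hφ x
      set z : L0 := Nr.rangeRestrict x with hz
      have h2 : (∑ i, ab.repr z i • (ab i : Λ)) = Nr x := by
        have h := congrArg (Subtype.val) (ab.sum_repr z)
        rw [Submodule.coe_sum] at h
        exact h
      have h1 : Nr (∑ i, ab.repr z i • xs i) = Nr x := by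
        rw [map_sum, ← h2]
        exact Finset.sum_congr rfl (fun i _ => by rw [map_smul, hxs])
      have h3 : h62_normLin R G A (x - ∑ i, ab.repr z i • xs i) = 0 := by
        have := congrArg (Subtype.val) h1
        rw [hNr, hNr] at this
        rw [map_sub, this, sub_self]
      have h4 := h62_inv_fun_norm φ hφ (x - ∑ i, ab.repr z i • xs i)
      rw [h3, map_zero] at h4
      have h5 := (mul_eq_zero.1 h4.symm).resolve_left hG
      rw [map_sub, sub_eq_zero] at h5
      rw [h5, map_sum]
      refine Finset.sum_congr rfl (fun i _ => ?_)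
      rw [map_smul, smul_eq_mul]
    let e2hom : ↥(h62_invFun R G A) →+ (Module.Free.ChooseBasisIndex R Λ → R) :=
      { toFun := fun φ i => (φ : A →ₗ[R] R) (xs i)
        map_zero' := by ext i; simp
        map_add' := fun φ ψ => by ext i; simp }
    have hinj : Function.Injective e2hom := by
      rw [injective_iff_map_eq_zero]
      intro φ hφ0
      apply Subtype.ext
      ext x
      rw [hdet φ.1 φ.2 x]
      have : ∀ i, (φ : A →ₗ[R] R) (xs i) = 0 := fun i => congrFun hφ0 i
      simp [this]
    have hsurj : Function.Surjective e2hom := by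
      intro c
      let φ : A →ₗ[R] R := (ab.constr R c) ∘ₗ Nr.rangeRestrict
      have hφ : φ ∈ h62_invFun R G A := by
        intro g x
        show (ab.constr R c) (Nr.rangeRestrict (g • x)) = (ab.constr R c) (Nr.rangeRestrict x)
        congr 1
        exact Subtype.ext (hNr_smul g x)
      refine ⟨⟨φ, hφ⟩, ?_⟩
      ext i
      show (ab.constr R c) (Nr.rangeRestrict (xs i)) = c i
      have : Nr.rangeRestrict (xs i) = ab i := Subtype.ext (hxs i)
      rw [this, Module.Basis.constr_basis]
    let e2 : ↥(h62_invFun R G A) ≃+ (Module.Free.ChooseBasisIndex R Λ → R) :=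
      AddEquiv.ofBijective e2hom ⟨hinj, hsurj⟩
    have he2 : ∀ φ, e2 φ = e2hom φ := fun φ => rfl
    obtain ⟨π, hπ⟩ := h62_exists_proj (R := R) (G := G) (A := A)
    have hmap : ((h62_normFun R G A).addSubgroupOf (h62_invFun R G A)).map (e2 : _ →+ _) = D := by
      ext c
      simp only [AddSubgroup.mem_map, AddSubgroup.mem_addSubgroupOf]
      constructor
      · rintro ⟨φ, hφ, rfl⟩ i
        obtain ⟨ψ, hψ⟩ := h62_mem_normFun.1 hφ
        show a i ∣ (φ : A →ₗ[R] R) (xs i)
        rw [hψ, ← hNr, hxs, hab]
        refine ⟨ψ ((b' i : Λ) : A), ?_⟩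
        rw [Submodule.coe_smul, map_smul, smul_eq_mul]
      · intro hc
        have hc' : ∀ i, a i ∣ c i := hc
        choose t ht using hc'
        let θ : Λ →ₗ[R] R := b'.constr R t
        let ψ : A →ₗ[R] R := θ ∘ₗ π
        let φ' : A →ₗ[R] R := ψ ∘ₗ h62_normLin R G A
        have hφ'n : φ' ∈ h62_normFun R G A := h62_mem_normFun.2 ⟨ψ, fun x => rfl⟩
        have hφ'i : φ' ∈ h62_invFun R G A := by
          intro g x
          show ψ (h62_normLin R G A (g • x)) = ψ (h62_normLin R G A x)
          rw [h62_normLin_smul]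
        refine ⟨⟨φ', hφ'i⟩, hφ'n, ?_⟩
        ext i
        show ψ (h62_normLin R G A (xs i)) = c i
        rw [← hNr, hxs, hab]
        show θ (π ((a i • b' i : Λ) : A)) = c i
        rw [hπ, map_smul, smul_eq_mul, Module.Basis.constr_basis, ht]
    rw [AddSubgroup.relIndex, ← hmap, AddSubgroup.index_map_equiv]
  rw [hL, hR]

end

section finsum
variable {R : Type*} [CommRing R] [IsDomain R] [IsPrincipalIdealRing R]
variable {G : Type*} [Group G] [Finite G]
variable {A : Type*} [AddCommGroup A] [Module R A] [Module.Free R A] [Module.Finite R A]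
variable [DistribMulAction G A] [SMulCommClass G R A]

/-- `h62_latDual_elt` for `[Finite G]`, with `finsum` and `Nat.card`. -/
theorem h62_latDual_elt' (hG : (Nat.card G : R) ≠ 0) (a : A) (ha : ∀ g : G, g • a = a)
    (hN : ∀ b : A, ∑ᶠ g : G, g • b ≠ a) :
    ∃ φ : A →ₗ[R] R, (∀ (g : G) (x : A), φ (g • x) = φ x) ∧ ¬ (Nat.card G : R) ∣ φ a := by
  have := Fintype.ofFinite G
  rw [Nat.card_eq_fintype_card] at hG ⊢
  exact h62_latDual_elt hG a ha (fun b => by rw [← finsum_eq_sum_of_fintype]; exact hN b)

/-- `h62_latDual_fun` for `[Finite G]`, with `finsum` and `Nat.card`. -/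
theorem h62_latDual_fun' (hG : (Nat.card G : R) ≠ 0) (φ : A →ₗ[R] R)
    (hφ : ∀ (g : G) (x : A), φ (g • x) = φ x)
    (hN : ∀ ψ : A →ₗ[R] R, ∃ x : A, ∑ᶠ g : G, ψ (g • x) ≠ φ x) :
    ∃ a : A, (∀ g : G, g • a = a) ∧ ¬ (Nat.card G : R) ∣ φ a := by
  have := Fintype.ofFinite G
  rw [Nat.card_eq_fintype_card] at hG ⊢
  exact h62_latDual_fun hG φ hφ (fun ψ => by
    obtain ⟨x, hx⟩ := hN ψ
    exact ⟨x, by rw [← finsum_eq_sum_of_fintype]; exact hx⟩)

end finsum

end Fermat.Agent.S55
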