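import Mathlib
import Fermat.Agent.S55.h40_HDefs
import Fermat.Agent.S55.h62_LatDual

/-!
# S55, layer H: lattice `Ĥ⁰`-duality, the two shapes consumed by Tate–Nakayama

`A` a `ℤ`-lattice (free of finite rank) with an action of the finite group `G`, functionals are
additive maps `A →+ Z_(p)`:

* `h62_latDual_Z`  : an invariant element `a` such that `|G| ∣ φ a` in `Z_(p)` for every invariant
  functional `φ` has a multiple `m • a`, `m` prime to `p`, which is a norm;
* `h62_latDual_Lam` : an invariant functional `ψ` with `|G| ∣ ψ a` for every invariant element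
  `a` is a norm functional `x ↦ Σ_g ψ₀ (g⁻¹ • x)`.
-/

set_option autoImplicit false

namespace Fermat.Agent.S55

open Module

section

variable {p : ℕ} [Fact p.Prime]

/-- The canonical map `ℤ → Z_(p)` is injective. -/
lemma h62_lam_intCast_injective : Function.Injective (fun z : ℤ => (z : h40_Lam p)) := by
  have h := IsLocalization.injective (h40_Lam p)
    (Ideal.primeCompl_le_nonZeroDivisors (Ideal.span {(p : ℤ)}))
  intro a b hab
  apply h
  simpa using hab

/-- `Z_(p)` has characteristic zero: a nonzero natural number is nonzero in `Z_(p)`. -/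
lemma h62_lam_natCast_ne_zero {n : ℕ} (hn : n ≠ 0) : ((n : ℕ) : h40_Lam p) ≠ 0 := by
  intro h
  have h2 : ((n : ℤ) : h40_Lam p) = ((0 : ℤ) : h40_Lam p) := by simpa using h
  have := h62_lam_intCast_injective (p := p) h2
  exact hn (by exact_mod_cast this)

/-- If `n ∣ z` in `Z_(p)` (for an integer `z`), then the `p`-part of `n` divides `z` in `ℤ`. -/
lemma h62_lam_dvd_intCast {n : ℕ} {z : ℤ} (h : ((n : ℕ) : h40_Lam p) ∣ (z : h40_Lam p)) :
    ((p ^ n.factorization p : ℕ) : ℤ) ∣ z := by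
  obtain ⟨l, hl⟩ := h
  obtain ⟨c, s, rfl⟩ := IsLocalization.exists_mk'_eq (Ideal.span {(p : ℤ)}).primeCompl l
  have h1 : ((z * (s : ℤ) : ℤ) : h40_Lam p) = (((n : ℤ) * c : ℤ) : h40_Lam p) := by
    have h2 := IsLocalization.mk'_spec (h40_Lam p) c s
    push_cast
    rw [hl, mul_assoc]
    have h3 : algebraMap ℤ (h40_Lam p) (s : ℤ) = (((s : ℤ) : ℤ) : h40_Lam p) := by simp
    have h4 : algebraMap ℤ (h40_Lam p) c = ((c : ℤ) : h40_Lam p) := by simp
    rw [h3, h4] at h2
    rw [h2]
  have h5 : z * (s : ℤ) = (n : ℤ) * c := h62_lam_intCast_injective (p := p) h1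
  have hs : ¬ (p : ℤ) ∣ (s : ℤ) := by
    have := s.2
    rw [Ideal.mem_primeCompl_iff, Ideal.mem_span_singleton] at this
    exact this
  have hp : Prime (p : ℤ) := Nat.prime_iff_prime_int.mp Fact.out
  have h6 : (p : ℤ) ^ n.factorization p ∣ z * (s : ℤ) := by
    rw [h5]
    have : ((p ^ n.factorization p : ℕ) : ℤ) ∣ (n : ℤ) := by
      exact_mod_cast Nat.ordProj_dvd n p
    rw [Nat.cast_pow] at this
    exact Dvd.dvd.mul_right this c
  rw [Nat.cast_pow]
  exact hp.pow_dvd_of_dvd_mul_right _ hs h6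

variable {G : Type*} [Group G] [Finite G]
  {A : Type*} [AddCommGroup A] [DistribMulAction G A] [Module.Free ℤ A] [Module.Finite ℤ A]

/-- LATTICE DUALITY, shape [Z]: an invariant element of a `ℤ`-lattice which is divisible by `|G|`
under every invariant `Z_(p)`-valued functional has a prime-to-`p` multiple which is a norm. -/
theorem h62_latDual_Z (a : A) (ha : ∀ g : G, g • a = a)
    (h : ∀ φ : A →+ h40_Lam p, (∀ (g : G) (x : A), φ (g • x) = φ x) →
      ((Nat.card G : ℕ) : h40_Lam p) ∣ φ a) :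
    ∃ m : ℕ, m.Coprime p ∧ ∃ b : A, m • a = ∑ᶠ g : G, g • b := by
  classical
  have := Fintype.ofFinite G
  have hp : p.Prime := Fact.out
  set n := Nat.card G with hn
  have hn0 : n ≠ 0 := Nat.card_pos.ne'
  set m := n / p ^ n.factorization p with hm
  have hmcop : m.Coprime p := (Nat.coprime_ordCompl hp hn0).symm
  have hnm : p ^ n.factorization p * m = n := Nat.ordProj_mul_ordCompl_eq_self n p
  refine ⟨m, hmcop, ?_⟩
  by_contra hcon
  push Not at hcon
  have hG : ((Fintype.card G : ℕ) : ℤ) ≠ 0 := by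
    rw [← Nat.card_eq_fintype_card]; exact_mod_cast hn0
  obtain ⟨φ, hφ, hndvd⟩ := h62_latDual_elt (R := ℤ) hG (m • a)
    (fun g => by rw [smul_comm, ha])
    (fun b hb => hcon b (by rw [finsum_eq_sum_of_fintype]; exact hb.symm))
  apply hndvd
  have h1 := h ((Int.castAddHom (h40_Lam p)).comp φ.toAddMonoidHom) (fun g x => by simp [hφ])
  have h2 : ((p ^ n.factorization p : ℕ) : ℤ) ∣ φ a := h62_lam_dvd_intCast (by simpa using h1)
  rw [map_nsmul, ← Nat.card_eq_fintype_card, ← hn, ← hnm]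
  push_cast
  rw [nsmul_eq_mul, mul_comm]
  exact mul_dvd_mul_left _ (by simpa using h2)

/-- LATTICE DUALITY, shape [Lam]: an invariant `Z_(p)`-valued functional on a `ℤ`-lattice whose
values on invariant elements are divisible by `|G|` is a norm functional. -/
theorem h62_latDual_Lam (ψ : A →+ h40_Lam p) (hψ : ∀ (g : G) (x : A), ψ (g • x) = ψ x)
    (h : ∀ a : A, (∀ g : G, g • a = a) → ((Nat.card G : ℕ) : h40_Lam p) ∣ ψ a) :
    ∃ ψ₀ : A →+ h40_Lam p, ∀ x : A, ψ x = ∑ᶠ g : G, ψ₀ (g⁻¹ • x) := by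
  classical
  have := Fintype.ofFinite G
  have hn0 : ((Nat.card G : ℕ) : h40_Lam p) ≠ 0 := h62_lam_natCast_ne_zero Nat.card_pos.ne'
  have h1 : ∀ x : h62_invSub ℤ G A, ∃ t : h40_Lam p,
      ψ (x : A) = ((Nat.card G : ℕ) : h40_Lam p) * t := fun x => h x x.2
  choose t ht using h1
  let θ : h62_invSub ℤ G A →+ h40_Lam p :=
    { toFun := t
      map_zero' := by
        apply mul_left_cancel₀ hn0
        rw [← ht]; simp
      map_add' := fun x y => by
        apply mul_left_cancel₀ hn0
        rw [mul_add, ← ht, ← ht, ← ht]; simp }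
  obtain ⟨π, hπ⟩ := h62_exists_proj (R := ℤ) (G := G) (A := A)
  refine ⟨θ.comp π.toAddMonoidHom, fun x => ?_⟩
  rw [finsum_eq_sum_of_fintype]
  have hmem : h62_normLin ℤ G A x ∈ h62_invSub ℤ G A := fun g => h62_smul_normLin g x
  have h2 : ∑ g : G, (θ.comp π.toAddMonoidHom) (g⁻¹ • x) = t ⟨h62_normLin ℤ G A x, hmem⟩ := by
    rw [← map_sum]
    have h3 : ∑ g : G, g⁻¹ • x = h62_normLin ℤ G A x := by
      rw [h62_normLin_apply]
      exact Fintype.sum_equiv (Equiv.inv G) _ _ (fun g => rfl)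
    rw [h3]
    have := hπ ⟨h62_normLin ℤ G A x, hmem⟩
    simp only [AddMonoidHom.comp_apply, LinearMap.toAddMonoidHom_coe]
    rw [this]
    rfl
  rw [h2]
  apply mul_left_cancel₀ hn0
  rw [← ht]
  show ((Nat.card G : ℕ) : h40_Lam p) * ψ x = ψ (h62_normLin ℤ G A x)
  rw [h62_normLin_apply, map_sum]
  simp [hψ, Finset.sum_const, Finset.card_univ, Nat.card_eq_fintype_card]

end

end Fermat.Agent.S55
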