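import Fermat.Agent.S55.h98_FreeFp

/-!
# S55, layer H, row FREENESS (helper98): main theorems

* `h98_hom_lattice_acyclic`: `G` a finite `p`-group, `X` a `G`-module with
  `H¹(G, X) = H²(G, X) = 0`, `W` a `ℤ`-free `G`-module.  Then `H¹(H, Hom(W, X)) = 0` and
  `H²(H, Hom(W, X)) = 0` for every subgroup `H` of `G`.
* `h98_acyclic_of_H1_H2`: the case `W = ℤ`.
-/

set_option autoImplicit false

namespace Fermat.Agent.S55

open groupCohomology

section generalities

variable {Γ Y Z : Type*} [Group Γ] [AddCommGroup Y] [DistribMulAction Γ Y]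
  [AddCommGroup Z] [DistribMulAction Γ Z]

theorem h98_Van₁.of_equiv (u : Y ≃+ Z) (hu : ∀ (g : Γ) (y : Y), u (g • y) = g • u y)
    (h : h98_Van₁ Γ Z) : h98_Van₁ Γ Y := by
  intro f hf
  have hc : IsCocycle₁ (fun g => u (f g)) := fun g h => by
    show u (f (g * h)) = g • u (f h) + u (f g)
    rw [hf g h, map_add, hu]
  obtain ⟨z, hz⟩ := h _ hc
  refine ⟨u.symm z, fun g => u.injective ?_⟩
  rw [map_sub, hu, AddEquiv.apply_symm_apply, hz]

theorem h98_Van₂.of_equiv (u : Y ≃+ Z) (hu : ∀ (g : Γ) (y : Y), u (g • y) = g • u y)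
    (h : h98_Van₂ Γ Z) : h98_Van₂ Γ Y := by
  intro f hf
  have hc : IsCocycle₂ (fun gh => u (f gh)) := fun g h k => by
    have := congrArg u (hf g h k)
    simpa only [map_add, hu] using this
  obtain ⟨z, hz⟩ := h _ hc
  refine ⟨fun g => u.symm (z g), fun g h => u.injective ?_⟩
  simp only [map_sub, map_add, hu, AddEquiv.apply_symm_apply]
  exact hz g h

/-- `H¹(Y/p) = 0` from `H¹(Y) = H²(Y) = 0` for `p`-torsion-free `Y`. -/
theorem h98_van₁_mod_p (p : ℕ) (htf : ∀ y : Y, p • y = 0 → y = 0) (π : Y →+ Z)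
    (hπs : Function.Surjective π) (hπe : ∀ (g : Γ) (y : Y), π (g • y) = g • π y)
    (hπk : ∀ y, π y = 0 → ∃ y', y = p • y') (hπ0 : ∀ y, π (p • y) = 0)
    (h1 : h98_Van₁ Γ Y) (h2 : h98_Van₂ Γ Y) : h98_Van₁ Γ Z := by
  intro fbar hfbar
  choose f hf using fun g => hπs (fbar g)
  have hz : ∀ g h, π (g • f h - f (g * h) + f g) = 0 := by
    intro g h
    simp only [map_add, map_sub, hπe, hf]
    linear_combination (norm := abel) -hfbar g h
  choose z hz' using fun g h => hπk _ (hz g h)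
  have hzc : IsCocycle₂ (fun gh : Γ × Γ => z gh.1 gh.2) := by
    intro g h k
    rw [← sub_eq_zero]
    apply htf
    simp only [smul_sub, smul_add, smul_comm p g, ← hz', mul_smul, mul_assoc]
    abel
  obtain ⟨c, hc⟩ := h2 _ hzc
  have hf' : IsCocycle₁ (fun g => f g - p • c g) := by
    intro g h
    have e1 := hz' g h
    have e2 := congrArg (fun y => p • y) (hc g h)
    simp only [smul_sub, smul_add] at e2
    simp only [smul_sub, smul_comm g p]
    linear_combination (norm := abel) -e1 + e2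
  obtain ⟨y, hy⟩ := h1 _ hf'
  refine ⟨π y, fun g => ?_⟩
  have := congrArg π (hy g)
  simpa only [map_sub, hπe, hπ0, hf, sub_zero] using this

end generalities

section construct

variable (G : Type*) [Group G] [Finite G] (X : Type*) [AddCommGroup X] [DistribMulAction G X]

/-- the canonical map from the free abelian group on `X` -/
noncomputable def h98_eps : (X →₀ ℤ) →+ X :=
  Finsupp.liftAddHom (fun x : X => zmultiplesHom X x)

lemma h98_eps_single (x : X) : h98_eps X (Finsupp.single x 1) = x := by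
  simp [h98_eps]

/-- the canonical equivariant surjection from a coinduced torsion-free module onto `X` -/
noncomputable def h98_piP : h98_Co G (X →₀ ℤ) →+ X where
  toFun φ := ∑ᶠ g : G, g⁻¹ • h98_eps X (φ g)
  map_zero' := by simp
  map_add' φ ψ := by
    simp only [h98_Co.add_apply, map_add, smul_add]
    exact finsum_add_distrib (Set.toFinite _) (Set.toFinite _)

lemma h98_piP_apply (φ : h98_Co G (X →₀ ℤ)) :
    h98_piP G X φ = ∑ᶠ g : G, g⁻¹ • h98_eps X (φ g) := rfl

lemma h98_piP_smul (h : G) (φ : h98_Co G (X →₀ ℤ)) :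
    h98_piP G X (h • φ) = h • h98_piP G X φ := by
  rw [h98_piP_apply, h98_piP_apply]
  have h1 : h • ∑ᶠ g : G, g⁻¹ • h98_eps X (φ g) = ∑ᶠ g : G, h • g⁻¹ • h98_eps X (φ g) :=
    (DistribSMul.toAddMonoidHom X h).map_finsum (Set.toFinite _)
  have h2 := finsum_comp_equiv (Equiv.mulRight h) (f := fun g : G => h • g⁻¹ • h98_eps X (φ g))
  rw [h1, ← h2]
  refine finsum_congr fun g => ?_
  simp only [h98_Co.smul_apply, Equiv.coe_mulRight, mul_inv_rev, mul_smul, smul_inv_smul]

lemma h98_piP_surjective : Function.Surjective (h98_piP G X) := by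
  classical
  intro x
  refine ⟨h98_Co.mk (Pi.single 1 (Finsupp.single x 1)), ?_⟩
  rw [h98_piP_apply, finsum_eq_single _ (1 : G)]
  · simp [h98_eps_single]
  · intro g hg
    simp [Pi.single_eq_of_ne hg]

lemma h98_piP_ker_stable : ∀ (g : G), ∀ b ∈ (h98_piP G X).ker, g • b ∈ (h98_piP G X).ker := by
  intro g b hb
  rw [AddMonoidHom.mem_ker] at hb ⊢
  rw [h98_piP_smul, hb, smul_zero]

/-- the kernel of `h98_piP` -/
abbrev h98_R : Type _ := h98_Sub (h98_piP G X).ker (h98_piP_ker_stable G X)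

/-- `0 → R → P → X → 0` -/
noncomputable def h98_ses₁ : h98_SES G (h98_R G X) (h98_Co G (X →₀ ℤ)) X where
  i := h98_Sub.valHom
  π := h98_piP G X
  inj := h98_Sub.valHom_injective
  surj := h98_piP_surjective G X
  zero := fun r => r.mem
  exact := fun x hx => ⟨⟨x, hx⟩, rfl⟩
  ei := fun _ _ => rfl
  eπ := h98_piP_smul G X

lemma h98_R_torsionFree (n : ℕ) (hn : n ≠ 0) (r : h98_R G X) (h : n • r = 0) : r = 0 := by
  apply h98_Sub.ext
  have h' : n • r.val = 0 := by
    have := congrArg h98_Sub.val h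
    simpa using this
  ext x a
  have := congrArg (fun φ : h98_Co G (X →₀ ℤ) => φ x a) h'
  simp only [h98_Co.nsmul_apply, Finsupp.smul_apply, h98_Co.zero_apply, Finsupp.zero_apply,
    nsmul_eq_mul] at this
  rcases mul_eq_zero.mp this with h0 | h0
  · exact absurd (by exact_mod_cast h0) hn
  · simpa using h0

/-- the coinduced embedding of `R` -/
noncomputable def h98_j : h98_R G X →+ h98_Co G (h98_R G X) where
  toFun r := h98_Co.mk fun x => x • r
  map_zero' := by ext x; simp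
  map_add' r s := by ext x; simp

lemma h98_j_apply (r : h98_R G X) (x : G) : h98_j G X r x = x • r := rfl

lemma h98_j_smul (g : G) (r : h98_R G X) : h98_j G X (g • r) = g • h98_j G X r := by
  ext x : 1
  rw [h98_Co.smul_apply, h98_j_apply, h98_j_apply, mul_smul]

lemma h98_j_injective : Function.Injective (h98_j G X) := fun r s h => by
  have := congrArg (fun φ : h98_Co G (h98_R G X) => φ 1) h
  simpa [h98_j_apply] using this

lemma h98_j_range_stable :
    ∀ (g : G), ∀ b ∈ (h98_j G X).range, g • b ∈ (h98_j G X).range := by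
  rintro g _ ⟨r, rfl⟩
  exact ⟨g • r, h98_j_smul G X g r⟩

/-- the shifted module `Y₀ = Map(G, R) / R` -/
abbrev h98_Y0 : Type _ := h98_Quot (h98_j G X).range (h98_j_range_stable G X)

/-- `0 → R → Map(G, R) → Y₀ → 0` -/
noncomputable def h98_ses₂ : h98_SES G (h98_R G X) (h98_Co G (h98_R G X)) (h98_Y0 G X) where
  i := h98_j G X
  π := h98_Quot.mkHom
  inj := h98_j_injective G X
  surj := h98_Quot.mkHom_surjective
  zero := fun r => (h98_Quot.mkHom_eq_zero_iff _).mpr ⟨r, rfl⟩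
  exact := fun x hx => (h98_Quot.mkHom_eq_zero_iff _).mp hx
  ei := h98_j_smul G X
  eπ := fun _ _ => rfl

lemma h98_Y0_torsionFree (n : ℕ) (hn : n ≠ 0) (y : h98_Y0 G X) (h : n • y = 0) : y = 0 := by
  obtain ⟨φ, rfl⟩ := h98_Quot.mkHom_surjective y
  rw [← map_nsmul, h98_Quot.mkHom_eq_zero_iff] at h
  obtain ⟨r, hr⟩ := h
  rw [h98_Quot.mkHom_eq_zero_iff]
  refine ⟨φ 1, ?_⟩
  ext x : 1
  have h1 : n • φ 1 = r := by
    have := congrArg (fun ψ : h98_Co G (h98_R G X) => ψ 1) hr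
    simp only [h98_j_apply, one_smul, h98_Co.nsmul_apply] at this
    exact this.symm
  have hx : n • φ x = x • r := by
    have := congrArg (fun ψ : h98_Co G (h98_R G X) => ψ x) hr
    simp only [h98_j_apply, h98_Co.nsmul_apply] at this
    exact this.symm
  rw [h98_j_apply]
  have : n • (x • φ 1 - φ x) = 0 := by
    rw [smul_sub, smul_comm n x, h1, hx, sub_self]
  exact sub_eq_zero.mp (h98_R_torsionFree G X n hn _ this)

lemma h98_pY0_stable (p : ℕ) : ∀ (g : G),
    ∀ b ∈ (nsmulAddMonoidHom p : h98_Y0 G X →+ h98_Y0 G X).range,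
      g • b ∈ (nsmulAddMonoidHom p : h98_Y0 G X →+ h98_Y0 G X).range := by
  rintro g _ ⟨y, rfl⟩
  exact ⟨g • y, by simp [smul_comm p g]⟩

/-- `Y₀ / p Y₀` -/
abbrev h98_Ybar (p : ℕ) : Type _ :=
  h98_Quot (nsmulAddMonoidHom p : h98_Y0 G X →+ h98_Y0 G X).range (h98_pY0_stable G X p)

/-- the projection `Y₀ → Y₀ / p` -/
noncomputable def h98_red (p : ℕ) : h98_Y0 G X →+ h98_Ybar G X p := h98_Quot.mkHom

lemma h98_red_surjective (p : ℕ) : Function.Surjective (h98_red G X p) :=
  h98_Quot.mkHom_surjective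

lemma h98_red_smul (p : ℕ) (g : G) (y : h98_Y0 G X) :
    h98_red G X p (g • y) = g • h98_red G X p y := rfl

lemma h98_red_eq_zero (p : ℕ) (y : h98_Y0 G X) (h : h98_red G X p y = 0) : ∃ y', y = p • y' := by
  obtain ⟨y', hy'⟩ := (h98_Quot.mkHom_eq_zero_iff y).mp h
  exact ⟨y', hy'.symm⟩

lemma h98_red_nsmul (p : ℕ) (y : h98_Y0 G X) : h98_red G X p (p • y) = 0 :=
  (h98_Quot.mkHom_eq_zero_iff _).mpr ⟨y, rfl⟩

lemma h98_Ybar_killed (p : ℕ) (a : h98_Ybar G X p) : p • a = 0 := by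
  obtain ⟨y, rfl⟩ := h98_red_surjective G X p a
  rw [← map_nsmul]
  exact h98_red_nsmul G X p y

end construct

section main

variable (p : ℕ) [Fact p.Prime] {G : Type*} [Group G] [Finite G]
  {X : Type*} [AddCommGroup X] [DistribMulAction G X]

/-- the shifted torsion-free module `Y₀` has vanishing `H¹`, `H²` -/
lemma h98_Y0_van (hX1 : h98_Van₁ G X) (hX2 : h98_Van₂ G X) :
    h98_Van₁ G (h98_Y0 G X) ∧ h98_Van₂ G (h98_Y0 G X) :=
  ⟨h98_zigzag₁ (h98_ses₁ G X) (h98_ses₂ G X) hX1 (h98_CoindStr.refl G _).van₂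
      (h98_CoindStr.refl G _).van₁,
   h98_zigzag₂ (h98_ses₁ G X) (h98_ses₂ G X) hX2 (h98_CoindStr.refl G _).van₃
      (h98_CoindStr.refl G _).van₂⟩

/-- `Y₀ / p` is coinduced -/
lemma h98_Ybar_coind (hG : IsPGroup p G) (hX1 : h98_Van₁ G X) (hX2 : h98_Van₂ G X) :
    Nonempty (h98_CoindStr G (h98_Ybar G X p) (h98_fixed G (h98_Ybar G X p))) := by
  have hp : p ≠ 0 := (Fact.out : p.Prime).ne_zero
  obtain ⟨h1, h2⟩ := h98_Y0_van hX1 hX2
  have hbar : h98_Van₁ G (h98_Ybar G X p) :=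
    h98_van₁_mod_p p (h98_Y0_torsionFree G X p hp) (h98_red G X p) (h98_red_surjective G X p)
      (h98_red_smul G X p) (h98_red_eq_zero G X p) (h98_red_nsmul G X p) h1 h2
  exact h98_coind_of_van₁ p hG (h98_Ybar_killed G X p) hbar

/-- main theorem, internal form -/
theorem h98_hom_van (hG : IsPGroup p G) (hX1 : h98_Van₁ G X) (hX2 : h98_Van₂ G X)
    (W : Type*) [AddCommGroup W] [DistribMulAction G W] [Module.Free ℤ W] (H : Subgroup G) :
    h98_Van₁ H (h98_Hom W X) ∧ h98_Van₂ H (h98_Hom W X) := by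
  have hp : p ≠ 0 := (Fact.out : p.Prime).ne_zero
  obtain ⟨cY⟩ := h98_Ybar_coind p hG hX1 hX2
  let cHW := (cY.res H).hom W
  obtain ⟨k, hk⟩ := (hG.to_subgroup H).exists_card_eq
  let πW : h98_Hom W (h98_Y0 G X) →+ h98_Hom W (h98_Ybar G X p) := h98_Hom.post (h98_red G X p)
  have htf : ∀ φ : h98_Hom W (h98_Y0 G X), p • φ = 0 → φ = 0 := by
    intro φ h
    refine h98_Hom.ext fun w => ?_
    have := congrArg (fun ψ : h98_Hom W (h98_Y0 G X) => ψ w) h
    exact h98_Y0_torsionFree G X p hp _ (by simpa using this)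
  have hπs : Function.Surjective πW := h98_Hom.post_surjective _ (h98_red_surjective G X p)
  have hπe : ∀ (g : H) (φ : h98_Hom W (h98_Y0 G X)), πW (g • φ) = g • πW φ := by
    intro g φ
    ext w
    rfl
  have hinjp : Function.Injective (nsmulAddMonoidHom p : h98_Y0 G X →+ h98_Y0 G X) := by
    intro a b hab
    have : p • (a - b) = 0 := by
      rw [smul_sub]; exact sub_eq_zero.mpr hab
    exact sub_eq_zero.mp (h98_Y0_torsionFree G X p hp _ this)
  have hπk : ∀ φ : h98_Hom W (h98_Y0 G X), πW φ = 0 → ∃ φ', φ = p • φ' := by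
    intro φ h
    obtain ⟨φ', hφ'⟩ := h98_Hom.exists_post_eq
      (nsmulAddMonoidHom p : h98_Y0 G X →+ h98_Y0 G X) hinjp φ (fun w => by
        have hw : h98_red G X p (φ w) = 0 := congrArg (fun ψ : h98_Hom W (h98_Ybar G X p) => ψ w) h
        obtain ⟨y', hy'⟩ := h98_red_eq_zero G X p (φ w) hw
        exact ⟨y', hy'.symm⟩)
    refine ⟨φ', ?_⟩
    rw [← hφ']
    ext w
    rfl
  have hY1 : h98_Van₁ H (h98_Hom W (h98_Y0 G X)) :=
    h98_van₁_of_mod_p p k hk htf πW hπs hπe hπk cHW.van₁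
  have hY2 : h98_Van₂ H (h98_Hom W (h98_Y0 G X)) :=
    h98_van₂_of_mod_p p k hk htf πW hπs hπe hπk cHW.van₂
  let s := ((h98_ses₂ G X).res H).hom W
  let t := ((h98_ses₁ G X).res H).hom W
  let cQ := ((h98_CoindStr.refl G (h98_R G X)).res H).hom W
  let cP := ((h98_CoindStr.refl G (X →₀ ℤ)).res H).hom W
  exact ⟨h98_zigzag₁ s t hY1 cQ.van₂ cP.van₁, h98_zigzag₂ s t hY2 cQ.van₃ cP.van₂⟩

end main

section exports

/-- `h98_Hom W A ≃+ (W →+ A)` -/
def h98_Hom.addEquivHom {W A : Type*} [AddCommGroup W] [AddCommGroup A] :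
    h98_Hom W A ≃+ (W →+ A) :=
  { h98_Hom.equivHom with map_add' := fun _ _ => rfl }

variable (p : ℕ) [Fact p.Prime] {G : Type*} [Group G] [Finite G]

/-- **FREENESS (CT core for `p`-groups).**  `G` a finite `p`-group, `X` any `G`-module with
`H¹(G, X) = H²(G, X) = 0`, `W` a `ℤ`-free `G`-module, `Y ≅ Hom(W, X)` with the conjugation action
(given abstractly by `e`, `he`).  Then `H¹(H, Y) = H²(H, Y) = 0` for every subgroup `H`. -/
theorem h98_hom_lattice_acyclic (hG : IsPGroup p G)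
    {X : Type*} [AddCommGroup X] [DistribMulAction G X]
    (hX1 : ∀ f : G → X, IsCocycle₁ f → IsCoboundary₁ f)
    (hX2 : ∀ f : G × G → X, IsCocycle₂ f → IsCoboundary₂ f)
    {W : Type*} [AddCommGroup W] [DistribMulAction G W] [Module.Free ℤ W]
    {Y : Type*} [AddCommGroup Y] [DistribMulAction G Y] (e : Y ≃+ (W →+ X))
    (he : ∀ (g : G) (y : Y) (w : W), e (g • y) w = g • e y (g⁻¹ • w)) (H : Subgroup G) :
    (∀ f : H → Y, IsCocycle₁ f → IsCoboundary₁ f) ∧
      (∀ f : H × H → Y, IsCocycle₂ f → IsCoboundary₂ f) := by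
  obtain ⟨h1, h2⟩ := h98_hom_van p hG hX1 hX2 W H
  let u : Y ≃+ h98_Hom W X := e.trans h98_Hom.addEquivHom.symm
  have hu : ∀ (g : H) (y : Y), u (g • y) = g • u y := by
    intro g y
    refine h98_Hom.ext fun w => ?_
    show e ((g : G) • y) w = (g : G) • e y ((g : G)⁻¹ • w)
    exact he _ _ _
  exact ⟨h98_Van₁.of_equiv u hu h1, h98_Van₂.of_equiv u hu h2⟩

/-- the same for the group itself -/
theorem h98_hom_lattice_acyclic_top (hG : IsPGroup p G)
    {X : Type*} [AddCommGroup X] [DistribMulAction G X]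
    (hX1 : ∀ f : G → X, IsCocycle₁ f → IsCoboundary₁ f)
    (hX2 : ∀ f : G × G → X, IsCocycle₂ f → IsCoboundary₂ f)
    {W : Type*} [AddCommGroup W] [DistribMulAction G W] [Module.Free ℤ W]
    {Y : Type*} [AddCommGroup Y] [DistribMulAction G Y] (e : Y ≃+ (W →+ X))
    (he : ∀ (g : G) (y : Y) (w : W), e (g • y) w = g • e y (g⁻¹ • w)) :
    (∀ f : G → Y, IsCocycle₁ f → IsCoboundary₁ f) ∧
      (∀ f : G × G → Y, IsCocycle₂ f → IsCoboundary₂ f) := by
  obtain ⟨h1, h2⟩ := h98_hom_lattice_acyclic p hG hX1 hX2 e he ⊤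
  constructor
  · intro f hf
    obtain ⟨y, hy⟩ := h1 (fun x => f x) (fun g h => hf g h)
    exact ⟨y, fun g => hy ⟨g, Subgroup.mem_top g⟩⟩
  · intro f hf
    obtain ⟨c, hc⟩ := h2 (fun x => f (x.1, x.2)) (fun g h k => hf g h k)
    exact ⟨fun g => c ⟨g, Subgroup.mem_top g⟩, fun g h =>
      hc ⟨g, Subgroup.mem_top g⟩ ⟨h, Subgroup.mem_top h⟩⟩

/-- **Two consecutive vanishing degrees for a `p`-group give vanishing for all subgroups**
(the case `W = ℤ`). -/
theorem h98_acyclic_of_H1_H2 (hG : IsPGroup p G)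
    {X : Type*} [AddCommGroup X] [DistribMulAction G X]
    (hX1 : ∀ f : G → X, IsCocycle₁ f → IsCoboundary₁ f)
    (hX2 : ∀ f : G × G → X, IsCocycle₂ f → IsCoboundary₂ f) (H : Subgroup G) :
    (∀ f : H → X, IsCocycle₁ f → IsCoboundary₁ f) ∧
      (∀ f : H × H → X, IsCocycle₂ f → IsCoboundary₂ f) := by
  letI : DistribMulAction G ℤ :=
    { smul := fun _ n => n
      one_smul := fun _ => rfl
      mul_smul := fun _ _ _ => rfl
      smul_zero := fun _ => rfl
      smul_add := fun _ _ _ => rfl }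
  refine h98_hom_lattice_acyclic p hG hX1 hX2 (W := ℤ) (zmultiplesAddHom X) ?_ H
  intro g x n
  show n • (g • x) = g • (n • x)
  exact (map_zsmul (DistribSMul.toAddMonoidHom X g) n x).symm

/-- **Cohomological freeness over `F_p[p-group]`** in function form. -/
theorem h98_coind_of_H1 (hG : IsPGroup p G)
    {A : Type*} [AddCommGroup A] [DistribMulAction G A] (hpA : ∀ a : A, p • a = 0)
    (h1 : ∀ f : G → A, IsCocycle₁ f → IsCoboundary₁ f) :
    ∃ (V : AddSubgroup A) (e : A ≃+ (G → V)), ∀ (g : G) (a : A) (x : G),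
      e (g • a) x = e a (x * g) := by
  obtain ⟨c⟩ := h98_coind_of_van₁ p hG hpA h1
  refine ⟨h98_fixed G A, c.e.trans { h98_Co.equivFun with map_add' := fun _ _ => rfl }, ?_⟩
  intro g a x
  show c.e (g • a) x = c.e a (x * g)
  rw [c.he, h98_Co.smul_apply]

end exports

end Fermat.Agent.S55
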