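/-
S55 layer H, row 230 (H-CT, general form): for a finite group `G`, a `p`-local `G`-module `D`
which is acyclic in degrees 1, 2 on all `p`-subgroups, and a `ℤ`-free `G`-module `A`, the module
`h40_Hom A D` is acyclic in degrees 1, 2.

Route: Sylow `p`-subgroup `P`, the `p`-group core `h98_hom_lattice_acyclic_top` for `P`, and
injectivity of restriction to `P` on `p`-local modules (`h88_res₁_inj_sylow`, `h88_res₂_inj_sylow`).
-/
import Mathlib
import Fermat.Agent.S55.h72_AbsDefs
import Fermat.Agent.S55.h40_HDefs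
import Fermat.Agent.S55.h88_Sylow
import Fermat.Agent.S55.h24_LamMod
import Fermat.Agent.S55.h98_Free

set_option autoImplicit false

open groupCohomology

namespace Fermat.Agent.S55

/-- Bridge: the internal degree-3 cocycle predicate of the freeness core agrees with
`h40_IsCocycle₃`. -/
theorem h98_isCocycle₃_iff {G A : Type*} [Mul G] [AddCommGroup A] [SMul G A]
    (w : G × G × G → A) : h98_IsCocycle₃ w ↔ h40_IsCocycle₃ w := by
  constructor
  · intro h g h' j k
    have := h g h' j k
    rw [← sub_eq_zero, ← neg_eq_zero, ← this]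
    abel
  · intro h g h' j k
    have := h g h' j k
    rw [← sub_eq_zero, ← neg_eq_zero] at this
    rw [← this]
    abel

/-- Bridge: the internal degree-3 coboundary predicate of the freeness core agrees with
`h40_IsCoboundary₃`. -/
theorem h98_isCoboundary₃_iff {G A : Type*} [Mul G] [AddCommGroup A] [SMul G A]
    (w : G × G × G → A) : h98_IsCoboundary₃ w ↔ h40_IsCoboundary₃ w := Iff.rfl

/-- **(CT), general form.** `Hom(A, D)` is acyclic in degrees 1 and 2 for a `ℤ`-free `A` and a
`p`-local `D` which is acyclic in degrees 1 and 2 on every `p`-subgroup. -/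
theorem h98_CT {p : ℕ} [Fact p.Prime] {G : Type*} [Group G] [Finite G] {D : Type*}
    [AddCommGroup D] [DistribMulAction G D] (hD : h40_IsPLocal p D)
    (h1 : ∀ H : Subgroup G, IsPGroup p H → ∀ f : H → D, IsCocycle₁ f → IsCoboundary₁ f)
    (h2 : ∀ H : Subgroup G, IsPGroup p H → ∀ f : H × H → D, IsCocycle₂ f → IsCoboundary₂ f)
    {A : Type*} [AddCommGroup A] [DistribMulAction G A] [Module.Free ℤ A] :
    (∀ f : G → h40_Hom A D, IsCocycle₁ f → IsCoboundary₁ f) ∧
    (∀ f : G × G → h40_Hom A D, IsCocycle₂ f → IsCoboundary₂ f) := by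
  obtain ⟨P⟩ : Nonempty (Sylow p G) := inferInstance
  have hloc : h40_IsPLocal p (h40_Hom A D) := h24_isPLocal_hom hD
  have hP : IsPGroup p (P : Subgroup G) := P.isPGroup'
  obtain ⟨k1, k2⟩ := h98_hom_lattice_acyclic_top p (G := ↥(P : Subgroup G)) hP (X := D)
    (h1 (P : Subgroup G) hP) (h2 (P : Subgroup G) hP) (W := A) (Y := h40_Hom A D)
    (AddEquiv.refl (A →+ D)) (fun g y w => rfl)
  constructor
  · intro f hf
    refine h88_res₁_inj_sylow p hloc P f hf ?_
    obtain ⟨x, hx⟩ := k1 (fun x => f x) (fun g h => hf g h)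
    exact ⟨x, fun g => hx g⟩
  · intro f hf
    refine h88_res₂_inj_sylow p hloc P f hf ?_
    obtain ⟨x, hx⟩ := k2 (fun x => f (x.1, x.2)) (fun g h k => hf g h k)
    exact ⟨x, fun g h => hx g h⟩

end Fermat.Agent.S55
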