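/-
S55 layer H, row H-TN (helper52): glue for the left kernel.

`h52_tn_L_of_split`: the README statement `tn_L` for a `p`-class module, given the conclusion of
the splitting-module row (`h52_HasSplit`, the statement of row 229) for the fundamental cocycle.
Consumes `h98_CT` (cohomological triviality of `Hom(lattice, splitting module)`),
`h62_latDual_Lam` (lattice duality) and `h52_tn_L_core`.
-/
import Mathlib
import Fermat.Agent.S55.h72_AbsDefs
import Fermat.Agent.S55.h40_HDefs
import Fermat.Agent.S55.h52_TNShift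
import Fermat.Agent.S55.h52_TNCore
import Fermat.Agent.S55.h52_TNL
import Fermat.Agent.S55.h62_LatDualZ
import Fermat.Agent.S55.h88_SplitB
import Fermat.Agent.S55.h98_CT

set_option autoImplicit false

namespace Fermat.Agent.S55

open groupCohomology

/-- The conclusion of the splitting-module row (row 229) for a 2-cocycle `w`:
`0 → C → D → Lam[G] → Lam → 0` with `δδ(1) = [w]`, `D` `p`-local, and `D` acyclic in degrees
1, 2 on every subgroup on which `C` satisfies the class-module properties with respect to `w`. -/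
def h52_HasSplit (p : ℕ) [Fact p.Prime] (G : Type) [Group G] [Finite G] (C : Type)
    [AddCommGroup C] [DistribMulAction G C] (w : G × G → C) : Prop :=
  ∃ (D : Type) (_ : AddCommGroup D) (_ : DistribMulAction G D) (i : C →+ D)
      (q : D →+ h40_Coind G (h40_Lam p)),
      h40_IsPLocal p D ∧ Function.Injective i ∧ (∀ (g : G) (c : C), i (g • c) = g • i c) ∧
      (∀ (g : G) (d : D), q (g • d) = g • q d) ∧ (∀ d : D, q d = 0 ↔ d ∈ i.range) ∧
      (∀ φ : h40_Coind G (h40_Lam p), h40_aug G (h40_Lam p) φ = 0 ↔ φ ∈ q.range) ∧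
      (∃ b : G → D, (∀ g : G, q (b g) = g • h40_delta G (1 : h40_Lam p) - h40_delta G 1) ∧
        ∀ g h : G, i (w (g, h)) = g • b h - b (g * h) + b g) ∧
      (∀ H : Subgroup G, (∀ f : H → C, IsCocycle₁ f → IsCoboundary₁ f) →
        (∀ f : H × H → C, IsCocycle₂ f →
          ∃ k : ℕ, IsCoboundary₂ (f - k • fun x : H × H => w ((x.1 : G), (x.2 : G)))) →
        (∀ k : ℕ, IsCoboundary₂ (k • fun x : H × H => w ((x.1 : G), (x.2 : G))) →
          p ^ ((Nat.card H).factorization p) ∣ k) →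
        (∀ f : H → D, IsCocycle₁ f → IsCoboundary₁ f) ∧
        (∀ f : H × H → D, IsCocycle₂ f → IsCoboundary₂ f))

section Arith

variable {p : ℕ} [Fact p.Prime]

/-- A natural number prime to `p` is a unit of `Z_(p)`. -/
lemma h52_lam_isUnit_of_coprime {t : ℕ} (ht : t.Coprime p) : IsUnit ((t : ℕ) : h40_Lam p) := by
  have hp : p.Prime := Fact.out
  have hmem : (t : ℤ) ∈ (Ideal.span {(p : ℤ)}).primeCompl := by
    rw [Ideal.mem_primeCompl_iff, Ideal.mem_span_singleton]
    intro h
    exact (hp.coprime_iff_not_dvd.1 ht.symm) (Int.natCast_dvd_natCast.1 h)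
  have h1 := IsLocalization.map_units (h40_Lam p)
    (⟨(t : ℤ), hmem⟩ : (Ideal.span {(p : ℤ)}).primeCompl)
  have h2 : algebraMap ℤ (h40_Lam p) ((t : ℕ) : ℤ) = ((t : ℕ) : h40_Lam p) := by
    rw [eq_intCast, Int.cast_natCast]
  rwa [h2] at h1

/-- If a prime-to-`p` multiple of `r` is `p^v * k` with `p^v` the `p`-part of `n`, then `n ∣ r`
in `Z_(p)`. -/
lemma h52_lam_card_dvd (n : ℕ) (hn : n ≠ 0) (r : h40_Lam p) (m : ℕ) (hm : m.Coprime p) (k : ℤ)
    (h : m • r = ((p : ℤ) ^ n.factorization p * k) • (1 : h40_Lam p)) :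
    ((n : ℕ) : h40_Lam p) ∣ r := by
  have hp : p.Prime := Fact.out
  have hcop : (n / p ^ n.factorization p).Coprime p := (Nat.coprime_ordCompl hp hn).symm
  have hnm : p ^ n.factorization p * (n / p ^ n.factorization p) = n :=
    Nat.ordProj_mul_ordCompl_eq_self n p
  obtain ⟨um, hum⟩ := h52_lam_isUnit_of_coprime (p := p) hm
  obtain ⟨un, hun⟩ := h52_lam_isUnit_of_coprime (p := p) hcop
  have key : ((m : ℕ) : h40_Lam p) * r = ((p : ℕ) : h40_Lam p) ^ n.factorization p * (k : h40_Lam p) := by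
    rw [nsmul_eq_mul, zsmul_eq_mul, mul_one] at h
    rw [h]
    push_cast
    ring
  have hn' : ((n : ℕ) : h40_Lam p) =
      ((p : ℕ) : h40_Lam p) ^ n.factorization p * (un : h40_Lam p) := by
    rw [hun]
    conv_lhs => rw [← hnm]
    push_cast
    ring
  refine ⟨(↑um⁻¹ : h40_Lam p) * (↑un⁻¹ : h40_Lam p) * (k : h40_Lam p), ?_⟩
  have h1 : (un : h40_Lam p) * (↑un⁻¹ : h40_Lam p) = 1 := Units.mul_inv un
  have h2 : (↑um⁻¹ : h40_Lam p) * (um : h40_Lam p) = 1 := Units.inv_mul um
  rw [← hum] at key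
  rw [hn']
  linear_combination (-(↑um⁻¹ : h40_Lam p) * ((p : ℕ) : h40_Lam p) ^ n.factorization p *
    (k : h40_Lam p)) * h1 + (↑um⁻¹ : h40_Lam p) * key - r * h2

end Arith

/-- The order property of the fundamental cocycle on `G` itself, from the `⊤`-subgroup clause. -/
lemma h52_fund_top {p : ℕ} {G : Type*} [Group G] {C : Type*} [AddCommGroup C]
    [DistribMulAction G C] (u : G × G → C)
    (h : ∀ k : ℕ, IsCoboundary₂Via (⊤ : Subgroup G).subtype
        (k • fun x : (⊤ : Subgroup G) × (⊤ : Subgroup G) => u ((x.1 : G), (x.2 : G))) →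
      p ^ ((Nat.card (⊤ : Subgroup G)).factorization p) ∣ k) :
    ∀ k : ℕ, IsCoboundary₂ (k • u) → p ^ ((Nat.card G).factorization p) ∣ k := by
  intro k ⟨x, hx⟩
  have h1 := h k ⟨fun t => x (t : G), fun g h' => hx (g : G) (h' : G)⟩
  rwa [Subgroup.card_top] at h1

/-- **Tate–Nakayama, left kernel** (README `tn_L`), given the splitting module. -/
theorem h52_tn_L_of_split {p : ℕ} [Fact p.Prime] {G : Type} [Group G] [Finite G] {C : Type}
    [AddCommGroup C] [DistribMulAction G C] (hC : IsPClassModule p G C)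
    (hsplit : ∀ w : G × G → C, IsCocycle₂ w → h52_HasSplit p G C w)
    {N : Type} [AddCommGroup N] [DistribMulAction G N] [Module.Free ℤ N] [Module.Finite ℤ N]
    (f : N →+ C) (hf : ∀ (g : G) (n : N), f (g • n) = g • f n)
    (hperp : ∀ y : G × G → N, IsCocycle₂ y → IsCoboundary₂ (fun x : G × G => f (y x))) :
    ∃ h : N →+ C, ∀ n, f n = ∑ᶠ g : G, g • h (g⁻¹ • n) := by
  obtain ⟨u, hu, hfund⟩ := hC.fund
  obtain ⟨D, _, _, i, q, hDloc, hi, hiG, hqG, hex, hrange, ⟨b, hb, hbu⟩, hacyc⟩ := hsplit u hu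
  have hD := fun H : Subgroup G => hacyc H (hC.h1 H) (hfund H).1 (hfund H).2
  have hCT := (h98_CT (p := p) hDloc (fun H _ => (hD H).1) (fun H _ => (hD H).2)
    (A := h52_Sh G N)).1
  have hu' := h52_fund_top (p := p) u (hfund ⊤).2
  have haug : h40_aug G (h40_Lam p) (h40_delta G (1 : h40_Lam p)) = 1 :=
    h52_aug_delta (G := G) (1 : h40_Lam p)
  refine h52_tn_L_core (p := p) (v := (Nat.card G).factorization p) u hu' i q hi hiG hqG hex
    hrange (h40_delta G 1) b hb hbu hCT ?_ ?_ f hf hperp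
  · intro r
    obtain ⟨s, a, hs, hsa⟩ := h88_lam_exists_clear r
    exact ⟨s, hs, a, by rw [hsa, haug]⟩
  · intro ψ hψ hdiv
    refine h62_latDual_Lam ψ hψ (fun a ha => ?_)
    obtain ⟨m, hm, k, hk⟩ := hdiv a ha
    rw [haug] at hk
    exact h52_lam_card_dvd (Nat.card G) Nat.card_pos.ne' (ψ a) m hm k hk

end Fermat.Agent.S55
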