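/-
S55 layer H, row H-TN (helper52): **Tate–Nakayama, left kernel** — the README statement `tn_L`,
unconditional.
-/
import Mathlib
import Fermat.Agent.S55.h72_AbsDefs
import Fermat.Agent.S55.h40_HDefs
import Fermat.Agent.S55.h40_Split
import Fermat.Agent.S55.h52_TNGlue

set_option autoImplicit false

namespace Fermat.Agent.S55

open groupCohomology

/-- TN (L), exported form: for a `p`-class module `C` and a `ℤ`-lattice `N` with `G`-action,
a `G`-map `N → C` killing all of `H²(G, N)` is a norm. -/
theorem h52_tn_L {p : ℕ} [Fact p.Prime] {G : Type} [Group G] [Finite G]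
    {C : Type} [AddCommGroup C] [DistribMulAction G C] (hC : IsPClassModule p G C)
    {N : Type} [AddCommGroup N] [DistribMulAction G N] [Module.Free ℤ N] [Module.Finite ℤ N]
    (f : N →+ C) (hf : ∀ (g : G) (n : N), f (g • n) = g • f n)
    (hperp : ∀ y : G × G → N, IsCocycle₂ y → IsCoboundary₂ (fun x : G × G => f (y x))) :
    ∃ h : N →+ C, ∀ n : N, f n = ∑ᶠ g : G, g • h (g⁻¹ • n) :=
  h52_tn_L_of_split hC (fun w hw => h40_split hC.ploc w hw) f hf hperp

end Fermat.Agent.S55
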