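import Fermat.Agent.S55.h21_ADTStmt
import Fermat.Agent.S55.h52_TNFinalL

/-!
# S55, layer H: ADT (D2), final form

`h21_adt_D2` is the README statement `adt_D2` verbatim, with no extra hypothesis: Tate-Nakayama
(L) is `h52_tn_L`.
-/

set_option autoImplicit false

open groupCohomology

namespace Fermat.Agent.S55

/-- Tate-Nakayama (L) in statement form. -/
theorem h21_tnL {p : ℕ} [Fact p.Prime] : h21_TnLStatement p := by
  intro G _ _ C _ _ hC N _ _ _ _ f hf hperp
  exact h52_tn_L hC f hf hperp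

/-- **ADT (D2)**: a `G`-homomorphism `f : M → C` that kills `H²(G', M)` is a norm from
`Hom_ℤ(M, C)`.  README statement, verbatim. -/
theorem h21_adt_D2 {p : ℕ} [Fact p.Prime]
    {G' G : Type} [Group G'] [Group G] [Finite G'] (π : G' →* G) (hπ : Function.Surjective π)
    {C' C : Type} [AddCommGroup C'] [DistribMulAction G' C'] [AddCommGroup C]
    [DistribMulAction G C]
    (ι : C →+ C') (hι : Function.Injective ι) (hιeq : ∀ (g : G') (c : C), ι (π g • c) = g • ι c)
    (hιfix : ∀ c' : C', (∀ s ∈ π.ker, s • c' = c') → c' ∈ ι.range)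
    (hC' : IsPClassModule p G' C')
    (hnorm : ∀ c' : C', ∃ c : C, ∑ᶠ s : π.ker, (s : G') • c' = ι (p • c))
    {M : Type} [AddCommGroup M] [DistribMulAction G M] [Finite M] (hpM : ∀ m : M, p • m = 0)
    (f : M →+ C) (hf : ∀ (g : G) (m : M), f (g • m) = g • f m)
    (hperp : ∀ y' : G' × G' → M, IsCocycle₂Via π y' →
      IsCoboundary₂ (fun x : G' × G' => ι (f (y' x)))) :
    ∃ h : M →+ C, ∀ m : M, f m = ∑ᶠ g : G, g • h (g⁻¹ • m) :=
  h21_adt_D2_of_tnL h21_tnL π hπ ι hι hιeq hιfix hC' hnorm hpM f hf hperp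

end Fermat.Agent.S55
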