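/-
S55 layer H, row H-TN (helper52): Tate–Nakayama, right kernel, from the splitting data.

`h52_tn_R_core`: for a sequence `0 → C → D → Coind G R → R → 0` with `δδ(aug b₀) = [u]`, where
`u` has order divisible by `p^v`, a 2-cocycle `y` of a `ℤ`-free module `N` which is killed by
every `G`-map `N → C` has a prime-to-`p` multiple which is a coboundary, provided
* the lattice duality for `R`-valued functionals on the double shift `Sh (Sh N)` (`hlat`);
* every element of `R` is a prime-to-`p` fraction of an integer multiple of `aug b₀` (`hint`).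
-/
import Mathlib
import Fermat.Agent.S55.h72_AbsDefs
import Fermat.Agent.S55.h40_HDefs
import Fermat.Agent.S55.h52_TNShift
import Fermat.Agent.S55.h52_TNCore

set_option autoImplicit false

namespace Fermat.Agent.S55

open groupCohomology

theorem h52_tn_R_core {p v : ℕ} {G : Type*} [Group G] [Finite G]
    {C : Type*} [AddCommGroup C] [DistribMulAction G C]
    (u : G × G → C) (hu : ∀ k : ℕ, IsCoboundary₂ (k • u) → p ^ v ∣ k)
    {D : Type*} [AddCommGroup D] [DistribMulAction G D] {R : Type*} [AddCommGroup R]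
    (i : C →+ D) (q : D →+ h40_Coind G R) (hi : Function.Injective i)
    (hiG : ∀ (g : G) (c : C), i (g • c) = g • i c)
    (hqG : ∀ (g : G) (d : D), q (g • d) = g • q d) (hex : ∀ d : D, q d = 0 ↔ d ∈ i.range)
    (hrange : ∀ φ : h40_Coind G R, h40_aug G R φ = 0 ↔ φ ∈ q.range)
    (b₀ : h40_Coind G R) (b : G → D) (hb : ∀ g : G, q (b g) = g • b₀ - b₀)
    (hbu : ∀ g h : G, i (u (g, h)) = g • b h - b (g * h) + b g)
    {N : Type*} [AddCommGroup N] [DistribMulAction G N] [Module.Free ℤ N]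
    (hint : ∀ r : R, ∃ m : ℕ, m.Coprime p ∧ ∃ a : ℤ, m • r = a • h40_aug G R b₀)
    (hlat : ∀ a : h52_Sh G (h52_Sh G N), (∀ g : G, g • a = a) →
      (∀ φ : h52_Sh G (h52_Sh G N) →+ R,
        (∀ (g : G) (x : h52_Sh G (h52_Sh G N)), φ (g • x) = φ x) →
        ∃ m : ℕ, m.Coprime p ∧ ∃ k : ℤ, m • φ a = ((p : ℤ) ^ v * k) • h40_aug G R b₀) →
      ∃ m : ℕ, m.Coprime p ∧ ∃ b' : h52_Sh G (h52_Sh G N), m • a = ∑ᶠ g : G, g • b')
    (y : G × G → N) (hy : IsCocycle₂ y)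
    (hperp : ∀ f : N →+ C, (∀ (g : G) (n : N), f (g • n) = g • f n) →
      IsCoboundary₂ (fun x : G × G => f (y x))) :
    ∃ m : ℕ, m.Coprime p ∧ IsCoboundary₂ (m • y) := by
  -- the double shift of `y`
  obtain ⟨z, hz, hzy⟩ := h52_exists_conn₁ y hy
  obtain ⟨n₃, hn₃, hnz⟩ := h52_exists_conn₀ z hz
  have hmain : ∀ φ : h52_Sh G (h52_Sh G N) →+ R,
      (∀ (g : G) (x : h52_Sh G (h52_Sh G N)), φ (g • x) = φ x) →
      ∃ m : ℕ, m.Coprime p ∧ ∃ k : ℤ, m • φ n₃ = ((p : ℤ) ^ v * k) • h40_aug G R b₀ := by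
    intro φ hφG
    -- the additive map `θ = φ ∘ q₂ ∘ δ`
    let θ : h52_Sh G N →+ R :=
      φ.comp ((h52_q G (h52_Sh G N)).comp (h52_delta G (h52_Sh G N)))
    have hθ : ∀ s, θ s = φ (h52_q G (h52_Sh G N) (h52_delta G (h52_Sh G N) s)) := fun s => rfl
    have hkey : ∀ a : h40_Coind G (h52_Sh G N),
        ∑ᶠ x : G, θ (a x) = φ (h52_q G (h52_Sh G N) a) := by
      intro a
      conv_rhs => rw [h52_coind_decomp a]
      rw [(h52_q G (h52_Sh G N)).map_finsum (Set.toFinite _), φ.map_finsum (Set.toFinite _)]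
      refine finsum_congr fun x => ?_
      rw [h52_q_smul, hφG, hθ]
    let Φ₂ : h40_Coind G (h52_Sh G N) →+ h40_Coind G R := h52_post G θ
    have hΦ₂G : ∀ (g : G) (a : h40_Coind G (h52_Sh G N)), Φ₂ (g • a) = g • Φ₂ a :=
      fun g a => h52_post_smul _ g a
    have hΦ₂aug : ∀ a, h40_aug G R (Φ₂ a) = φ (h52_q G (h52_Sh G N) a) := fun a => hkey a
    -- `W = Φ₂ ∘ j₂ ∘ q₁`
    let W : h40_Coind G N →+ h40_Coind G R :=
      Φ₂.comp ((h52_j G (h52_Sh G N)).comp (h52_q G N))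
    have hW : ∀ a, W a = Φ₂ (h52_j G (h52_Sh G N) (h52_q G N a)) := fun a => rfl
    have hWG : ∀ (g : G) (a : h40_Coind G N), W (g • a) = g • W a := fun g a => by
      rw [hW, hW, h52_q_smul, h52_j_smul, hΦ₂G]
    have hWaug : ∀ a, h40_aug G R (W a) = 0 := fun a => by
      rw [hW, hΦ₂aug, h52_q_j, map_zero]
    obtain ⟨Φ₁, hΦ₁G, hΦ₁⟩ := h52_coind_lift q hqG W hWG (fun a => (hrange _).1 (hWaug a))
    -- the `G`-map `f : N → C`
    obtain ⟨f, hf⟩ := h52_factor_inj i hi (Φ₁.comp (h52_j G N)) (fun n => (hex _).1 (by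
      show q (Φ₁ (h52_j G N n)) = 0
      rw [hΦ₁, hW, h52_q_j, map_zero, map_zero]))
    have hf' : ∀ n, i (f n) = Φ₁ (h52_j G N n) := hf
    have hfG : ∀ (g : G) (n : N), f (g • n) = g • f n := fun g n => hi (by
      rw [hf', hiG, hf', h52_j_smul, hΦ₁G])
    -- the chase
    obtain ⟨ψ, hψ, hψz⟩ := hnz
    obtain ⟨c, hc, hcy⟩ := hzy
    obtain ⟨m, hm, a, ha⟩ := hint (φ n₃)
    have hB : h40_aug G R (Φ₂ ψ) = φ n₃ := by rw [hΦ₂aug, hψ]
    have hZ : ∀ g, q (Φ₁ (c g)) = g • Φ₂ ψ - Φ₂ ψ := fun g => by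
      rw [hΦ₁, hW, hc, hψz, map_sub, hΦ₂G]
    have hY : ∀ g h, i (f (y (g, h))) = g • Φ₁ (c h) - Φ₁ (c (g * h)) + Φ₁ (c g) := fun g h => by
      rw [hf', hcy, map_add, map_sub, hΦ₁G]
    have hdd : IsCoboundary₂ ((m • fun x : G × G => f (y x)) - a • u) := by
      refine h52_dd i q hi hiG hqG hex (fun φ h => (hrange φ).1 h) (m • Φ₂ ψ) (a • b₀)
        (fun g => m • Φ₁ (c g)) (fun g => a • b g) _ _ (fun g => ?_) (fun g h => ?_)
        (fun g => ?_) (fun g h => ?_) ?_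
      · rw [map_nsmul, hZ, smul_comm g m (Φ₂ ψ), nsmul_sub]
      · show i (m • f (y (g, h))) = g • (m • Φ₁ (c h)) - m • Φ₁ (c (g * h)) + m • Φ₁ (c g)
        rw [map_nsmul, hY, smul_comm g m (Φ₁ (c h)), nsmul_add, nsmul_sub]
      · rw [map_zsmul, hb, smul_comm g a b₀, zsmul_sub]
      · show i (a • u (g, h)) = g • (a • b h) - a • b (g * h) + a • b g
        rw [map_zsmul, hbu, smul_comm g a (b h), zsmul_add, zsmul_sub]
      · rw [map_nsmul, hB, ha, map_zsmul]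
    have hmfy : IsCoboundary₂ (m • fun x : G × G => f (y x)) :=
      h52_isCoboundary₂_nsmul (hperp f hfG) m
    have hau : IsCoboundary₂ (a • u) := by
      have h1 := h52_isCoboundary₂_sub hmfy hdd
      rwa [sub_sub_cancel] at h1
    obtain ⟨k, rfl⟩ := h52_int_dvd_of_cob hu a hau
    refine ⟨m, hm, k, ?_⟩
    rw [ha]
    push_cast
    rfl
  obtain ⟨m, hm, n', hn'⟩ := hlat n₃ hn₃ hmain
  refine ⟨m, hm, ?_⟩
  have h1 : IsCoboundary₁ (m • z) := (h52_shift₀ (h52_conn₀_nsmul hnz m)).2 ⟨n', hn'⟩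
  exact (h52_shift₁ (h52_conn₁_nsmul hzy m)).2 h1

end Fermat.Agent.S55
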