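/-
S55 layer H, row H-TN (helper52): **Tate–Nakayama, right kernel** — the README statement `tn_R`,
unconditional.
-/
import Mathlib
import Fermat.Agent.S55.h72_AbsDefs
import Fermat.Agent.S55.h40_HDefs
import Fermat.Agent.S55.h40_Split
import Fermat.Agent.S55.h52_TNR
import Fermat.Agent.S55.h52_TNGlue

set_option autoImplicit false

namespace Fermat.Agent.S55

open groupCohomology

/-- **Tate–Nakayama, right kernel** (README `tn_R`), given the splitting module. -/
theorem h52_tn_R_of_split {p : ℕ} [Fact p.Prime] {G : Type} [Group G] [Finite G] {C : Type}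
    [AddCommGroup C] [DistribMulAction G C] (hC : IsPClassModule p G C)
    (hsplit : ∀ w : G × G → C, IsCocycle₂ w → h52_HasSplit p G C w)
    {N : Type} [AddCommGroup N] [DistribMulAction G N] [Module.Free ℤ N] [Module.Finite ℤ N]
    (y : G × G → N) (hy : IsCocycle₂ y)
    (hperp : ∀ f : N →+ C, (∀ (g : G) (n : N), f (g • n) = g • f n) →
      IsCoboundary₂ (fun x : G × G => f (y x))) :
    ∃ m : ℕ, m.Coprime p ∧ IsCoboundary₂ (m • y) := by
  obtain ⟨u, hu, hfund⟩ := hC.fund
  obtain ⟨D, _, _, i, q, -, hi, hiG, hqG, hex, hrange, ⟨b, hb, hbu⟩, -⟩ := hsplit u hu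
  have hu' := h52_fund_top (p := p) u (hfund ⊤).2
  have haug : h40_aug G (h40_Lam p) (h40_delta G (1 : h40_Lam p)) = 1 :=
    h52_aug_delta (G := G) (1 : h40_Lam p)
  refine h52_tn_R_core (p := p) (v := (Nat.card G).factorization p) u hu' i q hi hiG hqG hex
    hrange (h40_delta G 1) b hb hbu ?_ ?_ y hy hperp
  · intro r
    obtain ⟨s, a, hs, hsa⟩ := h88_lam_exists_clear r
    exact ⟨s, hs, a, by rw [hsa, haug]⟩
  · intro a ha h
    refine h62_latDual_Z (p := p) a ha (fun φ hφ => ?_)
    obtain ⟨m, hm, k, hk⟩ := h φ hφ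
    rw [haug] at hk
    exact h52_lam_card_dvd (Nat.card G) Nat.card_pos.ne' (φ a) m hm k hk

/-- TN (R), exported form: `N` a `ℤ`-lattice (free of finite rank) with `G`-action, `C` a
`p`-class module.  A 2-cocycle of `N` killed by every `G`-map `N → C` has class of order prime
to `p`. -/
theorem h52_tn_R {p : ℕ} [Fact p.Prime] {G : Type} [Group G] [Finite G]
    {C : Type} [AddCommGroup C] [DistribMulAction G C] (hC : IsPClassModule p G C)
    {N : Type} [AddCommGroup N] [DistribMulAction G N] [Module.Free ℤ N] [Module.Finite ℤ N]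
    (y : G × G → N) (hy : IsCocycle₂ y)
    (hperp : ∀ f : N →+ C, (∀ (g : G) (n : N), f (g • n) = g • f n) →
      IsCoboundary₂ (fun x : G × G => f (y x))) :
    ∃ m : ℕ, m.Coprime p ∧ IsCoboundary₂ (m • y) :=
  h52_tn_R_of_split hC (fun w hw => h40_split hC.ploc w hw) y hy hperp

end Fermat.Agent.S55
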