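import Mathlib
import Fermat.Agent.S55.h56_Inv

/-!
# S55, bridge layer: splitting a norm along a quotient, and averaging over a finite quotient

* `h56_finsum_conj_fiberwise` : for `ρ : Q₁ → Q₀` with a set-theoretic section `sec`, and a
  `Q₁`-module `B` on which `ker ρ` acts trivially,
  `∑_{g ∈ Q₁} g • h (g⁻¹ • b) = ∑_{t ∈ Q₀} sec t • ∑_{k ∈ ker ρ} k • h ((sec t)⁻¹ • b)`.
* `h56_avg U l : M →+ X`, `m ↦ ∑_{t ∈ G ⧸ U} t • l (t⁻¹ • m)` (sum over representatives), which is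
  `G`-equivariant when `U` acts trivially on `M` and on the values of `l`.
-/

set_option autoImplicit false
set_option linter.unusedSectionVars false

namespace Fermat.Agent.S55

section Fiberwise

variable {Q₁ Q₀ : Type*} [Group Q₁] [Group Q₀] [Finite Q₁] (ρ : Q₁ →* Q₀)
  (sec : Q₀ → Q₁) (hsec : ∀ t, ρ (sec t) = t)
  {B C : Type*} [AddCommGroup B] [DistribMulAction Q₁ B] [AddCommGroup C] [DistribMulAction Q₁ C]

include hsec in
theorem h56_finsum_conj_fiberwise (hB : ∀ k ∈ ρ.ker, ∀ b : B, k • b = b) (h : B → C) (b : B) :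
    ∑ᶠ g : Q₁, g • h (g⁻¹ • b) =
      ∑ᶠ t : Q₀, sec t • ∑ᶠ k : ρ.ker, (k : Q₁) • h ((sec t)⁻¹ • b) := by
  classical
  have hsurj : Function.Surjective ρ := fun t => ⟨sec t, hsec t⟩
  have : Finite Q₀ := Finite.of_surjective _ hsurj
  have := Fintype.ofFinite Q₁
  have := Fintype.ofFinite Q₀
  have := Fintype.ofFinite ρ.ker
  rw [finsum_eq_sum_of_fintype, finsum_eq_sum_of_fintype]
  rw [← Fintype.sum_fiberwise ρ (fun g => g • h (g⁻¹ • b))]
  refine Finset.sum_congr rfl fun t _ => ?_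
  rw [finsum_eq_sum_of_fintype, Finset.smul_sum]
  let e : ρ.ker ≃ {g // ρ g = t} :=
    { toFun := fun k => ⟨sec t * (k : Q₁), by rw [map_mul, hsec, MonoidHom.mem_ker.1 k.2, mul_one]⟩
      invFun := fun g => ⟨(sec t)⁻¹ * (g : Q₁), by
        rw [MonoidHom.mem_ker, map_mul, map_inv, hsec, g.2, inv_mul_cancel]⟩
      left_inv := fun k => Subtype.ext (by
        show (sec t)⁻¹ * (sec t * (k : Q₁)) = k
        rw [inv_mul_cancel_left])
      right_inv := fun g => Subtype.ext (by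
        show sec t * ((sec t)⁻¹ * (g : Q₁)) = g
        rw [mul_inv_cancel_left]) }
  refine (Fintype.sum_equiv e _ _ (fun k => ?_)).symm
  show sec t • (k : Q₁) • h ((sec t)⁻¹ • b) =
    (sec t * (k : Q₁)) • h ((sec t * (k : Q₁))⁻¹ • b)
  rw [mul_inv_rev, mul_smul, mul_smul, hB _ (ρ.ker.inv_mem k.2)]

end Fiberwise

section Avg

variable {G : Type*} [Group G] (U : Subgroup G) [U.Normal] [Finite (G ⧸ U)]
  {M X : Type*} [AddCommGroup M] [DistribMulAction G M] [AddCommGroup X] [DistribMulAction G X]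

/-- `m ↦ ∑_{t ∈ G ⧸ U} t • l (t⁻¹ • m)`, the sum being over the representatives
`Quotient.out t`. -/
noncomputable def h56_avg (l : M →+ X) : M →+ X where
  toFun m := ∑ᶠ t : G ⧸ U, (Quotient.out t : G) • l ((Quotient.out t : G)⁻¹ • m)
  map_zero' := by simp
  map_add' m m' := by
    rw [← finsum_add_distrib (Set.toFinite _) (Set.toFinite _)]
    refine finsum_congr fun t => ?_
    rw [smul_add, map_add, smul_add]

theorem h56_avg_apply (l : M →+ X) (m : M) :
    h56_avg U l m = ∑ᶠ t : G ⧸ U, (Quotient.out t : G) • l ((Quotient.out t : G)⁻¹ • m) := rfl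

/-- the summand does not depend on the representative. -/
theorem h56_avg_term_eq (l : M →+ X) (hM : ∀ s ∈ U, ∀ m : M, s • m = m)
    (hl : ∀ m : M, ∀ s ∈ U, s • l m = l m) (m : M) {x y : G}
    (hxy : (x : G ⧸ U) = (y : G ⧸ U)) : x • l (x⁻¹ • m) = y • l (y⁻¹ • m) := by
  have h1 : x⁻¹ * y ∈ U := QuotientGroup.eq.mp hxy
  have h2 : y = x * (x⁻¹ * y) := by group
  have h3 : y⁻¹ = (x⁻¹ * y)⁻¹ * x⁻¹ := by group
  rw [h3, mul_smul, hM _ (U.inv_mem h1)]
  conv_rhs => rw [h2, mul_smul, hl _ _ h1]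

/-- equivariance of the average. -/
theorem h56_avg_smul (l : M →+ X) (hM : ∀ s ∈ U, ∀ m : M, s • m = m)
    (hl : ∀ m : M, ∀ s ∈ U, s • l m = l m) (g : G) (m : M) :
    h56_avg U l (g • m) = g • h56_avg U l m := by
  rw [h56_avg_apply, h56_avg_apply]
  have h1 : g • (∑ᶠ t : G ⧸ U, (Quotient.out t : G) • l ((Quotient.out t : G)⁻¹ • m)) =
      ∑ᶠ t : G ⧸ U, g • ((Quotient.out t : G) • l ((Quotient.out t : G)⁻¹ • m)) :=
    AddMonoidHom.map_finsum (DistribSMul.toAddMonoidHom X g) (Set.toFinite _)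
  rw [h1, ← finsum_comp_equiv (Equiv.mulLeft (g : G ⧸ U))]
  refine finsum_congr fun t => ?_
  have h2 : ((Quotient.out (Equiv.mulLeft (g : G ⧸ U) t) : G) : G ⧸ U) =
      ((g * (Quotient.out t : G) : G) : G ⧸ U) := by
    rw [QuotientGroup.mk_mul]
    show ((Quotient.out ((g : G ⧸ U) * t) : G) : G ⧸ U) = (g : G ⧸ U) * ((Quotient.out t : G) : G ⧸ U)
    rw [QuotientGroup.out_eq', QuotientGroup.out_eq']
  rw [h56_avg_term_eq U l hM hl (g • m) h2, mul_smul, mul_inv_rev, mul_smul, inv_smul_smul]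

/-- the image of the average under an additive map. -/
theorem h56_map_avg {Y : Type*} [AddCommGroup Y] (j : X →+ Y) (l : M →+ X) (m : M) :
    j (h56_avg U l m) =
      ∑ᶠ t : G ⧸ U, j ((Quotient.out t : G) • l ((Quotient.out t : G)⁻¹ • m)) :=
  AddMonoidHom.map_finsum j (Set.toFinite _)

end Avg

end Fermat.Agent.S55
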