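import Fermat.Agent.S55.h97_Sha

/-!
# S55, assembly layer: the connecting map `δ` of the Poitou-Tate datum (step (S1))

`JJ` ("S-ideles") and `CC` ("S-idele classes") are `G_ℚ`-modules, `j : JJ → CC` equivariant,
`H` an `𝔽_p`-space with an evaluation `ev` onto the equivariant additive maps `M → CC`, and
`I ≤ H` the maps which lift to equivariant maps `M → JJ`.  Given

* (KUMSEQ) `0 → μ_p → JJ[p] → CC[p] → 0` exact (`μ : ZMod p → JJ`, semilinear for the
  cyclotomic character),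
* smoothness of `JJ[p]` for the levels unramified outside `S`,
* (SHAPIRO) `JJ[p] = ∏_{q ∈ S} Coind_{G_q}^{G} μ_p` through evaluations `e q : JJ → ZMod p`,

`h97_S1_of_facts` produces `δ : H → H¹(G_ℚ, M')`, `M' = M.dualTwist (cycloChar p)`, with
`range δ = sha₁ S M'` and `ker δ = I` (the hypotheses `hrange`, `hker` of `h95_S55_of_datum`).
-/

set_option autoImplicit false

open CategoryTheory Module groupCohomology ExtCitation

namespace Fermat.Agent.S55

local notation "Qb" => AlgebraicClosure ℚ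
local notation "GQ" => (AlgebraicClosure ℚ ≃ₐ[ℚ] AlgebraicClosure ℚ)

/-- A finite supremum of fields unramified outside `S` is unramified outside `S`. -/
theorem h97_isUnramifiedOutside_iSup {ι : Type*} [Finite ι] (S : Finset Nat.Primes)
    (F : ι → IntermediateField ℚ Qb) (hF : ∀ i, (F i).IsUnramifiedOutside S) :
    (⨆ i, F i).IsUnramifiedOutside S := by
  classical
  cases nonempty_fintype ι
  rw [← Finset.sup_univ_eq_iSup]
  exact Finset.sup_induction (p := fun E : IntermediateField ℚ Qb => E.IsUnramifiedOutside S)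
    (IntermediateField.isUnramifiedOutside_bot S)
    (fun a ha b hb => IntermediateField.IsUnramifiedOutside.sup ha hb) (fun i _ => hF i)

section Lift

variable {p : ℕ} [Fact p.Prime]

theorem h97_nsmul_eq_zero_of_zmod {M : Type*} [AddCommGroup M] [Module (ZMod p) M] (m : M) :
    p • m = 0 := by
  rw [← Nat.cast_smul_eq_nsmul (ZMod p), ZMod.natCast_self, zero_smul]

theorem h97_zmod_smul_eq_val_nsmul {M : Type*} [AddCommGroup M] [Module (ZMod p) M]
    (a : ZMod p) (m : M) : a • m = a.val • m := by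
  rw [← Nat.cast_smul_eq_nsmul (ZMod p), ZMod.natCast_zmod_val]

omit [Fact p.Prime] in
theorem h97_mod_nsmul {A : Type*} [AddCommGroup A] (y : A) (hy : p • y = 0) (n : ℕ) :
    (n % p) • y = n • y := by
  conv_rhs => rw [← Nat.mod_add_div n p, add_nsmul, mul_nsmul, hy, nsmul_zero, add_zero]

theorem h97_val_add_nsmul {A : Type*} [AddCommGroup A] (y : A) (hy : p • y = 0)
    (a a' : ZMod p) : (a + a').val • y = a.val • y + a'.val • y := by
  rw [ZMod.val_add, h97_mod_nsmul y hy, add_nsmul]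

/-- Lifting an additive map from an `𝔽_p`-vector space through a map which is surjective on
`p`-torsion. -/
theorem h97_exists_lift {M JJ CC : Type*} [AddCommGroup M] [Module (ZMod p) M]
    [AddCommGroup JJ] [AddCommGroup CC] (j : JJ →+ CC)
    (hsurj : ∀ c : CC, p • c = 0 → ∃ x : JJ, p • x = 0 ∧ j x = c) (φ : M →+ CC) :
    ∃ ψ : M →+ JJ, ∀ m, j (ψ m) = φ m := by
  classical
  let b := Module.Free.chooseBasis (ZMod p) M
  have hx : ∀ i, ∃ x : JJ, p • x = 0 ∧ j x = φ (b i) := fun i =>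
    hsurj _ (by rw [← map_nsmul, h97_nsmul_eq_zero_of_zmod, map_zero])
  choose x hx0 hxj using hx
  let ψ : M →+ JJ :=
    { toFun := fun m => (b.repr m).sum (fun i a => a.val • x i)
      map_zero' := by simp
      map_add' := fun m m' => by
        rw [map_add, Finsupp.sum_add_index']
        · intro i; simp
        · intro i a a'; exact h97_val_add_nsmul (x i) (hx0 i) a a' }
  refine ⟨ψ, fun m => ?_⟩
  change j ((b.repr m).sum (fun i a => a.val • x i)) = φ m
  rw [map_finsuppSum]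
  conv_rhs => rw [← b.linearCombination_repr m, Finsupp.linearCombination_apply, map_finsuppSum]
  refine Finsupp.sum_congr fun i _ => ?_
  rw [map_nsmul, hxj i, h97_zmod_smul_eq_val_nsmul, map_nsmul]

end Lift

section S1

variable {p : ℕ} [Fact p.Prime]

/-- The value of the twisted dual action. -/
theorem h97_dualTwist_ρ_apply_apply (M : Rep (ZMod p) GQ) (g : GQ)
    (b : Module.Dual (ZMod p) M) (m : M) :
    (M.dualTwist (cycloChar p)).ρ g b m = (cycloChar p g : ZMod p) * b (M.ρ g⁻¹ m) := rfl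

/-- **Step (S1).**  The connecting map `δ : H → H¹(G_ℚ, M')` with `range δ = sha₁` and
`ker δ = I`, from the Kummer sequence `0 → μ_p → JJ[p] → CC[p] → 0`, smoothness of `JJ[p]` and
the Shapiro structure of `JJ[p]`. -/
theorem h97_S1_of_facts (hp2 : p ≠ 2) (S : Finset Nat.Primes)
    (M : Rep (ZMod p) GQ) [FiniteDimensional (ZMod p) M]
    -- a level unramified outside `S` trivialising `M`
    (K₀ : IntermediateField ℚ Qb) (hK₀ : K₀.IsUnramifiedOutside S)
    (hK₀M : ∀ s ∈ K₀.fixingSubgroup, M.ρ s = 1)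
    -- the idele module and the class module, as `G_ℚ`-modules
    {JJ CC : Type*} [AddCommGroup JJ] [DistribMulAction GQ JJ] [AddCommGroup CC]
    [DistribMulAction GQ CC]
    (j : JJ →+ CC) (hj : ∀ (g : GQ) (x : JJ), j (g • x) = g • j x)
    -- `H`, `ev`, `I`
    {H : Type} [AddCommGroup H] [Module (ZMod p) H] (ev : H →+ (M →+ CC))
    (hev : ∀ (f : H) (g : GQ) (m : M), ev f (M.ρ g m) = g • ev f m)
    (hevsurj : ∀ φ : M →+ CC, (∀ (g : GQ) (m : M), φ (M.ρ g m) = g • φ m) → ∃ f : H, ev f = φ)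
    (I : Submodule (ZMod p) H)
    (hI : ∀ f : H, f ∈ I ↔ ∃ ψ : M →+ JJ, (∀ (g : GQ) (m : M), ψ (M.ρ g m) = g • ψ m) ∧
      ∀ m, j (ψ m) = ev f m)
    -- (KUMSEQ) `0 → μ_p → JJ[p] → CC[p] → 0`
    (μ : ZMod p →+ JJ) (hμinj : Function.Injective μ)
    (hμ : ∀ (g : GQ) (a : ZMod p), g • μ a = μ ((cycloChar p g : ZMod p) * a))
    (hjμ : ∀ a, j (μ a) = 0)
    (hker : ∀ x : JJ, p • x = 0 → j x = 0 → ∃ a, μ a = x)
    (hsurj : ∀ c : CC, p • c = 0 → ∃ x : JJ, p • x = 0 ∧ j x = c)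
    -- smoothness of `JJ[p]`
    (hsmooth : ∀ x : JJ, p • x = 0 → ∃ F : IntermediateField ℚ Qb, F.IsUnramifiedOutside S ∧
      ∀ s ∈ F.fixingSubgroup, s • x = x)
    -- (SHAPIRO) `JJ[p] = ∏_{q ∈ S} Coind_{G_q}^{G} μ_p` through evaluations `e q`
    (e : ↥S → JJ → ZMod p)
    (he_add : ∀ (q : ↥S) (x y : JJ), p • x = 0 → p • y = 0 → e q (x + y) = e q x + e q y)
    (he_semi : ∀ (q : ↥S) (τ : primeLocalGaloisGroup q.1) (x : JJ), p • x = 0 →
      e q (primeLocalToGlobal q.1 τ • x) =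
        (cycloChar p (primeLocalToGlobal q.1 τ) : ZMod p) * e q x)
    (he_μ : ∀ (q : ↥S) (a : ZMod p), e q (μ a) = a)
    (he_inj : ∀ x : JJ, p • x = 0 → (∀ (q : ↥S) (g : GQ), e q (g • x) = 0) → x = 0)
    (he_surj : ∀ a : ↥S → GQ → ZMod p,
      (∀ (q : ↥S) (τ : primeLocalGaloisGroup q.1) (g : GQ),
        a q (primeLocalToGlobal q.1 τ * g) =
          (cycloChar p (primeLocalToGlobal q.1 τ) : ZMod p) * a q g) →
      (∃ F : IntermediateField ℚ Qb, F.IsUnramifiedOutside S ∧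
        ∀ (q : ↥S) (g s : GQ), s ∈ F.fixingSubgroup → a q (g * s) = a q g) →
      ∃ x : JJ, p • x = 0 ∧ ∀ (q : ↥S) (g : GQ), e q (g • x) = a q g) :
    ∃ δ : H →ₗ[ZMod p] H1 (M.dualTwist (cycloChar p)),
      LinearMap.range δ = sha₁ S (M.dualTwist (cycloChar p)) ∧ LinearMap.ker δ = I := by
  classical
  -- `p`-torsion facts
  have hpM : ∀ m : M, p • m = 0 := fun m => h97_nsmul_eq_zero_of_zmod m
  have hpψ : ∀ (ψ : M →+ JJ) (m : M), p • ψ m = 0 := fun ψ m => by
    rw [← map_nsmul, hpM, map_zero]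
  have hpg : ∀ (g : GQ) (x : JJ), p • x = 0 → p • (g • x) = 0 := fun g x hx => by
    rw [← smul_comm g p x, hx, smul_zero]
  have hpμ : ∀ a : ZMod p, p • μ a = 0 := fun a => by
    rw [← map_nsmul, h97_nsmul_eq_zero_of_zmod, map_zero]
  -- the cochain attached to a lift
  have hcoc : ∀ ψ : M →+ JJ, (∀ (g : GQ) (m : M), j (ψ (M.ρ g m)) = g • j (ψ m)) →
      ∃ c : GQ → Module.Dual (ZMod p) M, ∀ g m, μ (c g m) = g • ψ (M.ρ g⁻¹ m) - ψ m := by
    intro ψ hψ
    have h1 : ∀ (g : GQ) (m : M), ∃ a : ZMod p, μ a = g • ψ (M.ρ g⁻¹ m) - ψ m := by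
      intro g m
      apply hker
      · rw [smul_sub, hpg g _ (hpψ ψ _), hpψ ψ m, sub_zero]
      · rw [map_sub, hj, ← hψ, Representation.self_inv_apply, sub_self]
    choose a ha using h1
    have hadd : ∀ g m m', a g (m + m') = a g m + a g m' := by
      intro g m m'
      apply hμinj
      rw [map_add μ, ha, ha, ha, map_add (M.ρ g⁻¹), map_add ψ, map_add ψ, smul_add]
      abel
    refine ⟨fun g => (AddMonoidHom.mk' (a g) (hadd g)).toZModLinearMap p, fun g m => ?_⟩
    exact ha g m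
  -- lifts of `ev f` are equivariant modulo `ker j`
  have hlifteq : ∀ (f : H) (ψ : M →+ JJ), (∀ m, j (ψ m) = ev f m) →
      ∀ (g : GQ) (m : M), j (ψ (M.ρ g m)) = g • j (ψ m) := fun f ψ hψ g m => by
    rw [hψ, hψ, hev]
  -- the cochain of a lift is a cocycle of `M' = M.dualTwist (cycloChar p)`
  have hcocycle : ∀ (ψ : M →+ JJ) (c : GQ → Module.Dual (ZMod p) M),
      (∀ g m, μ (c g m) = g • ψ (M.ρ g⁻¹ m) - ψ m) →
      c ∈ cocycles₁ (M.dualTwist (cycloChar p)) := by
    intro ψ c hc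
    rw [mem_cocycles₁_iff]
    intro g h
    refine LinearMap.ext fun m => hμinj ?_
    have e1 : μ (c (g * h) m) = g • h • ψ (M.ρ h⁻¹ (M.ρ g⁻¹ m)) - ψ m := by
      rw [hc, mul_smul, mul_inv_rev, map_mul]
      rfl
    have e2 : μ ((M.dualTwist (cycloChar p)).ρ g (c h) m) =
        g • (h • ψ (M.ρ h⁻¹ (M.ρ g⁻¹ m)) - ψ (M.ρ g⁻¹ m)) := by
      rw [h97_dualTwist_ρ_apply_apply, ← hμ, hc]
    have e3 := hc g m
    change μ (c (g * h) m) = μ ((M.dualTwist (cycloChar p)).ρ g (c h) m + c g m)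
    rw [map_add, e1, e2, e3, smul_sub]
    abel
  -- subtraction for the evaluations
  have he_sub : ∀ (q : ↥S) (x y : JJ), p • x = 0 → p • y = 0 → e q (x - y) = e q x - e q y := by
    intro q x y hx hy
    have := he_add q (x - y) y (by rw [smul_sub, hx, hy, sub_zero]) hy
    rw [sub_add_cancel] at this
    rw [this, add_sub_cancel_right]
  -- two `p`-torsion elements with the same evaluations are equal
  have heq : ∀ x y : JJ, p • x = 0 → p • y = 0 → (∀ (q : ↥S) (g : GQ), e q (g • x) = e q (g • y)) →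
      x = y := by
    intro x y hx hy h
    have := he_inj (x - y) (by rw [smul_sub, hx, hy, sub_zero]) (fun q g => by
      rw [smul_sub, he_sub q _ _ (hpg g x hx) (hpg g y hy), h, sub_self])
    exact sub_eq_zero.1 this
  -- the graph of `δ`
  let R : H → H1 (M.dualTwist (cycloChar p)) → Prop := fun f x =>
    ∃ (ψ : M →+ JJ) (c : cocycles₁ (M.dualTwist (cycloChar p))),
      (∀ m, j (ψ m) = ev f m) ∧
      (∀ g m, μ ((c.1 g : Module.Dual (ZMod p) M) m) = g • ψ (M.ρ g⁻¹ m) - ψ m) ∧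
      (H1π (M.dualTwist (cycloChar p))).hom c = x
  have hRex : ∀ f, ∃ x, R f x := fun f => by
    obtain ⟨ψ, hψ⟩ := h97_exists_lift j hsurj (ev f)
    obtain ⟨c, hc⟩ := hcoc ψ (hlifteq f ψ hψ)
    exact ⟨_, ψ, ⟨c, hcocycle ψ c hc⟩, hψ, hc, rfl⟩
  have hRuniq : ∀ f x x', R f x → R f x' → x = x' := by
    rintro f x x' ⟨ψ, c, hψ, hc, rfl⟩ ⟨ψ', c', hψ', hc', rfl⟩
    have h1 : ∀ m, ∃ a, μ a = ψ m - ψ' m := fun m =>
      hker _ (by rw [smul_sub, hpψ, hpψ, sub_zero]) (by rw [map_sub, hψ, hψ', sub_self])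
    choose b hb using h1
    have hbadd : ∀ m m', b (m + m') = b m + b m' := by
      intro m m'
      apply hμinj
      rw [map_add μ, hb, hb, hb, map_add ψ, map_add ψ']
      abel
    let bl : Module.Dual (ZMod p) M := (AddMonoidHom.mk' b hbadd).toZModLinearMap p
    rw [← sub_eq_zero, ← map_sub, h97_H1π_eq_zero_iff]
    refine ⟨bl, fun g => LinearMap.ext fun m => hμinj ?_⟩
    change μ ((c.1 g : Module.Dual (ZMod p) M) m - (c'.1 g : Module.Dual (ZMod p) M) m) =
      μ ((M.dualTwist (cycloChar p)).ρ g bl m - b m)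
    rw [map_sub, map_sub, hc, hc', h97_dualTwist_ρ_apply_apply, ← hμ]
    change _ = g • μ (b (M.ρ g⁻¹ m)) - μ (b m)
    rw [hb, hb, smul_sub]
    abel
  have hRadd : ∀ f f' x x', R f x → R f' x' → R (f + f') (x + x') := by
    rintro f f' x x' ⟨ψ, c, hψ, hc, rfl⟩ ⟨ψ', c', hψ', hc', rfl⟩
    refine ⟨ψ + ψ', c + c', fun m => ?_, fun g m => ?_, map_add _ _ _⟩
    · rw [AddMonoidHom.add_apply, map_add, hψ, hψ', map_add, AddMonoidHom.add_apply]
    · change μ ((c.1 g : Module.Dual (ZMod p) M) m + (c'.1 g : Module.Dual (ZMod p) M) m) =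
        g • (ψ (M.ρ g⁻¹ m) + ψ' (M.ρ g⁻¹ m)) - (ψ m + ψ' m)
      rw [map_add, hc, hc', smul_add]
      abel
  choose δ₀ hδ₀ using hRex
  let δa : H →+ H1 (M.dualTwist (cycloChar p)) := AddMonoidHom.mk' δ₀ (fun f f' =>
    hRuniq _ _ _ (hδ₀ (f + f')) (hRadd _ _ _ _ (hδ₀ f) (hδ₀ f')))
  let δ : H →ₗ[ZMod p] H1 (M.dualTwist (cycloChar p)) := δa.toZModLinearMap p
  have hδdef : ∀ f, δ f = δ₀ f := fun f => rfl
  have hδ : ∀ f x, R f x → δ f = x := fun f x h => hRuniq _ _ _ (hδ₀ f) h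
  have hK₀M' : ∀ s ∈ K₀.fixingSubgroup, M.ρ s⁻¹ = 1 := fun s hs =>
    hK₀M s⁻¹ (Subgroup.inv_mem _ hs)
  refine ⟨δ, le_antisymm ?_ ?_, ?_⟩
  · -- `range δ ≤ sha₁`
    rintro x ⟨f, rfl⟩
    obtain ⟨ψ, c, hψ, hc, hx⟩ := hδ₀ f
    rw [hδdef, ← hx]
    -- level-constancy of the cocycle
    have : Finite M := Module.finite_of_finite (ZMod p)
    choose Fm hFm1 hFm2 using fun m : M => hsmooth (ψ m) (hpψ ψ m)
    have hlev : IsLevelConstantS₁ S (c.1 : GQ → (M.dualTwist (cycloChar p))) := by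
      refine ⟨K₀ ⊔ ⨆ m, Fm m, hK₀.sup (h97_isUnramifiedOutside_iSup S Fm hFm1), fun g s hs => ?_⟩
      have hs1 : s ∈ K₀.fixingSubgroup := IntermediateField.fixingSubgroup_antitone le_sup_left hs
      have hs2 : ∀ m, s • ψ m = ψ m := fun m => hFm2 m s
        (IntermediateField.fixingSubgroup_antitone ((le_iSup Fm m).trans le_sup_right) hs)
      refine LinearMap.ext fun m => hμinj ?_
      change μ ((c.1 (g * s) : Module.Dual (ZMod p) M) m) = μ ((c.1 g : Module.Dual (ZMod p) M) m)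
      rw [hc, hc, mul_inv_rev, map_mul, hK₀M' s hs1, one_mul, mul_smul, hs2]
    refine (h97_H1π_mem_sha₁_iff S (M.dualTwist (cycloChar p)) hp2 c hlev).2 fun q => ?_
    have hbadd : ∀ m m', e q (ψ (m + m')) = e q (ψ m) + e q (ψ m') := fun m m' => by
      rw [map_add, he_add q _ _ (hpψ ψ m) (hpψ ψ m')]
    let bl : Module.Dual (ZMod p) M :=
      (AddMonoidHom.mk' (fun m => e q (ψ m)) hbadd).toZModLinearMap p
    refine ⟨bl, fun τ => LinearMap.ext fun m => ?_⟩
    change (c.1 (primeLocalToGlobal q.1 τ) : Module.Dual (ZMod p) M) m =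
      (M.dualTwist (cycloChar p)).ρ (primeLocalToGlobal q.1 τ) bl m - e q (ψ m)
    rw [h97_dualTwist_ρ_apply_apply, ← he_μ q ((c.1 (primeLocalToGlobal q.1 τ) :
      Module.Dual (ZMod p) M) m), hc, he_sub q _ _ (hpg _ _ (hpψ ψ _)) (hpψ ψ m),
      he_semi q τ _ (hpψ ψ _)]
    rfl
  · -- `sha₁ ≤ range δ`
    intro x hx
    obtain ⟨F, hle, hF, -, c, hcinv', hloc, rfl⟩ :=
      h97_sha₁_exists_rep S (M.dualTwist (cycloChar p)) hp2 K₀ hK₀ x hx
    choose bq hbq' using hloc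
    have hbq : ∀ (q : ↥S) (τ : primeLocalGaloisGroup q.1),
        (c.1 (primeLocalToGlobal q.1 τ) : Module.Dual (ZMod p) M) =
          (M.dualTwist (cycloChar p)).ρ (primeLocalToGlobal q.1 τ) (bq q) - bq q := hbq'
    have hcinv : ∀ g s, s ∈ F.fixingSubgroup →
        (c.1 (g * s) : Module.Dual (ZMod p) M) = c.1 g := hcinv'
    have hFM : ∀ s ∈ F.fixingSubgroup, M.ρ s = 1 := fun s hs =>
      hK₀M s (IntermediateField.fixingSubgroup_antitone hle hs)
    have hcc : ∀ g h, (c.1 (g * h) : Module.Dual (ZMod p) M) =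
        (M.dualTwist (cycloChar p)).ρ g (c.1 h) + c.1 g := (mem_cocycles₁_iff _).1 c.2
    -- the prescribed evaluations
    let a : M → ↥S → GQ → ZMod p := fun m q g =>
      (bq q : Module.Dual (ZMod p) M) (M.ρ g m) + (c.1 g : Module.Dual (ZMod p) M) (M.ρ g m)
    have ha1 : ∀ (m : M) (q : ↥S) (τ : primeLocalGaloisGroup q.1) (g : GQ),
        a m q (primeLocalToGlobal q.1 τ * g) =
          (cycloChar p (primeLocalToGlobal q.1 τ) : ZMod p) * a m q g := by
      intro m q τ g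
      change (bq q : Module.Dual (ZMod p) M) (M.ρ (primeLocalToGlobal q.1 τ * g) m) +
        (c.1 (primeLocalToGlobal q.1 τ * g) : Module.Dual (ZMod p) M)
          (M.ρ (primeLocalToGlobal q.1 τ * g) m) = _ * ((bq q : Module.Dual (ZMod p) M) (M.ρ g m) +
          (c.1 g : Module.Dual (ZMod p) M) (M.ρ g m))
      rw [hcc, hbq q τ, map_mul]
      change (bq q : Module.Dual (ZMod p) M) (M.ρ (primeLocalToGlobal q.1 τ) (M.ρ g m)) +
        ((M.dualTwist (cycloChar p)).ρ (primeLocalToGlobal q.1 τ) (c.1 g)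
            (M.ρ (primeLocalToGlobal q.1 τ) (M.ρ g m)) +
          ((M.dualTwist (cycloChar p)).ρ (primeLocalToGlobal q.1 τ) (bq q)
            (M.ρ (primeLocalToGlobal q.1 τ) (M.ρ g m)) -
            (bq q : Module.Dual (ZMod p) M) (M.ρ (primeLocalToGlobal q.1 τ) (M.ρ g m)))) = _
      rw [h97_dualTwist_ρ_apply_apply, h97_dualTwist_ρ_apply_apply,
        Representation.inv_self_apply]
      ring
    have ha2 : ∀ m : M, ∃ F' : IntermediateField ℚ Qb, F'.IsUnramifiedOutside S ∧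
        ∀ (q : ↥S) (g s : GQ), s ∈ F'.fixingSubgroup → a m q (g * s) = a m q g := fun m =>
      ⟨F, hF, fun q g s hs => by
        change (bq q : Module.Dual (ZMod p) M) (M.ρ (g * s) m) +
          (c.1 (g * s) : Module.Dual (ZMod p) M) (M.ρ (g * s) m) = _
        rw [hcinv g s hs, map_mul, hFM s hs, mul_one]⟩
    choose ψ₀ hψ₀p hψ₀e using fun m => he_surj (a m) (ha1 m) (ha2 m)
    have haadd : ∀ m m' q g, a (m + m') q g = a m q g + a m' q g := by
      intro m m' q g
      change (bq q : Module.Dual (ZMod p) M) (M.ρ g (m + m')) +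
        (c.1 g : Module.Dual (ZMod p) M) (M.ρ g (m + m')) =
        ((bq q : Module.Dual (ZMod p) M) (M.ρ g m) + (c.1 g : Module.Dual (ZMod p) M) (M.ρ g m)) +
        ((bq q : Module.Dual (ZMod p) M) (M.ρ g m') +
          (c.1 g : Module.Dual (ZMod p) M) (M.ρ g m'))
      rw [map_add, map_add, map_add]
      ring
    have hψ₀add : ∀ m m', ψ₀ (m + m') = ψ₀ m + ψ₀ m' := by
      intro m m'
      apply heq _ _ (hψ₀p _) (by rw [smul_add, hψ₀p, hψ₀p, add_zero])
      intro q g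
      rw [smul_add, he_add q _ _ (hpg g _ (hψ₀p m)) (hpg g _ (hψ₀p m')), hψ₀e, hψ₀e, hψ₀e,
        haadd]
    let ψ : M →+ JJ := AddMonoidHom.mk' ψ₀ hψ₀add
    have hrel : ∀ g m, μ ((c.1 g : Module.Dual (ZMod p) M) m) = g • ψ (M.ρ g⁻¹ m) - ψ m := by
      intro g m
      apply heq _ _ (hpμ _) (by
        change p • (g • ψ₀ (M.ρ g⁻¹ m) - ψ₀ m) = 0
        rw [smul_sub, hpg g _ (hψ₀p _), hψ₀p, sub_zero])
      intro q h
      change e q (h • μ ((c.1 g : Module.Dual (ZMod p) M) m)) =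
        e q (h • (g • ψ₀ (M.ρ g⁻¹ m) - ψ₀ m))
      rw [hμ, he_μ, smul_sub, he_sub q _ _ (hpg h _ (hpg g _ (hψ₀p _))) (hpg h _ (hψ₀p m)),
        ← mul_smul, hψ₀e, hψ₀e]
      change _ = ((bq q : Module.Dual (ZMod p) M) (M.ρ (h * g) (M.ρ g⁻¹ m)) +
        (c.1 (h * g) : Module.Dual (ZMod p) M) (M.ρ (h * g) (M.ρ g⁻¹ m))) -
        ((bq q : Module.Dual (ZMod p) M) (M.ρ h m) + (c.1 h : Module.Dual (ZMod p) M) (M.ρ h m))
      rw [hcc, map_mul]
      change _ = ((bq q : Module.Dual (ZMod p) M) (M.ρ h (M.ρ g (M.ρ g⁻¹ m))) +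
        ((M.dualTwist (cycloChar p)).ρ h (c.1 g) (M.ρ h (M.ρ g (M.ρ g⁻¹ m))) +
          (c.1 h : Module.Dual (ZMod p) M) (M.ρ h (M.ρ g (M.ρ g⁻¹ m))))) -
        ((bq q : Module.Dual (ZMod p) M) (M.ρ h m) + (c.1 h : Module.Dual (ZMod p) M) (M.ρ h m))
      rw [h97_dualTwist_ρ_apply_apply, Representation.self_inv_apply,
        Representation.inv_self_apply]
      ring
    have hjψ : ∀ (g : GQ) (m : M), (j.comp ψ) (M.ρ g m) = g • (j.comp ψ) m := by
      intro g m
      have h1 := congrArg j (hrel g (M.ρ g m))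
      rw [hjμ, map_sub, hj, Representation.inv_self_apply] at h1
      exact (sub_eq_zero.1 h1.symm).symm
    obtain ⟨f, hf⟩ := hevsurj (j.comp ψ) hjψ
    exact ⟨f, hδ f _ ⟨ψ, c, fun m => by rw [hf]; rfl, hrel, rfl⟩⟩
  · -- `ker δ = I`
    ext f
    rw [LinearMap.mem_ker, hI]
    constructor
    · intro h0
      obtain ⟨ψ, c, hψ, hc, hx⟩ := hδ₀ f
      have hc0 : (H1π (M.dualTwist (cycloChar p))).hom c = 0 := by rw [hx, ← hδdef, h0]
      obtain ⟨b, hb'⟩ := (h97_H1π_eq_zero_iff (M.dualTwist (cycloChar p)) c).1 hc0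
      have hb : ∀ g, (c.1 g : Module.Dual (ZMod p) M) =
          (M.dualTwist (cycloChar p)).ρ g b - b := hb'
      let bl : M →+ ZMod p := (b : Module.Dual (ZMod p) M).toAddMonoidHom
      refine ⟨ψ - μ.comp bl, fun g m => ?_, fun m => ?_⟩
      · have h1 := hc g (M.ρ g m)
        rw [Representation.inv_self_apply] at h1
        have h2 : (c.1 g : Module.Dual (ZMod p) M) (M.ρ g m) =
            (cycloChar p g : ZMod p) * (b : Module.Dual (ZMod p) M) m -
              (b : Module.Dual (ZMod p) M) (M.ρ g m) := by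
          rw [hb g]
          change (M.dualTwist (cycloChar p)).ρ g b (M.ρ g m) -
            (b : Module.Dual (ZMod p) M) (M.ρ g m) = _
          rw [h97_dualTwist_ρ_apply_apply, Representation.inv_self_apply]
        rw [h2, map_sub, ← hμ] at h1
        change ψ (M.ρ g m) - μ ((b : Module.Dual (ZMod p) M) (M.ρ g m)) =
          g • (ψ m - μ ((b : Module.Dual (ZMod p) M) m))
        rw [smul_sub, ← sub_eq_zero]
        have h3 := sub_eq_zero.2 h1
        have h4 : ψ (M.ρ g m) - μ ((b : Module.Dual (ZMod p) M) (M.ρ g m)) -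
            (g • ψ m - g • μ ((b : Module.Dual (ZMod p) M) m)) =
            g • μ ((b : Module.Dual (ZMod p) M) m) -
              μ ((b : Module.Dual (ZMod p) M) (M.ρ g m)) - (g • ψ m - ψ (M.ρ g m)) := by
          abel
        rw [h4, h3]
      · change j (ψ m - μ ((b : Module.Dual (ZMod p) M) m)) = ev f m
        rw [map_sub, hψ, hjμ, sub_zero]
    · rintro ⟨ψ, hψeq, hψ⟩
      refine hδ f 0 ⟨ψ, 0, hψ, fun g m => ?_, map_zero _⟩
      change μ 0 = _
      rw [← hψeq g, Representation.self_inv_apply, sub_self, map_zero]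

end S1

end Fermat.Agent.S55
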