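import Fermat.Agent.S55.h56_AssemblyRK
import Fermat.Agent.S55.h56_NormSplit
import Fermat.Agent.S55.h40_InfRes
import Fermat.Agent.S55.h97_AssemblyS1

/-!
# S55, assembly layer: the fact `(LK)` from `adt_D2`, `(CF)`, `(EX)` and `(UNORM)`

`(LK)`: an equivariant map `f : M → CC` such that `f ∘ c` is a level coboundary for every level
`2`-cocycle `c` of `G_ℚ` in `M` lifts to an equivariant map `M → JJ` (i.e. `f ∈ I`).

Inputs, in the ambient language (`CC`, `JJ` are `G_ℚ`-modules, `j : JJ → CC` equivariant; level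
`L` object = `h56_Inv L.U CC` with `G_ℚ ⧸ L.U` acting):
* `h56_ADT2Statement p` : the statement of `adt_D2` (H layer), verbatim;
* `(CF)`, `(EX)` as in `h56_RK_of_adt`;
* `(UNORM)` : there is a level `L₁ ≥ L₀` such that the norm `N_{L₁/L₀}` of every `p`-torsion
  element of `CC^{U_{L₁}}` is the image of a `U_{L₀}`-invariant `p`-torsion element of `JJ`.
-/

set_option autoImplicit false
set_option linter.unusedSectionVars false
set_option linter.unusedVariables false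
set_option maxHeartbeats 400000

open CategoryTheory Module groupCohomology ExtCitation

namespace Fermat.Agent.S55

local notation "GQ" => (AlgebraicClosure ℚ ≃ₐ[ℚ] AlgebraicClosure ℚ)

/-- The statement of `adt_D2` (abstract duality theorem, left kernel), verbatim from the `H`
layer, as a proposition. -/
def h56_ADT2Statement (p : ℕ) : Prop :=
  ∀ {G' G : Type} [Group G'] [Group G] [Finite G'] (π : G' →* G) (_ : Function.Surjective π)
    {C' C : Type} [AddCommGroup C'] [DistribMulAction G' C'] [AddCommGroup C]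
    [DistribMulAction G C]
    (ι : C →+ C') (_ : Function.Injective ι) (_ : ∀ (g : G') (c : C), ι (π g • c) = g • ι c)
    (_ : ∀ c' : C', (∀ s ∈ π.ker, s • c' = c') → c' ∈ ι.range)
    (_ : IsPClassModule p G' C')
    (_ : ∀ c' : C', ∃ c : C, ∑ᶠ s : π.ker, (s : G') • c' = ι (p • c))
    {M : Type} [AddCommGroup M] [DistribMulAction G M] [Finite M] (_ : ∀ m : M, p • m = 0)
    (f : M →+ C) (_ : ∀ (g : G) (m : M), f (g • m) = g • f m)
    (_ : ∀ y' : G' × G' → M, IsCocycle₂Via π y' →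
      IsCoboundary₂ (fun x : G' × G' => ι (f (y' x)))),
    ∃ h : M →+ C, ∀ m : M, f m = ∑ᶠ g : G, g • h (g⁻¹ • m)

section LK

variable {p : ℕ} [Fact p.Prime] (S : Finset Nat.Primes) (M : Rep.{0, 0, 0} (ZMod p) GQ)
  {CC : Type} [AddCommGroup CC] [DistribMulAction GQ CC]

/-- **(LK) from `adt_D2` + (CF) + (EX) + (UNORM).** -/
theorem h56_LK_of_adt [Finite M] (hadt : h56_ADT2Statement p)
    (L₀ : h56_Level S) (hL₀M : ∀ s ∈ L₀.U, ∀ m : M, M.ρ s m = m)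
    (hCF : ∀ L : h56_Level S, L₀ ≤ L → IsPClassModule p (GQ ⧸ L.U) (h56_Inv L.U CC))
    (hEX : ∀ L : h56_Level S, L₀ ≤ L → ∃ (L' : h56_Level S) (h : L ≤ L'),
      ∀ c' : h56_Inv L'.U CC, ∃ c : h56_Inv L.U CC,
        ∑ᶠ s : (h56_quotMap (h56_Level.U_anti h)).ker, (s : GQ ⧸ L'.U) • c' =
          h56_invIncl (h56_Level.U_anti h) (p • c))
    {JJ : Type*} [AddCommGroup JJ] [DistribMulAction GQ JJ] (j : JJ →+ CC)
    (hj : ∀ (g : GQ) (x : JJ), j (g • x) = g • j x)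
    (hUNORM : ∃ (L₁ : h56_Level S) (h : L₀ ≤ L₁), ∀ c' : h56_Inv L₁.U CC, p • c' = 0 →
      ∃ φ : JJ, (∀ s ∈ L₀.U, s • φ = φ) ∧ p • φ = 0 ∧
        j φ = ((∑ᶠ s : (h56_quotMap (h56_Level.U_anti h)).ker, (s : GQ ⧸ L₁.U) • c' :
          h56_Inv L₁.U CC) : CC))
    (f : M →+ CC) (hf : ∀ (g : GQ) (m : M), f (M.ρ g m) = g • f m)
    (hperp : ∀ c : ↥(levelCocyclesS₂ S M),
      (fun x : GQ × GQ => f ((c : GQ × GQ → M) x)) ∈ h56_levelCobS₂ S CC) :
    ∃ ψ : M →+ JJ, (∀ (g : GQ) (m : M), ψ (M.ρ g m) = g • ψ m) ∧ ∀ m, j (ψ m) = f m := by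
  classical
  let _ : DistribMulAction GQ M := h56_repAction M
  obtain ⟨L₁, h01, hU⟩ := hUNORM
  obtain ⟨L₂, h12, hnorm⟩ := hEX L₁ h01
  have hU01 : L₁.U ≤ L₀.U := h56_Level.U_anti h01
  have hU12 : L₂.U ≤ L₁.U := h56_Level.U_anti h12
  have hMinv : ∀ m : M, m ∈ h56_Inv L₁.U M := fun m s hs => hL₀M s (hU01 hs) m
  have hpM0 : ∀ m : M, p • m = 0 := fun m => by
    rw [← Nat.cast_smul_eq_nsmul (ZMod p), ZMod.natCast_self, zero_smul]
  have hpM : ∀ m : h56_Inv L₁.U M, p • m = 0 := fun m => Subtype.ext (hpM0 (m : M))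
  let toInv : M →+ h56_Inv L₁.U M := AddMonoidHom.mk' (fun m => ⟨m, hMinv m⟩) (fun a b => rfl)
  have hf' : ∀ (g : GQ) (a : M), f (g • a) = g • f a := hf
  let fbar : h56_Inv L₁.U M →+ h56_Inv L₁.U CC := h56_Inv.map f hf'
  have hfbar : ∀ (q : GQ ⧸ L₁.U) (m : h56_Inv L₁.U M), fbar (q • m) = q • fbar m :=
    h56_Inv.map_smul f hf'
  obtain ⟨h, hh⟩ := hadt (h56_quotMap hU12) (h56_quotMap_surjective hU12) (h56_invIncl hU12)
    (h56_invIncl_injective hU12) (fun g a => h56_invIncl_smul hU12 g a)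
    (fun c' hc' => h56_mem_range_invIncl hU12 c' hc') (hCF L₂ (h01.trans h12)) hnorm
    (M := h56_Inv L₁.U M) hpM fbar hfbar (by
      intro y' hy'
      -- the inflation of `y'` to `G_ℚ`
      let c : GQ × GQ → M := fun x => (y' ((x.1 : GQ ⧸ L₂.U), (x.2 : GQ ⧸ L₂.U)) : M)
      have hc_coc : c ∈ cocycles₂ M := by
        rw [mem_cocycles₂_iff]
        intro g g' g''
        exact congrArg Subtype.val (hy' (g : GQ ⧸ L₂.U) (g' : GQ ⧸ L₂.U) (g'' : GQ ⧸ L₂.U))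
      have hc_lev : h56_IsLevel₂ L₂.U c := by
        intro g g' s s' hs hs'
        show (y' (((g * s : GQ) : GQ ⧸ L₂.U), ((g' * s' : GQ) : GQ ⧸ L₂.U)) : M) =
          (y' ((g : GQ ⧸ L₂.U), (g' : GQ ⧸ L₂.U)) : M)
        rw [QuotientGroup.mk_mul_of_mem g hs, QuotientGroup.mk_mul_of_mem g' hs']
      have hcS : c ∈ levelCocyclesS₂ S M :=
        (mem_levelCocyclesS₂_iff S M c).2
          ⟨hc_coc, (h56_isLevelConstantS₂_iff L₀ c).2 ⟨L₂, h01.trans h12, hc_lev⟩⟩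
      obtain ⟨x, hxlev, hxd⟩ := hperp ⟨c, hcS⟩
      obtain ⟨L₃, h23, hL₃⟩ := (h56_isLevelConstantS₁_iff L₂ x).1 hxlev
      have hU23 : L₃.U ≤ L₂.U := h56_Level.U_anti h23
      -- the cocycle `z = ι ∘ f̄ ∘ y'` of `G_ℚ ⧸ U₂`
      have hz : IsCocycle₂ (fun a : (GQ ⧸ L₂.U) × (GQ ⧸ L₂.U) => h56_invIncl hU12 (fbar (y' a))) := by
        intro a b d
        show h56_invIncl hU12 (fbar (y' (a * b, d))) + h56_invIncl hU12 (fbar (y' (a, b))) =
          a • h56_invIncl hU12 (fbar (y' (b, d))) + h56_invIncl hU12 (fbar (y' (a, b * d)))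
        rw [← map_add, ← map_add, hy' a b d, map_add, map_add, hfbar, h56_invIncl_smul]
      refine h40_E8b (h56_quotMap hU23) (h56_invIncl hU23) (h56_quotMap_surjective hU23)
        (h56_invIncl_injective hU23) (fun g a => h56_invIncl_smul hU23 g a)
        (fun c' hc' => h56_mem_range_invIncl hU23 c' hc')
        ((hCF L₃ ((h01.trans h12).trans h23)).h1 _) _ hz ?_
      refine (h56_isCoboundary₂_tower_iff hU23
        (fun a : (GQ ⧸ L₂.U) × (GQ ⧸ L₂.U) => h56_invIncl hU12 (fbar (y' a)))).2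
        ⟨x, hL₃, fun g g' => ?_⟩
      exact hxd g g')
  -- the norm from level `L₁` to level `L₀`
  let νK : h56_Inv L₁.U CC →+ h56_Inv L₁.U CC :=
    AddMonoidHom.mk' (fun c => ∑ᶠ k : (h56_quotMap hU01).ker, (k : GQ ⧸ L₁.U) • c) (fun a b => by
      rw [← finsum_add_distrib (Set.toFinite _) (Set.toFinite _)]
      exact finsum_congr fun k => smul_add _ a b)
  let Nh : M →+ CC := (h56_Inv L₁.U CC).subtype.comp (νK.comp (h.comp toInv))
  -- the `U₀`-invariant `p`-torsion of `JJ` and its image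
  let X₀ : AddSubgroup JJ := h56_Inv L₀.U JJ ⊓ (nsmulAddMonoidHom p : JJ →+ JJ).ker
  let CC₀ : AddSubgroup CC := X₀.map j
  have hNh : ∀ m : M, Nh m ∈ CC₀ := by
    intro m
    have hp0 : p • h (toInv m) = 0 := by
      rw [← map_nsmul, hpM, map_zero]
    obtain ⟨φ, hφ1, hφ2, hφ3⟩ := hU (h (toInv m)) hp0
    exact ⟨φ, ⟨hφ1, hφ2⟩, hφ3⟩
  let j₀ : ↥X₀ →+ ↥CC₀ :=
    (j.comp X₀.subtype).codRestrict CC₀ (fun x => ⟨x, x.2, rfl⟩)
  have hsurj₀ : ∀ c : ↥CC₀, p • c = 0 → ∃ x : ↥X₀, p • x = 0 ∧ j₀ x = c := by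
    intro c _
    obtain ⟨x, hx, hxc⟩ := c.2
    exact ⟨⟨x, hx⟩, Subtype.ext hx.2, Subtype.ext hxc⟩
  let φ₀ : M →+ ↥CC₀ := Nh.codRestrict CC₀ hNh
  obtain ⟨ψ₀, hψ₀⟩ := h97_exists_lift j₀ hsurj₀ φ₀
  let lam : M →+ JJ := X₀.subtype.comp ψ₀
  have hlam1 : ∀ m : M, ∀ s ∈ L₀.U, s • lam m = lam m := fun m => (ψ₀ m).2.1
  have hlam2 : ∀ m : M, j (lam m) = Nh m := fun m => congrArg Subtype.val (hψ₀ m)
  have hM0 : ∀ s ∈ L₀.U, ∀ m : M, s • m = m := hL₀M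
  refine ⟨h56_avg L₀.U lam, fun g m => h56_avg_smul L₀.U lam hM0 hlam1 g m, fun m => ?_⟩
  rw [h56_map_avg]
  -- the other side
  have h1 : f m = ((fbar (toInv m) : h56_Inv L₁.U CC) : CC) := rfl
  have hsec : ∀ t : GQ ⧸ L₀.U,
      h56_quotMap hU01 (((Quotient.out t : GQ) : GQ ⧸ L₁.U)) = t := by
    intro t
    rw [h56_quotMap_mk]
    exact QuotientGroup.out_eq' t
  have hB : ∀ k ∈ (h56_quotMap hU01).ker, ∀ b : h56_Inv L₁.U M, k • b = b := by
    intro k hk b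
    obtain ⟨s, hs, rfl⟩ := (h56_mem_ker_quotMap hU01 k).1 hk
    exact Subtype.ext (hL₀M s hs (b : M))
  rw [h1, hh (toInv m), h56_finsum_conj_fiberwise (h56_quotMap hU01)
    (fun t => ((Quotient.out t : GQ) : GQ ⧸ L₁.U)) hsec hB (fun b => h b) (toInv m)]
  have h2 : ((∑ᶠ t : GQ ⧸ L₀.U, ((Quotient.out t : GQ) : GQ ⧸ L₁.U) •
      ∑ᶠ k : (h56_quotMap hU01).ker, (k : GQ ⧸ L₁.U) •
        h ((((Quotient.out t : GQ) : GQ ⧸ L₁.U))⁻¹ • toInv m) : h56_Inv L₁.U CC) : CC) =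
      ∑ᶠ t : GQ ⧸ L₀.U, (((((Quotient.out t : GQ) : GQ ⧸ L₁.U) •
      ∑ᶠ k : (h56_quotMap hU01).ker, (k : GQ ⧸ L₁.U) •
        h ((((Quotient.out t : GQ) : GQ ⧸ L₁.U))⁻¹ • toInv m) : h56_Inv L₁.U CC)) : CC) :=
    AddMonoidHom.map_finsum (h56_Inv L₁.U CC).subtype (Set.toFinite _)
  rw [h2]
  refine finsum_congr fun t => ?_
  rw [hj, hlam2]
  rfl

end LK

end Fermat.Agent.S55
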