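import Fermat.Agent.S55.h21_ADTStmt
import Fermat.Agent.S55.h21_ADTFinalL
import Fermat.Agent.S55.h52_TNFinalR
import Fermat.Agent.S55.h56_AssemblyLK

/-!
# S55, layer H: ADT (D1), final form, and the statement forms used by the assembly layer

* `h21_adt_D1` is the README statement `adt_D1` verbatim, with no extra hypothesis:
  Tate-Nakayama (R) is `h52_tn_R`.
* `h21_ADT1Statement : h56_ADT1Statement p` and `h21_ADT2Statement : h56_ADT2Statement p` are the
  hypotheses `hadt` of `h56_RK_of_adt`, `h56_LK_of_adt`, now theorems.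
-/

set_option autoImplicit false

open groupCohomology

namespace Fermat.Agent.S55

/-- Tate-Nakayama (R) in statement form. -/
theorem h21_tnR {p : ℕ} [Fact p.Prime] : h21_TnRStatement p := by
  intro G _ _ C _ _ hC N _ _ _ _ y hy hperp
  exact h52_tn_R hC y hy hperp

/-- **ADT (D1)**: a `2`-cocycle of `G` in a finite `p`-torsion module `M`, whose inflation to
`G'` is killed by every `G`-homomorphism `M → C`, has coboundary inflation.  README statement,
verbatim. -/
theorem h21_adt_D1 {p : ℕ} [Fact p.Prime]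
    {G' G : Type} [Group G'] [Group G] [Finite G'] (π : G' →* G) (hπ : Function.Surjective π)
    {C' C : Type} [AddCommGroup C'] [DistribMulAction G' C'] [AddCommGroup C]
    [DistribMulAction G C]
    (ι : C →+ C') (hι : Function.Injective ι) (hιeq : ∀ (g : G') (c : C), ι (π g • c) = g • ι c)
    (hιfix : ∀ c' : C', (∀ s ∈ π.ker, s • c' = c') → c' ∈ ι.range)
    (hC' : IsPClassModule p G' C')
    (hnorm : ∀ c' : C', ∃ c : C, ∑ᶠ s : π.ker, (s : G') • c' = ι (p • c))
    {M : Type} [AddCommGroup M] [DistribMulAction G M] [Finite M] (hpM : ∀ m : M, p • m = 0)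
    (y : G × G → M) (hy : IsCocycle₂ y)
    (hperp : ∀ f : M →+ C, (∀ (g : G) (m : M), f (g • m) = g • f m) →
      IsCoboundary₂ (fun x : G' × G' => ι (f (y (π x.1, π x.2))))) :
    IsCoboundary₂Via π (fun x : G' × G' => y (π x.1, π x.2)) :=
  h21_adt_D1_of_tnR h21_tnR π hπ ι hι hιeq hιfix hC' hnorm hpM y hy hperp

/-- The hypothesis `hadt` of `h56_RK_of_adt`, unconditionally. -/
theorem h21_ADT1Statement {p : ℕ} [Fact p.Prime] : h56_ADT1Statement p :=
  h21_ADT1Statement_of_tnR h21_tnR

/-- The hypothesis `hadt` of `h56_LK_of_adt`, unconditionally. -/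
theorem h21_ADT2Statement {p : ℕ} [Fact p.Prime] : h56_ADT2Statement p := by
  intro G' G _ _ _ π hπ C' C _ _ _ _ ι hι hιeq hιfix hC' hnorm M _ _ _ hpM f hf hperp
  exact h21_adt_D2 π hπ ι hι hιeq hιfix hC' hnorm hpM f hf hperp

end Fermat.Agent.S55
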