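import Fermat.Agent.S55.h21_ADTZ
import Fermat.Agent.S55.h56_AssemblyRK

/-!
# S55, layer H: ADT in the statement-as-proposition form of the assembly

`h21_TnRStatement p`, `h21_TnLStatement p` are the Tate-Nakayama statements `tn_R`, `tn_L`
(ruling R7, `ℤ`-lattices) for the prime `p`, as propositions.

* `h21_ADT1Statement_of_tnR` : `h21_TnRStatement p → h56_ADT1Statement p` (the hypothesis `hadt`
  of `h56_RK_of_adt`);
* `h21_adt_D1_of_tnR`, `h21_adt_D2_of_tnL` : the README statements `adt_D1`, `adt_D2` verbatim,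
  from `h21_TnRStatement p` resp. `h21_TnLStatement p`.
-/

set_option autoImplicit false

open groupCohomology

namespace Fermat.Agent.S55

/-- The statement of `tn_R` (Tate-Nakayama (R) for `ℤ`-lattices) for the prime `p`. -/
def h21_TnRStatement (p : ℕ) : Prop :=
  ∀ {G : Type} [Group G] [Finite G]
    {C : Type} [AddCommGroup C] [DistribMulAction G C] (_ : IsPClassModule p G C)
    {N : Type} [AddCommGroup N] [DistribMulAction G N] [Module.Free ℤ N] [Module.Finite ℤ N]
    (y : G × G → N) (_ : IsCocycle₂ y)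
    (_ : ∀ f : N →+ C, (∀ (g : G) (n : N), f (g • n) = g • f n) →
      IsCoboundary₂ (fun x : G × G => f (y x))),
    ∃ m : ℕ, m.Coprime p ∧ IsCoboundary₂ (m • y)

/-- The statement of `tn_L` (Tate-Nakayama (L) for `ℤ`-lattices) for the prime `p`. -/
def h21_TnLStatement (p : ℕ) : Prop :=
  ∀ {G : Type} [Group G] [Finite G]
    {C : Type} [AddCommGroup C] [DistribMulAction G C] (_ : IsPClassModule p G C)
    {N : Type} [AddCommGroup N] [DistribMulAction G N] [Module.Free ℤ N] [Module.Finite ℤ N]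
    (f : N →+ C) (_ : ∀ (g : G) (n : N), f (g • n) = g • f n)
    (_ : ∀ y : G × G → N, IsCocycle₂ y → IsCoboundary₂ (fun x : G × G => f (y x))),
    ∃ h : N →+ C, ∀ n : N, f n = ∑ᶠ g : G, g • h (g⁻¹ • n)

/-- **ADT (D1)**, README statement verbatim, from Tate-Nakayama (R). -/
theorem h21_adt_D1_of_tnR {p : ℕ} [Fact p.Prime] (htn : h21_TnRStatement p)
    {G' G : Type} [Group G'] [Group G] [Finite G'] (π : G' →* G) (hπ : Function.Surjective π)
    {C' C : Type} [AddCommGroup C'] [DistribMulAction G' C'] [AddCommGroup C]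
    [DistribMulAction G C]
    (ι : C →+ C') (hι : Function.Injective ι) (hιeq : ∀ (g : G') (c : C), ι (π g • c) = g • ι c)
    (hιfix : ∀ c' : C', (∀ s ∈ π.ker, s • c' = c') → c' ∈ ι.range)
    (hC' : IsPClassModule p G' C')
    (hnorm : ∀ c' : C', ∃ c : C, ∑ᶠ s : π.ker, (s : G') • c' = ι (p • c))
    {M : Type} [AddCommGroup M] [DistribMulAction G M] [Finite M] (hpM : ∀ m : M, p • m = 0)
    (y : G × G → M) (hy : IsCocycle₂ y)
    (hperp : ∀ f : M →+ C, (∀ (g : G) (m : M), f (g • m) = g • f m) →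
      IsCoboundary₂ (fun x : G' × G' => ι (f (y (π x.1, π x.2))))) :
    IsCoboundary₂Via π (fun x : G' × G' => y (π x.1, π x.2)) :=
  h21_adt_D1_of_tn π hπ ι hι hιeq hιfix hnorm hpM
    (fun _ _ _ _ _ z hz hzperp => htn hC' z hz hzperp) y hy hperp

/-- **ADT (D2)**, README statement verbatim, from Tate-Nakayama (L). -/
theorem h21_adt_D2_of_tnL {p : ℕ} [Fact p.Prime] (htn : h21_TnLStatement p)
    {G' G : Type} [Group G'] [Group G] [Finite G'] (π : G' →* G) (hπ : Function.Surjective π)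
    {C' C : Type} [AddCommGroup C'] [DistribMulAction G' C'] [AddCommGroup C]
    [DistribMulAction G C]
    (ι : C →+ C') (hι : Function.Injective ι) (hιeq : ∀ (g : G') (c : C), ι (π g • c) = g • ι c)
    (_hιfix : ∀ c' : C', (∀ s ∈ π.ker, s • c' = c') → c' ∈ ι.range)
    (hC' : IsPClassModule p G' C')
    (hnorm : ∀ c' : C', ∃ c : C, ∑ᶠ s : π.ker, (s : G') • c' = ι (p • c))
    {M : Type} [AddCommGroup M] [DistribMulAction G M] [Finite M] (hpM : ∀ m : M, p • m = 0)
    (f : M →+ C) (hf : ∀ (g : G) (m : M), f (g • m) = g • f m)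
    (hperp : ∀ y' : G' × G' → M, IsCocycle₂Via π y' →
      IsCoboundary₂ (fun x : G' × G' => ι (f (y' x)))) :
    ∃ h : M →+ C, ∀ m : M, f m = ∑ᶠ g : G, g • h (g⁻¹ • m) :=
  h21_adt_D2_of_tn π hπ ι hι hιeq hnorm hpM
    (fun _ _ _ _ _ F hF hFperp => htn hC' F hF hFperp) f hf hperp

/-- The hypothesis `hadt` of `h56_RK_of_adt` from Tate-Nakayama (R). -/
theorem h21_ADT1Statement_of_tnR {p : ℕ} [Fact p.Prime] (htn : h21_TnRStatement p) :
    h56_ADT1Statement p := by
  intro G' G _ _ _ π hπ C' C _ _ _ _ ι hι hιeq hιfix hC' hnorm M _ _ _ hpM y hy hperp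
  exact h21_adt_D1_of_tnR htn π hπ ι hι hιeq hιfix hC' hnorm hpM y hy hperp

end Fermat.Agent.S55
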