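import Mathlib
import Fermat.Agent.S55.h21_ADT

/-!
# S55, layer H: ADT over `ℤ`-lattices (ruling R7)

The abstract duality theorem in the form of the project README (`adt_D1`, `adt_D2`), with the
two Tate-Nakayama statements `tn_R`, `tn_L` (for `ℤ`-lattices, i.e. `Module.Free ℤ` and
`Module.Finite ℤ`) taken as hypotheses.  The lattice cover is `h21_W π red` for
`red : (Fin d → ℤ) →+ M` a surjection with kernel `p • (Fin d → ℤ)`.

* `h21_adt_D1_core`: the lifted cocycle `z` with values in the cover, `q ∘ z = y ∘ π`, killed by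
  every `G'`-map into `C'`;
* `h21_adt_D1_of_TNZ`: (D1) from the weak form of (R) ("a prime-to-`p` multiple is a
  coboundary");
* `h21_exists_red`, `h21_lift_free`, `h21_addSubgroup_free`, `h21_addSubgroup_finite`: the
  instantiation `L₀ := Fin d → ℤ`;
* `h21_adt_D1_of_tn`, `h21_adt_D2_of_tn`: the README statements, with `tn_R` resp. `tn_L` as a
  hypothesis (and without the hypothesis `IsPClassModule`, which is only used by them).
-/

set_option autoImplicit false

open groupCohomology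

namespace Fermat.Agent.S55

section Core

/-- The lifted cocycle of ADT (D1): a 2-cocycle `z` of `G'` in the cover `h21_W π red` lifting
`y ∘ π`, which is killed by every `G'`-homomorphism into `C'`. -/
theorem h21_adt_D1_core {p : ℕ} {G' G : Type*} [Group G'] [Group G] [Finite G']
    (π : G' →* G) (hπ : Function.Surjective π)
    {C' C : Type*} [AddCommGroup C'] [DistribMulAction G' C'] [AddCommGroup C]
    [DistribMulAction G C]
    (ι : C →+ C') (hι : Function.Injective ι)
    (hιeq : ∀ (g : G') (c : C), ι (π g • c) = g • ι c)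
    (hιfix : ∀ c' : C', (∀ s ∈ π.ker, s • c' = c') → c' ∈ ι.range)
    (hnorm : ∀ c' : C', ∃ c : C, ∑ᶠ s : π.ker, (s : G') • c' = ι (p • c))
    {M : Type*} [AddCommGroup M] [DistribMulAction G M] (hpM : ∀ m : M, p • m = 0)
    {L₀ : Type*} [AddCommGroup L₀] (red : L₀ →+ M) (hred : Function.Surjective red)
    (hker : ∀ v : L₀, red v = 0 → ∃ w : L₀, v = p • w)
    (hlift : ∀ a : L₀ →+ C', (∀ v, ∃ c : C, a v = ι (p • c)) →
      ∃ c₀ : L₀ →+ C, ∀ v, a v = ι (p • c₀ v))
    (y : G × G → M) (hy : IsCocycle₂ y)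
    (hperp : ∀ f : M →+ C, (∀ (g : G) (m : M), f (g • m) = g • f m) →
      IsCoboundary₂ (fun x : G' × G' => ι (f (y (π x.1, π x.2))))) :
    ∃ z : G' × G' → h21_W π red, IsCocycle₂ z ∧
      (∀ x : G' × G', h21_q π red (z x) = y (π x.1, π x.2)) ∧
      ∀ F : h21_W π red →+ C', (∀ (g : G') (w : h21_W π red), F (g • w) = g • F w) →
        IsCoboundary₂ (fun x : G' × G' => F (z x)) := by
  classical
  have : Fintype G' := Fintype.ofFinite G'
  have : Finite G := Finite.of_surjective π hπ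
  have : Fintype G := Fintype.ofFinite G
  let s₀ : M → L₀ := Function.surjInv hred
  have hs₀ : ∀ m, red (s₀ m) = m := Function.surjInv_eq hred
  -- the cochain `t` and the lifted cocycle `ψ` over `G`
  let t : G → G → L₀ := fun g x => s₀ (y (x, g))
  have hψred : ∀ g h x : G, red (t h (x * g) - t (g * h) x + t g x) = x • y (g, h) := by
    intro g h x
    simp only [t, map_add, map_sub, hs₀]
    rw [sub_add_eq_add_sub, hy x g h, add_sub_cancel_right]
  let ψ : G → G → h21_W (MonoidHom.id G) red := fun g h =>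
    ⟨fun x => t h (x * g) - t (g * h) x + t g x, ⟨y (g, h), fun x => hψred g h x⟩⟩
  have hqψ : ∀ g h, h21_q (MonoidHom.id G) red (ψ g h) = y (g, h) := by
    intro g h
    show red (t h (1 * g) - t (g * h) 1 + t g 1) = y (g, h)
    rw [hψred, one_smul]
  have hψcoc : ∀ g h j : G, ψ (g * h) j + ψ g h = g • ψ h j + ψ g (h * j) := by
    intro g h j
    apply Subtype.ext; funext x
    show (t j (x * (g * h)) - t (g * h * j) x + t (g * h) x)
        + (t h (x * g) - t (g * h) x + t g x)
      = (t j (x * g * h) - t (h * j) (x * g) + t h (x * g))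
        + (t (h * j) (x * g) - t (g * (h * j)) x + t g x)
    simp only [mul_assoc]
    abel
  let y' : G' × G' → h21_W π red := fun x => h21_infl π red (ψ (π x.1) (π x.2))
  have hy' : IsCocycle₂ y' := by
    intro g h j
    show h21_infl π red (ψ (π (g * h)) (π j)) + h21_infl π red (ψ (π g) (π h))
      = g • h21_infl π red (ψ (π h) (π j)) + h21_infl π red (ψ (π g) (π (h * j)))
    rw [← h21_infl_smul, ← map_add, ← map_add, map_mul, map_mul, hψcoc]
  refine ⟨y', hy', fun x => ?_, fun F hF => ?_⟩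
  · show h21_q π red (h21_infl π red (ψ (π x.1) (π x.2))) = y (π x.1, π x.2)
    rw [h21_q_infl, hqψ]
  -- the norm map `a` and its lift `c₀`
  have : Fintype π.ker := Fintype.ofFinite _
  let a : L₀ →+ C' := ∑ s : π.ker,
    (DistribSMul.toAddMonoidHom C' (s : G')).comp (F.comp (h21_delta π red p hpM))
  have ha : ∀ v, a v = ∑ᶠ s : π.ker, (s : G') • F (h21_delta π red p hpM v) := by
    intro v
    rw [finsum_eq_sum_of_fintype]
    simp [a, AddMonoidHom.finsetSum_apply]
  obtain ⟨c₀, hc₀⟩ := hlift a (fun v => by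
    obtain ⟨c, hc⟩ := hnorm (F (h21_delta π red p hpM v))
    exact ⟨c, by rw [ha, hc]⟩)
  let G₀ : (G → L₀) →+ C := h21_G0 c₀
  -- `F ∘ infl` on multiples of `p`
  have hP : ∀ ψ₁ : G → L₀,
      F (h21_infl π red (h21_pfun red p hpM ψ₁)) = ι (G₀ (fun x => p • ψ₁ x)) := by
    intro ψ₁
    rw [h21_infl_pfun, map_sum]
    have h1 : ∀ g : G', F (g⁻¹ • h21_delta π red p hpM (ψ₁ (π g)))
        = g⁻¹ • F (h21_delta π red p hpM (ψ₁ (π g))) := fun g => hF _ _
    simp only [h1]
    rw [← Finset.sum_fiberwise Finset.univ (fun g : G' => π g)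
      (fun g => g⁻¹ • F (h21_delta π red p hpM (ψ₁ (π g))))]
    show _ = ι (h21_G0 c₀ (fun x => p • ψ₁ x))
    rw [h21_G0_apply, map_sum]
    refine Finset.sum_congr rfl (fun x _ => ?_)
    obtain ⟨g₀, hg₀⟩ := hπ x
    have h2 : ∑ g ∈ Finset.univ.filter (fun g => π g = x),
          g⁻¹ • F (h21_delta π red p hpM (ψ₁ (π g)))
        = ∑ g ∈ Finset.univ.filter (fun g => π g = x),
          g⁻¹ • F (h21_delta π red p hpM (ψ₁ x)) := by
      refine Finset.sum_congr rfl (fun g hg => ?_)
      rw [(Finset.mem_filter.1 hg).2]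
    rw [h2, h21_fiber_sum π ι hιeq x g₀ hg₀ (F (h21_delta π red p hpM (ψ₁ x)))
      (p • c₀ (ψ₁ x)) (by rw [← ha, hc₀]), map_nsmul]
  -- `F ∘ infl` lands in the range of `ι`
  have hΦ : ∀ w : h21_W (MonoidHom.id G) red, ∃ c : C, ι c = F (h21_infl π red w) := by
    intro w
    obtain ⟨c, hc⟩ := hιfix (F (h21_infl π red w)) (fun s hs => by
      rw [← hF, ← h21_infl_smul, MonoidHom.mem_ker.1 hs, one_smul])
    exact ⟨c, hc⟩
  choose Φ hΦ using hΦ
  let D : h21_W (MonoidHom.id G) red → C := fun w => Φ w - G₀ w.1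
  have hD_add : ∀ w w', D (w + w') = D w + D w' := by
    intro w w'
    have : Φ (w + w') = Φ w + Φ w' :=
      hι (by rw [hΦ, (h21_infl π red).map_add, F.map_add, ι.map_add, hΦ, hΦ])
    simp only [D, this, AddSubgroup.coe_add, map_add]
    abel
  have hD_smul : ∀ (x : G) w, D (x • w) = x • D w := by
    intro x w
    obtain ⟨g, rfl⟩ := hπ x
    have : Φ (π g • w) = π g • Φ w := hι (by rw [hΦ, h21_infl_smul, hF, ← hΦ, hιeq])
    simp only [D, this, smul_sub]
    congr 1
    exact h21_G0_translate c₀ (π g) w.1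
  have hD_p : ∀ ψ₁ : G → L₀, D (h21_pfun red p hpM ψ₁) = 0 := by
    intro ψ₁
    have : Φ (h21_pfun red p hpM ψ₁) = G₀ (fun x => p • ψ₁ x) := hι (by rw [hΦ, hP])
    simp only [D, this]
    exact sub_self _
  have hD_q : ∀ w w', h21_q (MonoidHom.id G) red w = h21_q (MonoidHom.id G) red w' →
      D w = D w' := by
    intro w w' h
    have h1 : ∀ x : G, ∃ v : L₀, w.1 x - w'.1 x = p • v := fun x => hker _ (by
      rw [map_sub, h21_q_spec, h21_q_spec, h, sub_self])
    choose ψ₁ hψ₁ using h1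
    have h2 : w - w' = h21_pfun red p hpM ψ₁ := by
      apply Subtype.ext; funext x
      exact hψ₁ x
    have h3 : D (w - w') = 0 := by rw [h2, hD_p]
    have h4 : D w = D (w - w') + D w' := by rw [← hD_add, sub_add_cancel]
    rw [h4, h3, zero_add]
  let wm : M → h21_W (MonoidHom.id G) red := fun m =>
    ⟨fun x => s₀ (x • m), ⟨m, fun x => hs₀ _⟩⟩
  have hwm : ∀ m, h21_q (MonoidHom.id G) red (wm m) = m := fun m => by
    show red (s₀ ((1 : G) • m)) = m
    rw [hs₀, one_smul]
  let f : M →+ C := AddMonoidHom.mk' (fun m => D (wm m)) (fun m m' => by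
    rw [← hD_add]
    exact hD_q _ _ (by rw [map_add, hwm, hwm, hwm]))
  have hf : ∀ (x : G) (m : M), f (x • m) = x • f m := by
    intro x m
    show D (wm (x • m)) = x • D (wm m)
    rw [← hD_smul]
    refine hD_q _ _ ?_
    rw [hwm, h21_q_smul, hwm]
    rfl
  have hΦf : ∀ w, Φ w = f (h21_q (MonoidHom.id G) red w) + G₀ w.1 := by
    intro w
    have : D w = D (wm (h21_q (MonoidHom.id G) red w)) := hD_q _ _ (by rw [hwm])
    show Φ w = D (wm _) + G₀ w.1
    rw [← this]
    simp [D]
  obtain ⟨γ, hγ⟩ := hperp f hf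
  refine ⟨fun g => γ g + ι (G₀ (t (π g))), fun g h => ?_⟩
  have e1 : F (y' (g, h)) = ι (f (y (π g, π h))) + ι (G₀ (ψ (π g) (π h)).1) := by
    show F (h21_infl π red (ψ (π g) (π h))) = _
    rw [← hΦ, hΦf, map_add, hqψ]
  have e2 : G₀ (ψ (π g) (π h)).1
      = π g • G₀ (t (π h)) - G₀ (t (π g * π h)) + G₀ (t (π g)) := by
    have e3 : (ψ (π g) (π h)).1
        = (fun x => t (π h) (x * π g)) - t (π g * π h) + t (π g) := rfl
    rw [e3, map_add, map_sub]
    congr 2
    exact h21_G0_translate c₀ (π g) (t (π h))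
  show g • (γ h + ι (G₀ (t (π h)))) - (γ (g * h) + ι (G₀ (t (π (g * h)))))
    + (γ g + ι (G₀ (t (π g)))) = F (y' (g, h))
  have hγ' : g • γ h - γ (g * h) + γ g = ι (f (y (π g, π h))) := hγ g h
  rw [e1, e2, ← hγ', map_add, map_sub, hιeq, map_mul, smul_add]
  abel

/-- **ADT (D1) from the weak form of Tate-Nakayama (R)** for the lattice cover
`W' = h21_W π red`: it is enough that a prime-to-`p` multiple of the lifted cocycle is a
coboundary, because `M` is killed by `p`. -/
theorem h21_adt_D1_of_TNZ {p : ℕ} {G' G : Type*} [Group G'] [Group G] [Finite G']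
    (π : G' →* G) (hπ : Function.Surjective π)
    {C' C : Type*} [AddCommGroup C'] [DistribMulAction G' C'] [AddCommGroup C]
    [DistribMulAction G C]
    (ι : C →+ C') (hι : Function.Injective ι)
    (hιeq : ∀ (g : G') (c : C), ι (π g • c) = g • ι c)
    (hιfix : ∀ c' : C', (∀ s ∈ π.ker, s • c' = c') → c' ∈ ι.range)
    (hnorm : ∀ c' : C', ∃ c : C, ∑ᶠ s : π.ker, (s : G') • c' = ι (p • c))
    {M : Type*} [AddCommGroup M] [DistribMulAction G M] (hpM : ∀ m : M, p • m = 0)
    {L₀ : Type*} [AddCommGroup L₀] (red : L₀ →+ M) (hred : Function.Surjective red)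
    (hker : ∀ v : L₀, red v = 0 → ∃ w : L₀, v = p • w)
    (hlift : ∀ a : L₀ →+ C', (∀ v, ∃ c : C, a v = ι (p • c)) →
      ∃ c₀ : L₀ →+ C, ∀ v, a v = ι (p • c₀ v))
    (hTN : ∀ z : G' × G' → h21_W π red, IsCocycle₂ z →
      (∀ F : h21_W π red →+ C', (∀ (g : G') (w : h21_W π red), F (g • w) = g • F w) →
        IsCoboundary₂ (fun x : G' × G' => F (z x))) →
      ∃ m : ℕ, m.Coprime p ∧ IsCoboundary₂ (m • z))
    (y : G × G → M) (hy : IsCocycle₂ y)
    (hperp : ∀ f : M →+ C, (∀ (g : G) (m : M), f (g • m) = g • f m) →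
      IsCoboundary₂ (fun x : G' × G' => ι (f (y (π x.1, π x.2))))) :
    IsCoboundary₂Via π (fun x : G' × G' => y (π x.1, π x.2)) := by
  obtain ⟨z, hz, hqz, hzperp⟩ :=
    h21_adt_D1_core π hπ ι hι hιeq hιfix hnorm hpM red hred hker hlift y hy hperp
  obtain ⟨m, hm, x', hx'⟩ := hTN z hz hzperp
  obtain ⟨a, b, hab⟩ : IsCoprime (m : ℤ) (p : ℤ) := Nat.isCoprime_iff_coprime.2 hm
  refine ⟨fun g => a • h21_q π red (x' g), fun g h => ?_⟩
  have h1 := congrArg (h21_q π red) (hx' g h)
  rw [map_add, map_sub, h21_q_smul, Pi.smul_apply, map_nsmul, hqz] at h1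
  show π g • (a • h21_q π red (x' h)) - a • h21_q π red (x' (g * h))
    + a • h21_q π red (x' g) = y (π g, π h)
  rw [smul_comm (π g) a, ← smul_sub, ← smul_add, h1]
  have h2 : (a * m + b * p) • y (π g, π h) = y (π g, π h) := by rw [hab, one_smul]
  rw [add_smul, mul_smul, mul_smul, natCast_zsmul, natCast_zsmul, hpM, smul_zero,
    add_zero] at h2
  exact h2

end Core

section Lattice

/-- An additive subgroup of a finitely generated free `ℤ`-module is finitely generated. -/
theorem h21_addSubgroup_finite {X : Type*} [AddCommGroup X] [Module.Finite ℤ X]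
    (W : AddSubgroup X) : Module.Finite ℤ W :=
  Module.Finite.of_injective (W.subtype.toIntLinearMap) W.subtype_injective

/-- An additive subgroup of a finitely generated free `ℤ`-module is free. -/
theorem h21_addSubgroup_free {X : Type*} [AddCommGroup X] [Module.Free ℤ X] [Module.Finite ℤ X]
    (W : AddSubgroup X) : Module.Free ℤ W := by
  have : Module.Finite ℤ W := h21_addSubgroup_finite W
  have : Module.IsTorsionFree ℤ W :=
    Subtype.coe_injective.moduleIsTorsionFree _ (fun _ _ => rfl)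
  exact Module.free_of_finite_type_torsion_free'

/-- A finite `ZMod p`-vector space is a quotient of `ℤ^d` with kernel `p ℤ^d`. -/
theorem h21_exists_red_aux {p : ℕ} [Fact p.Prime] {M : Type*} [AddCommGroup M]
    [Module (ZMod p) M] [Finite M] :
    ∃ (d : ℕ) (red : (Fin d → ℤ) →+ M), Function.Surjective red ∧
      ∀ v : Fin d → ℤ, red v = 0 → ∃ w : Fin d → ℤ, v = p • w := by
  classical
  have hfin : Module.Finite (ZMod p) M := Module.Finite.of_finite
  let b : Module.Basis (Fin (Module.finrank (ZMod p) M)) (ZMod p) M :=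
    Module.finBasis (ZMod p) M
  let red : (Fin (Module.finrank (ZMod p) M) → ℤ) →+ M :=
    (Fintype.linearCombination ℤ (fun i => b i)).toAddMonoidHom
  have hcast : ∀ v : Fin (Module.finrank (ZMod p) M) → ℤ,
      red v = ∑ i, ((v i : ℤ) : ZMod p) • b i := by
    intro v
    show Fintype.linearCombination ℤ (fun i => b i) v = _
    rw [Fintype.linearCombination_apply]
    exact Finset.sum_congr rfl (fun i _ => (Int.cast_smul_eq_zsmul (ZMod p) (v i) (b i)).symm)
  refine ⟨Module.finrank (ZMod p) M, red, ?_, ?_⟩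
  · intro m
    choose k hk using fun i => ZMod.intCast_surjective (b.repr m i)
    refine ⟨k, ?_⟩
    rw [hcast]
    simp only [hk]
    exact b.sum_repr m
  · intro v hv
    rw [hcast] at hv
    have h0 : ∀ i, ((v i : ℤ) : ZMod p) = 0 :=
      Fintype.linearIndependent_iff.1 b.linearIndependent _ hv
    have h1 : ∀ i, ∃ w : ℤ, v i = p * w := fun i =>
      (ZMod.intCast_zmod_eq_zero_iff_dvd _ _).1 (h0 i)
    choose w hw using h1
    exact ⟨w, funext fun i => by simp [hw i]⟩

/-- A finite abelian group killed by the prime `p` is a quotient of `ℤ^d` with kernel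
`p ℤ^d`. -/
theorem h21_exists_red {p : ℕ} [Fact p.Prime] {M : Type*} [AddCommGroup M] [Finite M]
    (hpM : ∀ m : M, p • m = 0) :
    ∃ (d : ℕ) (red : (Fin d → ℤ) →+ M), Function.Surjective red ∧
      ∀ v : Fin d → ℤ, red v = 0 → ∃ w : Fin d → ℤ, v = p • w :=
  @h21_exists_red_aux p _ M _ (AddCommGroup.zmodModule hpM) _

/-- Additive maps from `ℤ^d` into `ι (p • C)` lift through `p`. -/
theorem h21_lift_free {d : ℕ} {C C' : Type*} [AddCommGroup C] [AddCommGroup C'] (ι : C →+ C')
    (p : ℕ) (a : (Fin d → ℤ) →+ C') (ha : ∀ v, ∃ c : C, a v = ι (p • c)) :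
    ∃ c₀ : (Fin d → ℤ) →+ C, ∀ v, a v = ι (p • c₀ v) := by
  classical
  choose c hc using fun i : Fin d => ha (Pi.single i 1)
  let c₀L : (Fin d → ℤ) →ₗ[ℤ] C := (Pi.basisFun ℤ (Fin d)).constr ℤ c
  have hc₀L : ∀ i, c₀L (Pi.single i 1) = c i := by
    intro i
    have := (Pi.basisFun ℤ (Fin d)).constr_basis ℤ c i
    rwa [Pi.basisFun_apply] at this
  refine ⟨c₀L.toAddMonoidHom, fun v => ?_⟩
  have h : a.toIntLinearMap = ι.toIntLinearMap.comp ((p : ℤ) • c₀L) := by
    refine (Pi.basisFun ℤ (Fin d)).ext (fun i => ?_)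
    rw [Pi.basisFun_apply]
    show a (Pi.single i 1) = ι ((p : ℤ) • c₀L (Pi.single i 1))
    rw [hc₀L, hc, natCast_zsmul]
  have h' := LinearMap.congr_fun h v
  show a v = ι (p • c₀L v)
  rw [← natCast_zsmul]
  exact h'

end Lattice

section Final

/-- **ADT (D1)** in the README form, with Tate-Nakayama (R) for `ℤ`-lattices (`tn_R`) as a
hypothesis. -/
theorem h21_adt_D1_of_tn {p : ℕ} [Fact p.Prime]
    {G' G : Type} [Group G'] [Group G] [Finite G'] (π : G' →* G) (hπ : Function.Surjective π)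
    {C' C : Type} [AddCommGroup C'] [DistribMulAction G' C'] [AddCommGroup C]
    [DistribMulAction G C]
    (ι : C →+ C') (hι : Function.Injective ι) (hιeq : ∀ (g : G') (c : C), ι (π g • c) = g • ι c)
    (hιfix : ∀ c' : C', (∀ s ∈ π.ker, s • c' = c') → c' ∈ ι.range)
    (hnorm : ∀ c' : C', ∃ c : C, ∑ᶠ s : π.ker, (s : G') • c' = ι (p • c))
    {M : Type} [AddCommGroup M] [DistribMulAction G M] [Finite M] (hpM : ∀ m : M, p • m = 0)
    (htn : ∀ (N : Type) [AddCommGroup N] [DistribMulAction G' N] [Module.Free ℤ N]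
      [Module.Finite ℤ N] (z : G' × G' → N), IsCocycle₂ z →
      (∀ f : N →+ C', (∀ (g : G') (n : N), f (g • n) = g • f n) →
        IsCoboundary₂ (fun x : G' × G' => f (z x))) →
      ∃ m : ℕ, m.Coprime p ∧ IsCoboundary₂ (m • z))
    (y : G × G → M) (hy : IsCocycle₂ y)
    (hperp : ∀ f : M →+ C, (∀ (g : G) (m : M), f (g • m) = g • f m) →
      IsCoboundary₂ (fun x : G' × G' => ι (f (y (π x.1, π x.2))))) :
    IsCoboundary₂Via π (fun x : G' × G' => y (π x.1, π x.2)) := by
  obtain ⟨d, red, hred, hker⟩ := h21_exists_red (p := p) hpM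
  have : Module.Free ℤ (h21_W π red) := h21_addSubgroup_free _
  have : Module.Finite ℤ (h21_W π red) := h21_addSubgroup_finite _
  exact h21_adt_D1_of_TNZ π hπ ι hι hιeq hιfix hnorm hpM red hred hker
    (fun a ha => h21_lift_free ι p a ha)
    (fun z hz hzperp => htn (h21_W π red) z hz hzperp) y hy hperp

/-- **ADT (D2)** in the README form, with Tate-Nakayama (L) for `ℤ`-lattices (`tn_L`) as a
hypothesis. -/
theorem h21_adt_D2_of_tn {p : ℕ} [Fact p.Prime]
    {G' G : Type} [Group G'] [Group G] [Finite G'] (π : G' →* G) (hπ : Function.Surjective π)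
    {C' C : Type} [AddCommGroup C'] [DistribMulAction G' C'] [AddCommGroup C]
    [DistribMulAction G C]
    (ι : C →+ C') (hι : Function.Injective ι) (hιeq : ∀ (g : G') (c : C), ι (π g • c) = g • ι c)
    (hnorm : ∀ c' : C', ∃ c : C, ∑ᶠ s : π.ker, (s : G') • c' = ι (p • c))
    {M : Type} [AddCommGroup M] [DistribMulAction G M] [Finite M] (hpM : ∀ m : M, p • m = 0)
    (htn : ∀ (N : Type) [AddCommGroup N] [DistribMulAction G' N] [Module.Free ℤ N]
      [Module.Finite ℤ N] (F : N →+ C'), (∀ (g : G') (n : N), F (g • n) = g • F n) →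
      (∀ z : G' × G' → N, IsCocycle₂ z → IsCoboundary₂ (fun x : G' × G' => F (z x))) →
      ∃ h : N →+ C', ∀ n : N, F n = ∑ᶠ g : G', g • h (g⁻¹ • n))
    (f : M →+ C) (hf : ∀ (g : G) (m : M), f (g • m) = g • f m)
    (hperp : ∀ y' : G' × G' → M, IsCocycle₂Via π y' →
      IsCoboundary₂ (fun x : G' × G' => ι (f (y' x)))) :
    ∃ h : M →+ C, ∀ m : M, f m = ∑ᶠ g : G, g • h (g⁻¹ • m) := by
  obtain ⟨d, red, hred, hker⟩ := h21_exists_red (p := p) hpM
  have : Module.Free ℤ (h21_W π red) := h21_addSubgroup_free _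
  have : Module.Finite ℤ (h21_W π red) := h21_addSubgroup_finite _
  exact h21_adt_D2_of_TN π hπ ι hι hιeq hnorm hpM red hred hker
    (fun a ha => h21_lift_free ι p a ha)
    (fun F hF hFperp => htn (h21_W π red) F hF hFperp) f hf hperp

end Final

end Fermat.Agent.S55
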