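import Mathlib
import Fermat.Agent.S55.h72_AbsDefs
import Fermat.Agent.S55.h40_HDefs
import Fermat.Agent.S55.h40_InfRes
import Fermat.Agent.S55.h12_Cup
import Fermat.Agent.S55.h34_CycIdx

set_option autoImplicit false

/-!
# S55, layer H, row H-RECIP: abstract reciprocity for Frobenius pairs (helper24)

`G` a finite abelian group, `C` a `p`-class module for `G`, `χ0 : G → ZMod (p ^ n)` a surjective
character, `v : C^G → V` a "valuation" with `c ∈ N_{χ0} ↔ v c ∈ p ^ n V` and `V = ℤ e + p ^ n V`.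

* `h24_Cohom f f'` : two 2-cochains differ by a coboundary (with the usual calculus);
* `h24_FrobPair p χ0 v e c σ` : `(c, σ)` is a Frobenius pair (`c` is a norm from every subgroup
  containing `σ`, `v c ≡ χ0 σ • e` modulo `p ^ n`, `χ0 σ ≠ 1`);
* `h24_recip` : there is a 2-cocycle `γ`, not a coboundary, with `p • γ` a coboundary, such that
  `c ∪ δχ ~ χ(σ) • γ` for every Frobenius pair `(c, σ)` and every `χ : G → ZMod p`;
* `h24_recip_cor` : `Σ a_i c_i` is a norm for `χ` iff `χ (∏ σ_i ^ a_i) = 1`.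

`h24_recip_of` / `h24_recip_cor_of` are the same statements with the existence of non-norms
(`h34_chi_exists_nonnorm`) as an explicit hypothesis.
-/

open groupCohomology

namespace Fermat.Agent.S55

/-! ### cohomologous 2-cochains -/

section Cohom

variable {G A : Type*} [Group G] [AddCommGroup A] [DistribMulAction G A]

/-- Two 2-cochains differ by a coboundary. -/
def h24_Cohom (f f' : G × G → A) : Prop := IsCoboundary₂ (f - f')

theorem h24_Cohom.refl (f : G × G → A) : h24_Cohom f f := by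
  unfold h24_Cohom
  rw [sub_self]
  exact h40_isCoboundary₂_zero

theorem h24_Cohom.of_eq {f f' : G × G → A} (h : f = f') : h24_Cohom f f' := by
  rw [h]
  exact h24_Cohom.refl f'

theorem h24_Cohom.symm {f f' : G × G → A} (h : h24_Cohom f f') : h24_Cohom f' f := by
  have := h40_isCoboundary₂_neg h
  rwa [neg_sub] at this

theorem h24_Cohom.trans {f f' f'' : G × G → A} (h : h24_Cohom f f') (h' : h24_Cohom f' f'') :
    h24_Cohom f f'' := by
  have := h40_isCoboundary₂_add h h'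
  rwa [sub_add_sub_cancel] at this

theorem h24_Cohom.add {f₁ f₁' f₂ f₂' : G × G → A} (h₁ : h24_Cohom f₁ f₁')
    (h₂ : h24_Cohom f₂ f₂') : h24_Cohom (f₁ + f₂) (f₁' + f₂') := by
  have := h40_isCoboundary₂_add h₁ h₂
  unfold h24_Cohom
  rwa [add_sub_add_comm]

theorem h24_isCoboundary₂_nsmul (k : ℕ) {f : G × G → A} (h : IsCoboundary₂ f) :
    IsCoboundary₂ (k • f) := by
  induction k with
  | zero => rw [zero_smul]; exact h40_isCoboundary₂_zero
  | succ k ih => rw [succ_nsmul]; exact h40_isCoboundary₂_add ih h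

theorem h24_isCoboundary₂_zsmul (k : ℤ) {f : G × G → A} (h : IsCoboundary₂ f) :
    IsCoboundary₂ (k • f) := by
  obtain ⟨n, rfl | rfl⟩ := k.eq_nat_or_neg
  · rw [natCast_zsmul]
    exact h24_isCoboundary₂_nsmul n h
  · rw [neg_smul, natCast_zsmul]
    exact h40_isCoboundary₂_neg (h24_isCoboundary₂_nsmul n h)

theorem h24_Cohom.nsmul (k : ℕ) {f f' : G × G → A} (h : h24_Cohom f f') :
    h24_Cohom (k • f) (k • f') := by
  unfold h24_Cohom
  rw [← smul_sub]
  exact h24_isCoboundary₂_nsmul k h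

theorem h24_Cohom.zsmul (k : ℤ) {f f' : G × G → A} (h : h24_Cohom f f') :
    h24_Cohom (k • f) (k • f') := by
  unfold h24_Cohom
  rw [← smul_sub]
  exact h24_isCoboundary₂_zsmul k h

theorem h24_cohom_zero_iff {f : G × G → A} : h24_Cohom f 0 ↔ IsCoboundary₂ f := by
  unfold h24_Cohom
  rw [sub_zero]

theorem h24_Cohom.isCoboundary₂_iff {f f' : G × G → A} (h : h24_Cohom f f') :
    IsCoboundary₂ f ↔ IsCoboundary₂ f' := by
  constructor
  · intro hf
    exact h24_cohom_zero_iff.1 (h.symm.trans (h24_cohom_zero_iff.2 hf))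
  · intro hf
    exact h24_cohom_zero_iff.1 (h.trans (h24_cohom_zero_iff.2 hf))

end Cohom

/-! ### arithmetic in `ZMod (p ^ n)` and characters -/

/-- If `p ^ n ∤ A` then `p ^ (n - 1)` is a multiple of `A` modulo `p ^ n`. -/
theorem h24_exists_mul_eq (p n : ℕ) (hp : p.Prime) (A : ℕ) (hA : ¬ p ^ n ∣ A) :
    ∃ b : ℕ, ((b * A : ℕ) : ZMod (p ^ n)) = ((p ^ (n - 1) : ℕ) : ZMod (p ^ n)) := by
  have : NeZero (p ^ n) := ⟨pow_ne_zero _ hp.ne_zero⟩
  obtain ⟨j, hjn, hj⟩ := (Nat.dvd_prime_pow hp).1 (Nat.gcd_dvd_right A (p ^ n))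
  have hjlt : j < n := by
    rcases Nat.lt_or_ge j n with h | h
    · exact h
    · exfalso
      have hjeq : j = n := le_antisymm hjn h
      apply hA
      rw [← hjeq, ← hj]
      exact Nat.gcd_dvd_left A (p ^ n)
  have hbez := Nat.gcd_eq_gcd_ab A (p ^ n)
  rw [hj] at hbez
  have hbez' : ((p ^ j : ℕ) : ZMod (p ^ n)) =
      (A : ZMod (p ^ n)) * ((Nat.gcdA A (p ^ n) : ℤ) : ZMod (p ^ n)) := by
    have := congrArg (fun z : ℤ => (z : ZMod (p ^ n))) hbez
    simp only [Int.cast_natCast, Int.cast_add, Int.cast_mul] at this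
    rw [this, ZMod.natCast_self, zero_mul, add_zero]
  refine ⟨(((Nat.gcdA A (p ^ n) : ℤ) : ZMod (p ^ n)) * ((p ^ (n - 1 - j) : ℕ) : ZMod (p ^ n))).val,
    ?_⟩
  rw [Nat.cast_mul, ZMod.natCast_zmod_val]
  have hpow : p ^ (n - 1) = p ^ j * p ^ (n - 1 - j) := by
    rw [← pow_add]
    congr 1
    omega
  rw [hpow, Nat.cast_mul, hbez']
  ring

section Char

variable {G : Type*} [Group G] {M : ℕ}

theorem h24_toAdd_pow (χ : G →* Multiplicative (ZMod M)) (k : ℕ) (g : G) :
    Multiplicative.toAdd ((χ ^ k) g) = (k : ZMod M) * Multiplicative.toAdd (χ g) := by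
  rw [MonoidHom.pow_apply, toAdd_pow, nsmul_eq_mul]

/-- `χ ^ k` only depends on `k` modulo `M`. -/
theorem h24_pow_congr (χ : G →* Multiplicative (ZMod M)) {k k' : ℕ}
    (h : (k : ZMod M) = (k' : ZMod M)) : χ ^ k = χ ^ k' := by
  ext g
  apply Multiplicative.toAdd.injective
  rw [h24_toAdd_pow, h24_toAdd_pow, h]

theorem h24_pow_self (χ : G →* Multiplicative (ZMod M)) : χ ^ M = 1 := by
  ext g
  apply Multiplicative.toAdd.injective
  rw [h24_toAdd_pow, ZMod.natCast_self, zero_mul]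
  rfl

theorem h24_ker_le_ker_pow (χ : G →* Multiplicative (ZMod M)) (k : ℕ) : χ.ker ≤ (χ ^ k).ker := by
  intro g hg
  rw [MonoidHom.mem_ker] at hg ⊢
  rw [MonoidHom.pow_apply, hg, one_pow]

end Char

/-! ### Frobenius pairs and reciprocity -/

section Recip

variable (p : ℕ) [Fact p.Prime] {G : Type*} [CommGroup G] [Finite G] {C : Type*}
  [AddCommGroup C] [DistribMulAction G C] {V : Type*} [AddCommGroup V]

/-- A Frobenius pair `(c, σ)`: `c` is a norm from every subgroup containing `σ`, its valuation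
is `χ0 σ` modulo `p ^ n`, and `χ0 σ ≠ 1`. -/
def h24_FrobPair {n : ℕ} (χ0 : G →* Multiplicative (ZMod (p ^ n)))
    (v : FixedPoints.addSubgroup G C →+ V) (e : V) (c : FixedPoints.addSubgroup G C) (σ : G) :
    Prop :=
  (∀ H : Subgroup G, σ ∈ H → h12_IsRelNorm H (c : C)) ∧
    (∃ w : V, v c - (Multiplicative.toAdd (χ0 σ)).val • e = p ^ n • w) ∧ χ0 σ ≠ 1

variable {p}

/-- The norm criterion for a `p`-class module. -/
theorem h24_crit (hC : IsPClassModule p G C) {m : ℕ} [NeZero m]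
    (χ : G →* Multiplicative (ZMod m)) (c : C) (hc : ∀ g : G, g • c = c) :
    IsCoboundary₂ (h12_chiCocycle χ c) ↔ h12_IsRelNorm χ.ker c :=
  ⟨h12_chi_relNorm_of_coboundary χ (fun u hu => hC.h1 χ.ker u hu) c hc,
    h12_chi_coboundary_of_relNorm χ c⟩

theorem h24_fixed (c : FixedPoints.addSubgroup G C) (g : G) : g • (c : C) = c :=
  (FixedPoints.mem_addSubgroup G C (c : C)).1 c.2 g

/-- `p` divides the order of the image of `χ0 ^ (p ^ (n - 1))` for a surjective `χ0`. -/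
theorem h24_dvd_card_range {n : ℕ} (hn : n ≠ 0) (χ0 : G →* Multiplicative (ZMod (p ^ n)))
    (hχ0 : Function.Surjective χ0) : p ∣ Nat.card (χ0 ^ (p ^ (n - 1))).range := by
  have hp : p.Prime := Fact.out
  have : NeZero (p ^ n) := ⟨pow_ne_zero _ hp.ne_zero⟩
  have hdvd : Nat.card (χ0 ^ (p ^ (n - 1))).range ∣ p ^ n := by
    have h := Subgroup.card_subgroup_dvd_card (χ0 ^ (p ^ (n - 1))).range
    have hcard : Nat.card (Multiplicative (ZMod (p ^ n))) = p ^ n := by
      rw [Nat.card_eq_fintype_card, Fintype.card_multiplicative, ZMod.card]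
    rwa [hcard] at h
  obtain ⟨j, -, hj⟩ := (Nat.dvd_prime_pow hp).1 hdvd
  rcases Nat.eq_zero_or_pos j with h0 | hpos
  · exfalso
    rw [h0, pow_zero] at hj
    obtain ⟨g, hg⟩ := hχ0 (Multiplicative.ofAdd (1 : ZMod (p ^ n)))
    have hmem : (χ0 ^ (p ^ (n - 1))) g ∈ (χ0 ^ (p ^ (n - 1))).range := ⟨g, rfl⟩
    have hone : (χ0 ^ (p ^ (n - 1))) g = 1 := by
      have hsub : Subsingleton (χ0 ^ (p ^ (n - 1))).range :=
        (Nat.card_eq_one_iff_unique.1 hj).1
      have := Subsingleton.elim (⟨_, hmem⟩ : (χ0 ^ (p ^ (n - 1))).range) 1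
      exact congrArg Subtype.val this
    have h1 := congrArg Multiplicative.toAdd hone
    rw [h24_toAdd_pow, hg, toAdd_ofAdd, mul_one, toAdd_one, ZMod.natCast_eq_zero_iff] at h1
    have hlt : p ^ (n - 1) < p ^ n := Nat.pow_lt_pow_right hp.one_lt (by omega)
    exact absurd (Nat.le_of_dvd (pow_pos hp.pos _) h1) (not_le.2 hlt)
  · rw [hj]
    exact dvd_pow_self p hpos.ne'

/-- **H-RECIP**, with the existence of non-norms (row H-CYCIDX) as a hypothesis. -/
theorem h24_recip_of {n : ℕ}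
    (hnn : ∀ χ : G →* Multiplicative (ZMod (p ^ n)), p ∣ Nat.card χ.range →
      ∃ c : C, (∀ g : G, g • c = c) ∧ ¬ h12_IsRelNorm χ.ker c)
    (hC : IsPClassModule p G C) (hn : n ≠ 0)
    (χ0 : G →* Multiplicative (ZMod (p ^ n))) (hχ0 : Function.Surjective χ0)
    (v : FixedPoints.addSubgroup G C →+ V) (e : V)
    (hv : ∀ c : FixedPoints.addSubgroup G C,
      h12_IsRelNorm χ0.ker (c : C) ↔ ∃ w : V, v c = p ^ n • w)
    (hV : ∀ x : V, ∃ (k : ℤ) (w : V), x = k • e + p ^ n • w) :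
    ∃ γ : G × G → C, IsCocycle₂ γ ∧ ¬ IsCoboundary₂ γ ∧ IsCoboundary₂ (p • γ) ∧
      ∀ (c : FixedPoints.addSubgroup G C) (σ : G), h24_FrobPair p χ0 v e c σ →
        ∀ χ : G →* Multiplicative (ZMod p),
          IsCoboundary₂ (h12_chiCocycle χ (c : C) - (Multiplicative.toAdd (χ σ)).val • γ) := by
  have hp : p.Prime := Fact.out
  have hNZp : NeZero p := ⟨hp.ne_zero⟩
  have hNZ : NeZero (p ^ n) := ⟨pow_ne_zero _ hp.ne_zero⟩
  have hpn : p ^ n = p * p ^ (n - 1) := by
    rw [← pow_succ']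
    congr 1
    omega
  have hN01 : ∀ c : C, h12_IsRelNorm χ0.ker c → h12_IsRelNorm (χ0 ^ (p ^ (n - 1))).ker c :=
    fun c hc => h12_isRelNorm_mono (h24_ker_le_ker_pow χ0 _) c hc
  -- Step 1: a fixed element that is not a norm for `χ1`
  obtain ⟨c1, hc1fix, hc1⟩ := hnn (χ0 ^ (p ^ (n - 1))) (h24_dvd_card_range hn χ0 hχ0)
  let c1' : FixedPoints.addSubgroup G C :=
    ⟨c1, (FixedPoints.mem_addSubgroup G C c1).2 hc1fix⟩
  obtain ⟨a, w1, hw1⟩ := hV (v c1')
  have hpa : ¬ (p : ℤ) ∣ a := by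
    rintro ⟨a2, rfl⟩
    apply hc1
    have h1 : h12_IsRelNorm χ0.ker ((p ^ (n - 1) • c1' : FixedPoints.addSubgroup G C) : C) := by
      rw [hv]
      refine ⟨a2 • e + p ^ (n - 1) • w1, ?_⟩
      rw [map_nsmul, hw1, hpn]
      module
    have h2 : IsCoboundary₂ (h12_chiCocycle χ0 (p ^ (n - 1) • c1)) :=
      (h24_crit hC χ0 _ (h24_fixed (p ^ (n - 1) • c1'))).2 h1
    rw [h12_chiCocycle_nsmul] at h2
    have h3 : h24_Cohom (h12_chiCocycle (χ0 ^ (p ^ (n - 1))) c1)
        (p ^ (n - 1) • h12_chiCocycle χ0 c1) := h12_chiCocycle_pow χ0 (p ^ (n - 1)) c1 hc1fix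
    exact (h24_crit hC _ c1 hc1fix).1 (h3.isCoboundary₂_iff.2 h2)
  -- the normalised element `c0` with `v c0 ≡ e`
  have hcop : IsCoprime ((p : ℤ) ^ n) a :=
    IsCoprime.pow_left ((Nat.prime_iff_prime_int.1 hp).coprime_iff_not_dvd.2 hpa)
  obtain ⟨x, a', hxa⟩ := hcop
  let c0' : FixedPoints.addSubgroup G C := a' • c1'
  have hc0fix : ∀ g : G, g • (c0' : C) = c0' := h24_fixed c0'
  obtain ⟨w0, hw0⟩ : ∃ w0 : V, v c0' = e + p ^ n • w0 := by
    refine ⟨a' • w1 - x • e, ?_⟩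
    have h1 : a' * a = 1 - x * (p : ℤ) ^ n := by linarith
    show v (a' • c1') = _
    rw [map_zsmul, hw1, smul_add, smul_smul, h1]
    module
  -- the class `γ`
  refine ⟨p ^ (n - 1) • h12_chiCocycle χ0 (c0' : C), ?_, ?_, ?_, ?_⟩
  · rw [← h12_chiCocycle_nsmul]
    exact h12_chiCocycle_isCocycle₂ χ0 _ (h24_fixed (p ^ (n - 1) • c0'))
  · intro hγ
    have h3 : h24_Cohom (h12_chiCocycle (χ0 ^ (p ^ (n - 1))) (c0' : C))
        (p ^ (n - 1) • h12_chiCocycle χ0 (c0' : C)) :=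
      h12_chiCocycle_pow χ0 (p ^ (n - 1)) (c0' : C) hc0fix
    have hc0N : h12_IsRelNorm (χ0 ^ (p ^ (n - 1))).ker (c0' : C) :=
      (h24_crit hC _ _ hc0fix).1 (h3.isCoboundary₂_iff.2 hγ)
    have hdiff : h12_IsRelNorm χ0.ker ((c1' - a • c0' : FixedPoints.addSubgroup G C) : C) := by
      rw [hv]
      refine ⟨w1 - a • w0, ?_⟩
      rw [map_sub, map_zsmul, hw1, hw0]
      module
    apply hc1
    have hsum : c1 = ((c1' - a • c0' : FixedPoints.addSubgroup G C) : C) + a • (c0' : C) := by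
      simp [c1']
    rw [hsum]
    exact (h12_relNormSubgroup C (χ0 ^ (p ^ (n - 1))).ker).add_mem
      ((h12_mem_relNormSubgroup _ _).2 (hN01 _ hdiff))
      ((h12_relNormSubgroup C (χ0 ^ (p ^ (n - 1))).ker).zsmul_mem
        ((h12_mem_relNormSubgroup _ _).2 hc0N) a)
  · have h3 : h24_Cohom (h12_chiCocycle (χ0 ^ (p ^ n)) (c0' : C))
        (p ^ n • h12_chiCocycle χ0 (c0' : C)) := h12_chiCocycle_pow χ0 (p ^ n) (c0' : C) hc0fix
    rw [h24_pow_self, h12_chiCocycle_one] at h3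
    have h4 : IsCoboundary₂ (p ^ n • h12_chiCocycle χ0 (c0' : C)) :=
      h24_cohom_zero_iff.1 h3.symm
    rw [smul_smul, ← hpn]
    exact h4
  · rintro c σ ⟨FP1, ⟨w, hw⟩, FP3⟩ χ
    have hcfix : ∀ g : G, g • (c : C) = c := h24_fixed c
    -- `A`, `t`, `b`
    have hA0 : Multiplicative.toAdd (χ0 σ) ≠ 0 := fun h => FP3 (Multiplicative.toAdd.injective h)
    have hA : ¬ p ^ n ∣ (Multiplicative.toAdd (χ0 σ)).val := by
      intro h
      have hlt := ZMod.val_lt (Multiplicative.toAdd (χ0 σ))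
      have hpos : 0 < (Multiplicative.toAdd (χ0 σ)).val :=
        Nat.pos_of_ne_zero (fun h0 => hA0 ((ZMod.val_eq_zero _).1 h0))
      exact absurd (Nat.le_of_dvd hpos h) (not_le.2 hlt)
    obtain ⟨b0, hb0⟩ := h24_exists_mul_eq p n hp _ hA
    have hb : (((Multiplicative.toAdd (χ σ)).val * b0 * (Multiplicative.toAdd (χ0 σ)).val : ℕ) :
        ZMod (p ^ n)) = (((Multiplicative.toAdd (χ σ)).val * p ^ (n - 1) : ℕ) : ZMod (p ^ n)) := by
      rw [mul_assoc, Nat.cast_mul, hb0, ← Nat.cast_mul]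
    have hwv : v c = (Multiplicative.toAdd (χ0 σ)).val • e + p ^ n • w := by
      rw [← hw]
      abel
    -- abbreviations
    generalize hAdef : (Multiplicative.toAdd (χ0 σ)).val = A at hb hwv
    generalize htdef : (Multiplicative.toAdd (χ σ)).val = t at hb
    -- scale `χ` to `ZMod (p ^ n)`
    obtain ⟨χs, -, hχs⟩ := h12_exists_scale (m := p) (d := p ^ (n - 1)) (M := p ^ n) hpn.symm χ
    have hsc : h12_chiCocycle χs (c : C) = h12_chiCocycle χ (c : C) :=
      h12_chiCocycle_scale hpn.symm χ χs hχs (c : C)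
    -- `ψ := χs * (χ0 ^ b)⁻¹` kills `σ`
    have hψσ : (χs * (χ0 ^ (t * b0))⁻¹) σ = 1 := by
      apply Multiplicative.toAdd.injective
      rw [MonoidHom.mul_apply, MonoidHom.inv_apply, toAdd_mul, toAdd_inv, h24_toAdd_pow,
        toAdd_one, ← ZMod.natCast_zmod_val (Multiplicative.toAdd (χs σ)), hχs σ,
        ← ZMod.natCast_zmod_val (Multiplicative.toAdd (χ0 σ)), hAdef, htdef, ← Nat.cast_mul,
        hb, mul_comm t]
      exact add_neg_cancel _
    have hψ : IsCoboundary₂ (h12_chiCocycle (χs * (χ0 ^ (t * b0))⁻¹) (c : C)) :=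
      (h24_crit hC _ _ hcfix).2 (FP1 _ (MonoidHom.mem_ker.2 hψσ))
    have hχs_eq : χs = (χs * (χ0 ^ (t * b0))⁻¹) * χ0 ^ (t * b0) := by
      rw [inv_mul_cancel_right]
    -- `[c, χ] ~ b • [c, χ0]`
    have e1 : h24_Cohom (h12_chiCocycle χ (c : C))
        ((t * b0) • h12_chiCocycle χ0 (c : C)) := by
      rw [← hsc]
      have h1 : h24_Cohom (h12_chiCocycle χs (c : C))
          (h12_chiCocycle (χs * (χ0 ^ (t * b0))⁻¹) (c : C) +
            h12_chiCocycle (χ0 ^ (t * b0)) (c : C)) := by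
        have := h12_chiCocycle_mul (χs * (χ0 ^ (t * b0))⁻¹) (χ0 ^ (t * b0)) (c : C) hcfix
        rw [← hχs_eq] at this
        exact this
      have h2 : h24_Cohom (h12_chiCocycle (χs * (χ0 ^ (t * b0))⁻¹) (c : C) +
            h12_chiCocycle (χ0 ^ (t * b0)) (c : C))
          (0 + (t * b0) • h12_chiCocycle χ0 (c : C)) :=
        h24_Cohom.add (h24_cohom_zero_iff.2 hψ) (h12_chiCocycle_pow χ0 (t * b0) (c : C) hcfix)
      rw [zero_add] at h2
      exact h1.trans h2
    -- `b • [c, χ0] ~ (b * A) • [c0, χ0]`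
    have e2 : h24_Cohom ((t * b0) • h12_chiCocycle χ0 (c : C))
        ((t * b0 * A) • h12_chiCocycle χ0 (c0' : C)) := by
      have hd : h12_IsRelNorm χ0.ker
          (((t * b0) • c - (t * b0 * A) • c0' : FixedPoints.addSubgroup G C) : C) := by
        rw [hv]
        refine ⟨(t * b0) • w - (t * b0 * A) • w0, ?_⟩
        rw [map_sub, map_nsmul, map_nsmul, hwv, hw0]
        module
      have hd' := (h24_crit hC χ0 _ (h24_fixed _)).2 hd
      rw [AddSubgroup.coe_sub, AddSubgroup.coe_nsmul, AddSubgroup.coe_nsmul,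
        h12_chiCocycle_sub, h12_chiCocycle_nsmul, h12_chiCocycle_nsmul] at hd'
      exact hd'
    -- `(b * A) • [c0, χ0] ~ t • γ`
    have e3 : h24_Cohom ((t * b0 * A) • h12_chiCocycle χ0 (c0' : C))
        (t • p ^ (n - 1) • h12_chiCocycle χ0 (c0' : C)) := by
      have h1 : h24_Cohom (h12_chiCocycle (χ0 ^ (t * b0 * A)) (c0' : C))
          ((t * b0 * A) • h12_chiCocycle χ0 (c0' : C)) :=
        h12_chiCocycle_pow χ0 (t * b0 * A) (c0' : C) hc0fix
      have h2 : h24_Cohom (h12_chiCocycle (χ0 ^ (t * p ^ (n - 1))) (c0' : C))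
          ((t * p ^ (n - 1)) • h12_chiCocycle χ0 (c0' : C)) :=
        h12_chiCocycle_pow χ0 (t * p ^ (n - 1)) (c0' : C) hc0fix
      rw [h24_pow_congr χ0 hb] at h1
      rw [mul_smul] at h2
      exact h1.symm.trans h2
    exact (e1.trans e2).trans e3

/-- **H-RECIP**, corollary, with the existence of non-norms (row H-CYCIDX) as a hypothesis. -/
theorem h24_recip_cor_of {n : ℕ}
    (hnn : ∀ χ : G →* Multiplicative (ZMod (p ^ n)), p ∣ Nat.card χ.range →
      ∃ c : C, (∀ g : G, g • c = c) ∧ ¬ h12_IsRelNorm χ.ker c)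
    (hC : IsPClassModule p G C) (hn : n ≠ 0)
    (χ0 : G →* Multiplicative (ZMod (p ^ n))) (hχ0 : Function.Surjective χ0)
    (v : FixedPoints.addSubgroup G C →+ V) (e : V)
    (hv : ∀ c : FixedPoints.addSubgroup G C,
      h12_IsRelNorm χ0.ker (c : C) ↔ ∃ w : V, v c = p ^ n • w)
    (hV : ∀ x : V, ∃ (k : ℤ) (w : V), x = k • e + p ^ n • w)
    {ι : Type*} (s : Finset ι) (c : ι → FixedPoints.addSubgroup G C) (σ : ι → G) (a : ι → ℤ)
    (hFP : ∀ i ∈ s, h24_FrobPair p χ0 v e (c i) (σ i)) (χ : G →* Multiplicative (ZMod p)) :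
    h12_IsRelNorm χ.ker ((∑ i ∈ s, a i • c i : FixedPoints.addSubgroup G C) : C) ↔
      χ (∏ i ∈ s, σ i ^ a i) = 1 := by
  classical
  have hp : p.Prime := Fact.out
  have hNZp : NeZero p := ⟨hp.ne_zero⟩
  obtain ⟨γ, -, hγn, hγp, hγ⟩ := h24_recip_of hnn hC hn χ0 hχ0 v e hv hV
  -- (A) `[Σ a_i c_i, χ] ~ T • γ`
  have hA : ∀ s' : Finset ι, (∀ i ∈ s', h24_FrobPair p χ0 v e (c i) (σ i)) →
      h24_Cohom (h12_chiCocycle χ ((∑ i ∈ s', a i • c i : FixedPoints.addSubgroup G C) : C))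
        ((∑ i ∈ s', a i * ((Multiplicative.toAdd (χ (σ i))).val : ℤ)) • γ) := by
    intro s'
    induction s' using Finset.induction_on with
    | empty =>
      intro _
      rw [Finset.sum_empty, Finset.sum_empty, zero_smul, AddSubgroup.coe_zero,
        h12_chiCocycle_zero]
      exact h24_Cohom.refl 0
    | insert i s' hi ih =>
      intro h
      rw [Finset.sum_insert hi, Finset.sum_insert hi, add_smul, AddSubgroup.coe_add,
        AddSubgroup.coe_zsmul, h12_chiCocycle_add, h12_chiCocycle_zsmul, mul_smul,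
        natCast_zsmul]
      exact h24_Cohom.add
        (h24_Cohom.zsmul (a i) (hγ (c i) (σ i) (h i (Finset.mem_insert_self i s')) χ))
        (ih (fun j hj => h j (Finset.mem_insert_of_mem hj)))
  -- (D) the value of `χ` on the product
  have hD : ∀ s' : Finset ι, Multiplicative.toAdd (χ (∏ i ∈ s', σ i ^ a i)) =
      ((∑ i ∈ s', a i * ((Multiplicative.toAdd (χ (σ i))).val : ℤ) : ℤ) : ZMod p) := by
    intro s'
    induction s' using Finset.induction_on with
    | empty =>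
      rw [Finset.prod_empty, Finset.sum_empty, map_one, toAdd_one, Int.cast_zero]
    | insert i s' hi ih =>
      rw [Finset.prod_insert hi, Finset.sum_insert hi, map_mul, toAdd_mul, ih, map_zpow,
        toAdd_zpow, Int.cast_add, Int.cast_mul, Int.cast_natCast, ZMod.natCast_zmod_val,
        zsmul_eq_mul]
  have hA' := hA s hFP
  have hD' := hD s
  generalize (∑ i ∈ s, a i * ((Multiplicative.toAdd (χ (σ i))).val : ℤ)) = T at hA' hD'
  -- (C) `T • γ ~ 0 ↔ p ∣ T`
  have hCT : IsCoboundary₂ (T • γ) ↔ (p : ℤ) ∣ T := by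
    constructor
    · intro h
      by_contra hdvd
      have hcop : IsCoprime (p : ℤ) T :=
        (Nat.prime_iff_prime_int.1 hp).coprime_iff_not_dvd.2 hdvd
      obtain ⟨x, y, hxy⟩ := hcop
      apply hγn
      have hγeq : γ = x • (p • γ) + y • (T • γ) := by
        rw [← natCast_zsmul γ p, smul_smul, smul_smul, ← add_smul, hxy, one_smul]
      rw [hγeq]
      exact h40_isCoboundary₂_add (h24_isCoboundary₂_zsmul x hγp) (h24_isCoboundary₂_zsmul y h)
    · rintro ⟨k, hk⟩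
      rw [hk, mul_comm, mul_smul, natCast_zsmul]
      exact h24_isCoboundary₂_zsmul k hγp
  rw [← h24_crit hC χ _ (h24_fixed _), hA'.isCoboundary₂_iff, hCT,
    ← ZMod.intCast_zmod_eq_zero_iff_dvd, ← hD']
  constructor
  · intro h
    exact Multiplicative.toAdd.injective h
  · intro h
    rw [h]
    rfl

variable (p)

/-- **H-RECIP** (E4, full form): abstract reciprocity for Frobenius pairs.  There is a class
`γ` of order exactly `p` such that `[c, χ] = χ(σ) • γ` for every Frobenius pair `(c, σ)` and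
every character `χ` of order dividing `p`. -/
theorem h24_recip (hC : IsPClassModule p G C) {n : ℕ} (hn : n ≠ 0)
    (χ0 : G →* Multiplicative (ZMod (p ^ n))) (hχ0 : Function.Surjective χ0)
    (v : FixedPoints.addSubgroup G C →+ V) (e : V)
    (hv : ∀ c : FixedPoints.addSubgroup G C,
      h12_IsRelNorm χ0.ker (c : C) ↔ ∃ w : V, v c = p ^ n • w)
    (hV : ∀ x : V, ∃ (k : ℤ) (w : V), x = k • e + p ^ n • w) :
    ∃ γ : G × G → C, IsCocycle₂ γ ∧ ¬ IsCoboundary₂ γ ∧ IsCoboundary₂ (p • γ) ∧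
      ∀ (c : FixedPoints.addSubgroup G C) (σ : G), h24_FrobPair p χ0 v e c σ →
        ∀ χ : G →* Multiplicative (ZMod p),
          IsCoboundary₂ (h12_chiCocycle χ (c : C) - (Multiplicative.toAdd (χ σ)).val • γ) := by
  have hNZ : NeZero (p ^ n) := ⟨pow_ne_zero _ (Fact.out : p.Prime).ne_zero⟩
  exact h24_recip_of (fun χ hχ => h34_chi_exists_nonnorm hC χ hχ) hC hn χ0 hχ0 v e hv hV

/-- **H-RECIP**, corollary: a combination `Σ a_i c_i` of Frobenius elements is a norm for `χ`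
iff `χ` kills the corresponding product `∏ σ_i ^ a_i` of Frobenius substitutions. -/
theorem h24_recip_cor (hC : IsPClassModule p G C) {n : ℕ} (hn : n ≠ 0)
    (χ0 : G →* Multiplicative (ZMod (p ^ n))) (hχ0 : Function.Surjective χ0)
    (v : FixedPoints.addSubgroup G C →+ V) (e : V)
    (hv : ∀ c : FixedPoints.addSubgroup G C,
      h12_IsRelNorm χ0.ker (c : C) ↔ ∃ w : V, v c = p ^ n • w)
    (hV : ∀ x : V, ∃ (k : ℤ) (w : V), x = k • e + p ^ n • w)
    {ι : Type*} (s : Finset ι) (c : ι → FixedPoints.addSubgroup G C) (σ : ι → G) (a : ι → ℤ)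
    (hFP : ∀ i ∈ s, h24_FrobPair p χ0 v e (c i) (σ i)) (χ : G →* Multiplicative (ZMod p)) :
    h12_IsRelNorm χ.ker ((∑ i ∈ s, a i • c i : FixedPoints.addSubgroup G C) : C) ↔
      χ (∏ i ∈ s, σ i ^ a i) = 1 := by
  have hNZ : NeZero (p ^ n) := ⟨pow_ne_zero _ (Fact.out : p.Prime).ne_zero⟩
  exact h24_recip_cor_of (fun χ hχ => h34_chi_exists_nonnorm hC χ hχ) hC hn χ0 hχ0 v e hv hV
    s c σ a hFP χ

end Recip

end Fermat.Agent.S55
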