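import Fermat.Agent.S55.h90_GlobCFFinal
import Fermat.Agent.S55.h90_GlobQuot
import Fermat.Agent.S55.h82_ClassComap
import Fermat.Agent.S55.h81_E8c
import Fermat.Agent.S55.h96_GalQuot
import Fermat.Agent.S55.h81_GlobUnr

/-!
# S55, GLOB layer: the relative global class formation (GLOB-CF-REL)

For number fields `K ⊆ M` (types) with `M/K` Galois, and an overfield `E ⊇ M` which is Galois
over `ℚ` and unramified outside `S` (`p ∈ S` odd): the `p`-localisation of the `S`-class module
`C_M = h25_C M S` is a `p`-class module for `Gal(M/K)`.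

Deduced from the absolute case `h90_glob_classModule'` for `E/ℚ`: `Gal(E/K)` is a subgroup of
`Gal(E/ℚ)` (`h82_classModule_comap`) and `Gal(M/K)` is a quotient of `Gal(E/K)` with
`C_M = (C_E)^{Gal(E/M)}` (DESC, `h81_E8c`).  This is the global twin of helper32's
`h32_local_classModule_rel`.

* `h25_glob_quot_rel` : the `(π, ι)` data of a tower `K ⊆ M ⊆ E`;
* `h25_glob_classModule_rel` : the relative class module.
-/

set_option autoImplicit false

open IsDedekindDomain NumberField

namespace Fermat.Agent.S55

noncomputable section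

universe u v

/-- The `(π, ι)` data of a tower `K ⊆ M ⊆ E` of number fields, relative form of
`h90_glob_quot`. -/
theorem h25_glob_quot_rel (K : Type v) (M E : Type u) [Field K] [Field M] [NumberField M]
    [Field E] [NumberField E] [Algebra K M] [Algebra K E] [Algebra M E] [IsScalarTower K M E]
    [IsGalois K M] [IsGalois K E] [IsGalois M E] (S : Finset Nat.Primes) (hS : S.Nonempty)
    (hur : h25_UnramOutside M E S) :
    Function.Surjective (AlgEquiv.restrictNormalHom (F := K) (K₁ := E) M) ∧
    Function.Injective (h25_Cmap S (algebraMap M E)).toAdditive ∧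
    (∀ (g : E ≃ₐ[K] E) (b : Additive (h25_C M S)),
      (h25_Cmap S (algebraMap M E)).toAdditive (AlgEquiv.restrictNormalHom M g • b)
        = g • (h25_Cmap S (algebraMap M E)).toAdditive b) ∧
    (∀ c : Additive (h25_C E S),
      (∀ s ∈ (AlgEquiv.restrictNormalHom (F := K) (K₁ := E) M).ker, s • c = c) →
        c ∈ ((h25_Cmap S (algebraMap M E)).toAdditive).range) := by
  refine ⟨AlgEquiv.restrictNormalHom_surjective E, ?_, ?_, ?_⟩
  · intro a b hab
    have h1 : h25_Cmap S (algebraMap M E) (Additive.toMul a) =
        h25_Cmap S (algebraMap M E) (Additive.toMul b) := congrArg Additive.toMul hab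
    exact congrArg Additive.ofMul (h10_desc_injective M E S hS h1)
  · intro g b
    have h : (algebraMap M E).comp ((AlgEquiv.restrictNormalHom M g : M ≃ₐ[K] M) : M →+* M) =
        (g : E →+* E).comp (algebraMap M E) :=
      RingHom.ext fun x => AlgEquiv.restrictNormal_commutes g M x
    have h2 : h25_Cmap S (algebraMap M E)
        (h25_Cmap S ((AlgEquiv.restrictNormalHom M g : M ≃ₐ[K] M) : M →+* M)
          (Additive.toMul b)) =
        h25_Cmap S (g : E →+* E) (h25_Cmap S (algebraMap M E) (Additive.toMul b)) := by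
      rw [← MonoidHom.comp_apply, ← h66_Cmap_comp, h, h66_Cmap_comp, MonoidHom.comp_apply]
    exact congrArg Additive.ofMul h2
  · intro c hc
    have hfix : ∀ σ : E ≃ₐ[M] E,
        h25_Cmap S (σ : E →+* E) (Additive.toMul c) = Additive.toMul c := by
      intro σ
      have h1 := hc (σ.restrictScalars K) (h96_restrictScalars_mem_ker K M E σ)
      exact congrArg Additive.toMul h1
    obtain ⟨b, hb⟩ := (h10_desc_range M E S hS hur (Additive.toMul c)).1 hfix
    exact ⟨Additive.ofMul b, congrArg Additive.ofMul hb⟩

/-- **GLOB-CF-REL**: the relative global class formation.  `M/K` a Galois extension of number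
fields, `E ⊇ M` Galois over `ℚ` and unramified outside `S`, `p ∈ S` odd: the `p`-localisation
of `C_M = h25_C M S` is a `p`-class module for `Gal(M/K)`. -/
theorem h25_glob_classModule_rel (p : ℕ) [hp : Fact p.Prime] (hp2 : p ≠ 2)
    (S : Finset Nat.Primes) (hpS : (⟨p, hp.out⟩ : Nat.Primes) ∈ S)
    (K : Type v) (M E : Type u) [Field K] [Field M] [NumberField M] [Field E] [NumberField E]
    [Algebra K M] [Algebra M E] [IsGalois K M] [IsGalois ℚ E]
    (hurE : h25_UnramOutside ℚ E S) :
    IsPClassModule p (M ≃ₐ[K] M) (h2_PL p (Additive (h25_C M S))) := by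
  classical
  have hS : S.Nonempty := ⟨_, hpS⟩
  have h0 := h90_glob_classModule' p hp2 S hpS E hurE
  -- `K` has characteristic zero, hence is a `ℚ`-algebra
  have hcharK : CharZero K := (algebraMap K M).charZero
  let algKE : Algebra K E := ((algebraMap M E).comp (algebraMap K M)).toAlgebra
  have towerKME : IsScalarTower K M E := IsScalarTower.of_algebraMap_eq (fun x => rfl)
  have towerQKE : IsScalarTower ℚ K E := IsScalarTower.of_algebraMap_eq (fun x => by
    simp)
  have hgalKE : IsGalois K E := IsGalois.tower_top_of_isGalois ℚ K E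
  have hfinKE : FiniteDimensional K E := FiniteDimensional.right ℚ K E
  have hgalME : IsGalois M E := IsGalois.tower_top_of_isGalois ℚ M E
  have hurME : h25_UnramOutside M E S := h81_unram_top ℚ M E S hurE
  -- Step 1: `Gal(E/K)` as a subgroup of `Gal(E/ℚ)`
  have h1 : IsPClassModule p (E ≃ₐ[K] E) (h2_PL p (Additive (h25_C E S))) := by
    refine h82_classModule_comap (AlgEquiv.restrictScalarsHom ℚ)
      (AlgEquiv.restrictScalarsHom_injective ℚ) (fun γ c => ?_) h0
    rfl
  -- Step 2: `Gal(M/K)` as a quotient of `Gal(E/K)`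
  obtain ⟨hπ, hι, hιeq, hιfix⟩ := h25_glob_quot_rel K M E S hS hurME
  exact h81_E8c (AlgEquiv.restrictNormalHom M) hπ
    (h2_PL.map (h25_Cmap S (algebraMap M E)).toAdditive)
    (h2_PL.map_injective _ hι) (h2_PL.map_smul_of _ _ hιeq)
    (h2_PL.mem_range_map_of_fixed _ _ hιfix) h1

end

end Fermat.Agent.S55
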