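import Mathlib
import Fermat.Agent.S55.h25_GlobDefs
import Fermat.Agent.S55.h66_GlobFunc
import Fermat.Agent.S55.h92_FirstIneq
import Fermat.Agent.S55.h92_ClT
import Fermat.Agent.S55.h28_SemilocJqFinal
import Fermat.Agent.S55.h46_SelmerFinite

/-!
# S55 / GLOB-1ST-ASM (helper27): the first inequality for the `S`-class module `h25_C L S`

`L/K` a Galois extension of number fields of odd prime degree `p`, `σ ≠ 1` in `Gal(L/K)`,
`S` a nonempty finite set of rational primes.  Then on `C = h25_C L S`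

`[ker (σ - 1) : N C] = p * [ker N : (σ - 1) C]`,  both indices finite   (`h27_first_ineq`).

(For `S = ∅` the module `h25_C L ∅` is the class group of `L`, a finite group, and the statement
is false; hence the hypothesis `S.Nonempty`.)

Proof: `h92_first_ineq_quotient` with `X = h25_X L S`, `Δ = ` principal elements,
`Y = J × Div(T)` for a finite `σ`-stable set `T` of primes containing the primes above `S` and
generating the class group (`h92_exists_clT_stable`); the Herbrand indices of `Y` are those of the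
semi-local modules `J_q(L)` (`h28_Jq_index_primes`) and of the permutation module `Div(T ∖ S)`
(`h28_semiloc_index` with trivial group); `Y ∩ Δ` is the group of `T`-units (`h92_sunits_index`).
-/

set_option autoImplicit false
set_option linter.unusedSectionVars false

open IsDedekindDomain NumberField Finset
open scoped nonZeroDivisors Pointwise

namespace Fermat.Agent.S55

noncomputable section

section Gen

theorem h27_relIndex_prod {E₁ E₂ : Type*} [Group E₁] [Group E₂] (A₁ B₁ : Subgroup E₁)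
    (A₂ B₂ : Subgroup E₂) :
    (A₁.prod A₂).relIndex (B₁.prod B₂) = A₁.relIndex B₁ * A₂.relIndex B₂ := by
  unfold Subgroup.relIndex
  rw [← Subgroup.index_prod]
  have e : ((A₁.subgroupOf B₁).prod (A₂.subgroupOf B₂)).comap
      (Subgroup.prodEquiv B₁ B₂ : ↥(B₁.prod B₂) →* ↥B₁ × ↥B₂)
        = (A₁.prod A₂).subgroupOf (B₁.prod B₂) := by
    ext x
    simp only [Subgroup.mem_comap, Subgroup.mem_prod, Subgroup.mem_subgroupOf]
    rfl
  rw [← e]
  exact Subgroup.index_comap_of_surjective _ (Subgroup.prodEquiv B₁ B₂).surjective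

theorem h27_index_pi {ι : Type*} [Fintype ι] {β : ι → Type*} [∀ i, Group (β i)]
    (H : ∀ i, Subgroup (β i)) : (Subgroup.pi Set.univ H).index = ∏ i, (H i).index := by
  simp_rw [Subgroup.index, ← Nat.card_pi]
  refine Nat.card_congr
    ((Quotient.congrRight (fun x y ↦ ?_)).trans (Setoid.piQuotientEquiv _).symm)
  rw [QuotientGroup.leftRel_pi]

/-- the obvious isomorphism `↥(pi univ B) ≃* ∀ i, ↥(B i)`. -/
def h27_piEquiv {ι : Type*} {β : ι → Type*} [∀ i, Group (β i)] (B : ∀ i, Subgroup (β i)) :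
    ↥(Subgroup.pi Set.univ B) ≃* (∀ i, ↥(B i)) where
  toFun x i := ⟨x.1 i, x.2 i (Set.mem_univ i)⟩
  invFun y := ⟨fun i => (y i : β i), fun i _ => (y i).2⟩
  left_inv _ := rfl
  right_inv _ := rfl
  map_mul' _ _ := rfl

theorem h27_relIndex_pi {ι : Type*} [Fintype ι] {β : ι → Type*} [∀ i, Group (β i)]
    (A B : ∀ i, Subgroup (β i)) :
    (Subgroup.pi Set.univ A).relIndex (Subgroup.pi Set.univ B)
      = ∏ i, (A i).relIndex (B i) := by
  unfold Subgroup.relIndex
  rw [← h27_index_pi]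
  have e : (Subgroup.pi Set.univ fun i => (A i).subgroupOf (B i)).comap
      (h27_piEquiv B : ↥(Subgroup.pi Set.univ B) →* (∀ i, ↥(B i)))
        = (Subgroup.pi Set.univ A).subgroupOf (Subgroup.pi Set.univ B) := by
    ext x
    simp only [Subgroup.mem_comap, Subgroup.mem_pi, Subgroup.mem_subgroupOf, Set.mem_univ,
      forall_true_left]
    rfl
  rw [← e]
  exact Subgroup.index_comap_of_surjective _ (h27_piEquiv B).surjective

theorem h27_hq_prod {E₁ E₂ : Type*} [CommGroup E₁] [CommGroup E₂] (f₁ g₁ : E₁ →* E₁)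
    (f₂ g₂ : E₂ →* E₂) (U₁ : Subgroup E₁) (U₂ : Subgroup E₂) :
    h92_hq (f₁.prodMap f₂) (g₁.prodMap g₂) (U₁.prod U₂) = h92_hq f₁ g₁ U₁ * h92_hq f₂ g₂ U₂ := by
  rw [h92_hq_def, h92_hq_def, h92_hq_def, ← h27_relIndex_prod]
  congr 1
  · ext ⟨a, b⟩
    simp only [Subgroup.mem_map, Subgroup.mem_prod, MonoidHom.coe_prodMap, Prod.map_apply,
      Prod.mk.injEq, Prod.exists]
    constructor
    · rintro ⟨x, y, ⟨hx, hy⟩, rfl, rfl⟩
      exact ⟨⟨x, hx, rfl⟩, ⟨y, hy, rfl⟩⟩
    · rintro ⟨⟨x, hx, rfl⟩, ⟨y, hy, rfl⟩⟩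
      exact ⟨x, y, ⟨hx, hy⟩, rfl, rfl⟩
  · ext ⟨a, b⟩
    simp only [Subgroup.mem_inf, Subgroup.mem_prod, MonoidHom.mem_ker, MonoidHom.coe_prodMap,
      Prod.map_apply, Prod.mk_eq_one]
    tauto

theorem h27_hq_pi {ι : Type*} [Fintype ι] {E : ι → Type*} [∀ i, CommGroup (E i)]
    (f g : ∀ i, E i →* E i) (U : ∀ i, Subgroup (E i)) :
    h92_hq (MonoidHom.piMap f) (MonoidHom.piMap g) (Subgroup.pi Set.univ U)
      = ∏ i, h92_hq (f i) (g i) (U i) := by
  simp only [h92_hq_def]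
  rw [← h27_relIndex_pi]
  congr 1
  · ext x
    simp only [Subgroup.mem_map, Subgroup.mem_pi, Set.mem_univ, forall_true_left]
    constructor
    · rintro ⟨y, hy, rfl⟩ i
      exact ⟨y i, hy i, rfl⟩
    · intro h
      choose y hy hyx using h
      exact ⟨y, hy, funext hyx⟩
  · ext x
    simp only [Subgroup.mem_inf, Subgroup.mem_pi, Set.mem_univ, forall_true_left,
      MonoidHom.mem_ker]
    constructor
    · rintro ⟨h1, h2⟩ i
      exact ⟨h1 i, congrFun h2 i⟩
    · intro h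
      exact ⟨fun i => (h i).1, funext fun i => (h i).2⟩

end Gen

section Act

variable {K L : Type*} [Field K] [Field L] [NumberField L] [Algebra K L]
variable (S : Finset Nat.Primes)

theorem h27_natCast_mem_galPrime (τ : L ≃ₐ[K] L) (w : HeightOneSpectrum (𝓞 L)) (n : ℕ) :
    (n : 𝓞 L) ∈ (h92_galPrime τ w).asIdeal ↔ (n : 𝓞 L) ∈ w.asIdeal := by
  rw [h92_galPrime_asIdeal, Ideal.mem_pointwise_smul_iff_inv_smul_mem]
  have : τ⁻¹ • (n : 𝓞 L) = (n : 𝓞 L) := by
    apply RingOfIntegers.ext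
    show τ⁻¹ ((n : 𝓞 L) : L) = ((n : 𝓞 L) : L)
    simp
  rw [this]

theorem h27_above_galPrime (τ : L ≃ₐ[K] L) (w : HeightOneSpectrum (𝓞 L)) :
    h25_above L S (h92_galPrime τ w) ↔ h25_above L S w := by
  unfold h25_above
  simp only [h27_natCast_mem_galPrime]

/-- the Galois action on the primes not above `S`. -/
def h27_galPl (τ : L ≃ₐ[K] L) (v : h25_Pl L S) : h25_Pl L S :=
  ⟨h92_galPrime τ v.1, fun h => v.2 ((h27_above_galPrime S τ v.1).mp h)⟩

@[simp] theorem h27_galPl_val (τ : L ≃ₐ[K] L) (v : h25_Pl L S) :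
    (h27_galPl S τ v).1 = h92_galPrime τ v.1 := rfl

theorem h27_galPl_one (v : h25_Pl L S) : h27_galPl S (1 : L ≃ₐ[K] L) v = v :=
  Subtype.ext (h92_galPrime_one v.1)

theorem h27_galPl_mul (τ τ' : L ≃ₐ[K] L) (v : h25_Pl L S) :
    h27_galPl S (τ * τ') v = h27_galPl S τ (h27_galPl S τ' v) :=
  Subtype.ext (h92_galPrime_mul τ τ' v.1)

theorem h27_galPl_injective (τ : L ≃ₐ[K] L) : Function.Injective (h27_galPl S τ) := by
  intro v w h
  exact Subtype.ext (h92_galPrime_injective τ (congrArg Subtype.val h))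

theorem h27_map_eq_galPrime (τ : L ≃ₐ[K] L) (w : HeightOneSpectrum (𝓞 L)) :
    Ideal.map (RingOfIntegers.mapRingHom (τ : L →+* L)) w.asIdeal = (h92_galPrime τ w).asIdeal := by
  rw [h92_galPrime_asIdeal, Ideal.pointwise_smul_def]
  congr 1

theorem h27_divIdeal_gal (τ : L ≃ₐ[K] L) (v : h25_Pl L S) :
    h25_divIdeal L S ((Ideal.map (RingOfIntegers.mapRingHom (τ : L →+* L)) v.1.asIdeal :
      Ideal (𝓞 L)) : FractionalIdeal (𝓞 L)⁰ L) = Finsupp.single (h27_galPl S τ v) 1 := by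
  classical
  ext u
  rw [h25_divIdeal_apply, Finsupp.single_apply, h27_map_eq_galPrime,
    FractionalIdeal.count_maximal L u.1 (h92_galPrime τ v.1)]
  by_cases h : h92_galPrime τ v.1 = u.1
  · rw [if_pos h, if_pos (Subtype.ext h)]
  · rw [if_neg h, if_neg (fun h' => h (congrArg Subtype.val h'))]

theorem h27_Dmap_single (τ : L ≃ₐ[K] L) (v : h25_Pl L S) (n : ℤ) :
    h25_Dmap S (τ : L →+* L) (Finsupp.single v n) = Finsupp.single (h27_galPl S τ v) n := by
  rw [h66_Dmap_apply, Finsupp.sum_single_index (by simp), h27_divIdeal_gal,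
    Finsupp.smul_single, smul_eq_mul, mul_one]

theorem h27_Dmap_eq_mapDomain (τ : L ≃ₐ[K] L) (d : h25_Div L S) :
    h25_Dmap S (τ : L →+* L) d = Finsupp.mapDomain (h27_galPl S τ) d := by
  induction d using Finsupp.induction_linear with
  | zero => simp
  | add f g hf hg => rw [map_add, hf, hg, Finsupp.mapDomain_add]
  | single v n => rw [h27_Dmap_single, Finsupp.mapDomain_single]

theorem h27_Dmap_apply_gal (τ : L ≃ₐ[K] L) (d : h25_Div L S) (v : h25_Pl L S) :
    h25_Dmap S (τ : L →+* L) d (h27_galPl S τ v) = d v := by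
  rw [h27_Dmap_eq_mapDomain, Finsupp.mapDomain_apply (h27_galPl_injective S τ)]

/-- The Galois action on `J_q(L)`. -/
@[reducible] def h27_actJq (q : ℕ) [Fact q.Prime] :
    MulDistribMulAction (L ≃ₐ[K] L) ↥(h25_Jq L q) where
  smul τ φ := ⟨fun j => (φ : (L →+* PadicAlgCl q) → (PadicAlgCl q)ˣ) (j.comp (τ : L →+* L)),
    fun τ' j => by
      have h := φ.2 τ' (j.comp (τ : L →+* L))
      simpa [RingHom.comp_assoc] using h⟩
  one_smul φ := Subtype.ext (funext fun j => by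
    show (φ : (L →+* PadicAlgCl q) → (PadicAlgCl q)ˣ) (j.comp _) = _
    congr 1)
  mul_smul τ τ' φ := Subtype.ext (funext fun j => by
    show (φ : (L →+* PadicAlgCl q) → (PadicAlgCl q)ˣ) (j.comp _) =
      (φ : (L →+* PadicAlgCl q) → (PadicAlgCl q)ˣ) ((j.comp _).comp _)
    congr 1)
  smul_mul τ φ ψ := rfl
  smul_one τ := rfl

/-- The Galois action on divisors prime to `S`. -/
@[reducible] def h27_actDiv :
    MulDistribMulAction (L ≃ₐ[K] L) (Multiplicative (h25_Div L S)) where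
  smul τ d := AddMonoidHom.toMultiplicative (h25_Dmap S (τ : L →+* L)) d
  one_smul d := by
    show Multiplicative.ofAdd (h25_Dmap S _ (Multiplicative.toAdd d)) = d
    rw [h27_Dmap_eq_mapDomain]
    have : h27_galPl S (1 : L ≃ₐ[K] L) = id := funext (h27_galPl_one S)
    rw [this, Finsupp.mapDomain_id]
    rfl
  mul_smul τ τ' d := by
    show Multiplicative.ofAdd (h25_Dmap S _ (Multiplicative.toAdd d)) =
      Multiplicative.ofAdd (h25_Dmap S _ (h25_Dmap S _ (Multiplicative.toAdd d)))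
    rw [h27_Dmap_eq_mapDomain, h27_Dmap_eq_mapDomain, h27_Dmap_eq_mapDomain,
      ← Finsupp.mapDomain_comp]
    have : h27_galPl S (τ * τ') = h27_galPl S τ ∘ h27_galPl S τ' :=
      funext (h27_galPl_mul S τ τ')
    rw [this]
  smul_mul τ a b := map_mul _ a b
  smul_one τ := map_one _

attribute [local instance] h27_actJq h27_actDiv

theorem h27_smul_eq (τ : L ≃ₐ[K] L) (x : h25_X L S) :
    τ • x = h25_Xmap S (τ : L →+* L) x := rfl

theorem h27_smul_fst_apply (τ : L ≃ₐ[K] L) (x : h25_X L S) (q : S)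
    (j : L →+* PadicAlgCl ((q : Nat.Primes) : ℕ)) :
    (((τ • x).1 q : h25_Jq L ((q : Nat.Primes) : ℕ)) :
      (L →+* PadicAlgCl ((q : Nat.Primes) : ℕ)) → (PadicAlgCl ((q : Nat.Primes) : ℕ))ˣ) j
    = ((x.1 q : h25_Jq L ((q : Nat.Primes) : ℕ)) :
      (L →+* PadicAlgCl ((q : Nat.Primes) : ℕ)) → (PadicAlgCl ((q : Nat.Primes) : ℕ))ˣ)
        (j.comp (τ : L →+* L)) := rfl

theorem h27_smul_snd (τ : L ≃ₐ[K] L) (x : h25_X L S) :
    Multiplicative.toAdd (τ • x).2 = h25_Dmap S (τ : L →+* L) (Multiplicative.toAdd x.2) := rfl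

theorem h27_smul_diag [NumberField K] (τ : L ≃ₐ[K] L) (u : Lˣ) :
    τ • h25_diag L S u = h25_diag L S (τ • u) := by
  rw [h27_smul_eq, h66_Xmap_diag]
  rfl

end Act

section Main

variable {K L : Type*} [Field K] [NumberField K] [Field L] [NumberField L] [Algebra K L]
variable (S : Finset Nat.Primes)

attribute [local instance] h27_actJq h27_actDiv

/-- Divisors (prime to `S`) supported in `T`. -/
def h27_YD (T : Set (HeightOneSpectrum (𝓞 L))) : Subgroup (Multiplicative (h25_Div L S)) where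
  carrier := {d | ∀ v : h25_Pl L S, v.1 ∉ T → Multiplicative.toAdd d v = 0}
  one_mem' := fun _ _ => rfl
  mul_mem' := fun {a b} ha hb v hv => by
    show (Multiplicative.toAdd a + Multiplicative.toAdd b) v = 0
    rw [Finsupp.add_apply, ha v hv, hb v hv, add_zero]
  inv_mem' := fun {a} ha v hv => by
    show (-(Multiplicative.toAdd a)) v = 0
    rw [Finsupp.neg_apply, ha v hv, neg_zero]

omit [NumberField L] in
theorem h27_mem_YD (T : Set (HeightOneSpectrum (𝓞 L))) (d : Multiplicative (h25_Div L S)) :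
    d ∈ h27_YD S T ↔ ∀ v : h25_Pl L S, v.1 ∉ T → Multiplicative.toAdd d v = 0 := Iff.rfl

/-- `Y_T = J × Div(T)`: the elements whose divisor is supported in `T`. -/
def h27_Y (T : Set (HeightOneSpectrum (𝓞 L))) : Subgroup (h25_X L S) :=
  (⊤ : Subgroup (h25_J L S)).prod (h27_YD S T)

theorem h27_mem_Y (T : Set (HeightOneSpectrum (𝓞 L))) (x : h25_X L S) :
    x ∈ h27_Y S T ↔ ∀ v : h25_Pl L S, v.1 ∉ T → Multiplicative.toAdd x.2 v = 0 := by
  unfold h27_Y
  rw [Subgroup.mem_prod, h27_mem_YD]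
  simp

omit [NumberField K] in
theorem h27_YD_smul (σ : L ≃ₐ[K] L) (T : Set (HeightOneSpectrum (𝓞 L)))
    (hTσ : ∀ w ∈ T, h92_galPrime σ w ∈ T) (d : Multiplicative (h25_Div L S))
    (hd : d ∈ h27_YD S T) : σ • d ∈ h27_YD S T := by
  intro v hv
  have hv' : v = h27_galPl S σ (h27_galPl S σ⁻¹ v) := by
    rw [← h27_galPl_mul, mul_inv_cancel, h27_galPl_one]
  show h25_Dmap S (σ : L →+* L) (Multiplicative.toAdd d) v = 0
  rw [hv', h27_Dmap_apply_gal]
  apply hd
  intro hu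
  apply hv
  have h1 := hTσ _ hu
  rw [hv']
  exact h1

omit [NumberField K] in
theorem h27_Y_smul (σ : L ≃ₐ[K] L) (T : Set (HeightOneSpectrum (𝓞 L)))
    (hTσ : ∀ w ∈ T, h92_galPrime σ w ∈ T) (x : h25_X L S) (hx : x ∈ h27_Y S T) :
    σ • x ∈ h27_Y S T := by
  unfold h27_Y at hx ⊢
  rw [Subgroup.mem_prod] at hx ⊢
  exact ⟨Subgroup.mem_top _, h27_YD_smul S σ T hTσ x.2 hx.2⟩

theorem h27_div_apply (u : Lˣ) (v : h25_Pl L S) :
    h25_div L S u v = -Multiplicative.toAdd (v.1.valuationOfNeZero u) := by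
  unfold h25_div
  rw [h25_divIdeal_apply, h46_valuationOfNeZero_eq_count]
  simp

/-- `Y_T · Δ = X` when every divisor is principal outside `T`. -/
theorem h27_sup (T : Set (HeightOneSpectrum (𝓞 L)))
    (hT : ∀ d : HeightOneSpectrum (𝓞 L) →₀ ℤ, ∃ x : Lˣ, ∀ w, w ∉ T →
      w.valuationOfNeZero x = Multiplicative.ofAdd (d w)) :
    h27_Y S T ⊔ (h25_diag L S).range = ⊤ := by
  rw [eq_top_iff]
  intro x _
  obtain ⟨u, hu⟩ := hT (Finsupp.mapDomain Subtype.val (-(Multiplicative.toAdd x.2)))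
  have hx : x = (x / h25_diag L S u) * h25_diag L S u := by simp
  rw [hx]
  refine Subgroup.mul_mem_sup ?_ ⟨u, rfl⟩
  rw [h27_mem_Y]
  intro v hv
  have h1 : Multiplicative.toAdd (x / h25_diag L S u).2 v
      = Multiplicative.toAdd x.2 v - h25_div L S u v := rfl
  rw [h1, h27_div_apply, hu v.1 hv, toAdd_ofAdd,
    Finsupp.mapDomain_apply Subtype.val_injective]
  simp

/-- `Y_T ∩ Δ` is the group of `T`-units (when `T` contains the primes above `S`). -/
theorem h27_inf (T : Set (HeightOneSpectrum (𝓞 L))) (hST : ∀ w, h25_above L S w → w ∈ T) :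
    h27_Y S T ⊓ (h25_diag L S).range = (T.unit L).map (h25_diag L S) := by
  ext x
  rw [Subgroup.mem_inf, Subgroup.mem_map, MonoidHom.mem_range]
  constructor
  · rintro ⟨hxY, u, rfl⟩
    refine ⟨u, (h92_mem_unit_iff T u).mpr ?_, rfl⟩
    intro w hw
    have hw' : ¬ h25_above L S w := fun h => hw (hST w h)
    have h2 : h25_div L S u ⟨w, hw'⟩ = 0 := (h27_mem_Y S T _).mp hxY ⟨w, hw'⟩ hw
    rw [h27_div_apply, neg_eq_zero] at h2
    exact h2
  · rintro ⟨u, hu, rfl⟩
    refine ⟨(h27_mem_Y S T _).mpr ?_, u, rfl⟩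
    intro v hv
    show h25_div L S u v = 0
    rw [h27_div_apply, (h92_mem_unit_iff T u).mp hu v.1 hv]
    simp

theorem h27_diag_injective (hS : S.Nonempty) : Function.Injective (h25_diag L S) := by
  rw [injective_iff_map_eq_one]
  intro u hu
  obtain ⟨q, hq⟩ := hS
  obtain ⟨j⟩ : Nonempty (L →+* PadicAlgCl ((q : Nat.Primes) : ℕ)) := inferInstance
  have h1 : Units.map (j : L →* PadicAlgCl ((q : Nat.Primes) : ℕ)) u = 1 :=
    congrArg (fun x : h25_X L S => ((x.1 ⟨q, hq⟩ : h25_Jq L ((q : Nat.Primes) : ℕ)) :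
      (L →+* PadicAlgCl ((q : Nat.Primes) : ℕ)) → (PadicAlgCl ((q : Nat.Primes) : ℕ))ˣ) j) hu
  have h2 : j (u : L) = 1 := congrArg Units.val h1
  exact Units.ext (j.injective (h2.trans (map_one j).symm))

/-- the Herbrand indices of the `T`-units, transported along the diagonal. -/
theorem h27_hq_units (hS : S.Nonempty) (σ : L ≃ₐ[K] L) (p : ℕ)
    (T : Set (HeightOneSpectrum (𝓞 L))) :
    h92_hq (E := h25_X L S) (h92_mD σ) (h92_mN σ p) ((T.unit L).map (h25_diag L S))
        = h92_hq (h92_mD σ) (h92_mN σ p) (T.unit L) ∧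
    h92_hq (E := h25_X L S) (h92_mN σ p) (h92_mD σ) ((T.unit L).map (h25_diag L S))
        = h92_hq (h92_mN σ p) (h92_mD σ) (T.unit L) := by
  have hD : ∀ u : Lˣ, h25_diag L S (h92_mD σ u) = h92_mD σ (h25_diag L S u) := by
    intro u
    rw [h92_mD_apply, h92_mD_apply, map_div, h27_smul_diag]
  have hN : ∀ u : Lˣ, h25_diag L S (h92_mN σ p u) = h92_mN σ p (h25_diag L S u) := by
    intro u
    rw [h92_mN_apply, h92_mN_apply, map_prod]
    exact Finset.prod_congr rfl fun k _ => (h27_smul_diag S (σ ^ k) u).symm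
  exact ⟨h92_hq_map (h25_diag L S) (h27_diag_injective S hS) _ _ _ _ hD hN _,
    h92_hq_map (h25_diag L S) (h27_diag_injective S hS) _ _ _ _ hN hD _⟩

end Main

section HerbrandY

variable {K L : Type*} [Field K] [NumberField K] [Field L] [NumberField L] [Algebra K L]
variable (S : Finset Nat.Primes)

attribute [local instance] h27_actJq h27_actDiv h28_embAction

theorem h27_mD_X (σ : L ≃ₐ[K] L) :
    (h92_mD σ : h25_X L S →* h25_X L S)
      = (MonoidHom.piMap fun q : S =>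
          (h92_mD σ : ↥(h25_Jq L ((q : Nat.Primes) : ℕ)) →* ↥(h25_Jq L ((q : Nat.Primes) : ℕ)))).prodMap
          (h92_mD σ) :=
  MonoidHom.ext fun _ => rfl

theorem h27_mN_X (σ : L ≃ₐ[K] L) (p : ℕ) :
    (h92_mN σ p : h25_X L S →* h25_X L S)
      = (MonoidHom.piMap fun q : S =>
          (h92_mN σ p : ↥(h25_Jq L ((q : Nat.Primes) : ℕ)) →* ↥(h25_Jq L ((q : Nat.Primes) : ℕ)))).prodMap
          (h92_mN σ p) := by
  refine MonoidHom.ext fun x => ?_
  rw [h92_mN_apply]
  refine Prod.ext ?_ ?_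
  · rw [Prod.fst_prod]
    funext q
    rw [Finset.prod_apply]
    show _ = h92_mN σ p (x.1 q)
    rw [h92_mN_apply]
    rfl
  · rw [Prod.snd_prod]
    show _ = h92_mN σ p x.2
    rw [h92_mN_apply]
    rfl

theorem h27_Jq_eq (q : ℕ) [Fact q.Prime] :
    h25_Jq L q = h28_eqv (PadicAlgCl q ≃ₐ[ℚ_[q]] PadicAlgCl q) (L →+* PadicAlgCl q)
      (PadicAlgCl q)ˣ := by
  ext φ
  constructor
  · intro h τ j
    exact Units.ext (h τ j)
  · intro h τ j
    exact congrArg Units.val (h τ j)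

theorem h27_embPerm_pow (q : ℕ) [Fact q.Prime] (σ : L ≃ₐ[K] L) (k : ℕ)
    (j : L →+* PadicAlgCl q) :
    ((h28_embPerm q L (σ : L ≃+* L)) ^ k) j = j.comp ((σ ^ k : L ≃ₐ[K] L) : L →+* L) :=
  RingHom.ext fun x => by
    rw [h28_embPerm_pow_apply, h28_toRingEquiv_pow]
    rfl

/-- The Herbrand indices of `J_q(L)` as a module over `Gal(L/K)`. -/
theorem h27_hq_Jq (q : ℕ) [Fact q.Prime] {p : ℕ} (hp : p.Prime) (σ : L ≃ₐ[K] L)
    (hσp : σ ^ p = 1) (hσ1 : σ ≠ 1) :
    h92_hq (h92_mN σ p) (h92_mD σ) (⊤ : Subgroup ↥(h25_Jq L q)) = 1 ∧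
    h92_hq (h92_mD σ) (h92_mN σ p) (⊤ : Subgroup ↥(h25_Jq L q))
      = p ^ {w : HeightOneSpectrum (𝓞 L) |
          ((q : ℕ) : 𝓞 L) ∈ w.asIdeal ∧ h92_galPrime σ w = w}.ncard := by
  obtain ⟨h1, h2⟩ := h28_Jq_index_primes q hp σ hσp hσ1
  have hD : ∀ u : ↥(h25_Jq L q), (h25_Jq L q).subtype (h92_mD σ u)
      = h28_sD (PadicAlgCl q)ˣ (h28_embPerm q L (σ : L ≃+* L)) ((h25_Jq L q).subtype u) :=
    fun u => rfl
  have hN : ∀ u : ↥(h25_Jq L q), (h25_Jq L q).subtype (h92_mN σ p u)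
      = h28_sN (PadicAlgCl q)ˣ (h28_embPerm q L (σ : L ≃+* L)) p ((h25_Jq L q).subtype u) := by
    intro u
    rw [h92_mN_apply]
    funext j
    rw [h28_sN_apply, map_prod, Finset.prod_apply]
    refine Finset.prod_congr rfl fun k _ => ?_
    rw [h27_embPerm_pow]
    rfl
  have e : (⊤ : Subgroup ↥(h25_Jq L q)).map (h25_Jq L q).subtype
      = h28_eqv (PadicAlgCl q ≃ₐ[ℚ_[q]] PadicAlgCl q) (L →+* PadicAlgCl q) (PadicAlgCl q)ˣ := by
    rw [← MonoidHom.range_eq_map, Subgroup.range_subtype, h27_Jq_eq]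
  have t1 := h92_hq_map (h25_Jq L q).subtype Subtype.coe_injective _ _ _ _ hN hD ⊤
  have t2 := h92_hq_map (h25_Jq L q).subtype Subtype.coe_injective _ _ _ _ hD hN ⊤
  rw [e] at t1 t2
  exact ⟨t1.symm.trans h1, t2.symm.trans h2⟩

end HerbrandY

section PermModule

variable {K L : Type*} [Field K] [NumberField K] [Field L] [NumberField L] [Algebra K L]
variable (S : Finset Nat.Primes)

attribute [local instance] h27_actJq h27_actDiv

/-- the trivial action of `Unit` as a `MulDistribMulAction`. -/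
@[reducible] def h27_unitAct (A : Type*) [Monoid A] : MulDistribMulAction Unit A :=
  { (inferInstance : MulAction Unit A) with
    smul_mul := fun _ _ _ => rfl
    smul_one := fun _ => rfl }

/-- the primes in `T` not above `S`. -/
abbrev h27_PlT (T : Set (HeightOneSpectrum (𝓞 L))) : Type _ := {v : h25_Pl L S // v.1 ∈ T}

theorem h27_PlT_finite (T : Set (HeightOneSpectrum (𝓞 L))) (hT : T.Finite) :
    Finite (h27_PlT S T) := by
  have : Finite ↥T := hT
  refine Finite.of_injective (fun x : h27_PlT S T => (⟨x.1.1, x.2⟩ : ↥T)) ?_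
  intro x y h
  simp only [Subtype.mk.injEq] at h
  exact Subtype.ext (Subtype.ext h)

/-- the permutation of `T ∖ S` induced by `σ⁻¹`. -/
def h27_permT (σ : L ≃ₐ[K] L) (T : Set (HeightOneSpectrum (𝓞 L)))
    (h1 : ∀ w ∈ T, h92_galPrime σ w ∈ T) (h2 : ∀ w ∈ T, h92_galPrime σ⁻¹ w ∈ T) :
    Equiv.Perm (h27_PlT S T) where
  toFun x := ⟨h27_galPl S σ⁻¹ x.1, h2 _ x.2⟩
  invFun x := ⟨h27_galPl S σ x.1, h1 _ x.2⟩
  left_inv x := Subtype.ext (by
    show h27_galPl S σ (h27_galPl S σ⁻¹ x.1) = x.1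
    rw [← h27_galPl_mul, mul_inv_cancel, h27_galPl_one])
  right_inv x := Subtype.ext (by
    show h27_galPl S σ⁻¹ (h27_galPl S σ x.1) = x.1
    rw [← h27_galPl_mul, inv_mul_cancel, h27_galPl_one])

theorem h27_permT_pow (σ : L ≃ₐ[K] L) (T : Set (HeightOneSpectrum (𝓞 L)))
    (h1 : ∀ w ∈ T, h92_galPrime σ w ∈ T) (h2 : ∀ w ∈ T, h92_galPrime σ⁻¹ w ∈ T) (k : ℕ)
    (x : h27_PlT S T) :
    (((h27_permT S σ T h1 h2) ^ k) x).1 = h27_galPl S (σ ^ k)⁻¹ x.1 := by
  induction k generalizing x with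
  | zero => simp [h27_galPl_one]
  | succ k ih =>
    rw [pow_succ', Equiv.Perm.mul_apply]
    show h27_galPl S σ⁻¹ (((h27_permT S σ T h1 h2) ^ k) x).1 = _
    rw [ih, ← h27_galPl_mul, pow_succ, mul_inv_rev]

theorem h27_permT_pow_eq_one (σ : L ≃ₐ[K] L) (T : Set (HeightOneSpectrum (𝓞 L)))
    (h1 : ∀ w ∈ T, h92_galPrime σ w ∈ T) (h2 : ∀ w ∈ T, h92_galPrime σ⁻¹ w ∈ T) {p : ℕ}
    (hσp : σ ^ p = 1) : (h27_permT S σ T h1 h2) ^ p = 1 := by
  refine Equiv.ext fun x => Subtype.ext ?_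
  rw [h27_permT_pow, hσp, inv_one, h27_galPl_one]
  rfl

/-- evaluation of `σ^k • d` at a prime of `T`. -/
theorem h27_smul_pow_apply (σ : L ≃ₐ[K] L) (T : Set (HeightOneSpectrum (𝓞 L)))
    (h1 : ∀ w ∈ T, h92_galPrime σ w ∈ T) (h2 : ∀ w ∈ T, h92_galPrime σ⁻¹ w ∈ T) (k : ℕ)
    (d : Multiplicative (h25_Div L S)) (x : h27_PlT S T) :
    Multiplicative.toAdd (σ ^ k • d) x.1
      = Multiplicative.toAdd d (((h27_permT S σ T h1 h2) ^ k) x).1 := by
  rw [h27_permT_pow]
  have hx : x.1 = h27_galPl S (σ ^ k) (h27_galPl S (σ ^ k)⁻¹ x.1) := by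
    rw [← h27_galPl_mul, mul_inv_cancel, h27_galPl_one]
  show h25_Dmap S ((σ ^ k : L ≃ₐ[K] L) : L →+* L) (Multiplicative.toAdd d) x.1 = _
  conv_lhs => rw [hx]
  rw [h27_Dmap_apply_gal]

open Classical in
/-- extension by zero of a function on `T ∖ S` to a divisor. -/
def h27_ext (T : Set (HeightOneSpectrum (𝓞 L))) (hT : T.Finite) :
    (h27_PlT S T → Multiplicative ℤ) →* Multiplicative (h25_Div L S) where
  toFun φ := Multiplicative.ofAdd (Finsupp.ofSupportFinite
    (fun v : h25_Pl L S => if h : v.1 ∈ T then Multiplicative.toAdd (φ ⟨v, h⟩) else 0)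
    ((hT.preimage Subtype.val_injective.injOn).subset (fun v hv => by
      by_contra h
      exact hv (dif_neg h))))
  map_one' := by
    apply congrArg Multiplicative.ofAdd
    ext v
    show (if h : v.1 ∈ T then Multiplicative.toAdd ((1 : h27_PlT S T → Multiplicative ℤ) ⟨v, h⟩)
      else 0) = 0
    split_ifs <;> rfl
  map_mul' φ ψ := by
    apply congrArg Multiplicative.ofAdd
    ext v
    show (if h : v.1 ∈ T then Multiplicative.toAdd ((φ * ψ) ⟨v, h⟩) else 0)
      = (if h : v.1 ∈ T then Multiplicative.toAdd (φ ⟨v, h⟩) else 0)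
        + (if h : v.1 ∈ T then Multiplicative.toAdd (ψ ⟨v, h⟩) else 0)
    split_ifs
    · rfl
    · simp

open Classical in
theorem h27_ext_apply (T : Set (HeightOneSpectrum (𝓞 L))) (hT : T.Finite)
    (φ : h27_PlT S T → Multiplicative ℤ) (x : h27_PlT S T) :
    Multiplicative.toAdd (h27_ext S T hT φ) x.1 = Multiplicative.toAdd (φ x) := by
  show (if h : x.1.1 ∈ T then Multiplicative.toAdd (φ ⟨x.1, h⟩) else 0) = _
  rw [dif_pos x.2]

open Classical in
theorem h27_ext_mem (T : Set (HeightOneSpectrum (𝓞 L))) (hT : T.Finite)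
    (φ : h27_PlT S T → Multiplicative ℤ) : h27_ext S T hT φ ∈ h27_YD S T := by
  intro v hv
  show (if h : v.1 ∈ T then Multiplicative.toAdd (φ ⟨v, h⟩) else 0) = 0
  rw [dif_neg hv]

theorem h27_YD_ext (T : Set (HeightOneSpectrum (𝓞 L))) {d d' : Multiplicative (h25_Div L S)}
    (hd : d ∈ h27_YD S T) (hd' : d' ∈ h27_YD S T)
    (h : ∀ x : h27_PlT S T, Multiplicative.toAdd d x.1 = Multiplicative.toAdd d' x.1) :
    d = d' := by
  apply Multiplicative.toAdd.injective
  ext v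
  by_cases hv : v.1 ∈ T
  · exact h ⟨v, hv⟩
  · rw [hd v hv, hd' v hv]

theorem h27_ext_injective (T : Set (HeightOneSpectrum (𝓞 L))) (hT : T.Finite) :
    Function.Injective (h27_ext S T hT) := by
  intro φ ψ h
  funext x
  apply Multiplicative.toAdd.injective
  rw [← h27_ext_apply S T hT φ x, ← h27_ext_apply S T hT ψ x, h]

theorem h27_ext_range (T : Set (HeightOneSpectrum (𝓞 L))) (hT : T.Finite) :
    (⊤ : Subgroup (h27_PlT S T → Multiplicative ℤ)).map (h27_ext S T hT) = h27_YD S T := by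
  ext d
  rw [Subgroup.mem_map]
  constructor
  · rintro ⟨φ, -, rfl⟩
    exact h27_ext_mem S T hT φ
  · intro hd
    refine ⟨fun x => Multiplicative.ofAdd (Multiplicative.toAdd d x.1), Subgroup.mem_top _, ?_⟩
    refine h27_YD_ext S T (h27_ext_mem S T hT _) hd fun x => ?_
    rw [h27_ext_apply]
    rfl

end PermModule

section HerbrandDiv

variable {K L : Type*} [Field K] [NumberField K] [Field L] [NumberField L] [Algebra K L]
variable (S : Finset Nat.Primes)

attribute [local instance] h27_actJq h27_actDiv h27_unitAct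

/-- Hilbert 90 for the trivial module `ℤ`. -/
theorem h27_triv_h90 {p : ℕ} (hp : p.Prime) (τ₀ : Unit) (x : Multiplicative ℤ)
    (hx : h92_mN τ₀ p x = 1) : x = 1 := by
  have hx' : x ^ p = 1 := by
    rw [← h92_mN_of_fixed p (σ := τ₀) (x := x) rfl]
    exact hx
  apply Multiplicative.toAdd.injective
  have h3 : (p : ℤ) * Multiplicative.toAdd x = 0 := by
    have h4 := congrArg Multiplicative.toAdd hx'
    rw [toAdd_pow, toAdd_one, nsmul_eq_mul] at h4
    exact h4
  rcases mul_eq_zero.mp h3 with h | h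
  · exact absurd (by exact_mod_cast h) hp.ne_zero
  · exact h

/-- norm index of the trivial module `ℤ`. -/
theorem h27_triv_index (p : ℕ) (τ₀ : Unit) :
    h92_hq (h92_mD τ₀) (h92_mN τ₀ p) (⊤ : Subgroup (Multiplicative ℤ)) = p := by
  have hDtriv : (h92_mD τ₀ : Multiplicative ℤ →* Multiplicative ℤ) = 1 := by
    refine MonoidHom.ext fun x => ?_
    rw [h92_mD_apply]
    show x / x = 1
    exact div_self' x
  have hNpow : ∀ x : Multiplicative ℤ, h92_mN τ₀ p x = x ^ p := fun x => h92_mN_of_fixed p rfl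
  have e : Subgroup.map (h92_mN τ₀ p) (⊤ : Subgroup (Multiplicative ℤ))
      = AddSubgroup.toSubgroup (AddSubgroup.zmultiples (p : ℤ)) := by
    ext x
    constructor
    · rintro ⟨y, -, rfl⟩
      rw [hNpow]
      show Multiplicative.toAdd (y ^ p) ∈ AddSubgroup.zmultiples (p : ℤ)
      rw [toAdd_pow, AddSubgroup.mem_zmultiples_iff]
      exact ⟨Multiplicative.toAdd y, by rw [nsmul_eq_mul, smul_eq_mul, mul_comm]⟩
    · intro hx
      have hx' : Multiplicative.toAdd x ∈ AddSubgroup.zmultiples (p : ℤ) := hx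
      obtain ⟨k, hk⟩ := AddSubgroup.mem_zmultiples_iff.mp hx'
      refine ⟨Multiplicative.ofAdd k, Subgroup.mem_top _, ?_⟩
      rw [hNpow]
      apply Multiplicative.toAdd.injective
      rw [toAdd_pow, toAdd_ofAdd, ← hk, nsmul_eq_mul, smul_eq_mul, mul_comm]
  rw [h92_hq_def, hDtriv, MonoidHom.ker_one, top_inf_eq, Subgroup.relIndex_top_right, e,
    AddSubgroup.index_toSubgroup, Int.index_zmultiples, Int.natAbs_natCast]

/-- the Herbrand indices of the permutation module `Div(T ∖ S)`. -/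
theorem h27_hq_YD {p : ℕ} (hp : p.Prime) (σ : L ≃ₐ[K] L) (hσp : σ ^ p = 1)
    (T : Set (HeightOneSpectrum (𝓞 L))) (hT : T.Finite)
    (h1 : ∀ w ∈ T, h92_galPrime σ w ∈ T) (h2 : ∀ w ∈ T, h92_galPrime σ⁻¹ w ∈ T) :
    h92_hq (h92_mN σ p) (h92_mD σ) (h27_YD S T) = 1 ∧
    h92_hq (h92_mD σ) (h92_mN σ p) (h27_YD S T)
      = p ^ {w : HeightOneSpectrum (𝓞 L) |
          w ∈ T ∧ ¬ h25_above L S w ∧ h92_galPrime σ w = w}.ncard := by
  have := h27_PlT_finite S T hT
  set s := h27_permT S σ T h1 h2 with hs_def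
  have hsp : s ^ p = 1 := h27_permT_pow_eq_one S σ T h1 h2 hσp
  have hstab : ∀ x ∈ h27_YD S T, σ • x ∈ h27_YD S T := fun x hx => h27_YD_smul S σ T h1 x hx
  have hD : ∀ φ : h27_PlT S T → Multiplicative ℤ,
      h27_ext S T hT (h28_sD (Multiplicative ℤ) s φ) = h92_mD σ (h27_ext S T hT φ) := by
    intro φ
    refine h27_YD_ext S T (h27_ext_mem S T hT _)
      (h92_mD_mem hstab (h27_ext_mem S T hT φ)) fun x => ?_
    rw [h27_ext_apply, h92_mD_apply]
    have h3 := h27_smul_pow_apply S σ T h1 h2 1 (h27_ext S T hT φ) x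
    rw [pow_one, pow_one, h27_ext_apply] at h3
    show Multiplicative.toAdd (φ (s x) / φ x)
      = Multiplicative.toAdd (σ • h27_ext S T hT φ) x.1
        - Multiplicative.toAdd (h27_ext S T hT φ) x.1
    rw [h3, h27_ext_apply]
    rfl
  have hN : ∀ φ : h27_PlT S T → Multiplicative ℤ,
      h27_ext S T hT (h28_sN (Multiplicative ℤ) s p φ) = h92_mN σ p (h27_ext S T hT φ) := by
    intro φ
    refine h27_YD_ext S T (h27_ext_mem S T hT _)
      (h92_mN_mem p hstab (h27_ext_mem S T hT φ)) fun x => ?_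
    rw [h27_ext_apply, h92_mN_apply, h28_sN_apply, toAdd_prod, toAdd_prod,
      Finsupp.finsetSum_apply]
    refine Finset.sum_congr rfl fun k _ => ?_
    rw [h27_smul_pow_apply S σ T h1 h2 k, h27_ext_apply]
  have t1 := h92_hq_map (h27_ext S T hT) (h27_ext_injective S T hT) _ _ _ _ hN hD ⊤
  have t2 := h92_hq_map (h27_ext S T hT) (h27_ext_injective S T hT) _ _ _ _ hD hN ⊤
  rw [h27_ext_range] at t1 t2
  have etop : (⊤ : Subgroup (h27_PlT S T → Multiplicative ℤ))
      = h28_eqv Unit (h27_PlT S T) (Multiplicative ℤ) := by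
    ext φ
    simp only [Subgroup.mem_top, true_iff]
    intro τ j
    rfl
  have hfix : ∀ j : h27_PlT S T, h28_fix Unit (Multiplicative ℤ) j = ⊤ := by
    intro j
    ext a
    simp only [Subgroup.mem_top, iff_true]
    intro τ _
    rfl
  have hs : ∀ (τ : Unit) (j : h27_PlT S T), s (τ • j) = τ • s j := fun _ _ => rfl
  have a1 := h28_semiloc_h90 (Γ := Unit) (A := Multiplicative ℤ) hp s hs hsp
    (fun j τ₀ _ x _ hx => ⟨1, Subgroup.one_mem _, by rw [h27_triv_h90 hp τ₀ x hx, map_one]⟩)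
  have a2 := h28_semiloc_index (Γ := Unit) (A := Multiplicative ℤ) hp s hs hsp p
    (fun j τ₀ _ => by rw [hfix]; exact h27_triv_index p τ₀)
  rw [← etop] at a1 a2
  refine ⟨t1.trans a1, ?_⟩
  rw [t2, a2]
  congr 1
  -- the count of fixed points
  rw [← Nat.card_coe_set_eq]
  symm
  let f : {w : HeightOneSpectrum (𝓞 L) |
      w ∈ T ∧ ¬ h25_above L S w ∧ h92_galPrime σ w = w} →
      {O : MulAction.orbitRel.Quotient Unit (h27_PlT S T) // h28_orbMap s hs O = O} :=
    fun w => ⟨Quotient.mk'' ⟨⟨w.1, w.2.2.1⟩, w.2.1⟩, by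
      rw [h28_orbMap_mk]
      congr 1
      apply Subtype.ext
      apply Subtype.ext
      show h92_galPrime σ⁻¹ w.1 = w.1
      have h3 := congrArg (h92_galPrime σ⁻¹) w.2.2.2
      rw [← h92_galPrime_mul, inv_mul_cancel, h92_galPrime_one] at h3
      exact h3.symm⟩
  have horb : ∀ x y : h27_PlT S T,
      (Quotient.mk'' x : MulAction.orbitRel.Quotient Unit (h27_PlT S T)) = Quotient.mk'' y →
        x = y := by
    intro x y h
    have h3 := Quotient.eq''.mp h
    rw [MulAction.orbitRel_apply, MulAction.mem_orbit_iff] at h3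
    obtain ⟨τ, hτ⟩ := h3
    exact hτ.symm
  refine Nat.card_congr (Equiv.ofBijective f ⟨?_, ?_⟩)
  · intro w w' h
    have h3 := horb _ _ (congrArg Subtype.val h)
    exact Subtype.ext (congrArg (fun x : h27_PlT S T => x.1.1) h3)
  · rintro ⟨O, hO⟩
    obtain ⟨x, rfl⟩ := Quotient.exists_rep O
    have h3 : s x = x := horb _ _ hO
    have h4 : h92_galPrime σ⁻¹ x.1.1 = x.1.1 := congrArg (fun x : h27_PlT S T => x.1.1) h3
    have h5 : h92_galPrime σ x.1.1 = x.1.1 := by
      have h6 := congrArg (h92_galPrime σ) h4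
      rw [← h92_galPrime_mul, mul_inv_cancel, h92_galPrime_one] at h6
      exact h6.symm
    exact ⟨⟨x.1.1, x.2, x.1.2, h5⟩, rfl⟩

end HerbrandDiv

section Final

variable {K L : Type*} [Field K] [NumberField K] [Field L] [NumberField L] [Algebra K L]
variable (S : Finset Nat.Primes)

attribute [local instance] h27_actJq h27_actDiv

/-- the number of `σ`-fixed primes in `T`, split according to the residue characteristic. -/
theorem h27_count (σ : L ≃ₐ[K] L) (T : Set (HeightOneSpectrum (𝓞 L))) (hT : T.Finite)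
    (hST : ∀ w, h25_above L S w → w ∈ T) :
    (∑ q : S, {w : HeightOneSpectrum (𝓞 L) |
        ((((q : Nat.Primes) : ℕ)) : 𝓞 L) ∈ w.asIdeal ∧ h92_galPrime σ w = w}.ncard)
      + {w : HeightOneSpectrum (𝓞 L) |
          w ∈ T ∧ ¬ h25_above L S w ∧ h92_galPrime σ w = w}.ncard
    = {w : HeightOneSpectrum (𝓞 L) | w ∈ T ∧ h92_galPrime σ w = w}.ncard := by
  classical
  set Fix : Finset (HeightOneSpectrum (𝓞 L)) :=
    hT.toFinset.filter (fun w => h92_galPrime σ w = w) with hFix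
  have hA : ∀ q ∈ S, {w : HeightOneSpectrum (𝓞 L) |
        (((q : Nat.Primes) : ℕ) : 𝓞 L) ∈ w.asIdeal ∧ h92_galPrime σ w = w}.ncard
      = (Fix.filter (fun w => (((q : Nat.Primes) : ℕ) : 𝓞 L) ∈ w.asIdeal)).card := by
    intro q hq
    rw [← Set.ncard_coe_finset]
    congr 1
    ext w
    simp only [Set.mem_ofPred_eq, Finset.coe_filter, hFix, Finset.mem_filter,
      Set.Finite.mem_toFinset]
    constructor
    · rintro ⟨h1, h2⟩
      exact ⟨⟨hST w ⟨q, hq, h1⟩, h2⟩, h1⟩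
    · rintro ⟨⟨_, h2⟩, h1⟩
      exact ⟨h1, h2⟩
  have hB : {w : HeightOneSpectrum (𝓞 L) |
        w ∈ T ∧ ¬ h25_above L S w ∧ h92_galPrime σ w = w}.ncard
      = (Fix.filter (fun w => ¬ h25_above L S w)).card := by
    rw [← Set.ncard_coe_finset]
    congr 1
    ext w
    simp only [Set.mem_ofPred_eq, Finset.coe_filter, hFix, Finset.mem_filter,
      Set.Finite.mem_toFinset]
    tauto
  have hTot : {w : HeightOneSpectrum (𝓞 L) | w ∈ T ∧ h92_galPrime σ w = w}.ncard = Fix.card := by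
    rw [← Set.ncard_coe_finset]
    congr 1
    ext w
    simp only [Set.mem_ofPred_eq, hFix, Finset.coe_filter, Set.Finite.mem_toFinset]
  have hU : Fix.filter (fun w => h25_above L S w)
      = S.biUnion (fun q => Fix.filter (fun w => (((q : Nat.Primes) : ℕ) : 𝓞 L) ∈ w.asIdeal)) := by
    ext w
    rw [Finset.mem_filter, Finset.mem_biUnion]
    constructor
    · rintro ⟨h1, q, hq, h2⟩
      exact ⟨q, hq, Finset.mem_filter.mpr ⟨h1, h2⟩⟩
    · rintro ⟨q, hq, h3⟩
      obtain ⟨h1, h2⟩ := Finset.mem_filter.mp h3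
      exact ⟨h1, q, hq, h2⟩
  have hdisj : ∀ q ∈ S, ∀ q' ∈ S, q ≠ q' →
      Disjoint (Fix.filter (fun w => (((q : Nat.Primes) : ℕ) : 𝓞 L) ∈ w.asIdeal))
        (Fix.filter (fun w => (((q' : Nat.Primes) : ℕ) : 𝓞 L) ∈ w.asIdeal)) := by
    intro q _ q' _ hne
    rw [Finset.disjoint_filter]
    intro w _ h1 h2
    have hcop : Nat.Coprime (q : ℕ) (q' : ℕ) :=
      (Nat.coprime_primes q.2 q'.2).mpr (fun h => hne (Subtype.ext h))
    obtain ⟨a, b, hab⟩ := Nat.isCoprime_iff_coprime.mpr hcop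
    have h5 : ((a : 𝓞 L) * (((q : Nat.Primes) : ℕ) : 𝓞 L)
        + (b : 𝓞 L) * (((q' : Nat.Primes) : ℕ) : 𝓞 L)) = 1 := by
      have h6 := congrArg (Int.cast : ℤ → 𝓞 L) hab
      push_cast at h6
      exact h6
    have h3 : (1 : 𝓞 L) ∈ w.asIdeal := by
      rw [← h5]
      exact Ideal.add_mem _ (Ideal.mul_mem_left _ _ h1) (Ideal.mul_mem_left _ _ h2)
    exact w.isPrime.ne_top ((Ideal.eq_top_iff_one _).mpr h3)
  rw [Finset.sum_coe_sort S (fun q => {w : HeightOneSpectrum (𝓞 L) |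
        (((q : Nat.Primes) : ℕ) : 𝓞 L) ∈ w.asIdeal ∧ h92_galPrime σ w = w}.ncard),
    Finset.sum_congr rfl hA, ← Finset.card_biUnion hdisj, ← hU, hB, hTot]
  exact Finset.card_filter_add_card_filter_not _

/-- the Herbrand indices of `Y_T = J × Div(T)`. -/
theorem h27_hq_Y {p : ℕ} (hp : p.Prime) (σ : L ≃ₐ[K] L) (hσp : σ ^ p = 1) (hσ1 : σ ≠ 1)
    (T : Set (HeightOneSpectrum (𝓞 L))) (hT : T.Finite)
    (hST : ∀ w, h25_above L S w → w ∈ T)
    (h1 : ∀ w ∈ T, h92_galPrime σ w ∈ T) (h2 : ∀ w ∈ T, h92_galPrime σ⁻¹ w ∈ T) :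
    h92_hq (E := h25_X L S) (h92_mN σ p) (h92_mD σ) (h27_Y S T) = 1 ∧
    h92_hq (E := h25_X L S) (h92_mD σ) (h92_mN σ p) (h27_Y S T)
      = p ^ {w : HeightOneSpectrum (𝓞 L) | w ∈ T ∧ h92_galPrime σ w = w}.ncard := by
  have hY : h27_Y S T
      = (Subgroup.pi Set.univ fun q : S =>
          (⊤ : Subgroup ↥(h25_Jq L ((q : Nat.Primes) : ℕ)))).prod (h27_YD S T) := by
    unfold h27_Y
    rw [Subgroup.pi_top]
  obtain ⟨d1, d2⟩ := h27_hq_YD S hp σ hσp T hT h1 h2
  constructor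
  · rw [hY, h27_mN_X, h27_mD_X, h27_hq_prod, h27_hq_pi, d1, mul_one]
    exact Finset.prod_eq_one fun q _ => (h27_hq_Jq _ hp σ hσp hσ1).1
  · rw [hY, h27_mN_X, h27_mD_X, h27_hq_prod, h27_hq_pi, d2,
      Finset.prod_congr rfl fun q _ => (h27_hq_Jq _ hp σ hσp hσ1).2,
      Finset.prod_pow_eq_pow_sum, ← pow_add, h27_count S σ T hT hST]

end Final

section Export

variable (K : Type*) [Field K] [NumberField K] (L : Type*) [Field L] [NumberField L] [Algebra K L]
variable (S : Finset Nat.Primes)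

attribute [local instance] h27_actJq h27_actDiv

/-- **GLOB-1ST-ASM (first inequality)**: for `L/K` Galois of odd prime degree `p`, `σ ≠ 1` in
`Gal(L/K)` and `S ≠ ∅`: `[ker (σ-1) : im N_σ] = p * [ker N_σ : im (σ-1)]` on `C_L = h25_C L S`,
both indices finite.  (No ramification hypothesis.) -/
theorem h27_first_ineq (p : ℕ) (hp : p.Prime) (hp2 : p ≠ 2) [IsGalois K L]
    (hdeg : Module.finrank K L = p) (hS : S.Nonempty) (σ : L ≃ₐ[K] L) (hσ : σ ≠ 1) :
    ((h25_Nm S σ p).range).relIndex (h25_Dm S σ).ker ≠ 0 ∧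
    ((h25_Dm S σ).range).relIndex (h25_Nm S σ p).ker ≠ 0 ∧
    ((h25_Nm S σ p).range).relIndex (h25_Dm S σ).ker =
      p * ((h25_Dm S σ).range).relIndex (h25_Nm S σ p).ker := by
  classical
  have hσp : σ ^ p = 1 := by
    rw [← hdeg, ← IsGalois.card_aut_eq_finrank]
    exact pow_card_eq_one'
  have hSL : {w : HeightOneSpectrum (𝓞 L) | h25_above L S w}.Finite := by
    have e : {w : HeightOneSpectrum (𝓞 L) | h25_above L S w}
        = ⋃ q ∈ S, {w : HeightOneSpectrum (𝓞 L) |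
            w.asIdeal ∣ Ideal.span {(((q : Nat.Primes) : ℕ) : 𝓞 L)}} := by
      ext w
      simp only [Set.mem_ofPred_eq, Set.mem_iUnion, h25_above, Ideal.dvd_span_singleton,
        exists_prop]
    rw [e]
    refine Set.Finite.biUnion S.finite_toSet fun q _ => Ideal.finite_factors ?_
    rw [Ne, Ideal.zero_eq_bot, Ideal.span_singleton_eq_bot]
    exact_mod_cast q.2.ne_zero
  obtain ⟨T, hTfin, hST, hTσ, hTcl⟩ := h92_exists_clT_stable σ p hp.pos hσp _ hSL
  have hTpow : ∀ k : ℕ, ∀ w ∈ T, h92_galPrime (σ ^ k) w ∈ T := by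
    intro k
    induction k with
    | zero =>
      intro w hw
      rwa [pow_zero, h92_galPrime_one]
    | succ k ih =>
      intro w hw
      rw [pow_succ', h92_galPrime_mul]
      exact hTσ _ (ih w hw)
  have hinv : σ⁻¹ = σ ^ (p - 1) := by
    apply inv_eq_of_mul_eq_one_right
    rw [← pow_succ', Nat.sub_add_cancel hp.pos, hσp]
  have hTσ' : ∀ w ∈ T, h92_galPrime σ⁻¹ w ∈ T := by
    rw [hinv]
    exact hTpow (p - 1)
  have hST' : ∀ w, h25_above L S w → w ∈ T := fun w hw => hST hw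
  obtain ⟨y1, y2⟩ := h27_hq_Y S hp σ hσp hσ T hTfin hST' hTσ hTσ'
  obtain ⟨u1, u2, u3⟩ := h92_sunits_index hp hp2 hdeg σ hσ T hTfin hTσ
  obtain ⟨e1, e2⟩ := h27_hq_units S hS σ p T
  have hinf := h27_inf S T hST'
  have hsup := h27_sup S T hTcl
  have hΔσ : ∀ x ∈ (h25_diag L S).range, σ • x ∈ (h25_diag L S).range := by
    rintro _ ⟨u, rfl⟩
    exact ⟨σ • u, (h27_smul_diag S σ u).symm⟩
  have hYσ := h27_Y_smul S σ T hTσ
  refine h92_first_ineq_quotient (X := h25_X L S) σ p hp.ne_zero hσp (h25_diag L S).range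
    (h27_Y S T) hΔσ hYσ hsup _ y2 y1 ?_ ?_ ?_ (h25_Dm S σ) (h25_Nm S σ p) ?_ ?_
  · rw [hinf, e1]
    exact u1
  · rw [hinf, e2]
    exact u2
  · rw [hinf, e1, e2]
    exact u3
  · intro x
    show h25_Cmap S (σ : L →+* L) (h25_mk L S x) / h25_mk L S x = h25_mk L S (h92_mD σ x)
    rw [h66_Cmap_mk, h92_mD_apply, map_div]
    rfl
  · intro x
    show ∏ i ∈ Finset.range p, h25_Cmap S ((σ ^ i : L ≃ₐ[K] L) : L →+* L) (h25_mk L S x)
      = h25_mk L S (h92_mN σ p x)
    rw [h92_mN_apply, map_prod]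
    exact Finset.prod_congr rfl fun i _ => h66_Cmap_mk S _ x

end Export

end

end Fermat.Agent.S55
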