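import Mathlib
import Fermat.Agent.S55.h25_GlobVal
import Fermat.Agent.S55.h84_ValExtC
import Fermat.Agent.S55.h10_ValPrin
import Fermat.Agent.S55.h2_PLoc

set_option autoImplicit false

/-!
# S55, GLOB-UNORM (R1-D): the Frobenius pairs, properties FP2 and FP3

`K ⊆ E` number fields, `S` a finite set of rational primes, `p = P ∈ S` odd, `ζ ∈ E` (in the
application a primitive `p^(n+1)`-th root of unity), `deg : Gal(E/ℚ) → ℤ/p^n` and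
`w : C_E ⊗ ℤ_(p) → U1` as produced by `h90_glob_cfdata` (only their two specification clauses
`hw`, `hdeg` are used).  For a prime `v` of `K` not above `S` and `σ ∈ Gal(E/ℚ)` with
`σ ζ = ζ ^ N(v)` (a Frobenius at `v`):

* `h28_w_ext_prime` : `w (ext [v]) = [E : K] • N(v)^(p-1)`;
* `h28_recip_FP2` : `w (ext [v]) = [E : K] • (deg σ • e₀ + p^n • y)` with `e₀ = 1 + p`
  (`h28_recip_FP2_gal`: the same with `Nat.card Gal(E/K)` and `σ ∈ Gal(E/K)`);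
* `h28_recip_FP3` : `deg σ ≠ 1` if `N(v)^(p-1) ≢ 1 mod p^(n+1)`;
* `h28_exists_level_FP3` : the latter holds for all large `n`, uniformly on a finite set of
  primes.
-/

open IsDedekindDomain NumberField

namespace Fermat.Agent.S55

noncomputable section

section Arith

variable (p : ℕ) [Fact p.Prime]

/-- If `m ^ (p - 1) ≡ (1 + p) ^ d mod p ^ (n + 1)` (`p ∤ m`, `p` odd), then
`m ^ (p - 1) = (1 + p) ^ d · y ^ (p ^ n)` in `U1 = 1 + p ℤ_p`. -/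
theorem h28_natU1_eq_pow_mul (hp2 : p ≠ 2) (n : ℕ) {m : ℕ} (hm : ¬ p ∣ m) (d : ℕ)
    (h : (m : ZMod (p ^ (n + 1))) ^ (p - 1) = (1 + (p : ZMod (p ^ (n + 1)))) ^ d)
    (e₀ : h18_U1 p) (he₀ : (((e₀ : h18_U1 p) : ℤ_[p]ˣ) : ℤ_[p]) = 1 + p) :
    ∃ y : h18_U1 p, h18_natU1 p m = e₀ ^ d * y ^ (p ^ n) := by
  -- the congruence in ℤ
  have hZ : ((p ^ (n + 1) : ℕ) : ℤ) ∣ (m : ℤ) ^ (p - 1) - (1 + (p : ℤ)) ^ d := by
    rw [← ZMod.intCast_zmod_eq_zero_iff_dvd]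
    push_cast
    rw [h, sub_self]
  -- transport to ℤ_p
  have hZp : (p : ℤ_[p]) ^ (n + 1) ∣ (m : ℤ_[p]) ^ (p - 1) - (1 + (p : ℤ_[p])) ^ d := by
    obtain ⟨c, hc⟩ := hZ
    refine ⟨(c : ℤ_[p]), ?_⟩
    have := congrArg (Int.cast : ℤ → ℤ_[p]) hc
    push_cast at this
    exact this
  -- the quotient `u = m^(p-1) / (1+p)^d`
  have key := (h18_U1_pow_iff p hp2 n (((h18_natU1 p m * (e₀ ^ d)⁻¹ : h18_U1 p)) : ℤ_[p]ˣ)).2 (by
    have hu : (((h18_natU1 p m * (e₀ ^ d)⁻¹ : h18_U1 p) : ℤ_[p]ˣ) : ℤ_[p]) - 1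
        = ((((e₀ ^ d)⁻¹ : h18_U1 p) : ℤ_[p]ˣ) : ℤ_[p])
          * ((m : ℤ_[p]) ^ (p - 1) - (1 + (p : ℤ_[p])) ^ d) := by
      rw [Subgroup.coe_mul, Units.val_mul, h18_natU1_coe p hm, mul_sub, mul_comm]
      congr 1
      rw [← he₀, ← Units.val_pow_eq_pow_val, ← Subgroup.coe_pow, ← Units.val_mul,
        ← Subgroup.coe_mul, inv_mul_cancel]
      rfl
    rw [hu]
    exact Dvd.dvd.mul_left hZp _)
  obtain ⟨y, hy, hyp⟩ := key
  refine ⟨⟨y, hy⟩, ?_⟩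
  have h1 : (⟨y, hy⟩ : h18_U1 p) ^ (p ^ n) = h18_natU1 p m * (e₀ ^ d)⁻¹ := Subtype.ext hyp
  rw [h1, mul_comm (h18_natU1 p m), ← mul_assoc, mul_inv_cancel, one_mul]

omit [Fact p.Prime] in
/-- If `m ^ (p - 1) ≢ 1 mod p ^ (n + 1)` then the congruence
`m ^ (p - 1) ≡ (1 + p) ^ d mod p ^ (n + 1)` forces `d ≠ 0`. -/
theorem h28_exp_ne_zero (n : ℕ) {m : ℕ} (hm : ¬ m ^ (p - 1) ≡ 1 [MOD p ^ (n + 1)]) (d : ℕ)
    (h : (m : ZMod (p ^ (n + 1))) ^ (p - 1) = (1 + (p : ZMod (p ^ (n + 1)))) ^ d) : d ≠ 0 := by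
  rintro rfl
  apply hm
  rw [pow_zero] at h
  have h2 : ((m ^ (p - 1) : ℕ) : ZMod (p ^ (n + 1))) = ((1 : ℕ) : ZMod (p ^ (n + 1))) := by
    push_cast
    exact h
  exact (ZMod.natCast_eq_natCast_iff _ _ _).mp h2

/-- For `m ≥ 2` the congruence `m ^ (p - 1) ≡ 1 mod p ^ (n + 1)` fails for all large `n`. -/
theorem h28_exists_not_modEq {m : ℕ} (hm : 2 ≤ m) :
    ∃ n₀ : ℕ, ∀ n : ℕ, n₀ ≤ n → ¬ m ^ (p - 1) ≡ 1 [MOD p ^ (n + 1)] := by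
  have hp : p.Prime := Fact.out
  refine ⟨m ^ (p - 1), fun n hn h => ?_⟩
  have h1 : 1 < m ^ (p - 1) := Nat.one_lt_pow (Nat.sub_ne_zero_of_lt hp.one_lt) hm
  have h2 : m ^ (p - 1) < p ^ (n + 1) :=
    lt_of_le_of_lt hn (lt_of_lt_of_le (Nat.lt_pow_self hp.one_lt) (Nat.pow_le_pow_right hp.pos (Nat.le_succ n)))
  have h3 := Nat.ModEq.eq_of_lt_of_lt h h2 (lt_trans h1 h2)
  omega

end Arith

section FP

variable (S : Finset Nat.Primes) (P : S)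
variable {K : Type*} [Field K] [NumberField K] {E : Type*} [Field E] [NumberField E] [Algebra K E]

/-- The norm of a prime of a number field is at least `2`. -/
theorem h28_two_le_absNorm (v : HeightOneSpectrum (𝓞 K)) : 2 ≤ Ideal.absNorm v.asIdeal := by
  have h0 : Ideal.absNorm v.asIdeal ≠ 0 := fun h => v.ne_bot (Ideal.absNorm_eq_zero_iff.mp h)
  have h1 : Ideal.absNorm v.asIdeal ≠ 1 := fun h =>
    v.isPrime.ne_top (Ideal.absNorm_eq_one_iff.mp h)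
  omega

/-- `w_E(ext [v]) = [E : K] • N(v)^(p-1)` for a prime `v` of `K` not above `S`
(`w` any map extending `h25_wA E S P` to the localisation). -/
theorem h28_w_ext_prime (hp2 : ((P : Nat.Primes) : ℕ) ≠ 2)
    (w : h2_PL ((P : Nat.Primes) : ℕ) (Additive (h25_C E S)) →+
      Additive (h18_U1 ((P : Nat.Primes) : ℕ)))
    (hw : ∀ c : Additive (h25_C E S), w (h2_PL.j c) = h25_wA E S P c) (v : h25_Pl K S) :
    w (h2_PL.j (Additive.ofMul (h25_Cmap S (algebraMap K E)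
        (h25_mk K S ((1 : h25_J K S), Multiplicative.ofAdd (Finsupp.single v (1 : ℤ)))))))
      = Module.finrank K E •
        Additive.ofMul (h18_natU1 ((P : Nat.Primes) : ℕ) (Ideal.absNorm v.1.asIdeal)) := by
  rw [hw, h25_wA_ofMul, h84_wC_ext S P hp2, h10_wC_mk K S P hp2, h25_w_prime]
  rfl

/-- **(R1-D), FP2**: for a prime `v` of `K` not above `S` and `σ ∈ Gal(E/ℚ)` acting on
`ζ_{p^(n+1)}` as `N(v)` (a Frobenius at `v`):
`w(ext [v]) = [E : K] • (deg σ • e₀ + p^n • y)`, `e₀ = 1 + p`. -/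
theorem h28_recip_FP2 (hp2 : ((P : Nat.Primes) : ℕ) ≠ 2) (n : ℕ) (ζ : E)
    (deg : (E ≃ₐ[ℚ] E) →* Multiplicative (ZMod (((P : Nat.Primes) : ℕ) ^ n)))
    (w : h2_PL ((P : Nat.Primes) : ℕ) (Additive (h25_C E S)) →+
      Additive (h18_U1 ((P : Nat.Primes) : ℕ)))
    (hw : ∀ c : Additive (h25_C E S), w (h2_PL.j c) = h25_wA E S P c)
    (hdeg : ∀ (σ : E ≃ₐ[ℚ] E) (t : ℕ), σ ζ = ζ ^ t →
        (t : ZMod (((P : Nat.Primes) : ℕ) ^ (n + 1))) ^ (((P : Nat.Primes) : ℕ) - 1) =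
          (1 + (((P : Nat.Primes) : ℕ) : ZMod (((P : Nat.Primes) : ℕ) ^ (n + 1)))) ^
            (Multiplicative.toAdd (deg σ)).val)
    (v : h25_Pl K S) (σ : E ≃ₐ[ℚ] E) (hσ : σ ζ = ζ ^ Ideal.absNorm v.1.asIdeal)
    (e₀ : h18_U1 ((P : Nat.Primes) : ℕ))
    (he₀ : (((e₀ : h18_U1 ((P : Nat.Primes) : ℕ)) : ℤ_[((P : Nat.Primes) : ℕ)]ˣ) :
      ℤ_[((P : Nat.Primes) : ℕ)]) = 1 + ((P : Nat.Primes) : ℕ)) :
    ∃ y : Additive (h18_U1 ((P : Nat.Primes) : ℕ)),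
      w (h2_PL.j (Additive.ofMul (h25_Cmap S (algebraMap K E)
          (h25_mk K S ((1 : h25_J K S), Multiplicative.ofAdd (Finsupp.single v (1 : ℤ)))))))
        = Module.finrank K E • ((Multiplicative.toAdd (deg σ)).val • Additive.ofMul e₀
            + ((P : Nat.Primes) : ℕ) ^ n • y) := by
  obtain ⟨y, hy⟩ := h28_natU1_eq_pow_mul ((P : Nat.Primes) : ℕ) hp2 n
    (h10_not_dvd_absNorm K S P v) _ (hdeg σ _ hσ) e₀ he₀
  refine ⟨Additive.ofMul y, ?_⟩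
  rw [h28_w_ext_prime S P hp2 w hw v, hy]
  rfl

/-- **(R1-D), FP3**: `deg σ ≠ 1` as soon as `N(v)^(p-1) ≢ 1 mod p^(n+1)`. -/
theorem h28_recip_FP3 (n : ℕ) (ζ : E)
    (deg : (E ≃ₐ[ℚ] E) →* Multiplicative (ZMod (((P : Nat.Primes) : ℕ) ^ n)))
    (hdeg : ∀ (σ : E ≃ₐ[ℚ] E) (t : ℕ), σ ζ = ζ ^ t →
        (t : ZMod (((P : Nat.Primes) : ℕ) ^ (n + 1))) ^ (((P : Nat.Primes) : ℕ) - 1) =
          (1 + (((P : Nat.Primes) : ℕ) : ZMod (((P : Nat.Primes) : ℕ) ^ (n + 1)))) ^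
            (Multiplicative.toAdd (deg σ)).val)
    (N : ℕ) (σ : E ≃ₐ[ℚ] E) (hσ : σ ζ = ζ ^ N)
    (hN : ¬ N ^ (((P : Nat.Primes) : ℕ) - 1) ≡ 1 [MOD ((P : Nat.Primes) : ℕ) ^ (n + 1)]) :
    deg σ ≠ 1 := by
  intro h1
  refine h28_exp_ne_zero ((P : Nat.Primes) : ℕ) n hN _ (hdeg σ N hσ) ?_
  rw [h1, toAdd_one, ZMod.val_zero]

/-- For finitely many primes of `K`, `N(v)^(p-1) ≢ 1 mod p^(n+1)` for all large `n`
(so FP3 holds for all of them at a common level `n`). -/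
theorem h28_exists_level_FP3 (s : Finset (HeightOneSpectrum (𝓞 K))) :
    ∃ n₀ : ℕ, ∀ n : ℕ, n₀ ≤ n → ∀ v ∈ s,
      ¬ Ideal.absNorm v.asIdeal ^ (((P : Nat.Primes) : ℕ) - 1) ≡ 1
        [MOD ((P : Nat.Primes) : ℕ) ^ (n + 1)] := by
  classical
  induction s using Finset.induction_on with
  | empty => exact ⟨0, fun n _ v hv => absurd hv (Finset.notMem_empty v)⟩
  | insert a s _ ih =>
    obtain ⟨n₁, h₁⟩ := ih
    obtain ⟨n₂, h₂⟩ := h28_exists_not_modEq ((P : Nat.Primes) : ℕ) (h28_two_le_absNorm a)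
    refine ⟨max n₁ n₂, fun n hn v hv => ?_⟩
    rcases Finset.mem_insert.mp hv with rfl | hv
    · exact h₂ n (le_trans (le_max_right _ _) hn)
    · exact h₁ n (le_trans (le_max_left _ _) hn) v hv

/-- **(R1-D), FP2**, Galois form: `σ ∈ Gal(E/K)`, multiplicity `Nat.card Gal(E/K)`. -/
theorem h28_recip_FP2_gal [IsGalois K E] (hp2 : ((P : Nat.Primes) : ℕ) ≠ 2) (n : ℕ) (ζ : E)
    (deg : (E ≃ₐ[ℚ] E) →* Multiplicative (ZMod (((P : Nat.Primes) : ℕ) ^ n)))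
    (w : h2_PL ((P : Nat.Primes) : ℕ) (Additive (h25_C E S)) →+
      Additive (h18_U1 ((P : Nat.Primes) : ℕ)))
    (hw : ∀ c : Additive (h25_C E S), w (h2_PL.j c) = h25_wA E S P c)
    (hdeg : ∀ (σ : E ≃ₐ[ℚ] E) (t : ℕ), σ ζ = ζ ^ t →
        (t : ZMod (((P : Nat.Primes) : ℕ) ^ (n + 1))) ^ (((P : Nat.Primes) : ℕ) - 1) =
          (1 + (((P : Nat.Primes) : ℕ) : ZMod (((P : Nat.Primes) : ℕ) ^ (n + 1)))) ^
            (Multiplicative.toAdd (deg σ)).val)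
    (v : h25_Pl K S) (σ : E ≃ₐ[K] E) (hσ : σ ζ = ζ ^ Ideal.absNorm v.1.asIdeal)
    (e₀ : h18_U1 ((P : Nat.Primes) : ℕ))
    (he₀ : (((e₀ : h18_U1 ((P : Nat.Primes) : ℕ)) : ℤ_[((P : Nat.Primes) : ℕ)]ˣ) :
      ℤ_[((P : Nat.Primes) : ℕ)]) = 1 + ((P : Nat.Primes) : ℕ)) :
    ∃ y : Additive (h18_U1 ((P : Nat.Primes) : ℕ)),
      w (h2_PL.j (Additive.ofMul (h25_Cmap S (algebraMap K E)
          (h25_mk K S ((1 : h25_J K S), Multiplicative.ofAdd (Finsupp.single v (1 : ℤ)))))))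
        = Nat.card (E ≃ₐ[K] E) •
          ((Multiplicative.toAdd (deg (σ.restrictScalars ℚ))).val • Additive.ofMul e₀
            + ((P : Nat.Primes) : ℕ) ^ n • y) := by
  rw [IsGalois.card_aut_eq_finrank]
  exact h28_recip_FP2 S P hp2 n ζ deg w hw hdeg v (σ.restrictScalars ℚ) hσ e₀ he₀

end FP

end

end Fermat.Agent.S55
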