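import Mathlib
import Fermat.Agent.S55.h28_RecipFP2

set_option autoImplicit false

/-!
# S55, GLOB-UNORM (R1-D): FP2 in the exact shape of `h95_recip_rel`

`h28_recip_FP2_rel` : for `Γ = Gal(E/K)` and a Frobenius `σ ∈ Γ` at a prime `v` of `K` not above
`S`: `w (ext [v]) - (|Γ| * deg σ) • e₀ = (p^n * |Γ|) • y` - hypothesis `hFP2` of
`h95_recip_rel` / `h95_recip_rel_sum` with `φ := restrictScalars ℚ`, `e := ofMul e₀`.
-/

open IsDedekindDomain NumberField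

namespace Fermat.Agent.S55

noncomputable section

variable (S : Finset Nat.Primes) (P : S)
variable {K : Type*} [Field K] [NumberField K] {E : Type*} [Field E] [NumberField E] [Algebra K E]

/-- **FP2** in the subtraction form of `h95_recip_rel`. -/
theorem h28_recip_FP2_rel [IsGalois K E] (hp2 : ((P : Nat.Primes) : ℕ) ≠ 2) (n : ℕ) (ζ : E)
    (deg : (E ≃ₐ[ℚ] E) →* Multiplicative (ZMod (((P : Nat.Primes) : ℕ) ^ n)))
    (w : h2_PL ((P : Nat.Primes) : ℕ) (Additive (h25_C E S)) →+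
      Additive (h18_U1 ((P : Nat.Primes) : ℕ)))
    (hw : ∀ c : Additive (h25_C E S), w (h2_PL.j c) = h25_wA E S P c)
    (hdeg : ∀ (σ : E ≃ₐ[ℚ] E) (t : ℕ), σ ζ = ζ ^ t →
        (t : ZMod (((P : Nat.Primes) : ℕ) ^ (n + 1))) ^ (((P : Nat.Primes) : ℕ) - 1) =
          (1 + (((P : Nat.Primes) : ℕ) : ZMod (((P : Nat.Primes) : ℕ) ^ (n + 1)))) ^
            (Multiplicative.toAdd (deg σ)).val)
    (v : h25_Pl K S) (σ : E ≃ₐ[K] E) (hσ : σ ζ = ζ ^ Ideal.absNorm v.1.asIdeal)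
    (e₀ : h18_U1 ((P : Nat.Primes) : ℕ))
    (he₀ : (((e₀ : h18_U1 ((P : Nat.Primes) : ℕ)) : ℤ_[((P : Nat.Primes) : ℕ)]ˣ) :
      ℤ_[((P : Nat.Primes) : ℕ)]) = 1 + ((P : Nat.Primes) : ℕ)) :
    ∃ y : Additive (h18_U1 ((P : Nat.Primes) : ℕ)),
      w (h2_PL.j (Additive.ofMul (h25_Cmap S (algebraMap K E)
          (h25_mk K S ((1 : h25_J K S), Multiplicative.ofAdd (Finsupp.single v (1 : ℤ)))))))
        - (Nat.card (E ≃ₐ[K] E) * (Multiplicative.toAdd (deg (σ.restrictScalars ℚ))).val) •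
            Additive.ofMul e₀
        = (((P : Nat.Primes) : ℕ) ^ n * Nat.card (E ≃ₐ[K] E)) • y := by
  obtain ⟨y, hy⟩ := h28_recip_FP2_gal S P hp2 n ζ deg w hw hdeg v σ hσ e₀ he₀
  refine ⟨y, ?_⟩
  rw [hy, nsmul_add, ← mul_nsmul, ← mul_nsmul,
    mul_comm (Multiplicative.toAdd (deg (σ.restrictScalars ℚ))).val, add_sub_cancel_left]

end

end Fermat.Agent.S55
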