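import Mathlib
import Fermat.Agent.S55.h72_AbsDefs
import Fermat.Agent.S55.h2_AddUnits
import Fermat.Agent.S55.h2_PLoc
import Fermat.Agent.S55.h2_GalTower
import Fermat.Agent.S55.h40_InfRes
import Fermat.Agent.S55.h56_FinLevel

/-!
# S55 / LOC-DUAL (core): local duality in degree 2 from class formation + existence mod `p`

`Ω/F` is a Galois extension (in the application `F = ℚ_q`, `Ω = PadicAlgCl q`), `Γ = Gal(Ω/F)`.
"Level" = a finite subextension `L`; a cochain is of level `L` when it is right-invariant under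
`L.fixingSubgroup` (`h56_IsLevel₁`, `h56_IsLevel₂`).

Inputs, as named propositions:

* `h2_ADT1 p`         : the abstract duality theorem `adt_D1` of the H layer (README form);
* `h2_GalCF F Ω p`    : every finite Galois level `K` gives a `p`-class module
                        `Kˣ ⊗ ℤ_(p)` for `Gal(K/F)`  (local class formation, LOC-CF);
* `h2_GalEX F Ω p`    : every finite Galois level `K ∋ ζ_p` has a finite Galois `K' ≥ K` with
                        `N_{K'/K} K'ˣ ⊆ (Kˣ)^p`  (local existence mod `p`, LOC-EX).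

Output `h2_duality_of`: a level 2-cocycle `y` of `Γ` in a finite smooth `p`-torsion module `M`
such that `f ∘ y` is a level coboundary in `Ωˣ` for every `Γ`-map `f : M → Ωˣ` is itself a level
coboundary.
-/

set_option autoImplicit false
set_option linter.style.haveILetI false

open groupCohomology

namespace Fermat.Agent.S55

noncomputable section

/-! ### The abstract duality theorem as a proposition -/

/-- The statement of `adt_D1` (README of S55, all types in `Type`). -/
def h2_ADT1 (p : ℕ) [Fact p.Prime] : Prop :=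
  ∀ {G' G : Type} [Group G'] [Group G] [Finite G'] (π : G' →* G) (_ : Function.Surjective π)
    {C' C : Type} [AddCommGroup C'] [DistribMulAction G' C'] [AddCommGroup C]
    [DistribMulAction G C] (ι : C →+ C') (_ : Function.Injective ι)
    (_ : ∀ (g : G') (c : C), ι (π g • c) = g • ι c)
    (_ : ∀ c' : C', (∀ s ∈ π.ker, s • c' = c') → c' ∈ ι.range)
    (_ : IsPClassModule p G' C')
    (_ : ∀ c' : C', ∃ c : C, ∑ᶠ s : π.ker, (s : G') • c' = ι (p • c))
    {M : Type} [AddCommGroup M] [DistribMulAction G M] [Finite M] (_ : ∀ m : M, p • m = 0)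
    (y : G × G → M) (_ : IsCocycle₂ y)
    (_ : ∀ f : M →+ C, (∀ (g : G) (m : M), f (g • m) = g • f m) →
      IsCoboundary₂ (fun x : G' × G' => ι (f (y (π x.1, π x.2))))),
    IsCoboundary₂Via π (fun x : G' × G' => y (π x.1, π x.2))

/-! ### Descending an action along a surjection whose kernel acts trivially -/

section Desc

variable {G Q M : Type*} [Group G] [Group Q] [AddCommGroup M] [DistribMulAction G M]

theorem h2_smul_eq_of_map_eq (π : G →* Q) (hker : ∀ s ∈ π.ker, ∀ m : M, s • m = m)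
    {g g' : G} (h : π g = π g') (m : M) : g • m = g' • m := by
  have h1 : g⁻¹ * g' ∈ π.ker := by rw [MonoidHom.mem_ker, map_mul, map_inv, h, inv_mul_cancel]
  have h2 := hker _ h1 m
  rw [mul_smul] at h2
  rw [← h2, smul_inv_smul, h2]

/-- The action of `Q` on `M` induced by an action of `G` and a surjection `π : G →* Q` whose
kernel acts trivially. -/
@[reducible] def h2_descAction (π : G →* Q) (hπ : Function.Surjective π)
    (hker : ∀ s ∈ π.ker, ∀ m : M, s • m = m) : DistribMulAction Q M where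
  smul a m := Function.surjInv hπ a • m
  one_smul m := by
    show Function.surjInv hπ 1 • m = m
    exact hker _ (by rw [MonoidHom.mem_ker]; exact Function.surjInv_eq hπ 1) m
  mul_smul a b m := by
    show Function.surjInv hπ (a * b) • m = Function.surjInv hπ a • Function.surjInv hπ b • m
    rw [← mul_smul]
    exact h2_smul_eq_of_map_eq π hker
      (by rw [map_mul, Function.surjInv_eq hπ, Function.surjInv_eq hπ, Function.surjInv_eq hπ]) m
  smul_zero a := smul_zero (Function.surjInv hπ a)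
  smul_add a m m' := smul_add (Function.surjInv hπ a) m m'

theorem h2_descAction_smul (π : G →* Q) (hπ : Function.Surjective π)
    (hker : ∀ s ∈ π.ker, ∀ m : M, s • m = m) (g : G) (m : M) :
    letI := h2_descAction π hπ hker
    π g • m = g • m :=
  h2_smul_eq_of_map_eq π hker (Function.surjInv_eq hπ (π g)) m

end Desc

/-! ### Push-forward of cocycles and coboundaries along equivariant maps -/

section Push

variable {G' G : Type*} [Group G'] [Group G] {A B : Type*} [AddCommGroup A] [DistribMulAction G A]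
  [AddCommGroup B] [DistribMulAction G' B]

theorem h2_isCocycle₂_push (π : G' →* G) (φ : A →+ B)
    (hφ : ∀ (g : G') (a : A), φ (π g • a) = g • φ a) (y : G × G → A) (hy : IsCocycle₂ y) :
    IsCocycle₂ (fun x : G' × G' => φ (y (π x.1, π x.2))) := by
  intro g h k
  show φ (y (π (g * h), π k)) + φ (y (π g, π h)) =
    g • φ (y (π h, π k)) + φ (y (π g, π (h * k)))
  rw [map_mul, map_mul, ← map_add, hy (π g) (π h) (π k), map_add, hφ]

theorem h2_isCoboundary₂_push {A' : Type*} [AddCommGroup A'] [DistribMulAction G' A']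
    (φ : A' →+ B) (hφ : ∀ (g : G') (a : A'), φ (g • a) = g • φ a) (z : G' × G' → A')
    (hz : IsCoboundary₂ z) : IsCoboundary₂ (fun x : G' × G' => φ (z x)) := by
  obtain ⟨x, hx⟩ := hz
  refine ⟨fun g => φ (x g), fun g h => ?_⟩
  show g • φ (x h) - φ (x (g * h)) + φ (x g) = φ (z (g, h))
  rw [← hx g h, map_add, map_sub, hφ]

end Push

/-! ### Maps from a `p`-torsion module into a localisation factor through `j` -/

section Factor

variable {p : ℕ} [Fact p.Prime] {G M C : Type*} [Monoid G] [AddCommGroup M] [DistribMulAction G M]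
  [AddCommGroup C] [DistribMulAction G C]

theorem h2_PL.exists_factor_of_torsion (hpM : ∀ m : M, p • m = 0) (f : M →+ h2_PL p C)
    (hf : ∀ (g : G) (m : M), f (g • m) = g • f m) :
    ∃ f₀ : M →+ C, (∀ m, h2_PL.j (p := p) (f₀ m) = f m) ∧
      (∀ (g : G) (m : M), f₀ (g • m) = g • f₀ m) ∧ ∀ m, p • f₀ m = 0 := by
  have h0 : ∀ m, ∃ c : C, p • c = 0 ∧ h2_PL.j (p := p) c = f m := fun m =>
    h2_PL.exists_j_eq_of_torsion (f m) (by rw [← map_nsmul, hpM, map_zero])
  choose φ hφp hφj using h0
  have key : ∀ c c' : C, p • c = 0 → p • c' = 0 → h2_PL.j (p := p) c = h2_PL.j c' → c = c' := by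
    intro c c' hc hc' h
    have := h2_PL.eq_zero_of_torsion_of_j_eq_zero (p := p) (c - c')
      (by rw [smul_sub, hc, hc', sub_zero]) (by rw [map_sub, h, sub_self])
    exact sub_eq_zero.1 this
  have hsmul : ∀ (g : G) (c : C), p • c = 0 → p • (g • c) = 0 := by
    intro g c hc
    have h1 : p • (g • c) = g • (p • c) :=
      (map_nsmul (DistribSMul.toAddMonoidHom C g) p c).symm
    rw [h1, hc, smul_zero]
  refine ⟨AddMonoidHom.mk' φ fun m m' => key _ _ (hφp _)
    (by rw [smul_add, hφp, hφp, add_zero]) (by rw [hφj, map_add, map_add, hφj, hφj]),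
    fun m => hφj m, fun g m => ?_, fun m => hφp m⟩
  show φ (g • m) = g • φ m
  exact key _ _ (hφp _) (hsmul g _ (hφp m)) (by rw [hφj, hf, h2_PL.j_smul, hφj])

end Factor

/-! ### Galois levels -/

section GalLevels

variable {F Ω : Type*} [Field F] [Field Ω] [Algebra F Ω] [IsGalois F Ω]

/-- Every finite level is contained in a finite Galois level. -/
theorem h2_exists_galois_level (L : IntermediateField F Ω) [FiniteDimensional F L] :
    ∃ K : IntermediateField F Ω, FiniteDimensional F K ∧ IsGalois F K ∧ L ≤ K := by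
  refine ⟨IntermediateField.normalClosure F L Ω, inferInstance, ?_,
    IntermediateField.le_normalClosure L⟩
  haveI : Normal F (IntermediateField.normalClosure F L Ω) := inferInstance
  haveI : Algebra.IsSeparable F (IntermediateField.normalClosure F L Ω) :=
    Algebra.isSeparable_tower_bot_of_isSeparable F _ Ω
  exact ⟨⟩

end GalLevels

/-! ### Inflation from a finite Galois level to the level cochains of `Γ` is injective on `H²` -/

section Infl

variable {F Ω : Type*} [Field F] [Field Ω] [Algebra F Ω] [IsGalois F Ω]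

/-- `H²(Gal(K/F), Kˣ) → H²_level(Gal(Ω/F), Ωˣ)` is injective: a 2-cocycle `z` of `Gal(K/F)` in
`Kˣ` whose inflation to `Γ` is the coboundary of a level cochain is a coboundary. -/
theorem h2_galois_infl_injective (K : IntermediateField F Ω) [FiniteDimensional F K]
    [IsGalois F K] (z : (K ≃ₐ[F] K) × (K ≃ₐ[F] K) → Additive Kˣ) (hz : IsCocycle₂ z)
    (x : (Ω ≃ₐ[F] Ω) → Additive Ωˣ)
    (hxL : ∃ L : IntermediateField F Ω, FiniteDimensional F L ∧
      h56_IsLevel₁ L.fixingSubgroup x)
    (hx : ∀ g h : Ω ≃ₐ[F] Ω, g • x h - x (g * h) + x g =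
      h2_galι K (z (h2_galπ K g, h2_galπ K h))) :
    IsCoboundary₂ z := by
  obtain ⟨L, hL, hxL⟩ := hxL
  haveI := hL
  obtain ⟨K', hK'fin, hK'gal, hle⟩ := h2_exists_galois_level (K ⊔ L)
  haveI := hK'fin
  haveI := hK'gal
  have hKK' : K ≤ K' := le_trans le_sup_left hle
  have hLK' : L ≤ K' := le_trans le_sup_right hle
  -- the inflation of `z` to `Gal(K'/F)`
  set z' : (K' ≃ₐ[F] K') × (K' ≃ₐ[F] K') → Additive K'ˣ :=
    fun a => h2_galIncl hKK' (z (h2_galRes hKK' a.1, h2_galRes hKK' a.2)) with hz'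
  -- `z'` is a coboundary
  have h1 : IsCoboundary₂ z' := by
    rw [h56_via_isCoboundary₂_iff (h2_galπ K') (h2_galπ_surjective K') (h2_galι K')
      (h2_galι_injective K') (h2_galι_smul K') (h2_galι_mem_range K') z']
    refine ⟨x, ?_, fun g h => ?_⟩
    · intro g s hs
      apply hxL
      rw [h2_galπ_ker] at hs
      exact IntermediateField.fixingSubgroup_antitone hLK' hs
    · rw [hx g h, hz']
      simp only
      rw [h2_galι_incl, h2_galRes_π, h2_galRes_π]
  -- descend along `Gal(K'/F) → Gal(K/F)` (Hilbert 90 for `K'/K`)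
  exact h40_E8b (h2_galRes hKK') (h2_galIncl hKK') (h2_galRes_surjective hKK')
    (h2_galIncl_injective hKK') (h2_galIncl_smul hKK') (h2_galIncl_mem_range hKK')
    (fun u hu => h2_hilbert90_via _ u hu) z hz h1

end Infl

/-! ### The two arithmetic inputs, as propositions -/

section Hyps

variable (F Ω : Type) [Field F] [Field Ω] [Algebra F Ω] [IsGalois F Ω] (p : ℕ) [Fact p.Prime]

/-- Class formation: for every finite Galois level `K`, `Kˣ ⊗ ℤ_(p)` is a `p`-class module for
`Gal(K/F)`. -/
def h2_GalCF : Prop :=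
  ∀ (K : IntermediateField F Ω) [FiniteDimensional F K] [IsGalois F K],
    IsPClassModule p (K ≃ₐ[F] K) (h2_PL p (Additive Kˣ))

/-- Existence mod `p`: every finite Galois level `K` containing a primitive `p`-th root of unity
has a finite Galois level `K' ≥ K` with `N_{K'/K} K'ˣ ⊆ (Kˣ)^p`. -/
def h2_GalEX : Prop :=
  ∀ (K : IntermediateField F Ω) [FiniteDimensional F K] [IsGalois F K],
    (∃ ζ : K, IsPrimitiveRoot ζ p) →
    ∃ (K' : IntermediateField F Ω) (_ : FiniteDimensional F K') (_ : IsGalois F K')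
      (h : K ≤ K'), ∀ c' : Additive K'ˣ, ∃ c : Additive Kˣ,
        ∑ᶠ s : (h2_galRes h).ker, (s : K' ≃ₐ[F] K') • c' = h2_galIncl h (p • c)

end Hyps

/-! ### Local duality -/

section Main

variable {F Ω : Type} [Field F] [Field Ω] [Algebra F Ω] [IsGalois F Ω] {p : ℕ} [Fact p.Prime]

/-- **LOC-DUAL, core form.**  Let `M` be a finite `p`-torsion `Γ`-module on which the fixing
subgroup of a finite level acts trivially, and `y` a level 2-cocycle of `Γ` in `M`.  If for every
`Γ`-map `f : M → Ωˣ` the cocycle `f ∘ y` is the coboundary of a level cochain, then `y` is the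
coboundary of a level cochain. -/
theorem h2_duality_of (hζ : ∃ ζ : Ω, IsPrimitiveRoot ζ p)
    (hADT : h2_ADT1 p) (hCF : h2_GalCF F Ω p) (hEX : h2_GalEX F Ω p)
    {M : Type} [AddCommGroup M] [Finite M] [DistribMulAction (Ω ≃ₐ[F] Ω) M]
    (hpM : ∀ m : M, p • m = 0)
    (hsm : ∃ L : IntermediateField F Ω, FiniteDimensional F L ∧
      ∀ s ∈ L.fixingSubgroup, ∀ m : M, s • m = m)
    (y : (Ω ≃ₐ[F] Ω) × (Ω ≃ₐ[F] Ω) → M) (hy : IsCocycle₂ y)
    (hyL : ∃ L : IntermediateField F Ω, FiniteDimensional F L ∧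
      h56_IsLevel₂ L.fixingSubgroup y)
    (hkill : ∀ f : M →+ Additive Ωˣ, (∀ (g : Ω ≃ₐ[F] Ω) (m : M), f (g • m) = g • f m) →
      ∃ x : (Ω ≃ₐ[F] Ω) → Additive Ωˣ,
        (∃ L : IntermediateField F Ω, FiniteDimensional F L ∧
          h56_IsLevel₁ L.fixingSubgroup x) ∧
        ∀ g h : Ω ≃ₐ[F] Ω, g • x h - x (g * h) + x g = f (y (g, h))) :
    ∃ x : (Ω ≃ₐ[F] Ω) → M,
      (∃ L : IntermediateField F Ω, FiniteDimensional F L ∧
        h56_IsLevel₁ L.fixingSubgroup x) ∧
      ∀ g h : Ω ≃ₐ[F] Ω, g • x h - x (g * h) + x g = y (g, h) := by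
  obtain ⟨ζ, hζ⟩ := hζ
  obtain ⟨L₀, hL₀, hsm⟩ := hsm
  obtain ⟨L₁, hL₁, hyL⟩ := hyL
  haveI := hL₀
  haveI := hL₁
  -- the base level `K`
  have hζint : IsIntegral F ζ := Algebra.IsIntegral.isIntegral ζ
  haveI : FiniteDimensional F (IntermediateField.adjoin F {ζ}) :=
    IntermediateField.adjoin.finiteDimensional hζint
  obtain ⟨K, hKfin, hKgal, hle⟩ :=
    h2_exists_galois_level (L₀ ⊔ L₁ ⊔ IntermediateField.adjoin F {ζ})
  haveI := hKfin
  haveI := hKgal
  have hL₀K : L₀ ≤ K := le_trans (le_trans le_sup_left le_sup_left) hle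
  have hL₁K : L₁ ≤ K := le_trans (le_trans le_sup_right le_sup_left) hle
  have hζK : ζ ∈ K := hle (le_sup_right (a := L₀ ⊔ L₁)
    (IntermediateField.mem_adjoin_simple_self F ζ))
  have hζK' : ∃ ζ' : K, IsPrimitiveRoot ζ' p :=
    ⟨⟨ζ, hζK⟩, IsPrimitiveRoot.of_map_of_injective (f := algebraMap K Ω)
      (show IsPrimitiveRoot (algebraMap K Ω ⟨ζ, hζK⟩) p from hζ) (algebraMap K Ω).injective⟩
  -- the descended action of `Gal(K/F)` on `M`
  have hker : ∀ s ∈ (h2_galπ K).ker, ∀ m : M, s • m = m := by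
    intro s hs m
    rw [h2_galπ_ker] at hs
    exact hsm s (IntermediateField.fixingSubgroup_antitone hL₀K hs) m
  letI actK : DistribMulAction (K ≃ₐ[F] K) M :=
    h2_descAction (h2_galπ K) (h2_galπ_surjective K) hker
  have hdesc : ∀ (g : Ω ≃ₐ[F] Ω) (m : M), h2_galπ K g • m = g • m :=
    fun g m => h2_descAction_smul (h2_galπ K) (h2_galπ_surjective K) hker g m
  -- `y` descends to a 2-cocycle `ybar` of `Gal(K/F)`
  have hyK : h56_IsLevel₂ (h2_galπ K).ker y := by
    intro g g' s s' hs hs'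
    rw [h2_galπ_ker] at hs hs'
    exact hyL g g' s s' (IntermediateField.fixingSubgroup_antitone hL₁K hs)
      (IntermediateField.fixingSubgroup_antitone hL₁K hs')
  obtain ⟨ybar, hybar, hybar_eq⟩ := h56_via_exists_defl₂ (h2_galπ K) (h2_galπ_surjective K)
    (AddMonoidHom.id M) (fun _ _ h => h) (fun g m => hdesc g m)
    (fun a _ => ⟨a, rfl⟩) y hy hyK
  simp only [AddMonoidHom.id_apply] at hybar_eq
  -- the upper level `K'`
  obtain ⟨K', hK'fin, hK'gal, hKK', hN⟩ := hEX K hζK'
  haveI := hK'fin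
  haveI := hK'gal
  -- `adt_D1`
  have hmain : IsCoboundary₂Via (h2_galRes hKK')
      (fun x : (K' ≃ₐ[F] K') × (K' ≃ₐ[F] K') => ybar (h2_galRes hKK' x.1, h2_galRes hKK' x.2)) := by
    refine hADT (h2_galRes hKK') (h2_galRes_surjective hKK')
      (h2_PL.map (p := p) (h2_galIncl hKK'))
      (h2_PL.map_injective _ (h2_galIncl_injective hKK'))
      (h2_PL.map_smul_of (h2_galRes hKK') (h2_galIncl hKK') (h2_galIncl_smul hKK'))
      (h2_PL.mem_range_map_of_fixed (h2_galRes hKK') (h2_galIncl hKK')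
        (h2_galIncl_mem_range hKK'))
      (hCF K')
      (h2_PL.exists_norm_eq_map (h2_galRes hKK') (h2_galIncl hKK') p hN)
      hpM ybar hybar ?_
    intro f hf
    -- `f` factors through `Kˣ`
    obtain ⟨f₀, hf₀j, hf₀eq, -⟩ := h2_PL.exists_factor_of_torsion hpM f hf
    -- the corresponding map to `Ωˣ`
    obtain ⟨x, hxL, hx⟩ := hkill ((h2_galι K).comp f₀) (fun g m => by
      rw [AddMonoidHom.comp_apply, AddMonoidHom.comp_apply, ← hdesc g m, hf₀eq, h2_galι_smul])
    -- the cocycle of `Gal(K'/F)` in `K'ˣ`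
    have hz : IsCocycle₂ (fun a : (K' ≃ₐ[F] K') × (K' ≃ₐ[F] K') =>
        ((h2_galIncl hKK').comp f₀) (ybar (h2_galRes hKK' a.1, h2_galRes hKK' a.2))) :=
      h2_isCocycle₂_push (h2_galRes hKK') ((h2_galIncl hKK').comp f₀) (fun g m => by
        rw [AddMonoidHom.comp_apply, AddMonoidHom.comp_apply, hf₀eq, h2_galIncl_smul]) ybar hybar
    have hcob := h2_galois_infl_injective K' _ hz x hxL (fun g h => by
      rw [hx g h]
      simp only [AddMonoidHom.comp_apply]
      rw [h2_galι_incl, h2_galRes_π, h2_galRes_π, hybar_eq])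
    have hpush := h2_isCoboundary₂_push (h2_PL.j (p := p)) (fun g a => h2_PL.j_smul g a) _ hcob
    have heq : (fun x : (K' ≃ₐ[F] K') × (K' ≃ₐ[F] K') =>
        h2_PL.map (p := p) (h2_galIncl hKK')
          (f (ybar (h2_galRes hKK' x.1, h2_galRes hKK' x.2)))) =
        fun x : (K' ≃ₐ[F] K') × (K' ≃ₐ[F] K') =>
          h2_PL.j (p := p) (((h2_galIncl hKK').comp f₀)
            (ybar (h2_galRes hKK' x.1, h2_galRes hKK' x.2))) := by
      funext a
      rw [← hf₀j, h2_PL.map_j, AddMonoidHom.comp_apply]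
    rw [heq]
    exact hpush
  -- back to `Γ`
  obtain ⟨x, hxlev, hx⟩ := (h56_via_isCoboundary₂Via_iff (h2_galπ K) (h2_galπ_surjective K)
    (AddMonoidHom.id M) (fun _ _ h => h) (fun g m => hdesc g m) (fun a => ⟨a, rfl⟩)
    (h2_galπ K') (h2_galπ_surjective K') (h2_galRes hKK') (h2_galRes_π hKK') ybar).1 hmain
  refine ⟨x, ⟨K', inferInstance, ?_⟩, fun g h => ?_⟩
  · rw [← h2_galπ_ker K']
    exact hxlev
  · rw [hx g h, AddMonoidHom.id_apply, hybar_eq]

end Main

end

end Fermat.Agent.S55
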