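import Mathlib

/-!
# S55 / LOC-POW, abstract part: the "q-invariant" of an endomorphism is insensitive to
finite-index subgroups.

For a commutative group `A`, an endomorphism `φ` and a `φ`-stable subgroup `B` of finite index:
`[A : φ A] * #(ker φ ⊓ B) = [B : φ B] * #(ker φ)`.
-/

set_option autoImplicit false

namespace Fermat.Agent.S55

open Subgroup

/-- Index form of `[A : φ A] = [B : φ B] * [ker φ : ker φ ⊓ B]` for a `φ`-stable subgroup `B`
of finite index. -/
theorem h2_index_range_eq {A : Type*} [CommGroup A] (φ : A →* A) (B : Subgroup A)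
    [B.FiniteIndex] (hB : B.map φ ≤ B) :
    φ.range.index = (B.map φ).relIndex B * (φ.ker ⊓ B).relIndex φ.ker := by
  have h1 : (B.map φ).relIndex B * B.index = (B ⊔ φ.ker).index * φ.range.index := by
    rw [relIndex_mul_index hB, index_map]
  have h2 : B.relIndex (B ⊔ φ.ker) * (B ⊔ φ.ker).index = B.index :=
    relIndex_mul_index le_sup_left
  have h3 : B.relIndex (B ⊔ φ.ker) = (φ.ker ⊓ B).relIndex φ.ker := by
    rw [relIndex_sup_left, ← inf_relIndex_right, inf_comm]
  have h4 : (B ⊔ φ.ker).index ≠ 0 := by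
    intro h0
    have := Subgroup.FiniteIndex.index_ne_zero (H := B)
    rw [← h2, h0, mul_zero] at this
    exact this rfl
  rw [← h2, h3] at h1
  have h5 : (B ⊔ φ.ker).index * ((B.map φ).relIndex B * (φ.ker ⊓ B).relIndex φ.ker) =
      (B ⊔ φ.ker).index * φ.range.index := by
    rw [← h1]; ring
  exact (Nat.eq_of_mul_eq_mul_left (Nat.pos_of_ne_zero h4) h5).symm

/-- `[A : φ A] * #(ker φ ⊓ B) = [B : φ B] * #(ker φ)` for a `φ`-stable subgroup `B` of finite
index (all quantities as natural numbers, `0` meaning infinite). -/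
theorem h2_index_range_mul_card {A : Type*} [CommGroup A] (φ : A →* A) (B : Subgroup A)
    [B.FiniteIndex] (hB : B.map φ ≤ B) :
    φ.range.index * Nat.card ↥(φ.ker ⊓ B) = (B.map φ).relIndex B * Nat.card ↥φ.ker := by
  rw [h2_index_range_eq φ B hB, mul_assoc]
  congr 1
  have h := Subgroup.card_mul_index ((φ.ker ⊓ B).subgroupOf φ.ker)
  rw [mul_comm]
  have hc : Nat.card ↥((φ.ker ⊓ B).subgroupOf φ.ker) = Nat.card ↥(φ.ker ⊓ B) :=
    Nat.card_congr (Subgroup.subgroupOfEquivOfLe inf_le_left).toEquiv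
  rw [← hc]
  exact h

/-- Special case: if `φ` is injective on `B` then `[A : φ A] = [B : φ B] * #(ker φ)`. -/
theorem h2_index_range_of_inj {A : Type*} [CommGroup A] (φ : A →* A) (B : Subgroup A)
    [B.FiniteIndex] (hB : B.map φ ≤ B) (hinj : φ.ker ⊓ B = ⊥) :
    φ.range.index = (B.map φ).relIndex B * Nat.card ↥φ.ker := by
  have h := h2_index_range_mul_card φ B hB
  rw [hinj] at h
  simpa using h

end Fermat.Agent.S55
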