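import Fermat.Agent.S55.h72_AsmDefs
import Fermat.Agent.S55.h40_InfRes
import Fermat.Agent.S55.h83_Kill
import Fermat.Agent.S55.h85_Unram

/-!
# S55, assembly layer, row ASM-FUND (F1): the `p`-torsion of `H²_S(G_ℚ, CC)` is cyclic of order `p`

* `h32_fund_top` : for a `p`-class module `C` of a finite group `G`, the classes of `2`-cocycles
  form a cyclic group of order exactly the `p`-part of `|G|`, generated by the fundamental
  cocycle (`IsPClassModule.fund` at `H = ⊤`, plus "`|G|` kills `H²`").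
* `h32_cyclic_ptorsion` : the `p`-torsion of a cyclic group of order `p * n₀` is generated by any
  nonzero element of it (in terms of an additive subgroup of "cocycles" and one of
  "coboundaries").
* `h32_levCob_infl₂_iff` : along a directed family of normal subgroups of finite index with
  `H¹ = 0` at every level, the inflation of a `2`-cocycle of a finite level is a level
  coboundary iff the cocycle is a coboundary at its own level.
* `h32_fund_tower` : the abstract form of the row (directed family of levels of a group `G`).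
* `h32_exists_level_p_dvd` : the level `ℚ(ζ_{p²})`, of degree `p (p - 1)`.
* `h32_asm_fund_of_class`, `h32_asm_fund` : the row `asm_fund` of the assembly skeleton.
-/

set_option autoImplicit false
set_option linter.unusedSectionVars false
set_option linter.unusedVariables false

open CategoryTheory Module groupCohomology ExtCitation

namespace Fermat.Agent.S55

section Subgroups

variable (G : Type*) [Group G] (C : Type*) [AddCommGroup C] [DistribMulAction G C]

/-- the additive group of `2`-cocycles. -/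
def h32_Z₂ : AddSubgroup (G × G → C) where
  carrier := {f | IsCocycle₂ f}
  zero_mem' := h40_isCocycle₂_zero
  add_mem' := fun hf hf' => h40_isCocycle₂_add hf hf'
  neg_mem' := fun hf => h40_isCocycle₂_neg hf

/-- the additive group of `2`-coboundaries. -/
def h32_B₂ : AddSubgroup (G × G → C) where
  carrier := {f | IsCoboundary₂ f}
  zero_mem' := h40_isCoboundary₂_zero
  add_mem' := fun hf hf' => h40_isCoboundary₂_add hf hf'
  neg_mem' := fun hf => h40_isCoboundary₂_neg hf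

variable {G C}

theorem h32_mem_Z₂ {f : G × G → C} : f ∈ h32_Z₂ G C ↔ IsCocycle₂ f := Iff.rfl

theorem h32_mem_B₂ {f : G × G → C} : f ∈ h32_B₂ G C ↔ IsCoboundary₂ f := Iff.rfl

end Subgroups

section FinLevel

variable {p : ℕ} [Fact p.Prime] {G : Type*} [Group G] [Finite G] {C : Type*} [AddCommGroup C]
  [DistribMulAction G C]

/-- FACT 0: the `p`-part of `|G|` kills the class of every `2`-cocycle with values in a
`p`-local module. -/
theorem h32_ppart_kill₂ (hloc : ∀ m : ℕ, m.Coprime p → Function.Bijective (fun c : C => m • c))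
    (f : G × G → C) (hf : IsCocycle₂ f) :
    IsCoboundary₂ (p ^ (Nat.card G).factorization p • f) := by
  have hp : p.Prime := Fact.out
  have hcard : Nat.card G ≠ 0 := Nat.card_pos.ne'
  obtain ⟨x, hx⟩ := h83_kill₂ f hf
  set n : ℕ := p ^ (Nat.card G).factorization p with hn
  set m : ℕ := Nat.card G / n with hm
  have hnm : n * m = Nat.card G := Nat.ordProj_mul_ordCompl_eq_self (Nat.card G) p
  have hcop : m.Coprime p := (Nat.coprime_ordCompl hp hcard).symm
  have hbij := hloc m hcop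
  choose x' hx' using fun g => hbij.2 (x g)
  have hx'' : ∀ g, m • x' g = x g := hx'
  refine ⟨x', fun g h => ?_⟩
  apply hbij.1
  show m • (g • x' h - x' (g * h) + x' g) = m • ((n • f) (g, h))
  have h1 := hx g h
  rw [smul_add, smul_sub, smul_comm m g, hx'', hx'', hx'', h1]
  show (Nat.card G • f) (g, h) = m • (n • f (g, h))
  rw [← hnm, smul_smul, mul_comm m n]
  rfl

/-- the fundamental cocycle of a `p`-class module: the classes of `2`-cocycles of `G` form a
cyclic group of order exactly the `p`-part of `|G|`. -/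
theorem h32_fund_top (hC : IsPClassModule p G C) :
    ∃ u : G × G → C, IsCocycle₂ u ∧
      (∀ f : G × G → C, IsCocycle₂ f → ∃ k : ℕ, IsCoboundary₂ (f - k • u)) ∧
      (∀ k : ℕ, IsCoboundary₂ (k • u) ↔ p ^ (Nat.card G).factorization p ∣ k) := by
  obtain ⟨u, hu, hH⟩ := hC.fund
  obtain ⟨h1, h2⟩ := hH ⊤
  refine ⟨u, hu, fun f hf => ?_, fun k => ⟨fun hk => ?_, fun hk => ?_⟩⟩
  · obtain ⟨k, x', hx'⟩ := h1 (fun x : (⊤ : Subgroup G) × (⊤ : Subgroup G) =>
      f ((x.1 : G), (x.2 : G))) (fun g h j => hf g h j)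
    refine ⟨k, fun a => x' ⟨a, Subgroup.mem_top a⟩, fun a b => ?_⟩
    exact hx' ⟨a, Subgroup.mem_top a⟩ ⟨b, Subgroup.mem_top b⟩
  · obtain ⟨x, hx⟩ := hk
    have h3 := h2 k ⟨fun a => x (a : G), fun a b => hx (a : G) (b : G)⟩
    rwa [Subgroup.card_top] at h3
  · obtain ⟨c, rfl⟩ := hk
    have h3 : p ^ (Nat.card G).factorization p • u ∈ h32_B₂ G C :=
      h32_ppart_kill₂ hC.ploc u hu
    have h4 := (h32_B₂ G C).nsmul_mem h3 c
    rw [smul_smul, mul_comm] at h4
    exact h4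

end FinLevel

section Cyclic

/-- the `p`-torsion of a cyclic group of order `p * n₀` is generated by any nonzero element of
it; `Z` plays the role of the cocycles, `B` of the coboundaries, `u` of the generator. -/
theorem h32_cyclic_ptorsion {W : Type*} [AddCommGroup W] (Z B : AddSubgroup W) (p n₀ : ℕ)
    (hp : p.Prime) (u : W)
    (h1 : ∀ f ∈ Z, ∃ k : ℕ, f - k • u ∈ B)
    (h2 : ∀ k : ℕ, k • u ∈ B ↔ p * n₀ ∣ k)
    (t : W) (ht : t ∈ Z) (hpt : p • t ∈ B) (htn : t ∉ B)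
    (z : W) (hz : z ∈ Z) (hpz : p • z ∈ B) : ∃ k : ℕ, z - k • t ∈ B := by
  have hfact : Fact p.Prime := ⟨hp⟩
  obtain ⟨k', hk'⟩ := h1 z hz
  obtain ⟨j', hj'⟩ := h1 t ht
  -- `n₀ ∣ k'` and `n₀ ∣ j'`
  have key : ∀ (w : W) (m : ℕ), p • w ∈ B → w - m • u ∈ B → n₀ ∣ m := by
    intro w m hpw hwm
    have h3 : (p * m) • u ∈ B := by
      have h4 : (p * m) • u = p • w - p • (w - m • u) := by
        rw [smul_sub, mul_smul]; abel
      rw [h4]
      exact B.sub_mem hpw (B.nsmul_mem hwm p)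
    exact Nat.dvd_of_mul_dvd_mul_left hp.pos ((h2 _).1 h3)
  obtain ⟨k'', rfl⟩ := key z k' hpz hk'
  obtain ⟨j'', rfl⟩ := key t j' hpt hj'
  -- `p ∤ j''`
  have hj'' : ¬ p ∣ j'' := by
    intro hdvd
    apply htn
    have h3 : (n₀ * j'') • u ∈ B := (h2 _).2 (by
      obtain ⟨c, rfl⟩ := hdvd
      exact ⟨c, by ring⟩)
    have h4 : t = (t - (n₀ * j'') • u) + (n₀ * j'') • u := by abel
    rw [h4]
    exact B.add_mem hj' h3
  -- solve `k * j'' ≡ k''` modulo `p`
  have hj0 : (j'' : ZMod p) ≠ 0 := by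
    rwa [Ne, ZMod.natCast_eq_zero_iff]
  set k : ℕ := ((k'' : ZMod p) * (j'' : ZMod p)⁻¹).val with hk
  have hkj : ((k * j'' : ℕ) : ZMod p) = (k'' : ZMod p) := by
    rw [Nat.cast_mul, hk, ZMod.natCast_val, ZMod.cast_id', id, mul_assoc, inv_mul_cancel₀ hj0,
      mul_one]
  have hdvd : (p : ℤ) ∣ (k'' : ℤ) - ((k * j'' : ℕ) : ℤ) :=
    Nat.modEq_iff_dvd.1 ((ZMod.natCast_eq_natCast_iff _ _ _).1 hkj)
  obtain ⟨c, hc⟩ := hdvd
  refine ⟨k, ?_⟩
  -- the multiple of `u` which is left over is a multiple of `(p * n₀) • u`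
  have h5 : (((n₀ * k'' : ℕ) : ℤ) - ((k * (n₀ * j'') : ℕ) : ℤ)) • u ∈ B := by
    have h6 : ((n₀ * k'' : ℕ) : ℤ) - ((k * (n₀ * j'') : ℕ) : ℤ) = c * ((p * n₀ : ℕ) : ℤ) := by
      have : ((n₀ * k'' : ℕ) : ℤ) - ((k * (n₀ * j'') : ℕ) : ℤ) =
          (n₀ : ℤ) * ((k'' : ℤ) - ((k * j'' : ℕ) : ℤ)) := by
        push_cast; ring
      rw [this, hc]
      push_cast; ring
    rw [h6, mul_smul, natCast_zsmul]
    exact B.zsmul_mem ((h2 _).2 dvd_rfl) c
  have h7 : z - k • t = (z - (n₀ * k'') • u) - k • (t - (n₀ * j'') • u) +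
      (((n₀ * k'' : ℕ) : ℤ) - ((k * (n₀ * j'') : ℕ) : ℤ)) • u := by
    rw [sub_smul, natCast_zsmul, natCast_zsmul, smul_sub, mul_smul k]
    abel
  rw [h7]
  exact B.add_mem (B.sub_mem hk' (B.nsmul_mem hj' k)) h5

end Cyclic

section Tower

variable {G : Type*} [Group G] {A : Type*} [AddCommGroup A] [DistribMulAction G A]

theorem h32_infl₂_nsmul {U : Subgroup G} [U.Normal] (k : ℕ)
    (ybar : (G ⧸ U) × (G ⧸ U) → h56_Inv U A) :
    h56_infl₂ (k • ybar) = k • h56_infl₂ ybar := by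
  funext x
  show (((k • ybar) (x.1, x.2) : h56_Inv U A) : A) = k • ((ybar (x.1, x.2) : h56_Inv U A) : A)
  rw [Pi.smul_apply, AddSubgroup.coe_nsmul]

theorem h32_infl₂_sub {U : Subgroup G} [U.Normal]
    (ybar ybar' : (G ⧸ U) × (G ⧸ U) → h56_Inv U A) :
    h56_infl₂ (ybar - ybar') = h56_infl₂ ybar - h56_infl₂ ybar' := by
  funext x
  show (((ybar - ybar') (x.1, x.2) : h56_Inv U A) : A) =
    ((ybar (x.1, x.2) : h56_Inv U A) : A) - ((ybar' (x.1, x.2) : h56_Inv U A) : A)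
  rw [Pi.sub_apply, AddSubgroup.coe_sub]

variable {ι : Type*} (U : ι → Subgroup G)

/-- level `2`-coboundaries for a family of subgroups: coboundaries of `1`-cochains which are
right-invariant under some member of the family. -/
def h32_IsLevCob (z : G × G → A) : Prop :=
  ∃ x : G → A, (∃ i, h56_IsLevel₁ (U i) x) ∧ ∀ g h : G, g • x h - x (g * h) + x g = z (g, h)

variable [hN : ∀ i, (U i).Normal]

/-- along a directed family of normal subgroups with `H¹ = 0` at every finite level, the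
inflation of a `2`-cocycle of a finite level is a level coboundary iff the cocycle is a
coboundary at its own level (inflation is injective on `H²`). -/
theorem h32_levCob_infl₂_iff (hdir : ∀ i j, ∃ k, U k ≤ U i ∧ U k ≤ U j)
    (hH1 : ∀ (i : ι) (H : Subgroup (G ⧸ U i)) (f : H → h56_Inv (U i) A),
      IsCocycle₁Via H.subtype f → IsCoboundary₁Via H.subtype f)
    (i : ι) (ybar : (G ⧸ U i) × (G ⧸ U i) → h56_Inv (U i) A) (hy : IsCocycle₂ ybar) :
    h32_IsLevCob U (h56_infl₂ ybar) ↔ IsCoboundary₂ ybar := by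
  constructor
  · rintro ⟨x, ⟨j, hj⟩, hx⟩
    obtain ⟨k, hki, hkj⟩ := hdir i j
    have h1 := (h56_isCoboundary₂_tower_iff hki ybar).2 ⟨x, hj.mono hkj, hx⟩
    exact h40_E8b (h56_quotMap hki) (h56_invIncl hki) (h56_quotMap_surjective hki)
      (h56_invIncl_injective hki) (h56_invIncl_smul hki) (h56_mem_range_invIncl hki)
      (hH1 k _) ybar hy h1
  · intro h
    obtain ⟨x, hl, hx⟩ := (h56_isCoboundary₂_iff ybar).1 h
    exact ⟨x, ⟨i, hl⟩, hx⟩

variable [hF : ∀ i, Finite (G ⧸ U i)]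

/-- **ASM-FUND, abstract form**: for a directed family of normal subgroups of finite index of
`G` such that the invariants of `A` are a `p`-class module at every level, and `p` divides the
index of some member, the `p`-torsion of the level-`H²` of `G` in `A` is cyclic of order `p`. -/
theorem h32_fund_tower (p : ℕ) [Fact p.Prime] (hdir : ∀ i j, ∃ k, U k ≤ U i ∧ U k ≤ U j)
    (hcl : ∀ i, IsPClassModule p (G ⧸ U i) (h56_Inv (U i) A))
    (i₁ : ι) (hi₁ : p ∣ Nat.card (G ⧸ U i₁)) :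
    ∃ t : G × G → A, IsCocycle₂ t ∧ h56_IsLevel₂ (U i₁) t ∧ h32_IsLevCob U (p • t) ∧
      (∀ z : G × G → A, IsCocycle₂ z → (∃ i, h56_IsLevel₂ (U i) z) → h32_IsLevCob U (p • z) →
        ∃ k : ℕ, h32_IsLevCob U (z - k • t)) ∧
      (∀ k : ℕ, h32_IsLevCob U (k • t) → p ∣ k) := by
  have hp : p.Prime := Fact.out
  have hinf := h32_levCob_infl₂_iff U hdir (fun i => (hcl i).h1)
  -- the level `i₁`
  obtain ⟨u₁, hu₁, hf₁, hk₁⟩ := h32_fund_top (hcl i₁)
  have hcard₁ : Nat.card (G ⧸ U i₁) ≠ 0 := Nat.card_pos.ne'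
  have ha : 0 < (Nat.card (G ⧸ U i₁)).factorization p :=
    hp.factorization_pos_of_dvd hcard₁ hi₁
  obtain ⟨a, ha'⟩ : ∃ a, (Nat.card (G ⧸ U i₁)).factorization p = a + 1 :=
    ⟨_, (Nat.succ_pred_eq_of_pos ha).symm⟩
  rw [ha'] at hk₁
  set tbar : (G ⧸ U i₁) × (G ⧸ U i₁) → h56_Inv (U i₁) A := p ^ a • u₁ with htbar
  have htbar_coc : IsCocycle₂ tbar := h83_isCocycle₂_nsmul _ hu₁
  have hksmul : ∀ k : ℕ, k • h56_infl₂ tbar = h56_infl₂ ((k * p ^ a) • u₁) := by
    intro k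
    rw [← h32_infl₂_nsmul, htbar, smul_smul]
  have hkcoc : ∀ k : ℕ, IsCocycle₂ ((k * p ^ a) • u₁) := fun k => h83_isCocycle₂_nsmul _ hu₁
  -- uniqueness
  have huniq : ∀ k : ℕ, h32_IsLevCob U (k • h56_infl₂ tbar) → p ∣ k := by
    intro k hk
    rw [hksmul, hinf i₁ _ (hkcoc k), hk₁, pow_succ'] at hk
    exact Nat.dvd_of_mul_dvd_mul_right (pow_pos hp.pos a) hk
  have hpt : h32_IsLevCob U (p • h56_infl₂ tbar) := by
    rw [hksmul, hinf i₁ _ (hkcoc p), hk₁, pow_succ']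
  have ht_coc : IsCocycle₂ (h56_infl₂ tbar) := (h56_isCocycle₂_infl₂ tbar).2 htbar_coc
  refine ⟨h56_infl₂ tbar, ht_coc, h56_infl₂_isLevel tbar, hpt, ?_, huniq⟩
  -- existence
  rintro z hz ⟨i, hzi⟩ hpz
  obtain ⟨k₀, h1, h2⟩ := hdir i₁ i
  obtain ⟨zbar, hzbar, rfl⟩ := h56_exists_defl₂ z hz (hzi.mono h2)
  obtain ⟨u, hu, hf, hk⟩ := h32_fund_top (hcl k₀)
  -- `p` divides the order of the level `k₀`
  have hcard : Nat.card (G ⧸ U k₀) ≠ 0 := Nat.card_pos.ne'
  have hdvd : p ∣ Nat.card (G ⧸ U k₀) := by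
    rw [← Subgroup.index_eq_card] at hi₁ ⊢
    exact hi₁.trans (Subgroup.index_dvd_of_le h1)
  have hb : 0 < (Nat.card (G ⧸ U k₀)).factorization p := hp.factorization_pos_of_dvd hcard hdvd
  obtain ⟨b, hb'⟩ : ∃ b, (Nat.card (G ⧸ U k₀)).factorization p = b + 1 :=
    ⟨_, (Nat.succ_pred_eq_of_pos hb).symm⟩
  rw [hb', pow_succ'] at hk
  -- the generator at level `k₀`
  set tL : (G ⧸ U k₀) × (G ⧸ U k₀) → h56_Inv (U k₀) A :=
    fun x => h56_invIncl h1 (tbar (h56_quotMap h1 x.1, h56_quotMap h1 x.2)) with htL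
  have htL_infl : h56_infl₂ tL = h56_infl₂ tbar := h56_infl₂_tower h1 tbar
  have htL_coc : IsCocycle₂ tL := (h56_isCocycle₂_infl₂ tL).1 (by rw [htL_infl]; exact ht_coc)
  have hptL : IsCoboundary₂ (p • tL) := by
    rw [← hinf k₀ _ (h83_isCocycle₂_nsmul _ htL_coc), h32_infl₂_nsmul, htL_infl]
    exact hpt
  have htLn : ¬ IsCoboundary₂ tL := by
    intro h
    rw [← hinf k₀ _ htL_coc, htL_infl] at h
    have h3 := huniq 1 (by rw [one_smul]; exact h)
    exact hp.one_lt.ne' (Nat.dvd_one.1 h3)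
  have hpzbar : IsCoboundary₂ (p • zbar) := by
    rw [← hinf k₀ _ (h83_isCocycle₂_nsmul _ hzbar), h32_infl₂_nsmul]
    exact hpz
  obtain ⟨k, hk'⟩ := h32_cyclic_ptorsion (h32_Z₂ (G ⧸ U k₀) (h56_Inv (U k₀) A))
    (h32_B₂ (G ⧸ U k₀) (h56_Inv (U k₀) A)) p (p ^ b) hp u hf hk tL htL_coc hptL htLn
    zbar hzbar hpzbar
  refine ⟨k, ?_⟩
  have h3 : h56_infl₂ zbar - k • h56_infl₂ tbar = h56_infl₂ (zbar - k • tL) := by
    rw [h32_infl₂_sub, h32_infl₂_nsmul k tL, htL_infl]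
  rw [h3, hinf k₀ _ (h40_isCocycle₂_sub hzbar (h83_isCocycle₂_nsmul _ htL_coc))]
  exact hk'

end Tower

section Concrete

local notation "Qb" => AlgebraicClosure ℚ
local notation "GQ" => (AlgebraicClosure ℚ ≃ₐ[ℚ] AlgebraicClosure ℚ)

section Levels

variable {S : Finset Nat.Primes}

/-- the quotient of `G_ℚ` by the subgroup of a level is finite. -/
theorem h32_lev_finite (L : h72_Lev S) : Finite (GQ ⧸ L.U) := by
  have hgal : IsGalois ℚ Qb := Fermat.Agent.S13.h24_isGalois_Qbar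
  have := L.unr.1
  exact Subgroup.quotient_finite_of_isOpen L.F.fixingSubgroup L.F.fixingSubgroup_isOpen

/-- the levels are directed. -/
theorem h32_lev_dir (L L' : h72_Lev S) : ∃ L'' : h72_Lev S, L''.U ≤ L.U ∧ L''.U ≤ L'.U := by
  obtain ⟨F', h1, h2, h3, h4⟩ := h56_exists_galois_level_ge S L.F L'.F L.unr L'.unr
  exact ⟨⟨F', h3, h4⟩, IntermediateField.fixingSubgroup_antitone h1,
    IntermediateField.fixingSubgroup_antitone h2⟩

/-- `S`-level coboundaries are the level coboundaries of the family of `S`-levels. -/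
theorem h32_isCobS₂_iff {A : Type*} [AddCommGroup A] [DistribMulAction GQ A] (z : GQ × GQ → A) :
    h72_IsCobS₂ S z ↔ h32_IsLevCob (fun L : h72_Lev S => L.U) z := by
  constructor
  · rintro ⟨x, hx, hd⟩
    obtain ⟨F, -, hF, hgal, hinv⟩ := (h97_isLevelConstantS₁_iff S ⊥
      (IntermediateField.isUnramifiedOutside_bot S) x).1 hx
    exact ⟨x, ⟨⟨F, hF, hgal⟩, hinv⟩, hd⟩
  · rintro ⟨x, ⟨L, hL⟩, hd⟩
    exact ⟨x, ⟨L.F, L.unr, hL⟩, hd⟩

/-- the `S`-level `ℚ(ζ_{p²})` has degree `p (p - 1)`, divisible by `p`. -/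
theorem h32_exists_level_p_dvd (p : ℕ) [Fact p.Prime] (hpS : pPrime p ∈ S) :
    ∃ L : h72_Lev S, p ∣ Nat.card (GQ ⧸ L.U) := by
  have hp : p.Prime := Fact.out
  have hgalQ : IsGalois ℚ Qb := Fermat.Agent.S13.h24_isGalois_Qbar
  have hne : NeZero (p ^ 2) := ⟨pow_ne_zero 2 hp.ne_zero⟩
  obtain ⟨ζ, hζ⟩ := HasEnoughRootsOfUnity.exists_primitiveRoot Qb (p ^ 2)
  set F : IntermediateField ℚ Qb := IntermediateField.adjoin ℚ {ζ} with hF
  have hunr : F.IsUnramifiedOutside S := h85_unram_pPowRoot S hpS 2 ζ hζ.pow_eq_one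
  have hcyc : IsCyclotomicExtension {p ^ 2} ℚ F :=
    hζ.intermediateField_adjoin_isCyclotomicExtension ℚ
  have hgal : IsGalois ℚ F := IsCyclotomicExtension.isGalois {p ^ 2} ℚ F
  have hrank : Module.finrank ℚ F = (p ^ 2).totient :=
    IsCyclotomicExtension.finrank F (Polynomial.cyclotomic.irreducible_rat (pow_pos hp.pos 2))
  refine ⟨⟨F, hunr, hgal⟩, ?_⟩
  show p ∣ Nat.card (GQ ⧸ F.fixingSubgroup)
  rw [← Subgroup.index_eq_card, ← IntermediateField.finrank_eq_fixingSubgroup_index, hrank,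
    Nat.totient_prime_pow hp (by norm_num)]
  exact Dvd.dvd.mul_right (dvd_pow_self p (by norm_num)) _

end Levels

section Main

variable {p : ℕ} [Fact p.Prime] (S : Finset Nat.Primes)
  {CC : Type} [AddCommGroup CC] [DistribMulAction GQ CC]

/-- ASM-FUND from the class formation property alone. -/
theorem h32_asm_fund_of_class (hpS : pPrime p ∈ S)
    (hcl : ∀ L : h72_Lev S, IsPClassModule p (GQ ⧸ L.U) (h56_Inv L.U CC)) :
    ∃ t : GQ × GQ → CC, IsCocycle₂ t ∧ IsLevelConstantS₂ S t ∧ h72_IsCobS₂ S (p • t) ∧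
      (∀ z : GQ × GQ → CC, IsCocycle₂ z → IsLevelConstantS₂ S z → h72_IsCobS₂ S (p • z) →
        ∃ k : ℕ, h72_IsCobS₂ S (z - k • t)) ∧
      (∀ k : ℕ, h72_IsCobS₂ S (k • t) → p ∣ k) := by
  obtain ⟨L₁, hL₁⟩ := h32_exists_level_p_dvd (S := S) p hpS
  have hfin : ∀ L : h72_Lev S, Finite (GQ ⧸ L.U) := h32_lev_finite
  obtain ⟨t, ht, htl, hpt, hex, huniq⟩ :=
    h32_fund_tower (fun L : h72_Lev S => L.U) p h32_lev_dir hcl L₁ hL₁
  refine ⟨t, ht, ⟨L₁.F, L₁.unr, htl⟩, (h32_isCobS₂_iff _).2 hpt, fun z hz hzl hpz => ?_,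
    fun k hk => huniq k ((h32_isCobS₂_iff _).1 hk)⟩
  obtain ⟨F, -, hF, hgal, hinv⟩ := (h97_isLevelConstantS₂_iff S ⊥
    (IntermediateField.isUnramifiedOutside_bot S) z).1 hzl
  obtain ⟨k, hk⟩ := hex z hz ⟨⟨F, hF, hgal⟩, hinv⟩ ((h32_isCobS₂_iff _).1 hpz)
  exact ⟨k, (h32_isCobS₂_iff _).2 hk⟩

variable {JJ : ↥S → Type} [∀ q, AddCommGroup (JJ q)] [∀ q, DistribMulAction GQ (JJ q)]
  {XX : ↥S → Type} [∀ q, AddCommGroup (XX q)]
  [∀ q : ↥S, DistribMulAction (primeLocalGaloisGroup q.1) (XX q)]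
  {κ : ∀ q, JJ q →+ CC} {ev : ∀ q, JJ q →+ XX q} {zz : ∀ q, XX q}

/-- ASM-FUND (F1): the `p`-torsion of `H²_S(G_ℚ, CC)` is cyclic of order `p`, generated by the
class of `t`. -/
theorem h32_asm_fund (hpS : pPrime p ∈ S) (hA : h72_PTAmbient p S CC JJ XX κ ev zz) :
    ∃ t : GQ × GQ → CC, IsCocycle₂ t ∧ IsLevelConstantS₂ S t ∧ h72_IsCobS₂ S (p • t) ∧
      (∀ z : GQ × GQ → CC, IsCocycle₂ z → IsLevelConstantS₂ S z → h72_IsCobS₂ S (p • z) →
        ∃ k : ℕ, h72_IsCobS₂ S (z - k • t)) ∧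
      (∀ k : ℕ, h72_IsCobS₂ S (k • t) → p ∣ k) :=
  h32_asm_fund_of_class S hpS hA.cc_class

end Main

end Concrete

end Fermat.Agent.S55
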