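/-
S55 layer H, row H-LIFT (toolkit T6; helper32): lifting / extension of `G`-maps.

* `h32_free_lift`         : additive maps out of a `ℤ`-free group lift along surjections;
* `h32_coind_map_eq`      : a `G`-map `Ψ` out of `Coind G V` is `φ ↦ Σ_x x⁻¹ • Ψ (δ (φ x))`;
* `h32_coind_map_exists`  : every `k : V →+ E` gives the `G`-map `φ ↦ Σ_x x⁻¹ • k (φ x)`;
* `h32_coind_lift`        : `G`-maps out of a coinduced `ℤ`-free module lift along surjective
                            `G`-maps;
* `h32_extend_of_H1`      : extension of `G`-maps along `0 → A' → A → A'' → 0` (split as groups)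
                            when `H¹(G, Hom(A'', D)) = 0`.
-/
import Mathlib
import Fermat.Agent.S55.h72_AbsDefs
import Fermat.Agent.S55.h40_HDefs

set_option autoImplicit false

namespace Fermat.Agent.S55

open groupCohomology

section LIFT

variable {G : Type*} [Group G] [Finite G]
  {V E E' : Type*} [AddCommGroup V] [AddCommGroup E] [AddCommGroup E']
  [DistribMulAction G E] [DistribMulAction G E']

/-- additive maps out of a `ℤ`-free group lift along surjections -/
theorem h32_free_lift [Module.Free ℤ V] (q : E →+ E') (hq : Function.Surjective q)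
    (ψ : V →+ E') : ∃ ψ' : V →+ E, ∀ v, q (ψ' v) = ψ v := by
  obtain ⟨h, hh⟩ := Module.projective_lifting_property q.toIntLinearMap ψ.toIntLinearMap hq
  exact ⟨h.toAddMonoidHom, fun v => LinearMap.congr_fun hh v⟩

/-- evaluation at `y` as an additive map on `h40_Coind G V` -/
def h32_coindEval (G V : Type*) [AddCommGroup V] (y : G) : h40_Coind G V →+ V where
  toFun φ := φ y
  map_zero' := rfl
  map_add' _ _ := rfl

omit [Group G] [Finite G] in
theorem h32_coindEval_apply (y : G) (φ : h40_Coind G V) : h32_coindEval G V y φ = φ y := rfl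

omit [Finite G] in
theorem h32_delta_add (v w : V) : h40_delta G (v + w) = h40_delta G v + h40_delta G w := by
  classical
  apply h40_Coind.ext
  intro x
  rw [h40_Coind.add_apply]
  by_cases hx : x = 1
  · subst hx
    rw [h40_delta_apply_one, h40_delta_apply_one, h40_delta_apply_one]
  · rw [h40_delta_apply_of_ne G _ hx, h40_delta_apply_of_ne G _ hx, h40_delta_apply_of_ne G _ hx,
      add_zero]

omit [Finite G] in
theorem h32_delta_zero : h40_delta G (0 : V) = 0 := by
  classical
  apply h40_Coind.ext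
  intro x
  by_cases hx : x = 1
  · subst hx
    rw [h40_delta_apply_one]; rfl
  · rw [h40_delta_apply_of_ne G _ hx]; rfl

/-- `δ` as an additive map `V →+ Coind G V` -/
noncomputable def h32_deltaHom (G V : Type*) [Group G] [AddCommGroup V] : V →+ h40_Coind G V where
  toFun v := h40_delta G v
  map_zero' := h32_delta_zero
  map_add' := h32_delta_add

omit [Finite G] in
theorem h32_deltaHom_apply (v : V) : h32_deltaHom G V v = h40_delta G v := rfl

omit [Finite G] in
/-- every element of `Coind G V` is `Σ_x x⁻¹ • δ (φ x)` -/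
theorem h32_coind_decomp [Fintype G] (φ : h40_Coind G V) :
    φ = ∑ x : G, x⁻¹ • h40_delta G (φ x) := by
  classical
  apply h40_Coind.ext
  intro y
  rw [← h32_coindEval_apply y (∑ x : G, x⁻¹ • h40_delta G (φ x)), map_sum]
  rw [Finset.sum_eq_single y]
  · rw [h32_coindEval_apply, h40_Coind.smul_apply, mul_inv_cancel, h40_delta_apply_one]
  · intro x _ hx
    rw [h32_coindEval_apply, h40_Coind.smul_apply]
    apply h40_delta_apply_of_ne
    intro h
    exact hx (mul_inv_eq_one.1 h).symm
  · intro h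
    exact absurd (Finset.mem_univ y) h

/-- `G`-maps out of a coinduced module are `φ ↦ Σ_x x⁻¹ • Ψ (δ (φ x))` -/
theorem h32_coind_map_eq (Ψ : h40_Coind G V →+ E)
    (hΨ : ∀ (g : G) (φ : h40_Coind G V), Ψ (g • φ) = g • Ψ φ) (φ : h40_Coind G V) :
    Ψ φ = ∑ᶠ x : G, x⁻¹ • Ψ (h40_delta G (φ x)) := by
  classical
  cases nonempty_fintype G
  rw [finsum_eq_sum_of_fintype]
  conv_lhs => rw [h32_coind_decomp φ]
  rw [map_sum]
  exact Finset.sum_congr rfl fun x _ => hΨ _ _

theorem h32_coind_map_exists (k : V →+ E) :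
    ∃ Ψ : h40_Coind G V →+ E, (∀ (g : G) (φ : h40_Coind G V), Ψ (g • φ) = g • Ψ φ) ∧
      ∀ φ : h40_Coind G V, Ψ φ = ∑ᶠ x : G, x⁻¹ • k (φ x) := by
  classical
  cases nonempty_fintype G
  refine ⟨{ toFun := fun φ => ∑ x : G, x⁻¹ • k (φ x)
            map_zero' := ?_
            map_add' := ?_ }, ?_, ?_⟩
  · simp only [h40_Coind.zero_apply, map_zero, smul_zero, Finset.sum_const_zero]
  · intro φ ψ
    simp only [h40_Coind.add_apply, map_add, smul_add, Finset.sum_add_distrib]
  · intro g φ
    show ∑ x : G, x⁻¹ • k ((g • φ) x) = g • ∑ x : G, x⁻¹ • k (φ x)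
    rw [Finset.smul_sum]
    refine Fintype.sum_equiv (Equiv.mulRight g) _ _ fun x => ?_
    rw [h40_Coind.smul_apply, Equiv.coe_mulRight, mul_inv_rev, mul_smul, smul_smul g,
      mul_inv_cancel, one_smul]
  · intro φ
    rw [finsum_eq_sum_of_fintype]
    rfl

/-- lifting `G`-maps from a coinduced `ℤ`-free module along a surjective `G`-map -/
theorem h32_coind_lift [Module.Free ℤ V] (q : E →+ E') (hq : Function.Surjective q)
    (hqG : ∀ (g : G) (e : E), q (g • e) = g • q e)
    (Ψ : h40_Coind G V →+ E') (hΨ : ∀ (g : G) (φ : h40_Coind G V), Ψ (g • φ) = g • Ψ φ) :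
    ∃ Ψ' : h40_Coind G V →+ E, (∀ (g : G) (φ : h40_Coind G V), Ψ' (g • φ) = g • Ψ' φ) ∧
      ∀ φ, q (Ψ' φ) = Ψ φ := by
  classical
  cases nonempty_fintype G
  obtain ⟨k', hk'⟩ := h32_free_lift q hq (Ψ.comp (h32_deltaHom G V))
  obtain ⟨Ψ', hΨ'G, hΨ'⟩ := h32_coind_map_exists (G := G) k'
  refine ⟨Ψ', hΨ'G, fun φ => ?_⟩
  rw [hΨ', h32_coind_map_eq Ψ hΨ φ, finsum_eq_sum_of_fintype, finsum_eq_sum_of_fintype, map_sum]
  refine Finset.sum_congr rfl fun x _ => ?_
  rw [hqG, hk']
  rfl

/-- extension of `G`-maps: obstruction in `H¹(G, Hom(A'', D))` -/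
theorem h32_extend_of_H1 {A' A A'' D : Type*} [AddCommGroup A'] [AddCommGroup A]
    [AddCommGroup A''] [AddCommGroup D] [DistribMulAction G A'] [DistribMulAction G A]
    [DistribMulAction G A''] [DistribMulAction G D] (i : A' →+ A) (q : A →+ A'')
    (h : h40_ShortExact G i q) (r : A →+ A') (hr : ∀ a', r (i a') = a')
    (hH1 : ∀ f : G → h40_Hom A'' D, IsCocycle₁ f → IsCoboundary₁ f)
    (f : A' →+ D) (hf : ∀ (g : G) (a' : A'), f (g • a') = g • f a') :
    ∃ F : A →+ D, (∀ (g : G) (a : A), F (g • a) = g • F a) ∧ ∀ a', F (i a') = f a' := by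
  -- the additive extension `F₀ = f ∘ r`
  set F₀ : A →+ D := f.comp r with hF₀
  have hF₀i : ∀ a', F₀ (i a') = f a' := fun a' => by rw [hF₀, AddMonoidHom.comp_apply, hr]
  -- the defect `d g a = g • F₀ (g⁻¹ • a) - F₀ a`
  let d : G → (A →+ D) := fun g =>
    { toFun := fun a => g • F₀ (g⁻¹ • a) - F₀ a
      map_zero' := by rw [smul_zero, map_zero, smul_zero, sub_zero]
      map_add' := fun a b => by rw [smul_add, map_add, smul_add, map_add]; abel }
  have hd : ∀ g a, d g a = g • F₀ (g⁻¹ • a) - F₀ a := fun _ _ => rfl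
  have hker : ∀ g, q.ker ≤ (d g).ker := by
    intro g a ha
    rw [AddMonoidHom.mem_ker] at ha ⊢
    obtain ⟨a', rfl⟩ := (h.exact a).1 ha
    rw [hd, ← h.i_smul, hF₀i, hF₀i, hf, smul_smul, mul_inv_cancel, one_smul, sub_self]
  -- the induced cocycle with values in `Hom(A'', D)`
  let c : G → h40_Hom A'' D := fun g =>
    h40_Hom.mk (q.liftOfRightInverse (Function.surjInv h.surj)
      (Function.rightInverse_surjInv h.surj) ⟨d g, hker g⟩)
  have hc : ∀ g a, c g (q a) = g • F₀ (g⁻¹ • a) - F₀ a := by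
    intro g a
    show (q.liftOfRightInverse (Function.surjInv h.surj)
      (Function.rightInverse_surjInv h.surj) ⟨d g, hker g⟩) (q a) = _
    rw [AddMonoidHom.liftOfRightInverse_comp_apply]
    rfl
  have hcoc : IsCocycle₁ c := by
    intro g k
    apply h40_Hom.ext
    intro a''
    obtain ⟨a, rfl⟩ := h.surj a''
    rw [h40_Hom.add_apply, h40_Hom.smul_apply, ← h.q_smul, hc, hc, hc, smul_sub, smul_smul,
      smul_smul, mul_inv_rev]
    abel
  obtain ⟨ψ, hψ⟩ := hH1 c hcoc
  -- `F = F₀ - ψ ∘ q`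
  refine ⟨F₀ - (h40_Hom.toHom ψ).comp q, ?_, ?_⟩
  · -- equivariance
    have key : ∀ (g : G) (a : A), g • (F₀ (g⁻¹ • a) - ψ (q (g⁻¹ • a))) = F₀ a - ψ (q a) := by
      intro g a
      have h1 := congrArg (fun φ : h40_Hom A'' D => φ (q a)) (hψ g)
      simp only [h40_Hom.sub_apply, h40_Hom.smul_apply] at h1
      rw [hc, ← h.q_smul] at h1
      rw [smul_sub]
      calc g • F₀ (g⁻¹ • a) - g • ψ (q (g⁻¹ • a))
          = F₀ a - ψ (q a) + ((g • F₀ (g⁻¹ • a) - F₀ a) -
              (g • ψ (q (g⁻¹ • a)) - ψ (q a))) := by abel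
        _ = F₀ a - ψ (q a) := by rw [h1, sub_self, add_zero]
    intro g a
    have := key g (g • a)
    rw [smul_smul, inv_mul_cancel, one_smul] at this
    simp only [AddMonoidHom.sub_apply, AddMonoidHom.comp_apply]
    exact this.symm
  · intro a'
    have hq0 : q (i a') = 0 := (h.exact _).2 ⟨a', rfl⟩
    simp only [AddMonoidHom.sub_apply, AddMonoidHom.comp_apply]
    rw [hF₀i, hq0]
    exact (sub_eq_self.2 (h40_Hom.map_zero' ψ))

end LIFT

end Fermat.Agent.S55
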