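import Fermat.Agent.S55.h63_LocW
import Fermat.Agent.S55.h81_E8c
import Fermat.Agent.S55.h96_GalQuot
import Fermat.Agent.S55.h82_ClassComap
import Fermat.Agent.S55.h63_LocClass

/-!
# S55 / LOC-7-REL (helper32): the relative local class module

For every finite Galois extension `L/K` of finite extensions of `ℚ_q`, the `p`-localisation of
`Lˣ` is a `p`-class module for `Gal(L/K)`.  Deduced from the absolute case (`L'/ℚ_q` Galois) by
passing to the normal closure `L'` of `L/ℚ_q`: `Gal(L'/K)` is a subgroup of `Gal(L'/ℚ_q)`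
(`h82_classModule_comap`) and `Gal(L/K)` is a quotient of `Gal(L'/K)` with
`Lˣ = (L'ˣ)^{Gal(L'/L)}` (`h96_gal_quot`, `h81_E8c`).

* `h32_local_classModule_rel` : the row statement, with the absolute case as hypothesis `habs`;
* `h32_local_classModule_rel'` : the unconditional form (`habs := h63_local_classModule`).
-/

set_option autoImplicit false

namespace Fermat.Agent.S55

open groupCohomology

universe u v

/-- LOC-7-REL: the relative local class module, from the absolute case. -/
theorem h32_local_classModule_rel (q p : ℕ) [Fact q.Prime] [Fact p.Prime]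
    (habs : ∀ (L' : Type u) [Field L'] [Algebra ℚ_[q] L'] [FiniteDimensional ℚ_[q] L']
      [IsGalois ℚ_[q] L'], IsPClassModule p (L' ≃ₐ[ℚ_[q]] L') (h2_PL p (Additive L'ˣ)))
    (K : Type v) (L : Type u) [Field K] [Field L] [Algebra ℚ_[q] K] [Algebra ℚ_[q] L] [Algebra K L]
    [IsScalarTower ℚ_[q] K L] [FiniteDimensional ℚ_[q] L] [IsGalois K L] :
    IsPClassModule p (L ≃ₐ[K] L) (h2_PL p (Additive Lˣ)) := by
  classical
  -- the normal closure `L'` of `L / ℚ_q` inside an algebraic closure of `L`
  have hnormΩ : Normal ℚ_[q] (AlgebraicClosure L) := inferInstance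
  obtain ⟨L', hL'⟩ : ∃ L' : IntermediateField ℚ_[q] (AlgebraicClosure L),
      L' = IntermediateField.normalClosure ℚ_[q] L (AlgebraicClosure L) := ⟨_, rfl⟩
  subst hL'
  have hfinL' : FiniteDimensional ℚ_[q]
      (IntermediateField.normalClosure ℚ_[q] L (AlgebraicClosure L)) := inferInstance
  have hnormL' : Normal ℚ_[q]
      (IntermediateField.normalClosure ℚ_[q] L (AlgebraicClosure L)) := inferInstance
  have hgalL' : IsGalois ℚ_[q]
      (IntermediateField.normalClosure ℚ_[q] L (AlgebraicClosure L)) :=
    isGalois_iff.2 ⟨inferInstance, hnormL'⟩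
  have h0 := habs (IntermediateField.normalClosure ℚ_[q] L (AlgebraicClosure L))
  -- Step 1: `Gal(L'/K)` as a subgroup of `Gal(L'/ℚ_q)`
  let algKL' : Algebra K (IntermediateField.normalClosure ℚ_[q] L (AlgebraicClosure L)) :=
    ((algebraMap L (IntermediateField.normalClosure ℚ_[q] L (AlgebraicClosure L))).comp
      (algebraMap K L)).toAlgebra
  have towerKLL' : IsScalarTower K L
      (IntermediateField.normalClosure ℚ_[q] L (AlgebraicClosure L)) :=
    IsScalarTower.of_algebraMap_eq (fun x => rfl)
  have towerQKL' : IsScalarTower ℚ_[q] K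
      (IntermediateField.normalClosure ℚ_[q] L (AlgebraicClosure L)) :=
    IsScalarTower.of_algebraMap_eq (fun x => by
      show _ = algebraMap L _ (algebraMap K L (algebraMap ℚ_[q] K x))
      rw [← IsScalarTower.algebraMap_apply ℚ_[q] K L, ← IsScalarTower.algebraMap_apply ℚ_[q] L])
  have h1 : IsPClassModule p
      (IntermediateField.normalClosure ℚ_[q] L (AlgebraicClosure L) ≃ₐ[K]
        IntermediateField.normalClosure ℚ_[q] L (AlgebraicClosure L))
      (h2_PL p (Additive (IntermediateField.normalClosure ℚ_[q] L (AlgebraicClosure L))ˣ)) := by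
    refine h82_classModule_comap (AlgEquiv.restrictScalarsHom ℚ_[q])
      (AlgEquiv.restrictScalarsHom_injective ℚ_[q]) (fun γ c => ?_) h0
    rfl
  -- Step 2: `Gal(L/K)` as a quotient of `Gal(L'/K)`
  have hgalKL' : IsGalois K (IntermediateField.normalClosure ℚ_[q] L (AlgebraicClosure L)) :=
    IsGalois.tower_top_of_isGalois ℚ_[q] K _
  have hfinKL' : FiniteDimensional K
      (IntermediateField.normalClosure ℚ_[q] L (AlgebraicClosure L)) :=
    FiniteDimensional.right ℚ_[q] K _
  obtain ⟨hπ, hι, hιeq, hιfix⟩ := h96_gal_quot K L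
    (IntermediateField.normalClosure ℚ_[q] L (AlgebraicClosure L))
  exact h81_E8c (AlgEquiv.restrictNormalHom L) hπ
    (h2_PL.map (Units.map (algebraMap L
      (IntermediateField.normalClosure ℚ_[q] L (AlgebraicClosure L)) :
      L →* IntermediateField.normalClosure ℚ_[q] L (AlgebraicClosure L))).toAdditive)
    (h2_PL.map_injective _ hι) (h2_PL.map_smul_of _ _ hιeq)
    (h2_PL.mem_range_map_of_fixed _ _ hιfix) h1

/-- LOC-7-REL, unconditional: the relative local class module. -/
theorem h32_local_classModule_rel' (q p : ℕ) [Fact q.Prime] [Fact p.Prime]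
    (K : Type v) (L : Type u) [Field K] [Field L] [Algebra ℚ_[q] K] [Algebra ℚ_[q] L] [Algebra K L]
    [IsScalarTower ℚ_[q] K L] [FiniteDimensional ℚ_[q] L] [IsGalois K L] :
    IsPClassModule p (L ≃ₐ[K] L) (h2_PL p (Additive Lˣ)) :=
  h32_local_classModule_rel q p (fun L' => h63_local_classModule q p L') K L

end Fermat.Agent.S55
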