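import Mathlib
import Fermat.Agent.S55.h33_GlobKumDefs
import Fermat.Agent.S55.h46_UnramVal

/-!
# S55 / GLOB-DICT-VAL: `p`-divisible divisor ⟹ `p`-divisible valuation

For a level `L` (a number field inside `Qbar = AlgebraicClosure ℚ`) and `a ∈ Lˣ` whose
prime-to-`S` divisor is `p` times a divisor, the valuation of `a` at every valuation subring `A`
of `Qbar` above a prime `q ∉ S` is the `p`-th power of the valuation of an element of `L`.

* `h37_centre_not_above` : the centre on `𝓞 L` of a valuation subring above `q ∉ S` is a prime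
  of `𝓞 L` not above `S`;
* `h37_valuation_eq_exp_count` : `v.valuation K x = exp (-count_v (x))`;
* `h37_dictVal` : the core statement, for an arbitrary intermediate field which is a number field;
* `h37_hypVal : h33_HypVal S p` (no hypothesis on `p`, and the level hypothesis is not used).

No unramifiedness is needed: `A ∩ L` contains the localisation of `𝓞 L` at the centre `v` of `A`
(`h46_valuation_eq_one`), so `v`-adic units of `L` are units of `A`.
-/

set_option autoImplicit false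

open NumberField IsDedekindDomain
open scoped nonZeroDivisors

namespace Fermat.Agent.S55

local notation "Qb" => AlgebraicClosure ℚ

/-- The adic valuation of a nonzero element in terms of the multiplicity of `v` in the
principal fractional ideal it generates. -/
theorem h37_valuation_eq_exp_count {R : Type*} [CommRing R] [IsDedekindDomain R] {K : Type*}
    [Field K] [Algebra R K] [IsFractionRing R K] (v : HeightOneSpectrum R) (x : Kˣ) :
    v.valuation K (x : K) =
      WithZero.exp (-(FractionalIdeal.count K v (FractionalIdeal.spanSingleton R⁰ (x : K)))) := by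
  rw [← HeightOneSpectrum.valuationOfNeZero_eq v x, h46_valuationOfNeZero_eq_count]
  rfl

/-- The centre on `𝓞 L` of a valuation subring of `Qbar` above a prime `q ∉ S` is not
above `S`. -/
theorem h37_centre_not_above (S : Finset Nat.Primes) (L : IntermediateField ℚ Qb)
    [NumberField ↥L] (q : Nat.Primes) (hq : q ∉ S) (A : ValuationSubring Qb)
    (hA : A.LiesOverPrime (q : ℕ)) (P : HeightOneSpectrum (𝓞 ↥L))
    (hP : ∀ z : 𝓞 ↥L, (((z : ↥L) : Qb)) ∈ A.nonunits ↔ z ∈ P.asIdeal) :
    ¬ h25_above ↥L S P := by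
  rintro ⟨q', hq'S, hq'P⟩
  have hne : q' ≠ q := fun h => hq (h ▸ hq'S)
  have hqP : (((q : ℕ) : 𝓞 ↥L)) ∈ P.asIdeal := by
    refine (hP _).mp ?_
    have h1 : ((((q : ℕ) : 𝓞 ↥L) : ↥L) : Qb) = ((q : ℕ) : Qb) := by simp
    rw [h1]
    exact hA
  have hcop : Nat.Coprime (q : ℕ) (q' : ℕ) :=
    (Nat.coprime_primes q.2 q'.2).mpr (fun h => hne (Subtype.ext h).symm)
  obtain ⟨u, v, huv⟩ := Nat.Coprime.isCoprime hcop
  have h1 : (1 : 𝓞 ↥L) ∈ P.asIdeal := by
    have h2 : (1 : 𝓞 ↥L) =
        (u : 𝓞 ↥L) * ((q : ℕ) : 𝓞 ↥L) + (v : 𝓞 ↥L) * ((q' : ℕ) : 𝓞 ↥L) := by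
      have h3 := congrArg (Int.cast : ℤ → 𝓞 ↥L) huv
      push_cast at h3
      exact h3.symm
    rw [h2]
    exact P.asIdeal.add_mem (P.asIdeal.mul_mem_left _ hqP) (P.asIdeal.mul_mem_left _ hq'P)
  exact P.isPrime.ne_top ((Ideal.eq_top_iff_one _).mpr h1)

/-- **GLOB-DICT-VAL**, core form: if the prime-to-`S` divisor of `a ∈ Lˣ` is `p • d`, then at
every valuation subring `A` of `Qbar` above a prime `q ∉ S` the valuation of `a` is a `p`-th
power of the valuation of an element of `L`. -/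
theorem h37_dictVal (S : Finset Nat.Primes) (p : ℕ) (L : IntermediateField ℚ Qb)
    [NumberField ↥L] (a : (↥L)ˣ) (d : h25_Div ↥L S) (hd : p • d = h25_div ↥L S a)
    (q : Nat.Primes) (hq : q ∉ S) (A : ValuationSubring Qb) (hA : A.LiesOverPrime (q : ℕ)) :
    ∃ b ∈ L, A.valuation ((((a : (↥L)ˣ) : ↥L) : Qb)) = A.valuation b ^ p := by
  obtain ⟨P, hP⟩ := h46_exists_centre L A q q.2.ne_zero hA
  have hPS : ¬ h25_above ↥L S P := h37_centre_not_above S L q hq A hA P hP
  set m : ℤ := d ⟨P, hPS⟩ with hm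
  have hcount : FractionalIdeal.count ↥L P
      (FractionalIdeal.spanSingleton (𝓞 ↥L)⁰ ((a : (↥L)ˣ) : ↥L)) = (p : ℤ) * m := by
    have h2 := DFunLike.congr_fun hd ⟨P, hPS⟩
    rw [Finsupp.smul_apply, nsmul_eq_mul] at h2
    rw [hm, h2]
    rfl
  have hval : P.valuation ↥L ((a : (↥L)ˣ) : ↥L) = WithZero.exp (-((p : ℤ) * m)) := by
    rw [h37_valuation_eq_exp_count, hcount]
  obtain ⟨π, hπ⟩ := P.valuation_exists_uniformizer ↥L
  set b : ↥L := π ^ m with hb
  have h1 : P.valuation ↥L (((a : (↥L)ˣ) : ↥L) * (b ^ p)⁻¹) = 1 := by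
    rw [map_mul, map_inv₀, map_pow, hb, map_zpow₀, hπ, hval, ← WithZero.exp_zsmul,
      ← WithZero.exp_nsmul, ← WithZero.exp_neg, ← WithZero.exp_add]
    simp
  have h2 := h46_valuation_eq_one hP _ h1
  refine ⟨(b : Qb), b.2, ?_⟩
  have h3 : ((((a : (↥L)ˣ) : ↥L) * (b ^ p)⁻¹ : ↥L) : Qb) =
      (((a : (↥L)ˣ) : ↥L) : Qb) * (((b : ↥L) : Qb) ^ p)⁻¹ := by
    push_cast
    rfl
  rw [h3, map_mul, map_inv₀, map_pow] at h2
  exact eq_of_mul_inv_eq_one h2

/-- **GLOB-DICT-VAL** (tasks row 290): the hypothesis `h33_HypVal S p` holds, for every `S` and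
every `p`. -/
theorem h37_hypVal (S : Finset Nat.Primes) (p : ℕ) : h33_HypVal S p := by
  intro L _ _ a ha q hq A hA
  rw [h33_mem_V] at ha
  obtain ⟨i, hi⟩ := ha
  rw [h33_dI_apply] at hi
  refine h37_dictVal S p L a (Multiplicative.toAdd i) ?_ q hq A hA
  have h1 := congrArg Multiplicative.toAdd hi
  rw [toAdd_pow, toAdd_ofAdd] at h1
  exact h1

end Fermat.Agent.S55
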