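/-
Dirichlet's S-unit theorem for Mathlib's `Set.unit` (S-units of a number field).
No-regret block for S55 (GLOB layer: Kummer / Chevalley counts).  Mathlib only.
-/
import Mathlib

set_option autoImplicit false

namespace Fermat.Agent.S55

open IsDedekindDomain NumberField

section FGAbelian

/-- For a finite abelian group, the index of `n • M` is the number of `n`-torsion elements. -/
theorem h59_index_nsmul_finite (M : Type*) [AddCommGroup M] [Finite M] (n : ℕ) :
    (nsmulAddMonoidHom (α := M) n).range.index = Nat.card {x : M // n • x = 0} := by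
  have h1 := AddSubgroup.index_mul_card (nsmulAddMonoidHom (α := M) n).range
  have h2 := AddSubgroup.card_mul_index (nsmulAddMonoidHom (α := M) n).ker
  have h3 : (nsmulAddMonoidHom (α := M) n).ker.index =
      Nat.card (nsmulAddMonoidHom (α := M) n).range :=
    Nat.card_congr (QuotientAddGroup.quotientKerEquivRange _).toEquiv
  have h4 : Nat.card (nsmulAddMonoidHom (α := M) n).ker = Nat.card {x : M // n • x = 0} :=
    Nat.card_congr (Equiv.subtypeEquivRight (fun x => by
      rw [AddMonoidHom.mem_ker]; rfl))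
  have h5 : 0 < Nat.card (nsmulAddMonoidHom (α := M) n).range := Nat.card_pos
  rw [h3, ← h1, h4] at h2
  have h6 : Nat.card (nsmulAddMonoidHom (α := M) n).range *
      (nsmulAddMonoidHom (α := M) n).range.index =
      Nat.card (nsmulAddMonoidHom (α := M) n).range * Nat.card {x : M // n • x = 0} := by
    rw [mul_comm, ← h2, mul_comm]
  exact Nat.eq_of_mul_eq_mul_left h5 h6

/-- The index of `n • ℤ^r` in `ℤ^r` is `n ^ r`. -/
theorem h59_index_nsmul_pi (r n : ℕ) :
    (nsmulAddMonoidHom (α := Fin r → ℤ) n).range.index = n ^ r := by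
  have h : (nsmulAddMonoidHom (α := Fin r → ℤ) n).range =
      AddSubgroup.pi Set.univ (fun _ : Fin r => AddSubgroup.zmultiples (n : ℤ)) := by
    ext z
    rw [AddMonoidHom.mem_range, AddSubgroup.mem_pi]
    constructor
    · rintro ⟨y, rfl⟩ i _
      rw [Int.mem_zmultiples_iff]
      exact ⟨y i, by simp⟩
    · intro hz
      have hz' : ∀ i, ∃ k : ℤ, z i = (n : ℤ) * k := fun i => by
        have := hz i (Set.mem_univ i)
        rw [Int.mem_zmultiples_iff] at this
        exact this
      choose k hk using hz'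
      refine ⟨k, ?_⟩
      funext i
      simp [hk i]
  rw [h, AddSubgroup.index_pi]
  simp [Int.index_zmultiples]


variable (A : Type*) [AddCommGroup A] [Module.Finite ℤ A]

/-- A finitely generated abelian group is (torsion) × (free of rank `finrank`). -/
theorem h59_fg_equiv_torsion_prod :
    Nonempty (A ≃ₗ[ℤ] (Submodule.torsion ℤ A) × (Fin (Module.finrank ℤ A) → ℤ)) := by
  have hfree : Module.Free ℤ (A ⧸ Submodule.torsion ℤ A) :=
    Module.free_of_finite_type_torsion_free'
  obtain ⟨g, hg⟩ := Module.projective_lifting_property (Submodule.torsion ℤ A).mkQ LinearMap.id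
    (Submodule.mkQ_surjective _)
  have hg' : ∀ q, (Submodule.torsion ℤ A).mkQ (g q) = q := fun q => by
    have := congrArg (fun f : (A ⧸ Submodule.torsion ℤ A) →ₗ[ℤ] _ => f q) hg
    simpa using this
  let φ : ((Submodule.torsion ℤ A) × (A ⧸ Submodule.torsion ℤ A)) →ₗ[ℤ] A :=
    (Submodule.subtype _).coprod g
  have hφ : Function.Bijective φ := by
    constructor
    · rw [← LinearMap.ker_eq_bot, Submodule.eq_bot_iff]
      rintro ⟨t, q⟩ h
      have h1 : (t : A) + g q = 0 := by simpa [φ] using h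
      have h2 := congrArg (Submodule.torsion ℤ A).mkQ h1
      rw [map_add, hg', map_zero] at h2
      have h3 : (Submodule.torsion ℤ A).mkQ (t : A) = 0 := by
        simp
      rw [h3, zero_add] at h2
      subst h2
      rw [map_zero, add_zero] at h1
      exact Prod.ext (Subtype.ext h1) rfl
    · intro x
      have hx : x - g ((Submodule.torsion ℤ A).mkQ x) ∈ Submodule.torsion ℤ A := by
        rw [← Submodule.Quotient.mk_eq_zero, Submodule.Quotient.mk_sub]
        exact sub_eq_zero.2 (hg' ((Submodule.torsion ℤ A).mkQ x)).symm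
      refine ⟨(⟨_, hx⟩, (Submodule.torsion ℤ A).mkQ x), ?_⟩
      simp [φ]
  have h1 := Submodule.finrank_quotient_add_finrank (Submodule.torsion ℤ A)
  have h2 : Module.finrank ℤ (Submodule.torsion ℤ A) = 0 := by
    rw [Module.finrank_eq_zero_iff]
    intro x
    obtain ⟨a, ha⟩ := (Submodule.mem_torsion_iff (x : A)).1 x.2
    exact ⟨a, nonZeroDivisors.ne_zero a.2, Subtype.ext ha⟩
  have h3 : Module.finrank ℤ (A ⧸ Submodule.torsion ℤ A) = Module.finrank ℤ A := by omega
  let e₂ : (A ⧸ Submodule.torsion ℤ A) ≃ₗ[ℤ] (Fin (Module.finrank ℤ A) → ℤ) :=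
    (Module.finBasis ℤ (A ⧸ Submodule.torsion ℤ A)).equivFun.trans
      (LinearEquiv.funCongrLeft ℤ ℤ (finCongr h3.symm))
  exact ⟨(LinearEquiv.ofBijective φ hφ).symm.trans
    ((LinearEquiv.refl ℤ _).prodCongr e₂)⟩


/-- The torsion subgroup of a finitely generated abelian group is finite. -/
theorem h59_finite_torsion : Finite (Submodule.torsion ℤ A) :=
  Module.finite_of_fg_torsion _ (Submodule.torsion_isTorsion)


/-- For a finitely generated abelian group `A`: `[A : n A] = n ^ rank * #(torsion[n])`. -/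
theorem h59_index_nsmul_fg (n : ℕ) :
    (nsmulAddMonoidHom (α := A) n).range.index =
      n ^ Module.finrank ℤ A * Nat.card {x : Submodule.torsion ℤ A // n • x = 0} := by
  obtain ⟨e⟩ := h59_fg_equiv_torsion_prod A
  have hfin : Finite (Submodule.torsion ℤ A) := h59_finite_torsion A
  have h1 : ((nsmulAddMonoidHom (α := A) n).range.map (e.toAddEquiv : A →+ _)) =
      (nsmulAddMonoidHom (α := Submodule.torsion ℤ A) n).range.prod
        (nsmulAddMonoidHom (α := Fin (Module.finrank ℤ A) → ℤ) n).range := by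
    ext ⟨m, z⟩
    rw [AddSubgroup.mem_map, AddSubgroup.mem_prod]
    constructor
    · rintro ⟨a, ⟨b, rfl⟩, hb⟩
      have hb' : n • e b = (m, z) := by
        rw [← hb]
        simp
      exact ⟨⟨(e b).1, congrArg Prod.fst hb'⟩, ⟨(e b).2, congrArg Prod.snd hb'⟩⟩
    · rintro ⟨⟨m', hm'⟩, ⟨z', hz'⟩⟩
      refine ⟨n • e.symm (m', z'), ⟨e.symm (m', z'), rfl⟩, ?_⟩
      have hm'' : n • m' = m := hm'
      have hz'' : n • z' = z := hz'
      have : e (n • e.symm (m', z')) = n • (m', z') := by
        rw [map_nsmul, LinearEquiv.apply_symm_apply]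
      change e (n • e.symm (m', z')) = (m, z)
      rw [this, ← hm'', ← hz'']
      rfl
  rw [← AddSubgroup.index_map_equiv _ e.toAddEquiv, h1, AddSubgroup.index_prod,
    h59_index_nsmul_finite, h59_index_nsmul_pi, mul_comm]

end FGAbelian

section Ord

variable (F : Type*) [Field F] [NumberField F]

/-- The `v`-adic order of a unit of `F`, as a group homomorphism to `Multiplicative ℤ`
(the value of the valuation, viewed in the value group). -/
noncomputable def h59_ord (v : HeightOneSpectrum (𝓞 F)) : Fˣ →* Multiplicative ℤ :=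
  (WithZero.unitsWithZeroEquiv : (WithZero (Multiplicative ℤ))ˣ ≃* Multiplicative ℤ).toMonoidHom.comp
    (Units.map ((v.valuation F : Valuation F (WithZero (Multiplicative ℤ))) : F →* _))

theorem h59_ord_coe (v : HeightOneSpectrum (𝓞 F)) (x : Fˣ) :
    ((h59_ord F v x : Multiplicative ℤ) : WithZero (Multiplicative ℤ)) = v.valuation F (x : F) := by
  unfold h59_ord
  simp [WithZero.unitsWithZeroEquiv]

theorem h59_ord_eq_one_iff (v : HeightOneSpectrum (𝓞 F)) (x : Fˣ) :
    h59_ord F v x = 1 ↔ v.valuation F (x : F) = 1 := by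
  rw [← h59_ord_coe]
  constructor
  · intro h; rw [h]; rfl
  · intro h; exact_mod_cast h

theorem h59_val_unit (v : HeightOneSpectrum (𝓞 F)) (u : (𝓞 F)ˣ) :
    v.valuation F (algebraMap (𝓞 F) F (u : 𝓞 F)) = 1 := by
  have h1 := v.valuation_le_one (K := F) (u : 𝓞 F)
  have h2 := v.valuation_le_one (K := F) ((u⁻¹ : (𝓞 F)ˣ) : 𝓞 F)
  have h3 : v.valuation F (algebraMap (𝓞 F) F (u : 𝓞 F)) *
      v.valuation F (algebraMap (𝓞 F) F ((u⁻¹ : (𝓞 F)ˣ) : 𝓞 F)) = 1 := by
    rw [← map_mul, ← map_mul (algebraMap (𝓞 F) F)]; simp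
  refine le_antisymm h1 ?_
  by_contra hlt
  rw [not_le] at hlt
  have h4 : v.valuation F (algebraMap (𝓞 F) F (u : 𝓞 F)) *
      v.valuation F (algebraMap (𝓞 F) F ((u⁻¹ : (𝓞 F)ˣ) : 𝓞 F)) < 1 := by
    calc _ ≤ v.valuation F (algebraMap (𝓞 F) F (u : 𝓞 F)) * 1 := mul_le_mul_right h2 _
      _ < 1 := by simpa using hlt
  exact absurd h3 (ne_of_lt h4)

end Ord

section SUnit

variable (F : Type*) [Field F] [NumberField F]
variable (T : Finset (HeightOneSpectrum (𝓞 F)))

/-- The order map on `S`-units, as a `ℤ`-linear map `Additive U → (T → ℤ)`. -/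
noncomputable def h59_sunitOrd :
    Additive ↥((T : Set (HeightOneSpectrum (𝓞 F))).unit F) →ₗ[ℤ] (T → ℤ) :=
  (AddMonoidHom.pi fun v : T =>
    MonoidHom.toAdditiveLeft ((h59_ord F v.1).comp (Subgroup.subtype _))).toIntLinearMap

theorem h59_sunitOrd_apply (x : ↥((T : Set (HeightOneSpectrum (𝓞 F))).unit F)) (v : T) :
    h59_sunitOrd F T (Additive.ofMul x) v = Multiplicative.toAdd (h59_ord F v.1 (x : Fˣ)) := rfl

/-- The inclusion of the units of the ring of integers into the `S`-units. -/
noncomputable def h59_unitsToSUnit :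
    (𝓞 F)ˣ →* ↥((T : Set (HeightOneSpectrum (𝓞 F))).unit F) :=
  (Units.map (algebraMap (𝓞 F) F : 𝓞 F →* F)).codRestrict _ (fun u => by
    intro v _
    exact h59_val_unit F v u)

theorem h59_unitsToSUnit_coe (u : (𝓞 F)ˣ) :
    (((h59_unitsToSUnit F T u : ↥((T : Set (HeightOneSpectrum (𝓞 F))).unit F)) : Fˣ) : F) =
      algebraMap (𝓞 F) F (u : 𝓞 F) := rfl

theorem h59_unitsToSUnit_injective : Function.Injective (h59_unitsToSUnit F T) := by
  intro u u' h
  have h1 := congrArg (fun x : ↥((T : Set (HeightOneSpectrum (𝓞 F))).unit F) => ((x : Fˣ) : F)) h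
  simp only [h59_unitsToSUnit_coe] at h1
  exact Units.ext (FaithfulSMul.algebraMap_injective (𝓞 F) F h1)

/-- An `S`-unit all of whose orders at `T` vanish is a unit of the ring of integers. -/
theorem h59_sunitOrd_ker (x : ↥((T : Set (HeightOneSpectrum (𝓞 F))).unit F)) :
    h59_sunitOrd F T (Additive.ofMul x) = 0 ↔ x ∈ (h59_unitsToSUnit F T).range := by
  constructor
  · intro h
    have hval : ∀ v : HeightOneSpectrum (𝓞 F), v.valuation F ((x : Fˣ) : F) = 1 := by
      intro v
      by_cases hv : v ∈ T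
      · have := congrFun h ⟨v, hv⟩
        rw [h59_sunitOrd_apply] at this
        exact (h59_ord_eq_one_iff F v _).1 (by simpa using this)
      · exact Set.unit_valuation_eq_one _ F x (by simpa using hv)
    have hval' : ∀ v : HeightOneSpectrum (𝓞 F), v.valuation F (((x : Fˣ)⁻¹ : Fˣ) : F) = 1 := by
      intro v
      rw [Units.val_inv_eq_inv_val, map_inv₀, hval v, inv_one]
    obtain ⟨a, ha⟩ := HeightOneSpectrum.mem_integers_of_valuation_le_one F ((x : Fˣ) : F)
      (fun v => (hval v).le)
    obtain ⟨b, hb⟩ := HeightOneSpectrum.mem_integers_of_valuation_le_one F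
      (((x : Fˣ)⁻¹ : Fˣ) : F) (fun v => (hval' v).le)
    have hab : a * b = 1 := by
      apply FaithfulSMul.algebraMap_injective (𝓞 F) F
      rw [map_mul, map_one]
      rw [ha, hb]
      simp
    refine ⟨⟨a, b, hab, by rw [mul_comm]; exact hab⟩, ?_⟩
    apply Subtype.ext
    apply Units.ext
    rw [h59_unitsToSUnit_coe]
    exact ha
  · rintro ⟨u, rfl⟩
    funext v
    rw [h59_sunitOrd_apply]
    have : h59_ord F v.1 ((h59_unitsToSUnit F T u : _) : Fˣ) = 1 := by
      rw [h59_ord_eq_one_iff, h59_unitsToSUnit_coe]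
      exact h59_val_unit F v.1 u
    rw [this]; rfl

/-- For every `v ∈ T` there is an `S`-unit whose order is nonzero at `v` and zero at the
other places of `T` (a generator of `v ^ h`, `h` the class number). -/
theorem h59_exists_sunit_supported (v : HeightOneSpectrum (𝓞 F)) (hv : v ∈ T) :
    ∃ x : ↥((T : Set (HeightOneSpectrum (𝓞 F))).unit F),
      h59_sunitOrd F T (Additive.ofMul x) ⟨v, hv⟩ ≠ 0 ∧
      ∀ w : T, w ≠ ⟨v, hv⟩ → h59_sunitOrd F T (Additive.ofMul x) w = 0 := by
  classical
  set h := Fintype.card (ClassGroup (𝓞 F)) with hh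
  have hh0 : 0 < h := Fintype.card_pos
  have hmem : v.asIdeal ∈ nonZeroDivisors (Ideal (𝓞 F)) :=
    mem_nonZeroDivisors_iff_ne_zero.mpr v.ne_bot
  have hpr : (v.asIdeal ^ h).IsPrincipal := by
    have h1 : ClassGroup.mk0 ((⟨v.asIdeal, hmem⟩ : nonZeroDivisors (Ideal (𝓞 F))) ^ h) = 1 := by
      rw [map_pow, hh]; exact pow_card_eq_one
    have h2 : ((⟨v.asIdeal, hmem⟩ : nonZeroDivisors (Ideal (𝓞 F))) ^ h) =
        ⟨v.asIdeal ^ h, pow_mem hmem h⟩ := by
      ext; simp
    rw [h2] at h1
    exact (ClassGroup.mk0_eq_one_iff _).1 h1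
  obtain ⟨a, ha⟩ := hpr.principal
  have ha' : v.asIdeal ^ h = Ideal.span {a} := ha
  have hav : a ∈ v.asIdeal := by
    have h1 : a ∈ v.asIdeal ^ h := by rw [ha']; exact Ideal.mem_span_singleton_self a
    exact Ideal.pow_le_self hh0.ne' h1
  have ha0 : a ≠ 0 := by
    rintro rfl
    have : v.asIdeal ^ h = ⊥ := by rw [ha']; simp
    exact v.ne_bot (pow_eq_zero_iff hh0.ne' |>.1 this)
  have haw : ∀ w : HeightOneSpectrum (𝓞 F), w ≠ v → a ∉ w.asIdeal := by
    intro w hw haw
    have h1 : v.asIdeal ^ h ≤ w.asIdeal := by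
      rw [ha']; exact (Ideal.span_singleton_le_iff_mem _).2 haw
    have h2 : v.asIdeal ≤ w.asIdeal := w.isPrime.le_of_pow_le h1
    have h3 : v.asIdeal = w.asIdeal := v.isMaximal.eq_of_le w.isPrime.ne_top h2
    exact hw (HeightOneSpectrum.ext h3.symm)
  have hx0 : algebraMap (𝓞 F) F a ≠ 0 := by
    simpa using ha0
  have hvalw : ∀ w : HeightOneSpectrum (𝓞 F), w ≠ v →
      w.valuation F (algebraMap (𝓞 F) F a) = 1 := by
    intro w hw
    exact le_antisymm (w.valuation_le_one (K := F) a)
      (not_lt.1 ((w.valuation_lt_one_iff_mem (K := F) a).not.2 (haw w hw)))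
  have hx : Units.mk0 (algebraMap (𝓞 F) F a) hx0 ∈ (T : Set (HeightOneSpectrum (𝓞 F))).unit F := by
    intro w hwT
    have hne : w ≠ v := fun e => hwT (by rw [e]; exact hv)
    exact hvalw w hne
  refine ⟨⟨Units.mk0 (algebraMap (𝓞 F) F a) hx0, hx⟩, ?_, ?_⟩
  · rw [h59_sunitOrd_apply]
    intro h0
    have h1 : h59_ord F v (Units.mk0 (algebraMap (𝓞 F) F a) hx0) = 1 := by
      simpa using h0
    rw [h59_ord_eq_one_iff] at h1
    exact absurd h1 (ne_of_lt ((v.valuation_lt_one_iff_mem (K := F) a).2 hav))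
  · intro w hw
    rw [h59_sunitOrd_apply]
    have hne : (w : HeightOneSpectrum (𝓞 F)) ≠ v := fun e => hw (Subtype.ext e)
    have h1 : h59_ord F w.1 (Units.mk0 (algebraMap (𝓞 F) F a) hx0) = 1 := by
      rw [h59_ord_eq_one_iff]
      exact hvalw w.1 hne
    simp only [h1]
    rfl

/-- The inclusion of units into `S`-units, as a `ℤ`-linear map in additive notation. -/
noncomputable def h59_unitsToSUnitLin :
    Additive (𝓞 F)ˣ →ₗ[ℤ] Additive ↥((T : Set (HeightOneSpectrum (𝓞 F))).unit F) :=
  (MonoidHom.toAdditive (h59_unitsToSUnit F T)).toIntLinearMap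

theorem h59_unitsToSUnitLin_apply (u : (𝓞 F)ˣ) :
    h59_unitsToSUnitLin F T (Additive.ofMul u) = Additive.ofMul (h59_unitsToSUnit F T u) := rfl

theorem h59_unitsToSUnitLin_injective : Function.Injective (h59_unitsToSUnitLin F T) := by
  intro a b h
  exact Additive.toMul.injective (h59_unitsToSUnit_injective F T (Additive.ofMul.injective h))

theorem h59_ker_sunitOrd :
    LinearMap.ker (h59_sunitOrd F T) = LinearMap.range (h59_unitsToSUnitLin F T) := by
  ext x
  obtain ⟨y, rfl⟩ := Additive.ofMul.surjective x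
  rw [LinearMap.mem_ker, h59_sunitOrd_ker, LinearMap.mem_range]
  constructor
  · rintro ⟨u, hu⟩
    exact ⟨Additive.ofMul u, by rw [h59_unitsToSUnitLin_apply, hu]⟩
  · rintro ⟨u, hu⟩
    refine ⟨Additive.toMul u, ?_⟩
    exact Additive.ofMul.injective hu

/-- **Dirichlet's `S`-unit theorem, finite generation**. -/
instance h59_sunit_finite :
    Module.Finite ℤ (Additive ↥((T : Set (HeightOneSpectrum (𝓞 F))).unit F)) := by
  constructor
  apply Submodule.fg_of_fg_map_of_fg_inf_ker (h59_sunitOrd F T)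
  · exact IsNoetherian.noetherian _
  · rw [top_inf_eq, h59_ker_sunitOrd, LinearMap.range_eq_map]
    exact Submodule.FG.map _ Module.Finite.fg_top

/-- **Dirichlet's `S`-unit theorem, finite generation** (group form). -/
theorem h59_sunit_fg : Group.FG ↥((T : Set (HeightOneSpectrum (𝓞 F))).unit F) :=
  GroupFG.iff_add_fg.2 (Module.Finite.iff_addGroup_fg.1 (h59_sunit_finite F T))

theorem h59_finrank_range_sunitOrd :
    Module.finrank ℤ (LinearMap.range (h59_sunitOrd F T)) = T.card := by
  classical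
  apply le_antisymm
  · have h1 := Submodule.finrank_le (LinearMap.range (h59_sunitOrd F T))
    rw [Module.finrank_fintype_fun_eq_card, Fintype.card_coe] at h1
    exact h1
  · choose x hx1 hx2 using fun v : T => h59_exists_sunit_supported F T v.1 v.2
    let b : T → LinearMap.range (h59_sunitOrd F T) :=
      fun v => ⟨h59_sunitOrd F T (Additive.ofMul (x v)), LinearMap.mem_range_self _ _⟩
    have hb : LinearIndependent ℤ b := by
      rw [Fintype.linearIndependent_iff]
      intro g hg w
      have h1 := congrArg (fun y : LinearMap.range (h59_sunitOrd F T) => (y : T → ℤ) w) hg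
      simp only [Submodule.coe_sum, Submodule.coe_smul, Finset.sum_apply, Pi.smul_apply,
        Submodule.coe_zero, Pi.zero_apply, b] at h1
      rw [Finset.sum_eq_single w] at h1
      · have h1' : g w = 0 ∨ (h59_sunitOrd F T) (Additive.ofMul (x w)) w = 0 := by
          simpa using h1
        rcases h1' with h2 | h2
        · exact h2
        · exact absurd h2 (hx1 w)
      · intro v _ hvw
        rw [hx2 v w (fun e => hvw e.symm)]
        simp
      · intro hw
        exact absurd (Finset.mem_univ w) hw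
    have h2 := hb.fintype_card_le_finrank
    rw [Fintype.card_coe] at h2
    exact h2

/-- **Dirichlet's `S`-unit theorem, rank**: the `S`-units have rank `r₁ + r₂ - 1 + #T`. -/
theorem h59_sunit_finrank :
    Module.finrank ℤ (Additive ↥((T : Set (HeightOneSpectrum (𝓞 F))).unit F)) =
      NumberField.Units.rank F + T.card := by
  have h1 := Submodule.finrank_quotient_add_finrank (LinearMap.ker (h59_sunitOrd F T))
  have h2 : Module.finrank ℤ (_ ⧸ LinearMap.ker (h59_sunitOrd F T)) = T.card := by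
    rw [(h59_sunitOrd F T).quotKerEquivRange.finrank_eq]
    exact h59_finrank_range_sunitOrd F T
  have h3 : Module.finrank ℤ (LinearMap.ker (h59_sunitOrd F T)) = NumberField.Units.rank F := by
    rw [h59_ker_sunitOrd,
      ← (LinearEquiv.ofInjective _ (h59_unitsToSUnitLin_injective F T)).finrank_eq]
    exact NumberField.Units.finrank_eq F
  rw [h2, h3] at h1
  omega

/-- The torsion of the `S`-units is the group of roots of unity of `F`. -/
theorem h59_mem_torsion_sunit
    (x : Additive ↥((T : Set (HeightOneSpectrum (𝓞 F))).unit F)) :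
    x ∈ Submodule.torsion ℤ (Additive ↥((T : Set (HeightOneSpectrum (𝓞 F))).unit F)) ↔
      ∃ ζ : NumberField.Units.torsion F,
        h59_unitsToSUnitLin F T (Additive.ofMul (ζ : (𝓞 F)ˣ)) = x := by
  constructor
  · intro hx
    obtain ⟨a, ha⟩ := (Submodule.mem_torsion_iff x).1 hx
    have ha0 : (a : ℤ) ≠ 0 := nonZeroDivisors.ne_zero a.2
    have ha' : (a : ℤ) • x = 0 := ha
    have h1 : (a : ℤ) • h59_sunitOrd F T x = 0 := by
      rw [← map_smul, ha', map_zero]
    have h2 : h59_sunitOrd F T x = 0 := by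
      rcases smul_eq_zero.1 h1 with h | h
      · exact absurd h ha0
      · exact h
    have h3 : x ∈ LinearMap.range (h59_unitsToSUnitLin F T) := by
      rw [← h59_ker_sunitOrd]; exact h2
    obtain ⟨u, rfl⟩ := h3
    have h4 : (a : ℤ) • u = 0 := by
      apply h59_unitsToSUnitLin_injective F T
      rw [map_smul, ha', map_zero]
    have h5 : Additive.toMul u ∈ NumberField.Units.torsion F := by
      rw [NumberField.Units.torsion, CommGroup.mem_torsion, isOfFinOrder_iff_zpow_eq_one]
      refine ⟨a, ha0, ?_⟩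
      have := congrArg Additive.toMul h4
      simpa using this
    exact ⟨⟨Additive.toMul u, h5⟩, rfl⟩
  · rintro ⟨ζ, rfl⟩
    have h1 : IsOfFinOrder (ζ : (𝓞 F)ˣ) := (CommGroup.mem_torsion _).1 ζ.2
    obtain ⟨n, hn, hζ⟩ := isOfFinOrder_iff_pow_eq_one.1 h1
    rw [Submodule.mem_torsion_iff]
    refine ⟨⟨(n : ℤ), mem_nonZeroDivisors_of_ne_zero (by exact_mod_cast hn.ne')⟩, ?_⟩
    change (n : ℤ) • h59_unitsToSUnitLin F T (Additive.ofMul (ζ : (𝓞 F)ˣ)) = 0
    rw [← map_smul]
    have : (n : ℤ) • Additive.ofMul (ζ : (𝓞 F)ˣ) = 0 := by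
      rw [natCast_zsmul, ← ofMul_pow, hζ]; rfl
    rw [this, map_zero]

/-- The torsion of the `S`-units, identified with the roots of unity of `F`. -/
noncomputable def h59_torsionEquiv :
    Additive (NumberField.Units.torsion F) ≃+
      Submodule.torsion ℤ (Additive ↥((T : Set (HeightOneSpectrum (𝓞 F))).unit F)) :=
  AddEquiv.ofBijective
    (AddMonoidHom.mk' (fun ζ => ⟨h59_unitsToSUnitLin F T (Additive.ofMul
        ((Additive.toMul ζ : NumberField.Units.torsion F) : (𝓞 F)ˣ)),
        (h59_mem_torsion_sunit F T _).2 ⟨Additive.toMul ζ, rfl⟩⟩)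
      (fun a b => by
        apply Subtype.ext
        change h59_unitsToSUnitLin F T (Additive.ofMul
          ((Additive.toMul (a + b) : NumberField.Units.torsion F) : (𝓞 F)ˣ)) =
          h59_unitsToSUnitLin F T (Additive.ofMul
            ((Additive.toMul a : NumberField.Units.torsion F) : (𝓞 F)ˣ)) +
          h59_unitsToSUnitLin F T (Additive.ofMul
            ((Additive.toMul b : NumberField.Units.torsion F) : (𝓞 F)ˣ))
        rw [← map_add]
        rfl))
    (by
      constructor
      · intro a b h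
        have h1 := congrArg Subtype.val h
        have h2 := h59_unitsToSUnitLin_injective F T h1
        have h3 : ((Additive.toMul a : NumberField.Units.torsion F) : (𝓞 F)ˣ) =
            ((Additive.toMul b : NumberField.Units.torsion F) : (𝓞 F)ˣ) :=
          Additive.ofMul.injective h2
        exact Additive.toMul.injective (Subtype.ext h3)
      · intro x
        obtain ⟨ζ, hζ⟩ := (h59_mem_torsion_sunit F T x.1).1 x.2
        exact ⟨Additive.ofMul ζ, Subtype.ext hζ⟩)

theorem h59_torsionEquiv_apply (ζ : NumberField.Units.torsion F) :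
    ((h59_torsionEquiv F T (Additive.ofMul ζ) :
      Submodule.torsion ℤ (Additive ↥((T : Set (HeightOneSpectrum (𝓞 F))).unit F))) :
      Additive ↥((T : Set (HeightOneSpectrum (𝓞 F))).unit F)) =
      Additive.ofMul (h59_unitsToSUnit F T (ζ : (𝓞 F)ˣ)) := rfl

/-- **Dirichlet's `S`-unit theorem, structure**: `U_T ≅ μ(F) × ℤ ^ (r₁ + r₂ - 1 + #T)`. -/
theorem h59_sunit_equiv :
    Nonempty (Additive ↥((T : Set (HeightOneSpectrum (𝓞 F))).unit F) ≃+
      Additive (NumberField.Units.torsion F) ×
        (Fin (NumberField.Units.rank F + T.card) → ℤ)) := by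
  obtain ⟨e⟩ := h59_fg_equiv_torsion_prod
    (Additive ↥((T : Set (HeightOneSpectrum (𝓞 F))).unit F))
  have hr := h59_sunit_finrank F T
  exact ⟨e.toAddEquiv.trans ((h59_torsionEquiv F T).symm.prodCongr
    (LinearEquiv.funCongrLeft ℤ ℤ (finCongr hr.symm)).toAddEquiv)⟩

/-- **Index of the `n`-th powers in the `S`-units**:
`[U_T : U_T ^ n] = n ^ (r₁ + r₂ - 1 + #T) * #μ_n(F)`. -/
theorem h59_sunit_index_pow (n : ℕ) :
    (powMonoidHom n : ↥((T : Set (HeightOneSpectrum (𝓞 F))).unit F) →* _).range.index =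
      n ^ (NumberField.Units.rank F + T.card) *
        Nat.card {ζ : NumberField.Units.torsion F // ζ ^ n = 1} := by
  have h1 := h59_index_nsmul_fg (Additive ↥((T : Set (HeightOneSpectrum (𝓞 F))).unit F)) n
  rw [h59_sunit_finrank] at h1
  have h2 : (nsmulAddMonoidHom
      (α := Additive ↥((T : Set (HeightOneSpectrum (𝓞 F))).unit F)) n).range =
      Subgroup.toAddSubgroup
        (powMonoidHom n : ↥((T : Set (HeightOneSpectrum (𝓞 F))).unit F) →* _).range := by
    ext x
    constructor
    · rintro ⟨y, rfl⟩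
      exact ⟨Additive.toMul y, rfl⟩
    · rintro ⟨y, hy⟩
      exact ⟨Additive.ofMul y, hy⟩
  rw [h2, Subgroup.index_toAddSubgroup] at h1
  rw [h1]
  congr 1
  refine (Nat.card_congr (Equiv.subtypeEquiv
    (Additive.ofMul.trans (h59_torsionEquiv F T).toEquiv) ?_)).symm
  intro ζ
  change ζ ^ n = 1 ↔ n • h59_torsionEquiv F T (Additive.ofMul ζ) = 0
  rw [← map_nsmul, ← ofMul_pow]
  constructor
  · intro h
    rw [h]
    exact map_zero _
  · intro h
    have h3 : Additive.ofMul (ζ ^ n) = 0 :=
      (h59_torsionEquiv F T).injective (by rw [h, map_zero])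
    exact Additive.ofMul.injective h3

/-- Quotient form: `#(U_T / U_T ^ n) = n ^ (r₁ + r₂ - 1 + #T) * #μ_n(F)`. -/
theorem h59_sunit_card_quot_pow (n : ℕ) :
    Nat.card (↥((T : Set (HeightOneSpectrum (𝓞 F))).unit F) ⧸
      (powMonoidHom n : ↥((T : Set (HeightOneSpectrum (𝓞 F))).unit F) →* _).range) =
      n ^ (NumberField.Units.rank F + T.card) *
        Nat.card {ζ : NumberField.Units.torsion F // ζ ^ n = 1} :=
  h59_sunit_index_pow F T n

/-- If `F` contains a primitive `p`-th root of unity (`p` prime), it has exactly `p` roots of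
unity of order dividing `p`. -/
theorem h59_card_torsion_pow_eq_one (p : ℕ) (hp : p.Prime) (ζ₀ : F)
    (hζ₀ : IsPrimitiveRoot ζ₀ p) :
    Nat.card {ζ : NumberField.Units.torsion F // ζ ^ p = 1} = p := by
  classical
  have : NeZero p := ⟨hp.ne_zero⟩
  have hν₀ : IsPrimitiveRoot hζ₀.toInteger p := hζ₀.toInteger_isPrimitiveRoot
  obtain ⟨ν, hν⟩ := hν₀.isUnit hp.ne_zero
  have hν1 : IsPrimitiveRoot ν p := IsPrimitiveRoot.coe_units_iff.1 (by rw [hν]; exact hν₀)
  have hνt : ν ∈ NumberField.Units.torsion F := by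
    rw [NumberField.Units.torsion, CommGroup.mem_torsion]
    exact isOfFinOrder_iff_pow_eq_one.2 ⟨p, hp.pos, hν1.pow_eq_one⟩
  have hν' : IsPrimitiveRoot (⟨ν, hνt⟩ : NumberField.Units.torsion F) p :=
    IsPrimitiveRoot.coe_submonoidClass_iff.1 hν1
  have hH : Nat.card {ζ : NumberField.Units.torsion F // ζ ^ p = 1} =
      Nat.card (powMonoidHom p : NumberField.Units.torsion F →* _).ker :=
    Nat.card_congr (Equiv.subtypeEquivRight (fun x => by rw [MonoidHom.mem_ker]; rfl))
  have h1 : p ∣ Nat.card (powMonoidHom p : NumberField.Units.torsion F →* _).ker := by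
    have hmem : (⟨ν, hνt⟩ : NumberField.Units.torsion F) ∈
        (powMonoidHom p : NumberField.Units.torsion F →* _).ker := by
      rw [MonoidHom.mem_ker]; exact hν'.pow_eq_one
    have h := orderOf_dvd_natCard
      (⟨_, hmem⟩ : (powMonoidHom p : NumberField.Units.torsion F →* _).ker)
    rwa [Subgroup.orderOf_mk, ← hν'.eq_orderOf] at h
  have h2 : Nat.card {ζ : NumberField.Units.torsion F // ζ ^ p = 1} ≤ p := by
    have : Fintype (NumberField.Units.torsion F) := Fintype.ofFinite _
    rw [Nat.card_eq_fintype_card, Fintype.card_subtype]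
    exact IsCyclic.card_pow_eq_one_le hp.pos
  refine le_antisymm h2 ?_
  rw [hH]
  exact Nat.le_of_dvd Nat.card_pos h1

/-- **Index of `p`-th powers in the `S`-units when `μ_p ⊆ F`**:
`[U_T : U_T ^ p] = p ^ (r₁ + r₂ - 1 + #T + 1)`. -/
theorem h59_sunit_index_pow_prime (p : ℕ) (hp : p.Prime) (ζ₀ : F)
    (hζ₀ : IsPrimitiveRoot ζ₀ p) :
    (powMonoidHom p : ↥((T : Set (HeightOneSpectrum (𝓞 F))).unit F) →* _).range.index =
      p ^ (NumberField.Units.rank F + T.card + 1) := by
  rw [h59_sunit_index_pow, h59_card_torsion_pow_eq_one F p hp ζ₀ hζ₀, pow_succ]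

end SUnit

end Fermat.Agent.S55
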