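import Mathlib
import Fermat.Agent.S55.h59_SUnits

/-!
# S55 / GLOB-SELCOUNT: the count `|Δ| = |E/Eᵖ| · |Cl[p]|`

Abstract form: `d : A →* D` a homomorphism of commutative groups, `D` without `p`-torsion,
`E = ker d`, `V = d⁻¹(Dᵖ)`.  Then `Aᵖ ≤ V` and

  `[V : Aᵖ] = [E : Eᵖ] · #((D ⧸ d(A))[p])`.

Number field form: `A = Fˣ`, `ker d` = the `T`-units, `p` prime, `ζ_p ∈ F`:

  `[V : Fˣᵖ] = p ^ (rank 𝓞_Fˣ + #T + 1) · #((D ⧸ d(Fˣ))[p])`.
-/

set_option autoImplicit false

open IsDedekindDomain NumberField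

namespace Fermat.Agent.S55

section Abstract

variable {A D : Type*} [CommGroup A] [CommGroup D]

/-- `V = d⁻¹(Dᵖ)`: the elements whose image is a `p`-th power. -/
def h59_selV (d : A →* D) (p : ℕ) : Subgroup A :=
  (powMonoidHom p : D →* D).range.comap d

theorem h59_mem_selV {d : A →* D} {p : ℕ} {a : A} :
    a ∈ h59_selV d p ↔ ∃ r : D, r ^ p = d a := by
  simp [h59_selV, MonoidHom.mem_range]

theorem h59_pow_le_selV (d : A →* D) (p : ℕ) :
    (powMonoidHom p : A →* A).range ≤ h59_selV d p := by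
  rintro _ ⟨b, rfl⟩
  exact h59_mem_selV.mpr ⟨d b, by simp⟩

theorem h59_ker_le_selV (d : A →* D) (p : ℕ) : d.ker ≤ h59_selV d p := by
  intro a ha
  exact h59_mem_selV.mpr ⟨1, by simp [MonoidHom.mem_ker.mp ha]⟩

/-- Without `p`-torsion, `p`-th roots are unique. -/
theorem h59_pow_inj_of_torsionFree {p : ℕ} (htf : ∀ x : D, x ^ p = 1 → x = 1) {x y : D}
    (h : x ^ p = y ^ p) : x = y := by
  have : (x / y) ^ p = 1 := by rw [div_pow, h, div_self']
  exact div_eq_one.mp (htf _ this)

/-- The `p`-th root of `d a` for `a ∈ V`. -/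
noncomputable def h59_selRoot (d : A →* D) (p : ℕ) (a : h59_selV d p) : D :=
  Classical.choose (h59_mem_selV.mp a.2)

theorem h59_selRoot_pow (d : A →* D) (p : ℕ) (a : h59_selV d p) :
    h59_selRoot d p a ^ p = d a :=
  Classical.choose_spec (h59_mem_selV.mp a.2)

/-- The map `V → D ⧸ d(A)`, `a ↦ [ (d a)^{1/p} ]`. -/
noncomputable def h59_selHom (d : A →* D) (p : ℕ) (htf : ∀ x : D, x ^ p = 1 → x = 1) :
    h59_selV d p →* D ⧸ d.range where
  toFun a := QuotientGroup.mk (h59_selRoot d p a)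
  map_one' := by
    have : h59_selRoot d p 1 = 1 := by
      apply h59_pow_inj_of_torsionFree htf
      rw [h59_selRoot_pow]; simp
    rw [this]; rfl
  map_mul' a b := by
    have : h59_selRoot d p (a * b) = h59_selRoot d p a * h59_selRoot d p b := by
      apply h59_pow_inj_of_torsionFree htf
      rw [h59_selRoot_pow, mul_pow, h59_selRoot_pow, h59_selRoot_pow]; simp
    rw [this]; rfl

theorem h59_selHom_apply (d : A →* D) (p : ℕ) (htf : ∀ x : D, x ^ p = 1 → x = 1)
    (a : h59_selV d p) :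
    h59_selHom d p htf a = QuotientGroup.mk (h59_selRoot d p a) := rfl

/-- `h59_selHom a = [r]` whenever `r ^ p = d a`. -/
theorem h59_selHom_eq_of_pow (d : A →* D) (p : ℕ) (htf : ∀ x : D, x ^ p = 1 → x = 1)
    (a : h59_selV d p) (r : D) (hr : r ^ p = d a) :
    h59_selHom d p htf a = QuotientGroup.mk r := by
  rw [h59_selHom_apply]
  congr 1
  apply h59_pow_inj_of_torsionFree htf
  rw [h59_selRoot_pow, hr]

/-- The kernel of `h59_selHom` is `E · Aᵖ`. -/
theorem h59_selHom_ker (d : A →* D) (p : ℕ) (htf : ∀ x : D, x ^ p = 1 → x = 1) :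
    (h59_selHom d p htf).ker =
      (d.ker ⊔ (powMonoidHom p : A →* A).range).subgroupOf (h59_selV d p) := by
  ext a
  rw [MonoidHom.mem_ker, Subgroup.mem_subgroupOf, h59_selHom_apply, QuotientGroup.eq_one_iff]
  constructor
  · rintro ⟨b, hb⟩
    have h1 : d ((a : A) / b ^ p) = 1 := by
      rw [map_div, map_pow, hb, h59_selRoot_pow, div_self']
    have h2 : (a : A) = ((a : A) / b ^ p) * b ^ p := by rw [div_mul_cancel]
    rw [h2]
    exact Subgroup.mul_mem_sup (MonoidHom.mem_ker.mpr h1) ⟨b, rfl⟩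
  · intro ha
    obtain ⟨e, he, _, ⟨b, rfl⟩, hab⟩ := Subgroup.mem_sup.mp ha
    refine ⟨b, ?_⟩
    apply h59_pow_inj_of_torsionFree htf
    rw [h59_selRoot_pow, ← hab, map_mul, MonoidHom.mem_ker.mp he, one_mul]
    simp

/-- The range of `h59_selHom` is the `p`-torsion of `D ⧸ d(A)`. -/
theorem h59_selHom_range (d : A →* D) (p : ℕ) (htf : ∀ x : D, x ^ p = 1 → x = 1)
    (c : D ⧸ d.range) : c ∈ (h59_selHom d p htf).range ↔ c ^ p = 1 := by
  constructor
  · rintro ⟨a, rfl⟩
    rw [h59_selHom_apply, ← QuotientGroup.mk_pow, h59_selRoot_pow, QuotientGroup.eq_one_iff]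
    exact ⟨a, rfl⟩
  · intro hc
    obtain ⟨r, rfl⟩ := QuotientGroup.mk_surjective c
    rw [← QuotientGroup.mk_pow, QuotientGroup.eq_one_iff] at hc
    obtain ⟨a, ha⟩ := hc
    exact ⟨⟨a, h59_mem_selV.mpr ⟨r, ha.symm⟩⟩, h59_selHom_eq_of_pow d p htf _ r ha.symm⟩

/-- `Aᵖ ∩ E = Eᵖ` when `D` has no `p`-torsion. -/
theorem h59_pow_subgroupOf_ker (d : A →* D) (p : ℕ) (htf : ∀ x : D, x ^ p = 1 → x = 1) :
    (powMonoidHom p : A →* A).range.subgroupOf d.ker =
      (powMonoidHom p : d.ker →* d.ker).range := by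
  ext e
  rw [Subgroup.mem_subgroupOf]
  constructor
  · rintro ⟨b, hb⟩
    have hb' : b ^ p = (e : A) := hb
    have : b ∈ d.ker := by
      rw [MonoidHom.mem_ker]
      apply htf
      rw [← map_pow, hb']
      exact MonoidHom.mem_ker.mp e.2
    exact ⟨⟨b, this⟩, Subtype.ext hb'⟩
  · rintro ⟨b, rfl⟩
    exact ⟨(b : A), rfl⟩

/-- The abstract count, index form: `[V : Aᵖ] = [E : Eᵖ] · #(D ⧸ d(A))[p]`. -/
theorem h59_selmer_relIndex (d : A →* D) (p : ℕ) (htf : ∀ x : D, x ^ p = 1 → x = 1) :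
    (powMonoidHom p : A →* A).range.relIndex (h59_selV d p) =
      (powMonoidHom p : d.ker →* d.ker).range.index *
        Nat.card {c : D ⧸ d.range // c ^ p = 1} := by
  set P : Subgroup A := (powMonoidHom p : A →* A).range with hP
  have h1 : P ≤ d.ker ⊔ P := le_sup_right
  have h2 : d.ker ⊔ P ≤ h59_selV d p :=
    sup_le (h59_ker_le_selV d p) (h59_pow_le_selV d p)
  rw [← Subgroup.relIndex_mul_relIndex P (d.ker ⊔ P) (h59_selV d p) h1 h2]
  congr 1
  · rw [Subgroup.relIndex_sup_right, Subgroup.relIndex, h59_pow_subgroupOf_ker d p htf]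
  · rw [Subgroup.relIndex, ← h59_selHom_ker d p htf, Subgroup.index_ker]
    exact Nat.card_congr (Equiv.subtypeEquivRight (h59_selHom_range d p htf))

/-- The abstract count, cardinality form. -/
theorem h59_selmer_card (d : A →* D) (p : ℕ) (htf : ∀ x : D, x ^ p = 1 → x = 1) :
    Nat.card (↥(h59_selV d p) ⧸ (powMonoidHom p : A →* A).range.subgroupOf (h59_selV d p)) =
      Nat.card (d.ker ⧸ (powMonoidHom p : d.ker →* d.ker).range) *
        Nat.card {c : D ⧸ d.range // c ^ p = 1} :=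
  h59_selmer_relIndex d p htf

/-- In a finite commutative group, `#G[p] = [G : Gᵖ]`. -/
theorem h59_card_torsion_eq_index_pow (G : Type*) [CommGroup G] [Finite G] (p : ℕ) :
    Nat.card {c : G // c ^ p = 1} = (powMonoidHom p : G →* G).range.index := by
  have h1 : Nat.card {c : G // c ^ p = 1} = Nat.card (powMonoidHom p : G →* G).ker :=
    Nat.card_congr (Equiv.subtypeEquivRight (fun c => by
      rw [MonoidHom.mem_ker]; rfl))
  have h2 := Subgroup.card_mul_index (powMonoidHom p : G →* G).ker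
  have h3 := Subgroup.card_mul_index (powMonoidHom p : G →* G).range
  rw [Subgroup.index_ker] at h2
  have h4 : 0 < Nat.card (powMonoidHom p : G →* G).range := Nat.card_pos
  rw [h1]
  have h5 : Nat.card (powMonoidHom p : G →* G).range * Nat.card (powMonoidHom p : G →* G).ker =
      Nat.card (powMonoidHom p : G →* G).range * (powMonoidHom p : G →* G).range.index := by
    rw [h3, mul_comm, h2]
  exact Nat.eq_of_mul_eq_mul_left h4 h5

/-- Transport of the index of `p`-th powers along an equality of subgroups. -/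
theorem h59_index_pow_congr {H H' : Subgroup A} (h : H = H') (p : ℕ) :
    (powMonoidHom p : H →* H).range.index = (powMonoidHom p : H' →* H').range.index := by
  subst h; rfl

end Abstract

section ClassGroup

open scoped nonZeroDivisors

/-- Finiteness of the cokernel of a "divisor map": if `d : Kˣ →* D` factors as
`Kˣ → (fractional ideals)ˣ → D` through a surjection `ι`, then `D ⧸ d(Kˣ)` is a quotient of the
class group, hence finite. -/
theorem h59_finite_quot_of_ideal_surj {R K : Type*} [CommRing R] [IsDomain R] [Field K]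
    [Algebra R K] [IsFractionRing R K] [Finite (ClassGroup R)] {D : Type*} [CommGroup D]
    (d : Kˣ →* D) (ι : (FractionalIdeal R⁰ K)ˣ →* D) (hι : Function.Surjective ι)
    (hd : ∀ x : Kˣ, ι (toPrincipalIdeal R K x) = d x) : Finite (D ⧸ d.range) := by
  have hfin : Finite ((FractionalIdeal R⁰ K)ˣ ⧸ (toPrincipalIdeal R K).range) :=
    Finite.of_equiv _ (ClassGroup.equiv (R := R) K).toEquiv
  have hle : (toPrincipalIdeal R K).range ≤ d.range.comap ι := by
    rintro _ ⟨x, rfl⟩
    exact ⟨x, (hd x).symm⟩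
  refine Finite.of_surjective (QuotientGroup.map _ d.range ι hle) ?_
  intro c
  obtain ⟨y, rfl⟩ := QuotientGroup.mk_surjective c
  obtain ⟨I, rfl⟩ := hι y
  exact ⟨QuotientGroup.mk I, rfl⟩

end ClassGroup

section NumberField

variable (F : Type*) [Field F] [NumberField F]
  (T : Finset (HeightOneSpectrum (𝓞 F)))

/-- Number field form of the count: if `d : Fˣ →* D` has kernel the `T`-units, `D` has no
`p`-torsion and `F` contains a primitive `p`-th root of unity, then
`[V : Fˣᵖ] = p ^ (rank + #T + 1) · #(D ⧸ d(Fˣ))[p]`. -/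
theorem h59_selmer_relIndex_numberField {D : Type*} [CommGroup D] (d : Fˣ →* D)
    (hker : d.ker = (T : Set (HeightOneSpectrum (𝓞 F))).unit F)
    {p : ℕ} (hp : p.Prime) (htf : ∀ x : D, x ^ p = 1 → x = 1)
    {ζ : F} (hζ : IsPrimitiveRoot ζ p) :
    (powMonoidHom p : Fˣ →* Fˣ).range.relIndex (h59_selV d p) =
      p ^ (Units.rank F + T.card + 1) * Nat.card {c : D ⧸ d.range // c ^ p = 1} := by
  rw [h59_selmer_relIndex d p htf, h59_index_pow_congr hker p,
    h59_sunit_index_pow_prime F T p hp ζ hζ]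

/-- Number field form with the class-group quotient finite (so that `#Cl[p] = [Cl : Clᵖ]`):
`[V : Fˣᵖ] = p ^ (rank + #T + 1) · [D ⧸ d(Fˣ) : (D ⧸ d(Fˣ))ᵖ]`. -/
theorem h59_selmer_relIndex_numberField' {D : Type*} [CommGroup D] (d : Fˣ →* D)
    (hker : d.ker = (T : Set (HeightOneSpectrum (𝓞 F))).unit F)
    [Finite (D ⧸ d.range)]
    {p : ℕ} (hp : p.Prime) (htf : ∀ x : D, x ^ p = 1 → x = 1)
    {ζ : F} (hζ : IsPrimitiveRoot ζ p) :
    (powMonoidHom p : Fˣ →* Fˣ).range.relIndex (h59_selV d p) =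
      p ^ (Units.rank F + T.card + 1) *
        (powMonoidHom p : D ⧸ d.range →* D ⧸ d.range).range.index := by
  rw [h59_selmer_relIndex_numberField F T d hker hp htf hζ, h59_card_torsion_eq_index_pow]

end NumberField

end Fermat.Agent.S55
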