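import Mathlib
import Fermat.Agent.S55.h59_SelmerCount
import Fermat.Agent.S55.h46_SelmerFinite

/-!
# S55 / GLOB-EX-NF: the divisor map away from a set of primes

For a Dedekind domain `R` with fraction field `K` and a predicate `P` on the primes of `R`:

* `h59_divP R K P : Kˣ →* Multiplicative ({v // P v} →₀ ℤ)`, `x ↦ (ord_v x)_{P v}`;
* its kernel is the group of `T`-units when `T = {v | ¬ P v}`;
* the target has no torsion;
* the cokernel is finite when the class group is finite;
* `h59_selV (h59_divP R K P) p = {x | ∀ v, P v → p ∣ ord_v x}`.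

For a number field containing a primitive `p`-th root of unity this gives the exact count of
`{x | ∀ v ∉ T, p ∣ ord_v x} / Fˣᵖ`.
-/

set_option autoImplicit false

open IsDedekindDomain
open scoped nonZeroDivisors

namespace Fermat.Agent.S55

section General

variable (R : Type*) [CommRing R] [IsDedekindDomain R] (K : Type*) [Field K]
  [Algebra R K] [IsFractionRing R K]

/-- A nonzero element of `K` has trivial valuation at all but finitely many primes. -/
theorem h59_valuationOfNeZero_support_finite (x : Kˣ) :
    {v : HeightOneSpectrum R | v.valuationOfNeZero x ≠ 1}.Finite := by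
  have h := FractionalIdeal.finite_factors (FractionalIdeal.spanSingleton R⁰ (x : K))
  refine (Filter.eventually_cofinite.mp h).subset ?_
  intro v hv h0
  apply hv
  rw [h46_valuationOfNeZero_eq_count, h0]
  simp

/-- `v.valuationOfNeZero x = 1` iff `v.valuation K x = 1`. -/
theorem h59_valuationOfNeZero_eq_one_iff (v : HeightOneSpectrum R) (x : Kˣ) :
    v.valuationOfNeZero x = 1 ↔ v.valuation K (x : K) = 1 := by
  rw [← HeightOneSpectrum.valuationOfNeZero_eq]
  constructor
  · intro h; rw [h]; rfl
  · intro h; exact_mod_cast h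

variable (P : HeightOneSpectrum R → Prop)

/-- The divisor of `x`, restricted to the primes satisfying `P` (multiplicative notation;
the coordinate at `v` is the exponent of `v.valuation K x`, i.e. `- ord_v x`). -/
noncomputable def h59_divP : Kˣ →* Multiplicative ({v : HeightOneSpectrum R // P v} →₀ ℤ) where
  toFun x := Multiplicative.ofAdd (Finsupp.ofSupportFinite
    (fun v : {v : HeightOneSpectrum R // P v} => Multiplicative.toAdd (v.1.valuationOfNeZero x))
    (by
      refine Set.Finite.subset
        ((h59_valuationOfNeZero_support_finite R K x).preimage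
          (Subtype.val_injective.injOn)) ?_
      intro v hv
      simp only [Function.mem_support, ne_eq] at hv
      simp only [Set.mem_preimage, Set.mem_ofPred_eq]
      intro h0
      apply hv
      rw [h0]; rfl))
  map_one' := by
    apply Multiplicative.toAdd.injective
    ext v
    simp [Finsupp.ofSupportFinite]
  map_mul' x y := by
    apply Multiplicative.toAdd.injective
    ext v
    simp [Finsupp.ofSupportFinite]

theorem h59_divP_apply (x : Kˣ) (v : {v : HeightOneSpectrum R // P v}) :
    Multiplicative.toAdd (h59_divP R K P x) v =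
      Multiplicative.toAdd (v.1.valuationOfNeZero x) := rfl

theorem h59_divP_eq_one_iff (x : Kˣ) :
    h59_divP R K P x = 1 ↔ ∀ v : HeightOneSpectrum R, P v → v.valuation K (x : K) = 1 := by
  constructor
  · intro h v hv
    have h1 := congrArg (fun d : Multiplicative ({v : HeightOneSpectrum R // P v} →₀ ℤ) =>
      Multiplicative.toAdd d ⟨v, hv⟩) h
    simp only [h59_divP_apply] at h1
    rw [← h59_valuationOfNeZero_eq_one_iff]
    exact Multiplicative.toAdd.injective h1
  · intro h
    apply Multiplicative.toAdd.injective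
    ext v
    rw [h59_divP_apply, (h59_valuationOfNeZero_eq_one_iff R K v.1 x).2 (h v.1 v.2)]
    rfl

/-- The kernel of the divisor map away from `T` is the group of `T`-units. -/
theorem h59_divP_ker (T : Set (HeightOneSpectrum R)) (hT : ∀ v, v ∈ T ↔ ¬ P v) :
    (h59_divP R K P).ker = T.unit K := by
  ext x
  rw [MonoidHom.mem_ker, h59_divP_eq_one_iff]
  constructor
  · intro h v hv
    exact h v (by_contra fun hP => hv ((hT v).2 hP))
  · intro h v hv
    exact h v (fun hvT => (hT v).1 hvT hv)

/-- The divisor group has no torsion. -/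
theorem h59_divP_torsionFree {ι : Type*} (p : ℕ) (hp : p ≠ 0)
    (x : Multiplicative (ι →₀ ℤ)) (hx : x ^ p = 1) : x = 1 := by
  apply Multiplicative.toAdd.injective
  have h1 : p • Multiplicative.toAdd x = 0 := by
    have := congrArg Multiplicative.toAdd hx
    simpa using this
  ext v
  have h2 := congrArg (fun f : ι →₀ ℤ => f v) h1
  simp only [Finsupp.smul_apply, Finsupp.zero_apply, nsmul_eq_mul] at h2
  rcases mul_eq_zero.mp h2 with h3 | h3
  · exact absurd (by exact_mod_cast h3) hp
  · simpa using h3

/-- An element of the divisor group is a `p`-th power iff all its coordinates are divisible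
by `p`. -/
theorem h59_div_mem_range_pow_iff {ι : Type*} (p : ℕ) (x : Multiplicative (ι →₀ ℤ)) :
    x ∈ (powMonoidHom p : Multiplicative (ι →₀ ℤ) →* _).range ↔
      ∀ v, (p : ℤ) ∣ Multiplicative.toAdd x v := by
  constructor
  · rintro ⟨y, rfl⟩ v
    refine ⟨Multiplicative.toAdd y v, ?_⟩
    simp [powMonoidHom_apply, toAdd_pow]
  · intro h
    rcases Nat.eq_zero_or_pos p with hp | hp
    · subst hp
      refine ⟨1, ?_⟩
      apply Multiplicative.toAdd.injective
      ext v
      have := h v
      simp only [Nat.cast_zero, zero_dvd_iff] at this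
      simp [this]
    · classical
      refine ⟨Multiplicative.ofAdd ((Multiplicative.toAdd x).mapRange (fun n => n / (p : ℤ))
        (by simp)), ?_⟩
      apply Multiplicative.toAdd.injective
      ext v
      simp only [powMonoidHom_apply, toAdd_pow, toAdd_ofAdd, Finsupp.smul_apply,
        Finsupp.mapRange_apply, nsmul_eq_mul]
      exact Int.mul_ediv_cancel' (h v)

/-- `h59_selV (h59_divP R K P) p = {x | ∀ v, P v → p ∣ ord_v x}`. -/
theorem h59_mem_selV_divP (p : ℕ) (x : Kˣ) :
    x ∈ h59_selV (h59_divP R K P) p ↔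
      ∀ v : HeightOneSpectrum R, P v →
        (p : ℤ) ∣ Multiplicative.toAdd (v.valuationOfNeZero x) := by
  rw [h59_selV, Subgroup.mem_comap, h59_div_mem_range_pow_iff]
  constructor
  · intro h v hv
    exact h ⟨v, hv⟩
  · intro h v
    exact h v.1 v.2

/-- The map from invertible fractional ideals to the divisor group. -/
noncomputable def h59_idealDivP :
    (FractionalIdeal R⁰ K)ˣ →* Multiplicative ({v : HeightOneSpectrum R // P v} →₀ ℤ) where
  toFun I := Multiplicative.ofAdd (Finsupp.ofSupportFinite
    (fun v : {v : HeightOneSpectrum R // P v} =>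
      -(FractionalIdeal.count K v.1 (I : FractionalIdeal R⁰ K)))
    (by
      have h := FractionalIdeal.finite_factors (I : FractionalIdeal R⁰ K)
      refine Set.Finite.subset
        ((Filter.eventually_cofinite.mp h).preimage (Subtype.val_injective.injOn)) ?_
      intro v hv
      simp only [Function.mem_support, ne_eq, neg_eq_zero] at hv
      exact hv))
  map_one' := by
    apply Multiplicative.toAdd.injective
    ext v
    simp [Finsupp.ofSupportFinite, FractionalIdeal.count_one]
  map_mul' I J := by
    apply Multiplicative.toAdd.injective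
    ext v
    simp only [Finsupp.ofSupportFinite, toAdd_ofAdd, Finsupp.coe_mk, toAdd_mul,
      Finsupp.coe_add, Pi.add_apply, Units.val_mul]
    rw [FractionalIdeal.count_mul K v.1 I.ne_zero J.ne_zero]
    ring

theorem h59_idealDivP_apply (I : (FractionalIdeal R⁰ K)ˣ) (v : {v : HeightOneSpectrum R // P v}) :
    Multiplicative.toAdd (h59_idealDivP R K P I) v =
      -(FractionalIdeal.count K v.1 (I : FractionalIdeal R⁰ K)) := rfl

theorem h59_idealDivP_principal (x : Kˣ) :
    h59_idealDivP R K P (toPrincipalIdeal R K x) = h59_divP R K P x := by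
  apply Multiplicative.toAdd.injective
  ext v
  rw [h59_idealDivP_apply, h59_divP_apply, h46_valuationOfNeZero_eq_count, coe_toPrincipalIdeal]
  rfl

theorem h59_idealDivP_surjective : Function.Surjective (h59_idealDivP R K P) := by
  classical
  intro d
  set e : HeightOneSpectrum R →₀ ℤ := (-(Multiplicative.toAdd d)).extendDomain with he
  have hne : (e.prod fun v n => (v.asIdeal : FractionalIdeal R⁰ K) ^ n) ≠ 0 := by
    rw [Finsupp.prod, Finset.prod_ne_zero_iff]
    intro v _
    exact zpow_ne_zero _ (FractionalIdeal.coeIdeal_ne_zero.mpr v.ne_bot)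
  refine ⟨Units.mk0 _ hne, ?_⟩
  apply Multiplicative.toAdd.injective
  ext v
  rw [h59_idealDivP_apply, Units.val_mk0, FractionalIdeal.count_finsuppProd, he]
  simp [Finsupp.extendDomain, v.2]

/-- The cokernel of the divisor map is finite when the class group is. -/
theorem h59_divP_finite_coker [Finite (ClassGroup R)] :
    Finite (Multiplicative ({v : HeightOneSpectrum R // P v} →₀ ℤ) ⧸ (h59_divP R K P).range) :=
  h59_finite_quot_of_ideal_surj (h59_divP R K P) (h59_idealDivP R K P)
    (h59_idealDivP_surjective R K P) (h59_idealDivP_principal R K P)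

theorem h59_divP_range_index_ne_zero [Finite (ClassGroup R)] :
    (h59_divP R K P).range.index ≠ 0 := by
  have := h59_divP_finite_coker R K P
  exact Subgroup.index_ne_zero_of_finite

end General

section NumberField

open NumberField

variable (F : Type*) [Field F] [NumberField F]

/-- The set of primes of `F` above a finite set `S` of (nonzero) rational numbers is finite. -/
theorem h59_primesAbove_finite (S : Finset ℕ) :
    {v : HeightOneSpectrum (𝓞 F) | ∃ q ∈ S, q ≠ 0 ∧ ((q : ℕ) : 𝓞 F) ∈ v.asIdeal}.Finite := by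
  have h : {v : HeightOneSpectrum (𝓞 F) | ∃ q ∈ S, q ≠ 0 ∧ ((q : ℕ) : 𝓞 F) ∈ v.asIdeal} ⊆
      ⋃ q ∈ {q ∈ S | q ≠ 0},
        {v : HeightOneSpectrum (𝓞 F) | v.asIdeal ∣ Ideal.span {((q : ℕ) : 𝓞 F)}} := by
    rintro v ⟨q, hq, hq0, hv⟩
    simp only [Set.mem_iUnion]
    refine ⟨q, by simp [hq, hq0], ?_⟩
    show v.asIdeal ∣ Ideal.span {((q : ℕ) : 𝓞 F)}
    rw [Ideal.dvd_span_singleton]
    exact hv
  refine Set.Finite.subset ?_ h
  refine Set.Finite.biUnion (Finset.finite_toSet _) ?_
  intro q hq
  have hq0 : q ≠ 0 := by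
    have := (Finset.mem_filter.mp (Finset.mem_coe.mp hq)).2
    exact this
  apply Ideal.finite_factors
  rw [Ne, Ideal.zero_eq_bot, Ideal.span_singleton_eq_bot]
  exact_mod_cast hq0

/-- The primes of `F` above a finite set of rational primes, as a `Finset`. -/
noncomputable def h59_primesAbove (S : Finset ℕ) : Finset (HeightOneSpectrum (𝓞 F)) :=
  (h59_primesAbove_finite F S).toFinset

theorem h59_mem_primesAbove (S : Finset ℕ) (v : HeightOneSpectrum (𝓞 F)) :
    v ∈ h59_primesAbove F S ↔ ∃ q ∈ S, q ≠ 0 ∧ ((q : ℕ) : 𝓞 F) ∈ v.asIdeal := by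
  simp [h59_primesAbove]

/-- Relation of Mathlib's `valuationOfNeZero` with `h59_ord`. -/
theorem h59_ord_eq_valuationOfNeZero (v : HeightOneSpectrum (𝓞 F)) (x : Fˣ) :
    h59_ord F v x = v.valuationOfNeZero x := by
  have h1 := h59_ord_coe F v x
  rw [← HeightOneSpectrum.valuationOfNeZero_eq] at h1
  exact_mod_cast h1

/-- **The count for the concrete divisor model.** `T` a finite set of primes of `F`, `P` a
predicate with `T = {v | ¬ P v}`, `p` prime, `ζ_p ∈ F`.  Then
`[{x | ∀ v ∉ T, p ∣ ord_v x} : Fˣᵖ] = p ^ (rank + #T + 1) · [Cl_T : Cl_Tᵖ]`. -/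
theorem h59_selmer_relIndex_divP (T : Finset (HeightOneSpectrum (𝓞 F)))
    (P : HeightOneSpectrum (𝓞 F) → Prop) (hT : ∀ v, v ∈ T ↔ ¬ P v)
    {p : ℕ} (hp : p.Prime) {ζ : F} (hζ : IsPrimitiveRoot ζ p) :
    (powMonoidHom p : Fˣ →* Fˣ).range.relIndex (h59_selV (h59_divP (𝓞 F) F P) p) =
      p ^ (Units.rank F + T.card + 1) *
        (powMonoidHom p : Multiplicative ({v : HeightOneSpectrum (𝓞 F) // P v} →₀ ℤ) ⧸
          (h59_divP (𝓞 F) F P).range →* _).range.index := by
  have hfin := h59_divP_finite_coker (𝓞 F) F P
  exact h59_selmer_relIndex_numberField' F T (h59_divP (𝓞 F) F P)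
    (h59_divP_ker (𝓞 F) F P (T : Set (HeightOneSpectrum (𝓞 F)))
      (fun v => by rw [Finset.mem_coe]; exact hT v))
    hp (h59_divP_torsionFree p hp.ne_zero) hζ

/-- The index of the `p`-th powers of `T`-units, restated for the kernel of the divisor map. -/
theorem h59_divP_ker_index_pow (T : Finset (HeightOneSpectrum (𝓞 F)))
    (P : HeightOneSpectrum (𝓞 F) → Prop) (hT : ∀ v, v ∈ T ↔ ¬ P v)
    {p : ℕ} (hp : p.Prime) {ζ : F} (hζ : IsPrimitiveRoot ζ p) :
    (powMonoidHom p : (h59_divP (𝓞 F) F P).ker →* (h59_divP (𝓞 F) F P).ker).range.index =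
      p ^ (Units.rank F + T.card + 1) := by
  rw [h59_index_pow_congr (h59_divP_ker (𝓞 F) F P (T : Set (HeightOneSpectrum (𝓞 F)))
      (fun v => by rw [Finset.mem_coe]; exact hT v)) p,
    h59_sunit_index_pow_prime F T p hp ζ hζ]

end NumberField

end Fermat.Agent.S55
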