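/-
S55 / LOC-POW (helper37): generic part.

* `h37_pow_index_of_finiteIndex`: the `p`-power Herbrand quotient of a commutative group is
  insensitive to subgroups of finite index (index form).
* Newton / Hensel for `X ^ p = y` in a complete ultrametric normed field (`h37_hensel_pow`).
* `h37_pow_index_generic`: `[Lˣ : Lˣᵖ] = p * #μ_p(L) * (N if q = p else 1)` for a complete
  discretely valued ultrametric normed field with `‖q‖ < 1` and `[ball 1 : ball q] = N`.
-/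
import Mathlib

set_option autoImplicit false

namespace Fermat.Agent.S55


/-- relative index times cardinality -/
theorem h37_relIndex_mul_card {G : Type*} [Group G] {H K : Subgroup G} (h : H ≤ K) :
    H.relIndex K * Nat.card ↥H = Nat.card ↥K := by
  have h1 := Subgroup.card_mul_index (H.subgroupOf K)
  have h2 : Nat.card ↥(H.subgroupOf K) = Nat.card ↥H :=
    Nat.card_congr (Subgroup.subgroupOfEquivOfLe h).toEquiv
  rw [h2] at h1
  rw [Subgroup.relIndex, mul_comm]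
  exact h1

/-- The `p`-power Herbrand quotient is insensitive to passing to a subgroup of finite index
(index form, no quotient groups). -/
theorem h37_pow_index_of_finiteIndex {G : Type*} [CommGroup G] (A B : Subgroup G) (hBA : B ≤ A)
    (hfin : B.relIndex A ≠ 0) (p : ℕ) :
    (B.map (powMonoidHom p)).relIndex B * Nat.card ↥(A ⊓ (powMonoidHom p : G →* G).ker) =
      (A.map (powMonoidHom p)).relIndex A * Nat.card ↥(B ⊓ (powMonoidHom p : G →* G).ker) := by
  set φ : G →* G := powMonoidHom p with hφ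
  set Kr := φ.ker with hKr
  have hφB : B.map φ ≤ B := by
    rintro _ ⟨x, hx, rfl⟩
    exact B.pow_mem hx p
  have hφA : A.map φ ≤ A := by
    rintro _ ⟨x, hx, rfl⟩
    exact A.pow_mem hx p
  have hφBA : B.map φ ≤ A.map φ := Subgroup.map_mono hBA
  have e1 := Subgroup.relIndex_mul_relIndex (B.map φ) B A hφB hBA
  have e2 := Subgroup.relIndex_mul_relIndex (B.map φ) (A.map φ) A hφBA hφA
  have e3 : (B.map φ).relIndex (A.map φ) = (B ⊔ Kr).relIndex A := by
    rw [Subgroup.relIndex_map_map]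
    have : A ⊔ φ.ker = A ⊔ (B ⊔ Kr) := by
      rw [← sup_assoc, sup_eq_left.mpr hBA]
    rw [this]
    exact Subgroup.relIndex_sup_right A (B ⊔ Kr)
  have e4 : B.relIndex ((B ⊔ Kr) ⊓ A) * (B ⊔ Kr).relIndex A = B.relIndex A := by
    have := Subgroup.relIndex_mul_relIndex B ((B ⊔ Kr) ⊓ A) A (le_inf le_sup_left hBA) inf_le_right
    rwa [Subgroup.inf_relIndex_right] at this
  have e5 : B.relIndex ((B ⊔ Kr) ⊓ A) = (B ⊓ Kr).relIndex (A ⊓ Kr) := by
    have hmod : (B ⊔ Kr) ⊓ A = B ⊔ (Kr ⊓ A) := sup_inf_assoc_of_le Kr hBA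
    rw [hmod, Subgroup.relIndex_sup_left, ← Subgroup.inf_relIndex_right]
    congr 1
    · rw [← inf_assoc, inf_comm B Kr, inf_assoc, inf_eq_left.mpr hBA, inf_comm]
    · rw [inf_comm]
  have e6 : (B ⊓ Kr).relIndex (A ⊓ Kr) * Nat.card ↥(B ⊓ Kr) = Nat.card ↥(A ⊓ Kr) :=
    h37_relIndex_mul_card (inf_le_inf_right _ hBA)
  rw [e5] at e4
  rw [e3] at e2
  have hd : (B ⊔ Kr).relIndex A ≠ 0 := by
    intro h0
    rw [h0, mul_zero] at e4
    exact hfin e4.symm
  -- a * b = d * c, b = t * d, t * nB = nA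
  have key : (B.map φ).relIndex B * (B ⊓ Kr).relIndex (A ⊓ Kr) = (A.map φ).relIndex A := by
    have h1 : (B.map φ).relIndex B * ((B ⊓ Kr).relIndex (A ⊓ Kr) * (B ⊔ Kr).relIndex A)
        = (B ⊔ Kr).relIndex A * (A.map φ).relIndex A := by
      rw [e4, e1, e2]
    have h2 : ((B.map φ).relIndex B * (B ⊓ Kr).relIndex (A ⊓ Kr)) * (B ⊔ Kr).relIndex A
        = (A.map φ).relIndex A * (B ⊔ Kr).relIndex A := by
      rw [mul_assoc, h1, mul_comm]
    exact Nat.eq_of_mul_eq_mul_right (Nat.pos_of_ne_zero hd) h2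
  rw [← key, ← e6]
  ring



section generic

variable {L : Type*} [NormedField L] [IsUltrametricDist L]

theorem h37_norm_natCast_le (n : ℕ) : ‖(n : L)‖ ≤ 1 :=
  IsUltrametricDist.norm_natCast_le_one L n

theorem h37_norm_add_le {x y : L} {r : ℝ} (hx : ‖x‖ ≤ r) (hy : ‖y‖ ≤ r) : ‖x + y‖ ≤ r :=
  (IsUltrametricDist.norm_add_le_max x y).trans (max_le hx hy)

theorem h37_norm_sub_le {x y : L} {r : ℝ} (hx : ‖x‖ ≤ r) (hy : ‖y‖ ≤ r) : ‖x - y‖ ≤ r := by
  rw [sub_eq_add_neg]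
  exact h37_norm_add_le hx (by rwa [norm_neg])

theorem h37_norm_eq_one_of_sub_lt {x : L} (hx : ‖x - 1‖ < 1) : ‖x‖ = 1 := by
  have h1 : ‖x‖ ≤ 1 := by
    have := h37_norm_add_le (x := x - 1) (y := 1) (r := 1) hx.le (by simp)
    simpa using this
  by_contra hne
  have hlt : ‖x‖ < 1 := lt_of_le_of_ne h1 hne
  have : ‖(1 : L)‖ < 1 := by
    have h2 : (1 : L) = x - (x - 1) := by ring
    rw [h2]
    exact lt_of_le_of_lt (h37_norm_sub_le (r := max ‖x‖ ‖x - 1‖) (le_max_left _ _) (le_max_right _ _)) (max_lt hlt hx)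
  simp at this

/-- Binomial expansion to second order with a remainder of norm at most one. -/
theorem h37_add_pow_succ (x t : L) (hx : ‖x‖ ≤ 1) (ht : ‖t‖ ≤ 1) (n : ℕ) :
    ∃ k : L, ‖k‖ ≤ 1 ∧ (x + t) ^ (n + 1) = x ^ (n + 1) + ((n + 1 : ℕ) : L) * x ^ n * t + k * t ^ 2 := by
  induction n with
  | zero => exact ⟨0, by simp, by simp⟩
  | succ n ih =>
    obtain ⟨k, hk, hkn⟩ := ih
    refine ⟨k * (x + t) + ((n + 1 : ℕ) : L) * x ^ n, ?_, ?_⟩
    · apply h37_norm_add_le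
      · rw [norm_mul]
        exact mul_le_one₀ hk (norm_nonneg _) (h37_norm_add_le hx ht)
      · rw [norm_mul, norm_pow]
        exact mul_le_one₀ (h37_norm_natCast_le _) (pow_nonneg (norm_nonneg _) _)
          (pow_le_one₀ (norm_nonneg _) hx)
    · rw [pow_succ, hkn]
      push_cast
      ring

/-- `‖X ^ p - 1‖ ≤ max (‖p‖ ‖X - 1‖) (‖X - 1‖ ^ 2)` when `‖X - 1‖ ≤ 1`. -/
theorem h37_norm_pow_sub_one_le (p : ℕ) (hp : 0 < p) (X : L) (hX : ‖X - 1‖ ≤ 1) :
    ‖X ^ p - 1‖ ≤ max (‖(p : L)‖ * ‖X - 1‖) (‖X - 1‖ ^ 2) := by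
  obtain ⟨n, rfl⟩ : ∃ n, p = n + 1 := ⟨p - 1, by omega⟩
  obtain ⟨k, hk, hkn⟩ := h37_add_pow_succ (1 : L) (X - 1) (by simp) hX n
  have hX' : X = 1 + (X - 1) := by ring
  have : X ^ (n + 1) - 1 = ((n + 1 : ℕ) : L) * (X - 1) + k * (X - 1) ^ 2 := by
    conv_lhs => rw [hX']
    rw [hkn]; ring
  rw [this]
  refine (IsUltrametricDist.norm_add_le_max _ _).trans (max_le_max ?_ ?_)
  · rw [norm_mul]
  · rw [norm_mul, norm_pow]
    exact mul_le_of_le_one_left (pow_nonneg (norm_nonneg _) _) hk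

/-- No `p`-torsion close to `1`. -/
theorem h37_eq_one_of_pow_eq_one (p : ℕ) (hp : 0 < p) (X : L) (hX : ‖X - 1‖ < ‖(p : L)‖)
    (h : X ^ p = 1) : X = 1 := by
  obtain ⟨n, rfl⟩ : ∃ n, p = n + 1 := ⟨p - 1, by omega⟩
  have hp1 : ‖((n + 1 : ℕ) : L)‖ ≤ 1 := h37_norm_natCast_le _
  obtain ⟨k, hk, hkn⟩ := h37_add_pow_succ (1 : L) (X - 1) (by simp) (hX.le.trans hp1) n
  have hX' : X = 1 + (X - 1) := by ring
  have h0 : (X - 1) * (((n + 1 : ℕ) : L) + k * (X - 1)) = 0 := by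
    have : (1 + (X - 1)) ^ (n + 1) = 1 := by rw [← hX']; exact h
    rw [hkn] at this
    linear_combination this
  rcases mul_eq_zero.mp h0 with h1 | h1
  · exact sub_eq_zero.mp h1
  · exfalso
    have h2 : ((n + 1 : ℕ) : L) = -(k * (X - 1)) := by linear_combination h1
    have h3 : ‖((n + 1 : ℕ) : L)‖ ≤ ‖X - 1‖ := by
      rw [h2, norm_neg, norm_mul]
      exact mul_le_of_le_one_left (norm_nonneg _) hk
    exact absurd hX (not_lt.mpr h3)


/-- One Newton step for `X ^ (n+1) = y`. -/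
theorem h37_newton_step (n : ℕ) (hpL : ((n + 1 : ℕ) : L) ≠ 0) (y : L) (ε c : ℝ)
    (hε : ε < ‖((n + 1 : ℕ) : L)‖ ^ 2) (hc : c = ε / ‖((n + 1 : ℕ) : L)‖ ^ 2) (hc0 : 0 ≤ c)
    (X : L) (k : ℕ)
    (h1 : ‖X - 1‖ * ‖((n + 1 : ℕ) : L)‖ ≤ ε) (h2 : ‖X ^ (n + 1) - y‖ ≤ ε * c ^ k) :
    ‖(X - (X ^ (n + 1) - y) / (((n + 1 : ℕ) : L) * X ^ n)) - X‖ * ‖((n + 1 : ℕ) : L)‖ ≤ ε * c ^ k ∧
    ‖(X - (X ^ (n + 1) - y) / (((n + 1 : ℕ) : L) * X ^ n)) - 1‖ * ‖((n + 1 : ℕ) : L)‖ ≤ ε ∧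
    ‖(X - (X ^ (n + 1) - y) / (((n + 1 : ℕ) : L) * X ^ n)) ^ (n + 1) - y‖ ≤ ε * c ^ (k + 1) := by
  set P := ‖((n + 1 : ℕ) : L)‖ with hP
  have hP0 : 0 < P := norm_pos_iff.mpr hpL
  have hP1 : P ≤ 1 := h37_norm_natCast_le _
  have hε0 : 0 ≤ ε := le_trans (mul_nonneg (norm_nonneg _) hP0.le) h1
  have hc1 : c < 1 := by
    rw [hc, div_lt_one (by positivity)]; exact hε
  have hck : c ^ k ≤ 1 := pow_le_one₀ hc0 hc1.le
  have hεP : ε / P < P := by
    rw [div_lt_iff₀ hP0]; nlinarith [hε]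
  have hX1 : ‖X - 1‖ ≤ ε / P := by rw [le_div_iff₀ hP0]; exact h1
  have hXn : ‖X‖ = 1 := h37_norm_eq_one_of_sub_lt (lt_of_le_of_lt hX1 (hεP.trans_le hP1))
  have hX0 : X ≠ 0 := by
    intro h; rw [h, norm_zero] at hXn; exact zero_ne_one hXn
  set t : L := -((X ^ (n + 1) - y) / (((n + 1 : ℕ) : L) * X ^ n)) with ht
  have htn : ‖t‖ * P = ‖X ^ (n + 1) - y‖ := by
    rw [ht, norm_neg, norm_div, norm_mul, norm_pow, hXn, one_pow, mul_one, ← hP]
    field_simp
  have htle : ‖t‖ * P ≤ ε * c ^ k := htn ▸ h2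
  have htle' : ‖t‖ ≤ ε / P := by
    rw [le_div_iff₀ hP0]
    exact htle.trans (mul_le_of_le_one_right hε0 hck)
  have hXt : X - (X ^ (n + 1) - y) / (((n + 1 : ℕ) : L) * X ^ n) = X + t := by
    rw [ht]; ring
  rw [hXt]
  refine ⟨?_, ?_, ?_⟩
  · have : X + t - X = t := by ring
    rw [this]; exact htle
  · have : X + t - 1 = (X - 1) + t := by ring
    rw [this]
    have := h37_norm_add_le hX1 htle'
    calc ‖X - 1 + t‖ * P ≤ ε / P * P := mul_le_mul_of_nonneg_right this hP0.le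
      _ = ε := by field_simp
  · obtain ⟨K, hK, hKn⟩ := h37_add_pow_succ X t hXn.le
      (htle'.trans (hεP.le.trans hP1)) n
    have hcancel : ((n + 1 : ℕ) : L) * X ^ n * t = -(X ^ (n + 1) - y) := by
      rw [ht]
      field_simp
    have hexp : (X + t) ^ (n + 1) - y = K * t ^ 2 := by
      rw [hKn, hcancel]; ring
    rw [hexp, norm_mul, norm_pow]
    have h3 : ‖t‖ ≤ ε * c ^ k / P := by rw [le_div_iff₀ hP0]; exact htle
    have h4 : ‖t‖ ^ 2 ≤ (ε * c ^ k / P) ^ 2 := pow_le_pow_left₀ (norm_nonneg _) h3 2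
    have h5 : (ε * c ^ k / P) ^ 2 = ε * c ^ (2 * k + 1) := by
      have e1 : (ε * c ^ k / P) ^ 2 = ε * (c ^ k) ^ 2 * (ε / P ^ 2) := by ring
      rw [e1, ← hc]; ring
    have h6 : c ^ (2 * k + 1) ≤ c ^ (k + 1) :=
      pow_le_pow_of_le_one hc0 hc1.le (by omega)
    calc ‖K‖ * ‖t‖ ^ 2 ≤ 1 * ‖t‖ ^ 2 := mul_le_mul_of_nonneg_right hK (by positivity)
      _ = ‖t‖ ^ 2 := one_mul _
      _ ≤ ε * c ^ (2 * k + 1) := h4.trans h5.le
      _ ≤ ε * c ^ (k + 1) := mul_le_mul_of_nonneg_left h6 hε0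

/-- Hensel's lemma for `X ^ p = y` (Newton iteration in a complete ultrametric field):
if `‖y - 1‖ < ‖p‖ ^ 2` then `y` is a `p`-th power of some `X` with `‖X - 1‖ ≤ ‖y - 1‖ / ‖p‖`. -/
theorem h37_hensel_pow [CompleteSpace L] (p : ℕ) (hp : 0 < p) (hpL : (p : L) ≠ 0) (y : L)
    (hy : ‖y - 1‖ < ‖(p : L)‖ ^ 2) :
    ∃ X : L, ‖X - 1‖ * ‖(p : L)‖ ≤ ‖y - 1‖ ∧ X ^ p = y := by
  obtain ⟨n, rfl⟩ : ∃ n, p = n + 1 := ⟨p - 1, by omega⟩
  set P := ‖((n + 1 : ℕ) : L)‖ with hP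
  have hP0 : 0 < P := norm_pos_iff.mpr hpL
  set ε := ‖y - 1‖ with hε
  set c := ε / P ^ 2 with hc
  have hc0 : 0 ≤ c := by positivity
  have hc1 : c < 1 := by rw [hc, div_lt_one (by positivity)]; exact hy
  let Nw : L → L := fun X => X - (X ^ (n + 1) - y) / (((n + 1 : ℕ) : L) * X ^ n)
  let X : ℕ → L := fun k => Nw^[k] 1
  have hXs : ∀ k, X (k + 1) = Nw (X k) := fun k => Function.iterate_succ_apply' Nw k 1
  have inv : ∀ k, ‖X k - 1‖ * P ≤ ε ∧ ‖X k ^ (n + 1) - y‖ ≤ ε * c ^ k := by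
    intro k
    induction k with
    | zero =>
      refine ⟨by simp [X, hε], ?_⟩
      simp only [X, Function.iterate_zero, id, one_pow, pow_zero, mul_one]
      rw [hε, norm_sub_rev]
    | succ k ih =>
      have := h37_newton_step n hpL y ε c hy hc hc0 (X k) k ih.1 ih.2
      rw [hXs]
      exact ⟨this.2.1, this.2.2⟩
  have hdiff : ∀ k, ‖X (k + 1) - X k‖ ≤ ε / P * c ^ k := by
    intro k
    have := (h37_newton_step n hpL y ε c hy hc hc0 (X k) k (inv k).1 (inv k).2).1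
    rw [hXs]
    rw [div_mul_eq_mul_div, le_div_iff₀ hP0]
    exact this
  have htend0 : Filter.Tendsto (fun k => ε / P * c ^ k) Filter.atTop (nhds 0) := by
    have := (tendsto_pow_atTop_nhds_zero_of_lt_one hc0 hc1).const_mul (ε / P)
    simpa using this
  have hcau : CauchySeq X := by
    apply NonarchimedeanAddGroup.cauchySeq_of_tendsto_sub_nhds_zero
    exact squeeze_zero_norm hdiff htend0
  obtain ⟨Xl, hXl⟩ := cauchySeq_tendsto_of_complete hcau
  refine ⟨Xl, ?_, ?_⟩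
  · have h1 : Filter.Tendsto (fun k => ‖X k - 1‖ * P) Filter.atTop (nhds (‖Xl - 1‖ * P)) :=
      ((hXl.sub_const 1).norm).mul_const P
    exact le_of_tendsto' h1 (fun k => (inv k).1)
  · have h1 : Filter.Tendsto (fun k => X k ^ (n + 1)) Filter.atTop (nhds (Xl ^ (n + 1))) :=
      hXl.pow (n + 1)
    have h2 : Filter.Tendsto (fun k => X k ^ (n + 1)) Filter.atTop (nhds y) := by
      rw [tendsto_iff_norm_sub_tendsto_zero]
      have h3 : Filter.Tendsto (fun k => ε * c ^ k) Filter.atTop (nhds 0) := by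
        have := (tendsto_pow_atTop_nhds_zero_of_lt_one hc0 hc1).const_mul ε
        simpa using this
      exact squeeze_zero (fun k => norm_nonneg _) (fun k => (inv k).2) h3
    exact tendsto_nhds_unique h1 h2


variable (L)

/-- The closed ball of radius `‖c‖` as an additive subgroup. -/
def h37_ball (c : L) : AddSubgroup L where
  carrier := {x | ‖x‖ ≤ ‖c‖}
  zero_mem' := by simp
  add_mem' := fun hx hy => h37_norm_add_le hx hy
  neg_mem' := fun hx => by simpa using hx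

/-- The units of norm one. -/
def h37_U : Subgroup Lˣ where
  carrier := {x | ‖(x : L)‖ = 1}
  one_mem' := by simp
  mul_mem' := fun {x y} hx hy => by
    simp only [Set.mem_ofPred_eq] at hx hy ⊢
    rw [Units.val_mul, norm_mul, hx, hy, one_mul]
  inv_mem' := fun {x} hx => by
    simp only [Set.mem_ofPred_eq] at hx ⊢
    rw [Units.val_inv_eq_inv_val, norm_inv, hx, inv_one]

omit [IsUltrametricDist L] in
theorem h37_sub_one_mul (x y : L) : x * y - 1 = (x - 1) * y + (y - 1) := by ring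

/-- The principal units `x` with `‖x - 1‖ ≤ ‖c‖` (and `< 1`). -/
def h37_W (c : L) : Subgroup Lˣ where
  carrier := {x | ‖(x : L) - 1‖ ≤ ‖c‖ ∧ ‖(x : L) - 1‖ < 1}
  one_mem' := by simp
  mul_mem' := fun {x y} hx hy => by
    simp only [Set.mem_ofPred_eq] at hx hy ⊢
    have hy1 : ‖(y : L)‖ = 1 := h37_norm_eq_one_of_sub_lt hy.2
    have e : ‖((x : L) - 1) * (y : L)‖ = ‖(x : L) - 1‖ := by rw [norm_mul, hy1, mul_one]
    rw [Units.val_mul, h37_sub_one_mul]
    refine ⟨h37_norm_add_le (e ▸ hx.1) hy.1, ?_⟩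
    exact lt_of_le_of_lt (IsUltrametricDist.norm_add_le_max _ _) (max_lt (e ▸ hx.2) hy.2)
  inv_mem' := fun {x} hx => by
    simp only [Set.mem_ofPred_eq] at hx ⊢
    have hx1 : ‖(x : L)‖ = 1 := h37_norm_eq_one_of_sub_lt hx.2
    have hx0 : (x : L) ≠ 0 := x.ne_zero
    have e : ((x⁻¹ : Lˣ) : L) - 1 = -((x : L) - 1) * (x : L)⁻¹ := by
      rw [Units.val_inv_eq_inv_val]; field_simp; ring
    have e' : ‖((x⁻¹ : Lˣ) : L) - 1‖ = ‖(x : L) - 1‖ := by
      rw [e, norm_mul, norm_neg, norm_inv, hx1, inv_one, mul_one]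
    rw [e']; exact hx

variable {L}

theorem h37_mem_ball {c x : L} : x ∈ h37_ball L c ↔ ‖x‖ ≤ ‖c‖ := Iff.rfl
omit [IsUltrametricDist L] in
theorem h37_mem_U {x : Lˣ} : x ∈ h37_U L ↔ ‖(x : L)‖ = 1 := Iff.rfl
theorem h37_mem_W {c : L} {x : Lˣ} :
    x ∈ h37_W L c ↔ ‖(x : L) - 1‖ ≤ ‖c‖ ∧ ‖(x : L) - 1‖ < 1 := Iff.rfl

theorem h37_W_le_U (c : L) : h37_W L c ≤ h37_U L := fun _ hx =>
  h37_norm_eq_one_of_sub_lt hx.2

theorem h37_W_mono {c d : L} (h : ‖c‖ ≤ ‖d‖) : h37_W L c ≤ h37_W L d := fun _ hx =>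
  ⟨hx.1.trans h, hx.2⟩

theorem h37_inv_mul_mem_W {c : L} {x y : Lˣ} (hx : ‖(x : L)‖ = 1) :
    x⁻¹ * y ∈ h37_W L c ↔ ‖(y : L) - (x : L)‖ ≤ ‖c‖ ∧ ‖(y : L) - (x : L)‖ < 1 := by
  have hx0 : (x : L) ≠ 0 := x.ne_zero
  have e : ((x⁻¹ * y : Lˣ) : L) - 1 = (x : L)⁻¹ * ((y : L) - (x : L)) := by
    rw [Units.val_mul, Units.val_inv_eq_inv_val]; field_simp
  rw [h37_mem_W, e, norm_mul, norm_inv, hx, inv_one, one_mul]

/-- `[W c : W d] = [ball c : ball d]` for `‖c‖ < 1`. -/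
theorem h37_relIndex_W (c d : L) (hc : ‖c‖ < 1) :
    (h37_W L d).relIndex (h37_W L c) = (h37_ball L d).relIndex (h37_ball L c) := by
  let e : ↥(h37_W L c) ≃ ↥(h37_ball L c) :=
    { toFun := fun x => ⟨((x : Lˣ) : L) - 1, x.2.1⟩
      invFun := fun a => ⟨Units.mk0 (1 + (a : L)) (by
          intro h
          have h1 : ‖(1 + (a : L)) - 1‖ < 1 := by
            rw [add_sub_cancel_left]; exact lt_of_le_of_lt a.2 hc
          have := h37_norm_eq_one_of_sub_lt h1
          rw [h, norm_zero] at this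
          exact zero_ne_one this), by
          rw [h37_mem_W, Units.val_mk0, add_sub_cancel_left]
          exact ⟨a.2, lt_of_le_of_lt a.2 hc⟩⟩
      left_inv := fun x => by
        apply Subtype.ext; apply Units.ext
        simp
      right_inv := fun a => by
        apply Subtype.ext
        simp }
  have key : ∀ x y : ↥(h37_W L c),
      (QuotientGroup.leftRel ((h37_W L d).subgroupOf (h37_W L c))) x y ↔
      (QuotientAddGroup.leftRel ((h37_ball L d).addSubgroupOf (h37_ball L c))) (e x) (e y) := by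
    intro x y
    rw [QuotientGroup.leftRel_apply, QuotientAddGroup.leftRel_apply,
      Subgroup.mem_subgroupOf, AddSubgroup.mem_addSubgroupOf]
    have hx1 : ‖((x : Lˣ) : L)‖ = 1 := h37_norm_eq_one_of_sub_lt x.2.2
    have e1 : ((x⁻¹ * y : ↥(h37_W L c)) : Lˣ) = (x : Lˣ)⁻¹ * (y : Lˣ) := rfl
    rw [e1, h37_inv_mul_mem_W hx1, h37_mem_ball]
    have e2 : ((-(e x) + e y : ↥(h37_ball L c)) : L) = ((y : Lˣ) : L) - ((x : Lˣ) : L) := by
      show -(((x : Lˣ) : L) - 1) + (((y : Lˣ) : L) - 1) = _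
      ring
    rw [e2]
    constructor
    · exact fun h => h.1
    · intro h
      refine ⟨h, ?_⟩
      have e3 : ((y : Lˣ) : L) - ((x : Lˣ) : L) = (((y : Lˣ) : L) - 1) - (((x : Lˣ) : L) - 1) := by
        ring
      rw [e3]
      exact lt_of_le_of_lt (h37_norm_sub_le (r := max ‖((y : Lˣ) : L) - 1‖ ‖((x : Lˣ) : L) - 1‖)
        (le_max_left _ _) (le_max_right _ _)) (max_lt y.2.2 x.2.2)
  exact Nat.card_congr (Quotient.congr e key)

/-- Scaling: `[ball (c e) : ball (c d)] = [ball e : ball d]`. -/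
theorem h37_relIndex_ball_mul (c d e : L) (hc : c ≠ 0) :
    (h37_ball L (c * d)).relIndex (h37_ball L (c * e)) =
      (h37_ball L d).relIndex (h37_ball L e) := by
  have hcn : 0 < ‖c‖ := norm_pos_iff.mpr hc
  let f : ↥(h37_ball L e) ≃ ↥(h37_ball L (c * e)) :=
    { toFun := fun a => ⟨c * (a : L), by
        rw [h37_mem_ball, norm_mul, norm_mul]
        exact mul_le_mul_of_nonneg_left a.2 hcn.le⟩
      invFun := fun a => ⟨c⁻¹ * (a : L), by
        have := a.2
        rw [h37_mem_ball, norm_mul] at this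
        rw [h37_mem_ball, norm_mul, norm_inv, inv_mul_le_iff₀ hcn]
        exact this⟩
      left_inv := fun a => by
        apply Subtype.ext; simp [hc]
      right_inv := fun a => by
        apply Subtype.ext; simp [hc] }
  have key : ∀ x y : ↥(h37_ball L e),
      (QuotientAddGroup.leftRel ((h37_ball L d).addSubgroupOf (h37_ball L e))) x y ↔
      (QuotientAddGroup.leftRel ((h37_ball L (c * d)).addSubgroupOf (h37_ball L (c * e))))
        (f x) (f y) := by
    intro x y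
    rw [QuotientAddGroup.leftRel_apply, QuotientAddGroup.leftRel_apply,
      AddSubgroup.mem_addSubgroupOf, AddSubgroup.mem_addSubgroupOf, h37_mem_ball, h37_mem_ball]
    have e2 : ((-(f x) + f y : ↥(h37_ball L (c * e))) : L) = c * ((-x + y : ↥(h37_ball L e)) : L) := by
      show -(c * (x : L)) + c * (y : L) = c * (-(x : L) + (y : L))
      ring
    rw [e2, norm_mul, norm_mul]
    exact (mul_le_mul_iff_right₀ hcn).symm
  exact (Nat.card_congr (Quotient.congr f key)).symm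

/-- `[U : W c]` is finite when `[ball 1 : ball c]` is. -/
theorem h37_relIndex_W_U_ne_zero (c : L) (hc : ‖c‖ < 1)
    (h : (h37_ball L c).relIndex (h37_ball L 1) ≠ 0) :
    (h37_W L c).relIndex (h37_U L) ≠ 0 := by
  let f : ↥(h37_U L) → ↥(h37_ball L (1 : L)) := fun x => ⟨((x : Lˣ) : L), by
    rw [h37_mem_ball, norm_one]; exact (h37_mem_U.mp x.2).le⟩
  have key : ∀ x y : ↥(h37_U L),
      (QuotientGroup.leftRel ((h37_W L c).subgroupOf (h37_U L))) x y ↔
      (QuotientAddGroup.leftRel ((h37_ball L c).addSubgroupOf (h37_ball L 1))) (f x) (f y) := by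
    intro x y
    rw [QuotientGroup.leftRel_apply, QuotientAddGroup.leftRel_apply,
      Subgroup.mem_subgroupOf, AddSubgroup.mem_addSubgroupOf]
    have e1 : ((x⁻¹ * y : ↥(h37_U L)) : Lˣ) = (x : Lˣ)⁻¹ * (y : Lˣ) := rfl
    rw [e1, h37_inv_mul_mem_W (h37_mem_U.mp x.2), h37_mem_ball]
    have e2 : ((-(f x) + f y : ↥(h37_ball L (1 : L))) : L) = ((y : Lˣ) : L) - ((x : Lˣ) : L) := by
      show -((x : Lˣ) : L) + ((y : Lˣ) : L) = _
      ring
    rw [e2]
    exact ⟨fun h => h.1, fun h => ⟨h, lt_of_le_of_lt h hc⟩⟩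
  let F : (↥(h37_U L) ⧸ (h37_W L c).subgroupOf (h37_U L)) →
      (↥(h37_ball L (1 : L)) ⧸ (h37_ball L c).addSubgroupOf (h37_ball L 1)) :=
    Quotient.map' f (fun x y hxy => (key x y).mp hxy)
  have hF : Function.Injective F := by
    intro a b
    refine Quotient.inductionOn₂' a b (fun x y hxy => ?_)
    rw [Quotient.eq'']
    apply (key x y).mpr
    have := Quotient.eq''.mp hxy
    exact this
  have : Finite (↥(h37_ball L (1 : L)) ⧸ (h37_ball L c).addSubgroupOf (h37_ball L 1)) :=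
    Nat.finite_of_card_ne_zero h
  have := Finite.of_injective F hF
  exact Nat.card_ne_zero.mpr ⟨⟨QuotientGroup.mk 1⟩, inferInstance⟩


omit [IsUltrametricDist L] in
theorem h37_rootsOfUnity_eq_ker (p : ℕ) :
    rootsOfUnity p L = (powMonoidHom p : Lˣ →* Lˣ).ker := by
  ext x
  rw [mem_rootsOfUnity, MonoidHom.mem_ker, powMonoidHom_apply]

omit [IsUltrametricDist L] in
theorem h37_ker_le_U (p : ℕ) (hp : 0 < p) : (powMonoidHom p : Lˣ →* Lˣ).ker ≤ h37_U L := by
  intro x hx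
  rw [MonoidHom.mem_ker, powMonoidHom_apply] at hx
  rw [h37_mem_U]
  have h1 : ‖(x : L)‖ ^ p = 1 := by
    rw [← norm_pow, ← Units.val_pow_eq_pow_val, hx, Units.val_one, norm_one]
  exact (pow_eq_one_iff_of_nonneg (norm_nonneg _) hp.ne').mp h1

omit [IsUltrametricDist L] in
theorem h37_range_inf_U (p : ℕ) (hp : 0 < p) :
    (powMonoidHom p : Lˣ →* Lˣ).range ⊓ h37_U L = (h37_U L).map (powMonoidHom p) := by
  ext x
  constructor
  · rintro ⟨⟨a, rfl⟩, hx⟩
    refine ⟨a, ?_, rfl⟩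
    have hx' : (powMonoidHom p) a ∈ h37_U L := hx
    rw [h37_mem_U, powMonoidHom_apply, Units.val_pow_eq_pow_val, norm_pow] at hx'
    exact h37_mem_U.mpr ((pow_eq_one_iff_of_nonneg (norm_nonneg _) hp.ne').mp hx')
  · rintro ⟨a, ha, rfl⟩
    exact ⟨⟨a, rfl⟩, (h37_U L).pow_mem ha p⟩

omit [IsUltrametricDist L] in
/-- Reduction of the `p`-th power index of `Lˣ` to that of the norm-one units, given a
surjective valuation `v : Lˣ → ℤ` with kernel the norm-one units. -/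
theorem h37_index_range_eq (p : ℕ) [Fact p.Prime]
    (v : Lˣ → ℤ) (hv_mul : ∀ x y, v (x * y) = v x + v y)
    (hv_ker : ∀ x, v x = 0 ↔ ‖(x : L)‖ = 1) (hv_surj : Function.Surjective v) :
    (powMonoidHom p : Lˣ →* Lˣ).range.index =
      ((h37_U L).map (powMonoidHom p)).relIndex (h37_U L) * p := by
  have hp : 0 < p := (Fact.out : p.Prime).pos
  set R := (powMonoidHom p : Lˣ →* Lˣ).range with hR
  have hv1 : v 1 = 0 := by
    have := hv_mul 1 1
    rw [one_mul] at this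
    linarith
  let vh : Lˣ →* Multiplicative ℤ :=
    { toFun := fun x => Multiplicative.ofAdd (v x)
      map_one' := by rw [hv1]; rfl
      map_mul' := fun x y => by rw [hv_mul]; rfl }
  have hvh : ∀ x, Multiplicative.toAdd (vh x) = v x := fun x => rfl
  have hvz : ∀ (x : Lˣ) (k : ℤ), v (x ^ k) = k * v x := by
    intro x k
    have := map_zpow vh x k
    have h2 := congrArg Multiplicative.toAdd this
    rw [hvh, toAdd_zpow, hvh] at h2
    rw [h2, smul_eq_mul]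
  let g : Lˣ →* Multiplicative (ZMod p) :=
    (AddMonoidHom.toMultiplicative (Int.castAddHom (ZMod p))).comp vh
  have hg : ∀ x, g x = Multiplicative.ofAdd ((v x : ℤ) : ZMod p) := fun x => rfl
  have hgsurj : Function.Surjective g := by
    intro z
    obtain ⟨k, hk⟩ := ZMod.intCast_surjective (Multiplicative.toAdd z)
    obtain ⟨x, hx⟩ := hv_surj k
    refine ⟨x, ?_⟩
    rw [hg, hx, hk]; rfl
  have hker : g.ker = R ⊔ h37_U L := by
    apply le_antisymm
    · intro x hx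
      rw [MonoidHom.mem_ker, hg] at hx
      have hx' : ((v x : ℤ) : ZMod p) = 0 := hx
      rw [ZMod.intCast_zmod_eq_zero_iff_dvd] at hx'
      obtain ⟨k, hk⟩ := hx'
      obtain ⟨π, hπ⟩ := hv_surj 1
      have h1 : x = (powMonoidHom p (π ^ k)) * (x * ((π ^ k) ^ p)⁻¹) := by
        rw [powMonoidHom_apply, mul_comm x, ← mul_assoc, mul_inv_cancel, one_mul]
      rw [h1]
      refine Subgroup.mul_mem_sup ⟨π ^ k, rfl⟩ ?_
      rw [h37_mem_U, ← hv_ker, hv_mul]
      have h2 : v (((π ^ k) ^ p)⁻¹) = -(p * k) := by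
        have e : ((π ^ k) ^ p)⁻¹ = π ^ (-(k * p)) := by
          rw [zpow_neg, zpow_mul, zpow_natCast]
        rw [e, hvz, hπ]; ring
      rw [h2, hk]; ring
    · apply sup_le
      · rintro _ ⟨a, rfl⟩
        rw [MonoidHom.mem_ker, powMonoidHom_apply, map_pow]
        have : (g a) ^ p = Multiplicative.ofAdd (p • Multiplicative.toAdd (g a)) := rfl
        rw [this, nsmul_eq_mul, ZMod.natCast_self, zero_mul]; rfl
      · intro x hx
        rw [MonoidHom.mem_ker, hg, (hv_ker x).mpr (h37_mem_U.mp hx)]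
        simp
  have hidx : (R ⊔ h37_U L).index = p := by
    rw [← hker, Subgroup.index_ker, MonoidHom.range_eq_top.mpr hgsurj, Subgroup.card_top,
      Nat.card_congr Multiplicative.toAdd, Nat.card_zmod]
  have h1 := Subgroup.relIndex_mul_index (H := R) (K := R ⊔ h37_U L) le_sup_left
  rw [hidx] at h1
  rw [← h1, Subgroup.relIndex_sup_left, ← Subgroup.inf_relIndex_right, hR,
    h37_range_inf_U p hp]


theorem h37_norm_prime_eq_one (q p : ℕ) (hq : q.Prime) (hp : p.Prime) (hne : q ≠ p)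
    (hq1 : ‖(q : L)‖ < 1) : ‖(p : L)‖ = 1 := by
  by_contra hcon
  have hp1 : ‖(p : L)‖ < 1 := lt_of_le_of_ne (h37_norm_natCast_le p) hcon
  have hcop : IsCoprime (p : ℤ) (q : ℤ) :=
    Nat.isCoprime_iff_coprime.mpr ((Nat.coprime_primes hp hq).mpr (Ne.symm hne))
  obtain ⟨a, b, hab⟩ := hcop
  have hab' : (a : L) * (p : L) + (b : L) * (q : L) = 1 := by
    have := congrArg (Int.cast : ℤ → L) hab
    push_cast at this
    exact this
  have ha : ‖(a : L)‖ ≤ 1 := IsUltrametricDist.norm_intCast_le_one L a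
  have hb : ‖(b : L)‖ ≤ 1 := IsUltrametricDist.norm_intCast_le_one L b
  have h1 : ‖(a : L) * (p : L)‖ < 1 := by
    rw [norm_mul]
    calc ‖(a : L)‖ * ‖(p : L)‖ ≤ 1 * ‖(p : L)‖ := mul_le_mul_of_nonneg_right ha (norm_nonneg _)
      _ < 1 := by rw [one_mul]; exact hp1
  have h2 : ‖(b : L) * (q : L)‖ < 1 := by
    rw [norm_mul]
    calc ‖(b : L)‖ * ‖(q : L)‖ ≤ 1 * ‖(q : L)‖ := mul_le_mul_of_nonneg_right hb (norm_nonneg _)
      _ < 1 := by rw [one_mul]; exact hq1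
  have h3 : ‖(1 : L)‖ < 1 := by
    rw [← hab']
    exact lt_of_le_of_lt (IsUltrametricDist.norm_add_le_max _ _) (max_lt h1 h2)
  simp at h3

theorem h37_W_inf_ker_eq_bot (p : ℕ) (hp : 0 < p) (c : L) (hc : ‖c‖ < ‖(p : L)‖) :
    h37_W L c ⊓ (powMonoidHom p : Lˣ →* Lˣ).ker = ⊥ := by
  rw [eq_bot_iff]
  rintro x ⟨hx1, hx2⟩
  have hx1' : x ∈ h37_W L c := hx1
  have hx2' : x ∈ (powMonoidHom p : Lˣ →* Lˣ).ker := hx2
  rw [MonoidHom.mem_ker, powMonoidHom_apply] at hx2'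
  rw [Subgroup.mem_bot]
  apply Units.ext
  rw [Units.val_one]
  apply h37_eq_one_of_pow_eq_one p hp _ (lt_of_le_of_lt (h37_mem_W.mp hx1').1 hc)
  rw [← Units.val_pow_eq_pow_val, hx2', Units.val_one]

/-- The image of `W c` under the `p`-th power map is `W (c * p)`, when `‖c‖ < ‖p‖` (Hensel). -/
theorem h37_W_map_pow [CompleteSpace L] (p : ℕ) (hp : 0 < p) (hpL : (p : L) ≠ 0) (c : L)
    (hc : ‖c‖ < ‖(p : L)‖) :
    (h37_W L c).map (powMonoidHom p) = h37_W L (c * (p : L)) := by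
  have hP1 : ‖(p : L)‖ ≤ 1 := h37_norm_natCast_le p
  have hP0 : 0 < ‖(p : L)‖ := norm_pos_iff.mpr hpL
  ext y
  constructor
  · rintro ⟨x, hx, rfl⟩
    have hx' := h37_mem_W.mp hx
    rw [h37_mem_W, powMonoidHom_apply, Units.val_pow_eq_pow_val]
    have h1 := h37_norm_pow_sub_one_le p hp (x : L) hx'.2.le
    have h2 : max (‖(p : L)‖ * ‖(x : L) - 1‖) (‖(x : L) - 1‖ ^ 2) ≤ ‖c * (p : L)‖ := by
      rw [norm_mul]
      apply max_le
      · rw [mul_comm]; exact mul_le_mul_of_nonneg_right hx'.1 hP0.le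
      · rw [sq]
        exact mul_le_mul hx'.1 (hx'.1.trans hc.le) (norm_nonneg _) (norm_nonneg _)
    refine ⟨h1.trans h2, lt_of_le_of_lt (h1.trans h2) ?_⟩
    rw [norm_mul]
    calc ‖c‖ * ‖(p : L)‖ ≤ ‖c‖ * 1 := mul_le_mul_of_nonneg_left hP1 (norm_nonneg _)
      _ = ‖c‖ := mul_one _
      _ < 1 := lt_of_lt_of_le hc hP1
  · intro hy
    have hy' := h37_mem_W.mp hy
    rw [norm_mul] at hy'
    have hlt : ‖(y : L) - 1‖ < ‖(p : L)‖ ^ 2 := by
      rw [sq]
      exact lt_of_le_of_lt hy'.1 (mul_lt_mul_of_pos_right hc hP0)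
    obtain ⟨X, hX1, hX2⟩ := h37_hensel_pow p hp hpL (y : L) hlt
    have hX0 : X ≠ 0 := by
      intro h
      rw [h, zero_pow hp.ne'] at hX2
      exact y.ne_zero hX2.symm
    have hXc : ‖X - 1‖ ≤ ‖c‖ := by
      have := hX1.trans hy'.1
      exact le_of_mul_le_mul_right this hP0
    refine ⟨Units.mk0 X hX0, ?_, ?_⟩
    · rw [SetLike.mem_coe, h37_mem_W, Units.val_mk0]
      exact ⟨hXc, lt_of_le_of_lt hXc (lt_of_lt_of_le hc hP1)⟩
    · apply Units.ext
      rw [powMonoidHom_apply, Units.val_pow_eq_pow_val, Units.val_mk0, hX2]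

/-- **Generic local `p`-th power index**: for a complete ultrametric normed field `L` in which
`‖q‖ < 1`, with `[ball 1 : ball q] = N` finite and a surjective valuation `v : Lˣ → ℤ` whose
kernel is the group of norm-one units,
`[Lˣ : Lˣᵖ] = p * #μ_p(L) * (N if q = p, else 1)`. -/
theorem h37_pow_index_generic [CompleteSpace L] (q p : ℕ) [hqf : Fact q.Prime] [hpf : Fact p.Prime]
    (hq1 : ‖(q : L)‖ < 1) (hq0 : (q : L) ≠ 0)
    (N : ℕ) (hN0 : N ≠ 0) (hN : (h37_ball L (q : L)).relIndex (h37_ball L 1) = N)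
    (v : Lˣ → ℤ) (hv_mul : ∀ x y, v (x * y) = v x + v y)
    (hv_ker : ∀ x, v x = 0 ↔ ‖(x : L)‖ = 1) (hv_surj : Function.Surjective v) :
    (powMonoidHom p : Lˣ →* Lˣ).range.index
      = p * Nat.card (rootsOfUnity p L) * (if q = p then N else 1) := by
  have hp : 0 < p := hpf.out.pos
  have hqn0 : 0 < ‖(q : L)‖ := norm_pos_iff.mpr hq0
  rw [h37_index_range_eq p v hv_mul hv_ker hv_surj, h37_rootsOfUnity_eq_ker]
  have hkerU : h37_U L ⊓ (powMonoidHom p : Lˣ →* Lˣ).ker = (powMonoidHom p : Lˣ →* Lˣ).ker :=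
    inf_eq_right.mpr (h37_ker_le_U p hp)
  have hWU : (h37_W L (q : L)).relIndex (h37_U L) ≠ 0 :=
    h37_relIndex_W_U_ne_zero (q : L) hq1 (hN ▸ hN0)
  by_cases hqp : q = p
  · subst hqp
    rw [if_pos rfl]
    set c : L := (q : L) * (q : L) with hc
    have hcn : ‖c‖ < ‖(q : L)‖ := by
      rw [hc, norm_mul]
      calc ‖(q : L)‖ * ‖(q : L)‖ < ‖(q : L)‖ * 1 := mul_lt_mul_of_pos_left hq1 hqn0
        _ = ‖(q : L)‖ := mul_one _
    have hc1 : ‖c‖ < 1 := hcn.trans hq1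
    have hc0 : c ≠ 0 := mul_ne_zero hq0 hq0
    have hB1 : (h37_W L c).relIndex (h37_W L (q : L)) = N := by
      rw [h37_relIndex_W (q : L) c hq1, ← hN]
      have := h37_relIndex_ball_mul (q : L) (q : L) 1 hq0
      rwa [mul_one] at this
    have hB : (h37_W L c).relIndex (h37_U L) ≠ 0 :=
      Subgroup.relIndex_ne_zero_trans (hB1 ▸ hN0) hWU
    have key := h37_pow_index_of_finiteIndex (h37_U L) (h37_W L c) (h37_W_le_U c) hB q
    rw [h37_W_map_pow q hp hq0 c hcn, h37_W_inf_ker_eq_bot q hp c hcn, hkerU, Subgroup.card_bot,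
      mul_one] at key
    have hB2 : (h37_W L (c * (q : L))).relIndex (h37_W L c) = N := by
      rw [h37_relIndex_W c (c * (q : L)) hc1, ← hN]
      have := h37_relIndex_ball_mul c (q : L) 1 hc0
      rwa [mul_one] at this
    rw [hB2] at key
    rw [← key]; ring
  · rw [if_neg hqp, mul_one]
    have hpn : ‖(p : L)‖ = 1 := h37_norm_prime_eq_one q p hqf.out hpf.out hqp hq1
    have hpL : (p : L) ≠ 0 := by
      intro h; rw [h, norm_zero] at hpn; exact zero_ne_one hpn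
    have hcn : ‖(q : L)‖ < ‖(p : L)‖ := by rw [hpn]; exact hq1
    have key := h37_pow_index_of_finiteIndex (h37_U L) (h37_W L (q : L)) (h37_W_le_U _) hWU p
    have hmap : (h37_W L (q : L)).map (powMonoidHom p) = h37_W L (q : L) := by
      rw [h37_W_map_pow p hp hpL (q : L) hcn]
      apply le_antisymm
      · apply h37_W_mono; rw [norm_mul, hpn, mul_one]
      · apply h37_W_mono; rw [norm_mul, hpn, mul_one]
    rw [hmap, Subgroup.relIndex_self, one_mul, h37_W_inf_ker_eq_bot p hp _ hcn, hkerU,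
      Subgroup.card_bot, mul_one] at key
    rw [← key]; ring

end generic

end Fermat.Agent.S55
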