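import Mathlib
import Fermat.Agent.S55.h37_LocalPowGeneric

set_option autoImplicit false

open Polynomial

namespace Fermat.Agent.S55

/-- From an additive valuation with nontrivial image to a surjective one with the same kernel. -/
theorem h37_exists_surj_val {G : Type*} [Group G] (w : G → ℤ)
    (hw_mul : ∀ x y, w (x * y) = w x + w y) (hw : ∃ x, w x ≠ 0) :
    ∃ v : G → ℤ, (∀ x y, v (x * y) = v x + v y) ∧ (∀ x, v x = 0 ↔ w x = 0) ∧
      Function.Surjective v := by
  have hw1 : w 1 = 0 := by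
    have := hw_mul 1 1
    rw [one_mul] at this
    linarith
  have hwinv : ∀ x, w x⁻¹ = -w x := by
    intro x
    have := hw_mul x x⁻¹
    rw [mul_inv_cancel, hw1] at this
    linarith
  let H : AddSubgroup ℤ :=
    { carrier := {k | ∃ x, w x = k}
      zero_mem' := ⟨1, hw1⟩
      add_mem' := by
        rintro _ _ ⟨x, rfl⟩ ⟨y, rfl⟩
        exact ⟨x * y, hw_mul x y⟩
      neg_mem' := by
        rintro _ ⟨x, rfl⟩
        exact ⟨x⁻¹, hwinv x⟩ }
  have hH : ∀ k, k ∈ H ↔ ∃ x, w x = k := fun k => Iff.rfl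
  obtain ⟨e, he⟩ := Int.subgroup_cyclic H
  have hmem : ∀ k, k ∈ H ↔ e ∣ k := by
    intro k
    rw [he, AddSubgroup.mem_closure_singleton]
    constructor
    · rintro ⟨n, rfl⟩
      exact ⟨n, by rw [smul_eq_mul, mul_comm]⟩
    · rintro ⟨n, rfl⟩
      exact ⟨n, by rw [smul_eq_mul, mul_comm]⟩
  have hdvd : ∀ x, e ∣ w x := fun x => (hmem _).mp ⟨x, rfl⟩
  have he0 : e ≠ 0 := by
    rintro rfl
    obtain ⟨x, hx⟩ := hw
    exact hx (zero_dvd_iff.mp (hdvd x))
  refine ⟨fun x => w x / e, ?_, ?_, ?_⟩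
  · intro x y
    show w (x * y) / e = w x / e + w y / e
    rw [hw_mul, Int.add_ediv_of_dvd_left (hdvd x)]
  · intro x
    show w x / e = 0 ↔ w x = 0
    obtain ⟨a, ha⟩ := hdvd x
    rw [ha, Int.mul_ediv_cancel_left _ he0]
    constructor
    · intro h; rw [h, mul_zero]
    · intro h
      rcases mul_eq_zero.mp h with h | h
      · exact absurd h he0
      · exact h
  · intro k
    obtain ⟨x, hx⟩ := (hmem (e * k)).mpr ⟨k, rfl⟩
    refine ⟨x, ?_⟩
    show w x / e = k
    rw [hx, Int.mul_ediv_cancel_left _ he0]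


section padic

variable (q : ℕ) [Fact q.Prime] (K : Type*) [NormedField K] [Algebra ℚ_[q] K]
  [FiniteDimensional ℚ_[q] K]

/-- The `ℤ_[q]`-algebra structure on a `ℚ_[q]`-algebra. -/
@[reducible] noncomputable def h37_algZ : Algebra ℤ_[q] K :=
  ((algebraMap ℚ_[q] K).comp (algebraMap ℤ_[q] ℚ_[q])).toAlgebra

variable {q K}
variable (hnorm : ∀ x : K, ‖x‖ = spectralNorm ℚ_[q] K x)
include hnorm

omit [FiniteDimensional ℚ_[q] K] in
theorem h37_norm_algebraMap (a : ℚ_[q]) : ‖algebraMap ℚ_[q] K a‖ = ‖a‖ := by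
  rw [hnorm, spectralNorm_extends]

omit [FiniteDimensional ℚ_[q] K] in
theorem h37_norm_q : ‖(q : K)‖ = (q : ℝ)⁻¹ := by
  have : (q : K) = algebraMap ℚ_[q] K (q : ℚ_[q]) := by simp
  rw [this, h37_norm_algebraMap hnorm, Padic.norm_p]

omit [FiniteDimensional ℚ_[q] K] in
theorem h37_norm_q_lt_one : ‖(q : K)‖ < 1 := by
  rw [h37_norm_q hnorm]
  exact inv_lt_one_of_one_lt₀ (by exact_mod_cast (Fact.out : q.Prime).one_lt)

omit [FiniteDimensional ℚ_[q] K] in
theorem h37_q_ne_zero : (q : K) ≠ 0 := by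
  intro h
  have := h37_norm_q hnorm
  rw [h, norm_zero] at this
  have hq : (0 : ℝ) < (q : ℝ)⁻¹ := inv_pos.mpr (by exact_mod_cast (Fact.out : q.Prime).pos)
  linarith

theorem h37_isUltrametricDist : IsUltrametricDist K := by
  apply IsUltrametricDist.isUltrametricDist_of_forall_norm_add_le_max_norm
  intro x y
  rw [hnorm, hnorm, hnorm]
  exact isNonarchimedean_spectralNorm (K := ℚ_[q]) (L := K) x y

theorem h37_completeSpace : CompleteSpace K := by
  let : NormedSpace ℚ_[q] K :=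
    ⟨fun a x => by rw [Algebra.smul_def, norm_mul, h37_norm_algebraMap hnorm]⟩
  exact FiniteDimensional.complete ℚ_[q] K

/-- norm `≤ 1` iff integral over `ℤ_[q]`. -/
theorem h37_norm_le_one_iff (x : K) :
    ‖x‖ ≤ 1 ↔ @IsIntegral ℤ_[q] K _ _ (h37_algZ q K) x := by
  let := h37_algZ q K
  have : IsScalarTower ℤ_[q] ℚ_[q] K := IsScalarTower.of_algebraMap_eq (fun _ => rfl)
  have hxint : IsIntegral ℚ_[q] x := Algebra.IsIntegral.isIntegral x
  rw [hnorm, spectralNorm, spectralValue_le_one_iff (minpoly.monic hxint)]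
  constructor
  · intro h
    have hl : minpoly ℚ_[q] x ∈ Polynomial.lifts (algebraMap ℤ_[q] ℚ_[q]) := by
      rw [Polynomial.lifts_iff_coeff_lifts]
      intro n
      exact ⟨⟨(minpoly ℚ_[q] x).coeff n, h n⟩, rfl⟩
    obtain ⟨P, hP, -, hPm⟩ := Polynomial.lifts_and_natDegree_eq_and_monic hl (minpoly.monic hxint)
    refine ⟨P, hPm, ?_⟩
    have h1 : Polynomial.aeval x (P.map (algebraMap ℤ_[q] ℚ_[q])) = 0 := by
      rw [hP]; exact minpoly.aeval _ _
    rw [Polynomial.aeval_map_algebraMap] at h1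
    exact h1
  · intro h n
    rw [minpoly.isIntegrallyClosed_eq_field_fractions' ℚ_[q] h, Polynomial.coeff_map]
    exact PadicInt.norm_le_one _


/-- The index of the ball of radius `‖q‖` in the unit ball is `q ^ [K : ℚ_q]`. -/
theorem h37_card_ball [IsUltrametricDist K] :
    (h37_ball K (q : K)).relIndex (h37_ball K 1) = q ^ Module.finrank ℚ_[q] K := by
  let _ := h37_algZ q K
  have hst : IsScalarTower ℤ_[q] ℚ_[q] K := IsScalarTower.of_algebraMap_eq (fun _ => rfl)
  have hinj : Function.Injective (algebraMap ℤ_[q] K) :=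
    (algebraMap ℚ_[q] K).injective.comp (IsFractionRing.injective ℤ_[q] ℚ_[q])
  have hfaith : FaithfulSMul ℤ_[q] K := (faithfulSMul_iff_algebraMap_injective ℤ_[q] K).mpr hinj
  have hfree : Module.Free ℤ_[q] (integralClosure ℤ_[q] K) :=
    IsIntegralClosure.module_free ℤ_[q] ℚ_[q] K (integralClosure ℤ_[q] K)
  have hfin : Module.Finite ℤ_[q] (integralClosure ℤ_[q] K) :=
    IsIntegralClosure.finite ℤ_[q] ℚ_[q] K (integralClosure ℤ_[q] K)
  have hrank : Module.finrank ℤ_[q] (integralClosure ℤ_[q] K) = Module.finrank ℚ_[q] K :=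
    IsIntegralClosure.rank ℤ_[q] ℚ_[q] K (integralClosure ℤ_[q] K)
  let b := Module.finBasisOfFinrankEq ℤ_[q] (integralClosure ℤ_[q] K) hrank
  have hq0 : (q : K) ≠ 0 := h37_q_ne_zero hnorm
  have hqK : algebraMap ℤ_[q] K (q : ℤ_[q]) = (q : K) := by simp
  have hmemO : ∀ x : K, x ∈ integralClosure ℤ_[q] K ↔ ‖x‖ ≤ 1 := fun x =>
    (h37_norm_le_one_iff hnorm x).symm
  let g : ↥(h37_ball K (1 : K)) →+ ↥(integralClosure ℤ_[q] K) :=
    { toFun := fun x => ⟨x.1, (hmemO x.1).mpr (by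
        have := x.2; rw [h37_mem_ball, norm_one] at this; exact this)⟩
      map_zero' := rfl
      map_add' := fun _ _ => rfl }
  let c : (Fin (Module.finrank ℚ_[q] K) → ℤ_[q]) →+ (Fin (Module.finrank ℚ_[q] K) → ZMod q) :=
    { toFun := fun v i => PadicInt.toZMod (v i)
      map_zero' := by ext i; simp
      map_add' := fun v w => by ext i; simp }
  let f : ↥(h37_ball K (1 : K)) →+ (Fin (Module.finrank ℚ_[q] K) → ZMod q) :=
    c.comp ((b.equivFun : ↥(integralClosure ℤ_[q] K) →ₗ[ℤ_[q]] _).toAddMonoidHom.comp g)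
  have hf : ∀ x i, f x i = PadicInt.toZMod (b.repr (g x) i) := fun x i => rfl
  have hsurj : Function.Surjective f := by
    intro v
    have : ∀ i, ∃ a : ℤ_[q], PadicInt.toZMod a = v i := fun i =>
      ZMod.ringHom_surjective PadicInt.toZMod (v i)
    choose a ha using this
    let y : ↥(integralClosure ℤ_[q] K) := b.equivFun.symm a
    have hy : ‖(y : K)‖ ≤ 1 := (hmemO _).mp y.2
    refine ⟨⟨(y : K), by rw [h37_mem_ball, norm_one]; exact hy⟩, ?_⟩
    ext i
    rw [hf]
    have : g ⟨(y : K), by rw [h37_mem_ball, norm_one]; exact hy⟩ = y := Subtype.ext rfl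
    rw [this]
    have : b.repr y i = a i := congrFun (b.equivFun.apply_symm_apply a) i
    rw [this, ha]
  have hker : f.ker = (h37_ball K (q : K)).addSubgroupOf (h37_ball K 1) := by
    ext x
    rw [AddMonoidHom.mem_ker, AddSubgroup.mem_addSubgroupOf, h37_mem_ball]
    constructor
    · intro h
      have h1 : ∀ i, ∃ d : ℤ_[q], b.repr (g x) i = (q : ℤ_[q]) * d := by
        intro i
        have : b.repr (g x) i ∈ RingHom.ker (PadicInt.toZMod (p := q)) := by
          rw [RingHom.mem_ker, ← hf, h]; rfl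
        rw [PadicInt.ker_toZMod, PadicInt.maximalIdeal_eq_span_p, Ideal.mem_span_singleton] at this
        exact this
      choose d hd using h1
      let z : ↥(integralClosure ℤ_[q] K) := b.equivFun.symm d
      have hz : g x = (q : ℤ_[q]) • z := by
        apply b.repr.injective
        ext i
        rw [map_smul, Finsupp.smul_apply, smul_eq_mul, hd]
        congr 1
        exact (congrFun (b.equivFun.apply_symm_apply d) i).symm
      have hx : (x : K) = (q : K) * (z : K) := by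
        have := congrArg (fun t : ↥(integralClosure ℤ_[q] K) => (t : K)) hz
        rw [show ((g x : ↥(integralClosure ℤ_[q] K)) : K) = (x : K) from rfl] at this
        rw [this, ← hqK]
        rfl
      rw [hx, norm_mul]
      have hz1 : ‖(z : K)‖ ≤ 1 := (hmemO _).mp z.2
      calc ‖(q : K)‖ * ‖(z : K)‖ ≤ ‖(q : K)‖ * 1 :=
            mul_le_mul_of_nonneg_left hz1 (norm_nonneg _)
        _ = ‖(q : K)‖ := mul_one _
    · intro h
      have hqn : 0 < ‖(q : K)‖ := norm_pos_iff.mpr hq0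
      have hz1 : ‖(x : K) / (q : K)‖ ≤ 1 := by
        rw [norm_div, div_le_one hqn]; exact h
      let z : ↥(integralClosure ℤ_[q] K) := ⟨(x : K) / (q : K), (hmemO _).mpr hz1⟩
      have hz : g x = (q : ℤ_[q]) • z := by
        apply Subtype.ext
        show (x : K) = algebraMap ℤ_[q] K (q : ℤ_[q]) * ((x : K) / (q : K))
        rw [hqK]; field_simp
      ext i
      rw [hf, hz, map_smul, Finsupp.smul_apply, smul_eq_mul, map_mul, map_natCast]
      simp
  rw [AddSubgroup.relIndex, ← hker, AddSubgroup.index_ker,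
    AddMonoidHom.range_eq_top.mpr hsurj, AddSubgroup.card_top, Nat.card_fun, Nat.card_zmod,
    Nat.card_fin]

/-- `‖x‖ ^ [K : ℚ_q]` is an integer power of `q`. -/
theorem h37_exists_zpow (x : Kˣ) :
    ∃ m : ℤ, ‖(x : K)‖ ^ Module.finrank ℚ_[q] K = (q : ℝ) ^ (-m) := by
  have hxint : IsIntegral ℚ_[q] (x : K) := Algebra.IsIntegral.isIntegral _
  have hdpos : 0 < (minpoly ℚ_[q] (x : K)).natDegree := minpoly.natDegree_pos hxint
  obtain ⟨e, he⟩ := minpoly.degree_dvd hxint
  have hc : (minpoly ℚ_[q] (x : K)).coeff 0 ≠ 0 := minpoly.coeff_zero_ne_zero hxint x.ne_zero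
  have h1 : ‖(x : K)‖ ^ (minpoly ℚ_[q] (x : K)).natDegree
      = ‖(minpoly ℚ_[q] (x : K)).coeff 0‖ := by
    rw [hnorm, spectralNorm.spectralNorm_eq_norm_coeff_zero_rpow ℚ_[q] K, one_div]
    exact Real.rpow_inv_natCast_pow (norm_nonneg _) hdpos.ne'
  refine ⟨((minpoly ℚ_[q] (x : K)).coeff 0).valuation * e, ?_⟩
  rw [he, pow_mul, h1, Padic.norm_eq_zpow_neg_valuation hc, ← zpow_natCast, ← zpow_mul]
  rw [neg_mul]

/-- A surjective additive valuation on `Kˣ` whose kernel is the group of norm-one units. -/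
theorem h37_exists_val :
    ∃ v : Kˣ → ℤ, (∀ x y, v (x * y) = v x + v y) ∧ (∀ x, v x = 0 ↔ ‖(x : K)‖ = 1) ∧
      Function.Surjective v := by
  have hq1 : (1 : ℝ) < q := by exact_mod_cast (Fact.out : q.Prime).one_lt
  have hq0 : (0 : ℝ) < q := by linarith
  have hinj := zpow_right_injective₀ hq0 hq1.ne'
  have hn : Module.finrank ℚ_[q] K ≠ 0 := Module.finrank_pos.ne'
  choose w hw using h37_exists_zpow (q := q) (K := K) hnorm
  have hw_mul : ∀ x y, w (x * y) = w x + w y := by
    intro x y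
    apply neg_injective
    apply hinj
    show (q : ℝ) ^ (-(w (x * y))) = (q : ℝ) ^ (-(w x + w y))
    rw [← hw, neg_add, zpow_add₀ hq0.ne', ← hw, ← hw, Units.val_mul, norm_mul, mul_pow]
  have hw_ne : ∃ x, w x ≠ 0 := by
    refine ⟨Units.mk0 (q : K) (h37_q_ne_zero hnorm), ?_⟩
    intro h
    have h2 := hw (Units.mk0 (q : K) (h37_q_ne_zero hnorm))
    rw [h, neg_zero, zpow_zero, Units.val_mk0, h37_norm_q hnorm] at h2
    have h3 : ((q : ℝ)⁻¹) ^ Module.finrank ℚ_[q] K < 1 :=
      pow_lt_one₀ (by positivity) (inv_lt_one_of_one_lt₀ hq1) hn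
    linarith
  obtain ⟨v, hv1, hv2, hv3⟩ := h37_exists_surj_val w hw_mul hw_ne
  refine ⟨v, hv1, fun x => ?_, hv3⟩
  rw [hv2]
  constructor
  · intro h
    have := hw x
    rw [h, neg_zero, zpow_zero] at this
    exact (pow_eq_one_iff_of_nonneg (norm_nonneg _) hn).mp this
  · intro h
    have h2 := hw x
    rw [h, one_pow] at h2
    have h3 : (q : ℝ) ^ (-(w x)) = (q : ℝ) ^ (0 : ℤ) := by rw [zpow_zero, ← h2]
    have h4 : -(w x) = 0 := hinj h3
    linarith

end padic

/-- **Local `p`-th power index.** For a finite extension `K` of `ℚ_q` and a prime `p`,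
`[Kˣ : Kˣᵖ] = p · #μ_p(K) · p^[K:ℚ_p]` (last factor only when `q = p`). -/
theorem h37_local_pow_index (q : ℕ) [Fact q.Prime] (p : ℕ) [Fact p.Prime] (K : Type*) [Field K]
    [Algebra ℚ_[q] K] [FiniteDimensional ℚ_[q] K] :
    (powMonoidHom p : Kˣ →* Kˣ).range.index
      = p * Nat.card (rootsOfUnity p K) * (if q = p then p ^ Module.finrank ℚ_[q] K else 1) := by
  let : NormedField K := spectralNorm.normedField ℚ_[q] K
  have hnorm : ∀ x : K, ‖x‖ = spectralNorm ℚ_[q] K x := fun _ => rfl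
  have : IsUltrametricDist K := h37_isUltrametricDist hnorm
  have : CompleteSpace K := h37_completeSpace hnorm
  obtain ⟨v, hv1, hv2, hv3⟩ := h37_exists_val hnorm
  have key := h37_pow_index_generic (L := K) q p (h37_norm_q_lt_one hnorm) (h37_q_ne_zero hnorm)
    (q ^ Module.finrank ℚ_[q] K) (pow_ne_zero _ (Fact.out : q.Prime).ne_zero)
    (h37_card_ball hnorm) v hv1 hv2 hv3
  refine key.trans ?_
  by_cases h : q = p
  · subst h
    rw [if_pos rfl]
  · rw [if_neg h, if_neg h]

end Fermat.Agent.S55
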