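import Mathlib
import Fermat.Agent.S55.h28_SemilocAbs
import Fermat.Agent.S55.h37_LocalPow
import Fermat.Agent.S55.h59_SUnits

/-!
# S55 / GLOB-EX-J: the index of `p`-th powers in the semi-local group `J_q(L)`

`J_q(L) = h28_eqv Γ X A` with `Γ = Gal(Ω/ℚ_q)`, `X = (L →+* Ω)`, `A = Ωˣ`, `Ω = PadicAlgCl q`.

* `h59_eqvEquiv` : `h28_eqv Γ X A ≃* Π O, h28_fix Γ A (Quotient.out O)` (orbit decomposition);
* `h59_eqv_index_pow` : the index of the `p`-th powers is the product of the local indices;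
* `h59_fixEquiv` : `h28_fix Γ Ωˣ j ≃* (ℚ_q(j L))ˣ` (infinite Galois theory);
* `h59_card_orbit` : the orbit of `j` has `[ℚ_q(j L) : ℚ_q]` elements;
* `h59_Jq_index_pow` : `[J_q : J_qᵖ] = p ^ (2 · #orbits) · (p ^ [L : ℚ] if q = p)`.
-/

set_option autoImplicit false

namespace Fermat.Agent.S55

section Generic

/-- The index of the `p`-th powers is invariant under isomorphism. -/
theorem h59_index_pow_mulEquiv {G H : Type*} [CommGroup G] [CommGroup H] (f : G ≃* H) (p : ℕ) :
    (powMonoidHom p : G →* G).range.index = (powMonoidHom p : H →* H).range.index := by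
  rw [← Subgroup.index_map_equiv (powMonoidHom p : G →* G).range f]
  congr 1
  ext y
  constructor
  · rintro ⟨_, ⟨x, rfl⟩, rfl⟩
    exact ⟨f x, by simp⟩
  · rintro ⟨z, rfl⟩
    exact ⟨f.symm z ^ p, ⟨f.symm z, rfl⟩, by simp⟩

/-- The index of the `p`-th powers in a finite product is the product of the indices. -/
theorem h59_index_pow_pi {ι : Type*} [Finite ι] (G : ι → Type*) [∀ i, CommGroup (G i)] (p : ℕ) :
    (powMonoidHom p : (∀ i, G i) →* (∀ i, G i)).range.index =
      ∏ᶠ i, (powMonoidHom p : G i →* G i).range.index := by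
  classical
  have := Fintype.ofFinite ι
  let φ : (∀ i, G i) →* (∀ i, G i ⧸ (powMonoidHom p : G i →* G i).range) :=
    MonoidHom.pi (fun i => (QuotientGroup.mk' (powMonoidHom p : G i →* G i).range).comp
      (Pi.evalMonoidHom G i))
  have hφ : ∀ z i, φ z i = QuotientGroup.mk (z i) := fun z i => rfl
  have hker : φ.ker = (powMonoidHom p : (∀ i, G i) →* (∀ i, G i)).range := by
    ext z
    rw [MonoidHom.mem_ker]
    constructor
    · intro hz
      have hz' : ∀ i, ∃ y : G i, y ^ p = z i := fun i => by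
        have h1 := congrFun hz i
        rw [hφ, Pi.one_apply, QuotientGroup.eq_one_iff] at h1
        exact h1
      choose y hy using hz'
      exact ⟨y, funext hy⟩
    · rintro ⟨y, rfl⟩
      funext i
      rw [hφ, Pi.one_apply, QuotientGroup.eq_one_iff]
      exact ⟨y i, rfl⟩
  have hsurj : Function.Surjective φ := by
    intro c
    have hc : ∀ i, ∃ y : G i, (QuotientGroup.mk y : G i ⧸ (powMonoidHom p : G i →* G i).range) = c i :=
      fun i => QuotientGroup.mk_surjective (c i)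
    choose y hy using hc
    exact ⟨y, funext fun i => by rw [hφ, hy]⟩
  rw [← hker, Subgroup.index_ker, MonoidHom.range_eq_top.mpr hsurj, Subgroup.card_top,
    Nat.card_pi, finprod_eq_prod_of_fintype]
  rfl

end Generic

section Abstract

variable {Γ : Type*} [Group Γ] {X : Type*} [MulAction Γ X]
  {A : Type*} [CommGroup A] [MulDistribMulAction Γ A]

/-- Evaluation of an equivariant function at the orbit representatives. -/
noncomputable def h59_eqvEval :
    h28_eqv Γ X A →* (∀ O : MulAction.orbitRel.Quotient Γ X, h28_fix Γ A (Quotient.out O)) where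
  toFun φ O := ⟨φ.1 (Quotient.out O), h28_eqv_apply_mem_fix φ.2 _⟩
  map_one' := rfl
  map_mul' _ _ := rfl

theorem h59_exists_smul_out (x : X) :
    ∃ τ : Γ, τ • (Quotient.out (Quotient.mk'' x : MulAction.orbitRel.Quotient Γ X)) = x := by
  have h : (MulAction.orbitRel Γ X) x
      (Quotient.out (Quotient.mk'' x : MulAction.orbitRel.Quotient Γ X)) :=
    Quotient.exact' (Quotient.out_eq' _).symm
  rw [MulAction.orbitRel_apply] at h
  obtain ⟨τ, hτ⟩ := h
  exact ⟨τ, hτ⟩

theorem h59_eqvEval_injective : Function.Injective (h59_eqvEval (Γ := Γ) (X := X) (A := A)) := by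
  intro φ ψ h
  apply Subtype.ext
  funext x
  obtain ⟨τ, hτ⟩ := h59_exists_smul_out (Γ := Γ) x
  have h1 := congrArg (fun f : ∀ O : MulAction.orbitRel.Quotient Γ X,
    h28_fix Γ A (Quotient.out O) => ((f (Quotient.mk'' x)) : A)) h
  simp only [h59_eqvEval, MonoidHom.coe_mk, OneHom.coe_mk] at h1
  rw [← hτ, φ.2 τ _, ψ.2 τ _, h1]

theorem h59_eqvEval_surjective : Function.Surjective (h59_eqvEval (Γ := Γ) (X := X) (A := A)) := by
  intro a
  choose t ht using fun x : X => h59_exists_smul_out (Γ := Γ) x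
  -- the candidate function
  let φ : X → A := fun x => t x • ((a (Quotient.mk'' x)) : A)
  have key : ∀ (x : X) (O : MulAction.orbitRel.Quotient Γ X) (_ : Quotient.mk'' x = O) (τ : Γ)
      (_ : τ • Quotient.out O = x), φ x = τ • ((a O) : A) := by
    intro x O hO τ hτ
    subst hO
    exact h28_fix_smul_eq (a _).2 ((ht x).trans hτ.symm)
  have hφ : φ ∈ h28_eqv Γ X A := by
    intro σ x
    have h1 : (Quotient.mk'' (σ • x) : MulAction.orbitRel.Quotient Γ X) = Quotient.mk'' x := by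
      apply Quotient.sound'
      rw [MulAction.orbitRel_apply]
      exact ⟨σ, rfl⟩
    rw [key (σ • x) (Quotient.mk'' x) h1 (σ * t x) (by rw [mul_smul, ht x])]
    show _ = σ • (t x • ((a (Quotient.mk'' x)) : A))
    rw [mul_smul]
  refine ⟨⟨φ, hφ⟩, ?_⟩
  funext O
  apply Subtype.ext
  show φ (Quotient.out O) = _
  rw [key (Quotient.out O) O (Quotient.out_eq' O) 1 (one_smul _ _), one_smul]

/-- **Orbit decomposition** of the group of equivariant functions. -/
noncomputable def h59_eqvEquiv :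
    h28_eqv Γ X A ≃* (∀ O : MulAction.orbitRel.Quotient Γ X, h28_fix Γ A (Quotient.out O)) :=
  MulEquiv.ofBijective h59_eqvEval ⟨h59_eqvEval_injective, h59_eqvEval_surjective⟩

theorem h59_eqvEquiv_apply (φ : h28_eqv Γ X A) (O : MulAction.orbitRel.Quotient Γ X) :
    ((h59_eqvEquiv φ O : h28_fix Γ A (Quotient.out O)) : A) = φ.1 (Quotient.out O) := rfl

/-- Abstract decomposition: the index of the `p`-th powers in the group of equivariant functions
is the product over the orbits of the local indices. -/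
theorem h59_eqv_index_pow [Finite X] (p : ℕ) :
    (powMonoidHom p : h28_eqv Γ X A →* h28_eqv Γ X A).range.index =
      ∏ᶠ O : MulAction.orbitRel.Quotient Γ X,
        (powMonoidHom p : h28_fix Γ A (Quotient.out O) →* h28_fix Γ A (Quotient.out O)).range.index := by
  have : Finite (MulAction.orbitRel.Quotient Γ X) := Quotient.finite _
  rw [h59_index_pow_mulEquiv (h59_eqvEquiv (Γ := Γ) (X := X) (A := A)) p, h59_index_pow_pi]

end Abstract

section Local

variable (q : ℕ) [Fact q.Prime] {L : Type*} [Field L] [NumberField L]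

/-- The local field `ℚ_q(j L)` generated by the image of an embedding `j : L → Ω`. -/
noncomputable def h59_locField (j : L →+* PadicAlgCl q) :
    IntermediateField ℚ_[q] (PadicAlgCl q) :=
  IntermediateField.adjoin ℚ_[q] (Set.range j)

omit [NumberField L] in
theorem h59_mem_locField (j : L →+* PadicAlgCl q) (x : L) : j x ∈ h59_locField q j :=
  IntermediateField.subset_adjoin _ _ ⟨x, rfl⟩

instance h59_locField_finiteDimensional (j : L →+* PadicAlgCl q) :
    FiniteDimensional ℚ_[q] (h59_locField q j) := by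
  classical
  let b := Module.Free.chooseBasis ℚ L
  let S' : Set (PadicAlgCl q) := Set.range (fun i => j (b i))
  have hfd : FiniteDimensional ℚ_[q] (IntermediateField.adjoin ℚ_[q] S') :=
    IntermediateField.finiteDimensional_adjoin (fun x _ => Algebra.IsIntegral.isIntegral x)
  have hle : h59_locField q j ≤ IntermediateField.adjoin ℚ_[q] S' := by
    rw [h59_locField, IntermediateField.adjoin_le_iff]
    rintro _ ⟨x, rfl⟩
    rw [← b.sum_repr x, map_sum]
    refine sum_mem (fun i _ => ?_)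
    rw [Algebra.smul_def, map_mul, eq_ratCast, map_ratCast]
    refine mul_mem ?_ (IntermediateField.subset_adjoin _ _ ⟨i, rfl⟩)
    rw [← map_ratCast (algebraMap ℚ_[q] (PadicAlgCl q))]
    exact IntermediateField.algebraMap_mem _ _
  exact FiniteDimensional.of_injective (IntermediateField.inclusion hle).toLinearMap
    (IntermediateField.inclusion_injective hle)

variable {Γ : Type*} [Group Γ] [MulAction Γ (L →+* PadicAlgCl q)]
  [MulDistribMulAction Γ (PadicAlgCl q)ˣ]

omit [NumberField L] [MulDistribMulAction Γ (PadicAlgCl q)ˣ] in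
/-- The stabiliser of `j` is the fixing subgroup of `ℚ_q(j L)`. -/
theorem h59_smul_eq_iff (e : Γ ≃* (PadicAlgCl q ≃ₐ[ℚ_[q]] PadicAlgCl q))
    (hX : ∀ (γ : Γ) (j : L →+* PadicAlgCl q),
      γ • j = ((e γ : PadicAlgCl q ≃ₐ[ℚ_[q]] PadicAlgCl q) : PadicAlgCl q →+* PadicAlgCl q).comp j)
    (γ : Γ) (j : L →+* PadicAlgCl q) :
    γ • j = j ↔ e γ ∈ (h59_locField q j).fixingSubgroup := by
  rw [hX, IntermediateField.mem_fixingSubgroup_iff]
  constructor
  · intro h y hy
    have h' : ∀ x, e γ (j x) = j x := fun x => by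
      have := congrArg (fun f : L →+* PadicAlgCl q => f x) h
      simpa using this
    refine IntermediateField.adjoin_induction ℚ_[q]
      (p := fun y _ => e γ y = y) ?_ ?_ ?_ ?_ ?_ hy
    · rintro _ ⟨x, rfl⟩
      exact h' x
    · intro c
      exact (e γ).commutes c
    · intro x y _ _ hx hy
      rw [map_add, hx, hy]
    · intro x _ hx
      rw [map_inv₀, hx]
    · intro x y _ _ hx hy
      rw [map_mul, hx, hy]
  · intro h
    ext x
    exact h (j x) (h59_mem_locField q j x)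

omit [NumberField L] in
/-- The elements fixed by the stabiliser of `j` are the units lying in `ℚ_q(j L)`. -/
theorem h59_mem_fix_iff (e : Γ ≃* (PadicAlgCl q ≃ₐ[ℚ_[q]] PadicAlgCl q))
    (hX : ∀ (γ : Γ) (j : L →+* PadicAlgCl q),
      γ • j = ((e γ : PadicAlgCl q ≃ₐ[ℚ_[q]] PadicAlgCl q) : PadicAlgCl q →+* PadicAlgCl q).comp j)
    (hA : ∀ (γ : Γ) (a : (PadicAlgCl q)ˣ),
      ((γ • a : (PadicAlgCl q)ˣ) : PadicAlgCl q) = e γ (a : PadicAlgCl q))
    (j : L →+* PadicAlgCl q) (a : (PadicAlgCl q)ˣ) :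
    a ∈ h28_fix Γ (PadicAlgCl q)ˣ j ↔ (a : PadicAlgCl q) ∈ h59_locField q j := by
  rw [h28_mem_fix]
  conv_rhs => rw [← InfiniteGalois.fixedField_fixingSubgroup (h59_locField q j),
    IntermediateField.mem_fixedField_iff]
  constructor
  · intro h σ hσ
    have h1 := h (e.symm σ) ((h59_smul_eq_iff q e hX _ j).2 (by simpa using hσ))
    have h2 := congrArg (fun u : (PadicAlgCl q)ˣ => (u : PadicAlgCl q)) h1
    simpa [hA] using h2
  · intro h γ hγ
    apply Units.ext
    rw [hA]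
    exact h (e γ) ((h59_smul_eq_iff q e hX γ j).1 hγ)

omit [NumberField L] in
/-- `h28_fix Γ Ωˣ j ≃* (ℚ_q(j L))ˣ`. -/
noncomputable def h59_fixEquiv (e : Γ ≃* (PadicAlgCl q ≃ₐ[ℚ_[q]] PadicAlgCl q))
    (hX : ∀ (γ : Γ) (j : L →+* PadicAlgCl q),
      γ • j = ((e γ : PadicAlgCl q ≃ₐ[ℚ_[q]] PadicAlgCl q) : PadicAlgCl q →+* PadicAlgCl q).comp j)
    (hA : ∀ (γ : Γ) (a : (PadicAlgCl q)ˣ),
      ((γ • a : (PadicAlgCl q)ˣ) : PadicAlgCl q) = e γ (a : PadicAlgCl q))
    (j : L →+* PadicAlgCl q) :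
    (h59_locField q j)ˣ ≃* h28_fix Γ (PadicAlgCl q)ˣ j :=
  MulEquiv.ofBijective
    ((Units.map ((algebraMap (h59_locField q j) (PadicAlgCl q) : _ →+* _) : _ →* _)).codRestrict
      (h28_fix Γ (PadicAlgCl q)ˣ j) (fun u => (h59_mem_fix_iff q e hX hA j _).2 (u : h59_locField q j).2))
    ⟨by
      intro u u' h
      have h1 := congrArg (fun a : h28_fix Γ (PadicAlgCl q)ˣ j => (((a : (PadicAlgCl q)ˣ)) : PadicAlgCl q)) h
      exact Units.ext (Subtype.ext h1), by
      intro a
      have ha := (h59_mem_fix_iff q e hX hA j _).1 a.2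
      refine ⟨Units.mk0 (⟨((a : (PadicAlgCl q)ˣ) : PadicAlgCl q), ha⟩ : h59_locField q j)
        (fun h => (a : (PadicAlgCl q)ˣ).ne_zero (congrArg Subtype.val h)), ?_⟩
      apply Subtype.ext
      apply Units.ext
      rfl⟩

end Local

section Count

variable (q : ℕ) [Fact q.Prime] {L : Type*} [Field L] [NumberField L]
  {Γ : Type*} [Group Γ] [MulAction Γ (L →+* PadicAlgCl q)]

/-- The map `(ℚ_q(j L) →ₐ[ℚ_q] Ω) → (L →+* Ω)`, `f ↦ f ∘ j`. -/
noncomputable def h59_orbMapOfAlgHom (j : L →+* PadicAlgCl q)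
    (f : h59_locField q j →ₐ[ℚ_[q]] PadicAlgCl q) : L →+* PadicAlgCl q :=
  (f : h59_locField q j →+* PadicAlgCl q).comp
    (j.codRestrict (h59_locField q j) (h59_mem_locField q j))

omit [NumberField L] in
theorem h59_orbMapOfAlgHom_apply (j : L →+* PadicAlgCl q)
    (f : h59_locField q j →ₐ[ℚ_[q]] PadicAlgCl q) (x : L) :
    h59_orbMapOfAlgHom q j f x = f ⟨j x, h59_mem_locField q j x⟩ := rfl

omit [NumberField L] in
theorem h59_orbMapOfAlgHom_injective (j : L →+* PadicAlgCl q) :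
    Function.Injective (h59_orbMapOfAlgHom q j) := by
  intro f f' h
  have h' : ∀ x, f ⟨j x, h59_mem_locField q j x⟩ = f' ⟨j x, h59_mem_locField q j x⟩ := fun x => by
    have := congrArg (fun g : L →+* PadicAlgCl q => g x) h
    simpa [h59_orbMapOfAlgHom_apply] using this
  have key : ∀ (y : PadicAlgCl q) (hy : y ∈ IntermediateField.adjoin ℚ_[q] (Set.range j)),
      f ⟨y, hy⟩ = f' ⟨y, hy⟩ := by
    intro y hy
    refine IntermediateField.adjoin_induction ℚ_[q]
      (p := fun y hy => f ⟨y, hy⟩ = f' ⟨y, hy⟩) ?_ ?_ ?_ ?_ ?_ hy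
    · rintro _ ⟨x, rfl⟩
      exact h' x
    · intro c
      exact (f.commutes c).trans (f'.commutes c).symm
    · intro x y hx hy h1 h2
      have : (⟨x + y, add_mem hx hy⟩ : h59_locField q j) = ⟨x, hx⟩ + ⟨y, hy⟩ := rfl
      rw [this, map_add, map_add, h1, h2]
    · intro x hx h1
      have : (⟨x⁻¹, inv_mem hx⟩ : h59_locField q j) = (⟨x, hx⟩ : h59_locField q j)⁻¹ := rfl
      rw [this, map_inv₀, map_inv₀, h1]
    · intro x y hx hy h1 h2
      have : (⟨x * y, mul_mem hx hy⟩ : h59_locField q j) = ⟨x, hx⟩ * ⟨y, hy⟩ := rfl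
      rw [this, map_mul, map_mul, h1, h2]
  ext ⟨y, hy⟩
  exact key y hy

omit [NumberField L] in
/-- The orbit of `j` is the set of `f ∘ j`, `f : ℚ_q(j L) →ₐ[ℚ_q] Ω`. -/
theorem h59_orbit_eq_range (e : Γ ≃* (PadicAlgCl q ≃ₐ[ℚ_[q]] PadicAlgCl q))
    (hX : ∀ (γ : Γ) (j : L →+* PadicAlgCl q),
      γ • j = ((e γ : PadicAlgCl q ≃ₐ[ℚ_[q]] PadicAlgCl q) : PadicAlgCl q →+* PadicAlgCl q).comp j)
    (j : L →+* PadicAlgCl q) :
    MulAction.orbit Γ j = Set.range (h59_orbMapOfAlgHom q j) := by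
  ext j'
  constructor
  · rintro ⟨γ, rfl⟩
    refine ⟨((e γ : PadicAlgCl q ≃ₐ[ℚ_[q]] PadicAlgCl q) : PadicAlgCl q →ₐ[ℚ_[q]] PadicAlgCl q).comp
      (h59_locField q j).val, ?_⟩
    show _ = γ • j
    rw [hX]
    rfl
  · rintro ⟨f, rfl⟩
    let τ : PadicAlgCl q ≃ₐ[ℚ_[q]] PadicAlgCl q :=
      AlgEquiv.ofBijective (f.liftNormal (PadicAlgCl q))
        (Algebra.IsAlgebraic.algHom_bijective _)
    refine ⟨e.symm τ, ?_⟩
    show e.symm τ • j = _
    rw [hX, MulEquiv.apply_symm_apply]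
    ext x
    rw [h59_orbMapOfAlgHom_apply]
    exact f.liftNormal_commutes (PadicAlgCl q) ⟨j x, h59_mem_locField q j x⟩

/-- **Orbit size = local degree.** -/
theorem h59_card_orbit (e : Γ ≃* (PadicAlgCl q ≃ₐ[ℚ_[q]] PadicAlgCl q))
    (hX : ∀ (γ : Γ) (j : L →+* PadicAlgCl q),
      γ • j = ((e γ : PadicAlgCl q ≃ₐ[ℚ_[q]] PadicAlgCl q) : PadicAlgCl q →+* PadicAlgCl q).comp j)
    (j : L →+* PadicAlgCl q) :
    Nat.card (MulAction.orbit Γ j) = Module.finrank ℚ_[q] (h59_locField q j) := by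
  rw [h59_orbit_eq_range q e hX j, Nat.card_range_of_injective (h59_orbMapOfAlgHom_injective q j),
    Nat.card_eq_fintype_card, AlgHom.card]

/-- The local degrees at the orbit representatives sum to `[L : ℚ]`. -/
theorem h59_sum_locDegree (e : Γ ≃* (PadicAlgCl q ≃ₐ[ℚ_[q]] PadicAlgCl q))
    (hX : ∀ (γ : Γ) (j : L →+* PadicAlgCl q),
      γ • j = ((e γ : PadicAlgCl q ≃ₐ[ℚ_[q]] PadicAlgCl q) : PadicAlgCl q →+* PadicAlgCl q).comp j) :
    ∑ᶠ O : MulAction.orbitRel.Quotient Γ (L →+* PadicAlgCl q),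
      Module.finrank ℚ_[q] (h59_locField q (Quotient.out O)) = Module.finrank ℚ L := by
  classical
  have : Finite (MulAction.orbitRel.Quotient Γ (L →+* PadicAlgCl q)) := Quotient.finite _
  have := Fintype.ofFinite (MulAction.orbitRel.Quotient Γ (L →+* PadicAlgCl q))
  rw [finsum_eq_sum_of_fintype, ← NumberField.Embeddings.card L (PadicAlgCl q),
    ← Nat.card_eq_fintype_card,
    Nat.card_congr (MulAction.selfEquivSigmaOrbits Γ (L →+* PadicAlgCl q)), Nat.card_sigma]
  refine Finset.sum_congr rfl (fun O _ => ?_)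
  rw [h59_card_orbit q e hX]

end Count

section Main

variable (q : ℕ) [Fact q.Prime] (p : ℕ) [Fact p.Prime] (L : Type*) [Field L] [NumberField L]
  {Γ : Type*} [Group Γ] [MulAction Γ (L →+* PadicAlgCl q)]
  [MulDistribMulAction Γ (PadicAlgCl q)ˣ]

/-- The local index at one embedding: `[fix(j) : fix(j)ᵖ] = p² · (p ^ [ℚ_q(jL) : ℚ_q] if q = p)`. -/
theorem h59_fix_index_pow {ζ : L} (hζ : IsPrimitiveRoot ζ p)
    (e : Γ ≃* (PadicAlgCl q ≃ₐ[ℚ_[q]] PadicAlgCl q))
    (hX : ∀ (γ : Γ) (j : L →+* PadicAlgCl q),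
      γ • j = ((e γ : PadicAlgCl q ≃ₐ[ℚ_[q]] PadicAlgCl q) : PadicAlgCl q →+* PadicAlgCl q).comp j)
    (hA : ∀ (γ : Γ) (a : (PadicAlgCl q)ˣ),
      ((γ • a : (PadicAlgCl q)ˣ) : PadicAlgCl q) = e γ (a : PadicAlgCl q))
    (j : L →+* PadicAlgCl q) :
    (powMonoidHom p : h28_fix Γ (PadicAlgCl q)ˣ j →* h28_fix Γ (PadicAlgCl q)ˣ j).range.index =
      p * p * (if q = p then p ^ Module.finrank ℚ_[q] (h59_locField q j) else 1) := by
  have hp : NeZero p := ⟨(Fact.out : p.Prime).ne_zero⟩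
  rw [← h59_index_pow_mulEquiv (h59_fixEquiv q e hX hA j) p, h37_local_pow_index q p]
  have hζ' : IsPrimitiveRoot (⟨j ζ, h59_mem_locField q j ζ⟩ : h59_locField q j) p := by
    have h1 : IsPrimitiveRoot (algebraMap (h59_locField q j) (PadicAlgCl q)
        ⟨j ζ, h59_mem_locField q j ζ⟩) p := hζ.map_of_injective j.injective
    exact IsPrimitiveRoot.of_map_of_injective h1 (FaithfulSMul.algebraMap_injective _ _)
  rw [hζ'.card_rootsOfUnity]

/-- **Index of `p`-th powers in `J_q(L)`** (`L ∋ ζ_p`):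
`[J_q : J_qᵖ] = p ^ (2 · #orbits) · p ^ [L : ℚ]` (last factor only for `q = p`). -/
theorem h59_Jq_index_pow {ζ : L} (hζ : IsPrimitiveRoot ζ p)
    (e : Γ ≃* (PadicAlgCl q ≃ₐ[ℚ_[q]] PadicAlgCl q))
    (hX : ∀ (γ : Γ) (j : L →+* PadicAlgCl q),
      γ • j = ((e γ : PadicAlgCl q ≃ₐ[ℚ_[q]] PadicAlgCl q) : PadicAlgCl q →+* PadicAlgCl q).comp j)
    (hA : ∀ (γ : Γ) (a : (PadicAlgCl q)ˣ),
      ((γ • a : (PadicAlgCl q)ˣ) : PadicAlgCl q) = e γ (a : PadicAlgCl q)) :
    (powMonoidHom p : h28_eqv Γ (L →+* PadicAlgCl q) (PadicAlgCl q)ˣ →* _).range.index =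
      p ^ (2 * Nat.card (MulAction.orbitRel.Quotient Γ (L →+* PadicAlgCl q))) *
        (if q = p then p ^ Module.finrank ℚ L else 1) := by
  classical
  have : Finite (MulAction.orbitRel.Quotient Γ (L →+* PadicAlgCl q)) := Quotient.finite _
  have := Fintype.ofFinite (MulAction.orbitRel.Quotient Γ (L →+* PadicAlgCl q))
  rw [h59_eqv_index_pow, finprod_eq_prod_of_fintype]
  simp_rw [h59_fix_index_pow q p L hζ e hX hA]
  rw [Finset.prod_mul_distrib, Finset.prod_const, Finset.card_univ, ← Nat.card_eq_fintype_card,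
    ← pow_two, ← pow_mul]
  congr 1
  by_cases hqp : q = p
  · simp only [hqp, if_true]
    rw [Finset.prod_pow_eq_pow_sum]
    congr 1
    have h := h59_sum_locDegree q e hX
    rw [finsum_eq_sum_of_fintype] at h
    subst hqp
    exact h
  · simp [hqp]

end Main

section Rank

open IsDedekindDomain NumberField

variable (L : Type*) [Field L] [NumberField L]

/-- A number field containing a primitive `p`-th root of unity, `p > 2`, is totally complex:
`2 (rank 𝓞_Lˣ + 1) = [L : ℚ]`. -/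
theorem h59_two_mul_rank_add_one {p : ℕ} (hp : 2 < p) {ζ : L} (hζ : IsPrimitiveRoot ζ p) :
    2 * (Units.rank L + 1) = Module.finrank ℚ L := by
  have h0 := NumberField.InfinitePlace.IsPrimitiveRoot.nrRealPlaces_eq_zero_of_two_lt hp hζ
  have h1 := NumberField.InfinitePlace.card_add_two_mul_card_eq_rank L
  have h2 := NumberField.InfinitePlace.card_eq_nrRealPlaces_add_nrComplexPlaces L
  have h3 : 0 < Fintype.card (NumberField.InfinitePlace L) := Fintype.card_pos
  unfold Units.rank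
  omega

/-- `[E_T : E_Tᵖ]² = p ^ ([L : ℚ] + 2 #T)` for `L ∋ ζ_p`, `p` odd. -/
theorem h59_sunit_index_pow_sq (T : Finset (HeightOneSpectrum (𝓞 L))) {p : ℕ} (hp : p.Prime)
    (hp2 : 2 < p) {ζ : L} (hζ : IsPrimitiveRoot ζ p) :
    (powMonoidHom p : ↥((T : Set (HeightOneSpectrum (𝓞 L))).unit L) →* _).range.index ^ 2 =
      p ^ (Module.finrank ℚ L + 2 * T.card) := by
  rw [h59_sunit_index_pow_prime L T p hp ζ hζ, ← pow_mul, ← h59_two_mul_rank_add_one L hp2 hζ]
  congr 1
  ring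

/-- Bookkeeping: the product over `q ∈ S` of the indices `p^(2 n_q) · (p^d if q = p)` is
`p ^ (d + 2 Σ n_q)` when `p ∈ S`. -/
theorem h59_prod_index_eq (S : Finset ℕ) {p : ℕ} (hpS : p ∈ S) (n : ℕ → ℕ) (d : ℕ) :
    ∏ q ∈ S, (p ^ (2 * n q) * (if q = p then p ^ d else 1)) = p ^ (d + 2 * ∑ q ∈ S, n q) := by
  classical
  rw [Finset.prod_mul_distrib, Finset.prod_ite_eq' S p (fun _ => p ^ d), if_pos hpS,
    Finset.prod_pow_eq_pow_sum, ← Finset.mul_sum, ← pow_add, add_comm]

end Rank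

end Fermat.Agent.S55
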