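import Mathlib
import Fermat.Agent.S55.h25_GlobDefs
import Fermat.Agent.S55.h33_ExCount
import Fermat.Agent.S55.h10_EmbPrimeOrb
import Fermat.Agent.S55.h28_SemilocJq
import Fermat.Agent.S55.h59_DivMap
import Fermat.Agent.S55.h59_JIndex

/-!
# S55 / GLOB-EX-NF: the number-field hypotheses of `h33_ex_abstract` in the carrier `h25_GlobDefs`

`L` a number field, `S` a finite set of rational primes, `d₁, d₂` the two components of
`h25_diag L S : Lˣ →* h25_J L S × Multiplicative (h25_Div L S)`.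

* `h59_d2_torsionFree` (hI), `h59_d2_range_index_ne_zero` (hD), `h59_d2_ker` (kernel = `T`-units),
  `h59_d2_ker_index_pow` (hE), `h59_mem_V_d2` (dictionary for `V`);
* `h59_J_index_pow`, `h59_hJ` : `[J : Jᵖ] = p ^ ([L:ℚ] + 2 #T) = [E : Eᵖ]²`;
* `h59_ex_of_norm_groups` : `h33_ex_abstract` with all arithmetic hypotheses discharged.
-/

set_option autoImplicit false

open IsDedekindDomain NumberField
open scoped nonZeroDivisors

namespace Fermat.Agent.S55

section Div

variable (L : Type*) [Field L] [NumberField L] (S : Finset Nat.Primes)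

/-- The `J`-component of the diagonal. -/
noncomputable def h59_d1 : Lˣ →* h25_J L S := (MonoidHom.fst _ _).comp (h25_diag L S)

/-- The divisor component of the diagonal. -/
noncomputable def h59_d2 : Lˣ →* Multiplicative (h25_Div L S) :=
  (MonoidHom.snd _ _).comp (h25_diag L S)

theorem h59_diag_eq : h33_diag (h59_d1 L S) (h59_d2 L S) = h25_diag L S := rfl

theorem h59_d2_apply (x : Lˣ) : h59_d2 L S x = Multiplicative.ofAdd (h25_div L S x) := rfl

theorem h59_d1_apply (x : Lˣ) (q : S) (j : L →+* PadicAlgCl ((q : Nat.Primes) : ℕ)) :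
    ((h59_d1 L S x q).1 j : PadicAlgCl ((q : Nat.Primes) : ℕ)) = j (x : L) := rfl

/-- The divisor component is the inverse of the generic divisor map `h59_divP`. -/
theorem h59_d2_eq_inv (x : Lˣ) :
    h59_d2 L S x = (h59_divP (𝓞 L) L (fun v => ¬ h25_above L S v) x)⁻¹ := by
  apply Multiplicative.toAdd.injective
  ext v
  rw [toAdd_inv, Finsupp.neg_apply, h59_divP_apply, h46_valuationOfNeZero_eq_count, toAdd_ofAdd,
    neg_neg]
  rfl

/-- The primes of `L` above `S`, as a `Finset`. -/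
noncomputable def h59_T : Finset (HeightOneSpectrum (𝓞 L)) :=
  h59_primesAbove L (S.image (fun q : Nat.Primes => (q : ℕ)))

theorem h59_mem_T (v : HeightOneSpectrum (𝓞 L)) : v ∈ h59_T L S ↔ h25_above L S v := by
  rw [h59_T, h59_mem_primesAbove]
  constructor
  · rintro ⟨q, hq, _, hv⟩
    obtain ⟨q', hq', rfl⟩ := Finset.mem_image.mp hq
    exact ⟨q', hq', hv⟩
  · rintro ⟨q, hq, hv⟩
    exact ⟨q, Finset.mem_image_of_mem _ hq, q.2.ne_zero, hv⟩

/-- (a) The kernel of the divisor component is the group of `T`-units. -/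
theorem h59_d2_ker :
    (h59_d2 L S).ker = ((h59_T L S : Finset _) : Set (HeightOneSpectrum (𝓞 L))).unit L := by
  rw [← h59_divP_ker (𝓞 L) L (fun v => ¬ h25_above L S v) _
    (fun v => by rw [Finset.mem_coe, h59_mem_T, not_not])]
  ext x
  rw [MonoidHom.mem_ker, MonoidHom.mem_ker, h59_d2_eq_inv, inv_eq_one]

/-- The range of the divisor component is the range of `h59_divP`. -/
theorem h59_d2_range :
    (h59_d2 L S).range = (h59_divP (𝓞 L) L (fun v => ¬ h25_above L S v)).range := by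
  ext y
  constructor
  · rintro ⟨x, rfl⟩
    exact ⟨x⁻¹, by rw [map_inv, h59_d2_eq_inv]⟩
  · rintro ⟨x, rfl⟩
    exact ⟨x⁻¹, by rw [h59_d2_eq_inv, map_inv, inv_inv]⟩

/-- (hD) The cokernel of the divisor component (the `S`-class group) is finite. -/
theorem h59_d2_range_index_ne_zero : (h59_d2 L S).range.index ≠ 0 := by
  rw [h59_d2_range]
  exact h59_divP_range_index_ne_zero (𝓞 L) L _

set_option linter.unusedSectionVars false in
/-- (hI) The divisor group has no torsion. -/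
theorem h59_d2_torsionFree {p : ℕ} (hp : p ≠ 0) (i : Multiplicative (h25_Div L S))
    (hi : i ^ p = 1) : i = 1 :=
  h59_divP_torsionFree p hp i hi

/-- (d) Dictionary: `V = {x | p ∣ ord_v x for all v not above S}`. -/
theorem h59_mem_V_d2 (p : ℕ) (x : Lˣ) :
    x ∈ h33_V (h59_d2 L S) p ↔ ∀ v : h25_Pl L S,
      (p : ℤ) ∣ FractionalIdeal.count L v.1 (FractionalIdeal.spanSingleton (𝓞 L)⁰ (x : L)) := by
  rw [h33_V, Subgroup.mem_comap, h59_div_mem_range_pow_iff]
  rfl

/-- (hE) The index of the `p`-th powers of the `T`-units, for the kernel of the divisor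
component. -/
theorem h59_d2_ker_index_pow {p : ℕ} (hp : p.Prime) {ζ : L} (hζ : IsPrimitiveRoot ζ p) :
    (powMonoidHom p : (h59_d2 L S).ker →* (h59_d2 L S).ker).range.index =
      p ^ (Units.rank L + (h59_T L S).card + 1) := by
  rw [h59_index_pow_congr (h59_d2_ker L S) p, h59_sunit_index_pow_prime L (h59_T L S) p hp ζ hζ]

theorem h59_d2_ker_index_pow_ne_zero {p : ℕ} (hp : p.Prime) {ζ : L} (hζ : IsPrimitiveRoot ζ p) :
    (powMonoidHom p : (h59_d2 L S).ker →* (h59_d2 L S).ker).range.index ≠ 0 := by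
  rw [h59_d2_ker_index_pow L S hp hζ]
  exact pow_ne_zero _ hp.ne_zero

end Div

section J

variable (L : Type*) [Field L] [NumberField L]

attribute [local instance] h28_embAction

omit [NumberField L] in
/-- `h25_Jq L q` is helper28's group of equivariant functions. -/
theorem h59_Jq_eq_eqv (q : ℕ) [Fact q.Prime] :
    h25_Jq L q = h28_eqv (PadicAlgCl q ≃ₐ[ℚ_[q]] PadicAlgCl q) (L →+* PadicAlgCl q)
      (PadicAlgCl q)ˣ := by
  ext φ
  constructor
  · intro h τ j
    exact Units.ext (h τ j)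
  · intro h τ j
    exact congrArg (fun u : (PadicAlgCl q)ˣ => (u : PadicAlgCl q)) (h τ j)

/-- The index of `p`-th powers in `h25_Jq L q`, in terms of the primes of `L` above `q`. -/
theorem h59_Jq_index_pow_primes (q : ℕ) [Fact q.Prime] (p : ℕ) [Fact p.Prime] {ζ : L}
    (hζ : IsPrimitiveRoot ζ p) :
    (powMonoidHom p : h25_Jq L q →* h25_Jq L q).range.index =
      p ^ (2 * {w : HeightOneSpectrum (𝓞 L) | ((q : ℕ) : 𝓞 L) ∈ w.asIdeal}.ncard) *
        (if q = p then p ^ Module.finrank ℚ L else 1) := by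
  rw [h59_index_pow_congr (h59_Jq_eq_eqv L q) p,
    h59_Jq_index_pow q p L hζ (MulEquiv.refl _) (fun _ _ => rfl) (fun _ _ => rfl),
    h10_card_orbits q (K := L) (Γ := PadicAlgCl q ≃ₐ[ℚ_[q]] PadicAlgCl q) (fun τ => τ)
      (fun τ => ⟨τ, rfl⟩) (fun _ _ => rfl)]

end J

section Main

variable (L : Type*) [Field L] [NumberField L] (S : Finset Nat.Primes)

/-- The primes of `L` above one rational prime, as a `Finset`. -/
noncomputable def h59_Tq (q : Nat.Primes) : Finset (HeightOneSpectrum (𝓞 L)) :=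
  h59_primesAbove L {(q : ℕ)}

theorem h59_mem_Tq (q : Nat.Primes) (v : HeightOneSpectrum (𝓞 L)) :
    v ∈ h59_Tq L q ↔ (((q : Nat.Primes) : ℕ) : 𝓞 L) ∈ v.asIdeal := by
  rw [h59_Tq, h59_mem_primesAbove]
  constructor
  · rintro ⟨q', hq', _, hv⟩
    rw [Finset.mem_singleton] at hq'
    subst hq'
    exact hv
  · intro hv
    exact ⟨q, Finset.mem_singleton_self _, q.2.ne_zero, hv⟩

theorem h59_Tq_card (q : Nat.Primes) :
    (h59_Tq L q).card =
      {w : HeightOneSpectrum (𝓞 L) | (((q : Nat.Primes) : ℕ) : 𝓞 L) ∈ w.asIdeal}.ncard := by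
  rw [← Set.ncard_coe_finset]
  congr 1
  ext v
  rw [Finset.mem_coe, h59_mem_Tq]
  rfl

/-- A prime of `L` lies above at most one rational prime. -/
theorem h59_Tq_disjoint {q q' : Nat.Primes} (h : q ≠ q') :
    Disjoint (h59_Tq L q) (h59_Tq L q') := by
  rw [Finset.disjoint_left]
  intro v hv hv'
  rw [h59_mem_Tq] at hv hv'
  have hcop : Nat.Coprime (q : ℕ) (q' : ℕ) :=
    (Nat.coprime_primes q.2 q'.2).2 (fun e => h (Subtype.ext e))
  obtain ⟨a, b, hab⟩ := (Nat.isCoprime_iff_coprime.2 hcop)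
  have h1 : (1 : 𝓞 L) ∈ v.asIdeal := by
    have h2 : ((a : ℤ) : 𝓞 L) * (((q : ℕ) : 𝓞 L)) + ((b : ℤ) : 𝓞 L) * (((q' : ℕ) : 𝓞 L)) = 1 := by
      have := congrArg (fun z : ℤ => (z : 𝓞 L)) hab
      push_cast at this
      exact this
    rw [← h2]
    exact v.asIdeal.add_mem (v.asIdeal.mul_mem_left _ hv) (v.asIdeal.mul_mem_left _ hv')
  exact v.isPrime.ne_top ((Ideal.eq_top_iff_one _).2 h1)

/-- `#T = Σ_{q ∈ S} #{primes above q}`. -/
theorem h59_T_card :
    (h59_T L S).card = ∑ q ∈ S,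
      {w : HeightOneSpectrum (𝓞 L) | (((q : Nat.Primes) : ℕ) : 𝓞 L) ∈ w.asIdeal}.ncard := by
  classical
  have h : h59_T L S = S.biUnion (h59_Tq L) := by
    ext v
    rw [h59_mem_T, Finset.mem_biUnion]
    constructor
    · rintro ⟨q, hq, hv⟩
      exact ⟨q, hq, (h59_mem_Tq L q v).2 hv⟩
    · rintro ⟨q, hq, hv⟩
      exact ⟨q, hq, (h59_mem_Tq L q v).1 hv⟩
  rw [h, Finset.card_biUnion (fun q _ q' _ hqq' => h59_Tq_disjoint L hqq')]
  exact Finset.sum_congr rfl (fun q _ => h59_Tq_card L q)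

/-- **Index of `p`-th powers in `J = ∏_{q ∈ S} J_q(L)`**: `p ^ ([L:ℚ] + 2 #T)` when `p ∈ S`,
`ζ_p ∈ L`. -/
theorem h59_J_index_pow {p : ℕ} (hp : p.Prime) (hpS : (⟨p, hp⟩ : Nat.Primes) ∈ S) {ζ : L}
    (hζ : IsPrimitiveRoot ζ p) :
    (powMonoidHom p : h25_J L S →* h25_J L S).range.index =
      p ^ (Module.finrank ℚ L + 2 * (h59_T L S).card) := by
  classical
  have : Fact p.Prime := ⟨hp⟩
  rw [h59_index_pow_pi (fun q : S => h25_Jq L ((q : Nat.Primes) : ℕ)) p,
    finprod_eq_prod_of_fintype]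
  simp_rw [h59_Jq_index_pow_primes L _ p hζ]
  rw [Finset.prod_coe_sort S (fun q : Nat.Primes =>
    p ^ (2 * {w : HeightOneSpectrum (𝓞 L) | (((q : Nat.Primes) : ℕ) : 𝓞 L) ∈ w.asIdeal}.ncard) *
      (if ((q : Nat.Primes) : ℕ) = p then p ^ Module.finrank ℚ L else 1)),
    Finset.prod_mul_distrib, Finset.prod_pow_eq_pow_sum, ← Finset.mul_sum, ← h59_T_card]
  have h2 : ∏ q ∈ S, (if ((q : Nat.Primes) : ℕ) = p then p ^ Module.finrank ℚ L else 1) =
      p ^ Module.finrank ℚ L := by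
    have h3 := Finset.prod_eq_single_of_mem (s := S)
      (f := fun q : Nat.Primes => if (q : ℕ) = p then p ^ Module.finrank ℚ L else 1)
      (⟨p, hp⟩ : Nat.Primes) hpS (fun q _ hq => if_neg (fun e => hq (Subtype.ext e)))
    exact h3.trans (if_pos rfl)
  rw [h2, ← pow_add, add_comm]

/-- **(hJ)** `[J : Jᵖ] = [E : Eᵖ]²` for `p` odd, `p ∈ S`, `ζ_p ∈ L`. -/
theorem h59_hJ {p : ℕ} (hp : p.Prime) (hp2 : 2 < p) (hpS : (⟨p, hp⟩ : Nat.Primes) ∈ S) {ζ : L}
    (hζ : IsPrimitiveRoot ζ p) :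
    (powMonoidHom p : h25_J L S →* h25_J L S).range.index =
      (powMonoidHom p : (h59_d2 L S).ker →* (h59_d2 L S).ker).range.index ^ 2 := by
  rw [h59_J_index_pow L S hp hpS hζ, h59_index_pow_congr (h59_d2_ker L S) p,
    h59_sunit_index_pow_sq L (h59_T L S) hp hp2 hζ]

/-- **Existence mod `p` in the carrier of `h25_GlobDefs`**, all arithmetic hypotheses of
`h33_ex_abstract` discharged: if `N₁ ⊇ Cᵖ` has index `[V : Lˣᵖ]` and `N₂ ⊇ Cᵖ · J` has index
`[V_split : Lˣᵖ]`, then `N₁ = Cᵖ`. -/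
theorem h59_ex_of_norm_groups {p : ℕ} (hp : p.Prime) (hp2 : 2 < p)
    (hpS : (⟨p, hp⟩ : Nat.Primes) ∈ S) {ζ : L} (hζ : IsPrimitiveRoot ζ p)
    (N₁ N₂ : Subgroup (h25_C L S))
    (h₁ : (powMonoidHom p : h25_C L S →* h25_C L S).range ≤ N₁)
    (h₁i : N₁.index = (powMonoidHom p : Lˣ →* Lˣ).range.relIndex (h33_V (h59_d2 L S) p))
    (h₂ : (powMonoidHom p : h25_C L S →* h25_C L S).range ≤ N₂)
    (h₂J : ∀ j : h25_J L S, h25_mk L S (j, 1) ∈ N₂)
    (h₂i : N₂.index = (powMonoidHom p : Lˣ →* Lˣ).range.relIndex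
      (h33_Vsplit (h59_d1 L S) (h59_d2 L S) p)) :
    N₁ = (powMonoidHom p : h25_C L S →* h25_C L S).range :=
  h33_ex_abstract (h59_d1 L S) (h59_d2 L S) p (h59_d2_torsionFree L S hp.ne_zero)
    (h59_d2_range_index_ne_zero L S) (h59_d2_ker_index_pow_ne_zero L S hp hζ)
    (h59_hJ L S hp hp2 hpS hζ) N₁ N₂ h₁ h₁i h₂ h₂J h₂i

end Main

end Fermat.Agent.S55
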