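import Fermat.Agent.S55.h33_GlobKumDefs
import Fermat.Agent.S55.h59_ExNF

/-!
# S55 / GLOB-EX-NUM: the numerical interface `h33_HypNum S p`

At a level `L ∋ ζ_p` (`p` odd, `p ∈ S`): the `S`-class group is finite, `[E_S : E_Sᵖ]` is finite
and `[J : Jᵖ] = [E_S : E_Sᵖ]²`.
-/

set_option autoImplicit false

namespace Fermat.Agent.S55

/-- **(NUM)** the numerical inputs of the existence count, for `p` odd and `p ∈ S`. -/
theorem h59_hypNum (S : Finset Nat.Primes) {p : ℕ} (hp : p.Prime) (hp2 : p ≠ 2)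
    (hpS : (⟨p, hp⟩ : Nat.Primes) ∈ S) : h33_HypNum S p := by
  intro L _ _ hζ
  obtain ⟨ζ, hζ⟩ := hζ
  have h2 : 2 < p := lt_of_le_of_ne hp.two_le (Ne.symm hp2)
  exact ⟨h59_d2_range_index_ne_zero ↥L S, h59_d2_ker_index_pow_ne_zero ↥L S hp hζ,
    h59_hJ ↥L S hp h2 hpS hζ⟩

end Fermat.Agent.S55
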