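import Fermat.Agent.S55.h33_GlobKumSeq
import Fermat.Agent.S55.h41_DescLevel
import Fermat.Agent.S55.h2_PLoc
import Fermat.Agent.S55.h94_EmbCoindGal
import Fermat.Agent.S55.h63_LocAmb
import Fermat.Agent.S55.h59_HypNum
import Fermat.Agent.S55.h37_DictVal

/-!
# S55 / GLOB-AMB, KUM fields: model-independent cores

Cores of the fields `fin`, `kum_cap`, `kum_diag`, `kum_ker` of `h12_LevFacts` for the model
`C L = h2_PL p (Additive (h25_C ↥L S))`, `J q L = Additive (h25_Jq ↥L q)`,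
`e q L = evaluation at h94_emb q L 1`, `XX q = h63_XX q`, `zz q = h63_zz p q`:

* `h33_core_fin` : `Finite {c : h2_PL p (Additive (h25_C ↥L S)) // p • c = 0}` at every level;
* `h33_core_cap` : a `p`-torsion class of `h2_PL p (Additive (h25_C ↥L S))` is, at a higher
  level `L'`, `h2_PL.j (ofMul (h25_mk ↥L' S (φ, 1)))` with `φ ^ p = 1`;
* `h33_sum_single` : `∑ q, j (ofMul (mk (Pi.mulSingle q (φ q), 1))) = j (ofMul (mk (φ, 1)))`;
* `h33_core_diag`, `h33_core_diag_XX` : the diagonal roots of unity die in `C_L`;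
* `h33_core_ker`, `h33_core_ker_XX` : the kernel of `J[p] → C ⊗ ℤ_(p)` is the diagonal `μ_p`;
* `h33_ext_ext` (the extension maps compose), `h33_dvd_mem_of_pPrime`.
-/

set_option autoImplicit false

open ExtCitation

namespace Fermat.Agent.S55

local notation "Qb" => AlgebraicClosure ℚ
local notation "GQ" => (AlgebraicClosure ℚ ≃ₐ[ℚ] AlgebraicClosure ℚ)

section Basic

variable (S : Finset Nat.Primes) (p : ℕ) [Fact p.Prime]

theorem h33_dvd_mem_of_pPrime (hpS : pPrime p ∈ S) :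
    ∀ q : Nat.Primes, (q : ℕ) ∣ p → q ∈ S := by
  intro q hq
  have h2 : (q : ℕ) = p := (Nat.prime_dvd_prime_iff_eq q.2 Fact.out).mp hq
  have h3 : q = pPrime p := Subtype.ext h2
  rw [h3]
  exact hpS

omit [Fact p.Prime] in
/-- The extension maps compose. -/
theorem h33_ext_ext {L L' L'' : IntermediateField ℚ Qb} [NumberField ↥L] [NumberField ↥L']
    [NumberField ↥L''] (h : L ≤ L') (h' : L' ≤ L'') (c : h25_C ↥L S) :
    h33_ext S h' (h33_ext S h c) = h33_ext S (h.trans h') c := by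
  unfold h33_ext
  rw [← MonoidHom.comp_apply, ← h66_Cmap_comp]
  rfl

/-- **core-fin**: the `p`-torsion of the `p`-localised class module of a level is finite. -/
theorem h33_core_fin (hp2 : p ≠ 2) (hpS : pPrime p ∈ S)
    (L : IntermediateField ℚ Qb) [NumberField ↥L] (hL : h25_IsLevel S L) :
    Finite {c : h2_PL p (Additive (h25_C ↥L S)) // p • c = 0} := by
  have hp : p.Prime := Fact.out
  have hS : S.Nonempty := ⟨_, hpS⟩
  obtain ⟨L₁, hle, hL₁, hζ⟩ := h33_exists_level_zeta S p hp.pos (h33_dvd_mem_of_pPrime S p hpS) L hL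
  have nf₁ : NumberField ↥L₁ := h33_level_numberField hL₁
  have hgal₁ : IsGalois ℚ ↥L₁ := hL₁.2
  have hfin₁ : Finite {c : h25_C ↥L₁ S // c ^ p = 1} :=
    h33_glob_fin_of S p (h59_hypNum S hp hp2 hpS) L₁ hL₁ hζ
  have hinj : Function.Injective (h33_ext S hle) := h41_ext_injective S hS hle
  -- the `p`-torsion of `C_L`
  have hfin : Finite {c : Additive (h25_C ↥L S) // p • c = 0} := by
    refine Finite.of_injective
      (fun c : {c : Additive (h25_C ↥L S) // p • c = 0} =>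
        (⟨h33_ext S hle (Additive.toMul c.1), by
          rw [← map_pow]
          have h1 : Additive.toMul c.1 ^ p = 1 := c.2
          rw [h1, map_one]⟩ : {c : h25_C ↥L₁ S // c ^ p = 1})) ?_
    intro c d hcd
    have h1 : h33_ext S hle (Additive.toMul c.1) = h33_ext S hle (Additive.toMul d.1) :=
      congrArg Subtype.val hcd
    exact Subtype.ext (hinj h1)
  refine Finite.of_surjective
    (fun c : {c : Additive (h25_C ↥L S) // p • c = 0} =>
      (⟨h2_PL.j c.1, by rw [← map_nsmul, c.2, map_zero]⟩ :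
        {c : h2_PL p (Additive (h25_C ↥L S)) // p • c = 0})) ?_
  intro x
  obtain ⟨c, hc, hcx⟩ := h2_PL.exists_j_eq_of_torsion x.1 x.2
  exact ⟨⟨c, hc⟩, Subtype.ext hcx⟩

/-- **core-cap**: a `p`-torsion class of the `p`-localised class module of a level becomes, at
a higher level, the class of a `p`-torsion element of `J`. -/
theorem h33_core_cap (hp2 : p ≠ 2) (hpS : pPrime p ∈ S)
    (L : IntermediateField ℚ Qb) [NumberField ↥L] (hL : h25_IsLevel S L)
    (c : h2_PL p (Additive (h25_C ↥L S))) (hc : p • c = 0) :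
    ∃ (L' : IntermediateField ℚ Qb) (_ : NumberField ↥L') (h : L ≤ L'), h25_IsLevel S L' ∧
      ∃ φ : h25_J ↥L' S, φ ^ p = 1 ∧
        h2_PL.map (MonoidHom.toAdditive (h33_ext S h)) c
          = h2_PL.j (Additive.ofMul (h25_mk ↥L' S (φ, 1))) := by
  have hp : p.Prime := Fact.out
  have hpS' := h33_dvd_mem_of_pPrime S p hpS
  obtain ⟨c₁, hc₁, rfl⟩ := h2_PL.exists_j_eq_of_torsion c hc
  obtain ⟨L₁, hle, hL₁, hζ⟩ := h33_exists_level_zeta S p hp.pos hpS' L hL
  have nf₁ : NumberField ↥L₁ := h33_level_numberField hL₁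
  have hcap := h33_glob_kum_cap_of S p hpS' (h59_hypNum S hp hp2 hpS) (h37_hypVal S p) L₁ hL₁ hζ
  obtain ⟨L', nf', hle', hL', hcap'⟩ := hcap
  have h1 : h33_ext S hle (Additive.toMul c₁) ^ p = 1 := by
    rw [← map_pow]
    have h2 : Additive.toMul c₁ ^ p = 1 := hc₁
    rw [h2, map_one]
  have hcap'' := hcap' _ h1
  obtain ⟨φ, hφ, hφc⟩ := hcap''
  refine ⟨L', nf', hle.trans hle', hL', φ, hφ, ?_⟩
  rw [h2_PL.map_j, ← hφc, h33_ext_ext]
  rfl

end Basic

section Sum

variable (K : Type) [Field K] [NumberField K] (S : Finset Nat.Primes) (p : ℕ) [Fact p.Prime]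

/-- The sum of the `q`-components: `∑_q j (mk (single_q (φ q), 1)) = j (mk (φ, 1))`. -/
theorem h33_sum_single [DecidableEq ↥S] (φ : h25_J K S) :
    ∑ q : ↥S, (h2_PL.j (Additive.ofMul (h25_mk K S (Pi.mulSingle q (φ q), 1))) :
        h2_PL p (Additive (h25_C K S)))
      = h2_PL.j (Additive.ofMul (h25_mk K S (φ, 1))) := by
  rw [← map_sum, ← ofMul_prod, ← map_prod]
  congr 3
  refine Prod.ext ?_ ?_
  · rw [Prod.fst_prod]
    exact Finset.univ_prod_mulSingle φ
  · rw [Prod.snd_prod]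
    simp

end Sum

section Diag

variable (S : Finset Nat.Primes) (p : ℕ) [Fact p.Prime]

/-- **core-diag** (function form): a family `φ ∈ J_L` whose values on the embeddings
`x ↦ ι_q (g x)` are the images of `g ζ`, `ζ ^ p = 1`, dies in `C_L`. -/
theorem h33_core_diag (L : IntermediateField ℚ Qb) [NumberField ↥L] (ζ : Qb) (hζ : ζ ^ p = 1)
    (φ : h25_J ↥L S)
    (hφ : ∀ (q : S) (g : GQ),
      ((((φ q).1 (h94_emb ((q : Nat.Primes) : ℕ) L g) : (PadicAlgCl ((q : Nat.Primes) : ℕ))ˣ)) :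
        PadicAlgCl ((q : Nat.Primes) : ℕ)) = padicEmbedding ((q : Nat.Primes) : ℕ) (g ζ)) :
    h25_mk ↥L S (φ, 1) = 1 := by
  have hp : 0 < p := (Fact.out : p.Prime).pos
  rcases S.eq_empty_or_nonempty with hS | hS
  · subst hS
    have h1 : φ = 1 := by
      funext q
      exact absurd q.2 (Finset.notMem_empty _)
    rw [h1]
    exact map_one _
  · obtain ⟨q₀, hq₀⟩ := hS
    have hgal : IsGalois ℚ Qb := Fermat.Agent.S13.h24_isGalois_Qbar
    -- `ζ ∈ L`
    have hfix : ∀ s ∈ L.fixingSubgroup, s ζ = ζ := by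
      intro s hs
      have h1 := hφ ⟨q₀, hq₀⟩ s
      have h2 := hφ ⟨q₀, hq₀⟩ 1
      have h3 : h94_emb (q₀ : ℕ) L s = h94_emb (q₀ : ℕ) L 1 := by
        have := h94_emb_mul_fix (q := (q₀ : ℕ)) (F := L) 1 hs
        rwa [one_mul] at this
      rw [h3, h2] at h1
      exact ((padicEmbedding (q₀ : ℕ)).injective h1).symm
    have hmem : ζ ∈ L := by
      rw [← InfiniteGalois.fixedField_fixingSubgroup L, IntermediateField.mem_fixedField_iff]
      exact hfix
    have hζ0 : (⟨ζ, hmem⟩ : ↥L) ≠ 0 := by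
      intro h0
      have h1 : ζ = 0 := congrArg Subtype.val h0
      rw [h1, zero_pow hp.ne'] at hζ
      exact zero_ne_one hζ
    have ha : (Units.mk0 (⟨ζ, hmem⟩ : ↥L) hζ0) ^ p = 1 := by
      apply Units.ext
      apply Subtype.ext
      rw [Units.val_pow_eq_pow_val, Units.val_mk0, IntermediateField.coe_pow]
      exact hζ
    have hφa : φ = h33_dJ ↥L S (Units.mk0 (⟨ζ, hmem⟩ : ↥L) hζ0) := by
      funext q
      apply Subtype.ext
      funext j
      apply Units.ext
      have hsurj := h94_emb_surjective ((q : Nat.Primes) : ℕ) L j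
      obtain ⟨g, hg⟩ := hsurj
      subst hg
      rw [hφ q g, h33_dJ_apply]
      rfl
    rw [hφa]
    exact h33_kum_diag ↥L S p hp _ ha

/-- **core-ker** (function form): a `p`-torsion family `φ ∈ J_L` whose class in `C_L` is
killed by an integer prime to `p` is the diagonal image of a `p`-th root of unity. -/
theorem h33_core_ker (hS : S.Nonempty) (L : IntermediateField ℚ Qb) [NumberField ↥L]
    (φ : h25_J ↥L S) (hφ : φ ^ p = 1) (m : ℕ) (hm : m.Coprime p)
    (h : h25_mk ↥L S (φ, 1) ^ m = 1) :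
    ∃ b : Qb, b ^ p = 1 ∧ ∀ (q : S) (g : GQ),
      ((((φ q).1 (h94_emb ((q : Nat.Primes) : ℕ) L g) : (PadicAlgCl ((q : Nat.Primes) : ℕ))ˣ)) :
        PadicAlgCl ((q : Nat.Primes) : ℕ)) = padicEmbedding ((q : Nat.Primes) : ℕ) (g b) := by
  have hp : p.Prime := Fact.out
  have h1 : h25_mk ↥L S (φ ^ m, 1) = 1 := by
    have hx : ((φ ^ m, 1) : h25_X ↥L S) = (φ, 1) ^ m := Prod.ext rfl (one_pow m).symm
    rw [hx, map_pow]
    exact h
  have h2 : (φ ^ m) ^ p = 1 := by rw [← pow_mul, mul_comm, pow_mul, hφ, one_pow]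
  obtain ⟨a, ha, hφa⟩ := h33_kum_ker ↥L S p hS (φ ^ m) h2 h1
  obtain ⟨m', -, hm'⟩ := Nat.exists_mul_mod_eq_one_of_coprime hm hp.one_lt
  have h3 : φ ^ (m * m') = φ := by
    have h4 : m * m' = p * (m * m' / p) + 1 := by
      have := Nat.div_add_mod (m * m') p
      omega
    rw [h4, pow_succ, pow_mul, hφ, one_pow, one_mul]
  have hφa' : φ = h33_dJ ↥L S (a ^ m') := by
    rw [map_pow, ← hφa, ← pow_mul, h3]
  refine ⟨(((a ^ m' : (↥L)ˣ) : ↥L) : Qb), ?_, fun q g => ?_⟩
  · have h5 : (a ^ m') ^ p = 1 := by rw [← pow_mul, mul_comm, pow_mul, ha, one_pow]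
    have h6 := congrArg (fun u : (↥L)ˣ => (((u : ↥L)) : Qb)) h5
    simpa using h6
  · rw [hφa', h33_dJ_apply]
    rfl

end Diag

section XXForm

variable (S : Finset Nat.Primes) (p : ℕ) [Fact p.Prime]

/-- **core-diag**, in the language of `h63_XX` / `h63_zz` / `cycloChar`. -/
theorem h33_core_diag_XX (L : IntermediateField ℚ Qb) [NumberField ↥L] (φ : h25_J ↥L S)
    (hφ : ∀ (q : S) (g : GQ),
      (h63_XX.ofUnit ((φ q).1 (h94_emb ((q : Nat.Primes) : ℕ) L g)) : h63_XX (q : Nat.Primes))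
        = (cycloChar p g : ZMod p).val • h63_zz p (q : Nat.Primes)) :
    h25_mk ↥L S (φ, 1) = 1 := by
  refine h33_core_diag S p L (h63_zeta p) (h63_zeta_spec p).pow_eq_one φ (fun q g => ?_)
  have h1 := congrArg (fun x : h63_XX (q : Nat.Primes) =>
    ((h63_XX.toUnit x : (PadicAlgCl ((q : Nat.Primes) : ℕ))ˣ) : PadicAlgCl ((q : Nat.Primes) : ℕ)))
    (hφ q g)
  have h2 : ((((φ q).1 (h94_emb ((q : Nat.Primes) : ℕ) L g) :
      (PadicAlgCl ((q : Nat.Primes) : ℕ))ˣ)) : PadicAlgCl ((q : Nat.Primes) : ℕ))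
      = padicEmbedding ((q : Nat.Primes) : ℕ) (h63_zeta p) ^ (cycloChar p g : ZMod p).val := by
    rw [← h63_zetaUnit_coe, ← Units.val_pow_eq_pow_val]
    exact h1
  rw [h2, h63_zeta_map p g, map_pow]

/-- **core-ker**, in the language of `h63_XX` / `h63_zz` / `cycloChar`. -/
theorem h33_core_ker_XX (hS : S.Nonempty) (L : IntermediateField ℚ Qb) [NumberField ↥L]
    (φ : h25_J ↥L S) (hφ : φ ^ p = 1) (m : ℕ) (hm : m.Coprime p)
    (h : h25_mk ↥L S (φ, 1) ^ m = 1) :
    ∃ n : ℕ, ∀ (q : S) (g : GQ),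
      (h63_XX.ofUnit ((φ q).1 (h94_emb ((q : Nat.Primes) : ℕ) L g)) : h63_XX (q : Nat.Primes))
        = (n * (cycloChar p g : ZMod p).val) • h63_zz p (q : Nat.Primes) := by
  have hp : p.Prime := Fact.out
  have : NeZero p := ⟨hp.ne_zero⟩
  obtain ⟨b, hb, hφb⟩ := h33_core_ker S p hS L φ hφ m hm h
  obtain ⟨n, -, hn⟩ := (h63_zeta_spec p).eq_pow_of_pow_eq_one hb
  refine ⟨n, fun q g => ?_⟩
  apply h63_XX.toUnit_injective
  apply Units.ext
  rw [h63_XX.toUnit_ofUnit, hφb q g, h63_XX.toUnit_nsmul, h63_toUnit_zz, Units.val_pow_eq_pow_val,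
    h63_zetaUnit_coe, ← hn, map_pow, h63_zeta_map p g, ← pow_mul, map_pow, mul_comm]

end XXForm

end Fermat.Agent.S55
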