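import Mathlib

/-!
# S55 / GLOB-UNORM (UC): relative norms when the decomposition groups lie in `H`

Abstract semi-local core of "`J ⊆` norms in the `G`-language".  `Γ` (local Galois group) and
`G` (global Galois group) act on a set `X` (the embeddings) and commute; `H ≤ G` contains every
"decomposition group" (`γ • x = g • x → g ∈ H`).  Then every `Γ`-equivariant, `G`-invariant
function `ψ : X → A` is the relative norm `∏_{t ∈ G/H} φ' (t⁻¹ • x)` of a `Γ`-equivariant,
`H`-invariant function `φ'`.  No intermediate field, no normality of `H`, no finiteness.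

* `h33_exists_relnorm_of_decomp` : the statement, for an arbitrary family `ρ : Γ → A → A` of
  maps fixing `1` in place of an action on the values;
* `h33_exists_relnorm_of_decomp'` : the same for a `MulDistribMulAction Γ A`.
-/

set_option autoImplicit false

namespace Fermat.Agent.S55

section DecompNorm

variable {Γ G X A : Type*} [Group Γ] [Group G] [MulAction Γ X] [MulAction G X]
  [SMulCommClass Γ G X] [CommMonoid A]

/-- **Relative norms from a subgroup containing the decomposition groups** (semi-local form;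
`ρ` is any "action" of `Γ` on the values which fixes `1`). -/
theorem h33_exists_relnorm_of_decomp (H : Subgroup G)
    (hdec : ∀ (x : X) (γ : Γ) (g : G), γ • x = g • x → g ∈ H)
    (ρ : Γ → A → A) (hρ : ∀ γ : Γ, ρ γ 1 = 1)
    (ψ : X → A) (hψΓ : ∀ (γ : Γ) (x : X), ψ (γ • x) = ρ γ (ψ x))
    (hψG : ∀ (g : G) (x : X), ψ (g • x) = ψ x) :
    ∃ φ' : X → A, (∀ (γ : Γ) (x : X), φ' (γ • x) = ρ γ (φ' x)) ∧
      (∀ h ∈ H, ∀ x : X, φ' (h • x) = φ' x) ∧
      ∀ x : X, ∏ᶠ t : G ⧸ H, φ' ((Quotient.out t : G)⁻¹ • x) = ψ x := by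
  classical
  have : SMulCommClass G Γ X := SMulCommClass.symm Γ G X
  -- the orbit relation of `Γ × G`
  let r : Setoid X :=
    { r := fun x y => ∃ (γ : Γ) (g : G), γ • g • x = y
      iseqv :=
        { refl := fun x => ⟨1, 1, by simp⟩
          symm := by
            rintro x y ⟨γ, g, rfl⟩
            refine ⟨γ⁻¹, g⁻¹, ?_⟩
            rw [smul_comm γ g x, inv_smul_smul, inv_smul_smul]
          trans := by
            rintro x y z ⟨γ, g, rfl⟩ ⟨γ', g', rfl⟩
            refine ⟨γ' * γ, g' * g, ?_⟩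
            rw [mul_smul, mul_smul, smul_comm g' γ (g • x)] } }
  let rep : X → X := fun x => Quotient.out (Quotient.mk r x)
  have hrep : ∀ x, ∃ (γ : Γ) (g : G), γ • g • rep x = x := fun x =>
    Quotient.exact (Quotient.out_eq (Quotient.mk r x))
  have hrepΓ : ∀ (γ : Γ) (x : X), rep (γ • x) = rep x := by
    intro γ x
    have : Quotient.mk r (γ • x) = Quotient.mk r x :=
      Quotient.sound ⟨γ⁻¹, 1, by rw [one_smul, inv_smul_smul]⟩
    show Quotient.out (Quotient.mk r (γ • x)) = Quotient.out (Quotient.mk r x)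
    rw [this]
  have hrepG : ∀ (g : G) (x : X), rep (g • x) = rep x := by
    intro g x
    have : Quotient.mk r (g • x) = Quotient.mk r x :=
      Quotient.sound ⟨1, g⁻¹, by rw [one_smul, inv_smul_smul]⟩
    show Quotient.out (Quotient.mk r (g • x)) = Quotient.out (Quotient.mk r x)
    rw [this]
  -- the `Γ × H`-orbits of the representatives
  let T : Set X := {x | ∃ (γ : Γ) (h : G), h ∈ H ∧ x = γ • h • rep x}
  have hTΓ : ∀ (γ : Γ) (x : X), x ∈ T → γ • x ∈ T := by
    rintro γ x ⟨γ₀, h, hh, hx⟩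
    refine ⟨γ * γ₀, h, hh, ?_⟩
    rw [hrepΓ, mul_smul, ← hx]
  have hTΓ' : ∀ (γ : Γ) (x : X), γ • x ∈ T ↔ x ∈ T := by
    intro γ x
    refine ⟨fun h => ?_, hTΓ γ x⟩
    have := hTΓ γ⁻¹ _ h
    rwa [inv_smul_smul] at this
  have hTH : ∀ h ∈ H, ∀ x : X, x ∈ T → h • x ∈ T := by
    rintro h hh x ⟨γ₀, h₀, hh₀, hx⟩
    refine ⟨γ₀, h * h₀, H.mul_mem hh hh₀, ?_⟩
    rw [hrepG, mul_smul, smul_comm γ₀ h, ← hx]
  have hTH' : ∀ h ∈ H, ∀ x : X, h • x ∈ T ↔ x ∈ T := by
    intro h hh x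
    refine ⟨fun hx => ?_, hTH h hh x⟩
    have := hTH h⁻¹ (H.inv_mem hh) _ hx
    rwa [inv_smul_smul] at this
  have hTex : ∀ x : X, ∃ g : G, g • x ∈ T := by
    intro x
    obtain ⟨γ, g, h⟩ := hrep x
    refine ⟨g⁻¹, γ, 1, H.one_mem, ?_⟩
    rw [hrepG, one_smul]
    calc g⁻¹ • x = g⁻¹ • γ • g • rep x := by rw [h]
      _ = γ • g⁻¹ • g • rep x := by rw [smul_comm γ g⁻¹]
      _ = γ • rep x := by rw [inv_smul_smul]
  have hTuniq : ∀ (x : X) (g : G), x ∈ T → g • x ∈ T → g ∈ H := by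
    rintro x g ⟨γ, h, hh, hx⟩ ⟨γ', h', hh', hgx⟩
    rw [hrepG] at hgx
    -- `(γ'⁻¹ γ) • rep x = ((g h)⁻¹ h') • rep x`
    have key : (γ'⁻¹ * γ) • rep x = ((g * h)⁻¹ * h') • rep x := by
      have h1 : g • γ • h • rep x = γ' • h' • rep x := by rw [← hx]; exact hgx
      have h2 : γ • (g * h) • rep x = γ' • h' • rep x := by
        rw [mul_smul, smul_comm γ g]; exact h1
      calc (γ'⁻¹ * γ) • rep x
          = (g * h)⁻¹ • (g * h) • (γ'⁻¹ * γ) • rep x := by rw [inv_smul_smul]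
        _ = (g * h)⁻¹ • γ'⁻¹ • γ • (g * h) • rep x := by
            have e : (g * h) • (γ'⁻¹ * γ) • rep x = γ'⁻¹ • γ • (g * h) • rep x := by
              rw [mul_smul γ'⁻¹ γ (rep x), smul_comm (g * h) γ'⁻¹ (γ • rep x),
                smul_comm (g * h) γ (rep x)]
            rw [e]
        _ = (g * h)⁻¹ • γ'⁻¹ • γ' • h' • rep x := by rw [h2]
        _ = (g * h)⁻¹ • h' • rep x := by rw [inv_smul_smul]
        _ = ((g * h)⁻¹ * h') • rep x := by rw [mul_smul]
    have h3 := hdec (rep x) (γ'⁻¹ * γ) ((g * h)⁻¹ * h') key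
    have h4 : (g * h)⁻¹ ∈ H := by
      have := H.mul_mem h3 (H.inv_mem hh')
      rwa [mul_inv_cancel_right] at this
    have h5 : g * h ∈ H := by
      have := H.inv_mem h4
      rwa [inv_inv] at this
    have := H.mul_mem h5 (H.inv_mem hh)
    rwa [mul_inv_cancel_right] at this
  refine ⟨fun x => if x ∈ T then ψ x else 1, fun γ x => ?_, fun h hh x => ?_, fun x => ?_⟩
  · show (if γ • x ∈ T then ψ (γ • x) else 1) = ρ γ (if x ∈ T then ψ x else 1)
    by_cases hx : x ∈ T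
    · rw [if_pos hx, if_pos ((hTΓ' γ x).2 hx), hψΓ]
    · rw [if_neg hx, if_neg (fun h => hx ((hTΓ' γ x).1 h)), hρ]
  · show (if h • x ∈ T then ψ (h • x) else 1) = (if x ∈ T then ψ x else 1)
    by_cases hx : x ∈ T
    · rw [if_pos hx, if_pos ((hTH' h hh x).2 hx), hψG]
    · rw [if_neg hx, if_neg (fun h' => hx ((hTH' h hh x).1 h'))]
  · obtain ⟨g₀, hg₀⟩ := hTex x
    -- exactly the coset of `g₀⁻¹` contributes
    have hmem : ∀ t : G ⧸ H, (Quotient.out t : G)⁻¹ • x ∈ T ↔ t = ((g₀⁻¹ : G) : G ⧸ H) := by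
      intro t
      constructor
      · intro ht
        have h1 : (Quotient.out t : G)⁻¹ * g₀⁻¹ ∈ H := by
          apply hTuniq (g₀ • x) _ hg₀
          rw [mul_smul, inv_smul_smul]
          exact ht
        rw [← QuotientGroup.out_eq' t, QuotientGroup.eq]
        exact h1
      · intro ht
        have h1 : (Quotient.out t : G)⁻¹ * g₀⁻¹ ∈ H := by
          rw [← QuotientGroup.eq, QuotientGroup.out_eq']
          exact ht
        have h2 := hTH _ h1 _ hg₀
        rwa [mul_smul, inv_smul_smul] at h2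
    show ∏ᶠ t : G ⧸ H, (if (Quotient.out t : G)⁻¹ • x ∈ T then ψ ((Quotient.out t : G)⁻¹ • x)
      else 1) = ψ x
    rw [finprod_eq_single _ ((g₀⁻¹ : G) : G ⧸ H)]
    · rw [if_pos ((hmem _).2 rfl), hψG]
    · intro t ht
      rw [if_neg (fun h => ht ((hmem t).1 h))]

/-- The same for a `MulDistribMulAction` on the values. -/
theorem h33_exists_relnorm_of_decomp' {A' : Type*} [CommGroup A'] [MulDistribMulAction Γ A']
    (H : Subgroup G) (hdec : ∀ (x : X) (γ : Γ) (g : G), γ • x = g • x → g ∈ H)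
    (ψ : X → A') (hψΓ : ∀ (γ : Γ) (x : X), ψ (γ • x) = γ • ψ x)
    (hψG : ∀ (g : G) (x : X), ψ (g • x) = ψ x) :
    ∃ φ' : X → A', (∀ (γ : Γ) (x : X), φ' (γ • x) = γ • φ' x) ∧
      (∀ h ∈ H, ∀ x : X, φ' (h • x) = φ' x) ∧
      ∀ x : X, ∏ᶠ t : G ⧸ H, φ' ((Quotient.out t : G)⁻¹ • x) = ψ x :=
  h33_exists_relnorm_of_decomp H hdec (fun γ a => γ • a) (fun γ => smul_one γ) ψ hψΓ hψG

end DecompNorm

end Fermat.Agent.S55
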