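import Fermat.Agent.S55.h33_ExCount

/-!
# S55 / GLOB (Kummer half): model-independent algebra

* `h33_exists_norm_eq_of_split` : norms are surjective on semi-local modules of a completely
  split extension.  `Γ` (a local Galois group) and `G` (a finite global Galois group) act on a
  set `X` (embeddings) by commuting actions, `A` a `Γ`-module.  If `γ • x = g • x` forces
  `g = 1` (complete splitting), every `Γ`-equivariant `G`-invariant function `ψ : X → A` is
  `x ↦ ∏ g, φ (g • x)` for a `Γ`-equivariant `φ`.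
* abstract Kummer sequence for `C = (J × I) ⧸ D` (notation of `h33_ExCount`):
  `h33_kumseq_mem_Vsplit`, `h33_kumseq_exists`, `h33_kumseq_of_pow`, `h33_kumseq_ker`.
-/

set_option autoImplicit false

namespace Fermat.Agent.S55

section SplitNorm

variable {Γ G X A : Type*} [Group Γ] [Group G] [Fintype G] [MulAction Γ X] [MulAction G X]
  [SMulCommClass Γ G X] [CommGroup A] [MulDistribMulAction Γ A]

/-- **Norms are surjective for completely split extensions** (semi-local form). -/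
theorem h33_exists_norm_eq_of_split
    (hsplit : ∀ (x : X) (γ : Γ) (g : G), γ • x = g • x → g = 1)
    (ψ : X → A) (hψΓ : ∀ (γ : Γ) (x : X), ψ (γ • x) = γ • ψ x)
    (hψG : ∀ (g : G) (x : X), ψ (g • x) = ψ x) :
    ∃ φ : X → A, (∀ (γ : Γ) (x : X), φ (γ • x) = γ • φ x) ∧ ∀ x : X, ∏ g : G, φ (g • x) = ψ x := by
  classical
  have : SMulCommClass G Γ X := SMulCommClass.symm Γ G X
  -- the orbit relation of `Γ × G`
  let r : Setoid X :=
    { r := fun x y => ∃ (γ : Γ) (g : G), γ • g • x = y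
      iseqv :=
        { refl := fun x => ⟨1, 1, by simp⟩
          symm := by
            rintro x y ⟨γ, g, rfl⟩
            refine ⟨γ⁻¹, g⁻¹, ?_⟩
            rw [smul_comm γ g x, inv_smul_smul, inv_smul_smul]
          trans := by
            rintro x y z ⟨γ, g, rfl⟩ ⟨γ', g', rfl⟩
            refine ⟨γ' * γ, g' * g, ?_⟩
            rw [mul_smul, mul_smul, smul_comm g' γ (g • x)] } }
  let rep : X → X := fun x => Quotient.out (Quotient.mk r x)
  have hrep : ∀ x, ∃ (γ : Γ) (g : G), γ • g • rep x = x := fun x =>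
    Quotient.exact (Quotient.out_eq (Quotient.mk r x))
  have hrepΓ : ∀ (γ : Γ) (x : X), rep (γ • x) = rep x := by
    intro γ x
    have : Quotient.mk r (γ • x) = Quotient.mk r x :=
      Quotient.sound ⟨γ⁻¹, 1, by rw [one_smul, inv_smul_smul]⟩
    show Quotient.out (Quotient.mk r (γ • x)) = Quotient.out (Quotient.mk r x)
    rw [this]
  have hrepG : ∀ (g : G) (x : X), rep (g • x) = rep x := by
    intro g x
    have : Quotient.mk r (g • x) = Quotient.mk r x :=
      Quotient.sound ⟨1, g⁻¹, by rw [one_smul, inv_smul_smul]⟩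
    show Quotient.out (Quotient.mk r (g • x)) = Quotient.out (Quotient.mk r x)
    rw [this]
  let T : Set X := {x | ∃ γ : Γ, x = γ • rep x}
  have hTΓ : ∀ (γ : Γ) (x : X), x ∈ T → γ • x ∈ T := by
    rintro γ x ⟨γ₀, hx⟩
    refine ⟨γ * γ₀, ?_⟩
    rw [hrepΓ, mul_smul, ← hx]
  have hTΓ' : ∀ (γ : Γ) (x : X), γ • x ∈ T ↔ x ∈ T := by
    intro γ x
    refine ⟨fun h => ?_, hTΓ γ x⟩
    have := hTΓ γ⁻¹ _ h
    rwa [inv_smul_smul] at this
  have hTex : ∀ x : X, ∃ g : G, g • x ∈ T := by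
    intro x
    obtain ⟨γ, g, h⟩ := hrep x
    refine ⟨g⁻¹, γ, ?_⟩
    rw [hrepG]
    calc g⁻¹ • x = g⁻¹ • γ • g • rep x := by rw [h]
      _ = γ • g⁻¹ • g • rep x := by rw [smul_comm γ g⁻¹]
      _ = γ • rep x := by rw [inv_smul_smul]
  have hTuniq : ∀ (x : X) (g : G), x ∈ T → g • x ∈ T → g = 1 := by
    rintro x g ⟨γ, hx⟩ ⟨γ', hgx⟩
    rw [hrepG] at hgx
    apply hsplit (rep x) (γ⁻¹ * γ') g
    calc (γ⁻¹ * γ') • rep x = γ⁻¹ • γ' • rep x := mul_smul _ _ _
      _ = γ⁻¹ • g • x := by rw [hgx]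
      _ = γ⁻¹ • g • γ • rep x := by rw [← hx]
      _ = γ⁻¹ • γ • g • rep x := by rw [smul_comm γ g]
      _ = g • rep x := by rw [inv_smul_smul]
  refine ⟨fun x => if x ∈ T then ψ x else 1, ?_, ?_⟩
  · intro γ x
    by_cases hx : x ∈ T
    · have : γ • x ∈ T := hTΓ γ x hx
      simp only [this, hx, if_true, hψΓ]
    · have : γ • x ∉ T := fun h => hx ((hTΓ' γ x).1 h)
      simp only [this, hx, if_false, smul_one]
  · intro x
    obtain ⟨g₀, hg₀⟩ := hTex x
    rw [Finset.prod_eq_single g₀]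
    · simp only [hg₀, if_true, hψG]
    · intro g _ hg
      have : g • x ∉ T := by
        intro h
        apply hg
        have h1 : (g * g₀⁻¹) • (g₀ • x) ∈ T := by
          rw [smul_smul, inv_mul_cancel_right]
          exact h
        have := hTuniq _ _ hg₀ h1
        rw [mul_inv_eq_one] at this
        exact this
      simp only [this, if_false]
    · intro h
      exact absurd (Finset.mem_univ g₀) h

end SplitNorm

section KumSeq

variable {J I K : Type*} [CommGroup J] [CommGroup I] [CommGroup K]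

/-- If `x ^ p` is principal (`= diag a`) then `a ∈ V_split`. -/
theorem h33_kumseq_mem_Vsplit (d₁ : K →* J) (d₂ : K →* I) (p : ℕ) (x : J × I) (a : K)
    (h : x ^ p = h33_diag d₁ d₂ a) : a ∈ h33_Vsplit d₁ d₂ p := by
  rw [h33_mem_Vsplit]
  have h1 : x.1 ^ p = d₁ a := by simpa [h33_diag] using congrArg Prod.fst h
  have h2 : x.2 ^ p = d₂ a := by simpa [h33_diag] using congrArg Prod.snd h
  exact ⟨⟨x.2, h2⟩, ⟨x.1, h1⟩⟩

/-- Every `a ∈ V_split` arises: `diag a = x ^ p`. -/
theorem h33_kumseq_exists (d₁ : K →* J) (d₂ : K →* I) (p : ℕ) (a : K)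
    (ha : a ∈ h33_Vsplit d₁ d₂ p) : ∃ x : J × I, x ^ p = h33_diag d₁ d₂ a := by
  rw [h33_mem_Vsplit] at ha
  obtain ⟨⟨i, hi⟩, ⟨j, hj⟩⟩ := ha
  refine ⟨(j, i), ?_⟩
  ext
  · simpa [h33_diag] using hj
  · simpa [h33_diag] using hi

/-- If `x ^ p = diag (b ^ p)` and `I` has no `p`-torsion then `x = diag b * (j, 1)` with
`j ^ p = 1`: the class of `x` in `C` comes from `J[p]`. -/
theorem h33_kumseq_of_pow (d₁ : K →* J) (d₂ : K →* I) (p : ℕ)
    (hI : ∀ i : I, i ^ p = 1 → i = 1) (x : J × I) (b : K)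
    (h : x ^ p = h33_diag d₁ d₂ (b ^ p)) :
    ∃ j : J, j ^ p = 1 ∧ x = h33_diag d₁ d₂ b * (j, 1) := by
  have h1 : x.1 ^ p = d₁ b ^ p := by simpa [h33_diag] using congrArg Prod.fst h
  have h2 : x.2 ^ p = d₂ b ^ p := by simpa [h33_diag] using congrArg Prod.snd h
  have h3 : x.2 = d₂ b := by
    have : (x.2 / d₂ b) ^ p = 1 := by rw [div_pow, h2, div_self']
    exact div_eq_one.1 (hI _ this)
  refine ⟨x.1 / d₁ b, by rw [div_pow, h1, div_self'], ?_⟩
  ext
  · simp [h33_diag]
  · simp [h33_diag, h3]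

/-- The kernel of `J[p] → C[p]` is the diagonal image of the `p`-torsion of `ker d₂`
(for `d₁` injective). -/
theorem h33_kumseq_ker (d₁ : K →* J) (d₂ : K →* I) (p : ℕ) (hd₁ : Function.Injective d₁)
    (j : J) (hj : j ^ p = 1) (h : ((j, 1) : J × I) ∈ (h33_diag d₁ d₂).range) :
    ∃ a : K, a ^ p = 1 ∧ d₂ a = 1 ∧ d₁ a = j := by
  obtain ⟨a, ha⟩ := h
  have h1 : d₁ a = j := by simpa [h33_diag] using congrArg Prod.fst ha
  have h2 : d₂ a = 1 := by simpa [h33_diag] using congrArg Prod.snd ha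
  refine ⟨a, hd₁ ?_, h2, h1⟩
  rw [map_pow, h1, hj, map_one]

end KumSeq

end Fermat.Agent.S55
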