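import Fermat.Agent.S55.h33_Kummer
import Fermat.Agent.S55.h33_ExCount

/-!
# S55 / GLOB (Kummer half): the Kummer field `K(V^{1/p})` of a subgroup `K^p ≤ V ≤ Kˣ` of finite
index, inside an algebraically closed field, and its "level" version over a base field.

Part 1 (`K` a field containing a primitive `p`-th root of unity, `Ω` an algebraically closed
extension, `V` a subgroup of `Kˣ` with `(Kˣ)^p ≤ V`, `[V : (Kˣ)^p]` finite):
* `h33_kummerField_eq_of_closure` : `K(V^{1/p}) = K(A^{1/p})` if `⟨A⟩ (Kˣ)^p = V`;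
* `h33_kummerField_isGalois`, `h33_kummerField_comm`, `h33_kummerField_pow_eq_one`;
* `h33_kummerField_finiteDimensional`, `h33_kummerField_finrank` : `[K(V^{1/p}) : K] = [V : K^p]`;
* `h33_kummerField_exists_root_iff` : `a` is a `p`-th power in `K(V^{1/p})` iff `a ∈ V`.

Part 2 (`k ⊆ F ⊆ Ω`, `F : IntermediateField k Ω`, `V ≤ Fˣ`):
* `h33_kummerLevel F p V : IntermediateField k Ω`, `h33_le_kummerLevel`,
  `h33_kummerLevel_normal` (if `F/k` is normal and `V` is stable under `Gal(Ω/k)`),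
  `h33_kummerLevel_finiteDimensional`, `h33_mem_kummerLevel_of_pow`.
-/

set_option autoImplicit false

open Polynomial

namespace Fermat.Agent.S55

section Part1

variable {K Ω : Type*} [Field K] [Field Ω] [Algebra K Ω] {p : ℕ} {ζ : K}

/-- monotonicity of the Kummer field in the set of radicands. -/
theorem h33_kummerField_mono {A B : Set Kˣ} (h : A ⊆ B) :
    h33_kummerField K Ω p A ≤ h33_kummerField K Ω p B := by
  apply IntermediateField.adjoin.mono
  rintro α ⟨a, ha, hα⟩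
  exact ⟨a, h ha, hα⟩

/-- every root of `X^p - a`, `a ∈ A`, lies in `K(A^{1/p})`. -/
theorem h33_mem_kummerField {A : Set Kˣ} {a : Kˣ} (ha : a ∈ A) {α : Ω}
    (hα : α ^ p = algebraMap K Ω a) : α ∈ h33_kummerField K Ω p A :=
  IntermediateField.subset_adjoin K _ ⟨a, ha, hα⟩

/-- The set of `a ∈ Kˣ` that are `p`-th powers in an intermediate field `M`, as a subgroup. -/
theorem h33_kummerGroup_intermediate_iff (M : IntermediateField K Ω) (a : Kˣ) :
    a ∈ h33_kummerGroup K M p ↔ ∃ α ∈ M, α ^ p = algebraMap K Ω a := by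
  constructor
  · rintro ⟨α, hα⟩
    refine ⟨(α : Ω), α.2, ?_⟩
    have := congrArg (fun y : M => (y : Ω)) hα
    simpa using this
  · rintro ⟨α, hαM, hα⟩
    exact ⟨⟨α, hαM⟩, Subtype.ext (by simpa using hα)⟩

/-- If `a` has a `p`-th root in `M ∋ ζ_p` then every `p`-th root of `a` in `Ω` lies in `M`. -/
theorem h33_root_mem_of_mem_kummerGroup (hp : 0 < p) (hζ : IsPrimitiveRoot ζ p)
    (M : IntermediateField K Ω) {a : Kˣ} (ha : a ∈ h33_kummerGroup K M p) {α : Ω}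
    (hα : α ^ p = algebraMap K Ω a) : α ∈ M := by
  obtain ⟨β, hβM, hβ⟩ := (h33_kummerGroup_intermediate_iff M a).1 ha
  have hβ0 : β ≠ 0 := by
    rintro rfl
    rw [zero_pow hp.ne'] at hβ
    exact (_root_.map_ne_zero (algebraMap K Ω)).2 a.ne_zero hβ.symm
  have h1 : (α / β) ^ p = 1 := by
    rw [div_pow, hα, hβ, div_self]
    exact (_root_.map_ne_zero (algebraMap K Ω)).2 a.ne_zero
  obtain ⟨η, -, hη⟩ := h33_exists_of_pow_eq_one hp hζ h1
  have h2 : α = algebraMap K Ω (η : K) * β := by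
    rw [hη, div_mul_cancel₀ _ hβ0]
  rw [h2]
  exact M.mul_mem (M.algebraMap_mem _) hβM

/-- `K(V^{1/p}) = K(A^{1/p})` when `V` is generated by `A` and the `p`-th powers. -/
theorem h33_kummerField_eq_of_closure [IsAlgClosed Ω] (hp : 0 < p) (hζ : IsPrimitiveRoot ζ p)
    {A : Set Kˣ} {V : Subgroup Kˣ}
    (hAV : Subgroup.closure A ⊔ (powMonoidHom p : Kˣ →* Kˣ).range = V) :
    h33_kummerField K Ω p (V : Set Kˣ) = h33_kummerField K Ω p A := by
  apply le_antisymm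
  · have hle : V ≤ h33_kummerGroup K (h33_kummerField K Ω p A) p := by
      rw [← hAV]
      refine sup_le ?_ h33_range_pow_le_kummerGroup
      rw [Subgroup.closure_le]
      intro a ha
      obtain ⟨α, hα⟩ := IsAlgClosed.exists_pow_nat_eq (algebraMap K Ω (a : K)) hp
      exact (h33_kummerGroup_intermediate_iff _ a).2 ⟨α, h33_mem_kummerField ha hα, hα⟩
    rw [h33_kummerField, IntermediateField.adjoin_le_iff]
    rintro α ⟨a, ha, hα⟩
    exact h33_root_mem_of_mem_kummerGroup hp hζ _ (hle ha) hα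
  · apply h33_kummerField_mono
    intro a ha
    rw [← hAV]
    exact Subgroup.mem_sup_left (Subgroup.subset_closure ha)

theorem h33_kummerField_isGalois (hp : 0 < p) (hζ : IsPrimitiveRoot ζ p) (A : Set Kˣ) :
    IsGalois K (h33_kummerField K Ω p A) :=
  h33_kummer_isGalois hp hζ (h33_kummerField_gen A)

theorem h33_kummerField_comm (hp : 0 < p) (hζ : IsPrimitiveRoot ζ p) (A : Set Kˣ)
    (σ τ : h33_kummerField K Ω p A ≃ₐ[K] h33_kummerField K Ω p A) : σ * τ = τ * σ :=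
  h33_kummer_comm hp hζ (h33_kummerField_gen A) σ τ

theorem h33_kummerField_pow_eq_one (hp : 0 < p) (hζ : IsPrimitiveRoot ζ p) (A : Set Kˣ)
    (σ : h33_kummerField K Ω p A ≃ₐ[K] h33_kummerField K Ω p A) : σ ^ p = 1 :=
  h33_kummer_pow_eq_one hp hζ (h33_kummerField_gen A) σ

theorem h33_kummerField_finiteDimensional [IsAlgClosed Ω] (hp : 0 < p)
    (hζ : IsPrimitiveRoot ζ p) (V : Subgroup Kˣ)
    (hPV : (powMonoidHom p : Kˣ →* Kˣ).range ≤ V)
    (hfin : (powMonoidHom p : Kˣ →* Kˣ).range.relIndex V ≠ 0) :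
    FiniteDimensional K (h33_kummerField K Ω p (V : Set Kˣ)) := by
  obtain ⟨A, hA, -, hAV⟩ := h33_exists_finite_gen _ V hPV hfin
  rw [h33_kummerField_eq_of_closure hp hζ hAV]
  exact h33_kummer_finiteDimensional hp hA (h33_kummerField_gen A)

/-- **Degree of the Kummer field**: `[K(V^{1/p}) : K] = [V : (Kˣ)^p]`. -/
theorem h33_kummerField_finrank [IsAlgClosed Ω] (hp : 0 < p) (hζ : IsPrimitiveRoot ζ p)
    (V : Subgroup Kˣ) (hPV : (powMonoidHom p : Kˣ →* Kˣ).range ≤ V)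
    (hfin : (powMonoidHom p : Kˣ →* Kˣ).range.relIndex V ≠ 0) :
    Module.finrank K (h33_kummerField K Ω p (V : Set Kˣ))
      = (powMonoidHom p : Kˣ →* Kˣ).range.relIndex V := by
  obtain ⟨A, hA, -, hAV⟩ := h33_exists_finite_gen _ V hPV hfin
  rw [h33_kummerField_eq_of_closure hp hζ hAV]
  have hroot : ∀ a ∈ A, ∃ α : Ω, α ^ p = algebraMap K Ω a := fun a _ =>
    IsAlgClosed.exists_pow_nat_eq (algebraMap K Ω (a : K)) hp
  rw [h33_kummer_finrank hp hζ hA (h33_kummerField_root hroot) (h33_kummerField_gen A), hAV]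

/-- **Kummer group of the Kummer field**: `a ∈ Kˣ` is a `p`-th power in `K(V^{1/p})` iff
`a ∈ V`. -/
theorem h33_kummerField_kummerGroup [IsAlgClosed Ω] (hp : 0 < p) (hζ : IsPrimitiveRoot ζ p)
    (V : Subgroup Kˣ) (hPV : (powMonoidHom p : Kˣ →* Kˣ).range ≤ V)
    (hfin : (powMonoidHom p : Kˣ →* Kˣ).range.relIndex V ≠ 0) :
    h33_kummerGroup K (h33_kummerField K Ω p (V : Set Kˣ)) p = V := by
  obtain ⟨A, hA, -, hAV⟩ := h33_exists_finite_gen _ V hPV hfin
  rw [h33_kummerField_eq_of_closure hp hζ hAV]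
  have hroot : ∀ a ∈ A, ∃ α : Ω, α ^ p = algebraMap K Ω a := fun a _ =>
    IsAlgClosed.exists_pow_nat_eq (algebraMap K Ω (a : K)) hp
  rw [h33_kummerGroup_eq hp hζ hA (h33_kummerField_root hroot) (h33_kummerField_gen A), hAV]

theorem h33_kummerField_exists_root_iff [IsAlgClosed Ω] (hp : 0 < p) (hζ : IsPrimitiveRoot ζ p)
    (V : Subgroup Kˣ) (hPV : (powMonoidHom p : Kˣ →* Kˣ).range ≤ V)
    (hfin : (powMonoidHom p : Kˣ →* Kˣ).range.relIndex V ≠ 0) (a : Kˣ) :
    (∃ α ∈ h33_kummerField K Ω p (V : Set Kˣ), α ^ p = algebraMap K Ω a) ↔ a ∈ V := by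
  rw [← h33_kummerGroup_intermediate_iff, h33_kummerField_kummerGroup hp hζ V hPV hfin]

end Part1

section Part2

variable {k Ω : Type*} [Field k] [Field Ω] [Algebra k Ω]

/-- The Kummer level `F(V^{1/p})` over the base field `k`, for `F : IntermediateField k Ω` and a
subgroup `V` of `Fˣ`. -/
def h33_kummerLevel (F : IntermediateField k Ω) (p : ℕ) (V : Subgroup (↥F)ˣ) :
    IntermediateField k Ω :=
  (h33_kummerField (↥F) Ω p (V : Set (↥F)ˣ)).restrictScalars k

variable {F : IntermediateField k Ω} {p : ℕ} {V : Subgroup (↥F)ˣ}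

theorem h33_mem_kummerLevel_iff (x : Ω) :
    x ∈ h33_kummerLevel F p V ↔ x ∈ h33_kummerField (↥F) Ω p (V : Set (↥F)ˣ) := Iff.rfl

theorem h33_le_kummerLevel : F ≤ h33_kummerLevel F p V := by
  intro x hx
  rw [h33_mem_kummerLevel_iff]
  exact (h33_kummerField (↥F) Ω p (V : Set (↥F)ˣ)).algebraMap_mem ⟨x, hx⟩

theorem h33_mem_kummerLevel_of_pow {a : (↥F)ˣ} (ha : a ∈ V) {α : Ω}
    (hα : α ^ p = ((a : ↥F) : Ω)) : α ∈ h33_kummerLevel F p V := by
  rw [h33_mem_kummerLevel_iff]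
  exact h33_mem_kummerField (A := (V : Set (↥F)ˣ)) ha hα

/-- `F(V^{1/p})` is generated over `k` by `F` and the `p`-th roots of the elements of `V`. -/
theorem h33_kummerLevel_eq_adjoin :
    h33_kummerLevel F p V = IntermediateField.adjoin k
      ((F : Set Ω) ∪ {α : Ω | ∃ a ∈ V, α ^ p = (((a : (↥F)ˣ) : ↥F) : Ω)}) := by
  rw [h33_kummerLevel, h33_kummerField, IntermediateField.restrictScalars_adjoin]
  rfl

theorem h33_kummerLevel_le {E : IntermediateField k Ω} (hFE : F ≤ E)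
    (h : ∀ a ∈ V, ∀ α : Ω, α ^ p = (((a : (↥F)ˣ) : ↥F) : Ω) → α ∈ E) :
    h33_kummerLevel F p V ≤ E := by
  rw [h33_kummerLevel_eq_adjoin, IntermediateField.adjoin_le_iff]
  rintro x (hx | ⟨a, ha, hx⟩)
  · exact hFE hx
  · exact h a ha x hx

/-- `F(V^{1/p})` is normal over `k` if `F` is and `V` is stable under `Gal(Ω/k)`. -/
theorem h33_kummerLevel_normal [Normal k Ω] [Normal k F]
    (hstab : ∀ σ : Ω ≃ₐ[k] Ω, ∀ a ∈ V, ∃ b ∈ V, σ (((a : (↥F)ˣ) : ↥F) : Ω) = (((b : (↥F)ˣ) : ↥F) : Ω)) :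
    Normal k (h33_kummerLevel F p V) := by
  rw [IntermediateField.normal_iff_forall_map_le']
  intro σ
  rw [IntermediateField.map_le_iff_le_comap]
  apply h33_kummerLevel_le
  · intro x hx
    have hF := (IntermediateField.normal_iff_forall_map_le' (K := F)).1 inferInstance σ
    exact h33_le_kummerLevel (hF ⟨x, hx, rfl⟩)
  · intro a ha α hα
    obtain ⟨b, hb, hab⟩ := hstab σ a ha
    show σ α ∈ h33_kummerLevel F p V
    apply h33_mem_kummerLevel_of_pow hb
    rw [← hab, ← hα, map_pow]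

theorem h33_kummerLevel_finiteDimensional [IsAlgClosed Ω] [FiniteDimensional k F] {ζ : ↥F}
    (hp : 0 < p) (hζ : IsPrimitiveRoot ζ p)
    (hPV : (powMonoidHom p : (↥F)ˣ →* (↥F)ˣ).range ≤ V)
    (hfin : (powMonoidHom p : (↥F)ˣ →* (↥F)ˣ).range.relIndex V ≠ 0) :
    FiniteDimensional k (h33_kummerLevel F p V) := by
  have h1 := h33_kummerField_finiteDimensional (Ω := Ω) hp hζ V hPV hfin
  have h2 : Module.Finite k (h33_kummerField (↥F) Ω p (V : Set (↥F)ˣ)) :=
    Module.Finite.trans (↥F) (h33_kummerField (↥F) Ω p (V : Set (↥F)ˣ))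
  exact h2

/-- `[F(V^{1/p}) : k] = [V : (Fˣ)^p] * [F : k]`. -/
theorem h33_kummerLevel_finrank [IsAlgClosed Ω] {ζ : ↥F}
    (hp : 0 < p) (hζ : IsPrimitiveRoot ζ p)
    (hPV : (powMonoidHom p : (↥F)ˣ →* (↥F)ˣ).range ≤ V)
    (hfin : (powMonoidHom p : (↥F)ˣ →* (↥F)ˣ).range.relIndex V ≠ 0) :
    Module.finrank k (h33_kummerLevel F p V)
      = (powMonoidHom p : (↥F)ˣ →* (↥F)ˣ).range.relIndex V * Module.finrank k F := by
  rw [← h33_kummerField_finrank (Ω := Ω) hp hζ V hPV hfin, mul_comm]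
  have h2 : Module.finrank k ↥F * Module.finrank ↥F (h33_kummerField (↥F) Ω p (V : Set (↥F)ˣ))
      = Module.finrank k (h33_kummerField (↥F) Ω p (V : Set (↥F)ˣ)) :=
    Module.finrank_mul_finrank k (↥F) (h33_kummerField (↥F) Ω p (V : Set (↥F)ˣ))
  exact h2.symm

/-- `a ∈ Fˣ` is a `p`-th power in `F(V^{1/p})` iff `a ∈ V`. -/
theorem h33_kummerLevel_exists_root_iff [IsAlgClosed Ω] {ζ : ↥F}
    (hp : 0 < p) (hζ : IsPrimitiveRoot ζ p)
    (hPV : (powMonoidHom p : (↥F)ˣ →* (↥F)ˣ).range ≤ V)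
    (hfin : (powMonoidHom p : (↥F)ˣ →* (↥F)ˣ).range.relIndex V ≠ 0) (a : (↥F)ˣ) :
    (∃ α ∈ h33_kummerLevel F p V, α ^ p = ((a : ↥F) : Ω)) ↔ a ∈ V :=
  h33_kummerField_exists_root_iff hp hζ V hPV hfin a

theorem h33_adjoin_top_of_eq (E : IntermediateField k Ω) (S : Set Ω)
    (h : E = IntermediateField.adjoin k S) :
    IntermediateField.adjoin k {x : E | (x : Ω) ∈ S} = ⊤ := by
  subst h
  exact h33_adjoin_coe_preimage_eq_top S

/-- Two `k`-automorphisms of `F(V^{1/p})` agreeing on `F` and on the `p`-th roots of the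
elements of `V` are equal. -/
theorem h33_kummerLevel_algEquiv_ext [Algebra.IsAlgebraic k Ω]
    {σ τ : h33_kummerLevel F p V ≃ₐ[k] h33_kummerLevel F p V}
    (hF : ∀ x : h33_kummerLevel F p V, (x : Ω) ∈ F → σ x = τ x)
    (hroot : ∀ x : h33_kummerLevel F p V,
      (∃ a ∈ V, (x : Ω) ^ p = (((a : (↥F)ˣ) : ↥F) : Ω)) → σ x = τ x) : σ = τ := by
  have hgen := h33_adjoin_top_of_eq (h33_kummerLevel F p V) _ (h33_kummerLevel_eq_adjoin)
  refine h33_algEquiv_ext_of_adjoin (fun x _ => ?_) hgen ?_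
  · exact (Algebra.IsAlgebraic.isAlgebraic x).isIntegral
  · rintro x (hx | hx)
    · exact hF x hx
    · exact hroot x hx

/-- An automorphism of `F(V^{1/p})` fixing `F` multiplies each `p`-th root of an element of `V`
by a `p`-th root of unity of `F`. -/
theorem h33_kummerLevel_apply_root {ζ : ↥F} (hp : 0 < p) (hζ : IsPrimitiveRoot ζ p)
    (σ : h33_kummerLevel F p V ≃ₐ[k] h33_kummerLevel F p V)
    (hσ : ∀ x : h33_kummerLevel F p V, (x : Ω) ∈ F → σ x = x)
    (x : h33_kummerLevel F p V) (hx : ∃ a ∈ V, (x : Ω) ^ p = (((a : (↥F)ˣ) : ↥F) : Ω)) :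
    ∃ η : h33_kummerLevel F p V, (η : Ω) ∈ F ∧ η ^ p = 1 ∧ σ x = η * x := by
  obtain ⟨a, -, ha⟩ := hx
  have hx0 : (x : Ω) ≠ 0 := by
    intro h0
    rw [h0, zero_pow hp.ne'] at ha
    have : ((a : ↥F) : Ω) ≠ 0 := by
      simp
    exact this ha.symm
  have hxp : ((x ^ p : h33_kummerLevel F p V) : Ω) ∈ F := by
    rw [IntermediateField.coe_pow, ha]
    exact (a : ↥F).2
  have h1 : (σ x) ^ p = x ^ p := by
    rw [← map_pow]
    exact hσ _ hxp
  have h2 : (((σ x : h33_kummerLevel F p V) : Ω) / (x : Ω)) ^ p = 1 := by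
    rw [div_pow, ← IntermediateField.coe_pow, h1, IntermediateField.coe_pow, div_self]
    exact pow_ne_zero _ hx0
  obtain ⟨η, hη1, hη⟩ := h33_exists_of_pow_eq_one (K := ↥F) (L := Ω) hp hζ h2
  refine ⟨⟨((η : ↥F) : Ω), h33_le_kummerLevel (η : ↥F).2⟩, (η : ↥F).2, ?_, ?_⟩
  · apply Subtype.ext
    rw [IntermediateField.coe_pow, IntermediateField.coe_one]
    have := congrArg (fun u : (↥F)ˣ => (((u : ↥F) : Ω))) hη1
    simpa using this
  · apply Subtype.ext
    rw [IntermediateField.coe_mul]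
    show ((σ x : h33_kummerLevel F p V) : Ω) = ((η : ↥F) : Ω) * (x : Ω)
    have h3 : ((η : ↥F) : Ω) = ((σ x : h33_kummerLevel F p V) : Ω) / (x : Ω) := hη
    rw [h3, div_mul_cancel₀ _ hx0]

/-- `Gal(F(V^{1/p})/F)` is commutative (as a subgroup of `Gal(F(V^{1/p})/k)`). -/
theorem h33_kummerLevel_comm [Algebra.IsAlgebraic k Ω] {ζ : ↥F} (hp : 0 < p)
    (hζ : IsPrimitiveRoot ζ p)
    (σ τ : h33_kummerLevel F p V ≃ₐ[k] h33_kummerLevel F p V)
    (hσ : ∀ x : h33_kummerLevel F p V, (x : Ω) ∈ F → σ x = x)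
    (hτ : ∀ x : h33_kummerLevel F p V, (x : Ω) ∈ F → τ x = x) : σ * τ = τ * σ := by
  apply h33_kummerLevel_algEquiv_ext
  · intro x hx
    rw [AlgEquiv.mul_apply, AlgEquiv.mul_apply, hτ x hx, hσ x hx, hτ x hx]
  · intro x hx
    obtain ⟨η, hηF, -, hη⟩ := h33_kummerLevel_apply_root hp hζ σ hσ x hx
    obtain ⟨θ, hθF, -, hθ⟩ := h33_kummerLevel_apply_root hp hζ τ hτ x hx
    rw [AlgEquiv.mul_apply, AlgEquiv.mul_apply, hθ, hη, map_mul, map_mul, hσ θ hθF, hτ η hηF,
      hη, hθ]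
    ring

/-- `Gal(F(V^{1/p})/F)` has exponent `p`. -/
theorem h33_kummerLevel_pow_eq_one [Algebra.IsAlgebraic k Ω] {ζ : ↥F} (hp : 0 < p)
    (hζ : IsPrimitiveRoot ζ p)
    (σ : h33_kummerLevel F p V ≃ₐ[k] h33_kummerLevel F p V)
    (hσ : ∀ x : h33_kummerLevel F p V, (x : Ω) ∈ F → σ x = x) : σ ^ p = 1 := by
  have hpow : ∀ (n : ℕ) (x : h33_kummerLevel F p V), (x : Ω) ∈ F → (σ ^ n) x = x := by
    intro n
    induction n with
    | zero => intro x _; simp
    | succ n ih =>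
      intro x hx
      rw [pow_succ, AlgEquiv.mul_apply, hσ x hx, ih x hx]
  apply h33_kummerLevel_algEquiv_ext
  · intro x hx
    rw [hpow p x hx, AlgEquiv.one_apply]
  · intro x hx
    obtain ⟨η, hηF, hη1, hη⟩ := h33_kummerLevel_apply_root hp hζ σ hσ x hx
    have key : ∀ n : ℕ, (σ ^ n) x = η ^ n * x := by
      intro n
      induction n with
      | zero => simp
      | succ n ih =>
        rw [pow_succ, AlgEquiv.mul_apply, hη, map_mul, hpow n η hηF, ih, pow_succ]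
        ring
    rw [key p, hη1, one_mul, AlgEquiv.one_apply]

end Part2

end Fermat.Agent.S55
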