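import Fermat.Agent.S55.h85_Unram
import Fermat.Agent.S55.h33_KummerLevel

/-!
# S55 / GLOB (Kummer half): the Kummer level `F(V^{1/p})` is a level (prelude language)

`F : IntermediateField ℚ Qbar` unramified outside `S` (frozen sense), all primes of `p` in `S`,
`ζ_p ∈ F`, `V ≤ Fˣ` containing the `p`-th powers with finite index, such that the valuation of
every `a ∈ V` at every valuation subring above a prime outside `S` is the `p`-th power of the
valuation of an element of `F`.  Then `h33_kummerLevel F p V` is unramified outside `S`; it is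
Galois over `ℚ` when `F` is and `V` is Galois stable.
-/

set_option autoImplicit false

namespace Fermat.Agent.S55

local notation "Qbar" => AlgebraicClosure ℚ

local instance h33_isAlgebraicQbar : Algebra.IsAlgebraic ℚ (AlgebraicClosure ℚ) :=
  AlgebraicClosure.isAlgebraic ℚ
local instance h33_isAlgClosureQbar : IsAlgClosure ℚ (AlgebraicClosure ℚ) :=
  ⟨inferInstance, inferInstance⟩
local instance h33_normalQbar : Normal ℚ (AlgebraicClosure ℚ) :=
  IsAlgClosure.normal ℚ (AlgebraicClosure ℚ)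

/-- **The Kummer level is unramified outside `S`.** -/
theorem h33_kummerLevel_unram (S : Finset Nat.Primes) (F : IntermediateField ℚ Qbar)
    (hF : F.IsUnramifiedOutside S) {p : ℕ} (hp : 0 < p)
    (hpS : ∀ q : Nat.Primes, (q : ℕ) ∣ p → q ∈ S) {ζ : ↥F} (hζ : IsPrimitiveRoot ζ p)
    (V : Subgroup (↥F)ˣ) (hPV : (powMonoidHom p : (↥F)ˣ →* (↥F)ˣ).range ≤ V)
    (hfin : (powMonoidHom p : (↥F)ˣ →* (↥F)ˣ).range.relIndex V ≠ 0)
    (hval : ∀ a ∈ V, ∀ q : Nat.Primes, q ∉ S → ∀ A : ValuationSubring Qbar,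
      A.LiesOverPrime (q : ℕ) →
        ∃ b ∈ F, A.valuation ((((a : (↥F)ˣ) : ↥F) : Qbar)) = A.valuation b ^ p) :
    (h33_kummerLevel F p V).IsUnramifiedOutside S := by
  have hF' := (h85_isUnramifiedOutside_iff F S).mp hF
  rw [h85_isUnramifiedOutside_iff]
  have := hF'.1
  refine ⟨h33_kummerLevel_finiteDimensional hp hζ hPV hfin, fun q hq A hA σ hσ => ?_⟩
  have hFσ := hF'.2 q hq A hA σ hσ
  apply h33_kummerLevel_le hFσ
  intro a ha α hα
  rw [h85_mem_fix]
  obtain ⟨b, hbF, hb⟩ := hval a ha q hq A hA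
  refine h85_inertia_fix_kummer A q.2 hA hσ (fun h => hq (hpS q h)) α b ?_
    ((h85_mem_fix σ _).mp (hFσ hbF)) ?_
  · rw [hα]
    exact (h85_mem_fix σ _).mp (hFσ (a : ↥F).2)
  · rw [hα]
    exact hb

/-- **The Kummer level is Galois over `ℚ`** when `F` is and `V` is Galois stable. -/
theorem h33_kummerLevel_isGalois (F : IntermediateField ℚ Qbar) [IsGalois ℚ F] (p : ℕ)
    (V : Subgroup (↥F)ˣ)
    (hstab : ∀ σ : Qbar ≃ₐ[ℚ] Qbar, ∀ a ∈ V, ∃ b ∈ V,
      σ ((((a : (↥F)ˣ) : ↥F) : Qbar)) = ((((b : (↥F)ˣ) : ↥F) : Qbar))) :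
    IsGalois ℚ (h33_kummerLevel F p V) := by
  have hF : Normal ℚ F := IsGalois.to_normal
  have : Normal ℚ (h33_kummerLevel F p V) :=
    @h33_kummerLevel_normal ℚ Qbar _ _ _ F p V _ hF hstab
  exact ⟨⟩

end Fermat.Agent.S55
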