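import Fermat.Agent.S55.h33_GlobKumDefs
import Fermat.Agent.S55.h33_KummerLevelUnram
import Fermat.Agent.S55.h33_GlobAbs
import Fermat.Agent.S55.h97_GalLevel
import Fermat.Agent.S55.h66_GlobFunc

/-!
# S55 / GLOB-EX-ASM: existence mod `p` on the arithmetic carrier (Kummer half)

Main result `h33_glob_ex_of`:

    h33_glob_ex_of (S) (p) [Fact p.Prime] (hpS : every prime dividing p is in S)
      (hN : h33_HypNorm S p) (hNUM : h33_HypNum S p) (hVAL : h33_HypVal S p) : h33_GlobEx S p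

i.e. for every level `L` containing a primitive `p`-th root of unity, the Kummer level
`L₁ = L(V^{1/p})`, `V = {a : div^S a ∈ p Div}`, is a level and `N_{L₁/L} C_{L₁} = C_L^p`.

Tools proved here:
* `h33_numberField`, `h33_level_numberField`;
* `h33_relGal_eq_ker`, `h33_card_relGal` (`#Gal(L'/L) · [L:ℚ] = [L':ℚ]`);
* `h33_V_stable`, `h33_Vsplit_stable` (Galois stability of `V`, `V_split`);
* `h33_relGal_split` (the primes of `S` split completely in `L(V^{1/p})` when `V` consists of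
  local `p`-th powers);
* `h33_J_le_normGroup_of_split` (then the `J`-part of `C_L` consists of norms);
* `h33_ex_carrier` (`h33_ex_abstract` on `h25_C K S`).
-/

set_option autoImplicit false

namespace Fermat.Agent.S55

local notation "Qb" => AlgebraicClosure ℚ

local instance h33_isAlgebraicQb : Algebra.IsAlgebraic ℚ (AlgebraicClosure ℚ) :=
  AlgebraicClosure.isAlgebraic ℚ
local instance h33_isAlgClosureQb : IsAlgClosure ℚ (AlgebraicClosure ℚ) :=
  ⟨inferInstance, inferInstance⟩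
local instance h33_normalQb : Normal ℚ (AlgebraicClosure ℚ) :=
  IsAlgClosure.normal ℚ (AlgebraicClosure ℚ)

noncomputable section

/-- A finite-dimensional intermediate field of `Qbar/ℚ` is a number field. -/
theorem h33_numberField (L : IntermediateField ℚ Qb) (h : FiniteDimensional ℚ L) :
    NumberField ↥L :=
  { to_charZero := inferInstance
    to_finiteDimensional := h }

theorem h33_level_numberField {S : Finset Nat.Primes} {L : IntermediateField ℚ Qb}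
    (hL : h25_IsLevel S L) : NumberField ↥L := h33_numberField L hL.1.1

/-- `Gal(L'/L)` is the kernel of the restriction `Gal(L'/ℚ) → Gal(L/ℚ)`. -/
theorem h33_relGal_eq_ker {L L' : IntermediateField ℚ Qb} [Normal ℚ L] [Normal ℚ L']
    (h : L ≤ L') : h33_relGal L L' = (h97_res h).ker := by
  ext s
  rw [h33_mem_relGal, MonoidHom.mem_ker, h97_res_eq_one_iff]
  constructor
  · intro hs x
    exact hs _ x.2
  · intro hs x hx
    exact hs ⟨(x : Qb), hx⟩

/-- `#Gal(L'/L) · [L:ℚ] = [L':ℚ]` for Galois levels. -/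
theorem h33_card_relGal {L L' : IntermediateField ℚ Qb} [FiniteDimensional ℚ L]
    [FiniteDimensional ℚ L'] [IsGalois ℚ L] [IsGalois ℚ L'] (h : L ≤ L') :
    Nat.card (h33_relGal L L') * Module.finrank ℚ L = Module.finrank ℚ L' := by
  have hn : Normal ℚ L := IsGalois.to_normal
  have hn' : Normal ℚ L' := IsGalois.to_normal
  rw [h33_relGal_eq_ker h, ← IsGalois.card_aut_eq_finrank ℚ L, ← IsGalois.card_aut_eq_finrank ℚ L',
    ← Subgroup.card_mul_index (h97_res h).ker, Subgroup.index_ker,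
    MonoidHom.range_eq_top.2 (h97_res_surjective h), Nat.card_congr Subgroup.topEquiv.toEquiv]

section Stab

variable (S : Finset Nat.Primes) (p : ℕ) (L : IntermediateField ℚ Qb) [NumberField ↥L]
  [Normal ℚ L]

/-- `V = {a : div^S a ∈ p Div}` is stable under `Gal(Qbar/ℚ)`. -/
theorem h33_V_stable (σ : Qb ≃ₐ[ℚ] Qb) (a : (↥L)ˣ) (ha : a ∈ h33_V (h33_dI ↥L S) p) :
    ∃ b ∈ h33_V (h33_dI ↥L S) p, σ (((a : ↥L) : Qb)) = (((b : (↥L)ˣ) : ↥L) : Qb) := by
  refine ⟨Units.map ((h97_π L σ : ↥L ≃ₐ[ℚ] ↥L) : ↥L →* ↥L) a, ?_, ?_⟩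
  · rw [h33_mem_V] at ha ⊢
    obtain ⟨i, hi⟩ := ha
    have h1 := congrArg Prod.snd
      (h66_Xmap_diag S (((h97_π L σ : ↥L ≃ₐ[ℚ] ↥L)) : ↥L →+* ↥L) a)
    refine ⟨AddMonoidHom.toMultiplicative
      (h25_Dmap S (((h97_π L σ : ↥L ≃ₐ[ℚ] ↥L)) : ↥L →+* ↥L)) i, ?_⟩
    rw [← map_pow, hi]
    exact h1
  · exact (h97_π_apply L σ (a : ↥L)).symm

/-- `V_split` is stable under `Gal(Qbar/ℚ)`. -/
theorem h33_Vsplit_stable (σ : Qb ≃ₐ[ℚ] Qb) (a : (↥L)ˣ)
    (ha : a ∈ h33_Vsplit (h33_dJ ↥L S) (h33_dI ↥L S) p) :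
    ∃ b ∈ h33_Vsplit (h33_dJ ↥L S) (h33_dI ↥L S) p,
      σ (((a : ↥L) : Qb)) = (((b : (↥L)ˣ) : ↥L) : Qb) := by
  refine ⟨Units.map ((h97_π L σ : ↥L ≃ₐ[ℚ] ↥L) : ↥L →* ↥L) a, ?_, ?_⟩
  · rw [h33_mem_Vsplit] at ha ⊢
    obtain ⟨⟨i, hi⟩, ⟨j, hj⟩⟩ := ha
    have h0 := h66_Xmap_diag S (((h97_π L σ : ↥L ≃ₐ[ℚ] ↥L)) : ↥L →+* ↥L) a
    have h1 := congrArg Prod.snd h0
    have h2 := congrArg Prod.fst h0
    refine ⟨⟨AddMonoidHom.toMultiplicative
      (h25_Dmap S (((h97_π L σ : ↥L ≃ₐ[ℚ] ↥L)) : ↥L →+* ↥L)) i, ?_⟩,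
      ⟨h25_Jmap S (((h97_π L σ : ↥L ≃ₐ[ℚ] ↥L)) : ↥L →+* ↥L) j, ?_⟩⟩
    · rw [← map_pow, hi]
      exact h1
    · rw [← map_pow, hj]
      exact h2
  · exact (h97_π_apply L σ (a : ↥L)).symm

end Stab

section SplitLevel

variable (S : Finset Nat.Primes) (p : ℕ) (L : IntermediateField ℚ Qb) [NumberField ↥L]

/-- The primes of `S` split completely in `L(V^{1/p})/L` when the elements of `V` are local
`p`-th powers: an automorphism over `L` which is induced by a local automorphism on some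
embedding is trivial. -/
theorem h33_relGal_split (hp : 0 < p) {ζ : ↥L} (hζ : IsPrimitiveRoot ζ p)
    (V : Subgroup (↥L)ˣ) (hV : ∀ a ∈ V, ∃ φ : h25_J ↥L S, φ ^ p = h33_dJ ↥L S a) (q : S)
    (j' : ↥(h33_kummerLevel L p V) →+* PadicAlgCl ((q : Nat.Primes) : ℕ))
    (τ : PadicAlgCl ((q : Nat.Primes) : ℕ) ≃ₐ[ℚ_[((q : Nat.Primes) : ℕ)]]
      PadicAlgCl ((q : Nat.Primes) : ℕ))
    (s : ↥(h33_kummerLevel L p V) ≃ₐ[ℚ] ↥(h33_kummerLevel L p V))
    (hs : s ∈ h33_relGal L (h33_kummerLevel L p V))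
    (h : (τ : PadicAlgCl ((q : Nat.Primes) : ℕ) →+* PadicAlgCl ((q : Nat.Primes) : ℕ)).comp j'
      = j'.comp (s : ↥(h33_kummerLevel L p V) →+* ↥(h33_kummerLevel L p V))) :
    s = 1 := by
  have hle : L ≤ h33_kummerLevel L p V := h33_le_kummerLevel
  -- the embedding of `L`
  have hτj₀ : (τ : PadicAlgCl ((q : Nat.Primes) : ℕ) →+* PadicAlgCl ((q : Nat.Primes) : ℕ)).comp
      (j'.comp ((IntermediateField.inclusion hle : ↥L →ₐ[ℚ] ↥(h33_kummerLevel L p V)) :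
        ↥L →+* ↥(h33_kummerLevel L p V)))
      = j'.comp ((IntermediateField.inclusion hle : ↥L →ₐ[ℚ] ↥(h33_kummerLevel L p V)) :
        ↥L →+* ↥(h33_kummerLevel L p V)) := by
    ext x
    have h1 := DFunLike.congr_fun h (IntermediateField.inclusion hle x)
    have h2 : s (IntermediateField.inclusion hle x) = IntermediateField.inclusion hle x :=
      hs _ x.2
    simp only [RingHom.comp_apply, RingHom.coe_coe] at h1 ⊢
    rw [h2] at h1
    exact h1
  generalize hj₀ : j'.comp ((IntermediateField.inclusion hle :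
      ↥L →ₐ[ℚ] ↥(h33_kummerLevel L p V)) : ↥L →+* ↥(h33_kummerLevel L p V)) = j₀ at hτj₀
  have hj₀' : ∀ x : ↥L, j₀ x = j' (IntermediateField.inclusion hle x) := by
    intro x; rw [← hj₀]; rfl
  apply h33_kummerLevel_algEquiv_ext
  · intro x hx
    exact hs x hx
  · rintro x ⟨a, ha, hx⟩
    show s x = x
    -- the local `p`-th root of `a`
    obtain ⟨φ, hφ⟩ := hV a ha
    have hyp : (((φ q).1 j₀ : (PadicAlgCl ((q : Nat.Primes) : ℕ))ˣ) :
        PadicAlgCl ((q : Nat.Primes) : ℕ)) ^ p = j₀ (a : ↥L) := by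
      have h1 := congrFun hφ q
      have h2 := congrArg (fun u : h25_Jq ↥L ((q : Nat.Primes) : ℕ) =>
        ((u.1 j₀ : (PadicAlgCl ((q : Nat.Primes) : ℕ))ˣ) : PadicAlgCl ((q : Nat.Primes) : ℕ))) h1
      have h3 : (((φ q).1 j₀ : (PadicAlgCl ((q : Nat.Primes) : ℕ))ˣ) :
          PadicAlgCl ((q : Nat.Primes) : ℕ)) ^ p
          = ((((h33_dJ ↥L S a q).1 j₀ : (PadicAlgCl ((q : Nat.Primes) : ℕ))ˣ)) :
            PadicAlgCl ((q : Nat.Primes) : ℕ)) := by
        simpa using h2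
      rw [h3]
      exact h33_dJ_apply ↥L S a q j₀
    have hτy : τ (((φ q).1 j₀ : (PadicAlgCl ((q : Nat.Primes) : ℕ))ˣ) :
        PadicAlgCl ((q : Nat.Primes) : ℕ)) = (((φ q).1 j₀ : (PadicAlgCl ((q : Nat.Primes) : ℕ))ˣ) :
        PadicAlgCl ((q : Nat.Primes) : ℕ)) := by
      have h1 := (φ q).2 τ j₀
      rw [hτj₀] at h1
      exact h1.symm
    generalize (((φ q).1 j₀ : (PadicAlgCl ((q : Nat.Primes) : ℕ))ˣ) :
        PadicAlgCl ((q : Nat.Primes) : ℕ)) = y at hyp hτy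
    have hy0 : y ≠ 0 := by
      rintro rfl
      rw [zero_pow hp.ne'] at hyp
      have : j₀ (a : ↥L) ≠ 0 := (_root_.map_ne_zero j₀).2 a.ne_zero
      exact this hyp.symm
    have hxp : x ^ p = IntermediateField.inclusion hle (a : ↥L) := by
      apply Subtype.ext
      rw [IntermediateField.coe_pow, hx]
      rfl
    have h1 : (j' x / y) ^ p = 1 := by
      rw [div_pow, ← map_pow, hxp, ← hj₀', hyp]
      exact div_self (by rw [← hyp]; exact pow_ne_zero _ hy0)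
    have hζ' : IsPrimitiveRoot (j₀ ζ) p := hζ.map_of_injective j₀.injective
    have : NeZero p := ⟨hp.ne'⟩
    obtain ⟨i, -, hi⟩ := hζ'.eq_pow_of_pow_eq_one h1
    have h2 : j' x = (j₀ ζ) ^ i * y := by rw [hi, div_mul_cancel₀ _ hy0]
    have h3 : τ (j' x) = j' x := by
      rw [h2, map_mul, map_pow, hτy]
      congr 2
      exact DFunLike.congr_fun hτj₀ ζ
    have h4 : j' (s x) = j' x := by
      rw [← h3]
      exact (DFunLike.congr_fun h x).symm
    exact j'.injective h4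

end SplitLevel

section JNorm

variable (S : Finset Nat.Primes)

theorem h33_Xmap_fst {K K' : Type*} [Field K] [NumberField K] [Field K'] [NumberField K']
    (f : K →+* K') (x : h25_X K S) : (h25_Xmap S f x).1 = h25_Jmap S f x.1 := rfl

theorem h33_Xmap_snd {K K' : Type*} [Field K] [NumberField K] [Field K'] [NumberField K']
    (f : K →+* K') (x : h25_X K S) :
    (h25_Xmap S f x).2 = AddMonoidHom.toMultiplicative (h25_Dmap S f) x.2 := rfl

theorem h33_Jmap_apply {K K' : Type*} [Field K] [NumberField K] [Field K'] [NumberField K']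
    (f : K →+* K') (φ : h25_J K S) (q : S) (j' : K' →+* PadicAlgCl ((q : Nat.Primes) : ℕ)) :
    (h25_Jmap S f φ q).1 j' = (φ q).1 (j'.comp f) := rfl

variable (L L' : IntermediateField ℚ Qb) [NumberField ↥L] [NumberField ↥L']

/-- If the primes of `S` split completely in `L'/L`, the `J`-part of `C_L` consists of norms
from `L'`. -/
theorem h33_J_le_normGroup_of_split (hle : L ≤ L')
    (hsplit : ∀ (q : S) (j' : ↥L' →+* PadicAlgCl ((q : Nat.Primes) : ℕ))
      (τ : PadicAlgCl ((q : Nat.Primes) : ℕ) ≃ₐ[ℚ_[((q : Nat.Primes) : ℕ)]]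
        PadicAlgCl ((q : Nat.Primes) : ℕ)) (s : ↥L' ≃ₐ[ℚ] ↥L'), s ∈ h33_relGal L L' →
      (τ : PadicAlgCl ((q : Nat.Primes) : ℕ) →+* PadicAlgCl ((q : Nat.Primes) : ℕ)).comp j'
        = j'.comp (s : ↥L' →+* ↥L') → s = 1)
    (φ : h25_J ↥L S) : h25_mk ↥L S (φ, 1) ∈ h33_normGroup S hle := by
  classical
  have : Fintype (h33_relGal L L') := Fintype.ofFinite _
  -- local solutions of the norm equation
  have key : ∀ q : S, ∃ φ' : (↥L' →+* PadicAlgCl ((q : Nat.Primes) : ℕ)) →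
      (PadicAlgCl ((q : Nat.Primes) : ℕ))ˣ,
      (∀ (τ : PadicAlgCl ((q : Nat.Primes) : ℕ) ≃ₐ[ℚ_[((q : Nat.Primes) : ℕ)]]
          PadicAlgCl ((q : Nat.Primes) : ℕ))
        (j' : ↥L' →+* PadicAlgCl ((q : Nat.Primes) : ℕ)),
        ((φ' ((τ : PadicAlgCl ((q : Nat.Primes) : ℕ) →+* PadicAlgCl ((q : Nat.Primes) : ℕ)).comp j') :
          (PadicAlgCl ((q : Nat.Primes) : ℕ))ˣ) : PadicAlgCl ((q : Nat.Primes) : ℕ)) = τ (φ' j')) ∧
      ∀ j' : ↥L' →+* PadicAlgCl ((q : Nat.Primes) : ℕ),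
        ∏ g : h33_relGal L L', φ' (j'.comp (((g : ↥L' ≃ₐ[ℚ] ↥L')) : ↥L' →+* ↥L'))
          = (φ q).1 (j'.comp ((IntermediateField.inclusion hle : ↥L →ₐ[ℚ] ↥L') : ↥L →+* ↥L')) := by
    intro q
    let actΓ : MulAction (PadicAlgCl ((q : Nat.Primes) : ℕ) ≃ₐ[ℚ_[((q : Nat.Primes) : ℕ)]]
        PadicAlgCl ((q : Nat.Primes) : ℕ)) (↥L' →+* PadicAlgCl ((q : Nat.Primes) : ℕ)) :=
      { smul := fun τ j' =>
          (τ : PadicAlgCl ((q : Nat.Primes) : ℕ) →+* PadicAlgCl ((q : Nat.Primes) : ℕ)).comp j'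
        one_smul := fun j' => by ext x; rfl
        mul_smul := fun τ τ' j' => by ext x; rfl }
    let actG : MulAction (h33_relGal L L') (↥L' →+* PadicAlgCl ((q : Nat.Primes) : ℕ)) :=
      { smul := fun g j' => j'.comp ((((g⁻¹ : h33_relGal L L') : ↥L' ≃ₐ[ℚ] ↥L')) : ↥L' →+* ↥L')
        one_smul := fun j' => by ext x; rfl
        mul_smul := fun g g' j' => by
          ext x
          show j' ((((g * g')⁻¹ : h33_relGal L L') : ↥L' ≃ₐ[ℚ] ↥L') x)
            = j' (((g'⁻¹ : h33_relGal L L') : ↥L' ≃ₐ[ℚ] ↥L')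
                (((g⁻¹ : h33_relGal L L') : ↥L' ≃ₐ[ℚ] ↥L') x))
          rw [mul_inv_rev]
          rfl }
    have : SMulCommClass (PadicAlgCl ((q : Nat.Primes) : ℕ) ≃ₐ[ℚ_[((q : Nat.Primes) : ℕ)]]
        PadicAlgCl ((q : Nat.Primes) : ℕ)) (h33_relGal L L')
        (↥L' →+* PadicAlgCl ((q : Nat.Primes) : ℕ)) :=
      ⟨fun τ g j' => by ext x; rfl⟩
    have hΓ : ∀ (τ : PadicAlgCl ((q : Nat.Primes) : ℕ) ≃ₐ[ℚ_[((q : Nat.Primes) : ℕ)]]
        PadicAlgCl ((q : Nat.Primes) : ℕ)) (j' : ↥L' →+* PadicAlgCl ((q : Nat.Primes) : ℕ)),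
        τ • j' = (τ : PadicAlgCl ((q : Nat.Primes) : ℕ) →+*
          PadicAlgCl ((q : Nat.Primes) : ℕ)).comp j' := fun _ _ => rfl
    have hG : ∀ (g : h33_relGal L L') (j' : ↥L' →+* PadicAlgCl ((q : Nat.Primes) : ℕ)),
        g • j' = j'.comp ((((g⁻¹ : h33_relGal L L') : ↥L' ≃ₐ[ℚ] ↥L')) : ↥L' →+* ↥L') :=
      fun _ _ => rfl
    obtain ⟨φ', hφ1, hφ2⟩ := h33_exists_norm_eq_of_split
      (Γ := PadicAlgCl ((q : Nat.Primes) : ℕ) ≃ₐ[ℚ_[((q : Nat.Primes) : ℕ)]]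
        PadicAlgCl ((q : Nat.Primes) : ℕ))
      (G := h33_relGal L L') (X := ↥L' →+* PadicAlgCl ((q : Nat.Primes) : ℕ))
      (A := (PadicAlgCl ((q : Nat.Primes) : ℕ))ˣ)
      (fun j' τ g hh => by
        have h1 := hsplit q j' τ ((g⁻¹ : h33_relGal L L') : ↥L' ≃ₐ[ℚ] ↥L')
          (g⁻¹ : h33_relGal L L').2 (by rw [← hΓ, hh, hG])
        have h2 : (g⁻¹ : h33_relGal L L') = 1 := Subtype.ext h1
        exact inv_eq_one.1 h2)
      (fun j' => (φ q).1 (j'.comp ((IntermediateField.inclusion hle : ↥L →ₐ[ℚ] ↥L') :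
        ↥L →+* ↥L')))
      (fun τ j' => by
        apply Units.ext
        rw [hΓ, RingHom.comp_assoc]
        exact (φ q).2 τ _)
      (fun g j' => by
        rw [hG]
        have e : (j'.comp ((((g⁻¹ : h33_relGal L L') : ↥L' ≃ₐ[ℚ] ↥L')) : ↥L' →+* ↥L')).comp
            ((IntermediateField.inclusion hle : ↥L →ₐ[ℚ] ↥L') : ↥L →+* ↥L')
            = j'.comp ((IntermediateField.inclusion hle : ↥L →ₐ[ℚ] ↥L') : ↥L →+* ↥L') := by
          apply RingHom.ext
          intro x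
          have := (g⁻¹ : h33_relGal L L').2 (IntermediateField.inclusion hle x) x.2
          simp only [RingHom.comp_apply, RingHom.coe_coe]
          rw [this]
        rw [e])
    refine ⟨φ', fun τ j' => ?_, fun j' => ?_⟩
    · have := hφ1 τ j'
      rw [hΓ] at this
      rw [this]
      rfl
    · rw [← hφ2 j']
      refine Fintype.prod_equiv (Equiv.inv _) _ _ (fun g => ?_)
      rw [hG]
      simp
  choose φ' hφ'1 hφ'2 using key
  -- the global element
  let Φ' : h25_J ↥L' S := fun q => ⟨φ' q, hφ'1 q⟩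
  rw [h33_normGroup, Subgroup.mem_comap]
  refine ⟨h25_mk ↥L' S (Φ', 1), ?_⟩
  rw [h33_relNorm_apply, finprod_eq_prod_of_fintype, h33_ext, h66_Cmap_mk]
  simp only [h66_Cmap_mk]
  rw [← map_prod]
  congr 1
  refine Prod.ext ?_ ?_
  · rw [Prod.fst_prod]
    funext q
    apply Subtype.ext
    funext j'
    have h1 := hφ'2 q j'
    simp only [h33_Xmap_fst, Finset.prod_apply, SubmonoidClass.coe_finsetProd, h33_Jmap_apply]
    exact h1
  · rw [Prod.snd_prod]
    simp [h33_Xmap_snd]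

end JNorm

section Carrier

/-- `h33_ex_abstract` on the arithmetic carrier `h25_C K S`. -/
theorem h33_ex_carrier (K : Type*) [Field K] [NumberField K] (S : Finset Nat.Primes) (p : ℕ)
    (hI : ∀ i : Multiplicative (h25_Div K S), i ^ p = 1 → i = 1)
    (hD : (h33_dI K S).range.index ≠ 0)
    (hE : (powMonoidHom p : ↥(h33_dI K S).ker →* ↥(h33_dI K S).ker).range.index ≠ 0)
    (hJ : (powMonoidHom p : h25_J K S →* h25_J K S).range.index
      = (powMonoidHom p : ↥(h33_dI K S).ker →* ↥(h33_dI K S).ker).range.index ^ 2)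
    (N₁ N₂ : Subgroup (h25_C K S))
    (h₁ : (powMonoidHom p : h25_C K S →* h25_C K S).range ≤ N₁)
    (h₁i : N₁.index = (powMonoidHom p : Kˣ →* Kˣ).range.relIndex (h33_V (h33_dI K S) p))
    (h₂ : (powMonoidHom p : h25_C K S →* h25_C K S).range ≤ N₂)
    (h₂J : ∀ φ : h25_J K S, h25_mk K S (φ, 1) ∈ N₂)
    (h₂i : N₂.index = (powMonoidHom p : Kˣ →* Kˣ).range.relIndex
      (h33_Vsplit (h33_dJ K S) (h33_dI K S) p)) :
    N₁ = (powMonoidHom p : h25_C K S →* h25_C K S).range :=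
  h33_ex_abstract (h33_dJ K S) (h33_dI K S) p hI hD hE hJ N₁ N₂ h₁ h₁i h₂ h₂J h₂i

end Carrier

section Main

/-- **GLOB-EX, existence mod `p`** (arithmetic carrier, level form), from the interface facts:
for every level `L ∋ ζ_p` the Kummer level `L' = L(V^{1/p})`, `V = {a : div^S a ∈ p Div}`,
satisfies `N_{L'/L} C_{L'} = C_L^p`. -/
theorem h33_glob_ex_of (S : Finset Nat.Primes) (p : ℕ) [Fact p.Prime]
    (hpS : ∀ q : Nat.Primes, (q : ℕ) ∣ p → q ∈ S)
    (hN : h33_HypNorm S p) (hNUM : h33_HypNum S p) (hVAL : h33_HypVal S p) :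
    h33_GlobEx S p := by
  intro L _ hL hζ'
  obtain ⟨ζ, hζ⟩ := hζ'
  have hp : 0 < p := (Fact.out : p.Prime).pos
  have hfinL : FiniteDimensional ℚ L := hL.1.1
  have hgalL : IsGalois ℚ L := hL.2
  have hnormL : Normal ℚ L := IsGalois.to_normal
  obtain ⟨hD, hE, hJ⟩ := hNUM L hL ⟨ζ, hζ⟩
  have hI : ∀ i : Multiplicative (h25_Div ↥L S), i ^ p = 1 → i = 1 := by
    intro i hi
    have h1 : p • Multiplicative.toAdd i = 0 := by
      have := congrArg Multiplicative.toAdd hi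
      simpa using this
    have h2 : Multiplicative.toAdd i = 0 := by
      rcases smul_eq_zero.1 h1 with h | h
      · exact absurd h hp.ne'
      · exact h
    exact Multiplicative.toAdd.injective h2
  have hPV₂ : (powMonoidHom p : (↥L)ˣ →* (↥L)ˣ).range ≤
      h33_Vsplit (h33_dJ ↥L S) (h33_dI ↥L S) p := h33_pow_le_Vsplit _ _ p
  have hV₂V₁ : h33_Vsplit (h33_dJ ↥L S) (h33_dI ↥L S) p ≤ h33_V (h33_dI ↥L S) p :=
    h33_Vsplit_le_V _ _ p
  have hPV₁ : (powMonoidHom p : (↥L)ˣ →* (↥L)ˣ).range ≤ h33_V (h33_dI ↥L S) p :=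
    hPV₂.trans hV₂V₁
  have hdelta := h33_count_delta (h33_dI ↥L S) p hI hD
  have hcl : ((powMonoidHom p : Multiplicative (h25_Div ↥L S) →* _).range ⊔
      (h33_dI ↥L S).range).index ≠ 0 := by
    intro h0
    have := Subgroup.index_dvd_of_le (le_sup_right :
      (h33_dI ↥L S).range ≤ (powMonoidHom p : Multiplicative (h25_Div ↥L S) →* _).range ⊔
        (h33_dI ↥L S).range)
    rw [h0] at this
    exact hD (Nat.eq_zero_of_zero_dvd this)
  have hfin₁ : (powMonoidHom p : (↥L)ˣ →* (↥L)ˣ).range.relIndex (h33_V (h33_dI ↥L S) p) ≠ 0 := by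
    rw [hdelta]
    exact mul_ne_zero hE hcl
  have hfin₂ : (powMonoidHom p : (↥L)ˣ →* (↥L)ˣ).range.relIndex
      (h33_Vsplit (h33_dJ ↥L S) (h33_dI ↥L S) p) ≠ 0 := by
    intro h0
    have := Subgroup.relIndex_mul_relIndex _ _ _ hPV₂ hV₂V₁
    rw [h0, zero_mul] at this
    exact hfin₁ this.symm
  -- the two Kummer levels
  have hL₁ : h25_IsLevel S (h33_kummerLevel L p (h33_V (h33_dI ↥L S) p)) :=
    ⟨h33_kummerLevel_unram S L hL.1 hp hpS hζ _ hPV₁ hfin₁ (hVAL L hL),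
      h33_kummerLevel_isGalois L p _ (h33_V_stable S p L)⟩
  have hL₂ : h25_IsLevel S
      (h33_kummerLevel L p (h33_Vsplit (h33_dJ ↥L S) (h33_dI ↥L S) p)) :=
    ⟨h33_kummerLevel_unram S L hL.1 hp hpS hζ _ hPV₂ hfin₂
        (fun a ha => hVAL L hL a (hV₂V₁ ha)),
      h33_kummerLevel_isGalois L p _ (h33_Vsplit_stable S p L)⟩
  have nf₁ : NumberField ↥(h33_kummerLevel L p (h33_V (h33_dI ↥L S) p)) :=
    h33_level_numberField hL₁
  have nf₂ : NumberField ↥(h33_kummerLevel L p (h33_Vsplit (h33_dJ ↥L S) (h33_dI ↥L S) p)) :=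
    h33_level_numberField hL₂
  have hle₁ : L ≤ h33_kummerLevel L p (h33_V (h33_dI ↥L S) p) := h33_le_kummerLevel
  have hle₂ : L ≤ h33_kummerLevel L p (h33_Vsplit (h33_dJ ↥L S) (h33_dI ↥L S) p) :=
    h33_le_kummerLevel
  have hfd₁ : FiniteDimensional ℚ (h33_kummerLevel L p (h33_V (h33_dI ↥L S) p)) := hL₁.1.1
  have hfd₂ : FiniteDimensional ℚ
      (h33_kummerLevel L p (h33_Vsplit (h33_dJ ↥L S) (h33_dI ↥L S) p)) := hL₂.1.1
  have hgal₁ : IsGalois ℚ (h33_kummerLevel L p (h33_V (h33_dI ↥L S) p)) := hL₁.2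
  have hgal₂ : IsGalois ℚ
      (h33_kummerLevel L p (h33_Vsplit (h33_dJ ↥L S) (h33_dI ↥L S) p)) := hL₂.2
  -- the relative Galois groups are abelian of exponent `p`
  have hcomm₁ : ∀ s t : h33_relGal L (h33_kummerLevel L p (h33_V (h33_dI ↥L S) p)),
      s * t = t * s := by
    intro s t
    apply Subtype.ext
    exact h33_kummerLevel_comm hp hζ s.1 t.1 s.2 t.2
  have hexp₁ : ∀ s : h33_relGal L (h33_kummerLevel L p (h33_V (h33_dI ↥L S) p)),
      s ^ p = 1 := by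
    intro s
    apply Subtype.ext
    exact h33_kummerLevel_pow_eq_one hp hζ s.1 s.2
  have hcomm₂ : ∀ s t : h33_relGal L
      (h33_kummerLevel L p (h33_Vsplit (h33_dJ ↥L S) (h33_dI ↥L S) p)), s * t = t * s := by
    intro s t
    apply Subtype.ext
    exact h33_kummerLevel_comm hp hζ s.1 t.1 s.2 t.2
  have hexp₂ : ∀ s : h33_relGal L
      (h33_kummerLevel L p (h33_Vsplit (h33_dJ ↥L S) (h33_dI ↥L S) p)), s ^ p = 1 := by
    intro s
    apply Subtype.ext
    exact h33_kummerLevel_pow_eq_one hp hζ s.1 s.2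
  -- the degrees
  have hfr : 0 < Module.finrank ℚ ↥L := Module.finrank_pos
  have hcard₁ : Nat.card (h33_relGal L (h33_kummerLevel L p (h33_V (h33_dI ↥L S) p)))
      = (powMonoidHom p : (↥L)ˣ →* (↥L)ˣ).range.relIndex (h33_V (h33_dI ↥L S) p) := by
    have h1 := h33_card_relGal hle₁
    rw [h33_kummerLevel_finrank hp hζ hPV₁ hfin₁] at h1
    exact Nat.eq_of_mul_eq_mul_right hfr h1
  have hcard₂ : Nat.card (h33_relGal L
      (h33_kummerLevel L p (h33_Vsplit (h33_dJ ↥L S) (h33_dI ↥L S) p)))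
      = (powMonoidHom p : (↥L)ˣ →* (↥L)ˣ).range.relIndex
        (h33_Vsplit (h33_dJ ↥L S) (h33_dI ↥L S) p) := by
    have h1 := h33_card_relGal hle₂
    rw [h33_kummerLevel_finrank hp hζ hPV₂ hfin₂] at h1
    exact Nat.eq_of_mul_eq_mul_right hfr h1
  -- the norm index theorem for the two steps
  obtain ⟨hN1₁, hN2₁, hN3₁⟩ := hN L (h33_kummerLevel L p (h33_V (h33_dI ↥L S) p)) hle₁ hL hL₁
    hcomm₁ hexp₁
  obtain ⟨-, hN2₂, hN3₂⟩ := hN L
    (h33_kummerLevel L p (h33_Vsplit (h33_dJ ↥L S) (h33_dI ↥L S) p)) hle₂ hL hL₂ hcomm₂ hexp₂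
  -- the primes of `S` split completely in the second step
  have hsplitJ : ∀ φ : h25_J ↥L S, h25_mk ↥L S (φ, 1) ∈ h33_normGroup S hle₂ := by
    intro φ
    refine h33_J_le_normGroup_of_split S L _ hle₂ (fun q j' τ s hs h => ?_) φ
    refine h33_relGal_split S p L hp hζ _ (fun a ha => ?_) q j' τ s hs h
    exact ((h33_mem_Vsplit _ _ p a).1 ha).2
  -- the count
  have hkey := h33_ex_carrier ↥L S p hI hD hE hJ (h33_normGroup S hle₁) (h33_normGroup S hle₂)
    (by rintro _ ⟨c, rfl⟩; exact hN3₁ c) (hN2₁.trans hcard₁)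
    (by rintro _ ⟨c, rfl⟩; exact hN3₂ c) hsplitJ (hN2₂.trans hcard₂)
  refine ⟨h33_kummerLevel L p (h33_V (h33_dI ↥L S) p), nf₁, hle₁, hL₁, fun c' => ?_⟩
  obtain ⟨c₀, hc₀⟩ := hN1₁ ⟨c', rfl⟩
  have hc₀mem : c₀ ∈ h33_normGroup S hle₁ := by
    rw [h33_normGroup, Subgroup.mem_comap, hc₀]
    exact ⟨c', rfl⟩
  rw [hkey] at hc₀mem
  obtain ⟨c, rfl⟩ := hc₀mem
  exact ⟨c, hc₀.symm⟩

end Main

end

end Fermat.Agent.S55
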