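import Fermat.Agent.S55.h33_DecompNorm
import Fermat.Agent.S55.h33_GlobEx
import Fermat.Agent.S55.h90_GlobCAct
import Fermat.Agent.S55.h12_Cup
import Fermat.Agent.S55.h2_PLoc

/-!
# S55 / GLOB-UNORM (UC): `J ⊆` norms in the `G`-language

For number fields `K ⊆ E` (types) and a subgroup `H'` of `Gal(E/K) = E ≃ₐ[K] E` which contains
the decomposition groups of the primes above `S` (an automorphism `g` of `E/K` induced by a local
automorphism `τ` on some embedding `j : E → PadicAlgCl q`, `q ∈ S`, lies in `H'`), the class in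
`C_E ⊗ ℤ_(p)` of (the extension to `E` of) every `φ ∈ J_K` is a relative norm from `H'`
(`h12_IsRelNorm H'`).  No intermediate field `E^{H'}` is needed.

* `h33_J_isRelNorm_of_decomp` : the statement.
-/

set_option autoImplicit false

open IsDedekindDomain NumberField

namespace Fermat.Agent.S55

noncomputable section

section JNormG

variable {K : Type*} [Field K] [NumberField K] {E : Type*} [Field E] [NumberField E]
  [Algebra K E] (S : Finset Nat.Primes) (p : ℕ) [Fact p.Prime]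

omit [NumberField K] [NumberField E] in
/-- Local solutions of the relative norm equation, at one prime `q ∈ S`. -/
theorem h33_exists_local_relnorm (H' : Subgroup (E ≃ₐ[K] E)) (q : S)
    (hdec : ∀ (j : E →+* PadicAlgCl ((q : Nat.Primes) : ℕ))
      (τ : PadicAlgCl ((q : Nat.Primes) : ℕ) ≃ₐ[ℚ_[((q : Nat.Primes) : ℕ)]]
        PadicAlgCl ((q : Nat.Primes) : ℕ)) (g : E ≃ₐ[K] E),
      (τ : PadicAlgCl ((q : Nat.Primes) : ℕ) →+* PadicAlgCl ((q : Nat.Primes) : ℕ)).comp j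
        = j.comp (g : E →+* E) → g ∈ H')
    (φ : h25_Jq K ((q : Nat.Primes) : ℕ)) :
    ∃ φ' : h25_Jq E ((q : Nat.Primes) : ℕ),
      (∀ h ∈ H', ∀ j : E →+* PadicAlgCl ((q : Nat.Primes) : ℕ),
        φ'.1 (j.comp ((h : E ≃ₐ[K] E) : E →+* E)) = φ'.1 j) ∧
      ∀ j : E →+* PadicAlgCl ((q : Nat.Primes) : ℕ),
        ∏ᶠ t : (E ≃ₐ[K] E) ⧸ H', φ'.1 (j.comp ((Quotient.out t : E ≃ₐ[K] E) : E →+* E))
          = φ.1 (j.comp (algebraMap K E)) := by
  classical
  let actΓ : MulAction (PadicAlgCl ((q : Nat.Primes) : ℕ) ≃ₐ[ℚ_[((q : Nat.Primes) : ℕ)]]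
      PadicAlgCl ((q : Nat.Primes) : ℕ)) (E →+* PadicAlgCl ((q : Nat.Primes) : ℕ)) :=
    { smul := fun τ j =>
        (τ : PadicAlgCl ((q : Nat.Primes) : ℕ) →+* PadicAlgCl ((q : Nat.Primes) : ℕ)).comp j
      one_smul := fun j => by ext x; rfl
      mul_smul := fun τ τ' j => by ext x; rfl }
  let actG : MulAction (E ≃ₐ[K] E) (E →+* PadicAlgCl ((q : Nat.Primes) : ℕ)) :=
    { smul := fun g j => j.comp ((g⁻¹ : E ≃ₐ[K] E) : E →+* E)
      one_smul := fun j => by ext x; rfl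
      mul_smul := fun g g' j => by
        ext x
        show j (((g * g')⁻¹ : E ≃ₐ[K] E) x) = j ((g'⁻¹ : E ≃ₐ[K] E) ((g⁻¹ : E ≃ₐ[K] E) x))
        rw [mul_inv_rev]
        rfl }
  have : SMulCommClass (PadicAlgCl ((q : Nat.Primes) : ℕ) ≃ₐ[ℚ_[((q : Nat.Primes) : ℕ)]]
      PadicAlgCl ((q : Nat.Primes) : ℕ)) (E ≃ₐ[K] E)
      (E →+* PadicAlgCl ((q : Nat.Primes) : ℕ)) :=
    ⟨fun τ g j => by ext x; rfl⟩
  have hΓ : ∀ (τ : PadicAlgCl ((q : Nat.Primes) : ℕ) ≃ₐ[ℚ_[((q : Nat.Primes) : ℕ)]]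
      PadicAlgCl ((q : Nat.Primes) : ℕ)) (j : E →+* PadicAlgCl ((q : Nat.Primes) : ℕ)),
      τ • j = (τ : PadicAlgCl ((q : Nat.Primes) : ℕ) →+*
        PadicAlgCl ((q : Nat.Primes) : ℕ)).comp j := fun _ _ => rfl
  have hG : ∀ (g : E ≃ₐ[K] E) (j : E →+* PadicAlgCl ((q : Nat.Primes) : ℕ)),
      g • j = j.comp ((g⁻¹ : E ≃ₐ[K] E) : E →+* E) := fun _ _ => rfl
  obtain ⟨φ', hφ1, hφ2, hφ3⟩ := h33_exists_relnorm_of_decomp
    (Γ := PadicAlgCl ((q : Nat.Primes) : ℕ) ≃ₐ[ℚ_[((q : Nat.Primes) : ℕ)]]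
      PadicAlgCl ((q : Nat.Primes) : ℕ))
    (G := E ≃ₐ[K] E) (X := E →+* PadicAlgCl ((q : Nat.Primes) : ℕ))
    (A := (PadicAlgCl ((q : Nat.Primes) : ℕ))ˣ) H'
    (fun j τ g hh => by
      have h1 := hdec j τ (g⁻¹ : E ≃ₐ[K] E) (by rw [← hΓ, hh, hG])
      have h2 := H'.inv_mem h1
      rwa [inv_inv] at h2)
    (fun τ u => Units.map ((τ : PadicAlgCl ((q : Nat.Primes) : ℕ) →+*
      PadicAlgCl ((q : Nat.Primes) : ℕ)) : PadicAlgCl ((q : Nat.Primes) : ℕ) →*
        PadicAlgCl ((q : Nat.Primes) : ℕ)) u)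
    (fun τ => map_one _)
    (fun j => φ.1 (j.comp (algebraMap K E)))
    (fun τ j => by
      apply Units.ext
      rw [hΓ, RingHom.comp_assoc]
      exact φ.2 τ _)
    (fun g j => by
      rw [hG]
      have e : (j.comp ((g⁻¹ : E ≃ₐ[K] E) : E →+* E)).comp (algebraMap K E)
          = j.comp (algebraMap K E) := by
        apply RingHom.ext
        intro x
        simp only [RingHom.comp_apply, RingHom.coe_coe]
        rw [AlgEquiv.commutes]
      rw [e])
  refine ⟨⟨φ', fun τ j => ?_⟩, fun h hh j => ?_, fun j => ?_⟩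
  · have := hφ1 τ j
    rw [hΓ] at this
    rw [this]
    rfl
  · have := hφ2 h⁻¹ (H'.inv_mem hh) j
    rw [hG, inv_inv] at this
    exact this
  · rw [← hφ3 j]
    refine finprod_congr fun t => ?_
    rw [hG, inv_inv]

/-- **`J ⊆` norms in the `G`-language**: if the subgroup `H'` of `Gal(E/K)` contains the
decomposition groups of the primes above `S`, the class of every `φ ∈ J_K` in `C_E ⊗ ℤ_(p)` is a
relative norm from `H'`. -/
theorem h33_J_isRelNorm_of_decomp (H' : Subgroup (E ≃ₐ[K] E))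
    (hdec : ∀ (q : S) (j : E →+* PadicAlgCl ((q : Nat.Primes) : ℕ))
      (τ : PadicAlgCl ((q : Nat.Primes) : ℕ) ≃ₐ[ℚ_[((q : Nat.Primes) : ℕ)]]
        PadicAlgCl ((q : Nat.Primes) : ℕ)) (g : E ≃ₐ[K] E),
      (τ : PadicAlgCl ((q : Nat.Primes) : ℕ) →+* PadicAlgCl ((q : Nat.Primes) : ℕ)).comp j
        = j.comp (g : E →+* E) → g ∈ H')
    (φ : h25_J K S) :
    h12_IsRelNorm H' (h2_PL.j (p := p) (Additive.ofMul (h25_Cmap S (algebraMap K E)
      (h25_mk K S (φ, 1))))) := by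
  classical
  have : Fintype ((E ≃ₐ[K] E) ⧸ H') := Fintype.ofFinite _
  have key := fun q : S => h33_exists_local_relnorm S H' q (hdec q) (φ q)
  choose Φ' hΦ1 hΦ2 using key
  refine ⟨h2_PL.j (p := p) (Additive.ofMul (h25_mk E S (Φ', 1))), fun h hh => ?_, ?_⟩
  · rw [← h2_PL.j_smul]
    congr 1
    refine congrArg Additive.ofMul ?_
    refine (h90_smul_mk h _).trans (congrArg (h25_mk E S) ?_)
    refine Prod.ext ?_ ?_
    · rw [h33_Xmap_fst]
      funext q
      apply Subtype.ext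
      funext j
      rw [h33_Jmap_apply]
      exact hΦ1 q h hh j
    · rw [h33_Xmap_snd]
      exact map_one _
  · unfold h12_relNorm
    rw [finsum_eq_sum_of_fintype]
    have hterm : ∀ t : (E ≃ₐ[K] E) ⧸ H',
        (Quotient.out t : E ≃ₐ[K] E) • h2_PL.j (p := p) (Additive.ofMul (h25_mk E S (Φ', 1)))
          = h2_PL.j (p := p) (Additive.ofMul (h25_mk E S
              (h25_Xmap S ((Quotient.out t : E ≃ₐ[K] E) : E →+* E) (Φ', 1)))) := by
      intro t
      rw [← h2_PL.j_smul]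
      congr 1
      exact congrArg Additive.ofMul (h90_smul_mk _ _)
    rw [Finset.sum_congr rfl fun t _ => hterm t, ← map_sum, ← ofMul_prod, ← map_prod,
      h66_Cmap_mk]
    congr 3
    refine Prod.ext ?_ ?_
    · rw [Prod.fst_prod]
      funext q
      apply Subtype.ext
      funext j
      have h1 := hΦ2 q j
      rw [finprod_eq_prod_of_fintype] at h1
      simp only [h33_Xmap_fst, Finset.prod_apply, SubmonoidClass.coe_finsetProd, h33_Jmap_apply]
      exact h1.symm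
    · rw [Prod.snd_prod]
      simp [h33_Xmap_snd]

end JNormG

end

end Fermat.Agent.S55
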