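import Mathlib

/-!
# S55 (no-regret block KUM): Kummer duality for exponent `p` with several generators

Pure field theory, Mathlib only.  `K` is a field containing a primitive `p`-th root of unity
`ζ`, `L/K` a field extension.

* `h33_kummerGroup K L p : Subgroup Kˣ` : the elements of `Kˣ` which are `p`-th powers in `L`.
* `h33_kummerChar K L p σ a : Kˣ` : the Kummer character `σ(α)/α` (`α ^ p = a`).
-/

set_option autoImplicit false
set_option linter.unusedSectionVars false
set_option linter.style.haveILetI false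

namespace Fermat.Agent.S55

open IntermediateField Polynomial

section Defs

variable (K L : Type*) [Field K] [Field L] [Algebra K L] (p : ℕ)

/-- `Kˣ ∩ (Lˣ)^p`: the elements of `Kˣ` that have a `p`-th root in `L`. -/
def h33_kummerGroup : Subgroup Kˣ where
  carrier := {a | ∃ α : L, α ^ p = algebraMap K L a}
  mul_mem' := by
    rintro a b ⟨α, hα⟩ ⟨β, hβ⟩
    exact ⟨α * β, by rw [mul_pow, hα, hβ, Units.val_mul, map_mul]⟩
  one_mem' := ⟨1, by simp⟩
  inv_mem' := by
    rintro a ⟨α, hα⟩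
    exact ⟨α⁻¹, by rw [inv_pow, hα, Units.val_inv_eq_inv_val, map_inv₀]⟩

variable {K L p}

theorem h33_mem_kummerGroup_iff {a : Kˣ} :
    a ∈ h33_kummerGroup K L p ↔ ∃ α : L, α ^ p = algebraMap K L a := Iff.rfl

theorem h33_pow_mem_kummerGroup (c : Kˣ) : c ^ p ∈ h33_kummerGroup K L p :=
  ⟨algebraMap K L c, by rw [Units.val_pow_eq_pow_val, map_pow]⟩

theorem h33_range_pow_le_kummerGroup :
    (powMonoidHom p : Kˣ →* Kˣ).range ≤ h33_kummerGroup K L p := by
  rintro _ ⟨c, rfl⟩
  exact h33_pow_mem_kummerGroup c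

variable (K L p)

open Classical in
/-- The Kummer character: for `a ∈ h33_kummerGroup K L p` and `σ ∈ Aut(L/K)` this is the
`p`-th root of unity `η ∈ K` with `σ α = η α` for the `p`-th roots `α` of `a` in `L`
(junk value `1` if there is no such `η`). -/
noncomputable def h33_kummerChar (σ : L ≃ₐ[K] L) (a : Kˣ) : Kˣ :=
  if h : ∃ η : Kˣ, ∃ α : L, α ^ p = algebraMap K L a ∧ σ α = algebraMap K L η * α then h.choose
  else 1

end Defs

section Pairing

variable {K L : Type*} [Field K] [Field L] [Algebra K L] {p : ℕ} {ζ : K}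

/-- the `p`-th roots of unity of `L` lie in `K`. -/
theorem h33_exists_of_pow_eq_one (hp : 0 < p) (hζ : IsPrimitiveRoot ζ p) {x : L}
    (hx : x ^ p = 1) : ∃ η : Kˣ, η ^ p = 1 ∧ algebraMap K L η = x := by
  have : NeZero p := ⟨hp.ne'⟩
  have hζL : IsPrimitiveRoot (algebraMap K L ζ) p :=
    hζ.map_of_injective (algebraMap K L).injective
  obtain ⟨i, -, hi⟩ := hζL.eq_pow_of_pow_eq_one hx
  have hζu : IsUnit ζ := hζ.isUnit hp.ne'
  refine ⟨hζu.unit ^ i, ?_, ?_⟩
  · ext
    rw [← pow_mul, mul_comm, pow_mul, Units.val_pow_eq_pow_val, Units.val_pow_eq_pow_val,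
      IsUnit.unit_spec, hζ.pow_eq_one, one_pow, Units.val_one]
  · rw [Units.val_pow_eq_pow_val, IsUnit.unit_spec, map_pow, hi]

theorem h33_kummer_exists (hp : 0 < p) (hζ : IsPrimitiveRoot ζ p) (σ : L ≃ₐ[K] L) {a : Kˣ}
    {α : L} (hα : α ^ p = algebraMap K L a) :
    ∃ η : Kˣ, η ^ p = 1 ∧ σ α = algebraMap K L η * α := by
  have hα0 : α ≠ 0 := by
    rintro rfl
    rw [zero_pow hp.ne'] at hα
    exact (a.ne_zero) ((algebraMap K L).injective (by rw [← hα, map_zero]))
  have h1 : (σ α / α) ^ p = 1 := by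
    rw [div_pow, ← map_pow, hα, AlgEquiv.commutes, div_self]
    rw [← hα]; exact pow_ne_zero _ hα0
  obtain ⟨η, hη, hηx⟩ := h33_exists_of_pow_eq_one hp hζ h1
  exact ⟨η, hη, by rw [hηx, div_mul_cancel₀ _ hα0]⟩

/-- **Specification of the Kummer character.** -/
theorem h33_kummerChar_spec (hp : 0 < p) (hζ : IsPrimitiveRoot ζ p) (σ : L ≃ₐ[K] L) {a : Kˣ}
    {α : L} (hα : α ^ p = algebraMap K L a) :
    σ α = algebraMap K L (h33_kummerChar K L p σ a) * α := by
  classical
  obtain ⟨η, -, hη⟩ := h33_kummer_exists hp hζ σ hα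
  have h : ∃ η : Kˣ, ∃ α : L, α ^ p = algebraMap K L a ∧ σ α = algebraMap K L η * α :=
    ⟨η, α, hα, hη⟩
  rw [h33_kummerChar, dif_pos h]
  obtain ⟨β, hβ, hβ'⟩ := h.choose_spec
  have hα0 : α ≠ 0 := by
    rintro rfl
    rw [zero_pow hp.ne'] at hα
    exact (a.ne_zero) ((algebraMap K L).injective (by rw [← hα, map_zero]))
  -- `β = ω α` with `ω ∈ K`
  have h1 : (β / α) ^ p = 1 := by
    rw [div_pow, hα, hβ, div_self]
    exact (_root_.map_ne_zero _).2 a.ne_zero
  obtain ⟨ω, -, hω⟩ := h33_exists_of_pow_eq_one hp hζ h1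
  have hβα : β = algebraMap K L ω * α := by rw [hω, div_mul_cancel₀ _ hα0]
  have hω0 : algebraMap K L (ω : K) ≠ 0 := (_root_.map_ne_zero _).2 ω.ne_zero
  rw [hβα, map_mul, AlgEquiv.commutes] at hβ'
  refine mul_left_cancel₀ hω0 (hβ'.trans ?_)
  ring

theorem h33_kummerChar_eq_of (hp : 0 < p) (hζ : IsPrimitiveRoot ζ p) (σ : L ≃ₐ[K] L) {a : Kˣ}
    {α : L} (hα : α ^ p = algebraMap K L a) {η : Kˣ} (hη : σ α = algebraMap K L η * α) :
    h33_kummerChar K L p σ a = η := by
  have hα0 : α ≠ 0 := by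
    rintro rfl
    rw [zero_pow hp.ne'] at hα
    exact (a.ne_zero) ((algebraMap K L).injective (by rw [← hα, map_zero]))
  have h := h33_kummerChar_spec hp hζ σ hα
  rw [hη] at h
  exact Units.ext ((algebraMap K L).injective (mul_right_cancel₀ hα0 h)).symm

theorem h33_kummerChar_pow_eq_one (hp : 0 < p) (hζ : IsPrimitiveRoot ζ p) (σ : L ≃ₐ[K] L)
    {a : Kˣ} (ha : a ∈ h33_kummerGroup K L p) : h33_kummerChar K L p σ a ^ p = 1 := by
  obtain ⟨α, hα⟩ := ha
  obtain ⟨η, hη, hη'⟩ := h33_kummer_exists hp hζ σ hα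
  rw [h33_kummerChar_eq_of hp hζ σ hα hη', hη]

theorem h33_kummerChar_mul_left (hp : 0 < p) (hζ : IsPrimitiveRoot ζ p) (σ τ : L ≃ₐ[K] L)
    {a : Kˣ} (ha : a ∈ h33_kummerGroup K L p) :
    h33_kummerChar K L p (σ * τ) a = h33_kummerChar K L p σ a * h33_kummerChar K L p τ a := by
  obtain ⟨α, hα⟩ := ha
  refine h33_kummerChar_eq_of hp hζ (σ * τ) hα ?_
  rw [AlgEquiv.mul_apply, h33_kummerChar_spec hp hζ τ hα, map_mul, AlgEquiv.commutes,
    h33_kummerChar_spec hp hζ σ hα, Units.val_mul, map_mul]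
  ring

theorem h33_kummerChar_one_left (hp : 0 < p) (hζ : IsPrimitiveRoot ζ p)
    {a : Kˣ} (ha : a ∈ h33_kummerGroup K L p) :
    h33_kummerChar K L p (1 : L ≃ₐ[K] L) a = 1 := by
  obtain ⟨α, hα⟩ := ha
  exact h33_kummerChar_eq_of hp hζ 1 hα (by simp)

theorem h33_kummerChar_mul_right (hp : 0 < p) (hζ : IsPrimitiveRoot ζ p) (σ : L ≃ₐ[K] L)
    {a b : Kˣ} (ha : a ∈ h33_kummerGroup K L p) (hb : b ∈ h33_kummerGroup K L p) :
    h33_kummerChar K L p σ (a * b) = h33_kummerChar K L p σ a * h33_kummerChar K L p σ b := by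
  obtain ⟨α, hα⟩ := ha
  obtain ⟨β, hβ⟩ := hb
  have hαβ : (α * β) ^ p = algebraMap K L ((a * b : Kˣ) : K) := by
    rw [mul_pow, hα, hβ, Units.val_mul, map_mul]
  refine h33_kummerChar_eq_of hp hζ σ hαβ ?_
  rw [map_mul, h33_kummerChar_spec hp hζ σ hα, h33_kummerChar_spec hp hζ σ hβ, Units.val_mul,
    map_mul]
  ring

theorem h33_kummerChar_pow_right (hp : 0 < p) (hζ : IsPrimitiveRoot ζ p) (σ : L ≃ₐ[K] L)
    (c : Kˣ) : h33_kummerChar K L p σ (c ^ p) = 1 := by
  have hc : (algebraMap K L c) ^ p = algebraMap K L ((c ^ p : Kˣ) : K) := by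
    rw [Units.val_pow_eq_pow_val, map_pow]
  exact h33_kummerChar_eq_of hp hζ σ hc (by simp)

/-- `h33_kummerChar σ a = 1` iff `σ` fixes one (equivalently every) `p`-th root of `a`. -/
theorem h33_kummerChar_eq_one_iff (hp : 0 < p) (hζ : IsPrimitiveRoot ζ p) (σ : L ≃ₐ[K] L)
    {a : Kˣ} {α : L} (hα : α ^ p = algebraMap K L a) :
    h33_kummerChar K L p σ a = 1 ↔ σ α = α := by
  constructor
  · intro h
    rw [h33_kummerChar_spec hp hζ σ hα, h, Units.val_one, map_one, one_mul]
  · intro h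
    exact h33_kummerChar_eq_of hp hζ σ hα (by simp [h])

end Pairing

section Duality

variable {K L : Type*} [Field K] [Field L] [Algebra K L] {p : ℕ} {ζ : K}
  [FiniteDimensional K L] [IsGalois K L]

/-- **Kummer theory, Hilbert 90 form**: every character of `Gal(L/K)` with values in the
`p`-th roots of unity of `K` is a Kummer character. -/
theorem h33_exists_kummerChar_eq (hp : 0 < p) (hζ : IsPrimitiveRoot ζ p)
    (χ : (L ≃ₐ[K] L) →* Kˣ) (hχ : ∀ σ, χ σ ^ p = 1) :
    ∃ a ∈ h33_kummerGroup K L p, ∀ σ, h33_kummerChar K L p σ a = χ σ := by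
  classical
  let f : (L ≃ₐ[K] L) → Lˣ := fun σ => Units.map (algebraMap K L : K →* L) (χ σ)
  have hf : groupCohomology.IsMulCocycle₁ f := by
    intro g h
    ext
    simp [f, AlgEquiv.smul_units_def, mul_comm]
  obtain ⟨β, hβ⟩ := groupCohomology.isMulCoboundary₁_of_isMulCocycle₁_of_aut_to_units f hf
  have hβ' : ∀ σ : L ≃ₐ[K] L, σ (β : L) = algebraMap K L (χ σ) * β := by
    intro σ
    have h := congrArg (fun u : Lˣ => (u : L)) (hβ σ)
    simp only [f, AlgEquiv.smul_units_def, Units.val_div_eq_div_val, Units.coe_map,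
      MonoidHom.coe_coe] at h
    rw [← h, div_mul_cancel₀ _ β.ne_zero]
  have hfix : ∀ σ : L ≃ₐ[K] L, σ ((β : L) ^ p) = (β : L) ^ p := by
    intro σ
    rw [map_pow, hβ', mul_pow, ← map_pow, ← Units.val_pow_eq_pow_val, hχ, Units.val_one,
      map_one, one_mul]
  obtain ⟨a, ha⟩ : ∃ a : K, algebraMap K L a = (β : L) ^ p :=
    IntermediateField.mem_bot.1 ((IsGalois.mem_bot_iff_fixed ((β : L) ^ p)).2 hfix)
  have ha0 : a ≠ 0 := by
    rintro rfl
    rw [map_zero] at ha
    exact pow_ne_zero p β.ne_zero ha.symm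
  exact ⟨Units.mk0 a ha0, ⟨β, by rw [Units.val_mk0, ha]⟩,
    fun σ => h33_kummerChar_eq_of hp hζ σ (by rw [Units.val_mk0, ha]) (hβ' σ)⟩

/-- an element of the Kummer group all of whose Kummer characters are trivial is a `p`-th
power in `K`. -/
theorem h33_mem_range_pow_of_kummerChar_eq_one (hp : 0 < p) (hζ : IsPrimitiveRoot ζ p)
    {a : Kˣ} (ha : a ∈ h33_kummerGroup K L p)
    (h : ∀ σ : L ≃ₐ[K] L, h33_kummerChar K L p σ a = 1) :
    a ∈ (powMonoidHom p : Kˣ →* Kˣ).range := by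
  obtain ⟨α, hα⟩ := ha
  have hfix : ∀ σ : L ≃ₐ[K] L, σ α = α := fun σ =>
    (h33_kummerChar_eq_one_iff hp hζ σ hα).1 (h σ)
  obtain ⟨c, hc⟩ : ∃ c : K, algebraMap K L c = α :=
    IntermediateField.mem_bot.1 ((IsGalois.mem_bot_iff_fixed α).2 hfix)
  have hca : c ^ p = a := (algebraMap K L).injective (by rw [map_pow, hc, hα])
  have hc0 : c ≠ 0 := by
    rintro rfl
    rw [zero_pow hp.ne'] at hca
    exact a.ne_zero hca.symm
  exact ⟨Units.mk0 c hc0, Units.ext (by simpa using hca)⟩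

/-- the Kummer map `a ↦ (σ ↦ σ(α)/α)` as a group homomorphism. -/
noncomputable def h33_kummerHom (hp : 0 < p) (hζ : IsPrimitiveRoot ζ p) :
    h33_kummerGroup K L p →* ((L ≃ₐ[K] L) →* Kˣ) where
  toFun a :=
    { toFun := fun σ => h33_kummerChar K L p σ a
      map_one' := h33_kummerChar_one_left hp hζ a.2
      map_mul' := fun σ τ => h33_kummerChar_mul_left hp hζ σ τ a.2 }
  map_one' := by
    ext σ
    simpa using h33_kummerChar_pow_right (L := L) hp hζ σ 1
  map_mul' a b := by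
    ext σ
    simpa using congrArg Units.val (h33_kummerChar_mul_right hp hζ σ a.2 b.2)

@[simp]
theorem h33_kummerHom_apply (hp : 0 < p) (hζ : IsPrimitiveRoot ζ p)
    (a : h33_kummerGroup K L p) (σ : L ≃ₐ[K] L) :
    h33_kummerHom hp hζ a σ = h33_kummerChar K L p σ a := rfl

theorem h33_kummerHom_ker (hp : 0 < p) (hζ : IsPrimitiveRoot ζ p) :
    (h33_kummerHom (L := L) hp hζ).ker =
      ((powMonoidHom p : Kˣ →* Kˣ).range).subgroupOf (h33_kummerGroup K L p) := by
  ext a
  rw [MonoidHom.mem_ker, Subgroup.mem_subgroupOf]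
  constructor
  · intro h
    exact h33_mem_range_pow_of_kummerChar_eq_one hp hζ a.2
      (fun σ => by simpa using DFunLike.congr_fun h σ)
  · rintro ⟨c, hc⟩
    ext σ
    have hc' : (a : Kˣ) = c ^ p := hc.symm
    rw [h33_kummerHom_apply, hc', h33_kummerChar_pow_right hp hζ σ c]
    rfl

theorem h33_kummerHom_surjective (hp : 0 < p) (hζ : IsPrimitiveRoot ζ p)
    (hexp : ∀ σ : L ≃ₐ[K] L, σ ^ p = 1) :
    Function.Surjective (h33_kummerHom (L := L) hp hζ) := by
  intro χ
  obtain ⟨a, ha, h⟩ := h33_exists_kummerChar_eq hp hζ χ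
    (fun σ => by rw [← map_pow, hexp, map_one])
  exact ⟨⟨a, ha⟩, MonoidHom.ext fun σ => h σ⟩

theorem h33_hasEnoughRootsOfUnity (hp : 0 < p) (hζ : IsPrimitiveRoot ζ p) :
    HasEnoughRootsOfUnity K p :=
  have : NeZero p := ⟨hp.ne'⟩
  ⟨⟨ζ, hζ⟩, inferInstance⟩

/-- **Kummer duality, degree formula**: if `L/K` is finite Galois with abelian Galois group of
exponent `p` (and `K` contains a primitive `p`-th root of unity), then
`[Kˣ ∩ (Lˣ)^p : (Kˣ)^p] = [L : K]`. -/
theorem h33_kummer_relIndex (hp : 0 < p) (hζ : IsPrimitiveRoot ζ p)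
    (hab : ∀ σ τ : L ≃ₐ[K] L, σ * τ = τ * σ) (hexp : ∀ σ : L ≃ₐ[K] L, σ ^ p = 1) :
    ((powMonoidHom p : Kˣ →* Kˣ).range).relIndex (h33_kummerGroup K L p) =
      Module.finrank K L := by
  classical
  letI : CommGroup (L ≃ₐ[K] L) := { (inferInstance : Group (L ≃ₐ[K] L)) with mul_comm := hab }
  have : NeZero p := ⟨hp.ne'⟩
  have hE : HasEnoughRootsOfUnity K p := h33_hasEnoughRootsOfUnity hp hζ
  have hdvd : Monoid.exponent (L ≃ₐ[K] L) ∣ p := Monoid.exponent_dvd_of_forall_pow_eq_one hexp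
  have hE' : HasEnoughRootsOfUnity K (Monoid.exponent (L ≃ₐ[K] L)) :=
    HasEnoughRootsOfUnity.of_dvd K hdvd
  rw [Subgroup.relIndex, ← h33_kummerHom_ker hp hζ, Subgroup.index_ker,
    MonoidHom.range_eq_top.2 (h33_kummerHom_surjective hp hζ hexp), Subgroup.card_top,
    ← IsGalois.card_aut_eq_finrank K L]
  exact CommGroup.card_monoidHom_of_hasEnoughRootsOfUnity (L ≃ₐ[K] L) K

/-- **Kummer duality, left nondegeneracy**: a nontrivial automorphism moves some `p`-th root
of an element of `K`. -/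
theorem h33_exists_kummerChar_ne_one (hp : 0 < p) (hζ : IsPrimitiveRoot ζ p)
    (hab : ∀ σ τ : L ≃ₐ[K] L, σ * τ = τ * σ) (hexp : ∀ σ : L ≃ₐ[K] L, σ ^ p = 1)
    {σ : L ≃ₐ[K] L} (hσ : σ ≠ 1) :
    ∃ a ∈ h33_kummerGroup K L p, h33_kummerChar K L p σ a ≠ 1 := by
  classical
  letI : CommGroup (L ≃ₐ[K] L) := { (inferInstance : Group (L ≃ₐ[K] L)) with mul_comm := hab }
  have : NeZero p := ⟨hp.ne'⟩
  have hE : HasEnoughRootsOfUnity K p := h33_hasEnoughRootsOfUnity hp hζ
  have hdvd : Monoid.exponent (L ≃ₐ[K] L) ∣ p := Monoid.exponent_dvd_of_forall_pow_eq_one hexp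
  have hE' : HasEnoughRootsOfUnity K (Monoid.exponent (L ≃ₐ[K] L)) :=
    HasEnoughRootsOfUnity.of_dvd K hdvd
  obtain ⟨χ, hχ⟩ := CommGroup.exists_apply_ne_one_of_hasEnoughRootsOfUnity (L ≃ₐ[K] L) K hσ
  obtain ⟨a, ha, h⟩ := h33_exists_kummerChar_eq hp hζ χ
    (fun σ => by rw [← map_pow, hexp, map_one])
  exact ⟨a, ha, by rw [h σ]; exact hχ⟩

/-- **Kummer duality, right nondegeneracy**: an element of `Kˣ ∩ (Lˣ)^p` which is not a `p`-th
power in `K` has a `p`-th root moved by some automorphism. -/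
theorem h33_exists_kummerChar_ne_one' (hp : 0 < p) (hζ : IsPrimitiveRoot ζ p)
    {a : Kˣ} (ha : a ∈ h33_kummerGroup K L p)
    (ha' : a ∉ (powMonoidHom p : Kˣ →* Kˣ).range) :
    ∃ σ : L ≃ₐ[K] L, h33_kummerChar K L p σ a ≠ 1 := by
  by_contra h
  exact ha' (h33_mem_range_pow_of_kummerChar_eq_one hp hζ ha
    (fun σ => by_contra fun hσ => h ⟨σ, hσ⟩))

/-- an abelian extension of exponent `p` is generated by `p`-th roots of elements of `K`. -/
theorem h33_adjoin_roots_eq_top (hp : 0 < p) (hζ : IsPrimitiveRoot ζ p)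
    (hab : ∀ σ τ : L ≃ₐ[K] L, σ * τ = τ * σ) (hexp : ∀ σ : L ≃ₐ[K] L, σ ^ p = 1) :
    IntermediateField.adjoin K {α : L | ∃ a : Kˣ, α ^ p = algebraMap K L a} = ⊤ := by
  set E := IntermediateField.adjoin K {α : L | ∃ a : Kˣ, α ^ p = algebraMap K L a} with hE
  have hfix : E.fixingSubgroup = ⊥ := by
    rw [eq_bot_iff]
    intro σ hσ
    rw [Subgroup.mem_bot]
    by_contra hne
    obtain ⟨a, ⟨α, hα⟩, h⟩ := h33_exists_kummerChar_ne_one hp hζ hab hexp hne
    refine h ((h33_kummerChar_eq_one_iff hp hζ σ hα).2 ?_)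
    have hαE : α ∈ E := IntermediateField.subset_adjoin K _ ⟨a, hα⟩
    exact (IntermediateField.mem_fixingSubgroup_iff E σ).1 hσ α hαE
  rw [← IsGalois.fixedField_fixingSubgroup E, hfix, IntermediateField.fixedField_bot]

end Duality

section Construction

variable {K L : Type*} [Field K] [Field L] [Algebra K L] {p : ℕ} {ζ : K}

theorem h33_isIntegral_of_pow_eq (hp : 0 < p) {α : L} {a : K}
    (h : α ^ p = algebraMap K L a) : IsIntegral K α :=
  ⟨X ^ p - C a, monic_X_pow_sub_C a hp.ne', by simp [h]⟩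

/-- two automorphisms agreeing on a generating set of algebraic elements are equal. -/
theorem h33_algEquiv_ext_of_adjoin {S : Set L} (hS : ∀ x ∈ S, IsIntegral K x)
    (hgen : IntermediateField.adjoin K S = ⊤) {σ τ : L ≃ₐ[K] L} (h : ∀ x ∈ S, σ x = τ x) :
    σ = τ := by
  have hA : Algebra.adjoin K S = ⊤ :=
    (IntermediateField.adjoin_eq_top_iff_of_isAlgebraic
      (fun x hx => (hS x hx).isAlgebraic)).1 hgen
  have h2 : (σ : L →ₐ[K] L) = (τ : L →ₐ[K] L) :=
    AlgHom.ext_of_adjoin_eq_top hA (fun x hx => h x hx)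
  exact AlgEquiv.ext fun x => DFunLike.congr_fun h2 x

variable {A : Set Kˣ}

theorem h33_kummer_gen_isIntegral (hp : 0 < p) :
    ∀ x ∈ {α : L | ∃ a ∈ A, α ^ p = algebraMap K L a}, IsIntegral K x := by
  rintro x ⟨a, -, hx⟩
  exact h33_isIntegral_of_pow_eq hp hx

/-- a field generated by `p`-th roots of finitely many elements is finite. -/
theorem h33_kummer_finiteDimensional (hp : 0 < p) (hA : A.Finite)
    (hgen : IntermediateField.adjoin K {α : L | ∃ a ∈ A, α ^ p = algebraMap K L a} = ⊤) :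
    FiniteDimensional K L := by
  have hfin : {α : L | ∃ a ∈ A, α ^ p = algebraMap K L a}.Finite := by
    have hU : {α : L | ∃ a ∈ A, α ^ p = algebraMap K L a} =
        ⋃ a ∈ A, {α : L | α ^ p = algebraMap K L a} := by
      ext x; simp
    rw [hU]
    refine hA.biUnion fun a _ => ?_
    have hne : (X ^ p - C (algebraMap K L a) : L[X]) ≠ 0 :=
      (monic_X_pow_sub_C _ hp.ne').ne_zero
    refine (Polynomial.finite_setOfPred_isRoot hne).subset ?_
    intro α hα
    change IsRoot _ α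
    have hα' : α ^ p = algebraMap K L a := hα
    simp [IsRoot, hα']
  have : Finite {α : L | ∃ a ∈ A, α ^ p = algebraMap K L a} := hfin.to_subtype
  have hfd := IntermediateField.finiteDimensional_adjoin (K := K)
    (S := {α : L | ∃ a ∈ A, α ^ p = algebraMap K L a}) (h33_kummer_gen_isIntegral hp)
  rw [hgen] at hfd
  exact (IntermediateField.topEquiv (F := K) (E := L)).toLinearEquiv.finiteDimensional

/-- a field generated by `p`-th roots of elements of `K ∋ ζ_p` is Galois over `K`. -/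
theorem h33_kummer_isGalois (hp : 0 < p) (hζ : IsPrimitiveRoot ζ p)
    (hgen : IntermediateField.adjoin K {α : L | ∃ a ∈ A, α ^ p = algebraMap K L a} = ⊤) :
    IsGalois K L := by
  have : NeZero p := ⟨hp.ne'⟩
  have hpK : ((p : ℕ) : K) ≠ 0 := (hζ.neZero').out
  have hζL : IsPrimitiveRoot (algebraMap K L ζ) p :=
    hζ.map_of_injective (algebraMap K L).injective
  have halg : Algebra.IsAlgebraic K L := by
    have h1 := IntermediateField.isAlgebraic_adjoin (K := K)
      (S := {α : L | ∃ a ∈ A, α ^ p = algebraMap K L a}) (h33_kummer_gen_isIntegral hp)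
    rw [hgen] at h1
    exact (IntermediateField.topEquiv (F := K) (E := L)).isAlgebraic
  have hsplit : ∀ x ∈ {α : L | ∃ a ∈ A, α ^ p = algebraMap K L a},
      IsIntegral K x ∧ ((minpoly K x).map (algebraMap K L)).Splits := by
    rintro x ⟨a, ha, hx⟩
    refine ⟨h33_isIntegral_of_pow_eq hp hx, ?_⟩
    have h1 : (X ^ p - C (algebraMap K L a) : L[X]).Splits :=
      X_pow_sub_C_splits_of_isPrimitiveRoot hζL hx
    have h2 : minpoly K x ∣ X ^ p - C (a : K) := minpoly.dvd K x (by simp [hx])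
    have h3 : (minpoly K x).map (algebraMap K L) ∣ (X ^ p - C (algebraMap K L a) : L[X]) := by
      have := Polynomial.map_dvd (algebraMap K L) h2
      simpa using this
    exact h1.of_dvd (monic_X_pow_sub_C _ hp.ne').ne_zero h3
  have hnormal : Normal K L :=
    normal_iff.2 fun x => ⟨(halg.isAlgebraic x).isIntegral,
      IntermediateField.splits_of_mem_adjoin K L (L := L) hsplit
        (hgen ▸ IntermediateField.mem_top)⟩
  have hsep : Algebra.IsSeparable K L := by
    rw [← IntermediateField.isSeparable_top, ← hgen,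
      IntermediateField.isSeparable_adjoin_iff_isSeparable]
    rintro x ⟨a, ha, hx⟩
    have h2 : minpoly K x ∣ X ^ p - C (a : K) := minpoly.dvd K x (by simp [hx])
    exact (separable_X_pow_sub_C (a : K) hpK a.ne_zero).of_dvd h2
  exact ⟨⟩

theorem h33_kummer_comm (hp : 0 < p) (hζ : IsPrimitiveRoot ζ p)
    (hgen : IntermediateField.adjoin K {α : L | ∃ a ∈ A, α ^ p = algebraMap K L a} = ⊤)
    (σ τ : L ≃ₐ[K] L) : σ * τ = τ * σ := by
  refine h33_algEquiv_ext_of_adjoin (h33_kummer_gen_isIntegral hp) hgen ?_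
  rintro x ⟨a, -, hx⟩
  obtain ⟨η, -, hη⟩ := h33_kummer_exists hp hζ σ hx
  obtain ⟨θ, -, hθ⟩ := h33_kummer_exists hp hζ τ hx
  rw [AlgEquiv.mul_apply, AlgEquiv.mul_apply, hθ, hη, map_mul, map_mul, AlgEquiv.commutes,
    AlgEquiv.commutes, hθ, hη]
  ring

theorem h33_kummer_pow_eq_one (hp : 0 < p) (hζ : IsPrimitiveRoot ζ p)
    (hgen : IntermediateField.adjoin K {α : L | ∃ a ∈ A, α ^ p = algebraMap K L a} = ⊤)
    (σ : L ≃ₐ[K] L) : σ ^ p = 1 := by
  refine h33_algEquiv_ext_of_adjoin (h33_kummer_gen_isIntegral hp) hgen ?_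
  rintro x ⟨a, -, hx⟩
  obtain ⟨η, hη1, hη⟩ := h33_kummer_exists hp hζ σ hx
  have key : ∀ n : ℕ, (σ ^ n) x = algebraMap K L ((η ^ n : Kˣ) : K) * x := by
    intro n
    induction n with
    | zero => simp
    | succ n ih =>
      rw [pow_succ, AlgEquiv.mul_apply, hη, map_mul, AlgEquiv.commutes, ih, pow_succ,
        Units.val_mul, map_mul]
      ring
  rw [key p, hη1, Units.val_one, map_one, one_mul, AlgEquiv.one_apply]

end Construction

section Count

variable {K L : Type*} [Field K] [Field L] [Algebra K L] {p : ℕ} {ζ : K} {A : Set Kˣ}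

/-- **Kummer theory, construction side**: if `L` is generated over `K ∋ ζ_p` by `p`-th roots
of the elements of a finite set `A ⊆ Kˣ`, then the elements of `Kˣ` that are `p`-th powers
in `L` are exactly those of `⟨A⟩ · (Kˣ)^p`. -/
theorem h33_kummerGroup_eq (hp : 0 < p) (hζ : IsPrimitiveRoot ζ p) (hA : A.Finite)
    (hroot : ∀ a ∈ A, ∃ α : L, α ^ p = algebraMap K L a)
    (hgen : IntermediateField.adjoin K {α : L | ∃ a ∈ A, α ^ p = algebraMap K L a} = ⊤) :
    h33_kummerGroup K L p = Subgroup.closure A ⊔ (powMonoidHom p : Kˣ →* Kˣ).range := by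
  classical
  have hfd := h33_kummer_finiteDimensional hp hA hgen
  have hgal := h33_kummer_isGalois hp hζ hgen
  have hab := h33_kummer_comm hp hζ hgen
  have hexp := h33_kummer_pow_eq_one hp hζ hgen
  set P : Subgroup Kˣ := (powMonoidHom p : Kˣ →* Kˣ).range with hP
  set Δ := h33_kummerGroup K L p with hΔ
  set B : Subgroup Kˣ := Subgroup.closure A ⊔ P with hB
  have hBΔ : B ≤ Δ :=
    sup_le ((Subgroup.closure_le _).2 fun a ha => hroot a ha) h33_range_pow_le_kummerGroup
  have hPB : P ≤ B := le_sup_right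
  have hn : P.relIndex Δ = Module.finrank K L := h33_kummer_relIndex hp hζ hab hexp
  have hn0 : Module.finrank K L ≠ 0 := Module.finrank_pos.ne'
  have hmul : P.relIndex B * B.relIndex Δ = P.relIndex Δ :=
    Subgroup.relIndex_mul_relIndex _ _ _ hPB hBΔ
  have hPB0 : P.relIndex B ≠ 0 := by
    intro h
    rw [h, zero_mul, hn] at hmul
    exact hn0 hmul.symm
  -- the quotient `B / P`
  have hQfin : Finite (B ⧸ P.subgroupOf B) := Subgroup.index_ne_zero_iff_finite.1 hPB0
  -- the characters of `B` attached to the automorphisms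
  let φ : (L ≃ₐ[K] L) → (B →* Kˣ) := fun σ =>
    { toFun := fun b => h33_kummerChar K L p σ b
      map_one' := by simpa using h33_kummerChar_pow_right (L := L) hp hζ σ 1
      map_mul' := fun a b => h33_kummerChar_mul_right hp hζ σ (hBΔ a.2) (hBΔ b.2) }
  have hφP : ∀ σ, P.subgroupOf B ≤ (φ σ).ker := by
    intro σ b hb
    obtain ⟨c, hc⟩ := Subgroup.mem_subgroupOf.1 hb
    rw [MonoidHom.mem_ker]
    change h33_kummerChar K L p σ b = 1
    rw [← hc]
    exact h33_kummerChar_pow_right hp hζ σ c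
  let ψ : (L ≃ₐ[K] L) → (B ⧸ P.subgroupOf B →* Kˣ) :=
    fun σ => QuotientGroup.lift (P.subgroupOf B) (φ σ) (hφP σ)
  have hψ : Function.Injective ψ := by
    intro σ τ h
    refine h33_algEquiv_ext_of_adjoin (h33_kummer_gen_isIntegral hp) hgen ?_
    rintro x ⟨a, ha, hx⟩
    have haB : a ∈ B := (le_sup_left : Subgroup.closure A ≤ B) (Subgroup.subset_closure ha)
    have h1 := DFunLike.congr_fun h (QuotientGroup.mk ⟨a, haB⟩)
    have h2 : h33_kummerChar K L p σ a = h33_kummerChar K L p τ a := h1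
    rw [h33_kummerChar_spec hp hζ σ hx, h33_kummerChar_spec hp hζ τ hx, h2]
  have hQexp : ∀ q : B ⧸ P.subgroupOf B, q ^ p = 1 := by
    intro q
    induction q using QuotientGroup.induction_on with
    | H b =>
      rw [← QuotientGroup.mk_pow, QuotientGroup.eq_one_iff]
      exact Subgroup.mem_subgroupOf.2 ⟨b, rfl⟩
  have hcard : Nat.card (B ⧸ P.subgroupOf B →* Kˣ) = Nat.card (B ⧸ P.subgroupOf B) := by
    have : NeZero p := ⟨hp.ne'⟩
    have hE : HasEnoughRootsOfUnity K p := h33_hasEnoughRootsOfUnity hp hζ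
    have hdvd : Monoid.exponent (B ⧸ P.subgroupOf B) ∣ p :=
      Monoid.exponent_dvd_of_forall_pow_eq_one hQexp
    have hE' : HasEnoughRootsOfUnity K (Monoid.exponent (B ⧸ P.subgroupOf B)) :=
      HasEnoughRootsOfUnity.of_dvd K hdvd
    exact CommGroup.card_monoidHom_of_hasEnoughRootsOfUnity (B ⧸ P.subgroupOf B) K
  have hfinHom : Finite (B ⧸ P.subgroupOf B →* Kˣ) :=
    Nat.finite_of_card_ne_zero (by rw [hcard]; exact Nat.card_pos.ne')
  have hle : Nat.card (L ≃ₐ[K] L) ≤ Nat.card (B ⧸ P.subgroupOf B →* Kˣ) :=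
    Nat.card_le_card_of_injective ψ hψ
  rw [hcard, IsGalois.card_aut_eq_finrank] at hle
  have hidx : Nat.card (B ⧸ P.subgroupOf B) = P.relIndex B := rfl
  rw [hidx] at hle
  -- `[B : P] ≥ n = [Δ : P] = [B : P] [Δ : B]`
  have hBΔ1 : B.relIndex Δ = 1 := by
    rw [← hn, ← hmul] at hle
    by_contra hne
    have h0 : B.relIndex Δ ≠ 0 := by
      intro h0
      rw [h0, mul_zero] at hmul
      exact hn0 (hn ▸ hmul.symm)
    have h2 : 2 ≤ B.relIndex Δ := by omega
    have h1 : 0 < P.relIndex B := Nat.pos_of_ne_zero hPB0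
    nlinarith
  exact le_antisymm (Subgroup.relIndex_eq_one.1 hBΔ1) hBΔ

/-- **Kummer theory, the criterion used in the counting arguments**: `b ∈ Kˣ` has a `p`-th
root in `L = K(A^{1/p})` iff `b ∈ ⟨A⟩ · (Kˣ)^p`. -/
theorem h33_exists_root_iff (hp : 0 < p) (hζ : IsPrimitiveRoot ζ p) (hA : A.Finite)
    (hroot : ∀ a ∈ A, ∃ α : L, α ^ p = algebraMap K L a)
    (hgen : IntermediateField.adjoin K {α : L | ∃ a ∈ A, α ^ p = algebraMap K L a} = ⊤)
    (b : Kˣ) :
    (∃ β : L, β ^ p = algebraMap K L b) ↔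
      b ∈ Subgroup.closure A ⊔ (powMonoidHom p : Kˣ →* Kˣ).range := by
  rw [← h33_kummerGroup_eq hp hζ hA hroot hgen]
  rfl

/-- **Kummer theory, degree formula (construction side)**:
`[K(A^{1/p}) : K] = [⟨A⟩ (Kˣ)^p : (Kˣ)^p]`. -/
theorem h33_kummer_finrank (hp : 0 < p) (hζ : IsPrimitiveRoot ζ p) (hA : A.Finite)
    (hroot : ∀ a ∈ A, ∃ α : L, α ^ p = algebraMap K L a)
    (hgen : IntermediateField.adjoin K {α : L | ∃ a ∈ A, α ^ p = algebraMap K L a} = ⊤) :
    Module.finrank K L = ((powMonoidHom p : Kˣ →* Kˣ).range).relIndex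
      (Subgroup.closure A ⊔ (powMonoidHom p : Kˣ →* Kˣ).range) := by
  have hfd := h33_kummer_finiteDimensional hp hA hgen
  have hgal := h33_kummer_isGalois hp hζ hgen
  rw [← h33_kummerGroup_eq hp hζ hA hroot hgen,
    h33_kummer_relIndex hp hζ (h33_kummer_comm hp hζ hgen) (h33_kummer_pow_eq_one hp hζ hgen)]

end Count

section Functoriality

variable {K L K' L' : Type*} [Field K] [Field L] [Field K'] [Field L'] [Algebra K L]
  [Algebra K' L'] [Algebra K K'] [Algebra L L'] [Algebra K L'] [IsScalarTower K L L']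
  [IsScalarTower K K' L'] {p : ℕ} {ζ : K}

/-- base change of the Kummer group. -/
theorem h33_map_mem_kummerGroup {a : Kˣ} (ha : a ∈ h33_kummerGroup K L p) :
    Units.map (algebraMap K K' : K →* K') a ∈ h33_kummerGroup K' L' p := by
  obtain ⟨α, hα⟩ := ha
  refine ⟨algebraMap L L' α, ?_⟩
  rw [← map_pow, hα, Units.coe_map, MonoidHom.coe_coe, ← IsScalarTower.algebraMap_apply,
    ← IsScalarTower.algebraMap_apply]

/-- **Functoriality of the Kummer character** (restriction of automorphisms, enlarging the top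
field, base change of the bottom field - e.g. global to local): if `σ'` induces `σ` on `L`, then
the Kummer characters correspond. -/
theorem h33_kummerChar_map (hp : 0 < p) (hζ : IsPrimitiveRoot ζ p) (σ : L ≃ₐ[K] L)
    (σ' : L' ≃ₐ[K'] L') (hσ : ∀ x : L, σ' (algebraMap L L' x) = algebraMap L L' (σ x))
    {a : Kˣ} (ha : a ∈ h33_kummerGroup K L p) :
    h33_kummerChar K' L' p σ' (Units.map (algebraMap K K' : K →* K') a) =
      Units.map (algebraMap K K' : K →* K') (h33_kummerChar K L p σ a) := by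
  obtain ⟨α, hα⟩ := ha
  have hζ' : IsPrimitiveRoot (algebraMap K K' ζ) p :=
    hζ.map_of_injective (algebraMap K K').injective
  have hα' : (algebraMap L L' α) ^ p
      = algebraMap K' L' ((Units.map (algebraMap K K' : K →* K') a : K'ˣ) : K') := by
    rw [← map_pow, hα, Units.coe_map, MonoidHom.coe_coe, ← IsScalarTower.algebraMap_apply,
      ← IsScalarTower.algebraMap_apply]
  refine h33_kummerChar_eq_of hp hζ' σ' hα' ?_
  rw [hσ, h33_kummerChar_spec hp hζ σ hα, map_mul, Units.coe_map, MonoidHom.coe_coe,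
    ← IsScalarTower.algebraMap_apply, ← IsScalarTower.algebraMap_apply]

end Functoriality

section Subfield

variable {K Ω : Type*} [Field K] [Field Ω] [Algebra K Ω] {p : ℕ} {ζ : K}

/-- the generators of `K(S)` generate it (as a field of its own). -/
theorem h33_adjoin_coe_preimage_eq_top (S : Set Ω) :
    IntermediateField.adjoin K
      {x : IntermediateField.adjoin K S | (x : Ω) ∈ S} = ⊤ := by
  set E := IntermediateField.adjoin K S with hE
  apply IntermediateField.map_injective E.val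
  rw [IntermediateField.adjoin_map, ← AlgHom.fieldRange_eq_map, IntermediateField.fieldRange_val]
  have himg : (E.val '' {x : E | (x : Ω) ∈ S}) = S := by
    ext y
    constructor
    · rintro ⟨x, hx, rfl⟩
      exact hx
    · intro hy
      exact ⟨⟨y, IntermediateField.subset_adjoin K S hy⟩, hy, rfl⟩
  rw [himg]

variable (K Ω p) in
/-- `K(A^{1/p})` inside an ambient field `Ω`. -/
def h33_kummerField (A : Set Kˣ) : IntermediateField K Ω :=
  IntermediateField.adjoin K {α : Ω | ∃ a ∈ A, α ^ p = algebraMap K Ω a}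

theorem h33_kummerField_gen (A : Set Kˣ) :
    IntermediateField.adjoin K {α : h33_kummerField K Ω p A |
      ∃ a ∈ A, α ^ p = algebraMap K (h33_kummerField K Ω p A) a} = ⊤ := by
  have h := h33_adjoin_coe_preimage_eq_top (K := K)
    {α : Ω | ∃ a ∈ A, α ^ p = algebraMap K Ω a}
  have hset : {α : h33_kummerField K Ω p A |
      ∃ a ∈ A, α ^ p = algebraMap K (h33_kummerField K Ω p A) a}
      = {x : IntermediateField.adjoin K {α : Ω | ∃ a ∈ A, α ^ p = algebraMap K Ω a} |
          (x : Ω) ∈ {α : Ω | ∃ a ∈ A, α ^ p = algebraMap K Ω a}} := by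
    ext x
    constructor
    · rintro ⟨a, ha, hx⟩
      refine ⟨a, ha, ?_⟩
      have := congrArg (fun y : h33_kummerField K Ω p A => (y : Ω)) hx
      simpa using this
    · rintro ⟨a, ha, hx⟩
      refine ⟨a, ha, Subtype.ext ?_⟩
      simpa using hx
  rw [hset]
  exact h

theorem h33_kummerField_root {A : Set Kˣ} (hroot : ∀ a ∈ A, ∃ α : Ω, α ^ p = algebraMap K Ω a) :
    ∀ a ∈ A, ∃ α : h33_kummerField K Ω p A,
      α ^ p = algebraMap K (h33_kummerField K Ω p A) a := by
  intro a ha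
  obtain ⟨α, hα⟩ := hroot a ha
  exact ⟨⟨α, IntermediateField.subset_adjoin K _ ⟨a, ha, hα⟩⟩, Subtype.ext (by simpa using hα)⟩

end Subfield

end Fermat.Agent.S55
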