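import Fermat.Agent.S55.h33_Kummer
import Fermat.Agent.S55.h33_GlobAbs

/-!
# S55 / GLOB (Kummer half): locally trivial Kummer extensions split completely, and norms of
semi-local modules are surjective for completely split extensions (plain embedding language)

`k` a field, `Ω` a `k`-algebra which is a field (application: `k = ℚ_[q]`, `Ω = PadicAlgCl q`),
`L ⊆ L2` fields (application: number fields).  Semi-local module of `L`: functions
`φ : (L →+* Ω) → Ωˣ` with `φ (τ ∘ j) = τ • φ j` for `τ : Ω ≃ₐ[k] Ω`.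

* `h33_kummer_split` : if `L2 = L(A^{1/p})`, `ζ_p ∈ L`, and every `a ∈ A` is *locally a `p`-th
  power* (for every `j : L →+* Ω` there is `y` with `y ^ p = j a` fixed by the stabiliser of
  `j`), then `L2/L` *splits completely at `Ω`*: `τ ∘ j' = j' ∘ g` forces `g = 1`.
* `h33_split_norm_surj` : if `L2/L` is finite and splits completely at `Ω`, every semi-local
  `ψ` of `L` is the norm of a semi-local `φ'` of `L2`:
  `∏ g : L2 ≃ₐ[L] L2, φ' (j' ∘ g) = ψ (j'|_L)`.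
-/

set_option autoImplicit false

namespace Fermat.Agent.S55

section Split

variable {k Ω : Type*} [Field k] [Field Ω] [Algebra k Ω]
variable {L L2 : Type*} [Field L] [Field L2] [Algebra L L2]

/-- **Locally trivial Kummer extensions split completely.** -/
theorem h33_kummer_split {p : ℕ} (hp : 0 < p) {ζ : L} (hζ : IsPrimitiveRoot ζ p) {A : Set Lˣ}
    (hgen : IntermediateField.adjoin L {α : L2 | ∃ a ∈ A, α ^ p = algebraMap L L2 a} = ⊤)
    (hloc : ∀ a ∈ A, ∀ j : L →+* Ω, ∃ y : Ω, y ^ p = j (a : L) ∧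
      ∀ τ : Ω ≃ₐ[k] Ω, (τ : Ω →+* Ω).comp j = j → τ y = y)
    (j' : L2 →+* Ω) (τ : Ω ≃ₐ[k] Ω) (g : L2 ≃ₐ[L] L2)
    (h : (τ : Ω →+* Ω).comp j' = j'.comp (g : L2 →+* L2)) : g = 1 := by
  have hτj : (τ : Ω →+* Ω).comp (j'.comp (algebraMap L L2)) = j'.comp (algebraMap L L2) := by
    ext x
    have := DFunLike.congr_fun h (algebraMap L L2 x)
    simpa using this
  refine h33_algEquiv_ext_of_adjoin (h33_kummer_gen_isIntegral hp) hgen ?_
  rintro α ⟨a, ha, hα⟩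
  obtain ⟨y, hy, hτy⟩ := hloc a ha (j'.comp (algebraMap L L2))
  have hτy' := hτy τ hτj
  have hy0 : y ≠ 0 := by
    rintro rfl
    rw [zero_pow hp.ne'] at hy
    have : (j'.comp (algebraMap L L2)) (a : L) ≠ 0 :=
      (_root_.map_ne_zero _).2 a.ne_zero
    exact this hy.symm
  have h1 : (j' α / y) ^ p = 1 := by
    have hya : y ^ p = j' (algebraMap L L2 (a : L)) := hy
    rw [div_pow, ← map_pow, hα, hya]
    exact div_self (by rw [← hya]; exact pow_ne_zero _ hy0)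
  have : NeZero p := ⟨hp.ne'⟩
  -- the `p`-th roots of unity of `Ω` are the images of those of `L`
  have hζ' : IsPrimitiveRoot ((j'.comp (algebraMap L L2)) ζ) p :=
    hζ.map_of_injective (j'.comp (algebraMap L L2)).injective
  obtain ⟨i, -, hi⟩ := hζ'.eq_pow_of_pow_eq_one h1
  have h2 : j' α = (j'.comp (algebraMap L L2)) (ζ ^ i) * y := by
    rw [map_pow, hi, div_mul_cancel₀ _ hy0]
  have h3 : τ (j' α) = j' α := by
    rw [h2, map_mul, hτy']
    congr 1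
    exact DFunLike.congr_fun hτj (ζ ^ i)
  have h4 : j' (g α) = j' α := by
    rw [← h3]
    exact (DFunLike.congr_fun h α).symm
  rw [AlgEquiv.one_apply]
  exact j'.injective h4

/-- **Norms are surjective on semi-local modules of a completely split finite extension.** -/
theorem h33_split_norm_surj [FiniteDimensional L L2]
    (hsplit : ∀ (j' : L2 →+* Ω) (τ : Ω ≃ₐ[k] Ω) (g : L2 ≃ₐ[L] L2),
      (τ : Ω →+* Ω).comp j' = j'.comp (g : L2 →+* L2) → g = 1)
    (ψ : (L →+* Ω) → Ωˣ)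
    (hψ : ∀ (τ : Ω ≃ₐ[k] Ω) (j : L →+* Ω), ψ ((τ : Ω →+* Ω).comp j) = τ • ψ j) :
    ∃ φ' : (L2 →+* Ω) → Ωˣ,
      (∀ (τ : Ω ≃ₐ[k] Ω) (j' : L2 →+* Ω), φ' ((τ : Ω →+* Ω).comp j') = τ • φ' j') ∧
      ∀ j' : L2 →+* Ω, ∏ g : L2 ≃ₐ[L] L2, φ' (j'.comp (g : L2 →+* L2))
        = ψ (j'.comp (algebraMap L L2)) := by
  let actΓ : MulAction (Ω ≃ₐ[k] Ω) (L2 →+* Ω) :=
    { smul := fun τ j' => (τ : Ω →+* Ω).comp j'
      one_smul := fun j' => by ext x; rfl
      mul_smul := fun τ τ' j' => by ext x; rfl }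
  let actG : MulAction (L2 ≃ₐ[L] L2) (L2 →+* Ω) :=
    { smul := fun g j' => j'.comp ((g⁻¹ : L2 ≃ₐ[L] L2) : L2 →+* L2)
      one_smul := fun j' => by ext x; rfl
      mul_smul := fun g g' j' => by
        ext x
        show j' ((g * g')⁻¹ x) = j' (g'⁻¹ (g⁻¹ x))
        rw [mul_inv_rev]
        rfl }
  have : SMulCommClass (Ω ≃ₐ[k] Ω) (L2 ≃ₐ[L] L2) (L2 →+* Ω) :=
    ⟨fun τ g j' => by ext x; rfl⟩
  have hΓ : ∀ (τ : Ω ≃ₐ[k] Ω) (j' : L2 →+* Ω), τ • j' = (τ : Ω →+* Ω).comp j' := fun _ _ => rfl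
  have hG : ∀ (g : L2 ≃ₐ[L] L2) (j' : L2 →+* Ω),
      g • j' = j'.comp ((g⁻¹ : L2 ≃ₐ[L] L2) : L2 →+* L2) := fun _ _ => rfl
  obtain ⟨φ, hφ1, hφ2⟩ := h33_exists_norm_eq_of_split
    (Γ := Ω ≃ₐ[k] Ω) (G := L2 ≃ₐ[L] L2) (X := L2 →+* Ω) (A := Ωˣ)
    (fun j' τ g hh => by
      have := hsplit j' τ g⁻¹ (by rw [← hΓ, hh, hG])
      exact inv_eq_one.1 this)
    (fun j' => ψ (j'.comp (algebraMap L L2)))
    (fun τ j' => by
      rw [hΓ, RingHom.comp_assoc]
      exact hψ τ _)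
    (fun g j' => by
      rw [hG]
      congr 1
      ext x
      simp)
  refine ⟨φ, fun τ j' => by rw [← hΓ]; exact hφ1 τ j', fun j' => ?_⟩
  rw [← hφ2 j']
  refine Fintype.prod_equiv (Equiv.inv (L2 ≃ₐ[L] L2)) _ _ (fun g => ?_)
  rw [hG]
  simp

end Split

end Fermat.Agent.S55
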