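import Mathlib
import Fermat.Agent.S55.h63_GalDefs
import Fermat.Agent.S55.h57_LocalNormIndex

/-!
# S55, LOC-CFA: the class field axiom for degree-`p` steps inside `Gal(E/ℚ_q)`

For `H2 ◁ H1 ≤ Gal(E/ℚ_q)` of index `p` and `σ ∈ H1 \ H2`: Hilbert 90 for the `σ`-norm on the
units fixed by `H2`, and the `σ`-norms have index `p` in the units fixed by `H1`.

`h34_loc_CFA_of` derives this from the conclusion of the generic Galois step (row GAL-CYCSTEP)
and the local norm index `h57_local_norm_index`.
-/

set_option autoImplicit false

namespace Fermat.Agent.S55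

/-- LOC-CFA from the conclusion of the generic cyclic step (GAL-CYCSTEP, taken as the hypothesis
`hcyc`) and the local norm index theorem. -/
theorem h34_loc_CFA_of (q : ℕ) [Fact q.Prime] (E : Type*) [Field E] [Algebra ℚ_[q] E]
    [FiniteDimensional ℚ_[q] E] [IsGalois ℚ_[q] E] (p : ℕ) [Fact p.Prime]
    (H1 H2 : Subgroup (E ≃ₐ[ℚ_[q]] E)) (σ : E ≃ₐ[ℚ_[q]] E)
    (h12 : IntermediateField.fixedField H1 ≤ IntermediateField.fixedField H2)
    (hcyc : IsGalois (IntermediateField.fixedField H1) (IntermediateField.extendScalars h12) ∧
      IsCyclic ((IntermediateField.extendScalars h12) ≃ₐ[IntermediateField.fixedField H1]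
        (IntermediateField.extendScalars h12)) ∧
      Module.finrank (IntermediateField.fixedField H1) (IntermediateField.extendScalars h12) = p ∧
      (∀ x ∈ h63_fixU H2, h63_normPow σ p x = 1 → ∃ y ∈ h63_fixU H2, x = (σ • y) / y) ∧
      ((h63_fixU H2).map (h63_normPow σ p)).relIndex (h63_fixU H1) =
        (Units.map (Algebra.norm (IntermediateField.fixedField H1) :
          (IntermediateField.extendScalars h12) →* (IntermediateField.fixedField H1))).range.index) :
    (∀ x ∈ h63_fixU H2, h63_normPow σ p x = 1 → ∃ y ∈ h63_fixU H2, x = (σ • y) / y) ∧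
      ((h63_fixU H2).map (h63_normPow σ p)).relIndex (h63_fixU H1) = p := by
  obtain ⟨hGal, hCyc, hfin, hH90, hidx⟩ := hcyc
  refine ⟨hH90, ?_⟩
  rw [hidx]
  have : FiniteDimensional (IntermediateField.fixedField H1) (IntermediateField.extendScalars h12) :=
    inferInstance
  have : FiniteDimensional ℚ_[q] (IntermediateField.extendScalars h12) :=
    FiniteDimensional.trans ℚ_[q] (IntermediateField.fixedField H1)
      (IntermediateField.extendScalars h12)
  rw [h57_local_norm_index q (IntermediateField.fixedField H1) (IntermediateField.extendScalars h12),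
    hfin]

end Fermat.Agent.S55
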