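import Mathlib
import Fermat.Agent.S55.h63_GalDefs
import Fermat.Agent.S55.h34_LocCFA
import Fermat.Agent.S55.h73_GalCycStep

/-!
# S55, LOC-CFA (row 235), unconditional form

For `H2 ◁ H1 ≤ Gal(E/ℚ_q)` of index `p` and `σ ∈ H1 \ H2`: Hilbert 90 for the `σ`-norm on the
units fixed by `H2`, and the `σ`-norms have index `p` in the units fixed by `H1`.

Combines the generic Galois step `h73_cycstep` (row GAL-CYCSTEP) with the conditional form
`h34_loc_CFA_of` (which uses the local norm index `h57_local_norm_index`).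
-/

set_option autoImplicit false

namespace Fermat.Agent.S55

/-- **LOC-CFA**: the class field axiom for degree-`p` steps inside `Gal(E/ℚ_q)`. -/
theorem h34_loc_CFA (q : ℕ) [Fact q.Prime] (E : Type*) [Field E] [Algebra ℚ_[q] E]
    [FiniteDimensional ℚ_[q] E] [IsGalois ℚ_[q] E] (p : ℕ) [Fact p.Prime]
    (H1 H2 : Subgroup (E ≃ₐ[ℚ_[q]] E)) (h21 : H2 ≤ H1)
    (hnormal : ∀ σ ∈ H1, ∀ τ ∈ H2, σ * τ * σ⁻¹ ∈ H2) (hidx : H2.relIndex H1 = p)
    (σ : E ≃ₐ[ℚ_[q]] E) (hσ1 : σ ∈ H1) (hσ2 : σ ∉ H2) :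
    (∀ x ∈ h63_fixU H2, h63_normPow σ p x = 1 → ∃ y ∈ h63_fixU H2, x = (σ • y) / y) ∧
      ((h63_fixU H2).map (h63_normPow σ p)).relIndex (h63_fixU H1) = p :=
  h34_loc_CFA_of q E p H1 H2 σ (IntermediateField.fixedField_le h21)
    (h73_cycstep p H1 H2 h21 hnormal hidx σ hσ1 hσ2 (IntermediateField.fixedField_le h21))

end Fermat.Agent.S55
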