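import Mathlib
import Fermat.Agent.S55.h28_SemilocAbs

set_option autoImplicit false

/-!
# The `p`-th power index of a semi-local module (S55, GLOB-JPOW, abstract part)

For a group `Γ` acting on a finite set `X` and on a commutative group `A`, the group
`h28_eqv Γ X A` of equivariant functions is the product over the `Γ`-orbits `O` of the fixed
groups `h28_fix Γ A O.out`; hence its `p`-th power index is the product of the `p`-th power
indices of these.
-/

namespace Fermat.Agent.S55

/-- The `p`-th power index is invariant under isomorphism. -/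
theorem h37_pow_index_mulEquiv {G G' : Type*} [CommGroup G] [CommGroup G'] (e : G ≃* G')
    (p : ℕ) :
    (powMonoidHom p : G →* G).range.index = (powMonoidHom p : G' →* G').range.index := by
  have h : (powMonoidHom p : G' →* G').range
      = (powMonoidHom p : G →* G).range.map (e : G →* G') := by
    ext y
    constructor
    · rintro ⟨x, rfl⟩
      refine ⟨(e.symm x) ^ p, ⟨e.symm x, rfl⟩, ?_⟩
      simp
    · rintro ⟨x, ⟨z, rfl⟩, rfl⟩
      exact ⟨e z, by simp⟩
  rw [h, Subgroup.index_map_equiv]

/-- The `p`-th power index of a finite product is the product of the `p`-th power indices. -/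
theorem h37_pi_pow_index {ι : Type*} [Finite ι] (G : ι → Type*) [∀ i, CommGroup (G i)]
    (p : ℕ) :
    (powMonoidHom p : (∀ i, G i) →* ∀ i, G i).range.index
      = ∏ᶠ i, (powMonoidHom p : G i →* G i).range.index := by
  have := Fintype.ofFinite ι
  let f : (∀ i, G i) →* ∀ i, G i ⧸ (powMonoidHom p : G i →* G i).range :=
    MonoidHom.pi (fun i => (QuotientGroup.mk' (powMonoidHom p : G i →* G i).range).comp
      (Pi.evalMonoidHom G i))
  have hf : ∀ x i, f x i = QuotientGroup.mk (x i) := fun x i => rfl
  have hsurj : Function.Surjective f := by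
    intro c
    refine ⟨fun i => Quotient.out (c i), ?_⟩
    ext i
    rw [hf]
    exact Quotient.out_eq (c i)
  have hker : f.ker = (powMonoidHom p : (∀ i, G i) →* ∀ i, G i).range := by
    ext x
    rw [MonoidHom.mem_ker]
    constructor
    · intro h
      have h1 : ∀ i, ∃ y : G i, y ^ p = x i := by
        intro i
        have h2 : f x i = 1 := by rw [h]; rfl
        rw [hf, QuotientGroup.eq_one_iff] at h2
        exact h2
      choose y hy using h1
      exact ⟨y, funext hy⟩
    · rintro ⟨y, rfl⟩
      ext i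
      rw [hf]
      show (QuotientGroup.mk ((y i) ^ p) : G i ⧸ _) = 1
      rw [QuotientGroup.eq_one_iff]
      exact ⟨y i, rfl⟩
  rw [← hker, Subgroup.index_ker, MonoidHom.range_eq_top.mpr hsurj, Subgroup.card_top,
    Nat.card_pi, finprod_eq_prod_of_fintype]
  rfl

section Eqv

variable {Γ : Type*} [Group Γ] {X : Type*} [MulAction Γ X]
  {A : Type*} [CommGroup A] [MulDistribMulAction Γ A]

/-- A group element moving the chosen representative of the orbit of `x` to `x`. -/
noncomputable def h37_orbElt (Γ : Type*) [Group Γ] {X : Type*} [MulAction Γ X] (x : X) : Γ :=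
  Classical.choose (show ∃ τ : Γ,
      τ • (Quotient.out (Quotient.mk'' x : MulAction.orbitRel.Quotient Γ X)) = x from by
    have h : (Quotient.mk'' (Quotient.out (Quotient.mk'' x : MulAction.orbitRel.Quotient Γ X))
        : MulAction.orbitRel.Quotient Γ X) = Quotient.mk'' x := Quotient.out_eq' _
    have h2 := Quotient.exact' h
    rw [MulAction.orbitRel_apply] at h2
    obtain ⟨τ, hτ⟩ := h2
    exact ⟨τ⁻¹, by rw [← hτ, inv_smul_smul]⟩)

theorem h37_orbElt_spec (x : X) :
    h37_orbElt Γ x • (Quotient.out (Quotient.mk'' x : MulAction.orbitRel.Quotient Γ X)) = x :=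
  Classical.choose_spec (show ∃ τ : Γ,
      τ • (Quotient.out (Quotient.mk'' x : MulAction.orbitRel.Quotient Γ X)) = x from by
    have h : (Quotient.mk'' (Quotient.out (Quotient.mk'' x : MulAction.orbitRel.Quotient Γ X))
        : MulAction.orbitRel.Quotient Γ X) = Quotient.mk'' x := Quotient.out_eq' _
    have h2 := Quotient.exact' h
    rw [MulAction.orbitRel_apply] at h2
    obtain ⟨τ, hτ⟩ := h2
    exact ⟨τ⁻¹, by rw [← hτ, inv_smul_smul]⟩)

/-- Transport along an equality of orbits. -/
theorem h37_fam_smul_eq (a : ∀ O : MulAction.orbitRel.Quotient Γ X, ↥(h28_fix Γ A (Quotient.out O)))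
    {O O' : MulAction.orbitRel.Quotient Γ X} (h : O' = O) {τ τ' : Γ}
    (hτ : τ • Quotient.out O = τ' • Quotient.out O') :
    τ • ((a O : ↥(h28_fix Γ A (Quotient.out O))) : A) = τ' • ((a O' : ↥(h28_fix Γ A _)) : A) := by
  subst h
  exact h28_fix_smul_eq (a O').2 hτ

/-- The equivariant function with prescribed values at the orbit representatives. -/
noncomputable def h37_ofFam
    (a : ∀ O : MulAction.orbitRel.Quotient Γ X, ↥(h28_fix Γ A (Quotient.out O))) : X → A :=
  fun x => h37_orbElt Γ x • ((a (Quotient.mk'' x) : ↥(h28_fix Γ A _)) : A)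

theorem h37_ofFam_mem
    (a : ∀ O : MulAction.orbitRel.Quotient Γ X, ↥(h28_fix Γ A (Quotient.out O))) :
    h37_ofFam a ∈ h28_eqv Γ X A := by
  intro τ x
  show h37_orbElt Γ (τ • x) • ((a (Quotient.mk'' (τ • x)) : ↥(h28_fix Γ A _)) : A)
    = τ • (h37_orbElt Γ x • ((a (Quotient.mk'' x) : ↥(h28_fix Γ A _)) : A))
  have hO : (Quotient.mk'' x : MulAction.orbitRel.Quotient Γ X) = Quotient.mk'' (τ • x) := by
    apply Quotient.sound'
    rw [MulAction.orbitRel_apply]
    exact ⟨τ⁻¹, by simp⟩
  rw [← mul_smul]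
  apply h37_fam_smul_eq a hO
  rw [h37_orbElt_spec, mul_smul, h37_orbElt_spec]

theorem h37_ofFam_out
    (a : ∀ O : MulAction.orbitRel.Quotient Γ X, ↥(h28_fix Γ A (Quotient.out O)))
    (O : MulAction.orbitRel.Quotient Γ X) :
    h37_ofFam a (Quotient.out O) = ((a O : ↥(h28_fix Γ A _)) : A) := by
  show h37_orbElt Γ (Quotient.out O) • ((a (Quotient.mk'' (Quotient.out O)) : ↥(h28_fix Γ A _)) : A)
    = _
  have hO : (Quotient.mk'' (Quotient.out O) : MulAction.orbitRel.Quotient Γ X) = O :=
    Quotient.out_eq' O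
  have := h37_fam_smul_eq a hO.symm (τ := h37_orbElt Γ (Quotient.out O)) (τ' := 1)
    (by rw [h37_orbElt_spec, one_smul])
  rw [this, one_smul]

/-- An equivariant function is determined by its values at the orbit representatives. -/
theorem h37_eqv_ext {φ ψ : X → A} (hφ : φ ∈ h28_eqv Γ X A) (hψ : ψ ∈ h28_eqv Γ X A)
    (h : ∀ O : MulAction.orbitRel.Quotient Γ X, φ (Quotient.out O) = ψ (Quotient.out O)) :
    φ = ψ := by
  funext x
  rw [← h37_orbElt_spec (Γ := Γ) x, hφ, hψ, h]

/-- `h28_eqv Γ X A` is the product over the orbits of the fixed groups of the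
representatives. -/
noncomputable def h37_eqvEquiv :
    ↥(h28_eqv Γ X A) ≃*
      (∀ O : MulAction.orbitRel.Quotient Γ X, ↥(h28_fix Γ A (Quotient.out O))) where
  toFun φ := fun O => ⟨φ.1 (Quotient.out O), h28_eqv_apply_mem_fix φ.2 _⟩
  invFun a := ⟨h37_ofFam a, h37_ofFam_mem a⟩
  left_inv φ := by
    apply Subtype.ext
    show h37_ofFam (fun O => (⟨φ.1 (Quotient.out O), h28_eqv_apply_mem_fix φ.2 _⟩ :
      ↥(h28_fix Γ A (Quotient.out O)))) = φ.1
    apply h37_eqv_ext (h37_ofFam_mem _) φ.2
    intro O
    rw [h37_ofFam_out]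
  right_inv a := by
    funext O
    apply Subtype.ext
    exact h37_ofFam_out a O
  map_mul' φ ψ := by
    funext O
    apply Subtype.ext
    rfl

theorem h37_eqvEquiv_apply (φ : ↥(h28_eqv Γ X A)) (O : MulAction.orbitRel.Quotient Γ X) :
    ((h37_eqvEquiv φ O : ↥(h28_fix Γ A (Quotient.out O))) : A) = φ.1 (Quotient.out O) := rfl

/-- The `p`-th power index of the semi-local module is the product of the local ones. -/
theorem h37_eqv_pow_index_prod [Finite X] (p : ℕ) :
    (powMonoidHom p : ↥(h28_eqv Γ X A) →* ↥(h28_eqv Γ X A)).range.index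
      = ∏ᶠ O : MulAction.orbitRel.Quotient Γ X,
          (powMonoidHom p : ↥(h28_fix Γ A (Quotient.out O)) →* _).range.index := by
  rw [h37_pow_index_mulEquiv (h37_eqvEquiv (Γ := Γ) (X := X) (A := A)) p, h37_pi_pow_index]

/-- Constant local index `n`: the semi-local index is `n ^ #orbits`. -/
theorem h37_eqv_pow_index [Finite X] (p : ℕ) (n : ℕ)
    (h : ∀ j : X, (powMonoidHom p : ↥(h28_fix Γ A j) →* ↥(h28_fix Γ A j)).range.index = n) :
    (powMonoidHom p : ↥(h28_eqv Γ X A) →* ↥(h28_eqv Γ X A)).range.index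
      = n ^ Nat.card (MulAction.orbitRel.Quotient Γ X) := by
  have := Fintype.ofFinite (MulAction.orbitRel.Quotient Γ X)
  rw [h37_eqv_pow_index_prod, finprod_eq_prod_of_fintype, Finset.prod_congr rfl (fun O _ => h _),
    Finset.prod_const, Finset.card_univ, Nat.card_eq_fintype_card]

end Eqv

end Fermat.Agent.S55
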