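import Mathlib
import Fermat.Agent.S55.h37_EqvPow
import Fermat.Agent.S55.h37_LocalPow

set_option autoImplicit false

/-!
# The `p`-th power index of the semi-local group `J_q(K)` (S55, GLOB-JPOW)

`K` a number field, `Ω = PadicAlgCl q`, `Γ = Gal(Ω/ℚ_q)` acting on the embeddings `K →+* Ω` and
on `Ωˣ`.  `J_q(K) = h28_eqv Γ (K →+* Ω) Ωˣ`.  If `K` contains a primitive `p`-th root of unity,
`[J_q(K) : J_q(K)^p] = p ^ (2 · #orbits) · (p ^ [K:ℚ] if q = p)`.
-/

open IntermediateField Polynomial

namespace Fermat.Agent.S55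

section Arith

variable (q : ℕ) [Fact q.Prime]

/-- The local field `ℚ_q · j(K)` at an embedding `j : K →+* PadicAlgCl q`. -/
noncomputable def h37_locField {K : Type*} [Field K] (j : K →+* PadicAlgCl q) :
    IntermediateField ℚ_[q] (PadicAlgCl q) :=
  IntermediateField.adjoin ℚ_[q] (Set.range j)

theorem h37_mem_locField {K : Type*} [Field K] (j : K →+* PadicAlgCl q) (x : K) :
    j x ∈ h37_locField q j :=
  IntermediateField.subset_adjoin _ _ ⟨x, rfl⟩

variable {K : Type*} [Field K] [NumberField K]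

/-- Two ring homomorphisms from `K = ℚ(θ)` agreeing at `θ` are equal. -/
theorem h37_ringHom_ext_of_primitive {L : Type*} [Field L] [CharZero L] {θ : K} (hθ : ℚ⟮θ⟯ = ⊤)
    {j₁ j₂ : K →+* L} (h : j₁ θ = j₂ θ) : j₁ = j₂ := by
  ext x
  have hx : x ∈ ℚ⟮θ⟯ := by rw [hθ]; exact IntermediateField.mem_top
  induction hx using IntermediateField.adjoin_induction with
  | mem y hy =>
    rw [Set.mem_singleton_iff] at hy
    rw [hy, h]
  | algebraMap r => simp
  | add y z _ _ hy hz => rw [map_add, map_add, hy, hz]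
  | inv y _ hy => rw [map_inv₀, map_inv₀, hy]
  | mul y z _ _ hy hz => rw [map_mul, map_mul, hy, hz]

/-- The local field at `j` is generated over `ℚ_q` by the image of a primitive element. -/
theorem h37_locField_eq (j : K →+* PadicAlgCl q) {θ : K} (hθ : ℚ⟮θ⟯ = ⊤) :
    h37_locField q j = ℚ_[q]⟮j θ⟯ := by
  apply le_antisymm
  · rw [h37_locField, IntermediateField.adjoin_le_iff]
    rintro _ ⟨x, rfl⟩
    have hx : x ∈ ℚ⟮θ⟯ := by rw [hθ]; exact IntermediateField.mem_top
    show j x ∈ ℚ_[q]⟮j θ⟯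
    induction hx using IntermediateField.adjoin_induction with
    | mem y hy =>
      rw [Set.mem_singleton_iff] at hy
      rw [hy]
      exact IntermediateField.mem_adjoin_simple_self ℚ_[q] (j θ)
    | algebraMap r =>
      have : j (algebraMap ℚ K r) = algebraMap ℚ_[q] (PadicAlgCl q) (r : ℚ_[q]) := by simp
      rw [this]
      exact IntermediateField.algebraMap_mem _ _
    | add y z _ _ hy hz => rw [map_add]; exact add_mem hy hz
    | inv y _ hy => rw [map_inv₀]; exact inv_mem hy
    | mul y z _ _ hy hz => rw [map_mul]; exact mul_mem hy hz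
  · rw [IntermediateField.adjoin_simple_le_iff]
    exact h37_mem_locField q j θ

instance h37_locField_finiteDimensional (j : K →+* PadicAlgCl q) :
    FiniteDimensional ℚ_[q] ↥(h37_locField q j) := by
  obtain ⟨θ, hθ⟩ := Field.exists_primitive_element ℚ K
  rw [h37_locField_eq q j hθ]
  exact IntermediateField.adjoin.finiteDimensional (Algebra.IsIntegral.isIntegral _)

variable {Γ : Type*} [Group Γ] [MulAction Γ (K →+* PadicAlgCl q)]
  [MulDistribMulAction Γ (PadicAlgCl q)ˣ]
  (e : Γ ≃* (PadicAlgCl q ≃ₐ[ℚ_[q]] PadicAlgCl q))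
  (hX : ∀ (γ : Γ) (j : K →+* PadicAlgCl q),
    γ • j = ((e γ : PadicAlgCl q ≃ₐ[ℚ_[q]] PadicAlgCl q) : PadicAlgCl q →+* PadicAlgCl q).comp j)
  (hA : ∀ (γ : Γ) (a : (PadicAlgCl q)ˣ),
    ((γ • a : (PadicAlgCl q)ˣ) : PadicAlgCl q) = e γ (a : PadicAlgCl q))

omit [NumberField K] in
include hX hA in
/-- The fixed group of the stabiliser of `j` is the unit group of the local field at `j`. -/
theorem h37_fix_iff (j : K →+* PadicAlgCl q) (a : (PadicAlgCl q)ˣ) :
    a ∈ h28_fix Γ (PadicAlgCl q)ˣ j ↔ (a : PadicAlgCl q) ∈ h37_locField q j := by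
  constructor
  · intro ha
    rw [← InfiniteGalois.fixedField_fixingSubgroup (h37_locField q j),
      IntermediateField.mem_fixedField_iff]
    intro σ hσ
    have h1 : (e.symm σ) • j = j := by
      rw [hX, e.apply_symm_apply]
      ext x
      exact hσ ⟨j x, h37_mem_locField q j x⟩
    have h2 := ha _ h1
    have h3 := hA (e.symm σ) a
    rw [h2, e.apply_symm_apply] at h3
    exact h3.symm
  · intro ha τ hτ
    apply Units.ext
    rw [hA]
    have hτ' : ∀ x : K, e τ (j x) = j x := by
      intro x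
      have := congrArg (fun f : K →+* PadicAlgCl q => f x) hτ
      rw [hX] at this
      exact this
    have key : ∀ y ∈ IntermediateField.adjoin ℚ_[q] (Set.range j), e τ y = y := by
      intro y hy
      induction hy using IntermediateField.adjoin_induction with
      | mem y hy =>
        obtain ⟨x, rfl⟩ := hy
        exact hτ' x
      | algebraMap r => exact AlgEquiv.commutes _ _
      | add y z _ _ hy hz => rw [map_add, hy, hz]
      | inv y _ hy => rw [map_inv₀, hy]
      | mul y z _ _ hy hz => rw [map_mul, hy, hz]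
    exact key _ ha

omit [NumberField K] in
include hX hA in
/-- The unit group of the local field at `j` is isomorphic to the fixed group of the
stabiliser of `j`. -/
theorem h37_exists_fixEquiv (j : K →+* PadicAlgCl q) :
    Nonempty ((↥(h37_locField q j))ˣ ≃* ↥(h28_fix Γ (PadicAlgCl q)ˣ j)) := by
  let u : (↥(h37_locField q j))ˣ →* (PadicAlgCl q)ˣ :=
    Units.map ((algebraMap ↥(h37_locField q j) (PadicAlgCl q) : _ →+* _) : _ →* _)
  have hu : ∀ b : (↥(h37_locField q j))ˣ, ((u b : (PadicAlgCl q)ˣ) : PadicAlgCl q)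
      = ((b : ↥(h37_locField q j)) : PadicAlgCl q) := fun b => rfl
  have hinj : Function.Injective u := by
    intro b c hbc
    apply Units.ext
    apply Subtype.ext
    rw [← hu, ← hu, hbc]
  have hrange : u.range = h28_fix Γ (PadicAlgCl q)ˣ j := by
    ext a
    rw [h37_fix_iff q e hX hA]
    constructor
    · rintro ⟨b, rfl⟩
      rw [hu]
      exact (b : ↥(h37_locField q j)).2
    · intro ha
      have hne : (⟨(a : PadicAlgCl q), ha⟩ : ↥(h37_locField q j)) ≠ 0 := by
        intro h0
        have := congrArg (fun t : ↥(h37_locField q j) => (t : PadicAlgCl q)) h0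
        exact a.ne_zero this
      refine ⟨Units.mk0 _ hne, ?_⟩
      apply Units.ext
      rw [hu]
      rfl
  exact ⟨(MonoidHom.ofInjective hinj).trans (MulEquiv.subgroupCongr hrange)⟩

include hX hA in
/-- The `p`-th power index of the fixed group of the stabiliser of `j`. -/
theorem h37_fix_pow_index (p : ℕ) [Fact p.Prime] (j : K →+* PadicAlgCl q) :
    (powMonoidHom p : ↥(h28_fix Γ (PadicAlgCl q)ˣ j) →* ↥(h28_fix Γ (PadicAlgCl q)ˣ j)).range.index
      = p * Nat.card (rootsOfUnity p ↥(h37_locField q j))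
        * (if q = p then p ^ Module.finrank ℚ_[q] ↥(h37_locField q j) else 1) := by
  obtain ⟨E⟩ := h37_exists_fixEquiv q e hX hA j
  rw [← h37_pow_index_mulEquiv E p]
  exact h37_local_pow_index q p ↥(h37_locField q j)

include hX hA in
/-- The same, when `K` contains a primitive `p`-th root of unity. -/
theorem h37_fix_pow_index' (p : ℕ) [Fact p.Prime] {ζ : K} (hζ : IsPrimitiveRoot ζ p)
    (j : K →+* PadicAlgCl q) :
    (powMonoidHom p : ↥(h28_fix Γ (PadicAlgCl q)ˣ j) →* ↥(h28_fix Γ (PadicAlgCl q)ˣ j)).range.index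
      = p ^ 2 * (if q = p then p ^ Module.finrank ℚ_[q] ↥(h37_locField q j) else 1) := by
  have hp : NeZero p := ⟨(Fact.out : p.Prime).ne_zero⟩
  have h1 : IsPrimitiveRoot (j ζ) p := hζ.map_of_injective j.injective
  have h2 : IsPrimitiveRoot (⟨j ζ, h37_mem_locField q j ζ⟩ : ↥(h37_locField q j)) p :=
    IsPrimitiveRoot.coe_submonoidClass_iff.mp h1
  rw [h37_fix_pow_index q e hX hA p j, h2.card_rootsOfUnity, pow_two]

omit [MulDistribMulAction Γ (PadicAlgCl q)ˣ] in
include hX in
/-- The orbit of `j` has as many elements as the degree of the local field at `j`. -/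
theorem h37_card_orbit (j : K →+* PadicAlgCl q) :
    Nat.card ↥(MulAction.orbit Γ j) = Module.finrank ℚ_[q] ↥(h37_locField q j) := by
  obtain ⟨θ, hθ⟩ := Field.exists_primitive_element ℚ K
  have hint : IsIntegral ℚ_[q] (j θ) := Algebra.IsIntegral.isIntegral _
  rw [h37_locField_eq q j hθ, IntermediateField.adjoin.finrank hint]
  have hsep : (minpoly ℚ_[q] (j θ)).Separable := (minpoly.irreducible hint).separable
  have hsplit : ((minpoly ℚ_[q] (j θ)).map (algebraMap ℚ_[q] (PadicAlgCl q))).Splits :=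
    IsAlgClosed.splits _
  rw [← card_rootSet_eq_natDegree hsep hsplit, ← Nat.card_eq_fintype_card]
  have hroot : ∀ j' : ↥(MulAction.orbit Γ j),
      (j' : K →+* PadicAlgCl q) θ ∈ (minpoly ℚ_[q] (j θ)).rootSet (PadicAlgCl q) := by
    rintro ⟨_, γ, rfl⟩
    rw [Polynomial.mem_rootSet]
    refine ⟨minpoly.ne_zero hint, ?_⟩
    show aeval ((γ • j) θ) (minpoly ℚ_[q] (j θ)) = 0
    rw [hX]
    show aeval (((e γ : PadicAlgCl q ≃ₐ[ℚ_[q]] PadicAlgCl q) : PadicAlgCl q →ₐ[ℚ_[q]] PadicAlgCl q)
      (j θ)) (minpoly ℚ_[q] (j θ)) = 0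
    rw [Polynomial.aeval_algHom_apply, minpoly.aeval, map_zero]
  apply Nat.card_congr
  refine Equiv.ofBijective (fun j' => ⟨(j' : K →+* PadicAlgCl q) θ, hroot j'⟩) ⟨?_, ?_⟩
  · intro j₁ j₂ h
    apply Subtype.ext
    exact h37_ringHom_ext_of_primitive hθ (congrArg Subtype.val h)
  · rintro ⟨β, hβ⟩
    rw [Polynomial.mem_rootSet] at hβ
    have hconj : IsConjRoot ℚ_[q] (j θ) β := (isConjRoot_iff_aeval_eq_zero hint).mpr hβ.2
    obtain ⟨σ, hσ⟩ := isConjRoot_iff_exists_algEquiv.mp hconj
    refine ⟨⟨(e.symm σ.symm) • j, ⟨e.symm σ.symm, rfl⟩⟩, ?_⟩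
    apply Subtype.ext
    show ((e.symm σ.symm) • j) θ = β
    rw [hX, e.apply_symm_apply]
    show σ.symm (j θ) = β
    rw [← hσ, AlgEquiv.symm_apply_apply]

omit [MulDistribMulAction Γ (PadicAlgCl q)ˣ] in
include hX in
/-- The local degrees at the orbit representatives add up to the global degree. -/
theorem h37_sum_finrank_locField [Fintype (MulAction.orbitRel.Quotient Γ (K →+* PadicAlgCl q))] :
    ∑ O : MulAction.orbitRel.Quotient Γ (K →+* PadicAlgCl q),
        Module.finrank ℚ_[q] ↥(h37_locField q (Quotient.out O))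
      = Module.finrank ℚ K := by
  rw [← NumberField.Embeddings.card K (PadicAlgCl q), ← Nat.card_eq_fintype_card,
    Nat.card_congr (MulAction.selfEquivSigmaOrbits Γ (K →+* PadicAlgCl q)), Nat.card_sigma]
  exact Finset.sum_congr rfl (fun O _ => (h37_card_orbit q e hX _).symm)

include hX hA in
/-- **The `p`-th power index of `J_q(K)`** for a number field `K` containing a primitive `p`-th
root of unity: `p ^ (2 · #orbits)`, times `p ^ [K:ℚ]` if `q = p`. -/
theorem h37_Jq_pow_index (p : ℕ) [Fact p.Prime] {ζ : K} (hζ : IsPrimitiveRoot ζ p) :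
    (powMonoidHom p : ↥(h28_eqv Γ (K →+* PadicAlgCl q) (PadicAlgCl q)ˣ) →*
        ↥(h28_eqv Γ (K →+* PadicAlgCl q) (PadicAlgCl q)ˣ)).range.index
      = p ^ (2 * Nat.card (MulAction.orbitRel.Quotient Γ (K →+* PadicAlgCl q)))
          * (if q = p then p ^ Module.finrank ℚ K else 1) := by
  have := Fintype.ofFinite (MulAction.orbitRel.Quotient Γ (K →+* PadicAlgCl q))
  rw [h37_eqv_pow_index_prod, finprod_eq_prod_of_fintype,
    Finset.prod_congr rfl (fun O _ => h37_fix_pow_index' q e hX hA p hζ (Quotient.out O)),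
    Finset.prod_mul_distrib, Finset.prod_const, Finset.card_univ, ← Nat.card_eq_fintype_card,
    ← pow_mul]
  congr 1
  by_cases h : q = p
  · simp only [if_pos h]
    rw [Finset.prod_pow_eq_pow_sum, h37_sum_finrank_locField q e hX]
  · simp only [if_neg h]
    exact Finset.prod_const_one

end Arith

end Fermat.Agent.S55
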