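import Fermat.Agent.S55.h92_ClT

/-!
# S55 / GLOB-UNORM (4): capitulation data

`L` a number field, `p` a prime, `h = p ^ k * m` the class number (`p ∤ m`).

* `h38_capit_data` : there is a finite set `U ⊆ 𝓞 L ∖ {0}` (generators of the `h`-th powers of
  representatives of the ideal classes) such that every `u ∈ U` generates a `p ^ k`-th power of an
  ideal, and for every prime `v` there are `t : Lˣ`, `u ∈ U` with `(t ^ (p ^ k) * u) = v ^ (p ^ k * m)`
  (in terms of valuations).
* `h38_capit_of_root` : consequently, in any extension `L'` containing a `p ^ k`-th root `c` of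
  `z = t ^ (p ^ k) * u`, the divisor of `c` is `m • ext v`:
  `ord_w c = m * e(w|v)` for `w ∣ v` and `0` otherwise.
-/

set_option autoImplicit false

namespace Fermat.Agent.S55

open NumberField IsDedekindDomain
open scoped nonZeroDivisors

section Data

variable (L : Type*) [Field L] [NumberField L]

variable {L} in
theorem h38_cnt_pow (v : HeightOneSpectrum (𝓞 L)) {I : Ideal (𝓞 L)} (hI : I ≠ 0) (n : ℕ) :
    h92_cnt L v (I ^ n) = n * h92_cnt L v I := by
  induction n with
  | zero =>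
    rw [pow_zero, zero_mul]
    apply h92_cnt_eq_zero v one_ne_zero
    intro h
    have h1 : (1 : Ideal (𝓞 L)) ≤ v.asIdeal := Ideal.dvd_iff_le.mp h
    exact v.isPrime.ne_top (top_le_iff.mp (Ideal.one_eq_top (R := 𝓞 L) ▸ h1))
  | succ n ih =>
    rw [pow_succ, h92_cnt_mul v (pow_ne_zero n hI) hI, ih]
    ring

/-- **Capitulation data.** -/
theorem h38_capit_data {p : ℕ} (hp : p.Prime) :
    ∃ (k m : ℕ) (U : Finset (𝓞 L)), m.Coprime p ∧ (∀ u ∈ U, u ≠ 0) ∧
      (∀ u ∈ U, ∃ J : Ideal (𝓞 L), Ideal.span {u} = J ^ (p ^ k)) ∧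
      ∀ v : HeightOneSpectrum (𝓞 L), ∃ (t : Lˣ) (u : 𝓞 L), u ∈ U ∧
        v.valuation L ((t : L) ^ (p ^ k) * (u : L)) = WithZero.exp (-((p ^ k * m : ℕ) : ℤ)) ∧
        ∀ v' : HeightOneSpectrum (𝓞 L), v' ≠ v →
          v'.valuation L ((t : L) ^ (p ^ k) * (u : L)) = 1 := by
  classical
  have hh0 : Fintype.card (ClassGroup (𝓞 L)) ≠ 0 := Fintype.card_ne_zero
  obtain ⟨k, m, hm, hh⟩ := Nat.exists_eq_pow_mul_and_not_dvd hh0 p hp.ne_one
  set h := Fintype.card (ClassGroup (𝓞 L)) with hdef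
  choose rep hrep using (ClassGroup.mk0_surjective (R := 𝓞 L))
  have hrep0 : ∀ c, (rep c : Ideal (𝓞 L)) ≠ 0 := fun c => nonZeroDivisors.coe_ne_zero (rep c)
  have hprinc : ∀ c : ClassGroup (𝓞 L), ∃ u : 𝓞 L, (rep c : Ideal (𝓞 L)) ^ h = Ideal.span {u} := by
    intro c
    have h1 : ClassGroup.mk0 ((rep c) ^ h) = 1 := by
      rw [map_pow, hrep, hdef]
      exact pow_card_eq_one
    have h2 := (ClassGroup.mk0_eq_one_iff ((rep c) ^ h).2).mp h1
    obtain ⟨u, hu⟩ := h2.principal
    refine ⟨u, ?_⟩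
    have h3 : (((rep c) ^ h : (Ideal (𝓞 L))⁰) : Ideal (𝓞 L)) = (rep c : Ideal (𝓞 L)) ^ h := rfl
    rw [← h3, hu]
  choose gen hgen using hprinc
  have hgen0 : ∀ c, gen c ≠ 0 := by
    intro c h0
    have h1 := hgen c
    rw [h0, Ideal.span_singleton_zero] at h1
    exact pow_ne_zero h (hrep0 c) h1
  refine ⟨k, m, Finset.univ.image gen, (Nat.Coprime.symm ((Nat.Prime.coprime_iff_not_dvd hp).mpr hm)),
    ?_, ?_, ?_⟩
  · intro u hu
    obtain ⟨c, -, rfl⟩ := Finset.mem_image.mp hu
    exact hgen0 c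
  · intro u hu
    obtain ⟨c, -, rfl⟩ := Finset.mem_image.mp hu
    refine ⟨(rep c : Ideal (𝓞 L)) ^ m, ?_⟩
    rw [← hgen c, ← pow_mul, mul_comm m, ← hh]
  · intro v
    set c := ClassGroup.mk0 ⟨v.asIdeal, mem_nonZeroDivisors_of_ne_zero v.ne_bot⟩ with hc
    obtain ⟨x, y, hx, hy, hxy⟩ := ClassGroup.mk0_eq_mk0_iff.mp (hrep c)
    have hxL : algebraMap (𝓞 L) L x ≠ 0 := by simpa using hx
    have hyL : algebraMap (𝓞 L) L y ≠ 0 := by simpa using hy
    have hsx : (Ideal.span {x} : Ideal (𝓞 L)) ≠ 0 := by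
      rw [Ne, Ideal.zero_eq_bot, Ideal.span_singleton_eq_bot]; exact hx
    have hsy : (Ideal.span {y} : Ideal (𝓞 L)) ≠ 0 := by
      rw [Ne, Ideal.zero_eq_bot, Ideal.span_singleton_eq_bot]; exact hy
    have hsu : (Ideal.span {gen c} : Ideal (𝓞 L)) ≠ 0 := by
      rw [Ne, Ideal.zero_eq_bot, Ideal.span_singleton_eq_bot]; exact hgen0 c
    -- the counting identity at every prime
    have hcount : ∀ v' : HeightOneSpectrum (𝓞 L),
        h * h92_cnt L v' (Ideal.span {x}) + h92_cnt L v' (Ideal.span {gen c}) =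
          h * h92_cnt L v' (Ideal.span {y}) + h * h92_cnt L v' v.asIdeal := by
      intro v'
      have h1 := congrArg (fun I : Ideal (𝓞 L) => h92_cnt L v' (I ^ h)) hxy
      simp only [] at h1
      rw [mul_pow, mul_pow, hgen c, h92_cnt_mul v' (pow_ne_zero h hsx) hsu,
        h92_cnt_mul v' (pow_ne_zero h hsy) (pow_ne_zero h v.ne_bot), h38_cnt_pow v' hsx,
        h38_cnt_pow v' hsy, h38_cnt_pow v' v.ne_bot] at h1
      exact h1
    have hval : ∀ v' : HeightOneSpectrum (𝓞 L),
        v'.valuation L (((Units.mk0 _ hxL / Units.mk0 _ hyL) ^ m : Lˣ) ^ (p ^ k) *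
          ((gen c : 𝓞 L) : L)) = WithZero.exp (-((h * h92_cnt L v' v.asIdeal : ℕ) : ℤ)) := by
      intro v'
      have e1 : ((((Units.mk0 _ hxL / Units.mk0 _ hyL) ^ m : Lˣ) : L) ^ (p ^ k)) =
          (algebraMap (𝓞 L) L x / algebraMap (𝓞 L) L y) ^ h := by
        rw [Units.val_pow_eq_pow_val, Units.val_div_eq_div_val, Units.val_mk0, Units.val_mk0,
          ← pow_mul, mul_comm m, ← hh]
      rw [e1, map_mul, map_pow, map_div₀, HeightOneSpectrum.valuation_of_algebraMap,
        HeightOneSpectrum.valuation_of_algebraMap]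
      have e2 : ((gen c : 𝓞 L) : L) = algebraMap (𝓞 L) L (gen c) := rfl
      rw [e2, HeightOneSpectrum.valuation_of_algebraMap, h92_intValuation_eq_cnt v' hx,
        h92_intValuation_eq_cnt v' hy, h92_intValuation_eq_cnt v' (hgen0 c), ← WithZero.exp_sub,
        ← WithZero.exp_nsmul, ← WithZero.exp_add]
      congr 1
      have := hcount v'
      simp only [nsmul_eq_mul]
      push_cast
      have h3 : ((h * h92_cnt L v' (Ideal.span {x}) + h92_cnt L v' (Ideal.span {gen c}) : ℕ) : ℤ) =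
          ((h * h92_cnt L v' (Ideal.span {y}) + h * h92_cnt L v' v.asIdeal : ℕ) : ℤ) := by
        rw [this]
      push_cast at h3
      linarith
    refine ⟨(Units.mk0 _ hxL / Units.mk0 _ hyL) ^ m, gen c, Finset.mem_image_of_mem _
      (Finset.mem_univ c), ?_, ?_⟩
    · rw [hval v, h92_cnt_self, mul_one, hh]
    · intro v' hv'
      rw [hval v', h92_cnt_of_ne v' v hv', mul_zero]
      simp

end Data

section Root

variable {L L' : Type*} [Field L] [NumberField L] [Field L'] [NumberField L'] [Algebra L L']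

/-- The divisor of an `n`-th root `c` of `z`, when `div z = (n * m) • v`: `ord_w c = m * e(w|v)`
for `w ∣ v` and `0` elsewhere. -/
theorem h38_capit_of_root (n m : ℕ) (hn : n ≠ 0) (v : HeightOneSpectrum (𝓞 L)) (z : L)
    (hz1 : v.valuation L z = WithZero.exp (-((n * m : ℕ) : ℤ)))
    (hz2 : ∀ v' : HeightOneSpectrum (𝓞 L), v' ≠ v → v'.valuation L z = 1)
    (c : L'ˣ) (hc : (c : L') ^ n = algebraMap L L' z) (w : HeightOneSpectrum (𝓞 L')) :
    (w.asIdeal.LiesOver v.asIdeal → w.valuationOfNeZero c =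
      Multiplicative.ofAdd (-((m * w.asIdeal.ramificationIdx (𝓞 L) : ℕ) : ℤ))) ∧
    (¬ w.asIdeal.LiesOver v.asIdeal → w.valuationOfNeZero c = 1) := by
  set v' : HeightOneSpectrum (𝓞 L) := w.under (𝓞 L) with hv'
  have hlo : w.asIdeal.LiesOver v'.asIdeal := ⟨rfl⟩
  have key := HeightOneSpectrum.valuation_liesOver L' v' w z
  rw [← hc, map_pow, ← HeightOneSpectrum.valuationOfNeZero_eq] at key
  obtain ⟨a, ha⟩ : ∃ a : ℤ, w.valuationOfNeZero c = Multiplicative.ofAdd a :=
    ⟨Multiplicative.toAdd (w.valuationOfNeZero c), rfl⟩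
  have ha' : ((w.valuationOfNeZero c : Multiplicative ℤ) : WithZero (Multiplicative ℤ)) =
      WithZero.exp a := by rw [ha]; rfl
  rw [ha'] at key
  constructor
  · intro hw
    have hvv : v' = v := by
      apply HeightOneSpectrum.ext
      exact hw.over.symm
    rw [hvv, hz1, ← WithZero.exp_nsmul, ← WithZero.exp_nsmul, WithZero.exp_inj,
      Ideal.ramificationIdx'_eq_ramificationIdx v.asIdeal w.asIdeal v.ne_bot] at key
    rw [ha]
    congr 1
    simp only [nsmul_eq_mul] at key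
    have hn' : (n : ℤ) ≠ 0 := by exact_mod_cast hn
    apply mul_left_cancel₀ hn'
    rw [← key]
    push_cast
    ring
  · intro hw
    have hvv : v' ≠ v := by
      intro h
      apply hw
      rw [← h]
      exact hlo
    rw [hz2 v' hvv, one_pow, ← WithZero.exp_nsmul, ← WithZero.exp_zero, WithZero.exp_inj] at key
    rw [ha]
    simp only [nsmul_eq_mul] at key
    have hn' : (n : ℤ) ≠ 0 := by exact_mod_cast hn
    have h0 : a = 0 := by
      rcases mul_eq_zero.mp key.symm with h | h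
      · exact absurd h hn'
      · exact h
    rw [h0]
    rfl

end Root

end Fermat.Agent.S55
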