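import Mathlib

/-!
# S55 / GLOB-UNORM (1): the power residue symbol of a number field

`F` a number field, `ζ : 𝓞 F` a primitive `p`-th root of unity (`p` prime), `w` a prime of `𝓞 F`
not containing `p`.  For `x : 𝓞 F`, `x ∉ w`, the *power residue symbol* `h38_symb p ζ w x : ZMod p`
is characterised by `x ^ ((N w - 1) / p) ≡ ζ ^ (symbol) mod w`.

* `h38_symb_spec`, `h38_symb_eq_of_pow` : characterisation;
* `h38_symb_mul`, `h38_symb_one`, `h38_symb_pow`, `h38_symb_prod` : multiplicativity;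
* `h38_symb_eq_zero_of_pow` : `p`-th powers have trivial symbol;
* `h38_symb_eq_zero_iff` : `symbol = 0 ↔ x ^ ((N w - 1)/p) ≡ 1`.
-/

set_option autoImplicit false

namespace Fermat.Agent.S55

open NumberField IsDedekindDomain

attribute [local instance] Ideal.Quotient.field

section Symb

variable {F : Type*} [Field F] [NumberField F]

/-- The power residue symbol `(x / w)_p ∈ ZMod p` with respect to the primitive `p`-th root of
unity `ζ`: `x ^ ((N w - 1) / p) ≡ ζ ^ (x / w)_p mod w` (junk value `0` when no such exponent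
exists). -/
noncomputable def h38_symb (p : ℕ) (ζ : 𝓞 F) (w : HeightOneSpectrum (𝓞 F)) (x : 𝓞 F) : ZMod p :=
  open Classical in
  if h : ∃ k : ZMod p, Ideal.Quotient.mk w.asIdeal x ^ ((Ideal.absNorm w.asIdeal - 1) / p) =
      Ideal.Quotient.mk w.asIdeal ζ ^ k.val then h.choose else 0

theorem h38_card_quot (w : HeightOneSpectrum (𝓞 F)) :
    Nat.card (𝓞 F ⧸ w.asIdeal) = Ideal.absNorm w.asIdeal := by
  rw [Ideal.absNorm_apply, Submodule.cardQuot_apply]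

omit [NumberField F] in
/-- `ζ mod w` is a primitive `p`-th root of unity when `p ∉ w`. -/
theorem h38_mk_zeta_primitive {p : ℕ} (hp : p.Prime) {ζ : 𝓞 F} (hζ : IsPrimitiveRoot ζ p)
    (w : HeightOneSpectrum (𝓞 F)) (hpw : (p : 𝓞 F) ∉ w.asIdeal) :
    IsPrimitiveRoot (Ideal.Quotient.mk w.asIdeal ζ) p := by
  have hz : Ideal.Quotient.mk w.asIdeal ζ ^ p = 1 := by
    rw [← map_pow, hζ.pow_eq_one, map_one]
  have hz1 : Ideal.Quotient.mk w.asIdeal ζ ≠ 1 := by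
    intro h1
    have h2 := congrArg (Ideal.Quotient.mk w.asIdeal) (hζ.geom_sum_eq_zero hp.one_lt)
    rw [map_sum, map_zero] at h2
    simp only [map_pow, h1, one_pow, Finset.sum_const, Finset.card_range, nsmul_eq_mul,
      mul_one] at h2
    apply hpw
    rw [← Ideal.Quotient.eq_zero_iff_mem, map_natCast]
    exact h2
  have : Fact p.Prime := ⟨hp⟩
  have hord : orderOf (Ideal.Quotient.mk w.asIdeal ζ) = p := orderOf_eq_prime hz hz1
  rw [← hord]
  exact IsPrimitiveRoot.orderOf _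

/-- `p ∣ N w - 1`. -/
theorem h38_dvd_absNorm_sub_one {p : ℕ} (hp : p.Prime) {ζ : 𝓞 F} (hζ : IsPrimitiveRoot ζ p)
    (w : HeightOneSpectrum (𝓞 F)) (hpw : (p : 𝓞 F) ∉ w.asIdeal) :
    p ∣ Ideal.absNorm w.asIdeal - 1 := by
  have hprim := h38_mk_zeta_primitive hp hζ w hpw
  have hne : Ideal.Quotient.mk w.asIdeal ζ ≠ 0 := hprim.ne_zero hp.ne_zero
  have h1 : orderOf (Units.mk0 _ hne) = p := by
    rw [← orderOf_units, Units.val_mk0, ← hprim.eq_orderOf]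
  rw [← h1, ← h38_card_quot, ← Nat.card_units]
  exact orderOf_dvd_natCard _

theorem h38_absNorm_sub_one_pos (w : HeightOneSpectrum (𝓞 F)) :
    0 < Ideal.absNorm w.asIdeal - 1 := by
  have h1 : Ideal.absNorm w.asIdeal ≠ 1 := by
    rw [Ne, Ideal.absNorm_eq_one_iff]
    exact w.isPrime.ne_top
  have h0 : Ideal.absNorm w.asIdeal ≠ 0 := by
    rw [Ne, Ideal.absNorm_eq_zero_iff]
    exact w.ne_bot
  omega

/-- Fermat's little theorem in the residue field. -/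
theorem h38_mk_pow_absNorm_sub_one (w : HeightOneSpectrum (𝓞 F)) (x : 𝓞 F)
    (hx : x ∉ w.asIdeal) :
    Ideal.Quotient.mk w.asIdeal x ^ (Ideal.absNorm w.asIdeal - 1) = 1 := by
  have : Fintype (𝓞 F ⧸ w.asIdeal) := Fintype.ofFinite _
  have hne : Ideal.Quotient.mk w.asIdeal x ≠ 0 := by
    rwa [Ne, Ideal.Quotient.eq_zero_iff_mem]
  rw [← h38_card_quot, Nat.card_eq_fintype_card]
  exact FiniteField.pow_card_sub_one_eq_one _ hne

theorem h38_symb_exists {p : ℕ} (hp : p.Prime) {ζ : 𝓞 F} (hζ : IsPrimitiveRoot ζ p)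
    (w : HeightOneSpectrum (𝓞 F)) (hpw : (p : 𝓞 F) ∉ w.asIdeal) (x : 𝓞 F)
    (hx : x ∉ w.asIdeal) :
    ∃ k : ZMod p, Ideal.Quotient.mk w.asIdeal x ^ ((Ideal.absNorm w.asIdeal - 1) / p) =
      Ideal.Quotient.mk w.asIdeal ζ ^ k.val := by
  have : NeZero p := ⟨hp.ne_zero⟩
  have hprim := h38_mk_zeta_primitive hp hζ w hpw
  have h1 : (Ideal.Quotient.mk w.asIdeal x ^ ((Ideal.absNorm w.asIdeal - 1) / p)) ^ p = 1 := by
    rw [← pow_mul, Nat.div_mul_cancel (h38_dvd_absNorm_sub_one hp hζ w hpw)]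
    exact h38_mk_pow_absNorm_sub_one w x hx
  obtain ⟨i, hi, hi2⟩ := hprim.eq_pow_of_pow_eq_one h1
  refine ⟨(i : ZMod p), ?_⟩
  rw [ZMod.val_natCast_of_lt hi, hi2]

/-- Characterisation of the symbol. -/
theorem h38_symb_spec {p : ℕ} (hp : p.Prime) {ζ : 𝓞 F} (hζ : IsPrimitiveRoot ζ p)
    (w : HeightOneSpectrum (𝓞 F)) (hpw : (p : 𝓞 F) ∉ w.asIdeal) (x : 𝓞 F)
    (hx : x ∉ w.asIdeal) :
    Ideal.Quotient.mk w.asIdeal x ^ ((Ideal.absNorm w.asIdeal - 1) / p) =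
      Ideal.Quotient.mk w.asIdeal ζ ^ (h38_symb p ζ w x).val := by
  have h := h38_symb_exists hp hζ w hpw x hx
  unfold h38_symb
  rw [dif_pos h]
  exact h.choose_spec

/-- Uniqueness of the exponent. -/
theorem h38_symb_eq_of_pow {p : ℕ} (hp : p.Prime) {ζ : 𝓞 F} (hζ : IsPrimitiveRoot ζ p)
    (w : HeightOneSpectrum (𝓞 F)) (hpw : (p : 𝓞 F) ∉ w.asIdeal) (x : 𝓞 F)
    (hx : x ∉ w.asIdeal) (i : ℕ)
    (h : Ideal.Quotient.mk w.asIdeal x ^ ((Ideal.absNorm w.asIdeal - 1) / p) =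
      Ideal.Quotient.mk w.asIdeal ζ ^ i) :
    h38_symb p ζ w x = (i : ZMod p) := by
  have : NeZero p := ⟨hp.ne_zero⟩
  have hprim := h38_mk_zeta_primitive hp hζ w hpw
  have h1 := h38_symb_spec hp hζ w hpw x hx
  rw [h] at h1
  have h2 : Ideal.Quotient.mk w.asIdeal ζ ^ (i % p) =
      Ideal.Quotient.mk w.asIdeal ζ ^ (h38_symb p ζ w x).val := by
    rw [← h1]
    conv_rhs => rw [← Nat.mod_add_div i p]
    rw [pow_add, pow_mul, hprim.pow_eq_one, one_pow, mul_one]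
  have h3 := hprim.pow_inj (Nat.mod_lt _ hp.pos) (ZMod.val_lt _) h2
  rw [← ZMod.natCast_zmod_val (h38_symb p ζ w x), ← h3, ZMod.natCast_mod]

theorem h38_symb_mul {p : ℕ} (hp : p.Prime) {ζ : 𝓞 F} (hζ : IsPrimitiveRoot ζ p)
    (w : HeightOneSpectrum (𝓞 F)) (hpw : (p : 𝓞 F) ∉ w.asIdeal) (x y : 𝓞 F)
    (hx : x ∉ w.asIdeal) (hy : y ∉ w.asIdeal) :
    h38_symb p ζ w (x * y) = h38_symb p ζ w x + h38_symb p ζ w y := by
  have : NeZero p := ⟨hp.ne_zero⟩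
  have hxy : x * y ∉ w.asIdeal := fun h => (w.isPrime.mem_or_mem h).elim hx hy
  have h1 := h38_symb_eq_of_pow hp hζ w hpw (x * y) hxy
    ((h38_symb p ζ w x).val + (h38_symb p ζ w y).val) (by
      rw [map_mul, mul_pow, h38_symb_spec hp hζ w hpw x hx, h38_symb_spec hp hζ w hpw y hy,
        pow_add])
  rw [h1, Nat.cast_add, ZMod.natCast_zmod_val, ZMod.natCast_zmod_val]

theorem h38_symb_one {p : ℕ} (hp : p.Prime) {ζ : 𝓞 F} (hζ : IsPrimitiveRoot ζ p)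
    (w : HeightOneSpectrum (𝓞 F)) (hpw : (p : 𝓞 F) ∉ w.asIdeal) :
    h38_symb p ζ w 1 = 0 := by
  have h1 : (1 : 𝓞 F) ∉ w.asIdeal := fun h => w.isPrime.ne_top ((Ideal.eq_top_iff_one _).2 h)
  have := h38_symb_eq_of_pow hp hζ w hpw 1 h1 0 (by rw [map_one, one_pow, pow_zero])
  rw [this, Nat.cast_zero]

theorem h38_symb_pow {p : ℕ} (hp : p.Prime) {ζ : 𝓞 F} (hζ : IsPrimitiveRoot ζ p)
    (w : HeightOneSpectrum (𝓞 F)) (hpw : (p : 𝓞 F) ∉ w.asIdeal) (x : 𝓞 F)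
    (hx : x ∉ w.asIdeal) (n : ℕ) :
    h38_symb p ζ w (x ^ n) = n • h38_symb p ζ w x := by
  induction n with
  | zero => rw [pow_zero, zero_smul, h38_symb_one hp hζ w hpw]
  | succ n ih =>
    have hxn : x ^ n ∉ w.asIdeal := fun h => hx (w.isPrime.mem_of_pow_mem n h)
    rw [pow_succ, h38_symb_mul hp hζ w hpw _ _ hxn hx, ih, succ_nsmul]

theorem h38_symb_prod {p : ℕ} (hp : p.Prime) {ζ : 𝓞 F} (hζ : IsPrimitiveRoot ζ p)
    (w : HeightOneSpectrum (𝓞 F)) (hpw : (p : 𝓞 F) ∉ w.asIdeal) {ι : Type*} (s : Finset ι)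
    (f : ι → 𝓞 F) (hf : ∀ i ∈ s, f i ∉ w.asIdeal) :
    h38_symb p ζ w (∏ i ∈ s, f i) = ∑ i ∈ s, h38_symb p ζ w (f i) := by
  classical
  induction s using Finset.induction_on with
  | empty => rw [Finset.prod_empty, Finset.sum_empty, h38_symb_one hp hζ w hpw]
  | insert a s ha ih =>
    have h1 : f a ∉ w.asIdeal := hf a (Finset.mem_insert_self a s)
    have h2 : ∀ i ∈ s, f i ∉ w.asIdeal := fun i hi => hf i (Finset.mem_insert_of_mem hi)
    have h3 : ∏ i ∈ s, f i ∉ w.asIdeal := by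
      intro h
      obtain ⟨i, hi, hi2⟩ := (Ideal.IsPrime.prod_mem_iff (hp := w.isPrime)).1 h
      exact h2 i hi hi2
    rw [Finset.prod_insert ha, Finset.sum_insert ha, h38_symb_mul hp hζ w hpw _ _ h1 h3, ih h2]

/-- The symbol vanishes iff `x ^ ((N w - 1) / p) ≡ 1`. -/
theorem h38_symb_eq_zero_iff {p : ℕ} (hp : p.Prime) {ζ : 𝓞 F} (hζ : IsPrimitiveRoot ζ p)
    (w : HeightOneSpectrum (𝓞 F)) (hpw : (p : 𝓞 F) ∉ w.asIdeal) (x : 𝓞 F)
    (hx : x ∉ w.asIdeal) :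
    h38_symb p ζ w x = 0 ↔
      Ideal.Quotient.mk w.asIdeal x ^ ((Ideal.absNorm w.asIdeal - 1) / p) = 1 := by
  have : NeZero p := ⟨hp.ne_zero⟩
  constructor
  · intro h
    rw [h38_symb_spec hp hζ w hpw x hx, h, ZMod.val_zero, pow_zero]
  · intro h
    have := h38_symb_eq_of_pow hp hζ w hpw x hx 0 (by rw [h, pow_zero])
    rw [this, Nat.cast_zero]

/-- `p`-th powers modulo `w` have trivial symbol. -/
theorem h38_symb_eq_zero_of_pow {p : ℕ} (hp : p.Prime) {ζ : 𝓞 F} (hζ : IsPrimitiveRoot ζ p)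
    (w : HeightOneSpectrum (𝓞 F)) (hpw : (p : 𝓞 F) ∉ w.asIdeal) (x u : 𝓞 F)
    (hx : x ∉ w.asIdeal) (h : x - u ^ p ∈ w.asIdeal) :
    h38_symb p ζ w x = 0 := by
  rw [h38_symb_eq_zero_iff hp hζ w hpw x hx]
  have h1 : Ideal.Quotient.mk w.asIdeal x = Ideal.Quotient.mk w.asIdeal u ^ p := by
    rw [← map_pow]
    exact Ideal.Quotient.eq.2 h
  have hu : u ∉ w.asIdeal := by
    intro hu
    apply hx
    have : u ^ p ∈ w.asIdeal := Ideal.pow_mem_of_mem _ hu p hp.pos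
    have h2 := w.asIdeal.add_mem h this
    rwa [sub_add_cancel] at h2
  rw [h1, ← pow_mul, Nat.mul_div_cancel' (h38_dvd_absNorm_sub_one hp hζ w hpw)]
  exact h38_mk_pow_absNorm_sub_one w u hu

/-- The symbol only depends on `x mod w`. -/
theorem h38_symb_congr (p : ℕ) (ζ : 𝓞 F) (w : HeightOneSpectrum (𝓞 F)) (x y : 𝓞 F)
    (h : x - y ∈ w.asIdeal) : h38_symb p ζ w x = h38_symb p ζ w y := by
  have h1 : Ideal.Quotient.mk w.asIdeal x = Ideal.Quotient.mk w.asIdeal y := Ideal.Quotient.eq.2 h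
  unfold h38_symb
  rw [h1]

end Symb

end Fermat.Agent.S55
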