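import Fermat.Agent.S55.h38_Symb
import Fermat.Agent.S55.h92_SUnits

/-!
# S55 / GLOB-UNORM (3): SYMBOL-NORM

`E/F` a Galois extension of number fields, `ζ : 𝓞 F` a primitive `p`-th root of unity, `v` a prime
of `F` not containing `p`, `x : 𝓞 E` prime to `v`.  Then

`(N_{E/F} x / v)_p = ∑_{w | v} e(w|v) • (x / w)_p`     (`h38_symb_norm`).

Also: `h38_prod_stabilizer` (the product of the conjugates of `y` under the decomposition group of
`w`, modulo `w`, is `y ^ (e (N w - 1)/(N v - 1))`), `h38_absNorm_smul`, `h38_galPrime_liesOver`,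
`h38_exists_liesOver`, and the group lemmas `h38_prod_coset`, `h38_prod_comp_hom`.
-/

set_option autoImplicit false

namespace Fermat.Agent.S55

open NumberField IsDedekindDomain
open scoped Pointwise

attribute [local instance] Ideal.Quotient.field

section GroupLemmas

variable {G : Type*} [Group G]

/-- `(G ⧸ D) × D ≃ G`, `(c, τ) ↦ c.out * τ`. -/
noncomputable def h38_cosetEquiv (D : Subgroup G) : (G ⧸ D) × D ≃ G where
  toFun a := Quotient.out a.1 * a.2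
  invFun σ := (QuotientGroup.mk σ, ⟨(Quotient.out (QuotientGroup.mk σ : G ⧸ D))⁻¹ * σ, by
    rw [← QuotientGroup.eq]
    exact QuotientGroup.out_eq' _⟩)
  left_inv a := by
    obtain ⟨c, τ⟩ := a
    have h1 : (QuotientGroup.mk (Quotient.out c * (τ : G)) : G ⧸ D) = c := by
      rw [QuotientGroup.mk_mul_of_mem _ τ.2]
      exact QuotientGroup.out_eq' c
    ext
    · exact h1
    · simp only [h1, inv_mul_cancel_left]
  right_inv σ := by simp

theorem h38_prod_coset [Fintype G] {M : Type*} [CommMonoid M] (D : Subgroup G) [Fintype D]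
    [Fintype (G ⧸ D)] (f : G → M) :
    ∏ σ : G, f σ = ∏ c : G ⧸ D, ∏ τ : D, f (Quotient.out c * τ) := by
  rw [← Fintype.prod_prod_type' (f := fun (c : G ⧸ D) (τ : D) => f (Quotient.out c * τ))]
  exact (Fintype.prod_equiv (h38_cosetEquiv D) _ _ (fun _ => rfl)).symm

theorem h38_prod_comp_hom {H M : Type*} [Group H] [Fintype G] [Fintype H] [CommMonoid M]
    (φ : G →* H) (hφ : Function.Surjective φ) (f : H → M) :
    ∏ τ : G, f (φ τ) = (∏ γ : H, f γ) ^ Nat.card φ.ker := by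
  classical
  have : Fintype φ.ker := Fintype.ofFinite _
  have : Fintype (G ⧸ φ.ker) := Fintype.ofFinite _
  rw [h38_prod_coset φ.ker (fun τ => f (φ τ))]
  have h1 : ∀ c : G ⧸ φ.ker, ∏ τ : φ.ker, f (φ (Quotient.out c * τ)) =
      f (QuotientGroup.quotientKerEquivOfSurjective φ hφ c) ^ Nat.card φ.ker := by
    intro c
    have h2 : ∀ τ : φ.ker, f (φ (Quotient.out c * τ)) =
        f (QuotientGroup.quotientKerEquivOfSurjective φ hφ c) := by
      intro τ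
      have h3 : φ (Quotient.out c * τ) = QuotientGroup.quotientKerEquivOfSurjective φ hφ c := by
        conv_rhs => rw [← QuotientGroup.out_eq' c]
        rw [map_mul, MonoidHom.mem_ker.1 τ.2, mul_one]
        rfl
      rw [h3]
    rw [Finset.prod_congr rfl (fun τ _ => h2 τ), Finset.prod_const, Finset.card_univ,
      Nat.card_eq_fintype_card]
  rw [Finset.prod_congr rfl (fun c _ => h1 c), Finset.prod_pow]
  congr 1
  exact Fintype.prod_equiv (QuotientGroup.quotientKerEquivOfSurjective φ hφ).toEquiv _ _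
    (fun _ => rfl)

end GroupLemmas

section Norm

variable {F E : Type*} [Field F] [NumberField F] [Field E] [NumberField E] [Algebra F E]
  [IsGalois F E]

omit [IsGalois F E] [NumberField F] in
theorem h38_absNorm_smul (σ : E ≃ₐ[F] E) (I : Ideal (𝓞 E)) :
    Ideal.absNorm (σ • I) = Ideal.absNorm I := by
  rw [Ideal.absNorm_apply, Ideal.absNorm_apply, Submodule.cardQuot_apply,
    Submodule.cardQuot_apply]
  exact Nat.card_congr (Ideal.quotientEquiv I (σ • I)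
    (MulSemiringAction.toRingEquiv _ (𝓞 E) σ) (Ideal.pointwise_smul_def I)).toEquiv.symm

example (v : HeightOneSpectrum (𝓞 F)) : PerfectField v.asIdeal.ResidueField := inferInstance
example : Module.Finite (𝓞 F) (𝓞 E) := inferInstance
example : Module.Flat (𝓞 F) (𝓞 E) := inferInstance

theorem h38_card_ker_stabilizerHom (v : HeightOneSpectrum (𝓞 F)) (w : HeightOneSpectrum (𝓞 E))
    [w.asIdeal.LiesOver v.asIdeal] :
    Nat.card (Ideal.Quotient.stabilizerHom w.asIdeal v.asIdeal (E ≃ₐ[F] E)).ker =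
      w.asIdeal.ramificationIdx (𝓞 F) := by
  have h1 : Nat.card (Ideal.inertia (E ≃ₐ[F] E) w.asIdeal) =
      Nat.card ((Ideal.inertia (E ≃ₐ[F] E) w.asIdeal).subgroupOf
        (MulAction.stabilizer (E ≃ₐ[F] E) w.asIdeal)) :=
    (Nat.card_congr (Subgroup.subgroupOfEquivOfLe
      (Ideal.inertia_le_stabilizer (M := E ≃ₐ[F] E) w.asIdeal)).toEquiv).symm
  rw [AddSubgroup.subgroupOf_inertia] at h1
  rw [Ideal.Quotient.ker_stabilizerHom, ← h1,
    Ideal.card_inertia_eq_ramificationIdxIn v.asIdeal w.asIdeal,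
    Ideal.ramificationIdxIn_eq_ramificationIdx v.asIdeal w.asIdeal (E ≃ₐ[F] E)]

/-- **Local product formula**: the product over the decomposition group of `w` of the conjugates of
`y`, modulo `w`. -/
theorem h38_prod_stabilizer (v : HeightOneSpectrum (𝓞 F)) (w : HeightOneSpectrum (𝓞 E))
    [w.asIdeal.LiesOver v.asIdeal] (y : 𝓞 E) :
    Ideal.Quotient.mk w.asIdeal
        (∏ τ : MulAction.stabilizer (E ≃ₐ[F] E) w.asIdeal, (τ : E ≃ₐ[F] E) • y) =
      Ideal.Quotient.mk w.asIdeal y ^ (w.asIdeal.ramificationIdx (𝓞 F) *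
        ((Ideal.absNorm w.asIdeal - 1) / (Ideal.absNorm v.asIdeal - 1))) := by
  classical
  have hφ : Function.Surjective (Ideal.Quotient.stabilizerHom w.asIdeal v.asIdeal (E ≃ₐ[F] E)) :=
    Ideal.Quotient.stabilizerHom_surjective (E ≃ₐ[F] E) v.asIdeal w.asIdeal
  have : Fintype ((𝓞 E ⧸ w.asIdeal) ≃ₐ[𝓞 F ⧸ v.asIdeal] (𝓞 E ⧸ w.asIdeal)) :=
    Fintype.ofFinite _
  have h1 : ∀ τ : MulAction.stabilizer (E ≃ₐ[F] E) w.asIdeal,
      Ideal.Quotient.mk w.asIdeal ((τ : E ≃ₐ[F] E) • y) =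
        Ideal.Quotient.stabilizerHom w.asIdeal v.asIdeal (E ≃ₐ[F] E) τ
          (Ideal.Quotient.mk w.asIdeal y) := fun τ => rfl
  have h2 : ∏ γ : ((𝓞 E ⧸ w.asIdeal) ≃ₐ[𝓞 F ⧸ v.asIdeal] (𝓞 E ⧸ w.asIdeal)),
      γ (Ideal.Quotient.mk w.asIdeal y) = Ideal.Quotient.mk w.asIdeal y ^
        ((Nat.card (𝓞 E ⧸ w.asIdeal) - 1) / (Nat.card (𝓞 F ⧸ v.asIdeal) - 1)) := by
    rw [← FiniteField.algebraMap_norm_eq_pow (K := 𝓞 F ⧸ v.asIdeal),
      Algebra.norm_eq_prod_automorphisms]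
    exact Finset.prod_congr (by ext; simp) (fun _ _ => rfl)
  rw [map_prod, Finset.prod_congr rfl (fun τ _ => h1 τ),
    h38_prod_comp_hom _ hφ (fun γ => γ (Ideal.Quotient.mk w.asIdeal y)),
    h38_card_ker_stabilizerHom, h2, ← pow_mul, h38_card_quot, h38_card_quot, mul_comm]

omit [IsGalois F E] [NumberField F] in
theorem h38_mem_galPrime_iff (σ : E ≃ₐ[F] E) (w : HeightOneSpectrum (𝓞 E)) (a : 𝓞 E) :
    a ∈ (h92_galPrime σ w).asIdeal ↔ σ⁻¹ • a ∈ w.asIdeal := by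
  rw [h92_galPrime_asIdeal]
  exact Ideal.mem_pointwise_smul_iff_inv_smul_mem

theorem h38_galPrime_liesOver (σ : E ≃ₐ[F] E) (v : HeightOneSpectrum (𝓞 F))
    (w : HeightOneSpectrum (𝓞 E)) [hw : w.asIdeal.LiesOver v.asIdeal] :
    (h92_galPrime σ w).asIdeal.LiesOver v.asIdeal := by
  constructor
  ext a
  rw [Ideal.mem_comap, h38_mem_galPrime_iff, smul_algebraMap, hw.over, Ideal.mem_comap]

omit [IsGalois F E] [NumberField F] [NumberField E] in
theorem h38_algebraMap_mem_iff (v : HeightOneSpectrum (𝓞 F)) (w : HeightOneSpectrum (𝓞 E))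
    [hw : w.asIdeal.LiesOver v.asIdeal] (a : 𝓞 F) :
    algebraMap (𝓞 F) (𝓞 E) a ∈ w.asIdeal ↔ a ∈ v.asIdeal := by
  rw [hw.over, Ideal.mem_comap]

/-- SYMBOL-NORM, coset form. -/
theorem h38_symb_norm_aux {p : ℕ} (hp : p.Prime) {ζ : 𝓞 F} (hζ : IsPrimitiveRoot ζ p)
    (v : HeightOneSpectrum (𝓞 F)) (hpv : (p : 𝓞 F) ∉ v.asIdeal)
    (w₀ : HeightOneSpectrum (𝓞 E)) [w₀.asIdeal.LiesOver v.asIdeal]
    (x : 𝓞 E) (hx : ∀ σ : E ≃ₐ[F] E, x ∉ (h92_galPrime σ w₀).asIdeal)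
    (y : 𝓞 F) (hy : algebraMap (𝓞 F) (𝓞 E) y = ∏ σ : E ≃ₐ[F] E, σ • x) :
    h38_symb p ζ v y =
      ∑ c : (E ≃ₐ[F] E) ⧸ MulAction.stabilizer (E ≃ₐ[F] E) w₀.asIdeal,
        (w₀.asIdeal.ramificationIdx (𝓞 F)) •
          h38_symb p (algebraMap (𝓞 F) (𝓞 E) ζ) (h92_galPrime (Quotient.out c) w₀) x := by
  classical
  have hpne : NeZero p := ⟨hp.ne_zero⟩
  set D := MulAction.stabilizer (E ≃ₐ[F] E) w₀.asIdeal with hD
  set e := w₀.asIdeal.ramificationIdx (𝓞 F) with he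
  set ζ' := algebraMap (𝓞 F) (𝓞 E) ζ with hζ'def
  have hζ' : IsPrimitiveRoot ζ' p :=
    hζ.map_of_injective (RingOfIntegers.algebraMap.injective F E)
  have hpq : p ∣ Ideal.absNorm v.asIdeal - 1 := h38_dvd_absNorm_sub_one hp hζ v hpv
  -- `p ∉ σ w₀`
  have hpE : (p : 𝓞 E) = algebraMap (𝓞 F) (𝓞 E) (p : 𝓞 F) := by simp
  have hpw : ∀ σ : E ≃ₐ[F] E, (p : 𝓞 E) ∉ (h92_galPrime σ w₀).asIdeal := by
    intro σ
    have := h38_galPrime_liesOver σ v w₀
    rw [hpE, h38_algebraMap_mem_iff v (h92_galPrime σ w₀)]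
    exact hpv
  -- `q - 1 ∣ Q - 1`
  have hQ : Ideal.absNorm w₀.asIdeal = Ideal.absNorm v.asIdeal ^
      Module.finrank (𝓞 F ⧸ v.asIdeal) (𝓞 E ⧸ w₀.asIdeal) := by
    rw [← h38_card_quot, ← h38_card_quot]
    exact Module.natCard_eq_pow_finrank
  have hqQ : Ideal.absNorm v.asIdeal - 1 ∣ Ideal.absNorm w₀.asIdeal - 1 := by
    rw [hQ]
    simpa only [one_pow] using Nat.sub_dvd_pow_sub_pow (Ideal.absNorm v.asIdeal) 1
      (Module.finrank (𝓞 F ⧸ v.asIdeal) (𝓞 E ⧸ w₀.asIdeal))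
  have hexp : (Ideal.absNorm w₀.asIdeal - 1) / (Ideal.absNorm v.asIdeal - 1) *
      ((Ideal.absNorm v.asIdeal - 1) / p) = (Ideal.absNorm w₀.asIdeal - 1) / p := by
    rw [Nat.div_mul_div_comm hqQ hpq, mul_comm (Ideal.absNorm v.asIdeal - 1) p,
      Nat.mul_div_mul_right _ _ (h38_absNorm_sub_one_pos v)]
  -- (1) the product formula modulo `w₀`
  have hprod : Ideal.Quotient.mk w₀.asIdeal (algebraMap (𝓞 F) (𝓞 E) y) =
      ∏ c : (E ≃ₐ[F] E) ⧸ D, Ideal.Quotient.mk w₀.asIdeal ((Quotient.out c)⁻¹ • x) ^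
        (e * ((Ideal.absNorm w₀.asIdeal - 1) / (Ideal.absNorm v.asIdeal - 1))) := by
    have h1 : ∏ σ : E ≃ₐ[F] E, σ • x = ∏ σ : E ≃ₐ[F] E, σ⁻¹ • x :=
      (Fintype.prod_equiv (Equiv.inv (E ≃ₐ[F] E)) _ _ (fun _ => rfl)).symm
    rw [hy, h1, h38_prod_coset D (fun σ => σ⁻¹ • x), map_prod]
    refine Finset.prod_congr rfl (fun c _ => ?_)
    rw [← h38_prod_stabilizer v w₀ ((Quotient.out c)⁻¹ • x)]
    congr 1
    refine (Fintype.prod_equiv (Equiv.inv D) _ _ (fun τ => ?_)).symm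
    show ((Quotient.out c) * ((τ⁻¹ : D) : E ≃ₐ[F] E))⁻¹ • x = (τ : E ≃ₐ[F] E) • (Quotient.out c)⁻¹ • x
    rw [Subgroup.coe_inv, mul_inv_rev, inv_inv, mul_smul]
  -- (2) the symbols at the conjugate primes
  have hpow : ∀ c : (E ≃ₐ[F] E) ⧸ D,
      Ideal.Quotient.mk w₀.asIdeal ((Quotient.out c)⁻¹ • x) ^
        ((Ideal.absNorm w₀.asIdeal - 1) / p) =
      Ideal.Quotient.mk w₀.asIdeal ζ' ^
        (h38_symb p ζ' (h92_galPrime (Quotient.out c) w₀) x).val := by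
    intro c
    have h1 := h38_symb_spec hp hζ' (h92_galPrime (Quotient.out c) w₀) (hpw _) x (hx _)
    rw [h92_galPrime_asIdeal, h38_absNorm_smul, ← map_pow, ← map_pow, Ideal.Quotient.eq,
      ← h92_galPrime_asIdeal, h38_mem_galPrime_iff, smul_sub, smul_pow', smul_pow',
      hζ'def, smul_algebraMap] at h1
    rw [← map_pow, ← map_pow, Ideal.Quotient.eq]
    exact h1
  -- (3) combine
  have hcomb : Ideal.Quotient.mk w₀.asIdeal (algebraMap (𝓞 F) (𝓞 E) y) ^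
      ((Ideal.absNorm v.asIdeal - 1) / p) = Ideal.Quotient.mk w₀.asIdeal ζ' ^
        (∑ c : (E ≃ₐ[F] E) ⧸ D,
          e * (h38_symb p ζ' (h92_galPrime (Quotient.out c) w₀) x).val) := by
    rw [hprod, ← Finset.prod_pow, ← Finset.prod_pow_eq_pow_sum]
    refine Finset.prod_congr rfl (fun c _ => ?_)
    rw [← pow_mul, mul_assoc, hexp, mul_comm e, pow_mul, hpow c, ← pow_mul, mul_comm]
  -- (4) transfer to `v`
  have hyv : y ∉ v.asIdeal := by
    intro hyv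
    have h1 : ∏ σ : E ≃ₐ[F] E, σ • x ∈ w₀.asIdeal := by
      rw [← hy, h38_algebraMap_mem_iff v w₀]
      exact hyv
    obtain ⟨σ, -, hσ⟩ := (Ideal.IsPrime.prod_mem_iff (hp := w₀.isPrime)).1 h1
    apply hx σ⁻¹
    rw [h38_mem_galPrime_iff, inv_inv]
    exact hσ
  have hv : Ideal.Quotient.mk v.asIdeal y ^ ((Ideal.absNorm v.asIdeal - 1) / p) =
      Ideal.Quotient.mk v.asIdeal ζ ^ (∑ c : (E ≃ₐ[F] E) ⧸ D,
          e * (h38_symb p ζ' (h92_galPrime (Quotient.out c) w₀) x).val) := by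
    rw [← map_pow, ← map_pow, Ideal.Quotient.eq, ← h38_algebraMap_mem_iff v w₀, map_sub,
      map_pow, map_pow, ← Ideal.Quotient.eq, map_pow, map_pow]
    exact hcomb
  rw [h38_symb_eq_of_pow hp hζ v hpv y hyv _ hv, Nat.cast_sum]
  refine Finset.sum_congr rfl (fun c _ => ?_)
  rw [Nat.cast_mul, ZMod.natCast_zmod_val, nsmul_eq_mul]

omit [IsGalois F E] [NumberField E] in
/-- There is a prime above `v`. -/
theorem h38_exists_liesOver (v : HeightOneSpectrum (𝓞 F)) :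
    ∃ w : HeightOneSpectrum (𝓞 E), w.asIdeal.LiesOver v.asIdeal := by
  obtain ⟨Q, hQmax, hQ⟩ := Ideal.exists_maximal_ideal_liesOver_of_isIntegral (S := 𝓞 E) v.asIdeal
  exact ⟨⟨Q, hQmax.isPrime, Ideal.ne_bot_of_liesOver_of_ne_bot v.ne_bot Q⟩, hQ⟩

/-- The norm of an integer of `E` as a product of conjugates in `𝓞 E`. -/
theorem h38_algebraMap_norm_eq_prod (x : 𝓞 E) (y : 𝓞 F)
    (hy : (y : F) = Algebra.norm F (x : E)) :
    algebraMap (𝓞 F) (𝓞 E) y = ∏ σ : E ≃ₐ[F] E, σ • x := by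
  apply RingOfIntegers.ext
  have h1 := Algebra.norm_eq_prod_automorphisms F (x : E)
  rw [← hy] at h1
  have h2 : ((∏ σ : E ≃ₐ[F] E, σ • x : 𝓞 E) : E) = ∏ σ : E ≃ₐ[F] E, σ (x : E) := by
    show algebraMap (𝓞 E) E (∏ σ : E ≃ₐ[F] E, σ • x) = _
    rw [map_prod]
    rfl
  rw [h2, ← h1]
  rfl

/-- **SYMBOL-NORM**: `(N_{E/F} x / v)_p = ∑_{w | v} e(w|v) • (x / w)_p`. -/
theorem h38_symb_norm {p : ℕ} (hp : p.Prime) {ζ : 𝓞 F} (hζ : IsPrimitiveRoot ζ p)
    (v : HeightOneSpectrum (𝓞 F)) (hpv : (p : 𝓞 F) ∉ v.asIdeal) (x : 𝓞 E)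
    (hx : ∀ w : HeightOneSpectrum (𝓞 E), w.asIdeal.LiesOver v.asIdeal → x ∉ w.asIdeal)
    (y : 𝓞 F) (hy : (y : F) = Algebra.norm F (x : E)) :
    h38_symb p ζ v y =
      ∑ᶠ w : {w : HeightOneSpectrum (𝓞 E) // w.asIdeal.LiesOver v.asIdeal},
        (w.1.asIdeal.ramificationIdx (𝓞 F)) •
          h38_symb p (algebraMap (𝓞 F) (𝓞 E) ζ) w.1 x := by
  classical
  obtain ⟨w₀, hw₀⟩ := h38_exists_liesOver (E := E) v
  rw [h38_symb_norm_aux hp hζ v hpv w₀ x (fun σ => hx _ (h38_galPrime_liesOver σ v w₀)) y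
    (h38_algebraMap_norm_eq_prod x y hy), ← finsum_eq_sum_of_fintype]
  refine finsum_eq_of_bijective
    (fun c => (⟨h92_galPrime (Quotient.out c) w₀, h38_galPrime_liesOver _ v w₀⟩ :
      {w : HeightOneSpectrum (𝓞 E) // w.asIdeal.LiesOver v.asIdeal})) ⟨?_, ?_⟩ (fun c => ?_)
  · intro c c' h
    have h1 : h92_galPrime (Quotient.out c) w₀ = h92_galPrime (Quotient.out c') w₀ :=
      congrArg Subtype.val h
    have h2 : (Quotient.out c) • w₀.asIdeal = (Quotient.out c') • w₀.asIdeal :=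
      congrArg HeightOneSpectrum.asIdeal h1
    have h3 : (Quotient.out c)⁻¹ * Quotient.out c' ∈
        MulAction.stabilizer (E ≃ₐ[F] E) w₀.asIdeal := by
      rw [MulAction.mem_stabilizer_iff, mul_smul, ← h2, inv_smul_smul]
    have h4 := QuotientGroup.eq.2 h3
    rwa [QuotientGroup.out_eq', QuotientGroup.out_eq'] at h4
  · rintro ⟨w, hw⟩
    obtain ⟨g, hg⟩ := Algebra.IsInvariant.exists_smul_of_under_eq (𝓞 F) (𝓞 E) (E ≃ₐ[F] E)
      w₀.asIdeal w.asIdeal (by rw [← hw₀.over, ← hw.over])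
    obtain ⟨τ, hτ⟩ := QuotientGroup.mk_out_eq_mul
      (MulAction.stabilizer (E ≃ₐ[F] E) w₀.asIdeal) g
    refine ⟨QuotientGroup.mk g, ?_⟩
    apply Subtype.ext
    apply HeightOneSpectrum.ext
    show (Quotient.out (QuotientGroup.mk g :
      (E ≃ₐ[F] E) ⧸ MulAction.stabilizer (E ≃ₐ[F] E) w₀.asIdeal)) • w₀.asIdeal = w.asIdeal
    rw [hτ, mul_smul, hg]
    congr 1
    exact τ.2
  · have := h38_galPrime_liesOver (Quotient.out c) v w₀
    show w₀.asIdeal.ramificationIdx (𝓞 F) • _ =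
      (h92_galPrime (Quotient.out c) w₀).asIdeal.ramificationIdx (𝓞 F) • _
    rw [← Ideal.ramificationIdxIn_eq_ramificationIdx v.asIdeal w₀.asIdeal (E ≃ₐ[F] E),
      ← Ideal.ramificationIdxIn_eq_ramificationIdx v.asIdeal
        (h92_galPrime (Quotient.out c) w₀).asIdeal (E ≃ₐ[F] E)]

end Norm

end Fermat.Agent.S55
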