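import Mathlib
import Fermat.Agent.S55.h38_Symb
import Fermat.Agent.S55.h38_SymbNorm

/-!
# S55 / GLOB-UNORM (R1, piece UF): Frobenius elements, Kummer characters and the power residue
symbol

`E/K` a Galois extension of number fields, `W | w` primes.

* `h38_stab_mem_zpowers` : if `W` is unramified over `K`, every element of the decomposition group
  of `W` is a power of a Frobenius element at `W`;
* `h38_frob_root` : a Frobenius element `σ` at `W` acts on a `p`-th root `y` of `x ∈ 𝓞 K`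
  (`x ∉ w`, `p ∉ w`) by `σ y = ζ ^ (x / w)_p * y`;
* `h38_kumChar`, the Kummer character `Gal(E/K) → ZMod p` of `y`, with `h38_kumChar_frob`.
-/

set_option autoImplicit false

open NumberField IsDedekindDomain
open scoped Pointwise

namespace Fermat.Agent.S55

attribute [local instance] Ideal.Quotient.field

section Frob

variable {K E : Type*} [Field K] [NumberField K] [Field E] [NumberField E] [Algebra K E]
  [IsGalois K E]

/-- A Frobenius element generates the decomposition group of an unramified prime. -/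
theorem h38_stab_mem_zpowers (w : HeightOneSpectrum (𝓞 K)) (W : HeightOneSpectrum (𝓞 E))
    [W.asIdeal.LiesOver w.asIdeal] (hunr : W.asIdeal.ramificationIdx (𝓞 K) = 1)
    (σ : E ≃ₐ[K] E) (hσ : IsArithFrobAt (𝓞 K) σ W.asIdeal)
    (τ : E ≃ₐ[K] E) (hτ : h92_galPrime τ W = W) : τ ∈ Subgroup.zpowers σ := by
  classical
  have hσD : σ ∈ MulAction.stabilizer (E ≃ₐ[K] E) W.asIdeal := hσ.mem_stabilizer
  have hτD : τ ∈ MulAction.stabilizer (E ≃ₐ[K] E) W.asIdeal := by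
    rw [MulAction.mem_stabilizer_iff, ← h92_galPrime_asIdeal, hτ]
  have hker : Nat.card (Ideal.Quotient.stabilizerHom W.asIdeal w.asIdeal (E ≃ₐ[K] E)).ker = 1 := by
    rw [h38_card_ker_stabilizerHom, hunr]
  have hinj : Function.Injective
      (Ideal.Quotient.stabilizerHom W.asIdeal w.asIdeal (E ≃ₐ[K] E)) := by
    rw [← MonoidHom.ker_eq_bot_iff]
    exact Subgroup.eq_bot_of_card_eq _ hker
  have : Finite (𝓞 K ⧸ w.asIdeal) := Ideal.finiteQuotientOfFreeOfNeBot w.asIdeal w.ne_bot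
  have : Fintype (𝓞 K ⧸ w.asIdeal) := Fintype.ofFinite _
  have : Finite (𝓞 E ⧸ W.asIdeal) := Ideal.finiteQuotientOfFreeOfNeBot W.asIdeal W.ne_bot
  have hfrob : Ideal.Quotient.stabilizerHom W.asIdeal w.asIdeal (E ≃ₐ[K] E) ⟨σ, hσD⟩ =
      FiniteField.frobeniusAlgEquivOfAlgebraic (𝓞 K ⧸ w.asIdeal) (𝓞 E ⧸ W.asIdeal) := by
    ext x
    obtain ⟨x, rfl⟩ := Ideal.Quotient.mk_surjective x
    rw [FiniteField.coe_frobeniusAlgEquivOfAlgebraic]
    have h1 : Ideal.Quotient.stabilizerHom W.asIdeal w.asIdeal (E ≃ₐ[K] E) ⟨σ, hσD⟩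
        (Ideal.Quotient.mk W.asIdeal x) = Ideal.Quotient.mk W.asIdeal (σ • x) := rfl
    rw [h1]
    have h2 := hσ x
    rw [← Ideal.Quotient.eq] at h2
    have h3 : W.asIdeal.under (𝓞 K) = w.asIdeal := (Ideal.over_def W.asIdeal w.asIdeal).symm
    rw [h3, Nat.card_eq_fintype_card] at h2
    rw [map_pow] at h2
    exact h2
  obtain ⟨n, hn⟩ := (FiniteField.bijective_frobeniusAlgEquivOfAlgebraic_pow (𝓞 K ⧸ w.asIdeal)
    (𝓞 E ⧸ W.asIdeal)).2 (Ideal.Quotient.stabilizerHom W.asIdeal w.asIdeal (E ≃ₐ[K] E) ⟨τ, hτD⟩)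
  have h4 : Ideal.Quotient.stabilizerHom W.asIdeal w.asIdeal (E ≃ₐ[K] E) ⟨τ, hτD⟩ =
      Ideal.Quotient.stabilizerHom W.asIdeal w.asIdeal (E ≃ₐ[K] E) (⟨σ, hσD⟩ ^ n.1) := by
    rw [map_pow, hfrob]
    exact hn.symm
  have h5 := congrArg Subtype.val (hinj h4)
  have h6 : τ = σ ^ n.1 := h5
  rw [h6]
  exact Subgroup.pow_mem _ (Subgroup.mem_zpowers σ) _

end Frob

section Root

variable {K E : Type*} [Field K] [NumberField K] [Field E] [NumberField E] [Algebra K E]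
  [IsGalois K E]

omit [NumberField K] [NumberField E] [IsGalois K E] in
/-- `σ y / y` is a power of `ζ` when `y ^ p ∈ K`. -/
theorem h38_exists_kum {p : ℕ} (hp : p.Prime) {ζ : K} (hζ : IsPrimitiveRoot ζ p) {y : E}
    (hy0 : y ≠ 0) (hy : ∃ a : K, y ^ p = algebraMap K E a) (σ : E ≃ₐ[K] E) :
    ∃ k : ZMod p, σ y = algebraMap K E (ζ ^ k.val) * y := by
  have : NeZero p := ⟨hp.ne_zero⟩
  obtain ⟨a, ha⟩ := hy
  have h1 : (σ y / y) ^ p = 1 := by
    rw [div_pow, ← map_pow, ha, AlgEquiv.commutes, div_self]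
    rw [← ha]
    exact pow_ne_zero _ hy0
  have hζ' : IsPrimitiveRoot (algebraMap K E ζ) p :=
    hζ.map_of_injective (algebraMap K E).injective
  obtain ⟨i, hi, hi'⟩ := hζ'.eq_pow_of_pow_eq_one h1
  refine ⟨(i : ZMod p), ?_⟩
  rw [ZMod.val_natCast, Nat.mod_eq_of_lt hi, map_pow, hi', div_mul_cancel₀ _ hy0]

/-- The Kummer character of a `p`-th root `y` (junk value `0`). -/
noncomputable def h38_kumChar (p : ℕ) (ζ : K) (y : E) (σ : E ≃ₐ[K] E) : ZMod p :=
  open Classical in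
  if h : ∃ k : ZMod p, σ y = algebraMap K E (ζ ^ k.val) * y then h.choose else 0

omit [NumberField K] [NumberField E] [IsGalois K E] in
theorem h38_kumChar_spec {p : ℕ} (hp : p.Prime) {ζ : K} (hζ : IsPrimitiveRoot ζ p) {y : E}
    (hy0 : y ≠ 0) (hy : ∃ a : K, y ^ p = algebraMap K E a) (σ : E ≃ₐ[K] E) :
    σ y = algebraMap K E (ζ ^ (h38_kumChar p ζ y σ).val) * y := by
  have h := h38_exists_kum hp hζ hy0 hy σ
  unfold h38_kumChar
  rw [dif_pos h]
  exact h.choose_spec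

omit [NumberField K] [NumberField E] [IsGalois K E] in
theorem h38_kumChar_eq {p : ℕ} (hp : p.Prime) {ζ : K} (hζ : IsPrimitiveRoot ζ p) {y : E}
    (hy0 : y ≠ 0) (hy : ∃ a : K, y ^ p = algebraMap K E a) (σ : E ≃ₐ[K] E) (k : ZMod p)
    (h : σ y = algebraMap K E (ζ ^ k.val) * y) : h38_kumChar p ζ y σ = k := by
  have : NeZero p := ⟨hp.ne_zero⟩
  have h1 := h38_kumChar_spec hp hζ hy0 hy σ
  rw [h] at h1
  have h2 := mul_right_cancel₀ hy0 h1
  have h3 := (algebraMap K E).injective h2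
  have h4 := hζ.pow_inj (ZMod.val_lt k) (ZMod.val_lt _) h3
  exact (ZMod.val_injective p h4).symm

omit [NumberField K] [NumberField E] [IsGalois K E] in
theorem h38_kumChar_mul {p : ℕ} (hp : p.Prime) {ζ : K} (hζ : IsPrimitiveRoot ζ p) {y : E}
    (hy0 : y ≠ 0) (hy : ∃ a : K, y ^ p = algebraMap K E a) (σ τ : E ≃ₐ[K] E) :
    h38_kumChar p ζ y (σ * τ) = h38_kumChar p ζ y σ + h38_kumChar p ζ y τ := by
  have : NeZero p := ⟨hp.ne_zero⟩
  apply h38_kumChar_eq hp hζ hy0 hy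
  rw [AlgEquiv.mul_apply, h38_kumChar_spec hp hζ hy0 hy τ, map_mul, AlgEquiv.commutes,
    h38_kumChar_spec hp hζ hy0 hy σ, ← mul_assoc, ← map_mul, ← pow_add]
  congr 2
  rw [ZMod.val_add, add_comm]
  conv_lhs => rw [← Nat.mod_add_div ((h38_kumChar p ζ y σ).val + (h38_kumChar p ζ y τ).val) p,
    pow_add, pow_mul, hζ.pow_eq_one, one_pow, mul_one]

/-- The Kummer character as a homomorphism `Gal(E/K) → ZMod p`. -/
noncomputable def h38_kumHom {p : ℕ} (hp : p.Prime) {ζ : K} (hζ : IsPrimitiveRoot ζ p) {y : E}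
    (hy0 : y ≠ 0) (hy : ∃ a : K, y ^ p = algebraMap K E a) :
    (E ≃ₐ[K] E) →* Multiplicative (ZMod p) where
  toFun σ := Multiplicative.ofAdd (h38_kumChar p ζ y σ)
  map_one' := by
    have : NeZero p := ⟨hp.ne_zero⟩
    have h : h38_kumChar p ζ y (1 : E ≃ₐ[K] E) = 0 := by
      apply h38_kumChar_eq hp hζ hy0 hy
      rw [ZMod.val_zero, pow_zero, map_one, one_mul, AlgEquiv.one_apply]
    rw [h]
    rfl
  map_mul' σ τ := by
    rw [h38_kumChar_mul hp hζ hy0 hy, ofAdd_add]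

omit [NumberField K] [NumberField E] [IsGalois K E] in
theorem h38_kumHom_apply {p : ℕ} (hp : p.Prime) {ζ : K} (hζ : IsPrimitiveRoot ζ p) {y : E}
    (hy0 : y ≠ 0) (hy : ∃ a : K, y ^ p = algebraMap K E a) (σ : E ≃ₐ[K] E) :
    h38_kumHom hp hζ hy0 hy σ = Multiplicative.ofAdd (h38_kumChar p ζ y σ) := rfl

omit [NumberField K] [NumberField E] [IsGalois K E] in
/-- automorphisms fixing `y` are in the kernel of the Kummer character. -/
theorem h38_kumHom_eq_one_of_fix {p : ℕ} (hp : p.Prime) {ζ : K} (hζ : IsPrimitiveRoot ζ p)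
    {y : E} (hy0 : y ≠ 0) (hy : ∃ a : K, y ^ p = algebraMap K E a) (σ : E ≃ₐ[K] E)
    (hσ : σ y = y) : h38_kumHom hp hζ hy0 hy σ = 1 := by
  have : NeZero p := ⟨hp.ne_zero⟩
  have h : h38_kumChar p ζ y σ = 0 := by
    apply h38_kumChar_eq hp hζ hy0 hy
    rw [ZMod.val_zero, pow_zero, map_one, one_mul, hσ]
  rw [h38_kumHom_apply, h]
  rfl

/-- **Frobenius and the power residue symbol**: a Frobenius element at `W | w` multiplies a
`p`-th root `y` of `x ∈ 𝓞 K` (`x ∉ w`, `p ∉ w`) by `ζ ^ (x / w)_p`. -/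
theorem h38_frob_root {p : ℕ} (hp : p.Prime) {ζ : 𝓞 K} (hζ : IsPrimitiveRoot ζ p)
    (w : HeightOneSpectrum (𝓞 K)) (hpw : (p : 𝓞 K) ∉ w.asIdeal)
    (x : 𝓞 K) (hxw : x ∉ w.asIdeal) (y : E) (hy : y ^ p = algebraMap K E (x : K))
    (W : HeightOneSpectrum (𝓞 E)) [W.asIdeal.LiesOver w.asIdeal]
    (σ : E ≃ₐ[K] E) (hσ : IsArithFrobAt (𝓞 K) σ W.asIdeal) :
    σ y = algebraMap K E (((ζ : 𝓞 K) : K) ^ (h38_symb p ζ w x).val) * y := by
  have : NeZero p := ⟨hp.ne_zero⟩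
  have hζK : IsPrimitiveRoot ((ζ : 𝓞 K) : K) p :=
    hζ.map_of_injective (RingOfIntegers.coe_injective (K := K))
  have hx0 : x ≠ 0 := fun h => hxw (h ▸ w.asIdeal.zero_mem)
  have hy0 : y ≠ 0 := by
    rintro rfl
    rw [zero_pow hp.ne_zero] at hy
    have h1 : (x : K) = 0 := (algebraMap K E).injective (by rw [← hy, map_zero])
    exact hx0 (RingOfIntegers.coe_injective (by rw [map_zero]; exact h1))
  have hyK : ∃ a : K, y ^ p = algebraMap K E a := ⟨(x : K), hy⟩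
  obtain ⟨k, hk⟩ := h38_exists_kum hp hζK hy0 hyK σ
  suffices hks : k = h38_symb p ζ w x by rw [hk, hks]
  -- integrality
  have hyint : IsIntegral ℤ y := by
    have hx : IsIntegral ℤ (algebraMap K E (x : K)) := (x.2 : IsIntegral ℤ (x : K)).algebraMap
    rw [← hy] at hx
    exact hx.of_pow hp.pos
  set y' : 𝓞 E := ⟨y, hyint⟩ with hy'def
  have hy' : y' ^ p = algebraMap (𝓞 K) (𝓞 E) x := by
    apply RingOfIntegers.coe_injective
    rw [map_pow]
    exact hy
  have hyW : y' ∉ W.asIdeal := by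
    intro h
    apply hxw
    rw [← h38_algebraMap_mem_iff w W, ← hy']
    exact W.asIdeal.pow_mem_of_mem h p hp.pos
  -- the action of `σ` on `y'`
  have hσy : σ • y' = algebraMap (𝓞 K) (𝓞 E) (ζ ^ k.val) * y' := by
    apply RingOfIntegers.coe_injective
    rw [map_mul]
    exact hk
  -- Frobenius congruence
  have h2 := hσ y'
  rw [← Ideal.Quotient.eq] at h2
  have h3 : W.asIdeal.under (𝓞 K) = w.asIdeal := (Ideal.over_def W.asIdeal w.asIdeal).symm
  rw [h3, h38_card_quot] at h2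
  have h4 : Ideal.Quotient.mk W.asIdeal (σ • y') =
      Ideal.Quotient.mk W.asIdeal (y' ^ Ideal.absNorm w.asIdeal) := h2
  obtain ⟨m, hm⟩ := h38_dvd_absNorm_sub_one hp hζ w hpw
  have hN : Ideal.absNorm w.asIdeal = 1 + p * m := by
    have := h38_absNorm_sub_one_pos w
    omega
  have hm' : (Ideal.absNorm w.asIdeal - 1) / p = m := by
    rw [hm, Nat.mul_div_cancel_left _ hp.pos]
  have hspec := h38_symb_spec hp hζ w hpw x hxw
  rw [hm', ← map_pow, ← map_pow, Ideal.Quotient.eq, ← h38_algebraMap_mem_iff w W, map_sub,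
    ← Ideal.Quotient.eq] at hspec
  rw [hσy, hN, pow_add, pow_one, pow_mul, hy'] at h4
  simp only [map_mul, map_pow] at h4 hspec
  rw [hspec, mul_comm] at h4
  have hyne : Ideal.Quotient.mk W.asIdeal y' ≠ 0 := by
    rwa [Ne, Ideal.Quotient.eq_zero_iff_mem]
  have h5 := mul_left_cancel₀ hyne h4
  have hζE : IsPrimitiveRoot (algebraMap (𝓞 K) (𝓞 E) ζ) p :=
    hζ.map_of_injective (RingOfIntegers.algebraMap.injective K E)
  have hpW : (p : 𝓞 E) ∉ W.asIdeal := by
    intro h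
    apply hpw
    rw [← h38_algebraMap_mem_iff w W, map_natCast]
    exact h
  have hprim := h38_mk_zeta_primitive hp hζE W hpW
  have h6 := hprim.pow_inj (ZMod.val_lt k) (ZMod.val_lt _) h5
  exact ZMod.val_injective p h6

/-- The Kummer character of a Frobenius element is the power residue symbol. -/
theorem h38_kumHom_frob {p : ℕ} (hp : p.Prime) {ζ : 𝓞 K} (hζ : IsPrimitiveRoot ζ p)
    (hζK : IsPrimitiveRoot ((ζ : 𝓞 K) : K) p)
    (w : HeightOneSpectrum (𝓞 K)) (hpw : (p : 𝓞 K) ∉ w.asIdeal)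
    (x : 𝓞 K) (hxw : x ∉ w.asIdeal) (y : E) (hy : y ^ p = algebraMap K E (x : K))
    (hy0 : y ≠ 0) (hyK : ∃ a : K, y ^ p = algebraMap K E a)
    (W : HeightOneSpectrum (𝓞 E)) [W.asIdeal.LiesOver w.asIdeal]
    (σ : E ≃ₐ[K] E) (hσ : IsArithFrobAt (𝓞 K) σ W.asIdeal) :
    h38_kumHom hp hζK hy0 hyK σ = Multiplicative.ofAdd (h38_symb p ζ w x) := by
  rw [h38_kumHom_apply]
  congr 1
  exact h38_kumChar_eq hp hζK hy0 hyK σ _ (h38_frob_root hp hζ w hpw x hxw y hy W σ hσ)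

end Root

end Fermat.Agent.S55
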