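import Fermat.Agent.S55.h18_U1PLocal
import Fermat.Agent.S55.h81_GlobDeg

/-!
# S55 / GLOB-UNORM (R1-E) (helper57): the value group `V = Additive (1 + p ℤ_p)` of the
reciprocity statement

For `p` odd, `V := Additive (h18_U1 p)` and `e₀ := h57_e0 p = ofMul (1 + p)`:
* `h57_U1_hV` : `∀ k x, ∃ (m : ℤ) (y : V), x = m • e₀ + p ^ k • y` (`U1 = ⟨1 + p⟩ · U1^(p^k)`);
* `h57_U1_hVloc` : multiplication by `m` prime to `p` is bijective on `V`;
* `h57_U1_tf` : `V` has no `p`-torsion.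
These are the three `V`-hypotheses of `h95_recip_cfd`.
-/

set_option autoImplicit false

namespace Fermat.Agent.S55

/-- In a finite cyclic group, an element killed by `N` lies in the subgroup generated by any
element of order `N`. -/
theorem h57_mem_zpowers_of_pow_eq_one {G : Type*} [CommGroup G] [Finite G] [IsCyclic G]
    (g x : G) (N : ℕ) (hN : 0 < N) (hg : orderOf g = N) (hx : x ^ N = 1) :
    x ∈ Subgroup.zpowers g := by
  classical
  have : Fintype G := Fintype.ofFinite G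
  have hle : Subgroup.zpowers g ≤ (powMonoidHom N : G →* G).ker := by
    rw [Subgroup.zpowers_le, MonoidHom.mem_ker, powMonoidHom_apply, ← hg]
    exact pow_orderOf_eq_one g
  have hcard : Nat.card (powMonoidHom N : G →* G).ker ≤ Nat.card (Subgroup.zpowers g) := by
    rw [Nat.card_zpowers, hg]
    have h1 := IsCyclic.card_pow_eq_one_le (α := G) hN
    have h2 : Nat.card (powMonoidHom N : G →* G).ker
        = (Finset.univ.filter fun a : G => a ^ N = 1).card := by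
      rw [Nat.card_eq_fintype_card, ← Fintype.card_subtype]
      exact Fintype.card_congr (Equiv.subtypeEquivRight fun a => by
        rw [MonoidHom.mem_ker, powMonoidHom_apply])
    rw [h2]
    exact h1
  have heq := Subgroup.eq_of_le_of_card_ge hle hcard
  rw [heq, MonoidHom.mem_ker, powMonoidHom_apply]
  exact hx

section U1

variable (p : ℕ) [Fact p.Prime]

/-- The principal unit `1 + p`. -/
noncomputable def h57_onePlusP : h18_U1 p :=
  ⟨(h18_isUnit_one_add_p_mul p 1).unit, by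
    rw [h18_mem_U1_iff, IsUnit.unit_spec]
    simp⟩

theorem h57_onePlusP_coe :
    (((h57_onePlusP p : h18_U1 p) : ℤ_[p]ˣ) : ℤ_[p]) = 1 + (p : ℤ_[p]) := by
  show ((h18_isUnit_one_add_p_mul p 1).unit : ℤ_[p]) = _
  rw [IsUnit.unit_spec, mul_one]

/-- `e₀ = 1 + p`, additively. -/
noncomputable def h57_e0 : Additive (h18_U1 p) := Additive.ofMul (h57_onePlusP p)

/-- **(R1-E), `hV`**: `1 + p ℤ_p = ⟨1 + p⟩ · (1 + p ℤ_p)^(p^k)` for `p` odd. -/
theorem h57_U1_hV (hp2 : p ≠ 2) (k : ℕ) (x : Additive (h18_U1 p)) :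
    ∃ (m : ℤ) (y : Additive (h18_U1 p)), x = m • h57_e0 p + p ^ k • y := by
  classical
  have hpp : p.Prime := Fact.out
  have : NeZero (p ^ (k + 1)) := ⟨pow_ne_zero _ hpp.ne_zero⟩
  obtain ⟨red, hred⟩ : ∃ red : ℤ_[p]ˣ →* (ZMod (p ^ (k + 1)))ˣ,
      ∀ a : ℤ_[p]ˣ, ((red a : (ZMod (p ^ (k + 1)))ˣ) : ZMod (p ^ (k + 1)))
        = PadicInt.toZModPow (k + 1) (a : ℤ_[p]) :=
    ⟨Units.map (PadicInt.toZModPow (k + 1) : ℤ_[p] →+* ZMod (p ^ (k + 1))).toMonoidHom,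
      fun _ => rfl⟩
  obtain ⟨u, hu⟩ : ∃ u : ℤ_[p]ˣ, u = ((Additive.toMul x : h18_U1 p) : ℤ_[p]ˣ) := ⟨_, rfl⟩
  have hu1 : (p : ℤ_[p]) ∣ (u : ℤ_[p]) - 1 := by
    rw [hu]
    exact (Additive.toMul x).2
  have hgen : red ((h57_onePlusP p : h18_U1 p) : ℤ_[p]ˣ) = h81_gen p k := by
    apply Units.ext
    rw [h81_gen_coe, hred, h57_onePlusP_coe, map_add, map_one, map_natCast]
  have hker : ∀ a : ℤ_[p], PadicInt.toZModPow (k + 1) a = 1 ↔ (p : ℤ_[p]) ^ (k + 1) ∣ a - 1 := by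
    intro a
    rw [← Ideal.mem_span_singleton, ← PadicInt.ker_toZModPow, RingHom.mem_ker, map_sub, map_one,
      sub_eq_zero]
  have hpow : red u ^ (p ^ k) = 1 := by
    apply Units.ext
    rw [Units.val_pow_eq_pow_val, Units.val_one, hred, ← map_pow, hker]
    exact h18_pow_p_pow_sub_one_dvd p k (u : ℤ_[p]) hu1
  have hcyc : IsCyclic (ZMod (p ^ (k + 1)))ˣ :=
    ZMod.isCyclic_units_of_prime_pow p hpp hp2 (k + 1)
  have hmem := h57_mem_zpowers_of_pow_eq_one (h81_gen p k) (red u) (p ^ k) (pow_pos hpp.pos k)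
    (h81_orderOf_gen p hp2 k) hpow
  obtain ⟨m, hm⟩ := Subgroup.mem_zpowers_iff.mp hmem
  obtain ⟨v, hv⟩ : ∃ v : ℤ_[p]ˣ,
      v = u * (((h57_onePlusP p : h18_U1 p) : ℤ_[p]ˣ) ^ m)⁻¹ := ⟨_, rfl⟩
  have hredv : red v = 1 := by
    rw [hv, map_mul, map_inv, map_zpow, hgen, hm, mul_inv_cancel]
  have hdvd : (p : ℤ_[p]) ^ (k + 1) ∣ (v : ℤ_[p]) - 1 := by
    rw [← hker, ← hred, hredv, Units.val_one]
  obtain ⟨y, hy, hyv⟩ := (h18_U1_pow_iff p hp2 k v).mpr hdvd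
  refine ⟨m, Additive.ofMul ⟨y, hy⟩, ?_⟩
  apply Additive.toMul.injective
  apply Subtype.ext
  show ((Additive.toMul x : h18_U1 p) : ℤ_[p]ˣ)
    = (((h57_onePlusP p) ^ m * (⟨y, hy⟩ : h18_U1 p) ^ (p ^ k) : h18_U1 p) : ℤ_[p]ˣ)
  rw [Subgroup.coe_mul, Subgroup.coe_zpow, Subgroup.coe_pow]
  show _ = _ ^ m * y ^ (p ^ k)
  rw [hyv, hv, ← hu, mul_comm u, ← mul_assoc, mul_inv_cancel, one_mul]

/-- **(R1-E), `hVloc`**: `Additive (1 + p ℤ_p)` is `p`-local. -/
theorem h57_U1_hVloc (hp2 : p ≠ 2) (m : ℕ) (hm : m.Coprime p) :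
    Function.Bijective (fun x : Additive (h18_U1 p) => m • x) :=
  h18_U1_isPLocal p hp2 m hm

/-- **(R1-E), `tf`**: `Additive (1 + p ℤ_p)` has no `p`-torsion. -/
theorem h57_U1_tf (hp2 : p ≠ 2) (x : Additive (h18_U1 p)) (hx : p • x = 0) : x = 0 :=
  h18_U1_add_torsionFree p hp2 p (Fact.out : p.Prime).ne_zero x hx

end U1

end Fermat.Agent.S55
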