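import Mathlib
import Fermat.Agent.S55.h90_GlobCFLevel

/-!
# S55 GLOB-CF data at a level, generic-`p` and level forms (input of GLOB-RECIP / RC-F)

* `h90_glob_cfdata'` : the `h30_CFData` record of `h90_glob_cfdata` for a generic odd prime `p`
  with `⟨p, _⟩ ∈ S` (so that `p` is a variable, not a coercion of `P : ↥S`);
* `h90_level_cfdata` : the same at a level `E : IntermediateField ℚ Qbar` (`h25_IsLevel S E`)
  containing a primitive `p^(n+1)`-th root of unity, bundled with the class module property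
  `h90_level_classModule`.
-/

set_option autoImplicit false

open IsDedekindDomain NumberField ExtCitation

universe u

namespace Fermat.Agent.S55

local notation "Qb" => AlgebraicClosure ℚ

/-- `h90_glob_cfdata` for a generic odd prime `p` with `⟨p, _⟩ ∈ S`. -/
theorem h90_glob_cfdata' (p : ℕ) [hp : Fact p.Prime] (hp2 : p ≠ 2) (S : Finset Nat.Primes)
    (hpS : (⟨p, hp.out⟩ : Nat.Primes) ∈ S)
    (E : Type u) [Field E] [NumberField E] [IsGalois ℚ E] (hur : h25_UnramOutside ℚ E S)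
    (n : ℕ) (ζ : E) (hζ : IsPrimitiveRoot ζ (p ^ (n + 1))) :
    ∃ (deg : (E ≃ₐ[ℚ] E) →* Multiplicative (ZMod (p ^ n)))
      (w : h2_PL p (Additive (h25_C E S)) →+ Additive (h18_U1 p)),
      h30_CFData p deg w ∧
      (∀ c : Additive (h25_C E S),
        w (h2_PL.j c) = h25_wA E S (⟨⟨p, hp.out⟩, hpS⟩ : ↥S) c) ∧
      (∀ (σ : E ≃ₐ[ℚ] E) (t : ℕ), σ ζ = ζ ^ t →
        (t : ZMod (p ^ (n + 1))) ^ (p - 1) =
          (1 + (p : ZMod (p ^ (n + 1)))) ^ (Multiplicative.toAdd (deg σ)).val) :=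
  h90_glob_cfdata S ⟨⟨p, hp.out⟩, hpS⟩ hp2 E hur n ζ hζ

/-- **GLOB-CF at a level, data + class module**: for a level `E ⊆ Qbar` (`h25_IsLevel S E`)
containing a primitive `p^(n+1)`-th root of unity, `p` odd, `pPrime p ∈ S`: the group
`Gal(E/ℚ)` acting on `C_E ⊗ ℤ_(p)` is a `p`-class module and carries a `h30_CFData` record
`(deg, w)` with `w ∘ j = h25_wA` and the cyclotomic degree specification. -/
theorem h90_level_cfdata (p : ℕ) [hp : Fact p.Prime] (hp2 : p ≠ 2) (S : Finset Nat.Primes)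
    (hpS : pPrime p ∈ S) (E : IntermediateField ℚ Qb) [NumberField ↥E] (hE : h25_IsLevel S E)
    (n : ℕ) (ζ : ↥E) (hζ : IsPrimitiveRoot ζ (p ^ (n + 1))) :
    IsPClassModule p (↥E ≃ₐ[ℚ] ↥E) (h2_PL p (Additive (h25_C ↥E S))) ∧
    ∃ (deg : (↥E ≃ₐ[ℚ] ↥E) →* Multiplicative (ZMod (p ^ n)))
      (w : h2_PL p (Additive (h25_C ↥E S)) →+ Additive (h18_U1 p)),
      h30_CFData p deg w ∧
      (∀ c : Additive (h25_C ↥E S),
        w (h2_PL.j c) = h25_wA ↥E S (⟨pPrime p, hpS⟩ : ↥S) c) ∧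
      (∀ (σ : ↥E ≃ₐ[ℚ] ↥E) (t : ℕ), σ ζ = ζ ^ t →
        (t : ZMod (p ^ (n + 1))) ^ (p - 1) =
          (1 + (p : ZMod (p ^ (n + 1)))) ^ (Multiplicative.toAdd (deg σ)).val) := by
  have : IsGalois ℚ ↥E := hE.2
  exact ⟨h90_level_classModule p hp2 S hpS E hE,
    h90_glob_cfdata' p hp2 S hpS ↥E (h37_unramOutside_of_level S E hE) n ζ hζ⟩

end Fermat.Agent.S55
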