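/-
S55 / GLOB-UNORM (R1-B): Frobenius elements in an abelian extension of number fields.

`K ⊆ E` number fields (as types), `E/K` Galois with commutative Galois group, `w` a prime of `K`.
* `h98_exists_frob`      : one `σ ∈ Gal(E/K)` with `σ a ≡ a ^ N(w) mod W` for ALL primes `W ∣ w`;
* `h98_frob_root`        : such a `σ` raises roots of unity of order prime to `w` to the `N(w)`;
* `h98_stabilizer_eq_zpowers` : if `W ∣ w` is unramified, its decomposition group is `⟨σ⟩`;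
* `h98_recip_frob`       : the three statements packaged.
-/
import Mathlib

set_option autoImplicit false

namespace Fermat.Agent.S55

open NumberField IsDedekindDomain
open scoped Pointwise

variable {K E : Type*} [Field K] [NumberField K] [Field E] [NumberField E] [Algebra K E]
  [IsGalois K E]

/-- The residue field of a prime of `K` has `N(w)` elements. -/
theorem h98_card_quot (w : HeightOneSpectrum (𝓞 K)) :
    Nat.card (𝓞 K ⧸ w.asIdeal) = Ideal.absNorm w.asIdeal := by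
  rw [Ideal.absNorm_apply, Submodule.cardQuot_apply]

/-- Frobenius in the Mathlib sense, rewritten with `N(w)`. -/
theorem h98_isArithFrobAt_iff (w : HeightOneSpectrum (𝓞 K)) (σ : E ≃ₐ[K] E) (W : Ideal (𝓞 E))
    [W.LiesOver w.asIdeal] :
    IsArithFrobAt (𝓞 K) σ W ↔ ∀ a : 𝓞 E, σ • a - a ^ Ideal.absNorm w.asIdeal ∈ W := by
  have h1 : W.under (𝓞 K) = w.asIdeal := (Ideal.over_def W w.asIdeal).symm
  unfold IsArithFrobAt AlgHom.IsArithFrobAt
  rw [h1, h98_card_quot]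
  rfl

/-- **(B1)** In an abelian extension there is ONE Frobenius element for all primes above `w`. -/
theorem h98_exists_frob (hcomm : ∀ σ τ : E ≃ₐ[K] E, σ * τ = τ * σ)
    (w : HeightOneSpectrum (𝓞 K)) :
    ∃ σ : E ≃ₐ[K] E, ∀ W : Ideal (𝓞 E), W.IsPrime → W.LiesOver w.asIdeal →
      ∀ a : 𝓞 E, σ • a - a ^ Ideal.absNorm w.asIdeal ∈ W := by
  have hwmax : w.asIdeal.IsMaximal := w.isMaximal
  obtain ⟨W₀, hW₀max, hW₀over⟩ :=
    Ideal.exists_maximal_ideal_liesOver_of_isIntegral (S := 𝓞 E) w.asIdeal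
  have hW₀prime : W₀.IsPrime := hW₀max.isPrime
  have hW₀0 : W₀ ≠ ⊥ := Ideal.ne_bot_of_liesOver_of_ne_bot w.ne_bot W₀
  have hfin : Finite (𝓞 E ⧸ W₀) := Ideal.finiteQuotientOfFreeOfNeBot W₀ hW₀0
  obtain ⟨σ, hσ⟩ := IsArithFrobAt.exists_of_isInvariant (𝓞 K) (E ≃ₐ[K] E) W₀
  refine ⟨σ, fun W hW hWover => ?_⟩
  obtain ⟨τ, hτ⟩ := Algebra.IsInvariant.exists_smul_of_under_eq (𝓞 K) (𝓞 E) (E ≃ₐ[K] E) W₀ W
    ((Ideal.over_def W₀ w.asIdeal).symm.trans (Ideal.over_def W w.asIdeal))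
  have h2 := hσ.conj τ
  have h3 : τ * σ * τ⁻¹ = σ := by rw [hcomm τ σ, mul_inv_cancel_right]
  rw [h3, ← hτ] at h2
  exact (h98_isArithFrobAt_iff w σ W).1 h2

/-- **(B2)** A Frobenius at `W ∣ w` raises roots of unity of order prime to `w` to the power
`N(w)`. -/
theorem h98_frob_root (w : HeightOneSpectrum (𝓞 K)) (σ : E ≃ₐ[K] E) (W : Ideal (𝓞 E))
    [W.IsPrime] [W.LiesOver w.asIdeal]
    (hσ : ∀ a : 𝓞 E, σ • a - a ^ Ideal.absNorm w.asIdeal ∈ W)
    (ξ : E) (m : ℕ) (hξ : ξ ^ m = 1) (hm : (m : 𝓞 K) ∉ w.asIdeal) :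
    σ ξ = ξ ^ Ideal.absNorm w.asIdeal := by
  have hm0 : m ≠ 0 := by
    rintro rfl
    exact hm (by simp)
  have hξint : IsIntegral ℤ ξ := by
    apply IsIntegral.of_pow (Nat.pos_of_ne_zero hm0)
    rw [hξ]
    exact isIntegral_one
  let ξ' : 𝓞 E := ⟨ξ, hξint⟩
  have hξ' : ξ' ^ m = 1 := by
    apply RingOfIntegers.ext
    push_cast
    exact hξ
  have hmW : (m : 𝓞 E) ∉ W := by
    intro h
    apply hm
    have h1 : W.under (𝓞 K) = w.asIdeal := (Ideal.over_def W w.asIdeal).symm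
    rw [← h1, Ideal.mem_comap]
    simpa using h
  have hF : IsArithFrobAt (𝓞 K) σ W := (h98_isArithFrobAt_iff w σ W).2 hσ
  have h := AlgHom.IsArithFrobAt.apply_of_pow_eq_one hF hξ' hmW
  have h1 : W.under (𝓞 K) = w.asIdeal := (Ideal.over_def W w.asIdeal).symm
  rw [h1, h98_card_quot] at h
  have h2 : ((σ • ξ' : 𝓞 E) : E) = ((ξ' ^ Ideal.absNorm w.asIdeal : 𝓞 E) : E) :=
    congrArg (fun x : 𝓞 E => (x : E)) h
  push_cast at h2
  exact h2

/-- **(B3)** The decomposition group of an unramified prime `W ∣ w` is generated by the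
Frobenius. -/
theorem h98_stabilizer_eq_zpowers (w : HeightOneSpectrum (𝓞 K)) (σ : E ≃ₐ[K] E)
    (W : Ideal (𝓞 E)) [W.IsPrime] [W.LiesOver w.asIdeal]
    (hσ : ∀ a : 𝓞 E, σ • a - a ^ Ideal.absNorm w.asIdeal ∈ W)
    (hur : W.ramificationIdx (𝓞 K) = 1) :
    MulAction.stabilizer (E ≃ₐ[K] E) W = Subgroup.zpowers σ := by
  classical
  have hwprime : w.asIdeal.IsPrime := w.isPrime
  have hwmax : w.asIdeal.IsMaximal := w.isMaximal
  have hW0 : W ≠ ⊥ := Ideal.ne_bot_of_liesOver_of_ne_bot w.ne_bot W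
  have hWmax : W.IsMaximal := Ideal.IsPrime.isMaximal inferInstance hW0
  have hfinW : Finite (𝓞 E ⧸ W) := Ideal.finiteQuotientOfFreeOfNeBot W hW0
  have hF : IsArithFrobAt (𝓞 K) σ W := (h98_isArithFrobAt_iff w σ W).2 hσ
  have hmem : σ ∈ MulAction.stabilizer (E ≃ₐ[K] E) W := hF.mem_stabilizer
  have hle : Subgroup.zpowers σ ≤ MulAction.stabilizer (E ≃ₐ[K] E) W := by
    rw [Subgroup.zpowers_le]
    exact hmem
  symm
  apply Subgroup.eq_of_le_of_card_ge hle
  -- the cardinality of the decomposition group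
  have hperf : PerfectField w.asIdeal.ResidueField := by
    have : Finite (𝓞 K ⧸ w.asIdeal) := Ideal.finiteQuotientOfFreeOfNeBot _ w.ne_bot
    have : Finite w.asIdeal.ResidueField := inferInstance
    infer_instance
  have hcard : Nat.card (MulAction.stabilizer (E ≃ₐ[K] E) W) = W.inertiaDeg (𝓞 K) := by
    rw [Ideal.card_stabilizer_eq w.asIdeal W,
      Ideal.ramificationIdxIn_eq_ramificationIdx w.asIdeal W (E ≃ₐ[K] E), hur, one_mul,
      Ideal.inertiaDegIn_eq_inertiaDeg w.asIdeal W (E ≃ₐ[K] E)]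
  rw [hcard, Nat.card_zpowers]
  -- the order of the Frobenius
  set q := Ideal.absNorm w.asIdeal with hq
  set f := W.inertiaDeg (𝓞 K) with hf
  set n := orderOf σ with hn
  have hnpos : 0 < n := orderOf_pos σ
  have hq1 : 1 < q := by
    have h1 : q ≠ 0 := by
      rw [hq, Ne, Ideal.absNorm_eq_zero_iff]
      exact w.ne_bot
    have h2 : q ≠ 1 := by
      rw [hq, Ne, Ideal.absNorm_eq_one_iff]
      exact hwprime.ne_top
    omega
  have hqf : q ^ f = Ideal.absNorm W := Ideal.absNorm_pow_inertiaDeg w.asIdeal W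
  -- `σ ^ i • a ≡ a ^ (q ^ i)`
  have hpow : ∀ (i : ℕ) (a : 𝓞 E), (σ ^ i) • a - a ^ (q ^ i) ∈ W := by
    intro i
    induction i with
    | zero => intro a; simp
    | succ i ih =>
      intro a
      have h1 := ih (σ • a)
      have h2 := hσ a
      have h3 : (σ • a) ^ (q ^ i) - (a ^ q) ^ (q ^ i) ∈ W := by
        have := sub_dvd_pow_sub_pow (σ • a) (a ^ q) (q ^ i)
        exact Ideal.mem_of_dvd W this h2
      have h4 : σ ^ (i + 1) • a = σ ^ i • σ • a := by rw [pow_succ, mul_smul]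
      rw [h4, pow_succ, pow_mul']
      have := add_mem h1 h3
      rwa [sub_add_sub_cancel] at this
  -- every element of the residue field is a root of `X ^ (q ^ n) - X`
  have hroot : ∀ x : 𝓞 E ⧸ W, x ^ (q ^ n) = x := by
    intro x
    obtain ⟨a, rfl⟩ := Ideal.Quotient.mk_surjective x
    have h1 := hpow n a
    rw [hn, pow_orderOf_eq_one, one_smul] at h1
    rw [← map_pow, eq_comm, Ideal.Quotient.eq]
    exact h1
  have hdom : IsDomain (𝓞 E ⧸ W) := Ideal.Quotient.isDomain W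
  have hcardW : Nat.card (𝓞 E ⧸ W) = q ^ f := by
    rw [hqf, Ideal.absNorm_apply, Submodule.cardQuot_apply]
  have hqn1 : 1 < q ^ n := Nat.one_lt_pow hnpos.ne' hq1
  have hle2 : Nat.card (𝓞 E ⧸ W) ≤ q ^ n := by
    have hdeg : (Polynomial.X ^ (q ^ n) - Polynomial.X : Polynomial (𝓞 E ⧸ W)).natDegree
        = q ^ n := by
      rw [Polynomial.natDegree_sub_eq_left_of_natDegree_lt, Polynomial.natDegree_X_pow]
      rw [Polynomial.natDegree_X_pow, Polynomial.natDegree_X]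
      exact hqn1
    have hP : (Polynomial.X ^ (q ^ n) - Polynomial.X : Polynomial (𝓞 E ⧸ W)) ≠ 0 := by
      intro h0
      rw [h0, Polynomial.natDegree_zero] at hdeg
      omega
    letI : Fintype (𝓞 E ⧸ W) := Fintype.ofFinite _
    have h1 : (Finset.univ : Finset (𝓞 E ⧸ W)).card
        ≤ (Polynomial.X ^ (q ^ n) - Polynomial.X : Polynomial (𝓞 E ⧸ W)).roots.toFinset.card := by
      apply Finset.card_le_card
      intro x _
      rw [Multiset.mem_toFinset, Polynomial.mem_roots hP, Polynomial.IsRoot.def]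
      simp [hroot x]
    calc Nat.card (𝓞 E ⧸ W) = (Finset.univ : Finset (𝓞 E ⧸ W)).card := by
          rw [Nat.card_eq_fintype_card]; rfl
      _ ≤ _ := h1
      _ ≤ Multiset.card (Polynomial.X ^ (q ^ n) - Polynomial.X : Polynomial (𝓞 E ⧸ W)).roots :=
        Multiset.toFinset_card_le _
      _ ≤ _ := Polynomial.card_roots' _
      _ = q ^ n := hdeg
  rw [hcardW] at hle2
  exact (Nat.pow_le_pow_iff_right hq1).1 hle2

/-- **(R1-B), packaged.** `E/K` abelian, `w` a prime of `K` unramified in `E`: there is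
`σ ∈ Gal(E/K)` which is a Frobenius at every prime above `w`, raises roots of unity of order
prime to `w` to the power `N(w)`, and generates the decomposition group of every prime above
`w`. -/
theorem h98_recip_frob (hcomm : ∀ σ τ : E ≃ₐ[K] E, σ * τ = τ * σ)
    (w : HeightOneSpectrum (𝓞 K))
    (hur : ∀ W : Ideal (𝓞 E), W.IsPrime → W.LiesOver w.asIdeal → W.ramificationIdx (𝓞 K) = 1) :
    ∃ σ : E ≃ₐ[K] E,
      (∀ W : Ideal (𝓞 E), W.IsPrime → W.LiesOver w.asIdeal →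
        ∀ a : 𝓞 E, σ • a - a ^ Ideal.absNorm w.asIdeal ∈ W) ∧
      (∀ (ξ : E) (m : ℕ), ξ ^ m = 1 → (m : 𝓞 K) ∉ w.asIdeal →
        σ ξ = ξ ^ Ideal.absNorm w.asIdeal) ∧
      (∀ W : Ideal (𝓞 E), W.IsPrime → W.LiesOver w.asIdeal →
        MulAction.stabilizer (E ≃ₐ[K] E) W = Subgroup.zpowers σ) := by
  obtain ⟨σ, hσ⟩ := h98_exists_frob hcomm w
  refine ⟨σ, hσ, fun ξ m hξ hm => ?_, fun W hW hWo =>
    h98_stabilizer_eq_zpowers w σ W (hσ W hW hWo) (hur W hW hWo)⟩
  have hwmax : w.asIdeal.IsMaximal := w.isMaximal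
  obtain ⟨W₀, hW₀max, hW₀over⟩ :=
    Ideal.exists_maximal_ideal_liesOver_of_isIntegral (S := 𝓞 E) w.asIdeal
  have hW₀prime : W₀.IsPrime := hW₀max.isPrime
  exact h98_frob_root w σ W₀ (hσ W₀ hW₀prime hW₀over) ξ m hξ hm

/-- There is a prime of `E` above every prime of `K`. -/
theorem h98_exists_prime_over (w : HeightOneSpectrum (𝓞 K)) :
    ∃ W : HeightOneSpectrum (𝓞 E), W.asIdeal.LiesOver w.asIdeal := by
  have hwmax : w.asIdeal.IsMaximal := w.isMaximal
  obtain ⟨W₀, hW₀max, hW₀over⟩ :=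
    Ideal.exists_maximal_ideal_liesOver_of_isIntegral (S := 𝓞 E) w.asIdeal
  exact ⟨⟨W₀, hW₀max.isPrime, Ideal.ne_bot_of_liesOver_of_ne_bot w.ne_bot W₀⟩, hW₀over⟩

/-- A Frobenius element at ONE prime `W ∣ w` (no commutativity needed). -/
theorem h98_exists_frob_at (w : HeightOneSpectrum (𝓞 K)) (W : Ideal (𝓞 E)) [W.IsPrime]
    [W.LiesOver w.asIdeal] :
    ∃ σ : E ≃ₐ[K] E, ∀ a : 𝓞 E, σ • a - a ^ Ideal.absNorm w.asIdeal ∈ W := by
  have hW0 : W ≠ ⊥ := Ideal.ne_bot_of_liesOver_of_ne_bot w.ne_bot W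
  have hfin : Finite (𝓞 E ⧸ W) := Ideal.finiteQuotientOfFreeOfNeBot W hW0
  obtain ⟨σ, hσ⟩ := IsArithFrobAt.exists_of_isInvariant (𝓞 K) (E ≃ₐ[K] E) W
  exact ⟨σ, (h98_isArithFrobAt_iff w σ W).1 hσ⟩

/-- **(R1-B) at one prime, no commutativity.** `W ∣ w` unramified: there is `σ ∈ Gal(E/K)`
which is a Frobenius at `W`, raises roots of unity of order prime to `w` to the power `N(w)`,
and generates the decomposition group of `W`. -/
theorem h98_recip_frob_at (w : HeightOneSpectrum (𝓞 K)) (W : Ideal (𝓞 E)) [W.IsPrime]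
    [W.LiesOver w.asIdeal] (hur : W.ramificationIdx (𝓞 K) = 1) :
    ∃ σ : E ≃ₐ[K] E,
      (∀ a : 𝓞 E, σ • a - a ^ Ideal.absNorm w.asIdeal ∈ W) ∧
      (∀ (ξ : E) (m : ℕ), ξ ^ m = 1 → (m : 𝓞 K) ∉ w.asIdeal →
        σ ξ = ξ ^ Ideal.absNorm w.asIdeal) ∧
      MulAction.stabilizer (E ≃ₐ[K] E) W = Subgroup.zpowers σ := by
  obtain ⟨σ, hσ⟩ := h98_exists_frob_at w W
  exact ⟨σ, hσ, fun ξ m hξ hm => h98_frob_root w σ W hσ ξ m hξ hm,
    h98_stabilizer_eq_zpowers w σ W hσ hur⟩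

end Fermat.Agent.S55
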