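/-
S55 / GLOB-UNORM (UF, SYMB-FROB): the Kummer character of a Frobenius element is the power
residue symbol.

`K ⊆ E` number fields (as types), `ζ ∈ 𝓞 K` a primitive `p`-th root of unity, `w` a prime of `K`
prime to `p`, `x ∈ 𝓞 K`, `x ∉ w`, `β ∈ E` with `β ^ p = x`, and `σ ∈ Aut(E/K)` with
`σ a ≡ a ^ N(w) mod W` for a prime `W ∣ w` of `E`.  Then `σ β = ζ ^ (x / w)_p β`.
-/
import Fermat.Agent.S55.h98_RecipFrob
import Fermat.Agent.S55.h38_Symb
import Fermat.Agent.S55.h33_Kummer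

set_option autoImplicit false

namespace Fermat.Agent.S55

open NumberField IsDedekindDomain
open scoped Pointwise

variable {K E : Type*} [Field K] [NumberField K] [Field E] [Algebra K E]

/-- **SYMB-FROB.** `σ β = ζ ^ (x / w)_p • β` for a Frobenius `σ` at a prime `W ∣ w`. -/
theorem h98_symb_frob {p : ℕ} (hp : p.Prime) {ζ : 𝓞 K} (hζ : IsPrimitiveRoot ζ p)
    (w : HeightOneSpectrum (𝓞 K)) (hpw : (p : 𝓞 K) ∉ w.asIdeal) (x : 𝓞 K) (hx : x ∉ w.asIdeal)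
    (σ : E ≃ₐ[K] E) (W : Ideal (𝓞 E)) [W.IsPrime] [W.LiesOver w.asIdeal]
    (hσ : ∀ a : 𝓞 E, σ • a - a ^ Ideal.absNorm w.asIdeal ∈ W)
    (β : E) (hβ : β ^ p = algebraMap K E (x : K)) :
    σ β = algebraMap K E ((ζ : K) ^ (h38_symb p ζ w x).val) * β := by
  have hp0 : 0 < p := hp.pos
  have hNZ : NeZero p := ⟨hp.ne_zero⟩
  have hover : W.under (𝓞 K) = w.asIdeal := (Ideal.over_def W w.asIdeal).symm
  -- `β` is integral
  have hβint : IsIntegral ℤ β := by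
    apply IsIntegral.of_pow hp0
    rw [hβ]
    exact (x.2 : IsIntegral ℤ (x : K)).algebraMap
  let b : 𝓞 E := ⟨β, hβint⟩
  have hbp : b ^ p = algebraMap (𝓞 K) (𝓞 E) x := by
    apply RingOfIntegers.ext
    show ((b ^ p : 𝓞 E) : E) = algebraMap K E (x : K)
    rw [← hβ]
    push_cast
    rfl
  set N := Ideal.absNorm w.asIdeal with hNdef
  obtain ⟨m, hm⟩ : p ∣ N - 1 := h38_dvd_absNorm_sub_one hp hζ w hpw
  have hNpos : 0 < N - 1 := h38_absNorm_sub_one_pos w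
  have hN : N = p * m + 1 := by omega
  set s := (h38_symb p ζ w x).val with hs
  -- `x ^ m ≡ ζ ^ s mod w`
  have h1 : x ^ m - ζ ^ s ∈ w.asIdeal := by
    have h := h38_symb_spec hp hζ w hpw x hx
    rw [← hNdef, hm, Nat.mul_div_cancel_left m hp0, ← map_pow, ← map_pow, Ideal.Quotient.eq] at h
    exact h
  have h2 : algebraMap (𝓞 K) (𝓞 E) (x ^ m - ζ ^ s) ∈ W := by
    rw [← hover] at h1
    exact h1
  -- `σ b ≡ b ζ ^ s mod W`
  have h3 : σ • b - b * algebraMap (𝓞 K) (𝓞 E) (ζ ^ s) ∈ W := by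
    have h4 := hσ b
    have h5 : b ^ N = b * algebraMap (𝓞 K) (𝓞 E) (x ^ m) := by
      rw [hN, pow_succ, pow_mul, hbp, map_pow, mul_comm]
    rw [h5] at h4
    have h6 : b * algebraMap (𝓞 K) (𝓞 E) (x ^ m - ζ ^ s) ∈ W := W.mul_mem_left b h2
    have h7 := add_mem h4 h6
    have h8 : σ • b - b * algebraMap (𝓞 K) (𝓞 E) (x ^ m)
        + b * algebraMap (𝓞 K) (𝓞 E) (x ^ m - ζ ^ s)
        = σ • b - b * algebraMap (𝓞 K) (𝓞 E) (ζ ^ s) := by
      rw [map_sub]; ring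
    rwa [h8] at h7
  -- `σ β = ζ ^ k β`
  have hx0 : (x : K) ≠ 0 := by
    intro h0
    apply hx
    have hx0 : x = 0 := RingOfIntegers.ext h0
    rw [hx0]
    exact zero_mem _
  have hβ0 : β ≠ 0 := by
    rintro rfl
    rw [zero_pow hp.ne_zero] at hβ
    exact hx0 ((algebraMap K E).injective (by rw [← hβ, map_zero]))
  have hσβ : (σ β / β) ^ p = 1 := by
    rw [div_pow, ← map_pow, hβ, AlgEquiv.commutes, div_self]
    rw [← hβ]; exact pow_ne_zero _ hβ0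
  have hζK : IsPrimitiveRoot (ζ : K) p :=
    hζ.map_of_injective (f := algebraMap (𝓞 K) K) RingOfIntegers.coe_injective
  have hζE : IsPrimitiveRoot (algebraMap K E (ζ : K)) p :=
    hζK.map_of_injective (algebraMap K E).injective
  obtain ⟨k, hk, hk2⟩ := hζE.eq_pow_of_pow_eq_one hσβ
  have hσβ2 : σ β = algebraMap K E (ζ : K) ^ k * β := by
    rw [hk2, div_mul_cancel₀ _ hβ0]
  have h7 : σ • b = algebraMap (𝓞 K) (𝓞 E) (ζ ^ k) * b := by
    apply RingOfIntegers.ext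
    show σ β = ((algebraMap (𝓞 K) (𝓞 E) (ζ ^ k) * b : 𝓞 E) : E)
    rw [hσβ2]
    push_cast
    rfl
  have h8 : algebraMap (𝓞 K) (𝓞 E) (ζ ^ k - ζ ^ s) * b ∈ W := by
    rw [h7] at h3
    have h9 : algebraMap (𝓞 K) (𝓞 E) (ζ ^ k) * b - b * algebraMap (𝓞 K) (𝓞 E) (ζ ^ s)
        = algebraMap (𝓞 K) (𝓞 E) (ζ ^ k - ζ ^ s) * b := by
      rw [map_sub]; ring
    rwa [h9] at h3
  have hbW : b ∉ W := by
    intro hb
    have h9 : b ^ p ∈ W := Ideal.pow_mem_of_mem W hb p hp0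
    rw [hbp] at h9
    apply hx
    rw [← hover]
    exact h9
  have h9 : algebraMap (𝓞 K) (𝓞 E) (ζ ^ k - ζ ^ s) ∈ W :=
    ((inferInstance : W.IsPrime).mem_or_mem h8).resolve_right hbW
  have h10 : ζ ^ k - ζ ^ s ∈ w.asIdeal := by
    rw [← hover]
    exact h9
  have h11 : Ideal.Quotient.mk w.asIdeal ζ ^ k = Ideal.Quotient.mk w.asIdeal ζ ^ s := by
    rw [← map_pow, ← map_pow, Ideal.Quotient.eq]
    exact h10
  have hprim := h38_mk_zeta_primitive hp hζ w hpw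
  have hks : k = s := hprim.pow_inj hk (ZMod.val_lt _) h11
  rw [hσβ2, hks, map_pow]

/-- SYMB-FROB, character form: any exponent `c` with `σ β = ζ ^ c β` is the symbol. -/
theorem h98_symb_frob_char {p : ℕ} (hp : p.Prime) {ζ : 𝓞 K} (hζ : IsPrimitiveRoot ζ p)
    (w : HeightOneSpectrum (𝓞 K)) (hpw : (p : 𝓞 K) ∉ w.asIdeal) (x : 𝓞 K) (hx : x ∉ w.asIdeal)
    (σ : E ≃ₐ[K] E) (W : Ideal (𝓞 E)) [W.IsPrime] [W.LiesOver w.asIdeal]
    (hσ : ∀ a : 𝓞 E, σ • a - a ^ Ideal.absNorm w.asIdeal ∈ W)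
    (β : E) (hβ : β ^ p = algebraMap K E (x : K)) (c : ZMod p)
    (hc : σ β = algebraMap K E ((ζ : K) ^ c.val) * β) :
    c = h38_symb p ζ w x := by
  have hNZ : NeZero p := ⟨hp.ne_zero⟩
  have h := h98_symb_frob hp hζ w hpw x hx σ W hσ β hβ
  have hx0 : (x : K) ≠ 0 := by
    intro h0
    apply hx
    have hx0 : x = 0 := RingOfIntegers.ext h0
    rw [hx0]
    exact zero_mem _
  have hβ0 : β ≠ 0 := by
    rintro rfl
    rw [zero_pow hp.ne_zero] at hβ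
    exact hx0 ((algebraMap K E).injective (by rw [← hβ, map_zero]))
  rw [hc] at h
  have h1 : (ζ : K) ^ c.val = (ζ : K) ^ (h38_symb p ζ w x).val :=
    (algebraMap K E).injective (mul_right_cancel₀ hβ0 h)
  have hζK : IsPrimitiveRoot (ζ : K) p :=
    hζ.map_of_injective (f := algebraMap (𝓞 K) K) RingOfIntegers.coe_injective
  exact ZMod.val_injective p (hζK.pow_inj (ZMod.val_lt _) (ZMod.val_lt _) h1)

/-- SYMB-FROB in the `h33_kummerChar` language: for `a : Kˣ` with `(a : K) = x`,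
`h33_kummerChar K E p σ a = ζ ^ (x / w)_p` (as an element of `K`). -/
theorem h98_kummerChar_frob {p : ℕ} (hp : p.Prime) {ζ : 𝓞 K} (hζ : IsPrimitiveRoot ζ p)
    (w : HeightOneSpectrum (𝓞 K)) (hpw : (p : 𝓞 K) ∉ w.asIdeal) (x : 𝓞 K) (hx : x ∉ w.asIdeal)
    (σ : E ≃ₐ[K] E) (W : Ideal (𝓞 E)) [W.IsPrime] [W.LiesOver w.asIdeal]
    (hσ : ∀ a : 𝓞 E, σ • a - a ^ Ideal.absNorm w.asIdeal ∈ W)
    (a : Kˣ) (ha : (a : K) = (x : K)) (hroot : ∃ β : E, β ^ p = algebraMap K E (a : K)) :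
    ((h33_kummerChar K E p σ a : Kˣ) : K) = (ζ : K) ^ (h38_symb p ζ w x).val := by
  obtain ⟨β, hβ⟩ := hroot
  have hζK : IsPrimitiveRoot (ζ : K) p :=
    hζ.map_of_injective (f := algebraMap (𝓞 K) K) RingOfIntegers.coe_injective
  have h := h98_symb_frob hp hζ w hpw x hx σ W hσ β (by rw [hβ, ha])
  have hu : IsUnit ((ζ : K) ^ (h38_symb p ζ w x).val) :=
    (hζK.isUnit hp.ne_zero).pow _
  have h2 := h33_kummerChar_eq_of hp.pos hζK σ hβ (η := hu.unit) (by rw [IsUnit.unit_spec]; exact h)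
  rw [h2, IsUnit.unit_spec]

end Fermat.Agent.S55
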