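/-
S55 / GLOB-UNORM (UF): the type-level core of the reciprocity law `h56_HypRecip`.

`K ⊆ E` number fields (as types), `E/ℚ` and `E/K` Galois, `Gal(E/K)` abelian, `E` unramified
outside `S ∋ p` (`p` odd), `E ∋ ζ_{p^(n+1)}`; `ζ ∈ 𝓞 K` a primitive `p`-th root of unity,
`x ∈ 𝓞 K`, `β ∈ E` with `β ^ p = x`, `χ` the Kummer character of `β`.  For `c ∈ Kˣ` whose divisor
outside `S` is prime to `x`, such that the norms of the primes in the support are not
`≡ 1 mod p^(n+1)` after raising to the power `p - 1`, and such that the class of `(dJ c, 1)` is a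
norm from `ker χ`:  `∑_w ord_w(c) • (x / w)_p = 0`.

Assembled from: `h95_recip_rel_sum` (abstract reciprocity), `h98_recip_frob` (Frobenius elements),
`h10_fp1` (FP1), `h28_recip_FP2_gal`, `h28_recip_FP3` (FP2, FP3), `h57_U1_*` (the value group),
`h90_glob_cfdata'`, `h90_glob_classModule'` (class formation data), `h10_sum_primeClass`
(the reciprocity sum is a `J`-class), `h98_symb_frob_char` (Kummer character of Frobenius).
-/
import Fermat.Agent.S55.h95_RecipRel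
import Fermat.Agent.S55.h98_SymbFrob
import Fermat.Agent.S55.h10_RecipFP1
import Fermat.Agent.S55.h10_RecipDiv
import Fermat.Agent.S55.h28_RecipFP2
import Fermat.Agent.S55.h57_RecipU1
import Fermat.Agent.S55.h90_LevelCFData
import Fermat.Agent.S55.h90_GlobCFFinal

set_option autoImplicit false

namespace Fermat.Agent.S55

open NumberField IsDedekindDomain
open scoped Pointwise

universe u v

/-- **(UF), type-level core of `h56_HypRecip`.** -/
theorem h98_hrec_core (p : ℕ) [hp : Fact p.Prime] (hp2 : p ≠ 2) (S : Finset Nat.Primes)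
    (hpS : (⟨p, hp.out⟩ : Nat.Primes) ∈ S)
    {K : Type v} {E : Type u} [Field K] [NumberField K] [Field E] [NumberField E] [Algebra K E]
    [IsGalois K E] [IsGalois ℚ E]
    (hcomm : ∀ σ τ : E ≃ₐ[K] E, σ * τ = τ * σ)
    (hurQ : h25_UnramOutside ℚ E S) (hur : h25_UnramOutside K E S)
    (n : ℕ) (ξ : E) (hξ : IsPrimitiveRoot ξ (p ^ (n + 1)))
    (ζ : 𝓞 K) (hζ : IsPrimitiveRoot ζ p) (x : 𝓞 K) (β : E)
    (hβ : β ^ p = algebraMap K E (x : K))
    (χ : (E ≃ₐ[K] E) →* Multiplicative (ZMod p))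
    (hχ : ∀ σ : E ≃ₐ[K] E,
      σ β = algebraMap K E ((ζ : K) ^ (Multiplicative.toAdd (χ σ)).val) * β)
    (c : Kˣ)
    (hcx : ∀ w : HeightOneSpectrum (𝓞 K), ¬ h25_above K S w →
      w.valuationOfNeZero c ≠ 1 → x ∉ w.asIdeal)
    (hn : ∀ w ∈ (h25_div K S c).support,
      ¬ Ideal.absNorm w.1.asIdeal ^ (p - 1) ≡ 1 [MOD p ^ (n + 1)])
    (hJ : h12_IsRelNorm χ.ker (h2_PL.j (p := p) (Additive.ofMul
      (h25_Cmap S (algebraMap K E) (h25_mk K S (h33_dJ K S c, 1)))))) :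
    ∑ w ∈ (h25_div K S c).support,
      Multiplicative.toAdd (w.1.valuationOfNeZero c) • h38_symb p ζ w.1 x = 0 := by
  classical
  have hpp : p.Prime := hp.out
  -- class formation data at `E`
  obtain ⟨deg, wv, D, hw, hdeg⟩ := h90_glob_cfdata' p hp2 S hpS E hurQ n ξ hξ
  have hC : IsPClassModule p (E ≃ₐ[ℚ] E) (h2_PL p (Additive (h25_C E S))) :=
    h90_glob_classModule' p hp2 S hpS E hurQ
  -- primes of `E` over primes of `K` not above `S` are unramified
  have hurW : ∀ (w : h25_Pl K S) (W : Ideal (𝓞 E)), W.IsPrime → W.LiesOver w.1.asIdeal →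
      W.ramificationIdx (𝓞 K) = 1 := by
    intro w W hW hWo
    have hW0 : W ≠ ⊥ := Ideal.ne_bot_of_liesOver_of_ne_bot w.1.ne_bot W
    have hWS : ¬ h25_above E S ⟨W, hW, hW0⟩ := by
      rintro ⟨q, hq, hqW⟩
      apply w.2
      refine ⟨q, hq, ?_⟩
      have h1 : W.under (𝓞 K) = w.1.asIdeal := (Ideal.over_def W w.1.asIdeal).symm
      rw [← h1, Ideal.mem_comap]
      simpa using hqW
    exact hur ⟨⟨W, hW, hW0⟩, hWS⟩
  -- the Frobenius elements
  have hfrob : ∀ w : h25_Pl K S, ∃ σ : E ≃ₐ[K] E,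
      (∀ W : Ideal (𝓞 E), W.IsPrime → W.LiesOver w.1.asIdeal →
        ∀ a : 𝓞 E, σ • a - a ^ Ideal.absNorm w.1.asIdeal ∈ W) ∧
      (∀ (ξ : E) (m : ℕ), ξ ^ m = 1 → (m : 𝓞 K) ∉ w.1.asIdeal →
        σ ξ = ξ ^ Ideal.absNorm w.1.asIdeal) ∧
      (∀ W : Ideal (𝓞 E), W.IsPrime → W.LiesOver w.1.asIdeal →
        MulAction.stabilizer (E ≃ₐ[K] E) W = Subgroup.zpowers σ) :=
    fun w => h98_recip_frob hcomm w.1 (hurW w)
  choose σ hσ1 hσ2 hσ3 using hfrob
  -- `p` is prime to the primes not above `S`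
  have hpw : ∀ (w : h25_Pl K S) (k : ℕ), ((p ^ k : ℕ) : 𝓞 K) ∉ w.1.asIdeal := by
    intro w k hmem
    apply w.2
    refine ⟨⟨p, hpp⟩, hpS, ?_⟩
    rw [Nat.cast_pow] at hmem
    exact w.1.isPrime.mem_of_pow_mem k hmem
  have hpw1 : ∀ w : h25_Pl K S, (p : 𝓞 K) ∉ w.1.asIdeal := by
    intro w h
    exact hpw w 1 (by rwa [pow_one])
  have hσξ : ∀ w : h25_Pl K S, σ w ξ = ξ ^ Ideal.absNorm w.1.asIdeal :=
    fun w => hσ2 w ξ (p ^ (n + 1)) hξ.pow_eq_one (hpw w (n + 1))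
  -- the support
  have hx : ∀ w ∈ (h25_div K S c).support, x ∉ w.1.asIdeal := by
    intro w hw
    refine hcx w.1 w.2 ?_
    intro h1
    rw [Finsupp.mem_support_iff, h10_div_apply S c w, h1] at hw
    exact hw (by simp)
  -- the value group
  have tfV : ∀ (k : ℕ) (y : Additive (h18_U1 p)), k ≠ 0 → k • y = 0 → y = 0 :=
    fun k y hk hy => h18_U1_add_torsionFree p hp2 k hk y hy
  have he : ∀ y : Additive (h18_U1 p), ∃ (k : ℤ) (z : Additive (h18_U1 p)),
      y = k • h57_e0 p + p • z := by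
    intro y
    obtain ⟨m, z, h⟩ := h57_U1_hV p hp2 1 y
    exact ⟨m, z, by rwa [pow_one] at h⟩
  -- the Frobenius pairs
  have hFP1 : ∀ w ∈ (h25_div K S c).support, ∀ H' : Subgroup (E ≃ₐ[K] E), σ w ∈ H' →
      h12_IsRelNorm H' (h2_PL.j (p := p) (Additive.ofMul (h25_Cmap S (algebraMap K E)
        (h25_mk K S (1, Multiplicative.ofAdd (Finsupp.single w 1)))))) := by
    intro w _ H' hH'
    obtain ⟨W, hWo⟩ := h98_exists_prime_over (E := E) w.1
    refine h10_fp1 S p w W hWo (hurW w W.asIdeal W.isPrime hWo) H' ?_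
    intro τ hτ
    have h1 : τ ∈ MulAction.stabilizer (E ≃ₐ[K] E) W.asIdeal := by
      rw [MulAction.mem_stabilizer_iff]
      exact congrArg (fun W' : HeightOneSpectrum (𝓞 E) => W'.asIdeal) hτ
    rw [hσ3 w W.asIdeal W.isPrime hWo] at h1
    exact (Subgroup.zpowers_le.2 hH') h1
  have hFP2 : ∀ w ∈ (h25_div K S c).support, ∃ y : Additive (h18_U1 p),
      wv (h2_PL.j (p := p) (Additive.ofMul (h25_Cmap S (algebraMap K E)
        (h25_mk K S (1, Multiplicative.ofAdd (Finsupp.single w 1)))))) -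
      (Nat.card (E ≃ₐ[K] E) * (Multiplicative.toAdd
        (deg (AlgEquiv.restrictScalarsHom ℚ (σ w)))).val) • h57_e0 p
        = (p ^ n * Nat.card (E ≃ₐ[K] E)) • y := by
    intro w _
    have h28 : ∃ y : Additive (h18_U1 p),
        wv (h2_PL.j (p := p) (Additive.ofMul (h25_Cmap S (algebraMap K E)
          (h25_mk K S (1, Multiplicative.ofAdd (Finsupp.single w 1)))))) =
        Nat.card (E ≃ₐ[K] E) • ((Multiplicative.toAdd (deg ((σ w).restrictScalars ℚ))).val •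
          h57_e0 p + p ^ n • y) :=
      h28_recip_FP2_gal S (⟨⟨p, hpp⟩, hpS⟩ : ↥S) hp2 n ξ deg wv hw hdeg w (σ w)
        (hσξ w) (h57_onePlusP p) (h57_onePlusP_coe p)
    obtain ⟨y, hy⟩ := h28
    refine ⟨y, ?_⟩
    rw [hy]
    show Nat.card (E ≃ₐ[K] E) • ((Multiplicative.toAdd (deg ((σ w).restrictScalars ℚ))).val •
        h57_e0 p + p ^ n • y) - (Nat.card (E ≃ₐ[K] E) * (Multiplicative.toAdd
        (deg ((σ w).restrictScalars ℚ))).val) • h57_e0 p = (p ^ n * Nat.card (E ≃ₐ[K] E)) • y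
    rw [nsmul_add, ← mul_nsmul', ← mul_nsmul', add_sub_cancel_left, mul_comm]
  have hFP3 : ∀ w ∈ (h25_div K S c).support,
      deg (AlgEquiv.restrictScalarsHom ℚ (σ w)) ≠ 1 := by
    intro w hw'
    exact h28_recip_FP3 S (⟨⟨p, hpp⟩, hpS⟩ : ↥S) n ξ deg hdeg (Ideal.absNorm w.1.asIdeal)
      ((σ w).restrictScalars ℚ) (hσξ w) (hn w hw')
  -- the reciprocity sum is a `J`-class, hence a norm
  have hnorm : h12_IsRelNorm χ.ker (∑ w ∈ (h25_div K S c).support,
      Multiplicative.toAdd (w.1.valuationOfNeZero c) •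
        h2_PL.j (p := p) (Additive.ofMul (h25_Cmap S (algebraMap K E)
          (h25_mk K S (1, Multiplicative.ofAdd (Finsupp.single w 1)))))) := by
    rw [h10_sum_primeClass p S (algebraMap K E) c _ (Finset.Subset.refl _)]
    exact hJ
  have key := h95_recip_rel_sum (Γ := E ≃ₐ[K] E) D hC tfV (h57_e0 p) he
    (AlgEquiv.restrictScalarsHom ℚ) (AlgEquiv.restrictScalarsHom_injective ℚ)
    (fun _ _ => rfl) hcomm (h25_div K S c).support
    (fun w => h2_PL.j (p := p) (Additive.ofMul (h25_Cmap S (algebraMap K E)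
      (h25_mk K S (1, Multiplicative.ofAdd (Finsupp.single w 1))))))
    σ (fun w => Multiplicative.toAdd (w.1.valuationOfNeZero c)) hFP1 hFP2 hFP3 χ hnorm
  rw [← key]
  refine Finset.sum_congr rfl fun w hw' => ?_
  obtain ⟨W, hWo⟩ := h98_exists_prime_over (E := E) w.1
  have hWp := W.isPrime
  rw [← h98_symb_frob_char hpp hζ w.1 (hpw1 w) x (hx w hw') (σ w) W.asIdeal
    (hσ1 w W.asIdeal W.isPrime hWo) β hβ _ (hχ (σ w))]

end Fermat.Agent.S55
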