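import Mathlib
import Fermat.Agent.S55.h56_UnormDefs
import Fermat.Agent.S55.h97_RecipLevelT
import Fermat.Agent.S55.h28_RecipFP2
import Fermat.Agent.S55.h10_RecipDiv
import Fermat.Agent.S55.h38_SymbFrob
import Fermat.Agent.S55.h10_LevelUnram
import Fermat.Agent.S55.h98_HrecCore
import Fermat.Agent.S55.h92_SplitNormLevel

/-!
# S55 / GLOB-UNORM (R1): reciprocity at levels, `h56_HypRecip S p`

The level wrapper: for a level `L' ∋ ζ_p`, `x ∈ V_split(L') ∩ 𝓞`, `c ∈ L'ˣ`, choose `n` large for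
the finitely many primes in the divisor of `c`, the level `E = L'(V_split^{1/p}, ζ_{p^(n+1)})`
(`h97_recip_level_type`), a `p`-th root `β ∈ E` of `x` with its Kummer character
(`h38_kumHom`), "`J` consists of norms" for `ker χ`, and apply the type-level core.
-/

set_option autoImplicit false

open groupCohomology IsDedekindDomain NumberField

namespace Fermat.Agent.S55

local notation "Qb" => AlgebraicClosure ℚ

/-- **GLOB-RECIP at levels**: `h56_HypRecip S p` for `p` odd, `p ∈ S`. -/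
theorem h38_hypRecip (S : Finset Nat.Primes) (p : ℕ) [hp : Fact p.Prime] (hp2 : p ≠ 2)
    (hpS : (⟨p, hp.out⟩ : Nat.Primes) ∈ S) : h56_HypRecip S p := by
  classical
  intro L' _ hL' ζ hζ x hx0 hxV c hc
  obtain ⟨a, haV, hax⟩ := hxV
  -- a common level `n` for the primes in the divisor of `c`
  obtain ⟨n₀, hn₀⟩ := h28_exists_level_FP3 S (⟨⟨p, hp.out⟩, hpS⟩ : ↥S)
    ((h25_div ↥L' S c).support.image Subtype.val)
  -- the level `E`
  have hζL : IsPrimitiveRoot ((ζ : 𝓞 ↥L') : ↥L') p :=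
    hζ.map_of_injective (RingOfIntegers.coe_injective (K := ↥L'))
  obtain ⟨E, h, hE, -, hroot, ⟨ξ, hξ⟩, -, hcomm⟩ :=
    h97_recip_level_type S p hp2 hpS L' hL' hζL n₀
  obtain ⟨β, hβ⟩ := hroot a haV
  have : NumberField ↥E := h33_level_numberField hE
  have : IsGalois ℚ ↥E := hE.2
  letI := h10_inclAlgebra h
  have := h10_incl_isScalarTower h
  have : IsGalois ↥L' ↥E := h10_incl_isGalois h
  have hβ' : β ^ p = algebraMap ↥L' ↥E ((x : 𝓞 ↥L') : ↥L') := by
    rw [hβ, hax]
    rfl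
  have hβ0 : β ≠ 0 := by
    rintro rfl
    rw [zero_pow hp.out.ne_zero] at hβ'
    have h1 : ((x : 𝓞 ↥L') : ↥L') = 0 :=
      (algebraMap ↥L' ↥E).injective (by rw [← hβ', map_zero])
    exact hx0 (RingOfIntegers.coe_injective (by rw [map_zero]; exact h1))
  have hβK : ∃ a : ↥L', β ^ p = algebraMap ↥L' ↥E a := ⟨_, hβ'⟩
  -- the core
  have hcore := h98_hrec_core p hp2 S hpS (K := ↥L') (E := ↥E) hcomm
    (h10_isLevel_unram S E hE) (h10_level_unram_incl h S hE.1) n₀ ξ hξ ζ hζ x β hβ'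
    (h38_kumHom hp.out hζL hβ0 hβK)
    (fun σ => h38_kumChar_spec hp.out hζL hβ0 hβK σ) c hc
    (fun w hw => hn₀ n₀ le_rfl w.1 (Finset.mem_image_of_mem _ hw))
    (h92_J_norms S p L' E h hL' hE _ hζL a haV β hβ _ (MonoidHom.normal_ker _)
      (fun τ hτ => h38_kumHom_eq_one_of_fix hp.out hζL hβ0 hβK τ hτ) (h33_dJ ↥L' S c))
  -- back to the `finsum`
  rw [finsum_eq_sum_of_support_subset _ (s := (h25_div ↥L' S c).support)]
  · exact hcore
  · intro w hw
    rw [Function.mem_support] at hw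
    rw [Finset.mem_coe, Finsupp.mem_support_iff, h10_div_apply]
    intro h0
    apply hw
    rw [neg_eq_zero] at h0
    rw [h0, zero_smul]

end Fermat.Agent.S55
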