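import Fermat.Agent.S55.h38_Symb
import Fermat.Agent.S14.NS

/-!
# S55 / GLOB-UNORM (2): a non-`p`-th power has a prime with nontrivial power residue symbol

* `h38_inertiaDeg_eq_one` : in a Kummer extension `E = F(y^{1/p})`, a prime `v ∤ p y` of `F` with
  `(y / v)_p = 0` has residue degree one at every prime above it.
* `h38_exists_symb_ne_zero` : if `y : 𝓞 F` is not a `p`-th power in `F`, then outside any finite
  set of primes there is a prime `v ∤ p y` with `(y / v)_p ≠ 0`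
  (from the landed `Fermat.Agent.S14.exists_nonsplit_prime` applied to `F(y^{1/p})/F`).
-/

set_option autoImplicit false

namespace Fermat.Agent.S55

open NumberField IsDedekindDomain Polynomial

attribute [local instance] Ideal.Quotient.field

/-- Splitting criterion for a Kummer extension: if `(y / v)_p = 0`, every prime of
`E = F(y^{1/p})` above `v` has residue degree one. -/
theorem h38_inertiaDeg_eq_one {F E : Type*} [Field F] [NumberField F] [Field E] [NumberField E]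
    [Algebra F E] [IsGalois F E] {p : ℕ} (hp : p.Prime) {ζ : 𝓞 F} (hζ : IsPrimitiveRoot ζ p)
    (y : 𝓞 F) (γ : E) (hγ : γ ^ p = algebraMap F E (y : F))
    (hgen : ∀ σ : E ≃ₐ[F] E, σ γ = γ → σ = 1)
    (v : HeightOneSpectrum (𝓞 F)) (hpv : (p : 𝓞 F) ∉ v.asIdeal) (hyv : y ∉ v.asIdeal)
    (hs : h38_symb p ζ v y = 0)
    (Q : Ideal (𝓞 E)) [Q.IsPrime] [Q.LiesOver v.asIdeal] :
    Q.inertiaDeg (𝓞 F) = 1 := by
  classical
  have hpne : NeZero p := ⟨hp.ne_zero⟩
  set P : Ideal (𝓞 F) := v.asIdeal with hPdef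
  have hP0 : P ≠ ⊥ := v.ne_bot
  have hQ0 : Q ≠ ⊥ := Ideal.ne_bot_of_liesOver_of_ne_bot hP0 Q
  have hPmax : P.IsMaximal := v.isMaximal
  have hQmax : Q.IsMaximal := Ideal.IsPrime.isMaximal inferInstance hQ0
  have hQfin : Finite (𝓞 E ⧸ Q) := Ideal.finiteQuotientOfFreeOfNeBot Q hQ0
  have hPfin : Finite (𝓞 F ⧸ P) := Ideal.finiteQuotientOfFreeOfNeBot P hP0
  have hunder : Q.under (𝓞 F) = P := (Ideal.over_def Q P).symm
  set q : ℕ := Ideal.absNorm P with hqdef
  have hcardP : Nat.card (𝓞 F ⧸ P) = q := h38_card_quot v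
  have hq1 : 1 < q := by
    have h := h38_absNorm_sub_one_pos v
    change 0 < q - 1 at h
    omega
  have hpq : p ∣ q - 1 := h38_dvd_absNorm_sub_one hp hζ v hpv
  -- membership transfer
  have hmemQ : ∀ a : 𝓞 F, algebraMap (𝓞 F) (𝓞 E) a ∈ Q ↔ a ∈ P := by
    intro a
    rw [← hunder, Ideal.mem_comap]
  -- the residue field of `Q`
  let π : 𝓞 E →+* 𝓞 E ⧸ Q := Ideal.Quotient.mk Q
  have hπ0 : ∀ x : 𝓞 E, π x = 0 ↔ x ∈ Q := fun x => Ideal.Quotient.eq_zero_iff_mem
  -- the Frobenius element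
  obtain ⟨σ, hσ⟩ := IsArithFrobAt.exists_of_isInvariant (𝓞 F) (E ≃ₐ[F] E) Q
  have hfrob : ∀ x : 𝓞 E, π (σ • x) = π x ^ q := by
    intro x
    have := AlgHom.IsArithFrobAt.mk_apply hσ x
    rw [hunder, hcardP] at this
    exact this
  -- integral elements
  have hyint : IsIntegral ℤ (algebraMap F E (y : F)) := by
    have h1 : IsIntegral ℤ (y : F) := y.2
    exact h1.map (IsScalarTower.toAlgHom ℤ F E)
  have hγint : IsIntegral ℤ γ := by
    apply IsIntegral.of_pow hp.pos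
    rw [hγ]
    exact hyint
  let γ₂ : 𝓞 E := ⟨γ, hγint⟩
  have hγ₂ : γ₂ ^ p = algebraMap (𝓞 F) (𝓞 E) y := by
    apply RingOfIntegers.ext
    push_cast
    exact hγ
  let ζ₂ : 𝓞 E := algebraMap (𝓞 F) (𝓞 E) ζ
  have hζ₂ : IsPrimitiveRoot ζ₂ p :=
    hζ.map_of_injective (RingOfIntegers.algebraMap.injective F E)
  have hy0 : π (algebraMap (𝓞 F) (𝓞 E) y) ≠ 0 := by
    rw [Ne, hπ0, hmemQ]
    exact hyv
  have hp0 : π (p : 𝓞 E) ≠ 0 := by
    have : (p : 𝓞 E) = algebraMap (𝓞 F) (𝓞 E) (p : 𝓞 F) := by simp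
    rw [Ne, hπ0, this, hmemQ]
    exact hpv
  have hg : π γ₂ ^ p = π (algebraMap (𝓞 F) (𝓞 E) y) := by rw [← map_pow, hγ₂]
  have hg0 : π γ₂ ≠ 0 := by
    intro h0
    rw [h0, zero_pow hp.ne_zero] at hg
    exact hy0 hg.symm
  -- `y ^ ((q - 1) / p) ≡ 1`
  have hy1 : π (algebraMap (𝓞 F) (𝓞 E) y) ^ ((q - 1) / p) = 1 := by
    have h1 := (h38_symb_eq_zero_iff hp hζ v hpv y hyv).1 hs
    rw [← map_pow, ← map_one (Ideal.Quotient.mk v.asIdeal), Ideal.Quotient.eq] at h1
    have h2 : algebraMap (𝓞 F) (𝓞 E) (y ^ ((q - 1) / p) - 1) ∈ Q := (hmemQ _).2 h1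
    rw [map_sub, map_one, map_pow] at h2
    have h3 := (hπ0 _).2 h2
    rw [map_sub, map_one, map_pow, sub_eq_zero] at h3
    exact h3
  have hgq : π γ₂ ^ q = π γ₂ := by
    have h1 : π γ₂ ^ (q - 1) = 1 := by
      conv_lhs => rw [← Nat.mul_div_cancel' hpq]
      rw [pow_mul, hg, hy1]
    have h2 : q = (q - 1) + 1 := by omega
    rw [h2, pow_succ, h1, one_mul]
  -- the Frobenius fixes `γ`
  have hσγ : σ γ = γ := by
    have hγ0 : γ ≠ 0 := by
      intro h0
      apply hg0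
      rw [hπ0]
      have : γ₂ = 0 := RingOfIntegers.ext h0
      rw [this]
      exact Q.zero_mem
    have hζF : IsPrimitiveRoot (algebraMap F E (ζ : F)) p := by
      have h1 : IsPrimitiveRoot (ζ : F) p :=
        hζ.map_of_injective (RingOfIntegers.coe_injective)
      exact h1.map_of_injective (algebraMap F E).injective
    obtain ⟨k, hk, hkγ⟩ : ∃ k < p, algebraMap F E (ζ : F) ^ k = σ γ / γ := by
      apply hζF.eq_pow_of_pow_eq_one
      rw [div_pow, ← map_pow, hγ, AlgEquiv.commutes, div_self]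
      rw [← hγ]
      exact pow_ne_zero _ hγ0
    have hσγ₂ : σ • γ₂ = ζ₂ ^ k * γ₂ := by
      apply RingOfIntegers.ext
      change σ γ = _
      rw [eq_div_iff hγ0] at hkγ
      rw [← hkγ]
      rfl
    have h3 : π ζ₂ ^ k = 1 := by
      have h4 : π ζ₂ ^ k * π γ₂ = π γ₂ := by
        rw [← map_pow, ← map_mul, ← hσγ₂, hfrob, hgq]
      exact mul_right_cancel₀ hg0 (by rw [h4, one_mul])
    have hk0 : k = 0 := by
      by_contra hk0
      have hcop : Nat.Coprime k p :=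
        ((Nat.Prime.coprime_iff_not_dvd hp).mpr
          (Nat.not_dvd_of_pos_of_lt (Nat.pos_of_ne_zero hk0) hk)).symm
      have h5 := (hζ₂.pow_of_coprime k hcop).geom_sum_eq_zero hp.one_lt
      have h6 := congrArg π h5
      rw [map_sum, map_zero] at h6
      simp only [map_pow, h3, one_pow, Finset.sum_const, Finset.card_range, nsmul_eq_mul,
        mul_one] at h6
      apply hp0
      rw [map_natCast]
      exact h6
    rw [hk0, pow_zero] at hkγ
    rw [eq_div_iff hγ0, one_mul] at hkγ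
    exact hkγ.symm
  have hσ1 : σ = 1 := hgen σ hσγ
  -- every element of the residue field is fixed by the `q`-th power map
  have hall : ∀ u : 𝓞 E ⧸ Q, u ^ q = u := by
    intro u
    obtain ⟨x, rfl⟩ := Ideal.Quotient.mk_surjective u
    have := hfrob x
    rw [hσ1, one_smul] at this
    exact this.symm
  -- counting
  rw [Ideal.inertiaDeg_eq_of_isMaximal P Q]
  have hfin : Fintype (𝓞 E ⧸ Q) := Fintype.ofFinite _
  have hcard2 : Nat.card (𝓞 E ⧸ Q) ≤ q := by
    rw [Nat.card_eq_fintype_card, ← Finset.card_univ]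
    have h1 : (Finset.univ : Finset (𝓞 E ⧸ Q)).val ⊆ (X ^ q - X : (𝓞 E ⧸ Q)[X]).roots := by
      intro u _
      rw [mem_roots (FiniteField.X_pow_card_sub_X_ne_zero _ hq1)]
      simp [hall u]
    have h2 := card_le_degree_of_subset_roots h1
    rwa [FiniteField.X_pow_card_sub_X_natDegree_eq _ hq1] at h2
  have hpow : Nat.card (𝓞 E ⧸ Q) =
      Nat.card (𝓞 F ⧸ P) ^ Module.finrank (𝓞 F ⧸ P) (𝓞 E ⧸ Q) :=
    Module.natCard_eq_pow_finrank
  rw [hcardP] at hpow
  have hpos : 0 < Module.finrank (𝓞 F ⧸ P) (𝓞 E ⧸ Q) := Module.finrank_pos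
  by_contra hne
  have h2 : 2 ≤ Module.finrank (𝓞 F ⧸ P) (𝓞 E ⧸ Q) := by omega
  have h3 : q ^ 2 ≤ q ^ Module.finrank (𝓞 F ⧸ P) (𝓞 E ⧸ Q) :=
    Nat.pow_le_pow_right (by omega) h2
  have h4 : q < q ^ 2 := by nlinarith
  omega

/-- **NONSPLIT-SYMBOL**: an integer `y` of `F ∋ ζ_p` which is not a `p`-th power in `F` has a
prime `v ∤ p y`, outside any given finite set, with nontrivial power residue symbol. -/
theorem h38_exists_symb_ne_zero {p : ℕ} (hp : p.Prime) {F : Type*} [Field F] [NumberField F]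
    {ζ : 𝓞 F} (hζ : IsPrimitiveRoot ζ p) (y : 𝓞 F) (hy : ¬ ∃ b : F, (y : F) = b ^ p)
    (T : Set (HeightOneSpectrum (𝓞 F))) (hT : T.Finite) :
    ∃ v : HeightOneSpectrum (𝓞 F), v ∉ T ∧ (p : 𝓞 F) ∉ v.asIdeal ∧ y ∉ v.asIdeal ∧
      h38_symb p ζ v y ≠ 0 := by
  classical
  have hζF : IsPrimitiveRoot (ζ : F) p := hζ.map_of_injective (RingOfIntegers.coe_injective)
  have hirr : Irreducible (X ^ p - C (y : F)) :=
    X_pow_sub_C_irreducible_of_prime hp (fun b hb => hy ⟨b, hb.symm⟩)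
  have hfact : Fact (Irreducible (X ^ p - C (y : F))) := ⟨hirr⟩
  have hprim : (primitiveRoots p F).Nonempty := ⟨ζ, (mem_primitiveRoots hp.pos).mpr hζF⟩
  have hsplit : IsSplittingField F (AdjoinRoot (X ^ p - C (y : F))) (X ^ p - C (y : F)) :=
    isSplittingField_AdjoinRoot_X_pow_sub_C hprim hirr
  have hgal : IsGalois F (AdjoinRoot (X ^ p - C (y : F))) :=
    isGalois_of_isSplittingField_X_pow_sub_C hprim hirr _
  have hfr : Module.finrank F (AdjoinRoot (X ^ p - C (y : F))) = p :=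
    finrank_of_isSplittingField_X_pow_sub_C hprim hirr _
  have hch : CharZero (AdjoinRoot (X ^ p - C (y : F))) :=
    charZero_of_injective_algebraMap (algebraMap F (AdjoinRoot (X ^ p - C (y : F)))).injective
  have hfd1 : FiniteDimensional F (AdjoinRoot (X ^ p - C (y : F))) :=
    (monic_X_pow_sub_C (y : F) hp.ne_zero).finite_adjoinRoot
  have hfd : FiniteDimensional ℚ (AdjoinRoot (X ^ p - C (y : F))) :=
    Module.Finite.trans F (AdjoinRoot (X ^ p - C (y : F)))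
  have hnf : NumberField (AdjoinRoot (X ^ p - C (y : F))) :=
    { to_charZero := hch, to_finiteDimensional := hfd }
  have hy0 : y ≠ 0 := by
    rintro rfl
    exact hy ⟨0, by simp [hp.ne_zero]⟩
  have hp0 : (p : 𝓞 F) ≠ 0 := by exact_mod_cast hp.ne_zero
  -- the excluded primes
  have hfinmem : ∀ x : 𝓞 F, x ≠ 0 → {P : Ideal (𝓞 F) | P.IsPrime ∧ x ∈ P}.Finite := by
    intro x hx
    have h1 := Ideal.finite_factors (I := Ideal.span {x})
      (by rw [Ne, Ideal.zero_eq_bot, Ideal.span_singleton_eq_bot]; exact hx)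
    refine (h1.image (fun v => v.asIdeal)).subset ?_
    rintro P ⟨hP, hxP⟩
    have hP0 : P ≠ ⊥ := by
      rintro rfl
      exact hx (by simpa using hxP)
    refine ⟨⟨P, hP, hP0⟩, ?_, rfl⟩
    rw [Set.mem_ofPred_eq, Ideal.dvd_iff_le, Ideal.span_singleton_le_iff_mem]
    exact hxP
  have hfin : ((fun v : HeightOneSpectrum (𝓞 F) => v.asIdeal) '' T ∪
      {P : Ideal (𝓞 F) | P.IsPrime ∧ (p : 𝓞 F) ∈ P} ∪
      {P : Ideal (𝓞 F) | P.IsPrime ∧ y ∈ P}).Finite :=
    ((hT.image _).union (hfinmem _ hp0)).union (hfinmem _ hy0)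
  obtain ⟨P, hPprime, hP0, hPS, -, hunr, hns⟩ :=
    Fermat.Agent.S14.exists_nonsplit_prime hp hfr _ hfin
  simp only [Set.mem_union, Set.mem_image, Set.mem_ofPred_eq, not_or, not_exists, not_and] at hPS
  obtain ⟨⟨hPT, hPp⟩, hPy⟩ := hPS
  refine ⟨⟨P, hPprime, hP0⟩, fun h => hPT _ h rfl, hPp hPprime, hPy hPprime, fun hs => ?_⟩
  apply hns
  intro Q hQ hQP
  refine ⟨hunr Q hQ hQP, ?_⟩
  have hγ : (AdjoinRoot.root (X ^ p - C (y : F))) ^ p =
      algebraMap F (AdjoinRoot (X ^ p - C (y : F))) (y : F) := by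
    rw [root_X_pow_sub_C_pow]
    rfl
  have hgen : ∀ σ : AdjoinRoot (X ^ p - C (y : F)) ≃ₐ[F] AdjoinRoot (X ^ p - C (y : F)),
      σ (AdjoinRoot.root (X ^ p - C (y : F))) = AdjoinRoot.root (X ^ p - C (y : F)) →
        σ = 1 := by
    intro σ h
    have h1 : (σ : AdjoinRoot (X ^ p - C (y : F)) →ₐ[F] AdjoinRoot (X ^ p - C (y : F))) =
        AlgHom.id F _ := AdjoinRoot.algHom_ext (by simpa using h)
    ext x
    have := DFunLike.congr_fun h1 x
    simpa using this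
  exact h38_inertiaDeg_eq_one hp hζ y _ hγ hgen ⟨P, hPprime, hP0⟩ (hPp hPprime) (hPy hPprime)
    hs Q

end Fermat.Agent.S55
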