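import Fermat.Agent.S55.h38_SymbNorm
import Fermat.Agent.S55.h38_SymbNS
import Fermat.Agent.S55.h38_Capit

/-!
# S55 / GLOB-UNORM (5): the core of the universal-norm step

`L'/L` a Galois extension of number fields, `ζ_p ∈ L`.  Assume

* (capitulation) for every prime `v` of `L` there are `m` prime to `p` and `c : L'ˣ` whose divisor
  outside `S'` is `m • ext v`;
* (reciprocity for `x : 𝓞 L'`) `∑_{w ∉ S'} ord_w c • (x / w)_p = 0` for every `c : L'ˣ` whose
  divisor outside `S'` is prime to `x`.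

Then `N_{L'/L} x` is a `p`-th power in `L` (`h38_unorm_core`).

Proof: otherwise NONSPLIT-SYMBOL gives a prime `v` of `L` (outside the finitely many bad primes)
with `(N x / v)_p ≠ 0`; SYMBOL-NORM rewrites this symbol as `∑_{w | v} e(w|v) (x / w)_p`, which is
`m⁻¹` times the reciprocity sum of the capitulation element `c` of `v`.
-/

set_option autoImplicit false

namespace Fermat.Agent.S55

open NumberField IsDedekindDomain

theorem h38_finsum_subtype {α M : Type*} [AddCommMonoid M] (P : α → Prop) [DecidablePred P]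
    (f : α → M) : ∑ᶠ j : Subtype P, f j = ∑ᶠ i, if P i then f i else 0 := by
  rw [finsum_subtype_eq_finsum_cond]
  exact finsum_congr (fun i => finsum_eq_if)

/-- **GLOB-UNORM, core.** -/
theorem h38_unorm_core {p : ℕ} (hp : p.Prime)
    {L L' : Type*} [Field L] [NumberField L] [Field L'] [NumberField L'] [Algebra L L']
    [IsGalois L L'] {ζ : 𝓞 L} (hζ : IsPrimitiveRoot ζ p)
    (S' : Set (HeightOneSpectrum (𝓞 L'))) (hS' : S'.Finite)
    (hcap : ∀ v : HeightOneSpectrum (𝓞 L), ∃ (m : ℕ) (c : L'ˣ), m.Coprime p ∧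
      ∀ w : HeightOneSpectrum (𝓞 L'), w ∉ S' →
        (w.asIdeal.LiesOver v.asIdeal → w.valuationOfNeZero c =
          Multiplicative.ofAdd (-((m * w.asIdeal.ramificationIdx (𝓞 L) : ℕ) : ℤ))) ∧
        (¬ w.asIdeal.LiesOver v.asIdeal → w.valuationOfNeZero c = 1))
    (x : 𝓞 L') (hx : x ≠ 0)
    (hrec : ∀ c : L'ˣ,
      (∀ w : HeightOneSpectrum (𝓞 L'), w ∉ S' → w.valuationOfNeZero c ≠ 1 → x ∉ w.asIdeal) →
      ∑ᶠ w : {w : HeightOneSpectrum (𝓞 L') // w ∉ S'},
        Multiplicative.toAdd (w.1.valuationOfNeZero c) •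
          h38_symb p (algebraMap (𝓞 L) (𝓞 L') ζ) w.1 x = 0) :
    ∃ b : L, Algebra.norm L (x : L') = b ^ p := by
  classical
  have hpf : Fact p.Prime := ⟨hp⟩
  by_contra hcon
  set y : 𝓞 L := RingOfIntegers.norm L x with hy
  have hyc : (y : L) = Algebra.norm L (x : L') := rfl
  have hynp : ¬ ∃ b : L, (y : L) = b ^ p := by rw [hyc]; exact hcon
  -- the excluded primes
  have hxfin : {w : HeightOneSpectrum (𝓞 L') | x ∈ w.asIdeal}.Finite := by
    have h1 := Ideal.finite_factors (I := Ideal.span {x})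
      (by rw [Ne, Ideal.zero_eq_bot, Ideal.span_singleton_eq_bot]; exact hx)
    refine h1.subset ?_
    intro w hw
    rw [Set.mem_ofPred_eq, Ideal.dvd_span_singleton]
    exact hw
  have hT : ((fun w : HeightOneSpectrum (𝓞 L') => w.under (𝓞 L)) ''
      (S' ∪ {w : HeightOneSpectrum (𝓞 L') | x ∈ w.asIdeal})).Finite := (hS'.union hxfin).image _
  obtain ⟨v, hvT, hpv, hyv, hsymb⟩ := h38_exists_symb_ne_zero hp hζ y hynp _ hT
  have hgood : ∀ w : HeightOneSpectrum (𝓞 L'), w.asIdeal.LiesOver v.asIdeal →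
      w ∉ S' ∧ x ∉ w.asIdeal := by
    intro w hw
    have hwv : w.under (𝓞 L) = v := HeightOneSpectrum.ext hw.over.symm
    exact ⟨fun h => hvT ⟨w, Or.inl h, hwv⟩, fun h => hvT ⟨w, Or.inr h, hwv⟩⟩
  -- SYMBOL-NORM
  have hsn := h38_symb_norm hp hζ v hpv x (fun w hw => (hgood w hw).2) y hyc
  -- capitulation and reciprocity
  obtain ⟨m, c, hm, hc⟩ := hcap v
  have hrec' := hrec c (fun w hwS hwc => by
    by_cases hw : w.asIdeal.LiesOver v.asIdeal
    · exact (hgood w hw).2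
    · exact absurd ((hc w hwS).2 hw) hwc)
  rw [h38_finsum_subtype (fun w : HeightOneSpectrum (𝓞 L') => w ∉ S')
    (fun w => Multiplicative.toAdd (w.valuationOfNeZero c) •
      h38_symb p (algebraMap (𝓞 L) (𝓞 L') ζ) w x)] at hrec'
  rw [h38_finsum_subtype (fun w : HeightOneSpectrum (𝓞 L') => w.asIdeal.LiesOver v.asIdeal)
    (fun w => (w.asIdeal.ramificationIdx (𝓞 L)) •
      h38_symb p (algebraMap (𝓞 L) (𝓞 L') ζ) w x)] at hsn
  have hpt : ∀ w : HeightOneSpectrum (𝓞 L'),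
      (if w ∉ S' then Multiplicative.toAdd (w.valuationOfNeZero c) •
        h38_symb p (algebraMap (𝓞 L) (𝓞 L') ζ) w x else 0) =
      (-(m : ZMod p)) * (if w.asIdeal.LiesOver v.asIdeal then
        (w.asIdeal.ramificationIdx (𝓞 L)) •
          h38_symb p (algebraMap (𝓞 L) (𝓞 L') ζ) w x else 0) := by
    intro w
    by_cases hw : w.asIdeal.LiesOver v.asIdeal
    · rw [if_pos (hgood w hw).1, if_pos hw, (hc w (hgood w hw).1).1 hw, toAdd_ofAdd]
      simp only [zsmul_eq_mul, nsmul_eq_mul]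
      push_cast
      ring
    · rw [if_neg hw, mul_zero]
      by_cases hwS : w ∉ S'
      · rw [if_pos hwS, (hc w hwS).2 hw, toAdd_one, zero_smul]
      · rw [if_neg hwS]
  rw [finsum_congr hpt, ← mul_finsum, ← hsn] at hrec'
  have hm0 : (m : ZMod p) ≠ 0 := by
    rw [Ne, ZMod.natCast_eq_zero_iff]
    intro hdvd
    have := Nat.Coprime.eq_one_of_dvd hm.symm hdvd
    exact hp.ne_one this
  rcases mul_eq_zero.mp hrec' with h | h
  · exact hm0 (neg_eq_zero.mp h)
  · exact hsymb h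

/-- The capitulation hypothesis of `h38_unorm_core` from the capitulation data of
`h38_capit_data` and `p ^ k`-th roots in `L'` of the elements of `U`. -/
theorem h38_hcap_of_roots {p : ℕ} (hp : p.Prime)
    {L L' : Type*} [Field L] [NumberField L] [Field L'] [NumberField L'] [Algebra L L']
    (k m : ℕ) (hm : m.Coprime p) (U : Finset (𝓞 L)) (hU0 : ∀ u ∈ U, u ≠ 0)
    (hdata : ∀ v : HeightOneSpectrum (𝓞 L), ∃ (t : Lˣ) (u : 𝓞 L), u ∈ U ∧
      v.valuation L ((t : L) ^ (p ^ k) * (u : L)) = WithZero.exp (-((p ^ k * m : ℕ) : ℤ)) ∧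
      ∀ v' : HeightOneSpectrum (𝓞 L), v' ≠ v →
        v'.valuation L ((t : L) ^ (p ^ k) * (u : L)) = 1)
    (hroot : ∀ u ∈ U, ∃ β : L', β ^ (p ^ k) = algebraMap L L' (u : L))
    (S' : Set (HeightOneSpectrum (𝓞 L'))) (v : HeightOneSpectrum (𝓞 L)) :
    ∃ (m' : ℕ) (c : L'ˣ), m'.Coprime p ∧
      ∀ w : HeightOneSpectrum (𝓞 L'), w ∉ S' →
        (w.asIdeal.LiesOver v.asIdeal → w.valuationOfNeZero c =
          Multiplicative.ofAdd (-((m' * w.asIdeal.ramificationIdx (𝓞 L) : ℕ) : ℤ))) ∧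
        (¬ w.asIdeal.LiesOver v.asIdeal → w.valuationOfNeZero c = 1) := by
  obtain ⟨t, u, hu, hz1, hz2⟩ := hdata v
  obtain ⟨β, hβ⟩ := hroot u hu
  have hβ0 : β ≠ 0 := by
    rintro rfl
    rw [zero_pow (pow_ne_zero k hp.ne_zero)] at hβ
    have h1 : (u : L) = 0 := by
      have := hβ.symm
      rwa [map_eq_zero] at this
    exact hU0 u hu (RingOfIntegers.ext h1)
  refine ⟨m, Units.map (algebraMap L L' : L →* L') t * Units.mk0 β hβ0, hm, fun w _ => ?_⟩
  refine h38_capit_of_root (p ^ k) m (pow_ne_zero k hp.ne_zero) v _ hz1 hz2 _ ?_ w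
  rw [Units.val_mul, Units.coe_map, Units.val_mk0, mul_pow, hβ, map_mul, map_pow]
  rfl

/-- **GLOB-UNORM, core, with the capitulation data plugged in**: if `L'/L` is Galois, contains
`p ^ k`-th roots of the capitulation elements `U` of `L` (`h38_capit_data`), and `x : 𝓞 L'`
satisfies reciprocity, then `N_{L'/L} x` is a `p`-th power in `L`. -/
theorem h38_unorm_of_roots {p : ℕ} (hp : p.Prime)
    {L L' : Type*} [Field L] [NumberField L] [Field L'] [NumberField L'] [Algebra L L']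
    [IsGalois L L'] {ζ : 𝓞 L} (hζ : IsPrimitiveRoot ζ p)
    (k m : ℕ) (hm : m.Coprime p) (U : Finset (𝓞 L)) (hU0 : ∀ u ∈ U, u ≠ 0)
    (hdata : ∀ v : HeightOneSpectrum (𝓞 L), ∃ (t : Lˣ) (u : 𝓞 L), u ∈ U ∧
      v.valuation L ((t : L) ^ (p ^ k) * (u : L)) = WithZero.exp (-((p ^ k * m : ℕ) : ℤ)) ∧
      ∀ v' : HeightOneSpectrum (𝓞 L), v' ≠ v →
        v'.valuation L ((t : L) ^ (p ^ k) * (u : L)) = 1)
    (hroot : ∀ u ∈ U, ∃ β : L', β ^ (p ^ k) = algebraMap L L' (u : L))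
    (S' : Set (HeightOneSpectrum (𝓞 L'))) (hS' : S'.Finite)
    (x : 𝓞 L') (hx : x ≠ 0)
    (hrec : ∀ c : L'ˣ,
      (∀ w : HeightOneSpectrum (𝓞 L'), w ∉ S' → w.valuationOfNeZero c ≠ 1 → x ∉ w.asIdeal) →
      ∑ᶠ w : {w : HeightOneSpectrum (𝓞 L') // w ∉ S'},
        Multiplicative.toAdd (w.1.valuationOfNeZero c) •
          h38_symb p (algebraMap (𝓞 L) (𝓞 L') ζ) w.1 x = 0) :
    ∃ b : L, Algebra.norm L (x : L') = b ^ p :=
  h38_unorm_core hp hζ S' hS' (h38_hcap_of_roots hp k m hm U hU0 hdata hroot S') x hx hrec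

end Fermat.Agent.S55
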