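/-
S55 layer H (helper40): the `p`-torsion of `H²` of a `p`-class module.

For a `p`-class module `C` of a finite group `G`:
* `h40_ppart_kill₂` : `|G|_p` kills `H²(G, C)` (any `p`-local module);
* `h40_class_cob_iff` : for a fundamental cocycle `u`, `k • u` is a coboundary iff `|G|_p ∣ k`;
* `h40_class_tors_exists` : if `p ∣ |G|` there is a 2-cocycle `t` with `p • t ~ 0`, `t ≁ 0`;
* `h40_class_tors_gen` : ANY such `t` generates the `p`-torsion of `H²(G, C)`, which is cyclic of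
  order `p`: `k • t ~ 0 → p ∣ k`, and every 2-cocycle `z` with `p • z ~ 0` is `~ k • t`;
* `h40_class_tors_inf` / `h40_class_tors_lift` : the same for the inflation of `t` to a bigger
  group `G' ↠ G` (with `C = C'^{ker}`), `C'` a `p`-class module of `G'`.
These are the finite-level facts behind "the `p`-torsion of `H²_S(G_ℚ, CC)` is cyclic of order `p`".
-/
import Mathlib
import Fermat.Agent.S55.h72_AbsDefs
import Fermat.Agent.S55.h40_HDefs
import Fermat.Agent.S55.h40_InfRes
import Fermat.Agent.S55.h83_Kill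

set_option autoImplicit false

namespace Fermat.Agent.S55

open groupCohomology

section Basic

variable {G : Type*} [Group G] {A : Type*} [AddCommGroup A] [DistribMulAction G A]

lemma h40_cob₂_zero : IsCoboundary₂ (0 : G × G → A) :=
  ⟨0, fun g h => by simp⟩

lemma h40_cob₂_add {f f' : G × G → A} (hf : IsCoboundary₂ f) (hf' : IsCoboundary₂ f') :
    IsCoboundary₂ (f + f') := by
  obtain ⟨x, hx⟩ := hf
  obtain ⟨x', hx'⟩ := hf'
  refine ⟨x + x', fun g h => ?_⟩
  show g • (x h + x' h) - (x (g * h) + x' (g * h)) + (x g + x' g) = f (g, h) + f' (g, h)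
  rw [← hx, ← hx', smul_add]
  abel

lemma h40_cob₂_neg {f : G × G → A} (hf : IsCoboundary₂ f) : IsCoboundary₂ (-f) := by
  obtain ⟨x, hx⟩ := hf
  refine ⟨-x, fun g h => ?_⟩
  show g • (-x h) - (-x (g * h)) + (-x g) = -f (g, h)
  rw [← hx, smul_neg]
  abel

lemma h40_cob₂_sub {f f' : G × G → A} (hf : IsCoboundary₂ f) (hf' : IsCoboundary₂ f') :
    IsCoboundary₂ (f - f') := by
  rw [sub_eq_add_neg]
  exact h40_cob₂_add hf (h40_cob₂_neg hf')

lemma h40_cob₂_zsmul {f : G × G → A} (hf : IsCoboundary₂ f) (m : ℤ) :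
    IsCoboundary₂ (m • f) := by
  obtain ⟨x, hx⟩ := hf
  refine ⟨m • x, fun g h => ?_⟩
  show g • (m • x h) - m • x (g * h) + m • x g = m • f (g, h)
  rw [← hx, smul_comm g m (x h), zsmul_add, zsmul_sub]

lemma h40_cob₂_nsmul {f : G × G → A} (hf : IsCoboundary₂ f) (m : ℕ) :
    IsCoboundary₂ (m • f) := by
  have h := h40_cob₂_zsmul hf (m : ℤ)
  rwa [natCast_zsmul] at h

/-- If `f ~ f'` and `f'` is a coboundary then `f` is. -/
lemma h40_cob₂_of_sub {f f' : G × G → A} (h : IsCoboundary₂ (f - f')) (hf' : IsCoboundary₂ f') :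
    IsCoboundary₂ f := by
  have := h40_cob₂_add h hf'
  rwa [sub_add_cancel] at this

/-- If `f ~ f'` and `f` is a coboundary then `f'` is. -/
lemma h40_cob₂_of_sub' {f f' : G × G → A} (h : IsCoboundary₂ (f - f')) (hf : IsCoboundary₂ f) :
    IsCoboundary₂ f' := by
  have := h40_cob₂_sub hf h
  rwa [sub_sub_cancel] at this

lemma h40_cocycle₂_nsmul {f : G × G → A} (hf : IsCocycle₂ f) (m : ℕ) : IsCocycle₂ (m • f) := by
  intro g h j
  show m • f (g * h, j) + m • f (g, h) = g • (m • f (h, j)) + m • f (g, h * j)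
  rw [smul_comm g m, ← nsmul_add, ← nsmul_add, hf g h j]

end Basic

section Class

variable {p : ℕ} [Fact p.Prime] {G : Type*} [Group G] [Finite G] {C : Type*} [AddCommGroup C]
  [DistribMulAction G C]

/-- `|G|_p` kills `H²(G, C)` for a `p`-local module `C`. -/
theorem h40_ppart_kill₂ (hC : h40_IsPLocal p C) (f : G × G → C) (hf : IsCocycle₂ f) :
    IsCoboundary₂ (p ^ (Nat.card G).factorization p • f) := by
  have hp : p.Prime := Fact.out
  have hcard : Nat.card G ≠ 0 := Nat.card_pos.ne'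
  have hkm : p ^ (Nat.card G).factorization p * (Nat.card G / p ^ (Nat.card G).factorization p)
      = Nat.card G := Nat.ordProj_mul_ordCompl_eq_self (Nat.card G) p
  have hcop : (Nat.card G / p ^ (Nat.card G).factorization p).Coprime p :=
    (Nat.coprime_ordCompl hp hcard).symm
  obtain ⟨f', hf'c, hf'⟩ := h83_exists_div₂ _ (hC _ hcop) f hf
  have h2 := h83_kill₂ f' hf'c
  rwa [← hkm, mul_smul, hf'] at h2

/-- If `p ∤ |G|`, then `H²(G, C) = 0` for a `p`-local module `C`. -/
theorem h40_H2_zero_of_not_dvd (hC : h40_IsPLocal p C) (hpG : ¬ p ∣ Nat.card G)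
    (f : G × G → C) (hf : IsCocycle₂ f) : IsCoboundary₂ f := by
  have h := h40_ppart_kill₂ hC f hf
  rwa [Nat.factorization_eq_zero_of_not_dvd hpG, pow_zero, one_smul] at h

/-- For a fundamental cocycle `u` of a `p`-class module: `k • u ~ 0 ↔ |G|_p ∣ k`. -/
theorem h40_class_cob_iff (hploc : h40_IsPLocal p C) (u : G × G → C) (hu : IsCocycle₂ u)
    (hord : ∀ k : ℕ, IsCoboundary₂ (k • u) → p ^ ((Nat.card G).factorization p) ∣ k) (k : ℕ) :
    IsCoboundary₂ (k • u) ↔ p ^ ((Nat.card G).factorization p) ∣ k := by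
  refine ⟨hord k, ?_⟩
  rintro ⟨c, rfl⟩
  rw [mul_comm, mul_smul]
  exact h40_cob₂_nsmul (h40_ppart_kill₂ hploc u hu) c

/-- The fundamental data over `G` itself, in plain predicates. -/
theorem h40_class_fund (hC : IsPClassModule p G C) :
    ∃ u : G × G → C, IsCocycle₂ u ∧
      (∀ f : G × G → C, IsCocycle₂ f → ∃ k : ℕ, IsCoboundary₂ (f - k • u)) ∧
      (∀ k : ℕ, IsCoboundary₂ (k • u) ↔ p ^ ((Nat.card G).factorization p) ∣ k) := by
  obtain ⟨u, hu, hfund⟩ := hC.fund
  have hord : ∀ k : ℕ, IsCoboundary₂ (k • u) → p ^ ((Nat.card G).factorization p) ∣ k := by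
    intro k hk
    have h := (hfund ⊤).2 k (by
      obtain ⟨x, hx⟩ := hk
      exact ⟨fun g => x (g : G), fun g h => hx (g : G) (h : G)⟩)
    rwa [Subgroup.card_top] at h
  refine ⟨u, hu, fun f hf => ?_, fun k => h40_class_cob_iff hC.ploc u hu hord k⟩
  obtain ⟨k, x, hx⟩ := (hfund ⊤).1 (fun y => f ((y.1 : G), (y.2 : G)))
    (fun g h j => hf (g : G) h j)
  exact ⟨k, fun g => x ⟨g, Subgroup.mem_top g⟩,
    fun g h => hx ⟨g, Subgroup.mem_top g⟩ ⟨h, Subgroup.mem_top h⟩⟩

/-- If `p ∣ |G|`, the `p`-torsion of `H²(G, C)` is nonzero. -/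
theorem h40_class_tors_exists (hC : IsPClassModule p G C) (hpG : p ∣ Nat.card G) :
    ∃ t : G × G → C, IsCocycle₂ t ∧ IsCoboundary₂ (p • t) ∧ ¬ IsCoboundary₂ t := by
  have hp : p.Prime := Fact.out
  obtain ⟨u, hu, -, hord⟩ := h40_class_fund hC
  have hN : (Nat.card G).factorization p ≠ 0 := by
    have hcard : Nat.card G ≠ 0 := Nat.card_pos.ne'
    exact (Nat.Prime.factorization_pos_of_dvd hp hcard hpG).ne'
  obtain ⟨N, hN'⟩ := Nat.exists_eq_succ_of_ne_zero hN
  refine ⟨p ^ N • u, h40_cocycle₂_nsmul hu _, ?_, ?_⟩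
  · rw [← mul_smul, ← pow_succ', hord, hN']
  · rw [hord, hN', pow_succ]
    intro h
    have h1 : p ^ N * p ≤ p ^ N := Nat.le_of_dvd (pow_pos hp.pos N) h
    have h2 : p ^ N * 2 ≤ p ^ N * p := Nat.mul_le_mul_left _ hp.two_le
    have h3 : 0 < p ^ N := pow_pos hp.pos N
    omega

omit [Fact p.Prime] [Finite G] in
/-- Integer multiples of a fundamental cocycle by multiples of `|G|_p` are coboundaries. -/
lemma h40_class_cob_int (u : G × G → C) (N : ℕ) (hord : IsCoboundary₂ (p ^ N • u)) (m : ℤ)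
    (h : ((p ^ N : ℕ) : ℤ) ∣ m) : IsCoboundary₂ (m • u) := by
  obtain ⟨c, rfl⟩ := h
  rw [mul_comm, mul_smul, natCast_zsmul]
  exact h40_cob₂_zsmul hord c

/-- The `p`-torsion of `H²(G, C)` is cyclic of order `p`, generated by ANY nonzero `p`-torsion
class. -/
theorem h40_class_tors_gen (hC : IsPClassModule p G C) (t : G × G → C) (ht : IsCocycle₂ t)
    (hpt : IsCoboundary₂ (p • t)) (hnt : ¬ IsCoboundary₂ t) :
    (∀ k : ℕ, IsCoboundary₂ (k • t) → p ∣ k) ∧
    (∀ z : G × G → C, IsCocycle₂ z → IsCoboundary₂ (p • z) →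
      ∃ k : ℕ, IsCoboundary₂ (z - k • t)) := by
  have hp : p.Prime := Fact.out
  obtain ⟨u, hu, hgen, hord⟩ := h40_class_fund hC
  obtain ⟨N, hN⟩ : ∃ N, N = (Nat.card G).factorization p := ⟨_, rfl⟩
  rw [← hN] at hord
  -- generic: a `p`-torsion cocycle is `~ b • u` with `p^N ∣ p * b`
  have key : ∀ z : G × G → C, IsCocycle₂ z → IsCoboundary₂ (p • z) →
      ∃ b : ℕ, IsCoboundary₂ (z - b • u) ∧ p ^ N ∣ p * b := by
    intro z hz hpz
    obtain ⟨b, hb⟩ := hgen z hz
    refine ⟨b, hb, (hord _).1 ?_⟩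
    have e1 : p • z - (p * b) • u = p • (z - b • u) := by rw [smul_sub, mul_smul]
    exact h40_cob₂_of_sub' (e1 ▸ h40_cob₂_nsmul hb p) hpz
  obtain ⟨a, ha, h1⟩ := key t ht hpt
  have h2 : ¬ p ^ N ∣ a := fun h => hnt (h40_cob₂_of_sub ha ((hord a).2 h))
  cases N with
  | zero => exact absurd (by simp) h2
  | succ N =>
    have h3 : p ^ N ∣ a := by
      rw [pow_succ'] at h1
      exact (Nat.mul_dvd_mul_iff_left hp.pos).1 h1
    obtain ⟨a', rfl⟩ := h3
    have h4 : ¬ p ∣ a' := fun h => h2 (by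
      rw [pow_succ]
      exact Nat.mul_dvd_mul_left _ h)
    refine ⟨fun k hk => ?_, fun z hz hpz => ?_⟩
    · have e1 : k • t - (k * (p ^ N * a')) • u = k • (t - (p ^ N * a') • u) := by
        rw [smul_sub, mul_smul]
      have h5 : p ^ (N + 1) ∣ k * (p ^ N * a') :=
        (hord _).1 (h40_cob₂_of_sub' (e1 ▸ h40_cob₂_nsmul ha k) hk)
      have h6 : p ∣ k * a' := by
        rw [pow_succ, mul_left_comm] at h5
        exact (Nat.mul_dvd_mul_iff_left (pow_pos hp.pos N)).1 h5
      rcases (Nat.Prime.dvd_mul hp).1 h6 with h | h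
      · exact h
      · exact absurd h h4
    · obtain ⟨b, hb, hb1⟩ := key z hz hpz
      have hb3 : p ^ N ∣ b := by
        rw [pow_succ'] at hb1
        exact (Nat.mul_dvd_mul_iff_left hp.pos).1 hb1
      obtain ⟨b', rfl⟩ := hb3
      -- invert `a'` mod `p`
      have hcop : Nat.Coprime a' p := ((Nat.Prime.coprime_iff_not_dvd hp).2 h4).symm
      obtain ⟨m, -, hm⟩ := Nat.exists_mul_mod_eq_one_of_coprime hcop hp.one_lt
      obtain ⟨e, he⟩ : ∃ e : ℕ, a' * m = p * e + 1 := ⟨a' * m / p, by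
        have := Nat.div_add_mod (a' * m) p
        rw [hm] at this
        exact this.symm⟩
      have hm' : ((a' : ℤ) * m) = p * (e : ℤ) + 1 := by exact_mod_cast he
      refine ⟨m * b', ?_⟩
      have hX : IsCoboundary₂ ((p ^ N * b') • u - (m * b' * (p ^ N * a')) • u) := by
        have e2 : (p ^ N * b') • u - (m * b' * (p ^ N * a')) • u
            = (((p ^ N * b' : ℕ) : ℤ) - ((m * b' * (p ^ N * a') : ℕ) : ℤ)) • u := by
          rw [sub_smul, natCast_zsmul, natCast_zsmul]
        rw [e2]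
        refine h40_class_cob_int u (N + 1) ((hord _).2 dvd_rfl) _ ⟨-((b' : ℤ) * (e : ℤ)), ?_⟩
        push_cast
        linear_combination (-(p : ℤ) ^ N * b') * hm'
      have e3 : z - (m * b') • t = (z - (p ^ N * b') • u) - (m * b') • (t - (p ^ N * a') • u)
          + ((p ^ N * b') • u - (m * b' * (p ^ N * a')) • u) := by
        rw [smul_sub, mul_smul (m * b') (p ^ N * a') u]
        abel
      rw [e3]
      exact h40_cob₂_add (h40_cob₂_sub hb (h40_cob₂_nsmul ha _)) hX

end Class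

section Inflation

variable {p : ℕ} [Fact p.Prime] {G' G : Type*} [Group G'] [Group G] [Finite G']
  {C' C : Type*} [AddCommGroup C'] [DistribMulAction G' C'] [AddCommGroup C]
  [DistribMulAction G C]

omit [Fact p.Prime] [Finite G'] in
/-- Inflation to a `p`-class module of a bigger group preserves non-triviality of classes. -/
theorem h40_class_tors_inf (π : G' →* G) (hπ : Function.Surjective π) (ι : C →+ C')
    (hι : Function.Injective ι) (hιeq : ∀ (g : G') (c : C), ι (π g • c) = g • ι c)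
    (hιfix : ∀ c' : C', (∀ s ∈ π.ker, s • c' = c') → c' ∈ ι.range)
    (hC' : IsPClassModule p G' C') (t : G × G → C) (ht : IsCocycle₂ t)
    (hnt : ¬ IsCoboundary₂ t) :
    ¬ IsCoboundary₂ (fun x : G' × G' => ι (t (π x.1, π x.2))) :=
  fun h => hnt (h40_E8b π ι hπ hι hιeq hιfix (hC'.h1 π.ker) t ht h)

/-- The inflation of a nonzero `p`-torsion class from a quotient generates the `p`-torsion of
`H²(G', C')` (cyclic of order `p`). -/
theorem h40_class_tors_lift (π : G' →* G) (hπ : Function.Surjective π) (ι : C →+ C')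
    (hι : Function.Injective ι) (hιeq : ∀ (g : G') (c : C), ι (π g • c) = g • ι c)
    (hιfix : ∀ c' : C', (∀ s ∈ π.ker, s • c' = c') → c' ∈ ι.range)
    (hC' : IsPClassModule p G' C') (t : G × G → C) (ht : IsCocycle₂ t)
    (hpt : IsCoboundary₂ (p • t)) (hnt : ¬ IsCoboundary₂ t) :
    (∀ k : ℕ, IsCoboundary₂ (k • fun x : G' × G' => ι (t (π x.1, π x.2))) → p ∣ k) ∧
    (∀ z' : G' × G' → C', IsCocycle₂ z' → IsCoboundary₂ (p • z') →
      ∃ k : ℕ, IsCoboundary₂ (z' - k • fun x : G' × G' => ι (t (π x.1, π x.2)))) := by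
  refine h40_class_tors_gen hC' _ (h40_inf₂_isCocycle₂ π ι hιeq ht) ?_
    (h40_class_tors_inf π hπ ι hι hιeq hιfix hC' t ht hnt)
  obtain ⟨x, hx⟩ := hpt
  refine ⟨fun g => ι (x (π g)), fun g h => ?_⟩
  show g • ι (x (π h)) - ι (x (π (g * h))) + ι (x (π g)) = p • ι (t (π g, π h))
  rw [← hιeq, map_mul, ← map_sub, ← map_add, hx, ← map_nsmul]
  rfl

end Inflation

end Fermat.Agent.S55
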