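/-
S55, GLOB-UNORM, reciprocity (R1), piece FP1 (= R1-C = UB1 = RC-B2), helper40.

`K ⊆ E` number fields (types), `E/K` Galois, `w` a prime of `K` not above `S`, `W` a prime of `E`
over `w` with `e(W|w) = 1`.  For every subgroup `H'` of `Gal(E/K)` containing the stabiliser of
`W`, the class of (the extension to `E` of) the prime divisor `[w]` is a relative norm from the
`H'`-invariants of the class module of `E`:

* `h40_fp1`      : in `h2_PL p (Additive (h25_C E S))`  (helper38's `sk_fp1` verbatim);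
* `h40_fp1_add`  : in `Additive (h25_C E S)` (unlocalised);
* `h40_isRelNorm_iff_transversal` : `h12_IsRelNorm` in terms of arbitrary transversals.

The proof is orbit combinatorics in `Div(E)`: `ext [w] = Σ_{W' ∈ G·W} [W']` (transitivity, `e = 1`)
and `G·W = ⨆_{q ∈ G/H'} q.out • (H'·W)` because `Stab(W) ≤ H'`.
-/
import Mathlib
import Fermat.Agent.S55.h25_GlobDefs
import Fermat.Agent.S55.h28_GlobAct
import Fermat.Agent.S55.h81_GlobDescX
import Fermat.Agent.S55.h10_DescDiv
import Fermat.Agent.S55.h66_GlobFunc2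
import Fermat.Agent.S55.h90_GlobCAct
import Fermat.Agent.S55.h2_PLoc
import Fermat.Agent.S55.h2_AddUnits
import Fermat.Agent.S55.h12_Cup

set_option autoImplicit false

open IsDedekindDomain NumberField

namespace Fermat.Agent.S55

noncomputable section

/-! ### Abstract part: relative norms, transversals and orbit sums -/

section Abstract

variable {G : Type*} [Group G] {M : Type*} [AddCommGroup M] [DistribMulAction G M]

/-- The relative norm of an `H`-fixed element is the sum over any transversal of `H` in `G`. -/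
theorem h40_relNorm_eq_sum_transversal [Finite G] (H : Subgroup G) (c : M)
    (hc : ∀ h ∈ H, h • c = c) (T : Finset G) (hT : ∀ g : G, ∃! t, t ∈ T ∧ t⁻¹ * g ∈ H) :
    h12_relNorm H c = ∑ t ∈ T, t • c := by
  classical
  have : Fintype (G ⧸ H) := Fintype.ofFinite _
  unfold h12_relNorm
  rw [finsum_eq_sum_of_fintype]
  symm
  refine Finset.sum_bij (fun t _ => (t : G ⧸ H)) (fun _ _ => Finset.mem_univ _) ?_ ?_ ?_
  · intro t₁ h₁ t₂ h₂ h12
    obtain ⟨t, -, htu⟩ := hT t₂
    have e1 : t₁ = t := htu t₁ ⟨h₁, QuotientGroup.eq.1 h12⟩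
    have e2 : t₂ = t := htu t₂ ⟨h₂, by rw [inv_mul_cancel]; exact H.one_mem⟩
    rw [e1, e2]
  · intro q _
    obtain ⟨t, ⟨htT, htq⟩, -⟩ := hT (Quotient.out q)
    refine ⟨t, htT, ?_⟩
    have : (t : G ⧸ H) = ((Quotient.out q : G) : G ⧸ H) := QuotientGroup.eq.2 htq
    rw [this]
    exact QuotientGroup.out_eq' q
  · intro t _
    exact (h12_out_smul H c hc t).symm

/-- `h12_IsRelNorm` in terms of transversals. -/
theorem h40_isRelNorm_iff_transversal [Finite G] (H : Subgroup G) (c : M) :
    h12_IsRelNorm H c ↔ ∃ c' : M, (∀ h ∈ H, h • c' = c') ∧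
      ∀ T : Finset G, (∀ g : G, ∃! t, t ∈ T ∧ t⁻¹ * g ∈ H) → c = ∑ t ∈ T, t • c' := by
  classical
  constructor
  · rintro ⟨c', hc', rfl⟩
    exact ⟨c', hc', fun T hT => h40_relNorm_eq_sum_transversal H c' hc' T hT⟩
  · rintro ⟨c', hc', h⟩
    refine ⟨c', hc', ?_⟩
    have : Fintype (G ⧸ H) := Fintype.ofFinite _
    -- the transversal `q ↦ q.out`
    let T : Finset G := Finset.univ.image (fun q : G ⧸ H => (Quotient.out q : G))
    have hT : ∀ g : G, ∃! t, t ∈ T ∧ t⁻¹ * g ∈ H := by
      intro g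
      refine ⟨Quotient.out (g : G ⧸ H), ⟨Finset.mem_image.2 ⟨_, Finset.mem_univ _, rfl⟩, ?_⟩, ?_⟩
      · exact QuotientGroup.eq.1 (QuotientGroup.out_eq' (g : G ⧸ H))
      · rintro t ⟨htT, htg⟩
        obtain ⟨q, -, rfl⟩ := Finset.mem_image.1 htT
        have : q = (g : G ⧸ H) := by
          rw [← QuotientGroup.out_eq' q]
          exact QuotientGroup.eq.2 htg
        rw [this]
    rw [h T hT]
    exact (h40_relNorm_eq_sum_transversal H c' hc' T hT).symm

/-- A relative norm is mapped to a relative norm by an equivariant additive map. -/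
theorem h40_isRelNorm_map [Finite G] {N : Type*} [AddCommGroup N] [DistribMulAction G N]
    (φ : M →+ N) (hφ : ∀ (g : G) (m : M), φ (g • m) = g • φ m) (H : Subgroup G) (c : M)
    (h : h12_IsRelNorm H c) : h12_IsRelNorm H (φ c) := by
  obtain ⟨c', hc', rfl⟩ := h
  refine ⟨φ c', fun h hh => by rw [← hφ, hc' h hh], ?_⟩
  unfold h12_relNorm
  rw [map_finsum φ (Set.toFinite _)]
  exact finsum_congr fun q => hφ _ _

/-- **Orbit sums are relative norms.**  `G` finite acting on `X` (through `a`), `e : X → M`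
equivariant, `H ≤ G` containing the stabiliser of `x₀`: the sum of `e` over the `G`-orbit of `x₀`
is the relative norm of its sum over the `H`-orbit. -/
theorem h40_orbit_relNorm [Finite G] {X : Type*} (a : G → X → X) (ha1 : ∀ x, a 1 x = x)
    (hamul : ∀ g g' x, a (g * g') x = a g (a g' x)) (e : X → M)
    (he : ∀ (g : G) (x : X), e (a g x) = g • e x) (H : Subgroup G) (x₀ : X)
    (hstab : ∀ g : G, a g x₀ = x₀ → g ∈ H) :
    ∃ m' : M, (∀ h ∈ H, h • m' = m') ∧
      ∑ᶠ x ∈ Set.range (fun g : G => a g x₀), e x = h12_relNorm H m' := by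
  classical
  have hinj : ∀ g : G, Function.Injective (a g) := by
    intro g x y hxy
    have := congrArg (a g⁻¹) hxy
    rwa [← hamul, ← hamul, inv_mul_cancel, ha1, ha1] at this
  set OH : Set X := (fun g : G => a g x₀) '' (H : Set G) with hOH
  have hOHfin : OH.Finite := (Set.toFinite (H : Set G)).image _
  have hsmul : ∀ g : G, g • (∑ᶠ x ∈ OH, e x) = ∑ᶠ x ∈ OH, e (a g x) := by
    intro g
    have h1 := AddMonoidHom.map_finsum_mem e (DistribSMul.toAddMonoidHom M g) hOHfin
    simp only [DistribSMul.toAddMonoidHom_apply] at h1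
    rw [h1]
    exact finsum_mem_congr rfl fun x _ => (he g x).symm
  refine ⟨∑ᶠ x ∈ OH, e x, fun h hh => ?_, ?_⟩
  · -- `H`-invariance: `a h` permutes the `H`-orbit
    rw [hsmul h]
    refine finsum_mem_eq_of_bijOn (a h) ⟨?_, (hinj h).injOn, ?_⟩ (fun x _ => rfl)
    · rintro _ ⟨g, hg, rfl⟩
      exact ⟨h * g, H.mul_mem hh hg, hamul h g x₀⟩
    · rintro _ ⟨g, hg, rfl⟩
      refine ⟨a (h⁻¹ * g) x₀, ⟨h⁻¹ * g, H.mul_mem (H.inv_mem hh) hg, rfl⟩, ?_⟩
      show a h (a (h⁻¹ * g) x₀) = a g x₀
      rw [← hamul, mul_inv_cancel_left]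
  · -- the `G`-orbit is the disjoint union of the translates of the `H`-orbit
    unfold h12_relNorm
    have hU : Set.range (fun g : G => a g x₀) =
        ⋃ q : G ⧸ H, (a (Quotient.out q : G)) '' OH := by
      ext x
      simp only [Set.mem_range, Set.mem_iUnion, Set.mem_image]
      constructor
      · rintro ⟨g, rfl⟩
        obtain ⟨h, hh⟩ := QuotientGroup.mk_out_eq_mul H g
        refine ⟨(g : G ⧸ H), a (h⁻¹ : H) x₀, ⟨((h⁻¹ : H) : G), (h⁻¹ : H).2, rfl⟩, ?_⟩
        rw [hh, ← hamul]
        congr 1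
        simp
      · rintro ⟨q, _, ⟨g, -, rfl⟩, rfl⟩
        exact ⟨Quotient.out q * g, hamul _ _ _⟩
    have hdisj : Pairwise (Function.onFun Disjoint
        (fun q : G ⧸ H => (a (Quotient.out q : G)) '' OH)) := by
      intro q q' hqq'
      rw [Function.onFun, Set.disjoint_left]
      rintro _ ⟨_, ⟨g, hg, rfl⟩, rfl⟩ ⟨_, ⟨g', hg', rfl⟩, h2⟩
      apply hqq'
      have h3 : a ((Quotient.out q' * g')⁻¹ * (Quotient.out q * g)) x₀ = x₀ := by
        have h4 : a (Quotient.out q' * g') x₀ = a (Quotient.out q * g) x₀ := by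
          rw [hamul, hamul]
          exact h2
        rw [hamul, ← h4, ← hamul, inv_mul_cancel, ha1]
      have h5 := hstab _ h3
      have h6 : (Quotient.out q')⁻¹ * Quotient.out q ∈ H := by
        have h7 : (Quotient.out q')⁻¹ * Quotient.out q =
            g' * ((Quotient.out q' * g')⁻¹ * (Quotient.out q * g)) * g⁻¹ := by group
        rw [h7]
        exact H.mul_mem (H.mul_mem hg' h5) (H.inv_mem hg)
      have h8 : ((Quotient.out q' : G) : G ⧸ H) = ((Quotient.out q : G) : G ⧸ H) :=
        QuotientGroup.eq.2 h6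
      rw [QuotientGroup.out_eq', QuotientGroup.out_eq'] at h8
      exact h8.symm
    rw [hU, finsum_mem_iUnion hdisj (fun q => hOHfin.image _)]
    refine finsum_congr fun q => ?_
    rw [finsum_mem_image ((hinj _).injOn), hsmul]

end Abstract

/-! ### The class of a divisor -/

section DivClass

variable {E : Type*} [Field E] [NumberField E] (S : Finset Nat.Primes)

/-- The class of a divisor of `E` prime to `S`, in the additive class module. -/
def h40_divClass : h25_Div E S →+ Additive (h25_C E S) where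
  toFun D := Additive.ofMul (h25_mk E S ((1 : h25_J E S), Multiplicative.ofAdd D))
  map_zero' := by
    show Additive.ofMul (h25_mk E S (1 : h25_X E S)) = 0
    rw [map_one]
    rfl
  map_add' D D' := by
    show Additive.ofMul (h25_mk E S ((1 : h25_J E S), Multiplicative.ofAdd (D + D'))) =
      Additive.ofMul (h25_mk E S ((1 : h25_J E S), Multiplicative.ofAdd D) *
        h25_mk E S ((1 : h25_J E S), Multiplicative.ofAdd D'))
    rw [← map_mul]
    congr 2
    refine Prod.ext ?_ rfl
    exact (mul_one (1 : h25_J E S)).symm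

theorem h40_divClass_apply (D : h25_Div E S) :
    h40_divClass S D = Additive.ofMul (h25_mk E S ((1 : h25_J E S), Multiplicative.ofAdd D)) :=
  rfl

variable {K : Type*} [Field K]

/-- The Galois action on divisor classes. -/
theorem h40_divClass_smul [Algebra K E] (σ : E ≃ₐ[K] E) (D : h25_Div E S) :
    σ • h40_divClass S D = h40_divClass S (h25_Dmap S (σ : E →+* E) D) := by
  rw [h40_divClass_apply, h40_divClass_apply, h90_ofMul_smul, h66_Cmap_mk]
  congr 2

/-- Extension of divisor classes. -/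
theorem h40_divClass_ext [NumberField K] [Algebra K E] (d : h25_Div K S) :
    Additive.ofMul (h25_Cmap S (algebraMap K E)
      (h25_mk K S ((1 : h25_J K S), Multiplicative.ofAdd d))) =
      h40_divClass S (h25_Dmap S (algebraMap K E) d) := by
  rw [h40_divClass_apply, h66_Cmap_mk]
  congr 2

end DivClass

/-! ### The extension of a prime divisor is an orbit sum -/

section Orbit

variable {K : Type*} [Field K] [NumberField K] {E : Type*} [Field E] [NumberField E]
  [Algebra K E] (S : Finset Nat.Primes)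

/-- The extension of a divisor is Galois-invariant. -/
theorem h40_Dmap_ext_inv (σ : E ≃ₐ[K] E) (d : h25_Div K S) :
    h25_Dmap S (σ : E →+* E) (h25_Dmap S (algebraMap K E) d) = h25_Dmap S (algebraMap K E) d := by
  have h : (σ : E →+* E).comp (algebraMap K E) = algebraMap K E :=
    RingHom.ext fun x => σ.commutes x
  rw [← AddMonoidHom.comp_apply, ← h66_Dmap_comp, h]

/-- **The extension of a prime `w` unramified in `E`** is the sum of the primes above it, i.e. of
the Galois orbit of any `W | w`. -/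
theorem h40_Dmap_single_eq_orbit [IsGalois K E] (w : h25_Pl K S) (W : h25_Pl E S)
    (hW : h81_underPl S (algebraMap K E) W = w)
    (hunr : W.1.asIdeal.ramificationIdx (𝓞 K) = 1) :
    h25_Dmap S (algebraMap K E) (Finsupp.single w 1) =
      ∑ᶠ W' ∈ Set.range (fun σ : E ≃ₐ[K] E => h28_plMap S σ W), Finsupp.single W' (1 : ℤ) := by
  classical
  have hfin : (Set.range (fun σ : E ≃ₐ[K] E => h28_plMap S σ W)).Finite := Set.finite_range _
  have hW1 : h25_Dmap S (algebraMap K E) (Finsupp.single w 1) W = 1 := by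
    rw [h81_Dmap_apply, hW, h81_count_algebraMap, hunr, Finsupp.single_eq_same]
    simp
  ext W'
  have hR : (∑ᶠ W'' ∈ Set.range (fun σ : E ≃ₐ[K] E => h28_plMap S σ W),
      Finsupp.single W'' (1 : ℤ)) W' =
      if W' ∈ Set.range (fun σ : E ≃ₐ[K] E => h28_plMap S σ W) then 1 else 0 := by
    have h1 := AddMonoidHom.map_finsum_mem (fun W'' : h25_Pl E S => Finsupp.single W'' (1 : ℤ))
      (Finsupp.applyAddHom W') hfin
    simp only [Finsupp.applyAddHom_apply] at h1
    rw [h1, finsum_mem_def, finsum_eq_single _ W']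
    · by_cases hmem : W' ∈ Set.range (fun σ : E ≃ₐ[K] E => h28_plMap S σ W)
      · rw [Set.indicator_of_mem hmem, if_pos hmem, Finsupp.single_eq_same]
      · rw [Set.indicator_of_notMem hmem, if_neg hmem]
    · intro W'' hne
      by_cases hmem : W'' ∈ Set.range (fun σ : E ≃ₐ[K] E => h28_plMap S σ W)
      · rw [Set.indicator_of_mem hmem, Finsupp.single_apply, if_neg hne]
      · rw [Set.indicator_of_notMem hmem]
  rw [hR]
  by_cases hmem : W' ∈ Set.range (fun σ : E ≃ₐ[K] E => h28_plMap S σ W)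
  · rw [if_pos hmem]
    obtain ⟨σ, rfl⟩ := hmem
    show h25_Dmap S (algebraMap K E) (Finsupp.single w 1) (h28_plMap S σ W) = 1
    rw [← h40_Dmap_ext_inv S σ, h28_Dmap_apply, hW1]
  · rw [if_neg hmem, h81_Dmap_apply]
    have hne : w ≠ h81_underPl S (algebraMap K E) W' := by
      intro h
      apply hmem
      have h1 : W.1.under (𝓞 K) = W'.1.under (𝓞 K) := by
        rw [← h81_under_algebraMap, ← h81_under_algebraMap]
        exact congrArg Subtype.val (hW.trans h)
      obtain ⟨σ, hσ⟩ := h10_exists_galPrime_of_under_eq W.1 W'.1 h1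
      exact ⟨σ, Subtype.ext hσ.symm⟩
    rw [Finsupp.single_eq_of_ne hne.symm, zero_mul]

end Orbit

/-! ### FP1 -/

section FP1

variable {K : Type*} [Field K] [NumberField K] {E : Type*} [Field E] [NumberField E]
  [Algebra K E] [IsGalois K E] (S : Finset Nat.Primes)

/-- **FP1, unlocalised**: the class of `ext [w]` is a relative norm from the `H'`-invariants, for
every `H' ≤ Gal(E/K)` containing the stabiliser of a prime `W | w` with `e(W|w) = 1`. -/
theorem h40_fp1_add (w : h25_Pl K S) (W : HeightOneSpectrum (𝓞 E))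
    (hW : W.asIdeal.LiesOver w.1.asIdeal) (hunr : W.asIdeal.ramificationIdx (𝓞 K) = 1)
    (H' : Subgroup (E ≃ₐ[K] E)) (hH' : ∀ τ : E ≃ₐ[K] E, h92_galPrime τ W = W → τ ∈ H') :
    h12_IsRelNorm H' (Additive.ofMul (h25_Cmap S (algebraMap K E)
      (h25_mk K S ((1 : h25_J K S), Multiplicative.ofAdd (Finsupp.single w (1 : ℤ)))))) := by
  classical
  -- `W` is a prime not above `S`, over `w`
  have hu : h81_under (algebraMap K E) W = w.1 := by
    rw [h81_under_algebraMap]
    apply HeightOneSpectrum.ext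
    rw [h10_under_asIdeal]
    exact (Ideal.LiesOver.over (P := W.asIdeal) (p := w.1.asIdeal)).symm
  have hWS : ¬ h25_above E S W := fun h => w.2 (by
    rw [← hu]
    exact (h81_above_under S (algebraMap K E) W).2 h)
  set W₀ : h25_Pl E S := ⟨W, hWS⟩ with hW₀
  have hW₀u : h81_underPl S (algebraMap K E) W₀ = w := Subtype.ext hu
  obtain ⟨m', hm', hsum⟩ := h40_orbit_relNorm (G := E ≃ₐ[K] E) (M := Additive (h25_C E S))
    (h28_plMap S) (h28_plMap_one S) (h28_plMap_mul S)
    (fun W' : h25_Pl E S => h40_divClass S (Finsupp.single W' (1 : ℤ)))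
    (fun σ W' => by rw [h40_divClass_smul, h28_Dmap_single]) H' W₀
    (fun τ hτ => hH' τ (congrArg Subtype.val hτ))
  refine ⟨m', hm', ?_⟩
  rw [← hsum, h40_divClass_ext, h40_Dmap_single_eq_orbit S w W₀ hW₀u hunr]
  exact AddMonoidHom.map_finsum_mem _ (h40_divClass S) (Set.finite_range _)

variable (p : ℕ) [Fact p.Prime]

/-- **FP1** (helper38's `sk_fp1`): the same in the `p`-localised class module. -/
theorem h40_fp1 (w : h25_Pl K S) (W : HeightOneSpectrum (𝓞 E))
    (hW : W.asIdeal.LiesOver w.1.asIdeal) (hunr : W.asIdeal.ramificationIdx (𝓞 K) = 1)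
    (H' : Subgroup (E ≃ₐ[K] E)) (hH' : ∀ τ : E ≃ₐ[K] E, h92_galPrime τ W = W → τ ∈ H') :
    h12_IsRelNorm H' (h2_PL.j (Additive.ofMul (h25_Cmap S (algebraMap K E)
      (h25_mk K S ((1 : h25_J K S), Multiplicative.ofAdd (Finsupp.single w (1 : ℤ)))))) :
        h2_PL p (Additive (h25_C E S))) :=
  h40_isRelNorm_map (h2_PL.j (p := p)) (fun g m => h2_PL.j_smul g m) H' _
    (h40_fp1_add S w W hW hunr H' hH')

/-- **FP1, transversal form**: there is an `H'`-fixed class `c'` such that the class of
`ext [w]` is the sum of the translates of `c'` over ANY transversal of `H'` in `Gal(E/K)`. -/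
theorem h40_fp1_transversal (w : h25_Pl K S) (W : HeightOneSpectrum (𝓞 E))
    (hW : W.asIdeal.LiesOver w.1.asIdeal) (hunr : W.asIdeal.ramificationIdx (𝓞 K) = 1)
    (H' : Subgroup (E ≃ₐ[K] E)) (hH' : ∀ τ : E ≃ₐ[K] E, h92_galPrime τ W = W → τ ∈ H') :
    ∃ c' : h2_PL p (Additive (h25_C E S)), (∀ h ∈ H', h • c' = c') ∧
      ∀ T : Finset (E ≃ₐ[K] E), (∀ g : E ≃ₐ[K] E, ∃! t, t ∈ T ∧ t⁻¹ * g ∈ H') →
        (h2_PL.j (Additive.ofMul (h25_Cmap S (algebraMap K E)
          (h25_mk K S ((1 : h25_J K S), Multiplicative.ofAdd (Finsupp.single w (1 : ℤ)))))) :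
            h2_PL p (Additive (h25_C E S))) = ∑ t ∈ T, t • c' :=
  (h40_isRelNorm_iff_transversal H' _).1 (h40_fp1 S p w W hW hunr H' hH')

end FP1

end

end Fermat.Agent.S55
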