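import Fermat.Agent.S55.h57_LocalExistence
import Fermat.Agent.S55.h2_GalTower

/-!
# S55 / LOC-8 (helper57): auxiliary lemmas for the local existence wrapper

* `h57_finsum_subgroup_fixed`, `h57_finsum_ker_tower`: transitivity of norms in a tower of
  quotient groups;
* `h57_K1 p K = K(μ_p)`, `h57_K2 p K₁ = K₁(K₁^{1/p})` as intermediate fields, with normality
  and finiteness.
-/

set_option autoImplicit false

namespace Fermat.Agent.S55


/-- The norm over a finite subgroup is invariant under that subgroup. -/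
theorem h57_finsum_subgroup_fixed {G C : Type*} [Group G] [AddCommGroup C]
    [DistribMulAction G C] (Q : Subgroup G) [Finite Q] (c : C) (h : G) (hh : h ∈ Q) :
    h • ∑ᶠ t : Q, (t : G) • c = ∑ᶠ t : Q, (t : G) • c := by
  have e1 : h • ∑ᶠ t : Q, (t : G) • c = ∑ᶠ t : Q, h • (t : G) • c :=
    AddMonoidHom.map_finsum (DistribSMul.toAddMonoidHom C h) (Set.toFinite _)
  rw [e1]
  have e2 : ∑ᶠ t : Q, h • (t : G) • c
      = ∑ᶠ t : Q, ((Equiv.mulLeft (⟨h, hh⟩ : Q) t : Q) : G) • c := by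
    refine finsum_congr fun t => ?_
    rw [Equiv.coe_mulLeft, Subgroup.coe_mul, mul_smul]
  rw [e2]
  exact finsum_comp_equiv (Equiv.mulLeft (⟨h, hh⟩ : Q)) (f := fun t : Q => (t : G) • c)

/-- **Transitivity of the norm** for a tower of quotients `G₂ → G₁ → G₀`. -/
theorem h57_finsum_ker_tower {G₂ G₁ G₀ : Type*} [Group G₂] [Group G₁] [Group G₀] [Finite G₂]
    (π₂₁ : G₂ →* G₁) (hπ₂₁ : Function.Surjective π₂₁) (π₁₀ : G₁ →* G₀) (π₂₀ : G₂ →* G₀)
    (hcomp : ∀ s, π₂₀ s = π₁₀ (π₂₁ s))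
    {C₂ C₁ : Type*} [AddCommGroup C₂] [AddCommGroup C₁] [DistribMulAction G₂ C₂]
    [DistribMulAction G₁ C₁] (ι : C₁ →+ C₂) (hι : ∀ (s : G₂) (d : C₁), ι (π₂₁ s • d) = s • ι d)
    (c' : C₂) (d : C₁) (hd : ∑ᶠ s : π₂₁.ker, (s : G₂) • c' = ι d) :
    ∑ᶠ s : π₂₀.ker, (s : G₂) • c' = ι (∑ᶠ t : π₁₀.ker, (t : G₁) • d) := by
  classical
  have hfin1 : Finite G₁ := Finite.of_surjective _ hπ₂₁
  have := Fintype.ofFinite π₂₀.ker
  have := Fintype.ofFinite π₂₁.ker
  have := Fintype.ofFinite π₁₀.ker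
  choose lift hlift using hπ₂₁
  have hmem : ∀ (t : π₁₀.ker) (h : π₂₁.ker), lift (t : G₁) * (h : G₂) ∈ π₂₀.ker := by
    intro t h
    rw [MonoidHom.mem_ker, hcomp, map_mul, hlift, MonoidHom.mem_ker.mp h.2, mul_one]
    exact MonoidHom.mem_ker.mp t.2
  let e : π₁₀.ker × π₂₁.ker → π₂₀.ker := fun x => ⟨lift (x.1 : G₁) * (x.2 : G₂), hmem x.1 x.2⟩
  have he : Function.Bijective e := by
    constructor
    · rintro ⟨t, h⟩ ⟨t', h'⟩ hx
      have hx' : lift (t : G₁) * (h : G₂) = lift (t' : G₁) * (h' : G₂) := congrArg Subtype.val hx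
      have ht : (t : G₁) = t' := by
        have := congrArg π₂₁ hx'
        rwa [map_mul, map_mul, hlift, hlift, MonoidHom.mem_ker.mp h.2, MonoidHom.mem_ker.mp h'.2,
          mul_one, mul_one] at this
      have ht' : t = t' := Subtype.ext ht
      subst ht'
      have hh : (h : G₂) = h' := mul_left_cancel hx'
      rw [Subtype.ext hh]
    · rintro ⟨n, hn⟩
      have ht : π₂₁ n ∈ π₁₀.ker := by
        rw [MonoidHom.mem_ker, ← hcomp]
        exact MonoidHom.mem_ker.mp hn
      have hh : (lift (π₂₁ n))⁻¹ * n ∈ π₂₁.ker := by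
        rw [MonoidHom.mem_ker, map_mul, map_inv, hlift, inv_mul_cancel]
      refine ⟨(⟨π₂₁ n, ht⟩, ⟨_, hh⟩), ?_⟩
      apply Subtype.ext
      show lift (π₂₁ n) * ((lift (π₂₁ n))⁻¹ * n) = n
      rw [mul_inv_cancel_left]
  rw [finsum_eq_sum_of_fintype, finsum_eq_sum_of_fintype,
    ← Fintype.sum_bijective e he (fun x => ((e x : π₂₀.ker) : G₂) • c')
      (fun n => ((n : π₂₀.ker) : G₂) • c') (fun _ => rfl),
    Fintype.sum_prod_type, map_sum]
  refine Finset.sum_congr rfl fun t _ => ?_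
  have h1 : ∑ h : π₂₁.ker, ((e (t, h) : π₂₀.ker) : G₂) • c'
      = lift (t : G₁) • ∑ h : π₂₁.ker, (h : G₂) • c' := by
    rw [Finset.smul_sum]
    refine Finset.sum_congr rfl fun h _ => ?_
    show (lift (t : G₁) * (h : G₂)) • c' = _
    rw [mul_smul]
  rw [h1, ← finsum_eq_sum_of_fintype, hd, ← hι, hlift]


section Fields

variable {F Ω : Type*} [Field F] [Field Ω] [Algebra F Ω]

/-- An intermediate field generated by a set stable under all automorphisms is normal. -/
theorem h57_normal_adjoin_of_stable [Normal F Ω] (S : Set Ω)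
    (hS : ∀ σ : Ω ≃ₐ[F] Ω, ∀ x ∈ S, σ x ∈ S) : Normal F (IntermediateField.adjoin F S) := by
  rw [IntermediateField.normal_iff_forall_map_le']
  intro σ
  rw [IntermediateField.adjoin_map]
  apply IntermediateField.adjoin.mono
  rintro _ ⟨x, hx, rfl⟩
  exact hS σ x hx

/-- A normal intermediate field is stable under all automorphisms. -/
theorem h57_normal_stable [Normal F Ω] (K : IntermediateField F Ω) [Normal F K]
    (σ : Ω ≃ₐ[F] Ω) {x : Ω} (hx : x ∈ K) : σ x ∈ K := by
  have h := (IntermediateField.normal_iff_forall_map_le' (K := K)).mp inferInstance σ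
  exact h ⟨x, hx, rfl⟩

variable (p : ℕ)

/-- `K(μ_p)`. -/
def h57_K1 (K : IntermediateField F Ω) : IntermediateField F Ω :=
  IntermediateField.adjoin F ((K : Set Ω) ∪ {x | x ^ p = 1})

/-- `K₁(K₁^{1/p})`: the field generated by all `p`-th roots of elements of `K₁`. -/
def h57_K2 (K₁ : IntermediateField F Ω) : IntermediateField F Ω :=
  IntermediateField.adjoin F {α : Ω | α ^ p ∈ K₁}

theorem h57_le_K1 (K : IntermediateField F Ω) : K ≤ h57_K1 p K := fun _ hx =>
  IntermediateField.subset_adjoin F _ (Or.inl hx)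

theorem h57_root_mem_K1 (K : IntermediateField F Ω) {x : Ω} (hx : x ^ p = 1) : x ∈ h57_K1 p K :=
  IntermediateField.subset_adjoin F _ (Or.inr hx)

instance h57_K1_normal [Normal F Ω] (K : IntermediateField F Ω) [Normal F K] :
    Normal F (h57_K1 p K) := by
  apply h57_normal_adjoin_of_stable
  rintro σ x (hx | hx)
  · exact Or.inl (h57_normal_stable K σ hx)
  · refine Or.inr ?_
    show (σ x) ^ p = 1
    rw [← map_pow, show x ^ p = 1 from hx, map_one]

theorem h57_K1_finiteDimensional [Algebra.IsAlgebraic F Ω] (hp : 0 < p)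
    (K : IntermediateField F Ω) [FiniteDimensional F K] : FiniteDimensional F (h57_K1 p K) := by
  have hfin : {x : Ω | x ^ p = 1}.Finite := by
    have h1 := Polynomial.finite_setOfPred_isRoot
      (Polynomial.X_pow_sub_C_ne_zero hp (1 : Ω))
    refine h1.subset ?_
    intro x hx
    show Polynomial.IsRoot _ x
    rw [Polynomial.IsRoot, Polynomial.eval_sub, Polynomial.eval_pow, Polynomial.eval_X,
      Polynomial.eval_C, show x ^ p = 1 from hx, sub_self]
  have : Finite {x : Ω | x ^ p = 1} := hfin.to_subtype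
  have h2 : FiniteDimensional F (IntermediateField.adjoin F {x : Ω | x ^ p = 1}) :=
    IntermediateField.finiteDimensional_adjoin (fun x _ => Algebra.IsIntegral.isIntegral x)
  unfold h57_K1
  rw [IntermediateField.adjoin_union, IntermediateField.adjoin_self]
  infer_instance

theorem h57_le_K2 (K₁ : IntermediateField F Ω) : K₁ ≤ h57_K2 p K₁ := fun _ hx =>
  IntermediateField.subset_adjoin F _ (pow_mem hx p)

theorem h57_root_mem_K2 (K₁ : IntermediateField F Ω) {α : Ω} (hα : α ^ p ∈ K₁) :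
    α ∈ h57_K2 p K₁ :=
  IntermediateField.subset_adjoin F _ hα

instance h57_K2_normal [Normal F Ω] (K₁ : IntermediateField F Ω) [Normal F K₁] :
    Normal F (h57_K2 p K₁) := by
  apply h57_normal_adjoin_of_stable
  intro σ x hx
  show (σ x) ^ p ∈ K₁
  rw [← map_pow]
  exact h57_normal_stable K₁ σ hx

/-- `K₁(K₁^{1/p})` is finite over `F` when `K₁` is, contains `μ_p`, and `K₁ˣ / K₁ˣᵖ` is
finite. -/
theorem h57_K2_finiteDimensional [Algebra.IsAlgebraic F Ω] [IsAlgClosed Ω] (hp : 0 < p)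
    (K₁ : IntermediateField F Ω) [FiniteDimensional F K₁]
    (hμ : ∀ x : Ω, x ^ p = 1 → x ∈ K₁)
    (hidx : (powMonoidHom p : K₁ˣ →* K₁ˣ).range.index ≠ 0) :
    FiniteDimensional F (h57_K2 p K₁) := by
  classical
  obtain ⟨H, hH⟩ : ∃ H : Subgroup K₁ˣ, H = (powMonoidHom p : K₁ˣ →* K₁ˣ).range := ⟨_, rfl⟩
  have : H.FiniteIndex := ⟨by rw [hH]; exact hidx⟩
  have hfinq : Finite (K₁ˣ ⧸ H) := Subgroup.finite_quotient_of_finiteIndex
  have hex : ∀ x : K₁ˣ ⧸ H, ∃ β : Ω, β ^ p = (((x.out : K₁ˣ) : K₁) : Ω) :=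
    fun x => IsAlgClosed.exists_pow_nat_eq _ hp
  choose root hroot using hex
  have h2 : FiniteDimensional F (IntermediateField.adjoin F (Set.range root)) :=
    IntermediateField.finiteDimensional_adjoin (fun x _ => Algebra.IsIntegral.isIntegral x)
  have heq : h57_K2 p K₁ = K₁ ⊔ IntermediateField.adjoin F (Set.range root) := by
    apply le_antisymm
    · unfold h57_K2
      rw [IntermediateField.adjoin_le_iff]
      intro α hα
      have hα' : α ^ p ∈ K₁ := hα
      by_cases h0 : α = 0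
      · rw [h0]
        exact zero_mem _
      have hb0 : (⟨α ^ p, hα'⟩ : K₁) ≠ 0 := by
        intro h
        exact h0 ((pow_eq_zero_iff hp.ne').mp (congrArg Subtype.val h))
      obtain ⟨h, hh⟩ := QuotientGroup.mk_out_eq_mul H (Units.mk0 _ hb0)
      have hmem : (h : K₁ˣ) ∈ (powMonoidHom p : K₁ˣ →* K₁ˣ).range := hH ▸ h.2
      obtain ⟨c, hc⟩ := hmem
      have hc : c ^ p = (h : K₁ˣ) := hc
      have ha : (((((QuotientGroup.mk (Units.mk0 _ hb0) : K₁ˣ ⧸ H)).out : K₁ˣ) : K₁) : Ω)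
          = α ^ p * ((c : K₁) : Ω) ^ p := by
        rw [hh, ← hc]
        simp
      set β := root (QuotientGroup.mk (Units.mk0 _ hb0) : K₁ˣ ⧸ H) with hβ
      have hβp : β ^ p = α ^ p * ((c : K₁) : Ω) ^ p := by rw [hβ, hroot, ha]
      have hc0 : ((c : K₁) : Ω) ≠ 0 := by
        intro h
        exact c.ne_zero (Subtype.ext h)
      have hβ0 : β ≠ 0 := by
        intro h
        rw [h, zero_pow hp.ne'] at hβp
        exact (mul_ne_zero (pow_ne_zero p h0) (pow_ne_zero p hc0)) hβp.symm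
      have hη : (α * ((c : K₁) : Ω) / β) ^ p = 1 := by
        rw [div_pow, mul_pow, ← hβp, div_self (pow_ne_zero p hβ0)]
      have hηK : α * ((c : K₁) : Ω) / β ∈ K₁ := hμ _ hη
      have e : α = (α * ((c : K₁) : Ω) / β) * β / ((c : K₁) : Ω) := by
        field_simp
      rw [e]
      refine div_mem (mul_mem ?_ ?_) ?_
      · exact (le_sup_left : K₁ ≤ K₁ ⊔ _) hηK
      · exact (le_sup_right : _ ≤ K₁ ⊔ IntermediateField.adjoin F (Set.range root))
          (IntermediateField.subset_adjoin F _ ⟨_, rfl⟩)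
      · exact (le_sup_left : K₁ ≤ K₁ ⊔ _) (c : K₁).2
    · refine sup_le (h57_le_K2 p K₁) ?_
      rw [IntermediateField.adjoin_le_iff]
      rintro _ ⟨x, rfl⟩
      apply h57_root_mem_K2
      rw [hroot]
      exact ((x.out : K₁ˣ) : K₁).2
  rw [heq]
  infer_instance

end Fields

end Fermat.Agent.S55
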