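import Fermat.Agent.S55.h41_HypNorm
import Fermat.Agent.S55.h33_GlobEx
import Fermat.Agent.S55.h33_GlobKumSeq
import Fermat.Agent.S55.h59_HypNum
import Fermat.Agent.S55.h37_DictVal
import Fermat.Agent.S55.h57_LocEXBase

/-!
# S55 / GLOB-EX at EVERY level (helper41): the field `ex` of `h12_LevFacts`, model-free form

`h33_GlobEx S p` gives, for a level `L₁ ∋ ζ_p`, a level `L' ≥ L₁` with
`N_{L'/L₁} C_{L'} ⊆ ext (C_{L₁}^p)`.  For an arbitrary level `L` we pass to a level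
`L₁ ≥ L` containing `ζ_p` and use the transitivity of norms and Galois descent `L₁/L`:

* `h41_glob_ex_all` : `∀ L` level `∃ L' ≥ L` level, `∀ c' : C_{L'}, ∃ c : C_L`,
  `h33_relNorm S L L' c' = h33_ext S h (c ^ p)`  (unlocalised, multiplicative);
* `h41_glob_ex_all_PL` : the same on `h2_PL p (Additive (h25_C ↥L S))` (`= C_L ⊗ ℤ_(p)`), in the
  shape of the field `ex` of `h12_LevFacts`:
  `∑ᶠ t : h33_relGal L L', (t : Gal(L'/ℚ)) • c' = h2_PL.map (h33_ext S h).toAdditive (p • c)`;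
* `h41_glob_ex_all_of_cf`, `h41_glob_ex_all_PL_of_cf` : the same with `h33_GlobEx S p` obtained
  from the class module structure at the levels (GLOB-CF) via `h41_hypNorm`, `h59_hypNum`,
  `h37_hypVal`, `h33_glob_ex_of`.
-/

set_option autoImplicit false

namespace Fermat.Agent.S55

local notation "Qb" => AlgebraicClosure ℚ

section Generalities

/-- `ofMul` turns finite products into finite sums. -/
theorem h41_finsum_ofMul {ι : Type*} [Finite ι] {A : Type*} [CommMonoid A] (f : ι → A) :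
    ∑ᶠ i, Additive.ofMul (f i) = Additive.ofMul (∏ᶠ i, f i) := by
  classical
  have : Fintype ι := Fintype.ofFinite ι
  rw [finsum_eq_sum_of_fintype, finprod_eq_prod_of_fintype, ofMul_prod]

/-- Sums over equal subgroups agree. -/
theorem h41_finsum_subgroup_congr {G M : Type*} [Group G] [AddCommMonoid M] {H H' : Subgroup G}
    (h : H = H') (f : G → M) : ∑ᶠ t : H, f t = ∑ᶠ t : H', f t := by
  subst h
  rfl

/-- `h2_PL.exists_norm_eq_map` for an arbitrary finite subgroup (instead of a kernel). -/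
theorem h41_PL_exists_norm_eq_map {p : ℕ} [Fact p.Prime] {C D : Type*} [AddCommGroup C]
    [AddCommGroup D] {G' : Type*} [Group G'] [DistribMulAction G' D] (H : Subgroup G') [Finite H]
    (ι : C →+ D) (n : ℕ) (hN : ∀ d : D, ∃ c : C, ∑ᶠ s : H, (s : G') • d = ι (n • c))
    (x : h2_PL p D) : ∃ z : h2_PL p C, ∑ᶠ s : H, (s : G') • x = h2_PL.map ι (n • z) := by
  classical
  have : Fintype H := Fintype.ofFinite _
  obtain ⟨m, hm, d, hd⟩ := h2_PL.exists_smul_eq_j x
  obtain ⟨c, hc⟩ := hN d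
  obtain ⟨z, hz⟩ := h2_PL.smul_surjective (C := C) m hm (h2_PL.j c)
  have hz' : m • z = h2_PL.j c := hz
  refine ⟨z, ?_⟩
  apply h2_PL.smul_injective m hm
  change m • ∑ᶠ s : H, (s : G') • x = m • h2_PL.map ι (n • z)
  rw [finsum_eq_sum_of_fintype] at hc ⊢
  have h1 : m • ∑ s : H, (s : G') • x = ∑ s : H, h2_PL.j (p := p) ((s : G') • d) := by
    rw [← Finset.sum_nsmul]
    refine Finset.sum_congr rfl fun s _ => ?_
    rw [h2_PL.j_smul, ← hd, h2_PL.smul_def, h2_PL.smul_def, map_nsmul]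
  rw [h1, ← map_sum, hc, ← h2_PL.map_j, map_nsmul, ← hz', ← map_nsmul, ← mul_nsmul, ← mul_nsmul,
    mul_comm]

end Generalities

section Levels

variable (S : Finset Nat.Primes)

/-- `ext` is transitive. -/
theorem h41_ext_trans {L L₁ L' : IntermediateField ℚ Qb} [NumberField ↥L] [NumberField ↥L₁]
    [NumberField ↥L'] (h : L ≤ L₁) (h' : L₁ ≤ L') (c : h25_C ↥L S) :
    h33_ext S h' (h33_ext S h c) = h33_ext S (h.trans h') c := by
  unfold h33_ext
  rw [← MonoidHom.comp_apply, ← h66_Cmap_comp]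
  rfl

/-- `ext` intertwines an automorphism of the upper level with its restriction. -/
theorem h41_ext_res {L₁ L' : IntermediateField ℚ Qb} [NumberField ↥L₁] [NumberField ↥L']
    [Normal ℚ ↥L₁] [Normal ℚ ↥L'] (h : L₁ ≤ L') (s : ↥L' ≃ₐ[ℚ] ↥L') (c : h25_C ↥L₁ S) :
    h25_Cmap S (s : ↥L' →+* ↥L') (h33_ext S h c)
      = h33_ext S h (h25_Cmap S ((h97_res h s : ↥L₁ ≃ₐ[ℚ] ↥L₁) : ↥L₁ →+* ↥L₁) c) := by
  have hcomp : (s : ↥L' →+* ↥L').comp
      ((IntermediateField.inclusion h : ↥L₁ →ₐ[ℚ] ↥L') : ↥L₁ →+* ↥L')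
        = ((IntermediateField.inclusion h : ↥L₁ →ₐ[ℚ] ↥L') : ↥L₁ →+* ↥L').comp
            ((h97_res h s : ↥L₁ ≃ₐ[ℚ] ↥L₁) : ↥L₁ →+* ↥L₁) := by
    ext x
    exact (h97_res_apply h s x).symm
  unfold h33_ext
  rw [← MonoidHom.comp_apply, ← MonoidHom.comp_apply, ← h66_Cmap_comp, ← h66_Cmap_comp, hcomp]

/-- The relative norm in additive form, as a sum over `h33_relGal`. -/
theorem h41_finsum_relGal (L L' : IntermediateField ℚ Qb) [NumberField ↥L']
    (d' : Additive (h25_C ↥L' S)) :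
    ∑ᶠ s : h33_relGal L L', (s : ↥L' ≃ₐ[ℚ] ↥L') • d'
      = Additive.ofMul (h33_relNorm S L L' (Additive.toMul d')) := by
  rw [h33_relNorm_apply, ← h41_finsum_ofMul]
  rfl

/-- Norms are fixed by the relative Galois group. -/
theorem h41_relNorm_fixed (L L' : IntermediateField ℚ Qb) [NumberField ↥L']
    (c' : h25_C ↥L' S) (s : ↥L' ≃ₐ[ℚ] ↥L') (hs : s ∈ h33_relGal L L') :
    h25_Cmap S (s : ↥L' →+* ↥L') (h33_relNorm S L L' c') = h33_relNorm S L L' c' := by
  have h1 := h41_smul_finprod_smul (G := h33_relGal L L') c' ⟨s, hs⟩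
  rw [h33_relNorm_apply]
  exact h1

/-- (N1) for arbitrary levels: norms are extended classes. -/
theorem h41_relNorm_mem_range (hS : S.Nonempty) {L L' : IntermediateField ℚ Qb} [NumberField ↥L]
    [NumberField ↥L'] (h : L ≤ L') (hL' : h25_IsLevel S L') (c' : h25_C ↥L' S) :
    h33_relNorm S L L' c' ∈ (h33_ext S h).range := by
  have : IsGalois ℚ ↥L' := hL'.2
  exact h41_desc_level S hS h (h37_unramOutside_of_level S L' hL') _
    (fun s hs => h41_relNorm_fixed S L L' c' s hs)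

end Levels

section Main

variable (S : Finset Nat.Primes)

/-- **GLOB-EX at every level**, unlocalised: for every level `L` there is a level `L' ≥ L` such
that every norm from `C_{L'}` is the extension of a `p`-th power of `C_L`. -/
theorem h41_glob_ex_all (hS : S.Nonempty) (p : ℕ) [Fact p.Prime]
    (hpS : ∀ q : Nat.Primes, (q : ℕ) ∣ p → q ∈ S) (hEX : h33_GlobEx S p)
    (L : IntermediateField ℚ Qb) [NumberField ↥L] (hL : h25_IsLevel S L) :
    ∃ (L' : IntermediateField ℚ Qb) (_ : NumberField ↥L') (h : L ≤ L'), h25_IsLevel S L' ∧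
      ∀ c' : h25_C ↥L' S, ∃ c : h25_C ↥L S, h33_relNorm S L L' c' = h33_ext S h (c ^ p) := by
  have hp : 0 < p := (Fact.out : p.Prime).pos
  obtain ⟨L₁, h₁, hL₁, hζ⟩ := h33_exists_level_zeta S p hp hpS L hL
  have : NumberField ↥L₁ := h33_level_numberField hL₁
  obtain ⟨L', hNF', h₁', hL', hex⟩ := hEX L₁ hL₁ hζ
  refine ⟨L', hNF', h₁.trans h₁', hL', fun c' => ?_⟩
  obtain ⟨c₁, hc₁⟩ := hex c'
  obtain ⟨c, hc⟩ := h41_relNorm_mem_range S hS h₁ hL₁ c₁
  refine ⟨c, ?_⟩
  have : Normal ℚ ↥L := hL.2.to_normal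
  have : Normal ℚ ↥L₁ := hL₁.2.to_normal
  have : Normal ℚ ↥L' := hL'.2.to_normal
  -- the norm from `L'` to `L₁` in kernel form
  have hd : ∑ᶠ s : (h97_res h₁').ker, (s : ↥L' ≃ₐ[ℚ] ↥L') • Additive.ofMul c'
      = (h33_ext S h₁').toAdditive (Additive.ofMul (c₁ ^ p)) := by
    rw [← h41_finsum_subgroup_congr (h33_relGal_eq_ker h₁')
      (fun s => s • Additive.ofMul c'), h41_finsum_relGal]
    exact congrArg Additive.ofMul hc₁
  -- transitivity of the norm
  have htower := h57_finsum_ker_tower (h97_res h₁') (h97_res_surjective h₁') (h97_res h₁)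
    (h97_res (h₁.trans h₁')) (fun s => (h97_res_res h₁ h₁' s).symm)
    (C₂ := Additive (h25_C ↥L' S)) (C₁ := Additive (h25_C ↥L₁ S))
    (h33_ext S h₁').toAdditive
    (fun s d => congrArg Additive.ofMul (h41_ext_res S h₁' s (Additive.toMul d)).symm)
    (Additive.ofMul c') (Additive.ofMul (c₁ ^ p)) hd
  rw [← h41_finsum_subgroup_congr (h33_relGal_eq_ker (h₁.trans h₁'))
      (fun s => s • Additive.ofMul c'), h41_finsum_relGal,
    ← h41_finsum_subgroup_congr (h33_relGal_eq_ker h₁)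
      (fun t => t • Additive.ofMul (c₁ ^ p)), h41_finsum_relGal] at htower
  have h2 : h33_relNorm S L L' c' = h33_ext S h₁' (h33_relNorm S L L₁ (c₁ ^ p)) :=
    congrArg Additive.toMul htower
  rw [h2, map_pow, ← hc, ← map_pow, h41_ext_trans]

/-- **GLOB-EX at every level**, on `C_L ⊗ ℤ_(p)`: the field `ex` of `h12_LevFacts` in
model-free form (`K L L' = h33_relGal L L'`, `ι = h2_PL.map (h33_ext S h).toAdditive`, action of
`Gal(L'/ℚ)` through `h90_CAct`). -/
theorem h41_glob_ex_all_PL (hS : S.Nonempty) (p : ℕ) [Fact p.Prime]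
    (hpS : ∀ q : Nat.Primes, (q : ℕ) ∣ p → q ∈ S) (hEX : h33_GlobEx S p)
    (L : IntermediateField ℚ Qb) [NumberField ↥L] (hL : h25_IsLevel S L) :
    ∃ (L' : IntermediateField ℚ Qb) (_ : NumberField ↥L') (h : L ≤ L'), h25_IsLevel S L' ∧
      ∀ c' : h2_PL p (Additive (h25_C ↥L' S)), ∃ c : h2_PL p (Additive (h25_C ↥L S)),
        ∑ᶠ t : h33_relGal L L', (t : ↥L' ≃ₐ[ℚ] ↥L') • c'
          = h2_PL.map (h33_ext S h).toAdditive (p • c) := by
  obtain ⟨L', hNF', h, hL', hex⟩ := h41_glob_ex_all S hS p hpS hEX L hL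
  refine ⟨L', hNF', h, hL', fun c' => ?_⟩
  exact h41_PL_exists_norm_eq_map (h33_relGal L L') (h33_ext S h).toAdditive p (fun d => by
    obtain ⟨c, hc⟩ := hex (Additive.toMul d)
    refine ⟨Additive.ofMul c, ?_⟩
    rw [h41_finsum_relGal, hc]
    rfl) c'

/-- `h33_GlobEx S p` from the class module structure at the levels (GLOB-CF). -/
theorem h41_globEx_of_cf (p : ℕ) [Fact p.Prime] (hp2 : p ≠ 2)
    (hpS : ExtCitation.pPrime p ∈ S)
    (hCF : ∀ (L' : IntermediateField ℚ Qb) [NumberField ↥L'], h25_IsLevel S L' →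
      IsPClassModule p (↥L' ≃ₐ[ℚ] ↥L') (h2_PL p (Additive (h25_C ↥L' S)))) :
    h33_GlobEx S p := by
  have hp : p.Prime := Fact.out
  have hpS' : ∀ q : Nat.Primes, (q : ℕ) ∣ p → q ∈ S := by
    intro q hq
    have h1 : (q : ℕ) = p := (Nat.prime_dvd_prime_iff_eq q.2 hp).1 hq
    have h2 : q = ExtCitation.pPrime p := Subtype.ext h1
    rw [h2]
    exact hpS
  exact h33_glob_ex_of S p hpS' (h41_hypNorm S ⟨_, hpS⟩ hCF) (h59_hypNum S hp hp2 hpS)
    (h37_hypVal S p)

/-- The field `ex` of `h12_LevFacts` (model-free form) from GLOB-CF. -/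
theorem h41_glob_ex_all_PL_of_cf (p : ℕ) [Fact p.Prime] (hp2 : p ≠ 2)
    (hpS : ExtCitation.pPrime p ∈ S)
    (hCF : ∀ (L' : IntermediateField ℚ Qb) [NumberField ↥L'], h25_IsLevel S L' →
      IsPClassModule p (↥L' ≃ₐ[ℚ] ↥L') (h2_PL p (Additive (h25_C ↥L' S))))
    (L : IntermediateField ℚ Qb) [NumberField ↥L] (hL : h25_IsLevel S L) :
    ∃ (L' : IntermediateField ℚ Qb) (_ : NumberField ↥L') (h : L ≤ L'), h25_IsLevel S L' ∧
      ∀ c' : h2_PL p (Additive (h25_C ↥L' S)), ∃ c : h2_PL p (Additive (h25_C ↥L S)),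
        ∑ᶠ t : h33_relGal L L', (t : ↥L' ≃ₐ[ℚ] ↥L') • c'
          = h2_PL.map (h33_ext S h).toAdditive (p • c) := by
  have hp : p.Prime := Fact.out
  have hpS' : ∀ q : Nat.Primes, (q : ℕ) ∣ p → q ∈ S := by
    intro q hq
    have h1 : (q : ℕ) = p := (Nat.prime_dvd_prime_iff_eq q.2 hp).1 hq
    have h2 : q = ExtCitation.pPrime p := Subtype.ext h1
    rw [h2]
    exact hpS
  exact h41_glob_ex_all_PL S ⟨_, hpS⟩ p hpS' (h41_globEx_of_cf S p hp2 hpS hCF) L hL

end Main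

end Fermat.Agent.S55
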