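import Fermat.Agent.S55.h41_GlobExAll
import Fermat.Agent.S55.h40_AmbModel

/-!
# S55, Tier 3 (GLOB-AMB): the field `ex` of `h12_LevFacts` for helper40's model (helper41)

`h41_lf_ex` : for every level `L` there is a level `L' ≥ L` such that every norm
`∑ t ∈ Gal(L'/L), t • c'` of `C L' = C_{L'} ⊗ ℤ_(p)` is `ι (p • c)` with `c ∈ C L`.
The only hypothesis besides `p ≠ 2`, `p ∈ S` is the field `cf` (GLOB-CF) of the same model.
-/

set_option autoImplicit false

namespace Fermat.Agent.S55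

local notation "Qb" => AlgebraicClosure ℚ

/-- **Field `ex` of `h12_LevFacts`** at helper40's model `(h40_Γ, h40_K, h40_C, h40_ι)`, from the
field `cf` of the same model. -/
theorem h41_lf_ex (S : Finset Nat.Primes) (p : ℕ) [Fact p.Prime] (hp2 : p ≠ 2)
    (hpS : ExtCitation.pPrime p ∈ S)
    (hcf : ∀ L : h56_Level S, IsPClassModule p (h40_Γ S L) (h40_C p S L)) :
    ∀ L : h56_Level S, ∃ (L' : h56_Level S) (h : L ≤ L'), ∀ c' : h40_C p S L',
      ∃ c : h40_C p S L, ∑ᶠ t : h40_K S L L', (t : h40_Γ S L') • c' = h40_ι p S L L' h (p • c) := by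
  intro L
  obtain ⟨L', hNF', h, hL', hex⟩ := h41_glob_ex_all_PL_of_cf S p hp2 hpS
    (fun L' _ hL' => hcf ⟨L', hL'⟩) L.field L.2
  exact ⟨⟨L', hL'⟩, h56_Level.le_def.2 h, fun c' => hex c'⟩

end Fermat.Agent.S55
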