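import Fermat.Agent.S55.h41_NormIdxCore
import Fermat.Agent.S55.h72_AbsDefs
import Fermat.Agent.S55.h2_PLoc
import Fermat.Agent.S55.h2_AddUnits
import Fermat.Agent.S55.h12_Cup
import Fermat.Agent.S55.h82_ClassComap
import Fermat.Agent.S55.h33_GlobKumDefs
import Fermat.Agent.S55.h66_GlobFunc2

/-!
# S55 / GLOB-NORMIDX-ARITH (helper41): the abelian norm index theorem for exponent-`p` steps
of levels, unlocalised arithmetic form

* `h41_normidx_PL` : the abstract core `h41_normidx_core` with `M := h2_PL p (Additive C')`;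
* `h41_normidx_sub` : the same for a commutative subgroup of exponent `p` of a group `Γ` acting
  on `C'`, from a `p`-class module structure on `h2_PL p (Additive C')` for `Γ` and the
  statements of H-NORMIDX (row 247);
* `h41_hypNorm_pair` : the three assertions (N1), (N2), (N3) of `h33_HypNorm` for ONE pair of
  levels `L ≤ L'`.
-/

set_option autoImplicit false

namespace Fermat.Agent.S55

local notation "Qb" => AlgebraicClosure ℚ

section PL

variable {p : ℕ} [Fact p.Prime] {G : Type*} [Group G] [Finite G]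
  {C C' : Type*} [CommGroup C] [CommGroup C'] [MulDistribMulAction G C']

/-- The abstract core with `M := h2_PL p (Additive C')` (`= C' ⊗ ℤ_(p)`). -/
theorem h41_normidx_PL (ext : C →* C') (N : C' →* C')
    (hN : ∀ c' : C', N c' = ∏ᶠ g : G, g • c')
    (hfix : ∀ (g : G) (c : C), g • ext c = ext c)
    (hdesc : ∀ c' : C', (∀ g : G, g • c' = c') → c' ∈ ext.range)
    (hpG : ∃ n : ℕ, Nat.card G = p ^ n)
    (hexp : ∀ x : h2_PL p (Additive C'), (∀ g : G, g • x = x) →
      ∃ x' : h2_PL p (Additive C'), p • x = ∑ᶠ g : G, g • x')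
    (hidx : (h12_normSubgroup G (h2_PL p (Additive C'))).relIndex
      (FixedPoints.addSubgroup G (h2_PL p (Additive C'))) = p ^ (Nat.card G).factorization p) :
    N.range ≤ ext.range ∧ (N.range.comap ext).index = Nat.card G ∧
      ∀ c : C, c ^ p ∈ N.range.comap ext := by
  have hp : p.Prime := Fact.out
  obtain ⟨n, hn⟩ := hpG
  refine h41_normidx_core (p := p) (M := h2_PL p (Additive C')) ext N hN h2_PL.j
    (fun g c' => h2_PL.j_smul g (Additive.ofMul c'))
    (fun x => ?_) (fun x hx => ?_) (fun c' hc' => ?_) hfix hdesc ⟨n, hn⟩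
    (h12_normSubgroup G (h2_PL p (Additive C'))) (fun x => h12_mem_normSubgroup x) hexp ?_
  · obtain ⟨m, hm, c, hc⟩ := h2_PL.exists_smul_eq_j x
    exact ⟨m, hm, Additive.toMul c, hc⟩
  · obtain ⟨m, hm, c, hc, hmx⟩ :=
      h2_PL.exists_smul_eq_j_of_fixed (⊤ : Subgroup G) x (fun h _ => hx h)
    exact ⟨m, hm, Additive.toMul c,
      fun g => congrArg Additive.toMul (hc g (Subgroup.mem_top g)), hmx⟩
  · obtain ⟨m, hm, h0⟩ := (h2_PL.j_eq_zero_iff _).1 hc'
    exact ⟨m, hm, congrArg Additive.toMul h0⟩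
  · rw [hidx, hn, Nat.Prime.factorization_pow hp, Finsupp.single_eq_same]

end PL

section Sub

variable {p : ℕ} [Fact p.Prime] {Γ : Type} [Group Γ] [Finite Γ]
  {C : Type*} {C' : Type} [CommGroup C] [CommGroup C'] [MulDistribMulAction Γ C']

/-- The norm index theorem for a commutative subgroup `Hs` of exponent `p` of a finite group `Γ`
acting on `C'`, from a `p`-class module structure on `C' ⊗ ℤ_(p)` for `Γ`.
`hNI` = the statements `hXX_normidx`, `hXX_exp_norm` of H-NORMIDX (row 247), in universe `0`. -/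
theorem h41_normidx_sub
    (hNI : ∀ (G : Type) [CommGroup G] [Finite G] (M : Type) [AddCommGroup M]
      [DistribMulAction G M], IsPClassModule p G M →
        (h12_normSubgroup G M).relIndex (FixedPoints.addSubgroup G M)
            = p ^ (Nat.card G).factorization p ∧
          ∀ (e : ℕ), (∀ g : G, g ^ e = 1) → ∀ c : M, (∀ g : G, g • c = c) →
            ∃ c' : M, e • c = ∑ᶠ g : G, g • c')
    (Hs : Subgroup Γ) (hcomm : ∀ s t : Hs, s * t = t * s) (hexp : ∀ s : Hs, s ^ p = 1)
    (hCF : IsPClassModule p Γ (h2_PL p (Additive C')))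
    (ext : C →* C') (N : C' →* C')
    (hN : ∀ c' : C', N c' = ∏ᶠ s : Hs, (s : Γ) • c')
    (hfix : ∀ s ∈ Hs, ∀ c : C, s • ext c = ext c)
    (hdesc : ∀ c' : C', (∀ s ∈ Hs, s • c' = c') → c' ∈ ext.range) :
    N.range ≤ ext.range ∧ (N.range.comap ext).index = Nat.card Hs ∧
      ∀ c : C, c ^ p ∈ N.range.comap ext := by
  let _ : CommGroup Hs := { (inferInstance : Group Hs) with mul_comm := hcomm }
  have hCs : IsPClassModule p Hs (h2_PL p (Additive C')) :=
    h82_classModule_comap Hs.subtype Subtype.val_injective (fun γ c => rfl) hCF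
  obtain ⟨hidx, hen⟩ := hNI Hs (h2_PL p (Additive C')) hCs
  have hpG : ∃ n : ℕ, Nat.card Hs = p ^ n :=
    (IsPGroup.iff_card).1 (fun g => ⟨1, by rw [pow_one]; exact hexp g⟩)
  exact h41_normidx_PL ext N hN (fun s c => hfix s s.2 c)
    (fun c' hc' => hdesc c' (fun s hs => hc' ⟨s, hs⟩)) hpG (fun x hx => hen p hexp x hx) hidx

end Sub

section Levels

variable (S : Finset Nat.Primes) {p : ℕ} [Fact p.Prime]

/-- Classes extended from the lower level are fixed by `Gal(L'/L)`. -/
theorem h41_ext_fixed {L L' : IntermediateField ℚ Qb} [NumberField ↥L] [NumberField ↥L']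
    (h : L ≤ L') (s : ↥L' ≃ₐ[ℚ] ↥L') (hs : s ∈ h33_relGal L L') (c : h25_C ↥L S) :
    h25_Cmap S (s : ↥L' →+* ↥L') (h33_ext S h c) = h33_ext S h c := by
  have hcomp : (s : ↥L' →+* ↥L').comp
      ((IntermediateField.inclusion h : ↥L →ₐ[ℚ] ↥L') : ↥L →+* ↥L')
        = ((IntermediateField.inclusion h : ↥L →ₐ[ℚ] ↥L') : ↥L →+* ↥L') := by
    ext x
    exact congrArg Subtype.val (hs (IntermediateField.inclusion h x) x.2)
  unfold h33_ext
  rw [← MonoidHom.comp_apply, ← h66_Cmap_comp, hcomp]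

/-- **GLOB-NORMIDX-ARITH for one pair of levels** `L ≤ L'` with `Gal(L'/L)` commutative of
exponent `p`: (N1) norms are extended classes, (N2) the norm group has index `#Gal(L'/L)`,
(N3) it contains the `p`-th powers.  Inputs: the Galois action on `C_{L'}` (any instance with
`hact`; GLOB-CACT), the class module structure of `C_{L'} ⊗ ℤ_(p)` for `Gal(L'/ℚ)` (GLOB-CF),
Galois descent `C_{L'}^{Gal(L'/L)} ⊆ ext C_L` (GLOB-DESC), and H-NORMIDX (`hNI`). -/
theorem h41_hypNorm_pair
    (hNI : ∀ (G : Type) [CommGroup G] [Finite G] (M : Type) [AddCommGroup M]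
      [DistribMulAction G M], IsPClassModule p G M →
        (h12_normSubgroup G M).relIndex (FixedPoints.addSubgroup G M)
            = p ^ (Nat.card G).factorization p ∧
          ∀ (e : ℕ), (∀ g : G, g ^ e = 1) → ∀ c : M, (∀ g : G, g • c = c) →
            ∃ c' : M, e • c = ∑ᶠ g : G, g • c')
    (L L' : IntermediateField ℚ Qb) [NumberField ↥L] [NumberField ↥L'] (h : L ≤ L')
    [MulDistribMulAction (↥L' ≃ₐ[ℚ] ↥L') (h25_C ↥L' S)]
    (hact : ∀ (σ : ↥L' ≃ₐ[ℚ] ↥L') (c : h25_C ↥L' S), σ • c = h25_Cmap S (σ : ↥L' →+* ↥L') c)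
    (hCF : IsPClassModule p (↥L' ≃ₐ[ℚ] ↥L') (h2_PL p (Additive (h25_C ↥L' S))))
    (hdesc : ∀ c' : h25_C ↥L' S,
      (∀ s ∈ h33_relGal L L', h25_Cmap S ((s : ↥L' ≃ₐ[ℚ] ↥L') : ↥L' →+* ↥L') c' = c') →
        c' ∈ (h33_ext S h).range)
    (hcomm : ∀ s t : h33_relGal L L', s * t = t * s) (hexp : ∀ s : h33_relGal L L', s ^ p = 1) :
    (h33_relNorm S L L').range ≤ (h33_ext S h).range ∧
    (h33_normGroup S h).index = Nat.card (h33_relGal L L') ∧
    ∀ c : h25_C ↥L S, c ^ p ∈ h33_normGroup S h :=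
  h41_normidx_sub hNI (h33_relGal L L') hcomm hexp hCF (h33_ext S h) (h33_relNorm S L L')
    (fun c' => by rw [h33_relNorm_apply]; exact finprod_congr (fun s => (hact _ _).symm))
    (fun s hs c => by rw [hact]; exact h41_ext_fixed S h s hs c)
    (fun c' hc' => hdesc c' (fun s hs => by rw [← hact]; exact hc' s hs))

/-- **GLOB-NORMIDX-ARITH**: `h33_HypNorm S p` from the Galois action on the class modules of the
levels (GLOB-CACT: any family of instances with `hact`), the class module structure at every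
level (GLOB-CF), Galois descent between levels (GLOB-DESC) and H-NORMIDX (`hNI`). -/
theorem h41_hypNorm_of
    (hNI : ∀ (G : Type) [CommGroup G] [Finite G] (M : Type) [AddCommGroup M]
      [DistribMulAction G M], IsPClassModule p G M →
        (h12_normSubgroup G M).relIndex (FixedPoints.addSubgroup G M)
            = p ^ (Nat.card G).factorization p ∧
          ∀ (e : ℕ), (∀ g : G, g ^ e = 1) → ∀ c : M, (∀ g : G, g • c = c) →
            ∃ c' : M, e • c = ∑ᶠ g : G, g • c')
    [act : ∀ (L' : IntermediateField ℚ Qb) [NumberField ↥L'],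
      MulDistribMulAction (↥L' ≃ₐ[ℚ] ↥L') (h25_C ↥L' S)]
    (hact : ∀ (L' : IntermediateField ℚ Qb) [NumberField ↥L'] (σ : ↥L' ≃ₐ[ℚ] ↥L')
      (c : h25_C ↥L' S), σ • c = h25_Cmap S (σ : ↥L' →+* ↥L') c)
    (hCF : ∀ (L' : IntermediateField ℚ Qb) [NumberField ↥L'], h25_IsLevel S L' →
      IsPClassModule p (↥L' ≃ₐ[ℚ] ↥L') (h2_PL p (Additive (h25_C ↥L' S))))
    (hDESC : ∀ (L L' : IntermediateField ℚ Qb) [NumberField ↥L] [NumberField ↥L'] (h : L ≤ L'),
      h25_IsLevel S L → h25_IsLevel S L' → ∀ c' : h25_C ↥L' S,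
        (∀ s ∈ h33_relGal L L', h25_Cmap S ((s : ↥L' ≃ₐ[ℚ] ↥L') : ↥L' →+* ↥L') c' = c') →
          c' ∈ (h33_ext S h).range) :
    h33_HypNorm S p := by
  intro L L' _ _ h hL hL' hcomm hexp
  exact h41_hypNorm_pair S hNI L L' h (hact L') (hCF L' hL') (hDESC L L' h hL hL') hcomm hexp

end Levels

end Fermat.Agent.S55
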