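import Mathlib

/-!
# S55 / GLOB-NORMIDX-ARITH (helper41): the abstract core

`G` a finite `p`-group acting on a commutative group `C'` (multiplicative), `ext : C →* C'` with
range the `G`-fixed elements, `N c' = ∏ g, g • c'` the norm operator on `C'`, and
`j : Additive C' →+ M` a "localisation at `p`" (every element of `M` is `m⁻¹ • j c'` with `m`
prime to `p`, the kernel of `j` is prime-to-`p` torsion, invariants commute with `j`).

If on `M` the norm index is `[M^G : N_G M] = #G` and `p • M^G ⊆ N_G M`, then on the honest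
(unlocalised) modules:

* (N1) `N C' ⊆ ext C`;
* (N2) the norm group `{c | ext c ∈ N C'}` has index `#G` in `C`;
* (N3) `c ^ p` lies in the norm group for every `c : C`.
-/

set_option autoImplicit false

namespace Fermat.Agent.S55

section Bezout

/-- Bezout in a group: `d ^ a ∈ S`, `d ^ b ∈ S`, `gcd a b ∣ t` ⟹ `d ^ t ∈ S`. -/
theorem h41_pow_mem_of_gcd_dvd {A : Type*} [Group A] (S : Subgroup A) (d : A) (a b t : ℕ)
    (ha : d ^ a ∈ S) (hb : d ^ b ∈ S) (ht : Nat.gcd a b ∣ t) : d ^ t ∈ S := by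
  obtain ⟨k, rfl⟩ := ht
  rw [pow_mul]
  apply S.pow_mem
  have h := Nat.gcd_eq_gcd_ab a b
  have h2 : d ^ (Nat.gcd a b) = (d ^ a) ^ (Nat.gcdA a b) * (d ^ b) ^ (Nat.gcdB a b) := by
    rw [← zpow_natCast d (Nat.gcd a b), h, zpow_add, zpow_mul, zpow_mul, zpow_natCast,
      zpow_natCast]
  rw [h2]
  exact S.mul_mem (S.zpow_mem ha _) (S.zpow_mem hb _)

/-- Bezout in an additive group: `a • d ∈ S`, `b • d ∈ S`, `gcd a b ∣ t` ⟹ `t • d ∈ S`. -/
theorem h41_nsmul_mem_of_gcd_dvd {A : Type*} [AddGroup A] (S : AddSubgroup A) (d : A)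
    (a b t : ℕ) (ha : a • d ∈ S) (hb : b • d ∈ S) (ht : Nat.gcd a b ∣ t) : t • d ∈ S := by
  obtain ⟨k, rfl⟩ := ht
  rw [mul_nsmul]
  apply S.nsmul_mem
  have h := Nat.gcd_eq_gcd_ab a b
  have h2 : (Nat.gcd a b) • d = (Nat.gcdA a b) • (a • d) + (Nat.gcdB a b) • (b • d) := by
    rw [← natCast_zsmul d (Nat.gcd a b), h, add_zsmul, mul_comm (a : ℤ), mul_comm (b : ℤ),
      mul_zsmul, mul_zsmul, natCast_zsmul, natCast_zsmul]
  rw [h2]
  exact S.add_mem (S.zsmul_mem ha _) (S.zsmul_mem hb _)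

end Bezout

section Norms

variable {G : Type*} [Group G] [Finite G]

/-- The norm of an element is fixed (multiplicative). -/
theorem h41_smul_finprod_smul {C' : Type*} [CommGroup C'] [MulDistribMulAction G C'] (c' : C')
    (h : G) : h • ∏ᶠ g : G, g • c' = ∏ᶠ g : G, g • c' := by
  rw [smul_finprod']
  simp only [smul_smul]
  exact finprod_comp_equiv (Equiv.mulLeft h) (f := fun g : G => g • c')

/-- The norm of a fixed element is its `#G`-th power. -/
theorem h41_finprod_smul_of_fixed {C' : Type*} [CommGroup C'] [MulDistribMulAction G C']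
    (c' : C') (hc : ∀ g : G, g • c' = c') : ∏ᶠ g : G, g • c' = c' ^ Nat.card G := by
  classical
  have : Fintype G := Fintype.ofFinite G
  rw [finprod_eq_prod_of_fintype]
  simp only [hc, Finset.prod_const, Finset.card_univ, Nat.card_eq_fintype_card]

/-- The norm of a fixed element is its `#G`-th multiple. -/
theorem h41_finsum_smul_of_fixed {M : Type*} [AddCommGroup M] [DistribMulAction G M]
    (x : M) (hx : ∀ g : G, g • x = x) : ∑ᶠ g : G, g • x = Nat.card G • x := by
  classical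
  have : Fintype G := Fintype.ofFinite G
  rw [finsum_eq_sum_of_fintype]
  simp only [hx, Finset.sum_const, Finset.card_univ, Nat.card_eq_fintype_card]

/-- Norms commute with multiples. -/
theorem h41_nsmul_finsum_smul {M : Type*} [AddCommGroup M] [DistribMulAction G M]
    (m : ℕ) (x : M) : m • ∑ᶠ g : G, g • x = ∑ᶠ g : G, g • (m • x) := by
  classical
  have : Fintype G := Fintype.ofFinite G
  rw [finsum_eq_sum_of_fintype, finsum_eq_sum_of_fintype, Finset.smul_sum]
  exact Finset.sum_congr rfl fun g _ => smul_comm m g x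

end Norms

section Core

variable {p : ℕ} [Fact p.Prime] {G : Type*} [Group G] [Finite G]
  {C C' : Type*} [CommGroup C] [CommGroup C'] [MulDistribMulAction G C']
  {M : Type*} [AddCommGroup M] [DistribMulAction G M]

/-- `j` intertwines the multiplicative norm on `C'` with the additive norm on `M`. -/
theorem h41_j_finprod (j : Additive C' →+ M)
    (hj : ∀ (g : G) (c' : C'), j (Additive.ofMul (g • c')) = g • j (Additive.ofMul c'))
    (c' : C') :
    j (Additive.ofMul (∏ᶠ g : G, g • c')) = ∑ᶠ g : G, g • j (Additive.ofMul c') := by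
  classical
  have : Fintype G := Fintype.ofFinite G
  rw [finprod_eq_prod_of_fintype, finsum_eq_sum_of_fintype, ofMul_prod, map_sum]
  exact Finset.sum_congr rfl fun g _ => hj g c'

omit [Fact p.Prime] in
/-- Key step: if `k • j d` is a norm in `M`, then `d ^ (k * m)` is a norm in `C'` for some `m`
prime to `p`. -/
theorem h41_pow_mem_norm_of_j (N : C' →* C') (hN : ∀ c' : C', N c' = ∏ᶠ g : G, g • c')
    (j : Additive C' →+ M)
    (hj : ∀ (g : G) (c' : C'), j (Additive.ofMul (g • c')) = g • j (Additive.ofMul c'))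
    (hjsurj : ∀ x : M, ∃ m : ℕ, m.Coprime p ∧ ∃ c' : C', m • x = j (Additive.ofMul c'))
    (hjker : ∀ c' : C', j (Additive.ofMul c') = 0 → ∃ m : ℕ, m.Coprime p ∧ c' ^ m = 1)
    (d : C') (k : ℕ) (x' : M) (hx' : k • j (Additive.ofMul d) = ∑ᶠ g : G, g • x') :
    ∃ m : ℕ, m.Coprime p ∧ d ^ (k * m) ∈ N.range := by
  obtain ⟨m₁, hm₁, c'', hc''⟩ := hjsurj x'
  have h1 : j (Additive.ofMul (d ^ (k * m₁) / N c'')) = 0 := by
    rw [ofMul_div, map_sub, ofMul_pow, map_nsmul, hN, h41_j_finprod j hj, ← hc'',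
      ← h41_nsmul_finsum_smul, ← hx', ← mul_nsmul, mul_comm k m₁, sub_self]
  obtain ⟨m₂, hm₂, h2⟩ := hjker _ h1
  refine ⟨m₁ * m₂, Nat.Coprime.mul_left hm₁ hm₂, c'' ^ m₂, ?_⟩
  rw [div_pow, div_eq_one, ← pow_mul] at h2
  rw [map_pow, ← mul_assoc, h2]

/-- **GLOB-NORMIDX-ARITH, abstract core.** -/
theorem h41_normidx_core (ext : C →* C') (N : C' →* C')
    (hN : ∀ c' : C', N c' = ∏ᶠ g : G, g • c')
    (j : Additive C' →+ M)
    (hj : ∀ (g : G) (c' : C'), j (Additive.ofMul (g • c')) = g • j (Additive.ofMul c'))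
    (hjsurj : ∀ x : M, ∃ m : ℕ, m.Coprime p ∧ ∃ c' : C', m • x = j (Additive.ofMul c'))
    (hjfix : ∀ x : M, (∀ g : G, g • x = x) →
      ∃ m : ℕ, m.Coprime p ∧ ∃ c' : C', (∀ g : G, g • c' = c') ∧ m • x = j (Additive.ofMul c'))
    (hjker : ∀ c' : C', j (Additive.ofMul c') = 0 → ∃ m : ℕ, m.Coprime p ∧ c' ^ m = 1)
    (hfix : ∀ (g : G) (c : C), g • ext c = ext c)
    (hdesc : ∀ c' : C', (∀ g : G, g • c' = c') → c' ∈ ext.range)
    (hpG : ∃ n : ℕ, Nat.card G = p ^ n)
    (NM : AddSubgroup M) (hNM : ∀ x : M, x ∈ NM ↔ ∃ x' : M, x = ∑ᶠ g : G, g • x')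
    (hexp : ∀ x : M, (∀ g : G, g • x = x) → ∃ x' : M, p • x = ∑ᶠ g : G, g • x')
    (hidx : NM.relIndex (FixedPoints.addSubgroup G M) = Nat.card G) :
    N.range ≤ ext.range ∧ (N.range.comap ext).index = Nat.card G ∧
      ∀ c : C, c ^ p ∈ N.range.comap ext := by
  have hp : p.Prime := Fact.out
  obtain ⟨n, hn⟩ := hpG
  -- fixed elements: the `#G`-th power is a norm
  have hcard : ∀ d : C', (∀ g : G, g • d = d) → d ^ Nat.card G ∈ N.range := fun d hd =>
    ⟨d, by rw [hN, h41_finprod_smul_of_fixed d hd]⟩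
  -- `j (ext c)` is fixed
  have hjfixed : ∀ (c : C) (g : G), g • j (Additive.ofMul (ext c)) = j (Additive.ofMul (ext c)) :=
    fun c g => by rw [← hj, hfix]
  -- (A) membership in the norm group can be tested in `M`
  have hA : ∀ c : C, ext c ∈ N.range ↔ j (Additive.ofMul (ext c)) ∈ NM := by
    intro c
    constructor
    · rintro ⟨c', hc'⟩
      rw [hNM]
      exact ⟨j (Additive.ofMul c'), by rw [← hc', hN, h41_j_finprod j hj]⟩
    · intro h
      obtain ⟨x', hx'⟩ := (hNM _).1 h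
      obtain ⟨m, hm, hmem⟩ := h41_pow_mem_norm_of_j (p := p) N hN j hj hjsurj hjker (ext c) 1 x'
        (by rw [one_nsmul, hx'])
      rw [one_mul] at hmem
      have h1 := h41_pow_mem_of_gcd_dvd N.range (ext c) m (Nat.card G) 1 hmem
        (hcard _ (fun g => hfix g c)) (by
          rw [hn, Nat.Coprime.gcd_eq_one (Nat.Coprime.pow_right n hm)])
      rwa [pow_one] at h1
  refine ⟨?_, ?_, ?_⟩
  · -- (N1)
    rintro _ ⟨c', rfl⟩
    rw [hN]
    exact hdesc _ (fun g => h41_smul_finprod_smul c' g)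
  · -- (N2)
    let F : AddSubgroup M := FixedPoints.addSubgroup G M
    let ψ : Additive C →+ F :=
      AddMonoidHom.codRestrict (j.comp (MonoidHom.toAdditive ext)) F
        (fun c => (FixedPoints.mem_addSubgroup G M _).2 (fun g => hjfixed (Additive.toMul c) g))
    have hψ : ∀ c : Additive C, ((ψ c : F) : M) = j (Additive.ofMul (ext (Additive.toMul c))) :=
      fun c => rfl
    let H : AddSubgroup F := NM.addSubgroupOf F
    have hcomap : (N.range.comap ext).toAddSubgroup = H.comap ψ := by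
      ext c
      rw [AddSubgroup.mem_comap, AddSubgroup.mem_addSubgroupOf, hψ, ← hA]
      rfl
    have hsup : ψ.range ⊔ H = ⊤ := by
      rw [eq_top_iff]
      rintro ⟨x, hx⟩ -
      have hx' : ∀ g : G, g • x = x := (FixedPoints.mem_addSubgroup G M x).1 hx
      obtain ⟨m, hm, c', hc', hmx⟩ := hjfix x hx'
      obtain ⟨c, rfl⟩ := hdesc c' hc'
      have h1 : m • (⟨x, hx⟩ : F) ∈ ψ.range ⊔ H := by
        apply AddSubgroup.mem_sup_left
        refine ⟨Additive.ofMul c, ?_⟩
        apply Subtype.ext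
        rw [hψ, AddSubgroup.coe_nsmul]
        exact hmx.symm
      have h2 : Nat.card G • (⟨x, hx⟩ : F) ∈ ψ.range ⊔ H := by
        apply AddSubgroup.mem_sup_right
        rw [AddSubgroup.mem_addSubgroupOf, AddSubgroup.coe_nsmul, hNM]
        exact ⟨x, (h41_finsum_smul_of_fixed x hx').symm⟩
      have h3 := h41_nsmul_mem_of_gcd_dvd (ψ.range ⊔ H) (⟨x, hx⟩ : F) m (Nat.card G) 1 h1 h2 (by
        rw [hn, Nat.Coprime.gcd_eq_one (Nat.Coprime.pow_right n hm)])
      rwa [one_nsmul] at h3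
    rw [← Subgroup.index_toAddSubgroup, hcomap, AddSubgroup.index_comap,
      ← AddSubgroup.relIndex_sup_right, hsup, AddSubgroup.relIndex_top_right]
    exact hidx
  · -- (N3)
    intro c
    rw [Subgroup.mem_comap, map_pow]
    obtain ⟨x', hx'⟩ := hexp _ (hjfixed c)
    obtain ⟨m, hm, hmem⟩ := h41_pow_mem_norm_of_j (p := p) N hN j hj hjsurj hjker (ext c) p x' hx'
    refine h41_pow_mem_of_gcd_dvd N.range (ext c) (p * m) (Nat.card G) p hmem
      (hcard _ (fun g => hfix g c)) ?_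
    rw [hn]
    rcases Nat.eq_zero_or_pos n with h0 | h0
    · rw [h0, pow_zero, Nat.gcd_one_right]
      exact one_dvd p
    · obtain ⟨n', rfl⟩ : ∃ n', n = n' + 1 := ⟨n - 1, by omega⟩
      rw [pow_succ', Nat.gcd_mul_left, Nat.Coprime.gcd_eq_one (Nat.Coprime.pow_right n' hm),
        mul_one]

end Core

end Fermat.Agent.S55
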