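import Fermat.Agent.S55.h72_AsmDefs

/-!
# S55, assembly layer, row ASM-SHAP1 (K4 + K5)

`h4_asm_shap1_loc` (K4): the connecting cocycle of the Kummer sequence of the coinduced module
`JJ q` is locally (at `q`) a coboundary.

`h4_asm_shap1_glob` (K5): conversely, a level-constant 1-cocycle of the dual twist which is a
coboundary on the local group at `q` is such a connecting cocycle (Shapiro in degree 1, done by
hand through the coinduction interface `ev_bij` of `h72_PTAmbient`).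
-/

set_option autoImplicit false

open CategoryTheory Module groupCohomology ExtCitation

namespace Fermat.Agent.S55

local notation "Qb" => AlgebraicClosure ℚ
local notation "GQ" => (AlgebraicClosure ℚ ≃ₐ[ℚ] AlgebraicClosure ℚ)

section ValArith

variable {p : ℕ} {X : Type*}

/-- `n • z` only depends on `n` modulo `p` when `p • z = 0`. -/
theorem h4_mod_nsmul [AddMonoid X] {z : X} (hz : p • z = 0) (n : ℕ) : (n % p) • z = n • z := by
  conv_rhs => rw [← Nat.mod_add_div n p, add_nsmul, mul_nsmul, hz, nsmul_zero, add_zero]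

theorem h4_val_add_nsmul [NeZero p] [AddMonoid X] {z : X} (hz : p • z = 0) (a b : ZMod p) :
    (a + b).val • z = a.val • z + b.val • z := by
  rw [ZMod.val_add, h4_mod_nsmul hz, add_nsmul]

theorem h4_val_mul_nsmul [AddMonoid X] {z : X} (hz : p • z = 0) (a b : ZMod p) :
    (a * b).val • z = a.val • (b.val • z) := by
  rw [ZMod.val_mul, h4_mod_nsmul hz, mul_nsmul']

theorem h4_val_mul_nsmul' [AddMonoid X] {z : X} (hz : p • z = 0) (a b : ZMod p) :
    (a * b).val • z = b.val • (a.val • z) := by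
  rw [ZMod.val_mul, h4_mod_nsmul hz, mul_nsmul]

theorem h4_val_sub_nsmul [NeZero p] [AddGroup X] {z : X} (hz : p • z = 0) (a b : ZMod p) :
    (a - b).val • z = a.val • z - b.val • z := by
  rw [eq_sub_iff_add_eq, ← h4_val_add_nsmul hz, sub_add_cancel]

theorem h4_val_natCast_nsmul [AddMonoid X] {z : X} (hz : p • z = 0) (k : ℕ) :
    ((k : ZMod p)).val • z = k • z := by
  rw [ZMod.val_natCast, h4_mod_nsmul hz]

theorem h4_val_eq_zero [Fact p.Prime] [AddMonoid X] {z : X} (hz : p • z = 0) (hz0 : z ≠ 0)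
    {a : ZMod p} (h : a.val • z = 0) : a = 0 := by
  by_contra ha
  apply hz0
  have h1 : (a⁻¹ * a).val • z = 0 := by rw [h4_val_mul_nsmul hz, h, nsmul_zero]
  rwa [inv_mul_cancel₀ ha, ZMod.val_one, one_smul] at h1

theorem h4_val_inj [Fact p.Prime] [AddGroup X] {z : X} (hz : p • z = 0) (hz0 : z ≠ 0)
    {a b : ZMod p} (h : a.val • z = b.val • z) : a = b := by
  rw [← sub_eq_zero]
  apply h4_val_eq_zero hz hz0
  rw [h4_val_sub_nsmul hz, h, sub_self]

end ValArith

section Middle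

variable {p : ℕ} [Fact p.Prime] (S : Finset Nat.Primes)
  {CC : Type} [AddCommGroup CC] [DistribMulAction GQ CC]
  {JJ : ↥S → Type} [∀ q, AddCommGroup (JJ q)] [∀ q, DistribMulAction GQ (JJ q)]
  {XX : ↥S → Type} [∀ q, AddCommGroup (XX q)]
  [∀ q : ↥S, DistribMulAction (primeLocalGaloisGroup q.1) (XX q)]
  {κ : ∀ q, JJ q →+ CC} {ev : ∀ q, JJ q →+ XX q} {zz : ∀ q, XX q}

/-- Elements of the coinduced module `JJ q` are determined by their "values"
`g ↦ ev q (g • y)`. -/
theorem h4_ev_inj (hA : h72_PTAmbient p S CC JJ XX κ ev zz) (q : ↥S) (y₁ y₂ : JJ q)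
    (h : ∀ g : GQ, ev q (g • y₁) = ev q (g • y₂)) : y₁ = y₂ := by
  obtain ⟨L, hL⟩ := hA.jj_smooth q y₁
  have hu := hA.ev_bij q (fun g => ev q (g • y₁))
    (fun τ g => by rw [mul_smul, hA.ev_smul])
    ⟨L, fun g s hs => by rw [mul_smul, hL s hs]⟩
  exact hu.unique (fun g => rfl) (fun g => (h g).symm)

variable (M : Rep (ZMod p) GQ) [FiniteDimensional (ZMod p) M]

set_option linter.unusedSectionVars false

/-- ASM-SHAP1-LOC (K4): the connecting cocycle is locally a coboundary. -/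
theorem h4_asm_shap1_loc (hA : h72_PTAmbient p S CC JJ XX κ ev zz) (q : ↥S)
    (y : JJ q) (hy : ∀ g : GQ, ev q (g • y) = (cycloChar p g : ZMod p).val • zz q)
    (ft : M →+ JJ q) (c : GQ → Module.Dual (ZMod p) M)
    (hc : ∀ (σ : GQ) (m : M), σ • ft (M.ρ σ⁻¹ m) - ft m = (c σ m).val • y) :
    ∃ b : Module.Dual (ZMod p) M, ∀ τ : primeLocalGaloisGroup q.1,
      c (primeLocalToGlobal q.1 τ) =
        (M.dualTwist (cycloChar p)).ρ (primeLocalToGlobal q.1 τ) b - b := by
  have hZ := hA.zz_tors q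
  have hZ0 := hA.zz_ne q
  have hpM : ∀ m : M, p • m = 0 := fun m => by
    rw [← Nat.cast_smul_eq_nsmul (ZMod p), ZMod.natCast_self, zero_smul]
  have hex : ∀ m : M, ∃ a : ZMod p, ev q (ft m) = a.val • zz q := by
    intro m
    have h0 : p • ev q (ft m) = 0 := by
      rw [← map_nsmul, ← map_nsmul, hpM, map_zero, map_zero]
    obtain ⟨k, hk⟩ := hA.xx_tors q _ h0
    exact ⟨(k : ZMod p), by rw [hk, h4_val_natCast_nsmul hZ]⟩
  choose β hβ using hex
  have hβadd : ∀ m m', β (m + m') = β m + β m' := by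
    intro m m'
    apply h4_val_inj hZ hZ0
    rw [h4_val_add_nsmul hZ, ← hβ, ← hβ, ← hβ, map_add, map_add]
  let b : Module.Dual (ZMod p) M := (AddMonoidHom.mk' β hβadd).toZModLinearMap p
  have hb : ∀ m, b m = β m := fun m => rfl
  have hy1 : ev q y = zz q := by
    have h1 := hy 1
    rwa [one_smul, map_one, Units.val_one, ZMod.val_one, one_smul] at h1
  refine ⟨b, fun τ => ?_⟩
  apply LinearMap.ext
  intro m
  have h1 := congrArg (ev q) (hc (primeLocalToGlobal q.1 τ) m)
  rw [map_sub, hA.ev_smul, hβ, hβ, map_nsmul, hy1, smul_comm τ, hA.zz_smul,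
    ← h4_val_mul_nsmul hZ, ← h4_val_sub_nsmul hZ] at h1
  have h2 := h4_val_inj hZ hZ0 h1
  rw [LinearMap.sub_apply, Rep.dualTwist_ρ_apply, LinearMap.smul_apply, LinearMap.comp_apply,
    hb, hb, smul_eq_mul, ← h2]
  ring

/-- ASM-SHAP1-GLOB (K5): a level-constant 1-cocycle of the dual twist which is locally a
coboundary at `q` is a connecting cocycle. -/
theorem h4_asm_shap1_glob (hA : h72_PTAmbient p S CC JJ XX κ ev zz)
    (L₀ : h72_Lev S) (hL₀ : ∀ s ∈ L₀.U, M.ρ s = 1) (q : ↥S)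
    (y : JJ q) (hy : ∀ g : GQ, ev q (g • y) = (cycloChar p g : ZMod p).val • zz q)
    (c : GQ → Module.Dual (ZMod p) M)
    (hc : ∀ σ τ : GQ, c (σ * τ) = (M.dualTwist (cycloChar p)).ρ σ (c τ) + c σ)
    (hcl : IsLevelConstantS₁ S c)
    (hloc : ∃ b : Module.Dual (ZMod p) M, ∀ τ : primeLocalGaloisGroup q.1,
      c (primeLocalToGlobal q.1 τ) =
        (M.dualTwist (cycloChar p)).ρ (primeLocalToGlobal q.1 τ) b - b) :
    ∃ ft : M →+ JJ q, (∀ m, p • ft m = 0) ∧
      ∀ (σ : GQ) (m : M), σ • ft (M.ρ σ⁻¹ m) - ft m = (c σ m).val • y := by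
  obtain ⟨b, hb⟩ := hloc
  have hZ := hA.zz_tors q
  obtain ⟨F, hF₀, hFS, hFG, hFc⟩ := (h97_isLevelConstantS₁_iff S L₀.F L₀.unr c).1 hcl
  have hFρ : ∀ s ∈ F.fixingSubgroup, M.ρ s = 1 := fun s hs =>
    hL₀ s (IntermediateField.fixingSubgroup_antitone hF₀ hs)
  -- the cocycle identity, evaluated
  have hcE : ∀ (g σ : GQ) (n : M),
      c (g * σ) (M.ρ g n) = (cycloChar p g : ZMod p) * c σ n + c g (M.ρ g n) := by
    intro g σ n
    rw [hc, LinearMap.add_apply, Rep.dualTwist_ρ_apply, LinearMap.smul_apply,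
      LinearMap.comp_apply, smul_eq_mul, Representation.inv_self_apply]
  -- the local coboundary identity, evaluated
  have hbE : ∀ (τ : primeLocalGaloisGroup q.1) (n : M),
      c (primeLocalToGlobal q.1 τ) (M.ρ (primeLocalToGlobal q.1 τ) n) =
        (cycloChar p (primeLocalToGlobal q.1 τ) : ZMod p) * b n -
          b (M.ρ (primeLocalToGlobal q.1 τ) n) := by
    intro τ n
    rw [hb, LinearMap.sub_apply, Rep.dualTwist_ρ_apply, LinearMap.smul_apply,
      LinearMap.comp_apply, smul_eq_mul, Representation.inv_self_apply]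
  let φ : M → GQ → XX q := fun m g => (b (M.ρ g m) + c g (M.ρ g m)).val • zz q
  have hφ1 : ∀ (m : M) (τ : primeLocalGaloisGroup q.1) (g : GQ),
      φ m (primeLocalToGlobal q.1 τ * g) = τ • φ m g := by
    intro m τ g
    show (b (M.ρ (primeLocalToGlobal q.1 τ * g) m) +
        c (primeLocalToGlobal q.1 τ * g) (M.ρ (primeLocalToGlobal q.1 τ * g) m)).val • zz q =
      τ • ((b (M.ρ g m) + c g (M.ρ g m)).val • zz q)
    rw [map_mul, Module.End.mul_apply, hc, LinearMap.add_apply, Rep.dualTwist_ρ_apply,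
      LinearMap.smul_apply, LinearMap.comp_apply, smul_eq_mul, Representation.inv_self_apply,
      hbE, smul_comm τ, hA.zz_smul, ← h4_val_mul_nsmul hZ]
    congr 1
    congr 1
    ring
  have hφ2 : ∀ m : M, ∃ L : h72_Lev S, ∀ g s, s ∈ L.U → φ m (g * s) = φ m g := by
    intro m
    refine ⟨⟨F, hFS, hFG⟩, fun g s hs => ?_⟩
    show (b (M.ρ (g * s) m) + c (g * s) (M.ρ (g * s) m)).val • zz q =
      (b (M.ρ g m) + c g (M.ρ g m)).val • zz q
    rw [map_mul, Module.End.mul_apply, hFρ s hs, Module.End.one_apply, hFc g s hs]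
  have hex := fun m => (hA.ev_bij q (φ m) (hφ1 m) (hφ2 m)).exists
  choose f hf using hex
  have hinj := h4_ev_inj S hA q
  have hfadd : ∀ m m', f (m + m') = f m + f m' := by
    intro m m'
    apply hinj
    intro g
    rw [smul_add, map_add, hf, hf, hf]
    show (b (M.ρ g (m + m')) + c g (M.ρ g (m + m'))).val • zz q =
      (b (M.ρ g m) + c g (M.ρ g m)).val • zz q + (b (M.ρ g m') + c g (M.ρ g m')).val • zz q
    rw [← h4_val_add_nsmul hZ, map_add, map_add, map_add]
    congr 1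
    congr 1
    ring
  refine ⟨AddMonoidHom.mk' f hfadd, fun m => ?_, fun σ m => ?_⟩
  · apply hinj
    intro g
    show ev q (g • p • f m) = ev q (g • (0 : JJ q))
    rw [smul_zero, map_zero, smul_comm g, map_nsmul, hf]
    show p • ((b (M.ρ g m) + c g (M.ρ g m)).val • zz q) = 0
    rw [smul_comm p, hZ, nsmul_zero]
  · apply hinj
    intro g
    show ev q (g • (σ • f (M.ρ σ⁻¹ m) - f m)) = ev q (g • (c σ m).val • y)
    rw [smul_sub, map_sub, ← mul_smul, hf, hf, smul_comm g, map_nsmul, hy]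
    show (b (M.ρ (g * σ) (M.ρ σ⁻¹ m)) + c (g * σ) (M.ρ (g * σ) (M.ρ σ⁻¹ m))).val • zz q -
        (b (M.ρ g m) + c g (M.ρ g m)).val • zz q =
      (c σ m).val • (cycloChar p g : ZMod p).val • zz q
    rw [map_mul, Module.End.mul_apply, Representation.self_inv_apply, hcE,
      ← h4_val_sub_nsmul hZ, ← h4_val_mul_nsmul hZ]
    congr 1
    congr 1
    ring

end Middle

end Fermat.Agent.S55
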