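import Mathlib

/-!
# S55, formal layer: level cochains and level cohomology

For a group `G` with a *level system* `𝒰` (a downward directed family of finite-index subgroups,
each containing a normal member) and a representation `M`, the *level cochains* are the
inhomogeneous cochains `f : (Fin n → G) → M` which are right-invariant under some `U ∈ 𝒰` in every
variable (and whose differential has the same property; this is automatic for smooth `M`).
They form a subcomplex `h4_C 𝒰 M` of Mathlib's `groupCohomology.inhomogeneousCochains M`, whose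
homology `h4_H 𝒰 M n` is the level ("continuous") cohomology.

Main declarations:
* `h4_Levels G`, `h4_IsLevel 𝒰 f`, `h4_Levels.Compat 𝒰 𝒱 f`
* `h4_cochains 𝒰 M n`, `h4_C 𝒰 M`, `h4_H 𝒰 M n`
* `h4_cochainsMap f hf φ`, `h4_map f hf φ n` (functoriality in the group and the module)
* `h4_Z 𝒰 M n` (concrete level cocycles), `h4_π 𝒰 M n : h4_Z 𝒰 M n →ₗ[k] h4_H 𝒰 M n`,
  `h4_π_surjective`, `h4_π_eq_zero_iff_zero`, `h4_π_eq_zero_iff_succ`, `h4_map_π`.
-/

set_option autoImplicit false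

universe u

open CategoryTheory

namespace Fermat.Agent.S55

/-- A level system on a group `G`: a nonempty, downward directed family of finite-index subgroups,
each of which contains a normal member of the family. -/
structure h4_Levels (G : Type u) [Group G] where
  /-- the subgroups of the family -/
  sets : Set (Subgroup G)
  nonempty : sets.Nonempty
  directed : ∀ U ∈ sets, ∀ V ∈ sets, ∃ W ∈ sets, W ≤ U ⊓ V
  normal : ∀ U ∈ sets, ∃ N ∈ sets, N ≤ U ∧ N.Normal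
  finite : ∀ U ∈ sets, U.FiniteIndex

section IsLevel

variable {G : Type u} [Group G] (𝒰 : h4_Levels G)

/-- A function of `n` group variables is *level-constant* if it is invariant under right
multiplication of all variables by elements of some member of the level system. -/
def h4_IsLevel {n : ℕ} {X : Type*} (f : (Fin n → G) → X) : Prop :=
  ∃ U ∈ 𝒰.sets, ∀ g s : Fin n → G, (∀ i, s i ∈ U) → f (g * s) = f g

lemma h4_isLevel_const {n : ℕ} {X : Type*} (x : X) :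
    h4_IsLevel 𝒰 (fun _ : Fin n → G => x) := by
  obtain ⟨U, hU⟩ := 𝒰.nonempty
  exact ⟨U, hU, fun _ _ _ => rfl⟩

variable {𝒰}

lemma h4_IsLevel.comp {n : ℕ} {X Y : Type*} {f : (Fin n → G) → X} (hf : h4_IsLevel 𝒰 f)
    (φ : X → Y) : h4_IsLevel 𝒰 (fun g => φ (f g)) := by
  obtain ⟨U, hU, h⟩ := hf
  exact ⟨U, hU, fun g s hs => by simp only [h g s hs]⟩

lemma h4_IsLevel.map₂ {n : ℕ} {X Y Z : Type*} {f : (Fin n → G) → X} {f' : (Fin n → G) → Y}
    (hf : h4_IsLevel 𝒰 f) (hf' : h4_IsLevel 𝒰 f') (φ : X → Y → Z) :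
    h4_IsLevel 𝒰 (fun g => φ (f g) (f' g)) := by
  obtain ⟨U, hU, h⟩ := hf
  obtain ⟨U', hU', h'⟩ := hf'
  obtain ⟨W, hW, hWle⟩ := 𝒰.directed U hU U' hU'
  exact ⟨W, hW, fun g s hs => by
    simp only [h g s fun i => (hWle (hs i)).1, h' g s fun i => (hWle (hs i)).2]⟩

lemma h4_IsLevel.add {n : ℕ} {X : Type*} [Add X] {f f' : (Fin n → G) → X}
    (hf : h4_IsLevel 𝒰 f) (hf' : h4_IsLevel 𝒰 f') : h4_IsLevel 𝒰 (f + f') :=
  hf.map₂ hf' (· + ·)

lemma h4_IsLevel.exists_normal {n : ℕ} {X : Type*} {f : (Fin n → G) → X}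
    (hf : h4_IsLevel 𝒰 f) :
    ∃ N ∈ 𝒰.sets, N.Normal ∧ ∀ g s : Fin n → G, (∀ i, s i ∈ N) → f (g * s) = f g := by
  obtain ⟨U, hU, h⟩ := hf
  obtain ⟨N, hN, hNU, hNn⟩ := 𝒰.normal U hU
  exact ⟨N, hN, hNn, fun g s hs => h g s fun i => hNU (hs i)⟩

end IsLevel

/-- A group homomorphism `f : G →* H` is compatible with level systems `𝒰` on `G` and `𝒱` on `H`
if the preimage of every level of `H` contains a level of `G` ("`f` is continuous"). -/
def h4_Levels.Compat {G H : Type u} [Group G] [Group H] (𝒰 : h4_Levels G) (𝒱 : h4_Levels H)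
    (f : G →* H) : Prop :=
  ∀ V ∈ 𝒱.sets, ∃ U ∈ 𝒰.sets, U ≤ V.comap f

lemma h4_Levels.compat_id {G : Type u} [Group G] (𝒰 : h4_Levels G) :
    𝒰.Compat 𝒰 (MonoidHom.id G) :=
  fun V hV => ⟨V, hV, le_rfl⟩

lemma h4_Levels.Compat.comp {G H K : Type u} [Group G] [Group H] [Group K] {𝒰 : h4_Levels G}
    {𝒱 : h4_Levels H} {𝒲 : h4_Levels K} {f : G →* H} {g : H →* K} (hf : 𝒰.Compat 𝒱 f)
    (hg : 𝒱.Compat 𝒲 g) : 𝒰.Compat 𝒲 (g.comp f) := by
  intro W hW
  obtain ⟨V, hV, hVW⟩ := hg W hW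
  obtain ⟨U, hU, hUV⟩ := hf V hV
  exact ⟨U, hU, fun x hx => hVW (hUV hx)⟩

lemma h4_IsLevel.precomp {G H : Type u} [Group G] [Group H] {𝒰 : h4_Levels G} {𝒱 : h4_Levels H}
    {f : G →* H} (hf : 𝒰.Compat 𝒱 f) {n : ℕ} {X : Type*} {x : (Fin n → H) → X}
    (hx : h4_IsLevel 𝒱 x) : h4_IsLevel 𝒰 (fun g : Fin n → G => x (f ∘ g)) := by
  obtain ⟨V, hV, h⟩ := hx
  obtain ⟨U, hU, hUV⟩ := hf V hV
  refine ⟨U, hU, fun g s hs => ?_⟩
  have : (f ∘ (g * s) : Fin n → H) = (f ∘ g) * (f ∘ s) := by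
    funext i; simp
  show x (f ∘ (g * s)) = x (f ∘ g)
  rw [this]
  exact h _ _ fun i => hUV (hs i)

section Cochains

variable {k G : Type u} [CommRing k] [Group G] (𝒰 : h4_Levels G) (M : Rep.{u} k G)

/-- The level `n`-cochains: level-constant cochains whose differential is level-constant. -/
def h4_cochains (n : ℕ) : Submodule k ((Fin n → G) → M) where
  carrier := {f | h4_IsLevel 𝒰 f ∧ h4_IsLevel 𝒰 ((_root_.inhomogeneousCochains.d M n).hom f)}
  add_mem' := by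
    rintro f f' ⟨hf, hdf⟩ ⟨hf', hdf'⟩
    refine ⟨hf.add hf', ?_⟩
    rw [map_add]
    exact hdf.add hdf'
  zero_mem' := ⟨h4_isLevel_const 𝒰 (0 : M), by
    rw [map_zero]; exact h4_isLevel_const 𝒰 (0 : M)⟩
  smul_mem' := by
    rintro c f ⟨hf, hdf⟩
    refine ⟨hf.comp (c • ·), ?_⟩
    rw [map_smul]
    exact hdf.comp (c • ·)

lemma h4_mem_cochains_iff {n : ℕ} (f : (Fin n → G) → M) :
    f ∈ h4_cochains 𝒰 M n ↔
      h4_IsLevel 𝒰 f ∧ h4_IsLevel 𝒰 ((_root_.inhomogeneousCochains.d M n).hom f) := Iff.rfl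

lemma h4_d_d_apply {n : ℕ} (f : (Fin n → G) → M) :
    (_root_.inhomogeneousCochains.d M (n + 1)).hom ((_root_.inhomogeneousCochains.d M n).hom f)
      = 0 := by
  have h := groupCohomology.inhomogeneousCochains.d_comp_d n M
  have h2 := congrArg (fun φ => φ.hom f) h
  simpa using h2

/-- The differential of the level cochain complex. -/
noncomputable def h4_d (n : ℕ) : h4_cochains 𝒰 M n →ₗ[k] h4_cochains 𝒰 M (n + 1) :=
  (_root_.inhomogeneousCochains.d M n).hom.restrict (p := h4_cochains 𝒰 M n)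
    (q := h4_cochains 𝒰 M (n + 1)) fun f hf => ⟨hf.2, by
      rw [h4_d_d_apply]; exact h4_isLevel_const 𝒰 (0 : M)⟩

@[simp]
lemma h4_d_coe {n : ℕ} (f : h4_cochains 𝒰 M n) :
    (h4_d 𝒰 M n f : (Fin (n + 1) → G) → M) = (_root_.inhomogeneousCochains.d M n).hom f.1 := rfl

/-- The complex of level cochains. -/
noncomputable def h4_C : CochainComplex (ModuleCat k) ℕ :=
  CochainComplex.of (fun n => ModuleCat.of k (h4_cochains 𝒰 M n))
    (fun n => ModuleCat.ofHom (h4_d 𝒰 M n)) fun n => by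
      ext f x
      exact congrFun (h4_d_d_apply M f.1) x

/-- The level cohomology of `M`. -/
noncomputable def h4_H (n : ℕ) : ModuleCat k := (h4_C 𝒰 M).homology n

@[simp]
lemma h4_C_d (n : ℕ) : (h4_C 𝒰 M).d n (n + 1) = ModuleCat.ofHom (h4_d 𝒰 M n) := by
  simp [h4_C]

/-- The inclusion of the level cochains into all inhomogeneous cochains. -/
noncomputable def h4_ι : h4_C 𝒰 M ⟶ groupCohomology.inhomogeneousCochains M where
  f n := ModuleCat.ofHom (h4_cochains 𝒰 M n).subtype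
  comm' i j (hij : _ = _) := by
    subst hij
    ext f x
    simp only [h4_C, CochainComplex.of_d]
    rfl

end Cochains

section Functoriality

variable {k G H : Type u} [CommRing k] [Group G] [Group H] {𝒰 : h4_Levels G} {𝒱 : h4_Levels H}
  {A : Rep.{u} k H} {B : Rep.{u} k G} (f : G →* H) (hf : 𝒰.Compat 𝒱 f) (φ : Rep.res f A ⟶ B)

lemma h4_cochainsMap_d_apply {n : ℕ} (x : (Fin n → H) → A) :
    (_root_.inhomogeneousCochains.d B n).hom (((groupCohomology.cochainsMap f φ).f n).hom x) =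
      ((groupCohomology.cochainsMap f φ).f (n + 1)).hom
        ((_root_.inhomogeneousCochains.d A n).hom x) := by
  have h := (groupCohomology.cochainsMap f φ).comm n (n + 1)
  simp only [CochainComplex.of_d] at h
  exact congrArg (fun ψ => ψ.hom x) h

include hf in
lemma h4_cochainsMap_mem {n : ℕ} {x : (Fin n → H) → A} (hx : x ∈ h4_cochains 𝒱 A n) :
    ((groupCohomology.cochainsMap f φ).f n).hom x ∈ h4_cochains 𝒰 B n := by
  refine ⟨?_, ?_⟩
  · exact ((h4_IsLevel.precomp hf hx.1).comp φ.hom :)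
  · rw [h4_cochainsMap_d_apply]
    exact ((h4_IsLevel.precomp hf hx.2).comp φ.hom :)

/-- Functoriality of the level cochain complex: for a compatible group homomorphism `f : G →* H`
and `φ : Res(f)(A) ⟶ B`, the chain map `x ↦ (g ↦ φ (x (f ∘ g)))`. -/
noncomputable def h4_cochainsMap : h4_C 𝒱 A ⟶ h4_C 𝒰 B where
  f n := ModuleCat.ofHom
    (((groupCohomology.cochainsMap f φ).f n).hom.restrict (p := h4_cochains 𝒱 A n)
      (q := h4_cochains 𝒰 B n) fun _ hx => h4_cochainsMap_mem f hf φ hx)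
  comm' i j (hij : _ = _) := by
    subst hij
    ext x : 3
    apply Subtype.ext
    simp only [h4_C_d]
    exact h4_cochainsMap_d_apply f φ x.1

@[simp]
lemma h4_cochainsMap_f_apply {n : ℕ} (x : h4_cochains 𝒱 A n) (g : Fin n → G) :
    (((h4_cochainsMap f hf φ).f n).hom x).1 g = φ.hom (x.1 (f ∘ g)) := rfl

/-- Functoriality of level cohomology. -/
noncomputable def h4_map (n : ℕ) : h4_H 𝒱 A n ⟶ h4_H 𝒰 B n :=
  HomologicalComplex.homologyMap (h4_cochainsMap f hf φ) n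

end Functoriality

section Concrete

variable {k G : Type u} [CommRing k] [Group G] (𝒰 : h4_Levels G) (M : Rep.{u} k G)

/-- The level `n`-cocycles, as a submodule of all functions `(Fin n → G) → M`. -/
def h4_Z (n : ℕ) : Submodule k ((Fin n → G) → M) where
  carrier := {f | h4_IsLevel 𝒰 f ∧ (_root_.inhomogeneousCochains.d M n).hom f = 0}
  add_mem' := by
    rintro f f' ⟨hf, hdf⟩ ⟨hf', hdf'⟩
    exact ⟨hf.add hf', by rw [map_add, hdf, hdf', add_zero]⟩
  zero_mem' := ⟨h4_isLevel_const 𝒰 (0 : M), map_zero _⟩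
  smul_mem' := by
    rintro c f ⟨hf, hdf⟩
    exact ⟨hf.comp (c • ·), by rw [map_smul, hdf, smul_zero]⟩

lemma h4_mem_Z_iff {n : ℕ} (f : (Fin n → G) → M) :
    f ∈ h4_Z 𝒰 M n ↔ h4_IsLevel 𝒰 f ∧ (_root_.inhomogeneousCochains.d M n).hom f = 0 := Iff.rfl

lemma h4_Z_le_cochains (n : ℕ) : h4_Z 𝒰 M n ≤ h4_cochains 𝒰 M n :=
  fun f hf => ⟨hf.1, by rw [hf.2]; exact h4_isLevel_const 𝒰 (0 : M)⟩

/-- A level cocycle as a cycle of the level complex. -/
noncomputable def h4_toCycles (n : ℕ) :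
    ModuleCat.of k (h4_Z 𝒰 M n) ⟶ (h4_C 𝒰 M).cycles n :=
  (h4_C 𝒰 M).liftCycles (ModuleCat.ofHom (Submodule.inclusion (h4_Z_le_cochains 𝒰 M n)))
    (n + 1) (by simp) (by
      ext z : 3
      apply Subtype.ext
      simp only [h4_C_d]
      exact z.2.2)

lemma h4_iCycles_toCycles {n : ℕ} (z : h4_Z 𝒰 M n) :
    (((h4_C 𝒰 M).iCycles n).hom ((h4_toCycles 𝒰 M n).hom z)).1 = z.1 := by
  have h := (h4_C 𝒰 M).liftCycles_i
    (ModuleCat.ofHom (Submodule.inclusion (h4_Z_le_cochains 𝒰 M n))) (n + 1) (by simp) (by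
      ext z : 3
      apply Subtype.ext
      simp only [h4_C_d]
      exact z.2.2)
  exact congrArg (fun ψ => (ψ.hom z).1) h

lemma h4_iCycles_injective (n : ℕ) : Function.Injective ((h4_C 𝒰 M).iCycles n).hom :=
  (ModuleCat.mono_iff_injective _).1 inferInstance

lemma h4_iCycles_mem_Z {n : ℕ} (c : (h4_C 𝒰 M).cycles n) :
    (((h4_C 𝒰 M).iCycles n).hom c).1 ∈ h4_Z 𝒰 M n := by
  refine ⟨(((h4_C 𝒰 M).iCycles n).hom c).2.1, ?_⟩
  have h := (h4_C 𝒰 M).iCycles_d n (n + 1)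
  have h2 := congrArg (fun ψ => (ψ.hom c).1) h
  simp only [h4_C_d] at h2
  exact h2

lemma h4_toCycles_surjective (n : ℕ) : Function.Surjective (h4_toCycles 𝒰 M n).hom := by
  intro c
  refine ⟨⟨_, h4_iCycles_mem_Z 𝒰 M c⟩, ?_⟩
  apply h4_iCycles_injective
  apply Subtype.ext
  rw [h4_iCycles_toCycles]

lemma h4_toCycles_injective (n : ℕ) : Function.Injective (h4_toCycles 𝒰 M n).hom := by
  intro z z' h
  apply Subtype.ext
  rw [← h4_iCycles_toCycles, ← h4_iCycles_toCycles 𝒰 M z', h]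

/-- The class of a level cocycle in level cohomology. -/
noncomputable def h4_π (n : ℕ) : h4_Z 𝒰 M n →ₗ[k] h4_H 𝒰 M n :=
  (h4_toCycles 𝒰 M n ≫ (h4_C 𝒰 M).homologyπ n).hom

lemma h4_π_surjective (n : ℕ) : Function.Surjective (h4_π 𝒰 M n) := by
  have h1 : Function.Surjective ((h4_C 𝒰 M).homologyπ n).hom :=
    (ModuleCat.epi_iff_surjective _).1 inferInstance
  exact h1.comp (h4_toCycles_surjective 𝒰 M n)

lemma h4_toCycles_d_apply {n : ℕ} (y : h4_cochains 𝒰 M n) :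
    (((h4_C 𝒰 M).iCycles (n + 1)).hom (((h4_C 𝒰 M).toCycles n (n + 1)).hom y)).1
      = (_root_.inhomogeneousCochains.d M n).hom y.1 := by
  have h3 := (h4_C 𝒰 M).toCycles_i n (n + 1)
  have h4 := congrArg (fun ψ => (ψ.hom y).1) h3
  simp only [h4_C_d] at h4
  exact h4

/-- In positive degree, a level cocycle is trivial in level cohomology iff it is the differential
of a level-constant cochain. -/
lemma h4_π_eq_zero_iff_succ {n : ℕ} (z : h4_Z 𝒰 M (n + 1)) :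
    h4_π 𝒰 M (n + 1) z = 0 ↔
      ∃ y : (Fin n → G) → M, h4_IsLevel 𝒰 y ∧ (_root_.inhomogeneousCochains.d M n).hom y = z.1 := by
  have hex : (ShortComplex.mk ((h4_C 𝒰 M).toCycles n (n + 1)) ((h4_C 𝒰 M).homologyπ (n + 1))
      ((h4_C 𝒰 M).toCycles_comp_homologyπ n (n + 1))).Exact :=
    ShortComplex.exact_of_g_is_cokernel _ ((h4_C 𝒰 M).homologyIsCokernel n (n + 1) (by simp))
  rw [ShortComplex.moduleCat_exact_iff] at hex
  constructor
  · intro h
    obtain ⟨y, hy⟩ := hex ((h4_toCycles 𝒰 M (n + 1)).hom z) h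
    refine ⟨y.1, y.2.1, ?_⟩
    have h2 := congrArg (fun c => (((h4_C 𝒰 M).iCycles (n + 1)).hom c).1) hy
    simp only at h2
    rw [h4_iCycles_toCycles] at h2
    rw [← h2]
    exact (h4_toCycles_d_apply 𝒰 M y).symm
  · rintro ⟨y, hy, hyz⟩
    have hy' : y ∈ h4_cochains 𝒰 M n := ⟨hy, by rw [hyz]; exact z.2.1⟩
    have h1 : (h4_toCycles 𝒰 M (n + 1)).hom z =
        ((h4_C 𝒰 M).toCycles n (n + 1)).hom ⟨y, hy'⟩ := by
      apply h4_iCycles_injective
      apply Subtype.ext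
      rw [h4_iCycles_toCycles, h4_toCycles_d_apply]
      exact hyz.symm
    show ((h4_C 𝒰 M).homologyπ (n + 1)).hom ((h4_toCycles 𝒰 M (n + 1)).hom z) = 0
    rw [h1]
    have h5 := (h4_C 𝒰 M).toCycles_comp_homologyπ n (n + 1)
    exact congrArg (fun ψ => ψ.hom ⟨y, hy'⟩) h5

/-- In degree `0`, the map from level cocycles to level cohomology is injective. -/
lemma h4_π_eq_zero_iff_zero (z : h4_Z 𝒰 M 0) : h4_π 𝒰 M 0 z = 0 ↔ z = 0 := by
  have hex : (ShortComplex.mk ((h4_C 𝒰 M).toCycles 0 0) ((h4_C 𝒰 M).homologyπ 0)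
      ((h4_C 𝒰 M).toCycles_comp_homologyπ 0 0)).Exact :=
    ShortComplex.exact_of_g_is_cokernel _ ((h4_C 𝒰 M).homologyIsCokernel 0 0 (by simp))
  rw [ShortComplex.moduleCat_exact_iff] at hex
  constructor
  · intro h
    obtain ⟨y, hy⟩ := hex ((h4_toCycles 𝒰 M 0).hom z) h
    have h0 : (h4_C 𝒰 M).toCycles 0 0 = 0 := by
      rw [← cancel_mono ((h4_C 𝒰 M).iCycles 0), (h4_C 𝒰 M).toCycles_i, Limits.zero_comp]
      exact (h4_C 𝒰 M).shape _ _ (by simp)
    simp only [h0] at hy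
    apply h4_toCycles_injective
    rw [← hy]
    simp
  · rintro rfl
    simp

lemma h4_π_bijective_zero : Function.Bijective (h4_π 𝒰 M 0) :=
  ⟨(injective_iff_map_eq_zero _).2 fun z hz => (h4_π_eq_zero_iff_zero 𝒰 M z).1 hz,
    h4_π_surjective 𝒰 M 0⟩

end Concrete

section MapPi

variable {k G H : Type u} [CommRing k] [Group G] [Group H] {𝒰 : h4_Levels G} {𝒱 : h4_Levels H}
  {A : Rep.{u} k H} {B : Rep.{u} k G} (f : G →* H) (hf : 𝒰.Compat 𝒱 f) (φ : Rep.res f A ⟶ B)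

include hf in
lemma h4_cochainsMap_mem_Z {n : ℕ} {x : (Fin n → H) → A} (hx : x ∈ h4_Z 𝒱 A n) :
    ((groupCohomology.cochainsMap f φ).f n).hom x ∈ h4_Z 𝒰 B n := by
  refine ⟨(h4_cochainsMap_mem f hf φ (h4_Z_le_cochains 𝒱 A n hx)).1, ?_⟩
  rw [h4_cochainsMap_d_apply, hx.2, map_zero]

/-- The map induced on level cocycles by a compatible pair `(f, φ)`. -/
noncomputable def h4_mapZ (n : ℕ) : h4_Z 𝒱 A n →ₗ[k] h4_Z 𝒰 B n :=
  ((groupCohomology.cochainsMap f φ).f n).hom.restrict (p := h4_Z 𝒱 A n) (q := h4_Z 𝒰 B n)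
    fun _ hx => h4_cochainsMap_mem_Z f hf φ hx

@[simp]
lemma h4_mapZ_apply {n : ℕ} (z : h4_Z 𝒱 A n) (g : Fin n → G) :
    (h4_mapZ f hf φ n z).1 g = φ.hom (z.1 (f ∘ g)) := rfl

/-- `h4_map` on classes of cocycles. -/
lemma h4_map_π (n : ℕ) (z : h4_Z 𝒱 A n) :
    (h4_map f hf φ n).hom (h4_π 𝒱 A n z) = h4_π 𝒰 B n (h4_mapZ f hf φ n z) := by
  have h1 := HomologicalComplex.homologyπ_naturality (h4_cochainsMap f hf φ) n
  have h2 : (HomologicalComplex.cyclesMap (h4_cochainsMap f hf φ) n).hom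
      ((h4_toCycles 𝒱 A n).hom z) = (h4_toCycles 𝒰 B n).hom (h4_mapZ f hf φ n z) := by
    apply h4_iCycles_injective
    apply Subtype.ext
    rw [h4_iCycles_toCycles]
    have h3 := HomologicalComplex.cyclesMap_i (h4_cochainsMap f hf φ) n
    have h4 := congrArg (fun ψ => (ψ.hom ((h4_toCycles 𝒱 A n).hom z)).1) h3
    refine Eq.trans h4 ?_
    funext g
    show φ.hom ((((h4_C 𝒱 A).iCycles n).hom ((h4_toCycles 𝒱 A n).hom z)).1 (f ∘ g)) = _
    rw [h4_iCycles_toCycles]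
    rfl
  have h5 := congrArg (fun ψ => ψ.hom ((h4_toCycles 𝒱 A n).hom z)) h1
  simp only at h5
  show (h4_map f hf φ n).hom (((h4_C 𝒱 A).homologyπ n).hom ((h4_toCycles 𝒱 A n).hom z)) =
    ((h4_C 𝒰 B).homologyπ n).hom ((h4_toCycles 𝒰 B n).hom (h4_mapZ f hf φ n z))
  rw [← h2]
  exact h5

end MapPi

section MapFunctor

variable {k G H K : Type u} [CommRing k] [Group G] [Group H] [Group K]

lemma h4_cochainsMap_id (𝒰 : h4_Levels G) (A : Rep.{u} k G) :
    h4_cochainsMap (MonoidHom.id G) 𝒰.compat_id (𝟙 A) = 𝟙 (h4_C 𝒰 A) := rfl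

lemma h4_cochainsMap_comp {𝒰 : h4_Levels G} {𝒱 : h4_Levels H} {𝒲 : h4_Levels K}
    {A : Rep.{u} k K} {B : Rep.{u} k H} {C : Rep.{u} k G} (f : H →* K) (g : G →* H)
    (hf : 𝒱.Compat 𝒲 f) (hg : 𝒰.Compat 𝒱 g) (φ : Rep.res f A ⟶ B) (ψ : Rep.res g B ⟶ C) :
    h4_cochainsMap (f.comp g) (hg.comp hf) ((Rep.resFunctor g).map φ ≫ ψ) =
      h4_cochainsMap f hf φ ≫ h4_cochainsMap g hg ψ := rfl

lemma h4_map_id (𝒰 : h4_Levels G) (A : Rep.{u} k G) (n : ℕ) :
    h4_map (MonoidHom.id G) 𝒰.compat_id (𝟙 A) n = 𝟙 (h4_H 𝒰 A n) := by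
  unfold h4_map
  rw [h4_cochainsMap_id]
  exact HomologicalComplex.homologyMap_id _ _

lemma h4_map_comp {𝒰 : h4_Levels G} {𝒱 : h4_Levels H} {𝒲 : h4_Levels K}
    {A : Rep.{u} k K} {B : Rep.{u} k H} {C : Rep.{u} k G} (f : H →* K) (g : G →* H)
    (hf : 𝒱.Compat 𝒲 f) (hg : 𝒰.Compat 𝒱 g) (φ : Rep.res f A ⟶ B) (ψ : Rep.res g B ⟶ C)
    (n : ℕ) :
    h4_map (f.comp g) (hg.comp hf) ((Rep.resFunctor g).map φ ≫ ψ) n =
      h4_map f hf φ n ≫ h4_map g hg ψ n := by
  unfold h4_map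
  rw [h4_cochainsMap_comp]
  exact HomologicalComplex.homologyMap_comp _ _ _

lemma h4_map_id_comp {𝒰 : h4_Levels G} {A B C : Rep.{u} k G} (φ : A ⟶ B) (ψ : B ⟶ C) (n : ℕ) :
    h4_map (MonoidHom.id G) 𝒰.compat_id (φ ≫ ψ) n =
      h4_map (MonoidHom.id G) 𝒰.compat_id φ n ≫ h4_map (MonoidHom.id G) 𝒰.compat_id ψ n := by
  unfold h4_map
  have : h4_cochainsMap (MonoidHom.id G) 𝒰.compat_id (φ ≫ ψ) =
      h4_cochainsMap (MonoidHom.id G) 𝒰.compat_id φ ≫
        h4_cochainsMap (MonoidHom.id G) 𝒰.compat_id ψ := rfl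
  rw [this]
  exact HomologicalComplex.homologyMap_comp _ _ _

end MapFunctor

end Fermat.Agent.S55
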