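import Fermat.Agent.S55.h4_Level

/-!
# S55, formal layer: smooth modules and the long exact sequence of level cohomology

* `h4_IsSmooth 𝒰 M` : every element of `M` is fixed by a member of the level system.
* `h4_IsLevel.d` : for smooth `M`, the differential of a level-constant cochain is level-constant;
  hence `h4_mem_cochains_iff_of_smooth`.
* For a short exact sequence `X` of representations with `X.X₂` smooth:
  `h4_shortExact` (short exact sequence of level cochain complexes), the connecting maps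
  `h4_δ`, the exactness statements `h4_exact₁`, `h4_exact₂`, `h4_exact₃`, the explicit
  description `h4_δ_apply`, and naturality `h4_δ_naturality`.
-/

set_option autoImplicit false

universe u

open CategoryTheory

namespace Fermat.Agent.S55

section Smooth

variable {k G : Type u} [CommRing k] [Group G] (𝒰 : h4_Levels G) (M : Rep.{u} k G)

/-- A representation is smooth for a level system if every element is fixed by some level. -/
def h4_IsSmooth : Prop := ∀ m : M, ∃ U ∈ 𝒰.sets, ∀ s ∈ U, M.ρ s m = m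

variable {𝒰 M}

lemma h4_IsSmooth.exists_fixing (hM : h4_IsSmooth 𝒰 M) {T : Set M} (hT : T.Finite) :
    ∃ U ∈ 𝒰.sets, ∀ m ∈ T, ∀ s ∈ U, M.ρ s m = m := by
  induction T, hT using Set.Finite.induction_on with
  | empty =>
    obtain ⟨U, hU⟩ := 𝒰.nonempty
    exact ⟨U, hU, fun m hm => absurd hm (Set.notMem_empty m)⟩
  | @insert a T _ _ ih =>
    obtain ⟨U, hU, h⟩ := ih
    obtain ⟨U', hU', h'⟩ := hM a
    obtain ⟨W, hW, hWle⟩ := 𝒰.directed U hU U' hU'
    refine ⟨W, hW, fun m hm s hs => ?_⟩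
    rcases Set.mem_insert_iff.1 hm with rfl | hm
    · exact h' s (hWle hs).2
    · exact h m hm s (hWle hs).1

lemma h4_IsLevel.finite_range {n : ℕ} {X : Type*} {f : (Fin n → G) → X}
    (hf : h4_IsLevel 𝒰 f) : (Set.range f).Finite := by
  obtain ⟨N, hN, hNn, h⟩ := hf.exists_normal
  have := 𝒰.finite N hN
  have : Finite (G ⧸ N) := Subgroup.finite_quotient_of_finiteIndex
  have hsub : Set.range f ⊆ Set.range (fun q : Fin n → G ⧸ N => f (fun i => (q i).out)) := by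
    rintro _ ⟨g, rfl⟩
    refine ⟨fun i => (g i : G ⧸ N), ?_⟩
    have hg : g = (fun i => ((g i : G ⧸ N)).out) * (fun i => (((g i : G ⧸ N)).out)⁻¹ * g i) := by
      funext i; simp
    conv_rhs => rw [hg]
    symm
    apply h
    intro i
    rw [← QuotientGroup.eq]
    exact QuotientGroup.out_eq' _
  exact (Set.finite_range _).subset hsub

lemma h4_contractNth_mul {N : Subgroup G} (hN : N.Normal) {n : ℕ} (j : Fin (n + 1))
    (g s : Fin (n + 1) → G) (hs : ∀ i, s i ∈ N) :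
    ∃ t : Fin n → G, (∀ i, t i ∈ N) ∧
      Fin.contractNth j (· * ·) (g * s) = Fin.contractNth j (· * ·) g * t := by
  refine ⟨(Fin.contractNth j (· * ·) g)⁻¹ * Fin.contractNth j (· * ·) (g * s), fun i => ?_, ?_⟩
  · simp only [Pi.mul_apply, Pi.inv_apply]
    rcases lt_trichotomy (i : ℕ) (j : ℕ) with h | h | h
    · rw [Fin.contractNth_apply_of_lt _ _ _ _ h, Fin.contractNth_apply_of_lt _ _ _ _ h]
      simpa using hs _
    · rw [Fin.contractNth_apply_of_eq _ _ _ _ h, Fin.contractNth_apply_of_eq _ _ _ _ h]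
      simp only [Pi.mul_apply]
      have h1 : (g i.castSucc * g i.succ)⁻¹ * (g i.castSucc * s i.castSucc * (g i.succ * s i.succ))
          = ((g i.succ)⁻¹ * s i.castSucc * g i.succ) * s i.succ := by group
      rw [h1]
      exact N.mul_mem (hN.conj_mem' _ (hs _) _) (hs _)
    · rw [Fin.contractNth_apply_of_gt _ _ _ _ h, Fin.contractNth_apply_of_gt _ _ _ _ h]
      simpa using hs _
  · simp

/-- For a smooth module, the differential of a level-constant cochain is level-constant. -/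
lemma h4_IsLevel.d (hM : h4_IsSmooth 𝒰 M) {n : ℕ} {f : (Fin n → G) → M}
    (hf : h4_IsLevel 𝒰 f) : h4_IsLevel 𝒰 ((_root_.inhomogeneousCochains.d M n).hom f) := by
  obtain ⟨U₁, hU₁, h₁⟩ := hf
  obtain ⟨U₂, hU₂, h₂⟩ := hM.exists_fixing (h4_IsLevel.finite_range ⟨U₁, hU₁, h₁⟩)
  obtain ⟨W, hW, hWle⟩ := 𝒰.directed U₁ hU₁ U₂ hU₂
  obtain ⟨N, hN, hNW, hNn⟩ := 𝒰.normal W hW
  refine ⟨N, hN, fun g s hs => ?_⟩
  have hs₁ : ∀ i, s i ∈ U₁ := fun i => (hWle (hNW (hs i))).1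
  simp only [_root_.inhomogeneousCochains.d_hom_apply]
  congr 1
  · have e1 : (fun i : Fin n => (g * s) i.succ) = (fun i => g i.succ) * (fun i => s i.succ) := by
      funext i; simp
    rw [e1, h₁ _ _ fun i => hs₁ _, Pi.mul_apply, map_mul, Module.End.mul_apply]
    congr 1
    exact h₂ _ ⟨_, rfl⟩ _ (hWle (hNW (hs 0))).2
  · refine Finset.sum_congr rfl fun j _ => ?_
    obtain ⟨t, ht, e⟩ := h4_contractNth_mul hNn j g s hs
    rw [e, h₁ _ _ fun i => (hWle (hNW (ht i))).1]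

lemma h4_mem_cochains_iff_of_smooth (hM : h4_IsSmooth 𝒰 M) {n : ℕ} (f : (Fin n → G) → M) :
    f ∈ h4_cochains 𝒰 M n ↔ h4_IsLevel 𝒰 f :=
  ⟨fun h => h.1, fun h => ⟨h, h.d hM⟩⟩

end Smooth

section LES

open ShortComplex

variable {k G : Type u} [CommRing k] [Group G] (𝒰 : h4_Levels G)
  {X : ShortComplex (Rep.{u} k G)}

/-- The short complex of level cochain complexes attached to a short complex of
representations. -/
noncomputable def h4_shortComplex (X : ShortComplex (Rep.{u} k G)) :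
    ShortComplex (CochainComplex (ModuleCat k) ℕ) :=
  ShortComplex.mk (h4_cochainsMap (MonoidHom.id G) 𝒰.compat_id X.f)
    (h4_cochainsMap (MonoidHom.id G) 𝒰.compat_id X.g) (by
      ext n x : 4
      apply Subtype.ext
      funext g
      have h := congrArg (fun φ => φ.hom ((x : h4_cochains 𝒰 X.X₁ n).1 g)) X.zero
      exact h)

variable {𝒰}

lemma h4_shortExact (hX : X.ShortExact) (hs : h4_IsSmooth 𝒰 X.X₂) :
    (h4_shortComplex 𝒰 X).ShortExact := by
  have hinj : Function.Injective X.f.hom := (Rep.mono_iff_injective X.f).1 hX.mono_f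
  have hsurj : Function.Surjective X.g.hom := (Rep.epi_iff_surjective X.g).1 hX.epi_g
  have hex : ∀ b : X.X₂, X.g.hom b = 0 → ∃ a : X.X₁, X.f.hom a = b := by
    have h : LinearMap.range X.f.hom.toLinearMap = LinearMap.ker X.g.hom.toLinearMap :=
      (hX.exact.map (forget₂ (Rep k G) (ModuleCat k))).moduleCat_range_eq_ker
    intro b hb
    have hb' : b ∈ LinearMap.ker X.g.hom.toLinearMap := hb
    rw [← h] at hb'
    exact hb'
  refine HomologicalComplex.shortExact_of_degreewise_shortExact _ fun n => ?_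
  refine ShortExact.mk' ?_ ?_ ?_
  · rw [ShortComplex.moduleCat_exact_iff]
    intro y hy
    have hy0 : ∀ g, X.g.hom ((y : h4_cochains 𝒰 X.X₂ n).1 g) = 0 := fun g =>
      congrFun (congrArg Subtype.val hy) g
    choose x hx using fun g => hex _ (hy0 g)
    have hxy : ∀ m (x' : (Fin m → G) → X.X₁) (y' : (Fin m → G) → X.X₂),
        (∀ g, X.f.hom (x' g) = y' g) → h4_IsLevel 𝒰 y' → h4_IsLevel 𝒰 x' := by
      rintro m x' y' h ⟨U, hU, hUy⟩
      exact ⟨U, hU, fun g s hs => hinj (by rw [h, h, hUy g s hs])⟩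
    have hxl : h4_IsLevel 𝒰 x := hxy n x _ hx (y : h4_cochains 𝒰 X.X₂ n).2.1
    have hdx : h4_IsLevel 𝒰 ((_root_.inhomogeneousCochains.d X.X₁ n).hom x) := by
      refine hxy (n + 1) _ ((_root_.inhomogeneousCochains.d X.X₂ n).hom
        (y : h4_cochains 𝒰 X.X₂ n).1) (fun g => ?_) (y : h4_cochains 𝒰 X.X₂ n).2.2
      have h1 := h4_cochainsMap_d_apply (MonoidHom.id G) X.f x
      have h2 : ((groupCohomology.cochainsMap (MonoidHom.id G) X.f).f n).hom x
          = (y : h4_cochains 𝒰 X.X₂ n).1 := funext hx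
      rw [h2] at h1
      exact (congrFun h1 g).symm
    refine ⟨⟨x, hxl, hdx⟩, ?_⟩
    apply Subtype.ext
    funext g
    exact hx g
  · rw [ModuleCat.mono_iff_injective]
    intro x x' h
    apply Subtype.ext
    funext g
    exact hinj (congrFun (congrArg Subtype.val h) g)
  · rw [ModuleCat.epi_iff_surjective]
    intro z
    have hzl : h4_IsLevel 𝒰 (fun g => Function.surjInv hsurj ((z : h4_cochains 𝒰 X.X₃ n).1 g)) :=
      (z : h4_cochains 𝒰 X.X₃ n).2.1.comp _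
    refine ⟨⟨_, hzl, hzl.d hs⟩, ?_⟩
    apply Subtype.ext
    funext g
    exact Function.surjInv_eq hsurj _

variable (hX : X.ShortExact) (hs : h4_IsSmooth 𝒰 X.X₂)

/-- The connecting homomorphism of level cohomology. -/
noncomputable def h4_δ (i j : ℕ) (hij : i + 1 = j) : h4_H 𝒰 X.X₃ i ⟶ h4_H 𝒰 X.X₁ j :=
  (h4_shortExact hX hs).δ i j hij

/-- Exactness of `Hⁱ(X₃) ⟶ Hʲ(X₁) ⟶ Hʲ(X₂)`. -/
lemma h4_exact₁ (i j : ℕ) (hij : i + 1 = j) :
    Function.Exact (h4_δ hX hs i j hij).hom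
      (h4_map (MonoidHom.id G) 𝒰.compat_id X.f j).hom := by
  have h := (h4_shortExact hX hs).homology_exact₁ i j hij
  rw [ShortComplex.ShortExact.moduleCat_exact_iff_function_exact] at h
  exact h

include hX hs in
/-- Exactness of `Hⁱ(X₁) ⟶ Hⁱ(X₂) ⟶ Hⁱ(X₃)`. -/
lemma h4_exact₂ (i : ℕ) :
    Function.Exact (h4_map (MonoidHom.id G) 𝒰.compat_id X.f i).hom
      (h4_map (MonoidHom.id G) 𝒰.compat_id X.g i).hom := by
  have h := (h4_shortExact hX hs).homology_exact₂ i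
  rw [ShortComplex.ShortExact.moduleCat_exact_iff_function_exact] at h
  exact h

/-- Exactness of `Hⁱ(X₂) ⟶ Hⁱ(X₃) ⟶ Hʲ(X₁)`. -/
lemma h4_exact₃ (i j : ℕ) (hij : i + 1 = j) :
    Function.Exact (h4_map (MonoidHom.id G) 𝒰.compat_id X.g i).hom
      (h4_δ hX hs i j hij).hom := by
  have h := (h4_shortExact hX hs).homology_exact₃ i j hij
  rw [ShortComplex.ShortExact.moduleCat_exact_iff_function_exact] at h
  exact h

include hX hs in
/-- If `f ∘ x = d y` with `y` a level-constant cochain of `X₂`, then `x` is a level cocycle. -/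
lemma h4_δ_mem_Z {i : ℕ} {y : (Fin i → G) → X.X₂} (hy : h4_IsLevel 𝒰 y)
    {x : (Fin (i + 1) → G) → X.X₁}
    (hx : ∀ g, X.f.hom (x g) = (_root_.inhomogeneousCochains.d X.X₂ i).hom y g) :
    x ∈ h4_Z 𝒰 X.X₁ (i + 1) := by
  have hinj : Function.Injective X.f.hom := (Rep.mono_iff_injective X.f).1 hX.mono_f
  refine ⟨?_, ?_⟩
  · obtain ⟨U, hU, hUy⟩ := hy.d hs
    exact ⟨U, hU, fun g s hs => hinj (by rw [hx, hx, hUy g s hs])⟩
  · have h1 := h4_cochainsMap_d_apply (MonoidHom.id G) X.f x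
    have h2 : ((groupCohomology.cochainsMap (MonoidHom.id G) X.f).f (i + 1)).hom x
        = (_root_.inhomogeneousCochains.d X.X₂ i).hom y := funext hx
    rw [h2, h4_d_d_apply] at h1
    funext g
    apply hinj
    show X.f.hom ((_root_.inhomogeneousCochains.d X.X₁ (i + 1)).hom x g) = X.f.hom 0
    rw [map_zero]
    exact (congrFun h1 g).symm

lemma h4_cyclesMk_eq (M : Rep.{u} k G) {n : ℕ} (z : h4_Z 𝒰 M n)
    (hz : ((forget₂ (ModuleCat k) Ab).map ((h4_C 𝒰 M).d n (n + 1)))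
      (⟨z.1, h4_Z_le_cochains 𝒰 M n z.2⟩ : h4_cochains 𝒰 M n) = 0) :
    (h4_C 𝒰 M).cyclesMk (⟨z.1, h4_Z_le_cochains 𝒰 M n z.2⟩ : h4_cochains 𝒰 M n) (n + 1)
      (by simp) hz = (h4_toCycles 𝒰 M n).hom z := by
  apply h4_iCycles_injective
  apply Subtype.ext
  rw [h4_iCycles_toCycles]
  exact congrArg Subtype.val ((h4_C 𝒰 M).i_cyclesMk
    (⟨z.1, h4_Z_le_cochains 𝒰 M n z.2⟩ : h4_cochains 𝒰 M n) (n + 1) (by simp) hz)

/-- Explicit description of the connecting homomorphism: if `z` is a level `i`-cocycle of `X₃`,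
`y` a level-constant lift of `z` to `X₂`, and `f ∘ x = d y`, then `δ [z] = [x]`. -/
theorem h4_δ_apply (i : ℕ) (z : h4_Z 𝒰 X.X₃ i) (y : (Fin i → G) → X.X₂) (hy : h4_IsLevel 𝒰 y)
    (hyz : ∀ g, X.g.hom (y g) = z.1 g) (x : (Fin (i + 1) → G) → X.X₁)
    (hx : ∀ g, X.f.hom (x g) = (_root_.inhomogeneousCochains.d X.X₂ i).hom y g) :
    (h4_δ hX hs i (i + 1) rfl).hom (h4_π 𝒰 X.X₃ i z) =
      h4_π 𝒰 X.X₁ (i + 1) ⟨x, h4_δ_mem_Z hX hs hy hx⟩ := by
  have hxZ := h4_δ_mem_Z hX hs hy hx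
  have hz3 : ((forget₂ (ModuleCat k) Ab).map ((h4_C 𝒰 X.X₃).d i (i + 1)))
      (⟨z.1, h4_Z_le_cochains 𝒰 X.X₃ i z.2⟩ : h4_cochains 𝒰 X.X₃ i) = 0 := by
    rw [h4_C_d]
    apply Subtype.ext
    exact z.2.2
  have hz1 : ((forget₂ (ModuleCat k) Ab).map ((h4_C 𝒰 X.X₁).d (i + 1) (i + 1 + 1)))
      (⟨x, h4_Z_le_cochains 𝒰 X.X₁ (i + 1) hxZ⟩ : h4_cochains 𝒰 X.X₁ (i + 1)) = 0 := by
    rw [h4_C_d]
    apply Subtype.ext
    exact hxZ.2
  have hx₁ : ((forget₂ (ModuleCat k) Ab).map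
      ((h4_cochainsMap (MonoidHom.id G) 𝒰.compat_id X.f).f (i + 1)))
        (⟨x, h4_Z_le_cochains 𝒰 X.X₁ (i + 1) hxZ⟩ : h4_cochains 𝒰 X.X₁ (i + 1)) =
      ((forget₂ (ModuleCat k) Ab).map ((h4_C 𝒰 X.X₂).d i (i + 1)))
        (⟨y, hy, hy.d hs⟩ : h4_cochains 𝒰 X.X₂ i) := by
    rw [h4_C_d]
    apply Subtype.ext
    funext g
    exact hx g
  have key := (h4_shortExact hX hs).δ_apply i (i + 1) rfl
    (⟨z.1, h4_Z_le_cochains 𝒰 X.X₃ i z.2⟩ : h4_cochains 𝒰 X.X₃ i) hz3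
    (⟨y, hy, hy.d hs⟩ : h4_cochains 𝒰 X.X₂ i) (by
      apply Subtype.ext
      funext g
      exact hyz g)
    (⟨x, h4_Z_le_cochains 𝒰 X.X₁ (i + 1) hxZ⟩ : h4_cochains 𝒰 X.X₁ (i + 1)) hx₁
    (i + 1 + 1) (by simp)
  have e3 := h4_cyclesMk_eq (𝒰 := 𝒰) X.X₃ z hz3
  have e1 := h4_cyclesMk_eq (𝒰 := 𝒰) X.X₁ ⟨x, hxZ⟩ hz1
  show (h4_δ hX hs i (i + 1) rfl).hom (((h4_C 𝒰 X.X₃).homologyπ i).hom
      ((h4_toCycles 𝒰 X.X₃ i).hom z)) =
    ((h4_C 𝒰 X.X₁).homologyπ (i + 1)).hom ((h4_toCycles 𝒰 X.X₁ (i + 1)).hom ⟨x, hxZ⟩)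
  rw [← e3, ← e1]
  exact key

end LES

section Naturality

variable {k G H : Type u} [CommRing k] [Group G] [Group H] {𝒰 : h4_Levels G} {𝒱 : h4_Levels H}

/-- Naturality of the connecting homomorphism with respect to a compatible group homomorphism
`f : H →* G` and a morphism of short exact sequences over it (e.g. restriction to a subgroup or
to a local group, inflation, or a morphism of short exact sequences of `G`-modules). -/
theorem h4_δ_naturality' (f : H →* G) (hf : 𝒱.Compat 𝒰 f)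
    {X : ShortComplex (Rep.{u} k G)} {Y : ShortComplex (Rep.{u} k H)}
    (hX : X.ShortExact) (hY : Y.ShortExact) (hsX : h4_IsSmooth 𝒰 X.X₂) (hsY : h4_IsSmooth 𝒱 Y.X₂)
    (φ₁ : Rep.res f X.X₁ ⟶ Y.X₁) (φ₂ : Rep.res f X.X₂ ⟶ Y.X₂) (φ₃ : Rep.res f X.X₃ ⟶ Y.X₃)
    (h₁₂ : ∀ a, φ₂.hom (X.f.hom a) = Y.f.hom (φ₁.hom a))
    (h₂₃ : ∀ b, φ₃.hom (X.g.hom b) = Y.g.hom (φ₂.hom b)) (i j : ℕ) (hij : i + 1 = j) :
    h4_δ hX hsX i j hij ≫ h4_map f hf φ₁ j = h4_map f hf φ₃ i ≫ h4_δ hY hsY i j hij := by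
  let Φ : h4_shortComplex 𝒰 X ⟶ h4_shortComplex 𝒱 Y :=
    { τ₁ := h4_cochainsMap f hf φ₁
      τ₂ := h4_cochainsMap f hf φ₂
      τ₃ := h4_cochainsMap f hf φ₃
      comm₁₂ := by
        ext n x : 4
        apply Subtype.ext
        funext g
        exact (h₁₂ _).symm
      comm₂₃ := by
        ext n x : 4
        apply Subtype.ext
        funext g
        exact (h₂₃ _).symm }
  exact HomologicalComplex.HomologySequence.δ_naturality Φ (h4_shortExact hX hsX)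
    (h4_shortExact hY hsY) i j hij

/-- Naturality of the connecting homomorphism for morphisms of short exact sequences. -/
theorem h4_δ_naturality {X1 X2 : ShortComplex (Rep.{u} k G)} (hX1 : X1.ShortExact)
    (hX2 : X2.ShortExact) (hs1 : h4_IsSmooth 𝒰 X1.X₂) (hs2 : h4_IsSmooth 𝒰 X2.X₂)
    (F : X1 ⟶ X2) (i j : ℕ) (hij : i + 1 = j) :
    h4_δ hX1 hs1 i j hij ≫ h4_map (MonoidHom.id G) 𝒰.compat_id F.τ₁ j =
      h4_map (MonoidHom.id G) 𝒰.compat_id F.τ₃ i ≫ h4_δ hX2 hs2 i j hij :=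
  h4_δ_naturality' (MonoidHom.id G) 𝒰.compat_id hX1 hX2 hs1 hs2 F.τ₁ F.τ₂ F.τ₃
    (fun a => (congrArg (fun ψ => ψ.hom a) F.comm₁₂).symm)
    (fun b => (congrArg (fun ψ => ψ.hom b) F.comm₂₃).symm) i j hij

lemma h4_IsSmooth.res {M : Rep.{u} k G} (hM : h4_IsSmooth 𝒰 M) (f : H →* G)
    (hf : 𝒱.Compat 𝒰 f) : h4_IsSmooth 𝒱 (Rep.res f M) := by
  intro m
  obtain ⟨U, hU, h⟩ := hM m
  obtain ⟨V, hV, hVU⟩ := hf U hU
  exact ⟨V, hV, fun s hs => h (f s) (hVU hs)⟩

lemma h4_IsSmooth.of_injective {M M' : Rep.{u} k G} (hM : h4_IsSmooth 𝒰 M) (φ : M' ⟶ M)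
    (hφ : Function.Injective φ.hom) : h4_IsSmooth 𝒰 M' := by
  intro m
  obtain ⟨U, hU, h⟩ := hM (φ.hom m)
  refine ⟨U, hU, fun s hs => hφ ?_⟩
  rw [← h s hs]
  exact Rep.hom_comm_apply φ s m

lemma h4_IsSmooth.of_surjective {M M' : Rep.{u} k G} (hM : h4_IsSmooth 𝒰 M) (φ : M ⟶ M')
    (hφ : Function.Surjective φ.hom) : h4_IsSmooth 𝒰 M' := by
  intro m'
  obtain ⟨m, rfl⟩ := hφ m'
  obtain ⟨U, hU, h⟩ := hM m
  refine ⟨U, hU, fun s hs => ?_⟩
  rw [← Rep.hom_comm_apply φ s m, h s hs]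

end Naturality

end Fermat.Agent.S55
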