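import Mathlib
import Fermat.Agent.S55.h4_LfBeta
import Fermat.Agent.S55.h13_BetaHnorm
import Fermat.Agent.S55.h13_BetaLoc
import Fermat.Agent.S55.h18_BetaLoc
import Fermat.Agent.S55.h18_BetaLocQ
import Fermat.Agent.S55.h10_ValPrin
import Fermat.Agent.S55.h84_ValExt
import Fermat.Agent.S55.h21_ValV1
import Fermat.Agent.S55.h18_ValQn

/-!
# S55 Tier 3, row LF-BETA: the field `beta` of the `h12_LevFacts` instance, unconditional

* `h4_hnorm_honest` : dictionary between the multiplicative, instance-free norm statement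
  (helper13's `h13_hnorm_core_p/q`) and its additive form for the actions `h4_JqAct`, `h90_CAct`
  and the cyclic norm `h12_cycNorm` of a generator.
* `h4_hnorm_core_Qn` : the multiplicative norm statement at the layer `Q_n` of the cyclotomic
  `ℤ_p`-extension (`h13_hnorm_core_p/q` fed with VAL-PRIN `h10_w_diag`, VAL-INV `h84_w_inv`,
  VAL-V1 `h21_w_V1` at `Q_n`, and the local norm criteria `h18_hloc_p`, `h18_hloc_q`).
* `h4_lf_hnorm` : the hypothesis `hnorm` of `h4_lf_beta_of`.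
* `h4_lf_beta` : the field `beta` of `h12_LevFacts` over helper40's model, in exactly the field
  shape, with no hypothesis left.
-/

set_option autoImplicit false

open groupCohomology ExtCitation NumberField

namespace Fermat.Agent.S55

local notation "Qb" => AlgebraicClosure ℚ

noncomputable section

section Dict

variable {M : Type} [Field M] [NumberField M] (S : Finset Nat.Primes) (q : ↥S)

/-- Dictionary: the honest norm statement for the actions `h4_JqAct`, `h90_CAct` and the cyclic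
norm of a generator `γ` of `Gal(M/ℚ)`, from its multiplicative instance-free form. -/
theorem h4_hnorm_honest (γ : M ≃ₐ[ℚ] M) (hγ : ∀ x : M ≃ₐ[ℚ] M, x ∈ Subgroup.zpowers γ)
    (k₀ : Additive (h25_Jq M ((q : Nat.Primes) : ℕ)) →+ Additive (h25_C M S))
    (hk₀ : ∀ y, Additive.toMul (k₀ y) = h25_mk M S (h40_single S M q (Additive.toMul y)))
    (hcore : ∀ x : h25_Jq M ((q : Nat.Primes) : ℕ),
      (∀ (σ : M ≃ₐ[ℚ] M) (j : M →+* PadicAlgCl ((q : Nat.Primes) : ℕ)),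
        x.1 (j.comp (σ : M →+* M)) = x.1 j) →
      ∀ c : h25_C M S,
        h25_mk M S (h40_single S M q x) = ∏ σ : M ≃ₐ[ℚ] M, h25_Cmap S (σ : M →+* M) c →
        ∃ φ : h25_Jq M ((q : Nat.Primes) : ℕ), ∀ j : M →+* PadicAlgCl ((q : Nat.Primes) : ℕ),
          ∏ σ : M ≃ₐ[ℚ] M, φ.1 (j.comp (σ : M →+* M)) = x.1 j)
    (x : Additive (h25_Jq M ((q : Nat.Primes) : ℕ))) (hx : γ • x = x)
    (hc : ∃ c : Additive (h25_C M S), h12_cycNorm γ c = k₀ x) :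
    ∃ b : Additive (h25_Jq M ((q : Nat.Primes) : ℕ)), h12_cycNorm γ b = x := by
  classical
  obtain ⟨c, hc⟩ := hc
  -- every element of the group fixes `x`
  have hfix : ∀ σ : M ≃ₐ[ℚ] M, σ • x = x := by
    intro σ
    have hle : Subgroup.zpowers γ ≤ MulAction.stabilizer (M ≃ₐ[ℚ] M) x := by
      rw [Subgroup.zpowers_le]
      exact hx
    exact hle (hγ σ)
  have hx' : ∀ (σ : M ≃ₐ[ℚ] M) (j : M →+* PadicAlgCl ((q : Nat.Primes) : ℕ)),
      (Additive.toMul x).1 (j.comp (σ : M →+* M)) = (Additive.toMul x).1 j := by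
    intro σ j
    exact congrArg (fun y : Additive (h25_Jq M ((q : Nat.Primes) : ℕ)) =>
      (Additive.toMul y).1 j) (hfix σ)
  have hc' : h25_mk M S (h40_single S M q (Additive.toMul x)) =
      ∏ σ : M ≃ₐ[ℚ] M, h25_Cmap S (σ : M →+* M) (Additive.toMul c) := by
    rw [← hk₀, ← hc, h13_cycNorm_eq_sum γ hγ c, toMul_sum]
    rfl
  obtain ⟨φ, hφ⟩ := hcore (Additive.toMul x) hx' (Additive.toMul c) hc'
  refine ⟨Additive.ofMul φ, ?_⟩
  rw [h13_cycNorm_eq_sum γ hγ]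
  apply Additive.toMul.injective
  rw [toMul_sum]
  apply Subtype.ext
  funext j
  rw [← hφ j]
  have h1 : ((∏ σ : M ≃ₐ[ℚ] M, Additive.toMul (σ • Additive.ofMul φ) :
      h25_Jq M ((q : Nat.Primes) : ℕ)) :
        (M →+* PadicAlgCl ((q : Nat.Primes) : ℕ)) → (PadicAlgCl ((q : Nat.Primes) : ℕ))ˣ) =
      ∏ σ : M ≃ₐ[ℚ] M, (Additive.toMul (σ • Additive.ofMul φ)).1 :=
    map_prod (h25_Jq M ((q : Nat.Primes) : ℕ)).subtype _ _
  rw [h1, Finset.prod_apply]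
  rfl

end Dict

section Qn

variable (p : ℕ) [Fact p.Prime] (S : Finset Nat.Primes)

/-- The multiplicative norm statement at the layer `Q_n` of the cyclotomic `ℤ_p`-extension. -/
theorem h4_hnorm_core_Qn (hp2 : p ≠ 2) (hpS : pPrime p ∈ S) (q : ↥S) (n : ℕ)
    (F : IntermediateField ℚ Qb) (hF : F = h13_Qn p n) [NumberField ↥F] [IsGalois ℚ ↥F]
    (x : h25_Jq ↥F ((q : Nat.Primes) : ℕ))
    (hx : ∀ (σ : ↥F ≃ₐ[ℚ] ↥F) (j : ↥F →+* PadicAlgCl ((q : Nat.Primes) : ℕ)),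
      x.1 (j.comp (σ : ↥F →+* ↥F)) = x.1 j)
    (c : h25_C ↥F S)
    (hc : h25_mk ↥F S (h40_single S ↥F q x) = ∏ σ : ↥F ≃ₐ[ℚ] ↥F, h25_Cmap S (σ : ↥F →+* ↥F) c) :
    ∃ φ : h25_Jq ↥F ((q : Nat.Primes) : ℕ), ∀ j : ↥F →+* PadicAlgCl ((q : Nat.Primes) : ℕ),
      ∏ σ : ↥F ≃ₐ[ℚ] ↥F, φ.1 (j.comp (σ : ↥F →+* ↥F)) = x.1 j := by
  classical
  subst hF
  have hp2' : (((⟨pPrime p, hpS⟩ : ↥S) : Nat.Primes) : ℕ) ≠ 2 := hp2
  have hdeg : Module.finrank ℚ ↥(h13_Qn p n) = (((⟨pPrime p, hpS⟩ : ↥S) : Nat.Primes) : ℕ) ^ n :=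
    h13_Qn_finrank p hp2 n
  have hprin : ∀ y : (↥(h13_Qn p n))ˣ,
      h25_w ↥(h13_Qn p n) S ⟨pPrime p, hpS⟩ (h25_diag ↥(h13_Qn p n) S y) = 1 :=
    fun y => h10_w_diag ↥(h13_Qn p n) S ⟨pPrime p, hpS⟩ hp2' y
  have hinv : ∀ (σ : ↥(h13_Qn p n) ≃ₐ[ℚ] ↥(h13_Qn p n)) (y : h25_X ↥(h13_Qn p n) S),
      h25_w ↥(h13_Qn p n) S ⟨pPrime p, hpS⟩
        (h25_Xmap S (σ : ↥(h13_Qn p n) →+* ↥(h13_Qn p n)) y) =
      h25_w ↥(h13_Qn p n) S ⟨pPrime p, hpS⟩ y :=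
    fun σ y => h84_w_inv S ⟨pPrime p, hpS⟩ (σ : ↥(h13_Qn p n) ≃+* ↥(h13_Qn p n)) y
  have hV1 : ∀ y : h25_X ↥(h13_Qn p n) S,
      ∃ u : h18_U1 (((⟨pPrime p, hpS⟩ : ↥S) : Nat.Primes) : ℕ),
        u ^ ((((⟨pPrime p, hpS⟩ : ↥S) : Nat.Primes) : ℕ) ^ n) =
          h25_w ↥(h13_Qn p n) S ⟨pPrime p, hpS⟩ y := by
    intro y
    refine h21_w_V1 ↥(h13_Qn p n) S ⟨pPrime p, hpS⟩ hp2' n ?_ y
    intro v
    have := v.1.isPrime
    refine h18_Qn_absNorm_pow_pred_modEq' p hp2 n ↥(h13_Qn p n)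
      (algebraMap ↥(h13_Qn p n) Qb) (fun z hz => ⟨⟨z, hz⟩, rfl⟩) v.1.asIdeal v.1.ne_bot ?_
    intro hmem
    exact v.2 ⟨pPrime p, hpS, hmem⟩
  let j₀ : ↥(h13_Qn p n) →+* PadicAlgCl ((q : Nat.Primes) : ℕ) :=
    ((IsAlgClosed.lift : ↥(h13_Qn p n) →ₐ[ℚ] PadicAlgCl ((q : Nat.Primes) : ℕ)) :
      ↥(h13_Qn p n) →+* PadicAlgCl ((q : Nat.Primes) : ℕ))
  have hsingle : ∀ y : h25_Jq ↥(h13_Qn p n) ((q : Nat.Primes) : ℕ),
      h40_single S ↥(h13_Qn p n) q y = ((Pi.mulSingle q y : h25_J ↥(h13_Qn p n) S), 1) := by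
    intro y
    rw [h40_single_apply]
  rw [hsingle] at hc
  by_cases hqP : q = ⟨pPrime p, hpS⟩
  · subst hqP
    exact h13_hnorm_core_p S ⟨pPrime p, hpS⟩ hp2' n hdeg hprin hinv hV1 j₀
      (fun t ht => h18_hloc_p p hp2 n j₀ t ht) x hx c hc
  · have hqp : ((q : Nat.Primes) : ℕ) ≠ p := fun h => hqP (Subtype.ext (Subtype.ext h))
    exact h13_hnorm_core_q S ⟨pPrime p, hpS⟩ hp2' n hdeg hprin hinv hV1 q hqP j₀
      (fun t ht => h18_hloc_q p ((q : Nat.Primes) : ℕ) hp2 n hqp j₀ t ht) x hx c hc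

/-- **The hypothesis `hnorm` of `h4_lf_beta_of`**: the norm statement at the layers `Q_n` of the
cyclotomic `ℤ_p`-extension, localised at `p`, for helper40's model. -/
theorem h4_lf_hnorm (hp2 : p ≠ 2) (hpS : pPrime p ∈ S) :
    ∀ (q : ↥S) (n : ℕ) (M : h56_Level S), M.field = h13_Qn p n →
      ∀ γ : h40_Γ S M, (∀ x : h40_Γ S M, x ∈ Subgroup.zpowers γ) →
      ∀ j : h2_PL p (h40_J S q M), γ • j = j →
        (∃ c : h40_C p S M, h12_cycNorm γ c = h4_kP p S q M j) →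
        ∃ b : h2_PL p (h40_J S q M), h12_cycNorm γ b = j := by
  intro q n M hM γ hγ j hj hc
  have : Finite (h40_Γ S M) := Finite.of_fintype _
  refine h13_hnorm_PL γ (h4_k₀ S q M) ?_ j hj hc
  intro x hx hc₀
  exact h4_hnorm_honest S q γ hγ (h4_k₀ S q M) (fun y => rfl)
    (fun x' hx' c hc' => h4_hnorm_core_Qn p S hp2 hpS q n M.field hM x' hx' c hc') x hx hc₀

/-- **LF-BETA**: the field `beta` of `h12_LevFacts` over helper40's model (`h40_AmbModel`), in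
exactly the field shape; `p` odd, `pPrime p ∈ S`. -/
theorem h4_lf_beta (hp2 : p ≠ 2) (hpS : pPrime p ∈ S) :
    ∀ (q : ↥S) (L : h56_Level S) (z : h40_Γ S L × h40_Γ S L → h40_J S q L), IsCocycle₂ z →
      IsCoboundary₂ (fun x => h40_k S p q L (z x)) →
      ∃ m : ℕ, m.Coprime p ∧ IsCoboundary₂ (m • z) :=
  h4_lf_beta_of p S hp2 hpS (h4_lf_hnorm p S hp2 hpS)

end Qn

end

end Fermat.Agent.S55
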