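import Mathlib
import Fermat.Agent.S55.h40_HDefs
import Fermat.Agent.S55.h62_LatDual

/-!
# S55, layer H: the `Z_(p)`-valued form of lattice duality for `ℤ`-lattices (piece LAT-LAM of TN)

* `h55_lam_exists_int` : every element of `Z_(p)` has a prime-to-`p` multiple in `ℤ`;
* `h55_latDual_lam` : a `G`-invariant functional `ψ : A →+ Z_(p)` on a `ℤ`-lattice `A` whose values
  on invariants are (up to prime-to-`p` multiples) divisible by `|G|_p` is a norm functional.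
-/

set_option autoImplicit false

namespace Fermat.Agent.S55

section LatLam

variable {p : ℕ} [Fact p.Prime]

/-- `ℤ → Z_(p)` is injective. -/
theorem h55_lam_intCast_injective : Function.Injective (Int.cast : ℤ → h40_Lam p) := by
  have h := IsLocalization.injective (h40_Lam p) (M := (Ideal.span {(p : ℤ)}).primeCompl)
    (Ideal.primeCompl_le_nonZeroDivisors _)
  intro a b hab
  apply h
  rw [eq_intCast, eq_intCast]
  exact hab

/-- integers prime to `p` are units of `Z_(p)` -/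
theorem h55_lam_isUnit_intCast {s : ℤ} (hs : ¬ (p : ℤ) ∣ s) : IsUnit ((s : ℤ) : h40_Lam p) := by
  have h := IsLocalization.map_units (h40_Lam p)
    (⟨s, fun h => hs (Ideal.mem_span_singleton.1 h)⟩ : (Ideal.span {(p : ℤ)}).primeCompl)
  rw [eq_intCast] at h
  exact h

theorem h55_not_dvd_of_coprime {m : ℕ} (hm : m.Coprime p) : ¬ (p : ℤ) ∣ (m : ℤ) := by
  intro h
  have h1 : p ∣ m := Int.natCast_dvd_natCast.1 h
  exact (Fact.out : p.Prime).one_lt.ne' (Nat.Coprime.eq_one_of_dvd hm.symm h1)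

/-- every element of `Z_(p)` has a prime-to-`p` multiple in `ℤ` -/
theorem h55_lam_exists_int (r : h40_Lam p) :
    ∃ m : ℕ, m.Coprime p ∧ ∃ a : ℤ, m • r = (a : h40_Lam p) := by
  obtain ⟨⟨a, s⟩, hs⟩ := IsLocalization.surj (Ideal.span {(p : ℤ)}).primeCompl r
  have hsp : ¬ (p : ℤ) ∣ (s : ℤ) := fun h => s.2 (Ideal.mem_span_singleton.2 h)
  rw [eq_intCast, eq_intCast] at hs
  refine ⟨(s : ℤ).natAbs, ?_, ?_⟩
  · have : ¬ p ∣ (s : ℤ).natAbs := fun h => hsp (Int.natCast_dvd.2 h)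
    exact ((Nat.Prime.coprime_iff_not_dvd Fact.out).2 this).symm
  · rcases Int.natAbs_eq (s : ℤ) with h | h
    · refine ⟨a, ?_⟩
      have h1 : (((s : ℤ).natAbs : ℕ) : h40_Lam p) = (((s : ℤ) : ℤ) : h40_Lam p) := by
        conv_rhs => rw [h]
        rw [Int.cast_natCast]
      rw [nsmul_eq_mul, h1, mul_comm]
      exact hs
    · refine ⟨-a, ?_⟩
      have h1 : (((s : ℤ).natAbs : ℕ) : h40_Lam p) = -(((s : ℤ) : ℤ) : h40_Lam p) := by
        conv_rhs => rw [h]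
        rw [Int.cast_neg, Int.cast_natCast, neg_neg]
      rw [nsmul_eq_mul, h1, neg_mul, mul_comm, hs, Int.cast_neg]

/-- **Lattice duality, `Z_(p)`-valued form.** -/
theorem h55_latDual_lam {G : Type*} [Group G] [Finite G] {A : Type*} [AddCommGroup A]
    [DistribMulAction G A] [Module.Free ℤ A] [Module.Finite ℤ A] (ψ : A →+ h40_Lam p)
    (hψ : ∀ (g : G) (a : A), ψ (g • a) = ψ a)
    (hdiv : ∀ a : A, (∀ g : G, g • a = a) → ∃ m : ℕ, m.Coprime p ∧ ∃ k : ℤ,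
      m • ψ a = ((p ^ ((Nat.card G).factorization p) * k : ℤ) : h40_Lam p)) :
    ∃ ψ₀ : A →+ h40_Lam p, ∀ a : A, ψ a = ∑ᶠ g : G, ψ₀ (g⁻¹ • a) := by
  classical
  cases nonempty_fintype G
  have hp : p.Prime := Fact.out
  let b := Module.Free.chooseBasis ℤ A
  -- a common denominator
  obtain ⟨s, hs⟩ := IsLocalization.exist_integer_multiples_of_finite
    (Ideal.span {(p : ℤ)}).primeCompl (fun i => ψ (b i))
  have hsp : ¬ (p : ℤ) ∣ (s : ℤ) := fun h => s.2 (Ideal.mem_span_singleton.2 h)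
  have hsu : IsUnit (((s : ℤ) : ℤ) : h40_Lam p) := h55_lam_isUnit_intCast hsp
  choose a ha using hs
  let ψZ : A →ₗ[ℤ] ℤ := b.constr ℤ a
  have hψZ : ∀ x : A, ((ψZ x : ℤ) : h40_Lam p) = (((s : ℤ) : ℤ) : h40_Lam p) * ψ x := by
    have hL : (Int.castAddHom (h40_Lam p)).toIntLinearMap ∘ₗ ψZ =
        ((AddMonoidHom.mulLeft ((((s : ℤ) : ℤ) : h40_Lam p))).comp ψ).toIntLinearMap := by
      apply b.ext
      intro i
      show ((ψZ (b i) : ℤ) : h40_Lam p) = (((s : ℤ) : ℤ) : h40_Lam p) * ψ (b i)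
      rw [show ψZ (b i) = a i from b.constr_basis ℤ a i]
      have := ha i
      rw [eq_intCast, Algebra.smul_def, eq_intCast] at this
      exact this
    intro x
    exact LinearMap.congr_fun hL x
  -- invariance of ψZ
  have hψZinv : ∀ (g : G) (x : A), ψZ (g • x) = ψZ x := by
    intro g x
    apply h55_lam_intCast_injective (p := p)
    rw [hψZ, hψZ, hψ]
  -- divisibility on invariants
  set v := (Nat.card G).factorization p with hv
  have hψZdiv : ∀ x : A, (∀ g : G, g • x = x) → ((p ^ v : ℕ) : ℤ) ∣ ψZ x := by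
    intro x hx
    obtain ⟨m, hm, k, hk⟩ := hdiv x hx
    have h1 : (m : ℤ) * ψZ x = (s : ℤ) * (p ^ v * k) := by
      apply h55_lam_intCast_injective (p := p)
      rw [Int.cast_mul, hψZ, Int.cast_mul, ← hk, nsmul_eq_mul, Int.cast_natCast]
      ring
    have h2 : ((p ^ v : ℕ) : ℤ) ∣ (m : ℤ) * ψZ x := by
      rw [h1]
      exact ⟨(s : ℤ) * k, by push_cast; ring⟩
    have hcop : IsCoprime ((p ^ v : ℕ) : ℤ) (m : ℤ) := by
      rw [Int.isCoprime_iff_gcd_eq_one, Int.gcd_natCast_natCast]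
      exact Nat.Coprime.pow_left v hm.symm
    exact hcop.dvd_of_dvd_mul_left h2
  -- |G| = p^v * m₀
  have hcard : Nat.card G ≠ 0 := Nat.card_pos.ne'
  set m₀ := Nat.card G / p ^ v with hm₀
  have hGm : p ^ v * m₀ = Nat.card G := Nat.ordProj_mul_ordCompl_eq_self (Nat.card G) p
  have hm₀cop : m₀.Coprime p := (Nat.coprime_ordCompl hp hcard).symm
  have hm₀u : IsUnit (((m₀ : ℤ) : ℤ) : h40_Lam p) :=
    h55_lam_isUnit_intCast (h55_not_dvd_of_coprime hm₀cop)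
  let φ : A →ₗ[ℤ] ℤ := (m₀ : ℤ) • ψZ
  have hφ : ∀ x : A, φ x = (m₀ : ℤ) * ψZ x := fun x => by
    show ((m₀ : ℤ) • ψZ) x = _
    rw [LinearMap.smul_apply, smul_eq_mul]
  have hφinv : ∀ (g : G) (x : A), φ (g • x) = φ x := by
    intro g x
    rw [hφ, hφ, hψZinv]
  have hex : ∃ ψ' : A →ₗ[ℤ] ℤ, ∀ x : A, ∑ᶠ g : G, ψ' (g • x) = φ x := by
    by_contra hcon
    have hN : ∀ ψ' : A →ₗ[ℤ] ℤ, ∃ x : A, ∑ᶠ g : G, ψ' (g • x) ≠ φ x := by
      intro ψ'
      by_contra h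
      apply hcon
      refine ⟨ψ', fun x => ?_⟩
      by_contra hx
      exact h ⟨x, hx⟩
    obtain ⟨x, hx, hnd⟩ := h62_latDual_fun' (R := ℤ) (G := G) (A := A)
      (by exact_mod_cast hcard) φ hφinv hN
    apply hnd
    obtain ⟨t, ht⟩ := hψZdiv x hx
    rw [hφ, ht]
    refine ⟨t, ?_⟩
    rw [← hGm]
    push_cast
    ring
  obtain ⟨ψ', hψ'⟩ := hex
  -- the unit u = s * m₀
  obtain ⟨u, hu⟩ := hsu.mul hm₀u
  let ψ₀ : A →+ h40_Lam p :=
    (AddMonoidHom.mulLeft ((u⁻¹ : (h40_Lam p)ˣ) : h40_Lam p)).comp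
      ((Int.castAddHom (h40_Lam p)).comp ψ'.toAddMonoidHom)
  have hψ₀ : ∀ x : A, ψ₀ x = ((u⁻¹ : (h40_Lam p)ˣ) : h40_Lam p) * ((ψ' x : ℤ) : h40_Lam p) :=
    fun _ => rfl
  refine ⟨ψ₀, fun x => ?_⟩
  rw [finsum_eq_sum_of_fintype]
  have h1 : ∑ g : G, ψ₀ (g⁻¹ • x) =
      ((u⁻¹ : (h40_Lam p)ˣ) : h40_Lam p) * ((∑ g : G, ψ' (g • x) : ℤ) : h40_Lam p) := by
    rw [Int.cast_sum, Finset.mul_sum]
    exact Fintype.sum_equiv (Equiv.inv G) _ _ (fun g => by rw [hψ₀]; rfl)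
  have h2 := hψ' x
  rw [finsum_eq_sum_of_fintype] at h2
  rw [h1, h2, hφ, Int.cast_mul, hψZ]
  symm
  rw [Units.inv_mul_eq_iff_eq_mul, hu]
  ring

end LatLam

end Fermat.Agent.S55
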