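import Mathlib
import Fermat.Agent.S55.h40_HDefs
import Fermat.Agent.S55.h55_LatLam

/-!
# S55, layer H: arithmetic of `Z_(p)` (for TN)

`h55_lam_exists_int` (every element of `Z_(p)` has a prime-to-`p` multiple in `ℤ`) is in
`h55_LatLam.lean` (imported here); this file adds `h55_lam_card_dvd`.
-/

set_option autoImplicit false

namespace Fermat.Agent.S55

/-- If a prime-to-`p` multiple of `r ∈ Z_(p)` is an integer divisible by the `p`-part of `n`,
then `n ∣ r` in `Z_(p)`. -/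
theorem h55_lam_card_dvd {p : ℕ} [Fact p.Prime] (n : ℕ) (hn : n ≠ 0) (r : h40_Lam p) (m : ℕ)
    (hm : m.Coprime p) (k : ℤ)
    (h : m • r = ((p ^ (n.factorization p) * k : ℤ) : h40_Lam p)) : (n : h40_Lam p) ∣ r := by
  have hp : p.Prime := Fact.out
  have hn' : p ^ n.factorization p * (n / p ^ n.factorization p) = n :=
    Nat.ordProj_mul_ordCompl_eq_self n p
  have hcop : (n / p ^ n.factorization p).Coprime p := (Nat.coprime_ordCompl hp hn).symm
  obtain ⟨um, hum⟩ := h55_lam_isUnit_intCast (p := p) (h55_not_dvd_of_coprime hm)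
  obtain ⟨un, hun⟩ := h55_lam_isUnit_intCast (p := p) (h55_not_dvd_of_coprime hcop)
  refine ⟨((un⁻¹ : (h40_Lam p)ˣ) : h40_Lam p) * ((um⁻¹ : (h40_Lam p)ˣ) : h40_Lam p) *
    (k : h40_Lam p), ?_⟩
  have h1 : r = ((um⁻¹ : (h40_Lam p)ˣ) : h40_Lam p) *
      ((p : h40_Lam p) ^ n.factorization p * (k : h40_Lam p)) := by
    rw [eq_comm, Units.inv_mul_eq_iff_eq_mul, hum, Int.cast_natCast, ← nsmul_eq_mul, h]
    push_cast
    ring
  have h2 : (n : h40_Lam p) = (p : h40_Lam p) ^ n.factorization p * (un : h40_Lam p) := by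
    rw [hun, Int.cast_natCast, ← Nat.cast_pow, ← Nat.cast_mul, hn']
  have h3 : (un : h40_Lam p) * ((un⁻¹ : (h40_Lam p)ˣ) : h40_Lam p) = 1 := Units.mul_inv un
  rw [h1, h2]
  linear_combination
    (-(((um⁻¹ : (h40_Lam p)ˣ) : h40_Lam p) * (p : h40_Lam p) ^ n.factorization p *
      (k : h40_Lam p))) * h3

end Fermat.Agent.S55
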