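import Mathlib
import Fermat.Agent.S55.h40_HDefs

/-!
# S55, abstract layer: Lemma F

A module `B` killed by `p` over a finite `p`-group `P` such that `H²(Q, B) = 0` for every
subgroup `Q ≤ P` is coinduced: `B ≅ (P → V)`.  We also introduce the notion of a
"weakly projective" module (existence of an additive endomorphism of trace one), which is what
consumers use.
-/

set_option autoImplicit false
set_option linter.style.haveILetI false

open groupCohomology Finset

namespace Fermat.Agent.S55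

universe u v

theorem h55_isWP_iff {G : Type*} [Group G] [Fintype G] {B : Type*} [AddCommGroup B]
    [DistribMulAction G B] :
    h40_IsWP G B ↔ ∃ π : B →+ B, ∀ b : B, ∑ g : G, g • π (g⁻¹ • b) = b := by
  unfold h40_IsWP
  simp only [finsum_eq_sum_of_fintype]

section WPBasic

variable {G : Type*} [Group G] [Fintype G] {B : Type*} [AddCommGroup B] [DistribMulAction G B]

/-- reindexed form of the trace-one identity -/
theorem h55_wp_sum_inv (π : B →+ B) (hπ : ∀ b : B, ∑ g : G, g • π (g⁻¹ • b) = b) (b : B) :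
    ∑ g : G, g⁻¹ • π (g • b) = b :=
  (Fintype.sum_equiv (Equiv.inv G) _ _ (fun g => by simp)).trans (hπ b)

/-- invariants are norms -/
theorem h55_wp_inv_eq_norm (π : B →+ B) (hπ : ∀ b : B, ∑ g : G, g • π (g⁻¹ • b) = b) (b : B)
    (hb : ∀ g : G, g • b = b) : b = ∑ g : G, g • π b := by
  conv_lhs => rw [← hπ b]
  exact Finset.sum_congr rfl (fun g _ => by rw [hb])

/-- elements of norm zero lie in the augmentation submodule -/
theorem h55_wp_ker_norm (π : B →+ B) (hπ : ∀ b : B, ∑ g : G, g • π (g⁻¹ • b) = b) (b : B)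
    (hb : ∑ g : G, g • b = 0) :
    b ∈ AddSubgroup.closure {x : B | ∃ (g : G) (b' : B), x = g • b' - b'} := by
  have h1 : ∑ g : G, π (g⁻¹ • b) = 0 := by
    rw [← map_sum]
    have : ∑ g : G, g⁻¹ • b = ∑ g : G, g • b :=
      Fintype.sum_equiv (Equiv.inv G) _ _ (fun g => rfl)
    rw [this, hb, map_zero]
  have h2 : b = ∑ g : G, (g • π (g⁻¹ • b) - π (g⁻¹ • b)) := by
    rw [Finset.sum_sub_distrib, h1, sub_zero, hπ]
  rw [h2]
  exact AddSubgroup.sum_mem _ (fun g _ => AddSubgroup.subset_closure ⟨g, _, rfl⟩)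

/-- `H¹ = 0` -/
theorem h55_wp_h1 (π : B →+ B) (hπ : ∀ b : B, ∑ g : G, g • π (g⁻¹ • b) = b) (c : G → B)
    (hc : ∀ g h : G, c (g * h) = g • c h + c g) :
    ∃ x : B, ∀ g : G, c g = g • x - x := by
  refine ⟨∑ y : G, y⁻¹ • π (c y), fun g => ?_⟩
  have h1 : g • ∑ y : G, y⁻¹ • π (c y) = ∑ y : G, y⁻¹ • π (c (y * g)) := by
    rw [Finset.smul_sum]
    refine Fintype.sum_equiv (Equiv.mulRight g⁻¹) _ _ (fun y => ?_)
    simp [smul_smul, mul_assoc]
  rw [h1]
  have h2 : ∀ y : G, y⁻¹ • π (c (y * g)) = y⁻¹ • π (y • c g) + y⁻¹ • π (c y) := by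
    intro y
    rw [hc, map_add, smul_add]
  simp only [h2, Finset.sum_add_distrib, add_sub_cancel_right]
  exact (h55_wp_sum_inv π hπ (c g)).symm

end WPBasic

section FixedPoint

variable {p : ℕ} [Fact p.Prime] {H : Type*} [Group H] [Finite H]

/-- A nonzero stable subgroup of a module killed by `p` over a finite `p`-group contains a
nonzero fixed vector. -/
theorem h55_exists_fixed (hH : IsPGroup p H) {M : Type*} [AddCommGroup M]
    (hpM : ∀ m : M, p • m = 0) (ρ : H →* AddMonoid.End M) (N : AddSubgroup M)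
    (hN : ∀ (h : H) (m : M), m ∈ N → ρ h m ∈ N) (hN0 : N ≠ ⊥) :
    ∃ m ∈ N, m ≠ 0 ∧ ∀ h : H, ρ h m = m := by
  classical
  obtain ⟨m0, hm0N, hm0⟩ : ∃ m ∈ N, m ≠ 0 := by
    by_contra hcon
    refine hN0 ((AddSubgroup.eq_bot_iff_forall N).2 (fun x hx => ?_))
    by_contra hx0
    exact hcon ⟨x, hx, hx0⟩
  haveI : Module (ZMod p) M := AddCommGroup.zmodModule hpM
  let M0 : Submodule (ZMod p) M := Submodule.span (ZMod p) (Set.range fun h : H => ρ h m0)
  have hM0N : ∀ m : M, m ∈ M0 → m ∈ N := by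
    intro m hm
    have hle : M0 ≤ AddSubgroup.toZModSubmodule p N := by
      apply Submodule.span_le.2
      rintro _ ⟨h, rfl⟩
      exact hN h m0 hm0N
    exact hle hm
  have hstab : ∀ (h : H) (m : M), m ∈ M0 → ρ h m ∈ M0 := by
    intro h m hm
    induction hm using Submodule.span_induction with
    | mem x hx =>
      obtain ⟨h', rfl⟩ := hx
      apply Submodule.subset_span
      exact ⟨h * h', by simp [map_mul]⟩
    | zero => simp
    | add x y _ _ hx hy => rw [map_add]; exact add_mem hx hy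
    | smul c x _ hx => rw [ZMod.map_smul]; exact Submodule.smul_mem _ _ hx
  haveI : Finite M0 := by
    haveI : Module.Finite (ZMod p) M0 := Module.Finite.span_of_finite _ (Set.finite_range _)
    exact Module.finite_of_finite (ZMod p)
  letI : SMul H M0 := ⟨fun h m => ⟨ρ h m.1, hstab h m.1 m.2⟩⟩
  have hsmul : ∀ (h : H) (m : M0), ((h • m : M0) : M) = ρ h m.1 := fun _ _ => rfl
  letI : MulAction H M0 :=
    { one_smul := fun m => Subtype.ext (by rw [hsmul]; simp)
      mul_smul := fun g h m => Subtype.ext (by rw [hsmul, hsmul, hsmul]; simp [map_mul]) }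
  have hm0M0 : m0 ∈ M0 := Submodule.subset_span ⟨1, by simp⟩
  have hdvd : p ∣ Nat.card M0 := by
    have h1 : addOrderOf (⟨m0, hm0M0⟩ : M0) = p := by
      apply addOrderOf_eq_prime
      · exact Subtype.ext (by simpa using hpM m0)
      · intro h; exact hm0 (congrArg Subtype.val h)
    have h2 := addOrderOf_dvd_natCard (⟨m0, hm0M0⟩ : M0)
    rwa [h1] at h2
  obtain ⟨b, hb, hb0⟩ := hH.exists_fixed_point_of_prime_dvd_card_of_fixed_point (α := M0) hdvd
    (a := 0) (by intro h; exact Subtype.ext (map_zero (ρ h)))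
  refine ⟨b.1, hM0N _ b.2, fun h0 => hb0 (Subtype.ext h0.symm), fun h => ?_⟩
  exact congrArg Subtype.val (hb h)

/-- Nakayama's lemma for modules killed by `p` over a finite `p`-group. -/
theorem h55_nakayama (hH : IsPGroup p H) {B : Type*} [AddCommGroup B] [DistribMulAction H B]
    (hpB : ∀ b : B, p • b = 0) (B₀ : AddSubgroup B)
    (hst : ∀ (h : H) (b : B), b ∈ B₀ → h • b ∈ B₀)
    (hgen : ∀ b : B, ∃ b₀ ∈ B₀,
      b - b₀ ∈ AddSubgroup.closure {x : B | ∃ (h : H) (b' : B), x = h • b' - b'}) :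
    B₀ = ⊤ := by
  classical
  by_contra hne
  haveI : Module (ZMod p) B := AddCommGroup.zmodModule hpB
  have hlt : AddSubgroup.toZModSubmodule p B₀ < (⊤ : Submodule (ZMod p) B) := by
    rw [lt_top_iff_ne_top]
    intro h
    apply hne
    rw [eq_top_iff]
    intro b _
    have : b ∈ AddSubgroup.toZModSubmodule p B₀ := by rw [h]; trivial
    exact this
  obtain ⟨f, hf0, hfB⟩ := Submodule.exists_dual_map_eq_bot_of_lt_top hlt inferInstance
  let pre : H → AddMonoid.End (B →+ ZMod p) := fun h =>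
    { toFun := fun l => l.comp (DistribSMul.toAddMonoidHom B h⁻¹)
      map_zero' := by ext; simp
      map_add' := by intros; ext; simp }
  have hpre : ∀ (h : H) (l : B →+ ZMod p) (b : B), pre h l b = l (h⁻¹ • b) := fun _ _ _ => rfl
  let ρ : H →* AddMonoid.End (B →+ ZMod p) :=
    { toFun := pre
      map_one' := by
        ext l b
        rw [hpre]
        simp
      map_mul' := by
        intro g h
        ext l b
        show pre (g * h) l b = pre g (pre h l) b
        rw [hpre, hpre, hpre, mul_inv_rev, mul_smul] }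
  have hρ : ∀ (h : H) (l : B →+ ZMod p) (b : B), ρ h l b = l (h⁻¹ • b) := fun _ _ _ => rfl
  let Λ : AddSubgroup (B →+ ZMod p) :=
    { carrier := {l | ∀ b ∈ B₀, l b = 0}
      add_mem' := by intro a b ha hb x hx; simp [ha x hx, hb x hx]
      zero_mem' := by intro x _; simp
      neg_mem' := by intro a ha x hx; simp [ha x hx] }
  have hfΛ : f.toAddMonoidHom ∈ Λ := by
    intro b hb
    have h1 : f b ∈ (AddSubgroup.toZModSubmodule p B₀).map f := ⟨b, hb, rfl⟩
    rw [hfB] at h1
    exact h1
  have hΛ0 : Λ ≠ ⊥ := by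
    intro h
    have : f.toAddMonoidHom ∈ (⊥ : AddSubgroup (B →+ ZMod p)) := h ▸ hfΛ
    rw [AddSubgroup.mem_bot] at this
    apply hf0
    ext b
    exact DFunLike.congr_fun this b
  obtain ⟨l, hlΛ, hl0, hlfix⟩ := h55_exists_fixed hH
    (M := B →+ ZMod p) (by intro l; ext b; simp) ρ Λ
    (by intro h l hl b hb; exact hl _ (hst h⁻¹ b hb)) hΛ0
  apply hl0
  have hinv : ∀ (h : H) (b : B), l (h • b) = l b := by
    intro h b
    have := DFunLike.congr_fun (hlfix h⁻¹) b
    rw [hρ, inv_inv] at this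
    exact this
  have hker : ∀ x ∈ AddSubgroup.closure {x : B | ∃ (h : H) (b' : B), x = h • b' - b'},
      l x = 0 := by
    intro x hx
    induction hx using AddSubgroup.closure_induction with
    | mem x hx =>
      obtain ⟨h, b', rfl⟩ := hx
      rw [map_sub, hinv, sub_self]
    | zero => simp
    | add x y _ _ hx hy => rw [map_add, hx, hy, add_zero]
    | neg x _ hx => rw [map_neg, hx, neg_zero]
  ext b
  obtain ⟨b₀, hb₀, hb⟩ := hgen b
  have := hker _ hb
  rw [map_sub, hlΛ b₀ hb₀, sub_zero] at this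
  simpa using this

end FixedPoint

section Coind

/-- a coinduced module is weakly projective -/
theorem h55_isWP_of_coind {G : Type*} [Group G] [Finite G] {B : Type*} [AddCommGroup B]
    [DistribMulAction G B] {V : Type*} [AddCommGroup V] (e : B ≃+ (G → V))
    (he : ∀ (g : G) (b : B) (x : G), e (g • b) x = e b (x * g)) : h40_IsWP G B := by
  classical
  cases nonempty_fintype G
  rw [h55_isWP_iff]
  let π : B →+ B :=
    { toFun := fun b => e.symm (Pi.single 1 (e b 1))
      map_zero' := by simp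
      map_add' := by
        intro a b
        rw [map_add, Pi.add_apply, Pi.single_add, map_add] }
  have hπ : ∀ b : B, π b = e.symm (Pi.single 1 (e b 1)) := fun _ => rfl
  refine ⟨π, fun b => ?_⟩
  apply e.injective
  funext x
  rw [map_sum, Finset.sum_apply]
  have h1 : ∀ g : G, e (g • π (g⁻¹ • b)) x = if g = x⁻¹ then e b x else 0 := by
    intro g
    rw [he, hπ, e.apply_symm_apply]
    by_cases hg : g = x⁻¹
    · subst hg
      rw [if_pos rfl, mul_inv_cancel, Pi.single_eq_same, he, inv_inv, one_mul]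
    · rw [if_neg hg, Pi.single_eq_of_ne]
      intro h
      exact hg (eq_inv_of_mul_eq_one_right h)
  simp only [h1, Finset.sum_ite_eq', Finset.mem_univ, if_true]

variable {p : ℕ} [Fact p.Prime] {H : Type u} [Group H] [Fintype H]

/-- If the norm is injective on coinvariants, the module is coinduced. -/
theorem h55_coind_of_ker_norm (hH : IsPGroup p H) {B : Type v} [AddCommGroup B]
    [DistribMulAction H B] (hpB : ∀ b : B, p • b = 0)
    (hker : ∀ b : B, ∑ h : H, h • b = 0 →
      b ∈ AddSubgroup.closure {x : B | ∃ (h : H) (b' : B), x = h • b' - b'}) :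
    ∃ (V : Type v) (_ : AddCommGroup V) (e : B ≃+ (H → V)),
      ∀ (g : H) (b : B) (x : H), e (g • b) x = e b (x * g) := by
  classical
  let IH : AddSubgroup B := AddSubgroup.closure {x : B | ∃ (h : H) (b' : B), x = h • b' - b'}
  have hpV : ∀ v : B ⧸ IH, p • v = 0 := by
    intro v
    induction v using QuotientAddGroup.induction_on with
    | H b =>
      rw [← QuotientAddGroup.mk_nsmul, hpB]
      rfl
  haveI : Module (ZMod p) B := AddCommGroup.zmodModule hpB
  haveI : Module (ZMod p) (B ⧸ IH) := AddCommGroup.zmodModule hpV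
  let pr : B →+ B ⧸ IH := QuotientAddGroup.mk' IH
  obtain ⟨s', hs'⟩ := (pr.toZModLinearMap p).exists_rightInverse_of_surjective
    (LinearMap.range_eq_top.2 (QuotientAddGroup.mk'_surjective IH))
  let s : B ⧸ IH →+ B := s'.toAddMonoidHom
  have hs : ∀ v, pr (s v) = v := fun v => LinearMap.congr_fun hs' v
  let Ψ : (H → B ⧸ IH) →+ B :=
    { toFun := fun φ => ∑ x : H, x⁻¹ • s (φ x)
      map_zero' := by simp
      map_add' := by
        intro a b
        simp [smul_add, Finset.sum_add_distrib] }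
  have hΨ : ∀ φ, Ψ φ = ∑ x : H, x⁻¹ • s (φ x) := fun _ => rfl
  have hequiv : ∀ (g : H) (φ : H → B ⧸ IH), Ψ (fun x => φ (x * g)) = g • Ψ φ := by
    intro g φ
    rw [hΨ, hΨ, Finset.smul_sum]
    exact Fintype.sum_equiv (Equiv.mulRight g) _ _ (fun x => by simp [smul_smul])
  have hsurj : Function.Surjective Ψ := by
    have htop : Ψ.range = ⊤ := by
      apply h55_nakayama hH hpB
      · rintro h b ⟨φ, rfl⟩
        exact ⟨fun x => φ (x * h), hequiv h φ⟩
      · intro b
        refine ⟨Ψ (Pi.single 1 (pr b)), ⟨_, rfl⟩, ?_⟩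
        have h1 : Ψ (Pi.single 1 (pr b)) = s (pr b) := by
          rw [hΨ, Finset.sum_eq_single 1]
          · simp
          · intro x _ hx
            rw [Pi.single_eq_of_ne hx, map_zero, smul_zero]
          · intro h
            exact absurd (Finset.mem_univ _) h
        rw [h1]
        have h2 : pr (b - s (pr b)) = 0 := by rw [map_sub, hs, sub_self]
        exact (QuotientAddGroup.eq_zero_iff _).1 h2
    intro b
    have : b ∈ Ψ.range := htop ▸ AddSubgroup.mem_top b
    exact this
  have hinj : Function.Injective Ψ := by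
    rw [← AddMonoidHom.ker_eq_bot_iff]
    by_contra hK
    let pre : H → AddMonoid.End (H → B ⧸ IH) := fun h =>
      { toFun := fun φ x => φ (x * h)
        map_zero' := rfl
        map_add' := fun _ _ => rfl }
    have hpre : ∀ (h : H) (φ : H → B ⧸ IH) (x : H), pre h φ x = φ (x * h) := fun _ _ _ => rfl
    let ρ : H →* AddMonoid.End (H → B ⧸ IH) :=
      { toFun := pre
        map_one' := by
          ext φ x
          rw [hpre]
          simp
        map_mul' := by
          intro g h
          ext φ x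
          show pre (g * h) φ x = pre g (pre h φ) x
          rw [hpre, hpre, hpre, mul_assoc] }
    have hρ : ∀ (h : H) (φ : H → B ⧸ IH) (x : H), ρ h φ x = φ (x * h) := fun _ _ _ => rfl
    obtain ⟨φ, hφK, hφ0, hφfix⟩ := h55_exists_fixed hH (M := H → B ⧸ IH)
      (by intro φ; funext x; exact hpV (φ x)) ρ Ψ.ker
      (by
        intro h φ hφ
        rw [AddMonoidHom.mem_ker] at hφ ⊢
        have : ρ h φ = fun x => φ (x * h) := rfl
        rw [this, hequiv, hφ, smul_zero]) hK
    have hconst : ∀ x, φ x = φ 1 := by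
      intro x
      have := congrFun (hφfix x) 1
      rw [hρ, one_mul] at this
      exact this
    have hsum : ∑ h : H, h • s (φ 1) = 0 := by
      rw [AddMonoidHom.mem_ker, hΨ] at hφK
      rw [← hφK]
      refine Fintype.sum_equiv (Equiv.inv H) _ _ (fun x => ?_)
      simp [hconst x⁻¹]
    have hmem := hker _ hsum
    have h1 : φ 1 = 0 := by
      rw [← hs (φ 1)]
      exact (QuotientAddGroup.eq_zero_iff _).2 hmem
    exact hφ0 (funext fun x => by rw [hconst x, h1]; rfl)
  let e : (H → B ⧸ IH) ≃+ B := AddEquiv.ofBijective Ψ ⟨hinj, hsurj⟩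
  have he : ∀ φ, e φ = Ψ φ := fun _ => rfl
  refine ⟨B ⧸ IH, inferInstance, e.symm, fun g b x => ?_⟩
  have h1 : e.symm (g • b) = fun x => e.symm b (x * g) := by
    apply e.injective
    rw [e.apply_symm_apply, he, hequiv, ← he, e.apply_symm_apply]
  rw [h1]

end Coind

section Algebra

/-- In characteristic `p`: `1 + s + ⋯ + s^(p-1) = (s - 1)^(p-1)`. -/
theorem h55_geom_char (p : ℕ) [Fact p.Prime] {E : Type*} [Ring E] [Algebra (ZMod p) E] (s : E) :
    ∑ i ∈ Finset.range p, s ^ i = (s - 1) ^ (p - 1) := by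
  have hpoly : ∑ i ∈ Finset.range p, ((Polynomial.X : Polynomial (ZMod p)) + 1) ^ i =
      Polynomial.X ^ (p - 1) := by
    have h1 := geom_sum_mul_add (Polynomial.X : Polynomial (ZMod p)) p
    rw [add_pow_char, one_pow] at h1
    have h2 : (∑ i ∈ Finset.range p, ((Polynomial.X : Polynomial (ZMod p)) + 1) ^ i) *
        Polynomial.X = Polynomial.X ^ (p - 1) * Polynomial.X := by
      rw [← pow_succ, Nat.sub_add_cancel (Fact.out : p.Prime).one_le]
      exact add_right_cancel h1
    exact mul_right_cancel₀ Polynomial.X_ne_zero h2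
  have := congrArg (Polynomial.aeval (s - 1)) hpoly
  simpa using this

/-- The kernel/image ladder for an endomorphism `x` with `ker x ⊆ im x^n` (on a stable
subgroup `Y`): `ker x^(j+1) ⊆ im x^(n-j)`. -/
theorem h55_ker_pow_aux {R M : Type*} [Ring R] [AddCommGroup M] [Module R M]
    (x : Module.End R M) (Y : AddSubgroup M) (hx : ∀ m : M, m ∈ Y → x m ∈ Y) (n : ℕ)
    (h1 : ∀ b : M, b ∈ Y → x b = 0 → ∃ a : M, a ∈ Y ∧ b = (x ^ n) a) :
    ∀ j : ℕ, j ≤ n → ∀ b : M, b ∈ Y → (x ^ (j + 1)) b = 0 →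
      ∃ a : M, a ∈ Y ∧ b = (x ^ (n - j)) a := by
  have hxk : ∀ (k : ℕ) (m : M), m ∈ Y → (x ^ k) m ∈ Y := by
    intro k
    induction k with
    | zero => intro m hm; simpa using hm
    | succ k ih =>
      intro m hm
      rw [pow_succ', Module.End.mul_apply]
      exact hx _ (ih m hm)
  intro j
  induction j with
  | zero =>
    intro _ b hb hxb
    rw [zero_add, pow_one] at hxb
    simpa using h1 b hb hxb
  | succ j ih =>
    intro hj b hb hxb
    have hxb' : (x ^ (j + 1)) (x b) = 0 := by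
      rw [← Module.End.mul_apply, ← pow_succ]
      exact hxb
    obtain ⟨a, ha, hab⟩ := ih (by omega) (x b) (hx b hb) hxb'
    have hnj : n - j = (n - (j + 1)) + 1 := by omega
    rw [hnj, pow_succ', Module.End.mul_apply] at hab
    have h0 : x (b - (x ^ (n - (j + 1))) a) = 0 := by rw [map_sub, hab, sub_self]
    obtain ⟨a', ha', hab'⟩ := h1 _ (Y.sub_mem hb (hxk _ a ha)) h0
    refine ⟨a + (x ^ (j + 1)) a', Y.add_mem ha (hxk _ a' ha'), ?_⟩
    have hn : (x ^ (n - (j + 1))) ((x ^ (j + 1)) a') = (x ^ n) a' := by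
      rw [← Module.End.mul_apply, ← pow_add]
      congr 2
      omega
    rw [map_add, hn, ← hab']
    abel

theorem h55_div_aux (p m c : ℕ) (hp : 0 < p) : (m % p + c) / p + m / p = (m + c) / p := by
  conv_rhs => rw [← Nat.div_add_mod m p, add_assoc, Nat.mul_add_div hp]
  ring

end Algebra

section Step

variable {p : ℕ} [Fact p.Prime] {H : Type u} [Group H] {B : Type v} [AddCommGroup B]
  [DistribMulAction H B] (χ : H →* Multiplicative (ZMod p)) (σ : H)

/-- the index of `h` in `ℤ/p`, as a natural number `< p` -/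
def h55_idx (h : H) : ℕ := (Multiplicative.toAdd (χ h)).val

theorem h55_idx_lt (h : H) : h55_idx χ h < p := ZMod.val_lt _

theorem h55_idx_mul (g h : H) : h55_idx χ (g * h) = (h55_idx χ g + h55_idx χ h) % p := by
  unfold h55_idx
  rw [map_mul, toAdd_mul, ZMod.val_add]

theorem h55_idx_ker {q : H} (hq : q ∈ χ.ker) : h55_idx χ q = 0 := by
  unfold h55_idx
  rw [MonoidHom.mem_ker.1 hq, toAdd_one, ZMod.val_zero]

theorem h55_idx_pow (hσ : χ σ = Multiplicative.ofAdd 1) (j : ℕ) (hj : j < p) :
    h55_idx χ (σ ^ j) = j := by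
  unfold h55_idx
  rw [map_pow, hσ, ← ofAdd_nsmul, toAdd_ofAdd, nsmul_one, ZMod.val_natCast_of_lt hj]

theorem h55_idx_sigma (hσ : χ σ = Multiplicative.ofAdd 1) : h55_idx χ σ = 1 := by
  unfold h55_idx
  rw [hσ, toAdd_ofAdd, ZMod.val_one]

theorem h55_pow_p_mem (hσ : χ σ = Multiplicative.ofAdd 1) : σ ^ p ∈ χ.ker := by
  rw [MonoidHom.mem_ker, map_pow, hσ, ← ofAdd_nsmul, nsmul_one, ZMod.natCast_self, ofAdd_zero]

theorem h55_chi_pow_idx (hσ : χ σ = Multiplicative.ofAdd 1) (h : H) :
    χ (σ ^ h55_idx χ h) = χ h := by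
  unfold h55_idx
  rw [map_pow, hσ, ← ofAdd_nsmul, nsmul_one, ZMod.natCast_zmod_val, ofAdd_toAdd]

theorem h55_mem_ker_aux (hσ : χ σ = Multiplicative.ofAdd 1) (h : H) :
    (σ ^ h55_idx χ h)⁻¹ * h ∈ χ.ker := by
  rw [MonoidHom.mem_ker, map_mul, map_inv, h55_chi_pow_idx χ σ hσ, inv_mul_cancel]

/-- decomposition of a sum over `H` along the cosets of `ker χ` -/
theorem h55_sum_decomp [Fintype H] [Fintype ↥χ.ker] (hσ : χ σ = Multiplicative.ofAdd 1)
    {M : Type*} [AddCommMonoid M] (F : H → M) :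
    ∑ h : H, F h = ∑ i ∈ Finset.range p, ∑ q : ↥χ.ker, F (σ ^ i * q.1) := by
  classical
  rw [← Finset.sum_product']
  symm
  refine Finset.sum_nbij' (fun x => σ ^ x.1 * x.2.1)
    (fun h => (h55_idx χ h, ⟨(σ ^ h55_idx χ h)⁻¹ * h, h55_mem_ker_aux χ σ hσ h⟩))
    ?_ ?_ ?_ ?_ ?_
  · intro a _
    exact Finset.mem_univ _
  · intro h _
    rw [Finset.mem_product]
    exact ⟨Finset.mem_range.2 (h55_idx_lt χ h), Finset.mem_univ _⟩
  · rintro ⟨i, q⟩ hiq
    rw [Finset.mem_product, Finset.mem_range] at hiq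
    have hidx : h55_idx χ (σ ^ i * q.1) = i := by
      rw [h55_idx_mul, h55_idx_pow χ σ hσ i hiq.1, h55_idx_ker χ q.2, add_zero,
        Nat.mod_eq_of_lt hiq.1]
    refine Prod.ext hidx (Subtype.ext ?_)
    show (σ ^ h55_idx χ (σ ^ i * q.1))⁻¹ * (σ ^ i * q.1) = q.1
    rw [hidx, inv_mul_cancel_left]
  · intro h _
    show σ ^ h55_idx χ h * ((σ ^ h55_idx χ h)⁻¹ * h) = h
    rw [mul_inv_cancel_left]
  · intro a _
    rfl

/-- Step (B): `H`-invariants are `σ`-norms of `ker χ`-invariants. -/
theorem h55_stepB [Finite H] (hσ : χ σ = Multiplicative.ofAdd 1)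
    (hwp : h40_IsWP ↥χ.ker B)
    (hH2 : ∀ f : H × H → B,
      (∀ g h j : H, f (g * h, j) + f (g, h) = g • f (h, j) + f (g, h * j)) →
        ∃ c : H → B, ∀ g h : H, g • c h - c (g * h) + c g = f (g, h))
    (y : B) (hy : ∀ h : H, h • y = y) :
    ∃ a : B, (∀ q : H, q ∈ χ.ker → q • a = a) ∧ y = ∑ i ∈ Finset.range p, σ ^ i • a := by
  classical
  have hp : 0 < p := (Fact.out : p.Prime).pos
  have hp2 : 2 ≤ p := (Fact.out : p.Prime).two_le
  cases nonempty_fintype ↥χ.ker
  obtain ⟨π, hπ⟩ := h55_isWP_iff.1 hwp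
  let f : H × H → B := fun x => ((h55_idx χ x.1 + h55_idx χ x.2) / p) • y
  have hf : ∀ g h : H, f (g, h) = ((h55_idx χ g + h55_idx χ h) / p) • y := fun _ _ => rfl
  have hcoc : ∀ g h j : H, f (g * h, j) + f (g, h) = g • f (h, j) + f (g, h * j) := by
    intro g h j
    rw [hf, hf, hf, hf, smul_comm g, hy, ← add_smul, ← add_smul, h55_idx_mul, h55_idx_mul,
      h55_div_aux _ _ _ hp, add_comm ((h55_idx χ h + h55_idx χ j) / p),
      add_comm (h55_idx χ g) ((h55_idx χ h + h55_idx χ j) % p), h55_div_aux _ _ _ hp]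
    congr 2
    ring
  obtain ⟨c, hc⟩ := hH2 f hcoc
  have hfQ1 : ∀ q g : H, q ∈ χ.ker → f (q, g) = 0 := by
    intro q g hq
    rw [hf, h55_idx_ker χ hq, zero_add, Nat.div_eq_of_lt (h55_idx_lt χ g), zero_smul]
  have hfQ2 : ∀ g q : H, q ∈ χ.ker → f (g, q) = 0 := by
    intro g q hq
    rw [hf, h55_idx_ker χ hq, add_zero, Nat.div_eq_of_lt (h55_idx_lt χ g), zero_smul]
  obtain ⟨x, hx⟩ := h55_wp_h1 π hπ (fun q : ↥χ.ker => c q.1) (by
    intro g h
    have := hc g.1 h.1
    rw [hfQ1 _ _ g.2] at this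
    show c (g.1 * h.1) = g.1 • c h.1 + c g.1
    have h3 : g.1 • c h.1 + c g.1 - c (g.1 * h.1) = 0 := by
      rw [← this]
      abel
    exact (sub_eq_zero.1 h3).symm)
  let c' : H → B := fun g => c g - (g • x - x)
  have hc'def : ∀ g : H, c' g = c g - (g • x - x) := fun _ => rfl
  have hc' : ∀ g h : H, g • c' h - c' (g * h) + c' g = f (g, h) := by
    intro g h
    rw [hc'def, hc'def, hc'def, ← hc g h, mul_smul, smul_sub, smul_sub]
    abel
  have hc'Q : ∀ q : H, q ∈ χ.ker → c' q = 0 := by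
    intro q hq
    have := hx ⟨q, hq⟩
    rw [hc'def]
    exact sub_eq_zero.2 this
  have h1 : ∀ q g : H, q ∈ χ.ker → c' (q * g) = q • c' g := by
    intro q g hq
    have := hc' q g
    rw [hfQ1 q g hq, hc'Q q hq, add_zero, sub_eq_zero] at this
    exact this.symm
  have h2 : ∀ g q : H, q ∈ χ.ker → c' (g * q) = c' g := by
    intro g q hq
    have := hc' g q
    rw [hfQ2 g q hq, hc'Q q hq, smul_zero, zero_sub, neg_add_eq_zero] at this
    exact this
  have hinv : ∀ g q : H, q ∈ χ.ker → q • c' g = c' g := by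
    intro g q hq
    rw [← h1 q g hq]
    have hq' : g⁻¹ * q * g ∈ χ.ker := by
      rw [MonoidHom.mem_ker] at hq ⊢
      simp [hq]
    have := h2 g _ hq'
    rwa [mul_assoc, mul_inv_cancel_left] at this
  refine ⟨c' σ, fun q hq => hinv σ q hq, ?_⟩
  have hsum : ∀ j : ℕ, σ • ∑ i ∈ Finset.range j, σ ^ i • c' σ + c' σ =
      ∑ i ∈ Finset.range (j + 1), σ ^ i • c' σ := by
    intro j
    rw [Finset.sum_range_succ', Finset.smul_sum, pow_zero, one_smul]
    congr 1
    exact Finset.sum_congr rfl (fun i _ => by rw [smul_smul, ← pow_succ'])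
  have hrec : ∀ j : ℕ, j < p →
      σ • c' (σ ^ j) + c' σ = c' (σ ^ (j + 1)) + ((1 + j) / p) • y := by
    intro j hj
    have := hc' σ (σ ^ j)
    rw [hf, h55_idx_sigma χ σ hσ, h55_idx_pow χ σ hσ j hj, ← pow_succ'] at this
    rw [← this]
    abel
  have hind : ∀ j : ℕ, j < p → c' (σ ^ j) = ∑ i ∈ Finset.range j, σ ^ i • c' σ := by
    intro j
    induction j with
    | zero =>
      intro _
      rw [pow_zero, Finset.sum_range_zero]
      exact hc'Q 1 (one_mem _)
    | succ j ih =>
      intro hj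
      have hj' : j < p := by omega
      have := hrec j hj'
      rw [Nat.div_eq_of_lt (by omega), zero_smul, add_zero, ih hj', hsum] at this
      exact this.symm
  have hlast := hrec (p - 1) (by omega)
  have hp1 : p - 1 + 1 = p := by omega
  have hdiv : (1 + (p - 1)) / p = 1 := by
    rw [add_comm, hp1]
    exact Nat.div_self hp
  rw [hind (p - 1) (by omega), hsum, hp1, hdiv, one_smul, hc'Q _ (h55_pow_p_mem χ σ hσ),
    zero_add] at hlast
  exact hlast.symm

/-- The inductive step: `ker χ` weakly projective and `H²(H, B) = 0` imply `B` coinduced. -/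
theorem h55_step [Finite H] (hH : IsPGroup p H) (hpB : ∀ b : B, p • b = 0)
    (hσ : χ σ = Multiplicative.ofAdd 1) (hwp : h40_IsWP ↥χ.ker B)
    (hH2 : ∀ f : H × H → B,
      (∀ g h j : H, f (g * h, j) + f (g, h) = g • f (h, j) + f (g, h * j)) →
        ∃ c : H → B, ∀ g h : H, g • c h - c (g * h) + c g = f (g, h)) :
    h40_IsCoind H B := by
  classical
  cases nonempty_fintype H
  have hp2 : 2 ≤ p := (Fact.out : p.Prime).two_le
  apply h55_coind_of_ker_norm hH hpB
  intro b hb
  obtain ⟨π, hπ⟩ := h55_isWP_iff.1 hwp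
  let NQ : B → B := fun b => ∑ q : ↥χ.ker, q.1 • b
  have hNQ : ∀ b : B, NQ b = ∑ q : ↥χ.ker, q.1 • b := fun _ => rfl
  have hNQ_inv : ∀ (b : B) (q : H), q ∈ χ.ker → q • NQ b = NQ b := by
    intro b q hq
    rw [hNQ, Finset.smul_sum]
    refine Fintype.sum_equiv (Equiv.mulLeft (⟨q, hq⟩ : ↥χ.ker)) _ _ (fun x => ?_)
    rw [smul_smul]
    rfl
  have hNQ_sub : ∀ b b' : B, NQ (b - b') = NQ b - NQ b' := by
    intro b b'
    rw [hNQ, hNQ, hNQ, ← Finset.sum_sub_distrib]
    exact Finset.sum_congr rfl (fun q _ => smul_sub _ _ _)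
  have hNQ_conj : ∀ b : B, σ • NQ b = NQ (σ • b) := by
    intro b
    rw [hNQ, hNQ, Finset.smul_sum]
    refine Fintype.sum_equiv (MulAut.conjNormal σ : ↥χ.ker ≃* ↥χ.ker).toEquiv _ _ (fun x => ?_)
    show σ • x.1 • b = ((MulAut.conjNormal σ x : ↥χ.ker) : H) • σ • b
    rw [MulAut.conjNormal_apply, smul_smul, smul_smul, inv_mul_cancel_right]
  have hdecomp : ∑ h : H, h • b = ∑ i ∈ Finset.range p, σ ^ i • NQ b := by
    rw [h55_sum_decomp χ σ hσ]
    refine Finset.sum_congr rfl (fun i _ => ?_)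
    rw [hNQ, Finset.smul_sum]
    exact Finset.sum_congr rfl (fun q _ => by rw [mul_smul])
  -- the module argument
  have hC : ∀ b : B, (∀ q : H, q ∈ χ.ker → q • b = b) → ∑ i ∈ Finset.range p, σ ^ i • b = 0 →
      ∃ a : B, (∀ q : H, q ∈ χ.ker → q • a = a) ∧ b = σ • a - a := by
    haveI : Module (ZMod p) B := AddCommGroup.zmodModule hpB
    let s : Module.End (ZMod p) B := (DistribSMul.toAddMonoidHom B σ).toZModLinearMap p
    have hs : ∀ b : B, s b = σ • b := fun _ => rfl
    have hspow : ∀ (i : ℕ) (b : B), (s ^ i) b = σ ^ i • b := by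
      intro i
      induction i with
      | zero => intro b; simp
      | succ i ih =>
        intro b
        rw [pow_succ', Module.End.mul_apply, ih, hs, smul_smul, ← pow_succ']
    let Y : AddSubgroup B :=
      { carrier := {b | ∀ q : H, q ∈ χ.ker → q • b = b}
        add_mem' := by
          intro a b ha hb q hq
          rw [smul_add, ha q hq, hb q hq]
        zero_mem' := by
          intro q _
          exact smul_zero q
        neg_mem' := by
          intro a ha q hq
          rw [smul_neg, ha q hq] }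
    have hY : ∀ b : B, b ∈ Y ↔ ∀ q : H, q ∈ χ.ker → q • b = b := fun _ => Iff.rfl
    have hxY : ∀ m : B, m ∈ Y → (s - 1) m ∈ Y := by
      intro m hm
      rw [LinearMap.sub_apply, hs, Module.End.one_apply]
      refine Y.sub_mem ?_ hm
      intro q hq
      have hq' : σ⁻¹ * q * σ ∈ χ.ker := by
        rw [MonoidHom.mem_ker] at hq ⊢
        simp [hq]
      have := (hY m).1 hm _ hq'
      calc q • σ • m = σ • (σ⁻¹ * q * σ) • m := by
            rw [smul_smul, smul_smul, mul_assoc, mul_inv_cancel_left]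
        _ = σ • m := by rw [this]
    have hgeom : ∑ i ∈ Finset.range p, s ^ i = (s - 1) ^ (p - 1) := h55_geom_char p s
    have hnorm : ∀ b : B, ∑ i ∈ Finset.range p, σ ^ i • b = ((s - 1) ^ (p - 1)) b := by
      intro b
      rw [← hgeom, LinearMap.sum_apply]
      exact Finset.sum_congr rfl (fun i _ => (hspow i b).symm)
    have h1 : ∀ b : B, b ∈ Y → (s - 1) b = 0 → ∃ a : B, a ∈ Y ∧ b = ((s - 1) ^ (p - 1)) a := by
      intro b hbY hb0
      have hσb : σ • b = b := by
        rw [LinearMap.sub_apply, hs, Module.End.one_apply, sub_eq_zero] at hb0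
        exact hb0
      have hσpow : ∀ i : ℕ, σ ^ i • b = b := by
        intro i
        induction i with
        | zero => simp
        | succ i ih => rw [pow_succ, mul_smul, hσb, ih]
      have hHb : ∀ h : H, h • b = b := by
        intro h
        have hh : h = σ ^ h55_idx χ h * ((σ ^ h55_idx χ h)⁻¹ * h) := by
          rw [mul_inv_cancel_left]
        rw [hh, mul_smul, (hY b).1 hbY _ (h55_mem_ker_aux χ σ hσ h), hσpow]
      obtain ⟨a, ha, hya⟩ := h55_stepB χ σ hσ hwp hH2 b hHb
      exact ⟨a, ha, by rw [← hnorm]; exact hya⟩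
    intro b hbY hNb
    have hp21 : p - 2 + 1 = p - 1 := by omega
    obtain ⟨a, ha, hba⟩ := h55_ker_pow_aux (s - 1) Y hxY (p - 1) h1 (p - 2) (by omega) b hbY (by
      rw [hp21, ← hnorm]
      exact hNb)
    have hp1 : p - 1 - (p - 2) = 1 := by omega
    rw [hp1, pow_one, LinearMap.sub_apply, hs, Module.End.one_apply] at hba
    exact ⟨a, ha, hba⟩
  obtain ⟨a, ha, hab⟩ := hC (NQ b) (hNQ_inv b) (by rw [← hdecomp]; exact hb)
  have ha' : a = NQ (π a) := h55_wp_inv_eq_norm π hπ a (fun g => ha g.1 g.2)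
  have hfin : NQ (b - (σ • π a - π a)) = 0 := by
    rw [hNQ_sub, hNQ_sub, ← hNQ_conj, ← ha', hab, sub_self]
  have hmem := h55_wp_ker_norm π hπ _ hfin
  have hb' : b = (b - (σ • π a - π a)) + (σ • π a - π a) := by abel
  rw [hb']
  have hmem2 : σ • π a - π a ∈
      AddSubgroup.closure {x : B | ∃ (h : H) (b' : B), x = h • b' - b'} :=
    AddSubgroup.subset_closure ⟨σ, π a, rfl⟩
  refine add_mem ?_ hmem2
  refine AddSubgroup.closure_mono ?_ hmem
  rintro _ ⟨q, b', rfl⟩
  exact ⟨q.1, b', rfl⟩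

end Step

section Main

variable {p : ℕ} [Fact p.Prime]

/-- a group of order `p^(n+1)` has a surjective character to `ℤ/p` -/
theorem h55_exists_char {H : Type u} [Group H] [Finite H] {n : ℕ}
    (hcard : Nat.card H = p ^ (n + 1)) :
    ∃ χ : H →* Multiplicative (ZMod p), Function.Surjective χ := by
  obtain ⟨Q, hQ⟩ := Sylow.exists_subgroup_card_pow_prime p (G := H) (n := n)
    (by rw [hcard]; exact pow_dvd_pow p (Nat.le_succ n))
  have hidx : Q.index = p := by
    have h := Q.card_mul_index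
    rw [hQ, hcard, pow_succ] at h
    exact Nat.eq_of_mul_eq_mul_left (pow_pos (Fact.out : p.Prime).pos n) h
  haveI : Q.Normal := Subgroup.normal_of_index_eq_minFac_card (by
    rw [hidx, hcard, Nat.pow_minFac (Nat.succ_ne_zero n), (Fact.out : p.Prime).minFac_eq])
  have hcardq : Nat.card (H ⧸ Q) = p := by
    rw [← Subgroup.index_eq_card]
    exact hidx
  have hcardz : Nat.card (Multiplicative (ZMod p)) = p := by
    rw [Nat.card_eq_fintype_card, Fintype.card_multiplicative, ZMod.card]
  let e : H ⧸ Q ≃* Multiplicative (ZMod p) := mulEquivOfPrimeCardEq hcardq hcardz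
  exact ⟨e.toMonoidHom.comp (QuotientGroup.mk' Q),
    e.surjective.comp (QuotientGroup.mk'_surjective Q)⟩

/-- `H²` of every group mapping injectively to `H` vanishes on `B`. -/
def h55_H2Vanish (H : Type u) [Group H] (B : Type v) [AddCommGroup B] [DistribMulAction H B] :
    Prop :=
  ∀ (K : Type u) [Group K] (i : K →* H), Function.Injective i → ∀ f : K × K → B,
    IsCocycle₂Via i f → IsCoboundary₂Via i f

theorem h55_lemmaF_aux : ∀ (n : ℕ) (H : Type u) [Group H] [Finite H], Nat.card H = p ^ n →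
    ∀ (B : Type v) [AddCommGroup B] [DistribMulAction H B], (∀ b : B, p • b = 0) →
      h55_H2Vanish H B → h40_IsCoind H B := by
  intro n
  induction n with
  | zero =>
    intro H _ _ hcard B _ _ hpB _
    classical
    cases nonempty_fintype H
    have hH : IsPGroup p H := IsPGroup.of_card hcard
    rw [pow_zero, Nat.card_eq_one_iff_unique] at hcard
    obtain ⟨hsub, _⟩ := hcard
    apply h55_coind_of_ker_norm hH hpB
    intro b hb
    have h1 : ∑ h : H, h • b = b := by
      rw [Finset.sum_eq_single (1 : H)]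
      · exact one_smul _ _
      · intro h _ hne
        exact absurd (Subsingleton.elim h 1) hne
      · intro h
        exact absurd (Finset.mem_univ _) h
    rw [h1] at hb
    rw [hb]
    exact zero_mem _
  | succ n ih =>
    intro H _ _ hcard B _ _ hpB hH2
    have hH : IsPGroup p H := IsPGroup.of_card hcard
    obtain ⟨χ, hχ⟩ := h55_exists_char hcard
    obtain ⟨σ, hσ⟩ := hχ (Multiplicative.ofAdd 1)
    have hcardQ : Nat.card ↥χ.ker = p ^ n := by
      have h := χ.ker.card_mul_index
      have hrange : Nat.card ↥χ.range = p := by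
        rw [MonoidHom.range_eq_top.2 hχ, Subgroup.card_top, Nat.card_eq_fintype_card,
          Fintype.card_multiplicative, ZMod.card]
      rw [Subgroup.index_ker, hrange, hcard, pow_succ] at h
      exact Nat.eq_of_mul_eq_mul_right (Fact.out : p.Prime).pos h
    have hQ2 : h55_H2Vanish ↥χ.ker B := by
      intro K _ i hi f hf
      exact hH2 K (χ.ker.subtype.comp i) (χ.ker.subtype_injective.comp hi) f hf
    obtain ⟨V, _, e, he⟩ := ih ↥χ.ker hcardQ B hpB hQ2
    have hwp : h40_IsWP ↥χ.ker B := h55_isWP_of_coind e he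
    refine h55_step χ σ hH hpB hσ hwp (fun f hf => ?_)
    exact hH2 H (MonoidHom.id H) Function.injective_id f hf

/-- transport of the subgroup form of `H² = 0` to the injective-homomorphism form -/
theorem h55_H2Vanish_of_subgroups {P : Type u} [Group P] {B : Type v} [AddCommGroup B]
    [DistribMulAction P B]
    (hH2 : ∀ (Q : Subgroup P) (f : Q × Q → B),
      IsCocycle₂Via Q.subtype f → IsCoboundary₂Via Q.subtype f) :
    h55_H2Vanish P B := by
  intro K _ i hi f hf
  let ι : K ≃* ↥i.range := MonoidHom.ofInjective hi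
  have hι : ∀ k : K, ((ι k : ↥i.range) : P) = i k := fun _ => rfl
  have hιs : ∀ x : ↥i.range, i (ι.symm x) = x := by
    intro x
    rw [← hι, ι.apply_symm_apply]
  obtain ⟨x', hx'⟩ := hH2 i.range (fun x => f (ι.symm x.1, ι.symm x.2)) (by
    intro g h j
    have := hf (ι.symm g) (ι.symm h) (ι.symm j)
    rw [hιs] at this
    show f (ι.symm (g * h), ι.symm j) + f (ι.symm g, ι.symm h) =
      (g : P) • f (ι.symm h, ι.symm j) + f (ι.symm g, ι.symm (h * j))
    rw [map_mul, map_mul]
    exact this)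
  refine ⟨fun k => x' (ι k), fun g h => ?_⟩
  have := hx' (ι g) (ι h)
  simp only [ι.symm_apply_apply] at this
  rw [← this]
  show i g • x' (ι h) - x' (ι (g * h)) + x' (ι g) = _
  rw [map_mul]
  rfl

/-- **Lemma F.** A module `B` killed by `p` over a finite `p`-group `P` such that
`H²(Q, B) = 0` for every subgroup `Q ≤ P` is coinduced. -/
theorem h55_lemmaF {P : Type u} [Group P] [Finite P] (hP : IsPGroup p P)
    {B : Type v} [AddCommGroup B] [DistribMulAction P B] (hpB : ∀ b : B, p • b = 0)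
    (hH2 : ∀ (Q : Subgroup P) (f : Q × Q → B),
      IsCocycle₂Via Q.subtype f → IsCoboundary₂Via Q.subtype f) :
    h40_IsCoind P B := by
  obtain ⟨n, hn⟩ := IsPGroup.iff_card.1 hP
  exact h55_lemmaF_aux n P hn B hpB (h55_H2Vanish_of_subgroups hH2)

/-- **Lemma F**, weakly projective form. -/
theorem h55_lemmaF_wp {P : Type u} [Group P] [Finite P] (hP : IsPGroup p P)
    {B : Type v} [AddCommGroup B] [DistribMulAction P B] (hpB : ∀ b : B, p • b = 0)
    (hH2 : ∀ (Q : Subgroup P) (f : Q × Q → B),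
      IsCocycle₂Via Q.subtype f → IsCoboundary₂Via Q.subtype f) :
    h40_IsWP P B := by
  obtain ⟨V, _, e, he⟩ := h55_lemmaF hP hpB hH2
  exact h55_isWP_of_coind e he

end Main

end Fermat.Agent.S55
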