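import Fermat.Agent.S55.h97_Sha
import Fermat.Agent.S55.h56_Inv

/-!
# S55, assembly layer: the pairing `β` of the Poitou-Tate datum from four named facts

`CC` is any `G_ℚ`-module ("the class module"), `H` an `𝔽_p`-space with an evaluation
`ev : H →+ (M →+ CC)` into equivariant maps, `I ≤ H`.  `h56_levelCobS₂ S CC` is the group of
`2`-cochains of `G_ℚ` in `CC` which are coboundaries of `S`-level-constant `1`-cochains.

Given
* `(T)`   a cochain `u₀` whose class has order exactly `p` and generates all classes `f ∘ y`,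
* `(RK)`  `f ∘ y` is a level coboundary for all `f` ⟹ `y` is a level coboundary,
* `(LK)`  `f ∘ y` is a level coboundary for all `y` ⟹ `f ∈ I`,
* `(PERP)` `f ∘ y` is a level coboundary for all `f ∈ I` ⟺ `y` is locally a level coboundary at
  all `q ∈ S`,

`h56_S2_of_facts` produces the pairing `β : H × H²_S(M) → 𝔽_p` with the three properties that
`h95_S55_of_datum` consumes (`hright`, `hleft`, `hsha`).
-/

set_option autoImplicit false
set_option linter.unusedSectionVars false
set_option linter.unusedVariables false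

open CategoryTheory Module groupCohomology ExtCitation

namespace Fermat.Agent.S55

local notation "GQ" => (AlgebraicClosure ℚ ≃ₐ[ℚ] AlgebraicClosure ℚ)

section LevelCob

variable (S : Finset Nat.Primes) (A : Type*) [AddCommGroup A] [DistribMulAction GQ A]

/-- The group of `2`-cochains of `G_ℚ` with values in the `G_ℚ`-module `A` which are coboundaries
of `S`-level-constant `1`-cochains. -/
def h56_levelCobS₂ : AddSubgroup (GQ × GQ → A) where
  carrier := {z | ∃ x : GQ → A, IsLevelConstantS₁ S x ∧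
    ∀ g h, g • x h - x (g * h) + x g = z (g, h)}
  zero_mem' := ⟨fun _ => 0, isLevelConstantS₁_const S 0, fun g h => by simp⟩
  add_mem' := by
    rintro z z' ⟨x, hx, hxz⟩ ⟨x', hx', hxz'⟩
    refine ⟨x + x', hx.add hx', fun g h => ?_⟩
    simp only [Pi.add_apply, smul_add, ← hxz, ← hxz']
    abel
  neg_mem' := by
    rintro z ⟨x, hx, hxz⟩
    refine ⟨fun g => -x g, hx.comp (fun a => -a), fun g h => ?_⟩
    simp only [Pi.neg_apply, smul_neg, ← hxz]
    abel

variable {S A}

theorem h56_mem_levelCobS₂ {z : GQ × GQ → A} :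
    z ∈ h56_levelCobS₂ S A ↔ ∃ x : GQ → A, IsLevelConstantS₁ S x ∧
      ∀ g h, g • x h - x (g * h) + x g = z (g, h) := Iff.rfl

end LevelCob

section Pairing

variable {p : ℕ} [Fact p.Prime] (S : Finset Nat.Primes) (M : Rep (ZMod p) GQ)
  {CC : Type*} [AddCommGroup CC] [DistribMulAction GQ CC]

/-- post-composition with an equivariant map sends level coboundaries of `M` to level
coboundaries. -/
theorem h56_comp_mem_levelCobS₂ (f : M →+ CC) (hf : ∀ (g : GQ) (m : M), f (M.ρ g m) = g • f m)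
    (c : GQ × GQ → M) (hc : c ∈ levelCoboundariesS₂ S M) :
    (fun x : GQ × GQ => f (c x)) ∈ h56_levelCobS₂ S CC := by
  obtain ⟨x, hx, rfl⟩ := (mem_levelCoboundariesS₂_iff S M c).1 hc
  refine ⟨fun g => f (x g), hx.comp f, fun g h => ?_⟩
  show g • f (x h) - f (x (g * h)) + f (x g) = f ((d₁₂ M).hom x (g, h))
  rw [d₁₂_hom_apply, map_add, map_sub, hf]

/-- **The pairing `β` from the four named facts.** -/
theorem h56_S2_of_facts (hp2 : p ≠ 2)
    {H : Type} [AddCommGroup H] [Module (ZMod p) H] (ev : H →+ (M →+ CC))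
    (hev : ∀ (f : H) (g : GQ) (m : M), ev f (M.ρ g m) = g • ev f m)
    (I : Submodule (ZMod p) H)
    (u₀ : GQ × GQ → CC)
    (hT1 : p • u₀ ∈ h56_levelCobS₂ S CC) (hT2 : u₀ ∉ h56_levelCobS₂ S CC)
    (hT3 : ∀ (f : H) (c : ↥(levelCocyclesS₂ S M)), ∃ k : ℕ,
      (fun x : GQ × GQ => ev f ((c : GQ × GQ → M) x) - k • u₀ x) ∈ h56_levelCobS₂ S CC)
    (hRK : ∀ c : ↥(levelCocyclesS₂ S M),
      (∀ f : H, (fun x : GQ × GQ => ev f ((c : GQ × GQ → M) x)) ∈ h56_levelCobS₂ S CC) →
        (c : GQ × GQ → M) ∈ levelCoboundariesS₂ S M)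
    (hLK : ∀ f : H, (∀ c : ↥(levelCocyclesS₂ S M),
      (fun x : GQ × GQ => ev f ((c : GQ × GQ → M) x)) ∈ h56_levelCobS₂ S CC) → f ∈ I)
    (hPERP : ∀ c : ↥(levelCocyclesS₂ S M),
      (∀ f ∈ I, (fun x : GQ × GQ => ev f ((c : GQ × GQ → M) x)) ∈ h56_levelCobS₂ S CC) ↔
        ∀ q : ↥S, ∃ x : primeLocalGaloisGroup q.1 → M,
          IsLevelConstant₁ (primeLocalToGlobal q.1) x ∧
          ∀ τ τ', M.ρ (primeLocalToGlobal q.1 τ) (x τ') - x (τ * τ') + x τ =
            (c : GQ × GQ → M) (primeLocalToGlobal q.1 τ, primeLocalToGlobal q.1 τ')) :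
    ∃ β : H →ₗ[ZMod p] continuousH2S S M →ₗ[ZMod p] ZMod p,
      (∀ y, (∀ f, β f y = 0) → y = 0) ∧ (∀ f, (∀ y, β f y = 0) → f ∈ I) ∧
      (∀ y, y ∈ sha₂ S M ↔ ∀ f ∈ I, β f y = 0) := by
  classical
  have hpprime : p.Prime := Fact.out
  -- multiples of `u₀` which are level coboundaries
  have key : ∀ n : ℤ, n • u₀ ∈ h56_levelCobS₂ S CC → (p : ℤ) ∣ n := by
    intro n hn
    by_contra hdvd
    have hcop : IsCoprime (p : ℤ) n :=
      ((Nat.prime_iff_prime_int.mp hpprime).irreducible.coprime_iff_not_dvd).2 hdvd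
    obtain ⟨a, b, hab⟩ := hcop
    apply hT2
    have h1 : u₀ = a • ((p : ℤ) • u₀) + b • (n • u₀) := by
      rw [smul_smul, smul_smul, ← add_smul, hab, one_smul]
    rw [h1]
    refine (h56_levelCobS₂ S CC).add_mem ((h56_levelCobS₂ S CC).zsmul_mem ?_ a)
      ((h56_levelCobS₂ S CC).zsmul_mem hn b)
    rw [natCast_zsmul]
    exact hT1
  choose kk hkk using hT3
  -- uniqueness of the multiple modulo `p`
  have huniq : ∀ (f : H) (c : ↥(levelCocyclesS₂ S M)) (n : ℤ),
      (fun x : GQ × GQ => ev f ((c : GQ × GQ → M) x) - n • u₀ x) ∈ h56_levelCobS₂ S CC →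
        ((kk f c : ℕ) : ZMod p) = (n : ZMod p) := by
    intro f c n hn
    have h1 := (h56_levelCobS₂ S CC).sub_mem hn (hkk f c)
    have h2 : (fun x : GQ × GQ => ev f ((c : GQ × GQ → M) x) - n • u₀ x) -
        (fun x : GQ × GQ => ev f ((c : GQ × GQ → M) x) - kk f c • u₀ x) =
          ((kk f c : ℤ) - n) • u₀ := by
      funext x
      simp only [Pi.sub_apply, Pi.smul_apply, sub_smul, natCast_zsmul]
      abel
    rw [h2] at h1
    have h3 := key _ h1
    have h4 : (((kk f c : ℤ) - n : ℤ) : ZMod p) = 0 :=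
      (ZMod.intCast_zmod_eq_zero_iff_dvd _ p).2 h3
    push_cast at h4
    exact sub_eq_zero.1 h4
  -- the pairing on cocycles
  let b : H → ↥(levelCocyclesS₂ S M) → ZMod p := fun f c => ((kk f c : ℕ) : ZMod p)
  have hb : ∀ f c, b f c = ((kk f c : ℕ) : ZMod p) := fun f c => rfl
  have hb_add_c : ∀ f c c', b f (c + c') = b f c + b f c' := by
    intro f c c'
    have h1 := (h56_levelCobS₂ S CC).add_mem (hkk f c) (hkk f c')
    have h2 : (fun x : GQ × GQ => ev f ((c : GQ × GQ → M) x) - kk f c • u₀ x) +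
        (fun x : GQ × GQ => ev f ((c' : GQ × GQ → M) x) - kk f c' • u₀ x) =
        (fun x : GQ × GQ => ev f (((c + c' : ↥(levelCocyclesS₂ S M)) : GQ × GQ → M) x) -
          (((kk f c + kk f c' : ℕ) : ℤ)) • u₀ x) := by
      funext x
      simp only [Pi.add_apply, Submodule.coe_add, map_add, natCast_zsmul, add_smul]
      abel
    rw [h2] at h1
    have h3 := huniq f (c + c') _ h1
    rw [hb, h3, hb, hb]
    push_cast
    rfl
  have hb_add_f : ∀ f f' c, b (f + f') c = b f c + b f' c := by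
    intro f f' c
    have h1 := (h56_levelCobS₂ S CC).add_mem (hkk f c) (hkk f' c)
    have h2 : (fun x : GQ × GQ => ev f ((c : GQ × GQ → M) x) - kk f c • u₀ x) +
        (fun x : GQ × GQ => ev f' ((c : GQ × GQ → M) x) - kk f' c • u₀ x) =
        (fun x : GQ × GQ => ev (f + f') ((c : GQ × GQ → M) x) -
          (((kk f c + kk f' c : ℕ) : ℤ)) • u₀ x) := by
      funext x
      simp only [Pi.add_apply, map_add, AddMonoidHom.add_apply, natCast_zsmul, add_smul]
      abel
    rw [h2] at h1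
    have h3 := huniq (f + f') c _ h1
    rw [hb, h3, hb, hb]
    push_cast
    rfl
  have hb_zero_iff : ∀ f c, b f c = 0 ↔
      (fun x : GQ × GQ => ev f ((c : GQ × GQ → M) x)) ∈ h56_levelCobS₂ S CC := by
    intro f c
    constructor
    · intro h0
      rw [hb] at h0
      obtain ⟨t, ht⟩ := (ZMod.natCast_eq_zero_iff _ _).1 h0
      have h1 : kk f c • u₀ ∈ h56_levelCobS₂ S CC := by
        rw [ht, mul_comm, mul_smul]
        exact (h56_levelCobS₂ S CC).nsmul_mem hT1 t
      have h2 := (h56_levelCobS₂ S CC).add_mem (hkk f c) h1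
      have h3 : (fun x : GQ × GQ => ev f ((c : GQ × GQ → M) x) - kk f c • u₀ x) + kk f c • u₀ =
          (fun x : GQ × GQ => ev f ((c : GQ × GQ → M) x)) := by
        funext x
        simp only [Pi.add_apply, Pi.smul_apply, sub_add_cancel]
      rwa [h3] at h2
    · intro h0
      have h1 : (fun x : GQ × GQ => ev f ((c : GQ × GQ → M) x) - (0 : ℤ) • u₀ x) ∈
          h56_levelCobS₂ S CC := by
        simpa using h0
      have h2 := huniq f c 0 h1
      rw [hb, h2]
      simp
  have hb_cob : ∀ (f : H) (c : ↥(levelCocyclesS₂ S M)),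
      (c : GQ × GQ → M) ∈ levelCoboundariesS₂ S M → b f c = 0 := by
    intro f c hc
    rw [hb_zero_iff]
    exact h56_comp_mem_levelCobS₂ S M (ev f) (hev f) _ hc
  -- linear maps
  let φ : H → (↥(levelCocyclesS₂ S M) →ₗ[ZMod p] ZMod p) := fun f =>
    AddMonoidHom.toZModLinearMap p (AddMonoidHom.mk' (b f) (hb_add_c f))
  have hφ : ∀ f c, φ f c = b f c := fun f c => rfl
  let F : H → (continuousH2S S M →ₗ[ZMod p] ZMod p) := fun f =>
    Submodule.liftQ _ (φ f) (by
      intro c hc
      rw [LinearMap.mem_ker, hφ]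
      exact hb_cob f c (by simpa [Submodule.mem_comap] using hc))
  have hF : ∀ f c, F f (continuousH2Sπ S M c) = b f c := fun f c => rfl
  have hF_add : ∀ f f', F (f + f') = F f + F f' := by
    intro f f'
    apply LinearMap.ext
    intro y
    obtain ⟨c, rfl⟩ := Submodule.mkQ_surjective _ y
    show F (f + f') (continuousH2Sπ S M c) = F f (continuousH2Sπ S M c) + F f' (continuousH2Sπ S M c)
    rw [hF, hF, hF, hb_add_f]
  let β : H →ₗ[ZMod p] continuousH2S S M →ₗ[ZMod p] ZMod p :=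
    AddMonoidHom.toZModLinearMap p (AddMonoidHom.mk' F hF_add)
  have hβ : ∀ f c, β f (continuousH2Sπ S M c) = b f c := fun f c => rfl
  refine ⟨β, ?_, ?_, ?_⟩
  · intro y hy
    obtain ⟨c, rfl⟩ := Submodule.mkQ_surjective _ y
    show continuousH2Sπ S M c = 0
    rw [continuousH2Sπ_eq_zero_iff]
    apply hRK
    intro f
    rw [← hb_zero_iff, ← hβ]
    exact hy f
  · intro f hf
    apply hLK
    intro c
    rw [← hb_zero_iff, ← hβ]
    exact hf _
  · intro y
    obtain ⟨c, rfl⟩ := Submodule.mkQ_surjective _ y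
    show continuousH2Sπ S M c ∈ sha₂ S M ↔ ∀ f ∈ I, β f (continuousH2Sπ S M c) = 0
    rw [h97_H2Sπ_mem_sha₂_iff S hp2 M c, ← hPERP c]
    constructor
    · intro h f hf
      rw [hβ, hb_zero_iff]
      exact h f hf
    · intro h f hf
      rw [← hb_zero_iff, ← hβ]
      exact h f hf

end Pairing

end Fermat.Agent.S55
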