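import Fermat.Agent.S55.h97_Sha
import Fermat.Agent.S55.h56_Inv
import Fermat.Agent.S55.h56_FinLevel
import Fermat.Agent.S55.h56_GalLevels
import Fermat.Agent.S55.h56_AssemblyS2
import Fermat.Agent.S55.h72_AbsDefs

/-!
# S55, assembly layer: the ambient interface

The arithmetic is consumed through ONE abstract interface, `h72_PTAmbient`: a smooth
`G_ℚ`-module `CC` (the `p`-localised `S`-idele class module of the maximal extension unramified
outside `S`), for every `q ∈ S` a smooth `G_ℚ`-module `JJ q` (the `p`-localised semi-local idele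
module at `q`) with `κ q : JJ q → CC`, and a `G_{ℚ_q}`-module `XX q` (the `p`-localised
multiplicative group of the algebraic closure of `ℚ_q`) with `ev q : JJ q → XX q`, such that
`JJ q` is "coinduced" from `XX q` along `primeLocalToGlobal q`.

Levels: `h72_Lev S` = finite Galois extensions of `ℚ` inside `ℚbar` unramified outside `S`;
`L.U` is the corresponding normal subgroup of finite index of `G_ℚ`.  Finite-level statements
are about the `G_ℚ ⧸ L.U`-modules `h56_Inv L.U CC` (helper56's API).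
-/

set_option autoImplicit false

open CategoryTheory Module groupCohomology ExtCitation

namespace Fermat.Agent.S55

local notation "Qb" => AlgebraicClosure ℚ
local notation "GQ" => (AlgebraicClosure ℚ ≃ₐ[ℚ] AlgebraicClosure ℚ)

/-- An `S`-level: a finite Galois extension of `ℚ` inside `ℚbar`, unramified outside `S`. -/
structure h72_Lev (S : Finset Nat.Primes) where
  F : IntermediateField ℚ Qb
  unr : F.IsUnramifiedOutside S
  gal : IsGalois ℚ F

namespace h72_Lev

variable {S : Finset Nat.Primes}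

instance (L : h72_Lev S) : IsGalois ℚ L.F := L.gal

/-- The open normal subgroup of `G_ℚ` attached to a level. -/
noncomputable def U (L : h72_Lev S) : Subgroup GQ := L.F.fixingSubgroup

/-- `F.fixingSubgroup` is normal for a Galois level (the two `ℚ`-algebra structures on `↥F`
are reconciled here once and for all). -/
theorem _root_.Fermat.Agent.S55.h72_fixingSubgroup_normal (F : IntermediateField ℚ Qb)
    (h : IsGalois ℚ F) : F.fixingSubgroup.Normal := by
  have : IsGalois ℚ (AlgebraicClosure ℚ) := Fermat.Agent.S13.h24_isGalois_Qbar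
  have h2 : @IsGalois ℚ _ F _ (IntermediateField.algebra' F) := by
    convert h
    exact Subsingleton.elim _ _
  exact @IsGalois.fixingSubgroup_normal_of_isGalois ℚ (AlgebraicClosure ℚ) _ _ _ F _ h2

instance (L : h72_Lev S) : L.U.Normal := h72_fixingSubgroup_normal L.F L.gal

/-- Conversion to helper56's type of levels. -/
def to56 (L : h72_Lev S) : h56_Level S := ⟨L.F, L.unr, L.gal⟩

/-- Conversion from helper56's type of levels. -/
def of56 (L : h56_Level S) : h72_Lev S := ⟨L.1, L.2.1, L.2.2⟩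

@[simp] theorem to56_U (L : h72_Lev S) : L.to56.U = L.U := rfl

@[simp] theorem of56_U (L : h56_Level S) : (of56 L).U = L.U := rfl

@[simp] theorem to56_of56 (L : h56_Level S) : (of56 L).to56 = L := rfl

@[simp] theorem of56_to56 (L : h72_Lev S) : of56 L.to56 = L := rfl

theorem U_anti {L L' : h72_Lev S} (h : L.F ≤ L'.F) : L'.U ≤ L.U :=
  IntermediateField.fixingSubgroup_antitone h

end h72_Lev

/-- `S`-level 2-coboundaries with values in a `G_ℚ`-module. -/
def h72_IsCobS₂ (S : Finset Nat.Primes) {A : Type*} [AddCommGroup A] [DistribMulAction GQ A]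
    (z : GQ × GQ → A) : Prop :=
  ∃ x : GQ → A, IsLevelConstantS₁ S x ∧ ∀ g h : GQ, g • x h - x (g * h) + x g = z (g, h)

theorem h72_isCobS₂_iff (S : Finset Nat.Primes) {A : Type*} [AddCommGroup A]
    [DistribMulAction GQ A] (z : GQ × GQ → A) :
    h72_IsCobS₂ S z ↔ z ∈ h56_levelCobS₂ S A := Iff.rfl

/-- Level-constant 2-coboundaries of the local group at `q` with values in a module. -/
def h72_IsCobLoc₂ (q : Nat.Primes) {A : Type*} [AddCommGroup A]
    [DistribMulAction (primeLocalGaloisGroup q) A]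
    (z : primeLocalGaloisGroup q × primeLocalGaloisGroup q → A) : Prop :=
  ∃ x : primeLocalGaloisGroup q → A, IsLevelConstant₁ (primeLocalToGlobal q) x ∧
    ∀ τ τ' : primeLocalGaloisGroup q, τ • x τ' - x (τ * τ') + x τ = z (τ, τ')

/-- LOCAL DUALITY (LOC-DUAL), the property of the local module `X` at `q` consumed by the
assembly: a level-constant 2-cocycle of the local group in a finite smooth `𝔽_p`-module `N`
which is killed by every equivariant map `N → X` is a level-constant coboundary. -/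
def h72_LocDual (p : ℕ) (q : Nat.Primes) (X : Type) [AddCommGroup X]
    [DistribMulAction (primeLocalGaloisGroup q) X] : Prop :=
  ∀ (N : Type) [AddCommGroup N] [DistribMulAction (primeLocalGaloisGroup q) N] [Finite N],
    (∀ n : N, p • n = 0) →
    (∃ F : IntermediateField ℚ Qb, FiniteDimensional ℚ F ∧
      ∀ (τ : primeLocalGaloisGroup q) (n : N),
        primeLocalToGlobal q τ ∈ F.fixingSubgroup → τ • n = n) →
    ∀ c : primeLocalGaloisGroup q × primeLocalGaloisGroup q → N, IsCocycle₂ c →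
      IsLevelConstant₂ (primeLocalToGlobal q) c →
      (∀ h : N →+ X, (∀ (τ : primeLocalGaloisGroup q) (n : N), h (τ • n) = τ • h n) →
        h72_IsCobLoc₂ q (fun x => h (c x))) →
      h72_IsCobLoc₂ q c

/-- LOCAL INFLATION (Hilbert 90 for the local module `X` at `q`): a 2-cocycle of the local
group which is invariant under the open normal subgroup cut out by a finite Galois `F₁/ℚ` and
is the coboundary of some level-constant cochain is the coboundary of an `F₁`-invariant one. -/
def h72_LocInf (q : Nat.Primes) (X : Type) [AddCommGroup X]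
    [DistribMulAction (primeLocalGaloisGroup q) X] : Prop :=
  ∀ F₁ : IntermediateField ℚ Qb, FiniteDimensional ℚ F₁ → IsGalois ℚ F₁ →
    ∀ z : primeLocalGaloisGroup q × primeLocalGaloisGroup q → X, IsCocycle₂ z →
      (∀ τ τ' s s' : primeLocalGaloisGroup q, primeLocalToGlobal q s ∈ F₁.fixingSubgroup →
        primeLocalToGlobal q s' ∈ F₁.fixingSubgroup → z (τ * s, τ' * s') = z (τ, τ')) →
      h72_IsCobLoc₂ q z →
      ∃ ξ : primeLocalGaloisGroup q → X,
        (∀ τ s : primeLocalGaloisGroup q, primeLocalToGlobal q s ∈ F₁.fixingSubgroup →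
          ξ (τ * s) = ξ τ) ∧
        ∀ τ τ' : primeLocalGaloisGroup q, τ • ξ τ' - ξ (τ * τ') + ξ τ = z (τ, τ')

/-- THE AMBIENT INTERFACE between arithmetic (GLOB + LOC) and the assembly. -/
structure h72_PTAmbient (p : ℕ) [Fact p.Prime] (S : Finset Nat.Primes)
    (CC : Type) [AddCommGroup CC] [DistribMulAction GQ CC]
    (JJ : ↥S → Type) [∀ q, AddCommGroup (JJ q)] [∀ q, DistribMulAction GQ (JJ q)]
    (XX : ↥S → Type) [∀ q, AddCommGroup (XX q)]
    [∀ q : ↥S, DistribMulAction (primeLocalGaloisGroup q.1) (XX q)]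
    (κ : ∀ q, JJ q →+ CC) (ev : ∀ q, JJ q →+ XX q) (zz : ∀ q, XX q) : Prop where
  /-- `CC` is smooth. -/
  cc_smooth : ∀ c : CC, ∃ L : h72_Lev S, ∀ s ∈ L.U, s • c = c
  /-- [GLOB-CF] class formation at every level. -/
  cc_class : ∀ L : h72_Lev S, IsPClassModule p (GQ ⧸ L.U) (h56_Inv L.U CC)
  /-- [GLOB-EX] existence mod `p`: norms from a suitable higher level are `p`-th multiples. -/
  cc_ex : ∀ L : h72_Lev S, ∃ (L' : h72_Lev S) (h : L.F ≤ L'.F), ∀ c' : h56_Inv L'.U CC,
    ∃ c : h56_Inv L.U CC,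
      ∑ᶠ s : (h56_quotMap (h72_Lev.U_anti h)).ker, (s : GQ ⧸ L'.U) • c' =
        h56_invIncl (h72_Lev.U_anti h) (p • c)
  /-- finiteness of the `p`-torsion at finite level. -/
  cc_fin : ∀ L : h72_Lev S, Finite {c : CC // (∀ s ∈ L.U, s • c = c) ∧ p • c = 0}
  /-- `JJ q` is smooth. -/
  jj_smooth : ∀ (q : ↥S) (y : JJ q), ∃ L : h72_Lev S, ∀ s ∈ L.U, s • y = y
  /-- `κ` is equivariant. -/
  κ_smul : ∀ (q : ↥S) (g : GQ) (y : JJ q), κ q (g • y) = g • κ q y
  /-- `ev` is equivariant for the local group. -/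
  ev_smul : ∀ (q : ↥S) (τ : primeLocalGaloisGroup q.1) (y : JJ q),
    ev q (primeLocalToGlobal q.1 τ • y) = τ • ev q y
  /-- `JJ q` is coinduced: elements = smooth equivariant functions `G_ℚ → XX q`. -/
  ev_bij : ∀ (q : ↥S) (φ : GQ → XX q),
    (∀ (τ : primeLocalGaloisGroup q.1) (g : GQ), φ (primeLocalToGlobal q.1 τ * g) = τ • φ g) →
    (∃ L : h72_Lev S, ∀ g s, s ∈ L.U → φ (g * s) = φ g) →
    ∃! y : JJ q, ∀ g : GQ, ev q (g • y) = φ g
  /-- the `p`-torsion of `XX q` is generated by `zz q` (a primitive `p`-th root of unity). -/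
  xx_tors : ∀ (q : ↥S) (x : XX q), p • x = 0 → ∃ k : ℕ, x = k • zz q
  zz_tors : ∀ q : ↥S, p • zz q = 0
  zz_ne : ∀ q : ↥S, zz q ≠ 0
  /-- the local group acts on `zz q` through the cyclotomic character. -/
  zz_smul : ∀ (q : ↥S) (τ : primeLocalGaloisGroup q.1),
    τ • zz q = (cycloChar p (primeLocalToGlobal q.1 τ) : ZMod p).val • zz q
  /-- [LOC-DUAL] local duality for `XX q`. -/
  loc_dual : ∀ q : ↥S, h72_LocDual p q.1 (XX q)
  /-- [LOC-INF] Hilbert 90 / injectivity of inflation on `H²` for `XX q`. -/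
  loc_inf : ∀ q : ↥S, h72_LocInf q.1 (XX q)
  /-- [GLOB-KUMSEQ (i), ⊇] the diagonal roots of unity die in `CC`. -/
  kum_diag : ∀ y : ∀ q, JJ q,
    (∀ (q : ↥S) (g : GQ), ev q (g • y q) = (cycloChar p g : ZMod p).val • zz q) →
    ∑ q : ↥S, κ q (y q) = 0
  /-- [GLOB-KUMSEQ (i), ⊆] the kernel of `JJ[p] → CC[p]` is the diagonal `μ_p`. -/
  kum_ker : ∀ y : ∀ q, JJ q, (∀ q, p • y q = 0) → ∑ q : ↥S, κ q (y q) = 0 →
    ∃ k : ℕ, ∀ (q : ↥S) (g : GQ), ev q (g • y q) = (k * (cycloChar p g : ZMod p).val) • zz q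
  /-- [GLOB-KUMSEQ (iii)] capitulation: `JJ[p] → CC[p]` is onto. -/
  kum_cap : ∀ c : CC, p • c = 0 → ∃ y : ∀ q, JJ q, (∀ q, p • y q = 0) ∧ ∑ q : ↥S, κ q (y q) = c
  /-- [GLOB-UNORM] `p`-torsion norms from a suitable higher level come from `JJ[p]`. -/
  unorm : ∀ L : h72_Lev S, ∃ (L' : h72_Lev S) (h : L.F ≤ L'.F), ∀ c' : h56_Inv L'.U CC,
    p • c' = 0 → ∃ y : ∀ q, JJ q, (∀ q, p • y q = 0) ∧ (∀ q, ∀ s ∈ L.U, s • y q = y q) ∧
      ((∑ᶠ s : (h56_quotMap (h72_Lev.U_anti h)).ker, (s : GQ ⧸ L'.U) • c' :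
        h56_Inv L'.U CC) : CC) = ∑ q : ↥S, κ q (y q)
  /-- [GLOB-BETA] `H²(G/U, JJ_q^U) → H²(G/U, CC^U)` is injective on `p`-primary parts. -/
  beta : ∀ (q : ↥S) (L : h72_Lev S)
    (z : (GQ ⧸ L.U) × (GQ ⧸ L.U) → h56_Inv L.U (JJ q)), IsCocycle₂ z →
    IsCoboundary₂ (fun x => h56_Inv.map (U := L.U) (κ q) (κ_smul q) (z x)) →
    ∃ m : ℕ, m.Coprime p ∧ IsCoboundary₂ (m • z)

/-- `G_ℚ`-equivariant additive maps from a representation to a `G_ℚ`-module. -/
def h72_IsEqv {p : ℕ} (M : Rep (ZMod p) GQ) {A : Type*} [AddCommGroup A] [DistribMulAction GQ A]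
    (f : M →+ A) : Prop :=
  ∀ (g : GQ) (m : M), f (M.ρ g m) = g • f m

end Fermat.Agent.S55
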