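import Fermat.Agent.S55.h56_AssemblyLK
import Fermat.Agent.S55.h72_AsmDefs
import Fermat.Agent.S55.h21_ADTFinalL

/-!
# S55, assembly layer: ASM-D2 (F3) from the ambient interface

An element of `Hom_G(M, CC)` killing all of `H²(G_S, M)` comes from `Hom_G(M, JJ)`.
Statement `asm_d2` of the assembly skeleton, verbatim and unconditional: `adt_D2` is
`h21_adt_D2` (Tate-Nakayama (L)), the reduction is `h56_LK_of_adt` with
`JJ := ∀ q, JJ q`, `j := ∑ q, κ q`.
-/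

set_option autoImplicit false
set_option linter.unusedSectionVars false
set_option linter.unusedVariables false
set_option maxHeartbeats 400000

open CategoryTheory Module groupCohomology ExtCitation

namespace Fermat.Agent.S55

local notation "GQ" => (AlgebraicClosure ℚ ≃ₐ[ℚ] AlgebraicClosure ℚ)

/-- `adt_D2` in statement form. -/
theorem h56_ADT2Statement_holds {p : ℕ} [Fact p.Prime] : h56_ADT2Statement p := by
  intro G' G _ _ _ π hπ C' C _ _ _ _ ι hι hιeq hιfix hC' hnorm M _ _ _ hpM f hf hperp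
  exact h21_adt_D2 π hπ ι hι hιeq hιfix hC' hnorm hpM f hf hperp

section Transport

/-- transport of a representation along a linear equivalence. -/
def h56_conjRep {k G V W : Type*} [CommRing k] [Group G] [AddCommGroup V] [Module k V]
    [AddCommGroup W] [Module k W] (ρ : Representation k G V) (e : V ≃ₗ[k] W) :
    Representation k G W where
  toFun g := e.toLinearMap ∘ₗ ρ g ∘ₗ e.symm.toLinearMap
  map_one' := by
    ext w
    simp
  map_mul' g h := by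
    ext w
    simp

theorem h56_conjRep_apply {k G V W : Type*} [CommRing k] [Group G] [AddCommGroup V] [Module k V]
    [AddCommGroup W] [Module k W] (ρ : Representation k G V) (e : V ≃ₗ[k] W) (g : G) (v : V) :
    h56_conjRep ρ e g (e v) = e (ρ g v) := by
  simp [h56_conjRep]

theorem h56_conjRep_symm_apply {k G V W : Type*} [CommRing k] [Group G] [AddCommGroup V]
    [Module k V] [AddCommGroup W] [Module k W] (ρ : Representation k G V) (e : V ≃ₗ[k] W) (g : G)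
    (w : W) : e.symm (h56_conjRep ρ e g w) = ρ g (e.symm w) := by
  simp [h56_conjRep]

end Transport

section D2

variable {p : ℕ} [Fact p.Prime] (S : Finset Nat.Primes)
  {CC : Type} [AddCommGroup CC] [DistribMulAction GQ CC]
  {JJ : ↥S → Type} [∀ q, AddCommGroup (JJ q)] [∀ q, DistribMulAction GQ (JJ q)]
  {XX : ↥S → Type} [∀ q, AddCommGroup (XX q)]
  [∀ q : ↥S, DistribMulAction (primeLocalGaloisGroup q.1) (XX q)]
  {κ : ∀ q, JJ q →+ CC} {ev : ∀ q, JJ q →+ XX q} {zz : ∀ q, XX q}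

/-- **ASM-D2 (F3)**, `Type`-valued `M`. -/
theorem h56_asm_d2_zero (M : Rep.{0, 0, 0} (ZMod p) GQ) [FiniteDimensional (ZMod p) M]
    (hA : h72_PTAmbient p S CC JJ XX κ ev zz)
    (L₀ : h72_Lev S) (hL₀ : ∀ s ∈ L₀.U, M.ρ s = 1)
    (f : M →+ CC) (hf : ∀ (g : GQ) (m : M), f (M.ρ g m) = g • f m)
    (hperp : ∀ c : GQ × GQ → M, c ∈ cocycles₂ M → IsLevelConstantS₂ S c →
      h72_IsCobS₂ S (fun x => f (c x))) :
    ∃ ft : ∀ q, M →+ JJ q, (∀ q, ∀ (g : GQ) (m : M), ft q (M.ρ g m) = g • ft q m) ∧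
      ∀ m, f m = ∑ q : ↥S, κ q (ft q m) := by
  classical
  have : NeZero p := ⟨(Fact.out : p.Prime).ne_zero⟩
  have : Finite M := Module.finite_of_finite (ZMod p)
  have hCF : ∀ L : h56_Level S, L₀.to56 ≤ L →
      IsPClassModule p (GQ ⧸ L.U) (h56_Inv L.U CC) := fun L _ => hA.cc_class (h72_Lev.of56 L)
  have hEX : ∀ L : h56_Level S, L₀.to56 ≤ L → ∃ (L' : h56_Level S) (h : L ≤ L'),
      ∀ c' : h56_Inv L'.U CC, ∃ c : h56_Inv L.U CC,
        ∑ᶠ s : (h56_quotMap (h56_Level.U_anti h)).ker, (s : GQ ⧸ L'.U) • c' =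
          h56_invIncl (h56_Level.U_anti h) (p • c) := by
    intro L _
    obtain ⟨L', h, hn⟩ := hA.cc_ex (h72_Lev.of56 L)
    exact ⟨L'.to56, h, hn⟩
  -- the product of the `JJ q` and the sum of the `κ q`
  let j : (∀ q : ↥S, JJ q) →+ CC := ∑ q : ↥S, (κ q).comp (Pi.evalAddMonoidHom JJ q)
  have hjapp : ∀ y : ∀ q : ↥S, JJ q, j y = ∑ q : ↥S, κ q (y q) := by
    intro y
    simp [j]
  have hj : ∀ (g : GQ) (y : ∀ q : ↥S, JJ q), j (g • y) = g • j y := by
    intro g y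
    rw [hjapp, hjapp, Finset.smul_sum]
    exact Finset.sum_congr rfl fun q _ => hA.κ_smul q g (y q)
  obtain ⟨L', h01, hu⟩ := hA.unorm L₀
  have hUN : ∃ (L₁ : h56_Level S) (h : L₀.to56 ≤ L₁), ∀ c' : h56_Inv L₁.U CC, p • c' = 0 →
      ∃ φ : (∀ q : ↥S, JJ q), (∀ s ∈ L₀.to56.U, s • φ = φ) ∧ p • φ = 0 ∧
        j φ = ((∑ᶠ s : (h56_quotMap (h56_Level.U_anti h)).ker, (s : GQ ⧸ L₁.U) • c' :
          h56_Inv L₁.U CC) : CC) := by
    refine ⟨L'.to56, h01, fun c' hc' => ?_⟩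
    obtain ⟨y, hy1, hy2, hy3⟩ := hu c' hc'
    exact ⟨y, fun s hs => funext fun q => hy2 q s hs, funext hy1, (hjapp y).trans hy3.symm⟩
  obtain ⟨ψ, hψ1, hψ2⟩ := h56_LK_of_adt S M h56_ADT2Statement_holds L₀.to56
    (fun s hs m => by rw [hL₀ s hs]; rfl) hCF hEX j hj hUN f hf
    (fun c => hperp c.1 ((mem_levelCocyclesS₂_iff S M c.1).1 c.2).1
      ((mem_levelCocyclesS₂_iff S M c.1).1 c.2).2)
  refine ⟨fun q => (Pi.evalAddMonoidHom JJ q).comp ψ, fun q g m => ?_, fun m => ?_⟩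
  · show ψ (M.ρ g m) q = g • ψ m q
    rw [hψ1 g m]
    rfl
  · rw [← hψ2 m, hjapp]
    rfl

variable (M : Rep (ZMod p) GQ) [FiniteDimensional (ZMod p) M]

/-- **ASM-D2 (F3)**: an element of `Hom_G(M, CC)` killing all of `H²(G_S, M)` comes from
`Hom_G(M, JJ)` (statement of the assembly skeleton, verbatim; any universe for `M`). -/
theorem h56_asm_d2 (hA : h72_PTAmbient p S CC JJ XX κ ev zz)
    (L₀ : h72_Lev S) (hL₀ : ∀ s ∈ L₀.U, M.ρ s = 1)
    (f : M →+ CC) (hf : h72_IsEqv M f)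
    (hperp : ∀ c : GQ × GQ → M, c ∈ cocycles₂ M → IsLevelConstantS₂ S c →
      h72_IsCobS₂ S (fun x => f (c x))) :
    ∃ ft : ∀ q, M →+ JJ q, (∀ q, h72_IsEqv M (ft q)) ∧ ∀ m, f m = ∑ q : ↥S, κ q (ft q m) := by
  classical
  let e : M ≃ₗ[ZMod p] (Fin (Module.finrank (ZMod p) M) → ZMod p) :=
    (Module.finBasis (ZMod p) M).equivFun
  let ρ₀ : Representation (ZMod p) GQ (Fin (Module.finrank (ZMod p) M) → ZMod p) :=
    h56_conjRep M.ρ e
  let M₀ : Rep.{0, 0, 0} (ZMod p) GQ := Rep.of ρ₀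
  have hρ₀ : ∀ (g : GQ) (m : M), M₀.ρ g (e m) = e (M.ρ g m) :=
    fun g m => h56_conjRep_apply M.ρ e g m
  have hρ₀' : ∀ (g : GQ) (w : M₀), e.symm (M₀.ρ g w) = M.ρ g (e.symm w) :=
    fun g w => h56_conjRep_symm_apply M.ρ e g w
  have : FiniteDimensional (ZMod p) M₀ :=
    inferInstanceAs (FiniteDimensional (ZMod p) (Fin (Module.finrank (ZMod p) M) → ZMod p))
  have hL₀' : ∀ s ∈ L₀.U, M₀.ρ s = 1 := by
    intro s hs
    apply LinearMap.ext
    intro w
    apply e.symm.injective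
    rw [hρ₀', hL₀ s hs]
    rfl
  let f₀ : M₀ →+ CC := f.comp e.symm.toAddMonoidHom
  have hf₀ : ∀ (g : GQ) (w : M₀), f₀ (M₀.ρ g w) = g • f₀ w := by
    intro g w
    show f (e.symm (M₀.ρ g w)) = g • f (e.symm w)
    rw [hρ₀', hf]
  have hperp₀ : ∀ c₀ : GQ × GQ → M₀, c₀ ∈ cocycles₂ M₀ → IsLevelConstantS₂ S c₀ →
      h72_IsCobS₂ S (fun x => f₀ (c₀ x)) := by
    intro c₀ hc₀ hcl₀
    refine hperp (fun x => e.symm (c₀ x)) ?_ (hcl₀.comp (fun w => e.symm w))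
    rw [mem_cocycles₂_iff]
    intro g h j
    have h1 := (mem_cocycles₂_iff c₀).1 hc₀ g h j
    show e.symm (c₀ (g * h, j)) + e.symm (c₀ (g, h)) =
      M.ρ g (e.symm (c₀ (h, j))) + e.symm (c₀ (g, h * j))
    rw [← hρ₀', ← map_add, ← map_add, h1]
  obtain ⟨ft₀, hft₀1, hft₀2⟩ := h56_asm_d2_zero S M₀ hA L₀ hL₀' f₀ hf₀ hperp₀
  refine ⟨fun q => (ft₀ q).comp e.toAddMonoidHom, fun q g m => ?_, fun m => ?_⟩
  · show ft₀ q (e (M.ρ g m)) = g • ft₀ q (e m)
    rw [← hρ₀, hft₀1]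
  · have h2 := hft₀2 (e m)
    have h3 : f₀ (e m) = f m := by
      show f (e.symm (e m)) = f m
      rw [e.symm_apply_apply]
    rw [← h3, h2]
    rfl

end D2

end Fermat.Agent.S55
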