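import Fermat.Agent.S55.h56_AssemblyT
import Fermat.Agent.S55.h72_AsmDefs

/-!
# S55, assembly layer: ASM-FUND (F1) from the ambient interface

The `p`-torsion of `H²_S(G_ℚ, CC)` is cyclic of order `p`, generated by the class of a level
cocycle `t` (the inflation of `p ^ (e - 1)` times the fundamental class of a level whose degree
has `p`-part `p ^ e`, `e ≥ 1`).  Statement `asm_fund` of the assembly skeleton, verbatim.
-/

set_option autoImplicit false
set_option linter.unusedSectionVars false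
set_option linter.unusedVariables false

open CategoryTheory Module groupCohomology ExtCitation

namespace Fermat.Agent.S55

local notation "GQ" => (AlgebraicClosure ℚ ≃ₐ[ℚ] AlgebraicClosure ℚ)

section Fund

variable {p : ℕ} [Fact p.Prime] (S : Finset Nat.Primes)
  {CC : Type} [AddCommGroup CC] [DistribMulAction GQ CC]

/-- **(T) from (CF)**, with the cocycle and level properties of the generator. -/
theorem h56_T_of_CF' (L_b : h56_Level S) (hb : p ∣ Nat.card (GQ ⧸ L_b.U))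
    (hCF : ∀ L : h56_Level S, L_b ≤ L → IsPClassModule p (GQ ⧸ L.U) (h56_Inv L.U CC)) :
    ∃ t : GQ × GQ → CC, IsCocycle₂ t ∧ IsLevelConstantS₂ S t ∧
      p • t ∈ h56_levelCobS₂ S CC ∧
      (∀ z : GQ × GQ → CC, IsCocycle₂ z → IsLevelConstantS₂ S z →
        p • z ∈ h56_levelCobS₂ S CC → ∃ k : ℕ, z - k • t ∈ h56_levelCobS₂ S CC) ∧
      (∀ k : ℕ, k • t ∈ h56_levelCobS₂ S CC → p ∣ k) := by
  have hp : p.Prime := Fact.out
  obtain ⟨w, hw1, hw2, hw3, hw4⟩ := h56_level_fund S L_b hCF L_b le_rfl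
  have he : 0 < (Nat.card (GQ ⧸ L_b.U)).factorization p :=
    hp.factorization_pos_of_dvd Nat.card_pos.ne' hb
  obtain ⟨e', he'⟩ : ∃ e', (Nat.card (GQ ⧸ L_b.U)).factorization p = e' + 1 :=
    ⟨_, (Nat.succ_pred_eq_of_pos he).symm⟩
  rw [he'] at hw3
  have hu₀1 : p • (p ^ e' • w) ∈ h56_levelCobS₂ S CC := by
    rw [smul_smul, ← pow_succ']
    exact (hw3 _).2 dvd_rfl
  have hu₀2 : p ^ e' • w ∉ h56_levelCobS₂ S CC := by
    intro h
    have := (Nat.pow_dvd_pow_iff_le_right hp.one_lt).1 ((hw3 _).1 h)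
    omega
  have hu₀lev : h56_IsLevel₂ L_b.U (p ^ e' • w) := by
    intro g g' s s' hs hs'
    show p ^ e' • w (g * s, g' * s') = p ^ e' • w (g, g')
    rw [hw2 g g' s s' hs hs']
  refine ⟨p ^ e' • w, h81_isCocycle₂_nsmul _ hw1,
    (h56_isLevelConstantS₂_iff L_b _).2 ⟨L_b, le_rfl, hu₀lev⟩, hu₀1, fun z hz hzlev hpz => ?_,
    fun k hk => ?_⟩
  · obtain ⟨L, hL, hzl⟩ := (h56_isLevelConstantS₂_iff L_b z).1 hzlev
    obtain ⟨wL, hwL1, hwL2, hwL3, hwL4⟩ := h56_level_fund S L_b hCF L hL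
    obtain ⟨k, hk⟩ := hwL4 z hz hzl
    obtain ⟨k₀, hk₀⟩ := hwL4 (p ^ e' • w) (h81_isCocycle₂_nsmul _ hw1)
      (hu₀lev.mono (h56_Level.U_anti hL))
    exact h56_T_arith (h56_levelCobS₂ S CC) hp _ wL (p ^ e' • w) z hwL3 k k₀ hk hk₀ hpz hu₀1 hu₀2
  · rw [smul_smul] at hk
    have h1 := (hw3 _).1 hk
    rw [pow_succ] at h1
    exact (Nat.mul_dvd_mul_iff_left (pow_pos hp.pos e')).1 (by rwa [mul_comm k] at h1)

variable {JJ : ↥S → Type} [∀ q, AddCommGroup (JJ q)] [∀ q, DistribMulAction GQ (JJ q)]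
  {XX : ↥S → Type} [∀ q, AddCommGroup (XX q)]
  [∀ q : ↥S, DistribMulAction (primeLocalGaloisGroup q.1) (XX q)]
  {κ : ∀ q, JJ q →+ CC} {ev : ∀ q, JJ q →+ XX q} {zz : ∀ q, XX q}

/-- **ASM-FUND (F1)**: the `p`-torsion of `H²_S(G_ℚ, CC)` is cyclic of order `p`, generated by
the class of `t` (statement of the assembly skeleton, verbatim). -/
theorem h56_asm_fund (hpS : pPrime p ∈ S) (hA : h72_PTAmbient p S CC JJ XX κ ev zz) :
    ∃ t : GQ × GQ → CC, IsCocycle₂ t ∧ IsLevelConstantS₂ S t ∧ h72_IsCobS₂ S (p • t) ∧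
      (∀ z : GQ × GQ → CC, IsCocycle₂ z → IsLevelConstantS₂ S z → h72_IsCobS₂ S (p • z) →
        ∃ k : ℕ, h72_IsCobS₂ S (z - k • t)) ∧
      (∀ k : ℕ, h72_IsCobS₂ S (k • t) → p ∣ k) := by
  obtain ⟨L_b, -, hb⟩ := h56_exists_level_p_dvd S hpS (Classical.arbitrary (h56_Level S))
  exact h56_T_of_CF' S L_b hb (fun L _ => hA.cc_class (h72_Lev.of56 L))

end Fund

end Fermat.Agent.S55
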