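import Fermat.Agent.S55.h56_AssemblyRK
import Fermat.Agent.S55.h40_InfRes
import Fermat.Agent.S55.h81_E8c
import Fermat.Agent.S55.h83_Kill

/-!
# S55, assembly layer: the fact `(T)` from `(CF)`

`(T)`: the classes of `p`-torsion level `2`-cocycles of `G_ℚ` in the class module `CC` form a
cyclic group of order `p`: there is a level cocycle `u₀` with `p • u₀` a level coboundary, `u₀`
not a level coboundary, and every level cocycle `z` with `p • z` a level coboundary is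
cohomologous (through level cochains) to a multiple of `u₀`.

Input: `(CF)` for all levels above a level `L_b` with `p ∣ [L_b : ℚ]`.
-/

set_option autoImplicit false
set_option linter.unusedSectionVars false
set_option linter.unusedVariables false
set_option maxHeartbeats 400000

open CategoryTheory Module groupCohomology ExtCitation

namespace Fermat.Agent.S55

local notation "GQ" => (AlgebraicClosure ℚ ≃ₐ[ℚ] AlgebraicClosure ℚ)

section Arith

/-- In `A ⧸ B`: if `w` has order exactly `p ^ e`, `z ≡ k • w`, `u₀ ≡ k₀ • w`, `p • z ≡ 0`,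
`p • u₀ ≡ 0` and `u₀ ≢ 0`, then `z` is a multiple of `u₀`. -/
theorem h56_T_arith {A : Type*} [AddCommGroup A] (B : AddSubgroup A) {p : ℕ} (hp : p.Prime)
    (e : ℕ) (w u₀ z : A) (hw : ∀ n : ℕ, n • w ∈ B ↔ p ^ e ∣ n) (k k₀ : ℕ)
    (hz : z - k • w ∈ B) (hu : u₀ - k₀ • w ∈ B) (hpz : p • z ∈ B) (hpu : p • u₀ ∈ B)
    (hu0 : u₀ ∉ B) : ∃ t : ℕ, z - t • u₀ ∈ B := by
  have hmem : ∀ {x : A} (n : ℕ), x - n • w ∈ B → n • w ∈ B → x ∈ B := by
    intro x n h1 h2
    have : x = (x - n • w) + n • w := by abel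
    rw [this]
    exact B.add_mem h1 h2
  have hmul : ∀ {x : A} (n : ℕ), x - n • w ∈ B → p • x ∈ B → (p * n) • w ∈ B := by
    intro x n h1 h2
    have : (p * n) • w = p • x - p • (x - n • w) := by
      rw [smul_sub, mul_smul]
      abel
    rw [this]
    exact B.sub_mem h2 (B.nsmul_mem h1 p)
  obtain _ | e' := e
  · exfalso
    apply hu0
    refine hmem k₀ hu ((hw k₀).2 ?_)
    simp
  have hk : p ^ e' ∣ k := by
    have := (hw _).1 (hmul k hz hpz)
    rw [pow_succ, mul_comm (p ^ e') p] at this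
    exact (Nat.mul_dvd_mul_iff_left hp.pos).1 this
  have hk₀ : p ^ e' ∣ k₀ := by
    have := (hw _).1 (hmul k₀ hu hpu)
    rw [pow_succ, mul_comm (p ^ e') p] at this
    exact (Nat.mul_dvd_mul_iff_left hp.pos).1 this
  have hk₀' : ¬ p ^ (e' + 1) ∣ k₀ := fun h => hu0 (hmem k₀ hu ((hw k₀).2 h))
  obtain ⟨a, rfl⟩ := hk
  obtain ⟨a₀, rfl⟩ := hk₀
  have ha₀ : ¬ p ∣ a₀ := by
    intro h
    apply hk₀'
    rw [pow_succ]
    exact Nat.mul_dvd_mul_left _ h
  have hcop : Nat.Coprime a₀ p := ((Nat.Prime.coprime_iff_not_dvd hp).2 ha₀).symm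
  obtain ⟨m, -, hm⟩ := Nat.exists_mul_mod_eq_one_of_coprime hcop hp.one_lt
  obtain ⟨q, hq⟩ : ∃ q : ℕ, a₀ * m = p * q + 1 := by
    have := Nat.div_add_mod (a₀ * m) p
    rw [hm] at this
    exact ⟨a₀ * m / p, this.symm⟩
  refine ⟨m * a, ?_⟩
  have hkey : (m * a) * (p ^ e' * a₀) = p ^ e' * a + p ^ (e' + 1) * (a * q) := by
    have : (m * a) * (p ^ e' * a₀) = p ^ e' * a * (a₀ * m) := by ring
    rw [this, hq]
    ring
  have hfin : z - (m * a) • u₀ = (z - (p ^ e' * a) • w) - (m * a) • (u₀ - (p ^ e' * a₀) • w)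
      - (p ^ (e' + 1) * (a * q)) • w := by
    rw [smul_sub, smul_smul, hkey, add_smul]
    abel
  rw [hfin]
  exact B.sub_mem (B.sub_mem hz (B.nsmul_mem hu _)) ((hw _).2 (dvd_mul_right _ _))

end Arith

section Fund

variable {p : ℕ} [Fact p.Prime] {Q C : Type*} [Group Q] [AddCommGroup C] [DistribMulAction Q C]

/-- The fundamental class of a `p`-class module, for the whole group. -/
theorem h56_fund_top (hC : IsPClassModule p Q C) :
    ∃ u : Q × Q → C, IsCocycle₂ u ∧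
      (∀ f : Q × Q → C, IsCocycle₂ f → ∃ k : ℕ, IsCoboundary₂ (f - k • u)) ∧
      (∀ k : ℕ, IsCoboundary₂ (k • u) → p ^ ((Nat.card Q).factorization p) ∣ k) := by
  obtain ⟨u, hu, hfund⟩ := hC.fund
  obtain ⟨hA, hB⟩ := hfund ⊤
  refine ⟨u, hu, fun f hf => ?_, fun k hk => ?_⟩
  · obtain ⟨k, x', hx'⟩ := hA (fun x : (⊤ : Subgroup Q) × (⊤ : Subgroup Q) => f ((x.1 : Q), (x.2 : Q)))
      (fun g h j => hf (g : Q) (h : Q) (j : Q))
    exact ⟨k, fun g => x' ⟨g, Subgroup.mem_top g⟩,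
      fun g h => hx' ⟨g, Subgroup.mem_top g⟩ ⟨h, Subgroup.mem_top h⟩⟩
  · obtain ⟨x, hx⟩ := hk
    have := hB k ⟨fun g => x (g : Q), fun g h => hx (g : Q) (h : Q)⟩
    rwa [Subgroup.card_top] at this

/-- The fundamental class has order exactly the `p`-part of `|Q|`. -/
theorem h56_fund_top' [Finite Q] (hC : IsPClassModule p Q C) :
    ∃ u : Q × Q → C, IsCocycle₂ u ∧
      (∀ f : Q × Q → C, IsCocycle₂ f → ∃ k : ℕ, IsCoboundary₂ (f - k • u)) ∧
      (∀ k : ℕ, IsCoboundary₂ (k • u) ↔ p ^ ((Nat.card Q).factorization p) ∣ k) := by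
  have hp : p.Prime := Fact.out
  obtain ⟨u, hu, h1, h2⟩ := h56_fund_top hC
  refine ⟨u, hu, h1, fun k => ⟨h2 k, ?_⟩⟩
  rintro ⟨q, rfl⟩
  have hn : Nat.card Q ≠ 0 := Nat.card_pos.ne'
  have hcop : Nat.Coprime (Nat.card Q / p ^ (Nat.card Q).factorization p) p :=
    (Nat.coprime_ordCompl hp hn).symm
  have hkill : IsCoboundary₂ (Nat.card Q • u) := h83_kill₂ u hu
  have hsplit : Nat.card Q • u =
      (Nat.card Q / p ^ (Nat.card Q).factorization p) • (p ^ (Nat.card Q).factorization p • u) := by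
    rw [smul_smul, mul_comm, Nat.ordProj_mul_ordCompl_eq_self]
  rw [hsplit] at hkill
  have h3 : IsCoboundary₂ (p ^ (Nat.card Q).factorization p • u) :=
    h81_isCoboundary₂_of_nsmul (hC.ploc _ hcop) hkill
  have h4 := h81_isCoboundary₂_nsmul q h3
  rwa [smul_smul, mul_comm] at h4

end Fund

section T

variable {p : ℕ} [Fact p.Prime] (S : Finset Nat.Primes)
  {CC : Type} [AddCommGroup CC] [DistribMulAction GQ CC]

/-- The inflation `w` to `G_ℚ` of the fundamental class of level `L`: modulo level coboundaries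
it has order exactly the `p`-part of `[L : ℚ]`, and every level-`L` cocycle is cohomologous to a
multiple of `w`. -/
theorem h56_level_fund (L₀ : h56_Level S)
    (hCF : ∀ L : h56_Level S, L₀ ≤ L → IsPClassModule p (GQ ⧸ L.U) (h56_Inv L.U CC))
    (L : h56_Level S) (hL : L₀ ≤ L) :
    ∃ w : GQ × GQ → CC, IsCocycle₂ w ∧ h56_IsLevel₂ L.U w ∧
      (∀ n : ℕ, n • w ∈ h56_levelCobS₂ S CC ↔
        p ^ ((Nat.card (GQ ⧸ L.U)).factorization p) ∣ n) ∧
      (∀ z : GQ × GQ → CC, IsCocycle₂ z → h56_IsLevel₂ L.U z →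
        ∃ k : ℕ, z - k • w ∈ h56_levelCobS₂ S CC) := by
  obtain ⟨u, hu, hgen, hord⟩ := h56_fund_top' (hCF L hL)
  refine ⟨h56_infl₂ u, (h56_isCocycle₂_infl₂ u).2 hu, h56_infl₂_isLevel u, fun n => ⟨?_, ?_⟩,
    fun z hz hl => ?_⟩
  · rintro ⟨x, hxlev, hxd⟩
    obtain ⟨L', hLL', hL'⟩ := (h56_isLevelConstantS₁_iff L x).1 hxlev
    have hU : L'.U ≤ L.U := h56_Level.U_anti hLL'
    have h1 : IsCoboundary₂ (n • u) :=
      h40_E8b (h56_quotMap hU) (h56_invIncl hU) (h56_quotMap_surjective hU)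
        (h56_invIncl_injective hU) (fun g a => h56_invIncl_smul hU g a)
        (fun c' hc' => h56_mem_range_invIncl hU c' hc') ((hCF L' (hL.trans hLL')).h1 _)
        (n • u) (h81_isCocycle₂_nsmul n hu)
        ((h56_isCoboundary₂_tower_iff hU (n • u)).2 ⟨x, hL', fun g g' => hxd g g'⟩)
    exact (hord n).1 h1
  · intro h
    obtain ⟨x, hxl, hxd⟩ := (h56_isCoboundary₂_iff (n • u)).1 ((hord n).2 h)
    exact ⟨x, (h56_isLevelConstantS₁_iff L₀ x).2 ⟨L, hL, hxl⟩, fun g g' => hxd g g'⟩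
  · obtain ⟨zbar, hzbar, rfl⟩ := h56_exists_defl₂ z hz hl
    obtain ⟨k, hk⟩ := hgen zbar hzbar
    obtain ⟨x, hxl, hxd⟩ := (h56_isCoboundary₂_iff (zbar - k • u)).1 hk
    exact ⟨k, x, (h56_isLevelConstantS₁_iff L₀ x).2 ⟨L, hL, hxl⟩, fun g g' => hxd g g'⟩

/-- **(T) from (CF)**: above a level `L_b` with `p ∣ [L_b : ℚ]`. -/
theorem h56_T_of_CF (L_b : h56_Level S) (hb : p ∣ Nat.card (GQ ⧸ L_b.U))
    (hCF : ∀ L : h56_Level S, L_b ≤ L → IsPClassModule p (GQ ⧸ L.U) (h56_Inv L.U CC)) :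
    ∃ u₀ : GQ × GQ → CC, p • u₀ ∈ h56_levelCobS₂ S CC ∧ u₀ ∉ h56_levelCobS₂ S CC ∧
      ∀ z : GQ × GQ → CC, IsCocycle₂ z → IsLevelConstantS₂ S z →
        p • z ∈ h56_levelCobS₂ S CC → ∃ k : ℕ, z - k • u₀ ∈ h56_levelCobS₂ S CC := by
  have hp : p.Prime := Fact.out
  obtain ⟨w, hw1, hw2, hw3, hw4⟩ := h56_level_fund S L_b hCF L_b le_rfl
  have he : 0 < (Nat.card (GQ ⧸ L_b.U)).factorization p :=
    hp.factorization_pos_of_dvd Nat.card_pos.ne' hb
  obtain ⟨e', he'⟩ : ∃ e', (Nat.card (GQ ⧸ L_b.U)).factorization p = e' + 1 :=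
    ⟨_, (Nat.succ_pred_eq_of_pos he).symm⟩
  rw [he'] at hw3
  have hu₀1 : p • (p ^ e' • w) ∈ h56_levelCobS₂ S CC := by
    rw [smul_smul, ← pow_succ']
    exact (hw3 _).2 dvd_rfl
  have hu₀2 : p ^ e' • w ∉ h56_levelCobS₂ S CC := by
    intro h
    have := (Nat.pow_dvd_pow_iff_le_right hp.one_lt).1 ((hw3 _).1 h)
    omega
  refine ⟨p ^ e' • w, hu₀1, hu₀2, fun z hz hzlev hpz => ?_⟩
  obtain ⟨L, hL, hzl⟩ := (h56_isLevelConstantS₂_iff L_b z).1 hzlev
  obtain ⟨wL, hwL1, hwL2, hwL3, hwL4⟩ := h56_level_fund S L_b hCF L hL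
  obtain ⟨k, hk⟩ := hwL4 z hz hzl
  have hu₀lev : h56_IsLevel₂ L.U (p ^ e' • w) := by
    intro g g' s s' hs hs'
    show p ^ e' • w (g * s, g' * s') = p ^ e' • w (g, g')
    rw [hw2 g g' s s' (h56_Level.U_anti hL hs) (h56_Level.U_anti hL hs')]
  obtain ⟨k₀, hk₀⟩ := hwL4 (p ^ e' • w) (h81_isCocycle₂_nsmul _ hw1) hu₀lev
  exact h56_T_arith (h56_levelCobS₂ S CC) hp _ wL (p ^ e' • w) z hwL3 k k₀ hk hk₀ hpz hu₀1 hu₀2

/-- The hypothesis `hT3` of `h56_S2_of_facts` from the generation statement of `(T)`. -/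
theorem h56_T3_of_T (M : Rep.{0, 0, 0} (ZMod p) GQ) {H : Type*} [AddCommGroup H]
    (ev : H →+ (M →+ CC)) (hev : ∀ (f : H) (g : GQ) (m : M), ev f (M.ρ g m) = g • ev f m)
    (u₀ : GQ × GQ → CC)
    (hT : ∀ z : GQ × GQ → CC, IsCocycle₂ z → IsLevelConstantS₂ S z →
      p • z ∈ h56_levelCobS₂ S CC → ∃ k : ℕ, z - k • u₀ ∈ h56_levelCobS₂ S CC)
    (f : H) (c : ↥(levelCocyclesS₂ S M)) :
    ∃ k : ℕ, (fun x : GQ × GQ => ev f ((c : GQ × GQ → M) x) - k • u₀ x) ∈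
      h56_levelCobS₂ S CC := by
  obtain ⟨hc1, hc2⟩ := (mem_levelCocyclesS₂_iff S M c.1).1 c.2
  have hz : IsCocycle₂ (fun x : GQ × GQ => ev f ((c : GQ × GQ → M) x)) := by
    intro g h j
    have h1 := (mem_cocycles₂_iff c.1).1 hc1 g h j
    show ev f (c.1 (g * h, j)) + ev f (c.1 (g, h)) = g • ev f (c.1 (h, j)) + ev f (c.1 (g, h * j))
    rw [← hev, ← map_add, ← map_add, h1]
  have hpz : p • (fun x : GQ × GQ => ev f ((c : GQ × GQ → M) x)) ∈ h56_levelCobS₂ S CC := by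
    have : p • (fun x : GQ × GQ => ev f ((c : GQ × GQ → M) x)) = 0 := by
      funext x
      show p • ev f (c.1 x) = 0
      rw [← map_nsmul, ← Nat.cast_smul_eq_nsmul (ZMod p), ZMod.natCast_self, zero_smul, map_zero]
    rw [this]
    exact (h56_levelCobS₂ S CC).zero_mem
  obtain ⟨k, hk⟩ := hT _ hz (hc2.comp (ev f)) hpz
  exact ⟨k, hk⟩

end T

section BaseLevel

variable {p : ℕ} [Fact p.Prime] (S : Finset Nat.Primes)

/-- Above every level there is a level whose degree over `ℚ` is divisible by `p` (it contains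
the `p²`-th roots of unity; `p ∈ S`). -/
theorem h56_exists_level_p_dvd (hpS : pPrime p ∈ S) (L₀ : h56_Level S) :
    ∃ L : h56_Level S, L₀ ≤ L ∧ p ∣ Nat.card (GQ ⧸ L.U) := by
  have hp : p.Prime := Fact.out
  have hgal : IsGalois ℚ (AlgebraicClosure ℚ) := Fermat.Agent.S13.h24_isGalois_Qbar
  have hne : NeZero (p ^ 2) := ⟨pow_ne_zero 2 hp.ne_zero⟩
  have hne' : NeZero ((p ^ 2 : ℕ) : AlgebraicClosure ℚ) := ⟨by exact_mod_cast pow_ne_zero 2 hp.ne_zero⟩
  obtain ⟨ζ, hζ⟩ := HasEnoughRootsOfUnity.exists_primitiveRoot (AlgebraicClosure ℚ) (p ^ 2)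
  have hprimes : ∀ q : Nat.Primes, (q : ℕ) ∣ p ^ 2 → q ∈ S := by
    intro q hq
    have h1 : (q : ℕ) ∣ p := q.2.dvd_of_dvd_pow hq
    have h2 : (q : ℕ) = p := (Nat.prime_dvd_prime_iff_eq q.2 hp).1 h1
    have h3 : q = pPrime p := Subtype.ext h2
    rw [h3]
    exact hpS
  have hF := h56_isUnramifiedOutside_adjoin_root_of_unity S (p ^ 2) (pow_ne_zero 2 hp.ne_zero)
    hprimes ⊥ (IntermediateField.isUnramifiedOutside_bot S) ζ hζ.pow_eq_one
  rw [bot_sup_eq] at hF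
  obtain ⟨L, hL₀, hFL⟩ := L₀.exists_ge _ hF
  refine ⟨L, hL₀, ?_⟩
  have hcyc : IsCyclotomicExtension {p ^ 2} ℚ (IntermediateField.adjoin ℚ {ζ}) :=
    hζ.intermediateField_adjoin_isCyclotomicExtension ℚ
  have h1 : Module.finrank ℚ (IntermediateField.adjoin ℚ {ζ}) = (p ^ 2).totient :=
    IsCyclotomicExtension.finrank (IntermediateField.adjoin ℚ {ζ})
      (Polynomial.cyclotomic.irreducible_rat (pow_pos hp.pos 2))
  have h2 : (IntermediateField.adjoin ℚ {ζ}).fixingSubgroup.index = (p ^ 2).totient := by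
    rw [← IntermediateField.finrank_eq_fixingSubgroup_index, h1]
  have h3 : (IntermediateField.adjoin ℚ {ζ}).fixingSubgroup.index ∣ L.U.index :=
    Subgroup.index_dvd_of_le (IntermediateField.fixingSubgroup_antitone hFL)
  have h4 : p ∣ (p ^ 2).totient := by
    rw [Nat.totient_prime_pow hp (by norm_num : 0 < 2)]
    exact dvd_mul_of_dvd_left (dvd_pow_self p (by norm_num)) _
  rw [h2] at h3
  exact h4.trans h3

end BaseLevel

end Fermat.Agent.S55
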