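import Fermat.Agent.S55.h56_UnormLevel
import Fermat.Agent.S55.h81_GlobDescX
import Fermat.Agent.S55.h66_GlobFunc3

/-!
# S55 / GLOB-UNORM (R3): assembly in the carrier

* `h56_unorm_type` : number fields as types, `E/K` Galois.  If the norm of every element of
  `V_split(E)` is a `p`-th power in `K`, then the norm of every `p`-torsion class of `C_E` is the
  extension of a class `[(φ, 1)]`, `φ ∈ J_K[p]`.
-/

set_option autoImplicit false
set_option linter.style.haveILetI false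

namespace Fermat.Agent.S55

open NumberField IsDedekindDomain

local notation "Qb" => AlgebraicClosure ℚ

section TypeWorld

variable (K E : Type*) [Field K] [NumberField K] [Field E] [NumberField E] [Algebra K E]
  [IsGalois K E] (S : Finset Nat.Primes) (p : ℕ)

/-- **GLOB-UNORM in the carrier, number fields as types.** -/
theorem h56_unorm_type (hp : 0 < p)
    (hN : ∀ a : Eˣ, a ∈ h33_Vsplit (h33_dJ E S) (h33_dI E S) p →
      ∃ b : K, Algebra.norm K (a : E) = b ^ p)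
    (c' : h25_C E S) (hc' : c' ^ p = 1) :
    ∃ φ : h25_J K S, φ ^ p = 1 ∧
      ∏ σ : E ≃ₐ[K] E, h25_Cmap S ((σ : E ≃ₐ[K] E) : E →+* E) c' =
        h25_Cmap S (algebraMap K E) (h25_mk K S (φ, 1)) := by
  classical
  obtain ⟨x, rfl⟩ := h25_mk_surjective E S c'
  have h1 : x ^ p ∈ (h25_diag E S).range := by
    rw [← h25_mk_eq_one_iff, map_pow]
    exact hc'
  obtain ⟨a, ha⟩ := h1
  have haV : a ∈ h33_Vsplit (h33_dJ E S) (h33_dI E S) p :=
    h33_kumseq_mem_Vsplit _ _ p x a (by rw [h33_diag_eq]; exact ha.symm)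
  obtain ⟨b, hb⟩ := hN a haV
  have hb0 : b ≠ 0 := by
    rintro rfl
    rw [zero_pow hp.ne', Algebra.norm_eq_zero_iff] at hb
    exact a.ne_zero hb
  set b' : Kˣ := Units.mk0 b hb0 with hb'
  set eb : Eˣ := Units.map (algebraMap K E : K →* E) b' with heb
  set N : h25_X E S := ∏ σ : E ≃ₐ[K] E, h25_Xmap S ((σ : E ≃ₐ[K] E) : E →+* E) x with hNdef
  -- the norm of `a`
  have hprod : ∏ σ : E ≃ₐ[K] E, Units.map (((σ : E ≃ₐ[K] E) : E →+* E) : E →* E) a = eb ^ p := by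
    apply Units.ext
    rw [Units.coe_prod, Units.val_pow_eq_pow_val]
    have h2 := Algebra.norm_eq_prod_automorphisms K (a : E)
    rw [hb, map_pow] at h2
    rw [heb, Units.coe_map, hb', Units.val_mk0]
    rw [show (algebraMap K E : K →* E) b = algebraMap K E b from rfl, h2]
    rfl
  have hNp : N ^ p = h25_diag E S (eb ^ p) := by
    rw [hNdef, ← Finset.prod_pow]
    rw [← hprod, map_prod]
    refine Finset.prod_congr rfl (fun σ _ => ?_)
    rw [← map_pow, ← ha, h66_Xmap_diag]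
  obtain ⟨j', hj'p, hj'⟩ := h33_kumseq_of_pow (h33_dJ E S) (h33_dI E S) p
    (h33_Div_pow_eq_one E S p hp) N eb (by rw [h33_diag_eq]; exact hNp)
  rw [h33_diag_eq] at hj'
  -- invariance of `j'`
  have hNfix : ∀ τ : E ≃ₐ[K] E, h25_Xmap S ((τ : E ≃ₐ[K] E) : E →+* E) N = N := by
    intro τ
    rw [hNdef, map_prod]
    rw [← Equiv.prod_comp (Equiv.mulLeft τ)
      (fun σ : E ≃ₐ[K] E => h25_Xmap S ((σ : E ≃ₐ[K] E) : E →+* E) x)]
    refine Finset.prod_congr rfl (fun σ _ => ?_)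
    rw [← h66_Xmap_comp_apply]
    rfl
  have hebfix : ∀ τ : E ≃ₐ[K] E,
      h25_Xmap S ((τ : E ≃ₐ[K] E) : E →+* E) (h25_diag E S eb) = h25_diag E S eb := by
    intro τ
    rw [h66_Xmap_diag]
    congr 1
    apply Units.ext
    rw [Units.coe_map, heb, Units.coe_map]
    exact τ.commutes _
  have hfix : ∀ τ : E ≃ₐ[K] E, h25_Jmap S ((τ : E ≃ₐ[K] E) : E →+* E) j' = j' := by
    intro τ
    have h2 : ((j', 1) : h25_X E S) = (h25_diag E S eb)⁻¹ * N := by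
      rw [hj', inv_mul_cancel_left]
    have h3 : h25_Xmap S ((τ : E ≃ₐ[K] E) : E →+* E) ((j', 1) : h25_X E S) = (j', 1) := by
      rw [h2, map_mul, map_inv, hNfix, hebfix]
    exact congrArg Prod.fst h3
  obtain ⟨φ, hφ⟩ := h81_Jdesc K E S j' hfix
  refine ⟨φ, h81_Jmap_injective K E S (by rw [map_pow, hφ, hj'p, map_one]), ?_⟩
  have hL : ∏ σ : E ≃ₐ[K] E, h25_Cmap S ((σ : E ≃ₐ[K] E) : E →+* E) (h25_mk E S x) =
      h25_mk E S N := by
    rw [hNdef, map_prod]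
    exact Finset.prod_congr rfl (fun σ _ => h66_Cmap_mk S _ x)
  rw [hL, h66_Cmap_mk, hj', map_mul, h25_mk_diag, one_mul]
  congr 1
  refine Prod.ext hφ.symm ?_
  show (1 : Multiplicative (h25_Div E S)) =
    (AddMonoidHom.toMultiplicative (h25_Dmap S (algebraMap K E))) 1
  rw [map_one]

end TypeWorld

section LevelWorld

variable (S : Finset Nat.Primes) (p : ℕ)

/-- The primes above `S` are finite in number. -/
theorem h56_above_finite (K : Type*) [Field K] [NumberField K] :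
    {w : HeightOneSpectrum (𝓞 K) | h25_above K S w}.Finite := by
  have h1 : {w : HeightOneSpectrum (𝓞 K) | h25_above K S w} ⊆
      ⋃ q ∈ (S : Set Nat.Primes),
        {w : HeightOneSpectrum (𝓞 K) | (((q : Nat.Primes) : ℕ) : 𝓞 K) ∈ w.asIdeal} := by
    rintro w ⟨q, hq, hw⟩
    exact Set.mem_biUnion (Finset.mem_coe.2 hq) hw
  refine (Set.Finite.biUnion S.finite_toSet (fun q _ => ?_)).subset h1
  have h0 : Ideal.span {(((q : Nat.Primes) : ℕ) : 𝓞 K)} ≠ 0 := by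
    rw [Ne, Ideal.zero_eq_bot, Ideal.span_singleton_eq_bot]
    exact Nat.cast_ne_zero.mpr q.2.ne_zero
  refine (Ideal.finite_factors h0).subset ?_
  intro w hw
  exact Ideal.dvd_span_singleton.mpr hw

/-- The level norm `h33_relNorm` is the product over `Gal(L'/L)` (inclusion algebra). -/
theorem h56_relNorm_eq_prod {L L' : IntermediateField ℚ Qb} [NumberField ↥L] [NumberField ↥L']
    (h : L ≤ L') (c' : h25_C ↥L' S) :
    letI : Algebra ↥L ↥L' := (IntermediateField.inclusion h).toRingHom.toAlgebra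
    h33_relNorm S L L' c' =
      ∏ᶠ σ : ↥L' ≃ₐ[↥L] ↥L', h25_Cmap S ((σ : ↥L' ≃ₐ[↥L] ↥L') : ↥L' →+* ↥L') c' := by
  letI : Algebra ↥L ↥L' := (IntermediateField.inclusion h).toRingHom.toAlgebra
  haveI : IsScalarTower ℚ ↥L ↥L' :=
    IsScalarTower.of_algebraMap_eq (fun x => ((IntermediateField.inclusion h).commutes x).symm)
  rw [h33_relNorm_apply]
  have hmem : ∀ σ : ↥L' ≃ₐ[↥L] ↥L', (σ.restrictScalars ℚ : ↥L' ≃ₐ[ℚ] ↥L') ∈ h33_relGal L L' := by
    intro σ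
    rw [h33_mem_relGal]
    intro x hx
    have h1 := σ.commutes ⟨(x : Qb), hx⟩
    have hx' : algebraMap ↥L ↥L' ⟨(x : Qb), hx⟩ = x := by
      apply Subtype.ext
      rfl
    rw [hx'] at h1
    show σ x = x
    exact h1
  symm
  refine finprod_eq_of_bijective (fun σ : ↥L' ≃ₐ[↥L] ↥L' =>
    (⟨σ.restrictScalars ℚ, hmem σ⟩ : h33_relGal L L')) ⟨?_, ?_⟩ (fun σ => ?_)
  · intro σ τ hστ
    have h1 : (σ.restrictScalars ℚ : ↥L' ≃ₐ[ℚ] ↥L') = τ.restrictScalars ℚ :=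
      congrArg Subtype.val hστ
    ext x
    exact congrArg (fun f : ↥L' ≃ₐ[ℚ] ↥L' => (f x : Qb)) h1
  · rintro ⟨s, hs⟩
    rw [h33_mem_relGal] at hs
    refine ⟨AlgEquiv.ofRingEquiv (f := (s : ↥L' ≃+* ↥L')) (fun r => ?_), ?_⟩
    · exact hs (algebraMap ↥L ↥L' r) r.2
    · apply Subtype.ext
      ext x
      rfl
  · rfl

/-- **GLOB-UNORM at a level containing `ζ_p`**, in the carrier, from reciprocity (R1). -/
theorem h56_unorm_zeta_of (hp : p.Prime) (hpS : ∀ q : Nat.Primes, (q : ℕ) ∣ p → q ∈ S)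
    (hrec : h56_HypRecip S p) (L : IntermediateField ℚ Qb) [NumberField ↥L]
    (hL : h25_IsLevel S L) (ζ : ↥L) (hζ : IsPrimitiveRoot ζ p) :
    ∃ (L' : IntermediateField ℚ Qb) (_ : NumberField ↥L') (h : L ≤ L'), h25_IsLevel S L' ∧
      ∀ c' : h25_C ↥L' S, c' ^ p = 1 → ∃ φ : h25_J ↥L S, φ ^ p = 1 ∧
        h33_relNorm S L L' c' = h33_ext S h (h25_mk ↥L S (φ, 1)) := by
  classical
  obtain ⟨k, m, U, hm, hU0, hUJ, hdata⟩ := h38_capit_data ↥L hp
  obtain ⟨L', hLL', hL', hroots⟩ := h56_exists_root_level S (p ^ k) (pow_ne_zero k hp.ne_zero)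
    (fun q hq => hpS q ((Nat.Prime.dvd_of_dvd_pow q.2 hq))) L hL U hU0 hUJ
  haveI : NumberField ↥L' := h33_level_numberField hL'
  refine ⟨L', inferInstance, hLL', hL', fun c' hc' => ?_⟩
  letI : Algebra ↥L ↥L' := (IntermediateField.inclusion hLL').toRingHom.toAlgebra
  haveI : IsScalarTower ℚ ↥L ↥L' :=
    IsScalarTower.of_algebraMap_eq (fun x => ((IntermediateField.inclusion hLL').commutes x).symm)
  haveI : IsGalois ℚ ↥L' := hL'.2
  haveI : IsGalois ↥L ↥L' := IsGalois.tower_top_of_isGalois ℚ ↥L ↥L'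
  -- `ζ` is an integer
  have hζint : IsIntegral ℤ ζ := hζ.isIntegral hp.pos
  set ζ₀ : 𝓞 ↥L := ⟨ζ, hζint⟩ with hζ₀def
  have hζ₀ : IsPrimitiveRoot ζ₀ p := by
    have hinj : Function.Injective (algebraMap (𝓞 ↥L) ↥L) := RingOfIntegers.coe_injective
    exact IsPrimitiveRoot.of_map_of_injective (f := algebraMap (𝓞 ↥L) ↥L) (k := p) hζ hinj
  have hroot : ∀ u ∈ U, ∃ β : ↥L', β ^ (p ^ k) = algebraMap ↥L ↥L' (u : ↥L) := by
    intro u hu
    obtain ⟨β, hβ, hβn⟩ := hroots u hu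
    exact ⟨⟨β, hβ⟩, Subtype.ext hβn⟩
  have hN : ∀ a : (↥L')ˣ, a ∈ h33_Vsplit (h33_dJ ↥L' S) (h33_dI ↥L' S) p →
      ∃ b : ↥L, Algebra.norm ↥L (a : ↥L') = b ^ p := by
    intro a ha
    obtain ⟨r, s, hs, hrs⟩ := IsFractionRing.div_surjective (A := 𝓞 ↥L') (a : ↥L')
    have hs0 : s ≠ 0 := nonZeroDivisors.ne_zero hs
    have hsL : ((s : 𝓞 ↥L') : ↥L') ≠ 0 := by
      intro h0
      exact hs0 (RingOfIntegers.coe_injective (h0.trans (map_zero _).symm))
    have hr0 : r ≠ 0 := by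
      rintro rfl
      rw [map_zero, zero_div] at hrs
      exact a.ne_zero hrs.symm
    set x : 𝓞 ↥L' := r * s ^ (p - 1) with hxdef
    have hx0 : x ≠ 0 := mul_ne_zero hr0 (pow_ne_zero _ hs0)
    have hxa : ((x : 𝓞 ↥L') : ↥L') = (a : ↥L') * ((s : 𝓞 ↥L') : ↥L') ^ p := by
      have hra : ((r : 𝓞 ↥L') : ↥L') = (a : ↥L') * ((s : 𝓞 ↥L') : ↥L') := by
        rw [← hrs]
        exact (div_mul_cancel₀ _ hsL).symm
      have hpp : p = (p - 1) + 1 := (Nat.sub_add_cancel hp.pos).symm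
      have hcoe : (((r * s ^ (p - 1) : 𝓞 ↥L')) : ↥L') =
          ((r : 𝓞 ↥L') : ↥L') * ((s : 𝓞 ↥L') : ↥L') ^ (p - 1) := by
        push_cast
        rfl
      rw [hxdef, hcoe, hra]
      conv_rhs => rw [hpp, pow_succ]
      ring
    have hxV : ∃ a' ∈ h33_Vsplit (h33_dJ ↥L' S) (h33_dI ↥L' S) p,
        ((a' : (↥L')ˣ) : ↥L') = (x : ↥L') := by
      refine ⟨a * (Units.mk0 _ hsL) ^ p, Subgroup.mul_mem _ ha
        (h33_pow_le_Vsplit _ _ p ⟨Units.mk0 _ hsL, rfl⟩), ?_⟩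
      rw [hxa]
      rfl
    have hζ' : IsPrimitiveRoot (algebraMap (𝓞 ↥L) (𝓞 ↥L') ζ₀) p :=
      hζ₀.map_of_injective (FaithfulSMul.algebraMap_injective (𝓞 ↥L) (𝓞 ↥L'))
    obtain ⟨b₀, hb₀⟩ := h38_unorm_of_roots hp hζ₀ k m hm U hU0 hdata hroot
      {w | h25_above ↥L' S w} (h56_above_finite S ↥L') x hx0
      (hrec L' hL' (algebraMap (𝓞 ↥L) (𝓞 ↥L') ζ₀) hζ' x hx0 hxV)
    have hns : Algebra.norm ↥L ((s : 𝓞 ↥L') : ↥L') ≠ 0 := by
      rw [Ne, Algebra.norm_eq_zero_iff]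
      exact hsL
    refine ⟨b₀ / Algebra.norm ↥L ((s : 𝓞 ↥L') : ↥L'), ?_⟩
    rw [div_pow, ← hb₀, hxa, map_mul, map_pow, mul_div_cancel_right₀ _ (pow_ne_zero p hns)]
  obtain ⟨φ, hφp, hφ⟩ := h56_unorm_type ↥L ↥L' S p hp.pos hN c' hc'
  refine ⟨φ, hφp, ?_⟩
  have h1 := h56_relNorm_eq_prod S hLL' c'
  rw [h1, finprod_eq_prod_of_fintype]
  exact hφ

end LevelWorld

end Fermat.Agent.S55
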