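import Fermat.Agent.S55.h56_UnormDefs
import Fermat.Agent.S55.h37_DictVal
import Fermat.Agent.S55.h85_Unram
import Fermat.Agent.S55.h56_Levels

/-!
# S55 / GLOB-UNORM (R2): the capitulation level

* `h56_val_of_span_pow` : if `(u) = J ^ n` in `𝓞 L` then at every valuation subring `A` of
  `Qbar` (above a rational prime) the valuation of `u` is the `n`-th power of the valuation of
  an element of `L`;
* `h56_exists_root_level` : for a level `L` and finitely many such `u`, there is a level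
  `L' ⊇ L` containing an `n`-th root of every `u` (`n` with all prime factors in `S`).
-/

set_option autoImplicit false

namespace Fermat.Agent.S55

open NumberField IsDedekindDomain

local notation "Qb" => AlgebraicClosure ℚ

/-- If `(u) = J ^ n` in `𝓞 L`, then the valuation of `u` at any valuation subring of `Qbar`
above a rational prime is an `n`-th power of the valuation of an element of `L`. -/
theorem h56_val_of_span_pow (L : IntermediateField ℚ Qb) [NumberField ↥L] (n : ℕ) (hn : n ≠ 0)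
    (u : 𝓞 ↥L) (hu : u ≠ 0) (J : Ideal (𝓞 ↥L)) (hJ : Ideal.span {u} = J ^ n)
    (q : ℕ) (hq : q ≠ 0) (A : ValuationSubring Qb) (hA : A.LiesOverPrime q) :
    ∃ b ∈ L, A.valuation (((u : ↥L) : Qb)) = A.valuation b ^ n := by
  obtain ⟨P, hP⟩ := h46_exists_centre L A q hq hA
  have hJ0 : J ≠ 0 := by
    rintro rfl
    rw [zero_pow hn, Ideal.zero_eq_bot, Ideal.span_singleton_eq_bot] at hJ
    exact hu hJ
  have hval : P.valuation ↥L ((u : 𝓞 ↥L) : ↥L) =
      WithZero.exp (-((n * h92_cnt ↥L P J : ℕ) : ℤ)) := by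
    have h1 : P.valuation ↥L ((u : 𝓞 ↥L) : ↥L) = P.intValuation u :=
      P.valuation_of_algebraMap u
    rw [h1, h92_intValuation_eq_cnt P hu, hJ, h38_cnt_pow P hJ0 n]
  obtain ⟨π, hπ⟩ := P.valuation_exists_uniformizer ↥L
  set b : ↥L := π ^ (h92_cnt ↥L P J) with hb
  have h1 : P.valuation ↥L (((u : 𝓞 ↥L) : ↥L) * (b ^ n)⁻¹) = 1 := by
    rw [map_mul, map_inv₀, map_pow, hb, map_pow, hπ, hval, ← WithZero.exp_nsmul,
      ← WithZero.exp_nsmul, ← WithZero.exp_neg, ← WithZero.exp_add]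
    simp
  have h2 := h46_valuation_eq_one hP _ h1
  refine ⟨(b : Qb), b.2, ?_⟩
  have h3 : ((((u : 𝓞 ↥L) : ↥L) * (b ^ n)⁻¹ : ↥L) : Qb) =
      (((u : 𝓞 ↥L) : ↥L) : Qb) * (((b : ↥L) : Qb) ^ n)⁻¹ := by
    push_cast
    rfl
  rw [h3, map_mul, map_inv₀, map_pow] at h2
  exact eq_of_mul_inv_eq_one h2

/-- **The capitulation level.**  For a level `L`, an exponent `n` with all prime factors in `S`
and finitely many nonzero `u ∈ 𝓞 L` generating `n`-th powers of ideals, there is a level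
`L' ⊇ L` containing an `n`-th root of every `u`. -/
theorem h56_exists_root_level (S : Finset Nat.Primes) (n : ℕ) (hn0 : n ≠ 0)
    (hn : ∀ q : Nat.Primes, (q : ℕ) ∣ n → q ∈ S)
    (L : IntermediateField ℚ Qb) [NumberField ↥L] (hL : h25_IsLevel S L)
    (U : Finset (𝓞 ↥L)) (hU0 : ∀ u ∈ U, u ≠ 0)
    (hU : ∀ u ∈ U, ∃ J : Ideal (𝓞 ↥L), Ideal.span {u} = J ^ n) :
    ∃ L' : IntermediateField ℚ Qb, L ≤ L' ∧ h25_IsLevel S L' ∧
      ∀ u ∈ U, ∃ β : Qb, β ∈ L' ∧ β ^ n = (((u : ↥L) : Qb)) := by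
  classical
  induction U using Finset.induction_on with
  | empty => exact ⟨L, le_rfl, hL, fun u hu => absurd hu (Finset.notMem_empty u)⟩
  | insert u U _ ih =>
    obtain ⟨L₁, hLL₁, hL₁, hroots⟩ := ih (fun v hv => hU0 v (Finset.mem_insert_of_mem hv))
      (fun v hv => hU v (Finset.mem_insert_of_mem hv))
    obtain ⟨J, hJ⟩ := hU u (Finset.mem_insert_self u U)
    have hu0 : u ≠ 0 := hU0 u (Finset.mem_insert_self u U)
    obtain ⟨β, hβ⟩ := IsAlgClosed.exists_pow_nat_eq (((u : ↥L) : Qb)) (Nat.pos_of_ne_zero hn0)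
    have hβL₁ : β ^ n ∈ L₁ := by
      rw [hβ]
      exact hLL₁ (u : ↥L).2
    have hF : (L₁ ⊔ IntermediateField.adjoin ℚ {β}).IsUnramifiedOutside S := by
      refine h85_unram_kummer S L₁ hL₁.1 hn β hβL₁ (fun q _ A hA => ?_)
      obtain ⟨b, hb, hbv⟩ := h56_val_of_span_pow L n hn0 u hu0 J hJ (q : ℕ) q.2.ne_zero A hA
      exact ⟨b, hLL₁ hb, by rw [hβ]; exact hbv⟩
    obtain ⟨F', hFF', hF'u, hF'g⟩ := h56_exists_galois_level S _ hF
    refine ⟨F', hLL₁.trans (le_sup_left.trans hFF'), ⟨hF'u, hF'g⟩, fun v hv => ?_⟩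
    rcases Finset.mem_insert.1 hv with rfl | hv
    · exact ⟨β, hFF' (le_sup_right (a := L₁)
        (IntermediateField.subset_adjoin ℚ {β} (Set.mem_singleton β))), hβ⟩
    · obtain ⟨β', hβ', hβ'n⟩ := hroots v hv
      exact ⟨β', hFF' (le_sup_left (b := IntermediateField.adjoin ℚ {β}) hβ'), hβ'n⟩

end Fermat.Agent.S55
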