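import Mathlib

set_option autoImplicit false

/-!
# Multiplicativity of the Herbrand quotient, in index form (S55, no-regret block)

`E` is an additive commutative group with two endomorphisms `f`, `g` such that `f ∘ g = 0` and
`g ∘ f = 0` (for a cyclic group `⟨σ⟩` of order `n` acting on `E`: `f = σ - 1`, `g = N`).
We write

* `a(E) = [ker f : g E]`  (`= |Ĥ⁰|`), `b(E) = [ker g : f E]`  (`= |Ĥ⁻¹|`),
* for a subgroup `A` stable under `f` and `g`:
  `a(A) = [A ∩ ker f : g A]`, `b(A) = [A ∩ ker g : f A]`,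
* for the quotient `E / A` (without forming it):
  `a(E/A) = [f⁻¹ A : g E + A]`, `b(E/A) = [g⁻¹ A : f E + A]`.

All indices are `AddSubgroup.relIndex` (natural numbers, `0` meaning infinite).  The main result
`h57_herbrand_mul` is the unconditional identity
`a(E) * (b(A) * b(E/A)) = b(E) * (a(A) * a(E/A))`.
It follows from `a(E) * c = a(A) * a(E/A)` and `b(E) * c = b(A) * b(E/A)` with the *same*
correction factor `c = [g E ∩ A : g A] * [f E ∩ A : f A]`.
-/

namespace Fermat.Agent.S55

open AddSubgroup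

variable {E : Type*} [AddCommGroup E]

/-- `a(E) * ([gE ∩ A : gA] * [fE ∩ A : fA]) = a(A) * a(E/A)`. -/
theorem h57_herbrand_half (f g : E →+ E) (hfg : ∀ x, f (g x) = 0)
    (A : AddSubgroup E) (hfA : ∀ x ∈ A, f x ∈ A) (hgA : ∀ x ∈ A, g x ∈ A) :
    g.range.relIndex f.ker *
        ((A.map g).relIndex (g.range ⊓ A) * (A.map f).relIndex (f.range ⊓ A))
      = (A.map g).relIndex (A ⊓ f.ker) * (g.range ⊔ A).relIndex (A.comap f) := by
  have gE_le : g.range ≤ f.ker := by
    rintro _ ⟨x, rfl⟩
    exact hfg x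
  have gA_le_gE : A.map g ≤ g.range := by
    rintro _ ⟨x, _, rfl⟩
    exact ⟨x, rfl⟩
  have gA_le_A : A.map g ≤ A := by
    rintro _ ⟨x, hx, rfl⟩
    exact hgA x hx
  have A_le_comap : A ≤ A.comap f := fun x hx => hfA x hx
  have ker_le_comap : f.ker ≤ A.comap f := by
    intro x hx
    rw [AddSubgroup.mem_comap, AddMonoidHom.mem_ker.mp hx]
    exact A.zero_mem
  -- `Y = [ker f : gE + (A ∩ ker f)] = [ker f + A : gE + A]`
  -- `Z = [A ∩ ker f : gE ∩ A]`
  -- (1) `a(E) = Y * Z`
  have h1 : g.range.relIndex f.ker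
      = g.range.relIndex (A ⊓ f.ker) * (g.range ⊔ A ⊓ f.ker).relIndex f.ker := by
    have hchain := relIndex_mul_relIndex g.range (g.range ⊔ A ⊓ f.ker) f.ker le_sup_left
      (sup_le gE_le inf_le_right)
    rw [← hchain]
    congr 1
    rw [sup_comm]
    exact relIndex_sup_right (A ⊓ f.ker) g.range
  -- (2) `a(A) = c_g * Z`
  have h2 : (A.map g).relIndex (A ⊓ f.ker)
      = (A.map g).relIndex (g.range ⊓ A) * g.range.relIndex (A ⊓ f.ker) := by
    have hchain := relIndex_mul_relIndex (A.map g) (g.range ⊓ A) (A ⊓ f.ker)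
      (le_inf gA_le_gE gA_le_A) (le_inf inf_le_right (inf_le_left.trans gE_le))
    rw [← hchain]
    congr 1
    have : g.range ⊓ A ⊓ (A ⊓ f.ker) = g.range ⊓ (A ⊓ f.ker) := by
      apply le_antisymm
      · exact le_inf (inf_le_left.trans inf_le_left) inf_le_right
      · exact le_inf (le_inf inf_le_left (inf_le_right.trans inf_le_left)) inf_le_right
    rw [← inf_relIndex_right (g.range ⊓ A) (A ⊓ f.ker), this, inf_relIndex_right]
  -- (3) `[ker f + A : gE + A] = Y`
  have h3 : (g.range ⊔ A).relIndex (f.ker ⊔ A) = (g.range ⊔ A ⊓ f.ker).relIndex f.ker := by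
    have e1 : f.ker ⊔ (g.range ⊔ A) = f.ker ⊔ A := by
      rw [← sup_assoc, sup_eq_left.mpr gE_le]
    have e2 : (g.range ⊔ A) ⊓ f.ker = g.range ⊔ A ⊓ f.ker := sup_inf_assoc_of_le A gE_le
    rw [← e1, relIndex_sup_right f.ker (g.range ⊔ A), ← inf_relIndex_right, e2]
  -- (4) `a(E/A) = c_f * [ker f + A : gE + A]`
  have h4 : (g.range ⊔ A).relIndex (A.comap f)
      = (g.range ⊔ A).relIndex (f.ker ⊔ A) * (A.map f).relIndex (f.range ⊓ A) := by
    have hchain := relIndex_mul_relIndex (g.range ⊔ A) (f.ker ⊔ A) (A.comap f)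
      (sup_le_sup_right gE_le A) (sup_le ker_le_comap A_le_comap)
    rw [← hchain]
    congr 1
    have := relIndex_comap (A.map f) f (A.comap f)
    rw [comap_map_eq, map_comap_eq, sup_comm] at this
    exact this
  rw [h1, h2, h4, h3]
  ring

/-- **Multiplicativity of the Herbrand quotient** (index form, unconditional):
`a(E) * (b(A) * b(E/A)) = b(E) * (a(A) * a(E/A))`. -/
theorem h57_herbrand_mul (f g : E →+ E) (hfg : ∀ x, f (g x) = 0) (hgf : ∀ x, g (f x) = 0)
    (A : AddSubgroup E) (hfA : ∀ x ∈ A, f x ∈ A) (hgA : ∀ x ∈ A, g x ∈ A) :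
    g.range.relIndex f.ker *
        ((A.map f).relIndex (A ⊓ g.ker) * (f.range ⊔ A).relIndex (A.comap g))
      = f.range.relIndex g.ker *
        ((A.map g).relIndex (A ⊓ f.ker) * (g.range ⊔ A).relIndex (A.comap f)) := by
  have ha := h57_herbrand_half f g hfg A hfA hgA
  have hb := h57_herbrand_half g f hgf A hgA hfA
  rw [← ha, ← hb]
  ring

/-! ### Restriction to a stable subgroup and passage to the quotient -/

/-- Restriction of an endomorphism to a stable subgroup. -/
def h57_res (f : E →+ E) (A : AddSubgroup E) (hfA : ∀ x ∈ A, f x ∈ A) : A →+ A :=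
  (f.comp A.subtype).codRestrict A (fun x => hfA x x.2)

@[simp]
theorem h57_res_coe (f : E →+ E) (A : AddSubgroup E) (hfA : ∀ x ∈ A, f x ∈ A) (x : A) :
    ((h57_res f A hfA x : A) : E) = f x := rfl

/-- The Herbrand index `a(A) = [A ∩ ker f : g A]` of a stable subgroup is the intrinsic one of
the restricted endomorphisms. -/
theorem h57_herbrand_restrict (f g : E →+ E) (A : AddSubgroup E)
    (hfA : ∀ x ∈ A, f x ∈ A) (hgA : ∀ x ∈ A, g x ∈ A) :
    (h57_res g A hgA).range.relIndex (h57_res f A hfA).ker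
      = (A.map g).relIndex (A ⊓ f.ker) := by
  rw [← relIndex_map_map_of_injective (f := A.subtype) _ _ A.subtype_injective]
  congr 1
  · ext x
    constructor
    · rintro ⟨_, ⟨y, rfl⟩, rfl⟩
      exact ⟨y, y.2, rfl⟩
    · rintro ⟨y, hy, rfl⟩
      exact ⟨⟨g y, hgA y hy⟩, ⟨⟨y, hy⟩, rfl⟩, rfl⟩
  · ext x
    constructor
    · rintro ⟨y, hy, rfl⟩
      refine ⟨y.2, ?_⟩
      have := congrArg (fun z : A => (z : E)) (AddMonoidHom.mem_ker.mp hy)
      exact AddMonoidHom.mem_ker.mpr (by simpa using this)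
    · rintro ⟨hxA, hx⟩
      refine ⟨⟨x, hxA⟩, ?_, rfl⟩
      rw [SetLike.mem_coe, AddMonoidHom.mem_ker]
      apply Subtype.ext
      simpa using AddMonoidHom.mem_ker.mp hx

/-- The index `a(E/A) = [f⁻¹ A : g E + A]` is the intrinsic Herbrand index of the induced
endomorphisms of the quotient group. -/
theorem h57_herbrand_quot (f g : E →+ E) (A : AddSubgroup E)
    (hfA : A ≤ A.comap f) (hgA : A ≤ A.comap g) :
    (QuotientAddGroup.map A A g hgA).range.relIndex (QuotientAddGroup.map A A f hfA).ker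
      = (g.range ⊔ A).relIndex (A.comap f) := by
  have h := relIndex_comap (QuotientAddGroup.map A A g hgA).range (QuotientAddGroup.mk' A)
    (A.comap f)
  have e1 : comap (QuotientAddGroup.mk' A) (QuotientAddGroup.map A A g hgA).range
      = g.range ⊔ A := by
    ext x
    rw [AddSubgroup.mem_comap, AddMonoidHom.mem_range]
    constructor
    · rintro ⟨y, hy⟩
      obtain ⟨y, rfl⟩ := QuotientAddGroup.mk_surjective y
      rw [QuotientAddGroup.map_mk, QuotientAddGroup.mk'_apply, QuotientAddGroup.eq] at hy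
      have hx : x = g y + (-(g y) + x) := by abel
      rw [hx]
      exact add_mem (mem_sup_left ⟨y, rfl⟩) (mem_sup_right hy)
    · intro hx
      obtain ⟨u, ⟨y, rfl⟩, a, ha, rfl⟩ := AddSubgroup.mem_sup.mp hx
      refine ⟨(y : E ⧸ A), ?_⟩
      rw [QuotientAddGroup.map_mk, QuotientAddGroup.mk'_apply, QuotientAddGroup.eq]
      have : -(g y) + (g y + a) = a := by abel
      rw [this]
      exact ha
  have e2 : map (QuotientAddGroup.mk' A) (A.comap f) = (QuotientAddGroup.map A A f hfA).ker := by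
    ext x
    obtain ⟨x, rfl⟩ := QuotientAddGroup.mk_surjective x
    rw [AddMonoidHom.mem_ker, QuotientAddGroup.map_mk, QuotientAddGroup.eq_zero_iff]
    constructor
    · rintro ⟨y, hy, hyx⟩
      rw [QuotientAddGroup.mk'_apply, QuotientAddGroup.eq] at hyx
      have hfy : f y ∈ A := hy
      have : f x = f y + f (-y + x) := by rw [← map_add]; congr 1; abel
      rw [this]
      exact add_mem hfy (hfA hyx)
    · intro hx
      exact ⟨x, hx, rfl⟩
  rw [e1, e2] at h
  exact h.symm

/-- On a finite group the Herbrand quotient is `1`: `a(E) = b(E) ≠ 0`. -/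
theorem h57_herbrand_finite [Finite E] (f g : E →+ E) (hfg : ∀ x, f (g x) = 0)
    (hgf : ∀ x, g (f x) = 0) :
    g.range.relIndex f.ker = f.range.relIndex g.ker ∧ g.range.relIndex f.ker ≠ 0 := by
  have gE_le : g.range ≤ f.ker := by
    rintro _ ⟨x, rfl⟩
    exact hfg x
  have fE_le : f.range ≤ g.ker := by
    rintro _ ⟨x, rfl⟩
    exact hgf x
  have h1 : g.range.relIndex f.ker * Nat.card f.range = g.range.index := by
    rw [← index_ker]; exact relIndex_mul_index gE_le
  have h2 : f.range.relIndex g.ker * Nat.card g.range = f.range.index := by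
    rw [← index_ker]; exact relIndex_mul_index fE_le
  have h3 := card_mul_index g.range
  have h4 := card_mul_index f.range
  have hE : 0 < Nat.card E := Nat.card_pos
  have hf : 0 < Nat.card f.range := Nat.card_pos
  have hg : 0 < Nat.card g.range := Nat.card_pos
  have key : g.range.relIndex f.ker * (Nat.card f.range * Nat.card g.range)
      = f.range.relIndex g.ker * (Nat.card f.range * Nat.card g.range) := by
    calc g.range.relIndex f.ker * (Nat.card f.range * Nat.card g.range)
        = Nat.card g.range * (g.range.relIndex f.ker * Nat.card f.range) := by ring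
      _ = Nat.card E := by rw [h1, h3]
      _ = Nat.card f.range * (f.range.relIndex g.ker * Nat.card g.range) := by rw [h2, h4]
      _ = f.range.relIndex g.ker * (Nat.card f.range * Nat.card g.range) := by ring
  refine ⟨Nat.eq_of_mul_eq_mul_right (Nat.mul_pos hf hg) key, ?_⟩
  intro h0
  rw [h0, zero_mul] at h1
  rw [← h1, mul_zero] at h3
  omega

/-- **Finite-index invariance of the Herbrand quotient**: if `A` is a stable subgroup of finite
index whose Herbrand indices are finite, then so are those of `E`, and the quotients agree. -/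
theorem h57_herbrand_of_finiteIndex (f g : E →+ E) (hfg : ∀ x, f (g x) = 0)
    (hgf : ∀ x, g (f x) = 0) (A : AddSubgroup E) (hfA : ∀ x ∈ A, f x ∈ A)
    (hgA : ∀ x ∈ A, g x ∈ A) (hA : A.index ≠ 0)
    (h1 : (A.map g).relIndex (A ⊓ f.ker) ≠ 0) (h2 : (A.map f).relIndex (A ⊓ g.ker) ≠ 0) :
    g.range.relIndex f.ker ≠ 0 ∧ f.range.relIndex g.ker ≠ 0 ∧
      g.range.relIndex f.ker * (A.map f).relIndex (A ⊓ g.ker)
        = f.range.relIndex g.ker * (A.map g).relIndex (A ⊓ f.ker) := by
  have : A.FiniteIndex := ⟨hA⟩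
  have : Finite (E ⧸ A) := finite_quotient_of_finiteIndex
  have hfA' : A ≤ A.comap f := fun x hx => hfA x hx
  have hgA' : A ≤ A.comap g := fun x hx => hgA x hx
  obtain ⟨hq, hq0⟩ := h57_herbrand_finite (QuotientAddGroup.map A A f hfA')
    (QuotientAddGroup.map A A g hgA')
    (fun x => by
      obtain ⟨x, rfl⟩ := QuotientAddGroup.mk_surjective x
      rw [QuotientAddGroup.map_mk, QuotientAddGroup.map_mk, hfg]; rfl)
    (fun x => by
      obtain ⟨x, rfl⟩ := QuotientAddGroup.mk_surjective x
      rw [QuotientAddGroup.map_mk, QuotientAddGroup.map_mk, hgf]; rfl)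
  rw [h57_herbrand_quot f g A hfA' hgA', h57_herbrand_quot g f A hgA' hfA'] at hq
  rw [h57_herbrand_quot f g A hfA' hgA'] at hq0
  have ha := h57_herbrand_half f g hfg A hfA hgA
  have hb := h57_herbrand_half g f hgf A hgA hfA
  have hmul := h57_herbrand_mul f g hfg hgf A hfA hgA
  have hE1 : g.range.relIndex f.ker ≠ 0 := by
    intro h0
    rw [h0, zero_mul] at ha
    exact (Nat.mul_ne_zero h1 hq0) ha.symm
  have hE2 : f.range.relIndex g.ker ≠ 0 := by
    intro h0
    rw [h0, zero_mul] at hb
    exact (Nat.mul_ne_zero h2 (hq ▸ hq0)) hb.symm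
  refine ⟨hE1, hE2, ?_⟩
  rw [← hq] at hmul
  have : g.range.relIndex f.ker * (A.map f).relIndex (A ⊓ g.ker) *
        (g.range ⊔ A).relIndex (A.comap f)
      = f.range.relIndex g.ker * (A.map g).relIndex (A ⊓ f.ker) *
        (g.range ⊔ A).relIndex (A.comap f) := by
    rw [mul_assoc, mul_assoc]; exact hmul
  exact Nat.eq_of_mul_eq_mul_right (Nat.pos_of_ne_zero hq0) this

end Fermat.Agent.S55
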