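import Fermat.Agent.S55.h57_LocEXBase
import Fermat.Agent.S55.h37_LocalPow
import Fermat.Agent.S55.h63_LocClass
import Fermat.Agent.S55.h82_ClassComap
import Fermat.Agent.S55.h12_Cup

/-!
# S55 / LOC-8 (helper57): local existence mod `p` in the `h2_GalTower` language

* `h57_rel_existence`: for `K₁ ⊇ μ_p` finite normal over `F` and `K₂ = K₁(K₁^{1/p})`,
  `N_{K₂/K₁}(K₂ˣ ⊗ ℤ_(p)) ⊆ p • (K₁ˣ ⊗ ℤ_(p))` (from `h57_local_existence_core`, the absolute
  class module of `K₂/F` and the abstract norm-index statements for abelian groups);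
* `h57_existence_tower`, `h57_existence_mono`: transitivity of the statement in towers;
* `h57_loc_EX_of`: the statement for every finite normal `K/ℚ_q` inside `PadicAlgCl q`,
  conditional only on the two abstract norm-index statements (`exp_norm`, `normidx`).
-/

set_option autoImplicit false

namespace Fermat.Agent.S55

theorem h57_normSubgroup_eq (G C : Type*) [Group G] [Finite G] [AddCommGroup C]
    [DistribMulAction G C] : h12_normSubgroup G C = (h57_normHom G C).range := by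
  ext c
  rw [h12_mem_normSubgroup, AddMonoidHom.mem_range]
  constructor
  · rintro ⟨c', rfl⟩
    exact ⟨c', h57_normHom_apply G C c'⟩
  · rintro ⟨c', rfl⟩
    exact ⟨c', h57_normHom_apply G C c'⟩

section Rel

variable {F Ω : Type} [Field F] [Field Ω] [Algebra F Ω] [IsGalois F Ω]
variable (p : ℕ) [Fact p.Prime]

theorem h57_rel_existence
    (hexp : ∀ (G : Type) [CommGroup G] [Finite G] (C : Type) [AddCommGroup C]
      [DistribMulAction G C], IsPClassModule p G C → ∀ e : ℕ, (∀ g : G, g ^ e = 1) →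
        ∀ c : C, (∀ g : G, g • c = c) → ∃ c' : C, e • c = ∑ᶠ g : G, g • c')
    (hidx : ∀ (G : Type) [CommGroup G] [Finite G] (C : Type) [AddCommGroup C]
      [DistribMulAction G C], IsPClassModule p G C →
        (h12_normSubgroup G C).relIndex (FixedPoints.addSubgroup G C)
          = p ^ (Nat.card G).factorization p)
    [IsAlgClosed Ω] [NeZero (p : Ω)]
    (K₁ K₂ : IntermediateField F Ω) [Normal F K₁] [Normal F K₂] [FiniteDimensional F K₂]
    (hμ : ∀ x : Ω, x ^ p = 1 → x ∈ K₁) (hK₂ : K₂ = h57_K2 p K₁) (h12 : K₁ ≤ K₂)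
    (hCM : IsPClassModule p (K₂ ≃ₐ[F] K₂) (h2_PL p (Additive K₂ˣ))) :
    ∀ c' : h2_PL p (Additive K₂ˣ), ∃ c : h2_PL p (Additive K₁ˣ),
      ∑ᶠ s : (h2_galRes h12).ker, (s : K₂ ≃ₐ[F] K₂) • c'
        = h2_PL.map (h2_galIncl h12) (p • c) := by
  classical
  have hp : p.Prime := Fact.out
  let alg : Algebra ↥K₁ ↥K₂ := (IntermediateField.inclusion h12).toRingHom.toAlgebra
  have : IsScalarTower F K₁ K₂ := IsScalarTower.of_algebraMap_eq (fun x => rfl)
  have : FiniteDimensional K₁ K₂ := FiniteDimensional.right F K₁ K₂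
  have : Algebra.IsSeparable F K₂ := inferInstance
  have : IsGalois F K₂ := IsGalois.mk
  have : IsGalois K₁ K₂ := IsGalois.tower_top_of_isGalois F K₁ K₂
  -- a primitive `p`-th root of unity
  obtain ⟨ζ₀, hζ₀⟩ := HasEnoughRootsOfUnity.exists_primitiveRoot Ω p
  have hζmem : ζ₀ ∈ K₁ := hμ ζ₀ hζ₀.pow_eq_one
  have hζ : IsPrimitiveRoot (⟨ζ₀, hζmem⟩ : K₁) p :=
    IsPrimitiveRoot.of_map_of_injective (f := K₁.val) hζ₀ K₁.val.injective
  -- roots
  have hroot : ∀ a : K₁ˣ, ∃ α : K₂, α ^ p = algebraMap K₁ K₂ a := by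
    intro a
    obtain ⟨β, hβ⟩ := IsAlgClosed.exists_pow_nat_eq (((a : K₁) : Ω)) hp.pos
    have hβ2 : β ∈ K₂ := by
      rw [hK₂]
      apply h57_root_mem_K2
      rw [hβ]
      exact (a : K₁).2
    refine ⟨⟨β, hβ2⟩, ?_⟩
    apply Subtype.ext
    exact hβ
  -- generation
  have hgen : IntermediateField.adjoin K₁ {α : K₂ | ∃ a : K₁ˣ, α ^ p = algebraMap K₁ K₂ a}
      = ⊤ := by
    rw [eq_top_iff]
    intro x _
    have hle : K₂ ≤ IntermediateField.lift ((IntermediateField.adjoin K₁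
        {α : K₂ | ∃ a : K₁ˣ, α ^ p = algebraMap K₁ K₂ a}).restrictScalars F) := by
      refine hK₂.le.trans ?_
      unfold h57_K2
      rw [IntermediateField.adjoin_le_iff]
      intro α hα
      have hα' : α ^ p ∈ K₁ := hα
      have hα2 : α ∈ K₂ := by
        rw [hK₂]
        exact h57_root_mem_K2 p K₁ hα'
      refine (IntermediateField.mem_lift (⟨α, hα2⟩ : K₂)).mpr ?_
      rw [IntermediateField.mem_restrictScalars]
      by_cases h0 : α = 0
      · have : (⟨α, hα2⟩ : K₂) = 0 := Subtype.ext h0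
        rw [this]
        exact zero_mem _
      · have hb0 : (⟨α ^ p, hα'⟩ : K₁) ≠ 0 := by
          intro h
          exact h0 ((pow_eq_zero_iff hp.ne_zero).mp (congrArg Subtype.val h))
        exact IntermediateField.subset_adjoin K₁ _ ⟨Units.mk0 _ hb0, Subtype.ext rfl⟩
    have := hle x.2
    rw [IntermediateField.mem_lift, IntermediateField.mem_restrictScalars] at this
    exact this
  -- compatibility of the two actions
  have hcompat : ∀ (τ : K₂ ≃ₐ[K₁] K₂) (c : h2_PL p (Additive K₂ˣ)),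
      τ • c = (AlgEquiv.restrictScalarsHom F τ : K₂ ≃ₐ[F] K₂) • c := by
    intro τ c
    rw [h2_PL.smul_def, h2_PL.smul_def]
    rfl
  -- the relative class module
  have hCMrel : IsPClassModule p (K₂ ≃ₐ[K₁] K₂) (h2_PL p (Additive K₂ˣ)) :=
    h82_classModule_comap (AlgEquiv.restrictScalarsHom F : (K₂ ≃ₐ[K₁] K₂) →* (K₂ ≃ₐ[F] K₂))
      (AlgEquiv.restrictScalarsHom_injective F) hcompat hCM
  -- Kummer theory: the relative group is abelian of exponent `p`
  have hgen' : IntermediateField.adjoin K₁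
      {α : K₂ | ∃ a ∈ (Set.univ : Set K₁ˣ), α ^ p = algebraMap K₁ K₂ a} = ⊤ := by
    rw [← hgen]
    congr 1
    ext α
    simp
  have hab : ∀ σ τ : K₂ ≃ₐ[K₁] K₂, σ * τ = τ * σ := h33_kummer_comm hp.pos hζ hgen'
  have hpow : ∀ σ : K₂ ≃ₐ[K₁] K₂, σ ^ p = 1 := h33_kummer_pow_eq_one hp.pos hζ hgen'
  let cg : CommGroup (K₂ ≃ₐ[K₁] K₂) :=
    { (inferInstance : Group (K₂ ≃ₐ[K₁] K₂)) with mul_comm := hab }
  have hexp' : ∀ c : h2_PL p (Additive K₂ˣ), (∀ g : K₂ ≃ₐ[K₁] K₂, g • c = c) →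
      ∃ c' : h2_PL p (Additive K₂ˣ), p • c = ∑ᶠ g : K₂ ≃ₐ[K₁] K₂, g • c' :=
    hexp (K₂ ≃ₐ[K₁] K₂) (h2_PL p (Additive K₂ˣ)) hCMrel p hpow
  have hidx' : (h57_normHom (K₂ ≃ₐ[K₁] K₂) (h2_PL p (Additive K₂ˣ))).range.relIndex
        (FixedPoints.addSubgroup (K₂ ≃ₐ[K₁] K₂) (h2_PL p (Additive K₂ˣ)))
      = p ^ (Nat.card (K₂ ≃ₐ[K₁] K₂)).factorization p := by
    have := hidx (K₂ ≃ₐ[K₁] K₂) (h2_PL p (Additive K₂ˣ)) hCMrel
    rw [h57_normSubgroup_eq] at this
    exact this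
  have core := h57_local_existence_core p K₁ K₂ ⟨ζ₀, hζmem⟩ hζ hroot hgen hexp' hidx'
  -- conversion to the `h2_GalTower` language
  intro c'
  obtain ⟨c, hc⟩ := core c'
  refine ⟨c, ?_⟩
  have hmap : (Units.map (algebraMap K₁ K₂ : K₁ →* K₂)).toAdditive = h2_galIncl h12 := rfl
  rw [← hmap, ← hc]
  have hker : ∀ τ : K₂ ≃ₐ[K₁] K₂,
      (AlgEquiv.restrictScalarsHom F τ : K₂ ≃ₐ[F] K₂) ∈ (h2_galRes h12).ker := by
    intro τ
    rw [MonoidHom.mem_ker]
    ext x
    rw [h2_galRes_apply]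
    show ((τ (algebraMap K₁ K₂ x) : K₂) : Ω) = _
    rw [τ.commutes]
    rfl
  let e : (K₂ ≃ₐ[K₁] K₂) → (h2_galRes h12).ker :=
    fun τ => ⟨AlgEquiv.restrictScalarsHom F τ, hker τ⟩
  have he : Function.Bijective e := by
    constructor
    · intro a b hab'
      exact AlgEquiv.restrictScalarsHom_injective F (congrArg Subtype.val hab')
    · rintro ⟨σ, hσ⟩
      have hfix : ∀ x : K₁, σ (algebraMap K₁ K₂ x) = algebraMap K₁ K₂ x := by
        intro x
        apply Subtype.ext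
        have := h2_galRes_apply h12 σ x
        rw [MonoidHom.mem_ker.mp hσ] at this
        exact this.symm
      refine ⟨AlgEquiv.ofRingEquiv (f := σ.toRingEquiv) hfix, ?_⟩
      apply Subtype.ext
      ext x
      rfl
  have hsum := finsum_comp_equiv (Equiv.ofBijective e he)
    (f := fun s : (h2_galRes h12).ker => (s : K₂ ≃ₐ[F] K₂) • c')
  rw [← hsum]
  refine finsum_congr fun τ => ?_
  exact (hcompat τ c').symm

/-- **Transitivity, bottom step**: if `N_{K'/K}` lands in `p • K` (mod `p`-localisation) then so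
does `N_{K''/K}` for every finite normal `K'' ≥ K'`. -/
theorem h57_existence_mono (K K' K'' : IntermediateField F Ω) [Normal F K] [Normal F K']
    [Normal F K''] [FiniteDimensional F K''] (h : K ≤ K') (h' : K' ≤ K'')
    (hex : ∀ c' : h2_PL p (Additive K'ˣ), ∃ c : h2_PL p (Additive Kˣ),
      ∑ᶠ s : (h2_galRes h).ker, (s : K' ≃ₐ[F] K') • c' = h2_PL.map (h2_galIncl h) (p • c)) :
    ∀ c'' : h2_PL p (Additive K''ˣ), ∃ c : h2_PL p (Additive Kˣ),
      ∑ᶠ s : (h2_galRes (h.trans h')).ker, (s : K'' ≃ₐ[F] K'') • c''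
        = h2_PL.map (h2_galIncl (h.trans h')) (p • c) := by
  classical
  intro c''
  have hfin : Finite (K'' ≃ₐ[F] K'') := inferInstance
  have hcomp : ∀ s : K'' ≃ₐ[F] K'', h2_galRes (h.trans h') s = h2_galRes h (h2_galRes h' s) := by
    intro s
    ext x
    rw [h2_galRes_apply, h2_galRes_apply, h2_galRes_apply]
    rfl
  have hι : ∀ (s : K'' ≃ₐ[F] K'') (d : h2_PL p (Additive K'ˣ)),
      h2_PL.map (h2_galIncl h') (h2_galRes h' s • d) = s • h2_PL.map (h2_galIncl h') d :=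
    h2_PL.map_smul_of (h2_galRes h') (h2_galIncl h') (h2_galIncl_smul h')
  -- the norm from `K''` to `K'` comes from `K'`
  have hfix : ∀ s ∈ (h2_galRes h').ker,
      s • ∑ᶠ t : (h2_galRes h').ker, (t : K'' ≃ₐ[F] K'') • c''
        = ∑ᶠ t : (h2_galRes h').ker, (t : K'' ≃ₐ[F] K'') • c'' :=
    fun s hs => h57_finsum_subgroup_fixed (h2_galRes h').ker c'' s hs
  obtain ⟨d, hd⟩ := h2_PL.mem_range_map_of_fixed (p := p) (h2_galRes h') (h2_galIncl h')
    (h2_galIncl_mem_range h') _ hfix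
  have key := h57_finsum_ker_tower (h2_galRes h') (h2_galRes_surjective h') (h2_galRes h)
    (h2_galRes (h.trans h')) hcomp (h2_PL.map (h2_galIncl h')) hι c'' d hd.symm
  obtain ⟨c, hc⟩ := hex d
  refine ⟨c, ?_⟩
  rw [key, hc, ← AddMonoidHom.comp_apply, ← h2_PL.map_comp]
  rfl

/-- **Transitivity, top step**: if `N_{K₂/K₁}` lands in `p • K₁` then `N_{K₂/K}` lands in
`p • K` for every normal `K ≤ K₁`. -/
theorem h57_existence_tower (K K₁ K₂ : IntermediateField F Ω) [Normal F K] [Normal F K₁]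
    [Normal F K₂] [FiniteDimensional F K₂] (h01 : K ≤ K₁) (h12 : K₁ ≤ K₂)
    (hrel : ∀ c' : h2_PL p (Additive K₂ˣ), ∃ c : h2_PL p (Additive K₁ˣ),
      ∑ᶠ s : (h2_galRes h12).ker, (s : K₂ ≃ₐ[F] K₂) • c' = h2_PL.map (h2_galIncl h12) (p • c)) :
    ∀ c' : h2_PL p (Additive K₂ˣ), ∃ c : h2_PL p (Additive Kˣ),
      ∑ᶠ s : (h2_galRes (h01.trans h12)).ker, (s : K₂ ≃ₐ[F] K₂) • c'
        = h2_PL.map (h2_galIncl (h01.trans h12)) (p • c) := by
  classical
  intro c'
  have hfin : Finite (K₂ ≃ₐ[F] K₂) := inferInstance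
  have hfin1 : Finite (K₁ ≃ₐ[F] K₁) := Finite.of_surjective _ (h2_galRes_surjective h12)
  have hcomp : ∀ s : K₂ ≃ₐ[F] K₂,
      h2_galRes (h01.trans h12) s = h2_galRes h01 (h2_galRes h12 s) := by
    intro s
    ext x
    rw [h2_galRes_apply, h2_galRes_apply, h2_galRes_apply]
    rfl
  have hι : ∀ (s : K₂ ≃ₐ[F] K₂) (d : h2_PL p (Additive K₁ˣ)),
      h2_PL.map (h2_galIncl h12) (h2_galRes h12 s • d) = s • h2_PL.map (h2_galIncl h12) d :=
    h2_PL.map_smul_of (h2_galRes h12) (h2_galIncl h12) (h2_galIncl_smul h12)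
  obtain ⟨c₁, hc₁⟩ := hrel c'
  have key := h57_finsum_ker_tower (h2_galRes h12) (h2_galRes_surjective h12) (h2_galRes h01)
    (h2_galRes (h01.trans h12)) hcomp (h2_PL.map (h2_galIncl h12)) hι c' (p • c₁) hc₁
  -- the norm from `K₁` to `K` comes from `K`
  have hfix : ∀ s ∈ (h2_galRes h01).ker,
      s • ∑ᶠ t : (h2_galRes h01).ker, (t : K₁ ≃ₐ[F] K₁) • c₁
        = ∑ᶠ t : (h2_galRes h01).ker, (t : K₁ ≃ₐ[F] K₁) • c₁ :=
    fun s hs => h57_finsum_subgroup_fixed (h2_galRes h01).ker c₁ s hs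
  obtain ⟨c, hc⟩ := h2_PL.mem_range_map_of_fixed (p := p) (h2_galRes h01) (h2_galIncl h01)
    (h2_galIncl_mem_range h01) _ hfix
  refine ⟨c, ?_⟩
  have hN : ∑ᶠ t : (h2_galRes h01).ker, (t : K₁ ≃ₐ[F] K₁) • (p • c₁)
      = p • ∑ᶠ t : (h2_galRes h01).ker, (t : K₁ ≃ₐ[F] K₁) • c₁ := by
    have e1 := AddMonoidHom.map_finsum (nsmulAddMonoidHom (α := h2_PL p (Additive K₁ˣ)) p)
      (f := fun t : (h2_galRes h01).ker => (t : K₁ ≃ₐ[F] K₁) • c₁) (Set.toFinite _)
    rw [nsmulAddMonoidHom_apply] at e1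
    rw [e1]
    refine finsum_congr fun t => ?_
    exact map_nsmul (DistribSMul.toAddMonoidHom (h2_PL p (Additive K₁ˣ)) (t : K₁ ≃ₐ[F] K₁)) p c₁
  rw [key, hN, ← hc, ← map_nsmul, ← AddMonoidHom.comp_apply, ← h2_PL.map_comp]
  rfl

end Rel

section Padic

/-- **LOC-8 (local existence mod `p`), conditional on the abstract norm-index statements of
row 247** (`hexp` = `exp_norm`, `hidx` = `normidx`, both for finite abelian `G` and a `p`-class
module `C`): every finite normal `K/ℚ_q` inside `PadicAlgCl q` has a finite normal extension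
`K'` with `N_{K'/K}(K'ˣ ⊗ ℤ_(p)) ⊆ p • (Kˣ ⊗ ℤ_(p))`. -/
theorem h57_loc_EX_of (q p : ℕ) [Fact q.Prime] [Fact p.Prime]
    (hexp : ∀ (G : Type) [CommGroup G] [Finite G] (C : Type) [AddCommGroup C]
      [DistribMulAction G C], IsPClassModule p G C → ∀ e : ℕ, (∀ g : G, g ^ e = 1) →
        ∀ c : C, (∀ g : G, g • c = c) → ∃ c' : C, e • c = ∑ᶠ g : G, g • c')
    (hidx : ∀ (G : Type) [CommGroup G] [Finite G] (C : Type) [AddCommGroup C]
      [DistribMulAction G C], IsPClassModule p G C →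
        (h12_normSubgroup G C).relIndex (FixedPoints.addSubgroup G C)
          = p ^ (Nat.card G).factorization p)
    (K : IntermediateField ℚ_[q] (PadicAlgCl q)) [FiniteDimensional ℚ_[q] K] [Normal ℚ_[q] K] :
    ∃ (K' : IntermediateField ℚ_[q] (PadicAlgCl q)) (_ : FiniteDimensional ℚ_[q] K')
      (_ : Normal ℚ_[q] K') (h : K ≤ K'),
      ∀ c' : h2_PL p (Additive K'ˣ), ∃ c : h2_PL p (Additive Kˣ),
        ∑ᶠ s : (h2_galRes h).ker, (s : K' ≃ₐ[ℚ_[q]] K') • c'
          = h2_PL.map (h2_galIncl h) (p • c) := by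
  classical
  have hp : p.Prime := Fact.out
  have hne : NeZero ((p : ℕ) : PadicAlgCl q) := ⟨Nat.cast_ne_zero.mpr hp.ne_zero⟩
  have hgal : IsGalois ℚ_[q] (PadicAlgCl q) := inferInstance
  have hfd1 : FiniteDimensional ℚ_[q] (h57_K1 p K) := h57_K1_finiteDimensional p hp.pos K
  have hμ : ∀ x : PadicAlgCl q, x ^ p = 1 → x ∈ h57_K1 p K := fun x hx => h57_root_mem_K1 p K hx
  have hidx0 : (powMonoidHom p : (h57_K1 p K)ˣ →* (h57_K1 p K)ˣ).range.index ≠ 0 := by
    rw [h37_local_pow_index q p (h57_K1 p K)]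
    have h1 : Nat.card (rootsOfUnity p (h57_K1 p K)) ≠ 0 := by
      have : NeZero p := ⟨hp.ne_zero⟩
      exact Nat.card_pos.ne'
    refine mul_ne_zero (mul_ne_zero hp.ne_zero h1) ?_
    split_ifs
    · exact pow_ne_zero _ hp.ne_zero
    · exact one_ne_zero
  have hfd2 : FiniteDimensional ℚ_[q] (h57_K2 p (h57_K1 p K)) :=
    h57_K2_finiteDimensional p hp.pos (h57_K1 p K) hμ hidx0
  have hgal2 : IsGalois ℚ_[q] (h57_K2 p (h57_K1 p K)) := IsGalois.mk
  have hCM := h63_local_classModule q p (h57_K2 p (h57_K1 p K))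
  have hrel := h57_rel_existence p hexp hidx (h57_K1 p K) (h57_K2 p (h57_K1 p K)) hμ rfl
    (h57_le_K2 p (h57_K1 p K)) hCM
  exact ⟨h57_K2 p (h57_K1 p K), hfd2, inferInstance, (h57_le_K1 p K).trans (h57_le_K2 p _),
    h57_existence_tower p K (h57_K1 p K) (h57_K2 p (h57_K1 p K)) (h57_le_K1 p K)
      (h57_le_K2 p _) hrel⟩

end Padic

end Fermat.Agent.S55
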