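import Fermat.Agent.S55.h57_LocEX
import Fermat.Agent.S55.h40_NormIdx

/-!
# S55 / LOC-8 (helper57): local existence mod `p`, unconditional

`h57_loc_EX`: every finite normal `K/ℚ_q` inside `PadicAlgCl q` has a finite normal extension
`K'` with `N_{K'/K}(K'ˣ ⊗ ℤ_(p)) ⊆ p • (Kˣ ⊗ ℤ_(p))` (in the `h2_GalTower` language), and
`h57_loc_EX_cofinal`: the same for every finite normal `K''` above that `K'`.
-/

set_option autoImplicit false

namespace Fermat.Agent.S55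

/-- **LOC-8: local existence mod `p`** (unconditional; any primes `q`, `p`). -/
theorem h57_loc_EX (q p : ℕ) [Fact q.Prime] [Fact p.Prime]
    (K : IntermediateField ℚ_[q] (PadicAlgCl q)) [FiniteDimensional ℚ_[q] K] [Normal ℚ_[q] K] :
    ∃ (K' : IntermediateField ℚ_[q] (PadicAlgCl q)) (_ : FiniteDimensional ℚ_[q] K')
      (_ : Normal ℚ_[q] K') (h : K ≤ K'),
      ∀ c' : h2_PL p (Additive K'ˣ), ∃ c : h2_PL p (Additive Kˣ),
        ∑ᶠ s : (h2_galRes h).ker, (s : K' ≃ₐ[ℚ_[q]] K') • c'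
          = h2_PL.map (h2_galIncl h) (p • c) :=
  h57_loc_EX_of q p (fun _ _ _ _ _ _ hC e he c hc => h40_exp_norm hC e he c hc)
    (fun _ _ _ _ _ _ hC => h40_normidx hC) K

/-- **LOC-8, cofinal form**: there is a finite normal `K' ≥ K` such that for EVERY finite normal
`K'' ≥ K'` the norm `N_{K''/K}` lands in `p • (Kˣ ⊗ ℤ_(p))`. -/
theorem h57_loc_EX_cofinal (q p : ℕ) [Fact q.Prime] [Fact p.Prime]
    (K : IntermediateField ℚ_[q] (PadicAlgCl q)) [FiniteDimensional ℚ_[q] K] [Normal ℚ_[q] K] :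
    ∃ (K' : IntermediateField ℚ_[q] (PadicAlgCl q)) (_ : FiniteDimensional ℚ_[q] K')
      (_ : Normal ℚ_[q] K') (_ : K ≤ K'),
      ∀ (K'' : IntermediateField ℚ_[q] (PadicAlgCl q)) [FiniteDimensional ℚ_[q] K'']
        [Normal ℚ_[q] K''] (h'' : K ≤ K''), K' ≤ K'' →
        ∀ c'' : h2_PL p (Additive K''ˣ), ∃ c : h2_PL p (Additive Kˣ),
          ∑ᶠ s : (h2_galRes h'').ker, (s : K'' ≃ₐ[ℚ_[q]] K'') • c''
            = h2_PL.map (h2_galIncl h'') (p • c) := by
  obtain ⟨K', hfd, hnorm, h, hex⟩ := h57_loc_EX q p K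
  refine ⟨K', hfd, hnorm, h, ?_⟩
  intro K'' _ _ h'' h'
  exact h57_existence_mono p K K' K'' h h' hex

end Fermat.Agent.S55
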