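import Fermat.Agent.S55.h2_PLoc
import Fermat.Agent.S55.h2_AddUnits
import Fermat.Agent.S55.h33_Kummer

set_option autoImplicit false

/-!
# Local existence mod `p`, core (S55, LOC-8)

`K` a field containing a primitive `p`-th root of unity and `L = K(Kˣ^{1/p})` a finite Galois
extension (for a finite extension `K` of `ℚ_q` this is the maximal abelian extension of exponent
`p`).  Given the two consequences of the class-module property of `Lˣ ⊗ ℤ_(p)` for the abelian
group `Gal(L/K)` (row H-NORMIDX: `p • C^G ⊆ N_G C` and `[C^G : N_G C] = |G|_p`), the norm group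
of `Lˣ ⊗ ℤ_(p)` is exactly `p • (Kˣ ⊗ ℤ_(p))` (`h57_local_existence_core`): this is the `hnorm`
hypothesis of `adt_D1` for the step `L/K`.

Also: `h57_PL_index_smul` (`A/pA ≅ A_(p)/pA_(p)`), `h57_PL_fixed_iff` (invariants commute with
localisation for unit groups), `h57_normHom`.
-/

namespace Fermat.Agent.S55

/-- Bezout in the form used here: `m` prime to `p` has an inverse mod `p`. -/
theorem h57_exists_mul_eq (p : ℕ) [Fact p.Prime] {m : ℕ} (hm : m.Coprime p) :
    ∃ k t : ℕ, m * k = p * t + 1 := by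
  obtain ⟨k, -, hk⟩ := Nat.exists_mul_mod_eq_one_of_coprime hm (Fact.out : p.Prime).one_lt
  refine ⟨k, m * k / p, ?_⟩
  have := Nat.div_add_mod (m * k) p
  omega

/-- `A / pA ≅ A_(p) / p A_(p)`: localisation at `p` does not change the index of `pA`. -/
theorem h57_PL_index_smul (p : ℕ) [Fact p.Prime] (A : Type*) [AddCommGroup A] :
    (nsmulAddMonoidHom p : h2_PL p A →+ h2_PL p A).range.index
      = (nsmulAddMonoidHom p : A →+ A).range.index := by
  obtain ⟨H, hH⟩ : ∃ H : AddSubgroup (h2_PL p A),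
      H = (nsmulAddMonoidHom p : h2_PL p A →+ h2_PL p A).range := ⟨_, rfl⟩
  have hmemH : ∀ x : h2_PL p A, x ∈ H ↔ ∃ y : h2_PL p A, p • y = x := by
    intro x
    rw [hH]
    rfl
  have h1 : H.comap (h2_PL.j : A →+ h2_PL p A) = (nsmulAddMonoidHom p : A →+ A).range := by
    ext a
    rw [AddSubgroup.mem_comap, hmemH]
    constructor
    · rintro ⟨y, hy⟩
      obtain ⟨m, hm, b, hb⟩ := h2_PL.exists_smul_eq_j y
      have e1 : h2_PL.j (p := p) (m • a - p • b) = 0 := by
        rw [map_sub, map_nsmul, map_nsmul, ← hy, ← hb, smul_comm, sub_self]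
      obtain ⟨m', hm', h0⟩ := (h2_PL.j_eq_zero_iff _).1 e1
      rw [smul_sub, sub_eq_zero] at h0
      obtain ⟨k, t, hkt⟩ := h57_exists_mul_eq p (Nat.Coprime.mul_left hm' hm)
      refine ⟨k • m' • b - t • a, ?_⟩
      show p • (k • m' • b - t • a) = a
      have e2 : (m' * m * k) • a = (p * t) • a + a := by
        rw [hkt, add_smul, one_smul]
      have e3 : (m' * m * k) • a = p • k • m' • b := by
        rw [mul_comm (m' * m) k, mul_smul, mul_smul, h0, smul_comm m' p b, smul_comm k p]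
      rw [smul_sub, ← e3, e2, mul_smul, add_sub_cancel_left]
    · rintro ⟨b, rfl⟩
      exact ⟨h2_PL.j b, (map_nsmul _ _ _).symm⟩
  have h2 : (h2_PL.j : A →+ h2_PL p A).range ⊔ H = ⊤ := by
    rw [eq_top_iff]
    intro x _
    obtain ⟨m, hm, a, ha⟩ := h2_PL.exists_smul_eq_j x
    obtain ⟨k, t, hkt⟩ := h57_exists_mul_eq p hm
    have e : x = h2_PL.j (k • a) + p • (-(t • x)) := by
      have e2 : (m * k) • x = (p * t) • x + x := by
        rw [hkt, add_smul, one_smul]
      have e3 : (m * k) • x = h2_PL.j (k • a) := by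
        rw [mul_comm, mul_smul, ha, map_nsmul]
      rw [← e3, e2, mul_smul, neg_nsmul]
      abel
    rw [e]
    exact AddSubgroup.add_mem_sup ⟨_, rfl⟩ ((hmemH _).2 ⟨_, rfl⟩)
  rw [← hH, ← h1, AddSubgroup.index_comap, ← AddSubgroup.relIndex_sup_right (H := (h2_PL.j : A →+ h2_PL p A).range)
    (K := H), h2, AddSubgroup.relIndex_top_right]

/-- The norm map `c ↦ ∑ g, g • c` of a finite group acting on an additive group. -/
noncomputable def h57_normHom (G C : Type*) [Group G] [Finite G] [AddCommGroup C]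
    [DistribMulAction G C] : C →+ C where
  toFun c := ∑ᶠ g : G, g • c
  map_zero' := by simp
  map_add' a b := by
    simp only [smul_add]
    exact finsum_add_distrib (Set.toFinite _) (Set.toFinite _)

theorem h57_normHom_apply (G C : Type*) [Group G] [Finite G] [AddCommGroup C]
    [DistribMulAction G C] (c : C) : h57_normHom G C c = ∑ᶠ g : G, g • c := rfl

/-- Norms are invariant. -/
theorem h57_normHom_fixed (G C : Type*) [Group G] [Finite G] [AddCommGroup C]
    [DistribMulAction G C] (h : G) (c : C) : h • h57_normHom G C c = h57_normHom G C c := by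
  rw [h57_normHom_apply]
  have e1 : h • ∑ᶠ g : G, g • c = ∑ᶠ g : G, h • g • c :=
    AddMonoidHom.map_finsum (DistribSMul.toAddMonoidHom C h) (Set.toFinite _)
  rw [e1]
  have e2 : ∑ᶠ g : G, h • g • c = ∑ᶠ g : G, (Equiv.mulLeft h g) • c := by
    refine finsum_congr fun g => ?_
    rw [Equiv.coe_mulLeft, mul_smul]
  rw [e2]
  exact finsum_comp_equiv (Equiv.mulLeft h) (f := fun g : G => g • c)

section Units

variable (K L : Type*) [Field K] [Field L] [Algebra K L]

/-- The units of `K` inside the units of `L` are fixed by `Gal(L/K)`. -/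
theorem h57_unitsIncl_fixed (g : L ≃ₐ[K] L) (b : Additive Kˣ) :
    g • (MonoidHom.toAdditive (Units.map (algebraMap K L : K →* L)) b)
      = MonoidHom.toAdditive (Units.map (algebraMap K L : K →* L)) b := by
  apply Additive.toMul.injective
  apply Units.ext
  show g (algebraMap K L ((Additive.toMul b : Kˣ) : K)) = algebraMap K L _
  exact g.commutes _

/-- Units of `L` fixed by `Gal(L/K)` come from `K` (finite Galois extension). -/
theorem h57_unitsIncl_range [FiniteDimensional K L] [IsGalois K L] (c : Additive Lˣ)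
    (hc : ∀ g : L ≃ₐ[K] L, g • c = c) :
    ∃ b : Additive Kˣ, MonoidHom.toAdditive (Units.map (algebraMap K L : K →* L)) b = c := by
  have hfix : ∀ g : L ≃ₐ[K] L,
      g ((Additive.toMul c : Lˣ) : L) = ((Additive.toMul c : Lˣ) : L) := by
    intro g
    exact congrArg (fun a : Additive Lˣ => ((Additive.toMul a : Lˣ) : L)) (hc g)
  obtain ⟨k, hk⟩ := (IsGalois.mem_range_algebraMap_iff_fixed _).mpr hfix
  have hk0 : k ≠ 0 := by
    rintro rfl
    rw [map_zero] at hk
    exact (Additive.toMul c : Lˣ).ne_zero hk.symm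
  refine ⟨Additive.ofMul (Units.mk0 k hk0), ?_⟩
  apply Additive.toMul.injective
  apply Units.ext
  exact hk

/-- Invariants commute with localisation: the `Gal(L/K)`-invariants of `Lˣ ⊗ ℤ_(p)` are the
image of `Kˣ ⊗ ℤ_(p)`. -/
theorem h57_PL_fixed_iff [FiniteDimensional K L] [IsGalois K L] (p : ℕ) [Fact p.Prime]
    (x : h2_PL p (Additive Lˣ)) :
    (∀ g : L ≃ₐ[K] L, g • x = x) ↔
      x ∈ (h2_PL.map (p := p)
        (MonoidHom.toAdditive (Units.map (algebraMap K L : K →* L)))).range := by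
  constructor
  · intro hx
    obtain ⟨m, hm, c, hc, hmx⟩ := h2_PL.exists_smul_eq_j_of_fixed
      (⊤ : Subgroup (L ≃ₐ[K] L)) x (fun h _ => hx h)
    obtain ⟨b, hb⟩ := h57_unitsIncl_range K L c (fun g => hc g (Subgroup.mem_top g))
    obtain ⟨y, hy⟩ := h2_PL.smul_surjective (p := p) m hm (h2_PL.j b)
    refine ⟨y, ?_⟩
    apply h2_PL.smul_injective (p := p) m hm
    show m • h2_PL.map _ y = m • x
    rw [← map_nsmul, hmx, ← hb, ← h2_PL.map_j]
    congr 1
  · rintro ⟨y, rfl⟩ g
    rw [h2_PL.smul_def, ← AddMonoidHom.comp_apply, ← h2_PL.map_comp]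
    congr 2
    ext b
    exact congrArg (fun a : Additive Lˣ => ((Additive.toMul a : Lˣ) : L))
      (h57_unitsIncl_fixed K L g b)

end Units

/-- **LOC-8, core (local existence mod `p`)**: `K` a finite extension of `ℚ_q` containing the
`p`-th roots of unity, `L = K(Kˣ^{1/p})`.  Given the two consequences `hexp`, `hidx` of the
class-module property of `Lˣ ⊗ ℤ_(p)` (row H-NORMIDX), every norm from `Lˣ ⊗ ℤ_(p)` is `p` times
an element of `Kˣ ⊗ ℤ_(p)`. -/
theorem h57_local_existence_core (p : ℕ) [Fact p.Prime]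
    (K L : Type*) [Field K] [Field L] [Algebra K L] [FiniteDimensional K L] [IsGalois K L]
    (ζ : K) (hζ : IsPrimitiveRoot ζ p)
    (hroot : ∀ a : Kˣ, ∃ α : L, α ^ p = algebraMap K L a)
    (hgen : IntermediateField.adjoin K {α : L | ∃ a : Kˣ, α ^ p = algebraMap K L a} = ⊤)
    (hexp : ∀ c : h2_PL p (Additive Lˣ), (∀ g : L ≃ₐ[K] L, g • c = c) →
      ∃ c' : h2_PL p (Additive Lˣ), p • c = ∑ᶠ g : L ≃ₐ[K] L, g • c')
    (hidx : (h57_normHom (L ≃ₐ[K] L) (h2_PL p (Additive Lˣ))).range.relIndex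
        (FixedPoints.addSubgroup (L ≃ₐ[K] L) (h2_PL p (Additive Lˣ)))
      = p ^ (Nat.card (L ≃ₐ[K] L)).factorization p) :
    ∀ c' : h2_PL p (Additive Lˣ), ∃ c : h2_PL p (Additive Kˣ),
      ∑ᶠ g : L ≃ₐ[K] L, g • c'
        = h2_PL.map (Units.map (algebraMap K L : K →* L)).toAdditive (p • c) := by
  classical
  have hp0 : 0 < p := (Fact.out : p.Prime).pos
  -- Kummer theory
  have hgen' : IntermediateField.adjoin K
      {α : L | ∃ a ∈ (Set.univ : Set Kˣ), α ^ p = algebraMap K L a} = ⊤ := by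
    rw [← hgen]
    congr 1
    ext α
    simp
  have hab : ∀ σ τ : L ≃ₐ[K] L, σ * τ = τ * σ := h33_kummer_comm hp0 hζ hgen'
  have hpow : ∀ σ : L ≃ₐ[K] L, σ ^ p = 1 := h33_kummer_pow_eq_one hp0 hζ hgen'
  have hkum := h33_kummer_relIndex (L := L) hp0 hζ hab hpow
  have htop : h33_kummerGroup K L p = ⊤ := by
    rw [eq_top_iff]
    intro a _
    exact hroot a
  rw [htop, Subgroup.relIndex_top_right] at hkum
  have hcard : Nat.card (L ≃ₐ[K] L) = Module.finrank K L := IsGalois.card_aut_eq_finrank K L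
  have hG0 : Nat.card (L ≃ₐ[K] L) ≠ 0 := Nat.card_pos.ne'
  -- `|G|` is a power of `p`
  have hPG : IsPGroup p (L ≃ₐ[K] L) := fun g => ⟨1, by rw [pow_one]; exact hpow g⟩
  obtain ⟨n, hn⟩ := hPG.exists_card_eq
  have hfac : p ^ (Nat.card (L ≃ₐ[K] L)).factorization p = Nat.card (L ≃ₐ[K] L) := by
    rw [hn, (Fact.out : p.Prime).factorization_pow, Finsupp.single_eq_same]
  rw [hfac] at hidx
  -- the subgroups
  obtain ⟨ι, hι⟩ : ∃ ι : h2_PL p (Additive Kˣ) →+ h2_PL p (Additive Lˣ),
      ι = h2_PL.map (Units.map (algebraMap K L : K →* L)).toAdditive := ⟨_, rfl⟩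
  have hιinj : Function.Injective ι := by
    rw [hι]
    apply h2_PL.map_injective
    intro a b hab'
    apply Additive.toMul.injective
    apply Units.ext
    apply (algebraMap K L).injective
    exact congrArg (fun a : Additive Lˣ => ((Additive.toMul a : Lˣ) : L)) hab'
  obtain ⟨T, hT⟩ : ∃ T : AddSubgroup (h2_PL p (Additive Lˣ)),
      T = FixedPoints.addSubgroup (L ≃ₐ[K] L) (h2_PL p (Additive Lˣ)) := ⟨_, rfl⟩
  have hTι : T = ι.range := by
    ext x
    rw [hT, FixedPoints.mem_addSubgroup, h57_PL_fixed_iff K L p x, hι]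
  obtain ⟨B, hB⟩ : ∃ B : AddSubgroup (h2_PL p (Additive Lˣ)),
      B = (h57_normHom (L ≃ₐ[K] L) (h2_PL p (Additive Lˣ))).range := ⟨_, rfl⟩
  obtain ⟨A, hA⟩ : ∃ A : AddSubgroup (h2_PL p (Additive Lˣ)),
      A = (nsmulAddMonoidHom p : h2_PL p (Additive Kˣ) →+ _).range.map ι := ⟨_, rfl⟩
  rw [← hT, ← hB] at hidx
  have hBT : B ≤ T := by
    rintro x hx
    rw [hB] at hx
    obtain ⟨c, rfl⟩ := hx
    rw [hT, FixedPoints.mem_addSubgroup]
    exact fun g => h57_normHom_fixed _ _ g c
  have hAB : A ≤ B := by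
    rintro x hx
    rw [hA] at hx
    obtain ⟨_, ⟨y, rfl⟩, rfl⟩ := hx
    have hfix : ∀ g : L ≃ₐ[K] L, g • ι y = ι y := by
      have h1 : ι y ∈ T := by rw [hTι]; exact ⟨y, rfl⟩
      rw [hT, FixedPoints.mem_addSubgroup] at h1
      exact h1
    obtain ⟨c', hc'⟩ := hexp (ι y) hfix
    rw [hB]
    refine ⟨c', ?_⟩
    rw [h57_normHom_apply, ← hc']
    show p • ι y = ι (p • y)
    rw [map_nsmul]
  have hAT : A.relIndex T = Nat.card (L ≃ₐ[K] L) := by
    have e1 : T = (⊤ : AddSubgroup (h2_PL p (Additive Kˣ))).map ι := by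
      rw [hTι, AddMonoidHom.range_eq_map]
    rw [hA, e1, AddSubgroup.relIndex_map_map_of_injective _ _ hιinj, AddSubgroup.relIndex_top_right,
      h57_PL_index_smul, hcard, ← hkum, ← Subgroup.index_toAddSubgroup]
    congr 1
  have hmul := AddSubgroup.relIndex_mul_relIndex A B T hAB hBT
  rw [hidx, hAT] at hmul
  have hone : A.relIndex B = 1 := by
    have := Nat.eq_of_mul_eq_mul_right (Nat.pos_of_ne_zero hG0) (hmul.trans (one_mul _).symm)
    exact this
  have hBA : B ≤ A := AddSubgroup.relIndex_eq_one.mp hone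
  intro c'
  have h1 : h57_normHom (L ≃ₐ[K] L) (h2_PL p (Additive Lˣ)) c' ∈ A := by
    apply hBA
    rw [hB]
    exact ⟨c', rfl⟩
  rw [hA] at h1
  obtain ⟨_, ⟨y, rfl⟩, hy⟩ := h1
  refine ⟨y, ?_⟩
  rw [← hι, ← h57_normHom_apply, ← hy]
  rfl

end Fermat.Agent.S55
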