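import Fermat.Agent.S55.h57_LocalSetup

set_option autoImplicit false
set_option linter.unusedSectionVars false

/-!
# Coordinate lattices in a finite extension of `ℚ_q` (S55, block LOC-AXIOM)

`B` is a `ℚ_q`-basis of the finite extension `L`.  `h57_Lam q L B m` is the lattice of vectors
all of whose coordinates have `q`-adic norm `≤ q^(-m)`.  We compare it with the balls of the
spectral norm and prove its `q`-adic completeness.
-/

namespace Fermat.Agent.S55

section Lattice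

variable (q : ℕ) [Fact q.Prime] (L : Type*) [Field L] [Algebra ℚ_[q] L]
  [FiniteDimensional ℚ_[q] L]
variable {J : Type*} [Fintype J] (B : Module.Basis J ℚ_[q] L)

/-- `r = 1/q`. -/
noncomputable def h57_r : ℝ := (q : ℝ)⁻¹

theorem h57_q_gt_one : (1 : ℝ) < q := by exact_mod_cast (Fact.out : q.Prime).one_lt

theorem h57_r_pos : 0 < h57_r q := inv_pos.mpr (zero_lt_one.trans (h57_q_gt_one q))

theorem h57_r_lt_one : h57_r q < 1 := inv_lt_one_of_one_lt₀ (h57_q_gt_one q)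

theorem h57_r_pow_pos (m : ℕ) : 0 < h57_r q ^ m := pow_pos (h57_r_pos q) m

theorem h57_r_pow_le_one (m : ℕ) : h57_r q ^ m ≤ 1 :=
  pow_le_one₀ (h57_r_pos q).le (h57_r_lt_one q).le

theorem h57_r_pow_anti {m m' : ℕ} (h : m ≤ m') : h57_r q ^ m' ≤ h57_r q ^ m :=
  pow_le_pow_of_le_one (h57_r_pos q).le (h57_r_lt_one q).le h

theorem h57_q_pow_mul_r_pow (m a : ℕ) : (q : ℝ) ^ a * h57_r q ^ (m + a) = h57_r q ^ m := by
  have hq0 : (q : ℝ) ≠ 0 := (zero_lt_one.trans (h57_q_gt_one q)).ne'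
  unfold h57_r
  rw [pow_add, inv_pow, inv_pow, mul_comm ((q : ℝ) ^ m)⁻¹, ← mul_assoc,
    mul_inv_cancel₀ (pow_ne_zero a hq0), one_mul]

/-- A real number bounded by all powers of `r` is `≤ 0`. -/
theorem h57_le_zero_of_le_pow {x : ℝ} (m : ℕ) (h : ∀ k : ℕ, x ≤ h57_r q ^ (m + k)) : x ≤ 0 := by
  by_contra hx
  push Not at hx
  obtain ⟨k, hk⟩ := exists_pow_lt_of_lt_one hx (h57_r_lt_one q)
  have h1 := h k
  have h2 : h57_r q ^ (m + k) ≤ h57_r q ^ k := h57_r_pow_anti q (Nat.le_add_left k m)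
  linarith

/-- Uniform bound of the coordinates by the spectral norm. -/
theorem h57_exists_coord_bound :
    ∃ a : ℕ, ∀ (y : L) (j : J), ‖B.repr y j‖ ≤ (q : ℝ) ^ a * h57_S q L y := by
  classical
  let _ : NormedField L := spectralNorm.normedField ℚ_[q] L
  let _ : NormedSpace ℚ_[q] L := spectralNorm.normedSpace ℚ_[q] L
  have hnorm : ∀ y : L, ‖y‖ = h57_S q L y := fun y => rfl
  have hq : (1 : ℝ) < q := h57_q_gt_one q
  have key : ∀ j : J, ∃ a : ℕ, ∀ y : L, ‖B.repr y j‖ ≤ (q : ℝ) ^ a * h57_S q L y := by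
    intro j
    obtain ⟨C, hC, h⟩ := (LinearMap.toContinuousLinearMap (B.coord j)).bound
    obtain ⟨a, ha⟩ := pow_unbounded_of_one_lt C hq
    refine ⟨a, fun y => ?_⟩
    have := h y
    rw [hnorm] at this
    calc ‖B.repr y j‖ = ‖B.coord j y‖ := rfl
      _ ≤ C * h57_S q L y := this
      _ ≤ (q : ℝ) ^ a * h57_S q L y :=
        mul_le_mul_of_nonneg_right ha.le (h57_S_nonneg q L y)
  choose a ha using key
  refine ⟨Finset.univ.sup a, fun y j => (ha j y).trans ?_⟩
  apply mul_le_mul_of_nonneg_right _ (h57_S_nonneg q L y)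
  exact pow_le_pow_right₀ hq.le (Finset.le_sup (Finset.mem_univ j))

/-- The lattice of vectors all of whose `B`-coordinates have norm `≤ r^m`. -/
def h57_Lam (m : ℕ) : AddSubgroup L where
  carrier := {y | ∀ j, ‖B.repr y j‖ ≤ h57_r q ^ m}
  zero_mem' := fun j => by simpa using (h57_r_pow_pos q m).le
  add_mem' := fun {x y} hx hy j => by
    rw [map_add, Finsupp.add_apply]
    exact (IsUltrametricDist.norm_add_le_max _ _).trans (max_le (hx j) (hy j))
  neg_mem' := fun {x} hx j => by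
    rw [map_neg, Finsupp.neg_apply, norm_neg]
    exact hx j

theorem h57_mem_Lam {m : ℕ} {y : L} :
    y ∈ h57_Lam q L B m ↔ ∀ j, ‖B.repr y j‖ ≤ h57_r q ^ m := Iff.rfl

theorem h57_Lam_anti {m m' : ℕ} (h : m ≤ m') : h57_Lam q L B m' ≤ h57_Lam q L B m :=
  fun _ hy j => (hy j).trans (h57_r_pow_anti q h)

/-- Scalar multiples: `‖c‖ ≤ r^k`, `y ∈ Λ_m` gives `c • y ∈ Λ_(m+k)`. -/
theorem h57_smul_mem_Lam {m k : ℕ} {c : ℚ_[q]} {y : L} (hc : ‖c‖ ≤ h57_r q ^ k)
    (hy : y ∈ h57_Lam q L B m) : c • y ∈ h57_Lam q L B (m + k) := by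
  intro j
  rw [map_smul, Finsupp.smul_apply, smul_eq_mul, norm_mul, pow_add, mul_comm]
  exact mul_le_mul (hy j) hc (norm_nonneg _) (h57_r_pow_pos q m).le

/-- Basis vectors lie in `Λ_0`. -/
theorem h57_basis_mem_Lam (j : J) : B j ∈ h57_Lam q L B 0 := by
  classical
  intro k
  rw [Module.Basis.repr_self, Finsupp.single_apply, pow_zero]
  split_ifs
  · simp
  · simp

/-- `c • B j ∈ Λ_m` when `‖c‖ ≤ r^m`. -/
theorem h57_smul_basis_mem_Lam {m : ℕ} {c : ℚ_[q]} (hc : ‖c‖ ≤ h57_r q ^ m) (j : J) :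
    c • B j ∈ h57_Lam q L B m := by
  have := h57_smul_mem_Lam q L B hc (h57_basis_mem_Lam q L B j)
  rwa [zero_add] at this

/-- (C1) vectors of `Λ_m` have spectral norm `≤ r^m` (when the basis vectors have norm `≤ 1`). -/
theorem h57_S_le_of_mem_Lam (hB : ∀ j, h57_S q L (B j) ≤ 1) {m : ℕ} {y : L}
    (hy : y ∈ h57_Lam q L B m) : h57_S q L y ≤ h57_r q ^ m := by
  rw [← B.sum_repr y]
  apply h57_S_sum_le q L _ _ (h57_r_pow_pos q m).le
  intro j _
  rw [h57_S_smul]
  calc ‖B.repr y j‖ * h57_S q L (B j) ≤ h57_r q ^ m * 1 :=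
        mul_le_mul (hy j) (hB j) (h57_S_nonneg q L _) (h57_r_pow_pos q m).le
    _ = h57_r q ^ m := mul_one _

/-- (C2) vectors of spectral norm `≤ r^(m+a)` lie in `Λ_m`. -/
theorem h57_mem_Lam_of_S_le {a : ℕ}
    (ha : ∀ (y : L) (j : J), ‖B.repr y j‖ ≤ (q : ℝ) ^ a * h57_S q L y) {m : ℕ} {y : L}
    (hy : h57_S q L y ≤ h57_r q ^ (m + a)) : y ∈ h57_Lam q L B m := by
  intro j
  calc ‖B.repr y j‖ ≤ (q : ℝ) ^ a * h57_S q L y := ha y j
    _ ≤ (q : ℝ) ^ a * h57_r q ^ (m + a) :=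
      mul_le_mul_of_nonneg_left hy (pow_nonneg (zero_le_one.trans (h57_q_gt_one q).le) a)
    _ = h57_r q ^ m := h57_q_pow_mul_r_pow q m a

/-- `q`-adic completeness of `ℚ_q` in the form needed for successive approximation. -/
theorem h57_padic_limit (M : ℕ) (c : ℕ → ℚ_[q])
    (h : ∀ k, ‖c (k + 1) - c k‖ ≤ h57_r q ^ (M + k)) :
    ∃ x : ℚ_[q], ∀ k, ‖x - c k‖ ≤ h57_r q ^ (M + k) := by
  have hmono : ∀ k j, k ≤ j → ‖c j - c k‖ ≤ h57_r q ^ (M + k) := by
    intro k j hkj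
    induction j, hkj using Nat.le_induction with
    | base => simpa using (h57_r_pow_pos q (M + k)).le
    | succ j hkj ih =>
      have e : c (j + 1) - c k = (c (j + 1) - c j) + (c j - c k) := by ring
      rw [e]
      refine (IsUltrametricDist.norm_add_le_max _ _).trans (max_le ((h j).trans ?_) ih)
      exact h57_r_pow_anti q (by omega)
  have hcau : CauchySeq c := by
    apply cauchySeq_of_le_geometric (h57_r q) (h57_r q ^ M) (h57_r_lt_one q)
    intro n
    rw [dist_eq_norm, ← norm_neg, neg_sub, ← pow_add]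
    exact h n
  obtain ⟨x, hx⟩ := cauchySeq_tendsto_of_complete hcau
  refine ⟨x, fun k => ?_⟩
  have ht : Filter.Tendsto (fun j => ‖c j - c k‖) Filter.atTop (nhds ‖x - c k‖) :=
    (hx.sub_const (c k)).norm
  apply le_of_tendsto ht
  filter_upwards [Filter.eventually_ge_atTop k] with j hj
  exact hmono k j hj

/-- `q`-adic completeness of the lattices `Λ_m`. -/
theorem h57_Lam_limit (M : ℕ) (x : ℕ → L)
    (h : ∀ k, x (k + 1) - x k ∈ h57_Lam q L B (M + k)) :
    ∃ y : L, ∀ k, y - x k ∈ h57_Lam q L B (M + k) := by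
  have key : ∀ j : J, ∃ c : ℚ_[q], ∀ k, ‖c - B.repr (x k) j‖ ≤ h57_r q ^ (M + k) := by
    intro j
    apply h57_padic_limit q M (fun k => B.repr (x k) j)
    intro k
    have := h k j
    rwa [map_sub, Finsupp.sub_apply] at this
  choose c hc using key
  refine ⟨B.equivFun.symm c, fun k j => ?_⟩
  rw [map_sub, Finsupp.sub_apply]
  have : B.repr (B.equivFun.symm c) j = c j := by
    have h1 := B.equivFun.apply_symm_apply c
    exact congrFun h1 j
  rw [this]
  exact hc j k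

end Lattice

end Fermat.Agent.S55
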