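import Mathlib

set_option autoImplicit false
set_option linter.unusedSectionVars false

/-!
# Finite extensions of `ℚ_q`: the spectral norm and the valuation `v_q ∘ N` (S55, block LOC-AXIOM)

For a finite extension `L` of `ℚ_[q]` we collect, with short names, the properties of the
spectral norm `h57_S q L` (Mathlib's `spectralNorm ℚ_[q] L`): it is a multiplicative
ultrametric norm extending the `q`-adic norm, invariant under `ℚ_[q]`-automorphisms, and
`‖N_{L/ℚ_q} x‖ = S(x) ^ [L : ℚ_q]` (`h57_S_norm`).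
-/

namespace Fermat.Agent.S55

open Polynomial

section Spectral

variable (q : ℕ) [Fact q.Prime] (L : Type*) [Field L] [Algebra ℚ_[q] L]
  [FiniteDimensional ℚ_[q] L]

/-- The spectral norm on a finite extension of `ℚ_q`. -/
noncomputable def h57_S (x : L) : ℝ := spectralNorm ℚ_[q] L x

theorem h57_S_mul (x y : L) : h57_S q L (x * y) = h57_S q L x * h57_S q L y :=
  spectralAlgNorm_mul (K := ℚ_[q]) x y

theorem h57_S_zero : h57_S q L 0 = 0 := spectralNorm_zero

theorem h57_S_one : h57_S q L 1 = 1 := spectralNorm_one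

theorem h57_S_nonneg (x : L) : 0 ≤ h57_S q L x := spectralNorm_nonneg x

theorem h57_S_pos {x : L} (hx : x ≠ 0) : 0 < h57_S q L x :=
  spectralNorm_zero_lt hx (Algebra.IsAlgebraic.isAlgebraic x)

theorem h57_S_eq_zero {x : L} : h57_S q L x = 0 ↔ x = 0 := by
  constructor
  · intro h
    by_contra hx
    exact (h57_S_pos q L hx).ne' h
  · rintro rfl
    exact h57_S_zero q L

theorem h57_S_neg (x : L) : h57_S q L (-x) = h57_S q L x :=
  spectralNorm_neg (Algebra.IsAlgebraic.isAlgebraic x)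

theorem h57_S_add_le (x y : L) : h57_S q L (x + y) ≤ max (h57_S q L x) (h57_S q L y) :=
  isNonarchimedean_spectralNorm (K := ℚ_[q]) (L := L) x y

theorem h57_S_sub_le (x y : L) : h57_S q L (x - y) ≤ max (h57_S q L x) (h57_S q L y) := by
  rw [sub_eq_add_neg]
  have := h57_S_add_le q L x (-y)
  rwa [h57_S_neg] at this

theorem h57_S_add_le_of {x y : L} {ε : ℝ} (hx : h57_S q L x ≤ ε) (hy : h57_S q L y ≤ ε) :
    h57_S q L (x + y) ≤ ε :=
  (h57_S_add_le q L x y).trans (max_le hx hy)

theorem h57_S_sub_le_of {x y : L} {ε : ℝ} (hx : h57_S q L x ≤ ε) (hy : h57_S q L y ≤ ε) :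
    h57_S q L (x - y) ≤ ε :=
  (h57_S_sub_le q L x y).trans (max_le hx hy)

theorem h57_S_algebraMap (c : ℚ_[q]) : h57_S q L (algebraMap ℚ_[q] L c) = ‖c‖ :=
  spectralNorm_extends c

theorem h57_S_smul (c : ℚ_[q]) (x : L) : h57_S q L (c • x) = ‖c‖ * h57_S q L x := by
  rw [Algebra.smul_def, h57_S_mul, h57_S_algebraMap]

theorem h57_S_equiv (σ : L ≃ₐ[ℚ_[q]] L) (x : L) : h57_S q L (σ x) = h57_S q L x :=
  (spectralNorm_eq_of_equiv σ x).symm

theorem h57_S_inv (x : L) : h57_S q L x⁻¹ = (h57_S q L x)⁻¹ := by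
  by_cases hx : x = 0
  · simp [hx, h57_S_zero]
  · have h := h57_S_mul q L x x⁻¹
    rw [mul_inv_cancel₀ hx, h57_S_one] at h
    exact eq_inv_of_mul_eq_one_right h.symm

theorem h57_S_div (x y : L) : h57_S q L (x / y) = h57_S q L x / h57_S q L y := by
  rw [div_eq_mul_inv, h57_S_mul, h57_S_inv, div_eq_mul_inv]

theorem h57_S_pow (x : L) (n : ℕ) : h57_S q L (x ^ n) = h57_S q L x ^ n := by
  induction n with
  | zero => simp [h57_S_one]
  | succ n ih => rw [pow_succ, h57_S_mul, ih, pow_succ]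

theorem h57_S_prod {ι : Type*} (s : Finset ι) (f : ι → L) :
    h57_S q L (∏ i ∈ s, f i) = ∏ i ∈ s, h57_S q L (f i) := by
  classical
  induction s using Finset.induction_on with
  | empty => simp [h57_S_one]
  | insert a s ha ih => rw [Finset.prod_insert ha, Finset.prod_insert ha, h57_S_mul, ih]

theorem h57_S_sum_le {ι : Type*} (s : Finset ι) (f : ι → L) {ε : ℝ} (hε : 0 ≤ ε)
    (h : ∀ i ∈ s, h57_S q L (f i) ≤ ε) : h57_S q L (∑ i ∈ s, f i) ≤ ε := by
  classical
  induction s using Finset.induction_on with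
  | empty => simpa [h57_S_zero] using hε
  | insert a s ha ih =>
    rw [Finset.sum_insert ha]
    exact h57_S_add_le_of q L (h a (Finset.mem_insert_self a s))
      (ih fun i hi => h i (Finset.mem_insert_of_mem hi))

/-- `S(1 + y) = 1` when `S(y) < 1`. -/
theorem h57_S_one_add {y : L} (hy : h57_S q L y < 1) : h57_S q L (1 + y) = 1 := by
  apply le_antisymm
  · exact h57_S_add_le_of q L (h57_S_one q L).le hy.le
  · by_contra hlt
    push Not at hlt
    have h1 : h57_S q L ((1 + y) - y) ≤ max (h57_S q L (1 + y)) (h57_S q L y) :=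
      h57_S_sub_le q L _ _
    rw [add_sub_cancel_right, h57_S_one] at h1
    exact absurd h1 (not_le.mpr (max_lt hlt hy))

/-- `‖N_{L/ℚ_q} x‖ = S(x) ^ [L : ℚ_q]`. -/
theorem h57_S_norm (x : L) :
    ‖Algebra.norm ℚ_[q] x‖ = h57_S q L x ^ Module.finrank ℚ_[q] L := by
  have hint : IsIntegral ℚ_[q] x := Algebra.IsIntegral.isIntegral x
  have hd : 0 < (minpoly ℚ_[q] x).natDegree := minpoly.natDegree_pos hint
  have h1 := Algebra.norm_eq_norm_adjoin ℚ_[q] x
  have h2 := Algebra.PowerBasis.norm_gen_eq_coeff_zero_minpoly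
    (IntermediateField.adjoin.powerBasis hint)
  rw [IntermediateField.adjoin.powerBasis_gen, IntermediateField.minpoly_gen] at h2
  have h3 : h57_S q L x ^ (minpoly ℚ_[q] x).natDegree = ‖(minpoly ℚ_[q] x).coeff 0‖ := by
    unfold h57_S
    rw [spectralNorm.spectralNorm_eq_norm_coeff_zero_rpow, ← Real.rpow_natCast,
      ← Real.rpow_mul (norm_nonneg _), one_div, inv_mul_cancel₀ (by exact_mod_cast hd.ne'),
      Real.rpow_one]
  have h4 : Module.finrank ℚ_[q] L
      = (minpoly ℚ_[q] x).natDegree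
        * Module.finrank (IntermediateField.adjoin ℚ_[q] {x}) L := by
    rw [← IntermediateField.adjoin.finrank hint, Module.finrank_mul_finrank]
  rw [h1, h2, norm_pow, norm_mul, norm_pow, norm_neg, norm_one, one_pow, one_mul, ← h3,
    ← pow_mul, ← h4]

/-- `‖c‖ = 1 ↔ v_q(c) = 0` for a nonzero `q`-adic number. -/
theorem h57_padic_norm_eq_one_iff {c : ℚ_[q]} (hc : c ≠ 0) : ‖c‖ = 1 ↔ c.valuation = 0 := by
  rw [Padic.norm_eq_zpow_neg_valuation hc]
  have hq : (1 : ℝ) < q := by exact_mod_cast (Fact.out : q.Prime).one_lt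
  constructor
  · intro h
    have := (zpow_eq_one_iff_right₀ (by positivity) hq.ne').mp h
    omega
  · intro h
    simp [h]

/-- The valuation `v_q ∘ N_{L/ℚ_q}` on `Lˣ`, as an additive homomorphism. -/
noncomputable def h57_v : Additive Lˣ →+ ℤ where
  toFun x := Padic.valuation (Algebra.norm ℚ_[q] ((Additive.toMul x : Lˣ) : L))
  map_zero' := by simp [Padic.valuation_one]
  map_add' x y := by
    rw [toMul_add, Units.val_mul, map_mul]
    exact Padic.valuation_mul (Algebra.norm_ne_zero_iff.mpr (Units.ne_zero _))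
      (Algebra.norm_ne_zero_iff.mpr (Units.ne_zero _))

theorem h57_v_apply (x : Lˣ) :
    h57_v q L (Additive.ofMul x) = Padic.valuation (Algebra.norm ℚ_[q] (x : L)) := rfl

/-- The kernel of `v` is the group of elements of spectral norm `1`. -/
theorem h57_v_eq_zero_iff (x : Lˣ) :
    h57_v q L (Additive.ofMul x) = 0 ↔ h57_S q L (x : L) = 1 := by
  have hd : Module.finrank ℚ_[q] L ≠ 0 := Module.finrank_pos.ne'
  rw [h57_v_apply, ← h57_padic_norm_eq_one_iff q (Algebra.norm_ne_zero_iff.mpr x.ne_zero),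
    h57_S_norm, pow_eq_one_iff_of_nonneg (h57_S_nonneg q L _) hd]

/-- `v` is invariant under `ℚ_q`-automorphisms. -/
theorem h57_v_equiv (σ : L ≃ₐ[ℚ_[q]] L) (x : Lˣ) :
    h57_v q L (Additive.ofMul (Units.map (σ : L →* L) x)) = h57_v q L (Additive.ofMul x) := by
  rw [h57_v_apply, h57_v_apply]
  congr 1
  exact Algebra.norm_eq_of_algEquiv σ (x : L)

/-- `v` is not identically zero. -/
theorem h57_v_ne_zero : ∃ x : Lˣ, h57_v q L (Additive.ofMul x) ≠ 0 := by
  have hq0 : algebraMap ℚ_[q] L (q : ℚ_[q]) ≠ 0 := by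
    rw [Ne, map_eq_zero]
    exact_mod_cast (Fact.out : q.Prime).ne_zero
  refine ⟨Units.mk0 _ hq0, ?_⟩
  rw [Ne, h57_v_eq_zero_iff, Units.val_mk0, h57_S_algebraMap, Padic.norm_p]
  have hq : (1 : ℝ) < q := by exact_mod_cast (Fact.out : q.Prime).one_lt
  intro h
  rw [inv_eq_one] at h
  exact hq.ne' h

end Spectral

end Fermat.Agent.S55
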