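import Fermat.Agent.S55.h57_LocalNormIndex
import Fermat.Agent.S55.h28_SemilocAbs
import Fermat.Agent.S55.h92_FirstIneq

set_option autoImplicit false
set_option linter.unusedSectionVars false

/-!
# Consumers of the local norm index: cyclic steps and the semi-local inputs (S55, LOC-1-ADAPT)

* `h57_cyclic_step`: a field `M` finite over `ℚ_q` with an automorphism `σ` of prime order `p`:
  `[(M^σ)ˣ : N_σ Mˣ] = p` and Hilbert 90, in the `h92_mD` / `h92_mN` language.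
* `h57_cyclic_step_sub`: the same for a subfield `M` of a big field `Ω`, stable under `τ₀`.
* `h57_semiloc_local`: the hypotheses `hloc` (with `n = p`) and `h90` of helper28's semi-local
  theorems `h28_semiloc_index` / `h28_semiloc_h90` for `J_q(L)`.
-/

namespace Fermat.Agent.S55

open Finset

/-- Multiplicative form of `h57_local_herbrand`. -/
theorem h57_local_herbrand_mul (q : ℕ) [Fact q.Prime] (K L : Type*) [Field K] [Field L]
    [Algebra ℚ_[q] K] [Algebra ℚ_[q] L] [Algebra K L] [IsScalarTower ℚ_[q] K L]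
    [FiniteDimensional ℚ_[q] L] [FiniteDimensional K L] [IsGalois K L] (σ : L ≃ₐ[K] L)
    (hσ : ∀ τ : L ≃ₐ[K] L, τ ∈ Subgroup.zpowers σ) :
    (h57_mN K L).range.relIndex (h57_mD K L σ).ker = Fintype.card (L ≃ₐ[K] L) := by
  have key := h57_local_herbrand q K L σ hσ
  have e1 : Subgroup.toAddSubgroup (h57_mN K L).range
      = (MonoidHom.toAdditive (h57_mN K L)).range := by
    ext x
    rfl
  have e2 : Subgroup.toAddSubgroup (h57_mD K L σ).ker
      = (MonoidHom.toAdditive (h57_mD K L σ)).ker := by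
    ext x
    rfl
  rw [← Subgroup.relIndex_toAddSubgroup, e1, e2]
  exact key

/-- A field `M` finite over `ℚ_q` with an automorphism `σ` of prime order `p`:
`[(M^σ)ˣ : N_σ Mˣ] = p` and Hilbert 90, in the `h92_mD` / `h92_mN` language. -/
theorem h57_cyclic_step (q : ℕ) [Fact q.Prime] {p : ℕ} (hp : p.Prime)
    (M : Type*) [Field M] [Algebra ℚ_[q] M] [FiniteDimensional ℚ_[q] M]
    (σ : M ≃ₐ[ℚ_[q]] M) (hσp : σ ^ p = 1) (hσ1 : σ ≠ 1) :
    (h92_mN σ p : Mˣ →* Mˣ).range.relIndex (h92_mD σ : Mˣ →* Mˣ).ker = p ∧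
    ∀ x : Mˣ, h92_mN σ p x = 1 → ∃ y : Mˣ, x = h92_mD σ y := by
  classical
  have : Fact p.Prime := ⟨hp⟩
  have hord : orderOf σ = p := orderOf_eq_prime hσp hσ1
  obtain ⟨H, hH⟩ : ∃ H : Subgroup (M ≃ₐ[ℚ_[q]] M), H = Subgroup.zpowers σ := ⟨_, rfl⟩
  have hσH : σ ∈ H := by rw [hH]; exact Subgroup.mem_zpowers σ
  have : IsGalois (IntermediateField.fixedField H) M := IsGalois.of_fixed_field M H
  let e : H ≃* (M ≃ₐ[IntermediateField.fixedField H] M) :=
    IntermediateField.subgroupEquivAlgEquiv H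
  have hecoe : ∀ (ρ : H) (x : M), e ρ x = (ρ : M ≃ₐ[ℚ_[q]] M) x := fun ρ x => rfl
  obtain ⟨σ', hσ'⟩ : ∃ σ' : M ≃ₐ[IntermediateField.fixedField H] M, σ' = e ⟨σ, hσH⟩ :=
    ⟨_, rfl⟩
  have hσ'coe : ∀ x : M, σ' x = σ x := by
    intro x; rw [hσ']; rfl
  have hpowcoe : ∀ (k : ℕ) (x : M), (σ' ^ k) x = (σ ^ k) x := by
    intro k
    induction k with
    | zero => intro x; rfl
    | succ k ih =>
      intro x
      rw [pow_succ, pow_succ, AlgEquiv.mul_apply, AlgEquiv.mul_apply, ih, hσ'coe]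
  have hgen : ∀ τ : M ≃ₐ[IntermediateField.fixedField H] M, τ ∈ Subgroup.zpowers σ' := by
    intro τ
    obtain ⟨⟨ρ, hρ⟩, rfl⟩ := e.surjective τ
    have hρ' : ρ ∈ Subgroup.zpowers σ := by rw [← hH]; exact hρ
    obtain ⟨k, hk⟩ := Subgroup.mem_zpowers_iff.mp hρ'
    refine Subgroup.mem_zpowers_iff.mpr ⟨k, ?_⟩
    rw [hσ', ← map_zpow]
    congr 1
    apply Subtype.ext
    rw [Subgroup.coe_zpow]
    exact hk
  have hcard : Fintype.card (M ≃ₐ[IntermediateField.fixedField H] M) = p := by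
    rw [← Nat.card_eq_fintype_card, ← Nat.card_congr e.toEquiv, hH, Nat.card_zpowers, hord]
  have hord' : orderOf σ' = p := by
    rw [orderOf_eq_card_of_forall_mem_zpowers hgen, Nat.card_eq_fintype_card, hcard]
  have key := h57_local_herbrand_mul q (IntermediateField.fixedField H) M σ' hgen
  rw [hcard] at key
  have hN : h57_mN (IntermediateField.fixedField H) M = (h92_mN σ p : Mˣ →* Mˣ) := by
    ext x
    rw [h57_mN_coe, h92_mN_apply, Units.coe_prod, ← hord',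
      ← IsCyclic.image_range_orderOf hgen, Finset.prod_image]
    · refine Finset.prod_congr rfl fun k _ => ?_
      rw [hpowcoe]
      rfl
    · intro i hi j hj hij
      exact pow_injOn_Iio_orderOf (by simpa using hi) (by simpa using hj) hij
  have hD : h57_mD (IntermediateField.fixedField H) M σ' = (h92_mD σ : Mˣ →* Mˣ) := by
    ext x
    rw [h57_mD_coe, h92_mD_apply, Units.val_div_eq_div_val, hσ'coe]
    rfl
  refine ⟨?_, ?_⟩
  · rw [← hN, ← hD]
    exact key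
  · intro x hx
    rw [← hN] at hx
    obtain ⟨y, hy⟩ := h57_cyclic_h90 σ' hgen x hx
    refine ⟨y, ?_⟩
    rw [← hD]
    exact hy.symm

/-- The units of an intermediate field, as a subgroup of the units of the big field. -/
def h57_unitsOf {F Ω : Type*} [Field F] [Field Ω] [Algebra F Ω] (M : IntermediateField F Ω) :
    Subgroup Ωˣ where
  carrier := {a | (a : Ω) ∈ M}
  one_mem' := by
    show ((1 : Ωˣ) : Ω) ∈ M
    rw [Units.val_one]
    exact one_mem M
  mul_mem' := fun {a b} ha hb => by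
    show ((a * b : Ωˣ) : Ω) ∈ M
    rw [Units.val_mul]
    exact mul_mem ha hb
  inv_mem' := fun {a} ha => by
    show ((a⁻¹ : Ωˣ) : Ω) ∈ M
    rw [Units.val_inv_eq_inv_val]
    exact inv_mem ha

theorem h57_mem_unitsOf {F Ω : Type*} [Field F] [Field Ω] [Algebra F Ω]
    {M : IntermediateField F Ω} {a : Ωˣ} : a ∈ h57_unitsOf M ↔ (a : Ω) ∈ M := Iff.rfl

set_option synthInstance.maxHeartbeats 400000 in
/-- The cyclic step inside a big field `Ω`: `M` a finite extension of `ℚ_q` inside `Ω`, stable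
under `τ₀ ∈ Aut(Ω/ℚ_q)`, on which `τ₀` has prime order `p`.  Then the Herbrand index of
`(τ₀ - 1, N_τ₀)` on `Mˣ ⊆ Ωˣ` is `p`, and Hilbert 90 holds. -/
theorem h57_cyclic_step_sub (q : ℕ) [Fact q.Prime] {p : ℕ} (hp : p.Prime)
    {Ω : Type*} [Field Ω] [Algebra ℚ_[q] Ω] (M : IntermediateField ℚ_[q] Ω)
    [FiniteDimensional ℚ_[q] M] (τ₀ : Ω ≃ₐ[ℚ_[q]] Ω) (hstab : ∀ x ∈ M, τ₀ x ∈ M)
    (hpow : ∀ x ∈ M, (τ₀ ^ p) x = x) (hne : ∃ x ∈ M, τ₀ x ≠ x) :
    h92_hq (h92_mD τ₀) (h92_mN τ₀ p) (h57_unitsOf M) = p ∧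
    ∀ x ∈ h57_unitsOf M, h92_mN τ₀ p x = 1 → ∃ y ∈ h57_unitsOf M, x = h92_mD τ₀ y := by
  classical
  let σ₀ : M →ₐ[ℚ_[q]] M :=
    ((τ₀ : Ω →ₐ[ℚ_[q]] Ω).comp M.val).codRestrict M.toSubalgebra (fun x => hstab x x.2)
  obtain ⟨σ, hσ⟩ : ∃ σ : M ≃ₐ[ℚ_[q]] M, σ = AlgEquiv.ofBijective σ₀ (AlgHom.bijective σ₀) :=
    ⟨_, rfl⟩
  have hσcoe : ∀ x : M, ((σ x : M) : Ω) = τ₀ (x : Ω) := by
    intro x; rw [hσ]; rfl
  have hσpow : ∀ (k : ℕ) (x : M), (((σ ^ k) x : M) : Ω) = (τ₀ ^ k) (x : Ω) := by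
    intro k
    induction k with
    | zero => intro x; rfl
    | succ k ih =>
      intro x
      rw [pow_succ, pow_succ, AlgEquiv.mul_apply, AlgEquiv.mul_apply, ih, hσcoe]
  have hσp : σ ^ p = 1 := by
    ext x
    rw [hσpow, hpow x x.2]
    rfl
  have hσ1 : σ ≠ 1 := by
    obtain ⟨x, hxM, hx⟩ := hne
    intro h
    apply hx
    have h3 : ((σ ⟨x, hxM⟩ : M) : Ω) = x := by rw [h]; rfl
    rw [hσcoe] at h3
    exact h3
  obtain ⟨h1, h2⟩ := h57_cyclic_step q hp M σ hσp hσ1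
  obtain ⟨ι, hι⟩ : ∃ ι : Mˣ →* Ωˣ, ι = Units.map (M.val : M →* Ω) := ⟨_, rfl⟩
  have hιcoe : ∀ y : Mˣ, ((ι y : Ωˣ) : Ω) = ((y : M) : Ω) := by
    intro y; rw [hι]; rfl
  have hιinj : Function.Injective ι := by
    intro x y hxy
    apply Units.ext
    apply Subtype.ext
    rw [← hιcoe, ← hιcoe, hxy]
  have hrange : (⊤ : Subgroup Mˣ).map ι = h57_unitsOf M := by
    ext a
    constructor
    · rintro ⟨y, -, rfl⟩
      show ((ι y : Ωˣ) : Ω) ∈ M
      rw [hιcoe]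
      exact (y : M).2
    · intro ha
      have ha' : (a : Ω) ∈ M := ha
      have ha0 : (⟨(a : Ω), ha'⟩ : M) ≠ 0 := by
        intro h0
        exact a.ne_zero (congrArg Subtype.val h0)
      refine ⟨Units.mk0 ⟨(a : Ω), ha'⟩ ha0, Subgroup.mem_top _, ?_⟩
      apply Units.ext
      rw [hιcoe]
      rfl
  have hsm : ∀ (k : ℕ) (u : Mˣ), ι ((σ ^ k • u : Mˣ)) = ((τ₀ ^ k • ι u : Ωˣ)) := by
    intro k u
    apply Units.ext
    rw [hιcoe, AlgEquiv.smul_units_def, AlgEquiv.smul_units_def]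
    show (((σ ^ k) (u : M) : M) : Ω) = (τ₀ ^ k) ((ι u : Ωˣ) : Ω)
    rw [hσpow, hιcoe]
  have hf : ∀ u : Mˣ, ι (h92_mD σ u) = h92_mD τ₀ (ι u) := by
    intro u
    rw [h92_mD_apply, h92_mD_apply, map_div]
    congr 1
    have := hsm 1 u
    rwa [pow_one, pow_one] at this
  have hg : ∀ u : Mˣ, ι (h92_mN σ p u) = h92_mN τ₀ p (ι u) := by
    intro u
    rw [h92_mN_apply, h92_mN_apply, map_prod]
    exact Finset.prod_congr rfl fun k _ => hsm k u
  refine ⟨?_, ?_⟩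
  · rw [← hrange, h92_hq_map ι hιinj (h92_mD σ) (h92_mN σ p) (h92_mD τ₀) (h92_mN τ₀ p) hf hg ⊤,
      h92_hq_def, ← MonoidHom.range_eq_map, top_inf_eq]
    exact h1
  · intro x hx hxN
    rw [← hrange] at hx
    obtain ⟨u, -, rfl⟩ := hx
    rw [← hg] at hxN
    have hu : h92_mN σ p u = 1 := hιinj (hxN.trans (map_one ι).symm)
    obtain ⟨y, hy⟩ := h2 u hu
    refine ⟨ι y, ?_, ?_⟩
    · rw [← hrange]
      exact ⟨y, Subgroup.mem_top _, rfl⟩
    · rw [hy, hf]

/-- `ℚ_q(j(L))` is finite over `ℚ_q` for a number field `L`. -/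
theorem h57_finite_adjoin_range (q : ℕ) [Fact q.Prime] {Ω : Type*} [Field Ω] [Algebra ℚ_[q] Ω]
    [Algebra.IsAlgebraic ℚ_[q] Ω] {L : Type*} [Field L] [NumberField L] (j : L →+* Ω) :
    FiniteDimensional ℚ_[q] (IntermediateField.adjoin ℚ_[q] (Set.range j)) := by
  classical
  let b := Module.finBasis ℚ L
  have hS : ∀ x ∈ Set.range (fun i => j (b i)), IsIntegral ℚ_[q] x :=
    fun x _ => Algebra.IsIntegral.isIntegral x
  have hfin := IntermediateField.finiteDimensional_adjoin hS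
  have hle : IntermediateField.adjoin ℚ_[q] (Set.range j)
      ≤ IntermediateField.adjoin ℚ_[q] (Set.range (fun i => j (b i))) := by
    rw [IntermediateField.adjoin_le_iff]
    rintro _ ⟨x, rfl⟩
    rw [← b.sum_repr x, map_sum]
    refine sum_mem fun i _ => ?_
    rw [Algebra.smul_def, map_mul]
    refine mul_mem ?_ (IntermediateField.subset_adjoin _ _ ⟨i, rfl⟩)
    have e : j (algebraMap ℚ L (b.repr x i))
        = algebraMap ℚ_[q] Ω ((b.repr x i : ℚ) : ℚ_[q]) := by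
      rw [eq_ratCast, map_ratCast]
      exact (map_ratCast (algebraMap ℚ_[q] Ω) _).symm
    rw [e]
    exact IntermediateField.algebraMap_mem _ _
  have heq : IntermediateField.adjoin ℚ_[q] (Set.range j)
      = IntermediateField.adjoin ℚ_[q] (Set.range (fun i => j (b i))) :=
    le_antisymm hle (IntermediateField.adjoin.mono _ _ _
      (by rintro _ ⟨i, rfl⟩; exact ⟨b i, rfl⟩))
  rw [heq]
  exact hfin

/-- An element fixed by `τ` lies in the fixed field of `⟨τ⟩`. -/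
theorem h57_mem_fixedField_zpowers {F Ω : Type*} [Field F] [Field Ω] [Algebra F Ω]
    (τ : Ω ≃ₐ[F] Ω) {x : Ω} (hx : τ x = x) :
    x ∈ IntermediateField.fixedField (Subgroup.zpowers τ) := by
  rw [IntermediateField.mem_fixedField_iff]
  intro ρ hρ
  have h : Subgroup.zpowers τ ≤ MulAction.stabilizer (Ω ≃ₐ[F] Ω) x := by
    rw [Subgroup.zpowers_le, MulAction.mem_stabilizer_iff]
    exact hx
  exact MulAction.mem_stabilizer_iff.mp (h hρ)

/-- An automorphism fixing a set pointwise fixes the field it generates pointwise. -/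
theorem h57_fix_adjoin {F Ω : Type*} [Field F] [Field Ω] [Algebra F Ω] (S : Set Ω)
    (τ : Ω ≃ₐ[F] Ω) (h : ∀ y ∈ S, τ y = y) : ∀ x ∈ IntermediateField.adjoin F S, τ x = x := by
  have hle : IntermediateField.adjoin F S
      ≤ IntermediateField.fixedField (Subgroup.zpowers τ) := by
    rw [IntermediateField.adjoin_le_iff]
    intro y hy
    exact h57_mem_fixedField_zpowers τ (h y hy)
  intro x hx
  exact (IntermediateField.mem_fixedField_iff _ x).mp (hle hx) τ (Subgroup.mem_zpowers τ)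

/-- Infinite Galois theory: the units fixed by the fixing subgroup of `M` are the units of `M`. -/
theorem h57_fix_iff_mem_unitsOf {F Ω : Type*} [Field F] [Field Ω] [Algebra F Ω] [IsGalois F Ω]
    (M : IntermediateField F Ω) (a : Ωˣ) :
    (∀ τ : Ω ≃ₐ[F] Ω, (∀ x ∈ M, τ x = x) → τ • a = a) ↔ a ∈ h57_unitsOf M := by
  rw [h57_mem_unitsOf]
  conv_rhs => rw [← InfiniteGalois.fixedField_fixingSubgroup M]
  rw [IntermediateField.mem_fixedField_iff]
  constructor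
  · intro h τ hτ
    have h1 := h τ ((IntermediateField.mem_fixingSubgroup_iff M τ).mp hτ)
    have h2 : ((τ • a : Ωˣ) : Ω) = (a : Ω) := by rw [h1]
    rw [AlgEquiv.smul_units_def] at h2
    exact h2
  · intro h τ hτ
    apply Units.ext
    rw [AlgEquiv.smul_units_def]
    exact h τ ((IntermediateField.mem_fixingSubgroup_iff M τ).mpr hτ)

/-- **The local inputs of the semi-local theorems** (`hloc` with `n = p` and `h90` of
`h28_semiloc_index` / `h28_semiloc_h90`) for `Γ = Gal(Ω/ℚ_q)` acting on the embeddings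
`X = (L →+* Ω)` of a number field by composition and on `A = Ωˣ`, with `s` = precomposition
by an automorphism `σ` of `L` of prime order `p` (`Ω = PadicAlgCl q` instantiates). -/
theorem h57_semiloc_local (q : ℕ) [Fact q.Prime] {p : ℕ} (hp : p.Prime)
    {Ω : Type*} [Field Ω] [Algebra ℚ_[q] Ω] [IsGalois ℚ_[q] Ω]
    {L : Type*} [Field L] [NumberField L]
    [MulAction (Ω ≃ₐ[ℚ_[q]] Ω) (L →+* Ω)]
    (hsmul : ∀ (τ : Ω ≃ₐ[ℚ_[q]] Ω) (j : L →+* Ω) (x : L), (τ • j) x = τ (j x))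
    (s : Equiv.Perm (L →+* Ω)) (σ : L → L) (hsσ : ∀ j x, s j x = j (σ x))
    (hσp : ∀ x, σ^[p] x = x) (hσ1 : ∃ x, σ x ≠ x)
    (j : L →+* Ω) (τ₀ : Ω ≃ₐ[ℚ_[q]] Ω) (h : s j = τ₀ • j) :
    h92_hq (h92_mD τ₀) (h92_mN τ₀ p) (h28_fix (Ω ≃ₐ[ℚ_[q]] Ω) Ωˣ j) = p ∧
    ∀ x ∈ h28_fix (Ω ≃ₐ[ℚ_[q]] Ω) Ωˣ j, h92_mN τ₀ p x = 1 →
      ∃ y ∈ h28_fix (Ω ≃ₐ[ℚ_[q]] Ω) Ωˣ j, x = h92_mD τ₀ y := by
  classical
  obtain ⟨M, hM⟩ : ∃ M : IntermediateField ℚ_[q] Ω,
      M = IntermediateField.adjoin ℚ_[q] (Set.range j) := ⟨_, rfl⟩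
  have hfd : FiniteDimensional ℚ_[q] M := by
    rw [hM]
    exact h57_finite_adjoin_range q j
  have hjM : ∀ x, j x ∈ M := fun x => by
    rw [hM]
    exact IntermediateField.subset_adjoin _ _ ⟨x, rfl⟩
  have hτj : ∀ x, τ₀ (j x) = j (σ x) := by
    intro x
    rw [← hsmul, ← h, hsσ]
  have hstabj : ∀ τ : Ω ≃ₐ[ℚ_[q]] Ω, τ • j = j ↔ ∀ x ∈ M, τ x = x := by
    intro τ
    constructor
    · intro hτ
      rw [hM]
      apply h57_fix_adjoin
      rintro _ ⟨x, rfl⟩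
      rw [← hsmul, hτ]
    · intro hτ
      ext x
      rw [hsmul]
      exact hτ _ (hjM x)
  have hfix : h28_fix (Ω ≃ₐ[ℚ_[q]] Ω) Ωˣ j = h57_unitsOf M := by
    ext a
    rw [h28_mem_fix, ← h57_fix_iff_mem_unitsOf]
    constructor
    · intro ha τ hτ
      exact ha τ ((hstabj τ).mpr hτ)
    · intro ha τ hτ
      exact ha τ ((hstabj τ).mp hτ)
  have hstab : ∀ x ∈ M, τ₀ x ∈ M := by
    have hle : M ≤ M.comap (τ₀ : Ω →ₐ[ℚ_[q]] Ω) := by
      conv_lhs => rw [hM]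
      rw [IntermediateField.adjoin_le_iff]
      rintro _ ⟨x, rfl⟩
      show τ₀ (j x) ∈ M
      rw [hτj]
      exact hjM _
    intro x hx
    exact hle hx
  have hiter : ∀ (k : ℕ) (x : L), (τ₀ ^ k) (j x) = j (σ^[k] x) := by
    intro k
    induction k with
    | zero => intro x; rfl
    | succ k ih =>
      intro x
      rw [pow_succ, AlgEquiv.mul_apply, hτj, ih, Function.iterate_succ_apply]
  have hpow : ∀ x ∈ M, (τ₀ ^ p) x = x := by
    rw [hM]
    apply h57_fix_adjoin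
    rintro _ ⟨x, rfl⟩
    rw [hiter, hσp]
  have hne : ∃ x ∈ M, τ₀ x ≠ x := by
    obtain ⟨x₀, hx₀⟩ := hσ1
    refine ⟨j x₀, hjM x₀, ?_⟩
    rw [hτj]
    exact fun h0 => hx₀ (j.injective h0)
  rw [hfix]
  exact h57_cyclic_step_sub q hp M τ₀ hstab hpow hne

end Fermat.Agent.S55
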