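import Fermat.Agent.S55.h97_LocInf
import Fermat.Agent.S55.h63_LocAmb

/-!
# S55, LOC-AMB (B): the field `loc_inf` for `XX q = h63_XX q`

`h97_locInf q : h72_LocInf q (h63_XX q)` — local Hilbert 90 / injectivity of inflation on `H²`
for the multiplicative group of `PadicAlgCl q` (unlocalised), in the prelude's level language.
-/

set_option autoImplicit false

open CategoryTheory Module groupCohomology ExtCitation

namespace Fermat.Agent.S55

local notation "Qb" => AlgebraicClosure ℚ

/-- **Hilbert 90 for `h63_XX q`**: a level-constant crossed homomorphism on `r⁻¹(U_{F₁})` with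
values in `h63_XX q` is principal. -/
theorem h97_hilbert90_XX (q : Nat.Primes) (F₁ : IntermediateField ℚ Qb)
    (u : primeLocalGaloisGroup q → h63_XX q)
    (hu : ∀ s s' : primeLocalGaloisGroup q, primeLocalToGlobal q s ∈ F₁.fixingSubgroup →
      primeLocalToGlobal q s' ∈ F₁.fixingSubgroup → u (s * s') = s • u s' + u s)
    (hlev : IsLevelConstant₁ (primeLocalToGlobal q) u) :
    ∃ b : h63_XX q, ∀ s : primeLocalGaloisGroup q,
      primeLocalToGlobal q s ∈ F₁.fixingSubgroup → u s = s • b - b := by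
  have : Fact (q : ℕ).Prime := ⟨q.2⟩
  obtain ⟨b, hb⟩ := h97_hilbert90_local (q : ℕ) F₁
    (fun s : PadicAlgCl (q : ℕ) ≃ₐ[ℚ_[(q : ℕ)]] PadicAlgCl (q : ℕ) =>
      (h63_XX.toUnit (u s) : (PadicAlgCl (q : ℕ))ˣ))
    (fun s s' hs hs' => congrArg h63_XX.toUnit (hu s s' hs hs'))
    hlev
  exact ⟨h63_XX.ofUnit b, fun s hs => congrArg h63_XX.ofUnit (hb s hs)⟩

/-- **LOC-INF**: the field `loc_inf` of `h72_PTAmbient` for `XX q = h63_XX q`. -/
theorem h97_locInf (q : Nat.Primes) : h72_LocInf q (h63_XX q) :=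
  h97_locInf_of_hilbert90 q (h63_XX q)
    (fun F₁ _ _ u hu hlev => h97_hilbert90_XX q F₁ u hu hlev)

end Fermat.Agent.S55
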