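/-
S55, layer LOC: LOCAL DUALITY (LOC-DUAL) for the ambient local module `h63_XX q`, unconditional:
`h98_locDual p q : h72_LocDual p q (h63_XX q)`.

Inputs: the field-theoretic core `h98_locDual_field`, the local class formation
`h63_local_classModule`, local existence mod `p` `h57_loc_EX`, the abstract duality theorem
`adt_D1` (`h21_ADT1Statement_of_tnR h21_tnR`) and the level dictionary `h6_LocalLevels`.
-/
import Fermat.Agent.S55.h98_LocDual
import Fermat.Agent.S55.h63_LocAmb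
import Fermat.Agent.S55.h63_LocClass
import Fermat.Agent.S55.h57_LocEXFinal
import Fermat.Agent.S55.h21_ADTFinalR
import Fermat.Agent.S55.h6_LocalLevels

set_option autoImplicit false

open groupCohomology ExtCitation

namespace Fermat.Agent.S55

/-- Local duality in the purely local language: `Γ = Gal(ℚ̄_q/ℚ_q)` acting on `ℚ̄_qˣ`. -/
theorem h98_locDual_padic (q p : ℕ) [Fact q.Prime] [Fact p.Prime]
    (N : Type) [AddCommGroup N] [DistribMulAction (PadicAlgCl q ≃ₐ[ℚ_[q]] PadicAlgCl q) N]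
    [Finite N] (hpN : ∀ n : N, p • n = 0)
    (hsm : ∃ L : IntermediateField ℚ_[q] (PadicAlgCl q), FiniteDimensional ℚ_[q] L ∧
      ∀ τ ∈ L.fixingSubgroup, ∀ n : N, τ • n = n)
    (c : (PadicAlgCl q ≃ₐ[ℚ_[q]] PadicAlgCl q) × (PadicAlgCl q ≃ₐ[ℚ_[q]] PadicAlgCl q) → N)
    (hc : IsCocycle₂ c)
    (hcl : ∃ L : IntermediateField ℚ_[q] (PadicAlgCl q), FiniteDimensional ℚ_[q] L ∧
      ∀ g g' s s' : PadicAlgCl q ≃ₐ[ℚ_[q]] PadicAlgCl q, s ∈ L.fixingSubgroup →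
        s' ∈ L.fixingSubgroup → c (g * s, g' * s') = c (g, g'))
    (hperp : ∀ h : N →+ Additive (PadicAlgCl q)ˣ,
      (∀ (τ : PadicAlgCl q ≃ₐ[ℚ_[q]] PadicAlgCl q) (n : N), h (τ • n) = τ • h n) →
      ∃ x : (PadicAlgCl q ≃ₐ[ℚ_[q]] PadicAlgCl q) → Additive (PadicAlgCl q)ˣ,
        (∃ L : IntermediateField ℚ_[q] (PadicAlgCl q), FiniteDimensional ℚ_[q] L ∧
          ∀ g s : PadicAlgCl q ≃ₐ[ℚ_[q]] PadicAlgCl q, s ∈ L.fixingSubgroup → x (g * s) = x g) ∧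
        ∀ τ τ' : PadicAlgCl q ≃ₐ[ℚ_[q]] PadicAlgCl q,
          τ • x τ' - x (τ * τ') + x τ = h (c (τ, τ'))) :
    ∃ x : (PadicAlgCl q ≃ₐ[ℚ_[q]] PadicAlgCl q) → N,
      (∃ L : IntermediateField ℚ_[q] (PadicAlgCl q), FiniteDimensional ℚ_[q] L ∧
        ∀ g s : PadicAlgCl q ≃ₐ[ℚ_[q]] PadicAlgCl q, s ∈ L.fixingSubgroup → x (g * s) = x g) ∧
      ∀ τ τ' : PadicAlgCl q ≃ₐ[ℚ_[q]] PadicAlgCl q, τ • x τ' - x (τ * τ') + x τ = c (τ, τ') := by
  have hgal : IsGalois ℚ_[q] (PadicAlgCl q) := inferInstance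
  refine h98_locDual_field (p := p) (h21_ADT1Statement_of_tnR h21_tnR)
    (F := ℚ_[q]) (Ω := PadicAlgCl q) ?_ ?_ N hpN hsm c hc hcl hperp
  · intro K _ _
    have : IsGalois ℚ_[q] K := ⟨⟩
    exact h63_local_classModule q p ↥K
  · intro K _ _
    exact h57_loc_EX q p K

/-- **LOC-DUAL** for the ambient local module `h63_XX q` (field `loc_dual` of `h72_PTAmbient`),
unconditional, for all primes `p`, `q`. -/
theorem h98_locDual (p : ℕ) [Fact p.Prime] (q : Nat.Primes) : h72_LocDual p q (h63_XX q) := by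
  have hq : Fact (q : ℕ).Prime := ⟨q.2⟩
  intro N iN iA iF hpN hsm c hc hcl hperp
  obtain ⟨F, hF, hFN⟩ := hsm
  have hsm' : ∃ L : IntermediateField ℚ_[(q : ℕ)] (PadicAlgCl (q : ℕ)),
      FiniteDimensional ℚ_[(q : ℕ)] L ∧ ∀ τ ∈ L.fixingSubgroup, ∀ n : N,
        (show primeLocalGaloisGroup q from τ) • n = n :=
    ⟨h6_localField (q : ℕ) F, inferInstance, fun τ hτ n =>
      hFN τ n ((h6_mem_fixingSubgroup_localField_iff (q : ℕ) F τ).1 hτ)⟩
  have hcl' := (h6_primeLocal_isLevelConstant₂_iff q c).1 hcl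
  obtain ⟨x, hxL, hx⟩ := @h98_locDual_padic (q : ℕ) p hq _ N iN iA iF hpN hsm' c hc hcl'
    (fun h hh => by
      obtain ⟨x, hxl, hx⟩ := hperp h hh
      exact ⟨x, (h6_primeLocal_isLevelConstant₁_iff q x).1 hxl, hx⟩)
  exact ⟨x, (h6_primeLocal_isLevelConstant₁_iff q x).2 hxL, hx⟩

end Fermat.Agent.S55
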