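import Fermat.Agent.S55.h63_LocAmb
import Fermat.Agent.S55.h97_LocInfXX
import Fermat.Agent.S55.h98_LocDualFinal

/-!
# S55 / LOC-AMB (helper63): the six local fields of `h72_PTAmbient`, in one place

For `XX := fun q : ↥S => h63_XX q.1` and `zz := fun q => h63_zz p q.1` the fields `xx_tors`,
`zz_tors`, `zz_ne`, `zz_smul`, `loc_dual`, `loc_inf` of `h72_PTAmbient` (and of the level-wise
target of GLOB-AMB) are, verbatim:

* `h63_amb_xx_tors`, `h63_amb_zz_tors`, `h63_amb_zz_ne`, `h63_amb_zz_smul` (`h63_LocAmb.lean`);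
* `h63_amb_loc_dual` (helper98's `h98_locDual`);
* `h63_amb_loc_inf` (helper97's `h97_locInf`).

`h63_loc_amb` is their conjunction.
-/

set_option autoImplicit false

open ExtCitation

namespace Fermat.Agent.S55

variable (p : ℕ) [Fact p.Prime] (S : Finset Nat.Primes)

/-- field `xx_tors`. -/
theorem h63_amb_xx_tors (q : ↥S) (x : h63_XX q.1) (hx : p • x = 0) :
    ∃ k : ℕ, x = k • h63_zz p q.1 :=
  h63_xx_tors p q.1 x hx

/-- field `zz_tors`. -/
theorem h63_amb_zz_tors (q : ↥S) : p • h63_zz p q.1 = 0 :=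
  h63_zz_tors p q.1

/-- field `zz_ne`. -/
theorem h63_amb_zz_ne (q : ↥S) : h63_zz p q.1 ≠ 0 :=
  h63_zz_ne p q.1

/-- field `zz_smul`. -/
theorem h63_amb_zz_smul (q : ↥S) (τ : primeLocalGaloisGroup q.1) :
    τ • h63_zz p q.1 = (cycloChar p (primeLocalToGlobal q.1 τ) : ZMod p).val • h63_zz p q.1 :=
  h63_zz_smul p q.1 τ

/-- field `loc_dual`. -/
theorem h63_amb_loc_dual (q : ↥S) : h72_LocDual p q.1 (h63_XX q.1) :=
  h98_locDual p q.1

/-- field `loc_inf`. -/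
theorem h63_amb_loc_inf (q : ↥S) : h72_LocInf q.1 (h63_XX q.1) :=
  h97_locInf q.1

/-- **LOC-AMB**: the six local fields of the ambient interface for
`XX := fun q : ↥S => h63_XX q.1`, `zz := fun q => h63_zz p q.1`. -/
theorem h63_loc_amb :
    (∀ (q : ↥S) (x : h63_XX q.1), p • x = 0 → ∃ k : ℕ, x = k • h63_zz p q.1) ∧
    (∀ q : ↥S, p • h63_zz p q.1 = 0) ∧
    (∀ q : ↥S, h63_zz p q.1 ≠ 0) ∧
    (∀ (q : ↥S) (τ : primeLocalGaloisGroup q.1),
      τ • h63_zz p q.1 = (cycloChar p (primeLocalToGlobal q.1 τ) : ZMod p).val • h63_zz p q.1) ∧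
    (∀ q : ↥S, h72_LocDual p q.1 (h63_XX q.1)) ∧
    (∀ q : ↥S, h72_LocInf q.1 (h63_XX q.1)) :=
  ⟨h63_amb_xx_tors p S, h63_amb_zz_tors p S, h63_amb_zz_ne p S, h63_amb_zz_smul p S,
    h63_amb_loc_dual p S, h63_amb_loc_inf S⟩

end Fermat.Agent.S55
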