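import Fermat.Agent.S55.h63_LocW
import Fermat.Agent.S55.h30_CFData

/-!
# S55 / LOC-7-V (helper63): the honest (V1), (V2) for `w = v_q ∘ N_{E/ℚ_q}` in the exact shape
of `h30_CFData` (`(H.map deg).index = gcd (f(E^H)) (p^n)`).
-/

namespace Fermat.Agent.S55

/-- index of the subgroup generated by `a` in `ZMod N`. -/
theorem h63_index_zpowers_zmod (N : ℕ) (hN : N ≠ 0) (a : ℕ) :
    (Subgroup.zpowers (Multiplicative.ofAdd (a : ZMod N))).index = Nat.gcd a N := by
  have h1 := Subgroup.card_mul_index (Subgroup.zpowers (Multiplicative.ofAdd (a : ZMod N)))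
  rw [Nat.card_zpowers, orderOf_ofAdd_eq_addOrderOf, ZMod.addOrderOf_coe a hN,
    Nat.card_congr Multiplicative.toAdd, Nat.card_zmod] at h1
  have hg : N.gcd a ∣ N := Nat.gcd_dvd_left N a
  have hgpos : 0 < N.gcd a := Nat.gcd_pos_of_pos_left a (Nat.pos_of_ne_zero hN)
  obtain ⟨k, hk⟩ := hg
  have hkpos : 0 < k := by
    rcases Nat.eq_zero_or_pos k with h | h
    · rw [h, mul_zero] at hk; exact absurd hk hN
    · exact h
  have h2 : N / N.gcd a = k := Nat.div_eq_of_eq_mul_right hgpos hk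
  rw [h2] at h1
  have h3 : k * (Subgroup.zpowers (Multiplicative.ofAdd (a : ZMod N))).index = k * N.gcd a := by
    rw [h1, mul_comm k]; exact hk
  rw [Nat.gcd_comm a N]
  exact Nat.eq_of_mul_eq_mul_left hkpos h3

/-- LOC-7-V: (V1), (V2) of `h30_CFData` for `w = v_q ∘ N`, honest module `Additive Eˣ`. -/
theorem h63_loc_V (q : ℕ) [Fact q.Prime] (E : Type*) [Field E] [Algebra ℚ_[q] E]
    [FiniteDimensional ℚ_[q] E] (p : ℕ) [Fact p.Prime] (n : ℕ)
    (deg : (E ≃ₐ[ℚ_[q]] E) →* Multiplicative (ZMod (p ^ n)))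
    (hdeg : ∀ H : Subgroup (E ≃ₐ[ℚ_[q]] E), H.map deg = Subgroup.zpowers
      (Multiplicative.ofAdd ((h63_resDeg q (IntermediateField.fixedField H) : ℕ) : ZMod (p ^ n)))) :
    (∀ (H : Subgroup (E ≃ₐ[ℚ_[q]] E)) (c : Additive Eˣ), (∀ h ∈ H, h • c = c) →
      ∃ y : ℤ_[p], h63_w q E p c = (Nat.card H * (H.map deg).index) • y) ∧
    (∀ H : Subgroup (E ≃ₐ[ℚ_[q]] E), H.map deg ≠ ⊥ → ∃ c : Additive Eˣ, (∀ h ∈ H, h • c = c) ∧
      ¬ ∃ y : ℤ_[p], h63_w q E p c = (p * (Nat.card H * (H.map deg).index)) • y) := by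
  have hp : p.Prime := Fact.out
  have hpn : p ^ n ≠ 0 := pow_ne_zero _ hp.ne_zero
  have hidx : ∀ H : Subgroup (E ≃ₐ[ℚ_[q]] E), (H.map deg).index
      = Nat.gcd (h63_resDeg q (IntermediateField.fixedField H)) (p ^ n) := by
    intro H
    rw [hdeg H]
    exact h63_index_zpowers_zmod (p ^ n) hpn _
  constructor
  · intro H c hc
    have hx : ∀ σ ∈ H, σ • (Additive.toMul c) = Additive.toMul c := by
      intro σ hσ
      exact congrArg Additive.toMul (hc σ hσ)
    obtain ⟨z, hz⟩ := h63_V1 q E H (Additive.toMul c) hx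
    obtain ⟨f', hf'⟩ := Nat.gcd_dvd_left (h63_resDeg q (IntermediateField.fixedField H)) (p ^ n)
    refine ⟨((f' : ℤ) * z : ℤ), ?_⟩
    rw [h63_w_apply, hz, hidx H, nsmul_eq_mul]
    conv_lhs => rw [hf']
    push_cast
    ring
  · intro H hH
    obtain ⟨f, hf⟩ : ∃ f : ℕ, f = h63_resDeg q (IntermediateField.fixedField H) := ⟨_, rfl⟩
    have hfn : ¬ p ^ n ∣ f := by
      intro hdvd
      apply hH
      rw [hdeg H, Subgroup.zpowers_eq_bot, ← hf]
      have : ((f : ℕ) : ZMod (p ^ n)) = 0 := (ZMod.natCast_eq_zero_iff f (p ^ n)).2 hdvd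
      rw [this]
      rfl
    obtain ⟨a, han, ha⟩ := (Nat.dvd_prime_pow hp).1 (Nat.gcd_dvd_right f (p ^ n))
    have han' : a < n := by
      rcases lt_or_eq_of_le han with h | h
      · exact h
      · exfalso
        apply hfn
        rw [← h, ← ha]
        exact Nat.gcd_dvd_left f (p ^ n)
    have hnd : ¬ p ^ (a + 1) ∣ f := by
      intro hdvd
      have h1 : p ^ (a + 1) ∣ Nat.gcd f (p ^ n) :=
        Nat.dvd_gcd hdvd (pow_dvd_pow p (Nat.succ_le_of_lt han'))
      rw [ha] at h1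
      have := Nat.le_of_dvd (pow_pos hp.pos a) h1
      have h2 : p ^ a < p ^ (a + 1) := Nat.pow_lt_pow_right hp.one_lt (Nat.lt_succ_self a)
      omega
    obtain ⟨x, hxfix, hxord⟩ := h63_V2 q E H
    refine ⟨Additive.ofMul x, ?_, ?_⟩
    · intro h hh
      show Additive.ofMul (h • x) = Additive.ofMul x
      rw [hxfix h hh]
    · rintro ⟨y, hy⟩
      rw [h63_w_ofMul, hxord, hidx H, ← hf, ha, nsmul_eq_mul] at hy
      have hcard : (Nat.card H : ℤ_[p]) ≠ 0 := by
        have : 0 < Nat.card H := Nat.card_pos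
        exact_mod_cast this.ne'
      have hy2 : (Nat.card H : ℤ_[p]) * (f : ℤ_[p])
          = (Nat.card H : ℤ_[p]) * ((p : ℤ_[p]) ^ (a + 1) * y) := by
        have := hy
        push_cast at this
        rw [this]
        ring
      have hy3 : (f : ℤ_[p]) = (p : ℤ_[p]) ^ (a + 1) * y := mul_left_cancel₀ hcard hy2
      have hdvd : (p : ℤ_[p]) ^ (a + 1) ∣ ((f : ℤ) : ℤ_[p]) := by
        refine ⟨y, ?_⟩
        rw [← hy3]
        push_cast
        rfl
      rw [PadicInt.pow_p_dvd_int_iff] at hdvd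
      apply hnd
      exact_mod_cast hdvd

end Fermat.Agent.S55
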