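/-
S55 layer LOC, row 260 LOC-7-CFA (helper69): from the index form of the class field axiom on
fixed units (Hilbert 90 for the `σ`-norm + norm index `p`) to the additive statements
(CFA1), (CFA2) for the module `Additive Eˣ` (any fields `F ⊆ E`).
-/
import Mathlib
import Fermat.Agent.S55.h63_GalDefs
import Fermat.Agent.S55.h2_AddUnits

set_option autoImplicit false

namespace Fermat.Agent.S55

section CFAAdd

variable {F E : Type*} [Field F] [Field E] [Algebra F E]

/-- Dictionary: `c : Additive Eˣ` is fixed by `H` iff its multiplicative form lies in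
`h63_fixU H`. -/
theorem h69_fixed_iff_mem_fixU (H : Subgroup (E ≃ₐ[F] E)) (c : Additive Eˣ) :
    (∀ h ∈ H, h • c = c) ↔ Additive.toMul c ∈ h63_fixU H := by
  rw [h63_mem_fixU]
  constructor
  · intro hc τ hτ
    have := congrArg Additive.toMul (hc τ hτ)
    rwa [h2_toMul_smul] at this
  · intro hc τ hτ
    apply Additive.toMul.injective
    rw [h2_toMul_smul]
    exact hc τ hτ

/-- Dictionary: the additive `σ`-norm `∑_{i<p} σ^i • c` is `h63_normPow σ p`. -/
theorem h69_sum_smul_eq_normPow (σ : E ≃ₐ[F] E) (p : ℕ) (c : Additive Eˣ) :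
    ∑ i ∈ Finset.range p, σ ^ i • c = Additive.ofMul (h63_normPow σ p (Additive.toMul c)) := by
  rw [h63_normPow_apply, ofMul_prod]
  rfl

/-- Dictionary: `σ • b - b` is `(σ • y) / y`. -/
theorem h69_smul_sub_eq_div (σ : E ≃ₐ[F] E) (y : Eˣ) :
    σ • Additive.ofMul y - Additive.ofMul y = Additive.ofMul ((σ • y) / y) := by
  rw [ofMul_div, h2_ofMul_smul]

theorem h69_CFA_additive (p : ℕ) [Fact p.Prime]
    (H₁ H₂ : Subgroup (E ≃ₐ[F] E)) (σ : E ≃ₐ[F] E)
    (hcfa : (∀ x ∈ h63_fixU H₂, h63_normPow σ p x = 1 → ∃ y ∈ h63_fixU H₂, x = (σ • y) / y) ∧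
      ((h63_fixU H₂).map (h63_normPow σ p)).relIndex (h63_fixU H₁) = p) :
    (∀ c : Additive Eˣ, (∀ h ∈ H₂, h • c = c) → ∑ i ∈ Finset.range p, σ ^ i • c = 0 →
        ∃ b : Additive Eˣ, (∀ h ∈ H₂, h • b = b) ∧ σ • b - b = c) ∧
    (∃ c₀ : Additive Eˣ, (∀ h ∈ H₁, h • c₀ = c₀) ∧ ∀ c : Additive Eˣ, (∀ h ∈ H₁, h • c = c) →
        ∃ (k : ℕ) (b : Additive Eˣ), (∀ h ∈ H₂, h • b = b) ∧
          c = k • c₀ + ∑ i ∈ Finset.range p, σ ^ i • b) := by
  obtain ⟨h90, hidx⟩ := hcfa
  refine ⟨?_, ?_⟩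
  · -- (CFA1): Hilbert 90
    intro c hc hsum
    rw [h69_fixed_iff_mem_fixU] at hc
    rw [h69_sum_smul_eq_normPow] at hsum
    have hN : h63_normPow σ p (Additive.toMul c) = 1 := by
      have := congrArg Additive.toMul hsum
      simpa using this
    obtain ⟨y, hy, hxy⟩ := h90 _ hc hN
    refine ⟨Additive.ofMul y, ?_, ?_⟩
    · rw [h69_fixed_iff_mem_fixU]; exact hy
    · rw [h69_smul_sub_eq_div, ← hxy]; rfl
  · -- (CFA2): the norm group has index `p` in the fixed units
    set A : Subgroup Eˣ := (h63_fixU H₂).map (h63_normPow σ p) with hA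
    set B : Subgroup Eˣ := h63_fixU H₁ with hB
    have hcard : Nat.card (↥B ⧸ A.subgroupOf B) = p := hidx
    -- an element of `B` outside `A`
    have hex : ∃ x₀ ∈ B, x₀ ∉ A := by
      by_contra hcon
      have hle : B ≤ A := fun x hx => by
        by_contra hxA
        exact hcon ⟨x, hx, hxA⟩
      have h1 : A.relIndex B = 1 := Subgroup.relIndex_eq_one.2 hle
      rw [hidx] at h1
      exact (Fact.out : p.Prime).one_lt.ne' h1
    obtain ⟨x₀, hx₀B, hx₀A⟩ := hex
    have hg : ((⟨x₀, hx₀B⟩ : ↥B) : ↥B ⧸ A.subgroupOf B) ≠ 1 := by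
      intro h
      rw [QuotientGroup.eq_one_iff, Subgroup.mem_subgroupOf] at h
      exact hx₀A h
    refine ⟨Additive.ofMul x₀, ?_, ?_⟩
    · rw [h69_fixed_iff_mem_fixU]; exact hx₀B
    · intro c hc
      rw [h69_fixed_iff_mem_fixU] at hc
      have hxB : Additive.toMul c ∈ B := hc
      obtain ⟨k, hk⟩ := mem_powers_of_prime_card hcard hg
        (g' := ((⟨Additive.toMul c, hxB⟩ : ↥B) : ↥B ⧸ A.subgroupOf B))
      have hk' : (((⟨x₀, hx₀B⟩ : ↥B) ^ k : ↥B) : ↥B ⧸ A.subgroupOf B) =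
          ((⟨Additive.toMul c, hxB⟩ : ↥B) : ↥B ⧸ A.subgroupOf B) := by
        rw [QuotientGroup.mk_pow]; exact hk
      rw [QuotientGroup.eq, Subgroup.mem_subgroupOf] at hk'
      have hmem : (x₀ ^ k)⁻¹ * Additive.toMul c ∈ A := by
        simpa using hk'
      obtain ⟨y, hy, hyN⟩ := Subgroup.mem_map.1 hmem
      refine ⟨k, Additive.ofMul y, ?_, ?_⟩
      · rw [h69_fixed_iff_mem_fixU]; exact hy
      · rw [h69_sum_smul_eq_normPow]
        have hc' : Additive.toMul c = x₀ ^ k * h63_normPow σ p y := by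
          rw [hyN]; group
        calc c = Additive.ofMul (Additive.toMul c) := rfl
          _ = Additive.ofMul (x₀ ^ k * h63_normPow σ p y) := by rw [hc']
          _ = k • Additive.ofMul x₀ + Additive.ofMul (h63_normPow σ p y) := by
              rw [ofMul_mul, ofMul_pow]
          _ = _ := rfl

end CFAAdd

end Fermat.Agent.S55
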