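import Fermat.Agent.S55.h84_LocDeg
import Fermat.Agent.S55.h66_LocCycUnr

/-!
# S55 / LOC-DEG (helper84): the Frobenius degree map, unconditional form

`h84_exists_frobDeg` = `h84_exists_frobDeg_of` with its hypothesis discharged by
`h66_cyc_frob` (LOC-UNR-2 (c)).
-/

set_option autoImplicit false

namespace Fermat.Agent.S55

variable (q : ℕ) [Fact q.Prime]

/-- **LOC-DEG**: for `E / ℚ_q` finite Galois containing a primitive `(q ^ (p ^ n) - 1)`-th root of
unity `ζ`, the Frobenius exponent `deg : Gal(E/ℚ_q) →* Multiplicative (ZMod (p ^ n))` is a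
surjective homomorphism with `σ ζ = ζ ^ (q ^ deg σ)`, and the image of `Gal(E/K)` is generated by
the residue degree `f(K/ℚ_q)`. -/
theorem h84_exists_frobDeg (E : Type*) [Field E] [Algebra ℚ_[q] E] [FiniteDimensional ℚ_[q] E]
    [IsGalois ℚ_[q] E] (p : ℕ) [Fact p.Prime] (n : ℕ) (ζ : E)
    (hζ : IsPrimitiveRoot ζ (q ^ (p ^ n) - 1)) :
    ∃ deg : (E ≃ₐ[ℚ_[q]] E) →* Multiplicative (ZMod (p ^ n)), Function.Surjective deg ∧
      (∀ σ, σ ζ = ζ ^ (q ^ (Multiplicative.toAdd (deg σ)).val)) ∧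
      ∀ H : Subgroup (E ≃ₐ[ℚ_[q]] E), H.map deg = Subgroup.zpowers (Multiplicative.ofAdd
        ((h63_resDeg q (IntermediateField.fixedField H) : ℕ) : ZMod (p ^ n))) :=
  h84_exists_frobDeg_of q E p n ζ hζ (fun K F m hm hcyc => by
    have : IsScalarTower ℚ_[q] K F := IsScalarTower.of_algebraMap_eq (fun _ => rfl)
    have : IsScalarTower ℚ_[q] F E := IsScalarTower.of_algebraMap_eq (fun _ => rfl)
    have : FiniteDimensional ℚ_[q] F :=
      Module.Finite.of_injective (IsScalarTower.toAlgHom ℚ_[q] F E).toLinearMap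
        (fun _ _ h => Subtype.ext h)
    exact h66_cyc_frob q K F m hm)

end Fermat.Agent.S55
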