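import Fermat.Agent.S55.h63_LocW
import Fermat.Agent.S55.h84_LocDegFinal
import Fermat.Agent.S55.h34_LocCFAFinal
import Fermat.Agent.S55.h88_CFDataLoc
import Fermat.Agent.S55.h69_CFAAdd
import Fermat.Agent.S55.h63_LocVIdx

/-!
# S55 / LOC-7 (helper63): the input data of H-CFBUILD for a local field

For a finite Galois extension `E/ℚ_q` containing a primitive `(q^(p^n) - 1)`-th root of unity:
`G = Gal(E/ℚ_q)`, `C = h2_PL p (Additive Eˣ)` (`= Eˣ ⊗ ℤ_(p)`), `deg` = Frobenius degree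
(`h84_exists_frobDeg`), `w` = the extension of `v_q ∘ N_{E/ℚ_q}` (`h63_w`) satisfy
`h30_CFData p deg w`.
-/

namespace Fermat.Agent.S55

open groupCohomology

/-- LOC-7, data part: `h30_CFData` for `Gal(E/ℚ_q)` acting on `Eˣ ⊗ ℤ_(p)`. -/
theorem h63_local_cfdata (q p : ℕ) [Fact q.Prime] [Fact p.Prime] (E : Type*) [Field E]
    [Algebra ℚ_[q] E] [FiniteDimensional ℚ_[q] E] [IsGalois ℚ_[q] E] (n : ℕ) (ζ : E)
    (hζ : IsPrimitiveRoot ζ (q ^ (p ^ n) - 1)) :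
    ∃ (deg : (E ≃ₐ[ℚ_[q]] E) →* Multiplicative (ZMod (p ^ n)))
      (w : h2_PL p (Additive Eˣ) →+ ℤ_[p]),
      h30_CFData p deg w ∧ (∀ c : Additive Eˣ, w (h2_PL.j c) = h63_w q E p c) ∧
      (∀ σ : E ≃ₐ[ℚ_[q]] E, σ ζ = ζ ^ (q ^ (Multiplicative.toAdd (deg σ)).val)) ∧
      (∀ H : Subgroup (E ≃ₐ[ℚ_[q]] E), H.map deg = Subgroup.zpowers (Multiplicative.ofAdd
        ((h63_resDeg q (IntermediateField.fixedField H) : ℕ) : ZMod (p ^ n)))) := by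
  classical
  obtain ⟨deg, hdsurj, hdζ, hdeg⟩ := h84_exists_frobDeg q E p n ζ hζ
  obtain ⟨hV1, hV2⟩ := h63_loc_V q E p n deg hdeg
  obtain ⟨w, hw⟩ := h2_PL.exists_lift (h63_isPLocal_padicInt p) (h63_w q E p)
  refine ⟨deg, w, ?_, hw, hdζ, hdeg⟩
  refine h88_cfdata_PL deg hdsurj (h63_isPLocal_padicInt p) (h63_padicInt_torsionFree p)
    (h63_w q E p) (h63_w_smul q E p) hV1 hV2 ?_ ?_ w hw
  · intro H₁ H₂ _ h21 hnorm hidx σ hσ1 hσ2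
    exact (h69_CFA_additive p H₁ H₂ σ
      (h34_loc_CFA q E p H₁ H₂ h21 hnorm hidx σ hσ1 hσ2)).1
  · intro H₁ H₂ _ h21 hnorm hidx σ hσ1 hσ2
    exact (h69_CFA_additive p H₁ H₂ σ
      (h34_loc_CFA q E p H₁ H₂ h21 hnorm hidx σ hσ1 hσ2)).2

end Fermat.Agent.S55
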