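import Fermat.Agent.S55.h63_LocTower

/-!
# S55 / LOC-UNR-5 (helper63): the norm group of an unramified cyclic extension is
`{x | [L:K] ∣ ord x}` (conditional on the norm index `= [L:K]`, i.e. LOC-1).
-/

namespace Fermat.Agent.S55

variable (q : ℕ) [Fact q.Prime]

section

variable (K : Type*) [Field K] [Algebra ℚ_[q] K] [FiniteDimensional ℚ_[q] K]

/-- `ord` modulo `n`, as a hom to `Multiplicative (ZMod n)`. -/
noncomputable def h63_ordMod (n : ℕ) : Kˣ →* Multiplicative (ZMod n) :=
  (Int.castAddHom (ZMod n)).toMultiplicative.comp (h63_ordHom q K)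

variable {K} in
theorem h63_ordMod_apply (n : ℕ) (x : Kˣ) :
    h63_ordMod q K n x = Multiplicative.ofAdd ((h63_ord q K x : ℤ) : ZMod n) := rfl

variable {K} in
theorem h63_mem_ker_ordMod (n : ℕ) (x : Kˣ) :
    x ∈ (h63_ordMod q K n).ker ↔ (n : ℤ) ∣ h63_ord q K x := by
  rw [MonoidHom.mem_ker, h63_ordMod_apply]
  rw [← ZMod.intCast_zmod_eq_zero_iff_dvd]
  exact Iff.rfl

theorem h63_ordMod_surjective (n : ℕ) : Function.Surjective (h63_ordMod q K n) := by
  intro y
  obtain ⟨z, hz⟩ := ZMod.intCast_surjective (Multiplicative.toAdd y)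
  obtain ⟨x, hx⟩ := h63_ord_surjective q K z
  refine ⟨x, ?_⟩
  rw [h63_ordMod_apply, hx, hz]
  rfl

theorem h63_index_ker_ordMod (n : ℕ) [NeZero n] : (h63_ordMod q K n).ker.index = n := by
  rw [Subgroup.index_ker, MonoidHom.range_eq_top.2 (h63_ordMod_surjective q K n)]
  simp

end

section unr

variable (K L : Type*) [Field K] [Field L] [Algebra ℚ_[q] K] [Algebra ℚ_[q] L] [Algebra K L]
  [IsScalarTower ℚ_[q] K L] [FiniteDimensional ℚ_[q] L]

/-- norms have `ord` divisible by `f(L/K)`. -/
theorem h63_norm_range_le_ker_ordMod [FiniteDimensional ℚ_[q] K] :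
    (Units.map (Algebra.norm K : L →* K)).range ≤ (h63_ordMod q K (h63_relResDeg q K L)).ker := by
  rintro x ⟨y, rfl⟩
  rw [h63_mem_ker_ordMod, h63_ord_norm]
  exact Dvd.intro _ rfl

/-- LOC-UNR-5, conditional on the norm index: for an unramified extension with norm index
`[L:K]`, the norm group is `{x | [L:K] ∣ ord x}`. -/
theorem h63_unr_norm_range_of_index (hunr : h63_relResDeg q K L = Module.finrank K L)
    (hidx : (Units.map (Algebra.norm K : L →* K)).range.index = Module.finrank K L) (x : Kˣ) :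
    x ∈ (Units.map (Algebra.norm K : L →* K)).range ↔ (Module.finrank K L : ℤ) ∣ h63_ord q K x := by
  have hK : FiniteDimensional ℚ_[q] K := FiniteDimensional.left ℚ_[q] K L
  have hKL : FiniteDimensional K L := FiniteDimensional.right ℚ_[q] K L
  have hn : 0 < Module.finrank K L := Module.finrank_pos
  have : NeZero (Module.finrank K L) := ⟨hn.ne'⟩
  have hle := h63_norm_range_le_ker_ordMod q K L
  rw [hunr] at hle
  have hidx2 := h63_index_ker_ordMod q K (Module.finrank K L)
  have hrel := Subgroup.relIndex_mul_index hle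
  rw [hidx, hidx2] at hrel
  have hrel1 : (Units.map (Algebra.norm K : L →* K)).range.relIndex
      (h63_ordMod q K (Module.finrank K L)).ker = 1 := by
    have := Nat.eq_of_mul_eq_mul_right hn (hrel.trans (one_mul _).symm)
    exact this
  have hge := Subgroup.relIndex_eq_one.1 hrel1
  rw [← h63_mem_ker_ordMod]
  exact ⟨fun h => hle h, fun h => hge h⟩

end unr

end Fermat.Agent.S55
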