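import Fermat.Agent.S55.h63_LocTower

/-!
# S55 / LOC-V (helper63): the honest forms of (V1), (V2) for `w = v_q ∘ N_{E/ℚ_q}` on the
units fixed by a subgroup `H` of `Gal(E/ℚ_q)`.
-/

namespace Fermat.Agent.S55

variable (q : ℕ) [Fact q.Prime]

set_option linter.unusedSectionVars false

variable (E : Type*) [Field E] [Algebra ℚ_[q] E] [FiniteDimensional ℚ_[q] E]

/-- a unit of `E` fixed by `H` comes from a unit of the fixed field. -/
theorem h63_exists_unit_fixedField (H : Subgroup (E ≃ₐ[ℚ_[q]] E)) (x : Eˣ)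
    (hx : ∀ σ ∈ H, σ • x = x) :
    ∃ k : (IntermediateField.fixedField H)ˣ,
      Units.map (algebraMap (IntermediateField.fixedField H) E).toMonoidHom k = x := by
  have hmem : (x : E) ∈ IntermediateField.fixedField H := by
    rw [IntermediateField.mem_fixedField_iff]
    intro σ hσ
    have := congrArg (fun u : Eˣ => (u : E)) (hx σ hσ)
    simpa using this
  have hne : (⟨(x : E), hmem⟩ : IntermediateField.fixedField H) ≠ 0 := by
    intro h0
    have := congrArg (fun u : IntermediateField.fixedField H => (u : E)) h0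
    simp at this
  refine ⟨Units.mk0 _ hne, ?_⟩
  ext
  simp

theorem h63_fixedField_unit_fixed (H : Subgroup (E ≃ₐ[ℚ_[q]] E))
    (k : (IntermediateField.fixedField H)ˣ) (σ : E ≃ₐ[ℚ_[q]] E) (hσ : σ ∈ H) :
    σ • Units.map (algebraMap (IntermediateField.fixedField H) E).toMonoidHom k
      = Units.map (algebraMap (IntermediateField.fixedField H) E).toMonoidHom k := by
  ext
  have hk : ((k : IntermediateField.fixedField H) : E) ∈ IntermediateField.fixedField H :=
    Subtype.mem _
  rw [IntermediateField.mem_fixedField_iff] at hk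
  simpa using hk σ hσ

/-- `v_q(N_{E/ℚ_q} x) = |H| · f(E^H) · ord_{E^H} k` for `x = k ∈ E^H`. -/
theorem h63_rawOrd_fixedField (H : Subgroup (E ≃ₐ[ℚ_[q]] E))
    (k : (IntermediateField.fixedField H)ˣ) :
    h63_rawOrd q E (Units.map (algebraMap (IntermediateField.fixedField H) E).toMonoidHom k)
      = (Nat.card H * h63_resDeg q (IntermediateField.fixedField H) : ℕ)
        * h63_ord q (IntermediateField.fixedField H) k := by
  have hF : FiniteDimensional ℚ_[q] (IntermediateField.fixedField H) :=
    FiniteDimensional.left ℚ_[q] (IntermediateField.fixedField H) E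
  rw [h63_rawOrd_map, h63_rawOrd_eq, IntermediateField.finrank_fixedField_eq_card]
  push_cast
  ring

/-- (V1), honest form. -/
theorem h63_V1 (H : Subgroup (E ≃ₐ[ℚ_[q]] E)) (x : Eˣ) (hx : ∀ σ ∈ H, σ • x = x) :
    ((Nat.card H * h63_resDeg q (IntermediateField.fixedField H) : ℕ) : ℤ)
      ∣ h63_rawOrd q E x := by
  obtain ⟨k, hk⟩ := h63_exists_unit_fixedField q E H x hx
  rw [← hk, h63_rawOrd_fixedField]
  exact Dvd.intro _ rfl

/-- (V2), honest form. -/
theorem h63_V2 (H : Subgroup (E ≃ₐ[ℚ_[q]] E)) :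
    ∃ x : Eˣ, (∀ σ ∈ H, σ • x = x) ∧
      h63_rawOrd q E x = (Nat.card H * h63_resDeg q (IntermediateField.fixedField H) : ℕ) := by
  have hF : FiniteDimensional ℚ_[q] (IntermediateField.fixedField H) :=
    FiniteDimensional.left ℚ_[q] (IntermediateField.fixedField H) E
  obtain ⟨π, hπ⟩ := h63_exists_ord_eq_one q (IntermediateField.fixedField H)
  refine ⟨Units.map (algebraMap (IntermediateField.fixedField H) E).toMonoidHom π,
    fun σ hσ => h63_fixedField_unit_fixed q E H π σ hσ, ?_⟩
  rw [h63_rawOrd_fixedField, hπ, mul_one]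

end Fermat.Agent.S55
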