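import Fermat.Agent.S55.h63_LocVal
import Fermat.Agent.S55.h2_AddUnits
import Fermat.Agent.S55.h2_PLoc

/-!
# S55 / LOC-7 (helper63): the valuation `w = v_q ∘ N_{E/ℚ_q} : Additive Eˣ →+ ℤ_[p]`
(input `w` of H-CFBUILD for the local class formation), its Galois invariance, and the facts
that `ℤ_[p]` is `p`-local and without `p`-torsion.
-/

namespace Fermat.Agent.S55

/-- the valuation `w` of LOC-7: `x ↦ v_q(N_{E/ℚ_q} x)`, with values in `ℤ_[p]`. -/
noncomputable def h63_w (q : ℕ) [Fact q.Prime] (E : Type*) [Field E] [Algebra ℚ_[q] E]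
    [FiniteDimensional ℚ_[q] E] (p : ℕ) [Fact p.Prime] : Additive Eˣ →+ ℤ_[p] :=
  (Int.castAddHom ℤ_[p]).comp (h63_rawOrdHom q E)

theorem h63_w_apply (q : ℕ) [Fact q.Prime] (E : Type*) [Field E] [Algebra ℚ_[q] E]
    [FiniteDimensional ℚ_[q] E] (p : ℕ) [Fact p.Prime] (c : Additive Eˣ) :
    h63_w q E p c = ((h63_rawOrd q E (Additive.toMul c) : ℤ) : ℤ_[p]) := rfl

theorem h63_w_ofMul (q : ℕ) [Fact q.Prime] (E : Type*) [Field E] [Algebra ℚ_[q] E]
    [FiniteDimensional ℚ_[q] E] (p : ℕ) [Fact p.Prime] (x : Eˣ) :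
    h63_w q E p (Additive.ofMul x) = ((h63_rawOrd q E x : ℤ) : ℤ_[p]) := rfl

/-- `w` is invariant under `Gal(E/ℚ_q)`. -/
theorem h63_w_smul (q : ℕ) [Fact q.Prime] (E : Type*) [Field E] [Algebra ℚ_[q] E]
    [FiniteDimensional ℚ_[q] E] (p : ℕ) [Fact p.Prime] (g : E ≃ₐ[ℚ_[q]] E) (c : Additive Eˣ) :
    h63_w q E p (g • c) = h63_w q E p c := by
  rw [h63_w_apply, h63_w_apply]
  congr 1
  exact h63_rawOrd_algEquiv q g (Additive.toMul c)

/-- `ℤ_[p]` is `p`-local. -/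
theorem h63_isPLocal_padicInt (p : ℕ) [Fact p.Prime] : h40_IsPLocal p ℤ_[p] := by
  intro m hm
  have hu : IsUnit (m : ℤ_[p]) := by
    rw [PadicInt.isUnit_iff, PadicInt.norm_natCast_eq_one_iff]
    exact hm.symm
  obtain ⟨u, hu⟩ := hu
  constructor
  · intro x y hxy
    simp only [nsmul_eq_mul] at hxy
    rw [← hu] at hxy
    exact u.isUnit.mul_right_injective hxy
  · intro y
    refine ⟨(u⁻¹ : ℤ_[p]ˣ) * y, ?_⟩
    simp only [nsmul_eq_mul]
    rw [← hu, ← mul_assoc, Units.mul_inv, one_mul]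

/-- `ℤ_[p]` has no `p`-torsion. -/
theorem h63_padicInt_torsionFree (p : ℕ) [Fact p.Prime] (x : ℤ_[p]) (hx : p • x = 0) : x = 0 := by
  rw [nsmul_eq_mul] at hx
  rcases mul_eq_zero.1 hx with h | h
  · exact absurd h (by exact_mod_cast (Fact.out : p.Prime).ne_zero)
  · exact h

end Fermat.Agent.S55
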