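import Fermat.Agent.S55.h38_Symb

/-!
# S55 / GLOB-UNORM (helper63): Kummer character of a Frobenius = power residue symbol

`F ⊆ E` number fields, `ζ : 𝓞 F` a primitive `p`-th root of unity, `w` a prime of `𝓞 F` not
containing `p`, `W` a prime of `𝓞 E` above `w`, `x : 𝓞 F` prime to `w` and `β : 𝓞 E` with
`β ^ p = x`.  If `σβ ≡ β ^ (N w) mod W` (e.g. `σβ = σ β` for a Frobenius `σ` at `W`) and
`σβ = ζ ^ k * β` (the Kummer character of `x` at `σ` is `k`), then `k = (x / w)_p`, the power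
residue symbol `h38_symb p ζ w x`.

Stated in *element form* (`σβ` is just an element of `𝓞 E`), so that it applies to every
spelling of the action of `Gal(E/F)` on `𝓞 E`.
-/

set_option autoImplicit false

namespace Fermat.Agent.S55

open NumberField IsDedekindDomain

section SymbFrob

variable {F E : Type*} [Field F] [NumberField F] [Field E] [NumberField E] [Algebra F E]

/-- **Kummer character of Frobenius = power residue symbol**, element form, exponent `k : ℕ`. -/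
theorem h63_symb_frob {p : ℕ} (hp : p.Prime) {ζ : 𝓞 F} (hζ : IsPrimitiveRoot ζ p)
    (w : HeightOneSpectrum (𝓞 F)) (hpw : (p : 𝓞 F) ∉ w.asIdeal) (W : Ideal (𝓞 E)) [W.IsPrime]
    (hWw : ∀ a : 𝓞 F, algebraMap (𝓞 F) (𝓞 E) a ∈ W → a ∈ w.asIdeal)
    (x : 𝓞 F) (hx : x ∉ w.asIdeal) (β σβ : 𝓞 E) (hβ : β ^ p = algebraMap (𝓞 F) (𝓞 E) x)
    (hσ : σβ - β ^ Ideal.absNorm w.asIdeal ∈ W)
    (k : ℕ) (hk : σβ = algebraMap (𝓞 F) (𝓞 E) ζ ^ k * β) :
    h38_symb p ζ w x = (k : ZMod p) := by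
  obtain ⟨m, hm⟩ := h38_dvd_absNorm_sub_one hp hζ w hpw
  have hpos := h38_absNorm_sub_one_pos w
  have hN : Ideal.absNorm w.asIdeal = p * m + 1 := by omega
  have hm' : (Ideal.absNorm w.asIdeal - 1) / p = m := by
    rw [hm, Nat.mul_div_cancel_left m hp.pos]
  -- `(ζ ^ k - x ^ m) * β ∈ W`
  have h1 : algebraMap (𝓞 F) (𝓞 E) (ζ ^ k - x ^ m) * β ∈ W := by
    have e : algebraMap (𝓞 F) (𝓞 E) (ζ ^ k - x ^ m) * β = σβ - β ^ Ideal.absNorm w.asIdeal := by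
      rw [hN, pow_succ, pow_mul, hβ, hk, map_sub, map_pow, map_pow, sub_mul]
    rw [e]
    exact hσ
  have hβW : β ∉ W := by
    intro h
    apply hx
    apply hWw
    rw [← hβ]
    exact Ideal.pow_mem_of_mem W h p hp.pos
  have h2 : ζ ^ k - x ^ m ∈ w.asIdeal :=
    hWw _ ((Ideal.IsPrime.mem_or_mem inferInstance h1).resolve_right hβW)
  refine h38_symb_eq_of_pow hp hζ w hpw x hx k ?_
  rw [hm', ← map_pow, ← map_pow]
  refine (Ideal.Quotient.eq.2 ?_)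
  have h3 : x ^ m - ζ ^ k = -(ζ ^ k - x ^ m) := by ring
  rw [h3]
  exact w.asIdeal.neg_mem h2

/-- The same with the exponent in `ZMod p`. -/
theorem h63_symb_frob' {p : ℕ} (hp : p.Prime) {ζ : 𝓞 F} (hζ : IsPrimitiveRoot ζ p)
    (w : HeightOneSpectrum (𝓞 F)) (hpw : (p : 𝓞 F) ∉ w.asIdeal) (W : Ideal (𝓞 E)) [W.IsPrime]
    (hWw : ∀ a : 𝓞 F, algebraMap (𝓞 F) (𝓞 E) a ∈ W → a ∈ w.asIdeal)
    (x : 𝓞 F) (hx : x ∉ w.asIdeal) (β σβ : 𝓞 E) (hβ : β ^ p = algebraMap (𝓞 F) (𝓞 E) x)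
    (hσ : σβ - β ^ Ideal.absNorm w.asIdeal ∈ W)
    (k : ZMod p) (hk : σβ = algebraMap (𝓞 F) (𝓞 E) ζ ^ k.val * β) :
    h38_symb p ζ w x = k := by
  have : NeZero p := ⟨hp.ne_zero⟩
  rw [h63_symb_frob hp hζ w hpw W hWw x hx β σβ hβ hσ k.val hk, ZMod.natCast_zmod_val]

/-- The same for a prime `W` lying over `w` (`Ideal.LiesOver`). -/
theorem h63_symb_frob_liesOver {p : ℕ} (hp : p.Prime) {ζ : 𝓞 F} (hζ : IsPrimitiveRoot ζ p)
    (w : HeightOneSpectrum (𝓞 F)) (hpw : (p : 𝓞 F) ∉ w.asIdeal) (W : Ideal (𝓞 E)) [W.IsPrime]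
    [W.LiesOver w.asIdeal]
    (x : 𝓞 F) (hx : x ∉ w.asIdeal) (β σβ : 𝓞 E) (hβ : β ^ p = algebraMap (𝓞 F) (𝓞 E) x)
    (hσ : σβ - β ^ Ideal.absNorm w.asIdeal ∈ W)
    (k : ZMod p) (hk : σβ = algebraMap (𝓞 F) (𝓞 E) ζ ^ k.val * β) :
    h38_symb p ζ w x = k :=
  h63_symb_frob' hp hζ w hpw W
    (fun a ha => (Ideal.mem_of_liesOver W w.asIdeal a).2 ha) x hx β σβ hβ hσ k hk

end SymbFrob

end Fermat.Agent.S55
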