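import Fermat.Agent.S55.h63_SymbFrob

/-!
# S55 / GLOB-UNORM (helper63): Kummer character of a Frobenius = power residue symbol, Galois form

The statement of `h63_SymbFrob.lean` for `σ ∈ Gal(E/K)` acting on `𝓞 E` (Mathlib's action `σ • a`,
the spelling of helper98's `h98_RecipFrob.lean`): if `σ a ≡ a ^ N(w) mod W` for all `a : 𝓞 E`,
`β ∈ E`, `β ^ p = x` and `σ β = ζ ^ k * β`, then `k = h38_symb p ζ w x`.
-/

set_option autoImplicit false

namespace Fermat.Agent.S55

open NumberField IsDedekindDomain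

section SymbFrobGal

variable {K E : Type*} [Field K] [NumberField K] [Field E] [NumberField E] [Algebra K E]

/-- **Kummer character of Frobenius = power residue symbol**, Galois form. -/
theorem h63_symb_frob_gal {p : ℕ} (hp : p.Prime) {ζ : 𝓞 K} (hζ : IsPrimitiveRoot ζ p)
    (w : HeightOneSpectrum (𝓞 K)) (hpw : (p : 𝓞 K) ∉ w.asIdeal) (W : Ideal (𝓞 E)) [W.IsPrime]
    [W.LiesOver w.asIdeal] (σ : E ≃ₐ[K] E)
    (hσ : ∀ a : 𝓞 E, σ • a - a ^ Ideal.absNorm w.asIdeal ∈ W)
    (x : 𝓞 K) (hx : x ∉ w.asIdeal) (β : E) (hβ : β ^ p = algebraMap K E (x : K))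
    (k : ZMod p) (hk : σ β = algebraMap K E (ζ : K) ^ k.val * β) :
    h38_symb p ζ w x = k := by
  have hβint : IsIntegral ℤ β := by
    apply IsIntegral.of_pow hp.pos
    rw [hβ]
    exact (RingOfIntegers.isIntegral_coe x).algebraMap
  let β' : 𝓞 E := ⟨β, hβint⟩
  refine h63_symb_frob_liesOver hp hζ w hpw W x hx β' (σ • β') ?_ (hσ β') k ?_
  · apply RingOfIntegers.ext
    push_cast
    exact hβ
  · apply RingOfIntegers.ext
    push_cast
    exact hk

end SymbFrobGal

end Fermat.Agent.S55
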