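/-
S55 layer H, row 227 H-LAMMOD (helper69): the `Z_(p)`-module structure on a `p`-local
additive group, and closure properties of `h40_IsPLocal`.

* `h69_lamModule hC : Module (h40_Lam p) C` (a DEF, never an instance: use `letI`);
* `h69_lam_natCast_smul`, `h69_lam_intCast_smul`, `h69_lam_algebraMap_smul`,
  `h69_lam_map_smul` (every additive map between `p`-local groups is `Z_(p)`-linear),
  `h69_lam_smul_comm` (the `Z_(p)`-action commutes with every distributive action);
* `h69_isPLocal_lam`, `_of_lattice`, `_pi`, `_prod`, `_hom`, `_coind`, `_ker`,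
  `_of_surjective`.
-/
import Mathlib
import Fermat.Agent.S55.h72_AbsDefs
import Fermat.Agent.S55.h40_HDefs

set_option autoImplicit false
set_option linter.unusedSectionVars false

namespace Fermat.Agent.S55

open groupCohomology

section LAMMOD
variable {p : ℕ} [Fact p.Prime] {C C' : Type*} [AddCommGroup C] [AddCommGroup C']

/-- An integer prime to `p` acts bijectively on a `p`-local group. -/
theorem h69_int_smul_bijective (hC : h40_IsPLocal p C) (s : ℤ) (hs : ¬ (p : ℤ) ∣ s) :
    Function.Bijective (fun c : C => s • c) := by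
  have hcop : (s.natAbs).Coprime p := by
    rw [Nat.coprime_comm, (Fact.out : p.Prime).coprime_iff_not_dvd]
    intro h
    exact hs (Int.natCast_dvd.2 h)
  have hb := hC _ hcop
  rcases Int.natAbs_eq s with h | h
  · have : (fun c : C => s • c) = fun c : C => s.natAbs • c := by
      funext c
      conv_lhs => rw [h]
      rw [natCast_zsmul]
    rw [this]; exact hb
  · have : (fun c : C => s • c) = fun c : C => -(s.natAbs • c) := by
      funext c
      conv_lhs => rw [h]
      rw [neg_smul, natCast_zsmul]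
    rw [this]; exact (Equiv.neg C).bijective.comp hb

theorem h69_not_dvd_of_mem_primeCompl (y : (Ideal.span {(p : ℤ)}).primeCompl) :
    ¬ (p : ℤ) ∣ (y : ℤ) := fun h => y.2 (Ideal.mem_span_singleton.2 h)

theorem h69_isUnit_algebraMap_end (hC : h40_IsPLocal p C)
    (y : (Ideal.span {(p : ℤ)}).primeCompl) :
    IsUnit (((algebraMap ℤ (Module.End ℤ C)).toMonoidHom.comp
      (Ideal.span {(p : ℤ)}).primeCompl.subtype) y) := by
  show IsUnit (algebraMap ℤ (Module.End ℤ C) (y : ℤ))
  rw [Module.End.isUnit_iff]
  exact h69_int_smul_bijective hC (y : ℤ) (h69_not_dvd_of_mem_primeCompl y)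

/-- The ring homomorphism `Z_(p) → End C` of a `p`-local group. -/
noncomputable def h69_lamHom (hC : h40_IsPLocal p C) : h40_Lam p →+* Module.End ℤ C :=
  OreLocalization.universalHom (algebraMap ℤ (Module.End ℤ C))
    (IsUnit.liftRight ((algebraMap ℤ (Module.End ℤ C)).toMonoidHom.comp
      (Ideal.span {(p : ℤ)}).primeCompl.subtype) (h69_isUnit_algebraMap_end hC))
    (fun s => (IsUnit.coe_liftRight _ (h69_isUnit_algebraMap_end hC) s).symm)

/-- The `Z_(p)`-module structure of a `p`-local group (a DEF: use `letI`). -/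
@[reducible] noncomputable def h69_lamModule (hC : h40_IsPLocal p C) : Module (h40_Lam p) C :=
  Module.compHom C (h69_lamHom hC)

theorem h69_lam_smul_def (hC : h40_IsPLocal p C) (l : h40_Lam p) (c : C) :
    letI := h69_lamModule hC; l • c = h69_lamHom hC l c := rfl

theorem h69_lam_intCast_smul (hC : h40_IsPLocal p C) (a : ℤ) (c : C) :
    letI := h69_lamModule hC; (a : h40_Lam p) • c = a • c := by
  show h69_lamHom hC (a : h40_Lam p) c = a • c
  rw [map_intCast]
  rfl

theorem h69_lam_algebraMap_smul (hC : h40_IsPLocal p C) (a : ℤ) (c : C) :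
    letI := h69_lamModule hC; (algebraMap ℤ (h40_Lam p) a) • c = a • c := by
  rw [eq_intCast]
  exact h69_lam_intCast_smul hC a c

theorem h69_lam_natCast_smul (hC : h40_IsPLocal p C) (n : ℕ) (c : C) :
    letI := h69_lamModule hC; (n : h40_Lam p) • c = n • c := by
  have h := h69_lam_intCast_smul hC (n : ℤ) c
  rw [Int.cast_natCast, natCast_zsmul] at h
  exact h

/-- Every element of `Z_(p)` is a fraction `a / s` with `p ∤ s`; on a `p`-local group this
reads `s • (l • c) = a • c`. -/
theorem h69_lam_exists_frac (l : h40_Lam p) :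
    ∃ (a s : ℤ), ¬ (p : ℤ) ∣ s ∧ (s : h40_Lam p) * l = (a : h40_Lam p) := by
  obtain ⟨⟨a, s⟩, h⟩ := IsLocalization.surj (Ideal.span {(p : ℤ)}).primeCompl l
  refine ⟨a, (s : ℤ), h69_not_dvd_of_mem_primeCompl s, ?_⟩
  have h' : l * algebraMap ℤ (h40_Lam p) (s : ℤ) = algebraMap ℤ (h40_Lam p) a := h
  rw [eq_intCast, eq_intCast] at h'
  rw [mul_comm]; exact h'

theorem h69_lam_frac_smul (hC : h40_IsPLocal p C) (l : h40_Lam p) (a s : ℤ)
    (h : (s : h40_Lam p) * l = (a : h40_Lam p)) (c : C) :
    letI := h69_lamModule hC; s • (l • c) = a • c := by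
  let _ := h69_lamModule hC
  rw [← h69_lam_intCast_smul hC s (l • c), ← mul_smul, h, h69_lam_intCast_smul hC a c]

/-- Every additive map between `p`-local groups is `Z_(p)`-linear. -/
theorem h69_lam_map_smul (hC : h40_IsPLocal p C) (hC' : h40_IsPLocal p C') (f : C →+ C')
    (l : h40_Lam p) (c : C) :
    letI := h69_lamModule hC; letI := h69_lamModule hC'; f (l • c) = l • f c := by
  obtain ⟨a, s, hs, h⟩ := h69_lam_exists_frac l
  have h1 := h69_lam_frac_smul hC l a s h c
  have h2 := h69_lam_frac_smul hC' l a s h (f c)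
  apply (h69_int_smul_bijective hC' s hs).1
  show s • f (@HSMul.hSMul _ _ _ (@instHSMul _ _ (h69_lamModule hC).toSMul) l c) =
    s • (@HSMul.hSMul _ _ _ (@instHSMul _ _ (h69_lamModule hC').toSMul) l (f c))
  rw [h2, ← map_zsmul, h1, map_zsmul]

/-- The `Z_(p)`-action commutes with any distributive action on a `p`-local group. -/
theorem h69_lam_smul_comm {G : Type*} [Monoid G] [DistribMulAction G C]
    (hC : h40_IsPLocal p C) (g : G) (l : h40_Lam p) (c : C) :
    letI := h69_lamModule hC; g • (l • c) = l • (g • c) :=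
  h69_lam_map_smul hC hC (DistribSMul.toAddMonoidHom C g) l c

theorem h69_isPLocal_lam : h40_IsPLocal p (h40_Lam p) := by
  intro m hm
  have hu : IsUnit ((m : ℤ) : h40_Lam p) := by
    have hmem : (m : ℤ) ∈ (Ideal.span {(p : ℤ)}).primeCompl := by
      intro h
      have h0 : (m : ℤ) ∈ Ideal.span {(p : ℤ)} := h
      rw [Ideal.mem_span_singleton] at h0
      have h' : p ∣ m := by exact_mod_cast h0
      have := Nat.Coprime.eq_one_of_dvd hm.symm h'
      exact (Fact.out : p.Prime).one_lt.ne' this
    have := IsLocalization.map_units (h40_Lam p) (⟨(m : ℤ), hmem⟩ : (Ideal.span {(p : ℤ)}).primeCompl)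
    rwa [eq_intCast] at this
  have : (fun c : h40_Lam p => m • c) = fun c => ((m : ℤ) : h40_Lam p) * c := by
    funext c
    rw [Int.cast_natCast, nsmul_eq_mul]
  rw [this]
  exact (IsUnit.isUnit_iff_mulLeft_bijective).1 hu

/-- On `Z_(p)` itself the structure `h69_lamModule` is multiplication (the instance is written
explicitly: with `letI` alone, `l • c` on `Z_(p)` would elaborate to `Mul.toSMul`). -/
theorem h69_lam_smul_lam (l c : h40_Lam p) :
    @HSMul.hSMul _ _ _ (@instHSMul _ _ (h69_lamModule (h69_isPLocal_lam (p := p))).toSMul) l c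
      = l * c := by
  obtain ⟨a, s, hs, h⟩ := h69_lam_exists_frac l
  have h1 := h69_lam_frac_smul (h69_isPLocal_lam (p := p)) l a s h c
  apply (h69_int_smul_bijective (h69_isPLocal_lam (p := p)) s hs).1
  beta_reduce
  rw [h1, zsmul_eq_mul, zsmul_eq_mul, ← mul_assoc, h]

/-- An additive map from a `p`-local group to `Z_(p)` is `Z_(p)`-linear (target with its
ring multiplication). -/
theorem h69_lam_map_smul_lam (hC : h40_IsPLocal p C) (f : C →+ h40_Lam p) (l : h40_Lam p)
    (c : C) : letI := h69_lamModule hC; f (l • c) = l * f c := by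
  have h := h69_lam_map_smul hC (h69_isPLocal_lam (p := p)) f l c
  rw [← h69_lam_smul_lam l (f c)]
  exact h

theorem h69_isPLocal_pi {ι : Type*} (hC : h40_IsPLocal p C) : h40_IsPLocal p (ι → C) := by
  intro m hm
  have hb := hC m hm
  constructor
  · intro φ ψ h
    funext i
    exact hb.1 (congrFun h i)
  · intro φ
    choose ψ hψ using fun i => hb.2 (φ i)
    exact ⟨ψ, funext hψ⟩

theorem h69_isPLocal_of_addEquiv (e : C ≃+ C') (hC' : h40_IsPLocal p C') : h40_IsPLocal p C := by
  intro m hm
  have hb := hC' m hm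
  constructor
  · intro x y h
    apply e.injective
    apply hb.1
    show m • e x = m • e y
    rw [← map_nsmul, ← map_nsmul]
    exact congrArg e h
  · intro x
    obtain ⟨y, hy⟩ := hb.2 (e x)
    refine ⟨e.symm y, ?_⟩
    show m • e.symm y = x
    rw [← map_nsmul]
    have hy' : m • y = e x := hy
    rw [hy', e.symm_apply_apply]

theorem h69_isPLocal_of_lattice (h : h40_IsLattice p C) : h40_IsPLocal p C := by
  obtain ⟨d, ⟨e⟩⟩ := h
  exact h69_isPLocal_of_addEquiv e (h69_isPLocal_pi h69_isPLocal_lam)

theorem h69_isPLocal_prod (hC : h40_IsPLocal p C) (hC' : h40_IsPLocal p C') :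
    h40_IsPLocal p (C × C') := by
  intro m hm
  have hb := hC m hm
  have hb' := hC' m hm
  constructor
  · rintro ⟨x, x'⟩ ⟨y, y'⟩ h
    have h1 : m • x = m • y := congrArg Prod.fst h
    have h2 : m • x' = m • y' := congrArg Prod.snd h
    exact Prod.ext (hb.1 h1) (hb'.1 h2)
  · rintro ⟨x, x'⟩
    obtain ⟨y, hy⟩ := hb.2 x
    obtain ⟨y', hy'⟩ := hb'.2 x'
    exact ⟨(y, y'), Prod.ext hy hy'⟩

theorem h69_isPLocal_hom (hC' : h40_IsPLocal p C') : h40_IsPLocal p (h40_Hom C C') := by
  intro m hm
  have hb := hC' m hm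
  constructor
  · intro φ ψ h
    apply h40_Hom.ext
    intro a
    apply hb.1
    show m • φ a = m • ψ a
    have := congrArg (fun χ : h40_Hom C C' => χ a) h
    exact this
  · intro φ
    let e : C' ≃ C' := Equiv.ofBijective _ hb
    have he : ∀ x : C', m • e.symm x = x := fun x => e.apply_symm_apply x
    refine ⟨h40_Hom.mk
      { toFun := fun a => e.symm (φ a)
        map_zero' := by
          apply hb.1
          show m • e.symm (φ 0) = m • (0 : C')
          rw [he, smul_zero, h40_Hom.map_zero']
        map_add' := fun a a' => by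
          apply hb.1
          show m • e.symm (φ (a + a')) = m • (e.symm (φ a) + e.symm (φ a'))
          rw [he, smul_add, he, he, h40_Hom.map_add'] }, ?_⟩
    apply h40_Hom.ext
    intro a
    show m • e.symm (φ a) = φ a
    exact he _

theorem h69_isPLocal_coind (G : Type*) (hC : h40_IsPLocal p C) :
    h40_IsPLocal p (h40_Coind G C) :=
  h69_isPLocal_pi (ι := G) hC

theorem h69_isPLocal_ker (hC : h40_IsPLocal p C) (hC' : h40_IsPLocal p C') (f : C →+ C') :
    h40_IsPLocal p f.ker := by
  intro m hm
  have hb := hC m hm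
  have hb' := hC' m hm
  constructor
  · intro x y h
    apply Subtype.ext
    apply hb.1
    exact congrArg Subtype.val h
  · intro x
    obtain ⟨y, hy⟩ := hb.2 (x : C)
    have hy' : m • y = (x : C) := hy
    have hyk : y ∈ f.ker := by
      rw [AddMonoidHom.mem_ker]
      apply hb'.1
      show m • f y = m • (0 : C')
      rw [← map_nsmul, hy', smul_zero]
      exact x.2
    exact ⟨⟨y, hyk⟩, Subtype.ext hy'⟩

theorem h69_isPLocal_of_surjective (hC : h40_IsPLocal p C) (f : C →+ C')
    (hf : Function.Surjective f) (hker : h40_IsPLocal p f.ker) : h40_IsPLocal p C' := by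
  intro m hm
  have hb := hC m hm
  have hk := hker m hm
  constructor
  · intro x y h
    have h' : m • x = m • y := h
    obtain ⟨c, rfl⟩ := hf x
    obtain ⟨d, rfl⟩ := hf y
    have hmem : m • (c - d) ∈ f.ker := by
      rw [AddMonoidHom.mem_ker, map_nsmul, map_sub, smul_sub, h', sub_self]
    obtain ⟨k, hk'⟩ := hk.2 ⟨m • (c - d), hmem⟩
    have hk'' : m • (k : C) = m • (c - d) := congrArg Subtype.val hk'
    have : (k : C) = c - d := hb.1 hk''
    have hcd : f (c - d) = 0 := by rw [← this]; exact k.2
    rw [map_sub, sub_eq_zero] at hcd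
    exact hcd
  · intro x
    obtain ⟨c, rfl⟩ := hf x
    obtain ⟨d, hd⟩ := hb.2 c
    have hd' : m • d = c := hd
    refine ⟨f d, ?_⟩
    show m • f d = f c
    rw [← map_nsmul, hd']

end LAMMOD

end Fermat.Agent.S55
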