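import Mathlib
import Fermat.Agent.S55.h6_LocTeich
import Fermat.Agent.S55.h6_Hensel
import Fermat.Agent.S55.h69_LocRes

/-!
# S55 / LOC-UNR-1 (helper6): Teichmüller representatives, unconditional forms

* `h6_teich` : every unit of `O_K` is congruent mod `𝔪_K` to a `(Q-1)`-th root of unity.
* `h6_exists_primitiveRoot` : `K` contains a primitive `(Q-1)`-th root of unity.
-/

set_option autoImplicit false

namespace Fermat.Agent.S55

variable (q : ℕ) [Fact q.Prime]

variable (K : Type*) [Field K] [Algebra ℚ_[q] K] [FiniteDimensional ℚ_[q] K]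

/-- **LOC-UNR-1 (b)**: every unit of `O_K` is congruent mod `𝔪_K` to a `(Q-1)`-th root of
unity. -/
theorem h6_teich (x : K) (hx : x ∈ h63_O q K) (hx' : x ∉ (h63_O q K).nonunits) :
    ∃ ζ : K, ζ ^ (h63_resCard q K - 1) = 1 ∧ x - ζ ∈ (h63_O q K).nonunits :=
  h6_teich_of q K (h69_pow_resCard_sub_one q K) (h6_hensel q K) x hx hx'

/-- **LOC-UNR-1 (c)**: `K` contains a primitive `(Q-1)`-th root of unity. -/
theorem h6_exists_primitiveRoot : ∃ ζ : K, IsPrimitiveRoot ζ (h63_resCard q K - 1) :=
  h6_exists_primitiveRoot_of q K (h69_resField_card q K) (h6_teich q K)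

end Fermat.Agent.S55
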