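import Fermat.Agent.S55.h12_AmbDefs
import Fermat.Agent.S55.h40_AmbModel

/-!
# S55, Tier 3 (GLOB-AMB), row LF-EV: the fields `e_ι`, `e_smul`, `e_bij` of `h12_LevFacts`
for helper40's model (`h40_AmbModel`)

Exact field shapes over the model constants `h40_Γ`, `h40_π`, `h40_J`, `h40_ιJ`, `h40_e`,
`XX q = h63_XX q.1`:

* `h94_lf_e_ι`    : `e q L' (ιJ q L L' h y) = e q L y`;
* `h94_lf_e_smul` : `e q L (π L (primeLocalToGlobal q.1 τ) • y) = τ • e q L y`;
* `h94_lf_e_bij`  : `J q L` is coinduced: the `φ : G_ℚ → XX q` which are equivariant for the local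
  Galois group and right `L.U`-invariant are exactly `g ↦ e q L (π L g • y)`, `y` unique.

All three are the landed dictionary `h94_LevJ` (`h94_e_ext`, `h94_e_smul`, `h94_e_bij`).
-/

set_option autoImplicit false

open ExtCitation

namespace Fermat.Agent.S55

local notation "GQ" => (AlgebraicClosure ℚ ≃ₐ[ℚ] AlgebraicClosure ℚ)

variable (S : Finset Nat.Primes)

/-- field `e_ι` of `h12_LevFacts` for the model. -/
theorem h94_lf_e_ι (q : ↥S) (L L' : h56_Level S) (h : L ≤ L') (y : h40_J S q L) :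
    h40_e S q L' (h40_ιJ S q L L' h y) = h40_e S q L y :=
  h94_e_ext q.1 (h56_Level.le_def.1 h) (Additive.toMul y)

/-- field `e_smul` of `h12_LevFacts` for the model. -/
theorem h94_lf_e_smul (q : ↥S) (L : h56_Level S) (τ : primeLocalGaloisGroup q.1)
    (y : h40_J S q L) :
    h40_e S q L (h40_π S L (primeLocalToGlobal q.1 τ) • y) = τ • h40_e S q L y :=
  h94_e_smul q.1 L.field τ (Additive.toMul y)

/-- field `e_bij` of `h12_LevFacts` for the model. -/
theorem h94_lf_e_bij (q : ↥S) (L : h56_Level S) (φ : GQ → h63_XX q.1)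
    (h1 : ∀ (τ : primeLocalGaloisGroup q.1) (g : GQ),
      φ (primeLocalToGlobal q.1 τ * g) = τ • φ g)
    (h2 : ∀ g s, s ∈ L.U → φ (g * s) = φ g) :
    ∃! y : h40_J S q L, ∀ g : GQ, h40_e S q L (h40_π S L g • y) = φ g :=
  h94_e_bij q.1 L.field φ h1 h2

end Fermat.Agent.S55
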