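import Fermat.Agent.S55.h73_AsmD1
import Fermat.Agent.S55.h52_TNFinalR

/-!
# S55 row 284 (ASM-D1, fact (F2)), helper73: the unconditional statement

`h73_asm_d1` = the statement `asm_d1` of the assembly skeleton, verbatim, with no extra
hypothesis: `h73_asm_d1_of_tnR` applied to Tate-Nakayama (R) `h52_tn_R`.

Also: `h73_tnR_statement : h21_TnRStatement p` and `h73_adt1_statement : h56_ADT1Statement p`
(the propositions consumed by the conditional assembly lemmas, now unconditional).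
-/

set_option autoImplicit false

open CategoryTheory Module groupCohomology ExtCitation

namespace Fermat.Agent.S55

local notation "GQ" => (AlgebraicClosure ℚ ≃ₐ[ℚ] AlgebraicClosure ℚ)

/-- Tate-Nakayama (R) as the proposition `h21_TnRStatement p`. -/
theorem h73_tnR_statement (p : ℕ) [Fact p.Prime] : h21_TnRStatement p := by
  intro G _ _ C _ _ hC N _ _ _ _ y hy hperp
  exact h52_tn_R hC y hy hperp

/-- `adt_D1` as the proposition `h56_ADT1Statement p`. -/
theorem h73_adt1_statement (p : ℕ) [Fact p.Prime] : h56_ADT1Statement p :=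
  h21_ADT1Statement_of_tnR (h73_tnR_statement p)

section D1

variable {p : ℕ} [Fact p.Prime] (S : Finset Nat.Primes)
  {CC : Type} [AddCommGroup CC] [DistribMulAction GQ CC]
  {JJ : ↥S → Type} [∀ q, AddCommGroup (JJ q)] [∀ q, DistribMulAction GQ (JJ q)]
  {XX : ↥S → Type} [∀ q, AddCommGroup (XX q)]
  [∀ q : ↥S, DistribMulAction (primeLocalGaloisGroup q.1) (XX q)]
  {κ : ∀ q, JJ q →+ CC} {ev : ∀ q, JJ q →+ XX q} {zz : ∀ q, XX q}

variable (M : Rep (ZMod p) GQ) [FiniteDimensional (ZMod p) M]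

/-- **ASM-D1 (F2)**: a class of `H²(G_S, M)` killed by all of `Hom_G(M, CC)` is zero. -/
theorem h73_asm_d1 (hA : h72_PTAmbient p S CC JJ XX κ ev zz)
    (L₀ : h72_Lev S) (hL₀ : ∀ s ∈ L₀.U, M.ρ s = 1)
    (c : GQ × GQ → M) (hc : c ∈ cocycles₂ M) (hcl : IsLevelConstantS₂ S c)
    (hperp : ∀ f : M →+ CC, h72_IsEqv M f → h72_IsCobS₂ S (fun x => f (c x))) :
    ∃ x : GQ → M, IsLevelConstantS₁ S x ∧ ∀ g h, M.ρ g (x h) - x (g * h) + x g = c (g, h) :=
  h73_asm_d1_of_tnR S M (h73_tnR_statement p) hA L₀ hL₀ c hc hcl hperp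

end D1

end Fermat.Agent.S55
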