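import Fermat.Agent.S55.h72_AsmDefs

/-!
# S55 ASM-SHA2-B (row 338): ambient Shapiro lemma, injectivity in degree 2

`JJ q` is coinduced from `XX q` along `r = primeLocalToGlobal q` (`hA.ev_bij`).  A 2-cocycle `z`
of `G_ℚ` in `JJ q` of level `U` whose "evaluation at `1`, restricted to `G_q`" is the coboundary
of an `r⁻¹(U)`-invariant cochain `ξ` is the coboundary of a level-`U` cochain.

`h78_shapiro₂_abs` is the abstract form (any groups `Γ →* G`, `U ◁ G`, any modules), and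
`h78_shapiro₂_amb` is the row statement.
-/

set_option autoImplicit false
set_option linter.unusedSectionVars false

open CategoryTheory Module groupCohomology ExtCitation

namespace Fermat.Agent.S55

local notation "GQ" => (AlgebraicClosure ℚ ≃ₐ[ℚ] AlgebraicClosure ℚ)

section Abstract

variable {Γ G : Type*} [Group Γ] [Group G] (r : Γ →* G) (U : Subgroup G)

/-- double cosets `r(Γ) \ G / U` as a setoid. -/
def h78_dcRel (g g' : G) : Prop := ∃ τ : Γ, ∃ s ∈ U, g' = r τ * g * s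

theorem h78_dcRel_refl (g : G) : h78_dcRel r U g g :=
  ⟨1, 1, U.one_mem, by simp⟩

theorem h78_dcRel_symm {g g' : G} (h : h78_dcRel r U g g') : h78_dcRel r U g' g := by
  obtain ⟨τ, s, hs, rfl⟩ := h
  refine ⟨τ⁻¹, s⁻¹, U.inv_mem hs, ?_⟩
  rw [map_inv]; group

theorem h78_dcRel_trans {g g' g'' : G} (h : h78_dcRel r U g g') (h' : h78_dcRel r U g' g'') :
    h78_dcRel r U g g'' := by
  obtain ⟨τ, s, hs, rfl⟩ := h
  obtain ⟨τ', s', hs', rfl⟩ := h'
  refine ⟨τ' * τ, s * s', U.mul_mem hs hs', ?_⟩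
  rw [map_mul]; group

/-- the double coset setoid. -/
def h78_dcSetoid : Setoid G where
  r := h78_dcRel r U
  iseqv := ⟨h78_dcRel_refl r U, h78_dcRel_symm r U, h78_dcRel_trans r U⟩

/-- the chosen representative of the double coset of `g`. -/
noncomputable def h78_rep (g : G) : G :=
  @Quotient.out _ (h78_dcSetoid r U) (@Quotient.mk _ (h78_dcSetoid r U) g)

theorem h78_rep_rel (g : G) : h78_dcRel r U (h78_rep r U g) g := by
  have h := @Quotient.out_eq _ (h78_dcSetoid r U) (@Quotient.mk _ (h78_dcSetoid r U) g)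
  exact @Quotient.exact _ (h78_dcSetoid r U) _ _ h

theorem h78_rep_eq_of_rel {g g' : G} (h : h78_dcRel r U g g') : h78_rep r U g' = h78_rep r U g := by
  unfold h78_rep
  congr 1
  exact @Quotient.sound _ (h78_dcSetoid r U) _ _ (h78_dcRel_symm r U h)

theorem h78_rep_mul_right (g s : G) (hs : s ∈ U) : h78_rep r U (g * s) = h78_rep r U g :=
  h78_rep_eq_of_rel r U ⟨1, s, hs, by simp⟩

theorem h78_rep_mul_left (τ : Γ) (g : G) : h78_rep r U (r τ * g) = h78_rep r U g :=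
  h78_rep_eq_of_rel r U ⟨τ, 1, U.one_mem, by simp⟩

/-- a chosen `τ_g` with `g = r τ_g * rep g * s_g`. -/
noncomputable def h78_tau (g : G) : Γ := (h78_rep_rel r U g).choose

theorem h78_tau_spec (g : G) : ∃ s ∈ U, g = r (h78_tau r U g) * h78_rep r U g * s :=
  (h78_rep_rel r U g).choose_spec

variable {J X : Type*} [AddCommGroup J] [DistribMulAction G J] [AddCommGroup X]
  [DistribMulAction Γ X]

/-- **Shapiro, injectivity in degree 2, abstract ambient form.** -/
theorem h78_shapiro₂_abs [hU : U.Normal] (e : J →+ X) (he : ∀ (τ : Γ) (y : J), e (r τ • y) = τ • e y)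
    (huniq : ∀ y y' : J, (∀ k : G, e (k • y) = e (k • y')) → y = y')
    (hex : ∀ φ : G → X, (∀ (τ : Γ) (g : G), φ (r τ * g) = τ • φ g) →
      (∀ g s, s ∈ U → φ (g * s) = φ g) → ∃ y : J, ∀ g : G, e (g • y) = φ g)
    (z : G × G → J) (hz : IsCocycle₂ z) (hzl : h56_IsLevel₂ U z)
    (ξ : Γ → X) (hξl : ∀ τ s : Γ, r s ∈ U → ξ (τ * s) = ξ τ)
    (hξ : ∀ τ τ' : Γ, τ • ξ τ' - ξ (τ * τ') + ξ τ = e (z (r τ, r τ'))) :
    ∃ w : G → J, h56_IsLevel₁ U w ∧ ∀ g h : G, g • w h - w (g * h) + w g = z (g, h) := by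
  classical
  -- level invariance of `z` in each variable separately
  have hzl1 : ∀ (g g' s : G), s ∈ U → z (g * s, g') = z (g, g') := by
    intro g g' s hs
    have := hzl g g' s 1 hs U.one_mem
    simpa using this
  have hzl2 : ∀ (g g' s : G), s ∈ U → z (g, g' * s) = z (g, g') := by
    intro g g' s hs
    have := hzl g g' 1 s U.one_mem hs
    simpa using this
  obtain ⟨β, hβ⟩ : ∃ β : Γ → G → X, ∀ τ k, β τ k = e (z (r τ, k)) := ⟨_, fun _ _ => rfl⟩
  -- (I1)
  have I1 : ∀ (τ : Γ) (k g : G),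
      e (z (r τ * k, g)) + β τ k = τ • e (z (k, g)) + β τ (k * g) := by
    intro τ k g
    have h := hz (r τ) k g
    have h2 := congrArg e h
    rw [map_add, map_add, he] at h2
    rw [hβ, hβ]
    exact h2
  -- (I2)
  have I2 : ∀ (τ' τ : Γ) (k : G),
      β (τ' * τ) k + e (z (r τ', r τ)) = τ' • β τ k + β τ' (r τ * k) := by
    intro τ' τ k
    have h := hz (r τ') (r τ) k
    have h2 := congrArg e h
    rw [map_add, map_add, he] at h2
    rw [hβ, hβ, hβ, map_mul]
    exact h2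
  -- (I3)
  have I3 : ∀ (k g h : G),
      e (k • z (g, h)) = e (z (k * g, h)) + e (z (k, g)) - e (z (k, g * h)) := by
    intro k g h
    have h1 := hz k g h
    have h2 := congrArg e h1
    rw [map_add, map_add] at h2
    rw [h2]; abel
  -- θ
  obtain ⟨θ, hθ⟩ : ∃ θ : G → X, ∀ g, θ g = - β (h78_tau r U g) (h78_rep r U g) + ξ (h78_tau r U g) :=
    ⟨_, fun _ => rfl⟩
  -- (A)
  have hA : ∀ (g : G) (τ : Γ) (s : G), s ∈ U → g = r τ * h78_rep r U g * s →
      θ g = - β τ (h78_rep r U g) + ξ τ := by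
    intro g τ s hs hg
    obtain ⟨s0, hs0, hg0⟩ := h78_tau_spec r U g
    set k := h78_rep r U g with hk
    set τ0 := h78_tau r U g with hτ0
    -- r (τ0⁻¹ * τ) = k * (s0 * s⁻¹) * k⁻¹ ∈ U
    have h1 : r (τ0⁻¹ * τ) = k * (s0 * s⁻¹) * k⁻¹ := by
      have h2 : r τ * k * s = r τ0 * k * s0 := by rw [← hg, ← hg0]
      have h3 : r τ = r τ0 * k * s0 * s⁻¹ * k⁻¹ := by
        rw [← h2]; group
      rw [map_mul, map_inv, h3]; group
    have h4 : r (τ0⁻¹ * τ) ∈ U := by
      rw [h1]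
      exact hU.conj_mem _ (U.mul_mem hs0 (U.inv_mem hs)) k
    have h5 : τ = τ0 * (τ0⁻¹ * τ) := by group
    have h6 : ξ τ = ξ τ0 := by
      rw [h5]; exact hξl τ0 _ h4
    have h7 : β τ k = β τ0 k := by
      rw [hβ, hβ]
      have : r τ = r τ0 * r (τ0⁻¹ * τ) := by rw [← map_mul, ← h5]
      rw [this, hzl1 _ _ _ h4]
    rw [hθ g, h6, h7]
  -- (T2)
  have T2 : ∀ (k s : G), s ∈ U → θ (k * s) = θ k := by
    intro k s hs
    obtain ⟨s0, hs0, hk0⟩ := h78_tau_spec r U k
    have hrep : h78_rep r U (k * s) = h78_rep r U k := h78_rep_mul_right r U k s hs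
    have h1 : k * s = r (h78_tau r U k) * h78_rep r U (k * s) * (s0 * s) := by
      rw [hrep]
      conv_lhs => rw [hk0]
      group
    rw [hA (k * s) (h78_tau r U k) (s0 * s) (U.mul_mem hs0 hs) h1, hrep, hθ k]
  -- (T1)
  have T1 : ∀ (τ : Γ) (g : G), θ (r τ * g) = τ • θ g - β τ g + ξ τ := by
    intro τ g
    obtain ⟨s0, hs0, hg0⟩ := h78_tau_spec r U g
    have hrep : h78_rep r U (r τ * g) = h78_rep r U g := h78_rep_mul_left r U τ g
    set k := h78_rep r U g with hk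
    set τ0 := h78_tau r U g with hτ0
    have h1 : r τ * g = r (τ * τ0) * h78_rep r U (r τ * g) * s0 := by
      rw [hrep, map_mul]
      conv_lhs => rw [hg0]
      group
    rw [hA (r τ * g) (τ * τ0) s0 hs0 h1, hrep]
    have h2 := I2 τ τ0 k
    have h3 : β τ (r τ0 * k) = β τ g := by
      rw [hβ, hβ]
      have : g = (r τ0 * k) * s0 := hg0
      rw [this, hzl2 _ _ _ hs0]
    have h4 := hξ τ τ0
    have h5 : θ g = - β τ0 k + ξ τ0 := hθ g
    rw [h5, smul_add, smul_neg]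
    rw [h3] at h2
    -- β (τ * τ0) k = τ • β τ0 k + β τ g - e (z (r τ, r τ0))
    have h6 : β (τ * τ0) k = τ • β τ0 k + β τ g - e (z (r τ, r τ0)) := by
      rw [← h2]; abel
    rw [h6, ← h4]
    abel
  -- W
  obtain ⟨W, hW⟩ : ∃ W : G → G → X, ∀ g k, W g k = e (z (k, g)) + θ (k * g) - θ k :=
    ⟨_, fun _ _ => rfl⟩
  have W1 : ∀ (g : G) (τ : Γ) (k : G), W g (r τ * k) = τ • W g k := by
    intro g τ k
    rw [hW, hW]
    have h1 := I1 τ k g
    have h2 := T1 τ (k * g)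
    have h3 := T1 τ k
    rw [mul_assoc, h2, h3, smul_sub, smul_add]
    have h4 : e (z (r τ * k, g)) = τ • e (z (k, g)) + β τ (k * g) - β τ k := by
      rw [← h1]; abel
    rw [h4]
    abel
  have W2 : ∀ (g k s : G), s ∈ U → W g (k * s) = W g k := by
    intro g k s hs
    rw [hW, hW]
    have h1 : k * s * g = k * g * (g⁻¹ * s * g) := by group
    have h2 : g⁻¹ * s * g ∈ U := by
      have := hU.conj_mem s hs g⁻¹
      simpa using this
    rw [hzl1 _ _ _ hs, h1, T2 _ _ h2, T2 _ _ hs]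
  have W3 : ∀ (g s k : G), s ∈ U → W (g * s) k = W g k := by
    intro g s k hs
    rw [hW, hW]
    rw [hzl2 _ _ _ hs, ← mul_assoc, T2 _ _ hs]
  -- w
  have hw : ∀ g : G, ∃ y : J, ∀ k : G, e (k • y) = W g k :=
    fun g => hex (W g) (fun τ k => W1 g τ k) (fun k s hs => W2 g k s hs)
  choose w hw using hw
  refine ⟨w, ?_, ?_⟩
  · intro g s hs
    apply huniq
    intro k
    rw [hw, hw, W3 g s k hs]
  · intro g h
    apply huniq
    intro k
    rw [smul_add, smul_sub, ← mul_smul, map_add, map_sub, hw, hw, hw, I3]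
    rw [hW, hW, hW]
    rw [mul_assoc]
    abel

end Abstract

section
variable {p : ℕ} [Fact p.Prime] (S : Finset Nat.Primes)
  {CC : Type} [AddCommGroup CC] [DistribMulAction GQ CC]
  {JJ : ↥S → Type} [∀ q, AddCommGroup (JJ q)] [∀ q, DistribMulAction GQ (JJ q)]
  {XX : ↥S → Type} [∀ q, AddCommGroup (XX q)]
  [∀ q : ↥S, DistribMulAction (primeLocalGaloisGroup q.1) (XX q)]
  {κ : ∀ q, JJ q →+ CC} {ev : ∀ q, JJ q →+ XX q} {zz : ∀ q, XX q}

/-- uniqueness part of the coinduction property of `JJ q`. -/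
theorem h78_ev_uniq (hA : h72_PTAmbient p S CC JJ XX κ ev zz) (q : ↥S) (y y' : JJ q)
    (h : ∀ k : GQ, ev q (k • y) = ev q (k • y')) : y = y' := by
  obtain ⟨L', hL'⟩ := hA.jj_smooth q y
  have h1 := hA.ev_bij q (fun k => ev q (k • y))
    (fun τ g => by
      show ev q ((primeLocalToGlobal q.1 τ * g) • y) = τ • ev q (g • y)
      rw [mul_smul, hA.ev_smul])
    ⟨L', fun g s hs => by
      show ev q ((g * s) • y) = ev q (g • y)
      rw [mul_smul, hL' s hs]⟩
  exact h1.unique (fun g => rfl) (fun g => (h g).symm)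

/-- **ASM-SHA2-B (row 338)**: ambient Shapiro 2-injectivity for `JJ q`. -/
theorem h78_shapiro₂_amb (hA : h72_PTAmbient p S CC JJ XX κ ev zz) (q : ↥S)
    (z : GQ × GQ → JJ q) (hz : IsCocycle₂ z) (L : h72_Lev S) (hzl : h56_IsLevel₂ L.U z)
    (ξ : primeLocalGaloisGroup q.1 → XX q)
    (hξl : ∀ τ s : primeLocalGaloisGroup q.1, primeLocalToGlobal q.1 s ∈ L.U → ξ (τ * s) = ξ τ)
    (hξ : ∀ τ τ' : primeLocalGaloisGroup q.1, τ • ξ τ' - ξ (τ * τ') + ξ τ =
      ev q (z (primeLocalToGlobal q.1 τ, primeLocalToGlobal q.1 τ'))) :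
    ∃ w : GQ → JJ q, h56_IsLevel₁ L.U w ∧ ∀ g h : GQ, g • w h - w (g * h) + w g = z (g, h) :=
  h78_shapiro₂_abs (primeLocalToGlobal q.1) L.U (ev q) (hA.ev_smul q) (h78_ev_uniq S hA q)
    (fun φ h1 h2 => (hA.ev_bij q φ h1 ⟨L, h2⟩).exists) z hz hzl ξ hξl hξ

end

end Fermat.Agent.S55
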