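import Fermat.Agent.S55.h82_AsmSha2
import Fermat.Agent.S55.h78_ShapiroAmb

/-!
# S55, assembly layer: ASM-SHA2 (F4), unconditional (helper82)

`h82_asm_sha2` = `asm_sha2` of the assembly skeleton (for `M : Rep.{0}`, the universe of the
frozen statement), from `h82_asm_sha2_of` and the ambient Shapiro injectivity in degree 2
(`h78_shapiro₂_amb`, row ASM-SHA2-B).
-/

set_option autoImplicit false

open CategoryTheory Module groupCohomology ExtCitation

namespace Fermat.Agent.S55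

local notation "Qb" => AlgebraicClosure ℚ
local notation "GQ" => (AlgebraicClosure ℚ ≃ₐ[ℚ] AlgebraicClosure ℚ)

section Middle

variable {p : ℕ} [Fact p.Prime] (S : Finset Nat.Primes)
  {CC : Type} [AddCommGroup CC] [DistribMulAction GQ CC]
  {JJ : ↥S → Type} [∀ q, AddCommGroup (JJ q)] [∀ q, DistribMulAction GQ (JJ q)]
  {XX : ↥S → Type} [∀ q, AddCommGroup (XX q)]
  [∀ q : ↥S, DistribMulAction (primeLocalGaloisGroup q.1) (XX q)]
  {κ : ∀ q, JJ q →+ CC} {ev : ∀ q, JJ q →+ XX q} {zz : ∀ q, XX q}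

variable (M : Rep.{0} (ZMod p) GQ) [FiniteDimensional (ZMod p) M]

/-- ASM-SHA2 (F4): `sha₂` is the orthogonal of the image of `Hom_G(M, JJ)`. -/
theorem h82_asm_sha2 (hA : h72_PTAmbient p S CC JJ XX κ ev zz)
    (L₀ : h72_Lev S) (hL₀ : ∀ s ∈ L₀.U, M.ρ s = 1)
    (c : GQ × GQ → M) (hc : c ∈ cocycles₂ M) (hcl : IsLevelConstantS₂ S c) :
    (∀ (q : ↥S) (ft : M →+ JJ q), h72_IsEqv M ft → h72_IsCobS₂ S (fun x => κ q (ft (c x)))) ↔
    (∀ q : ↥S, ∃ x : primeLocalGaloisGroup q.1 → M,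
      IsLevelConstant₁ (primeLocalToGlobal q.1) x ∧
      ∀ τ τ', M.ρ (primeLocalToGlobal q.1 τ) (x τ') - x (τ * τ') + x τ =
        c (primeLocalToGlobal q.1 τ, primeLocalToGlobal q.1 τ')) :=
  h82_asm_sha2_of S M hA
    (fun q z hz L hzl ξ hξl hξ => h78_shapiro₂_amb S hA q z hz L hzl ξ hξl hξ) L₀ hL₀ c hc hcl

end Middle

end Fermat.Agent.S55
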