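import Fermat.Agent.S55.h95_AsmTop
import Fermat.Agent.S55.h32_AsmFund
import Fermat.Agent.S55.h73_AsmD1Final
import Fermat.Agent.S55.h56_AsmD2
import Fermat.Agent.S55.h82_AsmSha2W
import Fermat.Agent.S55.h56_Levels

/-!
# S55, assembly layer: the theorem from the ambient interface (helper95)

`h95_S55_of_PTAmbient` is `asm_top` of the assembly skeleton, verbatim and unconditional: the
frozen statement S55 follows from ONE ambient system `h72_PTAmbient p S CC JJ XX κ ev zz`.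
It is `h95_asm_top_core` applied to the four middle facts, all of which are theorems:

* `h32_asm_fund`  (F1, the `p`-torsion of `H²_S(G_ℚ, CC)` is cyclic of order `p`),
* `h73_asm_d1`    (F2, right kernel),
* `h56_asm_d2`    (F3, left kernel),
* `h82_asm_sha2`  (F4, `sha₂` is the orthogonal of the image of `Hom_G(M, JJ)`),

with the base level from `h56_exists_base_level`.

`h95_S55_of_exists_ambient` is the same with the ambient system under an existential, in the
exact shape of the conclusion of `glob_exists_ambient` (Tier 3 of the skeleton).  Hence the final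
file is one line:
`h95_S55_of_exists_ambient hp2 S hpS M hsm hMur (glob_exists_ambient hp2 S hpS)`.
-/

set_option autoImplicit false

open CategoryTheory Module groupCohomology ExtCitation

namespace Fermat.Agent.S55

local notation "GQ" => (AlgebraicClosure ℚ ≃ₐ[ℚ] AlgebraicClosure ℚ)

/-- **ASM-TOP (Tier 1), unconditional**: S55 from the ambient interface. -/
theorem h95_S55_of_PTAmbient {p : ℕ} [Fact p.Prime] (hp2 : p ≠ 2) (S : Finset Nat.Primes)
    (hpS : pPrime p ∈ S) (M : Rep (ZMod p) GQ) [FiniteDimensional (ZMod p) M]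
    (hsm : ∀ m : M, ∃ F : IntermediateField ℚ (AlgebraicClosure ℚ), FiniteDimensional ℚ F ∧
      ∀ s ∈ F.fixingSubgroup, M.ρ s m = m)
    (hMur : ∀ q : Nat.Primes, q ∉ S → ∀ A : ValuationSubring (AlgebraicClosure ℚ),
      A.LiesOverPrime (q : ℕ) → ∀ g ∈ A.inertiaSubgroupIn ℚ, M.ρ g = 1)
    {CC : Type} [AddCommGroup CC] [DistribMulAction GQ CC]
    {JJ : ↥S → Type} [∀ q, AddCommGroup (JJ q)] [∀ q, DistribMulAction GQ (JJ q)]
    {XX : ↥S → Type} [∀ q, AddCommGroup (XX q)]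
    [∀ q : ↥S, DistribMulAction (primeLocalGaloisGroup q.1) (XX q)]
    {κ : ∀ q, JJ q →+ CC} {ev : ∀ q, JJ q →+ XX q} {zz : ∀ q, XX q}
    (hA : h72_PTAmbient p S CC JJ XX κ ev zz) :
    ∃ B : sha₁ S (M.dualTwist (cycloChar p)) →ₗ[ZMod p] sha₂ S M →ₗ[ZMod p] ZMod p,
      (∀ y, (∀ x, B y x = 0) → y = 0) ∧ (∀ x, (∀ y, B y x = 0) → x = 0) := by
  obtain ⟨F, hF, hgal, hM, -⟩ := h56_exists_base_level S hpS M hsm hMur
  let L₀ : h72_Lev S := ⟨F, hF, hgal⟩
  have hL₀ : ∀ s ∈ L₀.U, M.ρ s = 1 := hM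
  exact h95_asm_top_core hp2 hpS M hsm hMur hA (h32_asm_fund S hpS hA)
    (fun c hc hcl hperp => h73_asm_d1 S M hA L₀ hL₀ c hc hcl hperp)
    (fun f hf hperp => h56_asm_d2 S M hA L₀ hL₀ f hf hperp)
    (fun c hc hcl => h82_asm_sha2 S M hA L₀ hL₀ c hc hcl)

/-- S55 from the existence of an ambient system, in the shape of `glob_exists_ambient`. -/
theorem h95_S55_of_exists_ambient {p : ℕ} [Fact p.Prime] (hp2 : p ≠ 2) (S : Finset Nat.Primes)
    (hpS : pPrime p ∈ S) (M : Rep (ZMod p) GQ) [FiniteDimensional (ZMod p) M]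
    (hsm : ∀ m : M, ∃ F : IntermediateField ℚ (AlgebraicClosure ℚ), FiniteDimensional ℚ F ∧
      ∀ s ∈ F.fixingSubgroup, M.ρ s m = m)
    (hMur : ∀ q : Nat.Primes, q ∉ S → ∀ A : ValuationSubring (AlgebraicClosure ℚ),
      A.LiesOverPrime (q : ℕ) → ∀ g ∈ A.inertiaSubgroupIn ℚ, M.ρ g = 1)
    (hamb : ∃ (CC : Type) (_ : AddCommGroup CC) (_ : DistribMulAction GQ CC)
      (JJ : ↥S → Type) (_ : ∀ q, AddCommGroup (JJ q)) (_ : ∀ q, DistribMulAction GQ (JJ q))
      (XX : ↥S → Type) (_ : ∀ q, AddCommGroup (XX q))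
      (_ : ∀ q : ↥S, DistribMulAction (primeLocalGaloisGroup q.1) (XX q))
      (κ : ∀ q, JJ q →+ CC) (ev : ∀ q, JJ q →+ XX q) (zz : ∀ q, XX q),
      h72_PTAmbient p S CC JJ XX κ ev zz) :
    ∃ B : sha₁ S (M.dualTwist (cycloChar p)) →ₗ[ZMod p] sha₂ S M →ₗ[ZMod p] ZMod p,
      (∀ y, (∀ x, B y x = 0) → y = 0) ∧ (∀ x, (∀ y, B y x = 0) → x = 0) := by
  obtain ⟨CC, _, _, JJ, _, _, XX, _, _, κ, ev, zz, hA⟩ := hamb
  exact h95_S55_of_PTAmbient hp2 S hpS M hsm hMur hA

end Fermat.Agent.S55
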