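import Fermat.Agent.S55.h12_AmbOfLevels
import Fermat.Agent.S55.h40_AmbModel
import Fermat.Agent.S55.h10_LfSys
import Fermat.Agent.S55.h97_LfJSys
import Fermat.Agent.S55.h94_AmbEV
import Fermat.Agent.S55.h90_LfCf
import Fermat.Agent.S55.h63_LocAmbFinal
import Fermat.Agent.S55.h95_AsmFinal

/-!
# S55, Tier 3 (AMB-FINAL, helper72): the instance of `h12_LevFacts` for the model of
`h40_AmbModel`, with the seven arithmetic fields that are proved in separate files
(`ex`, `fin`, `kum_diag`, `kum_ker`, `kum_cap`, `unorm`, `beta`) bundled as `h72_OpenFields`.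

* `h72_OpenFields p S` : the seven fields, verbatim in the shape of `h12_LevFacts` over the model
  constants `h40_Γ`, `h40_π`, `h40_K`, `h40_C`, `h40_ι`, `h40_J`, `h40_ιJ`, `h40_k`, `h40_e`,
  `h63_XX`, `h63_zz`;
* `h72_levFacts_of` : `h72_OpenFields p S → h12_LevFacts p S ...` (all other 29 fields are on
  main: SYS = helper10, J-SYS = helper97, EV = helper94, `cf` = helper90, LOC = helper63 /
  helper97 / helper98);
* `h72_glob_exists_ambient_of` : the ambient system `∃ CC JJ XX κ ev zz, h72_PTAmbient ...`;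
* `h72_S55_of_openFields` : the frozen statement S55 from `h72_OpenFields p S` (via helper95's
  `h95_S55_of_exists_ambient`).
-/

set_option autoImplicit false

open CategoryTheory Module groupCohomology ExtCitation

namespace Fermat.Agent.S55

local notation "GQ" => (AlgebraicClosure ℚ ≃ₐ[ℚ] AlgebraicClosure ℚ)

/-- The seven arithmetic fields of `h12_LevFacts` (for the model of `h40_AmbModel`) which are
proved in their own files: existence mod `p`, finiteness, the Kummer sequence, universal norms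
and the comparison `beta`. -/
structure h72_OpenFields (p : ℕ) [Fact p.Prime] (S : Finset Nat.Primes) : Prop where
  /-- [GLOB-EX] -/
  ex : ∀ L : h56_Level S, ∃ (L' : h56_Level S) (h : L ≤ L'), ∀ c' : h40_C p S L',
    ∃ c : h40_C p S L, ∑ᶠ t : h40_K S L L', (t : h40_Γ S L') • c' = h40_ι p S L L' h (p • c)
  /-- finiteness of the `p`-torsion of `C L`. -/
  fin : ∀ L : h56_Level S, Finite {c : h40_C p S L // p • c = 0}
  /-- [GLOB-KUMSEQ (i), ⊇] -/
  kum_diag : ∀ (L : h56_Level S) (y : ∀ q : ↥S, h40_J S q L),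
    (∀ (q : ↥S) (g : GQ), h40_e S q L (h40_π S L g • y q) =
      (cycloChar p g : ZMod p).val • h63_zz p q.1) →
    ∑ q : ↥S, h40_k S p q L (y q) = 0
  /-- [GLOB-KUMSEQ (i), ⊆] -/
  kum_ker : ∀ (L : h56_Level S) (y : ∀ q : ↥S, h40_J S q L), (∀ q, p • y q = 0) →
    ∑ q : ↥S, h40_k S p q L (y q) = 0 →
    ∃ n : ℕ, ∀ (q : ↥S) (g : GQ),
      h40_e S q L (h40_π S L g • y q) = (n * (cycloChar p g : ZMod p).val) • h63_zz p q.1
  /-- [GLOB-KUMSEQ (iii)] capitulation at a higher level. -/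
  kum_cap : ∀ (L : h56_Level S) (c : h40_C p S L), p • c = 0 →
    ∃ (L' : h56_Level S) (h : L ≤ L') (y : ∀ q : ↥S, h40_J S q L'),
      (∀ q, p • y q = 0) ∧ ∑ q : ↥S, h40_k S p q L' (y q) = h40_ι p S L L' h c
  /-- [GLOB-UNORM] -/
  unorm : ∀ L : h56_Level S, ∃ (L' : h56_Level S) (h : L ≤ L'), ∀ c' : h40_C p S L',
    p • c' = 0 →
    ∃ y : ∀ q : ↥S, h40_J S q L, (∀ q, p • y q = 0) ∧
      ∑ᶠ t : h40_K S L L', (t : h40_Γ S L') • c' =
        h40_ι p S L L' h (∑ q : ↥S, h40_k S p q L (y q))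
  /-- [GLOB-BETA] -/
  beta : ∀ (q : ↥S) (L : h56_Level S) (z : h40_Γ S L × h40_Γ S L → h40_J S q L),
    IsCocycle₂ z → IsCoboundary₂ (fun x => h40_k S p q L (z x)) →
    ∃ m : ℕ, m.Coprime p ∧ IsCoboundary₂ (m • z)

variable {p : ℕ} [Fact p.Prime]

/-- **The instance of `h12_LevFacts`** for the model of `h40_AmbModel`, from the seven open
fields. -/
theorem h72_levFacts_of (hp2 : p ≠ 2) (S : Finset Nat.Primes) (hpS : pPrime p ∈ S)
    (hO : h72_OpenFields p S) :
    h12_LevFacts p S (h40_Γ S) (h40_π S) (h40_K S) (h40_C p S) (h40_ι p S) (h40_J S)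
      (h40_ιJ S) (h40_k S p) (fun q => h63_XX q.1) (h40_e S) (fun q => h63_zz p q.1) where
  π_surj := h10_lf_π_surj S
  π_ker := h10_lf_π_ker S
  K_mem := h10_lf_K_mem S
  ι_refl := h10_lf_ι_refl p S
  ι_trans := h10_lf_ι_trans p S
  ι_smul := h10_lf_ι_smul p S
  ι_inj := h10_lf_ι_inj p S ⟨_, hpS⟩
  ι_desc := h10_lf_ι_desc p S ⟨_, hpS⟩
  ιJ_refl := h97_lf_ιJ_refl S
  ιJ_trans := h97_lf_ιJ_trans S
  ιJ_smul := h97_lf_ιJ_smul S
  ιJ_inj := h97_lf_ιJ_inj S
  ιJ_desc := h97_lf_ιJ_desc S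
  k_ι := h10_lf_k_ι p S
  k_smul := h10_lf_k_smul p S
  e_ι := h94_lf_e_ι S
  e_smul := h94_lf_e_smul S
  e_bij := h94_lf_e_bij S
  cf := h90_lf_cf p hp2 S hpS
  ex := hO.ex
  fin := hO.fin
  kum_diag := hO.kum_diag
  kum_ker := hO.kum_ker
  kum_cap := hO.kum_cap
  unorm := hO.unorm
  beta := hO.beta
  xx_tors := h63_amb_xx_tors p S
  zz_tors := h63_amb_zz_tors p S
  zz_ne := h63_amb_zz_ne p S
  zz_smul := h63_amb_zz_smul p S
  loc_dual := h63_amb_loc_dual p S
  loc_inf := h63_amb_loc_inf S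

/-- **Tier 3**: the ambient system of `h72_PTAmbient`, from the seven open fields.  The
conclusion is verbatim the hypothesis `hamb` of `h95_S55_of_exists_ambient`. -/
theorem h72_glob_exists_ambient_of (hp2 : p ≠ 2) (S : Finset Nat.Primes) (hpS : pPrime p ∈ S)
    (hO : h72_OpenFields p S) :
    ∃ (CC : Type) (_ : AddCommGroup CC) (_ : DistribMulAction GQ CC)
      (JJ : ↥S → Type) (_ : ∀ q, AddCommGroup (JJ q)) (_ : ∀ q, DistribMulAction GQ (JJ q))
      (XX : ↥S → Type) (_ : ∀ q, AddCommGroup (XX q))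
      (_ : ∀ q : ↥S, DistribMulAction (primeLocalGaloisGroup q.1) (XX q))
      (κ : ∀ q, JJ q →+ CC) (ev : ∀ q, JJ q →+ XX q) (zz : ∀ q, XX q),
      h72_PTAmbient p S CC JJ XX κ ev zz :=
  h12_glob_exists_ambient_of_levels (h72_levFacts_of hp2 S hpS hO)

/-- **S55 from the seven open fields**: global Poitou-Tate duality `sha₁(M') × sha₂(M) → 𝔽_p`
(the frozen statement S55), given `h72_OpenFields p S`. -/
theorem h72_S55_of_openFields (hp2 : p ≠ 2) (S : Finset Nat.Primes) (hpS : pPrime p ∈ S)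
    (M : Rep (ZMod p) GQ) [FiniteDimensional (ZMod p) M]
    (hsm : ∀ m : M, ∃ F : IntermediateField ℚ (AlgebraicClosure ℚ), FiniteDimensional ℚ F ∧
      ∀ s ∈ F.fixingSubgroup, M.ρ s m = m)
    (hMur : ∀ q : Nat.Primes, q ∉ S → ∀ A : ValuationSubring (AlgebraicClosure ℚ),
      A.LiesOverPrime (q : ℕ) → ∀ g ∈ A.inertiaSubgroupIn ℚ, M.ρ g = 1)
    (hO : h72_OpenFields p S) :
    ∃ B : sha₁ S (M.dualTwist (cycloChar p)) →ₗ[ZMod p] sha₂ S M →ₗ[ZMod p] ZMod p,
      (∀ y, (∀ x, B y x = 0) → y = 0) ∧ (∀ x, (∀ y, B y x = 0) → x = 0) :=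
  h95_S55_of_exists_ambient hp2 S hpS M hsm hMur (h72_glob_exists_ambient_of hp2 S hpS hO)

end Fermat.Agent.S55
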