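import Fermat.Agent.S55.h72_AmbInst
import Fermat.Agent.S55.h41_LfExFinal
import Fermat.Agent.S55.h33_AmbKum
import Fermat.Agent.S55.h56_LfUnorm
import Fermat.Agent.S55.h4_LfBetaFinal

/-!
# S55 (helper72): the frozen statement from reciprocity alone

`h72_S55_of_recip` : global Poitou-Tate duality `sha₁(M') × sha₂(M) → 𝔽_p` (the frozen statement
S55) from the single remaining input `hrec : h56_HypRecip S p` (reciprocity (R1) for the `S`-split
unramified Kummer extensions of the levels).  All seven open fields of `h72_OpenFields` are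
plugged in: `ex` = helper41, `fin` / `kum_diag` / `kum_ker` / `kum_cap` = helper33,
`unorm` = helper56 (from `hrec`), `beta` = helper4 + helper13 + helper18.
-/

set_option autoImplicit false

open CategoryTheory Module groupCohomology ExtCitation

namespace Fermat.Agent.S55

local notation "GQ" => (AlgebraicClosure ℚ ≃ₐ[ℚ] AlgebraicClosure ℚ)

variable {p : ℕ} [Fact p.Prime]

/-- The seven open fields of the level-wise interface, from reciprocity. -/
theorem h72_openFields_of_recip (hp2 : p ≠ 2) (S : Finset Nat.Primes) (hpS : pPrime p ∈ S)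
    (hrec : h56_HypRecip S p) : h72_OpenFields p S where
  ex := h41_lf_ex_final S p hp2 hpS
  fin := h33_lf_fin p S hp2 hpS
  kum_diag := h33_lf_kum_diag p S
  kum_ker := h33_lf_kum_ker p S hpS
  kum_cap := h33_lf_kum_cap p S hp2 hpS
  unorm := h56_lf_unorm p S hpS hrec
  beta := h4_lf_beta p S hp2 hpS

/-- **S55 from reciprocity**: the frozen statement, given `h56_HypRecip S p`. -/
theorem h72_S55_of_recip (hp2 : p ≠ 2) (S : Finset Nat.Primes) (hpS : pPrime p ∈ S)
    (M : Rep (ZMod p) GQ) [FiniteDimensional (ZMod p) M]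
    (hsm : ∀ m : M, ∃ F : IntermediateField ℚ (AlgebraicClosure ℚ), FiniteDimensional ℚ F ∧
      ∀ s ∈ F.fixingSubgroup, M.ρ s m = m)
    (hMur : ∀ q : Nat.Primes, q ∉ S → ∀ A : ValuationSubring (AlgebraicClosure ℚ),
      A.LiesOverPrime (q : ℕ) → ∀ g ∈ A.inertiaSubgroupIn ℚ, M.ρ g = 1)
    (hrec : h56_HypRecip S p) :
    ∃ B : sha₁ S (M.dualTwist (cycloChar p)) →ₗ[ZMod p] sha₂ S M →ₗ[ZMod p] ZMod p,
      (∀ y, (∀ x, B y x = 0) → y = 0) ∧ (∀ x, (∀ y, B y x = 0) → x = 0) :=
  h72_S55_of_openFields hp2 S hpS M hsm hMur (h72_openFields_of_recip hp2 S hpS hrec)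

end Fermat.Agent.S55
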