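import Fermat.Agent.S55.h72_AsmDefs
import Fermat.Agent.S55.h56_AssemblyRK
import Fermat.Agent.S55.h21_ADTStmt

/-!
# S55 row 284 (ASM-D1, fact (F2)), helper73

A class of `H²(G_S, M)` killed by all of `Hom_G(M, CC)` is zero, from the ambient interface
`h72_PTAmbient` (fields `cc_class`, `cc_ex`, `cc_fin`) and the abstract duality theorem
`adt_D1` of the `H` layer, which is taken as a hypothesis in the form `h56_ADT1Statement p`
(resp. Tate-Nakayama (R) in the form `h21_TnRStatement p`).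

* `h73_asm_d1_zero`   : `M : Rep.{0,0,0}`, from `h56_RK_of_adt` (helper56);
* `h73_asm_d1_of_adt` : the statement `asm_d1` of the assembly skeleton (any universe for `M`,
  `h72_IsEqv M f` unfolded to `∀ g m, f (M.ρ g m) = g • f m`), hypothesis `h56_ADT1Statement p`;
* `h73_asm_d1_of_tnR` : the same with hypothesis `h21_TnRStatement p`.
-/

set_option autoImplicit false

open CategoryTheory Module groupCohomology ExtCitation

namespace Fermat.Agent.S55

local notation "Qb" => AlgebraicClosure ℚ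
local notation "GQ" => (AlgebraicClosure ℚ ≃ₐ[ℚ] AlgebraicClosure ℚ)

section Levels

variable {S : Finset Nat.Primes}

/-- an `h72` level as an `h56` level. -/
def h73_toLevel (L : h72_Lev S) : h56_Level S := ⟨L.F, L.unr, L.gal⟩

/-- an `h56` level as an `h72` level. -/
def h73_toLev (L : h56_Level S) : h72_Lev S := ⟨L.1, L.2.1, L.2.2⟩

theorem h73_toLev_U (L : h56_Level S) : (h73_toLev L).U = L.U := rfl

theorem h73_toLevel_U (L : h72_Lev S) : (h73_toLevel L).U = L.U := rfl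

/-- an inclusion of fixing subgroups gives an inclusion of fields. -/
theorem h73_le_of_fixingSubgroup_le {F F' : IntermediateField ℚ Qb}
    (h : F'.fixingSubgroup ≤ F.fixingSubgroup) : F ≤ F' := by
  have hgal : IsGalois ℚ Qb := Fermat.Agent.S13.h24_isGalois_Qbar
  rw [← InfiniteGalois.fixedField_fixingSubgroup F', IntermediateField.le_iff_le]
  exact h

end Levels

section D1

variable {p : ℕ} [Fact p.Prime] (S : Finset Nat.Primes)
  {CC : Type} [AddCommGroup CC] [DistribMulAction GQ CC]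
  {JJ : ↥S → Type} [∀ q, AddCommGroup (JJ q)] [∀ q, DistribMulAction GQ (JJ q)]
  {XX : ↥S → Type} [∀ q, AddCommGroup (XX q)]
  [∀ q : ↥S, DistribMulAction (primeLocalGaloisGroup q.1) (XX q)]
  {κ : ∀ q, JJ q →+ CC} {ev : ∀ q, JJ q →+ XX q} {zz : ∀ q, XX q}

/-- finiteness of the set of equivariant maps `M → CC` from `cc_fin`. -/
theorem h73_finite_eqv (M : Rep.{0, 0, 0} (ZMod p) GQ) [FiniteDimensional (ZMod p) M]
    (hA : h72_PTAmbient p S CC JJ XX κ ev zz)
    (L₀ : h72_Lev S) (hL₀ : ∀ s ∈ L₀.U, M.ρ s = 1) :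
    Finite {f : M →+ CC // ∀ (g : GQ) (m : M), f (M.ρ g m) = g • f m} := by
  have : NeZero p := ⟨(Fact.out : p.Prime).ne_zero⟩
  have : Finite M := Module.finite_of_finite (ZMod p)
  have := hA.cc_fin L₀
  let T := {c : CC // (∀ s ∈ L₀.U, s • c = c) ∧ p • c = 0}
  let Φ : {f : M →+ CC // ∀ (g : GQ) (m : M), f (M.ρ g m) = g • f m} → (M → T) :=
    fun f m => ⟨f.1 m, fun s hs => by
      rw [← f.2 s m, hL₀ s hs]; rfl, by
      rw [← map_nsmul, ← Nat.cast_smul_eq_nsmul (ZMod p), ZMod.natCast_self, zero_smul, map_zero]⟩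
  refine Finite.of_injective Φ ?_
  intro f f' hff'
  apply Subtype.ext
  apply AddMonoidHom.ext
  intro m
  exact congrArg Subtype.val (congrFun hff' m)

/-- **ASM-D1 (F2)**, `Type`-valued `M`, with `adt_D1` as a hypothesis. -/
theorem h73_asm_d1_zero (M : Rep.{0, 0, 0} (ZMod p) GQ) [FiniteDimensional (ZMod p) M]
    (hadt : h56_ADT1Statement p)
    (hA : h72_PTAmbient p S CC JJ XX κ ev zz)
    (L₀ : h72_Lev S) (hL₀ : ∀ s ∈ L₀.U, M.ρ s = 1)
    (c : GQ × GQ → M) (hc : c ∈ cocycles₂ M) (hcl : IsLevelConstantS₂ S c)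
    (hperp : ∀ f : M →+ CC, (∀ (g : GQ) (m : M), f (M.ρ g m) = g • f m) →
      h72_IsCobS₂ S (fun x => f (c x))) :
    ∃ x : GQ → M, IsLevelConstantS₁ S x ∧ ∀ g h, M.ρ g (x h) - x (g * h) + x g = c (g, h) := by
  have : NeZero p := ⟨(Fact.out : p.Prime).ne_zero⟩
  have : Finite M := Module.finite_of_finite (ZMod p)
  have hfin := h73_finite_eqv S M hA L₀ hL₀
  have hCF : ∀ L : h56_Level S, h73_toLevel L₀ ≤ L →
      IsPClassModule p (GQ ⧸ L.U) (h56_Inv L.U CC) := fun L _ => hA.cc_class (h73_toLev L)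
  have hEX : ∀ L : h56_Level S, h73_toLevel L₀ ≤ L → ∃ (L' : h56_Level S) (h : L ≤ L'),
      ∀ c' : h56_Inv L'.U CC, ∃ c : h56_Inv L.U CC,
        ∑ᶠ s : (h56_quotMap (h56_Level.U_anti h)).ker, (s : GQ ⧸ L'.U) • c' =
          h56_invIncl (h56_Level.U_anti h) (p • c) := by
    intro L _
    obtain ⟨L', h, hn⟩ := hA.cc_ex (h73_toLev L)
    exact ⟨h73_toLevel L', h, hn⟩
  have hres := h56_RK_of_adt S M hadt (h73_toLevel L₀)
    (fun s hs m => by rw [hL₀ s hs]; rfl) hCF hEX hfin ⟨c, hc, hcl⟩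
    (fun f hf => hperp f hf)
  obtain ⟨x, hx, hxc⟩ := (mem_levelCoboundariesS₂_iff S M c).1 hres
  refine ⟨x, hx, fun g h => ?_⟩
  rw [← hxc, d₁₂_hom_apply]

end D1

section Transport

/-- transport of a representation along a linear equivalence. -/
def h73_conjRep {k G V W : Type*} [CommRing k] [Group G] [AddCommGroup V] [Module k V]
    [AddCommGroup W] [Module k W] (ρ : Representation k G V) (e : V ≃ₗ[k] W) :
    Representation k G W where
  toFun g := e.toLinearMap ∘ₗ ρ g ∘ₗ e.symm.toLinearMap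
  map_one' := by
    ext w
    simp
  map_mul' g h := by
    ext w
    simp

theorem h73_conjRep_apply {k G V W : Type*} [CommRing k] [Group G] [AddCommGroup V] [Module k V]
    [AddCommGroup W] [Module k W] (ρ : Representation k G V) (e : V ≃ₗ[k] W) (g : G) (v : V) :
    h73_conjRep ρ e g (e v) = e (ρ g v) := by
  simp [h73_conjRep]

theorem h73_conjRep_symm_apply {k G V W : Type*} [CommRing k] [Group G] [AddCommGroup V]
    [Module k V] [AddCommGroup W] [Module k W] (ρ : Representation k G V) (e : V ≃ₗ[k] W) (g : G)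
    (w : W) : e.symm (h73_conjRep ρ e g w) = ρ g (e.symm w) := by
  simp [h73_conjRep]

end Transport

section D1poly

variable {p : ℕ} [Fact p.Prime] (S : Finset Nat.Primes)
  {CC : Type} [AddCommGroup CC] [DistribMulAction GQ CC]
  {JJ : ↥S → Type} [∀ q, AddCommGroup (JJ q)] [∀ q, DistribMulAction GQ (JJ q)]
  {XX : ↥S → Type} [∀ q, AddCommGroup (XX q)]
  [∀ q : ↥S, DistribMulAction (primeLocalGaloisGroup q.1) (XX q)]
  {κ : ∀ q, JJ q →+ CC} {ev : ∀ q, JJ q →+ XX q} {zz : ∀ q, XX q}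

variable (M : Rep (ZMod p) GQ) [FiniteDimensional (ZMod p) M]

/-- **ASM-D1 (F2)**: a class of `H²(G_S, M)` killed by all of `Hom_G(M, CC)` is zero
(statement of the assembly skeleton, any universe for `M`; `adt_D1` as a hypothesis). -/
theorem h73_asm_d1_of_adt (hadt : h56_ADT1Statement p)
    (hA : h72_PTAmbient p S CC JJ XX κ ev zz)
    (L₀ : h72_Lev S) (hL₀ : ∀ s ∈ L₀.U, M.ρ s = 1)
    (c : GQ × GQ → M) (hc : c ∈ cocycles₂ M) (hcl : IsLevelConstantS₂ S c)
    (hperp : ∀ f : M →+ CC, (∀ (g : GQ) (m : M), f (M.ρ g m) = g • f m) →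
      h72_IsCobS₂ S (fun x => f (c x))) :
    ∃ x : GQ → M, IsLevelConstantS₁ S x ∧ ∀ g h, M.ρ g (x h) - x (g * h) + x g = c (g, h) := by
  classical
  let e : M ≃ₗ[ZMod p] (Fin (Module.finrank (ZMod p) M) → ZMod p) :=
    (Module.finBasis (ZMod p) M).equivFun
  let ρ₀ : Representation (ZMod p) GQ (Fin (Module.finrank (ZMod p) M) → ZMod p) :=
    h73_conjRep M.ρ e
  let M₀ : Rep.{0, 0, 0} (ZMod p) GQ := Rep.of ρ₀
  have hρ₀ : ∀ (g : GQ) (m : M), M₀.ρ g (e m) = e (M.ρ g m) :=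
    fun g m => h73_conjRep_apply M.ρ e g m
  have hρ₀' : ∀ (g : GQ) (w : M₀), e.symm (M₀.ρ g w) = M.ρ g (e.symm w) :=
    fun g w => h73_conjRep_symm_apply M.ρ e g w
  have : FiniteDimensional (ZMod p) M₀ :=
    inferInstanceAs (FiniteDimensional (ZMod p) (Fin (Module.finrank (ZMod p) M) → ZMod p))
  have hL₀' : ∀ s ∈ L₀.U, M₀.ρ s = 1 := by
    intro s hs
    apply LinearMap.ext
    intro w
    apply e.symm.injective
    rw [hρ₀', hL₀ s hs]
    rfl
  let c₀ : GQ × GQ → M₀ := fun x => e (c x)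
  have hc₀ : c₀ ∈ cocycles₂ M₀ := by
    rw [mem_cocycles₂_iff]
    intro g h j
    have h1 := (mem_cocycles₂_iff c).1 hc g h j
    show e (c (g * h, j)) + e (c (g, h)) = M₀.ρ g (e (c (h, j))) + e (c (g, h * j))
    rw [hρ₀, ← map_add, ← map_add, h1]
  have hcl₀ : IsLevelConstantS₂ S c₀ := hcl.comp (fun m => e m)
  have hperp₀ : ∀ f : M₀ →+ CC, (∀ (g : GQ) (m : M₀), f (M₀.ρ g m) = g • f m) →
      h72_IsCobS₂ S (fun x => f (c₀ x)) := by
    intro f hf
    exact hperp (f.comp e.toAddMonoidHom) (fun g m => by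
      show f (e (M.ρ g m)) = g • f (e m)
      rw [← hρ₀, hf])
  obtain ⟨x₀, hx₀, hx₀c⟩ := h73_asm_d1_zero S M₀ hadt hA L₀ hL₀' c₀ hc₀ hcl₀ hperp₀
  refine ⟨fun g => e.symm (x₀ g), hx₀.comp (fun w => e.symm w), fun g h => ?_⟩
  have h2 := congrArg e.symm (hx₀c g h)
  rw [map_add, map_sub, hρ₀'] at h2
  rw [h2]
  exact e.symm_apply_apply (c (g, h))

/-- **ASM-D1 (F2)** from Tate-Nakayama (R) as a hypothesis. -/
theorem h73_asm_d1_of_tnR (htn : h21_TnRStatement p)
    (hA : h72_PTAmbient p S CC JJ XX κ ev zz)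
    (L₀ : h72_Lev S) (hL₀ : ∀ s ∈ L₀.U, M.ρ s = 1)
    (c : GQ × GQ → M) (hc : c ∈ cocycles₂ M) (hcl : IsLevelConstantS₂ S c)
    (hperp : ∀ f : M →+ CC, (∀ (g : GQ) (m : M), f (M.ρ g m) = g • f m) →
      h72_IsCobS₂ S (fun x => f (c x))) :
    ∃ x : GQ → M, IsLevelConstantS₁ S x ∧ ∀ g h, M.ρ g (x h) - x (g * h) + x g = c (g, h) :=
  h73_asm_d1_of_adt S M (h21_ADT1Statement_of_tnR htn) hA L₀ hL₀ c hc hcl hperp

end D1poly

end Fermat.Agent.S55
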