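import Mathlib
import Fermat.Agent.S55.h25_GlobVal
import Fermat.Agent.S55.h66_GlobFunc2
import Fermat.Agent.S55.h10_GlobDescC
import Fermat.Agent.S55.h81_GlobUnr
import Fermat.Agent.S55.h10_ValPrin
import Fermat.Agent.S55.h84_ValExt
import Fermat.Agent.S55.h21_ValV1

/-!
# S55 row 355 (GLOB-CF-V), helper73

Honest (V1), (V2) of `h30_CFData` for `Gal(L/ℚ)` acting on `h25_C L S` with `w = h25_wC`:
for every subgroup `H ≤ Gal(L/ℚ)`,
* (V1) `w` of an `H`-fixed class is a `|H| · [deg G : deg H]`-th power in `U1`;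
* (V2) if `deg H ≠ 1` some `H`-fixed class has `w` not a `p · |H| · [deg G : deg H]`-th power.

* `h73_glob_cf_V_of` : from the rows VAL-PRIN, VAL-V1, VAL-EXT as propositions
  (`h73_HypPrin`, `h73_HypV1`, `h73_HypExt`) and the arithmetic input GLOB-CF-V-ARITH;
* `h73_glob_cf_V_of_arith` : the row statement with the landed rows (`h10_w_diag`, `h21_w_V1`,
  `h84_w_ext`) discharged; only the conclusion of GLOB-CF-V-ARITH (row 354) is a hypothesis.

Proof: `F = L^H`, `Gal(L/F) = H`, `[L:F] = |H|`, `L/F` unramified outside `S`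
(`h81_unram_top`), descent `C_L^H = C_F` (`h10_desc_range`), `w_L ∘ ext = w_F ^ [L:F]`.
-/

set_option autoImplicit false

open IsDedekindDomain NumberField

namespace Fermat.Agent.S55

universe u

section Hyps

variable (S : Finset Nat.Primes) (P : S)

/-- Row VAL-PRIN as a proposition (number fields in the universe `u`). -/
def h73_HypPrin : Prop :=
  ∀ (K : Type u) [Field K] [NumberField K] (x : Kˣ), h25_w K S P (h25_diag K S x) = 1

/-- Row VAL-V1 as a proposition (number fields in the universe `u`). -/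
def h73_HypV1 : Prop :=
  ∀ (K : Type u) [Field K] [NumberField K] (a : ℕ),
    (∀ v : h25_Pl K S, Ideal.absNorm v.1.asIdeal ^ (((P : Nat.Primes) : ℕ) - 1) ≡ 1
      [MOD ((P : Nat.Primes) : ℕ) ^ (a + 1)]) →
    ∀ x : h25_X K S, ∃ y : h18_U1 ((P : Nat.Primes) : ℕ),
      y ^ (((P : Nat.Primes) : ℕ) ^ a) = h25_w K S P x

/-- Row VAL-EXT as a proposition (number fields in the universe `u`). -/
def h73_HypExt : Prop :=
  ∀ (K : Type u) [Field K] [NumberField K] (L : Type u) [Field L] [NumberField L] [Algebra K L]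
    (x : h25_X K S),
    h25_w L S P (h25_Xmap S (algebraMap K L) x) = h25_w K S P x ^ Module.finrank K L

end Hyps

section Aux

/-- a rational prime dividing the norm of a prime ideal lies in it. -/
theorem h73_natCast_mem_of_dvd_absNorm {K : Type*} [Field K] [NumberField K]
    (v : HeightOneSpectrum (𝓞 K)) (p : ℕ) (hp : p.Prime) (h : p ∣ Ideal.absNorm v.asIdeal) :
    (p : 𝓞 K) ∈ v.asIdeal := by
  have hne : Ideal.absNorm v.asIdeal ≠ 0 := by
    rw [Ne, Ideal.absNorm_eq_zero_iff]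
    exact v.ne_bot
  have hcard : Ideal.absNorm v.asIdeal = Nat.card (𝓞 K ⧸ v.asIdeal) := by
    rw [Ideal.absNorm_apply, Submodule.cardQuot_apply]
  have hfin : Finite (𝓞 K ⧸ v.asIdeal) := Nat.finite_of_card_ne_zero (hcard ▸ hne)
  have : Fact p.Prime := ⟨hp⟩
  obtain ⟨x, hx⟩ := exists_prime_addOrderOf_dvd_card' (G := 𝓞 K ⧸ v.asIdeal) p (hcard ▸ h)
  have hx0 : x ≠ 0 := by
    rintro rfl
    rw [addOrderOf_zero] at hx
    exact hp.one_lt.ne hx
  have hpx : (p : 𝓞 K ⧸ v.asIdeal) * x = 0 := by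
    rw [← nsmul_eq_mul, ← hx]
    exact addOrderOf_nsmul_eq_zero x
  have := v.isPrime
  have hp0 : (p : 𝓞 K ⧸ v.asIdeal) = 0 := by
    rcases mul_eq_zero.1 hpx with h1 | h1
    · exact h1
    · exact absurd h1 hx0
  have h2 : ((p : 𝓞 K) : 𝓞 K ⧸ v.asIdeal) = 0 := by
    rw [← hp0]
    simp
  exact Ideal.Quotient.eq_zero_iff_mem.1 h2

/-- the index of a subgroup of `ℤ/pⁿ` is a power of `p`. -/
theorem h73_index_eq_prime_pow (p : ℕ) (hp : p.Prime) (n : ℕ)
    (A : Subgroup (Multiplicative (ZMod (p ^ n)))) : ∃ a : ℕ, A.index = p ^ a := by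
  have hne : NeZero (p ^ n) := ⟨pow_ne_zero n hp.ne_zero⟩
  have h1 : A.index ∣ Nat.card (Multiplicative (ZMod (p ^ n))) := A.index_dvd_card
  rw [Nat.card_congr Multiplicative.toAdd, Nat.card_zmod] at h1
  obtain ⟨m, -, hm⟩ := (Nat.dvd_prime_pow hp).1 h1
  exact ⟨m, hm⟩

/-- The primes of `K` above `S` form a finite set. -/
theorem h73_above_finite (K : Type*) [Field K] [NumberField K] (S : Finset Nat.Primes) :
    {w : HeightOneSpectrum (𝓞 K) | h25_above K S w}.Finite := by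
  have h : {w : HeightOneSpectrum (𝓞 K) | h25_above K S w} ⊆
      ⋃ q ∈ S, {w : HeightOneSpectrum (𝓞 K) |
        w.asIdeal ∣ Ideal.span {(((q : Nat.Primes) : ℕ) : 𝓞 K)}} := by
    rintro w ⟨q, hq, hqw⟩
    exact Set.mem_biUnion hq (Ideal.dvd_span_singleton.mpr hqw)
  refine Set.Finite.subset (Set.Finite.biUnion S.finite_toSet fun q _ => Ideal.finite_factors ?_) h
  rw [Ne, Ideal.zero_eq_bot, Ideal.span_singleton_eq_bot]
  exact_mod_cast q.2.ne_zero

end Aux

section CLevel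

variable (S : Finset Nat.Primes) (P : S)

/-- VAL-PRIN at the level of `C`. -/
theorem h73_wC_mk (hprin : h73_HypPrin.{u} S P) (K : Type u) [Field K] [NumberField K]
    (x : h25_X K S) : h25_wC K S P (h25_mk K S x) = h25_w K S P x :=
  h25_wC_mk_of K S P (hprin K) x

/-- VAL-EXT at the level of `C`. -/
theorem h73_wC_ext (hprin : h73_HypPrin.{u} S P) (hext : h73_HypExt.{u} S P)
    (K : Type u) [Field K] [NumberField K] (L : Type u) [Field L] [NumberField L] [Algebra K L]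
    (c : h25_C K S) :
    h25_wC L S P (h25_Cmap S (algebraMap K L) c) = h25_wC K S P c ^ Module.finrank K L := by
  obtain ⟨x, rfl⟩ := h25_mk_surjective K S c
  rw [h66_Cmap_mk, h73_wC_mk S P hprin L, h73_wC_mk S P hprin K, hext K L x]

end CLevel

section Main

variable (L : Type u) [Field L] [NumberField L] [IsGalois ℚ L] (S : Finset Nat.Primes) (P : S)

/-- (V1) for one subgroup `H`, given the arithmetic input (A1) for its fixed field. -/
theorem h73_cfV_V1 (hur : h25_UnramOutside ℚ L S)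
    (hprin : h73_HypPrin.{u} S P) (hV1 : h73_HypV1.{u} S P) (hext : h73_HypExt.{u} S P)
    (H : Subgroup (L ≃ₐ[ℚ] L)) (a : ℕ)
    (hA1 : ∀ v : HeightOneSpectrum (𝓞 (IntermediateField.fixedField H)),
      (((P : Nat.Primes) : ℕ) : 𝓞 (IntermediateField.fixedField H)) ∉ v.asIdeal →
      Ideal.absNorm v.asIdeal ^ (((P : Nat.Primes) : ℕ) - 1) ≡ 1
        [MOD ((P : Nat.Primes) : ℕ) ^ (a + 1)])
    (c : h25_C L S) (hc : ∀ h ∈ H, h25_Cmap S ((h : L ≃ₐ[ℚ] L) : L →+* L) c = c) :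
    ∃ y : h18_U1 ((P : Nat.Primes) : ℕ),
      h25_wC L S P c = y ^ (Nat.card H * ((P : Nat.Primes) : ℕ) ^ a) := by
  have hS : S.Nonempty := ⟨P.1, P.2⟩
  have hurF : h25_UnramOutside (IntermediateField.fixedField H) L S :=
    h81_unram_top ℚ (IntermediateField.fixedField H) L S hur
  have hfix : ∀ σ : L ≃ₐ[IntermediateField.fixedField H] L, h25_Cmap S (σ : L →+* L) c = c := by
    intro σ
    have hmem : σ.restrictScalars ℚ ∈ (IntermediateField.fixedField H).fixingSubgroup := by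
      rw [IntermediateField.mem_fixingSubgroup_iff]
      intro x hx
      exact σ.commutes ⟨x, hx⟩
    rw [IntermediateField.fixingSubgroup_fixedField H] at hmem
    have e : ((σ.restrictScalars ℚ : L ≃ₐ[ℚ] L) : L →+* L) = (σ : L →+* L) :=
      RingHom.ext fun _ => rfl
    have h := hc _ hmem
    rw [e] at h
    exact h
  obtain ⟨cF, rfl⟩ := (h10_desc_range (IntermediateField.fixedField H) L S hS hurF c).1 hfix
  rw [h73_wC_ext S P hprin hext (IntermediateField.fixedField H) L cF,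
    IntermediateField.finrank_fixedField_eq_card]
  obtain ⟨x, rfl⟩ := h25_mk_surjective (IntermediateField.fixedField H) S cF
  rw [h73_wC_mk S P hprin]
  obtain ⟨y, hy⟩ := hV1 (IntermediateField.fixedField H) a
    (fun v => hA1 v.1 (fun h => v.2 ⟨P.1, P.2, h⟩)) x
  refine ⟨y, ?_⟩
  rw [← hy, ← pow_mul, mul_comm]

omit [IsGalois ℚ L] in
/-- (V2) for one subgroup `H`, given the arithmetic input (A2) for its fixed field. -/
theorem h73_cfV_V2 (hp2 : ((P : Nat.Primes) : ℕ) ≠ 2)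
    (hprin : h73_HypPrin.{u} S P) (hext : h73_HypExt.{u} S P)
    (H : Subgroup (L ≃ₐ[ℚ] L)) (a : ℕ)
    (hA2 : ∀ T : Set (HeightOneSpectrum (𝓞 (IntermediateField.fixedField H))), T.Finite →
      ∃ v : HeightOneSpectrum (𝓞 (IntermediateField.fixedField H)), v ∉ T ∧
        (((P : Nat.Primes) : ℕ) : 𝓞 (IntermediateField.fixedField H)) ∉ v.asIdeal ∧
        ¬ Ideal.absNorm v.asIdeal ^ (((P : Nat.Primes) : ℕ) - 1) ≡ 1
          [MOD ((P : Nat.Primes) : ℕ) ^ (a + 2)]) :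
    ∃ c : h25_C L S, (∀ h ∈ H, h25_Cmap S ((h : L ≃ₐ[ℚ] L) : L →+* L) c = c) ∧
      ¬ ∃ y : h18_U1 ((P : Nat.Primes) : ℕ),
        h25_wC L S P c = y ^ (((P : Nat.Primes) : ℕ) * (Nat.card H * ((P : Nat.Primes) : ℕ) ^ a)) := by
  obtain ⟨v, hvT, hpv, hnv⟩ := hA2 {w | h25_above (IntermediateField.fixedField H) S w}
    (h73_above_finite (IntermediateField.fixedField H) S)
  let v' : h25_Pl (IntermediateField.fixedField H) S := ⟨v, hvT⟩
  let cF : h25_C (IntermediateField.fixedField H) S :=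
    h25_mk (IntermediateField.fixedField H) S
      ((1 : h25_J (IntermediateField.fixedField H) S),
        Multiplicative.ofAdd (Finsupp.single v' (1 : ℤ)))
  refine ⟨h25_Cmap S (algebraMap (IntermediateField.fixedField H) L) cF, ?_, ?_⟩
  · intro h hh
    have hcomp : ((h : L ≃ₐ[ℚ] L) : L →+* L).comp (algebraMap (IntermediateField.fixedField H) L)
        = algebraMap (IntermediateField.fixedField H) L := by
      apply RingHom.ext
      intro x
      exact (IntermediateField.mem_fixedField_iff H (x : L)).1 x.2 h hh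
    rw [← MonoidHom.comp_apply, ← h66_Cmap_comp, hcomp]
  · rintro ⟨y, hy⟩
    rw [h73_wC_ext S P hprin hext (IntermediateField.fixedField H) L cF,
      IntermediateField.finrank_fixedField_eq_card] at hy
    have hw : h25_wC (IntermediateField.fixedField H) S P cF =
        h18_natU1 ((P : Nat.Primes) : ℕ) (Ideal.absNorm v.asIdeal) := by
      show h25_wC (IntermediateField.fixedField H) S P
        (h25_mk (IntermediateField.fixedField H) S _) = _
      rw [h73_wC_mk S P hprin, h25_w_prime]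
    rw [hw] at hy
    have hm : ¬ ((P : Nat.Primes) : ℕ) ∣ Ideal.absNorm v.asIdeal :=
      fun h => hpv (h73_natCast_mem_of_dvd_absNorm v _ P.1.2 h)
    have hcard0 : Nat.card H ≠ 0 := Nat.card_pos.ne'
    have h1 : h18_natU1 ((P : Nat.Primes) : ℕ) (Ideal.absNorm v.asIdeal) ^ Nat.card H =
        (y ^ (((P : Nat.Primes) : ℕ) ^ (a + 1))) ^ Nat.card H := by
      rw [hy, ← pow_mul]
      congr 1
      ring
    have h2 : (h18_natU1 ((P : Nat.Primes) : ℕ) (Ideal.absNorm v.asIdeal) /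
        y ^ (((P : Nat.Primes) : ℕ) ^ (a + 1))) ^ Nat.card H = 1 := by
      rw [div_pow, h1, div_self']
    have h3 := h18_U1_pow_eq_one ((P : Nat.Primes) : ℕ) hp2
      ((h18_natU1 ((P : Nat.Primes) : ℕ) (Ideal.absNorm v.asIdeal) /
        y ^ (((P : Nat.Primes) : ℕ) ^ (a + 1)) : h18_U1 ((P : Nat.Primes) : ℕ)) : ℤ_[((P : Nat.Primes) : ℕ)]ˣ)
      (SetLike.coe_mem _) (Nat.card H) hcard0 (by rw [← Subgroup.coe_pow, h2]; rfl)
    have h4 : h18_natU1 ((P : Nat.Primes) : ℕ) (Ideal.absNorm v.asIdeal) /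
        y ^ (((P : Nat.Primes) : ℕ) ^ (a + 1)) = 1 := Subtype.ext h3
    have h5 : y ^ (((P : Nat.Primes) : ℕ) ^ (a + 1)) =
        h18_natU1 ((P : Nat.Primes) : ℕ) (Ideal.absNorm v.asIdeal) := (div_eq_one.1 h4).symm
    exact hnv ((h18_natU1_pow_iff ((P : Nat.Primes) : ℕ) hp2 (a + 1) hm).1 ⟨y, h5⟩)

/-- **GLOB-CF-V** from the rows VAL-PRIN, VAL-V1, VAL-EXT (as propositions) and the arithmetic
input GLOB-CF-V-ARITH (for every subgroup `H`). -/
theorem h73_glob_cf_V_of (hp2 : ((P : Nat.Primes) : ℕ) ≠ 2)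
    (hur : h25_UnramOutside ℚ L S) (n : ℕ)
    (deg : (L ≃ₐ[ℚ] L) →* Multiplicative (ZMod (((P : Nat.Primes) : ℕ) ^ n)))
    (hprin : h73_HypPrin.{u} S P) (hV1 : h73_HypV1.{u} S P) (hext : h73_HypExt.{u} S P)
    (harith : ∀ (H : Subgroup (L ≃ₐ[ℚ] L)) (a : ℕ),
      (H.map deg).index = ((P : Nat.Primes) : ℕ) ^ a →
      (∀ v : HeightOneSpectrum (𝓞 (IntermediateField.fixedField H)),
        (((P : Nat.Primes) : ℕ) : 𝓞 (IntermediateField.fixedField H)) ∉ v.asIdeal →
        Ideal.absNorm v.asIdeal ^ (((P : Nat.Primes) : ℕ) - 1) ≡ 1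
          [MOD ((P : Nat.Primes) : ℕ) ^ (a + 1)]) ∧
      (H.map deg ≠ ⊥ → ∀ T : Set (HeightOneSpectrum (𝓞 (IntermediateField.fixedField H))),
        T.Finite → ∃ v : HeightOneSpectrum (𝓞 (IntermediateField.fixedField H)), v ∉ T ∧
          (((P : Nat.Primes) : ℕ) : 𝓞 (IntermediateField.fixedField H)) ∉ v.asIdeal ∧
          ¬ Ideal.absNorm v.asIdeal ^ (((P : Nat.Primes) : ℕ) - 1) ≡ 1
            [MOD ((P : Nat.Primes) : ℕ) ^ (a + 2)])) :
    (∀ (H : Subgroup (L ≃ₐ[ℚ] L)) (c : h25_C L S),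
        (∀ h ∈ H, h25_Cmap S ((h : L ≃ₐ[ℚ] L) : L →+* L) c = c) →
        ∃ y : h18_U1 ((P : Nat.Primes) : ℕ),
          h25_wC L S P c = y ^ (Nat.card H * (H.map deg).index)) ∧
    (∀ H : Subgroup (L ≃ₐ[ℚ] L), H.map deg ≠ ⊥ → ∃ c : h25_C L S,
        (∀ h ∈ H, h25_Cmap S ((h : L ≃ₐ[ℚ] L) : L →+* L) c = c) ∧
        ¬ ∃ y : h18_U1 ((P : Nat.Primes) : ℕ),
          h25_wC L S P c = y ^ (((P : Nat.Primes) : ℕ) * (Nat.card H * (H.map deg).index))) := by
  refine ⟨fun H c hc => ?_, fun H hH => ?_⟩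
  · obtain ⟨a, ha⟩ := h73_index_eq_prime_pow _ P.1.2 n (H.map deg)
    rw [ha]
    exact h73_cfV_V1 L S P hur hprin hV1 hext H a (harith H a ha).1 c hc
  · obtain ⟨a, ha⟩ := h73_index_eq_prime_pow _ P.1.2 n (H.map deg)
    rw [ha]
    exact h73_cfV_V2 L S P hp2 hprin hext H a ((harith H a ha).2 hH)

/-- **GLOB-CF-V**, the row statement with the landed rows VAL-PRIN (`h10_w_diag`), VAL-V1
(`h21_w_V1`), VAL-EXT (`h84_w_ext`) discharged; the arithmetic input GLOB-CF-V-ARITH (the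
conclusion of `sk_cfV_arith` for all `H`, `a`) is the only remaining hypothesis. -/
theorem h73_glob_cf_V_of_arith (hp2 : ((P : Nat.Primes) : ℕ) ≠ 2)
    (hur : h25_UnramOutside ℚ L S) (n : ℕ)
    (deg : (L ≃ₐ[ℚ] L) →* Multiplicative (ZMod (((P : Nat.Primes) : ℕ) ^ n)))
    (harith : ∀ (H : Subgroup (L ≃ₐ[ℚ] L)) (a : ℕ),
      (H.map deg).index = ((P : Nat.Primes) : ℕ) ^ a →
      (∀ v : HeightOneSpectrum (𝓞 (IntermediateField.fixedField H)),
        (((P : Nat.Primes) : ℕ) : 𝓞 (IntermediateField.fixedField H)) ∉ v.asIdeal →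
        Ideal.absNorm v.asIdeal ^ (((P : Nat.Primes) : ℕ) - 1) ≡ 1
          [MOD ((P : Nat.Primes) : ℕ) ^ (a + 1)]) ∧
      (H.map deg ≠ ⊥ → ∀ T : Set (HeightOneSpectrum (𝓞 (IntermediateField.fixedField H))),
        T.Finite → ∃ v : HeightOneSpectrum (𝓞 (IntermediateField.fixedField H)), v ∉ T ∧
          (((P : Nat.Primes) : ℕ) : 𝓞 (IntermediateField.fixedField H)) ∉ v.asIdeal ∧
          ¬ Ideal.absNorm v.asIdeal ^ (((P : Nat.Primes) : ℕ) - 1) ≡ 1
            [MOD ((P : Nat.Primes) : ℕ) ^ (a + 2)])) :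
    (∀ (H : Subgroup (L ≃ₐ[ℚ] L)) (c : h25_C L S),
        (∀ h ∈ H, h25_Cmap S ((h : L ≃ₐ[ℚ] L) : L →+* L) c = c) →
        ∃ y : h18_U1 ((P : Nat.Primes) : ℕ),
          h25_wC L S P c = y ^ (Nat.card H * (H.map deg).index)) ∧
    (∀ H : Subgroup (L ≃ₐ[ℚ] L), H.map deg ≠ ⊥ → ∃ c : h25_C L S,
        (∀ h ∈ H, h25_Cmap S ((h : L ≃ₐ[ℚ] L) : L →+* L) c = c) ∧
        ¬ ∃ y : h18_U1 ((P : Nat.Primes) : ℕ),
          h25_wC L S P c = y ^ (((P : Nat.Primes) : ℕ) * (Nat.card H * (H.map deg).index))) :=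
  h73_glob_cf_V_of L S P hp2 hur n deg
    (fun K _ _ x => h10_w_diag K S P hp2 x)
    (fun K _ _ a hF x => h21_w_V1 K S P hp2 a hF x)
    (fun _ _ _ _ _ _ _ x => h84_w_ext S P x)
    harith

end Main

end Fermat.Agent.S55
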