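import Mathlib
import Fermat.Agent.S55.h78_GlobCFCFA2
import Fermat.Agent.S55.h25_GlobCFAFinal

/-!
# S55 GLOB-CF-CFA (row 339): unconditional final form (ruling #1353 (3))

For `L/ℚ` Galois, unramified outside `S ≠ ∅`, `H₂ ⊴ H₁ ≤ Gal(L/ℚ)` of odd prime index `p`,
`σ ∈ H₁ \ H₂`: the class field axiom on the `H₂`-fixed part of `h25_C L S`
(Hilbert 90 for the norm-one elements and index `p` of the norms in the `H₁`-fixed part).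
Uses `h25_cfa` (row 273) and the descent `h10_desc_*`.
-/

set_option autoImplicit false

universe u

namespace Fermat.Agent.S55

/-- `h25_cfa` in the packaged form `h78_HypCFA`. -/
theorem h78_hypCFA (S : Finset Nat.Primes) (hS : S.Nonempty) (p : ℕ) (hp : p.Prime)
    (hp2 : p ≠ 2) : h78_HypCFA.{u} S p :=
  fun K M _ _ _ _ _ _ hdeg hur σ hσ => h25_cfa (K := K) (L := M) S p hp hp2 hdeg hS hur σ hσ

/-- **GLOB-CF-CFA** (ruling #1353 (3)), unconditional. -/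
theorem h78_glob_cf_cfa (L : Type u) [Field L] [NumberField L] [IsGalois ℚ L]
    (S : Finset Nat.Primes) (hS : S.Nonempty) (p : ℕ) (hp : p.Prime) (hp2 : p ≠ 2)
    (hur : h25_UnramOutside ℚ L S)
    (H₁ H₂ : Subgroup (L ≃ₐ[ℚ] L)) (h21 : H₂ ≤ H₁)
    (hn : ∀ g ∈ H₁, ∀ h ∈ H₂, g * h * g⁻¹ ∈ H₂) (hidx : H₂.relIndex H₁ = p)
    (σ : L ≃ₐ[ℚ] L) (hσ₁ : σ ∈ H₁) (hσ₂ : σ ∉ H₂) :
    (∀ c : h25_C L S, (∀ h ∈ H₂, h25_Cmap S ((h : L ≃ₐ[ℚ] L) : L →+* L) c = c) →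
        ∏ i ∈ Finset.range p, h25_Cmap S ((σ ^ i : L ≃ₐ[ℚ] L) : L →+* L) c = 1 →
        ∃ b : h25_C L S, (∀ h ∈ H₂, h25_Cmap S ((h : L ≃ₐ[ℚ] L) : L →+* L) b = b) ∧
          h25_Cmap S (σ : L →+* L) b / b = c) ∧
    (∃ c₀ : h25_C L S, (∀ h ∈ H₁, h25_Cmap S ((h : L ≃ₐ[ℚ] L) : L →+* L) c₀ = c₀) ∧
      ∀ c : h25_C L S, (∀ h ∈ H₁, h25_Cmap S ((h : L ≃ₐ[ℚ] L) : L →+* L) c = c) →
        ∃ (k : ℕ) (b : h25_C L S),
          (∀ h ∈ H₂, h25_Cmap S ((h : L ≃ₐ[ℚ] L) : L →+* L) b = b) ∧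
          c = c₀ ^ k * ∏ i ∈ Finset.range p, h25_Cmap S ((σ ^ i : L ≃ₐ[ℚ] L) : L →+* L) b) :=
  h78_glob_cf_cfa_of_cfa L S hS p hp (h78_hypCFA S hS p hp hp2) hur H₁ H₂ h21 hn hidx σ hσ₁ hσ₂

end Fermat.Agent.S55
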