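import Fermat.Agent.S55.h72_AsmDefs

/-!
# S55, assembly layer: ASM-SHA2 (F4) (helper82)

`sha₂` is the orthogonal of the image of `Hom_G(M, JJ)`: for a level-constant 2-cocycle `c` of
`G_ℚ` in the finite module `M`, the cocycles `κ q ∘ ft ∘ c` are `S`-level coboundaries in `CC` for
all equivariant `ft : M → JJ q` iff `c` is locally a level-constant coboundary at `q`.

The Shapiro injectivity in degree 2 for the coinduced module `JJ q` (row ASM-SHA2-B) is taken as
an explicit hypothesis in `h82_asm_sha2_of`.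
-/

set_option autoImplicit false

open CategoryTheory Module groupCohomology ExtCitation

namespace Fermat.Agent.S55

local notation "Qb" => AlgebraicClosure ℚ
local notation "GQ" => (AlgebraicClosure ℚ ≃ₐ[ℚ] AlgebraicClosure ℚ)

/-- `G_ℚ`-equivariant additive maps from a representation to a `G_ℚ`-module
(copy of `h72_IsEqv` of the assembly skeleton). -/
def h82_IsEqv {p : ℕ} (M : Rep (ZMod p) GQ) {A : Type*} [AddCommGroup A] [DistribMulAction GQ A]
    (f : M →+ A) : Prop :=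
  ∀ (g : GQ) (m : M), f (M.ρ g m) = g • f m

section Levels

variable (S : Finset Nat.Primes)

/-- a level-constant 2-cochain is of level `L.U` for some Galois `S`-level `L`. -/
theorem h82_exists_lev₂ {X : Type*} (c : GQ × GQ → X) (hcl : IsLevelConstantS₂ S c) :
    ∃ L : h72_Lev S, h56_IsLevel₂ L.U c := by
  obtain ⟨F, -, hF, hgal, hinv⟩ :=
    (h97_isLevelConstantS₂_iff S ⊥ (IntermediateField.isUnramifiedOutside_bot S) c).mp hcl
  exact ⟨⟨F, hF, hgal⟩, fun g g' s s' hs hs' => hinv g g' s s' hs hs'⟩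

/-- a level-constant 1-cochain is of level `L.U` for some Galois `S`-level `L` above a given
one. -/
theorem h82_exists_lev₁ {X : Type*} (x : GQ → X) (hx : IsLevelConstantS₁ S x) (L₁ : h72_Lev S) :
    ∃ L : h72_Lev S, L.U ≤ L₁.U ∧ h56_IsLevel₁ L.U x := by
  obtain ⟨F, hle, hF, hgal, hinv⟩ := (h97_isLevelConstantS₁_iff S L₁.F L₁.unr x).mp hx
  exact ⟨⟨F, hF, hgal⟩, IntermediateField.fixingSubgroup_antitone hle,
    fun g s hs => hinv g s hs⟩

theorem h82_isLevelConstantS₁_of_lev {X : Type*} (x : GQ → X) (L : h72_Lev S)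
    (hx : h56_IsLevel₁ L.U x) : IsLevelConstantS₁ S x :=
  ⟨L.F, L.unr, fun g s hs => hx g s hs⟩

end Levels

section Middle

variable {p : ℕ} [Fact p.Prime] (S : Finset Nat.Primes)
  {CC : Type} [AddCommGroup CC] [DistribMulAction GQ CC]
  {JJ : ↥S → Type} [∀ q, AddCommGroup (JJ q)] [∀ q, DistribMulAction GQ (JJ q)]
  {XX : ↥S → Type} [∀ q, AddCommGroup (XX q)]
  [∀ q : ↥S, DistribMulAction (primeLocalGaloisGroup q.1) (XX q)]
  {κ : ∀ q, JJ q →+ CC} {ev : ∀ q, JJ q →+ XX q} {zz : ∀ q, XX q}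

/-- an element of the coinduced module `JJ q` is determined by its evaluations. -/
theorem h82_ev_unique (hA : h72_PTAmbient p S CC JJ XX κ ev zz) (q : ↥S) (y y' : JJ q)
    (h : ∀ k : GQ, ev q (k • y) = ev q (k • y')) : y = y' := by
  obtain ⟨L, hL⟩ := hA.jj_smooth q y
  have huniq := hA.ev_bij q (fun k => ev q (k • y))
    (fun τ g => by
      show ev q ((primeLocalToGlobal q.1 τ * g) • y) = τ • ev q (g • y)
      rw [mul_smul, hA.ev_smul])
    ⟨L, fun g s hs => by
      show ev q ((g * s) • y) = ev q (g • y)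
      rw [mul_smul, hL s hs]⟩
  exact huniq.unique (fun _ => rfl) (fun k => (h k).symm)

variable (M : Rep.{0} (ZMod p) GQ)

/-- (SH0) Shapiro in degree 0: a `G_q`-equivariant map `M → XX q` is `ev q ∘ ft` for an
equivariant `ft : M → JJ q`. -/
theorem h82_shapiro₀ (hA : h72_PTAmbient p S CC JJ XX κ ev zz)
    (L₀ : h72_Lev S) (hL₀ : ∀ s ∈ L₀.U, M.ρ s = 1) (q : ↥S) (h : M →+ XX q)
    (hh : ∀ (τ : primeLocalGaloisGroup q.1) (m : M),
      h (M.ρ (primeLocalToGlobal q.1 τ) m) = τ • h m) :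
    ∃ ft : M →+ JJ q, h82_IsEqv M ft ∧ ∀ m, ev q (ft m) = h m := by
  have hex : ∀ m : M, ∃! y : JJ q, ∀ g : GQ, ev q (g • y) = h (M.ρ g m) := by
    intro m
    refine hA.ev_bij q (fun g => h (M.ρ g m)) (fun τ g => ?_) ⟨L₀, fun g s hs => ?_⟩
    · show h (M.ρ (primeLocalToGlobal q.1 τ * g) m) = τ • h (M.ρ g m)
      rw [map_mul, ← hh]
      rfl
    · show h (M.ρ (g * s) m) = h (M.ρ g m)
      rw [map_mul, hL₀ s hs]
      rfl
  choose f hf hfu using hex
  have hadd : ∀ a b : M, f (a + b) = f a + f b := by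
    intro a b
    refine (hfu (a + b) (f a + f b) (fun g => ?_)).symm
    rw [smul_add, map_add, hf a g, hf b g, map_add, map_add]
  refine ⟨AddMonoidHom.mk' f hadd, ?_, ?_⟩
  · intro g₀ m
    show f (M.ρ g₀ m) = g₀ • f m
    refine (hfu (M.ρ g₀ m) (g₀ • f m) (fun g => ?_)).symm
    rw [← mul_smul, hf m (g * g₀), map_mul]
    rfl
  · intro m
    show ev q (f m) = h m
    have h1 := hf m 1
    rw [one_smul, map_one] at h1
    exact h1

/-- the local action of `G_q` on a global representation, through `primeLocalToGlobal q`. -/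
@[reducible] noncomputable def h82_locAction (q : Nat.Primes) : DistribMulAction (primeLocalGaloisGroup q) M :=
  letI := h56_repAction M
  DistribMulAction.compHom M (primeLocalToGlobal q)

theorem h82_locAction_smul (q : Nat.Primes) (τ : primeLocalGaloisGroup q) (m : M) :
    letI := h82_locAction M q
    τ • m = M.ρ (primeLocalToGlobal q τ) m := rfl

/-- `p` kills a `ZMod p`-module. -/
theorem h82_p_nsmul (m : M) : p • m = 0 := by
  have h1 : ((p : ZMod p)) • m = 0 := by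
    rw [ZMod.natCast_self, zero_smul]
  rwa [Nat.cast_smul_eq_nsmul] at h1

/-- Core of (⟹): if `κ q ∘ ft ∘ c` is an `S`-level coboundary in `CC` (for an equivariant
`ft : M → JJ q`), then `ev q ∘ ft ∘ c ∘ (r × r)` is a level-constant coboundary of the local
group in `XX q`. -/
theorem h82_sha2_local_cob (hA : h72_PTAmbient p S CC JJ XX κ ev zz)
    (c : GQ × GQ → M) (hc : c ∈ cocycles₂ M) (hcl : IsLevelConstantS₂ S c) (q : ↥S)
    (ft : M →+ JJ q) (hft : h82_IsEqv M ft)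
    (hcob : h72_IsCobS₂ S (fun x => κ q (ft (c x)))) :
    h72_IsCobLoc₂ q.1 (fun x : primeLocalGaloisGroup q.1 × primeLocalGaloisGroup q.1 =>
      ev q (ft (c (primeLocalToGlobal q.1 x.1, primeLocalToGlobal q.1 x.2)))) := by
  have hp : p.Prime := Fact.out
  have hc' := (mem_cocycles₂_iff c).mp hc
  -- the cocycle `z = ft ∘ c` in `JJ q`
  have hz : IsCocycle₂ (fun a : GQ × GQ => ft (c a)) := by
    intro g h j
    show ft (c (g * h, j)) + ft (c (g, h)) = g • ft (c (h, j)) + ft (c (g, h * j))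
    rw [← hft, ← map_add, ← map_add, hc']
  obtain ⟨x, hxl, hx⟩ := hcob
  -- a common level
  obtain ⟨L₁, hL₁⟩ := h82_exists_lev₂ S c hcl
  obtain ⟨L, hLle, hxL⟩ := h82_exists_lev₁ S x hxl L₁
  have hzl : h56_IsLevel₂ L.U (fun a : GQ × GQ => ft (c a)) := by
    intro g g' s s' hs hs'
    show ft (c (g * s, g' * s')) = ft (c (g, g'))
    rw [hL₁ g g' s s' (hLle hs) (hLle hs')]
  -- deflate
  obtain ⟨zbar, hzbar, hinfl⟩ := h56_exists_defl₂ (U := L.U) _ hz hzl
  have hinfl' : ∀ g h : GQ, ((zbar ((g : GQ ⧸ L.U), (h : GQ ⧸ L.U)) : h56_Inv L.U (JJ q)) : JJ q)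
      = ft (c (g, h)) := fun g h => congrFun hinfl (g, h)
  have hcobbar : IsCoboundary₂ (fun a => h56_Inv.map (U := L.U) (κ q) (hA.κ_smul q) (zbar a)) := by
    rw [h56_isCoboundary₂_iff]
    refine ⟨x, hxL, fun g h => ?_⟩
    rw [hx g h]
    show κ q (ft (c (g, h))) = κ q ((zbar ((g : GQ ⧸ L.U), (h : GQ ⧸ L.U)) : h56_Inv L.U (JJ q)) : JJ q)
    rw [hinfl']
  obtain ⟨m, hm, hmcob⟩ := hA.beta q L zbar hzbar hcobbar
  obtain ⟨w, hwl, hw⟩ := (h56_isCoboundary₂_iff (U := L.U) (m • zbar)).mp hmcob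
  have hw' : ∀ g h : GQ, g • w h - w (g * h) + w g = m • ft (c (g, h)) := by
    intro g h
    rw [hw g h, ← hinfl']
    rfl
  -- inverse of `m` modulo `p`
  obtain ⟨m', -, hm'⟩ := Nat.exists_mul_mod_eq_one_of_coprime hm hp.one_lt
  have hmm : m' * m = p * (m * m' / p) + 1 := by
    have := Nat.div_add_mod (m * m') p
    rw [hm'] at this
    rw [mul_comm m' m]
    exact this.symm
  refine ⟨fun τ => m' • ev q (w (primeLocalToGlobal q.1 τ)), ⟨L.F, L.unr.1, fun g s hs => ?_⟩,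
    fun τ τ' => ?_⟩
  · show m' • ev q (w (primeLocalToGlobal q.1 (g * s))) = m' • ev q (w (primeLocalToGlobal q.1 g))
    rw [map_mul, hwl _ _ hs]
  · show τ • (m' • ev q (w (primeLocalToGlobal q.1 τ')))
        - m' • ev q (w (primeLocalToGlobal q.1 (τ * τ')))
        + m' • ev q (w (primeLocalToGlobal q.1 τ))
      = ev q (ft (c (primeLocalToGlobal q.1 τ, primeLocalToGlobal q.1 τ')))
    have h1 : p • ev q (ft (c (primeLocalToGlobal q.1 τ, primeLocalToGlobal q.1 τ'))) = 0 := by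
      rw [← map_nsmul, ← map_nsmul, h82_p_nsmul, map_zero, map_zero]
    have h2 := congrArg (fun y => m' • ev q y)
      (hw' (primeLocalToGlobal q.1 τ) (primeLocalToGlobal q.1 τ'))
    simp only [map_add, map_sub, map_nsmul, hA.ev_smul, smul_add, smul_sub] at h2
    rw [smul_comm τ m', map_mul, h2, ← mul_smul, hmm, add_smul, mul_smul, one_smul,
      smul_comm p, h1, smul_zero, zero_add]

/-- Direction (⟹) of ASM-SHA2 at one prime `q ∈ S`. -/
theorem h82_sha2_mp (hA : h72_PTAmbient p S CC JJ XX κ ev zz) [FiniteDimensional (ZMod p) M]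
    (L₀ : h72_Lev S) (hL₀ : ∀ s ∈ L₀.U, M.ρ s = 1)
    (c : GQ × GQ → M) (hc : c ∈ cocycles₂ M) (hcl : IsLevelConstantS₂ S c) (q : ↥S)
    (H : ∀ ft : M →+ JJ q, h82_IsEqv M ft → h72_IsCobS₂ S (fun x => κ q (ft (c x)))) :
    ∃ x : primeLocalGaloisGroup q.1 → M,
      IsLevelConstant₁ (primeLocalToGlobal q.1) x ∧
      ∀ τ τ', M.ρ (primeLocalToGlobal q.1 τ) (x τ') - x (τ * τ') + x τ =
        c (primeLocalToGlobal q.1 τ, primeLocalToGlobal q.1 τ') := by
  let _ : DistribMulAction (primeLocalGaloisGroup q.1) M := h82_locAction M q.1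
  have : Finite M := Module.finite_of_finite (ZMod p)
  have hc' := (mem_cocycles₂_iff c).mp hc
  have hsmooth : ∃ F : IntermediateField ℚ Qb, FiniteDimensional ℚ F ∧
      ∀ (τ : primeLocalGaloisGroup q.1) (n : M),
        primeLocalToGlobal q.1 τ ∈ F.fixingSubgroup → τ • n = n := by
    refine ⟨L₀.F, L₀.unr.1, fun τ n hτ => ?_⟩
    show M.ρ (primeLocalToGlobal q.1 τ) n = n
    rw [hL₀ _ hτ]
    rfl
  have hcoc : IsCocycle₂ (fun x : primeLocalGaloisGroup q.1 × primeLocalGaloisGroup q.1 =>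
      c (primeLocalToGlobal q.1 x.1, primeLocalToGlobal q.1 x.2)) := by
    intro g h j
    show c (primeLocalToGlobal q.1 (g * h), primeLocalToGlobal q.1 j)
        + c (primeLocalToGlobal q.1 g, primeLocalToGlobal q.1 h)
      = M.ρ (primeLocalToGlobal q.1 g) (c (primeLocalToGlobal q.1 h, primeLocalToGlobal q.1 j))
        + c (primeLocalToGlobal q.1 g, primeLocalToGlobal q.1 (h * j))
    rw [map_mul, map_mul]
    exact hc' _ _ _
  have hlc : IsLevelConstant₂ (primeLocalToGlobal q.1)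
      (fun x : primeLocalGaloisGroup q.1 × primeLocalGaloisGroup q.1 =>
        c (primeLocalToGlobal q.1 x.1, primeLocalToGlobal q.1 x.2)) := by
    obtain ⟨F, hF, hinv⟩ := hcl
    refine ⟨F, hF.1, fun g g' s s' hs hs' => ?_⟩
    show c (primeLocalToGlobal q.1 (g * s), primeLocalToGlobal q.1 (g' * s'))
      = c (primeLocalToGlobal q.1 g, primeLocalToGlobal q.1 g')
    rw [map_mul, map_mul]
    exact hinv _ _ _ _ hs hs'
  have hperp : ∀ h : M →+ XX q,
      (∀ (τ : primeLocalGaloisGroup q.1) (n : M), h (τ • n) = τ • h n) →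
      h72_IsCobLoc₂ q.1 (fun x : primeLocalGaloisGroup q.1 × primeLocalGaloisGroup q.1 =>
        h (c (primeLocalToGlobal q.1 x.1, primeLocalToGlobal q.1 x.2))) := by
    intro h hh
    obtain ⟨ft, hft, hev⟩ := h82_shapiro₀ S M hA L₀ hL₀ q h hh
    have h1 := h82_sha2_local_cob S M hA c hc hcl q ft hft (H ft hft)
    simp only [hev] at h1
    exact h1
  exact hA.loc_dual q M (h82_p_nsmul M) hsmooth _ hcoc hlc hperp

/-- Direction (⟸) of ASM-SHA2 at one prime `q ∈ S`, given the Shapiro injectivity in degree 2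
for `JJ q` (row ASM-SHA2-B) as a hypothesis. -/
theorem h82_sha2_mpr_of (hA : h72_PTAmbient p S CC JJ XX κ ev zz) (q : ↥S)
    (hshap : ∀ (z : GQ × GQ → JJ q), IsCocycle₂ z → ∀ (L : h72_Lev S), h56_IsLevel₂ L.U z →
      ∀ (ξ : primeLocalGaloisGroup q.1 → XX q),
      (∀ τ s : primeLocalGaloisGroup q.1, primeLocalToGlobal q.1 s ∈ L.U → ξ (τ * s) = ξ τ) →
      (∀ τ τ' : primeLocalGaloisGroup q.1, τ • ξ τ' - ξ (τ * τ') + ξ τ =
        ev q (z (primeLocalToGlobal q.1 τ, primeLocalToGlobal q.1 τ'))) →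
      ∃ w : GQ → JJ q, h56_IsLevel₁ L.U w ∧ ∀ g h : GQ, g • w h - w (g * h) + w g = z (g, h))
    (c : GQ × GQ → M) (hc : c ∈ cocycles₂ M) (hcl : IsLevelConstantS₂ S c)
    (x : primeLocalGaloisGroup q.1 → M) (hxl : IsLevelConstant₁ (primeLocalToGlobal q.1) x)
    (hx : ∀ τ τ', M.ρ (primeLocalToGlobal q.1 τ) (x τ') - x (τ * τ') + x τ =
      c (primeLocalToGlobal q.1 τ, primeLocalToGlobal q.1 τ'))
    (ft : M →+ JJ q) (hft : h82_IsEqv M ft) :
    h72_IsCobS₂ S (fun x => κ q (ft (c x))) := by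
  have hc' := (mem_cocycles₂_iff c).mp hc
  have hz : IsCocycle₂ (fun a : GQ × GQ => ft (c a)) := by
    intro g h j
    show ft (c (g * h, j)) + ft (c (g, h)) = g • ft (c (h, j)) + ft (c (g, h * j))
    rw [← hft, ← map_add, ← map_add, hc']
  obtain ⟨L, hL⟩ := h82_exists_lev₂ S c hcl
  have hzl : h56_IsLevel₂ L.U (fun a : GQ × GQ => ft (c a)) := by
    intro g g' s s' hs hs'
    show ft (c (g * s, g' * s')) = ft (c (g, g'))
    rw [hL g g' s s' hs hs']
  -- the local cocycle `ζ = ev ∘ z ∘ (r × r)`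
  have hζcoc : IsCocycle₂ (fun a : primeLocalGaloisGroup q.1 × primeLocalGaloisGroup q.1 =>
      ev q (ft (c (primeLocalToGlobal q.1 a.1, primeLocalToGlobal q.1 a.2)))) := by
    intro g h j
    show ev q (ft (c (primeLocalToGlobal q.1 (g * h), primeLocalToGlobal q.1 j)))
        + ev q (ft (c (primeLocalToGlobal q.1 g, primeLocalToGlobal q.1 h)))
      = g • ev q (ft (c (primeLocalToGlobal q.1 h, primeLocalToGlobal q.1 j)))
        + ev q (ft (c (primeLocalToGlobal q.1 g, primeLocalToGlobal q.1 (h * j))))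
    rw [map_mul, map_mul, ← hA.ev_smul, ← hft, ← map_add, ← map_add, ← map_add, ← map_add, hc']
  have hζinv : ∀ τ τ' s s' : primeLocalGaloisGroup q.1,
      primeLocalToGlobal q.1 s ∈ L.F.fixingSubgroup →
      primeLocalToGlobal q.1 s' ∈ L.F.fixingSubgroup →
      ev q (ft (c (primeLocalToGlobal q.1 (τ * s), primeLocalToGlobal q.1 (τ' * s'))))
        = ev q (ft (c (primeLocalToGlobal q.1 τ, primeLocalToGlobal q.1 τ'))) := by
    intro τ τ' s s' hs hs'
    rw [map_mul, map_mul, hL _ _ _ _ hs hs']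
  have hζcob : h72_IsCobLoc₂ q.1
      (fun a : primeLocalGaloisGroup q.1 × primeLocalGaloisGroup q.1 =>
        ev q (ft (c (primeLocalToGlobal q.1 a.1, primeLocalToGlobal q.1 a.2)))) := by
    obtain ⟨F, hF, hinv⟩ := hxl
    refine ⟨fun τ => ev q (ft (x τ)), ⟨F, hF, fun g s hs => ?_⟩, fun τ τ' => ?_⟩
    · show ev q (ft (x (g * s))) = ev q (ft (x g))
      rw [hinv g s hs]
    · show τ • ev q (ft (x τ')) - ev q (ft (x (τ * τ'))) + ev q (ft (x τ))
        = ev q (ft (c (primeLocalToGlobal q.1 τ, primeLocalToGlobal q.1 τ')))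
      rw [← hA.ev_smul, ← hft, ← map_sub, ← map_sub, ← map_add, ← map_add, hx]
  obtain ⟨ξ, hξl, hξ⟩ := hA.loc_inf q L.F L.unr.1 L.gal _ hζcoc hζinv hζcob
  obtain ⟨w, hwl, hw⟩ := hshap _ hz L hzl ξ hξl hξ
  refine ⟨fun g => κ q (w g), h82_isLevelConstantS₁_of_lev S _ L (fun g s hs => ?_), fun g h => ?_⟩
  · show κ q (w (g * s)) = κ q (w g)
    rw [hwl g s hs]
  · show g • κ q (w h) - κ q (w (g * h)) + κ q (w g) = κ q (ft (c (g, h)))
    rw [← hA.κ_smul, ← map_sub, ← map_add, hw g h]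

/-- ASM-SHA2 (F4), given the Shapiro injectivity in degree 2 for the modules `JJ q`
(row ASM-SHA2-B) as a hypothesis. -/
theorem h82_asm_sha2_of (hA : h72_PTAmbient p S CC JJ XX κ ev zz) [FiniteDimensional (ZMod p) M]
    (hshap : ∀ (q : ↥S) (z : GQ × GQ → JJ q), IsCocycle₂ z → ∀ (L : h72_Lev S),
      h56_IsLevel₂ L.U z → ∀ (ξ : primeLocalGaloisGroup q.1 → XX q),
      (∀ τ s : primeLocalGaloisGroup q.1, primeLocalToGlobal q.1 s ∈ L.U → ξ (τ * s) = ξ τ) →
      (∀ τ τ' : primeLocalGaloisGroup q.1, τ • ξ τ' - ξ (τ * τ') + ξ τ =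
        ev q (z (primeLocalToGlobal q.1 τ, primeLocalToGlobal q.1 τ'))) →
      ∃ w : GQ → JJ q, h56_IsLevel₁ L.U w ∧ ∀ g h : GQ, g • w h - w (g * h) + w g = z (g, h))
    (L₀ : h72_Lev S) (hL₀ : ∀ s ∈ L₀.U, M.ρ s = 1)
    (c : GQ × GQ → M) (hc : c ∈ cocycles₂ M) (hcl : IsLevelConstantS₂ S c) :
    (∀ (q : ↥S) (ft : M →+ JJ q), h82_IsEqv M ft → h72_IsCobS₂ S (fun x => κ q (ft (c x)))) ↔
    (∀ q : ↥S, ∃ x : primeLocalGaloisGroup q.1 → M,
      IsLevelConstant₁ (primeLocalToGlobal q.1) x ∧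
      ∀ τ τ', M.ρ (primeLocalToGlobal q.1 τ) (x τ') - x (τ * τ') + x τ =
        c (primeLocalToGlobal q.1 τ, primeLocalToGlobal q.1 τ')) := by
  constructor
  · intro H q
    exact h82_sha2_mp S M hA L₀ hL₀ c hc hcl q (H q)
  · intro H q ft hft
    obtain ⟨x, hxl, hx⟩ := H q
    exact h82_sha2_mpr_of S M hA q (hshap q) c hc hcl x hxl hx ft hft

end Middle

end Fermat.Agent.S55
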