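import Mathlib
import Fermat.Agent.S55.h63_GalDefs

/-!
# S55 / GAL-CYCSTEP (helper82): the generic Galois degree-`p` step

`H2 ≤ H1 ≤ Gal(E/F)`, `H2` normal in `H1` of index `p` (prime), `σ ∈ H1 ∖ H2`.  Then
`E^H2 / E^H1` is Galois, cyclic of degree `p`; Hilbert 90 holds on the `H2`-fixed units for the
`σ`-norm `x ↦ ∏_{i<p} σ^i x`; and the index of the `σ`-norms in the `H1`-fixed units is the
norm index of `E^H2 / E^H1`.
-/

namespace Fermat.Agent.S55

section hilbert90

variable {K L : Type*} [Field K] [Field L] [Algebra K L]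

theorem h82_normPow_add (g : L ≃ₐ[K] L) (x : Lˣ) (a b : ℕ) :
    h63_normPow g (a + b) x = h63_normPow g a x * (g ^ a) • h63_normPow g b x := by
  rw [h63_normPow_apply, h63_normPow_apply, h63_normPow_apply, Finset.prod_range_add,
    Finset.smul_prod']
  congr 1
  refine Finset.prod_congr rfl fun i _ => ?_
  rw [pow_add, mul_smul]

variable [FiniteDimensional K L]

/-- Hilbert 90 for a cyclic group generated by `g` (universe polymorphic, from Noether's form):
if the `g`-norm of `x` over a full period is `1` then `x = g y / y`. -/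
theorem h82_hilbert90 (g : L ≃ₐ[K] L) (hg : ∀ τ : L ≃ₐ[K] L, ∃ k : ℕ, g ^ k = τ) (x : Lˣ)
    (hx : h63_normPow g (orderOf g) x = 1) : ∃ y : Lˣ, x = g • y / y := by
  classical
  have hPadd : ∀ a b, h63_normPow g (a + b) x = h63_normPow g a x * (g ^ a) • h63_normPow g b x :=
    fun a b => h82_normPow_add g x a b
  have hP0 : h63_normPow g 0 x = 1 := by simp [h63_normPow_apply]
  have hP1 : h63_normPow g 1 x = x := by
    rw [h63_normPow_apply, Finset.prod_range_one, pow_zero, one_smul]
  have hPo : ∀ c, h63_normPow g (orderOf g * c) x = 1 := by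
    intro c
    induction c with
    | zero => simpa using hP0
    | succ c ih =>
      rw [mul_add, mul_one, hPadd, ih, pow_mul, pow_orderOf_eq_one, one_pow, one_smul, one_mul]
      exact hx
  have key : ∀ a d, g ^ a = g ^ (a + d) → h63_normPow g a x = h63_normPow g (a + d) x := by
    intro a d h
    have h1 : g ^ d = 1 := by
      rw [pow_add] at h
      exact mul_eq_left.mp h.symm
    obtain ⟨c, rfl⟩ := orderOf_dvd_of_pow_eq_one h1
    rw [hPadd, hPo, smul_one, mul_one]
  have hPeq : ∀ a b, g ^ a = g ^ b → h63_normPow g a x = h63_normPow g b x := by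
    intro a b h
    rcases le_total a b with hab | hab
    · obtain ⟨d, rfl⟩ := Nat.exists_eq_add_of_le hab
      exact key a d h
    · obtain ⟨d, rfl⟩ := Nat.exists_eq_add_of_le hab
      exact (key b d h.symm).symm
  choose k hk using hg
  have hf : groupCohomology.IsMulCocycle₁ (fun τ : L ≃ₐ[K] L => h63_normPow g (k τ) x) := by
    intro τ ρ
    show h63_normPow g (k (τ * ρ)) x = τ • h63_normPow g (k ρ) x * h63_normPow g (k τ) x
    have h1 : h63_normPow g (k (τ * ρ)) x = h63_normPow g (k τ + k ρ) x :=
      hPeq (k (τ * ρ)) (k τ + k ρ) (by rw [hk, pow_add, hk, hk])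
    rw [h1, hPadd, hk, mul_comm]
  obtain ⟨β, hβ⟩ := groupCohomology.isMulCoboundary₁_of_isMulCocycle₁_of_aut_to_units _ hf
  refine ⟨β, ?_⟩
  have h2 := hβ g
  have h3 : h63_normPow g (k g) x = x :=
    (hPeq (k g) 1 (by rw [hk, pow_one])).trans hP1
  rw [h2]
  exact h3.symm

end hilbert90

section cyclic

variable {K E : Type*} [Field K] [Field E] [Algebra K E]

/-- units of `E` lying in an intermediate field come from units of the intermediate field. -/
theorem h82_exists_unit (M : IntermediateField K E) (x : Eˣ) (hx : (x : E) ∈ M) :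
    ∃ y : Mˣ, Units.map ((algebraMap M E : M →+* E) : M →* E) y = x := by
  have hx' : ((x⁻¹ : Eˣ) : E) ∈ M := by
    rw [Units.val_inv_eq_inv_val]
    exact M.inv_mem hx
  refine ⟨⟨⟨x, hx⟩, ⟨(x⁻¹ : Eˣ), hx'⟩, ?_, ?_⟩, ?_⟩
  · ext
    simp
  · ext
    simp
  · ext
    rfl

variable (M : IntermediateField K E) [FiniteDimensional K M] [IsGalois K M]
variable (p : ℕ) [Fact p.Prime] (s : E ≃ₐ[K] E)

/-- restriction of `s` to the normal subextension `M`. -/
noncomputable def h82_res : M ≃ₐ[K] M := AlgEquiv.restrictNormalHom M s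

omit [FiniteDimensional K M] in
theorem h82_res_apply (y : M) : ((h82_res M s y : M) : E) = s (y : E) :=
  AlgEquiv.restrictNormal_commutes s M y

omit [FiniteDimensional K M] in
theorem h82_res_pow_apply (i : ℕ) (y : M) : (((h82_res M s ^ i) y : M) : E) = (s ^ i) (y : E) := by
  induction i generalizing y with
  | zero => simp
  | succ i ih =>
    rw [pow_succ, pow_succ, AlgEquiv.mul_apply, AlgEquiv.mul_apply, ih, h82_res_apply]

omit [FiniteDimensional K M] in
theorem h82_res_ne_one (hs : ∃ y ∈ M, s y ≠ y) : h82_res M s ≠ 1 := by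
  obtain ⟨y, hy, hsy⟩ := hs
  intro h
  apply hsy
  have h1 := h82_res_apply M s ⟨y, hy⟩
  rw [h] at h1
  exact h1.symm

omit [FiniteDimensional K M] in
variable {p} in
theorem h82_res_orderOf (hcard : Nat.card (M ≃ₐ[K] M) = p) (hs : ∃ y ∈ M, s y ≠ y) :
    orderOf (h82_res M s) = p := by
  refine orderOf_eq_prime ?_ (h82_res_ne_one M s hs)
  rw [← hcard]
  exact pow_card_eq_one'

omit [FiniteDimensional K M] in
variable {p} in
theorem h82_res_gen (hcard : Nat.card (M ≃ₐ[K] M) = p) (hs : ∃ y ∈ M, s y ≠ y)
    (τ : M ≃ₐ[K] M) : ∃ k : ℕ, h82_res M s ^ k = τ :=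
  (Submonoid.mem_powers_iff _ _).mp (mem_powers_of_prime_card hcard (h82_res_ne_one M s hs))

variable {p} in
/-- the norm of the cyclic degree-`p` extension `M / K` is the `s`-norm. -/
theorem h82_norm_eq_prod (hcard : Nat.card (M ≃ₐ[K] M) = p) (hs : ∃ y ∈ M, s y ≠ y) (y : M) :
    algebraMap K E (Algebra.norm K y) = ∏ i ∈ Finset.range p, (s ^ i) (y : E) := by
  classical
  have hinj : Set.InjOn (fun i : ℕ => h82_res M s ^ i) (Finset.range p : Set ℕ) := by
    intro a ha b hb hab
    have ha' : a ∈ Set.Iio (orderOf (h82_res M s)) := by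
      rw [h82_res_orderOf M s hcard hs]
      simpa using ha
    have hb' : b ∈ Set.Iio (orderOf (h82_res M s)) := by
      rw [h82_res_orderOf M s hcard hs]
      simpa using hb
    exact pow_injOn_Iio_orderOf ha' hb' hab
  have himg : (Finset.range p).image (fun i : ℕ => h82_res M s ^ i) = Finset.univ := by
    apply Finset.eq_univ_of_card
    rw [Finset.card_image_of_injOn hinj, Finset.card_range, ← Nat.card_eq_fintype_card, hcard]
  have h1 : algebraMap K M (Algebra.norm K y) = ∏ τ : M ≃ₐ[K] M, τ y :=
    Algebra.norm_eq_prod_automorphisms K y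
  have h2 : (∏ τ : M ≃ₐ[K] M, τ y) = ∏ i ∈ Finset.range p, (h82_res M s ^ i) y := by
    rw [← himg, Finset.prod_image hinj]
  have h3 : algebraMap K E (Algebra.norm K y) = ((algebraMap K M (Algebra.norm K y) : M) : E) :=
    rfl
  have h4 : ((∏ i ∈ Finset.range p, (h82_res M s ^ i) y : M) : E) =
      ∏ i ∈ Finset.range p, (((h82_res M s ^ i) y : M) : E) := map_prod M.val _ _
  rw [h3, h1, h2, h4]
  exact Finset.prod_congr rfl fun i _ => h82_res_pow_apply M s i y

variable {p} in
/-- Hilbert 90 for the cyclic degree-`p` extension `M / K`, stated inside `E`. -/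
theorem h82_cyc_h90 (hcard : Nat.card (M ≃ₐ[K] M) = p) (hs : ∃ y ∈ M, s y ≠ y) (x : Eˣ)
    (hxM : (x : E) ∈ M) (hx : ∏ i ∈ Finset.range p, (s ^ i) (x : E) = 1) :
    ∃ y : Eˣ, (y : E) ∈ M ∧ (x : E) = s (y : E) / (y : E) := by
  obtain ⟨xM, hxM'⟩ := h82_exists_unit M x hxM
  have hxMcoe : ((xM : M) : E) = (x : E) := by
    rw [← hxM']
    rfl
  have hN : h63_normPow (h82_res M s) (orderOf (h82_res M s)) xM = 1 := by
    rw [h82_res_orderOf M s hcard hs]
    apply Units.ext
    apply Subtype.ext
    rw [h63_normPow_coe]
    have h4 : ((∏ i ∈ Finset.range p, (h82_res M s ^ i) (xM : M) : M) : E) =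
      ∏ i ∈ Finset.range p, (((h82_res M s ^ i) (xM : M) : M) : E) := map_prod M.val _ _
    rw [h4]
    simp only [h82_res_pow_apply, hxMcoe]
    exact hx
  obtain ⟨yM, hyM⟩ := h82_hilbert90 (h82_res M s) (h82_res_gen M s hcard hs) xM hN
  refine ⟨Units.map ((algebraMap M E : M →+* E) : M →* E) yM, (yM : M).2, ?_⟩
  rw [← hxMcoe, hyM, Units.val_div_eq_div_val]
  show ((h82_res M s (yM : M) : M) : E) / ((yM : M) : E) = _
  rw [h82_res_apply]
  rfl

end cyclic

section step

variable {F E : Type*} [Field F] [Field E] [Algebra F E]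

/-- an `F`-automorphism fixing `K` pointwise, as a `K`-automorphism. -/
def h82_liftAut (K : IntermediateField F E) (σ : E ≃ₐ[F] E) (h : ∀ x ∈ K, σ x = x) :
    E ≃ₐ[K] E :=
  { σ.toRingEquiv with commutes' := fun x => h x x.2 }

theorem h82_liftAut_apply (K : IntermediateField F E) (σ : E ≃ₐ[F] E) (h : ∀ x ∈ K, σ x = x)
    (x : E) : h82_liftAut K σ h x = σ x := rfl

theorem h82_liftAut_pow_apply (K : IntermediateField F E) (σ : E ≃ₐ[F] E)
    (h : ∀ x ∈ K, σ x = x) (i : ℕ) (x : E) : (h82_liftAut K σ h ^ i) x = (σ ^ i) x := by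
  induction i generalizing x with
  | zero => simp
  | succ i ih =>
    rw [pow_succ, pow_succ, AlgEquiv.mul_apply, AlgEquiv.mul_apply, ih, h82_liftAut_apply]

theorem h82_mem_fixU_iff (H : Subgroup (E ≃ₐ[F] E)) (x : Eˣ) :
    x ∈ h63_fixU H ↔ (x : E) ∈ IntermediateField.fixedField H := by
  rw [h63_mem_fixU, IntermediateField.mem_fixedField_iff]
  refine forall₂_congr fun τ _ => ?_
  rw [Units.ext_iff]
  rfl

theorem h82_cycstep {F E : Type*} [Field F] [Field E] [Algebra F E] [FiniteDimensional F E]
    [IsGalois F E] (p : ℕ) [Fact p.Prime] (H1 H2 : Subgroup (E ≃ₐ[F] E)) (h21 : H2 ≤ H1)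
    (hnormal : ∀ σ ∈ H1, ∀ τ ∈ H2, σ * τ * σ⁻¹ ∈ H2) (hidx : H2.relIndex H1 = p)
    (σ : E ≃ₐ[F] E) (hσ1 : σ ∈ H1) (hσ2 : σ ∉ H2)
    (h12 : IntermediateField.fixedField H1 ≤ IntermediateField.fixedField H2) :
    IsGalois (IntermediateField.fixedField H1) (IntermediateField.extendScalars h12) ∧
    IsCyclic ((IntermediateField.extendScalars h12) ≃ₐ[IntermediateField.fixedField H1]
      (IntermediateField.extendScalars h12)) ∧
    Module.finrank (IntermediateField.fixedField H1) (IntermediateField.extendScalars h12) = p ∧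
    (∀ x ∈ h63_fixU H2, h63_normPow σ p x = 1 → ∃ y ∈ h63_fixU H2, x = (σ • y) / y) ∧
    ((h63_fixU H2).map (h63_normPow σ p)).relIndex (h63_fixU H1) =
      (Units.map (Algebra.norm (IntermediateField.fixedField H1) :
        (IntermediateField.extendScalars h12) →* (IntermediateField.fixedField H1))).range.index := by
  have hp : p.Prime := Fact.out
  -- degrees
  have hfin1 : Module.finrank (IntermediateField.fixedField H1) E = Nat.card H1 :=
    IntermediateField.finrank_fixedField_eq_card H1
  have hfin2 : Module.finrank (IntermediateField.extendScalars h12) E = Nat.card H2 :=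
    IntermediateField.finrank_fixedField_eq_card H2
  have htower : Module.finrank (IntermediateField.fixedField H1) (IntermediateField.extendScalars h12)
      * Module.finrank (IntermediateField.extendScalars h12) E
      = Module.finrank (IntermediateField.fixedField H1) E :=
    Module.finrank_mul_finrank _ _ _
  have hcard : Nat.card H1 = p * Nat.card H2 := by
    have h1 : (H2.subgroupOf H1).index * Nat.card (H2.subgroupOf H1) = Nat.card H1 :=
      Subgroup.index_mul_card _
    have h2 : Nat.card (H2.subgroupOf H1) = Nat.card H2 :=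
      Nat.card_congr (Subgroup.subgroupOfEquivOfLe h21).toEquiv
    rw [h2] at h1
    rw [← h1, ← hidx]
    rfl
  have hH2pos : 0 < Nat.card H2 := Nat.card_pos
  have hrank : Module.finrank (IntermediateField.fixedField H1)
      (IntermediateField.extendScalars h12) = p := by
    rw [hfin1, hfin2, hcard] at htower
    exact Nat.eq_of_mul_eq_mul_right hH2pos htower
  -- `E^H2 / E^H1` is normal
  have hfix1 : ∀ τ : E ≃ₐ[IntermediateField.fixedField H1] E, τ.restrictScalars F ∈ H1 := by
    intro τ
    have h1 : τ.restrictScalars F ∈ (IntermediateField.fixedField H1).fixingSubgroup := by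
      rw [IntermediateField.mem_fixingSubgroup_iff]
      intro x hx
      exact τ.commutes ⟨x, hx⟩
    rwa [IntermediateField.fixingSubgroup_fixedField] at h1
  have hnorm : Normal (IntermediateField.fixedField H1) (IntermediateField.extendScalars h12) := by
    rw [IntermediateField.normal_iff_forall_map_le']
    rintro τ x ⟨y, hy, rfl⟩
    have hy' : y ∈ IntermediateField.fixedField H2 := hy
    show τ y ∈ IntermediateField.fixedField H2
    rw [IntermediateField.mem_fixedField_iff] at hy' ⊢
    intro ρ hρ
    have h1 := hnormal _ (H1.inv_mem (hfix1 τ)) ρ hρ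
    rw [inv_inv] at h1
    have h2 := hy' _ h1
    have h3 : ((τ.restrictScalars F)⁻¹ * ρ * τ.restrictScalars F) y
        = (τ.restrictScalars F)⁻¹ (ρ (τ y)) := rfl
    rw [h3] at h2
    have h4 := congrArg (τ.restrictScalars F) h2
    rw [AlgEquiv.aut_inv, AlgEquiv.apply_symm_apply] at h4
    exact h4
  have hgal : IsGalois (IntermediateField.fixedField H1) (IntermediateField.extendScalars h12) :=
    ⟨⟩
  have hcardG : Nat.card ((IntermediateField.extendScalars h12) ≃ₐ[IntermediateField.fixedField H1]
      (IntermediateField.extendScalars h12)) = p := by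
    rw [IsGalois.card_aut_eq_finrank, hrank]
  have hcyc : IsCyclic ((IntermediateField.extendScalars h12) ≃ₐ[IntermediateField.fixedField H1]
      (IntermediateField.extendScalars h12)) := isCyclic_of_prime_card hcardG
  -- `σ` as an automorphism over `E^H1`
  have hσfix : ∀ x ∈ IntermediateField.fixedField H1, σ x = x := fun x hx =>
    (IntermediateField.mem_fixedField_iff H1 x).mp hx σ hσ1
  have hs : ∃ y ∈ IntermediateField.extendScalars h12,
      h82_liftAut (IntermediateField.fixedField H1) σ hσfix y ≠ y := by
    by_contra hcon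
    apply hσ2
    have h1 : σ ∈ (IntermediateField.fixedField H2).fixingSubgroup := by
      rw [IntermediateField.mem_fixingSubgroup_iff]
      intro x hx
      by_contra hne
      exact hcon ⟨x, hx, hne⟩
    rwa [IntermediateField.fixingSubgroup_fixedField] at h1
  have hnormf : ∀ y : IntermediateField.extendScalars h12,
      algebraMap (IntermediateField.fixedField H1) E
        (Algebra.norm (IntermediateField.fixedField H1) y)
        = ∏ i ∈ Finset.range p, (σ ^ i) (y : E) := by
    intro y
    rw [h82_norm_eq_prod (IntermediateField.extendScalars h12)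
      (h82_liftAut (IntermediateField.fixedField H1) σ hσfix) hcardG hs y]
    exact Finset.prod_congr rfl fun i _ => h82_liftAut_pow_apply _ σ hσfix i _
  refine ⟨hgal, hcyc, hrank, ?_, ?_⟩
  · intro x hx hN
    have hxM : (x : E) ∈ IntermediateField.extendScalars h12 := (h82_mem_fixU_iff H2 x).mp hx
    have hN' : ∏ i ∈ Finset.range p,
        (h82_liftAut (IntermediateField.fixedField H1) σ hσfix ^ i) (x : E) = 1 := by
      rw [Finset.prod_congr rfl fun i _ => h82_liftAut_pow_apply _ σ hσfix i _,
        ← h63_normPow_coe, hN]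
      rfl
    obtain ⟨y, hyM, hy⟩ := h82_cyc_h90 (IntermediateField.extendScalars h12)
      (h82_liftAut (IntermediateField.fixedField H1) σ hσfix) hcardG hs x hxM hN'
    refine ⟨y, (h82_mem_fixU_iff H2 y).mpr hyM, ?_⟩
    apply Units.ext
    rw [hy, Units.val_div_eq_div_val]
    rfl
  · have hinj : Function.Injective (Units.map
        ((algebraMap (IntermediateField.fixedField H1) E :
          IntermediateField.fixedField H1 →+* E) : IntermediateField.fixedField H1 →* E)) :=
      Units.map_injective (algebraMap (IntermediateField.fixedField H1) E).injective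
    have hrange : (Units.map ((algebraMap (IntermediateField.fixedField H1) E :
          IntermediateField.fixedField H1 →+* E) : IntermediateField.fixedField H1 →* E)).range
        = h63_fixU H1 := by
      ext x
      rw [h82_mem_fixU_iff]
      constructor
      · rintro ⟨u, rfl⟩
        exact (u : IntermediateField.fixedField H1).2
      · intro hx
        obtain ⟨u, hu⟩ := h82_exists_unit (IntermediateField.fixedField H1) x hx
        exact ⟨u, hu⟩
    have hmap : ((Units.map (Algebra.norm (IntermediateField.fixedField H1) :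
        (IntermediateField.extendScalars h12) →* (IntermediateField.fixedField H1))).range).map
          (Units.map ((algebraMap (IntermediateField.fixedField H1) E :
            IntermediateField.fixedField H1 →+* E) : IntermediateField.fixedField H1 →* E))
        = (h63_fixU H2).map (h63_normPow σ p) := by
      ext z
      constructor
      · rintro ⟨_, ⟨yK, rfl⟩, rfl⟩
        refine ⟨Units.map ((algebraMap (IntermediateField.extendScalars h12) E :
            IntermediateField.extendScalars h12 →+* E) :
              IntermediateField.extendScalars h12 →* E) yK,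
          (h82_mem_fixU_iff H2 _).mpr (yK : IntermediateField.extendScalars h12).2, ?_⟩
        apply Units.ext
        rw [h63_normPow_coe]
        exact (hnormf yK).symm
      · rintro ⟨y, hy, rfl⟩
        obtain ⟨yK, hyK⟩ := h82_exists_unit (IntermediateField.extendScalars h12) y
          ((h82_mem_fixU_iff H2 y).mp hy)
        refine ⟨Units.map (Algebra.norm (IntermediateField.fixedField H1) :
          (IntermediateField.extendScalars h12) →* (IntermediateField.fixedField H1)) yK,
          ⟨yK, rfl⟩, ?_⟩
        apply Units.ext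
        rw [h63_normPow_coe, ← hyK]
        exact hnormf yK
    rw [← hmap, ← hrange, MonoidHom.range_eq_map
      (Units.map ((algebraMap (IntermediateField.fixedField H1) E :
        IntermediateField.fixedField H1 →+* E) : IntermediateField.fixedField H1 →* E)),
      Subgroup.relIndex_map_map_of_injective _ _ hinj, Subgroup.relIndex_top_right]

end step

end Fermat.Agent.S55
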