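import Fermat.Agent.S55.h63_LocOrd
import Fermat.Agent.S55.h63_LocBase

/-!
# S55 / LOC-UNR-3/4 (helper82): the maximal unramified subextension

For a tower `ℚ_[q] ⊂ K ⊂ L` of finite extensions and a primitive `(Q_L - 1)`-th root of unity
`ζ ∈ L` (`Q_L = h63_resCard q L`), the field `K⟮ζ⟯` has degree `f(L/K)` over `K` and contains
every subextension `E` with `f(E/K) = [E:K]`.

The two dependencies LOC-UNR-2 (a) (degree of a prime-to-`q` cyclotomic extension) and
LOC-UNR-1 (c) (existence of a primitive `(Q - 1)`-th root of unity) are taken as explicit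
hypotheses `h2a`, `h1c` (specialised to intermediate fields of `L / K`); the unconditional
wrappers are added once those rows are landed.
-/

namespace Fermat.Agent.S55

variable (q : ℕ) [Fact q.Prime]

section arith

/-- The order of `Q` modulo `Q ^ f - 1` is `f`. -/
theorem h82_orderOf_pow_sub_one (Q f : ℕ) (hQ : 2 ≤ Q) (hf : 0 < f) :
    orderOf ((Q : ℕ) : ZMod (Q ^ f - 1)) = f := by
  have hpos : ∀ i : ℕ, 1 ≤ Q ^ i := fun i => Nat.one_le_pow _ _ (by omega)
  rw [orderOf_eq_iff hf]
  constructor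
  · have h1 : ((Q ^ f - 1 + 1 : ℕ) : ZMod (Q ^ f - 1)) = 1 := by
      push_cast
      simp
    rw [Nat.sub_add_cancel (hpos f)] at h1
    exact_mod_cast h1
  · intro i hi hi0 h
    have h2 : ((Q ^ i : ℕ) : ZMod (Q ^ f - 1)) = ((1 : ℕ) : ZMod (Q ^ f - 1)) := by
      push_cast
      exact h
    rw [ZMod.natCast_eq_natCast_iff] at h2
    have h3 : Q ^ f - 1 ∣ Q ^ i - 1 := (Nat.modEq_iff_dvd' (hpos i)).mp h2.symm
    have h4 : Q ^ i < Q ^ f := Nat.pow_lt_pow_right (by omega) hi
    have h5 : Q ^ 1 ≤ Q ^ i := Nat.pow_le_pow_right (by omega) hi0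
    rw [pow_one] at h5
    have h6 := Nat.le_of_dvd (by omega) h3
    omega

/-- `q ^ d - 1` is prime to `q` for `d ≥ 1`. -/
theorem h82_coprime_pow_sub_one (d : ℕ) (hd : 0 < d) : (q ^ d - 1).Coprime q := by
  have hq : q.Prime := Fact.out
  rw [Nat.coprime_comm, Nat.Prime.coprime_iff_not_dvd hq]
  intro h
  have h1 : q ∣ q ^ d := dvd_pow_self q (by omega)
  have h2 : 1 ≤ q ^ d := Nat.one_le_pow _ _ hq.pos
  have h3 : q ∣ q ^ d - (q ^ d - 1) := Nat.dvd_sub h1 h
  have h4 : q ^ d - (q ^ d - 1) = 1 := by omega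
  rw [h4] at h3
  exact hq.one_lt.ne' (Nat.dvd_one.mp h3)

end arith

section card

variable (K : Type*) [Field K] [Algebra ℚ_[q] K] [FiniteDimensional ℚ_[q] K]

theorem h82_two_le_resCard : 2 ≤ h63_resCard q K := by
  have hq : q.Prime := Fact.out
  have h1 : q ^ 1 ≤ q ^ h63_resDeg q K := Nat.pow_le_pow_right hq.pos (h63_resDeg_pos q K)
  rw [pow_one] at h1
  exact le_trans hq.two_le h1

theorem h82_coprime_resCard_sub_one : (h63_resCard q K - 1).Coprime q :=
  h82_coprime_pow_sub_one q _ (h63_resDeg_pos q K)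

end card

section rel

variable (K L : Type*) [Field K] [Field L] [Algebra ℚ_[q] K] [Algebra ℚ_[q] L] [Algebra K L]
  [IsScalarTower ℚ_[q] K L] [FiniteDimensional ℚ_[q] L]

/-- `Q_L = Q_K ^ f(L/K)`. -/
theorem h82_resCard_eq_pow : h63_resCard q L = h63_resCard q K ^ h63_relResDeg q K L := by
  unfold h63_resCard
  rw [← pow_mul, mul_comm, h63_relResDeg_mul]

theorem h82_relResDeg_pos : 0 < h63_relResDeg q K L := by
  have h1 := h63_relResDeg_mul q K L
  have h2 := h63_resDeg_pos q L
  rcases Nat.eq_zero_or_pos (h63_relResDeg q K L) with h | h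
  · rw [h, zero_mul] at h1
    omega
  · exact h

/-- The degree statement (3) for an arbitrary primitive `(Q_K ^ f - 1)`-th root of unity, given
LOC-UNR-2 (a) for `K⟮ζ⟯`. -/
theorem h82_finrank_adjoin_aux (f : ℕ) (hf : 0 < f) (ζ : L)
    (hζ : IsPrimitiveRoot ζ (h63_resCard q K ^ f - 1))
    (h2a : ∀ (F : IntermediateField K L) (m : ℕ), m.Coprime q → IsCyclotomicExtension {m} K F →
      Module.finrank K F = orderOf ((h63_resCard q K : ℕ) : ZMod m)) :
    Module.finrank K (IntermediateField.adjoin K {ζ}) = f := by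
  have hK : FiniteDimensional ℚ_[q] K := FiniteDimensional.left ℚ_[q] K L
  have hKL : FiniteDimensional K L := FiniteDimensional.right ℚ_[q] K L
  have hQ : 2 ≤ h63_resCard q K := h82_two_le_resCard q K
  have hne : NeZero (h63_resCard q K ^ f - 1) := by
    have h1 : h63_resCard q K ^ 1 ≤ h63_resCard q K ^ f := Nat.pow_le_pow_right (by omega) hf
    rw [pow_one] at h1
    exact ⟨by omega⟩
  have hcop : (h63_resCard q K ^ f - 1).Coprime q := by
    have h1 : h63_resCard q K ^ f = q ^ (h63_resDeg q K * f) := by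
      unfold h63_resCard
      rw [pow_mul]
    rw [h1]
    exact h82_coprime_pow_sub_one q _ (Nat.mul_pos (h63_resDeg_pos q K) hf)
  have hcyc : IsCyclotomicExtension {h63_resCard q K ^ f - 1} K (IntermediateField.adjoin K {ζ}) :=
    hζ.intermediateField_adjoin_isCyclotomicExtension K
  rw [h2a _ _ hcop hcyc]
  exact h82_orderOf_pow_sub_one _ _ hQ hf

/-- LOC-UNR-3, conditional on LOC-UNR-2 (a) for the intermediate fields of `L / K`. -/
theorem h82_finrank_adjoin_of (ζ : L) (hζ : IsPrimitiveRoot ζ (h63_resCard q L - 1))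
    (h2a : ∀ (F : IntermediateField K L) (m : ℕ), m.Coprime q → IsCyclotomicExtension {m} K F →
      Module.finrank K F = orderOf ((h63_resCard q K : ℕ) : ZMod m)) :
    Module.finrank K (IntermediateField.adjoin K {ζ}) = h63_relResDeg q K L := by
  rw [h82_resCard_eq_pow q K L] at hζ
  exact h82_finrank_adjoin_aux q K L _ (h82_relResDeg_pos q K L) ζ hζ h2a

omit [FiniteDimensional ℚ_[q] L] in
/-- The tower `ℚ_[q] ⊂ E ⊂ L` for an intermediate field `E` of `L / K`. -/
theorem h82_isScalarTower_intermediate (E : IntermediateField K L) :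
    IsScalarTower ℚ_[q] E L :=
  IsScalarTower.of_algebraMap_eq (fun _ => rfl)

/-- An intermediate field of `L / K` is finite-dimensional over `ℚ_[q]`. -/
theorem h82_finiteDimensional_intermediate (E : IntermediateField K L) :
    FiniteDimensional ℚ_[q] E :=
  haveI := h82_isScalarTower_intermediate q K L E
  Module.Finite.of_injective (IsScalarTower.toAlgHom ℚ_[q] E L).toLinearMap
    (fun _ _ h => Subtype.ext h)

/-- LOC-UNR-4, conditional on LOC-UNR-2 (a) for the intermediate fields of `L / K` and on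
LOC-UNR-1 (c) for `E`. -/
theorem h82_le_adjoin_of (ζ : L) (hζ : IsPrimitiveRoot ζ (h63_resCard q L - 1))
    (E : IntermediateField K L) (hE : h63_relResDeg q K E = Module.finrank K E)
    (h2a : ∀ (F : IntermediateField K L) (m : ℕ), m.Coprime q → IsCyclotomicExtension {m} K F →
      Module.finrank K F = orderOf ((h63_resCard q K : ℕ) : ZMod m))
    (h1c : ∃ ζE : E, IsPrimitiveRoot ζE (h63_resCard q E - 1)) :
    E ≤ IntermediateField.adjoin K {ζ} := by
  obtain ⟨ζE, hζE⟩ := h1c
  have hEtow : IsScalarTower ℚ_[q] E L := h82_isScalarTower_intermediate q K L E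
  have hEfin : FiniteDimensional ℚ_[q] E := h82_finiteDimensional_intermediate q K L E
  have hKL : FiniteDimensional K L := FiniteDimensional.right ℚ_[q] K L
  have hζE' : IsPrimitiveRoot (ζE : L) (h63_resCard q E - 1) :=
    IsPrimitiveRoot.coe_submonoidClass_iff.mpr hζE
  have hQE : h63_resCard q E = h63_resCard q K ^ h63_relResDeg q K E := h82_resCard_eq_pow q K E
  have hfin : Module.finrank K (IntermediateField.adjoin K {(ζE : L)}) = h63_relResDeg q K E := by
    rw [hQE] at hζE'
    exact h82_finrank_adjoin_aux q K L _ (h82_relResDeg_pos q K E) (ζE : L) hζE' h2a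
  have hle : IntermediateField.adjoin K {(ζE : L)} ≤ E :=
    IntermediateField.adjoin_simple_le_iff.mpr ζE.2
  have heq : IntermediateField.adjoin K {(ζE : L)} = E :=
    IntermediateField.eq_of_le_of_finrank_eq hle (by rw [hfin, hE])
  have hQL : h63_resCard q L = h63_resCard q E ^ h63_relResDeg q E L := h82_resCard_eq_pow q E L
  have hdvd : h63_resCard q E - 1 ∣ h63_resCard q L - 1 := by
    rw [hQL]
    exact Nat.sub_one_dvd_pow_sub_one _ _
  have hpow : (ζE : L) ^ (h63_resCard q L - 1) = 1 := by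
    obtain ⟨c, hc⟩ := hdvd
    rw [hc, pow_mul, hζE'.pow_eq_one, one_pow]
  have hne : NeZero (h63_resCard q L - 1) := by
    have h1 := h82_two_le_resCard q L
    exact ⟨by omega⟩
  obtain ⟨i, -, hi⟩ := hζ.eq_pow_of_pow_eq_one hpow
  rw [← heq]
  refine IntermediateField.adjoin_simple_le_iff.mpr ?_
  rw [← hi]
  exact pow_mem (IntermediateField.mem_adjoin_simple_self K ζ) i

end rel

end Fermat.Agent.S55
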