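import Fermat.Agent.S55.h82_LocMaxUnr
import Fermat.Agent.S55.h66_LocCycUnr
import Fermat.Agent.S55.h6_LocTeichU

/-!
# S55 / LOC-UNR-3/4 (helper82): unconditional exports

`h82_finrank_adjoin` and `h82_le_adjoin` (row 208 verbatim), obtained from the conditional forms
of `h82_LocMaxUnr.lean` by plugging in LOC-UNR-2 (a) (`h66_cyc_finrank`) and LOC-UNR-1 (c)
(`h6_exists_primitiveRoot`).
-/

namespace Fermat.Agent.S55

variable (q : ℕ) [Fact q.Prime]

variable (K L : Type*) [Field K] [Field L] [Algebra ℚ_[q] K] [Algebra ℚ_[q] L] [Algebra K L]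
  [IsScalarTower ℚ_[q] K L] [FiniteDimensional ℚ_[q] L]

/-- LOC-UNR-2 (a) for the intermediate fields of `L / K`. -/
theorem h82_cyc_finrank_intermediate (F : IntermediateField K L) (m : ℕ) (hm : m.Coprime q)
    (hcyc : IsCyclotomicExtension {m} K F) :
    Module.finrank K F = orderOf ((h63_resCard q K : ℕ) : ZMod m) :=
  haveI := h82_finiteDimensional_intermediate q K L F
  h66_cyc_finrank q K F m hm

/-- LOC-UNR-3: `K⟮ζ⟯` has degree `f(L/K)` over `K` for a primitive `(Q_L - 1)`-th root of unity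
`ζ ∈ L`. -/
theorem h82_finrank_adjoin (ζ : L) (hζ : IsPrimitiveRoot ζ (h63_resCard q L - 1)) :
    Module.finrank K (IntermediateField.adjoin K {ζ}) = h63_relResDeg q K L :=
  h82_finrank_adjoin_of q K L ζ hζ (h82_cyc_finrank_intermediate q K L)

/-- LOC-UNR-4: `K⟮ζ⟯` contains every subextension `E` of `L / K` with `f(E/K) = [E:K]`. -/
theorem h82_le_adjoin (ζ : L) (hζ : IsPrimitiveRoot ζ (h63_resCard q L - 1))
    (E : IntermediateField K L) (hE : h63_relResDeg q K E = Module.finrank K E) :
    E ≤ IntermediateField.adjoin K {ζ} :=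
  haveI := h82_finiteDimensional_intermediate q K L E
  h82_le_adjoin_of q K L ζ hζ E hE (h82_cyc_finrank_intermediate q K L)
    (h6_exists_primitiveRoot q E)

/-- The maximal unramified subextension exists: `L` contains a primitive `(Q_L - 1)`-th root of
unity `ζ`, `K⟮ζ⟯ / K` has degree `f(L/K)` and contains every unramified subextension. -/
theorem h82_exists_maxUnr : ∃ ζ : L, IsPrimitiveRoot ζ (h63_resCard q L - 1) ∧
    Module.finrank K (IntermediateField.adjoin K {ζ}) = h63_relResDeg q K L ∧
    ∀ E : IntermediateField K L, h63_relResDeg q K E = Module.finrank K E →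
      E ≤ IntermediateField.adjoin K {ζ} := by
  obtain ⟨ζ, hζ⟩ := h6_exists_primitiveRoot q L
  exact ⟨ζ, hζ, h82_finrank_adjoin q K L ζ hζ, fun E hE => h82_le_adjoin q K L ζ hζ E hE⟩

end Fermat.Agent.S55
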