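import Fermat.Agent.S55.h63_LocOrd
import Fermat.Agent.S55.h63_LocBase
import Fermat.Agent.S55.h63_LocTower

/-!
# S55 / LOC-DEG (helper84): the Frobenius degree map of a finite Galois extension of `ℚ_q`

For `E / ℚ_q` finite Galois containing a primitive `(q ^ (p ^ n) - 1)`-th root of unity `ζ`, there
is a surjective homomorphism `deg : Gal(E/ℚ_q) →* Multiplicative (ZMod (p ^ n))` with
`σ ζ = ζ ^ (q ^ deg σ)` and `deg (Gal(E/K)) = ⟨f(K/ℚ_q)⟩` for every intermediate field `K`.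

The dependency LOC-UNR-2 (c) (Frobenius generates the Galois group of a prime-to-`q` cyclotomic
extension) is taken as the explicit hypothesis `h2c` in `h84_exists_frobDeg_of`.
-/

set_option autoImplicit false

namespace Fermat.Agent.S55

variable (q : ℕ) [Fact q.Prime]

section arith

/-- `q ^ N - 1` is prime to `q`. -/
theorem h84_coprime_pow_sub_one (N : ℕ) (hN : 0 < N) : (q ^ N - 1).Coprime q := by
  have hq : q.Prime := Fact.out
  rw [Nat.coprime_comm, Nat.Prime.coprime_iff_not_dvd hq]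
  intro h
  have h1 : q ∣ q ^ N := dvd_pow_self q (by omega)
  have h2 : 1 ≤ q ^ N := Nat.one_le_pow _ _ hq.pos
  have h3 : q ∣ q ^ N - (q ^ N - 1) := Nat.dvd_sub h1 h
  have h4 : q ^ N - (q ^ N - 1) = 1 := by omega
  rw [h4] at h3
  exact hq.one_lt.ne' (Nat.dvd_one.mp h3)

/-- If `q ^ N - 1 ∣ q ^ d - 1` then `N ∣ d`. -/
theorem h84_dvd_of_pow_sub_one_dvd (N : ℕ) (hN : 0 < N) (d : ℕ)
    (h : q ^ N - 1 ∣ q ^ d - 1) : N ∣ d := by
  have hq : q.Prime := Fact.out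
  have hq2 : 2 ≤ q := hq.two_le
  have hpos : ∀ i : ℕ, 1 ≤ q ^ i := fun i => Nat.one_le_pow _ _ hq.pos
  -- strong induction on `d`
  induction d using Nat.strong_induction_on with
  | _ d ih =>
    rcases Nat.lt_or_ge d N with hlt | hge
    · rcases Nat.eq_zero_or_pos d with h0 | h0
      · rw [h0]; exact dvd_zero N
      · exfalso
        have h4 : q ^ d < q ^ N := Nat.pow_lt_pow_right (by omega) hlt
        have h5 : q ^ 1 ≤ q ^ d := Nat.pow_le_pow_right (by omega) h0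
        rw [pow_one] at h5
        have h6 := Nat.le_of_dvd (by omega) h
        omega
    · -- `q^d - 1 = q^(d-N) (q^N - 1) + (q^(d-N) - 1)`
      have h1 : q ^ d = q ^ (d - N) * q ^ N := by
        rw [← pow_add]; congr 1; omega
      have h2 : q ^ d - 1 = q ^ (d - N) * (q ^ N - 1) + (q ^ (d - N) - 1) := by
        have := hpos (d - N)
        have := hpos N
        rw [h1, Nat.mul_sub, mul_one]
        have h3 : q ^ (d - N) ≤ q ^ (d - N) * q ^ N := Nat.le_mul_of_pos_right _ (by omega)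
        omega
      have h3 : q ^ N - 1 ∣ q ^ (d - N) - 1 := by
        rw [h2] at h
        exact (Nat.dvd_add_right (Dvd.intro_left _ rfl)).mp h
      have h4 := ih (d - N) (by omega) h3
      have h5 : d = (d - N) + N := by omega
      rw [h5]
      exact dvd_add h4 (dvd_refl N)

end arith

section roots

variable {q} {E : Type*} [Field E] {N : ℕ} {ζ : E}

omit [Fact q.Prime] in
theorem h84_zeta_pow_qN (hq : 0 < q) (hζ : IsPrimitiveRoot ζ (q ^ N - 1)) : ζ ^ (q ^ N) = ζ := by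
  have h1 : q ^ N = (q ^ N - 1) + 1 := by
    have : 1 ≤ q ^ N := Nat.one_le_pow _ _ hq
    omega
  rw [h1, pow_succ, hζ.pow_eq_one, one_mul]

omit [Fact q.Prime] in
theorem h84_zeta_pow_add (hq : 0 < q) (hζ : IsPrimitiveRoot ζ (q ^ N - 1)) (i t : ℕ) :
    ζ ^ (q ^ (i + N * t)) = ζ ^ (q ^ i) := by
  induction t with
  | zero => simp
  | succ t ih =>
    have h1 : q ^ (i + N * (t + 1)) = q ^ N * q ^ (i + N * t) := by
      rw [← pow_add]; congr 1; ring
    rw [h1, pow_mul, h84_zeta_pow_qN hq hζ, ih]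

omit [Fact q.Prime] in
/-- `ζ ^ (q ^ i)` only depends on `i` modulo `N`. -/
theorem h84_zeta_pow_congr (hq : 0 < q) (hζ : IsPrimitiveRoot ζ (q ^ N - 1)) {i j : ℕ}
    (h : (i : ZMod N) = (j : ZMod N)) : ζ ^ (q ^ i) = ζ ^ (q ^ j) := by
  rw [ZMod.natCast_eq_natCast_iff] at h
  wlog hij : i ≤ j generalizing i j
  · exact (this h.symm (by omega)).symm
  have h1 : N ∣ j - i := (Nat.modEq_iff_dvd' hij).mp h
  obtain ⟨t, ht⟩ := h1
  have h2 : j = i + N * t := by omega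
  rw [h2, h84_zeta_pow_add hq hζ]

/-- `ζ ^ (q ^ i)` determines `i` modulo `N`. -/
theorem h84_zeta_pow_inj (hN : 0 < N) (hζ : IsPrimitiveRoot ζ (q ^ N - 1)) {i j : ℕ}
    (h : ζ ^ (q ^ i) = ζ ^ (q ^ j)) : (i : ZMod N) = (j : ZMod N) := by
  have hq : q.Prime := Fact.out
  wlog hij : i ≤ j generalizing i j
  · exact (this h.symm (by omega)).symm
  have hpos : ∀ i : ℕ, 1 ≤ q ^ i := fun i => Nat.one_le_pow _ _ hq.pos
  have hm : 0 < q ^ N - 1 := by
    have h5 : q ^ 1 ≤ q ^ N := Nat.pow_le_pow_right hq.pos hN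
    rw [pow_one] at h5
    have := hq.two_le
    omega
  have hζ0 : ζ ≠ 0 := hζ.ne_zero hm.ne'
  have h1 : q ^ j = q ^ i + (q ^ j - q ^ i) := by
    have : q ^ i ≤ q ^ j := Nat.pow_le_pow_right hq.pos hij
    omega
  have h2 : ζ ^ (q ^ j - q ^ i) = 1 := by
    rw [h1, pow_add] at h
    have h3 : ζ ^ (q ^ i) ≠ 0 := pow_ne_zero _ hζ0
    have h4 : ζ ^ (q ^ i) * 1 = ζ ^ (q ^ i) * ζ ^ (q ^ j - q ^ i) := by rw [mul_one]; exact h
    exact (mul_left_cancel₀ h3 h4).symm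
  have h3 : q ^ N - 1 ∣ q ^ j - q ^ i := (hζ.pow_eq_one_iff_dvd _).mp h2
  have h4 : q ^ j - q ^ i = q ^ i * (q ^ (j - i) - 1) := by
    have h5 : q ^ j = q ^ i * q ^ (j - i) := by
      rw [← pow_add]; congr 1; omega
    rw [h5, Nat.mul_sub, mul_one]
  rw [h4] at h3
  have hcop : (q ^ N - 1).Coprime (q ^ i) :=
    Nat.Coprime.pow_right _ (h84_coprime_pow_sub_one q N hN)
  have h5 : q ^ N - 1 ∣ q ^ (j - i) - 1 := hcop.dvd_of_dvd_mul_left h3
  have h6 : N ∣ j - i := h84_dvd_of_pow_sub_one_dvd q N hN _ h5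
  rw [ZMod.natCast_eq_natCast_iff]
  exact ((Nat.modEq_iff_dvd' hij).mpr h6)

end roots

section core

variable {E : Type*} [Field E] [Algebra ℚ_[q] E]

/-- The group-theoretic core of LOC-DEG: if every subgroup `H` of `Gal(E/ℚ_q)` acts on `ζ` through
powers of `z ↦ z ^ (q ^ f H)` and contains an element acting by exactly this map, then the
Frobenius exponent is a surjective homomorphism to `ZMod N` with `deg H = ⟨f H⟩`. -/
theorem h84_frobDeg_core (N : ℕ) (hN : 0 < N) (ζ : E) (hζ : IsPrimitiveRoot ζ (q ^ N - 1))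
    (f : Subgroup (E ≃ₐ[ℚ_[q]] E) → ℕ) (hf : f ⊤ = 1)
    (hA : ∀ H : Subgroup (E ≃ₐ[ℚ_[q]] E), ∃ σ ∈ H, σ ζ = ζ ^ (q ^ f H))
    (hB : ∀ H : Subgroup (E ≃ₐ[ℚ_[q]] E), ∀ σ ∈ H, ∃ i : ℕ, σ ζ = ζ ^ ((q ^ f H) ^ i)) :
    ∃ deg : (E ≃ₐ[ℚ_[q]] E) →* Multiplicative (ZMod N), Function.Surjective deg ∧
      (∀ σ, σ ζ = ζ ^ (q ^ (Multiplicative.toAdd (deg σ)).val)) ∧
      ∀ H : Subgroup (E ≃ₐ[ℚ_[q]] E),
        H.map deg = Subgroup.zpowers (Multiplicative.ofAdd ((f H : ℕ) : ZMod N)) := by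
  classical
  have hq : q.Prime := Fact.out
  have hNne : NeZero N := ⟨hN.ne'⟩
  -- every `σ` acts on `ζ` by `ζ ↦ ζ ^ (q ^ i)`
  have hex : ∀ σ : E ≃ₐ[ℚ_[q]] E, ∃ i : ℕ, σ ζ = ζ ^ (q ^ i) := by
    intro σ
    obtain ⟨i, hi⟩ := hB ⊤ σ (Subgroup.mem_top σ)
    rw [hf, pow_one] at hi
    exact ⟨i, hi⟩
  choose jf hjf using hex
  have hone : ((jf 1 : ℕ) : ZMod N) = 0 := by
    have h1 : ζ ^ (q ^ jf 1) = ζ ^ (q ^ 0) := by
      rw [← hjf 1, pow_zero, pow_one]
      rfl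
    have := h84_zeta_pow_inj hN hζ h1
    simpa using this
  have hmul : ∀ σ τ : E ≃ₐ[ℚ_[q]] E,
      ((jf (σ * τ) : ℕ) : ZMod N) = ((jf σ : ℕ) : ZMod N) + ((jf τ : ℕ) : ZMod N) := by
    intro σ τ
    have h1 : ζ ^ (q ^ jf (σ * τ)) = ζ ^ (q ^ (jf σ + jf τ)) := by
      rw [← hjf (σ * τ), AlgEquiv.mul_apply, hjf τ, map_pow, hjf σ, ← pow_mul, ← pow_add]
    have := h84_zeta_pow_inj hN hζ h1
    simpa using this
  let deg : (E ≃ₐ[ℚ_[q]] E) →* Multiplicative (ZMod N) :=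
    { toFun := fun σ => Multiplicative.ofAdd ((jf σ : ℕ) : ZMod N)
      map_one' := by rw [hone]; rfl
      map_mul' := fun σ τ => by rw [hmul σ τ]; rfl }
  have hdeg : ∀ σ, deg σ = Multiplicative.ofAdd ((jf σ : ℕ) : ZMod N) := fun σ => rfl
  -- characterisation of the degree
  have hchar : ∀ (σ : E ≃ₐ[ℚ_[q]] E) (i : ℕ), σ ζ = ζ ^ (q ^ i) →
      deg σ = Multiplicative.ofAdd ((i : ℕ) : ZMod N) := by
    intro σ i hi
    rw [hdeg]
    congr 1
    apply h84_zeta_pow_inj hN hζ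
    rw [← hjf σ, hi]
  refine ⟨deg, ?_, ?_, ?_⟩
  · -- surjectivity
    obtain ⟨σ₀, -, hσ₀⟩ := hA ⊤
    rw [hf] at hσ₀
    have h1 : deg σ₀ = Multiplicative.ofAdd ((1 : ℕ) : ZMod N) := hchar σ₀ 1 hσ₀
    intro x
    refine ⟨σ₀ ^ (Multiplicative.toAdd x).val, ?_⟩
    rw [map_pow, h1]
    apply Multiplicative.toAdd.injective
    rw [toAdd_pow, toAdd_ofAdd]
    simp
  · intro σ
    rw [hdeg, toAdd_ofAdd, ZMod.val_natCast]
    rw [hjf σ]
    apply h84_zeta_pow_congr hq.pos hζ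
    simp
  · intro H
    apply le_antisymm
    · rintro x ⟨σ, hσ, rfl⟩
      obtain ⟨i, hi⟩ := hB H σ hσ
      rw [← pow_mul] at hi
      rw [hchar σ _ hi, Subgroup.mem_zpowers_iff]
      refine ⟨(i : ℤ), ?_⟩
      apply Multiplicative.toAdd.injective
      rw [toAdd_zpow, toAdd_ofAdd, toAdd_ofAdd]
      push_cast
      simp [mul_comm]
    · rw [Subgroup.zpowers_le]
      obtain ⟨σ, hσ, hσζ⟩ := hA H
      exact ⟨σ, hσ, hchar σ _ hσζ⟩

end core

section galois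

variable (E : Type*) [Field E] [Algebra ℚ_[q] E] [FiniteDimensional ℚ_[q] E] [IsGalois ℚ_[q] E]

omit [FiniteDimensional ℚ_[q] E] [IsGalois ℚ_[q] E] in
theorem h84_resDeg_congr {K K' : IntermediateField ℚ_[q] E} (h : K = K') :
    h63_resDeg q K = h63_resDeg q K' := by
  subst h
  rfl

/-- The fixed field of the full Galois group has residue degree `1`. -/
theorem h84_resDeg_fixedField_top :
    h63_resDeg q (IntermediateField.fixedField (⊤ : Subgroup (E ≃ₐ[ℚ_[q]] E))) = 1 := by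
  rw [h84_resDeg_congr q E (IsGalois.fixedField_top (F := ℚ_[q]) (E := E))]
  exact (h63_resDeg_algEquiv q (IntermediateField.botEquiv ℚ_[q] E)).symm.trans
    (h63_resDeg_self q)

/-- From LOC-UNR-2 (c): every subgroup `H` of `Gal(E/ℚ_q)` with fixed field `K` acts on a
prime-to-`q` root of unity `ζ` through powers of `z ↦ z ^ Q_K`, and some element of `H` acts by
`z ↦ z ^ Q_K` (`Q_K = q ^ f(K/ℚ_q)`). -/
theorem h84_subgroup_frob (ζ : E) (m : ℕ) (hm : m.Coprime q) (hm0 : 0 < m)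
    (hζ : IsPrimitiveRoot ζ m)
    (h2c : ∀ (K : IntermediateField ℚ_[q] E) (F : IntermediateField K E) (m : ℕ), m.Coprime q →
      IsCyclotomicExtension {m} K F →
      ∃ φ : F ≃ₐ[K] F, (∀ z : F, z ^ m = 1 → φ z = z ^ h63_resCard q K) ∧
        ∀ σ : F ≃ₐ[K] F, σ ∈ Subgroup.zpowers φ)
    (H : Subgroup (E ≃ₐ[ℚ_[q]] E)) :
    (∃ σ ∈ H, σ ζ = ζ ^ (q ^ h63_resDeg q (IntermediateField.fixedField H))) ∧
      (∀ σ ∈ H, ∃ i : ℕ,
        σ ζ = ζ ^ ((q ^ h63_resDeg q (IntermediateField.fixedField H)) ^ i)) := by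
  have hmne : NeZero m := ⟨hm0.ne'⟩
  set K := IntermediateField.fixedField H with hK
  let F : IntermediateField K E := IntermediateField.adjoin K {ζ}
  have hcyc : IsCyclotomicExtension {m} K F := hζ.intermediateField_adjoin_isCyclotomicExtension K
  obtain ⟨φ, hφ, hgen⟩ := h2c K F m hm hcyc
  have hHK : K.fixingSubgroup = H := IntermediateField.fixingSubgroup_fixedField H
  have hnorm : Normal K F := (IsCyclotomicExtension.isGalois {m} K F).to_normal
  have hsurj : Function.Surjective (AlgEquiv.restrictNormalHom (F := K) (K₁ := E) F) :=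
    AlgEquiv.restrictNormalHom_surjective E
  let ζF : F := ⟨ζ, IntermediateField.mem_adjoin_simple_self K ζ⟩
  have hζF : ζF ^ m = 1 := Subtype.ext (by simp [ζF, hζ.pow_eq_one])
  have hpow : ∀ i : ℕ, (φ ^ i) ζF = ζF ^ ((h63_resCard q K) ^ i) := by
    intro i
    induction i with
    | zero => simp
    | succ i ih =>
      rw [pow_succ', AlgEquiv.mul_apply, ih, map_pow, hφ ζF hζF, ← pow_mul, ← pow_succ']
  constructor
  · obtain ⟨σ', hσ'⟩ := hsurj φ
    refine ⟨((IntermediateField.fixingSubgroupEquiv K).symm σ' : E ≃ₐ[ℚ_[q]] E), ?_, ?_⟩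
    · rw [← hHK]
      exact ((IntermediateField.fixingSubgroupEquiv K).symm σ').2
    · have h1 : ((IntermediateField.fixingSubgroupEquiv K).symm σ' : E ≃ₐ[ℚ_[q]] E) ζ = σ' ζ := rfl
      have h2 : ((AlgEquiv.restrictNormalHom F σ' ζF : F) : E) = σ' ζ :=
        AlgEquiv.restrictNormal_commutes σ' F ζF
      rw [h1, ← h2, hσ', hφ ζF hζF]
      rfl
  · intro σ hσ
    have hσ' : σ ∈ K.fixingSubgroup := by rw [hHK]; exact hσ
    let σ' : E ≃ₐ[K] E := IntermediateField.fixingSubgroupEquiv K ⟨σ, hσ'⟩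
    have hmem := hgen (AlgEquiv.restrictNormalHom F σ')
    rw [← mem_powers_iff_mem_zpowers] at hmem
    obtain ⟨i, hi⟩ := hmem
    refine ⟨i, ?_⟩
    have h2 : ((AlgEquiv.restrictNormalHom F σ' ζF : F) : E) = σ' ζ :=
      AlgEquiv.restrictNormal_commutes σ' F ζF
    have h1 : σ' ζ = σ ζ := rfl
    have hi' : (φ ^ i) ζF = AlgEquiv.restrictNormalHom F σ' ζF := by
      have := congrArg (fun g : F ≃ₐ[K] F => g ζF) hi
      exact this
    rw [← h1, ← h2, ← hi', hpow i]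
    rfl

/-- **LOC-DEG**, conditional on LOC-UNR-2 (c) (row 207) for the intermediate fields of
`E / ℚ_q`. -/
theorem h84_exists_frobDeg_of (p : ℕ) [Fact p.Prime] (n : ℕ) (ζ : E)
    (hζ : IsPrimitiveRoot ζ (q ^ (p ^ n) - 1))
    (h2c : ∀ (K : IntermediateField ℚ_[q] E) (F : IntermediateField K E) (m : ℕ), m.Coprime q →
      IsCyclotomicExtension {m} K F →
      ∃ φ : F ≃ₐ[K] F, (∀ z : F, z ^ m = 1 → φ z = z ^ h63_resCard q K) ∧
        ∀ σ : F ≃ₐ[K] F, σ ∈ Subgroup.zpowers φ) :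
    ∃ deg : (E ≃ₐ[ℚ_[q]] E) →* Multiplicative (ZMod (p ^ n)), Function.Surjective deg ∧
      (∀ σ, σ ζ = ζ ^ (q ^ (Multiplicative.toAdd (deg σ)).val)) ∧
      ∀ H : Subgroup (E ≃ₐ[ℚ_[q]] E), H.map deg = Subgroup.zpowers (Multiplicative.ofAdd
        ((h63_resDeg q (IntermediateField.fixedField H) : ℕ) : ZMod (p ^ n))) := by
  have hq : q.Prime := Fact.out
  have hp : p.Prime := Fact.out
  have hN : 0 < p ^ n := pow_pos hp.pos n
  have hcop : (q ^ (p ^ n) - 1).Coprime q := h84_coprime_pow_sub_one q _ hN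
  have hm0 : 0 < q ^ (p ^ n) - 1 := by
    have h5 : q ^ 1 ≤ q ^ (p ^ n) := Nat.pow_le_pow_right hq.pos hN
    rw [pow_one] at h5
    have := hq.two_le
    omega
  exact h84_frobDeg_core q (p ^ n) hN ζ hζ
    (fun H => h63_resDeg q (IntermediateField.fixedField H))
    (h84_resDeg_fixedField_top q E)
    (fun H => (h84_subgroup_frob q E ζ _ hcop hm0 hζ h2c H).1)
    (fun H => (h84_subgroup_frob q E ζ _ hcop hm0 hζ h2c H).2)

end galois

end Fermat.Agent.S55
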