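/-
S55, layer L6-local: the field-theoretic bridge between the prelude's local Galois groups
`PadicAlgCl q ≃ₐ[ℚ_[q]] PadicAlgCl q` (with `localGaloisToGlobal q`) and finite extensions of
`ℚ_[q]` inside `PadicAlgCl q` (Krasner's lemma).
-/
import Mathlib
import Fermat.Prelude.Def_GaloisRep_CompletionBridge
import Fermat.Prelude.Def_GroupCohomology_ContinuousH2

set_option autoImplicit false

open Polynomial IntermediateField

namespace Fermat.Agent.S55

variable (q : ℕ) [Fact q.Prime]

/-- (K0) The image of `padicEmbedding q` is the set of elements algebraic over `ℚ`. -/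
theorem h88_mem_range_emb_iff (y : PadicAlgCl q) :
    y ∈ Set.range (padicEmbedding q) ↔ IsAlgebraic ℚ y := by
  constructor
  · rintro ⟨x, rfl⟩
    exact ((AlgebraicClosure.isAlgebraic ℚ).isAlgebraic x).algHom (padicEmbedding q)
  · intro hy
    have hint : IsIntegral ℚ y := hy.isIntegral
    have hsp : ((minpoly ℚ y).map (algebraMap ℚ (AlgebraicClosure ℚ))).Splits :=
      IsAlgClosed.splits _
    have himg := hsp.image_rootSet (padicEmbedding q)
    have hmem : y ∈ (minpoly ℚ y).rootSet (PadicAlgCl q) := by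
      rw [Polynomial.mem_rootSet]
      exact ⟨minpoly.ne_zero hint, minpoly.aeval ℚ y⟩
    rw [← himg] at hmem
    obtain ⟨x, -, hx⟩ := hmem
    exact ⟨x, hx⟩

/-- Approximation of a monic polynomial over `ℚ_[q]` by a monic rational polynomial of the same
degree, measured at a point `α` of `PadicAlgCl q`. -/
theorem h88_exists_rat_approx (f : ℚ_[q][X]) (hf : f.Monic) (α : PadicAlgCl q)
    (hα : aeval α f = 0) {η : ℝ} (hη : 0 < η) :
    ∃ g : ℚ[X], g.Monic ∧ g.natDegree = f.natDegree ∧ ‖aeval α g‖ < η := by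
  classical
  set n := f.natDegree with hn
  set Cb : ℝ := max 1 ‖α‖ ^ n with hC
  have hC1 : 1 ≤ Cb := one_le_pow₀ (le_max_left _ _)
  have hCpos : 0 < Cb := lt_of_lt_of_le one_pos hC1
  set ε : ℝ := η / ((n + 1) * Cb) with hε
  have hεpos : 0 < ε := by positivity
  choose b hb using fun i : Fin n => Padic.rat_dense q (f.coeff i) hεpos
  set p : ℚ[X] := ∑ i : Fin n, C (b i) * X ^ (i : ℕ) with hp
  have hpdeg : p.degree < n := degree_sum_fin_lt b
  refine ⟨X ^ n + p, monic_X_pow_add hpdeg, ?_, ?_⟩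
  · rw [natDegree_add_eq_left_of_degree_lt, natDegree_X_pow]
    rwa [degree_X_pow]
  · have h1 : aeval α f = α ^ n + ∑ i : Fin n, algebraMap ℚ_[q] (PadicAlgCl q) (f.coeff i) * α ^ (i : ℕ) := by
      conv_lhs => rw [hf.as_sum]
      rw [← hn, Fin.sum_univ_eq_sum_range (fun i => algebraMap ℚ_[q] (PadicAlgCl q) (f.coeff i) * α ^ i) n]
      simp [map_sum]
    have h2 : aeval α (X ^ n + p) = α ^ n + ∑ i : Fin n, algebraMap ℚ (PadicAlgCl q) (b i) * α ^ (i : ℕ) := by
      simp [hp, map_sum]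
    have h3 : aeval α (X ^ n + p) = ∑ i : Fin n, (algebraMap ℚ (PadicAlgCl q) (b i) - algebraMap ℚ_[q] (PadicAlgCl q) (f.coeff i)) * α ^ (i : ℕ) := by
      rw [h2]
      have := h1
      rw [hα] at this
      simp only [sub_mul, Finset.sum_sub_distrib]
      linear_combination (-1 : PadicAlgCl q) * this
    rw [h3]
    have hterm : ∀ i : Fin n, ‖(algebraMap ℚ (PadicAlgCl q) (b i) - algebraMap ℚ_[q] (PadicAlgCl q) (f.coeff i)) * α ^ (i : ℕ)‖ ≤ ε * Cb := by
      intro i
      have e1 : algebraMap ℚ (PadicAlgCl q) (b i) - algebraMap ℚ_[q] (PadicAlgCl q) (f.coeff i)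
          = algebraMap ℚ_[q] (PadicAlgCl q) ((b i : ℚ_[q]) - f.coeff i) := by
        rw [map_sub, map_ratCast, eq_ratCast]
      rw [norm_mul, e1, PadicAlgCl.norm_extends, norm_pow]
      have e2 : ‖(b i : ℚ_[q]) - f.coeff i‖ ≤ ε := by
        rw [norm_sub_rev]; exact (hb i).le
      have e3 : ‖α‖ ^ (i : ℕ) ≤ Cb := by
        calc ‖α‖ ^ (i : ℕ) ≤ max 1 ‖α‖ ^ (i : ℕ) :=
              pow_le_pow_left₀ (norm_nonneg _) (le_max_right _ _) _
          _ ≤ max 1 ‖α‖ ^ n := pow_le_pow_right₀ (le_max_left _ _) i.2.le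
      exact mul_le_mul e2 e3 (by positivity) hεpos.le
    calc ‖∑ i : Fin n, (algebraMap ℚ (PadicAlgCl q) (b i) - algebraMap ℚ_[q] (PadicAlgCl q) (f.coeff i)) * α ^ (i : ℕ)‖
        ≤ ∑ i : Fin n, ‖(algebraMap ℚ (PadicAlgCl q) (b i) - algebraMap ℚ_[q] (PadicAlgCl q) (f.coeff i)) * α ^ (i : ℕ)‖ := norm_sum_le _ _
      _ ≤ ∑ _i : Fin n, ε * Cb := Finset.sum_le_sum fun i _ => hterm i
      _ = n * (ε * Cb) := by simp
      _ < η := by
        rw [hε]
        have : (n : ℝ) * (η / ((n + 1) * Cb) * Cb) = η * (n / (n + 1)) := by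
          field_simp
        rw [this]
        have h4 : (n : ℝ) / (n + 1) < 1 := by
          rw [div_lt_one (by positivity)]; linarith
        nlinarith

theorem h88_pow_card_le_norm_prod (s : Multiset (PadicAlgCl q)) {δ : ℝ} (hδ : 0 ≤ δ)
    (h : ∀ x ∈ s, δ ≤ ‖x‖) : δ ^ Multiset.card s ≤ ‖s.prod‖ := by
  induction s using Multiset.induction_on with
  | empty => simp
  | cons a t ih =>
    rw [Multiset.card_cons, Multiset.prod_cons, norm_mul, pow_succ, mul_comm]
    exact mul_le_mul (h a (Multiset.mem_cons_self a t))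
      (ih fun x hx => h x (Multiset.mem_cons_of_mem hx)) (pow_nonneg hδ _) (norm_nonneg _)

/-- (K1, elementwise) Krasner: every element of `PadicAlgCl q` lies in `ℚ_[q]⟮β⟯` for some `β`
in the image of `AlgebraicClosure ℚ`. -/
theorem h88_krasner_elt (α : PadicAlgCl q) :
    ∃ b : AlgebraicClosure ℚ, α ∈ ℚ_[q]⟮padicEmbedding q b⟯ := by
  classical
  have hint : IsIntegral ℚ_[q] α := Algebra.IsIntegral.isIntegral α
  set f := minpoly ℚ_[q] α with hf
  have hmonic : f.Monic := minpoly.monic hint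
  have hsep : f.Separable := (minpoly.irreducible hint).separable
  have hsp : (f.map (algebraMap ℚ_[q] (PadicAlgCl q))).Splits := IsAlgClosed.splits _
  obtain ⟨δ, hδ, hδle⟩ : ∃ δ : ℝ, 0 < δ ∧
      ∀ x' ∈ f.rootSet (PadicAlgCl q), x' ≠ α → δ ≤ ‖α - x'‖ := by
    have hfin : (f.rootSet (PadicAlgCl q)).Finite := rootSet_finite f _
    by_cases hT : ((hfin.toFinset).erase α).Nonempty
    · obtain ⟨x0, hx0, hmin⟩ := Finset.exists_min_image _ (fun x' => ‖α - x'‖) hT
      refine ⟨‖α - x0‖, ?_, ?_⟩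
      · rw [norm_pos_iff, sub_ne_zero]; exact (Finset.ne_of_mem_erase hx0).symm
      · intro x' hx' hne
        exact hmin x' (Finset.mem_erase.2 ⟨hne, hfin.mem_toFinset.2 hx'⟩)
    · refine ⟨1, one_pos, ?_⟩
      intro x' hx' hne
      exact absurd ⟨x', Finset.mem_erase.2 ⟨hne, hfin.mem_toFinset.2 hx'⟩⟩ hT
  set n := f.natDegree with hn
  obtain ⟨g, hgm, hgdeg, hgα⟩ :=
    h88_exists_rat_approx q f hmonic α (minpoly.aeval _ _) (pow_pos hδ n)
  have hgsp : (g.map (algebraMap ℚ (PadicAlgCl q))).Splits := IsAlgClosed.splits _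
  have hprod := hgsp.aeval_eq_prod_aroots_of_monic hgm α
  obtain ⟨β, hβ, hβlt⟩ : ∃ β ∈ g.aroots (PadicAlgCl q), ‖α - β‖ < δ := by
    by_contra hcon
    push Not at hcon
    have hcard : Multiset.card (g.aroots (PadicAlgCl q)) = n := by
      rw [aroots, ← hgsp.natDegree_eq_card_roots, natDegree_map, hgdeg]
    have h1 : δ ^ n ≤ ‖aeval α g‖ := by
      rw [hprod, ← hcard, ← Multiset.card_map (fun x => α - x)]
      refine h88_pow_card_le_norm_prod q _ hδ.le ?_
      intro x hx
      obtain ⟨β, hβ, rfl⟩ := Multiset.mem_map.1 hx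
      exact hcon β hβ
    exact absurd hgα (not_lt.2 h1)
  have hβalg : IsAlgebraic ℚ β := ⟨g, hgm.ne_zero, (mem_aroots.1 hβ).2⟩
  obtain ⟨b, hb⟩ := (h88_mem_range_emb_iff q β).2 hβalg
  refine ⟨b, ?_⟩
  rw [hb]
  refine IsKrasner.krasner (K := ℚ_[q]) (L := PadicAlgCl q) hsep hsp
    (Algebra.IsIntegral.isIntegral β) ?_
  intro x' hx' hne
  refine lt_of_lt_of_le hβlt (hδle x' ?_ (Ne.symm hne))
  rw [mem_rootSet]
  refine ⟨hmonic.ne_zero, ?_⟩
  rw [hf, show minpoly ℚ_[q] α = minpoly ℚ_[q] x' from hx']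
  exact minpoly.aeval _ _

end Fermat.Agent.S55

namespace Fermat.Agent.S55

/-- A finite-dimensional intermediate field in characteristic zero is simple. -/
theorem h88_exists_primitive {k E : Type*} [Field k] [Field E] [Algebra k E] [CharZero k]
    (F : IntermediateField k E) [FiniteDimensional k F] : ∃ b : E, F = k⟮b⟯ := by
  obtain ⟨a, ha⟩ := Field.exists_primitive_element k F
  refine ⟨(a : E), ?_⟩
  have h1 : (k⟮a⟯ : IntermediateField k F).map F.val = k⟮(a : E)⟯ := by
    rw [IntermediateField.adjoin_map]; simp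
  rw [← h1, ha, ← AlgHom.fieldRange_eq_map, IntermediateField.fieldRange_val]

variable (q : ℕ) [Fact q.Prime]

/-- The image of a simple extension `ℚ⟮b⟯` generates `ℚ_[q]⟮emb b⟯`. -/
theorem h88_adjoin_emb_simple (b : AlgebraicClosure ℚ) :
    adjoin ℚ_[q] (padicEmbedding q '' (ℚ⟮b⟯ : Set (AlgebraicClosure ℚ)))
      = ℚ_[q]⟮padicEmbedding q b⟯ := by
  apply le_antisymm
  · rw [adjoin_le_iff]
    rintro _ ⟨x, hx, rfl⟩
    have hle : ℚ⟮b⟯ ≤ ((ℚ_[q]⟮padicEmbedding q b⟯).restrictScalars ℚ).comap (padicEmbedding q) := by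
      rw [adjoin_simple_le_iff]
      exact mem_adjoin_simple_self ℚ_[q] (padicEmbedding q b)
    exact hle hx
  · rw [adjoin_simple_le_iff]
    exact subset_adjoin _ _ ⟨b, mem_adjoin_simple_self ℚ b, rfl⟩

/-- (K3b) The field generated over `ℚ_[q]` by the image of a number field is finite. -/
theorem h88_finiteDimensional_adjoin_emb (F : IntermediateField ℚ (AlgebraicClosure ℚ))
    [FiniteDimensional ℚ F] :
    FiniteDimensional ℚ_[q] (adjoin ℚ_[q] (padicEmbedding q '' (F : Set (AlgebraicClosure ℚ)))) := by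
  obtain ⟨b, rfl⟩ := h88_exists_primitive F
  rw [h88_adjoin_emb_simple]
  exact adjoin.finiteDimensional (Algebra.IsIntegral.isIntegral _)

/-- (K1) Krasner: every finite extension of `ℚ_[q]` inside `PadicAlgCl q` is contained in the
field generated by the image of a number field. -/
theorem h88_exists_numberField_of_finite (L : IntermediateField ℚ_[q] (PadicAlgCl q))
    [FiniteDimensional ℚ_[q] L] :
    ∃ F : IntermediateField ℚ (AlgebraicClosure ℚ), FiniteDimensional ℚ F ∧
      L ≤ adjoin ℚ_[q] (padicEmbedding q '' (F : Set (AlgebraicClosure ℚ))) := by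
  obtain ⟨α, rfl⟩ := h88_exists_primitive L
  obtain ⟨b, hb⟩ := h88_krasner_elt q α
  refine ⟨ℚ⟮b⟯, adjoin.finiteDimensional ((AlgebraicClosure.isAlgebraic ℚ).isAlgebraic b).isIntegral, ?_⟩
  rw [h88_adjoin_emb_simple, adjoin_simple_le_iff]
  exact hb

/-- (K2) `PadicAlgCl q` is generated over `ℚ_[q]` by the image of `AlgebraicClosure ℚ`. -/
theorem h88_adjoin_emb_eq_top :
    adjoin ℚ_[q] (Set.range (padicEmbedding q)) = ⊤ := by
  rw [eq_top_iff]
  intro α _
  obtain ⟨b, hb⟩ := h88_krasner_elt q α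
  have hle : ℚ_[q]⟮padicEmbedding q b⟯ ≤ adjoin ℚ_[q] (Set.range (padicEmbedding q)) := by
    rw [adjoin_simple_le_iff]
    exact subset_adjoin _ _ ⟨b, rfl⟩
  exact hle hb

/-- An automorphism of `PadicAlgCl q` over `ℚ_[q]` is determined by its values on the image of
`AlgebraicClosure ℚ`. -/
theorem h88_algEquiv_ext {τ τ' : PadicAlgCl q ≃ₐ[ℚ_[q]] PadicAlgCl q}
    (h : ∀ x : AlgebraicClosure ℚ, τ (padicEmbedding q x) = τ' (padicEmbedding q x)) : τ = τ' := by
  ext y
  have hy : y ∈ adjoin ℚ_[q] (Set.range (padicEmbedding q)) := by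
    rw [h88_adjoin_emb_eq_top]; trivial
  induction hy using adjoin_induction with
  | mem x hx => obtain ⟨a, rfl⟩ := hx; exact h a
  | algebraMap x => rw [τ.commutes, τ'.commutes]
  | add x y _ _ hx hy => rw [map_add, map_add, hx, hy]
  | inv x _ hx => rw [map_inv₀, map_inv₀, hx]
  | mul x y _ _ hx hy => rw [map_mul, map_mul, hx, hy]

/-- (K2) `localGaloisToGlobal q` is injective. -/
theorem h88_localGaloisToGlobal_injective : Function.Injective (localGaloisToGlobal q) := by
  intro τ τ' h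
  apply h88_algEquiv_ext
  intro x
  rw [← padicEmbedding_localGaloisToGlobal, ← padicEmbedding_localGaloisToGlobal, h]

/-- (K3) The preimage of the fixing subgroup of `F` is the fixing subgroup of the field generated
over `ℚ_[q]` by the image of `F`. -/
theorem h88_comap_fixingSubgroup (F : IntermediateField ℚ (AlgebraicClosure ℚ)) :
    (F.fixingSubgroup).comap (localGaloisToGlobal q)
      = (adjoin ℚ_[q] (padicEmbedding q '' (F : Set (AlgebraicClosure ℚ)))).fixingSubgroup := by
  ext τ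
  rw [Subgroup.mem_comap, IntermediateField.mem_fixingSubgroup_iff,
    IntermediateField.mem_fixingSubgroup_iff]
  constructor
  · intro h y hy
    induction hy using adjoin_induction with
    | mem x hx =>
      obtain ⟨a, ha, rfl⟩ := hx
      rw [← padicEmbedding_localGaloisToGlobal, h a ha]
    | algebraMap x => exact τ.commutes x
    | add x y _ _ hx hy => rw [map_add, hx, hy]
    | inv x _ hx => rw [map_inv₀, hx]
    | mul x y _ _ hx hy => rw [map_mul, hx, hy]
  · intro h x hx
    refine (padicEmbedding q).toRingHom.injective ?_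
    show padicEmbedding q _ = padicEmbedding q x
    rw [padicEmbedding_localGaloisToGlobal]
    exact h _ (subset_adjoin _ _ ⟨x, hx, rfl⟩)

end Fermat.Agent.S55

namespace Fermat.Agent.S55

variable (q : ℕ) [Fact q.Prime]

/-- (K4) The prelude's level-constant 1-cochains on the local Galois group are exactly the
functions that are right-invariant under the fixing subgroup of a finite extension of `ℚ_[q]`. -/
theorem h88_isLevelConstant₁_iff {X : Type*} (f : (PadicAlgCl q ≃ₐ[ℚ_[q]] PadicAlgCl q) → X) :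
    groupCohomology.IsLevelConstant₁ (localGaloisToGlobal q) f ↔
      ∃ L : IntermediateField ℚ_[q] (PadicAlgCl q), FiniteDimensional ℚ_[q] L ∧
        ∀ g s, s ∈ L.fixingSubgroup → f (g * s) = f g := by
  constructor
  · rintro ⟨F, hF, h⟩
    have := hF
    refine ⟨adjoin ℚ_[q] (padicEmbedding q '' (F : Set (AlgebraicClosure ℚ))),
      h88_finiteDimensional_adjoin_emb q F, fun g s hs => h g s ?_⟩
    rw [← h88_comap_fixingSubgroup] at hs
    exact hs
  · rintro ⟨L, hL, h⟩
    have := hL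
    obtain ⟨F, hF, hLF⟩ := h88_exists_numberField_of_finite q L
    refine ⟨F, hF, fun g s hs => h g s ?_⟩
    have hs' : s ∈ (F.fixingSubgroup).comap (localGaloisToGlobal q) := hs
    rw [h88_comap_fixingSubgroup] at hs'
    exact IntermediateField.fixingSubgroup_antitone hLF hs'

/-- (K4) The same for 2-cochains. -/
theorem h88_isLevelConstant₂_iff {X : Type*}
    (f : (PadicAlgCl q ≃ₐ[ℚ_[q]] PadicAlgCl q) × (PadicAlgCl q ≃ₐ[ℚ_[q]] PadicAlgCl q) → X) :
    groupCohomology.IsLevelConstant₂ (localGaloisToGlobal q) f ↔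
      ∃ L : IntermediateField ℚ_[q] (PadicAlgCl q), FiniteDimensional ℚ_[q] L ∧
        ∀ g g' s s', s ∈ L.fixingSubgroup → s' ∈ L.fixingSubgroup →
          f (g * s, g' * s') = f (g, g') := by
  constructor
  · rintro ⟨F, hF, h⟩
    have := hF
    refine ⟨adjoin ℚ_[q] (padicEmbedding q '' (F : Set (AlgebraicClosure ℚ))),
      h88_finiteDimensional_adjoin_emb q F, fun g g' s s' hs hs' => h g g' s s' ?_ ?_⟩
    · rw [← h88_comap_fixingSubgroup] at hs
      exact hs
    · rw [← h88_comap_fixingSubgroup] at hs'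
      exact hs'
  · rintro ⟨L, hL, h⟩
    have := hL
    obtain ⟨F, hF, hLF⟩ := h88_exists_numberField_of_finite q L
    refine ⟨F, hF, fun g g' s s' hs hs' => h g g' s s' ?_ ?_⟩
    · have hs2 : s ∈ (F.fixingSubgroup).comap (localGaloisToGlobal q) := hs
      rw [h88_comap_fixingSubgroup] at hs2
      exact IntermediateField.fixingSubgroup_antitone hLF hs2
    · have hs2 : s' ∈ (F.fixingSubgroup).comap (localGaloisToGlobal q) := hs'
      rw [h88_comap_fixingSubgroup] at hs2
      exact IntermediateField.fixingSubgroup_antitone hLF hs2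

end Fermat.Agent.S55
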