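import Mathlib
import Fermat.Agent.S55.h25_GlobDefs

/-!
# S55 GLOB, row GLOB-FUNC (part 1): naturality of the diagonal

* `h90_Xmap_diag` : `h25_Xmap S f (diag x) = diag (f x)`;
* `h90_Cmap_mk`   : `h25_Cmap S f (mk x) = mk (h25_Xmap S f x)`.

The divisor part is the identity `ord_w (𝔞 𝓞_{K'}) = ∑_v ord_v (𝔞) · ord_w (v 𝓞_{K'})` for a
nonzero fractional ideal `𝔞` of `K` (`h90_count_ext`), where the primes `v` above `S` contribute
nothing at a prime `w` of `K'` not above `S` (`h90_count_map_eq_zero`).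
-/

set_option autoImplicit false

open IsDedekindDomain NumberField
open scoped nonZeroDivisors

namespace Fermat.Agent.S55

noncomputable section

section Ext

variable {K : Type*} [Field K] [NumberField K] {K' : Type*} [Field K'] [NumberField K']

theorem h90_mapRingHom_injective (f : K →+* K') :
    Function.Injective (RingOfIntegers.mapRingHom f) := by
  intro a b h
  apply RingOfIntegers.ext
  apply f.injective
  have := congrArg (fun y : 𝓞 K' => (y : K')) h
  simpa [RingOfIntegers.mapRingHom_apply] using this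

theorem h90_nzd_le (f : K →+* K') :
    (𝓞 K)⁰ ≤ Submonoid.comap (RingOfIntegers.mapRingHom f) (𝓞 K')⁰ :=
  nonZeroDivisors_le_comap_nonZeroDivisors_of_injective _ (h90_mapRingHom_injective f)

/-- Extension of fractional ideals along a field embedding. -/
def h90_ext (f : K →+* K') : FractionalIdeal (𝓞 K)⁰ K →+* FractionalIdeal (𝓞 K')⁰ K' :=
  FractionalIdeal.extendedHom' K' (h90_nzd_le f)

theorem h90_ext_coeIdeal (f : K →+* K') (I : Ideal (𝓞 K)) :
    h90_ext f (I : FractionalIdeal (𝓞 K)⁰ K) =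
      ((Ideal.map (RingOfIntegers.mapRingHom f) I : Ideal (𝓞 K')) :
        FractionalIdeal (𝓞 K')⁰ K') :=
  FractionalIdeal.extended_coeIdeal_eq_map K' (h90_nzd_le f) I

theorem h90_locMap_eq (f : K →+* K') :
    IsLocalization.map (S := K) K' (RingOfIntegers.mapRingHom f) (h90_nzd_le f) = f := by
  apply IsLocalization.ringHom_ext (𝓞 K)⁰
  ext a
  simp only [RingHom.coe_comp, Function.comp_apply, IsLocalization.map_eq]
  rfl

theorem h90_ext_spanSingleton (f : K →+* K') (x : K) :
    h90_ext f (FractionalIdeal.spanSingleton (𝓞 K)⁰ x) =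
      FractionalIdeal.spanSingleton (𝓞 K')⁰ (f x) := by
  have h := FractionalIdeal.extended_spanSingleton (K := K) K' (h90_nzd_le f) x
  rw [h90_locMap_eq] at h
  exact h

theorem h90_ext_ne_zero (f : K →+* K') {I : FractionalIdeal (𝓞 K)⁰ K} (hI : I ≠ 0) :
    h90_ext f I ≠ 0 :=
  FractionalIdeal.extended_ne_zero K' (h90_nzd_le f) (h90_mapRingHom_injective f) hI
    zero_notMem_nonZeroDivisors

theorem h90_map_ne_bot (f : K →+* K') (v : HeightOneSpectrum (𝓞 K)) :
    ((Ideal.map (RingOfIntegers.mapRingHom f) v.asIdeal : Ideal (𝓞 K')) :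
        FractionalIdeal (𝓞 K')⁰ K') ≠ 0 := by
  rw [← h90_ext_coeIdeal]
  exact h90_ext_ne_zero f (FractionalIdeal.coeIdeal_ne_zero.mpr v.ne_bot)

theorem h90_supp_finite (I : FractionalIdeal (𝓞 K)⁰ K) :
    {v : HeightOneSpectrum (𝓞 K) | FractionalIdeal.count K v I ≠ 0}.Finite :=
  Filter.eventually_cofinite.mp (FractionalIdeal.finite_factors I)

/-- The (finite) set of primes occurring in a fractional ideal. -/
def h90_supp (I : FractionalIdeal (𝓞 K)⁰ K) : Finset (HeightOneSpectrum (𝓞 K)) :=
  (h90_supp_finite I).toFinset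

theorem h90_mem_supp (I : FractionalIdeal (𝓞 K)⁰ K) (v : HeightOneSpectrum (𝓞 K)) :
    v ∈ h90_supp I ↔ FractionalIdeal.count K v I ≠ 0 := by
  unfold h90_supp
  rw [Set.Finite.mem_toFinset]
  rfl

/-- `ord_w (𝔞 𝓞_{K'}) = ∑_v ord_v (𝔞) · ord_w (v 𝓞_{K'})`. -/
theorem h90_count_ext (f : K →+* K') {I : FractionalIdeal (𝓞 K)⁰ K} (hI : I ≠ 0)
    (w : HeightOneSpectrum (𝓞 K')) :
    FractionalIdeal.count K' w (h90_ext f I) =
      ∑ v ∈ h90_supp I,
        FractionalIdeal.count K v I *
          FractionalIdeal.count K' w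
            ((Ideal.map (RingOfIntegers.mapRingHom f) v.asIdeal : Ideal (𝓞 K')) :
              FractionalIdeal (𝓞 K')⁰ K') := by
  have hfac := FractionalIdeal.finprod_heightOneSpectrum_factorization' K hI
  rw [finprod_eq_finsetProd_of_mulSupport_subset (s := h90_supp I)] at hfac
  · conv_lhs => rw [← hfac]
    rw [map_prod, FractionalIdeal.count_prod]
    · refine Finset.sum_congr rfl (fun v _ => ?_)
      rw [map_zpow₀, FractionalIdeal.count_zpow, h90_ext_coeIdeal]
    · intro v _
      rw [map_zpow₀, h90_ext_coeIdeal]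
      exact zpow_ne_zero _ (h90_map_ne_bot f v)
  · intro v hv
    rw [Finset.mem_coe, h90_mem_supp]
    intro h
    apply hv
    show (v.asIdeal : FractionalIdeal (𝓞 K)⁰ K) ^ _ = 1
    rw [h, zpow_zero]

end Ext

section Func

variable {K : Type*} [Field K] [NumberField K] {K' : Type*} [Field K'] [NumberField K']
variable {K'' : Type*} [Field K''] [NumberField K''] (S : Finset Nat.Primes)

/-- A prime `v` of `K` above `S` contributes nothing at a prime `w` of `K'` not above `S`. -/
theorem h90_count_map_eq_zero (f : K →+* K') (v : HeightOneSpectrum (𝓞 K))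
    (hv : h25_above K S v) (w : HeightOneSpectrum (𝓞 K')) (hw : ¬ h25_above K' S w) :
    FractionalIdeal.count K' w
      ((Ideal.map (RingOfIntegers.mapRingHom f) v.asIdeal : Ideal (𝓞 K')) :
        FractionalIdeal (𝓞 K')⁰ K') = 0 := by
  classical
  by_contra hne
  apply hw
  obtain ⟨q, hq, hqv⟩ := hv
  refine ⟨q, hq, ?_⟩
  have hJ : (Ideal.map (RingOfIntegers.mapRingHom f) v.asIdeal : Ideal (𝓞 K')) ≠ 0 := by
    intro h0
    apply h90_map_ne_bot f v
    rw [h0]
    simp
  rw [FractionalIdeal.count_coe K' w hJ] at hne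
  have hne' : (Associates.mk w.asIdeal).count
      (Associates.mk (Ideal.map (RingOfIntegers.mapRingHom f) v.asIdeal)).factors ≠ 0 := by
    exact_mod_cast hne
  rw [Associates.count_ne_zero_iff_dvd hJ w.irreducible, Ideal.dvd_iff_le] at hne'
  apply hne'
  have h1 : (((q : Nat.Primes) : ℕ) : 𝓞 K') =
      RingOfIntegers.mapRingHom f ((((q : Nat.Primes) : ℕ) : 𝓞 K)) := by
    simp
  rw [h1]
  exact Ideal.mem_map_of_mem _ hqv

theorem h90_Dmap_apply (f : K →+* K') (d : h25_Div K S) (w : h25_Pl K' S) :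
    h25_Dmap S f d w = d.sum (fun v n => n * FractionalIdeal.count K' w.1
        ((Ideal.map (RingOfIntegers.mapRingHom f) v.1.asIdeal : Ideal (𝓞 K')) :
          FractionalIdeal (𝓞 K')⁰ K')) := by
  unfold h25_Dmap
  rw [Finsupp.liftAddHom_apply, Finsupp.sum_apply]
  refine Finsupp.sum_congr (fun v _ => ?_)
  simp [zmultiplesHom_apply]

/-- The extension of divisors is the divisor of the extended ideal. -/
theorem h90_Dmap_divIdeal (f : K →+* K') {I : FractionalIdeal (𝓞 K)⁰ K} (hI : I ≠ 0) :
    h25_Dmap S f (h25_divIdeal K S I) = h25_divIdeal K' S (h90_ext f I) := by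
  classical
  ext w
  rw [h90_Dmap_apply, h25_divIdeal_apply, h90_count_ext f hI w.1]
  rw [Finsupp.sum_of_support_subset (s := (h90_supp I).subtype (fun v => ¬ h25_above K S v))]
  · simp only [h25_divIdeal_apply]
    rw [Finset.sum_subtype_eq_sum_filter
      (f := fun v : HeightOneSpectrum (𝓞 K) => FractionalIdeal.count K v I *
        FractionalIdeal.count K' w.1
          ((Ideal.map (RingOfIntegers.mapRingHom f) v.asIdeal : Ideal (𝓞 K')) :
            FractionalIdeal (𝓞 K')⁰ K'))]
    apply Finset.sum_filter_of_ne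
    intro v _ hne habove
    apply hne
    rw [h90_count_map_eq_zero S f v habove w.1 w.2, mul_zero]
  · intro v hv
    rw [Finset.mem_subtype, h90_mem_supp]
    rw [Finsupp.mem_support_iff, h25_divIdeal_apply] at hv
    exact hv
  · intro v _
    rw [zero_mul]

theorem h90_Dmap_div (f : K →+* K') (x : Kˣ) :
    h25_Dmap S f (h25_div K S x) = h25_div K' S (Units.map (f : K →* K') x) := by
  unfold h25_div
  rw [h90_Dmap_divIdeal S f (FractionalIdeal.spanSingleton_ne_zero_iff.mpr x.ne_zero),
    h90_ext_spanSingleton]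
  rfl

/-- ROW GLOB-FUNC: naturality of the diagonal. -/
theorem h90_Xmap_diag (f : K →+* K') (x : Kˣ) :
    h25_Xmap S f (h25_diag K S x) = h25_diag K' S (Units.map (f : K →* K') x) := by
  refine Prod.ext ?_ ?_
  · funext q
    apply Subtype.ext
    funext j'
    apply Units.ext
    rfl
  · show Multiplicative.ofAdd (h25_Dmap S f (h25_div K S x)) =
      Multiplicative.ofAdd (h25_div K' S (Units.map (f : K →* K') x))
    rw [h90_Dmap_div]

/-- ROW GLOB-FUNC: `h25_Cmap` is computed by `h25_Xmap` on representatives. -/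
theorem h90_Cmap_mk (f : K →+* K') (x : h25_X K S) :
    h25_Cmap S f (h25_mk K S x) = h25_mk K' S (h25_Xmap S f x) :=
  h25_Cmap_mk_of S f (h90_Xmap_diag S f) x

end Func

end

end Fermat.Agent.S55
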