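import Mathlib
import Fermat.Agent.S55.h25_GlobDefs
import Fermat.Agent.S55.h90_GlobFuncDiag

/-!
# S55 GLOB, row GLOB-FUNC: naturality of the diagonal, functoriality of `h25_Xmap`, `h25_Cmap`

Part 1 (`h90_GlobFuncDiag.lean`): `h90_Xmap_diag`, `h90_Cmap_mk`.

This file:
* `h90_Xmap_id`, `h90_Xmap_comp` : functoriality of `h25_Xmap`;
* `h90_Cmap_id`, `h90_Cmap_comp` : functoriality of `h25_Cmap`;
* `h90_Dmap_single`, `h90_Xmap_fst` : unfolding lemmas.
-/

set_option autoImplicit false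

open IsDedekindDomain NumberField
open scoped nonZeroDivisors

namespace Fermat.Agent.S55

noncomputable section

section Func

variable {K : Type*} [Field K] [NumberField K] {K' : Type*} [Field K'] [NumberField K']
variable {K'' : Type*} [Field K''] [NumberField K''] (S : Finset Nat.Primes)

/-- The extension of the divisor of a prime `v` is the divisor of `v 𝓞_{K'}`. -/
theorem h90_Dmap_single_eq (f : K →+* K') (v : h25_Pl K S) (n : ℤ) :
    h25_Dmap S f (Finsupp.single v n) =
      n • h25_divIdeal K' S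
        ((Ideal.map (RingOfIntegers.mapRingHom f) v.1.asIdeal : Ideal (𝓞 K')) :
          FractionalIdeal (𝓞 K')⁰ K') := by
  unfold h25_Dmap
  rw [Finsupp.liftAddHom_apply_single, zmultiplesHom_apply]

/-- ROW GLOB-FUNC: the divisor of a prime `v` not above `S`, extended to `K'`. -/
theorem h90_Dmap_single (f : K →+* K') (v : h25_Pl K S) (w : h25_Pl K' S) :
    h25_Dmap S f (Finsupp.single v 1) w =
      FractionalIdeal.count K' w.1
        ((Ideal.map (RingOfIntegers.mapRingHom f) v.1.asIdeal : Ideal (𝓞 K')) :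
          FractionalIdeal (𝓞 K')⁰ K') := by
  rw [h90_Dmap_single_eq, one_smul, h25_divIdeal_apply]

/-- ROW GLOB-FUNC: `J`-part of `h25_Xmap`. -/
theorem h90_Xmap_fst (f : K →+* K') (x : h25_X K S) (q : S) (j' : K' →+* PadicAlgCl ((q : Nat.Primes) : ℕ)) :
    (((h25_Xmap S f x).1 q : h25_Jq K' ((q : Nat.Primes) : ℕ)) :
        (K' →+* PadicAlgCl ((q : Nat.Primes) : ℕ)) → (PadicAlgCl ((q : Nat.Primes) : ℕ))ˣ) j' =
      ((x.1 q : h25_Jq K ((q : Nat.Primes) : ℕ)) :
        (K →+* PadicAlgCl ((q : Nat.Primes) : ℕ)) → (PadicAlgCl ((q : Nat.Primes) : ℕ))ˣ)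
        (j'.comp f) := rfl

/-- The divisor part of `h25_Xmap`. -/
theorem h90_Xmap_snd (f : K →+* K') (x : h25_X K S) :
    (h25_Xmap S f x).2 = Multiplicative.ofAdd (h25_Dmap S f (Multiplicative.toAdd x.2)) := rfl

theorem h90_mapRingHom_id : RingOfIntegers.mapRingHom (RingHom.id K) = RingHom.id (𝓞 K) := by
  ext a
  rfl

theorem h90_mapRingHom_comp (g : K' →+* K'') (f : K →+* K') :
    RingOfIntegers.mapRingHom (g.comp f) =
      (RingOfIntegers.mapRingHom g).comp (RingOfIntegers.mapRingHom f) := by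
  ext a
  rfl

/-- The divisor of a prime not above `S`. -/
theorem h90_divIdeal_prime (v : h25_Pl K S) :
    h25_divIdeal K S ((v.1.asIdeal : Ideal (𝓞 K)) : FractionalIdeal (𝓞 K)⁰ K) =
      Finsupp.single v 1 := by
  classical
  ext w
  rw [h25_divIdeal_apply, FractionalIdeal.count_maximal, Finsupp.single_apply]
  by_cases h : v = w
  · subst h
    simp
  · have h' : v.1 ≠ w.1 := fun h1 => h (Subtype.ext h1)
    rw [if_neg h', if_neg h]

theorem h90_Dmap_id : h25_Dmap S (RingHom.id K) = AddMonoidHom.id (h25_Div K S) := by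
  apply Finsupp.addHom_ext
  intro v n
  rw [h90_Dmap_single_eq, h90_mapRingHom_id, Ideal.map_id, h90_divIdeal_prime,
    AddMonoidHom.id_apply, Finsupp.smul_single, smul_eq_mul, mul_one]

theorem h90_Dmap_comp (g : K' →+* K'') (f : K →+* K') :
    h25_Dmap S (g.comp f) = (h25_Dmap S g).comp (h25_Dmap S f) := by
  apply Finsupp.addHom_ext
  intro v n
  rw [AddMonoidHom.comp_apply, h90_Dmap_single_eq, h90_Dmap_single_eq, map_zsmul,
    h90_Dmap_divIdeal S g (h90_map_ne_bot f v.1), h90_ext_coeIdeal, Ideal.map_map,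
    h90_mapRingHom_comp]

/-- ROW GLOB-FUNC: `h25_Xmap` of the identity. -/
theorem h90_Xmap_id (x : h25_X K S) : h25_Xmap S (RingHom.id K) x = x := by
  refine Prod.ext ?_ ?_
  · funext q
    apply Subtype.ext
    funext j
    rw [h90_Xmap_fst, RingHom.comp_id]
  · rw [h90_Xmap_snd, h90_Dmap_id]
    rfl

/-- ROW GLOB-FUNC: `h25_Xmap` of a composition. -/
theorem h90_Xmap_comp (g : K' →+* K'') (f : K →+* K') (x : h25_X K S) :
    h25_Xmap S (g.comp f) x = h25_Xmap S g (h25_Xmap S f x) := by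
  refine Prod.ext ?_ ?_
  · funext q
    apply Subtype.ext
    funext j
    rw [h90_Xmap_fst, h90_Xmap_fst, h90_Xmap_fst, RingHom.comp_assoc]
  · rw [h90_Xmap_snd, h90_Xmap_snd, h90_Xmap_snd, h90_Dmap_comp]
    rfl

/-- ROW GLOB-FUNC: `h25_Cmap` of the identity. -/
theorem h90_Cmap_id (c : h25_C K S) : h25_Cmap S (RingHom.id K) c = c := by
  obtain ⟨x, rfl⟩ := h25_mk_surjective K S c
  rw [h90_Cmap_mk, h90_Xmap_id]

/-- ROW GLOB-FUNC: `h25_Cmap` of a composition. -/
theorem h90_Cmap_comp (g : K' →+* K'') (f : K →+* K') (c : h25_C K S) :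
    h25_Cmap S (g.comp f) c = h25_Cmap S g (h25_Cmap S f c) := by
  obtain ⟨x, rfl⟩ := h25_mk_surjective K S c
  rw [h90_Cmap_mk, h90_Cmap_mk, h90_Cmap_mk, h90_Xmap_comp]

end Func

end

end Fermat.Agent.S55
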