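/-
S55 layer H, toolkit row H-LES2 (helper90): connecting map in degree `2 → 3`,
middle exactness in degree 2 and the two vanishing corollaries V2 / W2.

Everything is a one-step diagram chase on unbundled cochains.
-/
import Mathlib
import Fermat.Agent.S55.h72_AbsDefs
import Fermat.Agent.S55.h40_HDefs
import Fermat.Agent.S55.h40_InfRes

set_option autoImplicit false

open groupCohomology

namespace Fermat.Agent.S55

section D2

variable {G : Type*} [Group G] {A : Type*} [AddCommGroup A] [DistribMulAction G A]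

/-- The differential `d₂` of a 2-cochain (Mathlib's `d₂₃` convention). -/
def h90_d₂ (b : G × G → A) : G × G × G → A :=
  fun x => x.1 • b (x.2.1, x.2.2) - b (x.1 * x.2.1, x.2.2) + b (x.1, x.2.1 * x.2.2)
    - b (x.1, x.2.1)

lemma h90_d₂_apply (b : G × G → A) (g h j : G) :
    h90_d₂ b (g, h, j) = g • b (h, j) - b (g * h, j) + b (g, h * j) - b (g, h) := rfl

/-- `d₂` of any 2-cochain is a 3-cocycle. -/
lemma h90_isCocycle₃_d₂ (b : G × G → A) : h40_IsCocycle₃ (h90_d₂ b) := by
  intro g h j k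
  simp only [h90_d₂_apply, smul_sub, smul_add, mul_smul, mul_assoc]
  abel

lemma h90_isCocycle₂_iff (b : G × G → A) :
    IsCocycle₂ b ↔ ∀ g h j : G, h90_d₂ b (g, h, j) = 0 := by
  constructor
  · intro hb g h j
    have h1 := hb g h j
    have h2 : h90_d₂ b (g, h, j)
        = g • b (h, j) + b (g, h * j) - (b (g * h, j) + b (g, h)) := by
      rw [h90_d₂_apply]; abel
    rw [h2, h1, sub_self]
  · intro hb g h j
    have h1 := hb g h j
    have h2 : b (g * h, j) + b (g, h)
        = g • b (h, j) + b (g, h * j) - h90_d₂ b (g, h, j) := by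
      rw [h90_d₂_apply]; abel
    rw [h2, h1, sub_zero]

lemma h90_isCoboundary₃_iff (F : G × G × G → A) :
    h40_IsCoboundary₃ F ↔ ∃ f : G × G → A, ∀ g h j : G, h90_d₂ f (g, h, j) = F (g, h, j) :=
  Iff.rfl

lemma h90_d₂_d₁ (c : G → A) (g h j : G) : h90_d₂ (h40_d₁ c) (g, h, j) = 0 := by
  simp only [h90_d₂_apply, h40_d₁_apply, smul_sub, smul_add, mul_smul, mul_assoc]
  abel

lemma h90_d₂_sub (b b' : G × G → A) (g h j : G) :
    h90_d₂ (b - b') (g, h, j) = h90_d₂ b (g, h, j) - h90_d₂ b' (g, h, j) := by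
  simp only [h90_d₂_apply, Pi.sub_apply, smul_sub]
  abel

end D2

section LES2

variable {G : Type*} [Group G] {A B C : Type*} [AddCommGroup A] [AddCommGroup B] [AddCommGroup C]
  [DistribMulAction G A] [DistribMulAction G B] [DistribMulAction G C] (i : A →+ B) (q : B →+ C)

lemma h90_d₂_map {A' B' : Type*} [AddCommGroup A'] [AddCommGroup B'] [DistribMulAction G A']
    [DistribMulAction G B'] (φ : A' →+ B') (hφ : ∀ (g : G) (a : A'), φ (g • a) = g • φ a)
    (b : G × G → A') (g h j : G) :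
    φ (h90_d₂ b (g, h, j)) = h90_d₂ (fun x => φ (b x)) (g, h, j) := by
  simp only [h90_d₂_apply, map_sub, map_add, hφ]

lemma h90_d₁_map {A' B' : Type*} [AddCommGroup A'] [AddCommGroup B'] [DistribMulAction G A']
    [DistribMulAction G B'] (φ : A' →+ B') (hφ : ∀ (g : G) (a : A'), φ (g • a) = g • φ a)
    (c : G → A') (g h : G) :
    φ (h40_d₁ c (g, h)) = h40_d₁ (fun x => φ (c x)) (g, h) := by
  simp only [h40_d₁_apply, map_sub, map_add, hφ]

variable {i q}

/-- Existence of the connecting 3-cocycle of a 2-cocycle. -/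
theorem h90_conn₂_exists (h : h40_ShortExact G i q) (y : G × G → C) (hy : IsCocycle₂ y) :
    ∃ F : G × G × G → A, h40_IsCocycle₃ F ∧ h40_Conn₂ i q y F := by
  let b : G × G → B := fun x => Function.surjInv h.surj (y x)
  have hqb : ∀ x, q (b x) = y x := fun x => Function.surjInv_eq h.surj (y x)
  have hker : ∀ x : G × G × G, q (h90_d₂ b x) = 0 := by
    rintro ⟨g, k, j⟩
    rw [h90_d₂_map q h.q_smul]
    have : (fun x => q (b x)) = y := funext hqb
    rw [this]
    exact (h90_isCocycle₂_iff y).1 hy g k j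
  choose F hF using fun x => AddMonoidHom.mem_range.1 ((h.exact _).1 (hker x))
  refine ⟨F, ?_, b, hqb, fun g k j => ?_⟩
  · intro g k j l
    apply h.inj
    simp only [map_add, h.i_smul, hF]
    exact h90_isCocycle₃_d₂ b g k j l
  · rw [hF]; rfl

/-- The connecting 3-cocycle is unique up to coboundary. -/
theorem h90_conn₂_unique (h : h40_ShortExact G i q) (y : G × G → C) (F F' : G × G × G → A)
    (hF : h40_Conn₂ i q y F) (hF' : h40_Conn₂ i q y F') : h40_IsCoboundary₃ (F - F') := by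
  obtain ⟨b, hb, hbF⟩ := hF
  obtain ⟨b', hb', hbF'⟩ := hF'
  have hker : ∀ x : G × G, q (b x - b' x) = 0 := fun x => by
    rw [map_sub, hb, hb', sub_self]
  choose a ha using fun x => AddMonoidHom.mem_range.1 ((h.exact _).1 (hker x))
  refine ⟨a, fun g k j => ?_⟩
  apply h.inj
  have e1 : i (g • a (k, j) - a (g * k, j) + a (g, k * j) - a (g, k))
      = g • (b (k, j) - b' (k, j)) - (b (g * k, j) - b' (g * k, j))
        + (b (g, k * j) - b' (g, k * j)) - (b (g, k) - b' (g, k)) := by
    simp only [map_sub, map_add, h.i_smul, ha]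
  rw [e1, Pi.sub_apply, map_sub, hbF g k j, hbF' g k j, smul_sub]
  abel

/-- The connecting class of a coboundary is a coboundary. -/
theorem h90_conn₂_of_cob (h : h40_ShortExact G i q) (y : G × G → C) (hy : IsCoboundary₂ y)
    (F : G × G × G → A) (hF : h40_Conn₂ i q y F) : h40_IsCoboundary₃ F := by
  obtain ⟨x, hx⟩ := hy
  let xt : G → B := fun g => Function.surjInv h.surj (x g)
  have hxt : ∀ g, q (xt g) = x g := fun g => Function.surjInv_eq h.surj (x g)
  have h0 : h40_Conn₂ i q y (0 : G × G × G → A) := by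
    refine ⟨h40_d₁ xt, fun z => ?_, fun g k j => ?_⟩
    · obtain ⟨g, k⟩ := z
      rw [h90_d₁_map q h.q_smul]
      have : (fun g => q (xt g)) = x := funext hxt
      rw [this, h40_d₁_apply]
      exact hx g k
    · have := h90_d₂_d₁ xt g k j
      rw [h90_d₂_apply] at this
      rw [this]; simp
  have := h90_conn₂_unique h y F 0 hF h0
  rwa [sub_zero] at this

/-- The connecting class vanishes iff the 2-cocycle lifts to a 2-cocycle of `B`. -/
theorem h90_conn₂_cob_iff (h : h40_ShortExact G i q) (y : G × G → C) (F : G × G × G → A)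
    (hF : h40_Conn₂ i q y F) :
    h40_IsCoboundary₃ F ↔ ∃ b : G × G → B, IsCocycle₂ b ∧ ∀ x, q (b x) = y x := by
  constructor
  · rintro ⟨a, ha⟩
    obtain ⟨b, hb, hbF⟩ := hF
    have hqi : ∀ a' : A, q (i a') = 0 := fun a' => (h.exact _).2 ⟨a', rfl⟩
    refine ⟨b - fun x => i (a x), ?_, fun x => ?_⟩
    · rw [h90_isCocycle₂_iff]
      intro g k j
      rw [h90_d₂_sub, ← h90_d₂_map i h.i_smul, h90_d₂_apply a, ha g k j, h90_d₂_apply b,
        ← hbF g k j, sub_self]
    · rw [Pi.sub_apply, map_sub, hb, hqi, sub_zero]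
  · rintro ⟨b0, hb0, hqb0⟩
    have h0 : h40_Conn₂ i q y (0 : G × G × G → A) := by
      refine ⟨b0, hqb0, fun g k j => ?_⟩
      have := (h90_isCocycle₂_iff b0).1 hb0 g k j
      rw [h90_d₂_apply] at this
      rw [this]; simp
    have := h90_conn₂_unique h y F 0 hF h0
    rwa [sub_zero] at this

set_option linter.unusedVariables false in
/-- Exactness at `H³(A)`: a 3-cocycle of `A` that bounds in `B` is a connecting cocycle. -/
theorem h90_conn₂_surj (h : h40_ShortExact G i q) (F : G × G × G → A) (hF : h40_IsCocycle₃ F)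
    (hiF : h40_IsCoboundary₃ (fun x => i (F x))) :
    ∃ y : G × G → C, IsCocycle₂ y ∧ h40_Conn₂ i q y F := by
  obtain ⟨b, hb⟩ := hiF
  have hqi : ∀ a' : A, q (i a') = 0 := fun a' => (h.exact _).2 ⟨a', rfl⟩
  refine ⟨fun x => q (b x), ?_, b, fun x => rfl, fun g k j => (hb g k j).symm⟩
  rw [h90_isCocycle₂_iff]
  intro g k j
  rw [← h90_d₂_map q h.q_smul, h90_d₂_apply, hb g k j, hqi]

/-- Exactness at `H²(B)`. -/
theorem h90_les₂_mid (h : h40_ShortExact G i q) (b : G × G → B) (hb : IsCocycle₂ b)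
    (hqb : IsCoboundary₂ (fun x => q (b x))) :
    ∃ a : G × G → A, IsCocycle₂ a ∧ IsCoboundary₂ (b - fun x => i (a x)) := by
  obtain ⟨x, hx⟩ := hqb
  let xt : G → B := fun g => Function.surjInv h.surj (x g)
  have hxt : ∀ g, q (xt g) = x g := fun g => Function.surjInv_eq h.surj (x g)
  have hker : ∀ z : G × G, q (b z - h40_d₁ xt z) = 0 := by
    rintro ⟨g, k⟩
    rw [map_sub, h90_d₁_map q h.q_smul]
    have : (fun g => q (xt g)) = x := funext hxt
    rw [this, h40_d₁_apply, hx g k, sub_self]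
  choose a ha using fun z => AddMonoidHom.mem_range.1 ((h.exact _).1 (hker z))
  have hcoc : IsCocycle₂ (b - h40_d₁ xt) := h40_isCocycle₂_sub hb (h40_isCocycle₂_d₁ xt)
  refine ⟨a, ?_, ?_⟩
  · intro g k j
    apply h.inj
    simp only [map_add, h.i_smul, ha]
    exact hcoc g k j
  · have : (b - fun x => i (a x)) = h40_d₁ xt := by
      funext z
      rw [Pi.sub_apply, ha z]
      abel
    rw [this, h40_isCoboundary₂_iff]
    exact ⟨xt, rfl⟩

/-- V2: `H³(B) = 0` and `H²(C) = 0` imply `H³(A) = 0`. -/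
theorem h90_les_V2 (h : h40_ShortExact G i q)
    (hB : ∀ f : G × G × G → B, h40_IsCocycle₃ f → h40_IsCoboundary₃ f)
    (hC : ∀ f : G × G → C, IsCocycle₂ f → IsCoboundary₂ f) :
    ∀ f : G × G × G → A, h40_IsCocycle₃ f → h40_IsCoboundary₃ f := by
  intro f hf
  have hif : h40_IsCocycle₃ (fun x => i (f x)) := by
    intro g k j l
    have := congrArg i (hf g k j l)
    simpa only [map_add, h.i_smul] using this
  obtain ⟨y, hy, hyf⟩ := h90_conn₂_surj h f hf (hB _ hif)
  exact h90_conn₂_of_cob h y (hC y hy) f hyf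

/-- W2: `H²(B) = 0` and `H³(A) = 0` imply `H²(C) = 0`. -/
theorem h90_les_W2 (h : h40_ShortExact G i q)
    (hB : ∀ f : G × G → B, IsCocycle₂ f → IsCoboundary₂ f)
    (hA : ∀ f : G × G × G → A, h40_IsCocycle₃ f → h40_IsCoboundary₃ f) :
    ∀ f : G × G → C, IsCocycle₂ f → IsCoboundary₂ f := by
  intro f hf
  obtain ⟨F, hF, hfF⟩ := h90_conn₂_exists h f hf
  obtain ⟨b, hb, hqb⟩ := (h90_conn₂_cob_iff h f F hfF).1 (hA F hF)
  obtain ⟨c, hc⟩ := hB b hb
  refine ⟨fun g => q (c g), fun g k => ?_⟩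
  rw [← hqb (g, k), ← hc g k]
  simp only [map_sub, map_add, h.q_smul]

end LES2

end Fermat.Agent.S55
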