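import Mathlib

/-!
# S55, layer H: Shapiro's lemma in degrees 1 and 2 (injectivity on unbundled cocycle classes)

`D ≤ G`, `X` a `D`-module, `A` a `G`-module which is *coinduced* from `X` through an evaluation
map `ev : A →+ X` (`h91_IsCoind`): `ev` is `D`-equivariant and `a ↦ (g ↦ ev (g • a))` is a
bijection of `A` onto `{φ : G → X | φ (d * g) = d • φ g}`.

* `h91_shapiro₁_inj`: a 1-cocycle `z` of `G` in `A` such that `d ↦ ev (z d)` is a coboundary of
  `D` in `X` is a coboundary.   `h91_shapiro₂_inj`: the same for 2-cocycles.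
* `h91_shapiro₁_surj`, `h91_shapiro₂_surj`, `h91_shapiro₂_surj_eq`: every cocycle of `D` in `X`
  is the evaluation of a cocycle of `G` in `A`.
* `h91_coindFun`, `h91_isCoind_coindFun`: the standard model `{φ : G → X | φ (d * g) = d • φ g}`
  with `(σ • φ) g = φ (g * σ)` and `ev φ = φ 1`.
-/

set_option autoImplicit false

namespace Fermat.Agent.S55

open groupCohomology

section Shapiro

variable {G : Type*} [Group G] (D : Subgroup G)
  {A : Type*} [AddCommGroup A] [DistribMulAction G A]
  {X : Type*} [AddCommGroup X] [DistribMulAction D X]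

/-- The `G`-module `A` is coinduced from the `D`-module `X` through `ev : A →+ X`. -/
structure h91_IsCoind (ev : A →+ X) : Prop where
  equiv : ∀ (d : D) (a : A), ev ((d : G) • a) = d • ev a
  inj : ∀ a : A, (∀ g : G, ev (g • a) = 0) → a = 0
  surj : ∀ φ : G → X, (∀ (d : D) (g : G), φ ((d : G) * g) = d • φ g) →
    ∃ a : A, ∀ g : G, ev (g • a) = φ g

variable {D}

/-- Shapiro, degree 1: a 1-cocycle of `G` in a coinduced module whose evaluation restricted to
`D` is a coboundary is a coboundary. -/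
theorem h91_coind_shapiro₁_inj {ev : A →+ X} (hev : h91_IsCoind D ev) {z : G → A} (hz : IsCocycle₁ z)
    (h : IsCoboundary₁ (fun d : D => ev (z (d : G)))) : IsCoboundary₁ z := by
  obtain ⟨x₀, hx₀⟩ := h
  have hψ : ∀ (d : D) (g : G), ev (z ((d : G) * g)) = d • ev (z g) + ev (z (d : G)) := by
    intro d g
    rw [hz, map_add, hev.equiv]
  obtain ⟨a, ha⟩ := hev.surj (fun g => ev (z g) + x₀) (by
    intro d g
    have h1 := hx₀ d
    simp only at h1 ⊢
    rw [hψ, smul_add, ← h1]
    abel)
  refine ⟨a, fun h => ?_⟩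
  have key : (h • a - a) - z h = 0 := hev.inj _ (fun g => by
    have e : ev (g • z h) = ev (z (g * h)) - ev (z g) := by
      rw [hz, map_add]
      abel
    rw [smul_sub, smul_sub, map_sub, map_sub, smul_smul, ha, ha, e]
    abel)
  exact sub_eq_zero.mp key

/-- Shapiro, degree 2: a 2-cocycle of `G` in a coinduced module whose evaluation restricted to
`D` is a coboundary is a coboundary. -/
theorem h91_coind_shapiro₂_inj {ev : A →+ X} (hev : h91_IsCoind D ev) {z : G × G → A} (hz : IsCocycle₂ z)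
    (h : IsCoboundary₂ (fun x : D × D => ev (z ((x.1 : G), (x.2 : G))))) : IsCoboundary₂ z := by
  obtain ⟨x, hx⟩ := h
  -- `ψ g h = ev (z (g, h))`
  have E1 : ∀ g h j : G,
      ev (g • z (h, j)) = ev (z (g * h, j)) + ev (z (g, h)) - ev (z (g, h * j)) := by
    intro g h j
    have h1 := congrArg ev (hz g h j)
    rw [map_add, map_add] at h1
    rw [h1]
    abel
  have E2 : ∀ (d : D) (g h : G), d • ev (z (g, h))
      = ev (z ((d : G) * g, h)) + ev (z ((d : G), g)) - ev (z ((d : G), g * h)) := by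
    intro d g h
    rw [← E1]
    exact (hev.equiv d _).symm
  -- representatives of the right cosets `D g`
  let r : G → G := fun g => Quotient.out (Quotient.mk (QuotientGroup.rightRel D) g)
  have hr : ∀ g : G, g * (r g)⁻¹ ∈ D := by
    intro g
    have h1 : (QuotientGroup.rightRel D) (r g) g :=
      Quotient.exact (Quotient.out_eq (Quotient.mk (QuotientGroup.rightRel D) g))
    exact QuotientGroup.rightRel_apply.mp h1
  have hrd : ∀ (d : D) (g : G), r ((d : G) * g) = r g := by
    intro d g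
    have h1 : Quotient.mk (QuotientGroup.rightRel D) ((d : G) * g)
        = Quotient.mk (QuotientGroup.rightRel D) g := by
      apply Quotient.sound
      show (QuotientGroup.rightRel D) ((d : G) * g) g
      rw [QuotientGroup.rightRel_apply]
      have : g * ((d : G) * g)⁻¹ = ((d : G))⁻¹ := by group
      rw [this]
      exact D.inv_mem d.2
    show Quotient.out (Quotient.mk (QuotientGroup.rightRel D) ((d : G) * g))
      = Quotient.out (Quotient.mk (QuotientGroup.rightRel D) g)
    rw [h1]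
  let δ : G → D := fun g => ⟨g * (r g)⁻¹, hr g⟩
  have hδ : ∀ (d : D) (g : G), δ ((d : G) * g) = d * δ g := by
    intro d g
    apply Subtype.ext
    show (d : G) * g * (r ((d : G) * g))⁻¹ = (d : G) * (g * (r g)⁻¹)
    rw [hrd, mul_assoc]
  have hδr : ∀ g : G, (δ g : G) * r g = g := by
    intro g
    show g * (r g)⁻¹ * r g = g
    group
  obtain ⟨θ, T⟩ : ∃ θ : G → X, ∀ (d : D) (g : G),
      θ ((d : G) * g) = d • θ g + ev (z ((d : G), g)) - x d := by
    refine ⟨fun g => ev (z ((δ g : G), r g)) - x (δ g), ?_⟩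
    intro d g
    have h1 := E2 d (δ g : G) (r g)
    have h2 := hx d (δ g)
    rw [hδr] at h1
    simp only at h2
    show ev (z ((δ ((d : G) * g) : G), r ((d : G) * g))) - x (δ ((d : G) * g))
      = d • (ev (z ((δ g : G), r g)) - x (δ g)) + ev (z ((d : G), g)) - x d
    rw [hδ, hrd, smul_sub, h1]
    have h3 : ((d * δ g : D) : G) = (d : G) * (δ g : G) := rfl
    rw [h3, ← h2]
    abel
  have hφ : ∀ h : G, ∃ a : A, ∀ g : G, ev (g • a) = ev (z (g, h)) - θ (g * h) + θ g := by
    intro h
    refine hev.surj (fun g => ev (z (g, h)) - θ (g * h) + θ g) ?_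
    intro d g
    show ev (z ((d : G) * g, h)) - θ ((d : G) * g * h) + θ ((d : G) * g)
      = d • (ev (z (g, h)) - θ (g * h) + θ g)
    rw [mul_assoc, T, T, smul_add, smul_sub, E2 d g h]
    abel
  choose c hc using hφ
  refine ⟨c, fun g h => ?_⟩
  have key : (g • c h - c (g * h) + c g) - z (g, h) = 0 := hev.inj _ (fun t => by
    rw [smul_sub, smul_add, smul_sub, smul_smul, map_sub, map_add, map_sub, hc, hc, hc, E1]
    simp only [mul_assoc]
    abel)
  exact sub_eq_zero.mp key

/-- A `D`-equivariant retraction `ρ : G → D` with `ρ 1 = 1`. -/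
theorem h91_exists_retraction (D : Subgroup G) :
    ∃ ρ : G → D, (∀ (d : D) (g : G), ρ ((d : G) * g) = d * ρ g) ∧ ρ 1 = 1 := by
  let r : G → G := fun g => Quotient.out (Quotient.mk (QuotientGroup.rightRel D) g)
  have hr : ∀ g : G, g * (r g)⁻¹ ∈ D := by
    intro g
    have h1 : (QuotientGroup.rightRel D) (r g) g :=
      Quotient.exact (Quotient.out_eq (Quotient.mk (QuotientGroup.rightRel D) g))
    exact QuotientGroup.rightRel_apply.mp h1
  have hrd : ∀ (d : D) (g : G), r ((d : G) * g) = r g := by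
    intro d g
    have h1 : Quotient.mk (QuotientGroup.rightRel D) ((d : G) * g)
        = Quotient.mk (QuotientGroup.rightRel D) g := by
      apply Quotient.sound
      show (QuotientGroup.rightRel D) ((d : G) * g) g
      rw [QuotientGroup.rightRel_apply]
      have : g * ((d : G) * g)⁻¹ = ((d : G))⁻¹ := by group
      rw [this]
      exact D.inv_mem d.2
    show Quotient.out (Quotient.mk (QuotientGroup.rightRel D) ((d : G) * g))
      = Quotient.out (Quotient.mk (QuotientGroup.rightRel D) g)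
    rw [h1]
  let δ : G → D := fun g => ⟨g * (r g)⁻¹, hr g⟩
  have hδ : ∀ (d : D) (g : G), δ ((d : G) * g) = d * δ g := by
    intro d g
    apply Subtype.ext
    show (d : G) * g * (r ((d : G) * g))⁻¹ = (d : G) * (g * (r g)⁻¹)
    rw [hrd, mul_assoc]
  refine ⟨fun g => δ g * (δ 1)⁻¹, ?_, ?_⟩
  · intro d g
    show δ ((d : G) * g) * (δ 1)⁻¹ = d * (δ g * (δ 1)⁻¹)
    rw [hδ, mul_assoc]
  · show δ 1 * (δ 1)⁻¹ = 1
    exact mul_inv_cancel _

/-- Shapiro, degree 1, surjectivity: every 1-cocycle of `D` in `X` is the evaluation of a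
1-cocycle of `G` in the coinduced module. -/
theorem h91_coind_shapiro₁_surj {ev : A →+ X} (hev : h91_IsCoind D ev) {y : D → X}
    (hy : IsCocycle₁ y) : ∃ z : G → A, IsCocycle₁ z ∧ ∀ d : D, ev (z (d : G)) = y d := by
  obtain ⟨ρ, hρ, hρ1⟩ := h91_exists_retraction D
  have hφ : ∀ g : G, ∃ a : A, ∀ t : G, ev (t • a) = ρ t • y ((ρ t)⁻¹ * ρ (t * g)) := by
    intro g
    refine hev.surj (fun t => ρ t • y ((ρ t)⁻¹ * ρ (t * g))) ?_
    intro d t
    show ρ ((d : G) * t) • y ((ρ ((d : G) * t))⁻¹ * ρ ((d : G) * t * g))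
      = d • ρ t • y ((ρ t)⁻¹ * ρ (t * g))
    rw [mul_assoc, hρ, hρ, smul_smul]
    congr 2
    group
  choose z hz using hφ
  refine ⟨z, ?_, ?_⟩
  · intro g h
    have key : z (g * h) - (g • z h + z g) = 0 := hev.inj _ (fun t => by
      rw [smul_sub, smul_add, smul_smul, map_sub, map_add, hz, hz, hz]
      have h1 := hy ((ρ t)⁻¹ * ρ (t * g)) ((ρ (t * g))⁻¹ * ρ (t * g * h))
      have h2 : (ρ t)⁻¹ * ρ (t * g) * ((ρ (t * g))⁻¹ * ρ (t * g * h))
          = (ρ t)⁻¹ * ρ (t * (g * h)) := by
        rw [← mul_assoc t g h]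
        group
      rw [h2] at h1
      rw [h1, smul_add, smul_smul, mul_inv_cancel_left, mul_assoc t g h]
      abel)
    exact sub_eq_zero.mp key
  · intro d
    have h1 := hz (d : G) 1
    rw [one_smul, one_mul, hρ1, one_smul, inv_one, one_mul] at h1
    rw [h1]
    have h2 := hρ d 1
    rw [mul_one, hρ1, mul_one] at h2
    rw [h2]

/-- Shapiro, degree 2, surjectivity: every 2-cocycle of `D` in `X` is the evaluation of a
2-cocycle of `G` in the coinduced module. -/
theorem h91_coind_shapiro₂_surj {ev : A →+ X} (hev : h91_IsCoind D ev) {y : D × D → X}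
    (hy : IsCocycle₂ y) :
    ∃ z : G × G → A, IsCocycle₂ z ∧ ∀ d e : D, ev (z ((d : G), (e : G))) = y (d, e) := by
  obtain ⟨ρ, hρ, hρ1⟩ := h91_exists_retraction D
  have hφ : ∀ gh : G × G, ∃ a : A, ∀ t : G, ev (t • a)
      = ρ t • y ((ρ t)⁻¹ * ρ (t * gh.1), (ρ (t * gh.1))⁻¹ * ρ (t * gh.1 * gh.2)) := by
    intro gh
    refine hev.surj (fun t =>
      ρ t • y ((ρ t)⁻¹ * ρ (t * gh.1), (ρ (t * gh.1))⁻¹ * ρ (t * gh.1 * gh.2))) ?_
    intro d t
    show ρ ((d : G) * t) • y ((ρ ((d : G) * t))⁻¹ * ρ ((d : G) * t * gh.1),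
        (ρ ((d : G) * t * gh.1))⁻¹ * ρ ((d : G) * t * gh.1 * gh.2))
      = d • ρ t • y ((ρ t)⁻¹ * ρ (t * gh.1), (ρ (t * gh.1))⁻¹ * ρ (t * gh.1 * gh.2))
    have e1 : (d : G) * t * gh.1 = (d : G) * (t * gh.1) := mul_assoc _ _ _
    have e2 : (d : G) * t * gh.1 * gh.2 = (d : G) * (t * gh.1 * gh.2) := by
      rw [mul_assoc, mul_assoc, mul_assoc]
    rw [e2, e1, hρ, hρ, hρ, smul_smul]
    congr 3 <;> group
  choose z hz using hφ
  refine ⟨z, ?_, ?_⟩
  · intro g h j
    have key : z (g * h, j) + z (g, h) - (g • z (h, j) + z (g, h * j)) = 0 :=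
      hev.inj _ (fun t => by
        rw [smul_sub, smul_add, smul_add, smul_smul, map_sub, map_add, map_add, hz, hz, hz, hz]
        show ρ t • y ((ρ t)⁻¹ * ρ (t * (g * h)), (ρ (t * (g * h)))⁻¹ * ρ (t * (g * h) * j))
            + ρ t • y ((ρ t)⁻¹ * ρ (t * g), (ρ (t * g))⁻¹ * ρ (t * g * h))
            - (ρ (t * g) • y ((ρ (t * g))⁻¹ * ρ (t * g * h),
                (ρ (t * g * h))⁻¹ * ρ (t * g * h * j))
              + ρ t • y ((ρ t)⁻¹ * ρ (t * g), (ρ (t * g))⁻¹ * ρ (t * g * (h * j)))) = 0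
        have h1 := hy ((ρ t)⁻¹ * ρ (t * g)) ((ρ (t * g))⁻¹ * ρ (t * g * h))
          ((ρ (t * g * h))⁻¹ * ρ (t * g * h * j))
        have h2 : (ρ t)⁻¹ * ρ (t * g) * ((ρ (t * g))⁻¹ * ρ (t * g * h))
            = (ρ t)⁻¹ * ρ (t * g * h) := by group
        have h3 : (ρ (t * g))⁻¹ * ρ (t * g * h) * ((ρ (t * g * h))⁻¹ * ρ (t * g * h * j))
            = (ρ (t * g))⁻¹ * ρ (t * g * h * j) := by group
        rw [h2, h3] at h1
        have h4 := congrArg (fun v => ρ t • v) h1
        simp only [smul_add, smul_smul, mul_inv_cancel_left] at h4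
        have e1 : t * (g * h) = t * g * h := (mul_assoc _ _ _).symm
        have e2 : t * g * (h * j) = t * g * h * j := (mul_assoc _ _ _).symm
        rw [e1, e2, h4]
        abel)
    exact sub_eq_zero.mp key
  · intro d e
    have h1 := hz ((d : G), (e : G)) 1
    simp only [one_smul, one_mul, hρ1, inv_one] at h1
    rw [h1]
    have h2 := hρ d 1
    rw [mul_one, hρ1, mul_one] at h2
    have h3 := hρ (d * e) 1
    rw [mul_one, hρ1, mul_one] at h3
    have h4 : ((d * e : D) : G) = (d : G) * (e : G) := rfl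
    rw [h4] at h3
    rw [h2, h3, inv_mul_cancel_left]

/-! ### The statements in the `hev` / `hbij` form of the task row H-SHAP -/

section RowForm

variable (D)
variable (ev : A →+ X)
  (hev : ∀ (d : D) (y : A), ev ((d : G) • y) = d • ev y)
  (hbij : ∀ φ : G → X, (∀ (d : D) (g : G), φ ((d : G) * g) = d • φ g) →
    ∃! y : A, ∀ g : G, ev (g • y) = φ g)

include hev hbij

theorem h91_isCoind_of_bij : h91_IsCoind D ev where
  equiv := hev
  inj a h := by
    obtain ⟨y, _, huniq⟩ := hbij (fun _ => 0) (by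
      intro d g
      simp)
    rw [huniq a h, huniq 0 (by
      intro g
      simp)]
  surj φ hφ := (hbij φ hφ).exists

theorem h91_shapiro₁_inj (z : G → A) (hz : IsCocycle₁ z)
    (h : IsCoboundary₁ (fun d : D => ev (z (d : G)))) : IsCoboundary₁ z :=
  h91_coind_shapiro₁_inj (h91_isCoind_of_bij D ev hev hbij) hz h

theorem h91_shapiro₁_surj (u : D → X) (hu : IsCocycle₁ u) :
    ∃ z : G → A, IsCocycle₁ z ∧ ∀ d : D, ev (z (d : G)) = u d :=
  h91_coind_shapiro₁_surj (h91_isCoind_of_bij D ev hev hbij) hu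

theorem h91_shapiro₂_inj (z : G × G → A) (hz : IsCocycle₂ z)
    (h : IsCoboundary₂ (fun x : D × D => ev (z ((x.1 : G), (x.2 : G))))) : IsCoboundary₂ z :=
  h91_coind_shapiro₂_inj (h91_isCoind_of_bij D ev hev hbij) hz h

theorem h91_shapiro₂_surj_eq (u : D × D → X) (hu : IsCocycle₂ u) :
    ∃ z : G × G → A, IsCocycle₂ z ∧ ∀ x : D × D, ev (z ((x.1 : G), (x.2 : G))) = u x := by
  obtain ⟨z, hz, h⟩ := h91_coind_shapiro₂_surj (h91_isCoind_of_bij D ev hev hbij) hu
  exact ⟨z, hz, fun x => h x.1 x.2⟩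

theorem h91_shapiro₂_surj (u : D × D → X) (hu : IsCocycle₂ u) :
    ∃ z : G × G → A, IsCocycle₂ z ∧
      IsCoboundary₂ (fun x : D × D => ev (z ((x.1 : G), (x.2 : G))) - u x) := by
  obtain ⟨z, hz, h⟩ := h91_shapiro₂_surj_eq D ev hev hbij u hu
  refine ⟨z, hz, fun _ => 0, fun g k => ?_⟩
  have := h (g, k)
  simp only at this ⊢
  rw [this]
  simp

end RowForm

/-! ### The standard model -/

/-- The coinduced module `{φ : G → X | φ (d * g) = d • φ g}`. -/
def h91_coindFun (D : Subgroup G) (X : Type*) [AddCommGroup X] [DistribMulAction D X] :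
    AddSubgroup (G → X) where
  carrier := {φ | ∀ (d : D) (g : G), φ ((d : G) * g) = d • φ g}
  zero_mem' := by
    intro d g
    simp
  add_mem' := by
    intro a b ha hb d g
    simp only [Pi.add_apply]
    rw [ha d g, hb d g, smul_add]
  neg_mem' := by
    intro a ha d g
    simp only [Pi.neg_apply]
    rw [ha d g, smul_neg]

instance h91_coindFun_smul (D : Subgroup G) (X : Type*) [AddCommGroup X] [DistribMulAction D X] :
    SMul G (h91_coindFun D X) where
  smul σ φ := ⟨fun g => φ.1 (g * σ), fun d g => by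
    show φ.1 ((d : G) * g * σ) = d • φ.1 (g * σ)
    rw [mul_assoc]
    exact φ.2 d (g * σ)⟩

theorem h91_coindFun_smul_apply (D : Subgroup G) (X : Type*) [AddCommGroup X]
    [DistribMulAction D X] (σ : G) (φ : h91_coindFun D X) (g : G) :
    (σ • φ).1 g = φ.1 (g * σ) := rfl

instance h91_coindFun_distribMulAction (D : Subgroup G) (X : Type*) [AddCommGroup X]
    [DistribMulAction D X] : DistribMulAction G (h91_coindFun D X) where
  one_smul φ := by
    apply Subtype.ext
    funext g
    rw [h91_coindFun_smul_apply, mul_one]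
  mul_smul σ τ φ := by
    apply Subtype.ext
    funext g
    rw [h91_coindFun_smul_apply, h91_coindFun_smul_apply, h91_coindFun_smul_apply, mul_assoc]
  smul_zero σ := by
    apply Subtype.ext
    funext g
    rfl
  smul_add σ φ ψ := by
    apply Subtype.ext
    funext g
    rfl

/-- Evaluation at `1` on the standard coinduced module. -/
def h91_evFun (D : Subgroup G) (X : Type*) [AddCommGroup X] [DistribMulAction D X] :
    h91_coindFun D X →+ X where
  toFun φ := φ.1 1
  map_zero' := rfl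
  map_add' _ _ := rfl

theorem h91_evFun_smul (D : Subgroup G) (X : Type*) [AddCommGroup X] [DistribMulAction D X]
    (g : G) (φ : h91_coindFun D X) : h91_evFun D X (g • φ) = φ.1 g := by
  show (g • φ).1 1 = φ.1 g
  rw [h91_coindFun_smul_apply, one_mul]

theorem h91_isCoind_coindFun (D : Subgroup G) (X : Type*) [AddCommGroup X]
    [DistribMulAction D X] : h91_IsCoind D (h91_evFun D X) where
  equiv d φ := by
    rw [h91_evFun_smul]
    have := φ.2 d 1
    rw [mul_one] at this
    exact this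
  inj φ h := by
    apply Subtype.ext
    funext g
    have := h g
    rw [h91_evFun_smul] at this
    exact this
  surj φ hφ := ⟨⟨φ, hφ⟩, fun g => h91_evFun_smul D X g ⟨φ, hφ⟩⟩

end Shapiro

end Fermat.Agent.S55
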