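import Mathlib
import Fermat.Agent.S55.h92_GlobFirst
import Fermat.Agent.S55.h28_GlobY

set_option autoImplicit false

/-!
# S55, GLOB-1ST-ASM (row 271): the first inequality for the `S`-class module, unconditional

`h92_glob_first_ineq` : for `L/K` cyclic of odd prime degree `p` with generator `σ` and `S ≠ ∅`, the
Herbrand indices `a = [ker (σ-1) : im N_σ]`, `b = [ker N_σ : im (σ-1)]` of `C_L = h25_C L S` are
finite and `a = p * b`.  (`h92_glob_first_ineq_of` + helper28's `h28_YT_hq`.)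
-/

namespace Fermat.Agent.S55

open IsDedekindDomain NumberField

noncomputable section

section

variable (L : Type*) [Field L] [NumberField L] (S : Finset Nat.Primes)

omit [NumberField L] in
theorem h92_YT_eq_h28 (T : Set (HeightOneSpectrum (𝓞 L))) : h92_YT L S T = h28_YT L S T :=
  Subgroup.ext fun _ => Iff.rfl

end

section

variable (K : Type*) [Field K] [NumberField K] (L : Type*) [Field L] [NumberField L] [Algebra K L]
variable (S : Finset Nat.Primes)

/-- **ROW GLOB-1ST-ASM (first inequality)**: `[ker (σ-1) : im N_σ] = p * [ker N_σ : im (σ-1)]`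
on `C_L = h25_C L S`, both indices finite, for `L/K` cyclic of odd prime degree `p` with
generator `σ` and `S ≠ ∅`.  (No ramification hypothesis.) -/
theorem h92_glob_first_ineq (p : ℕ) (hp : p.Prime) (hp2 : p ≠ 2) [IsGalois K L]
    (hdeg : Module.finrank K L = p) (hS : S.Nonempty) (σ : L ≃ₐ[K] L) (hσ : σ ≠ 1) :
    ((h25_Nm S σ p).range).relIndex (h25_Dm S σ).ker ≠ 0 ∧
    ((h25_Dm S σ).range).relIndex (h25_Nm S σ p).ker ≠ 0 ∧
    ((h25_Nm S σ p).range).relIndex (h25_Dm S σ).ker =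
      p * ((h25_Dm S σ).range).relIndex (h25_Nm S σ p).ker := by
  have hσp : σ ^ p = 1 := by
    have hcard : Nat.card (L ≃ₐ[K] L) = p := by rw [IsGalois.card_aut_eq_finrank, hdeg]
    rw [← hcard]
    exact pow_card_eq_one'
  refine h92_glob_first_ineq_of S hS hp hp2 hdeg σ hσ ?_
  intro T hT hTσ hST
  have h := h28_YT_hq L S hp σ hσp hσ T hT hTσ
  rw [h92_YT_eq_h28]
  have hset : {w : HeightOneSpectrum (𝓞 L) | (h25_above L S w ∨ w ∈ T) ∧ h92_galPrime σ w = w}
      = {w | w ∈ T ∧ h92_galPrime σ w = w} := by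
    ext w
    constructor
    · rintro ⟨h1 | h1, h2⟩
      · exact ⟨hST w h1, h2⟩
      · exact ⟨h1, h2⟩
    · rintro ⟨h1, h2⟩
      exact ⟨Or.inr h1, h2⟩
  rw [hset] at h
  exact h

/-- The class field axiom on `C_L` from the first inequality and the bound `a ≤ p` (second
inequality + descent): `[ker (σ-1) : im N_σ] = p` and `ker N_σ ≤ im (σ-1)`. -/
theorem h92_glob_cfa_of_second (p : ℕ) (hp : p.Prime) (hp2 : p ≠ 2) [IsGalois K L]
    (hdeg : Module.finrank K L = p) (hS : S.Nonempty) (σ : L ≃ₐ[K] L) (hσ : σ ≠ 1)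
    (h2 : ((h25_Nm S σ p).range).relIndex (h25_Dm S σ).ker ≤ p) :
    ((h25_Nm S σ p).range).relIndex (h25_Dm S σ).ker = p ∧
      (h25_Nm S σ p).ker ≤ (h25_Dm S σ).range := by
  obtain ⟨-, hb, h1⟩ := h92_glob_first_ineq K L S p hp hp2 hdeg hS σ hσ
  obtain ⟨ha, hb1⟩ := h92_cfa_of_ineq hb h1 h2 hp.ne_zero
  exact ⟨ha, Subgroup.relIndex_eq_one.mp hb1⟩

end

end

end Fermat.Agent.S55
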