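import Mathlib
import Fermat.Agent.S55.h92_HerbrandMul
import Fermat.Agent.S55.h92_FirstIneq

set_option autoImplicit false

/-!
# Herbrand indices of finite internal direct products

* `h92_hq_bot` : the Herbrand index of the trivial subgroup is `1`;
* `h92_hq_biSup` : multiplicativity of `h92_hq` over a finite independent family of stable
  subgroups;
* `h92_hq_top_map` : the Herbrand index of the image of an injective equivariant homomorphism
  (`h92_hq_map` for the full group).
-/

namespace Fermat.Agent.S55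

section

variable {E : Type*} [CommGroup E]

theorem h92_hq_bot (f g : E →* E) : h92_hq f g ⊥ = 1 := by
  rw [h92_hq_def, bot_inf_eq, Subgroup.relIndex_bot_right]

/-- A supremum of `f`-stable subgroups is `f`-stable. -/
theorem h92_biSup_stable {ι : Type*} (f : E →* E) (A : ι → Subgroup E)
    (hf : ∀ i, ∀ x ∈ A i, f x ∈ A i) (s : Finset ι) :
    ∀ x ∈ ⨆ i ∈ s, A i, f x ∈ ⨆ i ∈ s, A i := by
  intro x hx
  have h1 : (⨆ i ∈ s, A i).map f ≤ ⨆ i ∈ s, A i := by
    rw [Subgroup.map_iSup]
    refine iSup_mono fun i => ?_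
    rw [Subgroup.map_iSup]
    refine iSup_mono fun _ => ?_
    rintro _ ⟨y, hy, rfl⟩
    exact hf i y hy
  exact h1 ⟨x, hx, rfl⟩

/-- **Multiplicativity of the Herbrand index over a finite independent family** of subgroups
stable under `f` and `g`. -/
theorem h92_hq_biSup {ι : Type*} (f g : E →* E) (hfg : ∀ x, f (g x) = 1) (A : ι → Subgroup E)
    (hf : ∀ i, ∀ x ∈ A i, f x ∈ A i) (hg : ∀ i, ∀ x ∈ A i, g x ∈ A i) (s : Finset ι)
    (hind : ∀ i ∈ s, ∀ t : Finset ι, t ⊆ s → i ∉ t → A i ⊓ ⨆ j ∈ t, A j = ⊥) :
    h92_hq f g (⨆ i ∈ s, A i) = ∏ i ∈ s, h92_hq f g (A i) := by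
  classical
  induction s using Finset.induction_on with
  | empty => simp [h92_hq_bot]
  | insert a s ha ih =>
    rw [Finset.iSup_insert, Finset.prod_insert ha]
    rw [h92_hq_sup f g (hind a (Finset.mem_insert_self a s) s (Finset.subset_insert a s) ha)
      (hf a) (hg a) (h92_biSup_stable f A hf s) (h92_biSup_stable g A hg s) hfg]
    rw [ih fun i hi t ht hit =>
      hind i (Finset.mem_insert_of_mem hi) t (ht.trans (Finset.subset_insert a s)) hit]

end

section

variable {A E : Type*} [CommGroup A] [CommGroup E]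

/-- The Herbrand index of the image of an injective equivariant homomorphism. -/
theorem h92_hq_range' (ι : A →* E) (hι : Function.Injective ι) (fA gA : A →* A) (f g : E →* E)
    (hf : ∀ u, ι (fA u) = f (ι u)) (hg : ∀ u, ι (gA u) = g (ι u)) :
    h92_hq f g ι.range = h92_hq fA gA ⊤ := by
  rw [← h92_hq_map ι hι fA gA f g hf hg ⊤, ← MonoidHom.range_eq_map]

end

end Fermat.Agent.S55
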