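import Mathlib
import Fermat.Agent.S55.h92_HerbrandMul
import Fermat.Agent.S55.h92_FirstIneq
import Fermat.Agent.S55.h92_HqProd

set_option autoImplicit false

/-!
# Herbrand indices of permutation lattices

`E` a commutative group with an automorphism `σ` of prime order `p`, `M ≤ E` a `σ`-stable
subgroup which is "free on a basis `e i` (`i : I`) with coordinates `ν i`" and on which `σ`
permutes the basis through `π : I → I`.  For a finite `π`-stable `T ⊆ I` the sublattice
`h92_supp M ν T = {x ∈ M | ν i x = 1 for i ∉ T}` has Herbrand indices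
`[ker D : im N] = p ^ #{i ∈ T | π i = i}` and `[ker N : im D] = 1` (`h92_permLattice_index`).
-/

namespace Fermat.Agent.S55

open Finset

section Exact

variable {E : Type*} [CommGroup E] {J : Type*} [Fintype J] [DecidableEq J]

/-- Exact version of `h92_step_finIndex` for `h = 1`: `U' = U × ⟨a_j⟩`. -/
theorem h92_step_exact (U U' : Subgroup E) (ν : J → E →* Multiplicative ℤ) (a : J → E)
    (haU' : ∀ j, a j ∈ U')
    (hν : ∀ j k, ν k (a j) = if j = k then Multiplicative.ofAdd (1 : ℤ) else 1)
    (hU : ∀ x, x ∈ U ↔ x ∈ U' ∧ ∀ j, ν j x = 1) :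
    U ⊔ (h92_zpowHom a).range = U' := by
  apply le_antisymm
  · refine sup_le (fun x hx => ((hU x).mp hx).1) ?_
    rintro _ ⟨e, rfl⟩
    exact U'.prod_mem fun j _ => U'.zpow_mem (haU' j) _
  · intro x hxU'
    set c : J → ℤ := fun j => Multiplicative.toAdd (ν j x) with hc
    have hψ : (∏ j, a j ^ c j) ∈ U' := U'.prod_mem fun j _ => U'.zpow_mem (haU' j) _
    have hy : x / (∏ j, a j ^ c j) ∈ U := by
      rw [hU]
      refine ⟨U'.div_mem hxU' hψ, fun k => ?_⟩
      apply Multiplicative.toAdd.injective
      rw [map_div, toAdd_div, h92_val_prod ν a 1 hν c k, toAdd_one, hc, mul_one, sub_self]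
    have hx : x = x / (∏ j, a j ^ c j) * (∏ j, a j ^ c j) := by simp
    rw [hx]
    exact Subgroup.mul_mem_sup hy ((h92_mem_range_zpowHom a _).mpr ⟨c, rfl⟩)

variable {G : Type*} [Group G] [MulDistribMulAction G E]

omit [DecidableEq J] in
/-- `⟨a_j⟩` is `σ`-stable when `σ` maps each `a_j` into it. -/
theorem h92_range_zpowHom_smul (σ : G) (a : J → E)
    (h : ∀ j, σ • a j ∈ (h92_zpowHom a).range) :
    ∀ x ∈ (h92_zpowHom a).range, σ • x ∈ (h92_zpowHom a).range := by
  rintro x hx
  obtain ⟨e, rfl⟩ := (h92_mem_range_zpowHom _ x).mp hx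
  rw [Finset.smul_prod']
  refine Subgroup.prod_mem _ fun j _ => ?_
  rw [smul_zpow']
  exact Subgroup.zpow_mem _ (h j) _

/-- Exact multiplicativity step for Herbrand indices. -/
theorem h92_hq_step_exact (σ : G) (p : ℕ) (hσ : σ ^ p = 1) (U U' : Subgroup E)
    (hUσ : ∀ x ∈ U, σ • x ∈ U) (ν : J → E →* Multiplicative ℤ) (a : J → E)
    (haU' : ∀ j, a j ∈ U')
    (hν : ∀ j k, ν k (a j) = if j = k then Multiplicative.ofAdd (1 : ℤ) else 1)
    (hU : ∀ x, x ∈ U ↔ x ∈ U' ∧ ∀ j, ν j x = 1)
    (hVσ : ∀ j, σ • a j ∈ (h92_zpowHom a).range) :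
    h92_hq (h92_mD σ) (h92_mN σ p) U'
      = h92_hq (h92_mD σ) (h92_mN σ p) U * h92_hq (h92_mD σ) (h92_mN σ p) (h92_zpowHom a).range ∧
    h92_hq (h92_mN σ p) (h92_mD σ) U'
      = h92_hq (h92_mN σ p) (h92_mD σ) U
        * h92_hq (h92_mN σ p) (h92_mD σ) (h92_zpowHom a).range := by
  have hsup := h92_step_exact U U' ν a haU' hν hU
  have hinf := h92_step_inf U U' ν a 1 one_ne_zero hν hU
  have hV := h92_range_zpowHom_smul σ a hVσ
  rw [← hsup]
  exact ⟨h92_hq_sup _ _ hinf (fun x hx => h92_mD_mem hUσ hx) (fun x hx => h92_mN_mem p hUσ hx)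
      (fun x hx => h92_mD_mem hV hx) (fun x hx => h92_mN_mem p hV hx) (h92_mD_mN hσ),
    h92_hq_sup _ _ hinf (fun x hx => h92_mN_mem p hUσ hx) (fun x hx => h92_mD_mem hUσ hx)
      (fun x hx => h92_mN_mem p hV hx) (fun x hx => h92_mD_mem hV hx) (h92_mN_mD hσ)⟩

end Exact

section Iterate

variable {I : Type*}

theorem h92_iterate_mod {π : I → I} {p : ℕ} (hπp : ∀ i, π^[p] i = i) (n : ℕ) (w : I) :
    π^[n] w = π^[n % p] w := by
  have h1 : ∀ m : ℕ, ∀ i, π^[p * m] i = i := by
    intro m
    induction m with
    | zero => intro i; simp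
    | succ m ih => intro i; rw [Nat.mul_succ, Function.iterate_add_apply, hπp, ih]
  conv_lhs => rw [← Nat.mod_add_div n p, Function.iterate_add_apply, h1]

theorem h92_injective_of_iterate {π : I → I} {p : ℕ} (hp : 0 < p) (hπp : ∀ i, π^[p] i = i) :
    Function.Injective π := by
  intro a b hab
  have key : ∀ x, π^[p - 1] (π x) = x := by
    intro x
    rw [← Function.iterate_succ_apply, Nat.succ_eq_add_one, Nat.sub_add_cancel hp, hπp]
  rw [← key a, ← key b, hab]

/-- if `π w ≠ w` and `π` has prime order `p` then `π^d w = w` forces `p ∣ d`. -/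
theorem h92_dvd_of_iterate_eq {π : I → I} {p : ℕ} (hp : p.Prime) (hπp : ∀ i, π^[p] i = i)
    (w : I) (hw : π w ≠ w) (d : ℕ) (hd : π^[d] w = w) : p ∣ d := by
  by_contra hnd
  have hcop : Nat.Coprime d p := ((Nat.Prime.coprime_iff_not_dvd hp).mpr hnd).symm
  obtain ⟨m, -, hm⟩ := Nat.exists_mul_mod_eq_one_of_coprime hcop hp.one_lt
  have h2 : π^[d * m] w = w := by
    rw [Function.iterate_mul]
    exact Function.iterate_fixed hd m
  rw [h92_iterate_mod hπp (d * m) w, hm] at h2
  exact hw h2

end Iterate

section PermLattice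

variable {G : Type*} [Group G] {E : Type*} [CommGroup E] [MulDistribMulAction G E]
variable {I : Type*}

/-- `{x ∈ M | ν i x = 1 for all i ∉ T}`. -/
def h92_supp (M : Subgroup E) (ν : I → E →* Multiplicative ℤ) (T : Set I) : Subgroup E where
  carrier := {x | x ∈ M ∧ ∀ i, i ∉ T → ν i x = 1}
  mul_mem' := by
    rintro a b ⟨ha, ha'⟩ ⟨hb, hb'⟩
    exact ⟨M.mul_mem ha hb, fun i hi => by rw [map_mul, ha' i hi, hb' i hi, one_mul]⟩
  one_mem' := ⟨M.one_mem, fun i _ => map_one _⟩
  inv_mem' := by
    rintro a ⟨ha, ha'⟩
    exact ⟨M.inv_mem ha, fun i hi => by rw [map_inv, ha' i hi, inv_one]⟩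

theorem h92_mem_supp (M : Subgroup E) (ν : I → E →* Multiplicative ℤ) (T : Set I) (x : E) :
    x ∈ h92_supp M ν T ↔ x ∈ M ∧ ∀ i, i ∉ T → ν i x = 1 := Iff.rfl

/-- `σ`-stability of the sublattice supported on a `π`-stable set. -/
theorem h92_supp_smul {p : ℕ} (hp : 0 < p) (σ : G) (M : Subgroup E)
    (hMσ : ∀ x ∈ M, σ • x ∈ M) (π : I → I) (hπp : ∀ i, π^[p] i = i)
    (ν : I → E →* Multiplicative ℤ) (hσν : ∀ i, ∀ x ∈ M, ν (π i) (σ • x) = ν i x)
    (T : Set I) (hT : ∀ i ∈ T, π i ∈ T) :
    ∀ x ∈ h92_supp M ν T, σ • x ∈ h92_supp M ν T := by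
  rintro x ⟨hxM, hx⟩
  refine ⟨hMσ x hxM, fun k hk => ?_⟩
  have hk' : π (π^[p - 1] k) = k := by
    rw [← Function.iterate_succ_apply' π (p - 1) k, Nat.succ_eq_add_one, Nat.sub_add_cancel hp,
      hπp]
  rw [← hk', hσν _ x hxM]
  apply hx
  intro h
  apply hk
  rw [← hk']
  exact hT _ h

variable [DecidableEq I]

/-- **Herbrand indices of a permutation lattice**: `a = p ^ #fixed points`, `b = 1`. -/
theorem h92_permLattice_index {p : ℕ} (hp : p.Prime) (σ : G) (hσ : σ ^ p = 1)
    (M : Subgroup E) (hMσ : ∀ x ∈ M, σ • x ∈ M)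
    (π : I → I) (hπp : ∀ i, π^[p] i = i)
    (ν : I → E →* Multiplicative ℤ) (e : I → E) (heM : ∀ i, e i ∈ M)
    (hν : ∀ i k, ν k (e i) = if i = k then Multiplicative.ofAdd (1 : ℤ) else 1)
    (hσe : ∀ i, σ • e i = e (π i))
    (hσν : ∀ i, ∀ x ∈ M, ν (π i) (σ • x) = ν i x)
    (hbot : ∀ x ∈ M, (∀ i, ν i x = 1) → x = 1)
    (T : Finset I) (hT : ∀ i ∈ T, π i ∈ T) :
    h92_hq (h92_mD σ) (h92_mN σ p) (h92_supp M ν (T : Set I))
        = p ^ (T.filter fun i => π i = i).card ∧
      h92_hq (h92_mN σ p) (h92_mD σ) (h92_supp M ν (T : Set I)) = 1 := by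
  classical
  have hp0 : NeZero p := ⟨hp.ne_zero⟩
  have hπinj : Function.Injective π := h92_injective_of_iterate hp.pos hπp
  induction T using Finset.strongInduction with
  | H T ih =>
    rcases T.eq_empty_or_nonempty with rfl | ⟨w, hwT⟩
    · have hbot' : h92_supp M ν ((∅ : Finset I) : Set I) = ⊥ := by
        rw [eq_bot_iff]
        rintro x ⟨hxM, hx⟩
        exact Subgroup.mem_bot.mpr (hbot x hxM fun i => hx i (by simp))
      rw [hbot', h92_hq_bot, h92_hq_bot]
      simp
    · by_cases hw : π w = w
      · -- a fixed point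
        have hT'σ : ∀ v ∈ T.erase w, π v ∈ T.erase w := by
          intro v hv
          rw [Finset.mem_erase] at hv ⊢
          exact ⟨fun h' => hv.1 (hπinj (h'.trans hw.symm)), hT v hv.2⟩
        obtain ⟨i0, i1⟩ := ih (T.erase w) (Finset.erase_ssubset hwT) hT'σ
        set a : Unit → E := fun _ => e w with ha
        set ν' : Unit → E →* Multiplicative ℤ := fun _ => ν w with hν'_def
        have hν' : ∀ j k : Unit, ν' k (a j) = if j = k then Multiplicative.ofAdd (1 : ℤ) else 1 := by
          intro j k
          have h1 : ν' k (a j) = Multiplicative.ofAdd (1 : ℤ) := by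
            show ν w (e w) = _
            rw [hν, if_pos rfl]
          rw [h1, if_pos (Subsingleton.elim j k)]
        have haU' : ∀ j, a j ∈ h92_supp M ν (T : Set I) := by
          intro j
          refine ⟨heM w, fun i hi => ?_⟩
          rw [hν, if_neg]
          rintro rfl
          exact hi (by simpa using hwT)
        have hU : ∀ x, x ∈ h92_supp M ν ((T.erase w : Finset I) : Set I)
            ↔ x ∈ h92_supp M ν (T : Set I) ∧ ∀ j, ν' j x = 1 := by
          intro x
          constructor
          · rintro ⟨hxM, hx⟩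
            refine ⟨⟨hxM, fun i hi => hx i (fun h' => hi ?_)⟩, fun _ => hx w (by simp)⟩
            exact Finset.mem_of_mem_erase h'
          · rintro ⟨⟨hxM, hx⟩, hx'⟩
            refine ⟨hxM, fun i hi => ?_⟩
            by_cases hiw : i = w
            · rw [hiw]; exact hx' ()
            · exact hx i (fun h' => hi (Finset.mem_coe.mpr
                (Finset.mem_erase.mpr ⟨hiw, Finset.mem_coe.mp h'⟩)))
        have hVσ : ∀ j, σ • a j ∈ (h92_zpowHom a).range := by
          intro j
          have h1 : σ • a j = a j := by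
            show σ • e w = e w
            rw [hσe, hw]
          rw [h1]
          exact h92_mem_range_zpowHom_self a j
        obtain ⟨s0, s1⟩ := h92_hq_step_exact σ p hσ _ _
          (h92_supp_smul hp.pos σ M hMσ π hπp ν hσν _ (fun i hi => hT'σ i hi)) ν' a haU' hν' hU hVσ
        have hinj := h92_zpowHom_injective ν' a 1 one_ne_zero hν'
        obtain ⟨c0, c1⟩ := h92_hq_fixed σ p a hinj (fun j => by simp only [ha]; rw [hσe, hw])
        have hcard : (T.filter fun i => π i = i).card
            = ((T.erase w).filter fun i => π i = i).card + 1 := by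
          conv_lhs => rw [← Finset.insert_erase hwT]
          rw [Finset.filter_insert, if_pos hw, Finset.card_insert_of_notMem]
          simp
        rw [s0, s1, i0, i1, c0, c1, hcard, pow_succ]
        exact ⟨rfl, rfl⟩
      · -- a free orbit
        set W : ℕ → I := fun k => π^[k] w with hW
        have hWmod : ∀ n : ℕ, W n = W (n % p) := fun n => h92_iterate_mod hπp n w
        have hσW : ∀ k, π (W k) = W (k + 1) := by
          intro k
          simp only [hW]
          rw [Function.iterate_succ_apply']
        have hWT : ∀ k, W k ∈ T := by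
          intro k
          induction k with
          | zero => simpa [hW] using hwT
          | succ k ihk => rw [← hσW]; exact hT _ ihk
        have hWinj : ∀ i j : ZMod p, W i.val = W j.val → i = j := by
          intro i j hij
          have hj : j.val ≤ p := (ZMod.val_lt j).le
          have h2 : π^[i.val + (p - j.val)] w = w := by
            rw [add_comm, Function.iterate_add_apply]
            change π^[p - j.val] (W i.val) = w
            rw [hij]
            change π^[p - j.val] (π^[j.val] w) = w
            rw [← Function.iterate_add_apply, Nat.sub_add_cancel hj, hπp]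
          have h3 := h92_dvd_of_iterate_eq hp hπp w hw _ h2
          have hi := ZMod.val_lt i
          have hj' := ZMod.val_lt j
          have h4 : i.val + (p - j.val) = p :=
            Nat.eq_of_dvd_of_lt_two_mul (by omega) h3 (by omega)
          apply ZMod.val_injective p
          omega
        set O : Finset I := (Finset.range p).image W with hO
        have hWO : ∀ k, W k ∈ O := by
          intro k
          rw [hO, Finset.mem_image]
          exact ⟨k % p, Finset.mem_range.mpr (Nat.mod_lt _ hp.pos), (hWmod k).symm⟩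
        have hOT : O ⊆ T := by
          intro v hv
          rw [hO, Finset.mem_image] at hv
          obtain ⟨k, -, rfl⟩ := hv
          exact hWT k
        have hOW : ∀ v ∈ O, ∃ k, v = W k := by
          intro v hv
          rw [hO, Finset.mem_image] at hv
          obtain ⟨k, -, rfl⟩ := hv
          exact ⟨k, rfl⟩
        have hT'σ : ∀ v ∈ T \ O, π v ∈ T \ O := by
          intro v hv
          rw [Finset.mem_sdiff] at hv ⊢
          refine ⟨hT v hv.1, fun h' => hv.2 ?_⟩
          obtain ⟨k, hk⟩ := hOW _ h'
          have h5 : π v = π (W (k + (p - 1))) := by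
            rw [hk, hσW, hWmod (k + (p - 1) + 1)]
            have : k + (p - 1) + 1 = k + p := by have := hp.pos; omega
            rw [this, Nat.add_mod_right, ← hWmod]
          rw [hπinj h5]
          exact hWO _
        have hss : T \ O ⊂ T := Finset.sdiff_ssubset hOT ⟨W 0, hWO 0⟩
        obtain ⟨i0, i1⟩ := ih (T \ O) hss hT'σ
        set a : ZMod p → E := fun j => e (W j.val) with ha
        set ν' : ZMod p → E →* Multiplicative ℤ := fun j => ν (W j.val) with hν'_def
        have hν' : ∀ j k : ZMod p,
            ν' k (a j) = if j = k then Multiplicative.ofAdd (1 : ℤ) else 1 := by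
          intro j k
          simp only [ha, hν'_def]
          rw [hν]
          by_cases hjk : j = k
          · rw [if_pos hjk, if_pos (by rw [hjk])]
          · rw [if_neg hjk, if_neg (fun h' => hjk (hWinj j k h'))]
        have haU' : ∀ j, a j ∈ h92_supp M ν (T : Set I) := by
          intro j
          refine ⟨heM _, fun i hi => ?_⟩
          rw [hν, if_neg]
          rintro rfl
          exact hi (by simpa using hWT _)
        have hU : ∀ x, x ∈ h92_supp M ν ((T \ O : Finset I) : Set I)
            ↔ x ∈ h92_supp M ν (T : Set I) ∧ ∀ j, ν' j x = 1 := by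
          intro x
          constructor
          · rintro ⟨hxM, hx⟩
            refine ⟨⟨hxM, fun i hi => hx i (fun h' => hi ?_)⟩, fun j => hx _ ?_⟩
            · exact (Finset.mem_sdiff.mp (by simpa using h')).1
            · intro h'
              exact (Finset.mem_sdiff.mp (by simpa using h')).2 (hWO _)
          · rintro ⟨⟨hxM, hx⟩, hx'⟩
            refine ⟨hxM, fun i hi => ?_⟩
            by_cases hiO : i ∈ O
            · obtain ⟨k, rfl⟩ := hOW i hiO
              have := hx' (k : ZMod p)
              simp only [hν'_def] at this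
              rwa [ZMod.val_natCast, ← hWmod] at this
            · exact hx i (fun h' => hi (by simpa using ⟨h', hiO⟩))
        have hshift : ∀ j : ZMod p, σ • a j = a (j + 1) := by
          intro j
          simp only [ha]
          rw [hσe, hσW, hWmod (j.val + 1), ZMod.val_add, ZMod.val_one_eq_one_mod, Nat.add_mod_mod]
        have hVσ : ∀ j, σ • a j ∈ (h92_zpowHom a).range := by
          intro j
          rw [hshift]
          exact h92_mem_range_zpowHom_self a _
        obtain ⟨s0, s1⟩ := h92_hq_step_exact σ p hσ _ _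
          (h92_supp_smul hp.pos σ M hMσ π hπp ν hσν _ (fun i hi => hT'σ i hi)) ν' a haU' hν' hU hVσ
        have hinj := h92_zpowHom_injective ν' a 1 one_ne_zero hν'
        obtain ⟨c0, c1⟩ := h92_hq_split σ p hσ a hinj hshift
        have hfilter : (T.filter fun i => π i = i) = ((T \ O).filter fun i => π i = i) := by
          ext v
          simp only [Finset.mem_filter, Finset.mem_sdiff]
          constructor
          · rintro ⟨hv, hfix⟩
            refine ⟨⟨hv, fun hvO => ?_⟩, hfix⟩
            obtain ⟨k, rfl⟩ := hOW v hvO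
            apply hw
            simp only [hW] at hfix
            rw [← Function.iterate_succ_apply' π, Function.iterate_succ_apply] at hfix
            exact (Function.Injective.iterate hπinj k) hfix
          · rintro ⟨⟨hv, -⟩, hfix⟩
            exact ⟨hv, hfix⟩
        rw [s0, s1, i0, i1, c0, c1, hfilter]
        exact ⟨by rw [mul_one], rfl⟩

end PermLattice

end Fermat.Agent.S55
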