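import Mathlib
import Fermat.Agent.S55.h12_Cup

set_option autoImplicit false

/-!
# Relative split norms (model-independent)

* `h92_exists_relNorm_eq_of_split` : `Γ` (a local Galois group) and `G` (a global Galois group)
  act on a set `X` (embeddings) by commuting actions, `A` a `Γ`-module, `H ≤ G` a subgroup (not
  necessarily normal) containing all "decomposition elements" (`γ • x = g • x ⟹ g ∈ H`).  Then every
  `Γ`-equivariant `G`-invariant `ψ : X → A` is a relative norm from the `H`-invariants: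
  `ψ x = ∏ᶠ c : G ⧸ H, φ (c.out⁻¹ • x)` with `φ` `Γ`-equivariant and `H`-invariant.
  (Relative version of helper33's `h33_exists_norm_eq_of_split`, which is the case `H = ⊥`.)
* `h92_isRelNorm_map` : `h12_IsRelNorm` is preserved by equivariant additive maps.
-/

namespace Fermat.Agent.S55

section SplitNorm

variable {Γ G X A : Type*} [Group Γ] [Group G] [MulAction Γ X] [MulAction G X]
  [SMulCommClass Γ G X] [CommGroup A] [MulDistribMulAction Γ A]

/-- **Relative norms are surjective when the decomposition groups lie in `H`.** -/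
theorem h92_exists_relNorm_eq_of_split (H : Subgroup G)
    (hsplit : ∀ (x : X) (γ : Γ) (g : G), γ • x = g • x → g ∈ H)
    (ψ : X → A) (hψΓ : ∀ (γ : Γ) (x : X), ψ (γ • x) = γ • ψ x)
    (hψG : ∀ (g : G) (x : X), ψ (g • x) = ψ x) :
    ∃ φ : X → A, (∀ (γ : Γ) (x : X), φ (γ • x) = γ • φ x) ∧
      (∀ h ∈ H, ∀ x : X, φ (h • x) = φ x) ∧
      ∀ x : X, ∏ᶠ c : G ⧸ H, φ ((Quotient.out c : G)⁻¹ • x) = ψ x := by
  classical
  have : SMulCommClass G Γ X := SMulCommClass.symm Γ G X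
  -- the orbit relation of `Γ × G`
  let r : Setoid X :=
    { r := fun x y => ∃ (γ : Γ) (g : G), γ • g • x = y
      iseqv :=
        { refl := fun x => ⟨1, 1, by simp⟩
          symm := by
            rintro x y ⟨γ, g, rfl⟩
            refine ⟨γ⁻¹, g⁻¹, ?_⟩
            rw [smul_comm γ g x, inv_smul_smul, inv_smul_smul]
          trans := by
            rintro x y z ⟨γ, g, rfl⟩ ⟨γ', g', rfl⟩
            refine ⟨γ' * γ, g' * g, ?_⟩
            rw [mul_smul, mul_smul, smul_comm g' γ (g • x)] } }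
  let rep : X → X := fun x => Quotient.out (Quotient.mk r x)
  have hrep : ∀ x, ∃ (γ : Γ) (g : G), γ • g • rep x = x := fun x =>
    Quotient.exact (Quotient.out_eq (Quotient.mk r x))
  have hrepΓ : ∀ (γ : Γ) (x : X), rep (γ • x) = rep x := by
    intro γ x
    have : Quotient.mk r (γ • x) = Quotient.mk r x :=
      Quotient.sound ⟨γ⁻¹, 1, by rw [one_smul, inv_smul_smul]⟩
    show Quotient.out (Quotient.mk r (γ • x)) = Quotient.out (Quotient.mk r x)
    rw [this]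
  have hrepG : ∀ (g : G) (x : X), rep (g • x) = rep x := by
    intro g x
    have : Quotient.mk r (g • x) = Quotient.mk r x :=
      Quotient.sound ⟨1, g⁻¹, by rw [one_smul, inv_smul_smul]⟩
    show Quotient.out (Quotient.mk r (g • x)) = Quotient.out (Quotient.mk r x)
    rw [this]
  -- `T` = the `Γ × H`-orbits of the representatives
  let T : Set X := {x | ∃ (γ : Γ) (h : G), h ∈ H ∧ x = γ • h • rep x}
  have hTΓ : ∀ (γ : Γ) (x : X), x ∈ T → γ • x ∈ T := by
    rintro γ x ⟨γ₀, h, hh, hx⟩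
    refine ⟨γ * γ₀, h, hh, ?_⟩
    rw [hrepΓ, mul_smul, ← hx]
  have hTΓ' : ∀ (γ : Γ) (x : X), γ • x ∈ T ↔ x ∈ T := by
    intro γ x
    refine ⟨fun h => ?_, hTΓ γ x⟩
    have := hTΓ γ⁻¹ _ h
    rwa [inv_smul_smul] at this
  have hTH : ∀ h ∈ H, ∀ x : X, x ∈ T → h • x ∈ T := by
    rintro h hh x ⟨γ₀, h₀, hh₀, hx⟩
    refine ⟨γ₀, h * h₀, H.mul_mem hh hh₀, ?_⟩
    rw [hrepG, mul_smul, smul_comm γ₀ h, ← hx]
  have hTH' : ∀ h ∈ H, ∀ x : X, h • x ∈ T ↔ x ∈ T := by
    intro h hh x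
    refine ⟨fun hx => ?_, hTH h hh x⟩
    have := hTH h⁻¹ (H.inv_mem hh) _ hx
    rwa [inv_smul_smul] at this
  refine ⟨fun x => if x ∈ T then ψ x else 1, ?_, ?_, ?_⟩
  · intro γ x
    by_cases hx : x ∈ T
    · have : γ • x ∈ T := hTΓ γ x hx
      simp only [this, hx, if_true, hψΓ]
    · have : γ • x ∉ T := fun h => hx ((hTΓ' γ x).1 h)
      simp only [this, hx, if_false, smul_one]
  · intro h hh x
    by_cases hx : x ∈ T
    · have : h • x ∈ T := hTH h hh x hx
      simp only [this, hx, if_true, hψG]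
    · have : h • x ∉ T := fun h' => hx ((hTH' h hh x).1 h')
      simp only [this, hx, if_false]
  · intro x
    obtain ⟨γ, g, hγg⟩ := hrep x
    -- the coset of `g` is the unique one meeting `T`
    obtain ⟨h₀, hh₀⟩ := QuotientGroup.mk_out_eq_mul H g
    have hmem : ((Quotient.out (g : G ⧸ H) : G))⁻¹ • x ∈ T := by
      refine ⟨γ, (h₀ : G)⁻¹, H.inv_mem h₀.2, ?_⟩
      rw [hrepG, hh₀, mul_inv_rev, mul_smul]
      conv_lhs => rw [← hγg]
      rw [smul_comm γ g, inv_smul_smul, smul_comm]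
    rw [finprod_eq_single _ (g : G ⧸ H)]
    · simp only [hmem, if_true, hψG]
    · intro c hc
      have hnot : (Quotient.out c : G)⁻¹ • x ∉ T := by
        rintro ⟨γ₂, h₂, hh₂, hx₂⟩
        obtain ⟨γ₁, h₁, hh₁, hx₁⟩ := hmem
        rw [hrepG] at hx₁ hx₂
        apply hc
        obtain ⟨y, hy⟩ : ∃ y, y = rep x := ⟨_, rfl⟩
        rw [← hy] at hx₁ hx₂
        set g₁ : G := Quotient.out (g : G ⧸ H) with hg₁
        set g₂ : G := Quotient.out c with hg₂
        -- x = γ₁ • (g₁ h₁) • y = γ₂ • (g₂ h₂) • y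
        have e₁ : x = γ₁ • (g₁ * h₁) • y :=
          calc x = g₁ • g₁⁻¹ • x := (smul_inv_smul g₁ x).symm
            _ = g₁ • γ₁ • h₁ • y := by rw [hx₁]
            _ = γ₁ • (g₁ * h₁) • y := by rw [smul_comm g₁ γ₁, mul_smul]
        have e₂ : x = γ₂ • (g₂ * h₂) • y :=
          calc x = g₂ • g₂⁻¹ • x := (smul_inv_smul g₂ x).symm
            _ = g₂ • γ₂ • h₂ • y := by rw [hx₂]
            _ = γ₂ • (g₂ * h₂) • y := by rw [smul_comm g₂ γ₂, mul_smul]
        have e₃ : (γ₂⁻¹ * γ₁) • y = ((g₁ * h₁)⁻¹ * (g₂ * h₂)) • y :=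
          calc (γ₂⁻¹ * γ₁) • y
              = (g₁ * h₁)⁻¹ • (g₁ * h₁) • (γ₂⁻¹ * γ₁) • y := (inv_smul_smul _ _).symm
            _ = (g₁ * h₁)⁻¹ • (γ₂⁻¹ * γ₁) • (g₁ * h₁) • y := by
              rw [smul_comm (g₁ * h₁) (γ₂⁻¹ * γ₁) y]
            _ = (g₁ * h₁)⁻¹ • γ₂⁻¹ • (γ₁ • (g₁ * h₁) • y) := by rw [mul_smul]
            _ = (g₁ * h₁)⁻¹ • γ₂⁻¹ • (γ₂ • (g₂ * h₂) • y) := by rw [← e₁, ← e₂]
            _ = (g₁ * h₁)⁻¹ • (g₂ * h₂) • y := by rw [inv_smul_smul]
            _ = ((g₁ * h₁)⁻¹ * (g₂ * h₂)) • y := (mul_smul _ _ _).symm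
        have e₄ : (g₁ * h₁)⁻¹ * (g₂ * h₂) ∈ H := hsplit _ _ _ e₃
        -- hence g₂⁻¹ g₁ ∈ H
        have e₅ : g₂⁻¹ * g₁ ∈ H := by
          have a1 : h₁ * ((g₁ * h₁)⁻¹ * (g₂ * h₂)) * h₂⁻¹ ∈ H :=
            H.mul_mem (H.mul_mem hh₁ e₄) (H.inv_mem hh₂)
          have a2 : (h₁ * ((g₁ * h₁)⁻¹ * (g₂ * h₂)) * h₂⁻¹)⁻¹ = g₂⁻¹ * g₁ := by group
          rw [← a2]
          exact H.inv_mem a1
        have e₆ : (g₂ : G ⧸ H) = (g₁ : G ⧸ H) := QuotientGroup.eq.mpr e₅
        rw [hg₁, hg₂, QuotientGroup.out_eq', QuotientGroup.out_eq'] at e₆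
        exact e₆
      simp only [hnot, if_false]

end SplitNorm

section RelNormMap

variable {G : Type*} [Group G] {C D : Type*} [AddCommGroup C] [AddCommGroup D]
  [DistribMulAction G C] [DistribMulAction G D]

/-- Relative norms are preserved by equivariant additive maps. -/
theorem h92_isRelNorm_map (H : Subgroup G) [Finite (G ⧸ H)] (f : C →+ D)
    (hf : ∀ (g : G) (c : C), f (g • c) = g • f c) (c : C) (hc : h12_IsRelNorm H c) :
    h12_IsRelNorm H (f c) := by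
  obtain ⟨c', hc', rfl⟩ := hc
  refine ⟨f c', fun h hh => by rw [← hf, hc' h hh], ?_⟩
  unfold h12_relNorm
  rw [AddMonoidHom.map_finsum f (Set.toFinite _)]
  exact finsum_congr fun q => hf _ _

end RelNormMap

end Fermat.Agent.S55
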