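import Mathlib
import Fermat.Agent.S55.h92_SplitNormAbs
import Fermat.Agent.S55.h25_GlobDefs
import Fermat.Agent.S55.h66_GlobFunc2
import Fermat.Agent.S55.h90_GlobCAct
import Fermat.Agent.S55.h2_PLoc
import Fermat.Agent.S55.h33_GlobKumDefs

set_option autoImplicit false

/-!
# S55 GLOB-UNORM (R1-F): split norms in the `G`-language

`L' ⊆ E` number fields (types), `G = E ≃ₐ[L'] E`, `H ≤ G` any subgroup containing the
decomposition elements of the places above `S`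
(`hdec : τ ∘ j = j ∘ g ⟹ g ∈ H` for `j : E →+* PadicAlgCl q`, `q ∈ S`).  Then the `J`-part of
`C_{L'}` consists of relative norms from the `H`-invariants of `C_E`:

* `h92_splitNorm_Jq`, `h92_splitNorm_J` : embedding level;
* `h92_splitNorm_C` : `h12_IsRelNorm H (ofMul (ext [(φ, 1)]))` in `Additive (h25_C E S)`;
* `h92_splitNorm_PL` : the same in `h2_PL p (Additive (h25_C E S))`;
* `h92_dec_of_kummer` : `hdec` for the stabiliser of a `p`-th root `α` of `x ∈ L'ˣ` whose image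
  in `J_{L'}` is a `p`-th power (`x ∈ V_split`), when `ζ_p ∈ L'`;
* `h92_splitNormG` : (R1-F) for any subgroup `H` containing the stabiliser of `α`
  (e.g. `H = ker χ_x` for the Kummer character `χ_x` of `x`).
-/

open IsDedekindDomain NumberField

namespace Fermat.Agent.S55

noncomputable section

section Emb

variable {L' E : Type*} [Field L'] [NumberField L'] [Field E] [NumberField E] [Algebra L' E]

omit [NumberField L'] [NumberField E] in
/-- **Split norms, embedding level at one prime `q`.** -/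
theorem h92_splitNorm_Jq (q : ℕ) [Fact q.Prime] (H : Subgroup (E ≃ₐ[L'] E))
    (hdec : ∀ (j : E →+* PadicAlgCl q) (τ : PadicAlgCl q ≃ₐ[ℚ_[q]] PadicAlgCl q)
      (g : E ≃ₐ[L'] E),
      (τ : PadicAlgCl q →+* PadicAlgCl q).comp j = j.comp (g : E →+* E) → g ∈ H)
    (φ : h25_Jq L' q) :
    ∃ ψ : h25_Jq E q,
      (∀ h ∈ H, ∀ j : E →+* PadicAlgCl q, ψ.1 (j.comp ((h : E ≃ₐ[L'] E) : E →+* E)) = ψ.1 j) ∧
      ∀ j : E →+* PadicAlgCl q,
        ∏ᶠ c : (E ≃ₐ[L'] E) ⧸ H,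
          ψ.1 (j.comp ((Quotient.out c : E ≃ₐ[L'] E) : E →+* E))
          = φ.1 (j.comp (algebraMap L' E)) := by
  let actΓ : MulAction (PadicAlgCl q ≃ₐ[ℚ_[q]] PadicAlgCl q) (E →+* PadicAlgCl q) :=
    { smul := fun τ j => (τ : PadicAlgCl q →+* PadicAlgCl q).comp j
      one_smul := fun j => by ext x; rfl
      mul_smul := fun τ τ' j => by ext x; rfl }
  let actG : MulAction (E ≃ₐ[L'] E) (E →+* PadicAlgCl q) :=
    { smul := fun g j => j.comp ((g⁻¹ : E ≃ₐ[L'] E) : E →+* E)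
      one_smul := fun j => by ext x; rfl
      mul_smul := fun g g' j => by
        ext x
        show j ((g * g')⁻¹ x) = j (g'⁻¹ (g⁻¹ x))
        rw [mul_inv_rev]
        rfl }
  have : SMulCommClass (PadicAlgCl q ≃ₐ[ℚ_[q]] PadicAlgCl q) (E ≃ₐ[L'] E)
      (E →+* PadicAlgCl q) := ⟨fun τ g j => by ext x; rfl⟩
  have hΓ : ∀ (τ : PadicAlgCl q ≃ₐ[ℚ_[q]] PadicAlgCl q) (j : E →+* PadicAlgCl q),
      τ • j = (τ : PadicAlgCl q →+* PadicAlgCl q).comp j := fun _ _ => rfl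
  have hG : ∀ (g : E ≃ₐ[L'] E) (j : E →+* PadicAlgCl q),
      g • j = j.comp ((g⁻¹ : E ≃ₐ[L'] E) : E →+* E) := fun _ _ => rfl
  obtain ⟨ψ, hψ1, hψ2, hψ3⟩ := h92_exists_relNorm_eq_of_split
    (Γ := PadicAlgCl q ≃ₐ[ℚ_[q]] PadicAlgCl q) (G := E ≃ₐ[L'] E)
    (X := E →+* PadicAlgCl q) (A := (PadicAlgCl q)ˣ) H
    (fun j τ g hh => by
      have := hdec j τ g⁻¹ (by rw [← hΓ, hh, hG])
      exact (H.inv_mem_iff).mp this)
    (fun j => φ.1 (j.comp (algebraMap L' E)))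
    (fun τ j => by
      rw [hΓ, RingHom.comp_assoc]
      exact Units.ext (φ.2 τ _))
    (fun g j => by
      rw [hG]
      have hcomp : (j.comp ((g⁻¹ : E ≃ₐ[L'] E) : E →+* E)).comp (algebraMap L' E)
          = j.comp (algebraMap L' E) := by
        ext x
        show j ((g⁻¹ : E ≃ₐ[L'] E) (algebraMap L' E x)) = j (algebraMap L' E x)
        rw [AlgEquiv.commutes]
      rw [hcomp])
  refine ⟨⟨ψ, fun τ j => ?_⟩, fun h hh j => ?_, fun j => ?_⟩
  · have := hψ1 τ j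
    rw [hΓ] at this
    rw [this]
    rfl
  · have := hψ2 h⁻¹ (H.inv_mem hh) j
    rw [hG, inv_inv] at this
    exact this
  · rw [← hψ3 j]
    refine finprod_congr fun c => ?_
    rw [hG, inv_inv]

end Emb

section Glob

variable {L' E : Type*} [Field L'] [NumberField L'] [Field E] [NumberField E] [Algebra L' E]
variable (S : Finset Nat.Primes)

omit [NumberField L'] [NumberField E] in
/-- **Split norms, `J`-level**: `ext φ = ∏ᶠ c : G ⧸ H, c.out • ψ` with `ψ` `H`-invariant. -/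
theorem h92_splitNorm_J (H : Subgroup (E ≃ₐ[L'] E))
    (hdec : ∀ (q : S) (j : E →+* PadicAlgCl ((q : Nat.Primes) : ℕ))
      (τ : PadicAlgCl ((q : Nat.Primes) : ℕ) ≃ₐ[ℚ_[((q : Nat.Primes) : ℕ)]]
        PadicAlgCl ((q : Nat.Primes) : ℕ)) (g : E ≃ₐ[L'] E),
      (τ : PadicAlgCl ((q : Nat.Primes) : ℕ) →+* PadicAlgCl ((q : Nat.Primes) : ℕ)).comp j
        = j.comp (g : E →+* E) → g ∈ H)
    (φ : h25_J L' S) :
    ∃ ψ : h25_J E S,
      (∀ h ∈ H, h25_Jmap S ((h : E ≃ₐ[L'] E) : E →+* E) ψ = ψ) ∧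
      ∀ (q : S) (j : E →+* PadicAlgCl ((q : Nat.Primes) : ℕ)),
        ∏ᶠ c : (E ≃ₐ[L'] E) ⧸ H,
          (ψ q).1 (j.comp ((Quotient.out c : E ≃ₐ[L'] E) : E →+* E))
          = (φ q).1 (j.comp (algebraMap L' E)) := by
  choose ψ hψ1 hψ2 using fun q : S =>
    h92_splitNorm_Jq ((q : Nat.Primes) : ℕ) H (hdec q) (φ q)
  refine ⟨ψ, fun h hh => ?_, hψ2⟩
  funext q
  apply Subtype.ext
  funext j
  exact hψ1 q h hh j

variable [Finite (E ≃ₐ[L'] E)]

/-- **Split norms, `C`-level** (additive form of `h25_C E S`, Galois action `h90_CAct`). -/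
theorem h92_splitNorm_C (H : Subgroup (E ≃ₐ[L'] E))
    (hdec : ∀ (q : S) (j : E →+* PadicAlgCl ((q : Nat.Primes) : ℕ))
      (τ : PadicAlgCl ((q : Nat.Primes) : ℕ) ≃ₐ[ℚ_[((q : Nat.Primes) : ℕ)]]
        PadicAlgCl ((q : Nat.Primes) : ℕ)) (g : E ≃ₐ[L'] E),
      (τ : PadicAlgCl ((q : Nat.Primes) : ℕ) →+* PadicAlgCl ((q : Nat.Primes) : ℕ)).comp j
        = j.comp (g : E →+* E) → g ∈ H)
    (φ : h25_J L' S) :
    h12_IsRelNorm H
      (Additive.ofMul (h25_Cmap S (algebraMap L' E) (h25_mk L' S (φ, 1)))) := by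
  classical
  obtain ⟨ψ, hψ1, hψ2⟩ := h92_splitNorm_J S H hdec φ
  have : Fintype ((E ≃ₐ[L'] E) ⧸ H) := Fintype.ofFinite _
  refine ⟨Additive.ofMul (h25_mk E S (ψ, 1)), fun h hh => ?_, ?_⟩
  · show Additive.ofMul (h25_Cmap S ((h : E ≃ₐ[L'] E) : E →+* E) (h25_mk E S (ψ, 1))) = _
    rw [h66_Cmap_mk]
    congr 2
    refine Prod.ext (hψ1 h hh) ?_
    show AddMonoidHom.toMultiplicative (h25_Dmap S ((h : E ≃ₐ[L'] E) : E →+* E)) 1 = 1
    exact map_one _
  · unfold h12_relNorm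
    rw [finsum_eq_sum_of_fintype]
    have h1 : ∀ c : (E ≃ₐ[L'] E) ⧸ H,
        (Quotient.out c : E ≃ₐ[L'] E) • Additive.ofMul (h25_mk E S (ψ, 1))
          = Additive.ofMul (h25_mk E S
              (h25_Xmap S ((Quotient.out c : E ≃ₐ[L'] E) : E →+* E) (ψ, 1))) := by
      intro c
      show Additive.ofMul (h25_Cmap S ((Quotient.out c : E ≃ₐ[L'] E) : E →+* E)
        (h25_mk E S (ψ, 1))) = _
      rw [h66_Cmap_mk]
    rw [Finset.sum_congr rfl fun c _ => h1 c, ← ofMul_prod, ← map_prod, h66_Cmap_mk]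
    congr 2
    refine Prod.ext ?_ ?_
    · funext q
      apply Subtype.ext
      funext j
      have h2 := hψ2 q j
      rw [finprod_eq_prod_of_fintype] at h2
      -- evaluation at `(q, j)` is a monoid hom
      let ev : h25_X E S →* (PadicAlgCl ((q : Nat.Primes) : ℕ))ˣ :=
        { toFun := fun x => (x.1 q).1 j
          map_one' := rfl
          map_mul' := fun _ _ => rfl }
      have h3 : ev (∏ c : (E ≃ₐ[L'] E) ⧸ H,
          h25_Xmap S ((Quotient.out c : E ≃ₐ[L'] E) : E →+* E) (ψ, 1))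
            = ∏ c : (E ≃ₐ[L'] E) ⧸ H, ev
              (h25_Xmap S ((Quotient.out c : E ≃ₐ[L'] E) : E →+* E) (ψ, 1)) := map_prod ev _ _
      exact h2.symm.trans h3.symm
    · have h4 : ∀ c : (E ≃ₐ[L'] E) ⧸ H,
          (h25_Xmap S ((Quotient.out c : E ≃ₐ[L'] E) : E →+* E)
            ((ψ, 1) : h25_X E S)).2 = 1 := fun c =>
        map_one (AddMonoidHom.toMultiplicative
          (h25_Dmap S ((Quotient.out c : E ≃ₐ[L'] E) : E →+* E)))
      have h5 : (h25_Xmap S (algebraMap L' E) ((φ, 1) : h25_X L' S)).2 = 1 :=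
        map_one (AddMonoidHom.toMultiplicative (h25_Dmap S (algebraMap L' E)))
      rw [h5, Prod.snd_prod]
      exact (Finset.prod_eq_one fun c _ => h4 c).symm

/-- **Split norms, `p`-localised `C`-level**: the form consumed by reciprocity. -/
theorem h92_splitNorm_PL (p : ℕ) [Fact p.Prime] (H : Subgroup (E ≃ₐ[L'] E))
    (hdec : ∀ (q : S) (j : E →+* PadicAlgCl ((q : Nat.Primes) : ℕ))
      (τ : PadicAlgCl ((q : Nat.Primes) : ℕ) ≃ₐ[ℚ_[((q : Nat.Primes) : ℕ)]]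
        PadicAlgCl ((q : Nat.Primes) : ℕ)) (g : E ≃ₐ[L'] E),
      (τ : PadicAlgCl ((q : Nat.Primes) : ℕ) →+* PadicAlgCl ((q : Nat.Primes) : ℕ)).comp j
        = j.comp (g : E →+* E) → g ∈ H)
    (φ : h25_J L' S) :
    h12_IsRelNorm H
      (h2_PL.j (p := p)
        (Additive.ofMul (h25_Cmap S (algebraMap L' E) (h25_mk L' S (φ, 1))))) :=
  h92_isRelNorm_map H (h2_PL.j (p := p)) (fun g c => h2_PL.j_smul g c) _
    (h92_splitNorm_C S H hdec φ)

omit [NumberField E] [Finite (E ≃ₐ[L'] E)] in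
/-- **Decomposition elements fix Kummer roots of `V_split`-elements.**  If `x ∈ L'ˣ` is locally
a `p`-th power at all places above `S` (`ρ ^ p = dJ x`), `ζ_p ∈ L'` and `α ^ p = x` in `E`, then
every `g ∈ Gal(E/L')` induced by a local automorphism at a place above `S` fixes `α`. -/
theorem h92_dec_of_kummer (p : ℕ) (hp : 0 < p) (ζ : L') (hζ : IsPrimitiveRoot ζ p)
    (x : L'ˣ) (ρ : h25_J L' S) (hρ : ρ ^ p = h33_dJ L' S x)
    (α : E) (hα : α ^ p = algebraMap L' E (x : L'))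
    (q : S) (j : E →+* PadicAlgCl ((q : Nat.Primes) : ℕ))
    (τ : PadicAlgCl ((q : Nat.Primes) : ℕ) ≃ₐ[ℚ_[((q : Nat.Primes) : ℕ)]]
      PadicAlgCl ((q : Nat.Primes) : ℕ)) (g : E ≃ₐ[L'] E)
    (h : (τ : PadicAlgCl ((q : Nat.Primes) : ℕ) →+* PadicAlgCl ((q : Nat.Primes) : ℕ)).comp j
      = j.comp (g : E →+* E)) : g α = α := by
  have hp0 : p ≠ 0 := hp.ne'
  have : NeZero p := ⟨hp0⟩
  set j0 : L' →+* PadicAlgCl ((q : Nat.Primes) : ℕ) := j.comp (algebraMap L' E) with hj0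
  -- `τ ∘ j0 = j0`
  have hτj0 : (τ : PadicAlgCl ((q : Nat.Primes) : ℕ) →+* PadicAlgCl ((q : Nat.Primes) : ℕ)).comp
      j0 = j0 := by
    rw [hj0, ← RingHom.comp_assoc, h]
    ext z
    show j (g (algebraMap L' E z)) = j (algebraMap L' E z)
    rw [AlgEquiv.commutes]
  have hτj0' : ∀ z : L', τ (j0 z) = j0 z := fun z => by
    have := congrArg (fun f : L' →+* PadicAlgCl ((q : Nat.Primes) : ℕ) => f z) hτj0
    exact this
  have hτj : ∀ z : E, τ (j z) = j (g z) := fun z => by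
    have := congrArg (fun f : E →+* PadicAlgCl ((q : Nat.Primes) : ℕ) => f z) h
    exact this
  -- the local `p`-th root `y` of `x`
  set y : (PadicAlgCl ((q : Nat.Primes) : ℕ))ˣ := (ρ q).1 j0 with hy
  have hyp : ((y : (PadicAlgCl ((q : Nat.Primes) : ℕ))ˣ) : PadicAlgCl ((q : Nat.Primes) : ℕ)) ^ p
      = j0 (x : L') := by
    have h1 : ((ρ ^ p) q).1 j0 = ((h33_dJ L' S x) q).1 j0 := by rw [hρ]
    have h2 : ((ρ ^ p) q).1 j0 = y ^ p := rfl
    rw [h2] at h1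
    have h3 := congrArg (fun u : (PadicAlgCl ((q : Nat.Primes) : ℕ))ˣ =>
      (u : PadicAlgCl ((q : Nat.Primes) : ℕ))) h1
    simp only [Units.val_pow_eq_pow_val] at h3
    rw [h3]
    exact h33_dJ_apply L' S x q j0
  have hτy : τ (y : PadicAlgCl ((q : Nat.Primes) : ℕ)) = y := by
    have h1 := (ρ q).2 τ j0
    rw [hτj0] at h1
    exact h1.symm
  have hy0 : (y : PadicAlgCl ((q : Nat.Primes) : ℕ)) ≠ 0 := y.ne_zero
  -- `j α = j0 (ζ ^ i) * y`
  have hjα : (j α) ^ p = (y : PadicAlgCl ((q : Nat.Primes) : ℕ)) ^ p := by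
    rw [hyp, ← map_pow, hα]
    rfl
  have hζ' : IsPrimitiveRoot (j0 ζ) p := hζ.map_of_injective j0.injective
  have hquot : (j α / (y : PadicAlgCl ((q : Nat.Primes) : ℕ))) ^ p = 1 := by
    rw [div_pow, hjα, div_self (pow_ne_zero _ hy0)]
  obtain ⟨i, -, hi⟩ := hζ'.eq_pow_of_pow_eq_one hquot
  have hjα' : j α = j0 (ζ ^ i) * (y : PadicAlgCl ((q : Nat.Primes) : ℕ)) := by
    rw [map_pow, hi, div_mul_cancel₀ _ hy0]
  -- conclude
  apply j.injective
  rw [← hτj, hjα', map_mul, hτj0', hτy]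

/-- **(R1-F) SPLIT-NORM in the `G`-language.**  `L' ⊆ E` number fields with `ζ_p ∈ L'`,
`x ∈ L'ˣ` locally a `p`-th power at the places above `S` (`x ∈ V_split`), `α ∈ E` a `p`-th root
of `x`, `H ≤ Gal(E/L')` any subgroup containing the stabiliser of `α` (e.g. the kernel of
the Kummer character of `x`).  Then the image in `C_E` of every class of `C_{L'}` represented by
an element of `J_{L'}` is a relative norm from the `H`-invariants of `C_E` (`p`-localised). -/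
theorem h92_splitNormG (p : ℕ) [Fact p.Prime] (ζ : L') (hζ : IsPrimitiveRoot ζ p)
    (x : L'ˣ) (ρ : h25_J L' S) (hρ : ρ ^ p = h33_dJ L' S x)
    (α : E) (hα : α ^ p = algebraMap L' E (x : L'))
    (H : Subgroup (E ≃ₐ[L'] E)) (hH : ∀ g : E ≃ₐ[L'] E, g α = α → g ∈ H)
    (φ : h25_J L' S) :
    h12_IsRelNorm H
      (h2_PL.j (p := p)
        (Additive.ofMul (h25_Cmap S (algebraMap L' E) (h25_mk L' S (φ, 1))))) :=
  h92_splitNorm_PL S p H
    (fun q j τ g h =>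
      hH g (h92_dec_of_kummer S p (Fact.out : p.Prime).pos ζ hζ x ρ hρ α hα q j τ g h)) φ

/-- Unlocalised variant of `h92_splitNormG` (in `Additive (h25_C E S)`). -/
theorem h92_splitNormG_C (p : ℕ) (hp : 0 < p) (ζ : L') (hζ : IsPrimitiveRoot ζ p)
    (x : L'ˣ) (ρ : h25_J L' S) (hρ : ρ ^ p = h33_dJ L' S x)
    (α : E) (hα : α ^ p = algebraMap L' E (x : L'))
    (H : Subgroup (E ≃ₐ[L'] E)) (hH : ∀ g : E ≃ₐ[L'] E, g α = α → g ∈ H)
    (φ : h25_J L' S) :
    h12_IsRelNorm H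
      (Additive.ofMul (h25_Cmap S (algebraMap L' E) (h25_mk L' S (φ, 1)))) :=
  h92_splitNorm_C S H
    (fun q j τ g h => hH g (h92_dec_of_kummer S p hp ζ hζ x ρ hρ α hα q j τ g h)) φ

/-- Family version of `h92_splitNormG`: `H` contains the common stabiliser of `p`-th roots
`α i` of a family `x i` of `V_split`-elements. -/
theorem h92_splitNormG_family (p : ℕ) [Fact p.Prime] (ζ : L') (hζ : IsPrimitiveRoot ζ p)
    {ι : Type*} (x : ι → L'ˣ) (ρ : ι → h25_J L' S) (hρ : ∀ i, ρ i ^ p = h33_dJ L' S (x i))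
    (α : ι → E) (hα : ∀ i, α i ^ p = algebraMap L' E (x i : L'))
    (H : Subgroup (E ≃ₐ[L'] E))
    (hH : ∀ g : E ≃ₐ[L'] E, (∀ i, g (α i) = α i) → g ∈ H)
    (φ : h25_J L' S) :
    h12_IsRelNorm H
      (h2_PL.j (p := p)
        (Additive.ofMul (h25_Cmap S (algebraMap L' E) (h25_mk L' S (φ, 1))))) :=
  h92_splitNorm_PL S p H
    (fun q j τ g h => hH g fun i =>
      h92_dec_of_kummer S p (Fact.out : p.Prime).pos ζ hζ (x i) (ρ i) (hρ i) (α i) (hα i)
        q j τ g h) φ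

/-- `V_split` version of `h92_splitNormG`: `H` contains every `g ∈ Gal(E/L')` fixing all `p`-th
roots in `E` of all elements of `V_split(L')` (i.e. `H ⊇ Gal(E / L'(V_split^{1/p}))`). -/
theorem h92_splitNormG_Vsplit (p : ℕ) [Fact p.Prime] (ζ : L') (hζ : IsPrimitiveRoot ζ p)
    (H : Subgroup (E ≃ₐ[L'] E))
    (hH : ∀ g : E ≃ₐ[L'] E,
      (∀ a ∈ h33_Vsplit (h33_dJ L' S) (h33_dI L' S) p, ∀ α : E,
        α ^ p = algebraMap L' E ((a : L'ˣ) : L') → g α = α) → g ∈ H)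
    (φ : h25_J L' S) :
    h12_IsRelNorm H
      (h2_PL.j (p := p)
        (Additive.ofMul (h25_Cmap S (algebraMap L' E) (h25_mk L' S (φ, 1))))) :=
  h92_splitNorm_PL S p H
    (fun q j τ g h => hH g fun a ha α hα => by
      obtain ⟨-, ρ, hρ⟩ := (h33_mem_Vsplit _ _ p a).1 ha
      exact h92_dec_of_kummer S p (Fact.out : p.Prime).pos ζ hζ a ρ hρ α hα q j τ g h) φ

/-- **'J ⊆ norms' at the kernel of a Kummer character** (hypothesis `hJ` of the type-level core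
of `hrec`): `ζ, x : 𝓞 L'`, `x ≠ 0` in `V_split`, `β ^ p = x` in `E`, and
`χ : Gal(E/L') →* Multiplicative (ZMod p)` with `σ β = ζ ^ χ(σ) * β`. -/
theorem h92_hJ_kumChar (p : ℕ) [Fact p.Prime] (ζ : 𝓞 L') (hζ : IsPrimitiveRoot ζ p)
    (x : 𝓞 L') (hx : x ≠ 0)
    (hxV : ∃ a ∈ h33_Vsplit (h33_dJ L' S) (h33_dI L' S) p, ((a : L'ˣ) : L') = (x : L'))
    (β : E) (hβ : β ^ p = algebraMap L' E (x : L'))
    (χ : (E ≃ₐ[L'] E) →* Multiplicative (ZMod p))
    (hχ : ∀ σ : E ≃ₐ[L'] E,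
      σ β = algebraMap L' E ((ζ : L') ^ (Multiplicative.toAdd (χ σ)).val) * β)
    (φ : h25_J L' S) :
    h12_IsRelNorm χ.ker
      (h2_PL.j (p := p)
        (Additive.ofMul (h25_Cmap S (algebraMap L' E) (h25_mk L' S (φ, 1))))) := by
  obtain ⟨a, ha, hax⟩ := hxV
  obtain ⟨-, ρ, hρ⟩ := (h33_mem_Vsplit _ _ p a).1 ha
  have hp : p.Prime := Fact.out
  have hζ' : IsPrimitiveRoot ((ζ : 𝓞 L') : L') p :=
    hζ.map_of_injective (f := algebraMap (𝓞 L') L') RingOfIntegers.coe_injective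
  have hx0 : (x : L') ≠ 0 := fun h0 => hx (RingOfIntegers.coe_injective (h0.trans (map_zero _).symm))
  have hβ0 : β ≠ 0 := by
    intro h0
    rw [h0, zero_pow hp.ne_zero] at hβ
    exact hx0 ((algebraMap L' E).injective (by rw [← hβ, map_zero]))
  refine h92_splitNormG S p (ζ : L') hζ' a ρ hρ β (by rw [hax]; exact hβ) χ.ker
    (fun g hg => ?_) φ
  rw [MonoidHom.mem_ker]
  have h1 := hχ g
  rw [hg] at h1
  have h2 : algebraMap L' E ((ζ : L') ^ (Multiplicative.toAdd (χ g)).val) = 1 := by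
    have h3 : (1 : E) * β = algebraMap L' E ((ζ : L') ^ (Multiplicative.toAdd (χ g)).val) * β := by
      rw [one_mul]
      exact h1
    exact (mul_right_cancel₀ hβ0 h3).symm
  have h4 : (ζ : L') ^ (Multiplicative.toAdd (χ g)).val = 1 :=
    (algebraMap L' E).injective (by rw [h2, map_one])
  have h5 : p ∣ (Multiplicative.toAdd (χ g)).val := (hζ'.pow_eq_one_iff_dvd _).1 h4
  have h6 : (Multiplicative.toAdd (χ g)).val = 0 :=
    Nat.eq_zero_of_dvd_of_lt h5 (ZMod.val_lt _)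
  have h7 : Multiplicative.toAdd (χ g) = 0 := (ZMod.val_eq_zero _).1 h6
  exact Multiplicative.toAdd.injective h7

end Glob

end

end Fermat.Agent.S55
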