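import Fermat.Agent.S55.h95_JJp
import Fermat.Agent.S55.h72_AsmDefs

/-!
# S55, assembly Tier 1 (`asm_top`): the frozen statement from `h72_PTAmbient`

`h95_asm_top_core`: the frozen conclusion of S55 from the ambient interface `h72_PTAmbient`
and the conclusions of the four middle facts `asm_fund`, `asm_d1`, `asm_d2`, `asm_sha2`.

The proof is a reduction to `h95_S55_of_ambient'` (file `h95_JJp`): the coinduced structure
`ev_bij` identifies the canonical exponent-form module `h95_JJp p S` with the `p`-torsion of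
`∏_q JJ q` (`h95_Θ`), and `j := ∑_q κ q ∘ Θ_q`.
-/

set_option autoImplicit false
set_option maxHeartbeats 400000
set_option synthInstance.maxHeartbeats 400000

open CategoryTheory Module groupCohomology ExtCitation

noncomputable section

namespace Fermat.Agent.S55

local notation "GQ" => (AlgebraicClosure ℚ ≃ₐ[ℚ] AlgebraicClosure ℚ)

/-! ### `k ↦ k.val • x` for a `p`-torsion element `x` -/

section Zm

variable {p : ℕ} [Fact p.Prime] {X : Type*} [AddCommGroup X]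

/-- `k ↦ k • x` as an additive map `ZMod p →+ X`, for `p • x = 0`. -/
def h95_zm (x : X) (hx : p • x = 0) : ZMod p →+ X :=
  ZMod.lift p ⟨zmultiplesHom X x, by
    show ((p : ℕ) : ℤ) • x = 0
    rw [natCast_zsmul, hx]⟩

theorem h95_zm_natCast (x : X) (hx : p • x = 0) (n : ℕ) : h95_zm x hx (n : ZMod p) = n • x := by
  have h := ZMod.lift_coe p (⟨zmultiplesHom X x, by
    show ((p : ℕ) : ℤ) • x = 0
    rw [natCast_zsmul, hx]⟩ : {f : ℤ →+ X // f p = 0}) (n : ℤ)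
  rw [Int.cast_natCast] at h
  rw [h95_zm, h]
  show ((n : ℕ) : ℤ) • x = n • x
  rw [natCast_zsmul]

theorem h95_zm_apply (x : X) (hx : p • x = 0) (k : ZMod p) : h95_zm x hx k = k.val • x := by
  have := h95_zm_natCast x hx k.val
  rwa [ZMod.natCast_val, ZMod.cast_id] at this

theorem h95_zm_one (x : X) (hx : p • x = 0) : h95_zm x hx 1 = x := by
  have := h95_zm_natCast x hx 1
  rwa [Nat.cast_one, one_nsmul] at this

theorem h95_zm_mul (x : X) (hx : p • x = 0) (a b : ZMod p) :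
    h95_zm x hx (a * b) = a.val • h95_zm x hx b := by
  rw [← map_nsmul, nsmul_eq_mul, ZMod.natCast_val, ZMod.cast_id]

theorem h95_zm_injective (x : X) (hx : p • x = 0) (hx0 : x ≠ 0) :
    Function.Injective (h95_zm x hx) := by
  rw [injective_iff_map_eq_zero]
  intro a ha
  by_contra ha0
  apply hx0
  have h1 : a⁻¹ * a = 1 := inv_mul_cancel₀ ha0
  rw [← h95_zm_one x hx, ← h1, h95_zm_mul, ha, smul_zero]

end Zm

/-! ### The identification `Θ` -/

section Theta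

variable {p : ℕ} [Fact p.Prime] {S : Finset Nat.Primes}
  {CC : Type} [AddCommGroup CC] [DistribMulAction GQ CC]
  {JJ : ↥S → Type} [∀ q, AddCommGroup (JJ q)] [∀ q, DistribMulAction GQ (JJ q)]
  {XX : ↥S → Type} [∀ q, AddCommGroup (XX q)]
  [∀ q : ↥S, DistribMulAction (primeLocalGaloisGroup q.1) (XX q)]
  {κ : ∀ q, JJ q →+ CC} {ev : ∀ q, JJ q →+ XX q} {zz : ∀ q, XX q}

/-- elements of `JJ q` are determined by their "values" `g ↦ ev q (g • y)`. -/
theorem h95_JJ_ext' (hA : h72_PTAmbient p S CC JJ XX κ ev zz) (q : ↥S) {y y' : JJ q}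
    (h : ∀ g : GQ, ev q (g • y) = ev q (g • y')) : y = y' := by
  obtain ⟨L, hL⟩ := hA.jj_smooth q y'
  refine (hA.ev_bij q (fun g => ev q (g • y')) (fun τ g => ?_) ⟨L, fun g s hs => ?_⟩).unique h
    (fun g => rfl)
  · show ev q ((primeLocalToGlobal q.1 τ * g) • y') = τ • ev q (g • y')
    rw [mul_smul, hA.ev_smul]
  · show ev q ((g * s) • y') = ev q (g • y')
    rw [mul_smul, hL s hs]

/-- the local group acts on the multiples of `zz q` through the cyclotomic character. -/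
theorem h95_smul_zm (hA : h72_PTAmbient p S CC JJ XX κ ev zz) (q : ↥S)
    (τ : primeLocalGaloisGroup q.1) (a : ZMod p) :
    τ • h95_zm (zz q) (hA.zz_tors q) a =
      h95_zm (zz q) (hA.zz_tors q) ((cycloChar p (primeLocalToGlobal q.1 τ) : ZMod p) * a) := by
  rw [h95_zm_mul, h95_zm_apply, smul_comm τ a.val (zz q), hA.zz_smul, smul_comm]

/-- existence part of `Θ`. -/
theorem h95_Θ_exists (hA : h72_PTAmbient p S CC JJ XX κ ev zz) (q : ↥S) (ψ : h95_JJp p S) :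
    ∃ y : JJ q, ∀ g : GQ, ev q (g • y) = h95_zm (zz q) (hA.zz_tors q) (ψ.fam q g) := by
  obtain ⟨L, hL⟩ := h95_isFam_galois ψ.isFam
  refine (hA.ev_bij q (fun g => h95_zm (zz q) (hA.zz_tors q) (ψ.fam q g)) (fun τ g => ?_)
    ⟨⟨L.1, L.2.1, L.2.2⟩, fun g s hs => ?_⟩).exists
  · show h95_zm (zz q) (hA.zz_tors q) (ψ.fam q (primeLocalToGlobal q.1 τ * g)) = _
    rw [ψ.isFam.1 q τ g, h95_smul_zm hA]
  · show h95_zm (zz q) (hA.zz_tors q) (ψ.fam q (g * s)) = _
    rw [hL q g s hs]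

/-- `Θ_q : h95_JJp p S →+ JJ q`: the element with values `g ↦ (ψ q g) • zz q`. -/
def h95_Θ (hA : h72_PTAmbient p S CC JJ XX κ ev zz) (q : ↥S) : h95_JJp p S →+ JJ q :=
  AddMonoidHom.mk' (fun ψ => Classical.choose (h95_Θ_exists hA q ψ)) (fun ψ ψ' => by
    apply h95_JJ_ext' hA q
    intro g
    rw [smul_add, map_add, Classical.choose_spec (h95_Θ_exists hA q (ψ + ψ')) g,
      Classical.choose_spec (h95_Θ_exists hA q ψ) g,
      Classical.choose_spec (h95_Θ_exists hA q ψ') g, h95_JJp.add_fam, map_add])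

theorem h95_Θ_spec (hA : h72_PTAmbient p S CC JJ XX κ ev zz) (q : ↥S) (ψ : h95_JJp p S)
    (g : GQ) : ev q (g • h95_Θ hA q ψ) = h95_zm (zz q) (hA.zz_tors q) (ψ.fam q g) :=
  Classical.choose_spec (h95_Θ_exists hA q ψ) g

theorem h95_Θ_smul (hA : h72_PTAmbient p S CC JJ XX κ ev zz) (q : ↥S) (σ : GQ)
    (ψ : h95_JJp p S) : h95_Θ hA q (σ • ψ) = σ • h95_Θ hA q ψ := by
  apply h95_JJ_ext' hA q
  intro g
  rw [h95_Θ_spec, ← mul_smul, h95_Θ_spec, h95_JJp.smul_fam]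

theorem h95_Θ_tors (hA : h72_PTAmbient p S CC JJ XX κ ev zz) (q : ↥S) (ψ : h95_JJp p S) :
    p • h95_Θ hA q ψ = 0 := by
  apply h95_JJ_ext' hA q
  intro g
  rw [smul_comm g p, map_nsmul, h95_Θ_spec, smul_zero, map_zero, ← map_nsmul, nsmul_eq_mul,
    ZMod.natCast_self, zero_mul, map_zero]

/-- `Θ` is onto the `p`-torsion families. -/
theorem h95_Θ_surj (hA : h72_PTAmbient p S CC JJ XX κ ev zz) (y : ∀ q, JJ q)
    (hy : ∀ q, p • y q = 0) : ∃ ψ : h95_JJp p S, ∀ q, h95_Θ hA q ψ = y q := by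
  classical
  -- the exponents
  have hk : ∀ (q : ↥S) (g : GQ), ∃ a : ZMod p,
      h95_zm (zz q) (hA.zz_tors q) a = ev q (g • y q) := by
    intro q g
    obtain ⟨k, hk⟩ := hA.xx_tors q (ev q (g • y q))
      (by rw [← map_nsmul, smul_comm p g, hy, smul_zero, map_zero])
    exact ⟨(k : ZMod p), by rw [h95_zm_natCast, hk]⟩
  choose ψ hψ using hk
  have hinj := fun q => h95_zm_injective (zz q) (hA.zz_tors q) (hA.zz_ne q)
  -- a common level
  have hX : ∀ q : ↥S, IsLevelConstantS₁ S (fun g : GQ => g • y q) := by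
    intro q
    obtain ⟨L, hL⟩ := hA.jj_smooth q (y q)
    exact ⟨L.F, L.unr, fun g s hs => by
      show (g * s) • y q = g • y q
      rw [mul_smul, hL s hs]⟩
  obtain ⟨L, -, hL⟩ := h56_exists_common_level₁ (Classical.arbitrary (h56_Level S))
    (fun (q : ↥S) (g : GQ) => g • y q) hX
  have hfam : h95_IsFam S ψ := by
    refine ⟨fun q τ g => ?_, L.1, L.2.1, fun q g s hs => ?_⟩
    · apply hinj q
      rw [hψ, ← h95_smul_zm hA, hψ, mul_smul, hA.ev_smul]
    · apply hinj q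
      rw [hψ, hψ]
      exact congrArg (ev q) (hL q g s hs)
  refine ⟨⟨ψ, hfam⟩, fun q => ?_⟩
  apply h95_JJ_ext' hA q
  intro g
  rw [h95_Θ_spec]
  exact hψ q g

/-- `Θ` is jointly injective. -/
theorem h95_Θ_inj (hA : h72_PTAmbient p S CC JJ XX κ ev zz) {ψ ψ' : h95_JJp p S}
    (h : ∀ q, h95_Θ hA q ψ = h95_Θ hA q ψ') : ψ = ψ' := by
  apply h95_JJp.ext
  intro q g
  apply h95_zm_injective (zz q) (hA.zz_tors q) (hA.zz_ne q)
  rw [← h95_Θ_spec hA q ψ g, ← h95_Θ_spec hA q ψ' g, h q]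

/-- an equivariant family `M → JJ q` (`q ∈ S`) lifts through `Θ` to an equivariant map
`M → h95_JJp p S`. -/
theorem h95_Θ_lift (hA : h72_PTAmbient p S CC JJ XX κ ev zz) (M : Rep.{0, 0, 0} (ZMod p) GQ)
    (ft : ∀ q, M →+ JJ q) (hft : ∀ q, h72_IsEqv M (ft q)) :
    ∃ f' : M →+ h95_JJp p S, (∀ (g : GQ) (m : M), f' (M.ρ g m) = g • f' m) ∧
      ∀ q m, h95_Θ hA q (f' m) = ft q m := by
  have hex : ∀ m : M, ∃ ψ : h95_JJp p S, ∀ q, h95_Θ hA q ψ = ft q m := fun m =>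
    h95_Θ_surj hA (fun q => ft q m) (fun q => h95_hom_nsmul_eq_zero M (ft q) m)
  choose f₀ hf₀ using hex
  refine ⟨AddMonoidHom.mk' f₀ (fun m m' => ?_), fun g m => ?_, fun q m => hf₀ m q⟩
  · apply h95_Θ_inj hA
    intro q
    rw [map_add, hf₀, hf₀, hf₀, map_add]
  · apply h95_Θ_inj hA
    intro q
    show h95_Θ hA q (f₀ (M.ρ g m)) = h95_Θ hA q (g • f₀ m)
    rw [h95_Θ_smul, hf₀, hf₀, hft q g m]

/-- `j = ∑_q κ q ∘ Θ_q : h95_JJp p S →+ CC`. -/
def h95_jΘ (hA : h72_PTAmbient p S CC JJ XX κ ev zz) : h95_JJp p S →+ CC :=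
  ∑ q : ↥S, (κ q).comp (h95_Θ hA q)

theorem h95_jΘ_apply (hA : h72_PTAmbient p S CC JJ XX κ ev zz) (ψ : h95_JJp p S) :
    h95_jΘ hA ψ = ∑ q : ↥S, κ q (h95_Θ hA q ψ) := by
  rw [h95_jΘ, AddMonoidHom.finsetSum_apply]
  rfl

theorem h95_jΘ_smul (hA : h72_PTAmbient p S CC JJ XX κ ev zz) (g : GQ) (ψ : h95_JJp p S) :
    h95_jΘ hA (g • ψ) = g • h95_jΘ hA ψ := by
  rw [h95_jΘ_apply, h95_jΘ_apply, Finset.smul_sum]
  exact Finset.sum_congr rfl fun q _ => by rw [h95_Θ_smul, hA.κ_smul]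

theorem h95_JJp.nsmul_fam (n : ℕ) (x : h95_JJp p S) (q : ↥S) (g : GQ) :
    (n • x).fam q g = n • x.fam q g := by
  induction n with
  | zero => rw [zero_nsmul, zero_nsmul]; rfl
  | succ n ih => rw [succ_nsmul, succ_nsmul, h95_JJp.add_fam, ih]

end Theta

/-! ### `asm_top` -/

section Top

variable {p : ℕ} [Fact p.Prime] {S : Finset Nat.Primes}
  {CC : Type} [AddCommGroup CC] [DistribMulAction GQ CC]
  {JJ : ↥S → Type} [∀ q, AddCommGroup (JJ q)] [∀ q, DistribMulAction GQ (JJ q)]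
  {XX : ↥S → Type} [∀ q, AddCommGroup (XX q)]
  [∀ q : ↥S, DistribMulAction (primeLocalGaloisGroup q.1) (XX q)]
  {κ : ∀ q, JJ q →+ CC} {ev : ∀ q, JJ q →+ XX q} {zz : ∀ q, XX q}

/-- **ASM-TOP (Tier 1), core form**: the frozen conclusion of S55 from the ambient interface
`h72_PTAmbient` and the conclusions of the middle facts `asm_fund`, `asm_d1`, `asm_d2`,
`asm_sha2` (Shapiro in degree 1 is not needed as a separate fact). -/
theorem h95_asm_top_core (hp2 : p ≠ 2) (hpS : pPrime p ∈ S)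
    (M : Rep.{0, 0, 0} (ZMod p) GQ) [FiniteDimensional (ZMod p) M]
    (hsm : ∀ m : M, ∃ F : IntermediateField ℚ (AlgebraicClosure ℚ), FiniteDimensional ℚ F ∧
      ∀ s ∈ F.fixingSubgroup, M.ρ s m = m)
    (hMur : ∀ q : Nat.Primes, q ∉ S → ∀ A : ValuationSubring (AlgebraicClosure ℚ),
      A.LiesOverPrime (q : ℕ) → ∀ g ∈ A.inertiaSubgroupIn ℚ, M.ρ g = 1)
    (hA : h72_PTAmbient p S CC JJ XX κ ev zz)
    -- conclusion of `asm_fund`
    (hfund : ∃ t : GQ × GQ → CC, IsCocycle₂ t ∧ IsLevelConstantS₂ S t ∧ h72_IsCobS₂ S (p • t) ∧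
      (∀ z : GQ × GQ → CC, IsCocycle₂ z → IsLevelConstantS₂ S z → h72_IsCobS₂ S (p • z) →
        ∃ k : ℕ, h72_IsCobS₂ S (z - k • t)) ∧
      (∀ k : ℕ, h72_IsCobS₂ S (k • t) → p ∣ k))
    -- conclusion of `asm_d1`
    (hd1 : ∀ c : GQ × GQ → M, c ∈ cocycles₂ M → IsLevelConstantS₂ S c →
      (∀ f : M →+ CC, h72_IsEqv M f → h72_IsCobS₂ S (fun x => f (c x))) →
      ∃ x : GQ → M, IsLevelConstantS₁ S x ∧ ∀ g h, M.ρ g (x h) - x (g * h) + x g = c (g, h))
    -- conclusion of `asm_d2`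
    (hd2 : ∀ f : M →+ CC, h72_IsEqv M f →
      (∀ c : GQ × GQ → M, c ∈ cocycles₂ M → IsLevelConstantS₂ S c →
        h72_IsCobS₂ S (fun x => f (c x))) →
      ∃ ft : ∀ q, M →+ JJ q, (∀ q, h72_IsEqv M (ft q)) ∧ ∀ m, f m = ∑ q : ↥S, κ q (ft q m))
    -- conclusion of `asm_sha2`
    (hsha2 : ∀ c : GQ × GQ → M, c ∈ cocycles₂ M → IsLevelConstantS₂ S c →
      ((∀ (q : ↥S) (ft : M →+ JJ q), h72_IsEqv M ft →
          h72_IsCobS₂ S (fun x => κ q (ft (c x)))) ↔
        (∀ q : ↥S, ∃ x : primeLocalGaloisGroup q.1 → M,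
          IsLevelConstant₁ (primeLocalToGlobal q.1) x ∧
          ∀ τ τ', M.ρ (primeLocalToGlobal q.1 τ) (x τ') - x (τ * τ') + x τ =
            c (primeLocalToGlobal q.1 τ, primeLocalToGlobal q.1 τ')))) :
    ∃ B : sha₁ S (M.dualTwist (cycloChar p)) →ₗ[ZMod p] sha₂ S M →ₗ[ZMod p] ZMod p,
      (∀ y, (∀ x, B y x = 0) → y = 0) ∧ (∀ x, (∀ y, B y x = 0) → x = 0) := by
  classical
  have hpprime : p.Prime := Fact.out
  -- the diagonal element
  obtain ⟨F, hF, hgal, hM, -, hχ, -⟩ := h56_exists_base_level S hpS M hsm hMur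
  have hfam0 : h95_IsFam S (fun (_ : ↥S) (g : GQ) => (cycloChar p g : ZMod p)) := by
    refine ⟨fun q τ g => ?_, F, hF, fun q g s hs => ?_⟩
    · show (cycloChar p (primeLocalToGlobal q.1 τ * g) : ZMod p) = _
      rw [map_mul, Units.val_mul]
    · show (cycloChar p (g * s) : ZMod p) = (cycloChar p g : ZMod p)
      rw [map_mul, hχ s hs, mul_one]
  let x0 : h95_JJp p S :=
    (⟨fun (_ : ↥S) (g : GQ) => (cycloChar p g : ZMod p), hfam0⟩ : ↥(h95_JJpSub p S))
  have hx0 : ∀ (q : ↥S) (g : GQ), x0.fam q g = (cycloChar p g : ZMod p) := fun q g => rfl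
  have hj0 : h95_jΘ hA x0 = 0 := by
    rw [h95_jΘ_apply]
    exact hA.kum_diag (fun q => h95_Θ hA q x0) (fun q g => by rw [h95_Θ_spec, h95_zm_apply, hx0])
  obtain ⟨t, -, -, ht3, ht4, ht5⟩ := hfund
  have hcoc : ∀ (f : M →+ CC), h72_IsEqv M f → ∀ c : GQ × GQ → M, c ∈ cocycles₂ M →
      IsCocycle₂ (fun x => f (c x)) := by
    intro f hf c hc g h k
    have h1 := (mem_cocycles₂_iff c).1 hc g h k
    show f (c (g * h, k)) + f (c (g, h)) = g • f (c (h, k)) + f (c (g, h * k))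
    rw [← hf g, ← map_add, ← map_add, h1]
  refine h95_S55_of_ambient' hp2 S hpS M hsm hMur (h95_jΘ hA) (h95_jΘ_smul hA) ?_ ?_ ?_ t ht3
    ?_ ?_ ?_ ?_ ?_
  · -- (K1)
    intro x
    constructor
    · intro h
      obtain ⟨k, hk⟩ := hA.kum_ker (fun q => h95_Θ hA q x) (fun q => h95_Θ_tors hA q x)
        (by rw [← h95_jΘ_apply]; exact h)
      refine ⟨(k : ZMod p), fun q g => ?_⟩
      apply h95_zm_injective (zz q) (hA.zz_tors q) (hA.zz_ne q)
      rw [← h95_Θ_spec hA q x g, hk q g, ← h95_zm_natCast (zz q) (hA.zz_tors q)]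
      congr 1
      rw [Nat.cast_mul, ZMod.natCast_val, ZMod.cast_id, mul_comm]
    · rintro ⟨k, hk⟩
      have hx : x = k.val • x0 := by
        apply h95_JJp.ext
        intro q g
        rw [h95_JJp.nsmul_fam, hk, hx0, nsmul_eq_mul, ZMod.natCast_val, ZMod.cast_id, mul_comm]
      rw [hx, map_nsmul, hj0, smul_zero]
  · -- (K2)
    intro c hc
    obtain ⟨y, hy, hyc⟩ := hA.kum_cap c hc
    obtain ⟨ψ, hψ⟩ := h95_Θ_surj hA y hy
    refine ⟨ψ, ?_⟩
    rw [h95_jΘ_apply, ← hyc]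
    exact Finset.sum_congr rfl fun q _ => by rw [hψ q]
  · -- (FIN)
    intro L
    have hfin := hA.cc_fin ⟨L.1, L.2.1, L.2.2⟩
    refine Set.finite_coe_iff.1 (Finite.of_injective
      (fun c : ↥{c : CC | p • c = 0 ∧ ∀ s ∈ L.U, s • c = c} =>
        (⟨c.1, c.2.2, c.2.1⟩ : {c : CC // (∀ s ∈ (h72_Lev.U ⟨L.1, L.2.1, L.2.2⟩), s • c = c) ∧
          p • c = 0})) (fun a b h => Subtype.ext (by
        have h1 := congrArg (fun z : {c : CC // (∀ s ∈ (h72_Lev.U ⟨L.1, L.2.1, L.2.2⟩), s • c = c) ∧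
          p • c = 0} => (z : CC)) h
        exact h1)))
  · -- (T2)
    intro h
    have h1 : p ∣ 1 := ht5 1 (by rw [one_smul]; exact h)
    exact hpprime.one_lt.ne' (Nat.dvd_one.1 h1)
  · -- (T3)
    intro f c
    obtain ⟨hc1, hc2⟩ := (mem_levelCocyclesS₂_iff S M c.1).1 c.2
    have hz0 : p • (fun x : GQ × GQ => f.1 ((c : GQ × GQ → M) x)) = 0 := by
      funext x
      exact h95_hom_nsmul_eq_zero M f.1 _
    obtain ⟨k, hk⟩ := ht4 (fun x => f.1 ((c : GQ × GQ → M) x)) (hcoc f.1 f.2 c.1 hc1)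
      (hc2.comp f.1) (by rw [hz0]; exact (h56_levelCobS₂ S CC).zero_mem)
    exact ⟨k, hk⟩
  · -- (RK)
    intro c h
    obtain ⟨hc1, hc2⟩ := (mem_levelCocyclesS₂_iff S M c.1).1 c.2
    obtain ⟨x, hx, hxc⟩ := hd1 c.1 hc1 hc2 (fun f hf => h ⟨f, hf⟩)
    refine (mem_levelCoboundariesS₂_iff S M c.1).2 ⟨x, hx, ?_⟩
    funext ⟨g, h⟩
    rw [d₁₂_hom_apply]
    exact hxc g h
  · -- (LK)
    intro f h
    obtain ⟨ft, hft, hff⟩ := hd2 f.1 f.2
      (fun c hc hcl => h ⟨c, (mem_levelCocyclesS₂_iff S M c).2 ⟨hc, hcl⟩⟩)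
    obtain ⟨f', hf', hΘ⟩ := h95_Θ_lift hA M ft hft
    refine (h95_mem_I M (h95_jΘ hA) f).2 ⟨f', hf', fun m => ?_⟩
    rw [h95_jΘ_apply, hff m]
    exact Finset.sum_congr rfl fun q _ => by rw [hΘ q m]
  · -- (PERP)
    intro c
    obtain ⟨hc1, hc2⟩ := (mem_levelCocyclesS₂_iff S M c.1).1 c.2
    rw [← hsha2 c.1 hc1 hc2]
    constructor
    · intro h q ft hft
      -- the family supported at `q`
      have hft' : ∀ q', h72_IsEqv M (Pi.single (M := fun q' : ↥S => M →+ JJ q') q ft q') := by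
        intro q'
        by_cases hq : q' = q
        · subst hq
          rw [Pi.single_eq_same]
          exact hft
        · rw [Pi.single_eq_of_ne hq]
          intro g m
          rw [AddMonoidHom.zero_apply, AddMonoidHom.zero_apply, smul_zero]
      obtain ⟨f', hf', hΘ⟩ := h95_Θ_lift hA M
        (Pi.single (M := fun q' : ↥S => M →+ JJ q') q ft) hft'
      have hfH : (κ q).comp ft ∈ h95_H M CC := by
        intro g m
        show κ q (ft (M.ρ g m)) = g • κ q (ft m)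
        rw [hft g m, hA.κ_smul]
      have hfI : (⟨(κ q).comp ft, hfH⟩ : h95_H M CC) ∈ h95_I M (h95_jΘ hA) := by
        refine (h95_mem_I M (h95_jΘ hA) _).2 ⟨f', hf', fun m => ?_⟩
        rw [h95_jΘ_apply, Finset.sum_eq_single q]
        · rw [hΘ q m, Pi.single_eq_same]
          rfl
        · intro q' _ hq'
          rw [hΘ q' m, Pi.single_eq_of_ne hq', AddMonoidHom.zero_apply, map_zero]
        · intro hq
          exact absurd (Finset.mem_univ q) hq
      exact h _ hfI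
    · intro h f hf
      obtain ⟨f', hf', hjf⟩ := (h95_mem_I M (h95_jΘ hA) f).1 hf
      have h1 : (fun x : GQ × GQ => f.1 ((c : GQ × GQ → M) x)) =
          ∑ q : ↥S, fun x : GQ × GQ => κ q (h95_Θ hA q (f' ((c : GQ × GQ → M) x))) := by
        funext x
        rw [Finset.sum_apply, ← hjf, h95_jΘ_apply]
      rw [h1]
      refine (h56_levelCobS₂ S CC).sum_mem fun q _ => ?_
      exact h q ((h95_Θ hA q).comp f') (fun g m => by
        show h95_Θ hA q (f' (M.ρ g m)) = g • h95_Θ hA q (f' m)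
        rw [hf', h95_Θ_smul])

end Top

end Fermat.Agent.S55
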