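import Fermat.Statements.S55

/-!
# S55, assembly layer: the statement of S55 from a "Poitou-Tate datum"

Route of the project (helper72, board #941): with `H = Hom_g(M, C_L)` (finite), `I ≤ H` the
image of `Hom_g(M, J_L)`, the connecting map `δ : H → H¹(G_ℚ, M')` has image `sha₁` and kernel
`I`; the pairing `β : H × H²(G_S, M) → 𝔽_p` has trivial right kernel, left kernel inside `I`,
and `sha₂ = I^⊥`.  This file proves, by pure linear algebra, that such a datum implies the
frozen statement S55 (the pairing is `B (δ f) y = β f y`).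

* `h95_pairing_of_datum` : the abstract linear algebra statement;
* `h95_S55_of_datum` : the frozen conclusion of S55 from the datum `(H, I, δ, β)`.
-/

set_option autoImplicit false

open CategoryTheory Module groupCohomology ExtCitation

namespace Fermat.Agent.S55

/-- Abstract endgame.  `H` finite-dimensional, `δ : H → X` linear, `β : H × Y → k` bilinear with
trivial right kernel and left kernel inside `ker δ`; `V = range δ` and `W = (ker δ)^⊥`.  Then
`B (δ f) y = β f y` is a well-defined pairing `V × W → k`, nondegenerate on both sides. -/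
theorem h95_pairing_of_datum {k : Type*} [Field k] {H X Y : Type*}
    [AddCommGroup H] [Module k H] [FiniteDimensional k H]
    [AddCommGroup X] [Module k X] [AddCommGroup Y] [Module k Y]
    (δ : H →ₗ[k] X) (β : H →ₗ[k] Y →ₗ[k] k)
    (V : Submodule k X) (W : Submodule k Y)
    (hV : LinearMap.range δ = V)
    (hright : ∀ y, (∀ f, β f y = 0) → y = 0)
    (hleft : ∀ f, (∀ y, β f y = 0) → f ∈ LinearMap.ker δ)
    (hW : ∀ y, y ∈ W ↔ ∀ f ∈ LinearMap.ker δ, β f y = 0) :
    ∃ B : V →ₗ[k] W →ₗ[k] k,
      (∀ f (y : W), ∀ hf : δ f ∈ V, B ⟨δ f, hf⟩ y = β f y) ∧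
      (∀ y, (∀ x, B y x = 0) → y = 0) ∧ (∀ x, (∀ y, B y x = 0) → x = 0) := by
  subst hV
  -- the pairing on `H × W`
  let B₀ : H →ₗ[k] W →ₗ[k] k :=
    { toFun := fun f => (β f).domRestrict W
      map_add' := fun f f' => by ext y; simp
      map_smul' := fun c f => by ext y; simp }
  have hB₀ : ∀ f (y : W), B₀ f y = β f y := fun f y => rfl
  have hker : LinearMap.ker δ ≤ LinearMap.ker B₀ := by
    intro f hf
    rw [LinearMap.mem_ker]
    ext y
    rw [hB₀]
    exact (hW y).1 y.2 f hf
  -- descend to `H ⧸ ker δ` and transport to `range δ`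
  let B₁ : (H ⧸ LinearMap.ker δ) →ₗ[k] W →ₗ[k] k := (LinearMap.ker δ).liftQ B₀ hker
  let e : (H ⧸ LinearMap.ker δ) ≃ₗ[k] LinearMap.range δ := δ.quotKerEquivRange
  have he : ∀ f, e (Submodule.Quotient.mk f) = ⟨δ f, LinearMap.mem_range_self δ f⟩ := by
    intro f; rfl
  let B : LinearMap.range δ →ₗ[k] W →ₗ[k] k := B₁ ∘ₗ e.symm.toLinearMap
  have hB : ∀ f (y : W) (hf : δ f ∈ LinearMap.range δ), B ⟨δ f, hf⟩ y = β f y := by
    intro f y hf
    have h1 : e.symm ⟨δ f, hf⟩ = Submodule.Quotient.mk f := by
      rw [LinearEquiv.symm_apply_eq, he]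
    show B₁ (e.symm ⟨δ f, hf⟩) y = β f y
    rw [h1]
    rfl
  refine ⟨B, hB, ?_, ?_⟩
  · -- nondegenerate in the `range δ` variable
    rintro ⟨x, f, rfl⟩ hx
    have hf : f ∈ LinearMap.ker δ := by
      by_contra hf
      -- a functional vanishing on `ker δ` but not at `f`
      obtain ⟨φ, hφf, hφ⟩ := Submodule.exists_le_ker_of_notMem hf
      -- the subspace of functionals `β · y`
      let R : Subspace k (Module.Dual k H) := LinearMap.range β.flip
      have hR : φ ∈ R := by
        have hfd : FiniteDimensional k R := inferInstance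
        rw [← Subspace.dualCoannihilator_dualAnnihilator_eq (W := R),
          Submodule.mem_dualAnnihilator]
        intro g hg
        have hg' : g ∈ LinearMap.ker δ := by
          apply hleft
          intro y
          have := (Submodule.mem_dualCoannihilator g).1 hg (β.flip y) ⟨y, rfl⟩
          simpa using this
        exact hφ hg'
      obtain ⟨y, rfl⟩ := hR
      have hyW : y ∈ W := by
        rw [hW]
        intro g hg
        have := hφ hg
        simpa using this
      apply hφf
      have := hx ⟨y, hyW⟩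
      rw [hB] at this
      simpa using this
    apply Subtype.ext
    simpa using hf
  · -- nondegenerate in the `W` variable
    intro y hy
    apply Subtype.ext
    apply hright
    intro f
    have := hy ⟨δ f, LinearMap.mem_range_self δ f⟩
    rw [hB] at this
    simpa using this

/-- **S55 from a Poitou-Tate datum.**  `H` a finite `𝔽_p`-space, `I ≤ H`,
`δ : H → H¹(G_ℚ, M')` with image `sha₁` and kernel `I`, `β : H × H²(G_S, M) → 𝔽_p` with trivial
right kernel, left kernel inside `I`, and `sha₂ = I^⊥`.  Then the conclusion of the frozen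
statement S55 holds. -/
theorem h95_S55_of_datum {p : ℕ} [Fact p.Prime] (S : Finset Nat.Primes)
    (M : Rep (ZMod p) (AlgebraicClosure ℚ ≃ₐ[ℚ] AlgebraicClosure ℚ))
    (H : Type) [AddCommGroup H] [Module (ZMod p) H] [Finite H]
    (I : Submodule (ZMod p) H)
    (δ : H →ₗ[ZMod p] H1 (M.dualTwist (cycloChar p)))
    (hrange : LinearMap.range δ = sha₁ S (M.dualTwist (cycloChar p)))
    (hker : LinearMap.ker δ = I)
    (β : H →ₗ[ZMod p] continuousH2S S M →ₗ[ZMod p] ZMod p)
    (hright : ∀ y, (∀ f, β f y = 0) → y = 0)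
    (hleft : ∀ f, (∀ y, β f y = 0) → f ∈ I)
    (hsha : ∀ y, y ∈ sha₂ S M ↔ ∀ f ∈ I, β f y = 0) :
    ∃ B : sha₁ S (M.dualTwist (cycloChar p)) →ₗ[ZMod p] sha₂ S M →ₗ[ZMod p] ZMod p,
      (∀ y, (∀ x, B y x = 0) → y = 0) ∧ (∀ x, (∀ y, B y x = 0) → x = 0) := by
  subst hker
  have : FiniteDimensional (ZMod p) H := Module.Finite.of_finite
  obtain ⟨B, -, h1, h2⟩ := h95_pairing_of_datum δ β _ (sha₂ S M) hrange hright hleft hsha
  exact ⟨B, h1, h2⟩

end Fermat.Agent.S55
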