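import Fermat.Agent.S55.h95_S1
import Fermat.Agent.S55.h95_Assembly
import Fermat.Agent.S55.h56_AssemblyS2
import Fermat.Agent.S55.h56_Levels

/-!
# S55: the frozen statement from the ambient facts

`h95_S55_of_ambient` combines

* (S1) `h95_S1` (the connecting map `δ : H → H¹(G_ℚ, M')`, `range δ = sha₁`, `ker δ = I`),
* (S2) `h56_S2_of_facts` (the pairing `β : H × H²_S(M) → 𝔽_p` from the facts (T), (RK), (LK),
  (PERP)),
* `h95_S55_of_datum` (linear algebra),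

for `H = h95_H M CC = Hom_{G_ℚ}(M, CC)` and `I = h95_I M j` (the maps lifting to `JJ`).
The hypotheses are statements about two ambient `G_ℚ`-modules: the class module `CC` and the
`p`-torsion `S`-idele module `JJ` (given by its coinduced structure `e`), and the map
`j : JJ → CC`.
-/

set_option autoImplicit false
set_option maxHeartbeats 400000
set_option synthInstance.maxHeartbeats 400000

open CategoryTheory Module groupCohomology ExtCitation

noncomputable section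

namespace Fermat.Agent.S55

local notation "GQ" => (AlgebraicClosure ℚ ≃ₐ[ℚ] AlgebraicClosure ℚ)

variable {p : ℕ} [Fact p.Prime]

/-- **S55 from the ambient facts.** -/
theorem h95_S55_of_ambient (hp2 : p ≠ 2) (S : Finset Nat.Primes) (hpS : pPrime p ∈ S)
    (M : Rep.{0, 0, 0} (ZMod p) GQ) [FiniteDimensional (ZMod p) M]
    (hsm : ∀ m : M, ∃ F : IntermediateField ℚ (AlgebraicClosure ℚ), FiniteDimensional ℚ F ∧
      ∀ s ∈ F.fixingSubgroup, M.ρ s m = m)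
    (hMur : ∀ q : Nat.Primes, q ∉ S → ∀ A : ValuationSubring (AlgebraicClosure ℚ),
      A.LiesOverPrime (q : ℕ) → ∀ g ∈ A.inertiaSubgroupIn ℚ, M.ρ g = 1)
    {JJ CC : Type} [AddCommGroup JJ] [DistribMulAction GQ JJ] [AddCommGroup CC]
    [DistribMulAction GQ CC]
    -- `JJ` is the `S`-smooth coinduced module of `μ_p` (the `p`-torsion `S`-ideles)
    (e : ↥S → JJ →+ ZMod p)
    (he1 : ∀ (q : ↥S) (τ : primeLocalGaloisGroup q.1) (x : JJ),
      e q (primeLocalToGlobal q.1 τ • x) =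
        (cycloChar p (primeLocalToGlobal q.1 τ) : ZMod p) * e q x)
    (he0 : ∀ x : JJ, (∀ (q : ↥S) (g : GQ), e q (g • x) = 0) → x = 0)
    (he2 : ∀ ψ : ↥S → GQ → ZMod p, h95_IsFam S ψ →
      ∃ x : JJ, ∀ (q : ↥S) (g : GQ), e q (g • x) = ψ q g)
    (hsmJ : ∀ x : JJ, ∃ F : IntermediateField ℚ (AlgebraicClosure ℚ), F.IsUnramifiedOutside S ∧
      ∀ s ∈ F.fixingSubgroup, s • x = x)
    -- the Kummer sequence `0 → μ_p → JJ → CC[p] → 0`
    (j : JJ →+ CC) (hj : ∀ (g : GQ) (x : JJ), j (g • x) = g • j x)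
    (hK1 : ∀ x : JJ, j x = 0 ↔
      ∃ k : ZMod p, ∀ (q : ↥S) (g : GQ), e q (g • x) = (cycloChar p g : ZMod p) * k)
    (hK2 : ∀ c : CC, p • c = 0 → ∃ x : JJ, j x = c)
    -- finiteness
    (hFIN : ∀ L : h56_Level S, {c : CC | p • c = 0 ∧ ∀ s ∈ L.U, s • c = c}.Finite)
    -- (T), (RK), (LK), (PERP)
    (u₀ : GQ × GQ → CC)
    (hT1 : p • u₀ ∈ h56_levelCobS₂ S CC) (hT2 : u₀ ∉ h56_levelCobS₂ S CC)
    (hT3 : ∀ (f : h95_H M CC) (c : ↥(levelCocyclesS₂ S M)), ∃ k : ℕ,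
      (fun x : GQ × GQ => f.1 ((c : GQ × GQ → M) x) - k • u₀ x) ∈ h56_levelCobS₂ S CC)
    (hRK : ∀ c : ↥(levelCocyclesS₂ S M),
      (∀ f : h95_H M CC, (fun x : GQ × GQ => f.1 ((c : GQ × GQ → M) x)) ∈ h56_levelCobS₂ S CC) →
        (c : GQ × GQ → M) ∈ levelCoboundariesS₂ S M)
    (hLK : ∀ f : h95_H M CC, (∀ c : ↥(levelCocyclesS₂ S M),
      (fun x : GQ × GQ => f.1 ((c : GQ × GQ → M) x)) ∈ h56_levelCobS₂ S CC) → f ∈ h95_I M j)
    (hPERP : ∀ c : ↥(levelCocyclesS₂ S M),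
      (∀ f ∈ h95_I M j,
        (fun x : GQ × GQ => f.1 ((c : GQ × GQ → M) x)) ∈ h56_levelCobS₂ S CC) ↔
        ∀ q : ↥S, ∃ x : primeLocalGaloisGroup q.1 → M,
          IsLevelConstant₁ (primeLocalToGlobal q.1) x ∧
          ∀ τ τ', M.ρ (primeLocalToGlobal q.1 τ) (x τ') - x (τ * τ') + x τ =
            (c : GQ × GQ → M) (primeLocalToGlobal q.1 τ, primeLocalToGlobal q.1 τ')) :
    ∃ B : sha₁ S (M.dualTwist (cycloChar p)) →ₗ[ZMod p] sha₂ S M →ₗ[ZMod p] ZMod p,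
      (∀ y, (∀ x, B y x = 0) → y = 0) ∧ (∀ x, (∀ y, B y x = 0) → x = 0) := by
  classical
  have hMfin : Finite M := Module.finite_of_finite (ZMod p)
  -- the base level
  obtain ⟨F, hF, hgal, hM, -, hχ, -⟩ := h56_exists_base_level S hpS M hsm hMur
  let L₀ : h56_Level S := h56_Level.mk' F hF hgal
  have hL₀M : ∀ s ∈ L₀.U, ∀ m : M, M.ρ s m = m := fun s hs m => by
    rw [hM s hs]
    rfl
  have hL₀χ : ∀ s ∈ L₀.U, cycloChar p s = 1 := hχ
  have hHfin : Finite (h95_H M CC) := h95_H_finite S M L₀ hL₀M (hFIN L₀)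
  obtain ⟨δ, hδrange, hδker⟩ := h95_S1 S M e hp2 hpS L₀ hL₀M hL₀χ he1 he0 he2 hsmJ j hj hK1 hK2
  obtain ⟨β, hright, hleft, hsha⟩ := h56_S2_of_facts S M hp2 (h95_H M CC).subtype
    (fun f g m => f.2 g m) (h95_I M j) u₀ hT1 hT2 hT3 hRK hLK hPERP
  exact h95_S55_of_datum S M (h95_H M CC) (h95_I M j) δ hδrange hδker β hright hleft hsha

end Fermat.Agent.S55
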