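import Mathlib
import Fermat.Agent.S55.h24_Recip
import Fermat.Agent.S55.h30_CFData
import Fermat.Agent.S55.h82_ClassComap

/-!
# S55, GLOB-UNORM (R1, abstract half): reciprocity relative to a subgroup (helper95)

* `h95_recip_cfd'` : `h95_recip_cfd` (file `h95_RecipCFD.lean`) with the hypotheses on `V`
  weakened to torsion-freeness (`k • x = 0 → x = 0` for `k ≠ 0`).
* `h95_recip_rel` : the statement `sk_recip_rel` (UA) of helper38's split of GLOB-UNORM, verbatim:
  `D : h30_CFData p deg w` on a finite group `G` with `p`-class module `C`, an abelian group `Γ`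
  acting on `C` through an injective `φ : Γ →* G`, Frobenius data `(c i, σ i)` for `Γ`
  (FP1: `c i` is a norm from every subgroup of `Γ` containing `σ i`; FP2:
  `w (c i) ≡ |Γ| • deg (σ i) • e` modulo `p ^ n |Γ|`; FP3: `deg (σ i) ≠ 1`), `V` torsion-free with
  `V = ℤ e + p V`.  Then, for a character `χ : Γ → ZMod p`: if `Σ a i • c i` is a norm for `χ`,
  then `χ (∏ σ i ^ a i) = 1`.
-/

set_option autoImplicit false

open groupCohomology

namespace Fermat.Agent.S55

/-- multiplication by a nonzero integer is injective on a torsion-free group. -/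
theorem h95_nsmul_injective' {V : Type*} [AddCommGroup V]
    (tfV : ∀ (k : ℕ) (x : V), k ≠ 0 → k • x = 0 → x = 0) (m : ℕ) (hm : m ≠ 0) :
    Function.Injective (fun x : V => m • x) := by
  intro x y hxy
  have hxy' : m • x = m • y := hxy
  exact sub_eq_zero.1 (tfV m _ hm (by rw [smul_sub, hxy', sub_self]))

theorem h95_recip_cfd' {p : ℕ} [Fact p.Prime] {G : Type*} [CommGroup G] [Finite G]
    {C : Type*} [AddCommGroup C] [DistribMulAction G C] (hC : IsPClassModule p G C)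
    {n : ℕ} (deg : G →* Multiplicative (ZMod (p ^ n))) (hdeg : deg ≠ 1)
    {V : Type*} [AddCommGroup V] (w : C →+ V)
    (tfV : ∀ (k : ℕ) (x : V), k ≠ 0 → k • x = 0 → x = 0)
    (w_inv : ∀ (g : G) (c : C), w (g • c) = w c)
    (V1 : ∀ (H : Subgroup G) (c : C), (∀ h ∈ H, h • c = c) →
      ∃ y : V, w c = (Nat.card H * (H.map deg).index) • y)
    (V2 : ∃ c : C, (∀ g : G, g • c = c) ∧
      ¬ ∃ y : V, w c = (p * (Nat.card G * deg.range.index)) • y)
    (e₀ : V) (hV : ∀ (k : ℕ) (x : V), ∃ (m : ℤ) (y : V), x = m • e₀ + p ^ k • y)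
    {ι : Type*} (s : Finset ι) (c : ι → C) (σ : ι → G) (a : ι → ℤ)
    (hc : ∀ i ∈ s, ∀ g : G, g • c i = c i)
    (FP1 : ∀ i ∈ s, ∀ H : Subgroup G, σ i ∈ H → h12_IsRelNorm H (c i))
    (FP2 : ∀ i ∈ s, ∃ y : V, w (c i) =
      Nat.card G • ((Multiplicative.toAdd (deg (σ i))).val • e₀ + p ^ n • y))
    (FP3 : ∀ i ∈ s, deg (σ i) ≠ 1)
    (χ : G →* Multiplicative (ZMod p)) :
    h12_IsRelNorm χ.ker (∑ i ∈ s, a i • c i) ↔ χ (∏ i ∈ s, σ i ^ a i) = 1 := by
  classical
  have hp : p.Prime := Fact.out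
  have hNZ : NeZero (p ^ n) := ⟨pow_ne_zero _ hp.ne_zero⟩
  have hcardZ : Nat.card (Multiplicative (ZMod (p ^ n))) = p ^ n := by
    rw [Nat.card_eq_fintype_card, Fintype.card_multiplicative, ZMod.card]
  -- the image of `deg` has order `p ^ n'` and index `p ^ a`
  obtain ⟨n', hn'le, hn'⟩ : ∃ n' ≤ n, Nat.card deg.range = p ^ n' := by
    have h := Subgroup.card_subgroup_dvd_card deg.range
    rw [hcardZ] at h
    exact (Nat.dvd_prime_pow hp).1 h
  have hNZ' : NeZero (p ^ n') := ⟨pow_ne_zero _ hp.ne_zero⟩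
  obtain ⟨a', ha'⟩ : ∃ a' : ℕ, a' = n - n' := ⟨_, rfl⟩
  have hna : p ^ n = p ^ a' * p ^ n' := by rw [← pow_add, ha', Nat.sub_add_cancel hn'le]
  have hidx : deg.range.index = p ^ a' := by
    have h := deg.range.card_mul_index
    rw [hcardZ, hn'] at h
    exact Nat.eq_of_mul_eq_mul_left (pow_pos hp.pos n') (h.trans (hna.trans (mul_comm _ _)))
  have hn'0 : n' ≠ 0 := by
    rintro rfl
    rw [pow_zero] at hn'
    apply hdeg
    have hbot : deg.range = ⊥ := Subgroup.eq_bot_of_card_eq _ hn'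
    refine MonoidHom.ext fun g => ?_
    have hg : deg g ∈ deg.range := ⟨g, rfl⟩
    rw [hbot, Subgroup.mem_bot] at hg
    rw [hg, MonoidHom.one_apply]
  -- `deg g` is divisible by `p ^ a`
  have hdvd : ∀ g : G, ∃ k : ℕ, (Multiplicative.toAdd (deg g)).val = p ^ a' * k := by
    intro g
    have h1 : (⟨deg g, g, rfl⟩ : deg.range) ^ Nat.card deg.range = 1 := pow_card_eq_one'
    have h2 : (deg g) ^ (p ^ n') = 1 := by
      have := congrArg Subtype.val h1
      rwa [hn'] at this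
    have h3 : (p ^ n') • Multiplicative.toAdd (deg g) = 0 := by
      have := congrArg Multiplicative.toAdd h2
      simpa using this
    have h4 : ((p ^ n' * (Multiplicative.toAdd (deg g)).val : ℕ) : ZMod (p ^ n)) = 0 := by
      rw [Nat.cast_mul, ZMod.natCast_zmod_val, ← nsmul_eq_mul]
      exact h3
    have h5 : p ^ n' * p ^ a' ∣ p ^ n' * (Multiplicative.toAdd (deg g)).val :=
      (dvd_of_eq ((mul_comm _ _).trans hna.symm)).trans ((ZMod.natCast_eq_zero_iff _ _).1 h4)
    exact Nat.dvd_of_mul_dvd_mul_left (pow_pos hp.pos _) h5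
  choose k hk using hdvd
  have hklt : ∀ g : G, k g < p ^ n' := by
    intro g
    have h1 : (Multiplicative.toAdd (deg g)).val < p ^ n := ZMod.val_lt _
    rw [hk g, hna] at h1
    exact lt_of_mul_lt_mul_left h1 (Nat.zero_le _)
  have hkmul : ∀ g h : G, k (g * h) = (k g + k h) % p ^ n' := by
    intro g h
    have h1 : (Multiplicative.toAdd (deg (g * h))).val =
        ((Multiplicative.toAdd (deg g)).val + (Multiplicative.toAdd (deg h)).val) % p ^ n := by
      rw [map_mul, toAdd_mul, ZMod.val_add]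
    rw [hk (g * h), hk g, hk h, ← mul_add, hna, Nat.mul_mod_mul_left] at h1
    exact Nat.eq_of_mul_eq_mul_left (pow_pos hp.pos _) h1
  -- the normalised character `χ0 = deg / p ^ a`
  let χ0 : G →* Multiplicative (ZMod (p ^ n')) :=
    MonoidHom.mk' (fun g => Multiplicative.ofAdd ((k g : ℕ) : ZMod (p ^ n'))) (by
      intro g h
      rw [← ofAdd_add, hkmul g h, ZMod.natCast_mod, Nat.cast_add])
  have hχ0_apply : ∀ g : G, Multiplicative.toAdd (χ0 g) = ((k g : ℕ) : ZMod (p ^ n')) :=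
    fun g => rfl
  have hχ0_val : ∀ g : G, (Multiplicative.toAdd (χ0 g)).val = k g := by
    intro g
    rw [hχ0_apply, ZMod.val_natCast_of_lt (hklt g)]
  have hker : ∀ g : G, χ0 g = 1 ↔ deg g = 1 := by
    intro g
    constructor
    · intro h
      have h1 : (Multiplicative.toAdd (χ0 g)).val = 0 := by rw [h]; simp
      rw [hχ0_val] at h1
      have h2 : (Multiplicative.toAdd (deg g)).val = 0 := by rw [hk g, h1, mul_zero]
      have h3 : Multiplicative.toAdd (deg g) = 0 := (ZMod.val_eq_zero _).1 h2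
      exact Multiplicative.toAdd.injective h3
    · intro h
      have h2 : (Multiplicative.toAdd (deg g)).val = 0 := by rw [h]; simp
      rw [hk g] at h2
      have h3 : k g = 0 := by
        rcases Nat.mul_eq_zero.1 h2 with h | h
        · exact absurd h (pow_ne_zero _ hp.ne_zero)
        · exact h
      have h4 : Multiplicative.toAdd (χ0 g) = 0 := by rw [hχ0_apply, h3, Nat.cast_zero]
      exact Multiplicative.toAdd.injective h4
  have hkereq : χ0.ker = deg.ker := by
    ext g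
    rw [MonoidHom.mem_ker, MonoidHom.mem_ker]
    exact hker g
  have hkeridx : χ0.ker.index = p ^ n' := by
    rw [hkereq, Subgroup.index_ker, hn']
  have hχ0range : Nat.card χ0.range = p ^ n' := by
    rw [← Subgroup.index_ker, hkeridx]
  have hχ0 : Function.Surjective χ0 := by
    rw [← MonoidHom.range_eq_top]
    apply Subgroup.eq_top_of_card_eq
    rw [hχ0range, Nat.card_eq_fintype_card, Fintype.card_multiplicative, ZMod.card]
  -- the normalised valuation `v = w / (|G| p ^ a)` on `C^G`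
  obtain ⟨N₁, hN₁⟩ : ∃ N₁ : ℕ, N₁ = Nat.card G * p ^ a' := ⟨_, rfl⟩
  have hN₁0 : N₁ ≠ 0 := by
    rw [hN₁]
    exact Nat.mul_ne_zero Nat.card_pos.ne' (pow_ne_zero _ hp.ne_zero)
  have hinj := h95_nsmul_injective' tfV N₁ hN₁0
  have hex : ∀ x : FixedPoints.addSubgroup G C, ∃ y : V, w (x : C) = N₁ • y := by
    intro x
    obtain ⟨y, hy⟩ := V1 ⊤ (x : C) (fun h _ => h24_fixed x h)
    refine ⟨y, ?_⟩
    rw [hy, Subgroup.card_top, ← MonoidHom.range_eq_map, hidx, hN₁]
  choose v₀ hv₀ using hex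
  let v : FixedPoints.addSubgroup G C →+ V := AddMonoidHom.mk' v₀ (by
    intro x y
    apply hinj
    show N₁ • v₀ (x + y) = N₁ • (v₀ x + v₀ y)
    rw [smul_add, ← hv₀, ← hv₀, ← hv₀, AddSubgroup.coe_add, map_add])
  have hvspec : ∀ x : FixedPoints.addSubgroup G C, N₁ • v x = w (x : C) := fun x => (hv₀ x).symm
  -- norms have valuation divisible by `p ^ n'`
  have hcardker : Nat.card χ0.ker * p ^ n' = Nat.card G := by
    have h := χ0.ker.card_mul_index
    rwa [hkeridx] at h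
  have hvmp : ∀ x : FixedPoints.addSubgroup G C, h12_IsRelNorm χ0.ker (x : C) →
      ∃ y : V, v x = p ^ n' • y := by
    rintro x ⟨c', hc', hxc'⟩
    obtain ⟨y', hy'⟩ := V1 χ0.ker c' hc'
    have hmapbot : χ0.ker.map deg = ⊥ := by
      rw [Subgroup.map_eq_bot_iff, hkereq]
    rw [hmapbot, Subgroup.index_bot, hcardZ] at hy'
    have hw : w (x : C) = p ^ n' • w c' := by
      have : Fintype (G ⧸ χ0.ker) := Fintype.ofFinite _
      rw [hxc']
      unfold h12_relNorm
      rw [finsum_eq_sum_of_fintype, map_sum]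
      simp only [w_inv]
      rw [Finset.sum_const, Finset.card_univ, ← Nat.card_eq_fintype_card]
      congr 1
    refine ⟨y', ?_⟩
    apply hinj
    show N₁ • v x = N₁ • (p ^ n' • y')
    rw [hvspec, hw, hy', ← mul_smul, ← mul_smul, hN₁, ← hcardker, hna]
    congr 1
    ring
  -- the element of (V2) is not divisible by `p`
  obtain ⟨c₀C, hc₀fix, hc₀⟩ := V2
  let c₀ : FixedPoints.addSubgroup G C := ⟨c₀C, (FixedPoints.mem_addSubgroup G C c₀C).2 hc₀fix⟩
  have hv₀' : ¬ ∃ y : V, v c₀ = p • y := by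
    rintro ⟨y, hy⟩
    apply hc₀
    refine ⟨y, ?_⟩
    have h1 : w c₀C = N₁ • v c₀ := (hvspec c₀).symm
    rw [h1, hy, ← mul_smul, hidx, hN₁]
    congr 1
    ring
  have key : ∀ t : ℕ, (∃ y : V, t • v c₀ = p ^ n' • y) → p ^ n' ∣ t := by
    rintro t ⟨y, hy⟩
    by_contra hnd
    have ht0 : t ≠ 0 := by
      rintro rfl
      exact hnd (dvd_zero _)
    obtain ⟨j, t', ht', rfl⟩ := Nat.exists_eq_pow_mul_and_not_dvd ht0 p hp.ne_one
    have hj : j < n' := by
      by_contra hj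
      exact hnd (Dvd.dvd.mul_right (pow_dvd_pow p (not_lt.1 hj)) t')
    have hcop : Nat.gcd t' p = 1 := ((Nat.Prime.coprime_iff_not_dvd hp).2 ht').symm
    have hpj := h95_nsmul_injective' tfV (p ^ j) (pow_ne_zero _ hp.ne_zero)
    have h1 : t' • v c₀ = p ^ (n' - j) • y := by
      apply hpj
      show p ^ j • (t' • v c₀) = p ^ j • (p ^ (n' - j) • y)
      rw [← mul_smul, ← mul_smul, ← pow_add, Nat.add_sub_cancel' hj.le]
      exact hy
    have hB : (1 : ℤ) = (t' : ℤ) * Nat.gcdA t' p + (p : ℤ) * Nat.gcdB t' p := by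
      have h := Nat.gcd_eq_gcd_ab t' p
      rw [hcop] at h
      exact_mod_cast h
    have h1' : (t' : ℤ) • v c₀ = (p : ℤ) • (p ^ (n' - j - 1) • y) := by
      rw [natCast_zsmul, natCast_zsmul, h1, ← mul_smul, ← pow_succ']
      congr 2
      omega
    apply hv₀'
    refine ⟨Nat.gcdA t' p • (p ^ (n' - j - 1) • y) + Nat.gcdB t' p • v c₀, ?_⟩
    calc v c₀ = (1 : ℤ) • v c₀ := (one_smul _ _).symm
      _ = ((t' : ℤ) * Nat.gcdA t' p + (p : ℤ) * Nat.gcdB t' p) • v c₀ := by rw [← hB]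
      _ = Nat.gcdA t' p • ((t' : ℤ) • v c₀) + (p : ℤ) • (Nat.gcdB t' p • v c₀) := by
          rw [add_smul, mul_comm (t' : ℤ), mul_smul, mul_smul]
      _ = (p : ℤ) • (Nat.gcdA t' p • (p ^ (n' - j - 1) • y) + Nat.gcdB t' p • v c₀) := by
          rw [h1', smul_comm (Nat.gcdA t' p) (p : ℤ), smul_add]
      _ = p • (Nat.gcdA t' p • (p ^ (n' - j - 1) • y) + Nat.gcdB t' p • v c₀) :=
          natCast_zsmul _ _
  -- the norm criterion for `χ0` in terms of `v`
  have hv : ∀ x : FixedPoints.addSubgroup G C,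
      h12_IsRelNorm χ0.ker (x : C) ↔ ∃ y : V, v x = p ^ n' • y := by
    intro x
    refine ⟨hvmp x, ?_⟩
    rintro ⟨y, hy⟩
    have hrel := h34_chi_index hC χ0
    rw [hχ0range, hp.factorization_pow, Finsupp.single_eq_same] at hrel
    set B : AddSubgroup (FixedPoints.addSubgroup G C) :=
      (h12_relNormSubgroup C χ0.ker).addSubgroupOf (FixedPoints.addSubgroup G C) with hB
    have hcardQ : Nat.card (↥(FixedPoints.addSubgroup G C) ⧸ B) = p ^ n' := by
      rw [← AddSubgroup.index_eq_card]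
      exact hrel
    have : Finite (↥(FixedPoints.addSubgroup G C) ⧸ B) :=
      Nat.finite_of_card_ne_zero (by rw [hcardQ]; exact pow_ne_zero _ hp.ne_zero)
    have hmemB : ∀ z : FixedPoints.addSubgroup G C, z ∈ B ↔ h12_IsRelNorm χ0.ker (z : C) := by
      intro z
      rw [hB, AddSubgroup.mem_addSubgroupOf]
      exact h12_mem_relNormSubgroup χ0.ker (z : C)
    set q₀ : ↥(FixedPoints.addSubgroup G C) ⧸ B := QuotientAddGroup.mk c₀ with hq₀
    have hord : addOrderOf q₀ = p ^ n' := by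
      apply Nat.dvd_antisymm
      · have h := addOrderOf_dvd_natCard q₀
        rwa [hcardQ] at h
      · apply key
        have h1 : addOrderOf q₀ • q₀ = 0 := addOrderOf_nsmul_eq_zero q₀
        rw [hq₀, ← QuotientAddGroup.mk_nsmul, QuotientAddGroup.eq_zero_iff, hmemB] at h1
        obtain ⟨y', hy'⟩ := hvmp _ h1
        exact ⟨y', by rw [← map_nsmul]; exact hy'⟩
    have htop : AddSubgroup.zmultiples q₀ = ⊤ := by
      apply AddSubgroup.eq_top_of_card_eq
      rw [Nat.card_zmultiples, hord, hcardQ]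
    have hxmem : (QuotientAddGroup.mk x : ↥(FixedPoints.addSubgroup G C) ⧸ B) ∈
        AddSubmonoid.multiples q₀ := by
      rw [mem_multiples_iff_mem_zmultiples, htop]
      trivial
    obtain ⟨t, ht⟩ := (AddSubmonoid.mem_multiples_iff _ _).1 hxmem
    have h2 : x - t • c₀ ∈ B := by
      rw [← QuotientAddGroup.eq_zero_iff, QuotientAddGroup.mk_sub, QuotientAddGroup.mk_nsmul,
        ← hq₀, ht, sub_self]
    obtain ⟨y', hy'⟩ := hvmp _ ((hmemB _).1 h2)
    rw [map_sub, map_nsmul, hy] at hy'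
    have h3 : p ^ n' ∣ t := by
      apply key
      refine ⟨y - y', ?_⟩
      rw [smul_sub, ← hy']
      abel
    obtain ⟨t₁, rfl⟩ := h3
    have h4 : (QuotientAddGroup.mk x : ↥(FixedPoints.addSubgroup G C) ⧸ B) = 0 := by
      have h5 : p ^ n' • q₀ = 0 := by
        have h6 := addOrderOf_nsmul_eq_zero q₀
        rwa [hord] at h6
      rw [← ht, mul_comm, mul_smul, h5, smul_zero]
    rw [QuotientAddGroup.eq_zero_iff, hmemB] at h4
    exact h4
  -- the Frobenius pairs
  let c' : ι → FixedPoints.addSubgroup G C := fun i =>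
    if h : i ∈ s then ⟨c i, (FixedPoints.mem_addSubgroup G C (c i)).2 (hc i h)⟩ else 0
  have hc' : ∀ i ∈ s, ((c' i : FixedPoints.addSubgroup G C) : C) = c i := by
    intro i hi
    simp only [c', dif_pos hi]
  have hFP : ∀ i ∈ s, h24_FrobPair p χ0 v e₀ (c' i) (σ i) := by
    intro i hi
    refine ⟨fun H hH => ?_, ?_, ?_⟩
    · rw [hc' i hi]
      exact FP1 i hi H hH
    · obtain ⟨y, hy⟩ := FP2 i hi
      refine ⟨y, ?_⟩
      rw [hχ0_val, sub_eq_iff_eq_add']
      apply hinj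
      show N₁ • v (c' i) = N₁ • (k (σ i) • e₀ + p ^ n' • y)
      have e1 : p ^ n • y = (p ^ a' * p ^ n') • y := by rw [hna]
      rw [hvspec, hc' i hi, hy, hk (σ i), e1, hN₁]
      simp only [mul_smul, smul_add]
    · intro h
      exact FP3 i hi ((hker _).1 h)
  have hmain := h24_recip_cor p hC hn'0 χ0 hχ0 v e₀ hv (hV n') s c' σ a hFP χ
  have hsum : ((∑ i ∈ s, a i • c' i : FixedPoints.addSubgroup G C) : C) = ∑ i ∈ s, a i • c i := by
    rw [AddSubmonoidClass.coe_finsetSum]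
    refine Finset.sum_congr rfl fun i hi => ?_
    rw [AddSubgroup.coe_zsmul, hc' i hi]
  rw [hsum] at hmain
  exact hmain


/-- `V = ℤ e + p V` implies `V = ℤ e + p ^ k V` for all `k`. -/
theorem h95_gen_pow {p : ℕ} {V : Type*} [AddCommGroup V] (e : V)
    (he : ∀ x : V, ∃ (k : ℤ) (y : V), x = k • e + p • y) (m : ℕ) (x : V) :
    ∃ (k : ℤ) (y : V), x = k • e + p ^ m • y := by
  induction m generalizing x with
  | zero => exact ⟨0, x, by simp⟩
  | succ m ih =>
    obtain ⟨k₁, y₁, h₁⟩ := ih x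
    obtain ⟨k₂, y₂, h₂⟩ := he y₁
    refine ⟨k₁ + (p ^ m : ℕ) * k₂, y₂, ?_⟩
    rw [h₁, h₂, smul_add, add_smul, mul_smul, natCast_zsmul, pow_succ, mul_smul, add_assoc]

/-- **UA (H-RECIP-REL)**: abstract reciprocity for an abelian group `Γ` acting through an
injective `φ : Γ →* G` on a `p`-class module of `G` carrying `h30_CFData`. -/
theorem h95_recip_rel {p : ℕ} [Fact p.Prime] {G : Type*} [Group G] [Finite G] {C : Type*}
    [AddCommGroup C] [DistribMulAction G C] {n : ℕ} {deg : G →* Multiplicative (ZMod (p ^ n))}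
    {V : Type*} [AddCommGroup V] {w : C →+ V} (D : h30_CFData p deg w)
    (hC : IsPClassModule p G C)
    (tfV : ∀ (k : ℕ) (x : V), k ≠ 0 → k • x = 0 → x = 0) (e : V)
    (he : ∀ x : V, ∃ (k : ℤ) (y : V), x = k • e + p • y)
    {Γ : Type*} [CommGroup Γ] [DistribMulAction Γ C] (φ : Γ →* G) (hφ : Function.Injective φ)
    (hact : ∀ (γ : Γ) (c : C), γ • c = φ γ • c)
    {ι : Type*} (s : Finset ι) (c : ι → C) (σ : ι → Γ) (a : ι → ℤ)
    (hFP1 : ∀ i ∈ s, ∀ H' : Subgroup Γ, σ i ∈ H' → h12_IsRelNorm H' (c i))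
    (hFP2 : ∀ i ∈ s, ∃ y : V, w (c i) -
      (Nat.card Γ * (Multiplicative.toAdd (deg (φ (σ i)))).val) • e = (p ^ n * Nat.card Γ) • y)
    (hFP3 : ∀ i ∈ s, deg (φ (σ i)) ≠ 1) (χ : Γ →* Multiplicative (ZMod p))
    (hnorm : h12_IsRelNorm χ.ker (∑ i ∈ s, a i • c i)) : χ (∏ i ∈ s, σ i ^ a i) = 1 := by
  classical
  rcases s.eq_empty_or_nonempty with rfl | ⟨i₀, hi₀⟩
  · simp
  have hfin : Finite Γ := Finite.of_injective φ hφ
  have hCΓ : IsPClassModule p Γ C := h82_classModule_comap φ hφ hact hC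
  have hdeg : deg.comp φ ≠ 1 := by
    intro h
    apply hFP3 i₀ hi₀
    have := congrArg (fun f : Γ →* Multiplicative (ZMod (p ^ n)) => f (σ i₀)) h
    simpa using this
  have hw_inv : ∀ (γ : Γ) (x : C), w (γ • x) = w x := fun γ x => by
    rw [hact]
    exact D.w_inv _ _
  have hV1 : ∀ (H : Subgroup Γ) (x : C), (∀ h ∈ H, h • x = x) →
      ∃ y : V, w x = (Nat.card H * (H.map (deg.comp φ)).index) • y := by
    intro H x hx
    obtain ⟨y, hy⟩ := D.V1 (H.map φ) x (by
      rintro _ ⟨h, hh, rfl⟩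
      rw [← hact]
      exact hx h hh)
    refine ⟨y, ?_⟩
    rw [hy, Subgroup.map_map, Nat.card_congr (H.equivMapOfInjective φ hφ).toEquiv.symm]
  have hV2 : ∃ x : C, (∀ γ : Γ, γ • x = x) ∧
      ¬ ∃ y : V, w x = (p * (Nat.card Γ * (deg.comp φ).range.index)) • y := by
    have hne : φ.range.map deg ≠ ⊥ := by
      intro h
      apply hFP3 i₀ hi₀
      have hmem : deg (φ (σ i₀)) ∈ φ.range.map deg := ⟨φ (σ i₀), ⟨σ i₀, rfl⟩, rfl⟩
      rw [h, Subgroup.mem_bot] at hmem
      exact hmem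
    obtain ⟨x, hx, hnx⟩ := D.V2 φ.range hne
    refine ⟨x, fun γ => ?_, ?_⟩
    · rw [hact]
      exact hx _ ⟨γ, rfl⟩
    · rintro ⟨y, hy⟩
      apply hnx
      refine ⟨y, ?_⟩
      rw [hy, MonoidHom.map_range, Nat.card_congr (MonoidHom.ofInjective hφ).toEquiv.symm]
  have hc : ∀ i ∈ s, ∀ γ : Γ, γ • c i = c i := fun i hi γ =>
    h12_isRelNorm_fixed ⊤ (c i) (hFP1 i hi ⊤ (Subgroup.mem_top _)) γ
  have hFP2' : ∀ i ∈ s, ∃ y : V, w (c i) =
      Nat.card Γ • ((Multiplicative.toAdd ((deg.comp φ) (σ i))).val • e + p ^ n • y) := by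
    intro i hi
    obtain ⟨y, hy⟩ := hFP2 i hi
    refine ⟨y, ?_⟩
    rw [sub_eq_iff_eq_add'] at hy
    rw [hy, MonoidHom.comp_apply, smul_add, ← mul_smul, ← mul_smul, mul_comm (p ^ n)]
  exact (h95_recip_cfd' hCΓ (deg.comp φ) hdeg w tfV hw_inv hV1 hV2 e (h95_gen_pow e he)
    s c σ a hc hFP1 hFP2' (fun i hi => hFP3 i hi) χ).1 hnorm

/-- **UA (H-RECIP-REL)**, sum form, for a group `Γ` which is commutative by hypothesis (no
`CommGroup` instance needed): `Σ a i • χ (σ i) = 0`. -/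
theorem h95_recip_rel_sum {p : ℕ} [Fact p.Prime] {G : Type*} [Group G] [Finite G] {C : Type*}
    [AddCommGroup C] [DistribMulAction G C] {n : ℕ} {deg : G →* Multiplicative (ZMod (p ^ n))}
    {V : Type*} [AddCommGroup V] {w : C →+ V} (D : h30_CFData p deg w)
    (hC : IsPClassModule p G C)
    (tfV : ∀ (k : ℕ) (x : V), k ≠ 0 → k • x = 0 → x = 0) (e : V)
    (he : ∀ x : V, ∃ (k : ℤ) (y : V), x = k • e + p • y)
    {Γ : Type*} [Group Γ] [DistribMulAction Γ C] (φ : Γ →* G) (hφ : Function.Injective φ)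
    (hact : ∀ (γ : Γ) (c : C), γ • c = φ γ • c) (hcomm : ∀ a b : Γ, a * b = b * a)
    {ι : Type*} (s : Finset ι) (c : ι → C) (σ : ι → Γ) (a : ι → ℤ)
    (hFP1 : ∀ i ∈ s, ∀ H' : Subgroup Γ, σ i ∈ H' → h12_IsRelNorm H' (c i))
    (hFP2 : ∀ i ∈ s, ∃ y : V, w (c i) -
      (Nat.card Γ * (Multiplicative.toAdd (deg (φ (σ i)))).val) • e = (p ^ n * Nat.card Γ) • y)
    (hFP3 : ∀ i ∈ s, deg (φ (σ i)) ≠ 1) (χ : Γ →* Multiplicative (ZMod p))
    (hnorm : h12_IsRelNorm χ.ker (∑ i ∈ s, a i • c i)) :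
    ∑ i ∈ s, a i • Multiplicative.toAdd (χ (σ i)) = 0 := by
  letI : CommGroup Γ := { (inferInstance : Group Γ) with mul_comm := hcomm }
  have h := h95_recip_rel D hC tfV e he φ hφ hact s c σ a hFP1 hFP2 hFP3 χ hnorm
  have h2 := congrArg Multiplicative.toAdd h
  rw [map_prod, toAdd_prod, toAdd_one] at h2
  rw [← h2]
  refine Finset.sum_congr rfl fun i _ => ?_
  rw [map_zpow, toAdd_zpow]

end Fermat.Agent.S55
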