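import Mathlib
import Fermat.Agent.S55.h95_RecipRel
import Fermat.Agent.S55.h90_LevelCFData
import Fermat.Agent.S55.h10_RecipFP1
import Fermat.Agent.S55.h10_RecipDiv
import Fermat.Agent.S55.h98_SymbFrob
import Fermat.Agent.S55.h28_RecipFP2
import Fermat.Agent.S55.h57_RecipU1
import Fermat.Agent.S55.h78_GlobUnr

/-!
# S55 / GLOB-UNORM (UF1): reciprocity at a fixed level

`K ⊆ E` number fields (types), `E/K` abelian, `E/ℚ` Galois and unramified outside `S ∋ p`,
`E ∋ ζ_{p^(n+1)}`, `K ∋ ζ_p`, `x ∈ 𝓞 K`, `β ∈ E` with `β ^ p = x`, and the `J`-classes of `K`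
are norms from every subgroup of `Gal(E/K)` containing the stabiliser of `β`.  Then for every
`c ∈ Kˣ` whose divisor outside `S` is prime to `x` (and whose primes `w` satisfy
`N(w)^(p-1) ≢ 1 mod p^(n+1)`), `∑_{w ∤ S} ord_w(c) • (x / w)_p = 0`.

* `h95_exists_kumChar` : the Kummer character of `β` as a homomorphism to `ZMod p`;
* `h95_hrec_core` : the reciprocity statement.
-/

set_option autoImplicit false

open IsDedekindDomain NumberField ExtCitation
open scoped Pointwise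

universe u

namespace Fermat.Agent.S55

/-- The Kummer character of `β` (`β ^ p ∈ K`, `ζ ∈ K` a primitive `p`-th root of unity). -/
theorem h95_exists_kumChar {K E : Type*} [Field K] [Field E] [Algebra K E] {p : ℕ}
    [hp : Fact p.Prime] {ζ : K} (hζ : IsPrimitiveRoot ζ p) (β : E) (hβ0 : β ≠ 0) (x : K)
    (hβ : β ^ p = algebraMap K E x) :
    ∃ χ : (E ≃ₐ[K] E) →* Multiplicative (ZMod p),
      (∀ σ : E ≃ₐ[K] E, σ β = algebraMap K E (ζ ^ (Multiplicative.toAdd (χ σ)).val) * β) ∧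
      (∀ σ : E ≃ₐ[K] E, χ σ = 1 ↔ σ β = β) := by
  classical
  have hζE : IsPrimitiveRoot (algebraMap K E ζ) p :=
    hζ.map_of_injective (algebraMap K E).injective
  have hex : ∀ σ : E ≃ₐ[K] E, ∃ k : ZMod p, σ β = algebraMap K E (ζ ^ k.val) * β := by
    intro σ
    have h1 : (σ β / β) ^ p = 1 := by
      rw [div_pow, ← map_pow, hβ, AlgEquiv.commutes, div_self]
      rw [← hβ]; exact pow_ne_zero _ hβ0
    obtain ⟨i, hi, hi2⟩ := hζE.eq_pow_of_pow_eq_one h1
    refine ⟨(i : ZMod p), ?_⟩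
    rw [ZMod.val_natCast, Nat.mod_eq_of_lt hi, map_pow, hi2, div_mul_cancel₀ _ hβ0]
  have huniq : ∀ (k l : ZMod p),
      algebraMap K E (ζ ^ k.val) * β = algebraMap K E (ζ ^ l.val) * β → k = l := by
    intro k l h
    have h2 := mul_right_cancel₀ hβ0 h
    have h3 := (algebraMap K E).injective h2
    exact ZMod.val_injective p (hζ.pow_inj (ZMod.val_lt _) (ZMod.val_lt _) h3)
  choose f hf using hex
  have hmul : ∀ σ τ : E ≃ₐ[K] E, f (σ * τ) = f σ + f τ := by
    intro σ τ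
    apply huniq
    rw [← hf (σ * τ), AlgEquiv.mul_apply, hf τ, map_mul, AlgEquiv.commutes, hf σ, ← mul_assoc,
      ← map_mul, ← pow_add, ZMod.val_add, ← pow_eq_pow_mod _ hζ.pow_eq_one, add_comm]
  have hone : f 1 = 0 := by
    have h := hmul 1 1
    rw [mul_one] at h
    simpa using h
  refine ⟨{ toFun := fun σ => Multiplicative.ofAdd (f σ)
            map_one' := by rw [hone]; rfl
            map_mul' := fun σ τ => by rw [hmul]; rfl }, fun σ => hf σ, fun σ => ?_⟩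
  change Multiplicative.ofAdd (f σ) = 1 ↔ _
  constructor
  · intro h
    have h0 : f σ = 0 := h
    rw [hf σ, h0, ZMod.val_zero, pow_zero, map_one, one_mul]
  · intro h
    have h0 : f σ = 0 := huniq _ _ (by rw [← hf σ, h, ZMod.val_zero, pow_zero, map_one, one_mul])
    rw [h0]; rfl

/-- **(UF1) Reciprocity at a fixed level.**  `E/K` abelian, `E/ℚ` Galois unramified outside
`S ∋ p`, `ξ ∈ E` a primitive `p^(n+1)`-th root of unity, `ζ ∈ 𝓞 K` a primitive `p`-th root of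
unity, `β ∈ E` with `β ^ p = x ∈ 𝓞 K`, and (`hJN`) every `J`-class of `K` is a relative norm from
every subgroup of `Gal(E/K)` containing the stabiliser of `β`.  Then
`∑_{w ∤ S} ord_w(c) • (x / w)_p = 0` for `c ∈ Kˣ` with divisor (outside `S`) prime to `x`, provided
`N(w)^(p-1) ≢ 1 mod p^(n+1)` on the support of the divisor of `c`. -/
theorem h95_hrec_core (p : ℕ) [hp : Fact p.Prime] (hp2 : p ≠ 2) (S : Finset Nat.Primes)
    (hpS : pPrime p ∈ S)
    {K : Type*} {E : Type u} [Field K] [NumberField K] [Field E] [NumberField E] [Algebra K E]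
    [IsGalois K E] [IsGalois ℚ E]
    (hur : h25_UnramOutside ℚ E S)
    (hcomm : ∀ a b : E ≃ₐ[K] E, a * b = b * a)
    (n : ℕ) (ξ : E) (hξ : IsPrimitiveRoot ξ (p ^ (n + 1)))
    (ζ : 𝓞 K) (hζ : IsPrimitiveRoot ζ p) (x : 𝓞 K) (hx : x ≠ 0)
    (β : E) (hβ : β ^ p = algebraMap K E (x : K))
    (hJN : ∀ (φ : h25_J K S) (H' : Subgroup (E ≃ₐ[K] E)), (∀ τ : E ≃ₐ[K] E, τ β = β → τ ∈ H') →
      h12_IsRelNorm H' (h2_PL.j (p := p) (Additive.ofMul (h25_Cmap S (algebraMap K E)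
        (h25_mk K S (φ, 1))))))
    (c : Kˣ)
    (hc : ∀ w : HeightOneSpectrum (𝓞 K), ¬ h25_above K S w → w.valuationOfNeZero c ≠ 1 →
      x ∉ w.asIdeal)
    (hn : ∀ w : HeightOneSpectrum (𝓞 K), ¬ h25_above K S w → w.valuationOfNeZero c ≠ 1 →
      ¬ (Ideal.absNorm w.asIdeal ^ (p - 1) ≡ 1 [MOD p ^ (n + 1)])) :
    ∑ᶠ w : {w : HeightOneSpectrum (𝓞 K) // ¬ h25_above K S w},
      Multiplicative.toAdd (w.1.valuationOfNeZero c) • h38_symb p ζ w.1 x = 0 := by
  classical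
  obtain ⟨deg, wv, D, hw, hdeg⟩ := h90_glob_cfdata' p hp2 S hpS E hur n ξ hξ
  have hC : IsPClassModule p (E ≃ₐ[ℚ] E) (h2_PL p (Additive (h25_C E S))) :=
    h90_glob_classModule' p hp2 S hpS E hur
  have hact : ∀ (γ : E ≃ₐ[K] E) (c : h2_PL p (Additive (h25_C E S))),
      γ • c = (AlgEquiv.restrictScalarsHom ℚ γ : E ≃ₐ[ℚ] E) • c := fun γ c => rfl
  have hurK : h25_UnramOutside K E S := h78_unram_top ℚ K E S hur
  have hpw : ∀ w : h25_Pl K S, (p : 𝓞 K) ∉ w.1.asIdeal := fun w hmem => w.2 ⟨pPrime p, hpS, hmem⟩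
  have hdata : ∀ w : h25_Pl K S, ∃ (W : HeightOneSpectrum (𝓞 E)) (σ : E ≃ₐ[K] E),
      W.asIdeal.LiesOver w.1.asIdeal ∧ W.asIdeal.ramificationIdx (𝓞 K) = 1 ∧
      (∀ a : 𝓞 E, σ • a - a ^ Ideal.absNorm w.1.asIdeal ∈ W.asIdeal) ∧
      (∀ (ξ : E) (m : ℕ), ξ ^ m = 1 → (m : 𝓞 K) ∉ w.1.asIdeal →
        σ ξ = ξ ^ Ideal.absNorm w.1.asIdeal) ∧
      MulAction.stabilizer (E ≃ₐ[K] E) W.asIdeal = Subgroup.zpowers σ := by
    intro w
    obtain ⟨W, hW⟩ := h98_exists_prime_over (E := E) w.1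
    have hund : h81_under (algebraMap K E) W = w.1 := by
      rw [h81_under_algebraMap]
      apply HeightOneSpectrum.ext
      exact hW.over.symm
    have hWS : ¬ h25_above E S W := by
      intro h
      apply w.2
      rw [← hund]
      exact (h81_above_under S _ W).2 h
    have hunr : W.asIdeal.ramificationIdx (𝓞 K) = 1 := hurK ⟨W, hWS⟩
    have := W.isPrime
    obtain ⟨σ, h1, h2, h3⟩ := h98_recip_frob_at w.1 W.asIdeal hunr
    exact ⟨W, σ, hW, hunr, h1, h2, h3⟩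
  choose W σ hWover hWunr hfrob hroot hstab using hdata
  -- the finite set of primes and the classes
  set s : Finset (h25_Pl K S) := (h25_div K S c).support with hs
  have hmem : ∀ w : h25_Pl K S, w ∈ s ↔ w.1.valuationOfNeZero c ≠ 1 := by
    intro w
    rw [hs, Finsupp.mem_support_iff, h10_div_apply, Ne, neg_eq_zero]
    exact Iff.rfl
  -- Frobenius on `ξ`
  have hσξ : ∀ w : h25_Pl K S, σ w ξ = ξ ^ Ideal.absNorm w.1.asIdeal := by
    intro w
    refine hroot w ξ (p ^ (n + 1)) hξ.pow_eq_one ?_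
    rw [Nat.cast_pow]
    exact fun h => hpw w (w.1.isPrime.mem_of_pow_mem _ h)
  -- Kummer character
  have hζK : IsPrimitiveRoot (ζ : K) p :=
    hζ.map_of_injective (f := algebraMap (𝓞 K) K) RingOfIntegers.coe_injective
  have hx0 : (x : K) ≠ 0 := fun h0 => hx (RingOfIntegers.ext h0)
  have hβ0 : β ≠ 0 := by
    rintro rfl
    rw [zero_pow hp.out.ne_zero] at hβ
    exact hx0 ((algebraMap K E).injective (by rw [← hβ, map_zero]))
  obtain ⟨χ, hχ, hχker⟩ := h95_exists_kumChar (E := E) hζK β hβ0 (x : K) hβ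
  -- the hypotheses of the abstract reciprocity law
  have hFP1 : ∀ w ∈ s, ∀ H' : Subgroup (E ≃ₐ[K] E), σ w ∈ H' →
      h12_IsRelNorm H' (h2_PL.j (p := p) (Additive.ofMul (h25_Cmap S (algebraMap K E)
        (h25_mk K S (1, Multiplicative.ofAdd (Finsupp.single w 1)))))) := by
    intro w _ H' hH'
    refine h10_fp1 S p w (W w) (hWover w) (hWunr w) H' (fun τ hτ => ?_)
    have h1 : τ ∈ MulAction.stabilizer (E ≃ₐ[K] E) (W w).asIdeal :=
      MulAction.mem_stabilizer_iff.2 (congrArg (·.asIdeal) hτ)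
    rw [hstab w] at h1
    exact (Subgroup.zpowers_le.2 hH') h1
  have hFP2 : ∀ w ∈ s, ∃ y : Additive (h18_U1 p),
      wv (h2_PL.j (p := p) (Additive.ofMul (h25_Cmap S (algebraMap K E)
        (h25_mk K S (1, Multiplicative.ofAdd (Finsupp.single w 1))))))
        - (Nat.card (E ≃ₐ[K] E) * (Multiplicative.toAdd
            (deg (AlgEquiv.restrictScalarsHom ℚ (σ w)))).val) • h57_e0 p
        = (p ^ n * Nat.card (E ≃ₐ[K] E)) • y := by
    intro w _
    obtain ⟨y, hy⟩ : ∃ y : Additive (h18_U1 p),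
        wv (h2_PL.j (p := p) (Additive.ofMul (h25_Cmap S (algebraMap K E)
          (h25_mk K S (1, Multiplicative.ofAdd (Finsupp.single w 1))))))
        = Nat.card (E ≃ₐ[K] E) • ((Multiplicative.toAdd
            (deg (AlgEquiv.restrictScalarsHom ℚ (σ w)))).val • h57_e0 p + p ^ n • y) :=
      h28_recip_FP2_gal S (⟨pPrime p, hpS⟩ : ↥S) hp2 n ξ deg wv hw hdeg w (σ w)
        (hσξ w) (h57_onePlusP p) (h57_onePlusP_coe p)
    refine ⟨y, ?_⟩
    generalize (Multiplicative.toAdd (deg (AlgEquiv.restrictScalarsHom ℚ (σ w)))).val = d at hy ⊢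
    generalize Nat.card (E ≃ₐ[K] E) = N at hy ⊢
    rw [hy, nsmul_add, ← mul_nsmul' (h57_e0 p) N d, ← mul_nsmul y (p ^ n) N, add_sub_cancel_left]
  have hFP3 : ∀ w ∈ s, deg (AlgEquiv.restrictScalarsHom ℚ (σ w)) ≠ 1 := by
    intro w hw'
    exact h28_recip_FP3 S (⟨pPrime p, hpS⟩ : ↥S) n ξ deg hdeg (Ideal.absNorm w.1.asIdeal)
      ((σ w).restrictScalars ℚ) (hσξ w) (hn w.1 w.2 ((hmem w).1 hw'))
  have hnorm : h12_IsRelNorm χ.ker (∑ w ∈ s, Multiplicative.toAdd (w.1.valuationOfNeZero c) •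
      h2_PL.j (p := p) (Additive.ofMul (h25_Cmap S (algebraMap K E)
        (h25_mk K S (1, Multiplicative.ofAdd (Finsupp.single w 1)))))) := by
    rw [h10_sum_primeClass p S (algebraMap K E) c s (Finset.Subset.refl _)]
    exact hJN (h33_dJ K S c) χ.ker (fun τ hτ => MonoidHom.mem_ker.2 ((hχker τ).2 hτ))
  have key := h95_recip_rel_sum (p := p) D hC
    (fun k x hk hx => h18_U1_add_torsionFree p hp2 k hk x hx) (h57_e0 p)
    (fun x => by
      obtain ⟨m, y, h⟩ := h57_U1_hV p hp2 1 x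
      exact ⟨m, y, by rw [h, pow_one]⟩)
    (AlgEquiv.restrictScalarsHom ℚ : (E ≃ₐ[K] E) →* (E ≃ₐ[ℚ] E))
    (AlgEquiv.restrictScalarsHom_injective ℚ) hact hcomm s
    (fun w => h2_PL.j (p := p) (Additive.ofMul (h25_Cmap S (algebraMap K E)
        (h25_mk K S (1, Multiplicative.ofAdd (Finsupp.single w 1))))))
    σ (fun w => Multiplicative.toAdd (w.1.valuationOfNeZero c)) hFP1 hFP2 hFP3 χ hnorm
  -- conclusion
  rw [finsum_eq_sum_of_support_subset (s := s)]
  · rw [← key]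
    refine Finset.sum_congr rfl fun w hw' => ?_
    have := (W w).isPrime
    have := hWover w
    have hxw : x ∉ w.1.asIdeal := hc w.1 w.2 ((hmem w).1 hw')
    rw [h98_symb_frob_char hp.out hζ w.1 (hpw w) x hxw (σ w) (W w).asIdeal (hfrob w) β hβ _
      (hχ (σ w))]
  · intro w hw'
    rw [Finset.mem_coe, hmem]
    intro h1
    apply hw'
    show Multiplicative.toAdd (w.1.valuationOfNeZero c) • h38_symb p ζ w.1 x = 0
    rw [h1, toAdd_one, zero_smul]

end Fermat.Agent.S55
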