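import Fermat.Agent.S55.h95_Final

/-!
# S55: the `p`-torsion `S`-idele module in exponent form

`h95_JJp p S` is the `G_ℚ`-module of families `ψ q : G_ℚ → 𝔽_p` (`q ∈ S`) with
`ψ q (r_q τ * g) = χ(r_q τ) ψ q g` having a common `S`-level, `(σ • ψ) q g = ψ q (g * σ)`.
It is the canonical model of `(∏_{q ∈ S} JJ_q)^Ω [p]` (an idele `(φ_q)` with
`φ_q g = i_q(ζ) ^ ψ q g`), and satisfies the hypotheses `he1, he0, he2, hsmJ` of
`h95_S55_of_ambient` with `e q ψ = ψ q 1`.  `h95_S55_of_ambient'` is the specialisation.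
-/

set_option autoImplicit false
set_option maxHeartbeats 400000
set_option synthInstance.maxHeartbeats 400000

open CategoryTheory Module groupCohomology ExtCitation

noncomputable section

namespace Fermat.Agent.S55

local notation "GQ" => (AlgebraicClosure ℚ ≃ₐ[ℚ] AlgebraicClosure ℚ)

section Model

variable (p : ℕ) [Fact p.Prime] (S : Finset Nat.Primes)

/-- The compatible families, as an additive subgroup of all families. -/
def h95_JJpSub : AddSubgroup (↥S → GQ → ZMod p) where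
  carrier := {ψ | h95_IsFam S ψ}
  add_mem' := by
    rintro ψ ψ' ⟨h1, F, hF, h2⟩ ⟨h1', F', hF', h2'⟩
    refine ⟨fun q τ g => ?_, F ⊔ F', hF.sup hF', fun q g s hs => ?_⟩
    · show ψ q _ + ψ' q _ = _ * (ψ q g + ψ' q g)
      rw [h1, h1', mul_add]
    · rw [IntermediateField.fixingSubgroup_sup] at hs
      show ψ q (g * s) + ψ' q (g * s) = ψ q g + ψ' q g
      rw [h2 q g s hs.1, h2' q g s hs.2]
  zero_mem' := ⟨fun q τ g => by
      show (0 : ZMod p) = _ * 0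
      rw [mul_zero], ⊥, IntermediateField.isUnramifiedOutside_bot S, fun q g s hs => rfl⟩
  neg_mem' := by
    rintro ψ ⟨h1, F, hF, h2⟩
    refine ⟨fun q τ g => ?_, F, hF, fun q g s hs => ?_⟩
    · show -ψ q _ = _ * (-ψ q g)
      rw [h1, mul_neg]
    · show -ψ q (g * s) = -ψ q g
      rw [h2 q g s hs]

/-- The `p`-torsion `S`-idele module in exponent form. -/
def h95_JJp : Type := ↥(h95_JJpSub p S)

instance h95_JJp.instAddCommGroup : AddCommGroup (h95_JJp p S) :=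
  inferInstanceAs (AddCommGroup ↥(h95_JJpSub p S))

variable {p S}

/-- the underlying family. -/
def h95_JJp.fam (x : h95_JJp p S) : ↥S → GQ → ZMod p := x.1

theorem h95_JJp.isFam (x : h95_JJp p S) : h95_IsFam S x.fam := x.2

@[ext] theorem h95_JJp.ext {x y : h95_JJp p S} (h : ∀ q g, x.fam q g = y.fam q g) : x = y :=
  Subtype.ext (funext fun q => funext fun g => h q g)

theorem h95_JJp.add_fam (x y : h95_JJp p S) (q : ↥S) (g : GQ) :
    (x + y).fam q g = x.fam q g + y.fam q g := rfl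

/-- a family has a *Galois* common level. -/
theorem h95_isFam_galois {ψ : ↥S → GQ → ZMod p} (h : h95_IsFam S ψ) :
    ∃ L : h56_Level S, ∀ (q : ↥S) (g s : GQ), s ∈ L.U → ψ q (g * s) = ψ q g := by
  obtain ⟨-, F, hF, h2⟩ := h
  obtain ⟨F', hle, hF', hgal⟩ := h56_exists_galois_level S F hF
  exact ⟨⟨F', hF', hgal⟩, fun q g s hs =>
    h2 q g s (IntermediateField.fixingSubgroup_antitone hle hs)⟩

theorem h95_isFam_translate {ψ : ↥S → GQ → ZMod p} (h : h95_IsFam S ψ) (σ : GQ) :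
    h95_IsFam S (fun q g => ψ q (g * σ)) := by
  obtain ⟨L, hL⟩ := h95_isFam_galois h
  refine ⟨fun q τ g => ?_, L.1, L.2.1, fun q g s hs => ?_⟩
  · show ψ q (primeLocalToGlobal q.1 τ * g * σ) = _ * ψ q (g * σ)
    rw [mul_assoc, h.1]
  · show ψ q (g * s * σ) = ψ q (g * σ)
    have h1 : g * s * σ = g * σ * (σ⁻¹ * s * σ) := by group
    have h2 : σ⁻¹ * s * σ ∈ L.U := by
      have := (h56_Level.instNormalU L).conj_mem s hs σ⁻¹
      rwa [inv_inv] at this
    rw [h1, hL q (g * σ) _ h2]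

instance h95_JJp.instAction : DistribMulAction GQ (h95_JJp p S) where
  smul σ x := ⟨fun q g => x.fam q (g * σ), h95_isFam_translate x.isFam σ⟩
  one_smul x := by
    apply h95_JJp.ext
    intro q g
    show x.fam q (g * 1) = x.fam q g
    rw [mul_one]
  mul_smul σ σ' x := by
    apply h95_JJp.ext
    intro q g
    show x.fam q (g * (σ * σ')) = x.fam q (g * σ * σ')
    rw [mul_assoc]
  smul_zero σ := by
    apply h95_JJp.ext
    intro q g
    rfl
  smul_add σ x y := by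
    apply h95_JJp.ext
    intro q g
    rfl

theorem h95_JJp.smul_fam (σ : GQ) (x : h95_JJp p S) (q : ↥S) (g : GQ) :
    (σ • x).fam q g = x.fam q (g * σ) := rfl

variable (p S)

/-- evaluation at `1` of the `q`-component. -/
def h95_JJp.e (q : ↥S) : h95_JJp p S →+ ZMod p :=
  AddMonoidHom.mk' (fun x => x.fam q 1) (fun _ _ => rfl)

variable {p S}

theorem h95_JJp.e_smul (q : ↥S) (g : GQ) (x : h95_JJp p S) :
    h95_JJp.e p S q (g • x) = x.fam q g := by
  show x.fam q (1 * g) = x.fam q g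
  rw [one_mul]

theorem h95_JJp.he1 (q : ↥S) (τ : primeLocalGaloisGroup q.1) (x : h95_JJp p S) :
    h95_JJp.e p S q (primeLocalToGlobal q.1 τ • x) =
      (cycloChar p (primeLocalToGlobal q.1 τ) : ZMod p) * h95_JJp.e p S q x := by
  rw [h95_JJp.e_smul]
  have := x.isFam.1 q τ 1
  rw [mul_one] at this
  exact this

theorem h95_JJp.he0 (x : h95_JJp p S)
    (h : ∀ (q : ↥S) (g : GQ), h95_JJp.e p S q (g • x) = 0) : x = 0 := by
  apply h95_JJp.ext
  intro q g
  rw [← h95_JJp.e_smul, h]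
  rfl

theorem h95_JJp.he2 (ψ : ↥S → GQ → ZMod p) (hψ : h95_IsFam S ψ) :
    ∃ x : h95_JJp p S, ∀ (q : ↥S) (g : GQ), h95_JJp.e p S q (g • x) = ψ q g :=
  ⟨⟨ψ, hψ⟩, fun q g => h95_JJp.e_smul q g _⟩

theorem h95_JJp.hsm (x : h95_JJp p S) :
    ∃ F : IntermediateField ℚ (AlgebraicClosure ℚ), F.IsUnramifiedOutside S ∧
      ∀ s ∈ F.fixingSubgroup, s • x = x := by
  obtain ⟨-, F, hF, h2⟩ := x.isFam
  refine ⟨F, hF, fun s hs => ?_⟩
  apply h95_JJp.ext
  intro q g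
  rw [h95_JJp.smul_fam]
  exact h2 q g s hs

end Model

section Final

variable {p : ℕ} [Fact p.Prime]

/-- **S55 from the ambient facts**, for the canonical model `h95_JJp p S` of the `p`-torsion
`S`-ideles: the hypotheses concern one `G_ℚ`-module `CC` and one map `j : h95_JJp p S →+ CC`. -/
theorem h95_S55_of_ambient' (hp2 : p ≠ 2) (S : Finset Nat.Primes) (hpS : pPrime p ∈ S)
    (M : Rep.{0, 0, 0} (ZMod p) GQ) [FiniteDimensional (ZMod p) M]
    (hsm : ∀ m : M, ∃ F : IntermediateField ℚ (AlgebraicClosure ℚ), FiniteDimensional ℚ F ∧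
      ∀ s ∈ F.fixingSubgroup, M.ρ s m = m)
    (hMur : ∀ q : Nat.Primes, q ∉ S → ∀ A : ValuationSubring (AlgebraicClosure ℚ),
      A.LiesOverPrime (q : ℕ) → ∀ g ∈ A.inertiaSubgroupIn ℚ, M.ρ g = 1)
    {CC : Type} [AddCommGroup CC] [DistribMulAction GQ CC]
    -- the Kummer sequence `0 → μ_p → JJ[p] → CC[p] → 0`
    (j : h95_JJp p S →+ CC) (hj : ∀ (g : GQ) (x : h95_JJp p S), j (g • x) = g • j x)
    (hK1 : ∀ x : h95_JJp p S, j x = 0 ↔
      ∃ k : ZMod p, ∀ (q : ↥S) (g : GQ), x.fam q g = (cycloChar p g : ZMod p) * k)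
    (hK2 : ∀ c : CC, p • c = 0 → ∃ x : h95_JJp p S, j x = c)
    -- finiteness
    (hFIN : ∀ L : h56_Level S, {c : CC | p • c = 0 ∧ ∀ s ∈ L.U, s • c = c}.Finite)
    -- (T), (RK), (LK), (PERP)
    (u₀ : GQ × GQ → CC)
    (hT1 : p • u₀ ∈ h56_levelCobS₂ S CC) (hT2 : u₀ ∉ h56_levelCobS₂ S CC)
    (hT3 : ∀ (f : h95_H M CC) (c : ↥(levelCocyclesS₂ S M)), ∃ k : ℕ,
      (fun x : GQ × GQ => f.1 ((c : GQ × GQ → M) x) - k • u₀ x) ∈ h56_levelCobS₂ S CC)
    (hRK : ∀ c : ↥(levelCocyclesS₂ S M),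
      (∀ f : h95_H M CC, (fun x : GQ × GQ => f.1 ((c : GQ × GQ → M) x)) ∈ h56_levelCobS₂ S CC) →
        (c : GQ × GQ → M) ∈ levelCoboundariesS₂ S M)
    (hLK : ∀ f : h95_H M CC, (∀ c : ↥(levelCocyclesS₂ S M),
      (fun x : GQ × GQ => f.1 ((c : GQ × GQ → M) x)) ∈ h56_levelCobS₂ S CC) → f ∈ h95_I M j)
    (hPERP : ∀ c : ↥(levelCocyclesS₂ S M),
      (∀ f ∈ h95_I M j,
        (fun x : GQ × GQ => f.1 ((c : GQ × GQ → M) x)) ∈ h56_levelCobS₂ S CC) ↔
        ∀ q : ↥S, ∃ x : primeLocalGaloisGroup q.1 → M,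
          IsLevelConstant₁ (primeLocalToGlobal q.1) x ∧
          ∀ τ τ', M.ρ (primeLocalToGlobal q.1 τ) (x τ') - x (τ * τ') + x τ =
            (c : GQ × GQ → M) (primeLocalToGlobal q.1 τ, primeLocalToGlobal q.1 τ')) :
    ∃ B : sha₁ S (M.dualTwist (cycloChar p)) →ₗ[ZMod p] sha₂ S M →ₗ[ZMod p] ZMod p,
      (∀ y, (∀ x, B y x = 0) → y = 0) ∧ (∀ x, (∀ y, B y x = 0) → x = 0) :=
  h95_S55_of_ambient hp2 S hpS M hsm hMur (h95_JJp.e p S) h95_JJp.he1 h95_JJp.he0 h95_JJp.he2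
    h95_JJp.hsm j hj
    (fun x => (hK1 x).trans ⟨fun ⟨k, hk⟩ => ⟨k, fun q g => by rw [h95_JJp.e_smul, hk]⟩,
      fun ⟨k, hk⟩ => ⟨k, fun q g => by rw [← h95_JJp.e_smul, hk]⟩⟩)
    hK2 hFIN u₀ hT1 hT2 hT3 hRK hLK hPERP

end Final

end Fermat.Agent.S55
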