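import Mathlib
import Fermat.Agent.S55.h24_Recip

/-!
# S55, GLOB-UNORM (R1, abstract half): reciprocity from valuation data

`h95_recip_cfd`: let `G` be a finite abelian group, `C` a `p`-class module for `G`,
`deg : G →* ZMod (p ^ n)` a non-trivial character ("cyclotomic degree") and `w : C →+ V` a
`G`-invariant "valuation" with the properties (V1), (V2) of `h30_CFData` for the subgroups of `G`,
where `V` is `p`-local, without `p`-torsion, and topologically generated by `e₀`
(`V = ℤ e₀ + p ^ k V` for all `k`).  Let `(c i, σ i)` be Frobenius data: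

* (FP1) `c i` is a norm from every subgroup containing `σ i`;
* (FP2) `w (c i) = |G| • (deg (σ i) • e₀ + p ^ n • y)`;
* (FP3) `deg (σ i) ≠ 1`.

Then for every character `χ : G → ZMod p`:
`Σ a i • c i` is a norm for `χ` iff `χ (∏ σ i ^ a i) = 1`.

This is `h24_recip_cor` (row H-RECIP) with its auxiliary data `(χ0, v, e)` constructed from
`(deg, w, e₀)`: `χ0 = deg / p ^ a` (`p ^ a` the index of the image of `deg`),
`v = w / (|G| p ^ a)`, `e = e₀`.
-/

set_option autoImplicit false

open groupCohomology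

namespace Fermat.Agent.S55

/-- multiplication by a nonzero integer is injective on a `p`-local group without
`p`-torsion. -/
theorem h95_nsmul_injective {p : ℕ} [Fact p.Prime] {V : Type*} [AddCommGroup V]
    (hVloc : ∀ m : ℕ, m.Coprime p → Function.Bijective (fun x : V => m • x))
    (tf : ∀ x : V, p • x = 0 → x = 0) (m : ℕ) (hm : m ≠ 0) :
    Function.Injective (fun x : V => m • x) := by
  have hp : p.Prime := Fact.out
  obtain ⟨e, m', hm', rfl⟩ := Nat.exists_eq_pow_mul_and_not_dvd hm p hp.ne_one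
  have hcop : m'.Coprime p := ((Nat.Prime.coprime_iff_not_dvd hp).2 hm').symm
  have hpow : ∀ (e : ℕ) (x : V), p ^ e • x = 0 → x = 0 := by
    intro e
    induction e with
    | zero => intro x hx; simpa using hx
    | succ e ih =>
      intro x hx
      rw [pow_succ, mul_smul] at hx
      exact tf x (ih _ hx)
  intro x y hxy
  have hxy' : (p ^ e * m') • x = (p ^ e * m') • y := hxy
  have h1 : p ^ e • (m' • (x - y)) = 0 := by
    rw [← mul_smul, smul_sub, hxy', sub_self]
  have h2 := hpow e _ h1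
  have h3 : m' • x = m' • y := by rwa [smul_sub, sub_eq_zero] at h2
  exact (hVloc m' hcop).1 h3

theorem h95_recip_cfd {p : ℕ} [Fact p.Prime] {G : Type*} [CommGroup G] [Finite G]
    {C : Type*} [AddCommGroup C] [DistribMulAction G C] (hC : IsPClassModule p G C)
    {n : ℕ} (deg : G →* Multiplicative (ZMod (p ^ n))) (hdeg : deg ≠ 1)
    {V : Type*} [AddCommGroup V] (w : C →+ V)
    (hVloc : ∀ m : ℕ, m.Coprime p → Function.Bijective (fun x : V => m • x))
    (tf : ∀ x : V, p • x = 0 → x = 0)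
    (w_inv : ∀ (g : G) (c : C), w (g • c) = w c)
    (V1 : ∀ (H : Subgroup G) (c : C), (∀ h ∈ H, h • c = c) →
      ∃ y : V, w c = (Nat.card H * (H.map deg).index) • y)
    (V2 : ∃ c : C, (∀ g : G, g • c = c) ∧
      ¬ ∃ y : V, w c = (p * (Nat.card G * deg.range.index)) • y)
    (e₀ : V) (hV : ∀ (k : ℕ) (x : V), ∃ (m : ℤ) (y : V), x = m • e₀ + p ^ k • y)
    {ι : Type*} (s : Finset ι) (c : ι → C) (σ : ι → G) (a : ι → ℤ)
    (hc : ∀ i ∈ s, ∀ g : G, g • c i = c i)
    (FP1 : ∀ i ∈ s, ∀ H : Subgroup G, σ i ∈ H → h12_IsRelNorm H (c i))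
    (FP2 : ∀ i ∈ s, ∃ y : V, w (c i) =
      Nat.card G • ((Multiplicative.toAdd (deg (σ i))).val • e₀ + p ^ n • y))
    (FP3 : ∀ i ∈ s, deg (σ i) ≠ 1)
    (χ : G →* Multiplicative (ZMod p)) :
    h12_IsRelNorm χ.ker (∑ i ∈ s, a i • c i) ↔ χ (∏ i ∈ s, σ i ^ a i) = 1 := by
  classical
  have hp : p.Prime := Fact.out
  have hNZ : NeZero (p ^ n) := ⟨pow_ne_zero _ hp.ne_zero⟩
  have hcardZ : Nat.card (Multiplicative (ZMod (p ^ n))) = p ^ n := by
    rw [Nat.card_eq_fintype_card, Fintype.card_multiplicative, ZMod.card]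
  -- the image of `deg` has order `p ^ n'` and index `p ^ a`
  obtain ⟨n', hn'le, hn'⟩ : ∃ n' ≤ n, Nat.card deg.range = p ^ n' := by
    have h := Subgroup.card_subgroup_dvd_card deg.range
    rw [hcardZ] at h
    exact (Nat.dvd_prime_pow hp).1 h
  have hNZ' : NeZero (p ^ n') := ⟨pow_ne_zero _ hp.ne_zero⟩
  obtain ⟨a', ha'⟩ : ∃ a' : ℕ, a' = n - n' := ⟨_, rfl⟩
  have hna : p ^ n = p ^ a' * p ^ n' := by rw [← pow_add, ha', Nat.sub_add_cancel hn'le]
  have hidx : deg.range.index = p ^ a' := by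
    have h := deg.range.card_mul_index
    rw [hcardZ, hn'] at h
    exact Nat.eq_of_mul_eq_mul_left (pow_pos hp.pos n') (h.trans (hna.trans (mul_comm _ _)))
  have hn'0 : n' ≠ 0 := by
    rintro rfl
    rw [pow_zero] at hn'
    apply hdeg
    have hbot : deg.range = ⊥ := Subgroup.eq_bot_of_card_eq _ hn'
    refine MonoidHom.ext fun g => ?_
    have hg : deg g ∈ deg.range := ⟨g, rfl⟩
    rw [hbot, Subgroup.mem_bot] at hg
    rw [hg, MonoidHom.one_apply]
  -- `deg g` is divisible by `p ^ a`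
  have hdvd : ∀ g : G, ∃ k : ℕ, (Multiplicative.toAdd (deg g)).val = p ^ a' * k := by
    intro g
    have h1 : (⟨deg g, g, rfl⟩ : deg.range) ^ Nat.card deg.range = 1 := pow_card_eq_one'
    have h2 : (deg g) ^ (p ^ n') = 1 := by
      have := congrArg Subtype.val h1
      rwa [hn'] at this
    have h3 : (p ^ n') • Multiplicative.toAdd (deg g) = 0 := by
      have := congrArg Multiplicative.toAdd h2
      simpa using this
    have h4 : ((p ^ n' * (Multiplicative.toAdd (deg g)).val : ℕ) : ZMod (p ^ n)) = 0 := by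
      rw [Nat.cast_mul, ZMod.natCast_zmod_val, ← nsmul_eq_mul]
      exact h3
    have h5 : p ^ n' * p ^ a' ∣ p ^ n' * (Multiplicative.toAdd (deg g)).val :=
      (dvd_of_eq ((mul_comm _ _).trans hna.symm)).trans ((ZMod.natCast_eq_zero_iff _ _).1 h4)
    exact Nat.dvd_of_mul_dvd_mul_left (pow_pos hp.pos _) h5
  choose k hk using hdvd
  have hklt : ∀ g : G, k g < p ^ n' := by
    intro g
    have h1 : (Multiplicative.toAdd (deg g)).val < p ^ n := ZMod.val_lt _
    rw [hk g, hna] at h1
    exact lt_of_mul_lt_mul_left h1 (Nat.zero_le _)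
  have hkmul : ∀ g h : G, k (g * h) = (k g + k h) % p ^ n' := by
    intro g h
    have h1 : (Multiplicative.toAdd (deg (g * h))).val =
        ((Multiplicative.toAdd (deg g)).val + (Multiplicative.toAdd (deg h)).val) % p ^ n := by
      rw [map_mul, toAdd_mul, ZMod.val_add]
    rw [hk (g * h), hk g, hk h, ← mul_add, hna, Nat.mul_mod_mul_left] at h1
    exact Nat.eq_of_mul_eq_mul_left (pow_pos hp.pos _) h1
  -- the normalised character `χ0 = deg / p ^ a`
  let χ0 : G →* Multiplicative (ZMod (p ^ n')) :=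
    MonoidHom.mk' (fun g => Multiplicative.ofAdd ((k g : ℕ) : ZMod (p ^ n'))) (by
      intro g h
      rw [← ofAdd_add, hkmul g h, ZMod.natCast_mod, Nat.cast_add])
  have hχ0_apply : ∀ g : G, Multiplicative.toAdd (χ0 g) = ((k g : ℕ) : ZMod (p ^ n')) :=
    fun g => rfl
  have hχ0_val : ∀ g : G, (Multiplicative.toAdd (χ0 g)).val = k g := by
    intro g
    rw [hχ0_apply, ZMod.val_natCast_of_lt (hklt g)]
  have hker : ∀ g : G, χ0 g = 1 ↔ deg g = 1 := by
    intro g
    constructor
    · intro h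
      have h1 : (Multiplicative.toAdd (χ0 g)).val = 0 := by rw [h]; simp
      rw [hχ0_val] at h1
      have h2 : (Multiplicative.toAdd (deg g)).val = 0 := by rw [hk g, h1, mul_zero]
      have h3 : Multiplicative.toAdd (deg g) = 0 := (ZMod.val_eq_zero _).1 h2
      exact Multiplicative.toAdd.injective h3
    · intro h
      have h2 : (Multiplicative.toAdd (deg g)).val = 0 := by rw [h]; simp
      rw [hk g] at h2
      have h3 : k g = 0 := by
        rcases Nat.mul_eq_zero.1 h2 with h | h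
        · exact absurd h (pow_ne_zero _ hp.ne_zero)
        · exact h
      have h4 : Multiplicative.toAdd (χ0 g) = 0 := by rw [hχ0_apply, h3, Nat.cast_zero]
      exact Multiplicative.toAdd.injective h4
  have hkereq : χ0.ker = deg.ker := by
    ext g
    rw [MonoidHom.mem_ker, MonoidHom.mem_ker]
    exact hker g
  have hkeridx : χ0.ker.index = p ^ n' := by
    rw [hkereq, Subgroup.index_ker, hn']
  have hχ0range : Nat.card χ0.range = p ^ n' := by
    rw [← Subgroup.index_ker, hkeridx]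
  have hχ0 : Function.Surjective χ0 := by
    rw [← MonoidHom.range_eq_top]
    apply Subgroup.eq_top_of_card_eq
    rw [hχ0range, Nat.card_eq_fintype_card, Fintype.card_multiplicative, ZMod.card]
  -- the normalised valuation `v = w / (|G| p ^ a)` on `C^G`
  obtain ⟨N₁, hN₁⟩ : ∃ N₁ : ℕ, N₁ = Nat.card G * p ^ a' := ⟨_, rfl⟩
  have hN₁0 : N₁ ≠ 0 := by
    rw [hN₁]
    exact Nat.mul_ne_zero Nat.card_pos.ne' (pow_ne_zero _ hp.ne_zero)
  have hinj := h95_nsmul_injective hVloc tf N₁ hN₁0
  have hex : ∀ x : FixedPoints.addSubgroup G C, ∃ y : V, w (x : C) = N₁ • y := by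
    intro x
    obtain ⟨y, hy⟩ := V1 ⊤ (x : C) (fun h _ => h24_fixed x h)
    refine ⟨y, ?_⟩
    rw [hy, Subgroup.card_top, ← MonoidHom.range_eq_map, hidx, hN₁]
  choose v₀ hv₀ using hex
  let v : FixedPoints.addSubgroup G C →+ V := AddMonoidHom.mk' v₀ (by
    intro x y
    apply hinj
    show N₁ • v₀ (x + y) = N₁ • (v₀ x + v₀ y)
    rw [smul_add, ← hv₀, ← hv₀, ← hv₀, AddSubgroup.coe_add, map_add])
  have hvspec : ∀ x : FixedPoints.addSubgroup G C, N₁ • v x = w (x : C) := fun x => (hv₀ x).symm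
  -- norms have valuation divisible by `p ^ n'`
  have hcardker : Nat.card χ0.ker * p ^ n' = Nat.card G := by
    have h := χ0.ker.card_mul_index
    rwa [hkeridx] at h
  have hvmp : ∀ x : FixedPoints.addSubgroup G C, h12_IsRelNorm χ0.ker (x : C) →
      ∃ y : V, v x = p ^ n' • y := by
    rintro x ⟨c', hc', hxc'⟩
    obtain ⟨y', hy'⟩ := V1 χ0.ker c' hc'
    have hmapbot : χ0.ker.map deg = ⊥ := by
      rw [Subgroup.map_eq_bot_iff, hkereq]
    rw [hmapbot, Subgroup.index_bot, hcardZ] at hy'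
    have hw : w (x : C) = p ^ n' • w c' := by
      have : Fintype (G ⧸ χ0.ker) := Fintype.ofFinite _
      rw [hxc']
      unfold h12_relNorm
      rw [finsum_eq_sum_of_fintype, map_sum]
      simp only [w_inv]
      rw [Finset.sum_const, Finset.card_univ, ← Nat.card_eq_fintype_card]
      congr 1
    refine ⟨y', ?_⟩
    apply hinj
    show N₁ • v x = N₁ • (p ^ n' • y')
    rw [hvspec, hw, hy', ← mul_smul, ← mul_smul, hN₁, ← hcardker, hna]
    congr 1
    ring
  -- the element of (V2) is not divisible by `p`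
  obtain ⟨c₀C, hc₀fix, hc₀⟩ := V2
  let c₀ : FixedPoints.addSubgroup G C := ⟨c₀C, (FixedPoints.mem_addSubgroup G C c₀C).2 hc₀fix⟩
  have hv₀' : ¬ ∃ y : V, v c₀ = p • y := by
    rintro ⟨y, hy⟩
    apply hc₀
    refine ⟨y, ?_⟩
    have h1 : w c₀C = N₁ • v c₀ := (hvspec c₀).symm
    rw [h1, hy, ← mul_smul, hidx, hN₁]
    congr 1
    ring
  have key : ∀ t : ℕ, (∃ y : V, t • v c₀ = p ^ n' • y) → p ^ n' ∣ t := by
    rintro t ⟨y, hy⟩
    by_contra hnd
    have ht0 : t ≠ 0 := by
      rintro rfl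
      exact hnd (dvd_zero _)
    obtain ⟨j, t', ht', rfl⟩ := Nat.exists_eq_pow_mul_and_not_dvd ht0 p hp.ne_one
    have hj : j < n' := by
      by_contra hj
      exact hnd (Dvd.dvd.mul_right (pow_dvd_pow p (not_lt.1 hj)) t')
    have hcop : t'.Coprime p := ((Nat.Prime.coprime_iff_not_dvd hp).2 ht').symm
    have hpj := h95_nsmul_injective hVloc tf (p ^ j) (pow_ne_zero _ hp.ne_zero)
    have h1 : t' • v c₀ = p ^ (n' - j) • y := by
      apply hpj
      show p ^ j • (t' • v c₀) = p ^ j • (p ^ (n' - j) • y)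
      rw [← mul_smul, ← mul_smul, ← pow_add, Nat.add_sub_cancel' hj.le]
      exact hy
    obtain ⟨z, hz⟩ := (hVloc t' hcop).2 (p ^ (n' - j - 1) • y)
    have hz' : t' • z = p ^ (n' - j - 1) • y := hz
    apply hv₀'
    refine ⟨z, ?_⟩
    apply (hVloc t' hcop).1
    show t' • v c₀ = t' • (p • z)
    rw [h1, smul_comm t' p z, hz', ← mul_smul, ← pow_succ']
    congr 2
    omega
  -- the norm criterion for `χ0` in terms of `v`
  have hv : ∀ x : FixedPoints.addSubgroup G C,
      h12_IsRelNorm χ0.ker (x : C) ↔ ∃ y : V, v x = p ^ n' • y := by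
    intro x
    refine ⟨hvmp x, ?_⟩
    rintro ⟨y, hy⟩
    have hrel := h34_chi_index hC χ0
    rw [hχ0range, hp.factorization_pow, Finsupp.single_eq_same] at hrel
    set B : AddSubgroup (FixedPoints.addSubgroup G C) :=
      (h12_relNormSubgroup C χ0.ker).addSubgroupOf (FixedPoints.addSubgroup G C) with hB
    have hcardQ : Nat.card (↥(FixedPoints.addSubgroup G C) ⧸ B) = p ^ n' := by
      rw [← AddSubgroup.index_eq_card]
      exact hrel
    have : Finite (↥(FixedPoints.addSubgroup G C) ⧸ B) :=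
      Nat.finite_of_card_ne_zero (by rw [hcardQ]; exact pow_ne_zero _ hp.ne_zero)
    have hmemB : ∀ z : FixedPoints.addSubgroup G C, z ∈ B ↔ h12_IsRelNorm χ0.ker (z : C) := by
      intro z
      rw [hB, AddSubgroup.mem_addSubgroupOf]
      exact h12_mem_relNormSubgroup χ0.ker (z : C)
    set q₀ : ↥(FixedPoints.addSubgroup G C) ⧸ B := QuotientAddGroup.mk c₀ with hq₀
    have hord : addOrderOf q₀ = p ^ n' := by
      apply Nat.dvd_antisymm
      · have h := addOrderOf_dvd_natCard q₀
        rwa [hcardQ] at h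
      · apply key
        have h1 : addOrderOf q₀ • q₀ = 0 := addOrderOf_nsmul_eq_zero q₀
        rw [hq₀, ← QuotientAddGroup.mk_nsmul, QuotientAddGroup.eq_zero_iff, hmemB] at h1
        obtain ⟨y', hy'⟩ := hvmp _ h1
        exact ⟨y', by rw [← map_nsmul]; exact hy'⟩
    have htop : AddSubgroup.zmultiples q₀ = ⊤ := by
      apply AddSubgroup.eq_top_of_card_eq
      rw [Nat.card_zmultiples, hord, hcardQ]
    have hxmem : (QuotientAddGroup.mk x : ↥(FixedPoints.addSubgroup G C) ⧸ B) ∈
        AddSubmonoid.multiples q₀ := by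
      rw [mem_multiples_iff_mem_zmultiples, htop]
      trivial
    obtain ⟨t, ht⟩ := (AddSubmonoid.mem_multiples_iff _ _).1 hxmem
    have h2 : x - t • c₀ ∈ B := by
      rw [← QuotientAddGroup.eq_zero_iff, QuotientAddGroup.mk_sub, QuotientAddGroup.mk_nsmul,
        ← hq₀, ht, sub_self]
    obtain ⟨y', hy'⟩ := hvmp _ ((hmemB _).1 h2)
    rw [map_sub, map_nsmul, hy] at hy'
    have h3 : p ^ n' ∣ t := by
      apply key
      refine ⟨y - y', ?_⟩
      rw [smul_sub, ← hy']
      abel
    obtain ⟨t₁, rfl⟩ := h3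
    have h4 : (QuotientAddGroup.mk x : ↥(FixedPoints.addSubgroup G C) ⧸ B) = 0 := by
      have h5 : p ^ n' • q₀ = 0 := by
        have h6 := addOrderOf_nsmul_eq_zero q₀
        rwa [hord] at h6
      rw [← ht, mul_comm, mul_smul, h5, smul_zero]
    rw [QuotientAddGroup.eq_zero_iff, hmemB] at h4
    exact h4
  -- the Frobenius pairs
  let c' : ι → FixedPoints.addSubgroup G C := fun i =>
    if h : i ∈ s then ⟨c i, (FixedPoints.mem_addSubgroup G C (c i)).2 (hc i h)⟩ else 0
  have hc' : ∀ i ∈ s, ((c' i : FixedPoints.addSubgroup G C) : C) = c i := by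
    intro i hi
    simp only [c', dif_pos hi]
  have hFP : ∀ i ∈ s, h24_FrobPair p χ0 v e₀ (c' i) (σ i) := by
    intro i hi
    refine ⟨fun H hH => ?_, ?_, ?_⟩
    · rw [hc' i hi]
      exact FP1 i hi H hH
    · obtain ⟨y, hy⟩ := FP2 i hi
      refine ⟨y, ?_⟩
      rw [hχ0_val, sub_eq_iff_eq_add']
      apply hinj
      show N₁ • v (c' i) = N₁ • (k (σ i) • e₀ + p ^ n' • y)
      have e1 : p ^ n • y = (p ^ a' * p ^ n') • y := by rw [hna]
      rw [hvspec, hc' i hi, hy, hk (σ i), e1, hN₁]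
      simp only [mul_smul, smul_add]
    · intro h
      exact FP3 i hi ((hker _).1 h)
  have hmain := h24_recip_cor p hC hn'0 χ0 hχ0 v e₀ hv (hV n') s c' σ a hFP χ
  have hsum : ((∑ i ∈ s, a i • c' i : FixedPoints.addSubgroup G C) : C) = ∑ i ∈ s, a i • c i := by
    rw [AddSubmonoidClass.coe_finsetSum]
    refine Finset.sum_congr rfl fun i hi => ?_
    rw [AddSubgroup.coe_zsmul, hc' i hi]
  rw [hsum] at hmain
  exact hmain

end Fermat.Agent.S55
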