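import Fermat.Agent.S55.h95_Top
import Fermat.Agent.S55.h56_GalLevels

/-!
# S55, step (S1): the connecting map `δ : H → H¹(G_ℚ, M')`

`H = Hom_{G_ℚ}(M, CC)` (`h95_H`), `I ≤ H` the maps which lift to an equivariant map `M → JJ`
(`h95_I`).  From the ambient Kummer sequence `0 → μ_p → JJ → CC[p] → 0` (`JJ` = the `p`-torsion
`S`-idele module, given abstractly by its "coinduced" structure: evaluations
`e q : JJ →+ ZMod p`, `q ∈ S`) we construct `δ` with `range δ = sha₁ S M'`, `ker δ = I`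
(`h95_S1`).
-/

set_option autoImplicit false
set_option maxHeartbeats 400000
set_option synthInstance.maxHeartbeats 400000

open CategoryTheory Module groupCohomology ExtCitation

noncomputable section

namespace Fermat.Agent.S55

local notation "GQ" => (AlgebraicClosure ℚ ≃ₐ[ℚ] AlgebraicClosure ℚ)

/-! ### The connecting map for an abstract sequence `0 → M' → B → B'' → 0` -/

section Delta

variable {p : ℕ} [Fact p.Prime]

/-- The connecting map of `h95_S55_of_interface`, as a standalone statement. -/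
theorem h95_delta_of_interface (hp2 : p ≠ 2) (S : Finset Nat.Primes)
    (M : Rep.{0, 0, 0} (ZMod p) GQ)
    {B B'' : Type} [AddCommGroup B] [DistribMulAction GQ B] [AddCommGroup B'']
    [DistribMulAction GQ B'']
    (i : (M.dualTwist (cycloChar p)) →+ B) (hi : Function.Injective i)
    (hiG : ∀ (g : GQ) (n : M.dualTwist (cycloChar p)),
      i ((M.dualTwist (cycloChar p)).ρ g n) = g • i n)
    (pr : B →+ B'') (hprG : ∀ (g : GQ) (b : B), pr (g • b) = g • pr b)
    (hpr : Function.Surjective pr)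
    (hex : ∀ b : B, pr b = 0 → ∃ n, i n = b) (hex' : ∀ n, pr (i n) = 0)
    (hsm : ∀ b : B, ∃ F : IntermediateField ℚ (AlgebraicClosure ℚ), F.IsUnramifiedOutside S ∧
      ∀ s ∈ F.fixingSubgroup, s • b = b)
    (hLOC1 : ∀ c : GQ → M.dualTwist (cycloChar p), c ∈ cocycles₁ (M.dualTwist (cycloChar p)) →
      IsLevelConstantS₁ S c →
      ((∃ b : B, ∀ g : GQ, i (c g) = g • b - b) ↔
        ∀ q : ↥S, ∃ n : M.dualTwist (cycloChar p), ∀ τ : primeLocalGaloisGroup q.1,
          c (primeLocalToGlobal q.1 τ) =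
            (M.dualTwist (cycloChar p)).ρ (primeLocalToGlobal q.1 τ) n - n)) :
    ∃ δ : ↥(h95_fixedPts B'') →+ H1 (M.dualTwist (cycloChar p)),
      (∀ x, x ∈ sha₁ S (M.dualTwist (cycloChar p)) ↔ ∃ f, δ f = x) ∧
      (∀ f, δ f = 0 ↔ ∃ b : B, (∀ g : GQ, g • b = b) ∧ pr b = f.1) := by
  classical
  let Hs : AddSubgroup B'' := h95_fixedPts B''
  have hrepex : ∀ f : Hs, ∃ c, h95_Represents (M.dualTwist (cycloChar p)) i pr f.1 c :=
    fun f => h95_represents_exists hi hprG hpr hex f.2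
  choose cf hcf using hrepex
  have hcoc : ∀ f : Hs, cf f ∈ cocycles₁ (M.dualTwist (cycloChar p)) :=
    fun f => h95_represents_cocycle hi hiG (hcf f)
  have hclass : ∀ (f : Hs) (c : GQ → M.dualTwist (cycloChar p))
      (hc : h95_Represents (M.dualTwist (cycloChar p)) i pr f.1 c),
      (H1π (M.dualTwist (cycloChar p))).hom ⟨c, h95_represents_cocycle hi hiG hc⟩ =
        (H1π (M.dualTwist (cycloChar p))).hom ⟨cf f, hcoc f⟩ := by
    intro f c hc
    exact (H1π_eq_iff _ _).2 (h95_represents_unique hi hiG hex hc (hcf f))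
  let δ : Hs →+ H1 (M.dualTwist (cycloChar p)) :=
    AddMonoidHom.mk' (fun f => (H1π (M.dualTwist (cycloChar p))).hom ⟨cf f, hcoc f⟩) (by
      intro f f'
      have h := h95_represents_add (hcf f) (hcf f')
      rw [← hclass (f + f') _ h, ← map_add]
      rfl)
  have hδ : ∀ f : Hs, δ f = (H1π (M.dualTwist (cycloChar p))).hom ⟨cf f, hcoc f⟩ := fun f => rfl
  refine ⟨δ, fun x => ?_, fun f => ?_⟩
  · rw [← h97_range_clsQ S (M.dualTwist (cycloChar p)) hp2]
    constructor
    · rintro ⟨y, rfl⟩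
      obtain ⟨⟨⟨a, n⟩, ha1, ha2, ha3⟩, rfl⟩ := Submodule.mkQ_surjective _ y
      obtain ⟨b, hb⟩ := (hLOC1 a ha1 ha2).2 (fun q => ⟨n q, ha3 q⟩)
      have hfix : ∀ g : GQ, g • pr b = pr b := by
        intro g
        rw [← hprG, ← sub_eq_zero, ← map_sub, ← hb g, hex']
      have hrep : h95_Represents (M.dualTwist (cycloChar p)) i pr
          ((⟨pr b, hfix⟩ : Hs) : B'') a := ⟨b, rfl, hb⟩
      refine ⟨⟨pr b, hfix⟩, ?_⟩
      rw [hδ, ← hclass ⟨pr b, hfix⟩ a hrep]
      rfl
    · rintro ⟨f, rfl⟩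
      have hlev := h95_represents_level S hi hsm (hcf f)
      obtain ⟨b, -, hb⟩ := hcf f
      have hloc := (hLOC1 (cf f) (hcoc f) hlev).1 ⟨b, hb⟩
      choose n hn using hloc
      refine ⟨Submodule.Quotient.mk ⟨(cf f, n), hcoc f, hlev, hn⟩, ?_⟩
      rw [hδ]
      rfl
  · rw [hδ]
    refine Iff.trans ?_ (h95_represents_coboundary_iff hi hiG hex hex' (hcf f))
    exact H1π_eq_zero_iff _

end Delta

/-! ### `Hom(M, A)` with the conjugation action, `H` and `I` -/

section Hom

variable {p : ℕ} [Fact p.Prime] (M : Rep.{0, 0, 0} (ZMod p) GQ)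

/-- Additive maps `M → A` (a type synonym carrying the conjugation action of `G_ℚ`). -/
def h95_Hom (A : Type) [AddCommGroup A] : Type := M →+ A

instance h95_Hom.instAddCommGroup (A : Type) [AddCommGroup A] : AddCommGroup (h95_Hom M A) :=
  inferInstanceAs (AddCommGroup (M →+ A))

/-- The identification of `h95_Hom M A` with `M →+ A`. -/
def h95_Hom.equiv (A : Type) [AddCommGroup A] : h95_Hom M A ≃+ (M →+ A) := AddEquiv.refl _

variable {M}

instance h95_Hom.instAction (A : Type) [AddCommGroup A] [DistribMulAction GQ A] :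
    DistribMulAction GQ (h95_Hom M A) where
  smul g f := (h95_Hom.equiv M A).symm
    (((DistribSMul.toAddMonoidHom A g).comp (h95_Hom.equiv M A f)).comp
      (M.ρ g⁻¹).toAddMonoidHom)
  one_smul f := by
    apply (h95_Hom.equiv M A).injective
    ext m
    show (1 : GQ) • h95_Hom.equiv M A f (M.ρ (1 : GQ)⁻¹ m) = _
    rw [inv_one, map_one, one_smul]
    rfl
  mul_smul g h f := by
    apply (h95_Hom.equiv M A).injective
    ext m
    show (g * h) • h95_Hom.equiv M A f (M.ρ (g * h)⁻¹ m) =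
      g • h • h95_Hom.equiv M A f (M.ρ h⁻¹ (M.ρ g⁻¹ m))
    rw [mul_inv_rev, map_mul, mul_smul]
    rfl
  smul_zero g := by
    apply (h95_Hom.equiv M A).injective
    ext m
    show g • (0 : A) = 0
    rw [smul_zero]
  smul_add g f f' := by
    apply (h95_Hom.equiv M A).injective
    ext m
    show g • (h95_Hom.equiv M A f (M.ρ g⁻¹ m) + h95_Hom.equiv M A f' (M.ρ g⁻¹ m)) = _
    rw [smul_add]
    rfl

theorem h95_Hom.smul_apply {A : Type} [AddCommGroup A] [DistribMulAction GQ A] (g : GQ)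
    (f : h95_Hom M A) (m : M) :
    h95_Hom.equiv M A (g • f) m = g • h95_Hom.equiv M A f (M.ρ g⁻¹ m) := rfl

/-- fixed under conjugation iff equivariant. -/
theorem h95_Hom.fixed_iff {A : Type} [AddCommGroup A] [DistribMulAction GQ A]
    (f : h95_Hom M A) :
    (∀ g : GQ, g • f = f) ↔
      ∀ (g : GQ) (m : M), h95_Hom.equiv M A f (M.ρ g m) = g • h95_Hom.equiv M A f m := by
  constructor
  · intro h g m
    have h1 := congrArg (fun f' => h95_Hom.equiv M A f' (M.ρ g m)) (h g)
    simp only [h95_Hom.smul_apply] at h1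
    rw [← h1, ← Module.End.mul_apply, ← map_mul, inv_mul_cancel, map_one, Module.End.one_apply]
  · intro h g
    apply (h95_Hom.equiv M A).injective
    ext m
    rw [h95_Hom.smul_apply, ← h g, ← Module.End.mul_apply, ← map_mul, mul_inv_cancel, map_one,
      Module.End.one_apply]

variable (M)

/-- `H = Hom_{G_ℚ}(M, CC)`: the equivariant additive maps `M → CC`. -/
def h95_H (CC : Type) [AddCommGroup CC] [DistribMulAction GQ CC] : AddSubgroup (M →+ CC) where
  carrier := {f | ∀ (g : GQ) (m : M), f (M.ρ g m) = g • f m}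
  add_mem' := fun {a b} ha hb g m => by
    rw [AddMonoidHom.add_apply, AddMonoidHom.add_apply, ha, hb, smul_add]
  zero_mem' := fun g m => by rw [AddMonoidHom.zero_apply, AddMonoidHom.zero_apply, smul_zero]
  neg_mem' := fun {a} ha g m => by
    rw [AddMonoidHom.neg_apply, AddMonoidHom.neg_apply, ha, smul_neg]

theorem h95_mem_H {CC : Type} [AddCommGroup CC] [DistribMulAction GQ CC] {f : M →+ CC} :
    f ∈ h95_H M CC ↔ ∀ (g : GQ) (m : M), f (M.ρ g m) = g • f m := Iff.rfl

end Hom

/-! ### `H`, `I` as `𝔽_p`-spaces; the twisted dual -/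

section HI

variable {p : ℕ} [Fact p.Prime] (M : Rep.{0, 0, 0} (ZMod p) GQ)
  {JJ CC : Type} [AddCommGroup JJ] [DistribMulAction GQ JJ] [AddCommGroup CC]
  [DistribMulAction GQ CC]

theorem h95_hom_nsmul_eq_zero {A : Type} [AddCommGroup A] (f : M →+ A) (m : M) :
    p • f m = 0 := by
  rw [← map_nsmul, ZModModule.char_nsmul_eq_zero p m, map_zero]

theorem h95_H_nsmul (f : h95_H M CC) : p • f = 0 := by
  apply Subtype.ext
  apply AddMonoidHom.ext
  intro m
  rw [AddSubgroup.coe_nsmul, AddMonoidHom.smul_apply]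
  exact h95_hom_nsmul_eq_zero M f.1 m

instance h95_H.instModule : Module (ZMod p) (h95_H M CC) :=
  AddCommGroup.zmodModule (n := p) (h95_H_nsmul M)

/-- the maps in `H` which lift to an equivariant map `M → JJ`, as an additive subgroup. -/
def h95_Isub (j : JJ →+ CC) : AddSubgroup (h95_H M CC) where
  carrier := {f | ∃ f' : M →+ JJ, (∀ (g : GQ) (m : M), f' (M.ρ g m) = g • f' m) ∧
    ∀ m : M, j (f' m) = f.1 m}
  add_mem' := by
    rintro a b ⟨a', ha1, ha2⟩ ⟨b', hb1, hb2⟩
    refine ⟨a' + b', fun g m => ?_, fun m => ?_⟩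
    · rw [AddMonoidHom.add_apply, AddMonoidHom.add_apply, ha1, hb1, smul_add]
    · rw [AddMonoidHom.add_apply, map_add, ha2, hb2]
      rfl
  zero_mem' := ⟨0, fun g m => by
    rw [AddMonoidHom.zero_apply, AddMonoidHom.zero_apply, smul_zero], fun m => by
    rw [AddMonoidHom.zero_apply, map_zero]
    rfl⟩
  neg_mem' := by
    rintro a ⟨a', ha1, ha2⟩
    refine ⟨-a', fun g m => ?_, fun m => ?_⟩
    · rw [AddMonoidHom.neg_apply, AddMonoidHom.neg_apply, ha1, smul_neg]
    · rw [AddMonoidHom.neg_apply, map_neg, ha2]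
      rfl

/-- `I ≤ H`: the maps which lift to an equivariant map `M → JJ`. -/
def h95_I (j : JJ →+ CC) : Submodule (ZMod p) (h95_H M CC) :=
  AddSubgroup.toZModSubmodule p (h95_Isub M j)

theorem h95_mem_I (j : JJ →+ CC) (f : h95_H M CC) :
    f ∈ h95_I M j ↔ ∃ f' : M →+ JJ, (∀ (g : GQ) (m : M), f' (M.ρ g m) = g • f' m) ∧
      ∀ m : M, j (f' m) = f.1 m := Iff.rfl

/-- the additive functional underlying an element of the twisted dual. -/
def h95_dualHom : (M.dualTwist (cycloChar p)) →+ (M →+ ZMod p) :=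
  AddMonoidHom.mk' (fun n => (show Module.Dual (ZMod p) M from n).toAddMonoidHom)
    (fun _ _ => rfl)

/-- an additive functional as an element of the twisted dual. -/
def h95_ofDual (f : M →+ ZMod p) : M.dualTwist (cycloChar p) :=
  (show Module.Dual (ZMod p) M from f.toZModLinearMap p)

theorem h95_dualHom_ofDual (f : M →+ ZMod p) : h95_dualHom M (h95_ofDual M f) = f := rfl

theorem h95_dualHom_injective : Function.Injective (h95_dualHom M) := by
  intro a b h
  have h1 : ∀ m, h95_dualHom M a m = h95_dualHom M b m := fun m => by rw [h]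
  exact LinearMap.ext (f := (show Module.Dual (ZMod p) M from a))
    (g := (show Module.Dual (ZMod p) M from b)) h1

theorem h95_dualHom_ρ (g : GQ) (n : M.dualTwist (cycloChar p)) (m : M) :
    h95_dualHom M ((M.dualTwist (cycloChar p)).ρ g n) m =
      (cycloChar p g : ZMod p) * h95_dualHom M n (M.ρ g⁻¹ m) := rfl

end HI

/-! ### The Kummer sequence after `Hom(M, -)` and the theorem (S1) -/

section S1

variable {p : ℕ} [Fact p.Prime] (S : Finset Nat.Primes) (M : Rep.{0, 0, 0} (ZMod p) GQ)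
  {JJ CC : Type} [AddCommGroup JJ] [DistribMulAction GQ JJ] [AddCommGroup CC]
  [DistribMulAction GQ CC]

/-- `H` is finite when the `p`-torsion of the base-level invariants of `CC` is. -/
theorem h95_H_finite [Finite M] (L₀ : h56_Level S) (hL₀M : ∀ s ∈ L₀.U, ∀ m : M, M.ρ s m = m)
    (hFIN : {c : CC | p • c = 0 ∧ ∀ s ∈ L₀.U, s • c = c}.Finite) : Finite (h95_H M CC) := by
  have : Finite ↥{c : CC | p • c = 0 ∧ ∀ s ∈ L₀.U, s • c = c} := hFIN.to_subtype
  let φ : h95_H M CC → (M → ↥{c : CC | p • c = 0 ∧ ∀ s ∈ L₀.U, s • c = c}) := fun f m =>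
    ⟨f.1 m, h95_hom_nsmul_eq_zero M f.1 m, fun s hs => by rw [← f.2 s m, hL₀M s hs m]⟩
  refine Finite.of_injective φ fun a b hab => ?_
  apply Subtype.ext
  apply AddMonoidHom.ext
  intro m
  exact congrArg Subtype.val (congrFun hab m)

variable (e : ↥S → JJ →+ ZMod p)

/-- the compatible families: the functions `ψ q : G_ℚ → 𝔽_p(1)` (`q ∈ S`) which are
`r_q(G_q)`-equivariant and have a common `S`-level. -/
def h95_IsFam (ψ : ↥S → GQ → ZMod p) : Prop :=
  (∀ (q : ↥S) (τ : primeLocalGaloisGroup q.1) (g : GQ),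
    ψ q (primeLocalToGlobal q.1 τ * g) =
      (cycloChar p (primeLocalToGlobal q.1 τ) : ZMod p) * ψ q g) ∧
  ∃ F : IntermediateField ℚ (AlgebraicClosure ℚ), F.IsUnramifiedOutside S ∧
    ∀ (q : ↥S) (g s : GQ), s ∈ F.fixingSubgroup → ψ q (g * s) = ψ q g

variable {S M e}

theorem h95_JJ_ext (he0 : ∀ x : JJ, (∀ (q : ↥S) (g : GQ), e q (g • x) = 0) → x = 0)
    {x y : JJ} (h : ∀ (q : ↥S) (g : GQ), e q (g • x) = e q (g • y)) : x = y := by
  rw [← sub_eq_zero]
  exact he0 _ fun q g => by rw [smul_sub, map_sub, h, sub_self]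

variable (S M e)

/-- **(S1)**: the connecting map `δ : H → H¹(G_ℚ, M')`, with `range δ = sha₁` and `ker δ = I`. -/
theorem h95_S1 (hp2 : p ≠ 2) (hpS : pPrime p ∈ S) [Finite M]
    (L₀ : h56_Level S) (hL₀M : ∀ s ∈ L₀.U, ∀ m : M, M.ρ s m = m)
    (hL₀χ : ∀ s ∈ L₀.U, cycloChar p s = 1)
    -- `JJ` is the `S`-smooth coinduced module of `μ_p`
    (he1 : ∀ (q : ↥S) (τ : primeLocalGaloisGroup q.1) (x : JJ),
      e q (primeLocalToGlobal q.1 τ • x) =
        (cycloChar p (primeLocalToGlobal q.1 τ) : ZMod p) * e q x)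
    (he0 : ∀ x : JJ, (∀ (q : ↥S) (g : GQ), e q (g • x) = 0) → x = 0)
    (he2 : ∀ ψ : ↥S → GQ → ZMod p, h95_IsFam S ψ →
      ∃ x : JJ, ∀ (q : ↥S) (g : GQ), e q (g • x) = ψ q g)
    (hsmJ : ∀ x : JJ, ∃ F : IntermediateField ℚ (AlgebraicClosure ℚ), F.IsUnramifiedOutside S ∧
      ∀ s ∈ F.fixingSubgroup, s • x = x)
    -- the Kummer sequence `0 → μ_p → JJ → CC[p] → 0`
    (j : JJ →+ CC) (hj : ∀ (g : GQ) (x : JJ), j (g • x) = g • j x)
    (hK1 : ∀ x : JJ, j x = 0 ↔
      ∃ k : ZMod p, ∀ (q : ↥S) (g : GQ), e q (g • x) = (cycloChar p g : ZMod p) * k)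
    (hK2 : ∀ c : CC, p • c = 0 → ∃ x : JJ, j x = c) :
    ∃ δ : h95_H M CC →ₗ[ZMod p] H1 (M.dualTwist (cycloChar p)),
      LinearMap.range δ = sha₁ S (M.dualTwist (cycloChar p)) ∧
      LinearMap.ker δ = h95_I M j := by
  classical
  have hpprime : p.Prime := Fact.out
  let q₀ : ↥S := ⟨pPrime p, hpS⟩
  -- `χ` is multiplicative and trivial on `L₀.U`
  have hχmul : ∀ g h : GQ, (cycloChar p (g * h) : ZMod p) =
      (cycloChar p g : ZMod p) * (cycloChar p h : ZMod p) := fun g h => by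
    rw [map_mul, Units.val_mul]
  have hχone : (cycloChar p (1 : GQ) : ZMod p) = 1 := by rw [map_one, Units.val_one]
  have hχinv : ∀ g : GQ, (cycloChar p g : ZMod p) * (cycloChar p g⁻¹ : ZMod p) = 1 := fun g => by
    rw [← hχmul, mul_inv_cancel, hχone]
  -- the diagonal `μ : 𝔽_p → JJ`
  have hμfam : ∀ k : ZMod p, h95_IsFam S (fun (_ : ↥S) (g : GQ) => (cycloChar p g : ZMod p) * k) := by
    intro k
    refine ⟨fun q τ g => ?_, L₀.1, L₀.2.1, fun q g s hs => ?_⟩
    · show (cycloChar p (primeLocalToGlobal q.1 τ * g) : ZMod p) * k =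
        (cycloChar p (primeLocalToGlobal q.1 τ) : ZMod p) * ((cycloChar p g : ZMod p) * k)
      rw [hχmul, mul_assoc]
    show (cycloChar p (g * s) : ZMod p) * k = (cycloChar p g : ZMod p) * k
    rw [hχmul, hL₀χ s hs, Units.val_one, mul_one]
  choose μ₀ hμ₀ using fun k => he2 _ (hμfam k)
  let μ : ZMod p →+ JJ := AddMonoidHom.mk' μ₀ (fun a b => by
    apply h95_JJ_ext he0
    intro q g
    rw [smul_add, map_add, hμ₀, hμ₀, hμ₀, mul_add])
  have hμ : ∀ (k : ZMod p) (q : ↥S) (g : GQ), e q (g • μ k) = (cycloChar p g : ZMod p) * k :=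
    fun k q g => hμ₀ k q g
  have hμsmul : ∀ (g : GQ) (k : ZMod p), g • μ k = μ ((cycloChar p g : ZMod p) * k) := by
    intro g k
    apply h95_JJ_ext he0
    intro q h
    rw [← mul_smul, hμ, hμ, hχmul, mul_assoc]
  have hjμ : ∀ k : ZMod p, j (μ k) = 0 := fun k => (hK1 _).2 ⟨k, hμ k⟩
  -- the maps `i` and `pr`
  let i : (M.dualTwist (cycloChar p)) →+ h95_Hom M JJ :=
    ((h95_Hom.equiv M JJ).symm.toAddMonoidHom.comp (AddMonoidHom.compHom μ)).comp (h95_dualHom M)
  have hi_apply : ∀ (n : M.dualTwist (cycloChar p)) (m : M),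
      h95_Hom.equiv M JJ (i n) m = μ (h95_dualHom M n m) := fun n m => rfl
  let pr : h95_Hom M JJ →+ h95_Hom M CC :=
    ((h95_Hom.equiv M CC).symm.toAddMonoidHom.comp (AddMonoidHom.compHom j)).comp
      (h95_Hom.equiv M JJ).toAddMonoidHom
  have hpr_apply : ∀ (b : h95_Hom M JJ) (m : M),
      h95_Hom.equiv M CC (pr b) m = j (h95_Hom.equiv M JJ b m) := fun b m => rfl
  have hi : Function.Injective i := by
    intro a b hab
    apply h95_dualHom_injective M
    apply AddMonoidHom.ext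
    intro m
    have h1 : μ (h95_dualHom M a m) = μ (h95_dualHom M b m) := by
      rw [← hi_apply, ← hi_apply, hab]
    have h2 := congrArg (fun x => e q₀ ((1 : GQ) • x)) h1
    simp only [hμ, hχone, one_mul] at h2
    exact h2
  have hiG : ∀ (g : GQ) (n : M.dualTwist (cycloChar p)),
      i ((M.dualTwist (cycloChar p)).ρ g n) = g • i n := by
    intro g n
    apply (h95_Hom.equiv M JJ).injective
    apply AddMonoidHom.ext
    intro m
    rw [hi_apply, h95_Hom.smul_apply, hi_apply, hμsmul, h95_dualHom_ρ]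
  have hprG : ∀ (g : GQ) (b : h95_Hom M JJ), pr (g • b) = g • pr b := by
    intro g b
    apply (h95_Hom.equiv M CC).injective
    apply AddMonoidHom.ext
    intro m
    rw [hpr_apply, h95_Hom.smul_apply, h95_Hom.smul_apply, hpr_apply, hj]
  have hex' : ∀ n, pr (i n) = 0 := by
    intro n
    apply (h95_Hom.equiv M CC).injective
    apply AddMonoidHom.ext
    intro m
    rw [hpr_apply, hi_apply, hjμ]
    rfl
  have hex : ∀ b : h95_Hom M JJ, pr b = 0 → ∃ n, i n = b := by
    intro b hb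
    have h1 : ∀ m : M, j (h95_Hom.equiv M JJ b m) = 0 := by
      intro m
      rw [← hpr_apply, hb]
      rfl
    refine ⟨h95_ofDual M ((e q₀).comp (h95_Hom.equiv M JJ b)), ?_⟩
    apply (h95_Hom.equiv M JJ).injective
    apply AddMonoidHom.ext
    intro m
    rw [hi_apply, h95_dualHom_ofDual]
    obtain ⟨k, hk⟩ := (hK1 _).1 (h1 m)
    have hk1 : e q₀ (h95_Hom.equiv M JJ b m) = k := by
      have := hk q₀ 1
      rwa [one_smul, hχone, one_mul] at this
    apply h95_JJ_ext he0
    intro q g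
    rw [hμ, hk]
    show _ * e q₀ (h95_Hom.equiv M JJ b m) = _
    rw [hk1]
  have heμ : ∀ (k : ZMod p) (q : ↥S), e q (μ k) = k := by
    intro k q
    have := hμ k q 1
    rwa [one_smul, hχone, one_mul] at this
  -- `JJ` and `CC[p]` are `𝔽_p`-spaces; lifting
  have hJJp : ∀ x : JJ, p • x = 0 := by
    intro x
    apply he0
    intro q g
    rw [smul_comm g p x, map_nsmul, nsmul_eq_mul, ZMod.natCast_self, zero_mul]
  have hpr : Function.Surjective pr := by
    intro f
    have instJJ : Module (ZMod p) JJ := AddCommGroup.zmodModule (n := p) hJJp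
    let T : AddSubgroup CC := (nsmulAddMonoidHom (α := CC) p).ker
    have hT : ∀ c : CC, c ∈ T ↔ p • c = 0 := fun c => Iff.rfl
    have instT : Module (ZMod p) T :=
      AddCommGroup.zmodModule (n := p) (fun c => Subtype.ext ((hT c.1).1 c.2))
    let j' : JJ →+ T := j.codRestrict T (fun x => (hT _).2 (by rw [← map_nsmul, hJJp, map_zero]))
    let f' : M →+ T := (h95_Hom.equiv M CC f).codRestrict T
      (fun m => (hT _).2 (h95_hom_nsmul_eq_zero M _ m))
    have hj' : Function.Surjective (j'.toZModLinearMap p) := by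
      intro c
      obtain ⟨x, hx⟩ := hK2 c.1 ((hT c.1).1 c.2)
      exact ⟨x, Subtype.ext hx⟩
    obtain ⟨h, hh⟩ := Module.projective_lifting_property (j'.toZModLinearMap p)
      (f'.toZModLinearMap p) hj'
    refine ⟨(h95_Hom.equiv M JJ).symm h.toAddMonoidHom, ?_⟩
    apply (h95_Hom.equiv M CC).injective
    apply AddMonoidHom.ext
    intro m
    have h1 := congrArg (fun φ : M →ₗ[ZMod p] T => ((φ m : T) : CC)) hh
    exact h1
  -- smoothness of `B`
  have hsm : ∀ b : h95_Hom M JJ, ∃ F : IntermediateField ℚ (AlgebraicClosure ℚ),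
      F.IsUnramifiedOutside S ∧ ∀ s ∈ F.fixingSubgroup, s • b = b := by
    intro b
    have hX : ∀ m : M, IsLevelConstantS₁ S (fun g : GQ => g • h95_Hom.equiv M JJ b m) := by
      intro m
      obtain ⟨F, hF, hFx⟩ := hsmJ (h95_Hom.equiv M JJ b m)
      exact ⟨F, hF, fun g s hs => by
        show (g * s) • h95_Hom.equiv M JJ b m = g • h95_Hom.equiv M JJ b m
        rw [mul_smul, hFx s hs]⟩
    obtain ⟨L, hL₀L, hL⟩ := h56_exists_common_level₁ L₀
      (fun (m : M) (g : GQ) => g • h95_Hom.equiv M JJ b m) hX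
    refine ⟨L.1, L.2.1, fun s hs => ?_⟩
    apply (h95_Hom.equiv M JJ).injective
    apply AddMonoidHom.ext
    intro m
    have hs' : s⁻¹ ∈ L₀.U := h56_Level.U_anti hL₀L (inv_mem hs)
    rw [h95_Hom.smul_apply, hL₀M _ hs' m]
    have := hL m 1 s hs
    simpa using this
  -- Shapiro in degree 1
  have hLOC1 : ∀ c : GQ → M.dualTwist (cycloChar p),
      c ∈ cocycles₁ (M.dualTwist (cycloChar p)) → IsLevelConstantS₁ S c →
      ((∃ b : h95_Hom M JJ, ∀ g : GQ, i (c g) = g • b - b) ↔
        ∀ q : ↥S, ∃ n : M.dualTwist (cycloChar p), ∀ τ : primeLocalGaloisGroup q.1,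
          c (primeLocalToGlobal q.1 τ) =
            (M.dualTwist (cycloChar p)).ρ (primeLocalToGlobal q.1 τ) n - n) := by
    intro c hc hlev
    have hcoc : ∀ g h : GQ, c (g * h) = (M.dualTwist (cycloChar p)).ρ g (c h) + c g :=
      (mem_cocycles₁_iff c).1 hc
    constructor
    · rintro ⟨b, hb⟩ q
      refine ⟨h95_ofDual M ((e q).comp (h95_Hom.equiv M JJ b)), fun τ => ?_⟩
      apply h95_dualHom_injective M
      apply AddMonoidHom.ext
      intro m
      have h1 := congrArg (fun b' => e q (h95_Hom.equiv M JJ b' m)) (hb (primeLocalToGlobal q.1 τ))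
      simp only [hi_apply, heμ, map_sub, AddMonoidHom.sub_apply, h95_Hom.smul_apply, he1] at h1
      rw [h1, map_sub, AddMonoidHom.sub_apply, h95_dualHom_ρ, h95_dualHom_ofDual]
      rfl
    · intro hloc
      choose n hn using hloc
      obtain ⟨F, hF, hcF⟩ := hlev
      obtain ⟨L, hL₀L, hFL⟩ := L₀.exists_ge F hF
      -- the families
      let ψ : M → ↥S → GQ → ZMod p := fun m q g => h95_dualHom M (c g + n q) (M.ρ g m)
      have hψ : ∀ m, h95_IsFam S (ψ m) := by
        intro m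
        refine ⟨fun q τ g => ?_, L.1, L.2.1, fun q g s hs => ?_⟩
        · show h95_dualHom M (c (primeLocalToGlobal q.1 τ * g) + n q)
              (M.ρ (primeLocalToGlobal q.1 τ * g) m) = _ * h95_dualHom M (c g + n q) (M.ρ g m)
          have h1 : c (primeLocalToGlobal q.1 τ * g) + n q =
              (M.dualTwist (cycloChar p)).ρ (primeLocalToGlobal q.1 τ) (c g + n q) := by
            rw [hcoc, hn q τ, map_add]
            abel
          rw [h1, h95_dualHom_ρ, map_mul, Module.End.mul_apply, ← Module.End.mul_apply (M.ρ _⁻¹),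
            ← map_mul, inv_mul_cancel, map_one, Module.End.one_apply]
        · show h95_dualHom M (c (g * s) + n q) (M.ρ (g * s) m) =
            h95_dualHom M (c g + n q) (M.ρ g m)
          have hs0 : s ∈ L₀.U := h56_Level.U_anti hL₀L hs
          rw [hcF g s (IntermediateField.fixingSubgroup_antitone hFL hs), map_mul,
            Module.End.mul_apply, hL₀M s hs0 m]
      choose b₀ hb₀ using fun m => he2 _ (hψ m)
      let bhom : M →+ JJ := AddMonoidHom.mk' b₀ (fun m m' => by
        apply h95_JJ_ext he0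
        intro q g
        rw [smul_add, map_add, hb₀, hb₀, hb₀]
        show h95_dualHom M (c g + n q) (M.ρ g (m + m')) =
          h95_dualHom M (c g + n q) (M.ρ g m) + h95_dualHom M (c g + n q) (M.ρ g m')
        rw [map_add (M.ρ g) m m', map_add (h95_dualHom M (c g + n q))])
      refine ⟨(h95_Hom.equiv M JJ).symm bhom, fun σ => ?_⟩
      apply (h95_Hom.equiv M JJ).injective
      apply AddMonoidHom.ext
      intro m
      rw [hi_apply, map_sub, AddMonoidHom.sub_apply, h95_Hom.smul_apply]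
      apply h95_JJ_ext he0
      intro q g
      rw [hμ, smul_sub, map_sub, ← mul_smul]
      show _ = e q ((g * σ) • b₀ (M.ρ σ⁻¹ m)) - e q (g • b₀ m)
      rw [hb₀, hb₀]
      show _ = h95_dualHom M (c (g * σ) + n q) (M.ρ (g * σ) (M.ρ σ⁻¹ m)) -
        h95_dualHom M (c g + n q) (M.ρ g m)
      have h1 : M.ρ (g * σ) (M.ρ σ⁻¹ m) = M.ρ g m := by
        rw [← Module.End.mul_apply, ← map_mul, mul_assoc, mul_inv_cancel, mul_one]
      have h2 : c (g * σ) + n q = (M.dualTwist (cycloChar p)).ρ g (c σ) + (c g + n q) := by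
        rw [hcoc]
        abel
      rw [h1, h2, map_add, AddMonoidHom.add_apply, add_sub_cancel_right, h95_dualHom_ρ,
        ← Module.End.mul_apply, ← map_mul, inv_mul_cancel, map_one, Module.End.one_apply]
  -- the connecting map
  obtain ⟨δ, hδ1, hδ2⟩ := h95_delta_of_interface hp2 S M i hi hiG pr hprG hpr hex hex' hsm hLOC1
  let toFix : h95_H M CC →+ ↥(h95_fixedPts (h95_Hom M CC)) :=
    AddMonoidHom.mk' (fun f => ⟨(h95_Hom.equiv M CC).symm f.1,
      (h95_Hom.fixed_iff ((h95_Hom.equiv M CC).symm f.1)).2 f.2⟩) (fun _ _ => rfl)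
  have htoFix : Function.Surjective toFix := by
    intro f
    exact ⟨⟨h95_Hom.equiv M CC f.1, (h95_Hom.fixed_iff f.1).1 f.2⟩, rfl⟩
  refine ⟨(δ.comp toFix).toZModLinearMap p, ?_, ?_⟩
  · ext x
    rw [LinearMap.mem_range, hδ1]
    constructor
    · rintro ⟨f, rfl⟩
      exact ⟨toFix f, rfl⟩
    · rintro ⟨f, rfl⟩
      obtain ⟨f, rfl⟩ := htoFix f
      exact ⟨f, rfl⟩
  · ext f
    rw [LinearMap.mem_ker, h95_mem_I]
    refine (hδ2 (toFix f)).trans ⟨?_, ?_⟩
    · rintro ⟨b, hb, hbf⟩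
      refine ⟨h95_Hom.equiv M JJ b, (h95_Hom.fixed_iff b).1 hb, fun m => ?_⟩
      rw [← hpr_apply, hbf]
      rfl
    · rintro ⟨f', hf', hf'j⟩
      refine ⟨(h95_Hom.equiv M JJ).symm f', (h95_Hom.fixed_iff _).2 hf', ?_⟩
      apply (h95_Hom.equiv M CC).injective
      apply AddMonoidHom.ext
      intro m
      rw [hpr_apply]
      exact hf'j m

end S1

end Fermat.Agent.S55
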