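import Fermat.Statements.S55

/-!
# S55, bridge layer: the archimedean place does not contribute (p odd)

* `h97_cocycles₁_le_coboundaries₁`, `h97_cocycles₂_le_map_d₁₂` : for a finite group whose order
  is invertible in the coefficient ring, 1-cocycles and 2-cocycles are coboundaries (explicit
  averaging).
* `h97_H1_arch_eq_zero`, `h97_continuousH2_arch_eq_zero` : the local terms at the archimedean
  index vanish for `ZMod p`-coefficients, `p` odd.
* `h97_mem_sha₁_iff`, `h97_mem_sha₂_iff` : the Tate-Shafarevich groups are cut out by the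
  finite primes of `S` only.
-/

set_option autoImplicit false

universe u

open CategoryTheory Module groupCohomology ExtCitation

namespace Fermat.Agent.S55

section Average

variable {k G : Type u} [CommRing k] [Group G] [Fintype G] (A : Rep.{u, u, u} k G)

/-- If `|G|` is invertible in `k`, every 1-cocycle is a coboundary. -/
theorem h97_cocycles₁_le_coboundaries₁ (n' : k) (hn : n' * (Fintype.card G : k) = 1)
    (f : G → A) (hf : f ∈ cocycles₁ A) : f ∈ coboundaries₁ A := by
  rw [mem_cocycles₁_iff] at hf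
  refine ⟨-(n' • ∑ h, f h), ?_⟩
  ext g
  rw [d₀₁_hom_apply]
  have h1 : ∑ h, f (g * h) = ∑ h, f h :=
    Fintype.sum_bijective (g * ·) (Group.mulLeft_bijective g) _ _ (fun _ => rfl)
  have h2 : ∑ h, f (g * h) = A.ρ g (∑ h, f h) + (Fintype.card G : k) • f g := by
    simp_rw [hf]
    rw [Finset.sum_add_distrib, map_sum, Finset.sum_const, Finset.card_univ,
      Nat.cast_smul_eq_nsmul]
  have key : (Fintype.card G : k) • f g = ∑ h, f h - A.ρ g (∑ h, f h) := by
    rw [eq_sub_iff_add_eq', ← h2, h1]
  have : f g = n' • ((Fintype.card G : k) • f g) := by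
    rw [smul_smul, hn, one_smul]
  rw [this, key, map_neg, map_smul, smul_sub]
  abel

/-- If `|G|` is invertible in `k`, every 2-cocycle is the coboundary of an explicit
1-cochain. -/
theorem h97_cocycles₂_eq_d₁₂ (n' : k) (hn : n' * (Fintype.card G : k) = 1)
    (f : G × G → A) (hf : f ∈ cocycles₂ A) :
    (d₁₂ A).hom (fun g => n' • ∑ j, f (g, j)) = f := by
  rw [mem_cocycles₂_iff] at hf
  ext ⟨g, h⟩
  rw [d₁₂_hom_apply]
  have h1 : ∑ j, f (g, h * j) = ∑ j, f (g, j) :=
    Fintype.sum_bijective (h * ·) (Group.mulLeft_bijective h) _ _ (fun _ => rfl)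
  have h2 : ∑ j, (f (g * h, j) + f (g, h)) = ∑ j, (A.ρ g (f (h, j)) + f (g, h * j)) :=
    Finset.sum_congr rfl fun j _ => hf g h j
  rw [Finset.sum_add_distrib, Finset.sum_add_distrib, Finset.sum_const, Finset.card_univ,
    ← Nat.cast_smul_eq_nsmul k, h1, ← map_sum] at h2
  have key : (Fintype.card G : k) • f (g, h) =
      A.ρ g (∑ j, f (h, j)) - ∑ j, f (g * h, j) + ∑ j, f (g, j) := by
    rw [sub_add_eq_add_sub, eq_sub_iff_add_eq', h2]
  have : f (g, h) = n' • ((Fintype.card G : k) • f (g, h)) := by
    rw [smul_smul, hn, one_smul]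
  rw [this, key, map_smul, smul_add, smul_sub]

end Average

section Level

variable {k G : Type u} [CommRing k] [Group G]
  (r : G →* (AlgebraicClosure ℚ ≃ₐ[ℚ] AlgebraicClosure ℚ))

/-- If some finite level meets the image of `r` trivially, every cochain is level-constant. -/
theorem h97_isLevelConstant₁_of_trivial
    (hlev : ∃ F : IntermediateField ℚ (AlgebraicClosure ℚ), FiniteDimensional ℚ F ∧
      ∀ s : G, r s ∈ F.fixingSubgroup → s = 1) {X : Type*} (f : G → X) :
    IsLevelConstant₁ r f := by
  obtain ⟨F, hF, h⟩ := hlev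
  exact ⟨F, hF, fun g s hs => by rw [h s hs, mul_one]⟩

/-- For a finite group of order invertible in `k` whose image meets some finite level
trivially, the continuous `H²` vanishes. -/
theorem h97_continuousH2_eq_zero [Finite G] (M : Rep k G) (n' : k)
    (hn : n' * (Nat.card G : k) = 1)
    (hlev : ∃ F : IntermediateField ℚ (AlgebraicClosure ℚ), FiniteDimensional ℚ F ∧
      ∀ s : G, r s ∈ F.fixingSubgroup → s = 1) (x : continuousH2 r M) : x = 0 := by
  have := Fintype.ofFinite G
  rw [Nat.card_eq_fintype_card] at hn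
  obtain ⟨c, rfl⟩ := Submodule.mkQ_surjective _ x
  change continuousH2π r M c = 0
  rw [continuousH2π_eq_zero_iff, mem_levelCoboundaries₂_iff]
  exact ⟨_, h97_isLevelConstant₁_of_trivial r hlev _, h97_cocycles₂_eq_d₁₂ M n' hn _ c.2.1⟩

/-- For a finite group of order invertible in `k`, `H¹` vanishes. -/
theorem h97_H1_eq_zero [Finite G] (M : Rep k G) (n' : k)
    (hn : n' * (Nat.card G : k) = 1) (x : H1 M) : x = 0 := by
  have := Fintype.ofFinite G
  rw [Nat.card_eq_fintype_card] at hn
  induction x using H1_induction_on with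
  | h c =>
    rw [H1π_eq_zero_iff]
    exact h97_cocycles₁_le_coboundaries₁ M n' hn _ c.2

end Level

section Arch

/-- Some finite level meets the archimedean decomposition group trivially: complex conjugation
moves a square root of `-1`. -/
theorem h97_arch_level : ∃ F : IntermediateField ℚ (AlgebraicClosure ℚ),
    FiniteDimensional ℚ F ∧
      ∀ s : archimedeanDecomposition, archimedeanLoc s ∈ F.fixingSubgroup → s = 1 := by
  obtain ⟨i, hi⟩ := IsAlgClosed.exists_pow_nat_eq (-1 : AlgebraicClosure ℚ) (n := 2) (by norm_num)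
  refine ⟨IntermediateField.adjoin ℚ {i}, ?_, ?_⟩
  · have halg : Algebra.IsAlgebraic ℚ (AlgebraicClosure ℚ) := AlgebraicClosure.isAlgebraic ℚ
    exact IntermediateField.adjoin.finiteDimensional (halg.isAlgebraic i).isIntegral
  · rintro ⟨s, hs⟩ hfix
    obtain ⟨n, rfl⟩ := Subgroup.mem_zpowers_iff.mp hs
    apply Subtype.ext
    change complexConjugation ^ n = 1
    rcases Int.even_or_odd' n with ⟨m, rfl | rfl⟩
    · rw [zpow_mul, zpow_ofNat, complexConjugation_sq, one_zpow]
    · exfalso
      have hc : complexConjugation ^ (2 * m + 1) = complexConjugation := by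
        rw [zpow_add, zpow_mul, zpow_ofNat, complexConjugation_sq, one_zpow, one_mul, zpow_one]
      have hi' : complexConjugation i = i := by
        have := (IntermediateField.mem_fixingSubgroup_iff _ _).mp hfix i
          (IntermediateField.mem_adjoin_simple_self ℚ i)
        change (complexConjugation ^ (2 * m + 1)) i = i at this
        rwa [hc] at this
      have h1 := complexEmbedding_complexConjugation i
      rw [hi'] at h1
      have h2 : (complexEmbedding i) ^ 2 = -1 := by
        rw [← map_pow, hi, map_neg, map_one]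
      obtain ⟨t, ht⟩ := Complex.conj_eq_iff_real.mp h1.symm
      rw [ht] at h2
      have h3 : ((t ^ 2 : ℝ) : ℂ) = ((-1 : ℝ) : ℂ) := by push_cast; exact h2
      have h4 : t ^ 2 = -1 := Complex.ofReal_injective h3
      nlinarith [sq_nonneg t]

instance h97_arch_finite : Finite archimedeanDecomposition := by
  have h : IsOfFinOrder complexConjugation :=
    isOfFinOrder_iff_pow_eq_one.mpr ⟨2, by norm_num, complexConjugation_sq⟩
  exact (finite_zpowers.mpr h).to_subtype

/-- The order of the archimedean decomposition group is invertible modulo an odd prime. -/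
theorem h97_arch_card_inv {p : ℕ} [Fact p.Prime] (hp2 : p ≠ 2) :
    ∃ n' : ZMod p, n' * (Nat.card archimedeanDecomposition : ZMod p) = 1 := by
  have hcard : Nat.card archimedeanDecomposition ∣ 2 := by
    change Nat.card (Subgroup.zpowers complexConjugation) ∣ 2
    rw [Nat.card_zpowers]
    exact orderOf_dvd_of_pow_eq_one complexConjugation_sq
  have hp : p.Prime := Fact.out
  have hcop : Nat.Coprime (Nat.card archimedeanDecomposition) p := by
    apply Nat.Coprime.coprime_dvd_left hcard
    exact (Nat.coprime_primes Nat.prime_two hp).mpr (Ne.symm hp2)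
  have hunit : IsUnit ((Nat.card archimedeanDecomposition : ℕ) : ZMod p) :=
    (ZMod.unitOfCoprime _ hcop).isUnit
  obtain ⟨n', hn'⟩ := hunit.exists_left_inv
  exact ⟨n', hn'⟩

variable {p : ℕ} [Fact p.Prime]

/-- The archimedean local `H¹` vanishes for `p` odd. -/
theorem h97_H1_arch_eq_zero (hp2 : p ≠ 2)
    (A : Rep (ZMod p) (AlgebraicClosure ℚ ≃ₐ[ℚ] AlgebraicClosure ℚ))
    (x : H1 (Rep.res archimedeanLoc A)) : x = 0 := by
  obtain ⟨n', hn'⟩ := h97_arch_card_inv (p := p) hp2
  exact h97_H1_eq_zero _ n' hn' x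

/-- The archimedean local continuous `H²` vanishes for `p` odd. -/
theorem h97_continuousH2_arch_eq_zero (hp2 : p ≠ 2)
    (A : Rep (ZMod p) (AlgebraicClosure ℚ ≃ₐ[ℚ] AlgebraicClosure ℚ))
    (x : continuousH2 archimedeanLoc (Rep.res archimedeanLoc A)) : x = 0 := by
  obtain ⟨n', hn'⟩ := h97_arch_card_inv (p := p) hp2
  exact h97_continuousH2_eq_zero archimedeanLoc _ n' hn' h97_arch_level x

/-- `sha₁` is cut out by the finite primes of `S` (for `p` odd). -/
theorem h97_mem_sha₁_iff (hp2 : p ≠ 2) (S : Finset Nat.Primes)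
    (A : Rep (ZMod p) (AlgebraicClosure ℚ ≃ₐ[ℚ] AlgebraicClosure ℚ)) (x : H1 A) :
    x ∈ sha₁ S A ↔ x ∈ continuousH1S S A ∧
      ∀ q : ↥S, (groupCohomology.map (primeLocalToGlobal q.1)
        (𝟙 (Rep.res (primeLocalToGlobal q.1) A)) 1).hom x = 0 := by
  simp only [sha₁, Submodule.mem_inf, LinearMap.mem_ker]
  refine and_congr Iff.rfl ⟨fun h q => ?_, fun h => ?_⟩
  · exact congrFun h (Sum.inr q)
  · funext v
    rcases v with ⟨⟩ | q
    · exact h97_H1_arch_eq_zero hp2 A _
    · exact h q

/-- `sha₂` is cut out by the finite primes of `S` (for `p` odd). -/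
theorem h97_mem_sha₂_iff (hp2 : p ≠ 2) (S : Finset Nat.Primes)
    (M : Rep (ZMod p) (AlgebraicClosure ℚ ≃ₐ[ℚ] AlgebraicClosure ℚ)) (x : continuousH2S S M) :
    x ∈ sha₂ S M ↔ ∀ q : ↥S, locRes₂S S M (primeLocalToGlobal q.1) x = 0 := by
  simp only [sha₂, LinearMap.mem_ker]
  refine ⟨fun h q => ?_, fun h => ?_⟩
  · exact congrFun h (Sum.inr q)
  · funext v
    rcases v with ⟨⟩ | q
    · exact h97_continuousH2_arch_eq_zero hp2 M _
    · exact h q

end Arch

end Fermat.Agent.S55
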