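import Mathlib

/-!
# S55: dimension count for a three-term exact sequence, in components

`h97_count_exact` : for linear maps `f i : V → W i` and `g i : W i → U` over a field such that
`V → ∏ W i → U → 0` is exact (stated in components),
`dim (⋂ ker f i) + ∑ dim W i = dim V + dim U`.
-/

set_option autoImplicit false

open Module

namespace Fermat.Agent.S55

theorem h97_count_exact {K : Type*} [Field K] {V U : Type*} [AddCommGroup V] [Module K V]
    [AddCommGroup U] [Module K U] {ι : Type*} [Fintype ι] {W : ι → Type*}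
    [∀ i, AddCommGroup (W i)] [∀ i, Module K (W i)]
    [FiniteDimensional K V] [∀ i, FiniteDimensional K (W i)]
    (f : ∀ i, V →ₗ[K] W i) (g : ∀ i, W i →ₗ[K] U)
    (hsurj : ∀ u : U, ∃ w : ∀ i, W i, ∑ i, g i (w i) = u)
    (hex : ∀ w : ∀ i, W i, ∑ i, g i (w i) = 0 ↔ ∃ v : V, ∀ i, f i v = w i) :
    finrank K ↥(⨅ i, LinearMap.ker (f i)) + ∑ i, finrank K (W i) =
      finrank K V + finrank K U := by
  classical
  let F : V →ₗ[K] (∀ i, W i) := LinearMap.pi f
  let G : (∀ i, W i) →ₗ[K] U := ∑ i, (g i) ∘ₗ LinearMap.proj i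
  have hG : ∀ w, G w = ∑ i, g i (w i) := by
    intro w
    simp [G, LinearMap.sum_apply]
  have hkerF : LinearMap.ker F = ⨅ i, LinearMap.ker (f i) := by
    ext v
    simp only [LinearMap.mem_ker, Submodule.mem_iInf, F]
    constructor
    · intro h i
      exact congrFun h i
    · intro h
      funext i
      exact h i
  have hrange : LinearMap.range F = LinearMap.ker G := by
    ext w
    rw [LinearMap.mem_ker, hG, hex w]
    constructor
    · rintro ⟨v, rfl⟩
      exact ⟨v, fun i => rfl⟩
    · rintro ⟨v, hv⟩
      exact ⟨v, funext hv⟩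
  have hGsurj : LinearMap.range G = ⊤ := by
    rw [LinearMap.range_eq_top]
    intro u
    obtain ⟨w, hw⟩ := hsurj u
    exact ⟨w, (hG w).trans hw⟩
  have h1 := LinearMap.finrank_range_add_finrank_ker F
  have h2 := LinearMap.finrank_range_add_finrank_ker G
  rw [hGsurj, finrank_top, Module.finrank_pi_fintype, ← hrange] at h2
  rw [hkerF] at h1
  omega

end Fermat.Agent.S55
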