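import Fermat.Statements.S55

/-!
# S55, top layer: the pairing from an equality of dimensions

`h97_exists_pairing` : two finite-dimensional spaces of the same dimension carry a bilinear
pairing that is nondegenerate on both sides.

`h97_S55_of_finrank` : the statement of S55 from finiteness and the equality of the dimensions
of the two Tate-Shafarevich groups.
-/

set_option autoImplicit false

open CategoryTheory Module groupCohomology ExtCitation

namespace Fermat.Agent.S55

/-- Two finite-dimensional spaces of the same dimension carry a perfect pairing. -/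
theorem h97_exists_pairing {k : Type*} [Field k] {V W : Type*} [AddCommGroup V] [Module k V]
    [AddCommGroup W] [Module k W] [FiniteDimensional k V] [FiniteDimensional k W]
    (h : finrank k V = finrank k W) :
    ∃ B : V →ₗ[k] W →ₗ[k] k,
      (∀ y, (∀ x, B y x = 0) → y = 0) ∧ (∀ x, (∀ y, B y x = 0) → x = 0) := by
  have h' : finrank k V = finrank k (Module.Dual k W) := by
    rw [h, Subspace.dual_finrank_eq]
  let e : V ≃ₗ[k] Module.Dual k W := LinearEquiv.ofFinrankEq V (Module.Dual k W) h'
  refine ⟨e.toLinearMap, ?_, ?_⟩
  · intro y hy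
    have : e y = 0 := LinearMap.ext fun x => by simpa using hy x
    simpa using this
  · intro x hx
    by_contra hx0
    obtain ⟨f, hf⟩ : ∃ f : Module.Dual k W, f x ≠ 0 := by
      by_contra hcon
      simp only [not_exists, not_not] at hcon
      exact hx0 ((Module.forall_dual_apply_eq_zero_iff k x).mp hcon)
    apply hf
    have := hx (e.symm f)
    simpa using this

/-- The statement of S55 from the equality of the dimensions of `sha₁` and `sha₂`. -/
theorem h97_S55_of_finrank {p : ℕ} [Fact p.Prime] (S : Finset Nat.Primes)
    (M : Rep (ZMod p) (AlgebraicClosure ℚ ≃ₐ[ℚ] AlgebraicClosure ℚ))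
    (h1 : FiniteDimensional (ZMod p) (sha₁ S (M.dualTwist (cycloChar p))))
    (h2 : FiniteDimensional (ZMod p) (sha₂ S M))
    (h : finrank (ZMod p) (sha₁ S (M.dualTwist (cycloChar p))) = finrank (ZMod p) (sha₂ S M)) :
    ∃ B : sha₁ S (M.dualTwist (cycloChar p)) →ₗ[ZMod p] sha₂ S M →ₗ[ZMod p] ZMod p,
      (∀ y, (∀ x, B y x = 0) → y = 0) ∧ (∀ x, (∀ y, B y x = 0) → x = 0) :=
  h97_exists_pairing h

end Fermat.Agent.S55
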