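import Fermat.Statements.S55
import Fermat.Agent.S55.h97_Top
import Fermat.Agent.S55.h97_BridgeArch
import Fermat.Agent.S55.h97_ExactCount

/-!
# S55, formal layer: compactly supported `H¹` and the dimension count

For a representation `N` of `G_ℚ` and a finite set `S` of primes:

* `h97_Z1c S N` : pairs `(a, b)` with `a` a 1-cocycle of `G_ℚ` that is level-constant for a
  field unramified outside `S`, and `b q : N` (`q ∈ S`) with `a (loc_q τ) = loc_q τ • b q - b q`
  for all `τ` in the local group at `q`;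
* `h97_B1c S N` : the pairs `(d n, fun _ => n)`;
* `h97_H1c S N` : the quotient (first cohomology of the cone of global-to-local at the finite
  primes of `S`).

`h97_finrank_H1c` : `dim H1c + dim N^G = dim sha₁ S N + ∑_q dim N^{G_q}`.

`h97_S55_of_D123` : the statement of S55 from three dimension identities (D1), (D2), (D3).
-/

set_option autoImplicit false
set_option maxHeartbeats 400000
set_option synthInstance.maxHeartbeats 400000

open CategoryTheory Module groupCohomology ExtCitation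

noncomputable section

namespace Fermat.Agent.S55

local notation "GQ" => (AlgebraicClosure ℚ ≃ₐ[ℚ] AlgebraicClosure ℚ)

section Cone

variable {k : Type} [Field k] (S : Finset Nat.Primes) (N : Rep.{0, 0, 0} k GQ)

/-- Compactly supported 1-cocycles. -/
def h97_Z1c : Submodule k ((GQ → N) × (↥S → N)) where
  carrier := {x | x.1 ∈ cocycles₁ N ∧ IsLevelConstantS₁ S x.1 ∧
    ∀ (q : ↥S) (τ : primeLocalGaloisGroup q.1),
      x.1 (primeLocalToGlobal q.1 τ) = N.ρ (primeLocalToGlobal q.1 τ) (x.2 q) - x.2 q}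
  add_mem' := by
    rintro x y ⟨hx1, hx2, hx3⟩ ⟨hy1, hy2, hy3⟩
    refine ⟨(cocycles₁ N).add_mem hx1 hy1, hx2.add hy2, fun q τ => ?_⟩
    simp only [Prod.fst_add, Prod.snd_add, Pi.add_apply, hx3 q τ, hy3 q τ, map_add]
    abel
  zero_mem' := by
    refine ⟨(cocycles₁ N).zero_mem, isLevelConstantS₁_const S (0 : N), fun q τ => ?_⟩
    simp
  smul_mem' := by
    rintro c x ⟨hx1, hx2, hx3⟩
    refine ⟨(cocycles₁ N).smul_mem c hx1, hx2.comp (c • ·), fun q τ => ?_⟩
    simp only [Prod.smul_fst, Prod.smul_snd, Pi.smul_apply, hx3 q τ, map_smul, smul_sub]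

/-- The boundary map `n ↦ (d n, fun _ => n)`. -/
def h97_bdry : N →ₗ[k] (GQ → N) × (↥S → N) where
  toFun n := ((d₀₁ N).hom n, fun _ => n)
  map_add' x y := by
    refine Prod.ext ?_ ?_
    · funext g
      simp only [map_add, Prod.fst_add, Pi.add_apply]
    · funext q
      simp
  map_smul' c x := by
    refine Prod.ext ?_ ?_
    · funext g
      simp only [map_smul, Prod.smul_fst, Pi.smul_apply, RingHom.id_apply]
    · funext q
      simp

/-- Compactly supported 1-coboundaries. -/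
def h97_B1c : Submodule k ((GQ → N) × (↥S → N)) :=
  LinearMap.range (h97_bdry S N)

/-- Compactly supported first cohomology. -/
abbrev h97_H1c : Type :=
  ↥(h97_Z1c S N) ⧸ (h97_B1c S N).comap (h97_Z1c S N).subtype

end Cone


section Count

variable {k : Type} [Field k] (S : Finset Nat.Primes) (N : Rep.{0, 0, 0} k GQ)

theorem h97_mem_Z1c_iff (x : (GQ → N) × (↥S → N)) :
    x ∈ h97_Z1c S N ↔ x.1 ∈ cocycles₁ N ∧ IsLevelConstantS₁ S x.1 ∧
      ∀ (q : ↥S) (τ : primeLocalGaloisGroup q.1),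
        x.1 (primeLocalToGlobal q.1 τ) = N.ρ (primeLocalToGlobal q.1 τ) (x.2 q) - x.2 q :=
  Iff.rfl

theorem h97_mem_B1c_iff (x : (GQ → N) × (↥S → N)) :
    x ∈ h97_B1c S N ↔ ∃ n : N, x.1 = (d₀₁ N).hom n ∧ x.2 = fun _ => n := by
  constructor
  · rintro ⟨n, rfl⟩
    exact ⟨n, rfl, rfl⟩
  · rintro ⟨n, h1, h2⟩
    exact ⟨n, Prod.ext h1.symm h2.symm⟩

/-- The coboundaries are compactly supported cocycles when `N` factors through a level
unramified outside `S`. -/
theorem h97_B1c_le_Z1c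
    (hlev : ∃ F : IntermediateField ℚ (AlgebraicClosure ℚ), F.IsUnramifiedOutside S ∧
      ∀ s ∈ F.fixingSubgroup, N.ρ s = 1) : h97_B1c S N ≤ h97_Z1c S N := by
  rintro _ ⟨n, rfl⟩
  obtain ⟨F, hF, hFN⟩ := hlev
  refine ⟨d₀₁_apply_mem_cocycles₁ n, ⟨F, hF, fun g s hs => ?_⟩, fun q τ => ?_⟩
  · simp [h97_bdry, d₀₁_hom_apply, map_mul, hFN s hs]
  · simp [h97_bdry, d₀₁_hom_apply]

/-- The class of the global component. -/
def h97_cls : ↥(h97_Z1c S N) →ₗ[k] H1 N :=
  (H1π N).hom ∘ₗ LinearMap.codRestrict (cocycles₁ N)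
    (LinearMap.fst k (GQ → N) (↥S → N) ∘ₗ (h97_Z1c S N).subtype) (fun x => x.2.1)

theorem h97_cls_apply (x : ↥(h97_Z1c S N)) :
    h97_cls S N x = (H1π N).hom ⟨x.1.1, x.2.1⟩ := rfl

/-- The class of the global component, on `H1c`. -/
def h97_clsQ : h97_H1c S N →ₗ[k] H1 N :=
  Submodule.liftQ _ (h97_cls S N) (by
    intro x hx
    rw [Submodule.mem_comap, Submodule.subtype_apply, h97_mem_B1c_iff] at hx
    obtain ⟨n, h1, _⟩ := hx
    rw [LinearMap.mem_ker, h97_cls_apply]
    exact (H1π_eq_zero_iff _).2 ⟨n, h1.symm⟩)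

theorem h97_clsQ_mk (x : ↥(h97_Z1c S N)) :
    h97_clsQ S N (Submodule.Quotient.mk x) = (H1π N).hom ⟨x.1.1, x.2.1⟩ := rfl

/-- Local invariants give compactly supported classes. -/
def h97_ofInv :
    (∀ q : ↥S, ↥((Rep.res (primeLocalToGlobal q.1) N).ρ.invariants)) →ₗ[k] h97_H1c S N :=
  (Submodule.mkQ _) ∘ₗ LinearMap.codRestrict (h97_Z1c S N)
    (LinearMap.inr k (GQ → N) (↥S → N) ∘ₗ
      (LinearMap.pi fun q => (Submodule.subtype _) ∘ₗ LinearMap.proj q :
        (∀ q : ↥S, ↥((Rep.res (primeLocalToGlobal q.1) N).ρ.invariants)) →ₗ[k] (↥S → N)))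
    (fun b => by
      refine ⟨(cocycles₁ N).zero_mem, isLevelConstantS₁_const S (0 : N), fun q τ => ?_⟩
      have := (b q).2 τ
      simp only [LinearMap.coe_comp, Function.comp_apply, LinearMap.inr_apply, Pi.zero_apply,
        LinearMap.pi_apply, LinearMap.proj_apply, Submodule.subtype_apply]
      rw [eq_comm, sub_eq_zero]
      exact this)

/-- Global invariants, diagonally. -/
def h97_diag : ↥(N.ρ.invariants) →ₗ[k]
    (∀ q : ↥S, ↥((Rep.res (primeLocalToGlobal q.1) N).ρ.invariants)) :=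
  LinearMap.pi fun q => LinearMap.codRestrict _ (Submodule.subtype _)
    (fun n τ => n.2 (primeLocalToGlobal q.1 τ))

end Count

section Exact

variable {k : Type} [Field k] (S : Finset Nat.Primes) (N : Rep.{0, 0, 0} k GQ)

theorem h97_ofInv_apply (b : ∀ q : ↥S, ↥((Rep.res (primeLocalToGlobal q.1) N).ρ.invariants)) :
    ∃ h, h97_ofInv S N b =
      Submodule.Quotient.mk (⟨((0 : GQ → N), fun q => ((b q : N))), h⟩ : ↥(h97_Z1c S N)) :=
  ⟨_, rfl⟩

theorem h97_ker_ofInv :
    LinearMap.ker (h97_ofInv S N) = LinearMap.range (h97_diag S N) := by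
  ext b
  obtain ⟨h, hb⟩ := h97_ofInv_apply S N b
  rw [LinearMap.mem_ker, hb, Submodule.Quotient.mk_eq_zero, Submodule.mem_comap,
    Submodule.subtype_apply, h97_mem_B1c_iff]
  constructor
  · rintro ⟨n, h1, h2⟩
    have hn : n ∈ N.ρ.invariants := by
      intro g
      have := congrFun h1 g
      change (0 : N) = (d₀₁ N).hom n g at this
      rw [d₀₁_hom_apply] at this
      exact sub_eq_zero.mp this.symm
    refine ⟨⟨n, hn⟩, ?_⟩
    funext q
    apply Subtype.ext
    exact (congrFun h2 q).symm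
  · rintro ⟨n, rfl⟩
    refine ⟨n.1, ?_, rfl⟩
    funext g
    change (0 : N) = (d₀₁ N).hom n.1 g
    rw [d₀₁_hom_apply, n.2 g, sub_self]

theorem h97_diag_injective (hS : S.Nonempty) : Function.Injective (h97_diag S N) := by
  obtain ⟨q, hq⟩ := hS
  intro n m h
  have h2 : ((h97_diag S N n ⟨q, hq⟩ : _) : N) = (h97_diag S N m ⟨q, hq⟩ : _) :=
    congrArg Subtype.val (congrFun h ⟨q, hq⟩)
  exact Subtype.ext h2

theorem h97_ker_clsQ :
    LinearMap.ker (h97_clsQ S N) = LinearMap.range (h97_ofInv S N) := by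
  ext x
  constructor
  · intro hx
    obtain ⟨⟨⟨a, b⟩, hab⟩, rfl⟩ := Submodule.mkQ_surjective _ x
    rw [LinearMap.mem_ker] at hx
    change h97_clsQ S N (Submodule.Quotient.mk _) = 0 at hx
    rw [h97_clsQ_mk] at hx
    obtain ⟨n, hn⟩ := (H1π_eq_zero_iff _).1 hx
    have hn' : (d₀₁ N).hom n = a := hn
    have hinv : ∀ q : ↥S, b q - n ∈ (Rep.res (primeLocalToGlobal q.1) N).ρ.invariants := by
      intro q τ
      have h1 : a (primeLocalToGlobal q.1 τ) =
          N.ρ (primeLocalToGlobal q.1 τ) (b q) - b q := hab.2.2 q τ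
      have h2 := congrFun hn' (primeLocalToGlobal q.1 τ)
      rw [d₀₁_hom_apply] at h2
      change N.ρ (primeLocalToGlobal q.1 τ) (b q - n) = b q - n
      rw [map_sub]
      have h3 : N.ρ (primeLocalToGlobal q.1 τ) (b q) - b q =
          N.ρ (primeLocalToGlobal q.1 τ) n - n := by rw [← h1, ← h2]
      have h4 : N.ρ (primeLocalToGlobal q.1 τ) (b q) - N.ρ (primeLocalToGlobal q.1 τ) n -
          (b q - n) = (N.ρ (primeLocalToGlobal q.1 τ) (b q) - b q) -
            (N.ρ (primeLocalToGlobal q.1 τ) n - n) := by abel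
      rw [← sub_eq_zero, h4, h3, sub_self]
    refine ⟨fun q => ⟨b q - n, hinv q⟩, ?_⟩
    obtain ⟨h, hb⟩ := h97_ofInv_apply S N (fun q => ⟨b q - n, hinv q⟩)
    rw [hb]
    change Submodule.Quotient.mk _ = Submodule.Quotient.mk _
    rw [Submodule.Quotient.eq, Submodule.mem_comap, Submodule.subtype_apply, h97_mem_B1c_iff]
    refine ⟨-n, ?_, ?_⟩
    · funext g
      simp [← hn']
      abel
    · funext q
      simp
  · rintro ⟨b, rfl⟩
    obtain ⟨h, hb⟩ := h97_ofInv_apply S N b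
    rw [LinearMap.mem_ker, hb, h97_clsQ_mk]
    exact (H1π_eq_zero_iff _).2 ⟨0, by simp⟩

end Exact

section Sha

variable {p : ℕ} [Fact p.Prime] (S : Finset Nat.Primes) (N : Rep.{0, 0, 0} (ZMod p) GQ)

/-- The image of `H1c` in `H¹` is `sha₁` (for `p` odd). -/
theorem h97_range_clsQ (hp2 : p ≠ 2) : LinearMap.range (h97_clsQ S N) = sha₁ S N := by
  ext x
  rw [h97_mem_sha₁_iff hp2]
  constructor
  · rintro ⟨y, rfl⟩
    obtain ⟨⟨⟨a, b⟩, hab⟩, rfl⟩ := Submodule.mkQ_surjective _ y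
    refine ⟨(mem_continuousH1S_iff S N _).2 ⟨⟨a, hab.1⟩, hab.2.1, rfl⟩, fun q => ?_⟩
    change (groupCohomology.map (primeLocalToGlobal q.1) (𝟙 _) 1).hom
      ((H1π N).hom ⟨a, hab.1⟩) = 0
    have h1 := H1π_comp_map_apply (primeLocalToGlobal q.1)
      (𝟙 (Rep.res (primeLocalToGlobal q.1) N)) (⟨a, hab.1⟩ : cocycles₁ N)
    refine h1.trans ?_
    refine (H1π_eq_zero_iff _).2 ⟨b q, ?_⟩
    funext τ
    rw [d₀₁_hom_apply]
    exact (hab.2.2 q τ).symm
  · rintro ⟨hx1, hx2⟩
    obtain ⟨c, hc, rfl⟩ := (mem_continuousH1S_iff S N x).1 hx1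
    have : ∀ q : ↥S, ∃ b : N, ∀ τ : primeLocalGaloisGroup q.1,
        c.1 (primeLocalToGlobal q.1 τ) = N.ρ (primeLocalToGlobal q.1 τ) b - b := by
      intro q
      have h := hx2 q
      have h1 := H1π_comp_map_apply (primeLocalToGlobal q.1)
        (𝟙 (Rep.res (primeLocalToGlobal q.1) N)) c
      have h2 := h1.symm.trans h
      obtain ⟨b, hb⟩ := (H1π_eq_zero_iff _).1 h2
      refine ⟨b, fun τ => ?_⟩
      have := congrFun hb τ
      rw [d₀₁_hom_apply] at this
      exact this.symm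
    choose b hb using this
    exact ⟨Submodule.Quotient.mk ⟨(c.1, b), c.2, hc, hb⟩, rfl⟩

end Sha

section Main

variable {p : ℕ} [Fact p.Prime] (S : Finset Nat.Primes)

/-- `dim H1c + dim N^G = dim sha₁ + ∑_q dim N^{G_q}`. -/
theorem h97_finrank_H1c (N : Rep.{0, 0, 0} (ZMod p) GQ) (hp2 : p ≠ 2) (hS : S.Nonempty)
    [FiniteDimensional (ZMod p) N] [FiniteDimensional (ZMod p) (h97_H1c S N)] :
    finrank (ZMod p) (h97_H1c S N) + finrank (ZMod p) (N.ρ.invariants) =
      finrank (ZMod p) (sha₁ S N) +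
        ∑ q : ↥S, finrank (ZMod p) ((Rep.res (primeLocalToGlobal q.1) N).ρ.invariants) := by
  have hfd : ∀ q : ↥S, FiniteDimensional (ZMod p)
      ↥((Rep.res (primeLocalToGlobal q.1) N).ρ.invariants) := fun q =>
    inferInstanceAs (FiniteDimensional (ZMod p)
      ↥((Rep.res (primeLocalToGlobal q.1) N).ρ.invariants : Submodule (ZMod p) N))
  have h1 := LinearMap.finrank_range_add_finrank_ker (h97_clsQ S N)
  rw [h97_range_clsQ S N hp2, h97_ker_clsQ] at h1
  have h2 := LinearMap.finrank_range_add_finrank_ker (h97_ofInv S N)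
  rw [h97_ker_ofInv, LinearMap.finrank_range_of_inj (h97_diag_injective S N hS),
    Module.finrank_pi_fintype] at h2
  omega

/-- `sha₁` is finite-dimensional when `H1c` is. -/
theorem h97_finite_sha₁ (N : Rep.{0, 0, 0} (ZMod p) GQ) (hp2 : p ≠ 2)
    [FiniteDimensional (ZMod p) (h97_H1c S N)] : FiniteDimensional (ZMod p) (sha₁ S N) := by
  rw [← h97_range_clsQ S N hp2]
  infer_instance

theorem h97_sha₂_eq_iInf (M : Rep.{0, 0, 0} (ZMod p) GQ) (hp2 : p ≠ 2) :
    sha₂ S M = ⨅ q : ↥S, LinearMap.ker (locRes₂S S M (primeLocalToGlobal q.1)) := by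
  ext x
  rw [h97_mem_sha₂_iff hp2]
  simp only [Submodule.mem_iInf, LinearMap.mem_ker]

/-- **The count.** The statement of S55 from the three dimension identities
(D1) `dim H1c(N) = dim H²(G_S, M)`,
(D2) `dim sha₂(M) + ∑_q dim H²(G_q, M) = dim H²(G_S, M) + dim N^G`
  (i.e. the cokernel of the localisation map in degree 2 has the dimension of `N^G`),
(D3) `dim H²(G_q, M) = dim N^{G_q}`, where `N = M.dualTwist (cycloChar p)`. -/
theorem h97_S55_of_D123 (hp2 : p ≠ 2) (hpS : pPrime p ∈ S)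
    (M : Rep.{0, 0, 0} (ZMod p) (AlgebraicClosure ℚ ≃ₐ[ℚ] AlgebraicClosure ℚ))
    [FiniteDimensional (ZMod p) M]
    (hF1 : FiniteDimensional (ZMod p) (h97_H1c S (M.dualTwist (cycloChar p))))
    (hF2 : FiniteDimensional (ZMod p) (continuousH2S S M))
    (D1 : finrank (ZMod p) (h97_H1c S (M.dualTwist (cycloChar p))) =
      finrank (ZMod p) (continuousH2S S M))
    (D2 : finrank (ZMod p) (sha₂ S M) + ∑ q : ↥S, finrank (ZMod p)
        (continuousH2 (primeLocalToGlobal q.1) (Rep.res (primeLocalToGlobal q.1) M)) =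
      finrank (ZMod p) (continuousH2S S M) +
        finrank (ZMod p) ((M.dualTwist (cycloChar p)).ρ.invariants))
    (D3 : ∀ q : ↥S,
      finrank (ZMod p)
        (continuousH2 (primeLocalToGlobal q.1) (Rep.res (primeLocalToGlobal q.1) M)) =
      finrank (ZMod p)
        ((Rep.res (primeLocalToGlobal q.1) (M.dualTwist (cycloChar p))).ρ.invariants)) :
    ∃ B : sha₁ S (M.dualTwist (cycloChar p)) →ₗ[ZMod p] sha₂ S M →ₗ[ZMod p] ZMod p,
      (∀ y, (∀ x, B y x = 0) → y = 0) ∧ (∀ x, (∀ y, B y x = 0) → x = 0) := by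
  have hN : FiniteDimensional (ZMod p) (M.dualTwist (cycloChar p)) :=
    inferInstanceAs (FiniteDimensional (ZMod p) (Module.Dual (ZMod p) M))
  have hS : S.Nonempty := ⟨_, hpS⟩
  have c1 := h97_finrank_H1c S (M.dualTwist (cycloChar p)) hp2 hS
  rw [Finset.sum_congr rfl (fun q _ => D3 q)] at D2
  have h1 := h97_finite_sha₁ S (M.dualTwist (cycloChar p)) hp2
  have h2 : FiniteDimensional (ZMod p) (sha₂ S M) := inferInstance
  refine h97_S55_of_finrank S M h1 h2 ?_
  omega

end Main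

end Fermat.Agent.S55

end
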