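import Fermat.Agent.S55.h95_Assembly
import Fermat.Agent.S55.h97_Count

/-!
# S55, top layer: the frozen statement from the "smooth" interface facts

This file is the top of the S55 project (route of board #941, README = task row 183).
It proves the frozen conclusion of S55 from interface facts about abstract `G_ℚ`-modules
(`G_ℚ = Gal(ℚ̄/ℚ)`), to be instantiated with

* `B   = Hom(M, JJ_S[p])` (the `S`-smooth part), `B'' = Hom(M, CC_S)`, `CC = CC_S`,
* `i : M' = Hom(M, μ_p) → B`, `pr : B → B''` (the Kummer sequence `GLOB-KUMSEQ` after `Hom(M, -)`),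
* `ev : B'' → M → CC` the evaluation.

With `H = (B'')^G` (finite) and `I = pr (B^G)`:

* `δ : H → H¹(G_ℚ, M')` is the connecting map; `ker δ = I` (formal) and `range δ = sha₁`
  (formal + interface fact `hLOC1` = smooth Shapiro in degree 1);
* `β f y = θ (ev f ∘ y)` where `θ` (interface fact `INV`) is an additive invariant of
  `p`-torsion `S`-level 2-cocycles of `CC` that vanishes exactly on `S`-level coboundaries;
* interface facts `hRK` (right kernel, from `adt_D1`), `hLK` (left kernel inside `I`, from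
  `adt_D2` + `GLOB-UNORM`), `hSHA2` (`sha₂ = I^⊥`, from `GLOB-BETA` + Shapiro + `LOC-DUAL`).

Main statement: `h95_S55_of_interface`.
-/

set_option autoImplicit false
set_option maxHeartbeats 400000
set_option synthInstance.maxHeartbeats 400000

open CategoryTheory Module groupCohomology ExtCitation

noncomputable section

namespace Fermat.Agent.S55

local notation "GQ" => (AlgebraicClosure ℚ ≃ₐ[ℚ] AlgebraicClosure ℚ)

/-- `z` is the coboundary of an `S`-level-constant 1-cochain with values in the `G_ℚ`-module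
`CC`. -/
def h95_IsLevelCoboundary (S : Finset Nat.Primes) {CC : Type} [AddCommGroup CC]
    [DistribMulAction GQ CC] (z : GQ × GQ → CC) : Prop :=
  ∃ x : GQ → CC, IsLevelConstantS₁ S x ∧ ∀ g h : GQ, g • x h - x (g * h) + x g = z (g, h)

/-- `z` is an `S`-level-constant 2-cocycle with values in the `G_ℚ`-module `CC`, killed by `p`. -/
def h95_IsPCocycle (S : Finset Nat.Primes) (p : ℕ) {CC : Type} [AddCommGroup CC]
    [DistribMulAction GQ CC] (z : GQ × GQ → CC) : Prop :=
  (∀ g h j : GQ, z (g * h, j) + z (g, h) = g • z (h, j) + z (g, h * j)) ∧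
    IsLevelConstantS₂ S z ∧ ∀ x, p • z x = 0

section Conn

variable {k : Type} [Field k] (N : Rep.{0, 0, 0} k GQ)
  {B B'' : Type} [AddCommGroup B] [DistribMulAction GQ B] [AddCommGroup B'']
  [DistribMulAction GQ B'']
  (i : N →+ B) (pr : B →+ B'')

/-- The cocycle `c` of `N` represents `f : B''`: `i ∘ c = d b` for some lift `b` of `f`. -/
def h95_Represents (f : B'') (c : GQ → N) : Prop :=
  ∃ b : B, pr b = f ∧ ∀ g : GQ, i (c g) = g • b - b

variable {N i pr}

theorem h95_represents_cocycle (hi : Function.Injective i)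
    (hiG : ∀ (g : GQ) (n : N), i (N.ρ g n) = g • i n) {f : B''} {c : GQ → N}
    (h : h95_Represents N i pr f c) : c ∈ cocycles₁ N := by
  obtain ⟨b, -, hb⟩ := h
  rw [mem_cocycles₁_iff]
  intro g h
  apply hi
  rw [map_add, hiG, hb, hb, hb, mul_smul, smul_sub]
  abel

theorem h95_represents_add {f f' : B''} {c c' : GQ → N}
    (h : h95_Represents N i pr f c) (h' : h95_Represents N i pr f' c') :
    h95_Represents N i pr (f + f') (c + c') := by
  obtain ⟨b, hbf, hb⟩ := h
  obtain ⟨b', hbf', hb'⟩ := h'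
  refine ⟨b + b', by rw [map_add, hbf, hbf'], fun g => ?_⟩
  rw [Pi.add_apply, map_add, hb, hb', smul_add]
  abel

theorem h95_represents_exists (hi : Function.Injective i)
    (hprG : ∀ (g : GQ) (b : B), pr (g • b) = g • pr b) (hpr : Function.Surjective pr)
    (hex : ∀ b : B, pr b = 0 → ∃ n : N, i n = b) {f : B''} (hf : ∀ g : GQ, g • f = f) :
    ∃ c : GQ → N, h95_Represents N i pr f c := by
  obtain ⟨b, rfl⟩ := hpr f
  have h : ∀ g : GQ, ∃ n : N, i n = g • b - b := by
    intro g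
    apply hex
    rw [map_sub, hprG, hf, sub_self]
  choose c hc using h
  exact ⟨c, b, rfl, hc⟩

/-- Two representatives of the same `f` differ by a coboundary. -/
theorem h95_represents_unique (hi : Function.Injective i)
    (hiG : ∀ (g : GQ) (n : N), i (N.ρ g n) = g • i n)
    (hex : ∀ b : B, pr b = 0 → ∃ n : N, i n = b) {f : B''} {c c' : GQ → N}
    (h : h95_Represents N i pr f c) (h' : h95_Represents N i pr f c') :
    c - c' ∈ coboundaries₁ N := by
  obtain ⟨b, hbf, hb⟩ := h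
  obtain ⟨b', hbf', hb'⟩ := h'
  obtain ⟨n, hn⟩ := hex (b - b') (by rw [map_sub, hbf, hbf', sub_self])
  refine ⟨n, ?_⟩
  funext g
  apply hi
  rw [d₀₁_hom_apply, Pi.sub_apply, map_sub, map_sub, hiG, hb, hb', hn, smul_sub]
  abel

/-- A representative is a coboundary iff `f` lifts to a `G`-fixed element of `B`. -/
theorem h95_represents_coboundary_iff (hi : Function.Injective i)
    (hiG : ∀ (g : GQ) (n : N), i (N.ρ g n) = g • i n)
    (hex : ∀ b : B, pr b = 0 → ∃ n : N, i n = b)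
    (hex' : ∀ n : N, pr (i n) = 0) {f : B''} {c : GQ → N}
    (h : h95_Represents N i pr f c) :
    c ∈ coboundaries₁ N ↔ ∃ b : B, (∀ g : GQ, g • b = b) ∧ pr b = f := by
  obtain ⟨b, hbf, hb⟩ := h
  constructor
  · rintro ⟨n, rfl⟩
    refine ⟨b - i n, fun g => ?_, by rw [map_sub, hbf, hex', sub_zero]⟩
    have h1 := hb g
    rw [d₀₁_hom_apply, map_sub, hiG] at h1
    rw [smul_sub, ← sub_eq_zero]
    have : g • b - g • i n - (b - i n) = (g • b - b) - (g • i n - i n) := by abel
    rw [this, h1, sub_self]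
  · rintro ⟨b₀, hb₀, hb₀f⟩
    obtain ⟨n, hn⟩ := hex (b - b₀) (by rw [map_sub, hbf, hb₀f, sub_self])
    refine ⟨n, ?_⟩
    funext g
    apply hi
    rw [d₀₁_hom_apply, map_sub, hiG, hb, hn, smul_sub, hb₀]
    abel

/-- A representative is `S`-level-constant when `B` is `S`-smooth. -/
theorem h95_represents_level (S : Finset Nat.Primes) (hi : Function.Injective i)
    (hsm : ∀ b : B, ∃ F : IntermediateField ℚ (AlgebraicClosure ℚ), F.IsUnramifiedOutside S ∧
      ∀ s ∈ F.fixingSubgroup, s • b = b) {f : B''} {c : GQ → N}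
    (h : h95_Represents N i pr f c) : IsLevelConstantS₁ S c := by
  obtain ⟨b, -, hb⟩ := h
  obtain ⟨F, hF, hFb⟩ := hsm b
  refine ⟨F, hF, fun g s hs => ?_⟩
  apply hi
  rw [hb, hb, mul_smul, hFb s hs]

end Conn

section Main

/-- The `G_ℚ`-fixed points of a `G_ℚ`-module, as an additive subgroup. -/
def h95_fixedPts (B'' : Type) [AddCommGroup B''] [DistribMulAction GQ B''] : AddSubgroup B'' where
  carrier := {f | ∀ g : GQ, g • f = f}
  add_mem' := fun {a b} ha hb g => by rw [smul_add, ha g, hb g]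
  zero_mem' := fun g => smul_zero g
  neg_mem' := fun {a} ha g => by rw [smul_neg, ha g]

variable {p : ℕ} [Fact p.Prime]

/-- **S55 from the smooth interface facts** (see the header for the intended instantiation). -/
theorem h95_S55_of_interface (hp2 : p ≠ 2) (S : Finset Nat.Primes)
    (M : Rep.{0, 0, 0} (ZMod p) GQ)
    {B B'' CC : Type} [AddCommGroup B] [DistribMulAction GQ B] [AddCommGroup B'']
    [DistribMulAction GQ B''] [AddCommGroup CC] [DistribMulAction GQ CC]
    -- the Kummer sequence after `Hom(M, -)`: `0 → M' → B → B'' → 0`, `B` is `S`-smooth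
    (i : (M.dualTwist (cycloChar p)) →+ B) (hi : Function.Injective i)
    (hiG : ∀ (g : GQ) (n : M.dualTwist (cycloChar p)),
      i ((M.dualTwist (cycloChar p)).ρ g n) = g • i n)
    (pr : B →+ B'') (hprG : ∀ (g : GQ) (b : B), pr (g • b) = g • pr b)
    (hpr : Function.Surjective pr)
    (hex : ∀ b : B, pr b = 0 → ∃ n, i n = b) (hex' : ∀ n, pr (i n) = 0)
    (hsm : ∀ b : B, ∃ F : IntermediateField ℚ (AlgebraicClosure ℚ), F.IsUnramifiedOutside S ∧
      ∀ s ∈ F.fixingSubgroup, s • b = b)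
    -- `H = (B'')^G` is a finite group killed by `p`
    (hpB : ∀ f : B'', p • f = 0)
    (hfin : {f : B'' | ∀ g : GQ, g • f = f}.Finite)
    -- evaluation `B'' × M → CC`
    (ev : B'' →+ M →+ CC)
    (hev : ∀ (g : GQ) (f : B'') (m : M), ev (g • f) (M.ρ g m) = g • ev f m)
    -- (LOC1) smooth Shapiro in degree 1
    (hLOC1 : ∀ c : GQ → M.dualTwist (cycloChar p), c ∈ cocycles₁ (M.dualTwist (cycloChar p)) →
      IsLevelConstantS₁ S c →
      ((∃ b : B, ∀ g : GQ, i (c g) = g • b - b) ↔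
        ∀ q : ↥S, ∃ n : M.dualTwist (cycloChar p), ∀ τ : primeLocalGaloisGroup q.1,
          c (primeLocalToGlobal q.1 τ) =
            (M.dualTwist (cycloChar p)).ρ (primeLocalToGlobal q.1 τ) n - n))
    -- (INV) the invariant of `p`-torsion level cocycles of `CC`
    (θ : (GQ × GQ → CC) → ZMod p)
    (hθadd : ∀ z z' : GQ × GQ → CC, h95_IsPCocycle S p z → h95_IsPCocycle S p z' →
      θ (z + z') = θ z + θ z')
    (hθzero : ∀ z : GQ × GQ → CC, h95_IsPCocycle S p z → (θ z = 0 ↔ h95_IsLevelCoboundary S z))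
    -- (RK) right kernel, (LK) left kernel inside `I`, (SHA2) `sha₂ = I^⊥`
    (hRK : ∀ y ∈ levelCocyclesS₂ S M,
      (∀ f : B'', (∀ g : GQ, g • f = f) → h95_IsLevelCoboundary S (fun x => ev f (y x))) →
        y ∈ levelCoboundariesS₂ S M)
    (hLK : ∀ f : B'', (∀ g : GQ, g • f = f) →
      (∀ y ∈ levelCocyclesS₂ S M, h95_IsLevelCoboundary S (fun x => ev f (y x))) →
        ∃ b : B, (∀ g : GQ, g • b = b) ∧ pr b = f)
    (hSHA2 : ∀ (y : GQ × GQ → M) (hy : y ∈ levelCocyclesS₂ S M),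
      (∀ q : ↥S, locRes₂S S M (primeLocalToGlobal q.1) (continuousH2Sπ S M ⟨y, hy⟩) = 0) ↔
        ∀ b : B, (∀ g : GQ, g • b = b) → h95_IsLevelCoboundary S (fun x => ev (pr b) (y x))) :
    ∃ B₀ : sha₁ S (M.dualTwist (cycloChar p)) →ₗ[ZMod p] sha₂ S M →ₗ[ZMod p] ZMod p,
      (∀ y, (∀ x, B₀ y x = 0) → y = 0) ∧ (∀ x, (∀ y, B₀ y x = 0) → x = 0) := by
  classical
  -- `H` as an additive subgroup of `B''`
  let Hs : AddSubgroup B'' := h95_fixedPts B''
  have instH : Module (ZMod p) Hs :=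
    AddCommGroup.zmodModule (n := p) (fun x => Subtype.ext (by simpa using hpB x.1))
  have : Finite Hs := hfin.to_subtype
  -- representatives
  have hrepex : ∀ f : Hs, ∃ c, h95_Represents (M.dualTwist (cycloChar p)) i pr f.1 c :=
    fun f => h95_represents_exists hi hprG hpr hex f.2
  choose cf hcf using hrepex
  have hcoc : ∀ f : Hs, cf f ∈ cocycles₁ (M.dualTwist (cycloChar p)) :=
    fun f => h95_represents_cocycle hi hiG (hcf f)
  have hclass : ∀ (f : Hs) (c : GQ → M.dualTwist (cycloChar p))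
      (hc : h95_Represents (M.dualTwist (cycloChar p)) i pr f.1 c),
      (H1π (M.dualTwist (cycloChar p))).hom ⟨c, h95_represents_cocycle hi hiG hc⟩ =
        (H1π (M.dualTwist (cycloChar p))).hom ⟨cf f, hcoc f⟩ := by
    intro f c hc
    exact (H1π_eq_iff _ _).2 (h95_represents_unique hi hiG hex hc (hcf f))
  -- the connecting map
  let δadd : Hs →+ H1 (M.dualTwist (cycloChar p)) :=
    AddMonoidHom.mk' (fun f => (H1π (M.dualTwist (cycloChar p))).hom ⟨cf f, hcoc f⟩) (by
      intro f f'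
      have h := h95_represents_add (hcf f) (hcf f')
      rw [← hclass (f + f') _ h, ← map_add]
      rfl)
  obtain ⟨δ, hδ⟩ : ∃ δ : Hs →ₗ[ZMod p] H1 (M.dualTwist (cycloChar p)),
      ∀ f : Hs, δ f = (H1π (M.dualTwist (cycloChar p))).hom ⟨cf f, hcoc f⟩ :=
    ⟨δadd.toZModLinearMap p, fun f => rfl⟩
  have hkerδ : ∀ f : Hs, f ∈ LinearMap.ker δ ↔ ∃ b : B, (∀ g : GQ, g • b = b) ∧ pr b = f.1 := by
    intro f
    rw [LinearMap.mem_ker, hδ]
    refine Iff.trans ?_ (h95_represents_coboundary_iff hi hiG hex hex' (hcf f))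
    exact H1π_eq_zero_iff _
  -- `ev f ∘ y` is a `p`-torsion level cocycle
  have hPC : ∀ (f : B'') (_ : ∀ g : GQ, g • f = f) (y : GQ × GQ → M),
      y ∈ levelCocyclesS₂ S M → h95_IsPCocycle S p (fun x => ev f (y x)) := by
    intro f hf y hy
    obtain ⟨hy1, hy2⟩ := (mem_levelCocyclesS₂_iff S M y).1 hy
    refine ⟨fun g h j => ?_, hy2.comp (ev f), fun x => ?_⟩
    · have h1 := (mem_cocycles₂_iff y).1 hy1 g h j
      have h2 := hev g f (y (h, j))
      rw [hf g] at h2
      rw [← h2, ← map_add, ← map_add, h1]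
    · rw [← map_nsmul, ZModModule.char_nsmul_eq_zero p (y x), map_zero]
  -- `ev f ∘ d x = d (ev f ∘ x)`
  have hCB : ∀ (f : B'') (_ : ∀ g : GQ, g • f = f) (y : GQ × GQ → M),
      y ∈ levelCoboundariesS₂ S M → h95_IsLevelCoboundary S (fun x => ev f (y x)) := by
    intro f hf y hy
    obtain ⟨x, hx, rfl⟩ := (mem_levelCoboundariesS₂_iff S M y).1 hy
    refine ⟨fun g => ev f (x g), hx.comp (ev f), fun g h => ?_⟩
    have h2 := hev g f (x h)
    rw [hf g] at h2
    show g • ev f (x h) - ev f (x (g * h)) + ev f (x g) = ev f ((d₁₂ M).hom x (g, h))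
    rw [d₁₂_hom_apply, map_add, map_sub, h2]
  -- the pairing
  let θf : Hs → (↥(levelCocyclesS₂ S M) →+ ZMod p) := fun f =>
    AddMonoidHom.mk' (fun y => θ (fun x => ev f.1 (y.1 x))) (by
      intro y y'
      have h := hθadd _ _ (hPC f.1 f.2 y.1 y.2) (hPC f.1 f.2 y'.1 y'.2)
      rw [← h]
      congr 1
      funext x
      simp)
  let βf : Hs → (continuousH2S S M →ₗ[ZMod p] ZMod p) := fun f =>
    Submodule.liftQ _ ((θf f).toZModLinearMap p) (by
      intro y hy
      rw [Submodule.mem_comap, Submodule.subtype_apply] at hy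
      rw [LinearMap.mem_ker]
      exact (hθzero _ (hPC f.1 f.2 y.1 y.2)).2 (hCB f.1 f.2 y.1 hy))
  have hβf : ∀ (f : Hs) (y : ↥(levelCocyclesS₂ S M)),
      βf f (Submodule.Quotient.mk y) = θ (fun x => ev f.1 (y.1 x)) := fun f y => rfl
  let βadd : Hs →+ (continuousH2S S M →ₗ[ZMod p] ZMod p) :=
    AddMonoidHom.mk' βf (by
      intro f f'
      apply LinearMap.ext
      intro y
      obtain ⟨y, rfl⟩ := Submodule.mkQ_surjective _ y
      rw [LinearMap.add_apply]
      change βf (f + f') (Submodule.Quotient.mk y) =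
        βf f (Submodule.Quotient.mk y) + βf f' (Submodule.Quotient.mk y)
      rw [hβf, hβf, hβf, ← hθadd _ _ (hPC f.1 f.2 y.1 y.2) (hPC f'.1 f'.2 y.1 y.2)]
      congr 1
      funext x
      simp)
  obtain ⟨β, hβ⟩ : ∃ β : Hs →ₗ[ZMod p] continuousH2S S M →ₗ[ZMod p] ZMod p,
      ∀ (f : Hs) (y : ↥(levelCocyclesS₂ S M)),
        β f (Submodule.Quotient.mk y) = θ (fun x => ev f.1 (y.1 x)) :=
    ⟨βadd.toZModLinearMap p, fun f y => rfl⟩
  have hβzero : ∀ (f : Hs) (y : ↥(levelCocyclesS₂ S M)),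
      β f (Submodule.Quotient.mk y) = 0 ↔ h95_IsLevelCoboundary S (fun x => ev f.1 (y.1 x)) :=
    fun f y => by rw [hβ]; exact hθzero _ (hPC f.1 f.2 y.1 y.2)
  -- range of `δ`
  have hrange : LinearMap.range δ = sha₁ S (M.dualTwist (cycloChar p)) := by
    rw [← h97_range_clsQ S (M.dualTwist (cycloChar p)) hp2]
    ext x
    constructor
    · rintro ⟨f, rfl⟩
      have hlev := h95_represents_level S hi hsm (hcf f)
      obtain ⟨b, -, hb⟩ := hcf f
      have hloc := (hLOC1 (cf f) (hcoc f) hlev).1 ⟨b, hb⟩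
      choose n hn using hloc
      refine ⟨Submodule.Quotient.mk ⟨(cf f, n), hcoc f, hlev, hn⟩, ?_⟩
      rw [hδ]
      rfl
    · rintro ⟨y, rfl⟩
      obtain ⟨⟨⟨a, n⟩, ha1, ha2, ha3⟩, rfl⟩ := Submodule.mkQ_surjective _ y
      obtain ⟨b, hb⟩ := (hLOC1 a ha1 ha2).2 (fun q => ⟨n q, ha3 q⟩)
      have hfix : ∀ g : GQ, g • pr b = pr b := by
        intro g
        rw [← hprG, ← sub_eq_zero, ← map_sub, ← hb g, hex']
      have hrep : h95_Represents (M.dualTwist (cycloChar p)) i pr
          ((⟨pr b, hfix⟩ : Hs) : B'') a := ⟨b, rfl, hb⟩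
      refine ⟨⟨pr b, hfix⟩, ?_⟩
      rw [hδ, ← hclass ⟨pr b, hfix⟩ a hrep]
      rfl
  -- right kernel
  have hright : ∀ y, (∀ f, β f y = 0) → y = 0 := by
    intro y hy
    obtain ⟨y, rfl⟩ := Submodule.mkQ_surjective _ y
    refine (continuousH2Sπ_eq_zero_iff S M y).2 (hRK y.1 y.2 fun f hf => ?_)
    exact (hβzero ⟨f, hf⟩ y).1 (hy ⟨f, hf⟩)
  -- left kernel
  have hleft : ∀ f, (∀ y, β f y = 0) → f ∈ LinearMap.ker δ := by
    intro f hf
    rw [hkerδ]
    refine hLK f.1 f.2 fun y hy => ?_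
    exact (hβzero f ⟨y, hy⟩).1 (hf _)
  -- `sha₂ = I^⊥`
  have hsha : ∀ y, y ∈ sha₂ S M ↔ ∀ f ∈ LinearMap.ker δ, β f y = 0 := by
    intro y
    obtain ⟨⟨y, hy⟩, rfl⟩ := Submodule.mkQ_surjective _ y
    rw [h97_mem_sha₂_iff hp2]
    refine (hSHA2 y hy).trans ⟨fun h f hf => ?_, fun h b hb => ?_⟩
    · obtain ⟨b, hb, hbf⟩ := (hkerδ f).1 hf
      have := h b hb
      rw [hbf] at this
      exact (hβzero f ⟨y, hy⟩).2 this
    · have hfix : ∀ g : GQ, g • pr b = pr b := fun g => by rw [← hprG, hb g]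
      have := h ⟨pr b, hfix⟩ ((hkerδ _).2 ⟨b, hb, rfl⟩)
      exact (hβzero ⟨pr b, hfix⟩ ⟨y, hy⟩).1 this
  exact h95_S55_of_datum S M Hs (LinearMap.ker δ) δ hrange rfl β hright hleft hsha

end Main

end Fermat.Agent.S55
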