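/-
S55, assembly layer (helper96): traces of additive maps between modules over a finite group and
their transitivity along a tower of levels `U₁ ≤ U₀` (in helper56's `h56_Inv` language).

* `h96_trace ψ x = ∑ᶠ γ, γ • ψ (γ⁻¹ • x)` (the shape of the conclusion of `adt_D2`), additive
  and equivariant;
* `h96_kerNorm h : h56_Inv U₁ Y →+ h56_Inv U₀ Y`, the norm from level `U₁` down to level `U₀`;
* `h96_trace_tower` : if `U₀` acts trivially on `X`, the trace over `G ⧸ U₁` of `hbar` is the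
  trace over `G ⧸ U₀` of `kerNorm ∘ hbar`.
-/
import Mathlib
import Fermat.Agent.S55.h56_Inv

set_option autoImplicit false

namespace Fermat.Agent.S55

section Trace

variable {Γ X Y : Type*} [Group Γ] [AddCommGroup X] [DistribMulAction Γ X] [AddCommGroup Y]
  [DistribMulAction Γ Y]

/-- The trace `x ↦ ∑ᶠ γ, γ • ψ (γ⁻¹ • x)` of an additive map between modules over a finite
group. -/
noncomputable def h96_trace [Finite Γ] (ψ : X →+ Y) : X →+ Y where
  toFun x := ∑ᶠ γ : Γ, γ • ψ (γ⁻¹ • x)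
  map_zero' := by simp
  map_add' x y := by
    simp only [smul_add, map_add]
    exact finsum_add_distrib (Set.toFinite _) (Set.toFinite _)

theorem h96_trace_apply [Finite Γ] (ψ : X →+ Y) (x : X) :
    h96_trace (Γ := Γ) ψ x = ∑ᶠ γ : Γ, γ • ψ (γ⁻¹ • x) := rfl

/-- The trace is equivariant. -/
theorem h96_trace_smul [Finite Γ] (ψ : X →+ Y) (σ : Γ) (x : X) :
    h96_trace (Γ := Γ) ψ (σ • x) = σ • h96_trace (Γ := Γ) ψ x := by
  rw [h96_trace_apply, h96_trace_apply]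
  have h1 : σ • (∑ᶠ γ : Γ, γ • ψ (γ⁻¹ • x)) = ∑ᶠ γ : Γ, σ • (γ • ψ (γ⁻¹ • x)) :=
    AddMonoidHom.map_finsum_of_injective (DistribSMul.toAddMonoidHom Y σ)
      (MulAction.injective σ) _
  rw [h1, ← finsum_comp_equiv (Equiv.mulLeft σ)]
  refine finsum_congr fun γ => ?_
  show (σ * γ) • ψ ((σ * γ)⁻¹ • σ • x) = σ • γ • ψ (γ⁻¹ • x)
  rw [mul_smul, mul_inv_rev, mul_smul, inv_smul_smul]

end Trace

section Tower

variable {G : Type*} [Group G] {U₁ U₀ : Subgroup G} [U₁.Normal] [U₀.Normal]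
  {X Y : Type*} [AddCommGroup X] [DistribMulAction G X] [AddCommGroup Y] [DistribMulAction G Y]

/-- The norm from level `U₁` down to level `U₀`, as an additive map. -/
noncomputable def h96_kerNorm [Finite (G ⧸ U₁)] (h : U₁ ≤ U₀) : h56_Inv U₁ Y →+ h56_Inv U₀ Y where
  toFun c := ⟨((∑ᶠ s : (h56_quotMap h).ker, (s : G ⧸ U₁) • c : h56_Inv U₁ Y) : Y), by
    obtain ⟨a, ha⟩ := h56_finsum_ker_mem_range h c
    rw [← ha]
    exact a.2⟩
  map_zero' := by
    apply Subtype.ext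
    simp
  map_add' c d := by
    apply Subtype.ext
    show ((∑ᶠ s : (h56_quotMap h).ker, (s : G ⧸ U₁) • (c + d) : h56_Inv U₁ Y) : Y) =
      ((∑ᶠ s : (h56_quotMap h).ker, (s : G ⧸ U₁) • c : h56_Inv U₁ Y) : Y) +
        ((∑ᶠ s : (h56_quotMap h).ker, (s : G ⧸ U₁) • d : h56_Inv U₁ Y) : Y)
    simp only [smul_add]
    rw [finsum_add_distrib (Set.toFinite _) (Set.toFinite _)]
    rfl

theorem h96_coe_kerNorm [Finite (G ⧸ U₁)] (h : U₁ ≤ U₀) (c : h56_Inv U₁ Y) :
    ((h96_kerNorm h c : h56_Inv U₀ Y) : Y) =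
      ((∑ᶠ s : (h56_quotMap h).ker, (s : G ⧸ U₁) • c : h56_Inv U₁ Y) : Y) := rfl

theorem h96_invIncl_kerNorm [Finite (G ⧸ U₁)] (h : U₁ ≤ U₀) (c : h56_Inv U₁ Y) :
    h56_invIncl h (h96_kerNorm h c) = ∑ᶠ s : (h56_quotMap h).ker, (s : G ⧸ U₁) • c :=
  Subtype.ext rfl

/-- **Transitivity of the trace.** If `U₀` acts trivially on `X`, then the trace over `G ⧸ U₁`
of `hbar : X → Y^{U₁}` is the trace over `G ⧸ U₀` of `N_{U₀/U₁} ∘ hbar : X → Y^{U₀}`. -/
theorem h96_trace_tower [Finite (G ⧸ U₁)] [Finite (G ⧸ U₀)] (h : U₁ ≤ U₀)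
    (hX : ∀ x : X, x ∈ h56_Inv U₀ X)
    (hbar : h56_Inv U₁ X →+ h56_Inv U₁ Y) (x : h56_Inv U₀ X) :
    h96_trace (Γ := G ⧸ U₁) hbar (h56_invIncl h x) =
      h56_invIncl h (h96_trace (Γ := G ⧸ U₀)
        ((h96_kerNorm h).comp (hbar.comp (h56_invIncl h))) x) := by
  classical
  have := Fintype.ofFinite (G ⧸ U₁)
  have := Fintype.ofFinite (G ⧸ U₀)
  have := Fintype.ofFinite (h56_quotMap (U' := U₁) (U := U₀) h).ker
  -- `ker` acts trivially on `X^{U₁}`
  have hker : ∀ (s : G ⧸ U₁), s ∈ (h56_quotMap h).ker → ∀ a : h56_Inv U₁ X, s • a = a := by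
    intro s hs a
    have h1 : a = h56_invIncl h ⟨(a : X), hX a⟩ := Subtype.ext rfl
    rw [h1]
    exact h56_invIncl_ker_smul h _ hs
  rw [h96_trace_apply, h96_trace_apply, finsum_eq_sum_of_fintype, finsum_eq_sum_of_fintype,
    map_sum]
  rw [← Fintype.sum_fiberwise (fun g : G ⧸ U₁ => h56_quotMap h g)
    (fun g => g • hbar (g⁻¹ • h56_invIncl h x))]
  refine Finset.sum_congr rfl fun γ _ => ?_
  obtain ⟨y, hy⟩ := h56_quotMap_surjective h γ
  -- the fibre over `γ` is the coset `y * ker`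
  let e : (h56_quotMap (U' := U₁) (U := U₀) h).ker ≃ {g : G ⧸ U₁ // h56_quotMap h g = γ} :=
    { toFun := fun n => ⟨y * (n : G ⧸ U₁), by
        rw [map_mul, hy, MonoidHom.mem_ker.1 n.2, mul_one]⟩
      invFun := fun g => ⟨y⁻¹ * (g : G ⧸ U₁), by
        rw [MonoidHom.mem_ker, map_mul, map_inv, hy, g.2, inv_mul_cancel]⟩
      left_inv := fun n => by
        apply Subtype.ext
        show y⁻¹ * (y * (n : G ⧸ U₁)) = n
        rw [inv_mul_cancel_left]
      right_inv := fun g => by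
        apply Subtype.ext
        show y * (y⁻¹ * (g : G ⧸ U₁)) = g
        rw [mul_inv_cancel_left] }
  rw [← Fintype.sum_equiv e (fun n => (y * (n : G ⧸ U₁)) •
    hbar ((y * (n : G ⧸ U₁))⁻¹ • h56_invIncl h x)) _ (fun n => rfl)]
  -- simplify each term
  have hterm : ∀ n : (h56_quotMap (U' := U₁) (U := U₀) h).ker,
      (y * (n : G ⧸ U₁)) • hbar ((y * (n : G ⧸ U₁))⁻¹ • h56_invIncl h x) =
        y • ((n : G ⧸ U₁) • hbar (y⁻¹ • h56_invIncl h x)) := by
    intro n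
    rw [mul_smul, mul_inv_rev, mul_smul,
      hker _ ((h56_quotMap h).ker.inv_mem n.2) (y⁻¹ • h56_invIncl h x)]
  rw [Finset.sum_congr rfl (fun n _ => hterm n), ← Finset.smul_sum]
  -- the right-hand side
  rw [← hy, h56_invIncl_smul]
  congr 1
  show _ = h56_invIncl h (h96_kerNorm h (hbar (h56_invIncl h ((h56_quotMap h y)⁻¹ • x))))
  rw [h96_invIncl_kerNorm, finsum_eq_sum_of_fintype, ← map_inv, h56_invIncl_smul]

end Tower

end Fermat.Agent.S55
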