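/-
S55, assembly layer, row ASM-D2 (F3) (helper96; spec owner helper72):
an element `f` of `Hom_G(M, CC)` which kills all of `H²(G_S, M)` comes from `Hom_G(M, JJ)`.

Inputs: the ambient interface `h72_PTAmbient` (fields `unorm`, `cc_ex`, `cc_class`, `κ_smul`),
`adt_D2` (helper21's `h21_adt_D2_of_tnL` + helper52's `h52_tn_L`, both on main), inflation
injectivity `h40_E8b`, helper56's level dictionary, and the trace transitivity `h96_trace_tower`.
-/
import Fermat.Agent.S55.h72_AsmDefs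
import Fermat.Agent.S55.h21_ADTStmt
import Fermat.Agent.S55.h52_TNFinalL
import Fermat.Agent.S55.h56_GalLevels
import Fermat.Agent.S55.h56_InvNorm
import Fermat.Agent.S55.h40_InfRes
import Fermat.Agent.S55.h96_Trace

set_option autoImplicit false
set_option linter.style.haveILetI false

open CategoryTheory Module groupCohomology ExtCitation

namespace Fermat.Agent.S55

local notation "Qb" => AlgebraicClosure ℚ
local notation "GQ" => (AlgebraicClosure ℚ ≃ₐ[ℚ] AlgebraicClosure ℚ)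

/-- A surjective additive map between `ZMod p`-vector spaces has an additive section. -/
theorem h96_exists_addSection_aux (p : ℕ) [Fact p.Prime] {A B : Type*} [AddCommGroup A]
    [AddCommGroup B] [Module (ZMod p) A] [Module (ZMod p) B] (pr : A →+ B)
    (hsurj : Function.Surjective pr) : ∃ sec : B →+ A, ∀ x, pr (sec x) = x := by
  have hsurjL : Function.Surjective (AddMonoidHom.toZModLinearMap p pr) := hsurj
  obtain ⟨sec, hsec⟩ := (AddMonoidHom.toZModLinearMap p pr).exists_rightInverse_of_surjective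
    (LinearMap.range_eq_top.2 hsurjL)
  exact ⟨sec.toAddMonoidHom, fun x => LinearMap.congr_fun hsec x⟩

/-- A surjective additive map between abelian groups killed by the prime `p` has an additive
section. -/
theorem h96_exists_addSection (p : ℕ) [Fact p.Prime] {A B : Type*} [AddCommGroup A]
    [AddCommGroup B] (hA : ∀ x : A, p • x = 0) (hB : ∀ x : B, p • x = 0) (pr : A →+ B)
    (hsurj : Function.Surjective pr) : ∃ sec : B →+ A, ∀ x, pr (sec x) = x :=
  @h96_exists_addSection_aux p _ A B _ _ (AddCommGroup.zmodModule hA)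
    (AddCommGroup.zmodModule hB) pr hsurj

theorem h96_mk_mul_of_mem {G : Type*} [Group G] (U : Subgroup G) [U.Normal] (g s : G)
    (hs : s ∈ U) : ((g * s : G) : G ⧸ U) = g := by
  rw [QuotientGroup.mk_mul, (QuotientGroup.eq_one_iff s).2 hs, mul_one]

/-- The quotient of `G_ℚ` by the subgroup of a level is finite. -/
theorem h96_lev_finite {S : Finset Nat.Primes} (L : h72_Lev S) : Finite (GQ ⧸ L.U) :=
  h56_Level.instFiniteQuot (⟨L.F, L.unr, L.gal⟩ : h56_Level S)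

/-- An `S`-level-constant 1-cochain is invariant at some level above a given level. -/
theorem h96_exists_lev_ge₁ {S : Finset Nat.Primes} (L : h72_Lev S) {X : Type*} (x : GQ → X)
    (hx : IsLevelConstantS₁ S x) :
    ∃ (L' : h72_Lev S) (_ : L'.U ≤ L.U), h56_IsLevel₁ L'.U x := by
  obtain ⟨F, hF, hinv⟩ := hx
  obtain ⟨F', h1, h2, h3, h4⟩ := h56_exists_galois_level_ge S F L.F hF L.unr
  exact ⟨⟨F', h3, h4⟩, IntermediateField.fixingSubgroup_antitone h2,
    fun g s hs => hinv g s (IntermediateField.fixingSubgroup_antitone h1 hs)⟩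

section D2

variable {p : ℕ} [Fact p.Prime] (S : Finset Nat.Primes)
  {CC : Type} [AddCommGroup CC] [DistribMulAction GQ CC]
  {JJ : ↥S → Type} [∀ q, AddCommGroup (JJ q)] [∀ q, DistribMulAction GQ (JJ q)]
  {XX : ↥S → Type} [∀ q, AddCommGroup (XX q)]
  [∀ q : ↥S, DistribMulAction (primeLocalGaloisGroup q.1) (XX q)]
  {κ : ∀ q, JJ q →+ CC} {ev : ∀ q, JJ q →+ XX q} {zz : ∀ q, XX q}

/-- Step 1 of ASM-D2 (the application of `adt_D2`): if the level `L1` acts trivially on the finite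
`p`-torsion `G_ℚ`-module `Mm` and the equivariant map `f : Mm → CC` kills all `S`-level
2-cocycles, then `f` is the trace over `G_ℚ ⧸ U_{L1}` of an additive map into the
`U_{L1}`-invariants. -/
theorem h96_d2_step1 {Mm : Type} [AddCommGroup Mm] [DistribMulAction GQ Mm] [Finite Mm]
    (hpM : ∀ m : Mm, p • m = 0) (hA : h72_PTAmbient p S CC JJ XX κ ev zz)
    (L1 : h72_Lev S) (hL1 : ∀ m : Mm, m ∈ h56_Inv L1.U Mm)
    (f : Mm →+ CC) (hf : ∀ (g : GQ) (m : Mm), f (g • m) = g • f m)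
    (hperp : ∀ c : GQ × GQ → Mm, IsCocycle₂ c → IsLevelConstantS₂ S c →
      h72_IsCobS₂ S (fun x => f (c x))) :
    haveI := h96_lev_finite L1
    ∃ hbar : h56_Inv L1.U Mm →+ h56_Inv L1.U CC, ∀ m : h56_Inv L1.U Mm,
      f (m : Mm) = ((h96_trace (Γ := GQ ⧸ L1.U) hbar m : h56_Inv L1.U CC) : CC) := by
  classical
  haveI := h96_lev_finite L1
  obtain ⟨L2, h2F, hex⟩ := hA.cc_ex L1
  have h2 : L2.U ≤ L1.U := h72_Lev.U_anti h2F
  haveI := h96_lev_finite L2
  have hfinv : ∀ m : Mm, f m ∈ h56_Inv L1.U CC := fun m s hs => by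
    rw [← hf s m, hL1 m s hs]
  let fbar : h56_Inv L1.U Mm →+ h56_Inv L1.U CC :=
    AddMonoidHom.mk' (fun m => ⟨f (m : Mm), hfinv m⟩)
      (fun a b => Subtype.ext (map_add f (a : Mm) (b : Mm)))
  have hfbar : ∀ (g : GQ ⧸ L1.U) (m : h56_Inv L1.U Mm), fbar (g • m) = g • fbar m := by
    intro g m
    induction g using QuotientGroup.induction_on with
    | H g => exact Subtype.ext (hf g (m : Mm))
  have hpM' : ∀ m : h56_Inv L1.U Mm, p • m = 0 := fun m => Subtype.ext (hpM m)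
  have htn : h21_TnLStatement p := by
    intro G _ _ C _ _ hC N _ _ _ _ f hf hperp
    exact h52_tn_L hC f hf hperp
  obtain ⟨hbar, hhbar⟩ := h21_adt_D2_of_tnL (p := p) htn
    (h56_quotMap h2) (h56_quotMap_surjective h2) (h56_invIncl h2)
    (h56_invIncl_injective h2) (fun g a => h56_invIncl_smul h2 g a)
    (fun c' hc' => h56_mem_range_invIncl h2 c' hc') (hA.cc_class L2) hex hpM' fbar hfbar (by
      intro y' hy'
      let c : GQ × GQ → Mm := fun x =>
        ((y' ((x.1 : GQ ⧸ L2.U), (x.2 : GQ ⧸ L2.U)) : h56_Inv L1.U Mm) : Mm)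
      have hc : IsCocycle₂ c := fun g h j =>
        congrArg Subtype.val (hy' (g : GQ ⧸ L2.U) (h : GQ ⧸ L2.U) (j : GQ ⧸ L2.U))
      have hcl : IsLevelConstantS₂ S c := ⟨L2.F, L2.unr, fun g g' s s' hs hs' => by
        show ((y' (((g * s : GQ) : GQ ⧸ L2.U), ((g' * s' : GQ) : GQ ⧸ L2.U)) :
            h56_Inv L1.U Mm) : Mm) =
          ((y' ((g : GQ ⧸ L2.U), (g' : GQ ⧸ L2.U)) : h56_Inv L1.U Mm) : Mm)
        have e1 : ((g * s : GQ) : GQ ⧸ L2.U) = g := h96_mk_mul_of_mem L2.U g s hs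
        have e2 : ((g' * s' : GQ) : GQ ⧸ L2.U) = g' := h96_mk_mul_of_mem L2.U g' s' hs'
        rw [e1, e2]⟩
      obtain ⟨x, hxl, hxd⟩ := hperp c hc hcl
      obtain ⟨L3, h23, hx3⟩ := h96_exists_lev_ge₁ L2 x hxl
      haveI := h96_lev_finite L3
      let z : (GQ ⧸ L2.U) × (GQ ⧸ L2.U) → h56_Inv L2.U CC :=
        fun a => h56_invIncl h2 (fbar (y' a))
      have hz : IsCocycle₂ z := by
        intro a b d
        have h0 := hy' a b d
        show h56_invIncl h2 (fbar (y' (a * b, d))) + h56_invIncl h2 (fbar (y' (a, b))) =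
          a • h56_invIncl h2 (fbar (y' (b, d))) + h56_invIncl h2 (fbar (y' (a, b * d)))
        rw [← h56_invIncl_smul, ← hfbar, ← map_add, ← map_add, ← map_add, ← map_add, h0]
      refine h40_E8b (h56_quotMap h23) (h56_invIncl h23) (h56_quotMap_surjective h23)
        (h56_invIncl_injective h23) (fun g a => h56_invIncl_smul h23 g a)
        (fun c' hc' => h56_mem_range_invIncl h23 c' hc')
        ((hA.cc_class L3).h1 (h56_quotMap h23).ker) z hz ?_
      refine (h56_isCoboundary₂_tower_iff h23 z).2 ⟨x, hx3, fun g g' => ?_⟩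
      exact hxd g g')
  exact ⟨hbar, fun m => congrArg Subtype.val (hhbar m)⟩

variable (M : Rep.{0, 0, 0} (ZMod p) GQ) [FiniteDimensional (ZMod p) M]

/-- **ASM-D2 (F3)**: an element of `Hom_G(M, CC)` killing all of `H²(G_S, M)` comes from
`Hom_G(M, JJ)`.  (Statement of `asm_d2` of `h72_AsmSkeleton`, with `h72_IsEqv` unfolded.) -/
theorem h96_asm_d2 (hA : h72_PTAmbient p S CC JJ XX κ ev zz)
    (L₀ : h72_Lev S) (hL₀ : ∀ s ∈ L₀.U, M.ρ s = 1)
    (f : M →+ CC) (hf : ∀ (g : GQ) (m : M), f (M.ρ g m) = g • f m)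
    (hperp : ∀ c : GQ × GQ → M, c ∈ cocycles₂ M → IsLevelConstantS₂ S c →
      h72_IsCobS₂ S (fun x => f (c x))) :
    ∃ ft : ∀ q, M →+ JJ q, (∀ (q : ↥S) (g : GQ) (m : M), ft q (M.ρ g m) = g • ft q m) ∧
      ∀ m, f m = ∑ q : ↥S, κ q (ft q m) := by
  classical
  letI : DistribMulAction GQ M := h56_repAction M
  haveI : Finite M := Module.finite_of_finite (ZMod p)
  have hpM : ∀ m : M, p • m = 0 := fun m => by
    rw [← Nat.cast_smul_eq_nsmul (ZMod p), ZMod.natCast_self, zero_smul]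
  obtain ⟨L1, h1F, hun⟩ := hA.unorm L₀
  have h1 : L1.U ≤ L₀.U := h72_Lev.U_anti h1F
  haveI := h96_lev_finite L₀
  haveI := h96_lev_finite L1
  have hM0 : ∀ m : M, m ∈ h56_Inv L₀.U M := fun m s hs => by
    show M.ρ s m = m
    rw [hL₀ s hs]; rfl
  have hM1 : ∀ m : M, m ∈ h56_Inv L1.U M := fun m s hs => hM0 m s (h1 hs)
  obtain ⟨hbar, hhbar⟩ := h96_d2_step1 S hpM hA L1 hM1 f hf
    (fun c hc hcl => hperp c ((mem_cocycles₂_iff c).2 hc) hcl)
  -- the norm of `hbar` down to level `L₀`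
  let Nn : h56_Inv L₀.U M →+ h56_Inv L₀.U CC :=
    (h96_kerNorm h1).comp (hbar.comp (h56_invIncl h1))
  have htr : ∀ x : h56_Inv L₀.U M,
      f (x : M) = ((h96_trace (Γ := GQ ⧸ L₀.U) Nn x : h56_Inv L₀.U CC) : CC) := by
    intro x
    have e1 := hhbar (h56_invIncl h1 x)
    rw [h96_trace_tower h1 hM0 hbar x] at e1
    exact e1
  -- the relation module
  let κ0 : ∀ q : ↥S, h56_Inv L₀.U (JJ q) →+ h56_Inv L₀.U CC :=
    fun q => h56_Inv.map (κ q) (hA.κ_smul q)
  let R : AddSubgroup (h56_Inv L₀.U M × (∀ q : ↥S, h56_Inv L₀.U (JJ q))) :=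
    { carrier := {x | (∀ q, p • x.2 q = 0) ∧ Nn x.1 = ∑ q : ↥S, κ0 q (x.2 q)}
      zero_mem' := ⟨fun q => smul_zero p, by simp⟩
      add_mem' := by
        rintro ⟨m, y⟩ ⟨m', y'⟩ ⟨h1, h2⟩ ⟨h1', h2'⟩
        refine ⟨fun q => ?_, ?_⟩
        · show p • (y q + y' q) = 0
          rw [smul_add, h1 q, h1' q, add_zero]
        · show Nn (m + m') = ∑ q : ↥S, κ0 q (y q + y' q)
          simp only [map_add, Finset.sum_add_distrib]
          rw [← h2, ← h2']
      neg_mem' := by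
        rintro ⟨m, y⟩ ⟨h1, h2⟩
        refine ⟨fun q => ?_, ?_⟩
        · show p • (-y q) = 0
          rw [smul_neg, h1 q, neg_zero]
        · show Nn (-m) = ∑ q : ↥S, κ0 q (-y q)
          simp only [map_neg, Finset.sum_neg_distrib]
          rw [← h2] }
  have hpM0 : ∀ x : h56_Inv L₀.U M, p • x = 0 := fun x => Subtype.ext (hpM x)
  have hpR : ∀ x : R, p • x = 0 := by
    rintro ⟨⟨m, y⟩, hy1, hy2⟩
    apply Subtype.ext
    show p • ((m, y) : h56_Inv L₀.U M × (∀ q : ↥S, h56_Inv L₀.U (JJ q))) = 0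
    have e1 : p • y = 0 := funext fun q => hy1 q
    rw [Prod.smul_mk, hpM0 m, e1]
    rfl
  let pr : R →+ h56_Inv L₀.U M := (AddMonoidHom.fst _ _).comp R.subtype
  have hsurj : Function.Surjective pr := by
    intro x
    have hc' : p • hbar (h56_invIncl h1 x) = 0 := by
      rw [← map_nsmul, ← map_nsmul, hpM0 x, map_zero, map_zero]
    obtain ⟨y, hy1, hy2, hy3⟩ := hun (hbar (h56_invIncl h1 x)) hc'
    refine ⟨⟨(x, fun q => ⟨y q, hy2 q⟩), fun q => Subtype.ext (hy1 q), ?_⟩, rfl⟩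
    apply Subtype.ext
    show ((h96_kerNorm h1 (hbar (h56_invIncl h1 x)) : h56_Inv L₀.U CC) : CC) =
      ((∑ q : ↥S, κ0 q ⟨y q, hy2 q⟩ : h56_Inv L₀.U CC) : CC)
    rw [AddSubmonoidClass.coe_finsetSum]
    exact hy3
  obtain ⟨sec, hsec'⟩ := h96_exists_addSection p hpR hpM0 pr hsurj
  let ψ0 : ∀ q : ↥S, h56_Inv L₀.U M →+ h56_Inv L₀.U (JJ q) := fun q =>
    (Pi.evalAddMonoidHom (fun q : ↥S => h56_Inv L₀.U (JJ q)) q).comp
      ((AddMonoidHom.snd _ _).comp (R.subtype.comp sec))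
  have hψ0 : ∀ x : h56_Inv L₀.U M, Nn x = ∑ q : ↥S, κ0 q (ψ0 q x) := by
    intro x
    have e1 := (sec x).2.2
    have e2 : ((sec x : R) : h56_Inv L₀.U M × (∀ q : ↥S, h56_Inv L₀.U (JJ q))).1 = x := hsec' x
    rw [e2] at e1
    exact e1
  let toInv0 : M →+ h56_Inv L₀.U M := AddMonoidHom.mk' (fun m => ⟨m, hM0 m⟩) (fun a b => rfl)
  refine ⟨fun q => (h56_Inv L₀.U (JJ q)).subtype.comp
    ((h96_trace (Γ := GQ ⧸ L₀.U) (ψ0 q)).comp toInv0), fun q g m => ?_, fun m => ?_⟩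
  · -- equivariance
    show ((h96_trace (Γ := GQ ⧸ L₀.U) (ψ0 q) (toInv0 (M.ρ g m)) : h56_Inv L₀.U (JJ q)) : JJ q) =
      g • ((h96_trace (Γ := GQ ⧸ L₀.U) (ψ0 q) (toInv0 m) : h56_Inv L₀.U (JJ q)) : JJ q)
    have e1 : toInv0 (M.ρ g m) = (g : GQ ⧸ L₀.U) • toInv0 m := Subtype.ext rfl
    rw [e1, h96_trace_smul]
    rfl
  · -- the identity
    have := Fintype.ofFinite (GQ ⧸ L₀.U)
    have e1 := htr (toInv0 m)
    have e2 : h96_trace (Γ := GQ ⧸ L₀.U) Nn (toInv0 m) =
        ∑ q : ↥S, κ0 q (h96_trace (Γ := GQ ⧸ L₀.U) (ψ0 q) (toInv0 m)) := by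
      have e3 : ∀ γ : GQ ⧸ L₀.U, γ • Nn (γ⁻¹ • toInv0 m) =
          ∑ q : ↥S, κ0 q (γ • ψ0 q (γ⁻¹ • toInv0 m)) := by
        intro γ
        rw [hψ0, Finset.smul_sum]
        refine Finset.sum_congr rfl fun q _ => ?_
        exact (h56_Inv.map_smul (κ q) (hA.κ_smul q) γ _).symm
      rw [h96_trace_apply, finsum_congr e3, finsum_eq_sum_of_fintype, Finset.sum_comm]
      refine Finset.sum_congr rfl fun q _ => ?_
      rw [← map_sum, h96_trace_apply, finsum_eq_sum_of_fintype]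
    show f m = ∑ q : ↥S, κ q
      ((h96_trace (Γ := GQ ⧸ L₀.U) (ψ0 q) (toInv0 m) : h56_Inv L₀.U (JJ q)) : JJ q)
    have e4 : f m = f ((toInv0 m : h56_Inv L₀.U M) : M) := rfl
    rw [e4, e1, e2, AddSubmonoidClass.coe_finsetSum]
    rfl

end D2

end Fermat.Agent.S55
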