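/-
S55 layer H, row H-CONN (helper96; spec owner helper12): the connecting map in degree `0 → 1`
for a short exact sequence `0 → A → B → B'' → 0` of `G`-modules (unbundled, `G` any group),
in terms of the landed relation `h40_Conn₀ i q c z` (`∃ b, q b = c ∧ ∀ g, i (z g) = g • b - b`):
existence, cocycle property, uniqueness up to coboundaries, additivity, exactness at `B''^G`
and at `H¹(G, A)`, and the counting form
`|coker(B^G → B''^G)| = |ker(H¹(G, A) → H¹(G, B))|`.
-/
import Mathlib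
import Fermat.Agent.S55.h40_HDefs

set_option autoImplicit false

namespace Fermat.Agent.S55

open groupCohomology

section Conn

variable {G : Type*} [Group G] {A B B'' : Type*} [AddCommGroup A] [DistribMulAction G A]
  [AddCommGroup B] [DistribMulAction G B] [AddCommGroup B''] [DistribMulAction G B'']
  (i : A →+ B) (q : B →+ B'') (hex : h40_ShortExact G i q)

include hex

/-- `q ∘ i = 0` in a short exact sequence. -/
theorem h96_q_i (a : A) : q (i a) = 0 := (hex.exact (i a)).2 ⟨a, rfl⟩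

/-- Existence of the connecting cocycle of an invariant element. -/
theorem h96_conn_exists (b'' : B'') (hb : ∀ g : G, g • b'' = b'') :
    ∃ z : G → A, h40_Conn₀ i q b'' z := by
  obtain ⟨b, hb'⟩ := hex.surj b''
  have h : ∀ g : G, ∃ a : A, i a = g • b - b := by
    intro g
    have h0 : q (g • b - b) = 0 := by rw [map_sub, hex.q_smul, hb', hb g, sub_self]
    obtain ⟨a, ha⟩ := (hex.exact _).1 h0
    exact ⟨a, ha⟩
  choose z hz using h
  exact ⟨z, b, hb', hz⟩

/-- A connecting function is a 1-cocycle, its source is invariant, and it becomes a coboundary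
in `B`. -/
theorem h96_conn_isCocycle (b'' : B'') (z : G → A) (h : h40_Conn₀ i q b'' z) :
    IsCocycle₁ z ∧ (∀ g : G, g • b'' = b'') ∧ IsCoboundary₁ (fun g => i (z g)) := by
  obtain ⟨b, hqb, hz⟩ := h
  refine ⟨fun g h => hex.inj ?_, fun g => ?_, ⟨b, fun g => (hz g).symm⟩⟩
  · rw [map_add, hex.i_smul, hz, hz, hz, mul_smul, smul_sub]
    abel
  · have h1 : g • b = b + i (z g) := by rw [hz]; abel
    rw [← hqb, ← hex.q_smul, h1, map_add, h96_q_i i q hex, add_zero]

/-- Two connecting functions of the same element differ by a coboundary. -/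
theorem h96_conn_unique (b'' : B'') (z z' : G → A) (h : h40_Conn₀ i q b'' z)
    (h' : h40_Conn₀ i q b'' z') : IsCoboundary₁ (z - z') := by
  obtain ⟨b, hqb, hz⟩ := h
  obtain ⟨b', hqb', hz'⟩ := h'
  have h0 : q (b - b') = 0 := by rw [map_sub, hqb, hqb', sub_self]
  obtain ⟨a, ha⟩ := (hex.exact _).1 h0
  refine ⟨a, fun g => hex.inj ?_⟩
  rw [Pi.sub_apply, map_sub, map_sub, hex.i_smul, ha, hz, hz', smul_sub]
  abel

omit [DistribMulAction G A] [DistribMulAction G B''] hex in
/-- Additivity of the connecting relation (no exactness needed: `hex` is not an argument). -/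
theorem h96_conn_add (b₁ b₂ : B'') (z₁ z₂ : G → A) (h₁ : h40_Conn₀ i q b₁ z₁)
    (h₂ : h40_Conn₀ i q b₂ z₂) : h40_Conn₀ i q (b₁ + b₂) (z₁ + z₂) := by
  obtain ⟨c₁, hq₁, hz₁⟩ := h₁
  obtain ⟨c₂, hq₂, hz₂⟩ := h₂
  refine ⟨c₁ + c₂, by rw [map_add, hq₁, hq₂], fun g => ?_⟩
  rw [Pi.add_apply, map_add, hz₁, hz₂, smul_add]
  abel

/-- The connecting relation only depends on the class of the cocycle. -/
theorem h96_conn_congr (b'' : B'') (z z' : G → A) (h : h40_Conn₀ i q b'' z)
    (h' : IsCoboundary₁ (z - z')) : h40_Conn₀ i q b'' z' := by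
  obtain ⟨b, hqb, hz⟩ := h
  obtain ⟨a, ha⟩ := h'
  refine ⟨b - i a, by rw [map_sub, hqb, h96_q_i i q hex, sub_zero], fun g => ?_⟩
  have h1 : z' g = z g - (g • a - a) := by
    rw [ha g, Pi.sub_apply]; abel
  rw [h1, map_sub, map_sub, hex.i_smul, hz, smul_sub]
  abel

/-- Exactness at `B''^G`: the connecting cocycle is a coboundary iff the element lifts to an
invariant of `B`. -/
theorem h96_conn_isCoboundary_iff (b'' : B'') (z : G → A) (h : h40_Conn₀ i q b'' z) :
    IsCoboundary₁ z ↔ ∃ b₀ : B, (∀ g : G, g • b₀ = b₀) ∧ q b₀ = b'' := by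
  obtain ⟨b, hqb, hz⟩ := h
  constructor
  · rintro ⟨a, ha⟩
    refine ⟨b - i a, fun g => ?_, by rw [map_sub, hqb, h96_q_i i q hex, sub_zero]⟩
    have h1 : g • b = b + i (z g) := by rw [hz]; abel
    rw [smul_sub, h1, ← hex.i_smul, ← ha g, map_sub, hex.i_smul]
    abel
  · rintro ⟨b₀, hb₀, hqb₀⟩
    have h0 : q (b - b₀) = 0 := by rw [map_sub, hqb, hqb₀, sub_self]
    obtain ⟨a, ha⟩ := (hex.exact _).1 h0
    refine ⟨a, fun g => hex.inj ?_⟩
    have h1 : b = b₀ + i a := by rw [ha]; abel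
    rw [map_sub, hex.i_smul, hz, h1, smul_add, hb₀]
    abel

set_option linter.unusedVariables false in
/-- Exactness at `H¹(G, A)`: a cocycle of `A` which becomes a coboundary in `B` is a connecting
cocycle of an invariant element of `B''`. -/
theorem h96_conn_surj (z : G → A) (hz : IsCocycle₁ z)
    (h : IsCoboundary₁ (fun g => i (z g))) :
    ∃ b'' : B'', (∀ g : G, g • b'' = b'') ∧ h40_Conn₀ i q b'' z := by
  obtain ⟨b, hb0⟩ := h
  have hb : ∀ g : G, g • b - b = i (z g) := hb0
  refine ⟨q b, fun g => ?_, b, rfl, fun g => (hb g).symm⟩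
  have h1 : g • b = b + i (z g) := by rw [← hb g]; abel
  rw [← hex.q_smul, h1, map_add, h96_q_i i q hex, add_zero]

omit hex

/-- The 1-cocycles of `A` which become coboundaries in `B`. -/
def h96_kerZ (i : A →+ B) : AddSubgroup (G → A) where
  carrier := {z | IsCocycle₁ z ∧ IsCoboundary₁ (fun g => i (z g))}
  add_mem' := by
    rintro z z' ⟨hz, x, hx0⟩ ⟨hz', x', hx0'⟩
    have hx : ∀ g : G, g • x - x = i (z g) := hx0
    have hx' : ∀ g : G, g • x' - x' = i (z' g) := hx0'
    refine ⟨fun g h => ?_, x + x', fun g => ?_⟩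
    · rw [Pi.add_apply, Pi.add_apply, Pi.add_apply, hz g h, hz' g h, smul_add]
      abel
    · show g • (x + x') - (x + x') = i ((z + z') g)
      rw [Pi.add_apply, map_add, ← hx g, ← hx' g, smul_add]
      abel
  zero_mem' := by
    refine ⟨fun g h => ?_, 0, fun g => ?_⟩
    · simp
    · simp
  neg_mem' := by
    rintro z ⟨hz, x, hx0⟩
    have hx : ∀ g : G, g • x - x = i (z g) := hx0
    refine ⟨fun g h => ?_, -x, fun g => ?_⟩
    · rw [Pi.neg_apply, Pi.neg_apply, Pi.neg_apply, hz g h, smul_neg]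
      abel
    · show g • (-x) - (-x) = i ((-z) g)
      rw [Pi.neg_apply, map_neg, ← hx g, smul_neg]
      abel

theorem h96_mem_kerZ (i : A →+ B) (z : G → A) :
    z ∈ h96_kerZ (G := G) i ↔ IsCocycle₁ z ∧ IsCoboundary₁ (fun g => i (z g)) := Iff.rfl

end Conn

/-- The 1-coboundaries of `A`. -/
def h96_B1 (G A : Type*) [Group G] [AddCommGroup A] [DistribMulAction G A] :
    AddSubgroup (G → A) where
  carrier := {z | IsCoboundary₁ z}
  add_mem' := by
    rintro z z' ⟨x, hx⟩ ⟨x', hx'⟩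
    refine ⟨x + x', fun g => ?_⟩
    rw [Pi.add_apply, ← hx g, ← hx' g, smul_add]
    abel
  zero_mem' := ⟨0, fun g => by simp⟩
  neg_mem' := by
    rintro z ⟨x, hx⟩
    refine ⟨-x, fun g => ?_⟩
    rw [Pi.neg_apply, ← hx g, smul_neg]
    abel

theorem h96_mem_B1 (G A : Type*) [Group G] [AddCommGroup A] [DistribMulAction G A]
    (z : G → A) : z ∈ h96_B1 G A ↔ IsCoboundary₁ z := Iff.rfl

section Card

variable {G : Type*} [Group G] {A B B'' : Type*} [AddCommGroup A] [DistribMulAction G A]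
  [AddCommGroup B] [DistribMulAction G B] [AddCommGroup B''] [DistribMulAction G B'']
  (i : A →+ B) (q : B →+ B'') (hex : h40_ShortExact G i q)

include hex

/-- The connecting homomorphism `B''^G → kerZ ⧸ B¹`: it is surjective with kernel `q (B^G)`. -/
theorem h96_conn_hom_exists :
    ∃ φ : FixedPoints.addSubgroup G B'' →+
        (h96_kerZ (G := G) i) ⧸ (h96_B1 G A).addSubgroupOf (h96_kerZ (G := G) i),
      Function.Surjective φ ∧
      φ.ker = ((FixedPoints.addSubgroup G B).map q).addSubgroupOf (FixedPoints.addSubgroup G B'') ∧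
      ∀ (c : FixedPoints.addSubgroup G B'') (z : G → A), h40_Conn₀ i q (c : B'') z →
        ∀ hmem : z ∈ h96_kerZ (G := G) i, φ c = QuotientAddGroup.mk ⟨z, hmem⟩ := by
  classical
  have hex' : ∀ c : FixedPoints.addSubgroup G B'', ∃ z : G → A, h40_Conn₀ i q (c : B'') z :=
    fun c => h96_conn_exists i q hex c (fun g => (FixedPoints.mem_addSubgroup G B'' (c : B'')).1 c.2 g)
  choose zf hzf using hex'
  have hmem : ∀ c, zf c ∈ h96_kerZ (G := G) i := fun c =>
    ⟨(h96_conn_isCocycle i q hex _ _ (hzf c)).1, (h96_conn_isCocycle i q hex _ _ (hzf c)).2.2⟩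
  -- the key: class of any connecting function
  have hkey : ∀ (c : FixedPoints.addSubgroup G B'') (z : G → A)
      (hz : h40_Conn₀ i q (c : B'') z) (hm : z ∈ h96_kerZ (G := G) i),
      (QuotientAddGroup.mk ⟨zf c, hmem c⟩ :
        (h96_kerZ (G := G) i) ⧸ (h96_B1 G A).addSubgroupOf (h96_kerZ (G := G) i)) =
        QuotientAddGroup.mk ⟨z, hm⟩ := by
    intro c z hz hm
    rw [QuotientAddGroup.eq_iff_sub_mem, AddSubgroup.mem_addSubgroupOf]
    exact h96_conn_unique i q hex _ _ _ (hzf c) hz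
  let φ : FixedPoints.addSubgroup G B'' →+
      (h96_kerZ (G := G) i) ⧸ (h96_B1 G A).addSubgroupOf (h96_kerZ (G := G) i) :=
    AddMonoidHom.mk' (fun c => QuotientAddGroup.mk ⟨zf c, hmem c⟩) (by
      intro c c'
      have h1 : h40_Conn₀ i q ((c + c' : FixedPoints.addSubgroup G B'') : B'') (zf c + zf c') :=
        h96_conn_add i q _ _ _ _ (hzf c) (hzf c')
      rw [hkey (c + c') (zf c + zf c') h1 ((h96_kerZ (G := G) i).add_mem (hmem c) (hmem c'))]
      rfl)
  have hφ : ∀ c, φ c = QuotientAddGroup.mk ⟨zf c, hmem c⟩ := fun c => rfl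
  refine ⟨φ, ?_, ?_, fun c z hz hm => by rw [hφ]; exact hkey c z hz hm⟩
  · intro x
    obtain ⟨⟨z, hz⟩, rfl⟩ := QuotientAddGroup.mk_surjective x
    obtain ⟨b'', hb'', hconn⟩ := h96_conn_surj i q hex z hz.1 hz.2
    refine ⟨⟨b'', (FixedPoints.mem_addSubgroup G B'' b'').2 hb''⟩, ?_⟩
    rw [hφ]
    exact hkey _ z hconn hz
  · ext c
    rw [AddMonoidHom.mem_ker, hφ, QuotientAddGroup.eq_zero_iff, AddSubgroup.mem_addSubgroupOf,
      AddSubgroup.mem_addSubgroupOf, AddSubgroup.mem_map]
    show IsCoboundary₁ (zf c) ↔ _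
    rw [h96_conn_isCoboundary_iff i q hex _ _ (hzf c)]
    constructor
    · rintro ⟨b₀, hb₀, hq⟩
      exact ⟨b₀, (FixedPoints.mem_addSubgroup G B b₀).2 hb₀, hq⟩
    · rintro ⟨b₀, hb₀, hq⟩
      exact ⟨b₀, (FixedPoints.mem_addSubgroup G B b₀).1 hb₀, hq⟩

/-- Counting form: `|coker(B^G → B''^G)| = |ker(H¹(G, A) → H¹(G, B))|` (both sides are `0`
simultaneously when infinite). -/
theorem h96_conn_card :
    ((FixedPoints.addSubgroup G B).map q).relIndex (FixedPoints.addSubgroup G B'') =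
      (h96_B1 G A).relIndex (h96_kerZ (G := G) i) := by
  obtain ⟨φ, hsurj, hker, -⟩ := h96_conn_hom_exists i q hex
  rw [AddSubgroup.relIndex, AddSubgroup.relIndex, ← hker, AddSubgroup.index_ker,
    AddMonoidHom.range_eq_top.2 hsurj, AddSubgroup.card_top]
  rfl

end Card

end Fermat.Agent.S55
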