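import Mathlib

/-!
# S55, assembly layer: the correcting function of Shapiro's lemma at a finite level

`h97_exists_eps` is the double-coset construction used in the injectivity of Shapiro's map in
degree 2, in ambient form (no quotient groups): `Γ` any group, `U` a normal subgroup,
`r : Δ →* Γ` any homomorphism.
-/

set_option autoImplicit false

namespace Fermat.Agent.S55

section Eps

/-- The correcting function of Shapiro's lemma at a finite level: `Γ` a group, `U` a normal
subgroup, `r : Δ → Γ`, `a : Γ × Γ → A` a `U`-level function satisfying the cocycle identity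
for triples `(r τ, g, h)`, and `u` a level cochain of `Δ` with `d u = a ∘ (r × r)`.  Then there
is a right-`U`-invariant `ε : Γ → A` with `ε (r τ * k) = τ • ε k + a (r τ, k) - u τ`. -/
theorem h97_exists_eps {Γ Δ : Type*} [Group Γ] [Group Δ] (r : Δ →* Γ) (U : Subgroup Γ)
    [hU : U.Normal] {A : Type*} [AddCommGroup A] [DistribMulAction Δ A] (a : Γ × Γ → A)
    (ha_coc : ∀ (τ : Δ) (g h : Γ), a (r τ * g, h) + a (r τ, g) = τ • a (g, h) + a (r τ, g * h))
    (ha_lev : ∀ g g' s s', s ∈ U → s' ∈ U → a (g * s, g' * s') = a (g, g'))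
    (u : Δ → A) (hu_lev : ∀ τ σ, r σ ∈ U → u (τ * σ) = u τ)
    (hu : ∀ τ τ', τ • u τ' - u (τ * τ') + u τ = a (r τ, r τ')) :
    ∃ ε : Γ → A, (∀ k s, s ∈ U → ε (k * s) = ε k) ∧
      ∀ τ k, ε (r τ * k) = τ • ε k + a (r τ, k) - u τ := by
  classical
  -- the double coset relation
  let rel : Setoid Γ :=
    { r := fun k k' => ∃ (τ : Δ) (s : Γ), s ∈ U ∧ k' = r τ * k * s
      iseqv :=
        { refl := fun k => ⟨1, 1, U.one_mem, by simp⟩
          symm := by
            rintro k k' ⟨τ, s, hs, rfl⟩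
            exact ⟨τ⁻¹, s⁻¹, U.inv_mem hs, by simp [mul_assoc]⟩
          trans := by
            rintro k k' k'' ⟨τ, s, hs, rfl⟩ ⟨τ', s', hs', rfl⟩
            exact ⟨τ' * τ, s * s', U.mul_mem hs hs', by simp [mul_assoc]⟩ } }
  let rep : Γ → Γ := fun k => (Quotient.mk rel k).out
  have hrep : ∀ k, ∃ (τ : Δ) (s : Γ), s ∈ U ∧ k = r τ * rep k * s := fun k =>
    Quotient.exact (Quotient.out_eq (Quotient.mk rel k))
  have hrep_left : ∀ (τ : Δ) (k : Γ), rep (r τ * k) = rep k := by
    intro τ k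
    have : Quotient.mk rel (r τ * k) = Quotient.mk rel k :=
      Quotient.sound (show rel.r (r τ * k) k from
        ⟨τ⁻¹, 1, U.one_mem, by simp⟩)
    show (Quotient.mk rel (r τ * k)).out = (Quotient.mk rel k).out
    rw [this]
  have hrep_right : ∀ (k s : Γ), s ∈ U → rep (k * s) = rep k := by
    intro k s hs
    have : Quotient.mk rel (k * s) = Quotient.mk rel k :=
      Quotient.sound (show rel.r (k * s) k from
        ⟨1, s⁻¹, U.inv_mem hs, by simp [mul_assoc]⟩)
    show (Quotient.mk rel (k * s)).out = (Quotient.mk rel k).out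
    rw [this]
  choose T Sg hSg hT using hrep
  let ε : Γ → A := fun k => a (r (T k), rep k) - u (T k)
  -- key property: any decomposition computes `ε`
  have hKP : ∀ (k : Γ) (τ₁ : Δ) (s₁ : Γ), s₁ ∈ U → k = r τ₁ * rep k * s₁ →
      ε k = a (r τ₁, rep k) - u τ₁ := by
    intro k τ₁ s₁ hs₁ hk
    have h1 : r (τ₁⁻¹ * T k) = rep k * (s₁ * (Sg k)⁻¹) * (rep k)⁻¹ := by
      have h2 : r (T k) * rep k * Sg k = r τ₁ * rep k * s₁ := (hT k).symm.trans hk
      have h3 : r (T k) = r τ₁ * rep k * s₁ * (Sg k)⁻¹ * (rep k)⁻¹ := by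
        rw [← h2]; group
      rw [map_mul, map_inv, h3]
      group
    have h4 : r (τ₁⁻¹ * T k) ∈ U := by
      rw [h1]
      exact hU.conj_mem _ (U.mul_mem hs₁ (U.inv_mem (hSg k))) _
    have h5 : T k = τ₁ * (τ₁⁻¹ * T k) := by group
    show a (r (T k), rep k) - u (T k) = a (r τ₁, rep k) - u τ₁
    have h6 : u (T k) = u τ₁ := by
      rw [h5]; exact hu_lev τ₁ _ h4
    have h7 : a (r (T k), rep k) = a (r τ₁, rep k) := by
      have := ha_lev (r τ₁) (rep k) (r (τ₁⁻¹ * T k)) 1 h4 U.one_mem
      rw [mul_one, ← map_mul, ← h5] at this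
      exact this
    rw [h6, h7]
  refine ⟨ε, fun k s hs => ?_, fun τ k => ?_⟩
  · have hk : k * s = r (T k) * rep (k * s) * (Sg k * s) := by
      rw [hrep_right k s hs]
      conv_lhs => rw [hT k]
      group
    rw [hKP (k * s) (T k) (Sg k * s) (U.mul_mem (hSg k) hs) hk, hrep_right k s hs]
  · have hk : r τ * k = r (τ * T k) * rep (r τ * k) * Sg k := by
      rw [hrep_left τ k, map_mul]
      conv_lhs => rw [hT k]
      group
    rw [hKP (r τ * k) (τ * T k) (Sg k) (hSg k) hk, hrep_left τ k]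
    -- cocycle identity at `(r τ, r (T k), rep k)`
    have h1 := ha_coc τ (r (T k)) (rep k)
    have h2 : a (r τ, r (T k) * rep k) = a (r τ, k) := by
      have := ha_lev (r τ) (r (T k) * rep k) 1 (Sg k) U.one_mem (hSg k)
      rw [mul_one, ← hT k] at this
      exact this.symm
    have h3 := hu τ (T k)
    rw [h2] at h1
    show a (r (τ * T k), rep k) - u (τ * T k) = τ • (a (r (T k), rep k) - u (T k)) + a (r τ, k) - u τ
    rw [map_mul, smul_sub]
    have h4 : a (r τ * r (T k), rep k) = τ • a (r (T k), rep k) + a (r τ, k) - a (r τ, r (T k)) :=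
      eq_sub_of_add_eq h1
    have h5 : u (τ * T k) = τ • u (T k) + u τ - a (r τ, r (T k)) := by
      rw [← h3]; abel
    rw [h4, h5]
    abel

end Eps

end Fermat.Agent.S55
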