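import Fermat.Agent.S55.h97_GalLevel
import Fermat.Agent.S55.h25_GlobDefs
import Fermat.Agent.S55.h6_LocalLevels
import Fermat.Agent.S55.h63_LocAmb

/-!
# S55, GLOB-AMB-EV: the semi-local module `h25_Jq ↥F q` of a level is coinduced (prelude form)

`F` a finite Galois extension of `ℚ` inside `ℚbar`, `q` a prime, `j₀ = h97_emb q F` the
restriction of `padicEmbedding q` to `F`, `π = h97_π F : G_ℚ → Gal(F/ℚ)`.  Instance-free
("function form") statements on helper25's carrier `h25_Jq ↥F q`: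

* `h97_exists_emb_eq` (E0): every `j : ↥F →+* PadicAlgCl q` is `j₀ ∘ π g` for some `g : G_ℚ`;
  `h97_emb_comp_π_eq_iff`: `j₀ ∘ π g = j₀ ∘ π g' ↔ π g = π g'`.
* `h97_emb_comp_local` (E1): `τ ∘ j₀ = j₀ ∘ π (localGaloisToGlobal q τ)`;
  `h97_Jq_ev_smul`: `y (j₀ ∘ π (r τ)) = τ (y j₀)` for `y : h25_Jq ↥F q`   (field `e_smul`).
* `h97_Jq_bij` (E2): the field `e_bij` in function form.
* `h97_emb_inclusion` (E3): `j₀' ∘ inclusion = j₀` for `F ≤ F'`   (field `e_ι`);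
  `h97_π_inclusion`: `inclusion ∘ π_F g = π_F' g ∘ inclusion`.
* `h97_Jq_bij_XX`, `h97_Jq_ev_smul_XX`: the same with `primeLocalToGlobal` and `h63_XX`.
-/

set_option autoImplicit false

open CategoryTheory Module groupCohomology ExtCitation

namespace Fermat.Agent.S55

local notation "Qb" => AlgebraicClosure ℚ
local notation "GQ" => (AlgebraicClosure ℚ ≃ₐ[ℚ] AlgebraicClosure ℚ)

noncomputable section

section Emb

variable (q : ℕ) [Fact q.Prime] (F : IntermediateField ℚ Qb)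

/-- The distinguished embedding `j₀ : F → PadicAlgCl q`: the restriction of `padicEmbedding q`. -/
def h97_emb : ↥F →+* PadicAlgCl q :=
  ((padicEmbedding q : Qb →ₐ[ℚ] PadicAlgCl q) : Qb →+* PadicAlgCl q).comp (algebraMap ↥F Qb)

theorem h97_emb_apply (x : F) : h97_emb q F x = padicEmbedding q (x : Qb) := rfl

theorem h97_emb_injective : Function.Injective (h97_emb q F) := (h97_emb q F).injective

/-- (E3) the distinguished embeddings are compatible with inclusions of levels. -/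
theorem h97_emb_inclusion {F F' : IntermediateField ℚ Qb} (h : F ≤ F') :
    (h97_emb q F').comp ((IntermediateField.inclusion h : ↥F →ₐ[ℚ] ↥F') : ↥F →+* ↥F') =
      h97_emb q F := rfl

/-- restriction to levels is compatible with inclusions of levels (for `ιJ_smul`). -/
theorem h97_π_inclusion {F F' : IntermediateField ℚ Qb} [Normal ℚ F] [Normal ℚ F'] (h : F ≤ F')
    (g : GQ) :
    ((IntermediateField.inclusion h : ↥F →ₐ[ℚ] ↥F') : ↥F →+* ↥F').comp
        ((h97_π F g : ↥F ≃ₐ[ℚ] ↥F) : ↥F →+* ↥F) =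
      ((h97_π F' g : ↥F' ≃ₐ[ℚ] ↥F') : ↥F' →+* ↥F').comp
        ((IntermediateField.inclusion h : ↥F →ₐ[ℚ] ↥F') : ↥F →+* ↥F') := by
  ext x
  show ((h97_π F g x : F) : Qb) = ((h97_π F' g (IntermediateField.inclusion h x) : F') : Qb)
  rw [h97_π_apply, h97_π_apply]
  rfl

variable [Normal ℚ F]

/-- (E1) `τ ∘ j₀ = j₀ ∘ π (r τ)`. -/
theorem h97_emb_comp_local (τ : PadicAlgCl q ≃ₐ[ℚ_[q]] PadicAlgCl q) :
    (τ : PadicAlgCl q →+* PadicAlgCl q).comp (h97_emb q F) =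
      (h97_emb q F).comp
        ((h97_π F (localGaloisToGlobal q τ) : ↥F ≃ₐ[ℚ] ↥F) : ↥F →+* ↥F) := by
  ext x
  show τ (padicEmbedding q (x : Qb)) =
    padicEmbedding q ((h97_π F (localGaloisToGlobal q τ) x : F) : Qb)
  rw [h97_π_apply, padicEmbedding_localGaloisToGlobal]

theorem h97_emb_comp_π_mul (g g' : GQ) :
    ((h97_emb q F).comp ((h97_π F g : ↥F ≃ₐ[ℚ] ↥F) : ↥F →+* ↥F)).comp
        ((h97_π F g' : ↥F ≃ₐ[ℚ] ↥F) : ↥F →+* ↥F) =
      (h97_emb q F).comp ((h97_π F (g * g') : ↥F ≃ₐ[ℚ] ↥F) : ↥F →+* ↥F) := by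
  ext x
  show h97_emb q F (h97_π F g (h97_π F g' x)) = h97_emb q F (h97_π F (g * g') x)
  rw [map_mul]
  rfl

theorem h97_emb_comp_π_eq_iff (g g' : GQ) :
    (h97_emb q F).comp ((h97_π F g : ↥F ≃ₐ[ℚ] ↥F) : ↥F →+* ↥F) =
        (h97_emb q F).comp ((h97_π F g' : ↥F ≃ₐ[ℚ] ↥F) : ↥F →+* ↥F) ↔
      h97_π F g = h97_π F g' := by
  constructor
  · intro h
    ext x
    have h1 : h97_emb q F (h97_π F g x) = h97_emb q F (h97_π F g' x) :=
      DFunLike.congr_fun h x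
    exact congrArg Subtype.val (h97_emb_injective q F h1)
  · intro h
    rw [h]

/-- (E0) every embedding of `F` into `PadicAlgCl q` is `j₀ ∘ π g` for some `g`. -/
theorem h97_exists_emb_eq (j : ↥F →+* PadicAlgCl q) :
    ∃ g : GQ, j = (h97_emb q F).comp ((h97_π F g : ↥F ≃ₐ[ℚ] ↥F) : ↥F →+* ↥F) := by
  have hnormal : Normal ℚ Qb := Fermat.Agent.S13.h24_isGalois_Qbar.to_normal
  have halg : Algebra.IsAlgebraic ℚ ↥F := inferInstance
  let jA : ↥F →ₐ[ℚ] PadicAlgCl q := j.toRatAlgHom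
  have hjA : ∀ x, jA x = j x := fun _ => rfl
  have hinj : Function.Injective (padicEmbedding q : Qb → PadicAlgCl q) :=
    (padicEmbedding q).injective
  have hmem : ∀ x : ↥F, jA x ∈ (padicEmbedding q).range := by
    intro x
    have h1 : IsAlgebraic ℚ (jA x) := (Algebra.IsAlgebraic.isAlgebraic x).algHom jA
    exact (h6_mem_range_padicEmbedding_iff q _).2 h1
  let e := AlgEquiv.ofInjective (padicEmbedding q) hinj
  let j2 : ↥F →ₐ[ℚ] Qb := (e.symm : (padicEmbedding q).range →ₐ[ℚ] Qb).comp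
    (jA.codRestrict (padicEmbedding q).range hmem)
  have hj2 : ∀ x : ↥F, padicEmbedding q (j2 x) = j x := by
    intro x
    have h1 : (e (j2 x) : PadicAlgCl q) = padicEmbedding q (j2 x) :=
      AlgEquiv.ofInjective_apply _ _ _
    rw [← h1]
    show ((e (e.symm (jA.codRestrict (padicEmbedding q).range hmem x)) :
      (padicEmbedding q).range) : PadicAlgCl q) = j x
    rw [AlgEquiv.apply_symm_apply]
    rfl
  let g : GQ := AlgEquiv.ofBijective (j2.liftNormal Qb) (AlgHom.normal_bijective ℚ Qb Qb _)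
  have hg : ∀ x : ↥F, g (x : Qb) = j2 x := by
    intro x
    exact j2.liftNormal_commutes Qb x
  refine ⟨g, ?_⟩
  ext x
  show j x = padicEmbedding q ((h97_π F g x : F) : Qb)
  rw [h97_π_apply, hg, hj2]

end Emb

section Jq

variable (q : ℕ) [Fact q.Prime] (F : IntermediateField ℚ Qb) [Normal ℚ F]

/-- the field `e_smul`, function form. -/
theorem h97_Jq_ev_smul (y : h25_Jq ↥F q) (τ : PadicAlgCl q ≃ₐ[ℚ_[q]] PadicAlgCl q) :
    ((y : (↥F →+* PadicAlgCl q) → (PadicAlgCl q)ˣ) ((h97_emb q F).comp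
        ((h97_π F (localGaloisToGlobal q τ) : ↥F ≃ₐ[ℚ] ↥F) : ↥F →+* ↥F)) : PadicAlgCl q) =
      τ ((y : (↥F →+* PadicAlgCl q) → (PadicAlgCl q)ˣ) (h97_emb q F)) := by
  rw [← h97_emb_comp_local]
  exact y.2 τ (h97_emb q F)

/-- **(E2) the field `e_bij`, function form**: the elements of `h25_Jq ↥F q` are exactly the
functions `φ : G_ℚ → (PadicAlgCl q)ˣ` which are left-equivariant for the local Galois group and
right-invariant under `Gal(ℚbar/F)`. -/
theorem h97_Jq_bij (φ : GQ → (PadicAlgCl q)ˣ)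
    (hφ : ∀ (τ : PadicAlgCl q ≃ₐ[ℚ_[q]] PadicAlgCl q) (g : GQ),
      φ (localGaloisToGlobal q τ * g) = τ • φ g)
    (hlev : ∀ g s, s ∈ F.fixingSubgroup → φ (g * s) = φ g) :
    ∃! y : h25_Jq ↥F q, ∀ g : GQ,
      (y : (↥F →+* PadicAlgCl q) → (PadicAlgCl q)ˣ)
        ((h97_emb q F).comp ((h97_π F g : ↥F ≃ₐ[ℚ] ↥F) : ↥F →+* ↥F)) = φ g := by
  classical
  choose G hG using h97_exists_emb_eq q F
  -- well-definedness
  have hwd : ∀ (j : ↥F →+* PadicAlgCl q) (g : GQ),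
      j = (h97_emb q F).comp ((h97_π F g : ↥F ≃ₐ[ℚ] ↥F) : ↥F →+* ↥F) → φ (G j) = φ g := by
    intro j g hj
    have h1 := (h97_emb_comp_π_eq_iff q F (G j) g).1 ((hG j).symm.trans hj)
    obtain ⟨s, hs, rfl⟩ := (h97_π_eq_iff F (G j) g).1 h1
    rw [hlev _ _ hs]
  refine ⟨⟨fun j => φ (G j), ?_⟩, ?_, ?_⟩
  · intro τ j
    have h1 : (τ : PadicAlgCl q →+* PadicAlgCl q).comp j =
        (h97_emb q F).comp
          ((h97_π F (localGaloisToGlobal q τ * G j) : ↥F ≃ₐ[ℚ] ↥F) : ↥F →+* ↥F) := by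
      conv_lhs => rw [hG j]
      rw [← RingHom.comp_assoc, h97_emb_comp_local, h97_emb_comp_π_mul]
    have h2 := hwd _ _ h1
    show ((φ (G ((τ : PadicAlgCl q →+* PadicAlgCl q).comp j)) :
      (PadicAlgCl q)ˣ) : PadicAlgCl q) = τ (φ (G j))
    rw [h2, hφ]
    rfl
  · intro g
    exact hwd _ g rfl
  · intro y' hy'
    apply Subtype.ext
    funext j
    show (y' : (↥F →+* PadicAlgCl q) → (PadicAlgCl q)ˣ) j = φ (G j)
    rw [← hy' (G j), ← hG j]

end Jq

section Wrappers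

attribute [local instance] h63_fact

variable (q : Nat.Primes) (F : IntermediateField ℚ Qb) [Normal ℚ F]

/-- the field `e_smul` with `primeLocalToGlobal` and `h63_XX`. -/
theorem h97_Jq_ev_smul_XX (y : h25_Jq ↥F (q : ℕ)) (τ : primeLocalGaloisGroup q) :
    (h63_XX.ofUnit ((y : (↥F →+* PadicAlgCl (q : ℕ)) → (PadicAlgCl (q : ℕ))ˣ)
        ((h97_emb (q : ℕ) F).comp
          ((h97_π F (primeLocalToGlobal q τ) : ↥F ≃ₐ[ℚ] ↥F) : ↥F →+* ↥F))) : h63_XX q) =
      τ • h63_XX.ofUnit ((y : (↥F →+* PadicAlgCl (q : ℕ)) → (PadicAlgCl (q : ℕ))ˣ)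
        (h97_emb (q : ℕ) F)) := by
  apply h63_XX.toUnit_injective
  apply Units.ext
  rw [h63_XX.toUnit_smul]
  exact h97_Jq_ev_smul (q : ℕ) F y τ

/-- **the field `e_bij`** with `primeLocalToGlobal` and `h63_XX`. -/
theorem h97_Jq_bij_XX (φ : GQ → h63_XX q)
    (hφ : ∀ (τ : primeLocalGaloisGroup q) (g : GQ), φ (primeLocalToGlobal q τ * g) = τ • φ g)
    (hlev : ∀ g s, s ∈ F.fixingSubgroup → φ (g * s) = φ g) :
    ∃! y : h25_Jq ↥F (q : ℕ), ∀ g : GQ,
      (h63_XX.ofUnit ((y : (↥F →+* PadicAlgCl (q : ℕ)) → (PadicAlgCl (q : ℕ))ˣ)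
        ((h97_emb (q : ℕ) F).comp ((h97_π F g : ↥F ≃ₐ[ℚ] ↥F) : ↥F →+* ↥F))) : h63_XX q) = φ g :=
  h97_Jq_bij (q : ℕ) F (fun g => h63_XX.toUnit (φ g))
    (fun τ g => congrArg h63_XX.toUnit (hφ τ g)) (fun g s hs => congrArg h63_XX.toUnit (hlev g s hs))

end Wrappers

end

end Fermat.Agent.S55
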