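import Fermat.Agent.S55.h72_AsmDefs
import Fermat.Agent.S55.h56_GalLevels

/-!
# S55, bridge layer: API for the levels `h72_Lev S` of the ambient interface

Wrappers (in the `h72_Lev` language) around `h56_GalLevels`, `h56_FinLevel`, `h97_Sha`:

* `h97_toLevel`, `h97_ofLevel` : conversions `h72_Lev S ↔ h56_Level S` (same subgroup `U`);
* `h97_lev_finite_quot` : `Finite (G_ℚ ⧸ L.U)`; `h97_lev_nonempty`;
* `h97_lev_exists_le`, `h97_lev_exists_le_finite`, `h97_lev_exists_of_unram` : directedness;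
* `h97_lev_isLevelConstantS₁_iff`, `h97_lev_isLevelConstantS₂_iff` : the prelude's `S`-level
  constancy is invariance under `L.U` for a level `L` below a prescribed one;
* `h97_lev_exists_fix_finite` : finitely many elements of a smooth module are fixed by a common
  level;
* `h97_lev_exists_defl₁`, `h97_lev_exists_defl₂` : every `S`-level cochain with values in a smooth
  module is an inflation from some level (no cocycle hypothesis);
* `h97_lev_isCobS₂_iff` : `h72_IsCobS₂` of an inflation = coboundary at some deeper level.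
-/

set_option autoImplicit false

open CategoryTheory Module groupCohomology ExtCitation

namespace Fermat.Agent.S55

local notation "Qb" => AlgebraicClosure ℚ
local notation "GQ" => (AlgebraicClosure ℚ ≃ₐ[ℚ] AlgebraicClosure ℚ)

variable {S : Finset Nat.Primes}

/-- A level of the ambient interface as a level of `h56_GalLevels`. -/
def h97_toLevel (L : h72_Lev S) : h56_Level S := ⟨L.F, L.unr, L.gal⟩

/-- A level of `h56_GalLevels` as a level of the ambient interface. -/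
def h97_ofLevel (L : h56_Level S) : h72_Lev S := ⟨L.1, L.2.1, L.2.2⟩

@[simp] theorem h97_toLevel_U (L : h72_Lev S) : (h97_toLevel L).U = L.U := rfl

@[simp] theorem h97_ofLevel_U (L : h56_Level S) : (h97_ofLevel L).U = L.U := rfl

@[simp] theorem h97_ofLevel_toLevel (L : h72_Lev S) : h97_ofLevel (h97_toLevel L) = L := rfl

@[simp] theorem h97_toLevel_ofLevel (L : h56_Level S) : h97_toLevel (h97_ofLevel L) = L := rfl

instance h97_lev_finite_quot (L : h72_Lev S) : Finite (GQ ⧸ L.U) :=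
  h56_Level.instFiniteQuot (h97_toLevel L)

instance h97_lev_nonempty : Nonempty (h72_Lev S) :=
  ⟨h97_ofLevel (Classical.arbitrary _)⟩

/-- a field unramified outside `S` is contained in a level below a given one. -/
theorem h97_lev_exists_of_unram (L₀ : h72_Lev S) (F : IntermediateField ℚ Qb)
    (hF : F.IsUnramifiedOutside S) :
    ∃ L : h72_Lev S, L.U ≤ L₀.U ∧ L.U ≤ F.fixingSubgroup := by
  obtain ⟨L, h1, h2⟩ := (h97_toLevel L₀).exists_ge F hF
  exact ⟨h97_ofLevel L, h56_Level.U_anti h1, IntermediateField.fixingSubgroup_antitone h2⟩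

/-- the levels are directed. -/
theorem h97_lev_exists_le (L₁ L₂ : h72_Lev S) : ∃ L : h72_Lev S, L.U ≤ L₁.U ∧ L.U ≤ L₂.U := by
  obtain ⟨L, h1, h2⟩ := exists_ge_ge (h97_toLevel L₁) (h97_toLevel L₂)
  exact ⟨h97_ofLevel L, h56_Level.U_anti h1, h56_Level.U_anti h2⟩

/-- a finite family of levels has a common refinement (below a given level). -/
theorem h97_lev_exists_le_finite (L₀ : h72_Lev S) {ι : Type*} [Finite ι] (Ls : ι → h72_Lev S) :
    ∃ L : h72_Lev S, L.U ≤ L₀.U ∧ ∀ i, L.U ≤ (Ls i).U := by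
  classical
  have := Fintype.ofFinite ι
  obtain ⟨L, hL⟩ := Finset.exists_le
    (Finset.univ.image (fun i => h97_toLevel (Ls i)) ∪ {h97_toLevel L₀})
  refine ⟨h97_ofLevel L, h56_Level.U_anti (hL (h97_toLevel L₀) (by simp)), fun i => ?_⟩
  exact h56_Level.U_anti (hL (h97_toLevel (Ls i)) (by simp))

/-- `S`-level-constancy (degree 1) in the `h72_Lev` language. -/
theorem h97_lev_isLevelConstantS₁_iff (L₀ : h72_Lev S) {X : Type*} (x : GQ → X) :
    IsLevelConstantS₁ S x ↔ ∃ L : h72_Lev S, L.U ≤ L₀.U ∧ h56_IsLevel₁ L.U x := by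
  rw [h56_isLevelConstantS₁_iff (h97_toLevel L₀)]
  constructor
  · rintro ⟨L, h1, h2⟩
    exact ⟨h97_ofLevel L, h56_Level.U_anti h1, h2⟩
  · rintro ⟨L, h1, h2⟩
    obtain ⟨L', h3, h4⟩ := exists_ge_ge (h97_toLevel L₀) (h97_toLevel L)
    exact ⟨L', h3, h2.mono (h56_Level.U_anti h4)⟩

/-- `S`-level-constancy (degree 2) in the `h72_Lev` language. -/
theorem h97_lev_isLevelConstantS₂_iff (L₀ : h72_Lev S) {X : Type*} (y : GQ × GQ → X) :
    IsLevelConstantS₂ S y ↔ ∃ L : h72_Lev S, L.U ≤ L₀.U ∧ h56_IsLevel₂ L.U y := by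
  rw [h56_isLevelConstantS₂_iff (h97_toLevel L₀)]
  constructor
  · rintro ⟨L, h1, h2⟩
    exact ⟨h97_ofLevel L, h56_Level.U_anti h1, h2⟩
  · rintro ⟨L, h1, h2⟩
    obtain ⟨L', h3, h4⟩ := exists_ge_ge (h97_toLevel L₀) (h97_toLevel L)
    exact ⟨L', h3, h2.mono (h56_Level.U_anti h4)⟩

/-- a cochain of level `L.U` is `S`-level-constant. -/
theorem h97_lev_isLevelConstantS₁ (L : h72_Lev S) {X : Type*} {x : GQ → X}
    (hx : h56_IsLevel₁ L.U x) : IsLevelConstantS₁ S x := ⟨L.F, L.unr, hx⟩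

/-- a cochain of level `L.U` is `S`-level-constant. -/
theorem h97_lev_isLevelConstantS₂ (L : h72_Lev S) {X : Type*} {y : GQ × GQ → X}
    (hy : h56_IsLevel₂ L.U y) : IsLevelConstantS₂ S y := ⟨L.F, L.unr, hy⟩

section Smooth

variable {A : Type*} [AddCommGroup A] [DistribMulAction GQ A]

/-- finitely many elements of a smooth module are fixed by a common level. -/
theorem h97_lev_exists_fix_finite
    (hsm : ∀ a : A, ∃ L : h72_Lev S, ∀ s ∈ L.U, s • a = a) (L₀ : h72_Lev S)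
    (T : Set A) (hT : T.Finite) :
    ∃ L : h72_Lev S, L.U ≤ L₀.U ∧ ∀ a ∈ T, a ∈ h56_Inv L.U A := by
  have : Finite ↥T := hT.to_subtype
  choose Ls hLs using fun a : ↥T => hsm a.1
  obtain ⟨L, h1, h2⟩ := h97_lev_exists_le_finite L₀ Ls
  exact ⟨L, h1, fun a ha s hs => hLs ⟨a, ha⟩ s (h2 ⟨a, ha⟩ hs)⟩

/-- **Deflation, degree 1**: every `S`-level 1-cochain with values in a smooth module is the
inflation of a cochain of `G_ℚ ⧸ L.U` with values in the `L.U`-invariants, for some level `L`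
below a given one. -/
theorem h97_lev_exists_defl₁
    (hsm : ∀ a : A, ∃ L : h72_Lev S, ∀ s ∈ L.U, s • a = a) (L₀ : h72_Lev S)
    (x : GQ → A) (hx : IsLevelConstantS₁ S x) :
    ∃ L : h72_Lev S, L.U ≤ L₀.U ∧ ∃ xbar : GQ ⧸ L.U → h56_Inv L.U A, h56_infl₁ xbar = x := by
  obtain ⟨L₁, h1, hl⟩ := (h97_lev_isLevelConstantS₁_iff L₀ x).1 hx
  obtain ⟨x', hx'⟩ := hl.exists_factor
  have hfin : (Set.range x).Finite := by
    refine (Set.finite_range x').subset ?_
    rintro _ ⟨g, rfl⟩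
    exact ⟨(g : GQ ⧸ L₁.U), hx' g⟩
  obtain ⟨L, h2, hfix⟩ := h97_lev_exists_fix_finite hsm L₁ (Set.range x) hfin
  exact ⟨L, h2.trans h1, h56_exists_infl₁_eq x (hl.mono h2) (fun g => hfix _ ⟨g, rfl⟩)⟩

/-- **Deflation, degree 2**: every `S`-level 2-cochain with values in a smooth module is the
inflation of a cochain of `G_ℚ ⧸ L.U` with values in the `L.U`-invariants, for some level `L`
below a given one. -/
theorem h97_lev_exists_defl₂
    (hsm : ∀ a : A, ∃ L : h72_Lev S, ∀ s ∈ L.U, s • a = a) (L₀ : h72_Lev S)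
    (z : GQ × GQ → A) (hz : IsLevelConstantS₂ S z) :
    ∃ L : h72_Lev S, L.U ≤ L₀.U ∧
      ∃ zbar : (GQ ⧸ L.U) × (GQ ⧸ L.U) → h56_Inv L.U A, h56_infl₂ zbar = z := by
  obtain ⟨L₁, h1, hl⟩ := (h97_lev_isLevelConstantS₂_iff L₀ z).1 hz
  obtain ⟨z', hz'⟩ := hl.exists_factor
  have hfin : (Set.range z).Finite := by
    refine (Set.finite_range z').subset ?_
    rintro _ ⟨⟨g, h⟩, rfl⟩
    exact ⟨((g : GQ ⧸ L₁.U), (h : GQ ⧸ L₁.U)), hz' g h⟩
  obtain ⟨L, h2, hfix⟩ := h97_lev_exists_fix_finite hsm L₁ (Set.range z) hfin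
  exact ⟨L, h2.trans h1,
    h56_exists_infl₂_eq z (hl.mono h2) (fun g h => hfix _ ⟨(g, h), rfl⟩)⟩

/-- the same cochain deflated at a deeper level. -/
theorem h97_lev_infl₂_deeper {L L' : h72_Lev S} (h : L'.U ≤ L.U)
    (zbar : (GQ ⧸ L.U) × (GQ ⧸ L.U) → h56_Inv L.U A) :
    h56_infl₂ (fun x : (GQ ⧸ L'.U) × (GQ ⧸ L'.U) =>
      h56_invIncl h (zbar (h56_quotMap h x.1, h56_quotMap h x.2))) = h56_infl₂ zbar := rfl

/-- **`S`-level coboundaries at finite level**: the inflation of `zbar` is the coboundary of an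
`S`-level cochain iff `zbar` becomes a coboundary at some deeper level. -/
theorem h97_lev_isCobS₂_iff (L : h72_Lev S)
    (zbar : (GQ ⧸ L.U) × (GQ ⧸ L.U) → h56_Inv L.U A) :
    h72_IsCobS₂ S (h56_infl₂ zbar) ↔ ∃ (L' : h72_Lev S) (h : L'.U ≤ L.U),
      IsCoboundary₂ (fun x : (GQ ⧸ L'.U) × (GQ ⧸ L'.U) =>
        h56_invIncl h (zbar (h56_quotMap h x.1, h56_quotMap h x.2))) := by
  constructor
  · rintro ⟨x, hx, hd⟩
    obtain ⟨L', h, hl⟩ := (h97_lev_isLevelConstantS₁_iff L x).1 hx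
    exact ⟨L', h, (h56_isCoboundary₂_tower_iff h zbar).2 ⟨x, hl, hd⟩⟩
  · rintro ⟨L', h, hcob⟩
    obtain ⟨x, hl, hd⟩ := (h56_isCoboundary₂_tower_iff h zbar).1 hcob
    exact ⟨x, h97_lev_isLevelConstantS₁ L' hl, hd⟩

/-- `h72_IsCobS₂` in terms of a level cochain. -/
theorem h97_lev_isCobS₂_iff_exists (L₀ : h72_Lev S) (z : GQ × GQ → A) :
    h72_IsCobS₂ S z ↔ ∃ (L : h72_Lev S) (x : GQ → A), L.U ≤ L₀.U ∧ h56_IsLevel₁ L.U x ∧
      ∀ g h : GQ, g • x h - x (g * h) + x g = z (g, h) := by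
  constructor
  · rintro ⟨x, hx, hd⟩
    obtain ⟨L, h, hl⟩ := (h97_lev_isLevelConstantS₁_iff L₀ x).1 hx
    exact ⟨L, x, h, hl, hd⟩
  · rintro ⟨L, x, -, hl, hd⟩
    exact ⟨x, h97_lev_isLevelConstantS₁ L hl, hd⟩

end Smooth

end Fermat.Agent.S55
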