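import Fermat.Agent.S55.h72_AsmDefs
import Fermat.Agent.S55.h6_LocalLevels

/-!
# S55, LOC-AMB: the field `loc_inf` of the ambient interface (local Hilbert 90 / inflation)

* `h97_hilbert90_ambient` : Hilbert 90 in ambient form (Mathlib only): `Ω/K` fields, `V` a
  subgroup of `Aut_K(Ω)`, `E/K` finite, `u : Aut_K(Ω) → Ωˣ` a crossed homomorphism on `V`,
  right-invariant under `V ∩ Gal(Ω/E)`; then `u s = s(b)/b` on `V`.  (Lagrange resolvent over the
  finite set `E →ₐ[K] Ω`; no quotient groups.)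
* `h97_hilbert90_local` : the same for `Gal(ℚ̄_q/ℚ_q)` in the prelude's level language.
* `h97_locInf_of_hilbert90` : `h72_LocInf q X` for any `G_q`-module `X` satisfying Hilbert 90
  for the level-constant crossed homomorphisms on the subgroups `r⁻¹(U_F)`.
-/

set_option autoImplicit false

open CategoryTheory Module groupCohomology ExtCitation

namespace Fermat.Agent.S55

local notation "Qb" => AlgebraicClosure ℚ
local notation "GQ" => (AlgebraicClosure ℚ ≃ₐ[ℚ] AlgebraicClosure ℚ)

section AmbientH90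

variable {K Ω : Type*} [Field K] [Field Ω] [Algebra K Ω]

/-- **Hilbert 90, ambient form** (no quotient groups).  `V` a subgroup of `Aut_K(Ω)`, `E/K` a
finite subextension, `u : Aut_K(Ω) → Ωˣ` a crossed homomorphism on `V` which is right-invariant
under `V ∩ Gal(Ω/E)`.  Then `u s = s(b)/b` on `V`. -/
theorem h97_hilbert90_ambient (V : Subgroup (Ω ≃ₐ[K] Ω)) (E : IntermediateField K Ω)
    [FiniteDimensional K E] (u : (Ω ≃ₐ[K] Ω) → Ωˣ)
    (hu : ∀ s ∈ V, ∀ s' ∈ V, u (s * s') = s • u s' * u s)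
    (hlev : ∀ s ∈ V, ∀ w ∈ V, w ∈ E.fixingSubgroup → u (s * w) = u s) :
    ∃ b : Ωˣ, ∀ s ∈ V, u s = s • b / b := by
  classical
  -- restriction to `E`
  let res : (Ω ≃ₐ[K] Ω) → (E →ₐ[K] Ω) := fun s => (s : Ω →ₐ[K] Ω).comp E.val
  have hres_apply : ∀ (s : Ω ≃ₐ[K] Ω) (x : E), res s x = s (x : Ω) := fun _ _ => rfl
  have hres_eq : ∀ s s' : Ω ≃ₐ[K] Ω, res s = res s' → s⁻¹ * s' ∈ E.fixingSubgroup := by
    intro s s' h
    rw [IntermediateField.mem_fixingSubgroup_iff]
    intro x hx
    have h1 : s x = s' x := DFunLike.congr_fun h ⟨x, hx⟩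
    show s⁻¹ (s' x) = x
    rw [← h1]
    exact s.symm_apply_apply x
  -- the coefficient function
  let ut : (E →ₐ[K] Ω) → Ω := fun φ =>
    if h : ∃ s ∈ V, res s = φ then (u h.choose : Ω) else 0
  have hut : ∀ s ∈ V, ut (res s) = u s := by
    intro s hs
    have h : ∃ t ∈ V, res t = res s := ⟨s, hs, rfl⟩
    have h0 : ut (res s) = (u h.choose : Ω) := dif_pos h
    obtain ⟨ht, hts⟩ := h.choose_spec
    have h1 : h.choose⁻¹ * s ∈ E.fixingSubgroup := hres_eq _ _ hts
    have h2 : h.choose⁻¹ * s ∈ V := V.mul_mem (V.inv_mem ht) hs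
    have h3 := hlev h.choose ht _ h2 h1
    rw [mul_inv_cancel_left] at h3
    rw [h0, h3]
  have hut0 : ∀ φ, (¬ ∃ s ∈ V, res s = φ) → ut φ = 0 := fun φ h => dif_neg h
  -- the resolvent
  let R : E → Ω := fun c => ∑ φ : E →ₐ[K] Ω, ut φ * φ c
  have hR : ∃ c : E, R c ≠ 0 := by
    by_contra hcon
    push Not at hcon
    have hli : LinearIndependent Ω (fun φ : E →ₐ[K] Ω => (φ : E → Ω)) :=
      LinearIndependent.comp (linearIndependent_monoidHom E Ω)
        (fun φ : E →ₐ[K] Ω => ((φ : E →+* Ω) : E →* Ω))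
        (fun φ ψ h => by
          ext x
          exact DFunLike.congr_fun h x)
    have h1 := Fintype.linearIndependent_iff.1 hli ut (by
      funext c
      have := hcon c
      simpa [R] using this) (res 1)
    rw [hut 1 V.one_mem] at h1
    exact Units.ne_zero _ h1
  obtain ⟨c, hc⟩ := hR
  refine ⟨(Units.mk0 (R c) hc)⁻¹, fun s hs => ?_⟩
  -- key: `u s * s (R c) = R c`
  have key : (u s : Ω) * s (R c) = R c := by
    let β : (E →ₐ[K] Ω) ≃ (E →ₐ[K] Ω) :=
      { toFun := fun φ => (s : Ω →ₐ[K] Ω).comp φ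
        invFun := fun φ => ((s⁻¹ : Ω ≃ₐ[K] Ω) : Ω →ₐ[K] Ω).comp φ
        left_inv := fun φ => by
          ext x
          show s⁻¹ (s (φ x)) = φ x
          exact s.symm_apply_apply _
        right_inv := fun φ => by
          ext x
          show s (s⁻¹ (φ x)) = φ x
          exact s.apply_symm_apply _ }
    have hβ : ∀ (φ : E →ₐ[K] Ω) (x : E), β φ x = s (φ x) := fun _ _ => rfl
    have h1 : ∀ φ : E →ₐ[K] Ω, ut (β φ) = u s * s (ut φ) := by
      intro φ
      by_cases h : ∃ t ∈ V, res t = φ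
      · obtain ⟨t, ht, rfl⟩ := h
        have h2 : β (res t) = res (s * t) := rfl
        rw [h2, hut _ (V.mul_mem hs ht), hut t ht, hu s hs t ht]
        rw [Units.val_mul, AlgEquiv.smul_units_def, mul_comm]
        rfl
      · have h' : ¬ ∃ t ∈ V, res t = β φ := by
          rintro ⟨t, ht, hte⟩
          refine h ⟨s⁻¹ * t, V.mul_mem (V.inv_mem hs) ht, ?_⟩
          ext x
          have h3 : t (x : Ω) = s (φ x) := DFunLike.congr_fun hte x
          show s⁻¹ (t (x : Ω)) = φ x
          rw [h3]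
          exact s.symm_apply_apply _
        rw [hut0 _ h, hut0 _ h', map_zero, mul_zero]
    show (u s : Ω) * s (∑ φ : E →ₐ[K] Ω, ut φ * φ c) = ∑ φ : E →ₐ[K] Ω, ut φ * φ c
    rw [map_sum, Finset.mul_sum, ← Equiv.sum_comp β (fun φ => ut φ * φ c)]
    refine Finset.sum_congr rfl fun φ _ => ?_
    rw [h1 φ, hβ, map_mul, mul_assoc]
  -- conclusion
  have hs0 : s (R c) ≠ 0 := by
    intro h0
    rw [h0, mul_zero] at key
    exact hc key.symm
  apply Units.ext
  rw [div_eq_mul_inv, inv_inv, Units.val_mul, smul_inv', Units.val_inv_eq_inv_val,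
    AlgEquiv.smul_units_def]
  show (u s : Ω) = (s (R c))⁻¹ * R c
  exact ((inv_mul_eq_iff_eq_mul₀ hs0).2 (by rw [mul_comm]; exact key.symm)).symm

end AmbientH90

section Local

variable (q : ℕ) [Fact q.Prime]

/-- **Hilbert 90 for `Gal(ℚ̄_q/ℚ_q)`, prelude level language.**  A level-constant crossed
homomorphism on `r⁻¹(U_{F₁})` with values in `ℚ̄_qˣ` is principal. -/
theorem h97_hilbert90_local (F₁ : IntermediateField ℚ Qb)
    (u : (PadicAlgCl q ≃ₐ[ℚ_[q]] PadicAlgCl q) → (PadicAlgCl q)ˣ)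
    (hu : ∀ s s', localGaloisToGlobal q s ∈ F₁.fixingSubgroup →
      localGaloisToGlobal q s' ∈ F₁.fixingSubgroup → u (s * s') = s • u s' * u s)
    (hlev : IsLevelConstant₁ (localGaloisToGlobal q) u) :
    ∃ b : (PadicAlgCl q)ˣ, ∀ s, localGaloisToGlobal q s ∈ F₁.fixingSubgroup →
      u s = s • b / b := by
  obtain ⟨F₂, hF₂, h⟩ := hlev
  have := hF₂
  obtain ⟨b, hb⟩ := h97_hilbert90_ambient (h6_localField q F₁).fixingSubgroup
    (h6_localField q F₂) u
    (fun s hs s' hs' => hu s s' ((h6_mem_fixingSubgroup_localField_iff q F₁ s).1 hs)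
      ((h6_mem_fixingSubgroup_localField_iff q F₁ s').1 hs'))
    (fun s _ w _ hw => h s w ((h6_mem_fixingSubgroup_localField_iff q F₂ w).1 hw))
  exact ⟨b, fun s hs => hb s ((h6_mem_fixingSubgroup_localField_iff q F₁ s).2 hs)⟩

end Local

section LocInf

/-- **`loc_inf` from Hilbert 90.**  Let `X` be a module over the local group at `q` such that
every level-constant crossed homomorphism on `r⁻¹(U_{F₁})` (`F₁/ℚ` finite Galois) is principal.
Then `X` has the property `h72_LocInf`. -/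
theorem h97_locInf_of_hilbert90 (q : Nat.Primes) (X : Type) [AddCommGroup X]
    [DistribMulAction (primeLocalGaloisGroup q) X]
    (hH90 : ∀ F₁ : IntermediateField ℚ Qb, FiniteDimensional ℚ F₁ → IsGalois ℚ F₁ →
      ∀ u : primeLocalGaloisGroup q → X,
        (∀ s s' : primeLocalGaloisGroup q, primeLocalToGlobal q s ∈ F₁.fixingSubgroup →
          primeLocalToGlobal q s' ∈ F₁.fixingSubgroup → u (s * s') = s • u s' + u s) →
        IsLevelConstant₁ (primeLocalToGlobal q) u →
        ∃ b : X, ∀ s : primeLocalGaloisGroup q, primeLocalToGlobal q s ∈ F₁.fixingSubgroup →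
          u s = s • b - b) :
    h72_LocInf q X := by
  intro F₁ hfd hgal z hz hinv hcob
  obtain ⟨x, hxlev, hx⟩ := hcob
  have h1mem : primeLocalToGlobal q 1 ∈ F₁.fixingSubgroup := by
    rw [map_one]; exact Subgroup.one_mem _
  -- `z (g, 1) = g • z (1, 1)`
  have hz1 : ∀ g : primeLocalGaloisGroup q, z (g, 1) = g • z (1, 1) := by
    intro g
    have h := hz g 1 1
    rw [mul_one, mul_one] at h
    exact add_right_cancel h
  -- `z (1, 1)` is fixed by `V₁`
  have ha : ∀ s : primeLocalGaloisGroup q, primeLocalToGlobal q s ∈ F₁.fixingSubgroup →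
      s • z (1, 1) = z (1, 1) := by
    intro s hs
    rw [← hz1 s]
    have h := hinv 1 1 s 1 hs h1mem
    rwa [one_mul, mul_one] at h
  have hzV : ∀ s s' : primeLocalGaloisGroup q, primeLocalToGlobal q s ∈ F₁.fixingSubgroup →
      primeLocalToGlobal q s' ∈ F₁.fixingSubgroup → z (s, s') = z (1, 1) := by
    intro s s' hs hs'
    have h := hinv 1 1 s s' hs hs'
    rwa [one_mul, one_mul] at h
  have hzg : ∀ g s : primeLocalGaloisGroup q, primeLocalToGlobal q s ∈ F₁.fixingSubgroup →
      z (g, s) = g • z (1, 1) := by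
    intro g s hs
    have h := hinv g 1 1 s h1mem hs
    rw [mul_one, one_mul] at h
    rw [h, hz1]
  -- Hilbert 90 for `x - z (1, 1)` on `V₁`
  obtain ⟨b, hb⟩ := hH90 F₁ hfd hgal (fun g => x g - z (1, 1))
    (fun s s' hs hs' => by
      have h1 := hx s s'
      rw [hzV s s' hs hs'] at h1
      show x (s * s') - z (1, 1) = s • (x s' - z (1, 1)) + (x s - z (1, 1))
      rw [smul_sub, ha s hs, ← h1]
      abel)
    (hxlev.comp (fun y => y - z (1, 1)))
  refine ⟨fun g => x g - (g • b - b), fun τ s hs => ?_, fun τ τ' => ?_⟩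
  · have h1 := hx τ s
    rw [hzg τ s hs] at h1
    have h2 : x s - z (1, 1) = s • b - b := hb s hs
    have h3 : x s = z (1, 1) + (s • b - b) := by rw [← h2]; abel
    have h4 : x (τ * s) = τ • x s + x τ - τ • z (1, 1) := by rw [← h1]; abel
    show x (τ * s) - ((τ * s) • b - b) = x τ - (τ • b - b)
    rw [h4, h3, mul_smul, smul_add, smul_sub]
    abel
  · show τ • (x τ' - (τ' • b - b)) - (x (τ * τ') - ((τ * τ') • b - b)) + (x τ - (τ • b - b)) =
      z (τ, τ')
    rw [← hx τ τ', mul_smul, smul_sub, smul_sub]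
    abel

end LocInf

end Fermat.Agent.S55
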