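import Fermat.Agent.S55.h33_GlobKumSeq
import Fermat.Agent.S55.h59_HypNum
import Fermat.Agent.S55.h37_DictVal

/-!
# S55 / GLOB-UNORM, reciprocity step (RC-E of ruling R10): the level `E`

For a level `L ∋ ζ_p` and `n : ℕ` the field

  `E := L(V_split^{1/p}) ⊔ ℚ(ξ)`,  `ξ` a primitive `p^(n+1)`-th root of unity of `Qbar`,

is a level (unramified outside `S`, Galois over `ℚ`), contains every `p`-th root of every
`a ∈ V_split(L)`, contains a primitive `p^(n+1)`-th root of unity, and the relative Galois group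
`h33_relGal L E` (the automorphisms of `E` fixing `L`) is commutative.

* `h97_relGal_comm_of_gen` : generic commutativity of `h33_relGal L E` when `E` is generated
  over `ℚ` by `L ∋ ζ_p`, a set of radicals `α` with `α ^ p ∈ L`, and a root of unity;
* `h97_recip_level` : the level `E` (hypotheses as in `h33_splitLevel`);
* `h97_recip_level'` : the same with the numerical hypotheses discharged (`p` odd, `p ∈ S`).
-/

set_option autoImplicit false

namespace Fermat.Agent.S55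

local notation "Qb" => AlgebraicClosure ℚ

local instance h97_isAlgebraicQb : Algebra.IsAlgebraic ℚ (AlgebraicClosure ℚ) :=
  AlgebraicClosure.isAlgebraic ℚ
local instance h97_isAlgClosureQb : IsAlgClosure ℚ (AlgebraicClosure ℚ) :=
  ⟨inferInstance, inferInstance⟩
local instance h97_normalQb : Normal ℚ (AlgebraicClosure ℚ) :=
  IsAlgClosure.normal ℚ (AlgebraicClosure ℚ)

section Generic

variable {k Ω : Type*} [Field k] [Field Ω] [Algebra k Ω] {p : ℕ} {L E : IntermediateField k Ω}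

/-- An automorphism of `E` fixing `L ∋ ζ_p` multiplies every `x ∈ E` with `x ^ p ∈ L` by a
`p`-th root of unity lying in `L`. -/
theorem h97_relGal_apply_root (hp : 0 < p) (hLE : L ≤ E) {ζ : ↥L} (hζ : IsPrimitiveRoot ζ p)
    (σ : ↥E ≃ₐ[k] ↥E) (hσ : ∀ x : ↥E, (x : Ω) ∈ L → σ x = x) (x : ↥E)
    (hx : (x : Ω) ^ p ∈ L) :
    ∃ η : ↥E, (η : Ω) ∈ L ∧ σ x = η * x := by
  by_cases hx0 : (x : Ω) = 0
  · refine ⟨1, L.one_mem, ?_⟩
    have : x = 0 := Subtype.ext hx0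
    rw [this, map_zero, mul_zero]
  have hxp : ((x ^ p : ↥E) : Ω) ∈ L := by
    rw [IntermediateField.coe_pow]
    exact hx
  have h1 : (σ x) ^ p = x ^ p := by
    rw [← map_pow]
    exact hσ _ hxp
  have h2 : (((σ x : ↥E) : Ω) / (x : Ω)) ^ p = 1 := by
    rw [div_pow, ← IntermediateField.coe_pow, h1, IntermediateField.coe_pow, div_self]
    exact pow_ne_zero _ hx0
  obtain ⟨η, -, hη⟩ := h33_exists_of_pow_eq_one (K := ↥L) (L := Ω) hp hζ h2
  refine ⟨⟨((η : ↥L) : Ω), hLE (η : ↥L).2⟩, (η : ↥L).2, ?_⟩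
  apply Subtype.ext
  rw [IntermediateField.coe_mul]
  show ((σ x : ↥E) : Ω) = ((η : ↥L) : Ω) * (x : Ω)
  have h3 : ((η : ↥L) : Ω) = ((σ x : ↥E) : Ω) / (x : Ω) := hη
  rw [h3, div_mul_cancel₀ _ hx0]

/-- **Commutativity of `Gal(E/L)`** when `E` is generated over `k` by `L ∋ ζ_p`, radicals `α`
with `α ^ p ∈ L`, and a root of unity `ξ`. -/
theorem h97_relGal_comm_of_gen [Algebra.IsAlgebraic k Ω] (hp : 0 < p) {ζ : ↥L}
    (hζ : IsPrimitiveRoot ζ p) (R : Set Ω) (hR : ∀ α ∈ R, α ^ p ∈ L) (ξ : Ω) {m : ℕ}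
    (hm : 0 < m) (hξ : IsPrimitiveRoot ξ m)
    (hE : E = IntermediateField.adjoin k (((L : Set Ω) ∪ R) ∪ {ξ}))
    (s t : ↥E ≃ₐ[k] ↥E) (hs : ∀ x : ↥E, (x : Ω) ∈ L → s x = x)
    (ht : ∀ x : ↥E, (x : Ω) ∈ L → t x = x) :
    s * t = t * s := by
  have hLE : L ≤ E := by
    intro x hx
    rw [hE]
    exact IntermediateField.subset_adjoin k _ (Or.inl (Or.inl hx))
  have hgen := h33_adjoin_top_of_eq E _ hE
  refine h33_algEquiv_ext_of_adjoin
    (fun x _ => (Algebra.IsAlgebraic.isAlgebraic x).isIntegral) hgen ?_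
  rintro x ((hx | hx) | hx)
  · rw [AlgEquiv.mul_apply, AlgEquiv.mul_apply, ht x hx, hs x hx, ht x hx]
  · obtain ⟨η, hηL, hη⟩ := h97_relGal_apply_root hp hLE hζ s hs x (hR _ hx)
    obtain ⟨θ, hθL, hθ⟩ := h97_relGal_apply_root hp hLE hζ t ht x (hR _ hx)
    rw [AlgEquiv.mul_apply, AlgEquiv.mul_apply, hθ, hη, map_mul, map_mul, hs θ hθL, ht η hηL,
      hη, hθ]
    ring
  · have hxξ : (x : Ω) = ξ := hx
    have : NeZero m := ⟨hm.ne'⟩
    have hxprim : IsPrimitiveRoot x m := by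
      apply IsPrimitiveRoot.of_map_of_injective (f := E.val) _ Subtype.val_injective
      show IsPrimitiveRoot (x : Ω) m
      rw [hxξ]
      exact hξ
    have hsx : (s x) ^ m = 1 := by rw [← map_pow, hxprim.pow_eq_one, map_one]
    have htx : (t x) ^ m = 1 := by rw [← map_pow, hxprim.pow_eq_one, map_one]
    obtain ⟨a, -, ha⟩ := hxprim.eq_pow_of_pow_eq_one hsx
    obtain ⟨b, -, hb⟩ := hxprim.eq_pow_of_pow_eq_one htx
    rw [AlgEquiv.mul_apply, AlgEquiv.mul_apply, ← hb, ← ha, map_pow, map_pow, ← hb, ← ha,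
      ← pow_mul, ← pow_mul, mul_comm]

end Generic

section Level

variable (S : Finset Nat.Primes) (p : ℕ) [Fact p.Prime]

/-- **RC-E: the level `E`** for the reciprocity step.  For a level `L ∋ ζ_p` and `n`, there is a
level `E ⊇ L(V_split^{1/p})` containing a primitive `p^(n+1)`-th root of unity such that
`Gal(E/L)` is commutative. -/
theorem h97_recip_level (hpS : ∀ q : Nat.Primes, (q : ℕ) ∣ p → q ∈ S)
    (hNUM : h33_HypNum S p) (hVAL : h33_HypVal S p)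
    (L : IntermediateField ℚ Qb) [NumberField ↥L] (hL : h25_IsLevel S L) {ζ : ↥L}
    (hζ : IsPrimitiveRoot ζ p) (n : ℕ) :
    ∃ E : IntermediateField ℚ Qb, L ≤ E ∧ h25_IsLevel S E ∧
      h33_kummerLevel L p (h33_Vsplit (h33_dJ ↥L S) (h33_dI ↥L S) p) ≤ E ∧
      (∀ a ∈ h33_Vsplit (h33_dJ ↥L S) (h33_dI ↥L S) p, ∀ α : Qb,
        α ^ p = (((a : (↥L)ˣ) : ↥L) : Qb) → α ∈ E) ∧
      (∃ ξ : ↥E, IsPrimitiveRoot ξ (p ^ (n + 1))) ∧
      (∀ s ∈ h33_relGal L E, ∀ t ∈ h33_relGal L E, s * t = t * s) := by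
  have hp : 0 < p := (Fact.out : p.Prime).pos
  obtain ⟨-, hM⟩ := h33_splitLevel S p hpS hNUM hVAL L hL hζ
  have : NeZero (p ^ (n + 1)) := ⟨(pow_pos hp _).ne'⟩
  obtain ⟨ξ, hξ⟩ := HasEnoughRootsOfUnity.exists_primitiveRoot Qb (p ^ (n + 1))
  have hξunr : (IntermediateField.adjoin ℚ {ξ}).IsUnramifiedOutside S :=
    h85_unram_rootOfUnity S
      (fun q hq => hpS q ((Nat.prime_iff.1 q.2).dvd_of_dvd_pow hq)) ξ hξ.pow_eq_one
  have hEunr := hM.1.sup hξunr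
  have hMgal : IsGalois ℚ
      (h33_kummerLevel L p (h33_Vsplit (h33_dJ ↥L S) (h33_dI ↥L S) p)) := hM.2
  have hMn : Normal ℚ
      (h33_kummerLevel L p (h33_Vsplit (h33_dJ ↥L S) (h33_dI ↥L S) p)) := IsGalois.to_normal
  have hcyc : IsCyclotomicExtension {p ^ (n + 1)} ℚ (IntermediateField.adjoin ℚ {ξ}) :=
    hξ.intermediateField_adjoin_isCyclotomicExtension ℚ
  have hξgal : IsGalois ℚ (IntermediateField.adjoin ℚ {ξ}) :=
    IsCyclotomicExtension.isGalois {p ^ (n + 1)} ℚ _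
  have hξn : Normal ℚ (IntermediateField.adjoin ℚ {ξ}) := IsGalois.to_normal
  have hEn : Normal ℚ ↥(h33_kummerLevel L p (h33_Vsplit (h33_dJ ↥L S) (h33_dI ↥L S) p) ⊔
      IntermediateField.adjoin ℚ {ξ}) :=
    @IntermediateField.normal_sup ℚ Qb _ _ _
      (h33_kummerLevel L p (h33_Vsplit (h33_dJ ↥L S) (h33_dI ↥L S) p))
      (IntermediateField.adjoin ℚ {ξ}) hMn hξn
  refine ⟨h33_kummerLevel L p (h33_Vsplit (h33_dJ ↥L S) (h33_dI ↥L S) p) ⊔
    IntermediateField.adjoin ℚ {ξ}, le_trans h33_le_kummerLevel le_sup_left, ⟨hEunr, ⟨⟩⟩,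
    le_sup_left, ?_, ?_, ?_⟩
  · intro a ha α hα
    exact (le_sup_left : h33_kummerLevel L p (h33_Vsplit (h33_dJ ↥L S) (h33_dI ↥L S) p) ≤ _)
      (h33_mem_kummerLevel_of_pow ha hα)
  · refine ⟨⟨ξ, (le_sup_right : IntermediateField.adjoin ℚ {ξ} ≤ _)
      (IntermediateField.mem_adjoin_simple_self ℚ ξ)⟩, ?_⟩
    exact IsPrimitiveRoot.of_map_of_injective
      (f := (h33_kummerLevel L p (h33_Vsplit (h33_dJ ↥L S) (h33_dI ↥L S) p) ⊔
        IntermediateField.adjoin ℚ {ξ}).val) hξ Subtype.val_injective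
  · intro s hs t ht
    refine h97_relGal_comm_of_gen hp hζ
      {α : Qb | ∃ a ∈ h33_Vsplit (h33_dJ ↥L S) (h33_dI ↥L S) p,
        α ^ p = (((a : (↥L)ˣ) : ↥L) : Qb)} ?_ ξ (pow_pos hp (n + 1)) hξ ?_ s t hs ht
    · rintro α ⟨a, -, hα⟩
      rw [hα]
      exact (a : ↥L).2
    · rw [h33_kummerLevel_eq_adjoin, ← IntermediateField.adjoin_union]

/-- `h97_recip_level` with the numerical hypotheses discharged: `p` odd, `p ∈ S`. -/
theorem h97_recip_level' (hp2 : p ≠ 2)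
    (hpS : (⟨p, (Fact.out : p.Prime)⟩ : Nat.Primes) ∈ S)
    (L : IntermediateField ℚ Qb) [NumberField ↥L] (hL : h25_IsLevel S L) {ζ : ↥L}
    (hζ : IsPrimitiveRoot ζ p) (n : ℕ) :
    ∃ E : IntermediateField ℚ Qb, L ≤ E ∧ h25_IsLevel S E ∧
      h33_kummerLevel L p (h33_Vsplit (h33_dJ ↥L S) (h33_dI ↥L S) p) ≤ E ∧
      (∀ a ∈ h33_Vsplit (h33_dJ ↥L S) (h33_dI ↥L S) p, ∀ α : Qb,
        α ^ p = (((a : (↥L)ˣ) : ↥L) : Qb) → α ∈ E) ∧
      (∃ ξ : ↥E, IsPrimitiveRoot ξ (p ^ (n + 1))) ∧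
      (∀ s ∈ h33_relGal L E, ∀ t ∈ h33_relGal L E, s * t = t * s) := by
  have hpS' : ∀ q : Nat.Primes, (q : ℕ) ∣ p → q ∈ S := by
    intro q hq
    have h1 : (q : ℕ) = p := (Nat.prime_dvd_prime_iff_eq q.2 (Fact.out : p.Prime)).1 hq
    have h2 : q = (⟨p, (Fact.out : p.Prime)⟩ : Nat.Primes) := Subtype.ext h1
    rw [h2]
    exact hpS
  exact h97_recip_level S p hpS' (h59_hypNum S (Fact.out : p.Prime) hp2 hpS) (h37_hypVal S p)
    L hL hζ n

end Level

end Fermat.Agent.S55
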