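import Fermat.Agent.S55.h97_BridgeArch
import Fermat.Agent.S55.h56_Levels

/-!
# S55, bridge layer (prelude-facing): `continuousH2S`, `sha₂`, `sha₁` in concrete cochains

Everything is stated with concrete cochains on `G = Gal(ℚbar/ℚ)` which are right-invariant under
`F.fixingSubgroup` for a Galois level `F` unramified outside `S` (no quotient types), so that it
composes with any dictionary "invariant cochains on `G` = cochains of a finite quotient".

* `h97_Inv₁ F x`, `h97_Inv₂ F c` : right-invariance under `F.fixingSubgroup`.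
* `h97_isLevelConstantS₁_iff`, `h97_isLevelConstantS₂_iff` : the prelude's level-constancy means
  invariance at some Galois `S`-level containing a prescribed level `F₀`.
* `h97_H2S_exists_rep`, `h97_H2Sπ_eq_zero_iff` : classes of `continuousH2S` and their vanishing.
* `h97_locRes₂S_eq_zero_iff` : vanishing of a local restriction.
* `h97_H2Sπ_mem_sha₂_iff` : membership in `sha₂` (`p` odd).
* `h97_H1π_eq_zero_iff`, `h97_H1π_mem_sha₁_iff`, `h97_sha₁_exists_rep` : the same for `sha₁`.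
-/

set_option autoImplicit false

open CategoryTheory Module groupCohomology ExtCitation

namespace Fermat.Agent.S55

local notation "Qb" => AlgebraicClosure ℚ
local notation "GQ" => (AlgebraicClosure ℚ ≃ₐ[ℚ] AlgebraicClosure ℚ)

/-- The 1-cochain `x` is right-invariant under `F.fixingSubgroup`. -/
def h97_Inv₁ (F : IntermediateField ℚ Qb) {X : Type*} (x : GQ → X) : Prop :=
  ∀ g s, s ∈ F.fixingSubgroup → x (g * s) = x g

/-- The 2-cochain `c` is right-invariant under `F.fixingSubgroup` in both variables. -/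
def h97_Inv₂ (F : IntermediateField ℚ Qb) {X : Type*} (c : GQ × GQ → X) : Prop :=
  ∀ g g' s s', s ∈ F.fixingSubgroup → s' ∈ F.fixingSubgroup → c (g * s, g' * s') = c (g, g')

theorem h97_Inv₁.mono {F F' : IntermediateField ℚ Qb} (h : F ≤ F') {X : Type*} {x : GQ → X}
    (hx : h97_Inv₁ F x) : h97_Inv₁ F' x :=
  fun g s hs => hx g s (IntermediateField.fixingSubgroup_antitone h hs)

theorem h97_Inv₂.mono {F F' : IntermediateField ℚ Qb} (h : F ≤ F') {X : Type*}
    {c : GQ × GQ → X} (hc : h97_Inv₂ F c) : h97_Inv₂ F' c :=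
  fun g g' s s' hs hs' => hc g g' s s' (IntermediateField.fixingSubgroup_antitone h hs)
    (IntermediateField.fixingSubgroup_antitone h hs')

section Global

variable (S : Finset Nat.Primes)

/-- Level-constancy of the prelude = invariance at a Galois `S`-level above a given one. -/
theorem h97_isLevelConstantS₁_iff (F₀ : IntermediateField ℚ Qb) (hF₀ : F₀.IsUnramifiedOutside S)
    {X : Type*} (x : GQ → X) :
    IsLevelConstantS₁ S x ↔ ∃ F : IntermediateField ℚ Qb, F₀ ≤ F ∧ F.IsUnramifiedOutside S ∧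
      IsGalois ℚ F ∧ h97_Inv₁ F x := by
  constructor
  · rintro ⟨F, hF, h⟩
    obtain ⟨F', h1, h2, h3, h4⟩ := h56_exists_galois_level_ge S F F₀ hF hF₀
    exact ⟨F', h2, h3, h4, h97_Inv₁.mono h1 h⟩
  · rintro ⟨F, -, hF, -, h⟩
    exact ⟨F, hF, h⟩

/-- Level-constancy of the prelude = invariance at a Galois `S`-level above a given one. -/
theorem h97_isLevelConstantS₂_iff (F₀ : IntermediateField ℚ Qb) (hF₀ : F₀.IsUnramifiedOutside S)
    {X : Type*} (c : GQ × GQ → X) :
    IsLevelConstantS₂ S c ↔ ∃ F : IntermediateField ℚ Qb, F₀ ≤ F ∧ F.IsUnramifiedOutside S ∧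
      IsGalois ℚ F ∧ h97_Inv₂ F c := by
  constructor
  · rintro ⟨F, hF, h⟩
    obtain ⟨F', h1, h2, h3, h4⟩ := h56_exists_galois_level_ge S F F₀ hF hF₀
    exact ⟨F', h2, h3, h4, h97_Inv₂.mono h1 h⟩
  · rintro ⟨F, -, hF, -, h⟩
    exact ⟨F, hF, h⟩

variable {k : Type} [CommRing k] (M : Rep k GQ)

/-- A 2-cocycle invariant at an `S`-level, as an element of `levelCocyclesS₂`. -/
def h97_cocS₂ (c : GQ × GQ → M) (hc : c ∈ cocycles₂ M) (F : IntermediateField ℚ Qb)
    (hF : F.IsUnramifiedOutside S) (hinv : h97_Inv₂ F c) : ↥(levelCocyclesS₂ S M) :=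
  ⟨c, hc, F, hF, hinv⟩

@[simp] theorem h97_cocS₂_coe (c : GQ × GQ → M) (hc : c ∈ cocycles₂ M)
    (F : IntermediateField ℚ Qb) (hF : F.IsUnramifiedOutside S) (hinv : h97_Inv₂ F c) :
    ((h97_cocS₂ S M c hc F hF hinv : ↥(levelCocyclesS₂ S M)) : GQ × GQ → M) = c := rfl

/-- Every class of `continuousH2S` is represented by a 2-cocycle invariant at a Galois
`S`-level containing a prescribed one. -/
theorem h97_H2S_exists_rep (F₀ : IntermediateField ℚ Qb) (hF₀ : F₀.IsUnramifiedOutside S)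
    (y : continuousH2S S M) :
    ∃ F : IntermediateField ℚ Qb, F₀ ≤ F ∧ F.IsUnramifiedOutside S ∧ IsGalois ℚ F ∧
      ∃ c : ↥(levelCocyclesS₂ S M), h97_Inv₂ F (c : GQ × GQ → M) ∧ continuousH2Sπ S M c = y := by
  obtain ⟨c, rfl⟩ := Submodule.mkQ_surjective _ y
  obtain ⟨F, h1, h2, h3, h4⟩ := (h97_isLevelConstantS₂_iff S F₀ hF₀ _).1 c.2.2
  exact ⟨F, h1, h2, h3, c, h4, rfl⟩

/-- A class of `continuousH2S` vanishes iff its cocycle is the coboundary of a 1-cochain
invariant at some Galois `S`-level (containing a prescribed one). -/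
theorem h97_H2Sπ_eq_zero_iff (F₀ : IntermediateField ℚ Qb) (hF₀ : F₀.IsUnramifiedOutside S)
    (c : ↥(levelCocyclesS₂ S M)) :
    continuousH2Sπ S M c = 0 ↔
      ∃ F : IntermediateField ℚ Qb, F₀ ≤ F ∧ F.IsUnramifiedOutside S ∧ IsGalois ℚ F ∧
        ∃ x : GQ → M, h97_Inv₁ F x ∧
          ∀ g h, M.ρ g (x h) - x (g * h) + x g = (c : GQ × GQ → M) (g, h) := by
  rw [continuousH2Sπ_eq_zero_iff, mem_levelCoboundariesS₂_iff]
  constructor
  · rintro ⟨x, hx, hxc⟩
    obtain ⟨F, h1, h2, h3, h4⟩ := (h97_isLevelConstantS₁_iff S F₀ hF₀ _).1 hx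
    refine ⟨F, h1, h2, h3, x, h4, fun g h => ?_⟩
    rw [← hxc, d₁₂_hom_apply]
  · rintro ⟨F, -, h2, -, x, h4, hxc⟩
    refine ⟨x, ⟨F, h2, h4⟩, ?_⟩
    funext ⟨g, h⟩
    rw [d₁₂_hom_apply, hxc]

/-- Two level cocycles have the same class iff they differ by the coboundary of an invariant
1-cochain. -/
theorem h97_H2Sπ_eq_iff (F₀ : IntermediateField ℚ Qb) (hF₀ : F₀.IsUnramifiedOutside S)
    (c c' : ↥(levelCocyclesS₂ S M)) :
    continuousH2Sπ S M c = continuousH2Sπ S M c' ↔
      ∃ F : IntermediateField ℚ Qb, F₀ ≤ F ∧ F.IsUnramifiedOutside S ∧ IsGalois ℚ F ∧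
        ∃ x : GQ → M, h97_Inv₁ F x ∧
          ∀ g h, M.ρ g (x h) - x (g * h) + x g =
            (c : GQ × GQ → M) (g, h) - (c' : GQ × GQ → M) (g, h) := by
  rw [← sub_eq_zero, ← map_sub, h97_H2Sπ_eq_zero_iff S M F₀ hF₀]
  rfl

/-- The local restriction of a class of `continuousH2S` along `r : H → G` vanishes iff the
restricted cocycle is the coboundary of an `r`-level-constant 1-cochain of `H`. -/
theorem h97_locRes₂S_eq_zero_iff {H : Type} [Group H] (r : H →* GQ)
    (c : ↥(levelCocyclesS₂ S M)) :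
    locRes₂S S M r (continuousH2Sπ S M c) = 0 ↔
      ∃ x : H → M, IsLevelConstant₁ r x ∧
        ∀ τ τ', M.ρ (r τ) (x τ') - x (τ * τ') + x τ = (c : GQ × GQ → M) (r τ, r τ') := by
  have h1 : locRes₂S S M r (continuousH2Sπ S M c) =
      continuousH2π r (Rep.res r M)
        (levelCocycles₂Map (rH := MonoidHom.id _) (rG := r) r (fun _ => rfl)
          (LinearMap.id : M →ₗ[k] Rep.res r M) (fun _ _ => rfl)
          (levelCocyclesS₂ToLevelCocycles₂ S M c)) := rfl
  rw [h1, continuousH2π_eq_zero_iff, mem_levelCoboundaries₂_iff]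
  constructor
  · rintro ⟨x, hx, hxc⟩
    refine ⟨x, hx, fun τ τ' => ?_⟩
    have := congrFun hxc (τ, τ')
    rw [d₁₂_hom_apply] at this
    exact this
  · rintro ⟨x, hx, hxc⟩
    refine ⟨x, hx, ?_⟩
    funext ⟨τ, τ'⟩
    rw [d₁₂_hom_apply]
    exact hxc τ τ'

end Global

section Sha

variable {p : ℕ} [Fact p.Prime] (S : Finset Nat.Primes)

/-- Membership in `sha₂` (for `p` odd): at every `q ∈ S` the restricted cocycle is the
coboundary of a level-constant 1-cochain of the local Galois group. -/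
theorem h97_H2Sπ_mem_sha₂_iff (hp2 : p ≠ 2) (M : Rep (ZMod p) GQ)
    (c : ↥(levelCocyclesS₂ S M)) :
    continuousH2Sπ S M c ∈ sha₂ S M ↔
      ∀ q : ↥S, ∃ x : primeLocalGaloisGroup q.1 → M,
        IsLevelConstant₁ (primeLocalToGlobal q.1) x ∧
        ∀ τ τ', M.ρ (primeLocalToGlobal q.1 τ) (x τ') - x (τ * τ') + x τ =
          (c : GQ × GQ → M) (primeLocalToGlobal q.1 τ, primeLocalToGlobal q.1 τ') := by
  rw [h97_mem_sha₂_iff hp2]
  exact forall_congr' fun q => h97_locRes₂S_eq_zero_iff S M (primeLocalToGlobal q.1) c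

variable (A : Rep (ZMod p) GQ)

/-- A class of `H¹` vanishes iff its cocycle is a coboundary. -/
theorem h97_H1π_eq_zero_iff (c : cocycles₁ A) :
    (H1π A).hom c = 0 ↔ ∃ b : A, ∀ g, (c : GQ → A) g = A.ρ g b - b := by
  rw [H1π_eq_zero_iff]
  constructor
  · rintro ⟨b, hb⟩
    refine ⟨b, fun g => ?_⟩
    rw [← hb, d₀₁_hom_apply]
  · rintro ⟨b, hb⟩
    refine ⟨b, ?_⟩
    funext g
    rw [d₀₁_hom_apply, hb]

/-- The restriction to `r : H → G` of the class of a 1-cocycle vanishes iff the restricted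
cocycle is a coboundary. -/
theorem h97_H1_res_eq_zero_iff {H : Type} [Group H] (r : H →* GQ) (c : cocycles₁ A) :
    (groupCohomology.map r (𝟙 (Rep.res r A)) 1).hom ((H1π A).hom c) = 0 ↔
      ∃ b : A, ∀ τ, (c : GQ → A) (r τ) = A.ρ (r τ) b - b := by
  have h1 := H1π_comp_map_apply r (𝟙 (Rep.res r A)) c
  constructor
  · intro h
    obtain ⟨b, hb⟩ := (H1π_eq_zero_iff _).1 (h1.symm.trans h)
    refine ⟨b, fun τ => ?_⟩
    have := congrFun hb τ
    rw [d₀₁_hom_apply] at this
    exact this.symm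
  · rintro ⟨b, hb⟩
    refine h1.trans ((H1π_eq_zero_iff _).2 ⟨b, ?_⟩)
    funext τ
    rw [d₀₁_hom_apply]
    exact (hb τ).symm

/-- Membership in `sha₁` of the class of an `S`-level-constant 1-cocycle (for `p` odd):
at every `q ∈ S` the restricted cocycle is a coboundary. -/
theorem h97_H1π_mem_sha₁_iff (hp2 : p ≠ 2) (c : cocycles₁ A)
    (hlev : IsLevelConstantS₁ S (c : GQ → A)) :
    (H1π A).hom c ∈ sha₁ S A ↔
      ∀ q : ↥S, ∃ b : A, ∀ τ : primeLocalGaloisGroup q.1,
        (c : GQ → A) (primeLocalToGlobal q.1 τ) = A.ρ (primeLocalToGlobal q.1 τ) b - b := by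
  rw [h97_mem_sha₁_iff hp2]
  have h0 : (H1π A).hom c ∈ continuousH1S S A := (mem_continuousH1S_iff S A _).2 ⟨c, hlev, rfl⟩
  rw [and_iff_right h0]
  exact forall_congr' fun q => h97_H1_res_eq_zero_iff A (primeLocalToGlobal q.1) c

/-- Every element of `sha₁` is the class of a 1-cocycle invariant at a Galois `S`-level
(containing a prescribed one) which is a coboundary at every `q ∈ S`. -/
theorem h97_sha₁_exists_rep (hp2 : p ≠ 2) (F₀ : IntermediateField ℚ Qb)
    (hF₀ : F₀.IsUnramifiedOutside S) (x : H1 A) (hx : x ∈ sha₁ S A) :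
    ∃ F : IntermediateField ℚ Qb, F₀ ≤ F ∧ F.IsUnramifiedOutside S ∧ IsGalois ℚ F ∧
      ∃ c : cocycles₁ A, h97_Inv₁ F (c : GQ → A) ∧
        (∀ q : ↥S, ∃ b : A, ∀ τ : primeLocalGaloisGroup q.1,
          (c : GQ → A) (primeLocalToGlobal q.1 τ) = A.ρ (primeLocalToGlobal q.1 τ) b - b) ∧
        (H1π A).hom c = x := by
  obtain ⟨c, hc, rfl⟩ := (mem_continuousH1S_iff S A x).1 ((h97_mem_sha₁_iff hp2 S A x).1 hx).1
  obtain ⟨F, h1, h2, h3, h4⟩ := (h97_isLevelConstantS₁_iff S F₀ hF₀ _).1 hc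
  exact ⟨F, h1, h2, h3, c, h4, (h97_H1π_mem_sha₁_iff S A hp2 c hc).1 hx, rfl⟩

end Sha

end Fermat.Agent.S55
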