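import Fermat.Agent.S55.h72_AsmDefs
import Fermat.Agent.S55.h97_Eps

/-!
# S55, assembly layer: ASM-SHA2 (F4), the direction (⟸)

If the level 2-cocycle `c` of `G_ℚ` in `M` is locally a level-constant coboundary at `q ∈ S`,
then for every equivariant `ft : M →+ JJ q` the cocycle `κ q ∘ ft ∘ c` is an `S`-level
coboundary in `CC` (in fact `ft ∘ c` is an `S`-level coboundary in `JJ q`: injectivity of
Shapiro's map in degree 2, ambient form, `h97_shapiro₂_inj_ambient`).

Inputs from the ambient interface `h72_PTAmbient`: `ev_smul`, `ev_bij`, `jj_smooth`, `κ_smul`,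
`loc_inf` only.
-/

set_option autoImplicit false

open CategoryTheory Module groupCohomology ExtCitation

namespace Fermat.Agent.S55

local notation "Qb" => AlgebraicClosure ℚ
local notation "GQ" => (AlgebraicClosure ℚ ≃ₐ[ℚ] AlgebraicClosure ℚ)

section

variable {p : ℕ} [Fact p.Prime] (S : Finset Nat.Primes)
  {CC : Type} [AddCommGroup CC] [DistribMulAction GQ CC]
  {JJ : ↥S → Type} [∀ q, AddCommGroup (JJ q)] [∀ q, DistribMulAction GQ (JJ q)]
  {XX : ↥S → Type} [∀ q, AddCommGroup (XX q)]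
  [∀ q : ↥S, DistribMulAction (primeLocalGaloisGroup q.1) (XX q)]
  {κ : ∀ q, JJ q →+ CC} {ev : ∀ q, JJ q →+ XX q} {zz : ∀ q, XX q}

/-- Elements of `JJ q` are determined by their evaluations. -/
theorem h97_ev_inj (hA : h72_PTAmbient p S CC JJ XX κ ev zz) (q : ↥S) (y y' : JJ q)
    (h : ∀ k : GQ, ev q (k • y) = ev q (k • y')) : y = y' := by
  obtain ⟨L, hL⟩ := hA.jj_smooth q y'
  have h1 := hA.ev_bij q (fun k => ev q (k • y'))
    (fun τ g => by rw [mul_smul, hA.ev_smul])
    ⟨L, fun g s hs => by rw [mul_smul, hL s hs]⟩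
  exact h1.unique h (fun _ => rfl)

/-- **Shapiro, degree 2, injectivity (ambient form).**  A 2-cocycle `z` of `G_ℚ` in `JJ q`,
right-invariant under the level `L`, whose evaluation restricted to the local group is a
level-constant coboundary in `XX q`, is the coboundary of a right-`L.U`-invariant cochain. -/
theorem h97_shapiro₂_inj_ambient (hA : h72_PTAmbient p S CC JJ XX κ ev zz) (q : ↥S)
    (L : h72_Lev S) (z : GQ × GQ → JJ q)
    (hz : ∀ g h j : GQ, z (g * h, j) + z (g, h) = g • z (h, j) + z (g, h * j))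
    (hzL : ∀ g g' s s', s ∈ L.U → s' ∈ L.U → z (g * s, g' * s') = z (g, g'))
    (hloc : h72_IsCobLoc₂ q.1 (fun x : primeLocalGaloisGroup q.1 × primeLocalGaloisGroup q.1 =>
      ev q (z (primeLocalToGlobal q.1 x.1, primeLocalToGlobal q.1 x.2)))) :
    ∃ w : GQ → JJ q, (∀ g s, s ∈ L.U → w (g * s) = w g) ∧
      ∀ g h : GQ, g • w h - w (g * h) + w g = z (g, h) := by
  classical
  set r := primeLocalToGlobal q.1 with hr
  -- the evaluated cocycle
  let a : GQ × GQ → XX q := fun x => ev q (z x)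
  have ha : ∀ x, a x = ev q (z x) := fun _ => rfl
  have ha_coc : ∀ (τ : primeLocalGaloisGroup q.1) (g h : GQ),
      a (r τ * g, h) + a (r τ, g) = τ • a (g, h) + a (r τ, g * h) := by
    intro τ g h
    simp only [ha]
    rw [← map_add, hz, map_add, hA.ev_smul]
  have ha_lev : ∀ g g' s s', s ∈ L.U → s' ∈ L.U → a (g * s, g' * s') = a (g, g') := by
    intro g g' s s' hs hs'
    simp only [ha]
    rw [hzL g g' s s' hs hs']
  -- the local cocycle and Hilbert 90
  have hzloc : IsCocycle₂ (fun x : primeLocalGaloisGroup q.1 × primeLocalGaloisGroup q.1 =>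
      ev q (z (r x.1, r x.2))) := by
    intro τ τ' τ''
    have := ha_coc τ (r τ') (r τ'')
    simp only [ha] at this
    show ev q (z (r (τ * τ'), r τ'')) + ev q (z (r τ, r τ')) =
      τ • ev q (z (r τ', r τ'')) + ev q (z (r τ, r (τ' * τ'')))
    rw [map_mul, map_mul]
    exact this
  obtain ⟨ξ, hξ_lev, hξ⟩ := hA.loc_inf q L.F L.unr.1 L.gal _ hzloc
    (fun τ τ' s s' hs hs' => by
      show ev q (z (r (τ * s), r (τ' * s'))) = ev q (z (r τ, r τ'))
      rw [map_mul, map_mul, hzL _ _ _ _ hs hs']) hloc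
  -- the correcting function
  obtain ⟨ε, hε_lev, hε⟩ := h97_exists_eps r L.U a ha_coc ha_lev ξ hξ_lev
    (fun τ τ' => hξ τ τ')
  -- the functions `W g`
  let W : GQ → GQ → XX q := fun g k => a (k, g) - ε (k * g) + ε k
  have hW : ∀ g k, W g k = a (k, g) - ε (k * g) + ε k := fun _ _ => rfl
  have hW_eqv : ∀ (g : GQ) (τ : primeLocalGaloisGroup q.1) (k : GQ),
      W g (r τ * k) = τ • W g k := by
    intro g τ k
    rw [hW, hW, mul_assoc, hε, hε, smul_add, smul_sub]
    have h1 := ha_coc τ k g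
    have h2 : a (r τ * k, g) = τ • a (k, g) + a (r τ, k * g) - a (r τ, k) :=
      eq_sub_of_add_eq h1
    rw [h2]
    abel
  have hconj : ∀ (g s : GQ), s ∈ L.U → g⁻¹ * s * g ∈ L.U := by
    intro g s hs
    have := (inferInstance : L.U.Normal).conj_mem s hs g⁻¹
    simpa using this
  have hW_lev : ∀ (g k s : GQ), s ∈ L.U → W g (k * s) = W g k := by
    intro g k s hs
    rw [hW, hW]
    have h1 : a (k * s, g) = a (k, g) := by
      have := ha_lev k g s 1 hs L.U.one_mem
      rwa [mul_one] at this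
    have h2 : ε (k * s * g) = ε (k * g) := by
      have h3 : k * s * g = k * g * (g⁻¹ * s * g) := by group
      rw [h3, hε_lev _ _ (hconj g s hs)]
    rw [h1, h2, hε_lev _ _ hs]
  have hW_lev' : ∀ (g s k : GQ), s ∈ L.U → W (g * s) k = W g k := by
    intro g s k hs
    rw [hW, hW]
    have h1 : a (k, g * s) = a (k, g) := by
      have := ha_lev k g 1 s L.U.one_mem hs
      rwa [mul_one] at this
    rw [h1, ← mul_assoc, hε_lev _ _ hs]
  have hex : ∀ g : GQ, ∃ y : JJ q, ∀ k : GQ, ev q (k • y) = W g k := fun g =>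
    (hA.ev_bij q (W g) (fun τ k => hW_eqv g τ k) ⟨L, fun k s hs => hW_lev g k s hs⟩).exists
  choose w hw using hex
  refine ⟨w, fun g s hs => ?_, fun g h => ?_⟩
  · apply h97_ev_inj S hA q
    intro k
    rw [hw, hw, hW_lev' g s k hs]
  · apply h97_ev_inj S hA q
    intro k
    rw [smul_add, smul_sub, map_add, map_sub, ← mul_smul, hw, hw, hw, hW, hW, hW]
    have h1 := hz k g h
    have h2 : ev q (k • z (g, h)) = a (k * g, h) + a (k, g) - a (k, g * h) := by
      simp only [ha]
      rw [← map_add, h1, map_add]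
      abel
    rw [h2, mul_assoc]
    abel

variable (M : Rep (ZMod p) GQ)

/-- **ASM-SHA2 (F4), direction (⟸).**  Same hypotheses as `asm_sha2`; `h72_IsEqv M ft` is
unfolded. -/
theorem h97_sha2_mpr (hA : h72_PTAmbient p S CC JJ XX κ ev zz)
    (L₀ : h72_Lev S)
    (c : GQ × GQ → M) (hc : c ∈ cocycles₂ M) (hcl : IsLevelConstantS₂ S c)
    (hloc : ∀ q : ↥S, ∃ x : primeLocalGaloisGroup q.1 → M,
      IsLevelConstant₁ (primeLocalToGlobal q.1) x ∧
      ∀ τ τ', M.ρ (primeLocalToGlobal q.1 τ) (x τ') - x (τ * τ') + x τ =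
        c (primeLocalToGlobal q.1 τ, primeLocalToGlobal q.1 τ'))
    (q : ↥S) (ft : M →+ JJ q) (hft : ∀ (g : GQ) (m : M), ft (M.ρ g m) = g • ft m) :
    h72_IsCobS₂ S (fun x => κ q (ft (c x))) := by
  obtain ⟨F, -, hF, hgal, hinv⟩ := (h97_isLevelConstantS₂_iff S L₀.F L₀.unr c).1 hcl
  let L : h72_Lev S := ⟨F, hF, hgal⟩
  obtain ⟨x, hxlev, hx⟩ := hloc q
  have hcoc := (mem_cocycles₂_iff c).1 hc
  obtain ⟨w, hwL, hw⟩ := h97_shapiro₂_inj_ambient S hA q L (fun y => ft (c y))
    (fun g h j => by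
      show ft (c (g * h, j)) + ft (c (g, h)) = g • ft (c (h, j)) + ft (c (g, h * j))
      rw [← map_add, hcoc, map_add, hft])
    (fun g g' s s' hs hs' => by
      show ft (c (g * s, g' * s')) = ft (c (g, g'))
      rw [hinv g g' s s' hs hs'])
    ⟨fun τ => ev q (ft (x τ)), hxlev.comp (fun m => ev q (ft m)), fun τ τ' => by
      show τ • ev q (ft (x τ')) - ev q (ft (x (τ * τ'))) + ev q (ft (x τ)) =
        ev q (ft (c (primeLocalToGlobal q.1 τ, primeLocalToGlobal q.1 τ')))
      rw [← hx τ τ', map_add, map_sub, map_add, map_sub, hft, hA.ev_smul]⟩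
  refine ⟨fun g => κ q (w g), ⟨F, hF, fun g s hs => ?_⟩, fun g h => ?_⟩
  · show κ q (w (g * s)) = κ q (w g)
    rw [hwL g s hs]
  · show g • κ q (w h) - κ q (w (g * h)) + κ q (w g) = κ q (ft (c (g, h)))
    rw [← hw g h, map_add, map_sub, hA.κ_smul]

end

end Fermat.Agent.S55
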