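import Fermat.Agent.S55.h97_Sha2Mpr

/-!
# S55, assembly layer: ASM-SHA2-B (row 338), ambient Shapiro 2-injectivity for `JJ q`

The statement of row 338 verbatim (`h97_shapiro₂_amb`): a level-`U` 2-cocycle `z` of `G_ℚ` in
`JJ q` with `ev ∘ z ∘ (r × r) = dξ`, `ξ` invariant under `r⁻¹(U)`, is the coboundary of a
level-`U` cochain.  (The variant with `hA.loc_inf` built in is `h97_shapiro₂_inj_ambient`, and
the whole direction (⟸) of ASM-SHA2 is `h97_sha2_mpr`, both in `h97_Sha2Mpr.lean`.)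
-/

set_option autoImplicit false

open CategoryTheory Module groupCohomology ExtCitation

namespace Fermat.Agent.S55

local notation "Qb" => AlgebraicClosure ℚ
local notation "GQ" => (AlgebraicClosure ℚ ≃ₐ[ℚ] AlgebraicClosure ℚ)

section

variable {p : ℕ} [Fact p.Prime] (S : Finset Nat.Primes)
  {CC : Type} [AddCommGroup CC] [DistribMulAction GQ CC]
  {JJ : ↥S → Type} [∀ q, AddCommGroup (JJ q)] [∀ q, DistribMulAction GQ (JJ q)]
  {XX : ↥S → Type} [∀ q, AddCommGroup (XX q)]
  [∀ q : ↥S, DistribMulAction (primeLocalGaloisGroup q.1) (XX q)]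
  {κ : ∀ q, JJ q →+ CC} {ev : ∀ q, JJ q →+ XX q} {zz : ∀ q, XX q}

/-- **Row 338 (ASM-SHA2-B), verbatim.** -/
theorem h97_shapiro₂_amb (hA : h72_PTAmbient p S CC JJ XX κ ev zz) (q : ↥S)
    (z : GQ × GQ → JJ q) (hz : IsCocycle₂ z) (L : h72_Lev S) (hzl : h56_IsLevel₂ L.U z)
    (ξ : primeLocalGaloisGroup q.1 → XX q)
    (hξl : ∀ τ s : primeLocalGaloisGroup q.1, primeLocalToGlobal q.1 s ∈ L.U → ξ (τ * s) = ξ τ)
    (hξ : ∀ τ τ' : primeLocalGaloisGroup q.1, τ • ξ τ' - ξ (τ * τ') + ξ τ =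
      ev q (z (primeLocalToGlobal q.1 τ, primeLocalToGlobal q.1 τ'))) :
    ∃ w : GQ → JJ q, h56_IsLevel₁ L.U w ∧ ∀ g h : GQ, g • w h - w (g * h) + w g = z (g, h) := by
  classical
  set r := primeLocalToGlobal q.1 with hr
  -- the evaluated cocycle
  let a : GQ × GQ → XX q := fun x => ev q (z x)
  have ha : ∀ x, a x = ev q (z x) := fun _ => rfl
  have ha_coc : ∀ (τ : primeLocalGaloisGroup q.1) (g h : GQ),
      a (r τ * g, h) + a (r τ, g) = τ • a (g, h) + a (r τ, g * h) := by
    intro τ g h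
    simp only [ha]
    rw [← map_add, hz, map_add, hA.ev_smul]
  have ha_lev : ∀ g g' s s', s ∈ L.U → s' ∈ L.U → a (g * s, g' * s') = a (g, g') := by
    intro g g' s s' hs hs'
    simp only [ha]
    rw [hzl g g' s s' hs hs']
  -- the correcting function
  obtain ⟨ε, hε_lev, hε⟩ := h97_exists_eps r L.U a ha_coc ha_lev ξ hξl
    (fun τ τ' => hξ τ τ')
  -- the functions `W g`
  let W : GQ → GQ → XX q := fun g k => a (k, g) - ε (k * g) + ε k
  have hW : ∀ g k, W g k = a (k, g) - ε (k * g) + ε k := fun _ _ => rfl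
  have hW_eqv : ∀ (g : GQ) (τ : primeLocalGaloisGroup q.1) (k : GQ),
      W g (r τ * k) = τ • W g k := by
    intro g τ k
    rw [hW, hW, mul_assoc, hε, hε, smul_add, smul_sub]
    have h1 := ha_coc τ k g
    have h2 : a (r τ * k, g) = τ • a (k, g) + a (r τ, k * g) - a (r τ, k) :=
      eq_sub_of_add_eq h1
    rw [h2]
    abel
  have hconj : ∀ (g s : GQ), s ∈ L.U → g⁻¹ * s * g ∈ L.U := by
    intro g s hs
    have := (inferInstance : L.U.Normal).conj_mem s hs g⁻¹
    simpa using this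
  have hW_lev : ∀ (g k s : GQ), s ∈ L.U → W g (k * s) = W g k := by
    intro g k s hs
    rw [hW, hW]
    have h1 : a (k * s, g) = a (k, g) := by
      have := ha_lev k g s 1 hs L.U.one_mem
      rwa [mul_one] at this
    have h2 : ε (k * s * g) = ε (k * g) := by
      have h3 : k * s * g = k * g * (g⁻¹ * s * g) := by group
      rw [h3, hε_lev _ _ (hconj g s hs)]
    rw [h1, h2, hε_lev _ _ hs]
  have hW_lev' : ∀ (g s k : GQ), s ∈ L.U → W (g * s) k = W g k := by
    intro g s k hs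
    rw [hW, hW]
    have h1 : a (k, g * s) = a (k, g) := by
      have := ha_lev k g 1 s L.U.one_mem hs
      rwa [mul_one] at this
    rw [h1, ← mul_assoc, hε_lev _ _ hs]
  have hex : ∀ g : GQ, ∃ y : JJ q, ∀ k : GQ, ev q (k • y) = W g k := fun g =>
    (hA.ev_bij q (W g) (fun τ k => hW_eqv g τ k) ⟨L, fun k s hs => hW_lev g k s hs⟩).exists
  choose w hw using hex
  refine ⟨w, fun g s hs => ?_, fun g h => ?_⟩
  · apply h97_ev_inj S hA q
    intro k
    rw [hw, hw, hW_lev' g s k hs]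
  · apply h97_ev_inj S hA q
    intro k
    rw [smul_add, smul_sub, map_add, map_sub, ← mul_smul, hw, hw, hw, hW, hW, hW]
    have h1 := hz k g h
    have h2 : ev q (k • z (g, h)) = a (k * g, h) + a (k, g) - a (k, g * h) := by
      simp only [ha]
      rw [← map_add, h1, map_add]
      abel
    rw [h2, mul_assoc]
    abel

end

end Fermat.Agent.S55
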