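import Fermat.Agent.S55.h98_FreeCore

/-!
# S55, layer H, row FREENESS (helper98): coinduced modules and `Hom(W, -)`

* `h98_Co G V`: the coinduced module `Map(G, V)`, `(g • φ) x = φ (x * g)`
* `h98_CoindStr Γ A V`: a coinduced structure on a `Γ`-module `A`
* coinduced modules have vanishing cocycle classes in degrees 1, 2, 3
* restriction of a coinduced structure to a subgroup
* `h98_Hom W A`: `W →+ A` with the conjugation action; `Hom(W, coinduced)` is coinduced
-/

set_option autoImplicit false

namespace Fermat.Agent.S55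

open groupCohomology

/-- coinduced module `Map(G, V)` with `(g • φ) x = φ (x * g)` -/
structure h98_Co (G V : Type*) where
  /-- constructor -/
  mk ::
  /-- underlying function -/
  toFun : G → V

namespace h98_Co

variable {G V : Type*}

instance : FunLike (h98_Co G V) G V where
  coe φ := φ.toFun
  coe_injective φ ψ h := by cases φ; cases ψ; congr

@[simp] lemma mk_apply (φ : G → V) (x : G) : mk φ x = φ x := rfl

@[ext] lemma ext {φ ψ : h98_Co G V} (h : ∀ x, φ x = ψ x) : φ = ψ := DFunLike.ext _ _ h

/-- the underlying equivalence with functions -/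
def equivFun : h98_Co G V ≃ (G → V) where
  toFun φ := φ.toFun
  invFun := mk
  left_inv _ := rfl
  right_inv _ := rfl

instance [AddCommGroup V] : AddCommGroup (h98_Co G V) := equivFun.addCommGroup

@[simp] lemma add_apply [AddCommGroup V] (φ ψ : h98_Co G V) (x : G) : (φ + ψ) x = φ x + ψ x := rfl
@[simp] lemma sub_apply [AddCommGroup V] (φ ψ : h98_Co G V) (x : G) : (φ - ψ) x = φ x - ψ x := rfl
@[simp] lemma neg_apply [AddCommGroup V] (φ : h98_Co G V) (x : G) : (-φ) x = -φ x := rfl
@[simp] lemma zero_apply [AddCommGroup V] (x : G) : (0 : h98_Co G V) x = 0 := rfl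
@[simp] lemma nsmul_apply [AddCommGroup V] (n : ℕ) (φ : h98_Co G V) (x : G) :
    (n • φ) x = n • φ x := rfl

instance [Monoid G] [AddCommGroup V] : DistribMulAction G (h98_Co G V) where
  smul g φ := mk fun x => φ (x * g)
  one_smul φ := by ext x; show φ (x * 1) = φ x; rw [mul_one]
  mul_smul g h φ := by ext x; show φ (x * (g * h)) = φ (x * g * h); rw [mul_assoc]
  smul_zero g := rfl
  smul_add g φ ψ := rfl

@[simp] lemma smul_apply [Monoid G] [AddCommGroup V] (g : G) (φ : h98_Co G V) (x : G) :
    (g • φ) x = φ (x * g) := rfl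

end h98_Co

/-- a coinduced structure on the `Γ`-module `A` -/
structure h98_CoindStr (Γ A V : Type*) [Monoid Γ] [AddCommGroup A] [DistribMulAction Γ A]
    [AddCommGroup V] where
  e : A ≃+ h98_Co Γ V
  he : ∀ (g : Γ) (a : A), e (g • a) = g • e a

/-- the tautological coinduced structure -/
def h98_CoindStr.refl (Γ V : Type*) [Monoid Γ] [AddCommGroup V] :
    h98_CoindStr Γ (h98_Co Γ V) V where
  e := AddEquiv.refl _
  he _ _ := rfl

section acyclic

variable {Γ A V : Type*} [Group Γ] [AddCommGroup A] [DistribMulAction Γ A] [AddCommGroup V]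

theorem h98_CoindStr.van₁ (c : h98_CoindStr Γ A V) : h98_Van₁ Γ A := by
  intro f hf
  refine ⟨c.e.symm (h98_Co.mk fun x => c.e (f x) 1), fun g => ?_⟩
  apply c.e.injective
  ext x
  have := congrArg (fun a => c.e a 1) (hf x g)
  simp only [map_add, c.he, h98_Co.add_apply, h98_Co.smul_apply, one_mul] at this
  simp only [map_sub, c.he, AddEquiv.apply_symm_apply, h98_Co.sub_apply, h98_Co.smul_apply,
    h98_Co.mk_apply]
  linear_combination (norm := abel) this

theorem h98_CoindStr.van₂ (c : h98_CoindStr Γ A V) : h98_Van₂ Γ A := by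
  intro f hf
  refine ⟨fun g => c.e.symm (h98_Co.mk fun x => c.e (f (x, g)) 1), fun g h => ?_⟩
  apply c.e.injective
  ext x
  have := congrArg (fun a => c.e a 1) (hf x g h)
  simp only [map_add, c.he, h98_Co.add_apply, h98_Co.smul_apply, one_mul] at this
  simp only [map_sub, map_add, c.he, AddEquiv.apply_symm_apply, h98_Co.sub_apply,
    h98_Co.add_apply, h98_Co.smul_apply, h98_Co.mk_apply]
  linear_combination (norm := abel) this

theorem h98_CoindStr.van₃ (c : h98_CoindStr Γ A V) : h98_Van₃ Γ A := by
  intro w hw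
  refine ⟨fun gh => c.e.symm (h98_Co.mk fun x => c.e (w (x, gh.1, gh.2)) 1), fun g h k => ?_⟩
  apply c.e.injective
  ext x
  have := congrArg (fun a => c.e a 1) (hw x g h k)
  simp only [map_add, map_sub, map_zero, c.he, h98_Co.add_apply, h98_Co.sub_apply,
    h98_Co.smul_apply, one_mul, h98_Co.zero_apply] at this
  simp only [map_sub, map_add, c.he, AddEquiv.apply_symm_apply, h98_Co.sub_apply,
    h98_Co.add_apply, h98_Co.smul_apply, h98_Co.mk_apply]
  linear_combination (norm := abel) -this

end acyclic

section restriction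

variable {G : Type*} [Group G] (H : Subgroup G)

/-- the `H`-component of `x` with respect to the chosen transversal of `G ⧸ H` -/
noncomputable def h98_hh (x : G) : H :=
  ⟨(QuotientGroup.mk x : G ⧸ H).out⁻¹ * x, QuotientGroup.eq.mp (QuotientGroup.out_eq' _)⟩

lemma h98_out_mul_hh (x : G) : (QuotientGroup.mk x : G ⧸ H).out * (h98_hh H x : G) = x := by
  simp [h98_hh]

lemma h98_mk_out_mul (q : G ⧸ H) (h : H) : (QuotientGroup.mk (q.out * (h : G)) : G ⧸ H) = q := by
  rw [QuotientGroup.mk_mul_of_mem _ h.2, QuotientGroup.out_eq']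

lemma h98_hh_out_mul (q : G ⧸ H) (h : H) : h98_hh H (q.out * (h : G)) = h := by
  apply Subtype.ext
  show (QuotientGroup.mk (q.out * (h : G)) : G ⧸ H).out⁻¹ * (q.out * (h : G)) = h
  rw [h98_mk_out_mul, inv_mul_cancel_left]

variable {A V : Type*} [AddCommGroup A] [DistribMulAction G A] [AddCommGroup V]

/-- `Map(G, V) ≃ Map(H, Map(G ⧸ H, V))` -/
noncomputable def h98_Co.resEquiv : h98_Co G V ≃+ h98_Co H ((G ⧸ H) → V) where
  toFun := fun φ => h98_Co.mk fun h => fun q => φ (q.out * (h : G))
  invFun := fun ψ => h98_Co.mk fun x => ψ (h98_hh H x) (QuotientGroup.mk x)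
  left_inv := fun φ => by
    ext x
    simp only [h98_Co.mk_apply, h98_out_mul_hh]
  right_inv := fun ψ => by
    ext h q
    simp only [h98_Co.mk_apply, h98_hh_out_mul, h98_mk_out_mul]
  map_add' := fun φ ψ => by
    ext h q
    simp only [h98_Co.mk_apply, h98_Co.add_apply, Pi.add_apply]

lemma h98_Co.resEquiv_apply (φ : h98_Co G V) (h : H) (q : G ⧸ H) :
    h98_Co.resEquiv H φ h q = φ (q.out * (h : G)) := rfl

/-- a `G`-coinduced module is `H`-coinduced for every subgroup `H` -/
noncomputable def h98_CoindStr.res (c : h98_CoindStr G A V) :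
    h98_CoindStr H A ((G ⧸ H) → V) where
  e := c.e.trans (h98_Co.resEquiv H)
  he := fun h a => by
    ext h' q
    rw [AddEquiv.trans_apply, Subgroup.smul_def, c.he, h98_Co.resEquiv_apply, h98_Co.smul_apply,
      h98_Co.smul_apply, AddEquiv.trans_apply, h98_Co.resEquiv_apply, Subgroup.coe_mul, mul_assoc]

end restriction

/-- `Hom(W, A)` with the conjugation action `(g • φ) w = g • φ (g⁻¹ • w)` -/
structure h98_Hom (W A : Type*) [AddCommGroup W] [AddCommGroup A] where
  /-- constructor -/
  mk ::
  /-- underlying additive map -/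
  toHom : W →+ A

namespace h98_Hom

variable {W A B : Type*} [AddCommGroup W] [AddCommGroup A] [AddCommGroup B]

instance : FunLike (h98_Hom W A) W A where
  coe φ := φ.toHom
  coe_injective φ ψ h := by
    cases φ; cases ψ; congr; exact DFunLike.coe_injective h

instance : AddMonoidHomClass (h98_Hom W A) W A where
  map_add φ := φ.toHom.map_add
  map_zero φ := φ.toHom.map_zero

/-- the underlying equivalence with additive maps -/
def equivHom : h98_Hom W A ≃ (W →+ A) where
  toFun φ := φ.toHom
  invFun := mk
  left_inv _ := rfl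
  right_inv _ := rfl

instance : AddCommGroup (h98_Hom W A) := equivHom.addCommGroup

@[simp] lemma mk_apply (φ : W →+ A) (w : W) : mk φ w = φ w := rfl
@[simp] lemma toHom_apply (φ : h98_Hom W A) (w : W) : φ.toHom w = φ w := rfl
@[simp] lemma add_apply (φ ψ : h98_Hom W A) (w : W) : (φ + ψ) w = φ w + ψ w := rfl
@[simp] lemma sub_apply (φ ψ : h98_Hom W A) (w : W) : (φ - ψ) w = φ w - ψ w := rfl
@[simp] lemma neg_apply (φ : h98_Hom W A) (w : W) : (-φ) w = -φ w := rfl
@[simp] lemma zero_apply (w : W) : (0 : h98_Hom W A) w = 0 := rfl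
@[simp] lemma nsmul_apply (n : ℕ) (φ : h98_Hom W A) (w : W) : (n • φ) w = n • φ w := rfl

@[ext] lemma ext {φ ψ : h98_Hom W A} (h : ∀ w, φ w = ψ w) : φ = ψ := DFunLike.ext _ _ h

instance {Γ : Type*} [Group Γ] [DistribMulAction Γ W] [DistribMulAction Γ A] :
    DistribMulAction Γ (h98_Hom W A) where
  smul g φ := mk ((DistribSMul.toAddMonoidHom A g).comp
    (φ.toHom.comp (DistribSMul.toAddMonoidHom W g⁻¹)))
  one_smul φ := by ext w; show (1 : Γ) • φ ((1 : Γ)⁻¹ • w) = φ w; simp
  mul_smul g h φ := by
    ext w
    show (g * h) • φ ((g * h)⁻¹ • w) = g • h • φ (h⁻¹ • g⁻¹ • w)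
    rw [mul_inv_rev, mul_smul, mul_smul]
  smul_zero g := by ext w; show g • (0 : A) = 0; simp
  smul_add g φ ψ := by ext w; show g • (φ (g⁻¹ • w) + ψ (g⁻¹ • w)) = _; rw [smul_add]; rfl

@[simp] lemma smul_apply {Γ : Type*} [Group Γ] [DistribMulAction Γ W] [DistribMulAction Γ A]
    (g : Γ) (φ : h98_Hom W A) (w : W) : (g • φ) w = g • φ (g⁻¹ • w) := rfl

/-- post-composition -/
def post (u : A →+ B) : h98_Hom W A →+ h98_Hom W B where
  toFun φ := mk (u.comp φ.toHom)
  map_zero' := by ext w; simp
  map_add' φ ψ := by ext w; simp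

@[simp] lemma post_apply (u : A →+ B) (φ : h98_Hom W A) (w : W) : post u φ w = u (φ w) := rfl

lemma post_injective (u : A →+ B) (hu : Function.Injective u) :
    Function.Injective (post (W := W) u) := fun φ ψ h => by
  ext w
  exact hu (by simpa using congrArg (fun f => f w) h)

lemma post_surjective [Module.Free ℤ W] (u : A →+ B) (hu : Function.Surjective u) :
    Function.Surjective (post (W := W) u) := fun ψ => by
  obtain ⟨h, hh⟩ := Module.projective_lifting_property u.toIntLinearMap ψ.toHom.toIntLinearMap hu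
  refine ⟨mk h.toAddMonoidHom, ?_⟩
  ext w
  exact congrArg (fun f => f w) hh

/-- a hom into `B` whose values lie in the image of the injective `u` factors through `u` -/
lemma exists_post_eq (u : A →+ B) (hu : Function.Injective u) (ψ : h98_Hom W B)
    (h : ∀ w, ∃ a, u a = ψ w) : ∃ φ : h98_Hom W A, post u φ = ψ := by
  choose f hf using h
  refine ⟨mk { toFun := f, map_zero' := hu (by rw [hf, map_zero, map_zero]),
               map_add' := fun a b => hu (by rw [hf, map_add, map_add, hf, hf]) }, ?_⟩
  ext w
  exact hf w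

end h98_Hom

section homCoind

variable {Γ A V W : Type*} [Group Γ] [AddCommGroup A] [DistribMulAction Γ A] [AddCommGroup V]
  [AddCommGroup W] [DistribMulAction Γ W]

/-- `Hom(W, coinduced)` is coinduced -/
noncomputable def h98_CoindStr.hom (c : h98_CoindStr Γ A V) (W : Type*) [AddCommGroup W]
    [DistribMulAction Γ W] : h98_CoindStr Γ (h98_Hom W A) (W →+ V) where
  e :=
    { toFun := fun φ => h98_Co.mk fun x =>
        { toFun := fun w => c.e (φ (x⁻¹ • w)) x
          map_zero' := by simp
          map_add' := fun a b => by simp [smul_add] }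
      invFun := fun ψ => h98_Hom.mk
        { toFun := fun w => c.e.symm (h98_Co.mk fun x => ψ x (x • w))
          map_zero' := by
            rw [← map_zero c.e.symm]; congr 1; ext x; simp
          map_add' := fun a b => by
            rw [← map_add c.e.symm]; congr 1; ext x; simp [smul_add] }
      left_inv := fun φ => by
        ext w
        simp only [h98_Hom.mk_apply, AddMonoidHom.coe_mk, ZeroHom.coe_mk, h98_Co.mk_apply,
          inv_smul_smul]
        have : (h98_Co.mk fun x => c.e (φ w) x) = c.e (φ w) := by ext x; rfl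
        rw [this, AddEquiv.symm_apply_apply]
      right_inv := fun ψ => by
        ext x w
        simp only [h98_Hom.mk_apply, AddMonoidHom.coe_mk, ZeroHom.coe_mk, h98_Co.mk_apply,
          AddEquiv.apply_symm_apply, smul_inv_smul]
      map_add' := fun φ ψ => by
        ext x w
        simp }
  he := fun g φ => by
    ext x w
    simp only [AddEquiv.coe_mk, Equiv.coe_fn_mk, h98_Co.mk_apply, AddMonoidHom.coe_mk,
      ZeroHom.coe_mk, h98_Hom.smul_apply, c.he, h98_Co.smul_apply, mul_inv_rev, mul_smul]

end homCoind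

section sesOps

variable {Γ R P X : Type*} [Group Γ] [AddCommGroup R] [DistribMulAction Γ R]
  [AddCommGroup P] [DistribMulAction Γ P] [AddCommGroup X] [DistribMulAction Γ X]

/-- restriction of a short exact sequence to a subgroup -/
def h98_SES.res (s : h98_SES Γ R P X) (H : Subgroup Γ) : h98_SES H R P X where
  i := s.i
  π := s.π
  inj := s.inj
  surj := s.surj
  zero := s.zero
  exact := s.exact
  ei := fun g r => s.ei g r
  eπ := fun g x => s.eπ g x

/-- `Hom(W, -)` of a short exact sequence, `W` free over `ℤ` -/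
def h98_SES.hom (s : h98_SES Γ R P X) (W : Type*) [AddCommGroup W] [DistribMulAction Γ W]
    [Module.Free ℤ W] : h98_SES Γ (h98_Hom W R) (h98_Hom W P) (h98_Hom W X) where
  i := h98_Hom.post s.i
  π := h98_Hom.post s.π
  inj := h98_Hom.post_injective s.i s.inj
  surj := h98_Hom.post_surjective s.π s.surj
  zero := fun φ => by ext w; simp [s.zero]
  exact := fun φ hφ => h98_Hom.exists_post_eq s.i s.inj φ fun w =>
    s.exact _ (by simpa using congrArg (fun f => f w) hφ)
  ei := fun g φ => by ext w; simp [s.ei]
  eπ := fun g φ => by ext w; simp [s.eπ]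

end sesOps

end Fermat.Agent.S55
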