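import Mathlib

/-!
# S55, layer H, row FREENESS (helper98): core cochain lemmas

Unbundled low-degree cochains (Mathlib's `groupCohomology.IsCocycle₁` etc.), degree 3 added.
* `h98_SES`: equivariant short exact sequences
* `h98_zigzag₁`, `h98_zigzag₂`: for `0 → R → P → X → 0`, `0 → R → Q → Y → 0`, vanishing for `X` passes to `Y`
* `h98_card_smul_coboundary₁/₂`: the group order kills cocycle classes
* `h98_van₁_of_mod_p`, `h98_van₂_of_mod_p`: p-divisibility argument for `p`-torsion-free modules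
-/

set_option autoImplicit false

namespace Fermat.Agent.S55

open groupCohomology

/-- 3-cocycle condition (unbundled), with the signs of Mathlib's `d₂₃`/`d₃₄`. -/
def h98_IsCocycle₃ {G A : Type*} [Mul G] [AddCommGroup A] [SMul G A] (w : G × G × G → A) : Prop :=
  ∀ g h k l : G,
    g • w (h, k, l) - w (g * h, k, l) + w (g, h * k, l) - w (g, h, k * l) + w (g, h, k) = 0

/-- `w = d φ` for a 2-cochain `φ`. -/
def h98_IsCoboundary₃ {G A : Type*} [Mul G] [AddCommGroup A] [SMul G A] (w : G × G × G → A) : Prop :=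
  ∃ φ : G × G → A, ∀ g h k : G, g • φ (h, k) - φ (g * h, k) + φ (g, h * k) - φ (g, h) = w (g, h, k)

/-- every 1-cocycle is a coboundary -/
def h98_Van₁ (Γ A : Type*) [Mul Γ] [AddCommGroup A] [SMul Γ A] : Prop :=
  ∀ f : Γ → A, IsCocycle₁ f → IsCoboundary₁ f

/-- every 2-cocycle is a coboundary -/
def h98_Van₂ (Γ A : Type*) [Mul Γ] [AddCommGroup A] [SMul Γ A] : Prop :=
  ∀ f : Γ × Γ → A, IsCocycle₂ f → IsCoboundary₂ f

/-- every 3-cocycle is a coboundary -/
def h98_Van₃ (Γ A : Type*) [Mul Γ] [AddCommGroup A] [SMul Γ A] : Prop :=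
  ∀ w : Γ × Γ × Γ → A, h98_IsCocycle₃ w → h98_IsCoboundary₃ w

/-- An equivariant short exact sequence `0 → R → P → X → 0` of `Γ`-modules. -/
structure h98_SES (Γ R P X : Type*) [Monoid Γ] [AddCommGroup R] [DistribMulAction Γ R]
    [AddCommGroup P] [DistribMulAction Γ P] [AddCommGroup X] [DistribMulAction Γ X] where
  i : R →+ P
  π : P →+ X
  inj : Function.Injective i
  surj : Function.Surjective π
  zero : ∀ r, π (i r) = 0
  exact : ∀ x, π x = 0 → ∃ r, i r = x
  ei : ∀ (g : Γ) (r : R), i (g • r) = g • i r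
  eπ : ∀ (g : Γ) (x : P), π (g • x) = g • π x

section zigzag

variable {Γ R P X Q Y : Type*} [Group Γ]
  [AddCommGroup R] [DistribMulAction Γ R] [AddCommGroup P] [DistribMulAction Γ P]
  [AddCommGroup X] [DistribMulAction Γ X] [AddCommGroup Q] [DistribMulAction Γ Q]
  [AddCommGroup Y] [DistribMulAction Γ Y]

/-- zigzag in degree 1 -/
theorem h98_zigzag₁ (s : h98_SES Γ R P X) (t : h98_SES Γ R Q Y)
    (hX : h98_Van₁ Γ X) (hP : h98_Van₂ Γ P) (hQ : h98_Van₁ Γ Q) : h98_Van₁ Γ Y := by
  intro y hy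
  choose q hq using fun g => t.surj (y g)
  have h1 : ∀ g h, t.π (g • q h - q (g * h) + q g) = 0 := by
    intro g h
    simp only [map_add, map_sub, t.eπ, hq]
    linear_combination (norm := abel) -hy g h
  choose r hr using fun g h => t.exact _ (h1 g h)
  have hrc : ∀ g h k, r (g * h) k + r g h = g • r h k + r g (h * k) := by
    intro g h k
    apply t.inj
    simp only [map_add, t.ei, hr, smul_add, smul_sub, mul_smul, mul_assoc]
    abel
  have hir : IsCocycle₂ (fun gh : Γ × Γ => s.i (r gh.1 gh.2)) := by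
    intro g h k
    have := congrArg s.i (hrc g h k)
    simpa only [map_add, s.ei] using this
  obtain ⟨c, hc⟩ := hP _ hir
  have hc' : ∀ g h, g • c h - c (g * h) + c g = s.i (r g h) := hc
  have hπc : IsCocycle₁ (fun g => s.π (c g)) := by
    intro g h
    have := congrArg s.π (hc' g h)
    simp only [map_add, map_sub, s.eπ, s.zero] at this
    linear_combination (norm := abel) -this
  obtain ⟨x, hx⟩ := hX _ hπc
  obtain ⟨x', rfl⟩ := s.surj x
  have h2 : ∀ g, s.π (c g - (g • x' - x')) = 0 := by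
    intro g
    simp only [map_sub, s.eπ]
    linear_combination (norm := abel) -hx g
  choose r₁ hr₁ using fun g => s.exact _ (h2 g)
  have hr₁d : ∀ g h, g • r₁ h - r₁ (g * h) + r₁ g = r g h := by
    intro g h
    apply s.inj
    simp only [map_add, map_sub, s.ei, hr₁, ← hc' g h, smul_sub, mul_smul]
    abel
  have hq' : IsCocycle₁ (fun g => q g - t.i (r₁ g)) := by
    intro g h
    have e1 := hr g h
    have e2 := congrArg t.i (hr₁d g h)
    simp only [map_add, map_sub, t.ei] at e2
    simp only [smul_sub]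
    linear_combination (norm := abel) e1 + e2
  obtain ⟨q₀, hq₀⟩ := hQ _ hq'
  refine ⟨t.π q₀, fun g => ?_⟩
  have := congrArg t.π (hq₀ g)
  simpa only [map_sub, t.eπ, t.zero, hq, sub_zero] using this

/-- zigzag in degree 2 -/
theorem h98_zigzag₂ (s : h98_SES Γ R P X) (t : h98_SES Γ R Q Y)
    (hX : h98_Van₂ Γ X) (hP : h98_Van₃ Γ P) (hQ : h98_Van₂ Γ Q) : h98_Van₂ Γ Y := by
  intro y hy
  choose q hq using fun gh => t.surj (y gh)
  have h1 : ∀ g h k, t.π (g • q (h, k) - q (g * h, k) + q (g, h * k) - q (g, h)) = 0 := by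
    intro g h k
    simp only [map_add, map_sub, t.eπ, hq]
    linear_combination (norm := abel) -hy g h k
  choose r hr using fun g h k => t.exact _ (h1 g h k)
  have hrc : ∀ g h k l, g • r h k l - r (g * h) k l + r g (h * k) l - r g h (k * l) + r g h k = 0 := by
    intro g h k l
    apply t.inj
    simp only [map_add, map_sub, map_zero, t.ei, hr, smul_add, smul_sub, mul_smul, mul_assoc]
    abel
  have hir : h98_IsCocycle₃ (fun ghk : Γ × Γ × Γ => s.i (r ghk.1 ghk.2.1 ghk.2.2)) := by
    intro g h k l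
    have := congrArg s.i (hrc g h k l)
    simpa only [map_add, map_sub, map_zero, s.ei] using this
  obtain ⟨φ, hφ⟩ := hP _ hir
  have hφ' : ∀ g h k, g • φ (h, k) - φ (g * h, k) + φ (g, h * k) - φ (g, h) = s.i (r g h k) := hφ
  have hπφ : IsCocycle₂ (fun gh => s.π (φ gh)) := by
    intro g h k
    have := congrArg s.π (hφ' g h k)
    simp only [map_add, map_sub, s.eπ, s.zero] at this
    linear_combination (norm := abel) -this
  obtain ⟨ψ, hψ⟩ := hX _ hπφ
  choose ψ' hψ' using fun g => s.surj (ψ g)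
  have h2 : ∀ g h, s.π (φ (g, h) - (g • ψ' h - ψ' (g * h) + ψ' g)) = 0 := by
    intro g h
    simp only [map_sub, map_add, s.eπ, hψ']
    linear_combination (norm := abel) -hψ g h
  choose r₁ hr₁ using fun g h => s.exact _ (h2 g h)
  have hr₁d : ∀ g h k, g • r₁ h k - r₁ (g * h) k + r₁ g (h * k) - r₁ g h = r g h k := by
    intro g h k
    apply s.inj
    simp only [map_add, map_sub, s.ei, hr₁, ← hφ' g h k, smul_sub, smul_add, mul_smul, mul_assoc]
    abel
  have hq' : IsCocycle₂ (fun gh : Γ × Γ => q gh - t.i (r₁ gh.1 gh.2)) := by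
    intro g h k
    have e1 := hr g h k
    have e2 := congrArg t.i (hr₁d g h k)
    simp only [map_add, map_sub, t.ei] at e2
    simp only [smul_sub]
    linear_combination (norm := abel) e1 + e2
  obtain ⟨c, hc⟩ := hQ _ hq'
  refine ⟨fun g => t.π (c g), fun g h => ?_⟩
  have := congrArg t.π (hc g h)
  simpa only [map_sub, map_add, t.eπ, t.zero, hq, sub_zero] using this

end zigzag

section torsion

variable {Γ A : Type*} [Group Γ] [Finite Γ] [AddCommGroup A] [DistribMulAction Γ A]

/-- the group order kills 1-cocycle classes -/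
theorem h98_card_smul_coboundary₁ (f : Γ → A) (hf : IsCocycle₁ f) :
    IsCoboundary₁ (fun g => Nat.card Γ • f g) := by
  classical
  letI := Fintype.ofFinite Γ
  refine ⟨-∑ h, f h, fun g => ?_⟩
  have h1 : ∑ h, g • f h = ∑ h, f h - Fintype.card Γ • f g := by
    have : ∀ h, g • f h = f (g * h) - f g := fun h => by rw [hf g h]; abel
    simp only [this, Finset.sum_sub_distrib, Finset.sum_const, Finset.card_univ]
    congr 1
    exact Fintype.sum_bijective (g * ·) (Group.mulLeft_bijective g) _ _ (fun _ => rfl)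
  rw [Nat.card_eq_fintype_card, smul_neg, Finset.smul_sum, h1]
  abel

/-- the group order kills 2-cocycle classes -/
theorem h98_card_smul_coboundary₂ (f : Γ × Γ → A) (hf : IsCocycle₂ f) :
    IsCoboundary₂ (fun gh => Nat.card Γ • f gh) := by
  classical
  letI := Fintype.ofFinite Γ
  refine ⟨fun g => ∑ k, f (g, k), fun g h => ?_⟩
  have h1 : ∑ k, g • f (h, k) = ∑ k, f (g * h, k) + Fintype.card Γ • f (g, h) - ∑ k, f (g, k) := by
    have : ∀ k, g • f (h, k) = f (g * h, k) + f (g, h) - f (g, h * k) := fun k => by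
      rw [hf g h k]; abel
    simp only [this, Finset.sum_sub_distrib, Finset.sum_add_distrib, Finset.sum_const,
      Finset.card_univ]
    congr 1
    exact Fintype.sum_bijective (h * ·) (Group.mulLeft_bijective h) _ _ (fun _ => rfl)
  rw [Nat.card_eq_fintype_card, Finset.smul_sum, h1]
  abel

end torsion

section divisible

/-- abstract p-divisibility argument -/
theorem h98_div_abstract {M : Type*} [AddCommGroup M] (Zp Bp : M → Prop) (p k : ℕ)
    (hB0 : Bp 0) (hBadd : ∀ a b, Bp a → Bp b → Bp (a + b))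
    (hstep : ∀ z, Zp z → ∃ z', Zp z' ∧ ∃ b, Bp b ∧ z = p • z' + b)
    (hkill : ∀ z, Zp z → Bp (p ^ k • z)) : ∀ z, Zp z → Bp z := by
  have hBn : ∀ (n : ℕ) b, Bp b → Bp (n • b) := by
    intro n b hb
    induction n with
    | zero => simpa using hB0
    | succ n ih => rw [succ_nsmul]; exact hBadd _ _ ih hb
  have key : ∀ n : ℕ, ∀ z, Zp z → ∃ z', Zp z' ∧ ∃ b, Bp b ∧ z = p ^ n • z' + b := by
    intro n
    induction n with
    | zero => intro z hz; exact ⟨z, hz, 0, hB0, by simp⟩
    | succ n ih =>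
      intro z hz
      obtain ⟨z₁, hz₁, b₁, hb₁, e₁⟩ := ih z hz
      obtain ⟨z₂, hz₂, b₂, hb₂, e₂⟩ := hstep z₁ hz₁
      refine ⟨z₂, hz₂, p ^ n • b₂ + b₁, hBadd _ _ (hBn _ _ hb₂) hb₁, ?_⟩
      rw [e₁, e₂, smul_add, ← mul_smul, pow_succ, add_assoc]
  intro z hz
  obtain ⟨z', hz', b, hb, e⟩ := key k z hz
  rw [e]
  exact hBadd _ _ (hkill z' hz') hb

variable {Γ Y Ybar : Type*} [Group Γ] [Finite Γ] [AddCommGroup Y] [DistribMulAction Γ Y]
  [AddCommGroup Ybar] [DistribMulAction Γ Ybar]

/-- `H¹(Γ, Y) = 0` from `H¹(Γ, Y/p) = 0` for a `p`-group `Γ` and `p`-torsion-free `Y`. -/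
theorem h98_van₁_of_mod_p (p k : ℕ) (hcard : Nat.card Γ = p ^ k)
    (htf : ∀ y : Y, p • y = 0 → y = 0) (π : Y →+ Ybar) (hπs : Function.Surjective π)
    (hπe : ∀ (g : Γ) (y : Y), π (g • y) = g • π y)
    (hπk : ∀ y, π y = 0 → ∃ y', y = p • y')
    (hbar : h98_Van₁ Γ Ybar) : h98_Van₁ Γ Y := by
  refine h98_div_abstract (M := Γ → Y) IsCocycle₁ IsCoboundary₁ p k ⟨0, fun g => by simp⟩ ?_ ?_ ?_
  · rintro a b ⟨x, hx⟩ ⟨x', hx'⟩
    exact ⟨x + x', fun g => by simp only [Pi.add_apply, smul_add, ← hx g, ← hx' g]; abel⟩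
  · intro f hf
    have hπf : IsCocycle₁ (fun g => π (f g)) := fun g h => by
      simp only [hf g h, map_add, hπe]
    obtain ⟨x, hx⟩ := hbar _ hπf
    obtain ⟨x', rfl⟩ := hπs x
    have h2 : ∀ g, π (f g - (g • x' - x')) = 0 := by
      intro g
      simp only [map_sub, hπe]
      linear_combination (norm := abel) -hx g
    choose f₁ hf₁ using fun g => hπk _ (h2 g)
    refine ⟨f₁, ?_, fun g => g • x' - x', ⟨x', fun g => rfl⟩, ?_⟩
    · intro g h
      rw [← sub_eq_zero]
      apply htf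
      simp only [smul_sub, smul_add, smul_comm p g, ← hf₁, mul_smul, hf g h]
      abel
    · funext g
      simp only [Pi.add_apply, Pi.smul_apply, ← hf₁]
      abel
  · intro f hf
    have := h98_card_smul_coboundary₁ f hf
    rw [hcard] at this
    exact this

/-- `H²(Γ, Y) = 0` from `H²(Γ, Y/p) = 0` for a `p`-group `Γ` and `p`-torsion-free `Y`. -/
theorem h98_van₂_of_mod_p (p k : ℕ) (hcard : Nat.card Γ = p ^ k)
    (htf : ∀ y : Y, p • y = 0 → y = 0) (π : Y →+ Ybar) (hπs : Function.Surjective π)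
    (hπe : ∀ (g : Γ) (y : Y), π (g • y) = g • π y)
    (hπk : ∀ y, π y = 0 → ∃ y', y = p • y')
    (hbar : h98_Van₂ Γ Ybar) : h98_Van₂ Γ Y := by
  refine h98_div_abstract (M := Γ × Γ → Y) IsCocycle₂ IsCoboundary₂ p k
    ⟨0, fun g h => by simp⟩ ?_ ?_ ?_
  · rintro a b ⟨x, hx⟩ ⟨x', hx'⟩
    exact ⟨x + x', fun g h => by simp only [Pi.add_apply, smul_add, ← hx g h, ← hx' g h]; abel⟩
  · intro f hf
    have hπf : IsCocycle₂ (fun gh => π (f gh)) := fun g h k => by
      have := congrArg π (hf g h k)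
      simpa only [map_add, hπe] using this
    obtain ⟨c, hc⟩ := hbar _ hπf
    choose c' hc' using fun g => hπs (c g)
    have h2 : ∀ gh : Γ × Γ, π (f gh - (gh.1 • c' gh.2 - c' (gh.1 * gh.2) + c' gh.1)) = 0 := by
      rintro ⟨g, h⟩
      simp only [map_sub, map_add, hπe, hc']
      linear_combination (norm := abel) -hc g h
    choose f₁ hf₁ using fun gh => hπk _ (h2 gh)
    refine ⟨f₁, ?_, fun gh => gh.1 • c' gh.2 - c' (gh.1 * gh.2) + c' gh.1, ⟨c', fun g h => rfl⟩, ?_⟩
    · intro g h k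
      rw [← sub_eq_zero]
      apply htf
      simp only [smul_sub, smul_add, smul_comm p g, ← hf₁, mul_smul, mul_assoc]
      linear_combination (norm := abel) hf g h k
    · funext gh
      simp only [Pi.add_apply, Pi.smul_apply, ← hf₁]
      abel
  · intro f hf
    have := h98_card_smul_coboundary₂ f hf
    rw [hcard] at this
    exact this

end divisible

end Fermat.Agent.S55
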