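import Fermat.Agent.S55.h98_FreeMod

/-!
# S55, layer H, row FREENESS (helper98): cohomological freeness over `F_p[p-group]`

`h98_coind_of_van₁`: a module killed by `p` over a finite `p`-group with `H¹ = 0` is coinduced.
-/

set_option autoImplicit false

namespace Fermat.Agent.S55

open groupCohomology

section fixed

variable (p : ℕ) [Fact p.Prime] {G : Type*} [Group G] [Finite G]

/-- a finite `p`-group acting on a nonzero module killed by `p` has a nonzero fixed vector
(inside the subgroup generated by any given orbit) -/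
theorem h98_exists_fixed (hG : IsPGroup p G)
    {A : Type*} [AddCommGroup A] [DistribMulAction G A] (hpA : ∀ a : A, p • a = 0)
    (a₀ : A) (ha₀ : a₀ ≠ 0) :
    ∃ b : A, b ≠ 0 ∧ (∀ g : G, g • b = b) ∧
      b ∈ AddSubgroup.closure (Set.range fun g : G => g • a₀) := by
  classical
  let N : AddSubgroup A := AddSubgroup.closure (Set.range fun g : G => g • a₀)
  have hst : ∀ (g : G), ∀ n ∈ N, g • n ∈ N := by
    intro g n hn
    induction hn using AddSubgroup.closure_induction with
    | mem x hx =>
      obtain ⟨h, rfl⟩ := hx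
      exact AddSubgroup.subset_closure ⟨g * h, mul_smul g h a₀⟩
    | zero => rw [smul_zero]; exact N.zero_mem
    | add x y _ _ hx hy => rw [smul_add]; exact N.add_mem hx hy
    | neg x _ hx => rw [smul_neg]; exact N.neg_mem hx
  letI : MulAction G N :=
    { smul := fun g n => ⟨g • n.1, hst g n.1 n.2⟩
      one_smul := fun n => Subtype.ext (one_smul G n.1)
      mul_smul := fun g h n => Subtype.ext (mul_smul g h n.1) }
  haveI : AddGroup.FG N := AddGroup.closure_finite_fg _
  haveI : Finite N := AddCommGroup.finite_of_fg_isAddTorsion N (fun n =>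
    isOfFinAddOrder_iff_nsmul_eq_zero.mpr ⟨p, (Fact.out : p.Prime).pos,
      Subtype.ext (by simpa using hpA n.1)⟩)
  have hdvd : p ∣ Nat.card N := by
    let a₁ : N := ⟨a₀, AddSubgroup.subset_closure ⟨1, one_smul G a₀⟩⟩
    have h1 : addOrderOf a₁ = p :=
      addOrderOf_eq_prime (Subtype.ext (by simpa using hpA a₀))
        (fun h => ha₀ (congrArg Subtype.val h))
    rw [← h1]
    exact addOrderOf_dvd_natCard a₁
  have h0 : (0 : N) ∈ MulAction.fixedPoints G N := fun g => Subtype.ext (smul_zero g)
  obtain ⟨b, hb, hb0⟩ := hG.exists_fixed_point_of_prime_dvd_card_of_fixed_point N hdvd h0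
  exact ⟨b.1, fun h => hb0 (Subtype.ext h.symm), fun g => congrArg Subtype.val (hb g), b.2⟩

/-- quotient form of `h98_exists_fixed` -/
theorem h98_exists_fixed_mod (hG : IsPGroup p G)
    {Q : Type*} [AddCommGroup Q] [DistribMulAction G Q] (hpQ : ∀ a : Q, p • a = 0)
    (E : AddSubgroup Q) (hE : ∀ (g : G), ∀ b ∈ E, g • b ∈ E) (q : Q) (hq : q ∉ E) :
    ∃ q' : Q, q' ∉ E ∧ ∀ g : G, g • q' - q' ∈ E := by
  have hp' : ∀ x : h98_Quot E hE, p • x = 0 := by
    intro x
    obtain ⟨a, rfl⟩ := h98_Quot.mkHom_surjective x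
    rw [← map_nsmul, hpQ, map_zero]
  have hq0 : (h98_Quot.mkHom q : h98_Quot E hE) ≠ 0 := fun h =>
    hq ((h98_Quot.mkHom_eq_zero_iff q).mp h)
  obtain ⟨b, hb0, hb, -⟩ := h98_exists_fixed p hG hp' _ hq0
  obtain ⟨q', rfl⟩ := h98_Quot.mkHom_surjective b
  refine ⟨q', fun h => hb0 ((h98_Quot.mkHom_eq_zero_iff q').mpr h), fun g => ?_⟩
  rw [← h98_Quot.mkHom_eq_zero_iff (hB := hE), map_sub, ← h98_Quot.smul_mkHom, hb g, sub_self]

end fixed

/-- fixed points as an additive subgroup -/
def h98_fixed (G A : Type*) [Monoid G] [AddCommGroup A] [DistribMulAction G A] : AddSubgroup A where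
  carrier := {a | ∀ g : G, g • a = a}
  zero_mem' := fun g => smul_zero g
  add_mem' := fun {a b} ha hb g => by rw [smul_add, ha g, hb g]
  neg_mem' := fun {a} ha g => by rw [smul_neg, ha g]

lemma h98_mem_fixed {G A : Type*} [Monoid G] [AddCommGroup A] [DistribMulAction G A] (a : A) :
    a ∈ h98_fixed G A ↔ ∀ g : G, g • a = a := Iff.rfl

theorem h98_exists_retraction_aux (p : ℕ) [Fact p.Prime] {A : Type*} [AddCommGroup A]
    [Module (ZMod p) A] (S : AddSubgroup A) : ∃ π : A →+ S, ∀ v : S, π v = v := by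
  let V' : Submodule (ZMod p) A := AddSubgroup.toZModSubmodule p S
  obtain ⟨W, hW⟩ := Submodule.exists_isCompl V'
  let πl : A →ₗ[ZMod p] ↥V' := Submodule.projectionOnto V' W hW
  refine ⟨{ toFun := fun a => ⟨(πl a).1, (πl a).2⟩
            map_zero' := by simp
            map_add' := fun a b => by simp; rfl }, fun v => ?_⟩
  have := Submodule.projectionOnto_apply_left hW ⟨v.1, v.2⟩
  exact Subtype.ext (congrArg Subtype.val this)

/-- an additive retraction onto any subgroup of a group killed by `p` -/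
theorem h98_exists_retraction (p : ℕ) [Fact p.Prime] {A : Type*} [AddCommGroup A]
    (hpA : ∀ a : A, p • a = 0) (S : AddSubgroup A) : ∃ π : A →+ S, ∀ v : S, π v = v :=
  @h98_exists_retraction_aux p _ A _ (AddCommGroup.zmodModule hpA) S

/-- **Cohomological freeness over `F_p[p-group]`**: `H¹(G, A) = 0` implies `A` coinduced. -/
theorem h98_coind_of_van₁ (p : ℕ) [Fact p.Prime] {G : Type*} [Group G] [Finite G]
    (hG : IsPGroup p G) {A : Type*} [AddCommGroup A] [DistribMulAction G A]
    (hpA : ∀ a : A, p • a = 0) (h1 : h98_Van₁ G A) :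
    Nonempty (h98_CoindStr G A (h98_fixed G A)) := by
  classical
  -- an additive retraction onto the fixed points
  obtain ⟨π, hπ⟩ := h98_exists_retraction p hpA (h98_fixed G A)
  -- the comparison map
  let e₀ : A →+ h98_Co G (h98_fixed G A) :=
    { toFun := fun a => h98_Co.mk fun x => π (x • a)
      map_zero' := by ext x; simp
      map_add' := fun a b => by ext x; simp [smul_add] }
  have he₀ : ∀ (a : A) (x : G), e₀ a x = π (x • a) := fun _ _ => rfl
  have hequiv : ∀ (g : G) (a : A), e₀ (g • a) = g • e₀ a := by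
    intro g a
    ext x
    rw [h98_Co.smul_apply, he₀, he₀, mul_smul]
  have hpQ : ∀ φ : h98_Co G (h98_fixed G A), p • φ = 0 := by
    intro φ
    ext x
    rw [h98_Co.nsmul_apply, h98_Co.zero_apply]
    rw [AddSubgroup.coe_nsmul, AddSubgroup.coe_zero]
    exact hpA _
  have hinj : Function.Injective e₀ := by
    rw [injective_iff_map_eq_zero]
    intro a ha
    by_contra ha0
    obtain ⟨b, hb0, hb, hbmem⟩ := h98_exists_fixed p hG hpA a ha0
    have hK : ∀ x ∈ AddSubgroup.closure (Set.range fun g : G => g • a), e₀ x = 0 := by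
      intro x hx
      induction hx using AddSubgroup.closure_induction with
      | mem x hx => obtain ⟨g, rfl⟩ := hx; rw [hequiv, ha, smul_zero]
      | zero => exact map_zero _
      | add x y _ _ hx hy => rw [map_add, hx, hy, add_zero]
      | neg x _ hx => rw [map_neg, hx, neg_zero]
    have hbK : e₀ b = 0 := hK b hbmem
    have : e₀ b 1 = (⟨b, hb⟩ : h98_fixed G A) := by
      rw [he₀, one_smul]; exact hπ ⟨b, hb⟩
    rw [hbK] at this
    exact hb0 (congrArg Subtype.val this).symm
  have hsurj : Function.Surjective e₀ := by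
    by_contra hns
    obtain ⟨q, hq⟩ : ∃ q, q ∉ e₀.range := by
      by_contra hall
      exact hns fun q => not_not.mp fun h => hall ⟨q, h⟩
    have hE : ∀ (g : G), ∀ b ∈ e₀.range, g • b ∈ e₀.range := by
      rintro g _ ⟨a, rfl⟩
      exact ⟨g • a, hequiv g a⟩
    obtain ⟨q', hq', hfix⟩ := h98_exists_fixed_mod p hG hpQ e₀.range hE q hq
    choose f hf using hfix
    have hfc : IsCocycle₁ f := by
      intro g h
      apply hinj
      rw [map_add, hequiv, hf, hf, hf, smul_sub, mul_smul]
      abel
    obtain ⟨a, ha⟩ := h1 f hfc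
    -- `q' - e₀ a` is a fixed function
    have hφ : ∀ g : G, g • (q' - e₀ a) = q' - e₀ a := by
      intro g
      have h2 : e₀ (g • a) = e₀ (f g) + e₀ a := by rw [← map_add, ← ha g]; congr 1; abel
      rw [smul_sub, ← hequiv, h2, hf]
      abel
    have hconst : ∀ x : G, (q' - e₀ a) x = (q' - e₀ a) 1 := by
      intro x
      have := congrArg (fun φ => φ 1) (hφ x)
      simpa only [h98_Co.smul_apply, one_mul] using this
    apply hq'
    have hv : ∀ x : G, x • (((q' - e₀ a) 1 : h98_fixed G A) : A) = ((q' - e₀ a) 1 : h98_fixed G A) :=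
      fun x => ((q' - e₀ a) 1).2 x
    refine ⟨a + (((q' - e₀ a) 1 : h98_fixed G A) : A), h98_Co.ext fun x => ?_⟩
    rw [map_add, h98_Co.add_apply, he₀ (((q' - e₀ a) 1 : h98_fixed G A) : A) x, hv x, hπ,
      ← hconst x, h98_Co.sub_apply]
    abel
  exact ⟨{ e := AddEquiv.ofBijective e₀ ⟨hinj, hsurj⟩, he := hequiv }⟩

end Fermat.Agent.S55
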