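import Fermat.Agent.S55.h98_FreeCoind

/-!
# S55, layer H, row FREENESS (helper98): stable subgroups and quotients as modules
-/

set_option autoImplicit false

namespace Fermat.Agent.S55

open groupCohomology

variable {Γ A : Type*} [Monoid Γ] [AddCommGroup A] [DistribMulAction Γ A]

/-- a `Γ`-stable subgroup, as a `Γ`-module -/
structure h98_Sub (B : AddSubgroup A) (hB : ∀ (g : Γ), ∀ b ∈ B, g • b ∈ B) where
  /-- constructor -/
  mk ::
  /-- underlying element -/
  val : A
  /-- membership -/
  mem : val ∈ B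

namespace h98_Sub

variable {B : AddSubgroup A} {hB : ∀ (g : Γ), ∀ b ∈ B, g • b ∈ B}

@[ext] lemma ext {x y : h98_Sub B hB} (h : x.val = y.val) : x = y := by
  cases x; cases y; congr

/-- the underlying equivalence with the subtype -/
def equivSub : h98_Sub B hB ≃ B where
  toFun x := ⟨x.val, x.mem⟩
  invFun x := ⟨x.1, x.2⟩
  left_inv _ := rfl
  right_inv _ := rfl

instance : AddCommGroup (h98_Sub B hB) := equivSub.addCommGroup

@[simp] lemma val_add (x y : h98_Sub B hB) : (x + y).val = x.val + y.val := rfl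
@[simp] lemma val_sub (x y : h98_Sub B hB) : (x - y).val = x.val - y.val := rfl
@[simp] lemma val_neg (x : h98_Sub B hB) : (-x).val = -x.val := rfl
@[simp] lemma val_zero : (0 : h98_Sub B hB).val = 0 := rfl
@[simp] lemma val_nsmul (n : ℕ) (x : h98_Sub B hB) : (n • x).val = n • x.val := rfl

instance : DistribMulAction Γ (h98_Sub B hB) where
  smul g x := ⟨g • x.val, hB g _ x.mem⟩
  one_smul x := by ext; exact one_smul Γ x.val
  mul_smul g h x := by ext; exact mul_smul g h x.val
  smul_zero g := by ext; exact smul_zero g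
  smul_add g x y := by ext; exact smul_add g x.val y.val

@[simp] lemma val_smul (g : Γ) (x : h98_Sub B hB) : (g • x).val = g • x.val := rfl

/-- inclusion -/
def valHom : h98_Sub B hB →+ A where
  toFun := val
  map_zero' := rfl
  map_add' _ _ := rfl

@[simp] lemma valHom_apply (x : h98_Sub B hB) : valHom x = x.val := rfl

lemma valHom_injective : Function.Injective (valHom : h98_Sub B hB →+ A) := fun _ _ h => ext h

end h98_Sub

/-- the quotient by a `Γ`-stable subgroup, as a `Γ`-module -/
structure h98_Quot (B : AddSubgroup A) (hB : ∀ (g : Γ), ∀ b ∈ B, g • b ∈ B) where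
  /-- constructor -/
  mk ::
  /-- underlying element of the quotient group -/
  q : A ⧸ B

namespace h98_Quot

variable {B : AddSubgroup A} {hB : ∀ (g : Γ), ∀ b ∈ B, g • b ∈ B}

@[ext] lemma ext {x y : h98_Quot B hB} (h : x.q = y.q) : x = y := by
  cases x; cases y; congr

/-- the underlying equivalence with the quotient group -/
def equivQuot : h98_Quot B hB ≃ A ⧸ B where
  toFun x := x.q
  invFun := mk
  left_inv _ := rfl
  right_inv _ := rfl

instance : AddCommGroup (h98_Quot B hB) := equivQuot.addCommGroup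

@[simp] lemma q_add (x y : h98_Quot B hB) : (x + y).q = x.q + y.q := rfl
@[simp] lemma q_sub (x y : h98_Quot B hB) : (x - y).q = x.q - y.q := rfl
@[simp] lemma q_zero : (0 : h98_Quot B hB).q = 0 := rfl

/-- projection -/
def mkHom : A →+ h98_Quot B hB where
  toFun a := ⟨QuotientAddGroup.mk a⟩
  map_zero' := rfl
  map_add' _ _ := rfl

lemma mkHom_surjective : Function.Surjective (mkHom : A →+ h98_Quot B hB) := by
  rintro ⟨x⟩
  obtain ⟨a, rfl⟩ := QuotientAddGroup.mk_surjective x
  exact ⟨a, rfl⟩

lemma mkHom_eq_zero_iff (a : A) : (mkHom a : h98_Quot B hB) = 0 ↔ a ∈ B := by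
  constructor
  · intro h
    have : (QuotientAddGroup.mk a : A ⧸ B) = 0 := congrArg h98_Quot.q h
    exact (QuotientAddGroup.eq_zero_iff a).mp this
  · intro h
    ext
    exact (QuotientAddGroup.eq_zero_iff a).mpr h

instance : DistribMulAction Γ (h98_Quot B hB) where
  smul g x := ⟨QuotientAddGroup.map B B (DistribSMul.toAddMonoidHom A g) (fun b hb => hB g b hb) x.q⟩
  one_smul x := by
    obtain ⟨a, rfl⟩ := mkHom_surjective x
    ext
    show (QuotientAddGroup.mk ((1 : Γ) • a) : A ⧸ B) = QuotientAddGroup.mk a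
    rw [one_smul]
  mul_smul g h x := by
    obtain ⟨a, rfl⟩ := mkHom_surjective x
    ext
    show (QuotientAddGroup.mk ((g * h) • a) : A ⧸ B) = QuotientAddGroup.mk (g • h • a)
    rw [mul_smul]
  smul_zero g := by
    ext
    show QuotientAddGroup.map B B (DistribSMul.toAddMonoidHom A g) _ (0 : A ⧸ B) = 0
    exact map_zero _
  smul_add g x y := by
    ext
    show QuotientAddGroup.map B B (DistribSMul.toAddMonoidHom A g) _ (x.q + y.q) = _
    exact map_add _ _ _

@[simp] lemma smul_mkHom (g : Γ) (a : A) : g • (mkHom a : h98_Quot B hB) = mkHom (g • a) := rfl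

end h98_Quot

/-- the canonical short exact sequence of a stable subgroup -/
def h98_SES.ofSub (B : AddSubgroup A) (hB : ∀ (g : Γ), ∀ b ∈ B, g • b ∈ B) :
    h98_SES Γ (h98_Sub B hB) A (h98_Quot B hB) where
  i := h98_Sub.valHom
  π := h98_Quot.mkHom
  inj := h98_Sub.valHom_injective
  surj := h98_Quot.mkHom_surjective
  zero := fun r => (h98_Quot.mkHom_eq_zero_iff _).mpr r.mem
  exact := fun x hx => ⟨⟨x, (h98_Quot.mkHom_eq_zero_iff _).mp hx⟩, rfl⟩
  ei := fun _ _ => rfl
  eπ := fun _ _ => rfl

end Fermat.Agent.S55
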