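/-
S55 / GLOB-UNORM (UF): the level wrapper `h56_HypRecip S p` over the type-level core
`h98_hrec_core`.
-/
import Fermat.Agent.S55.h98_HrecCore
import Fermat.Agent.S55.h97_RecipLevelT
import Fermat.Agent.S55.h92_SplitNormG
import Fermat.Agent.S55.h92_SplitNormLevel
import Fermat.Agent.S55.h38_SymbFrob
import Fermat.Agent.S55.h56_UnormDefs
import Fermat.Agent.S55.h10_LevelUnram

set_option autoImplicit false
set_option linter.style.haveILetI false

namespace Fermat.Agent.S55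

open NumberField IsDedekindDomain ExtCitation

local notation "Qb" => AlgebraicClosure ℚ

/-- **(R1) RECIPROCITY at levels.** -/
theorem h98_hypRecip (S : Finset Nat.Primes) (p : ℕ) [hp : Fact p.Prime] (hp2 : p ≠ 2)
    (hpS : pPrime p ∈ S) : h56_HypRecip S p := by
  classical
  intro L' _ hL' ζ hζ x hx0 hxV c hcx
  have hpp : p.Prime := hp.out
  have hζ' : IsPrimitiveRoot (ζ : ↥L') p :=
    hζ.map_of_injective (f := algebraMap (𝓞 ↥L') ↥L') RingOfIntegers.coe_injective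
  obtain ⟨n, hn⟩ := h28_exists_level_FP3 S (⟨pPrime p, hpS⟩ : ↥S) (K := ↥L')
    ((h25_div ↥L' S c).support.image Subtype.val)
  obtain ⟨E, h, hE, -, hroots, ⟨ξ, hξ⟩, -, hcomm⟩ :=
    h97_recip_level_type S p hp2 hpS L' hL' hζ' n
  haveI : NumberField ↥E := h33_level_numberField hE
  letI := h10_inclAlgebra h
  haveI : IsGalois ℚ ↥E := hE.2
  haveI : IsGalois ↥L' ↥E := h10_incl_isGalois h
  haveI : Finite (↥E ≃ₐ[↥L'] ↥E) := h92_incl_finite h
  obtain ⟨a, haV, hax⟩ := hxV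
  obtain ⟨β, hβ⟩ := hroots a haV
  have hβ' : β ^ p = algebraMap ↥L' ↥E (x : ↥L') := by
    rw [hβ, hax]
    rfl
  have hxK : (x : ↥L') ≠ 0 := fun h0 => hx0 (RingOfIntegers.ext h0)
  have hβ0 : β ≠ 0 := by
    rintro rfl
    rw [zero_pow hpp.ne_zero] at hβ'
    exact hxK ((algebraMap ↥L' ↥E).injective (by rw [← hβ', map_zero]))
  have hyK : ∃ a' : ↥L', β ^ p = algebraMap ↥L' ↥E a' := ⟨_, hβ'⟩
  have hχ : ∀ σ : ↥E ≃ₐ[↥L'] ↥E, σ β = algebraMap ↥L' ↥E
      ((ζ : ↥L') ^ (Multiplicative.toAdd (h38_kumHom hpp hζ' hβ0 hyK σ)).val) * β :=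
    fun σ => h38_kumChar_spec hpp hζ' hβ0 hyK σ
  have hJ := h92_hJ_kumChar S p ζ hζ x hx0 ⟨a, haV, hax⟩ β hβ'
    (h38_kumHom hpp hζ' hβ0 hyK) hχ (h33_dJ ↥L' S c)
  have key := h98_hrec_core p hp2 S hpS hcomm (h10_isLevel_unram S E hE)
    (h10_level_unram_incl h S hE.1) n ξ hξ ζ hζ x β hβ' (h38_kumHom hpp hζ' hβ0 hyK) hχ c hcx
    (fun w hw => hn n le_rfl w.1 (Finset.mem_image_of_mem _ hw)) hJ
  rw [finsum_eq_sum_of_support_subset _ (s := (h25_div ↥L' S c).support)]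
  · exact key
  · intro w hw
    rw [Function.mem_support] at hw
    rw [Finset.mem_coe, Finsupp.mem_support_iff, h10_div_apply S c w]
    intro h0
    apply hw
    have h1 : Multiplicative.toAdd (w.1.valuationOfNeZero c) = 0 := by rwa [neg_eq_zero] at h0
    rw [h1, zero_smul]

end Fermat.Agent.S55
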