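/-
S55 layer H, row H-LES1 (helper9): the connecting map in degrees `1 → 2` for a short exact
sequence of `G`-modules, exactness in the middle, and the two vanishing corollaries.
-/
import Mathlib
import Fermat.Agent.S55.h72_AbsDefs
import Fermat.Agent.S55.h40_HDefs
import Fermat.Agent.S55.h40_InfRes

set_option autoImplicit false
set_option linter.unusedSectionVars false

namespace Fermat.Agent.S55

open groupCohomology

section LES1

variable {G : Type*} [Group G] {A B C : Type*} [AddCommGroup A] [AddCommGroup B] [AddCommGroup C]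
  [DistribMulAction G A] [DistribMulAction G B] [DistribMulAction G C] (i : A →+ B) (q : B →+ C)

theorem h9_conn₁_exists (h : h40_ShortExact G i q) (z : G → C) (hz : IsCocycle₁ z) :
    ∃ y : G × G → A, IsCocycle₂ y ∧ h40_Conn₁ i q z y := by
  choose b hb using fun g => h.surj (z g)
  have hker : ∀ x : G × G, ∃ a : A, i a = h40_d₁ b x := by
    rintro ⟨g, k⟩
    have h0 : q (h40_d₁ b (g, k)) = 0 := by
      rw [h40_d₁_apply, map_add, map_sub, h.q_smul, hb, hb, hb, hz g k]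
      abel
    obtain ⟨a, ha⟩ := (h.exact _).mp h0
    exact ⟨a, ha⟩
  choose y hy using hker
  refine ⟨y, ?_, b, hb, fun g k => ?_⟩
  · intro g k j
    apply h.inj
    have h1 := h40_isCocycle₂_d₁ b g k j
    rw [map_add, map_add, h.i_smul, hy, hy, hy, hy]
    exact h1
  · rw [hy, h40_d₁_apply]

theorem h9_conn₁_unique (h : h40_ShortExact G i q) (z : G → C) (y y' : G × G → A)
    (hy : h40_Conn₁ i q z y) (hy' : h40_Conn₁ i q z y') : IsCoboundary₂ (y - y') := by
  obtain ⟨b, hb, hby⟩ := hy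
  obtain ⟨b', hb', hby'⟩ := hy'
  have hker : ∀ g : G, ∃ a : A, i a = b g - b' g := by
    intro g
    have h0 : q (b g - b' g) = 0 := by rw [map_sub, hb, hb', sub_self]
    obtain ⟨a, ha⟩ := (h.exact _).mp h0
    exact ⟨a, ha⟩
  choose a ha using hker
  refine ⟨a, fun g k => ?_⟩
  apply h.inj
  rw [map_add, map_sub, h.i_smul, ha, ha, ha, Pi.sub_apply, map_sub, hby, hby', smul_sub]
  abel

theorem h9_conn₁_add (z z' : G → C) (y y' : G × G → A)
    (hy : h40_Conn₁ i q z y) (hy' : h40_Conn₁ i q z' y') : h40_Conn₁ i q (z + z') (y + y') := by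
  obtain ⟨b, hb, hby⟩ := hy
  obtain ⟨b', hb', hby'⟩ := hy'
  refine ⟨b + b', fun g => ?_, fun g k => ?_⟩
  · rw [Pi.add_apply, map_add, hb, hb', Pi.add_apply]
  · rw [Pi.add_apply, map_add, hby, hby', Pi.add_apply, Pi.add_apply, Pi.add_apply, smul_add]
    abel

/-- A cocycle lift of `z` exhibits `0` as a connecting image of `z`. -/
theorem h9_conn₁_zero_of_lift (z : G → C) (b : G → B) (hb : IsCocycle₁ b)
    (hqb : ∀ g, q (b g) = z g) : h40_Conn₁ i q z (0 : G × G → A) := by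
  refine ⟨b, hqb, fun g k => ?_⟩
  rw [Pi.zero_apply, map_zero, hb g k]
  abel

theorem h9_conn₁_cob_iff (h : h40_ShortExact G i q) (z : G → C) (y : G × G → A)
    (hy : h40_Conn₁ i q z y) :
    IsCoboundary₂ y ↔ ∃ b : G → B, IsCocycle₁ b ∧ ∀ g, q (b g) = z g := by
  constructor
  · rintro ⟨a, ha⟩
    obtain ⟨b, hb, hby⟩ := hy
    refine ⟨fun g => b g - i (a g), fun g k => ?_, fun g => ?_⟩
    · have h1 := hby g k
      rw [← ha g k, map_add, map_sub, h.i_smul] at h1
      show b (g * k) - i (a (g * k)) = g • (b k - i (a k)) + (b g - i (a g))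
      rw [smul_sub]
      have h2 : b (g * k) - i (a (g * k))
          = g • b k - g • i (a k) + (b g - i (a g))
            + (g • i (a k) - i (a (g * k)) + i (a g) - (g • b k - b (g * k) + b g)) := by
        abel
      rw [h2, h1, sub_self, add_zero]
    · have h0 : q (i (a g)) = 0 := (h.exact _).mpr ⟨a g, rfl⟩
      rw [map_sub, hb, h0, sub_zero]
  · rintro ⟨b, hb, hqb⟩
    have h1 := h9_conn₁_unique i q h z y 0 hy (h9_conn₁_zero_of_lift i q z b hb hqb)
    rwa [sub_zero] at h1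

theorem h9_conn₁_of_cob (h : h40_ShortExact G i q) (z : G → C) (hz : IsCoboundary₁ z)
    (y : G × G → A) (hy : h40_Conn₁ i q z y) : IsCoboundary₂ y := by
  obtain ⟨c, hc⟩ := hz
  obtain ⟨b₀, hb₀⟩ := h.surj c
  refine (h9_conn₁_cob_iff i q h z y hy).mpr ⟨h40_d₀ b₀, h40_isCocycle₁_d₀ b₀, fun g => ?_⟩
  rw [h40_d₀_apply, map_sub, h.q_smul, hb₀, hc]

theorem h9_conn₁_surj (h : h40_ShortExact G i q) (y : G × G → A) (hy : IsCocycle₂ y)
    (hiy : IsCoboundary₂ (fun x => i (y x))) :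
    ∃ z : G → C, IsCocycle₁ z ∧ h40_Conn₁ i q z y := by
  obtain ⟨b, hb0⟩ := hiy
  have hb : ∀ g k : G, g • b k - b (g * k) + b g = i (y (g, k)) := hb0
  refine ⟨fun g => q (b g), fun g k => ?_, b, fun g => rfl, fun g k => (hb g k).symm⟩
  have h0 : q (i (y (g, k))) = 0 := (h.exact _).mpr ⟨y (g, k), rfl⟩
  rw [← hb g k, map_add, map_sub, h.q_smul] at h0
  show q (b (g * k)) = g • q (b k) + q (b g)
  have h1 : q (b (g * k)) = g • q (b k) + q (b g) - (g • q (b k) - q (b (g * k)) + q (b g)) := by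
    abel
  rw [h1, h0, sub_zero]

theorem h9_les₁_mid (h : h40_ShortExact G i q) (b : G → B) (hb : IsCocycle₁ b)
    (hqb : IsCoboundary₁ (fun g => q (b g))) :
    ∃ a : G → A, IsCocycle₁ a ∧ IsCoboundary₁ (b - fun g => i (a g)) := by
  obtain ⟨c, hc⟩ := hqb
  obtain ⟨b₀, hb₀⟩ := h.surj c
  have hker : ∀ g : G, ∃ a : A, i a = b g - (g • b₀ - b₀) := by
    intro g
    have h0 : q (b g - (g • b₀ - b₀)) = 0 := by
      rw [map_sub, map_sub, h.q_smul, hb₀, hc, sub_self]
    obtain ⟨a, ha⟩ := (h.exact _).mp h0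
    exact ⟨a, ha⟩
  choose a ha using hker
  refine ⟨a, fun g k => ?_, b₀, fun g => ?_⟩
  · apply h.inj
    rw [map_add, h.i_smul, ha, ha, ha, hb g k, smul_sub, smul_sub, mul_smul]
    abel
  · rw [Pi.sub_apply, ha]
    abel

theorem h9_les_V1 (h : h40_ShortExact G i q)
    (hB : ∀ f : G × G → B, IsCocycle₂ f → IsCoboundary₂ f)
    (hC : ∀ f : G → C, IsCocycle₁ f → IsCoboundary₁ f) :
    ∀ f : G × G → A, IsCocycle₂ f → IsCoboundary₂ f := by
  intro y hy
  have hiy : IsCocycle₂ (fun x => i (y x)) := by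
    intro g k j
    show i (y (g * k, j)) + i (y (g, k)) = g • i (y (k, j)) + i (y (g, k * j))
    rw [← map_add, hy g k j, map_add, h.i_smul]
  obtain ⟨z, hz, hzy⟩ := h9_conn₁_surj i q h y hy (hB _ hiy)
  exact h9_conn₁_of_cob i q h z (hC z hz) y hzy

theorem h9_les_W1 (h : h40_ShortExact G i q)
    (hB : ∀ f : G → B, IsCocycle₁ f → IsCoboundary₁ f)
    (hA : ∀ f : G × G → A, IsCocycle₂ f → IsCoboundary₂ f) :
    ∀ f : G → C, IsCocycle₁ f → IsCoboundary₁ f := by
  intro z hz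
  obtain ⟨y, hy, hzy⟩ := h9_conn₁_exists i q h z hz
  obtain ⟨b, hb, hqb⟩ := (h9_conn₁_cob_iff i q h z y hzy).mp (hA y hy)
  obtain ⟨x, hx⟩ := hB b hb
  refine ⟨q x, fun g => ?_⟩
  rw [← hqb, ← hx, map_sub, h.q_smul]

end LES1

end Fermat.Agent.S55
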